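import Mathlib
import Fermat.Agent.S36lib.Speed
import Fermat.Agent.S33lib.Hub
import Fermat.Prelude.Def_FLTPrelim_ModularRep
import Fermat.Prelude.Def_FLTPrelim_GaloisRep

/-!
# Item 88 (S40): the hub (definitions and the final wiring; architect helper6)

`W` an integral Weierstrass curve, `p` an odd prime of good reduction, `W[p]` irreducible,
`W` residually modular of level `M' p` (`p ∤ M'`).  Interface between the blocks:

* `S40hWp W p`          : the Galois module `W(ℚ̄)[p]`;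
* `S40hEig M S a V`     : `T_ℓ = a ℓ` on `V ⊂ J₀(M)` for the primes `ℓ ∉ S`;
* `S40hNew W p M' S V`  : **the NEW case**: `V ⊂ J₀(M' p)[p]` is a Galois copy of `W[p]`, an
  eigenspace with the eigenvalues `a_ℓ(W)`, and the eigensystem does not occur in `J₀(M')[p]`;
* `S40hDich W p M'`     : the dictionary: residually modular of level `M' p` ⇒ residually modular
  of level `M'` (OLD case) or the NEW case;
* `S40hI1 p B`, `S40hPeu p B` : the inertia elements fixing `μ_p`, resp. fixing `μ_p` and all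
  `p`-th roots of the units of the fixed field of `S40hI1`;
* `S40hSS W p B`        : (W1), supersingular shape: inertia acts non-trivially and has no
  `ω`-eigenvector on `W[p]`;
* `S40hOrd W p B`       : (W1), ordinary peu ramifié shape: `S40hPeu` acts trivially on `W[p]` and
  some inertia element moving `μ_p` has a non-zero fixed point;
* `S40hGeomOmega M' p`  : (J-side, supersingular case) an inertia-stable subgroup of `J₀(M' p)[p]`
  on which the eigensystem is new has trivial inertia action or an `ω`-eigenvector;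
* `S40hGeomPeu M' p`    : (J-side, ordinary case = Mazur's principle at `p`) on a peu ramifié
  non-Eisenstein new eigenspace no inertia element moving `μ_p` has a non-zero fixed point.

`s40h_main`: S40 from `S40hDich`, (W1) = `S40hSS ∨ S40hOrd`, `S40hGeomOmega`, `S40hGeomPeu` and
the non-Eisenstein property of `W`.
-/

set_option autoImplicit false

noncomputable section

namespace Fermat.Agent.S40lib

open Fermat.Agent.GalRep ModularCurve Fermat.Agent.S31lib Fermat.Agent.S35lib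
  Fermat.Agent.S33lib WeierstrassCurve WeierstrassCurve.Affine WeierstrassCurve.Affine.Point

/-- the Galois module `W(ℚ̄)[p]` -/
abbrev S40hWp (W : WeierstrassCurve ℤ) (p : ℕ) : Type :=
  Submodule.torsionBy ℤ
    ((W.map (Int.castRingHom ℚ)).toAffine⁄(AlgebraicClosure ℚ)).Point ((p : ℕ) : ℤ)

/-- `T_ℓ = a ℓ` on `V` for all primes `ℓ ∉ S` -/
def S40hEig (M : ℕ) [NeZero M] (S : Finset ℕ) (a : ℕ → ℤ) (V : AddSubgroup (JZero M)) : Prop :=
  ∀ ℓ : Nat.Primes, (ℓ : ℕ) ∉ S → ∀ x ∈ V, heckeOperatorBar M ℓ x = a ℓ • x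

/-- the eigensystem `a` (away from `S`) does not occur in `J₀(M)[p]` -/
def S40hNotAt (M : ℕ) [NeZero M] (p : ℕ) (S : Finset ℕ) (a : ℕ → ℤ) : Prop :=
  ∀ y : JZero M, p • y = 0 →
    (∀ ℓ : Nat.Primes, (ℓ : ℕ) ∉ S → heckeOperatorBar M ℓ y = a ℓ • y) → y = 0

/-- **the NEW case**: a Galois copy `V` of `W[p]` in `J₀(M' p)[p]`, eigenspace for the
`T_ℓ`, `ℓ ∉ S`, with the eigenvalues `a_ℓ(W)`, whose eigensystem does not occur at level `M'`. -/
def S40hNew (W : WeierstrassCurve ℤ) (p M' : ℕ) [NeZero M'] [NeZero (M' * p)] (S : Finset ℕ)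
    (V : AddSubgroup (JZero (M' * p))) : Prop :=
  (∀ x ∈ V, p • x = 0) ∧
  (∃ e : S40hWp W p ≃+ V, ∀ (σ : AlgebraicClosure ℚ ≃ₐ[ℚ] AlgebraicClosure ℚ) (P : S40hWp W p),
    ((e (σ • P) : V) : JZero (M' * p)) = σ • ((e P : V) : JZero (M' * p))) ∧
  S40hEig (M' * p) S W.apOfModel V ∧
  S40hNotAt M' p S W.apOfModel

/-- the finite set of primes excluded in the congruences: the primes dividing `M' p Δ` -/
def s40hBad (W : WeierstrassCurve ℤ) (p M' : ℕ) : Set ℕ :=
  {ℓ | ℓ = p ∨ ℓ ∣ M' ∨ (ℓ : ℤ) ∣ W.Δ}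

/-- **the dictionary** (OLD / NEW dichotomy) -/
def S40hDich (W : WeierstrassCurve ℤ) (p M' : ℕ) [NeZero M'] [NeZero (M' * p)] : Prop :=
  W.IsResiduallyModularOfLevel p (M' * p) →
    W.IsResiduallyModularOfLevel p M' ∨
    ∃ (S : Finset ℕ) (V : AddSubgroup (JZero (M' * p))),
      (∀ ℓ ∈ s40hBad W p M', ℓ.Prime → ℓ ∈ S) ∧ S40hNew W p M' S V

/-- the inertia elements at `B` fixing the `p`-th roots of unity -/
def S40hI1 (p : ℕ) (B : ValuationSubring (AlgebraicClosure ℚ)) :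
    Set (AlgebraicClosure ℚ ≃ₐ[ℚ] AlgebraicClosure ℚ) :=
  {τ | τ ∈ B.inertiaSubgroupIn ℚ ∧ ∀ ζ : AlgebraicClosure ℚ, ζ ^ p = 1 → τ ζ = ζ}

/-- the inertia elements at `B` fixing `μ_p` and every `p`-th root of every unit of `B` which is
fixed by `S40hI1 p B` (the units of `ℚ_p^{nr}(ζ_p)`) -/
def S40hPeu (p : ℕ) (B : ValuationSubring (AlgebraicClosure ℚ)) :
    Set (AlgebraicClosure ℚ ≃ₐ[ℚ] AlgebraicClosure ℚ) :=
  {τ | τ ∈ S40hI1 p B ∧ ∀ r : AlgebraicClosure ℚ, r ^ p ∈ B → (r ^ p)⁻¹ ∈ B →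
    (∀ σ ∈ S40hI1 p B, σ (r ^ p) = r ^ p) → τ r = r}

/-- (W1), **supersingular shape**: inertia acts non-trivially on `W[p]` and has no non-zero
`ω`-eigenvector. -/
def S40hSS (W : WeierstrassCurve ℤ) (p : ℕ) [Fact p.Prime]
    (B : ValuationSubring (AlgebraicClosure ℚ)) : Prop :=
  (∃ τ ∈ B.inertiaSubgroupIn ℚ, ∃ P : S40hWp W p, τ • P ≠ P) ∧
  ∀ P : S40hWp W p, (∀ τ ∈ B.inertiaSubgroupIn ℚ,
    τ • P = ((cycChi p 1 τ : ZMod (p ^ 1)).val) • P) → P = 0

/-- (W1), **ordinary peu ramifié shape**: `S40hPeu` acts trivially on `W[p]`, and some inertia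
element moving `μ_p` fixes a non-zero point of `W[p]`. -/
def S40hOrd (W : WeierstrassCurve ℤ) (p : ℕ)
    (B : ValuationSubring (AlgebraicClosure ℚ)) : Prop :=
  (∀ τ ∈ S40hPeu p B, ∀ P : S40hWp W p, τ • P = P) ∧
  ∃ τ₀ ∈ B.inertiaSubgroupIn ℚ, S33hMoves p τ₀ ∧ ∃ P : S40hWp W p, P ≠ 0 ∧ τ₀ • P = P

/-- **(J-side, supersingular case)**: an inertia-stable subgroup `V` of `J₀(M' p)[p]` which is an
eigenspace whose eigensystem does not occur at level `M'` has trivial inertia action or contains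
a non-zero `ω`-eigenvector of the inertia group. -/
def S40hGeomOmega (M' p : ℕ) [NeZero M'] [NeZero (M' * p)] [Fact p.Prime] : Prop :=
  ∀ B : ValuationSubring (AlgebraicClosure ℚ), B.LiesOverPrime p →
    ∀ (S : Finset ℕ) (a : ℕ → ℤ) (V : AddSubgroup (JZero (M' * p))),
      (∀ x ∈ V, p • x = 0) → (∀ τ ∈ B.inertiaSubgroupIn ℚ, ∀ x ∈ V, τ • x ∈ V) →
      S40hEig (M' * p) S a V → S40hNotAt M' p S a →
      (∀ τ ∈ B.inertiaSubgroupIn ℚ, ∀ x ∈ V, τ • x = x) ∨
      ∃ x ∈ V, x ≠ 0 ∧ ∀ τ ∈ B.inertiaSubgroupIn ℚ,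
        τ • x = ((cycChi p 1 τ : ZMod (p ^ 1)).val) • x

/-- **(J-side, ordinary case: Mazur's principle at `p`)**: `V ⊂ J₀(M' p)[p]` inertia-stable,
eigenspace with a non-Eisenstein eigensystem which does not occur at level `M'`, peu ramifié
(`S40hPeu` acts trivially): an inertia element moving `μ_p` has no non-zero fixed point in `V`. -/
def S40hGeomPeu (M' p : ℕ) [NeZero M'] [NeZero (M' * p)] : Prop :=
  ∀ B : ValuationSubring (AlgebraicClosure ℚ), B.LiesOverPrime p →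
    ∀ (S : Finset ℕ) (a : ℕ → ℤ) (V : AddSubgroup (JZero (M' * p))),
      (∀ x ∈ V, p • x = 0) → (∀ τ ∈ B.inertiaSubgroupIn ℚ, ∀ x ∈ V, τ • x ∈ V) →
      S40hEig (M' * p) S a V → S40hNotAt M' p S a →
      (∃ ℓ : Nat.Primes, (ℓ : ℕ) ∉ S ∧ ¬ (p : ℤ) ∣ a ℓ - (1 + (ℓ : ℕ))) →
      (∀ τ ∈ S40hPeu p B, ∀ x ∈ V, τ • x = x) →
      ∀ τ₀ ∈ B.inertiaSubgroupIn ℚ, S33hMoves p τ₀ → ∀ x ∈ V, τ₀ • x = x → x = 0

end Fermat.Agent.S40lib

end
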