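import Mathlib
import Fermat.Agent.S36lib.Speed
import Fermat.Agent.S40lib.Hub

/-!
# Item 88 (S40): the final wiring, STABILISER form (architect helper6)

The `W`-side and the `J`-side of the NEW case only see the inertia-set `V ≅ W[p]` through the
stabilisers of its points.  So the interface is parametrised by an ARBITRARY property `PP` of
a set of Galois elements (the stabiliser of a point), to be chosen by the providers:

* `S40hStab x`            : the stabiliser `{τ | τ • x = x}` of a point of a Galois set;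
* `S40hW1 W p B PP`        : (W1): either no point `P ≠ 0` of `W[p]` is fixed by `S40hI1`
  (supersingular shape), or some `P ≠ 0` fixed by an inertia element moving `μ_p` has a
  stabiliser with the property `PP` (ordinary shape; `PP` = "peu ramifié");
* `S40hGeom M' p PP`       : (J-side): in an inertia-stable eigenspace `V ⊂ J₀(M' p)[p]` whose
  eigensystem (away from `S ⊇ {ℓ ∣ M' p}`) is non-Eisenstein and does not occur at level `M'`: some `x ≠ 0` is fixed by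
  `S40hI1`, and no `x ≠ 0` fixed by an inertia element moving `μ_p` has a stabiliser with the
  property `PP`;
* `s40h_main2`            : S40 from `S40hDich`, `S40hW1`, the non-Eisenstein property and
  `S40hGeom`, for any `PP`.

Suggested `PP` (ramification-depth form, `S40hPeuB`): the stabiliser contains `S40hI1` (split
case), or there are an integral `t` fixed by the stabiliser inside `S40hI1` and `σ ∈ S40hI1`
with `v(ζ - 1) ≤ v(σ t - t)`.
-/

set_option autoImplicit false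
set_option linter.style.haveILetI false

noncomputable section

namespace Fermat.Agent.S40lib

open Fermat.Agent.GalRep ModularCurve Fermat.Agent.S31lib Fermat.Agent.S35lib
  Fermat.Agent.S33lib WeierstrassCurve WeierstrassCurve.Affine WeierstrassCurve.Affine.Point

/-- the stabiliser of a point -/
def S40hStab {X : Type*} [SMul (AlgebraicClosure ℚ ≃ₐ[ℚ] AlgebraicClosure ℚ) X] (x : X) :
    Set (AlgebraicClosure ℚ ≃ₐ[ℚ] AlgebraicClosure ℚ) :=
  {τ | τ • x = x}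

/-- the suggested property `PP` (ramification-depth form of "peu ramifié"): the stabiliser
contains `S40hI1`, or some integral `t` fixed by the stabiliser inside `S40hI1` is moved by
some `σ ∈ S40hI1` by at least `ζ - 1`. -/
def S40hPeuB (p : ℕ) (B : ValuationSubring (AlgebraicClosure ℚ))
    (St : Set (AlgebraicClosure ℚ ≃ₐ[ℚ] AlgebraicClosure ℚ)) : Prop :=
  S40hI1 p B ⊆ St ∨
  ∃ t : AlgebraicClosure ℚ, t ∈ B ∧ (∀ τ ∈ S40hI1 p B, τ ∈ St → τ t = t) ∧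
    ∃ σ ∈ S40hI1 p B, ∃ ζ : AlgebraicClosure ℚ, IsPrimitiveRoot ζ p ∧
      B.valuation (ζ - 1) ≤ B.valuation (σ t - t)

/-- **(W1)**, stabiliser form. -/
def S40hW1 (W : WeierstrassCurve ℤ) (p : ℕ) (B : ValuationSubring (AlgebraicClosure ℚ))
    (PP : Set (AlgebraicClosure ℚ ≃ₐ[ℚ] AlgebraicClosure ℚ) → Prop) : Prop :=
  (∀ P : S40hWp W p, P ≠ 0 → ∃ τ ∈ S40hI1 p B, τ • P ≠ P) ∨
  ∃ P : S40hWp W p, P ≠ 0 ∧ (∃ τ₀ ∈ B.inertiaSubgroupIn ℚ, S33hMoves p τ₀ ∧ τ₀ • P = P) ∧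
    PP (S40hStab P)

/-- **(J-side)**, stabiliser form. -/
def S40hGeom (M' p : ℕ) [NeZero M'] [NeZero (M' * p)]
    (B : ValuationSubring (AlgebraicClosure ℚ))
    (PP : Set (AlgebraicClosure ℚ ≃ₐ[ℚ] AlgebraicClosure ℚ) → Prop) : Prop :=
  ∀ (S : Finset ℕ) (a : ℕ → ℤ) (V : AddSubgroup (JZero (M' * p))),
    (∀ ℓ : ℕ, ℓ.Prime → ℓ ∣ M' * p → ℓ ∈ S) →
    V ≠ ⊥ → (∀ x ∈ V, p • x = 0) →
    (∀ (σ : AlgebraicClosure ℚ ≃ₐ[ℚ] AlgebraicClosure ℚ), ∀ x ∈ V, σ • x ∈ V) →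
    S40hEig (M' * p) S a V → S40hNotAt M' p S a →
    (∃ ℓ : Nat.Primes, (ℓ : ℕ) ∉ S ∧ ¬ (p : ℤ) ∣ a ℓ - (1 + (ℓ : ℕ))) →
    (∃ x ∈ V, x ≠ 0 ∧ ∀ τ ∈ S40hI1 p B, τ • x = x) ∧
    ∀ x ∈ V, x ≠ 0 → (∃ τ₀ ∈ B.inertiaSubgroupIn ℚ, S33hMoves p τ₀ ∧ τ₀ • x = x) →
      ¬ PP (S40hStab x)

/-- the NEW case is contradictory (stabiliser form) -/
theorem s40h_new_false2 (W : WeierstrassCurve ℤ) (p M' : ℕ) [NeZero M'] [NeZero (M' * p)]
    (B : ValuationSubring (AlgebraicClosure ℚ))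
    (PP : Set (AlgebraicClosure ℚ ≃ₐ[ℚ] AlgebraicClosure ℚ) → Prop)
    (hG : S40hGeom M' p B PP) (hW1 : S40hW1 W p B PP)
    (hnt : ∃ P : S40hWp W p, P ≠ 0)
    (S : Finset ℕ) (V : AddSubgroup (JZero (M' * p)))
    (hS : ∀ ℓ : ℕ, ℓ.Prime → ℓ ∣ M' * p → ℓ ∈ S)
    (hnE : ∃ ℓ : Nat.Primes, (ℓ : ℕ) ∉ S ∧ ¬ (p : ℤ) ∣ W.apOfModel ℓ - (1 + (ℓ : ℕ)))
    (hNew : S40hNew W p M' S V) : False := by
  obtain ⟨hVp, ⟨e, he⟩, hEig, hNot⟩ := hNew
  have hstab : ∀ (σ : AlgebraicClosure ℚ ≃ₐ[ℚ] AlgebraicClosure ℚ), ∀ x ∈ V, σ • x ∈ V := by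
    intro σ x hx
    have h1 := he σ (e.symm ⟨x, hx⟩)
    rw [AddEquiv.apply_symm_apply] at h1
    rw [← h1]
    exact (e (σ • e.symm ⟨x, hx⟩)).2
  have hfix : ∀ (σ : AlgebraicClosure ℚ ≃ₐ[ℚ] AlgebraicClosure ℚ) (P : S40hWp W p),
      σ • P = P ↔ σ • ((e P : V) : JZero (M' * p)) = ((e P : V) : JZero (M' * p)) := by
    intro σ P
    rw [← he σ P]
    constructor
    · intro h
      rw [h]
    · intro h
      exact e.injective (Subtype.ext h)
  have hne : ∀ P : S40hWp W p, P ≠ 0 → ((e P : V) : JZero (M' * p)) ≠ 0 := by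
    intro P hP h0
    apply hP
    apply e.injective
    apply Subtype.ext
    rw [h0, _root_.map_zero]
    rfl
  have hSt : ∀ P : S40hWp W p, S40hStab ((e P : V) : JZero (M' * p)) = S40hStab P := by
    intro P
    ext σ
    exact (hfix σ P).symm
  have hVne : V ≠ ⊥ := by
    obtain ⟨P, hP⟩ := hnt
    intro hV
    have h1 : ((e P : V) : JZero (M' * p)) ∈ (⊥ : AddSubgroup (JZero (M' * p))) := hV ▸ (e P).2
    exact hne P hP (AddSubgroup.mem_bot.mp h1)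
  obtain ⟨⟨x, hx, hx0, hxI⟩, hno⟩ := hG S W.apOfModel V hS hVne hVp hstab hEig hNot hnE
  rcases hW1 with hSS | ⟨P, hP0, ⟨τ₀, hτ₀, hmv, hfixP⟩, hPP⟩
  · -- supersingular shape
    have hP0 : e.symm ⟨x, hx⟩ ≠ 0 := by
      intro h0
      apply hx0
      have h2 := congrArg (fun z => ((e z : V) : JZero (M' * p))) h0
      simp only [AddEquiv.apply_symm_apply] at h2
      rw [h2, _root_.map_zero]
      rfl
    obtain ⟨τ, hτ, hmove⟩ := hSS _ hP0
    apply hmove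
    rw [hfix τ, AddEquiv.apply_symm_apply]
    exact hxI τ hτ
  · -- ordinary shape
    refine hno _ (e P).2 (hne P hP0) ⟨τ₀, hτ₀, hmv, (hfix τ₀ P).mp hfixP⟩ ?_
    rw [hSt P]
    exact hPP

/-- **S40** from the blocks, stabiliser form, for any property `PP`. -/
theorem s40h_main2 (W : WeierstrassCurve ℤ) {p : ℕ} (hp : p.Prime)
    {M : ℕ} (hM : 0 < M) (hpM : p ∣ M) (hp2M : ¬ p ^ 2 ∣ M)
    (hmod : W.IsResiduallyModularOfLevel p M)
    (hDich : ∀ (M' : ℕ) [NeZero M'] [NeZero (M' * p)], ¬ p ∣ M' → S40hDich W p M')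
    (hnt : ∃ P : S40hWp W p, P ≠ 0)
    (hnE : ∀ S : Finset ℕ, ∃ ℓ : Nat.Primes, (ℓ : ℕ) ∉ S ∧
      ¬ (p : ℤ) ∣ W.apOfModel ℓ - (1 + (ℓ : ℕ)))
    (B : ValuationSubring (AlgebraicClosure ℚ))
    (PP : Set (AlgebraicClosure ℚ ≃ₐ[ℚ] AlgebraicClosure ℚ) → Prop)
    (hW1 : S40hW1 W p B PP)
    (hG : ∀ (M' : ℕ) [NeZero M'] [NeZero (M' * p)], ¬ p ∣ M' → S40hGeom M' p B PP) :
    W.IsResiduallyModularOfLevel p (M / p) := by
  obtain ⟨M', rfl⟩ := hpM
  have hM'0 : M' ≠ 0 := by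
    rintro rfl
    simp at hM
  have hpM' : ¬ p ∣ M' := by
    rintro ⟨c, rfl⟩
    exact hp2M ⟨c, by ring⟩
  haveI : NeZero M' := ⟨hM'0⟩
  haveI : NeZero (M' * p) := ⟨Nat.mul_ne_zero hM'0 hp.ne_zero⟩
  have hdiv : p * M' / p = M' := Nat.mul_div_cancel_left M' hp.pos
  rw [hdiv]
  rw [mul_comm] at hmod
  rcases hDich M' hpM' hmod with h | ⟨S, V, hS, hNew⟩
  · exact h
  · have hS' : ∀ ℓ : ℕ, ℓ.Prime → ℓ ∣ M' * p → ℓ ∈ S := by
      intro ℓ hℓ hdvd
      refine hS ℓ ?_ hℓ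
      rcases (Nat.Prime.dvd_mul hℓ).mp hdvd with h1 | h1
      · exact Or.inr (Or.inl h1)
      · exact Or.inl ((Nat.prime_dvd_prime_iff_eq hℓ hp).mp h1)
    exact (s40h_new_false2 W p M' B PP (hG M' hpM') hW1 hnt S V hS' (hnE S) hNew).elim

end Fermat.Agent.S40lib

end
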