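import Mathlib
import Fermat.Agent.S36lib.Speed
import Fermat.Agent.S40lib.Final2

/-!
# Item 88 (S40): the final wiring, STABILISER form with `#V = p²` (architect helper6)

Same as `Final2`, with the J-side block `S40hGeom3` weakened by the extra hypothesis
`Nat.card V = p ^ 2` (check of helper27: without it the second half can fail for big
eigenspaces).  The cardinality comes from `V ≃ W[p]` and `#W[p] = p²`
(hypothesis `hcardW` of `s40h_main3`).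

* `S40hGeom3 M' p B PP`  : the J-side block, for the `V` with `p²` elements only;
* `s40h_geom3_of_geom`   : `S40hGeom → S40hGeom3`;
* `s40h_new_false3`, `s40h_main3` : the wiring.
-/

set_option autoImplicit false
set_option linter.style.haveILetI false

noncomputable section

namespace Fermat.Agent.S40lib

open Fermat.Agent.GalRep ModularCurve Fermat.Agent.S31lib Fermat.Agent.S35lib
  Fermat.Agent.S33lib WeierstrassCurve WeierstrassCurve.Affine WeierstrassCurve.Affine.Point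

/-- **(J-side)**, stabiliser form, for the eigenspaces with `p²` elements. -/
def S40hGeom3 (M' p : ℕ) [NeZero M'] [NeZero (M' * p)]
    (B : ValuationSubring (AlgebraicClosure ℚ))
    (PP : Set (AlgebraicClosure ℚ ≃ₐ[ℚ] AlgebraicClosure ℚ) → Prop) : Prop :=
  ∀ (S : Finset ℕ) (a : ℕ → ℤ) (V : AddSubgroup (JZero (M' * p))),
    (∀ ℓ : ℕ, ℓ.Prime → ℓ ∣ M' * p → ℓ ∈ S) →
    Nat.card V = p ^ 2 → (∀ x ∈ V, p • x = 0) →
    (∀ (σ : AlgebraicClosure ℚ ≃ₐ[ℚ] AlgebraicClosure ℚ), ∀ x ∈ V, σ • x ∈ V) →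
    S40hEig (M' * p) S a V → S40hNotAt M' p S a →
    (∃ ℓ : Nat.Primes, (ℓ : ℕ) ∉ S ∧ ¬ (p : ℤ) ∣ a ℓ - (1 + (ℓ : ℕ))) →
    (∃ x ∈ V, x ≠ 0 ∧ ∀ τ ∈ S40hI1 p B, τ • x = x) ∧
    ∀ x ∈ V, x ≠ 0 → (∃ τ₀ ∈ B.inertiaSubgroupIn ℚ, S33hMoves p τ₀ ∧ τ₀ • x = x) →
      ¬ PP (S40hStab x)

/-- the block of `Final2` implies the block of `Final3` -/
theorem s40h_geom3_of_geom {M' p : ℕ} [NeZero M'] [NeZero (M' * p)] (hp : p.Prime)
    {B : ValuationSubring (AlgebraicClosure ℚ)}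
    {PP : Set (AlgebraicClosure ℚ ≃ₐ[ℚ] AlgebraicClosure ℚ) → Prop}
    (h : S40hGeom M' p B PP) : S40hGeom3 M' p B PP := by
  intro S a V hS hcard hVp hstab hEig hNot hnE
  refine h S a V hS ?_ hVp hstab hEig hNot hnE
  intro hV
  rw [hV] at hcard
  have h1 : Nat.card (⊥ : AddSubgroup (JZero (M' * p))) = 1 := AddSubgroup.card_bot
  rw [h1] at hcard
  have h2 : 1 < p ^ 2 := Nat.one_lt_pow (by norm_num) hp.one_lt
  omega

/-- the NEW case is contradictory (stabiliser form, `#V = p²`) -/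
theorem s40h_new_false3 (W : WeierstrassCurve ℤ) (p M' : ℕ) [NeZero M'] [NeZero (M' * p)]
    (B : ValuationSubring (AlgebraicClosure ℚ))
    (PP : Set (AlgebraicClosure ℚ ≃ₐ[ℚ] AlgebraicClosure ℚ) → Prop)
    (hG : S40hGeom3 M' p B PP) (hW1 : S40hW1 W p B PP)
    (hcardW : Nat.card (S40hWp W p) = p ^ 2)
    (S : Finset ℕ) (V : AddSubgroup (JZero (M' * p)))
    (hS : ∀ ℓ : ℕ, ℓ.Prime → ℓ ∣ M' * p → ℓ ∈ S)
    (hnE : ∃ ℓ : Nat.Primes, (ℓ : ℕ) ∉ S ∧ ¬ (p : ℤ) ∣ W.apOfModel ℓ - (1 + (ℓ : ℕ)))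
    (hNew : S40hNew W p M' S V) : False := by
  obtain ⟨hVp, ⟨e, he⟩, hEig, hNot⟩ := hNew
  have hstab : ∀ (σ : AlgebraicClosure ℚ ≃ₐ[ℚ] AlgebraicClosure ℚ), ∀ x ∈ V, σ • x ∈ V := by
    intro σ x hx
    have h1 := he σ (e.symm ⟨x, hx⟩)
    rw [AddEquiv.apply_symm_apply] at h1
    rw [← h1]
    exact (e (σ • e.symm ⟨x, hx⟩)).2
  have hfix : ∀ (σ : AlgebraicClosure ℚ ≃ₐ[ℚ] AlgebraicClosure ℚ) (P : S40hWp W p),
      σ • P = P ↔ σ • ((e P : V) : JZero (M' * p)) = ((e P : V) : JZero (M' * p)) := by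
    intro σ P
    rw [← he σ P]
    constructor
    · intro h
      rw [h]
    · intro h
      exact e.injective (Subtype.ext h)
  have hne : ∀ P : S40hWp W p, P ≠ 0 → ((e P : V) : JZero (M' * p)) ≠ 0 := by
    intro P hP h0
    apply hP
    apply e.injective
    apply Subtype.ext
    rw [h0, _root_.map_zero]
    rfl
  have hSt : ∀ P : S40hWp W p, S40hStab ((e P : V) : JZero (M' * p)) = S40hStab P := by
    intro P
    ext σ
    exact (hfix σ P).symm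
  have hcard : Nat.card V = p ^ 2 := by
    rw [← hcardW]
    exact (Nat.card_congr e.toEquiv).symm
  obtain ⟨⟨x, hx, hx0, hxI⟩, hno⟩ := hG S W.apOfModel V hS hcard hVp hstab hEig hNot hnE
  rcases hW1 with hSS | ⟨P, hP0, ⟨τ₀, hτ₀, hmv, hfixP⟩, hPP⟩
  · -- supersingular shape
    have hP0 : e.symm ⟨x, hx⟩ ≠ 0 := by
      intro h0
      apply hx0
      have h2 := congrArg (fun z => ((e z : V) : JZero (M' * p))) h0
      simp only [AddEquiv.apply_symm_apply] at h2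
      rw [h2, _root_.map_zero]
      rfl
    obtain ⟨τ, hτ, hmove⟩ := hSS _ hP0
    apply hmove
    rw [hfix τ, AddEquiv.apply_symm_apply]
    exact hxI τ hτ
  · -- ordinary shape
    refine hno _ (e P).2 (hne P hP0) ⟨τ₀, hτ₀, hmv, (hfix τ₀ P).mp hfixP⟩ ?_
    rw [hSt P]
    exact hPP

/-- **S40** from the blocks, stabiliser form with `#V = p²`, for any property `PP`. -/
theorem s40h_main3 (W : WeierstrassCurve ℤ) {p : ℕ} (hp : p.Prime)
    {M : ℕ} (hM : 0 < M) (hpM : p ∣ M) (hp2M : ¬ p ^ 2 ∣ M)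
    (hmod : W.IsResiduallyModularOfLevel p M)
    (hDich : ∀ (M' : ℕ) [NeZero M'] [NeZero (M' * p)], ¬ p ∣ M' → S40hDich W p M')
    (hcardW : Nat.card (S40hWp W p) = p ^ 2)
    (hnE : ∀ S : Finset ℕ, ∃ ℓ : Nat.Primes, (ℓ : ℕ) ∉ S ∧
      ¬ (p : ℤ) ∣ W.apOfModel ℓ - (1 + (ℓ : ℕ)))
    (B : ValuationSubring (AlgebraicClosure ℚ))
    (PP : Set (AlgebraicClosure ℚ ≃ₐ[ℚ] AlgebraicClosure ℚ) → Prop)
    (hW1 : S40hW1 W p B PP)
    (hG : ∀ (M' : ℕ) [NeZero M'] [NeZero (M' * p)], ¬ p ∣ M' → S40hGeom3 M' p B PP) :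
    W.IsResiduallyModularOfLevel p (M / p) := by
  obtain ⟨M', rfl⟩ := hpM
  have hM'0 : M' ≠ 0 := by
    rintro rfl
    simp at hM
  have hpM' : ¬ p ∣ M' := by
    rintro ⟨c, rfl⟩
    exact hp2M ⟨c, by ring⟩
  haveI : NeZero M' := ⟨hM'0⟩
  haveI : NeZero (M' * p) := ⟨Nat.mul_ne_zero hM'0 hp.ne_zero⟩
  have hdiv : p * M' / p = M' := Nat.mul_div_cancel_left M' hp.pos
  rw [hdiv]
  rw [mul_comm] at hmod
  rcases hDich M' hpM' hmod with h | ⟨S, V, hS, hNew⟩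
  · exact h
  · have hS' : ∀ ℓ : ℕ, ℓ.Prime → ℓ ∣ M' * p → ℓ ∈ S := by
      intro ℓ hℓ hdvd
      refine hS ℓ ?_ hℓ
      rcases (Nat.Prime.dvd_mul hℓ).mp hdvd with h1 | h1
      · exact Or.inr (Or.inl h1)
      · exact Or.inl ((Nat.prime_dvd_prime_iff_eq hℓ hp).mp h1)
    exact (s40h_new_false3 W p M' B PP (hG M' hpM') hW1 hcardW S V hS' (hnE S) hNew).elim

end Fermat.Agent.S40lib

end
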