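import Mathlib
import Fermat.Agent.S36lib.Speed
import Fermat.Agent.S35lib.DegJBeta
import Fermat.Agent.S40lib.Final2

/-!
# Item 88 (S40): the block (G-ω) of the J-side (helper6)

* `s40h_new_of_notAt` : an eigenspace `V ⊂ J₀(M' p)[p]` whose eigensystem (away from
  `S ∋ p`) does not occur in `J₀(M')[p]` is `p`-new: `α_* = β_* = 0` on `V`;
* `S40hI1Fix M' p B`  : (TOR_p+, `I₁`-form; provider = the TOR_p machinery, `rg2n_tau_pic0`
  with `e = 1`): the `p`-new classes of order `p` in `s33hKI` are fixed by the inertia elements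
  which fix `μ_p`;
* `s40h_geom_omega`   : the first half of `S40hGeom`: `V` contains `x ≠ 0` fixed by `S40hI1`.
-/

set_option autoImplicit false
set_option linter.style.haveILetI false

noncomputable section

namespace Fermat.Agent.S40lib

open Fermat.Agent.GalRep ModularCurve Fermat.Agent.S31lib Fermat.Agent.S35lib
  Fermat.Agent.S33lib

/-- **(TOR_p+), `I₁`-form**: the `p`-new classes of order `p` in `s33hKI` are fixed by the
inertia elements which fix `μ_p`. -/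
def S40hI1Fix (M' p : ℕ) [NeZero M'] [NeZero p] [NeZero (M' * p)]
    (B : ValuationSubring (AlgebraicClosure ℚ)) : Prop :=
  ∀ x : JZero (M' * p), p • x = 0 → x ∈ s33hKI (M' * p) p B →
    degJAlpha M' p x = 0 → degJBeta M' p x = 0 → ∀ τ ∈ S40hI1 p B, τ • x = x

section

variable (M' p : ℕ) [NeZero M'] [NeZero p] [NeZero (M' * p)]

/-- an eigenspace whose eigensystem does not occur at level `M'` is `p`-new -/
theorem s40h_new_of_notAt (hp : p.Prime) (hpM : ¬ p ∣ M') (S : Finset ℕ) (a : ℕ → ℤ)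
    (V : AddSubgroup (JZero (M' * p)))
    (hS : ∀ ℓ : ℕ, ℓ.Prime → ℓ ∣ M' * p → ℓ ∈ S)
    (hVp : ∀ x ∈ V, p • x = 0) (hEig : S40hEig (M' * p) S a V) (hNot : S40hNotAt M' p S a)
    (x : JZero (M' * p)) (hx : x ∈ V) :
    degJAlpha M' p x = 0 ∧ degJBeta M' p x = 0 := by
  have hpS : p ∈ S := hS p hp (dvd_mul_left p M')
  have hne : ∀ ℓ : Nat.Primes, (ℓ : ℕ) ∉ S → (ℓ : ℕ) ≠ p := by
    intro ℓ hℓ h
    exact hℓ (h ▸ hpS)
  constructor
  · apply hNot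
    · rw [← map_nsmul, hVp x hx, map_zero]
    · intro ℓ hℓ
      rw [← degJAlpha_heckeOperatorBar M' hp ℓ (hne ℓ hℓ) x, hEig ℓ hℓ x hx, map_zsmul]
  · apply hNot
    · rw [← map_nsmul, hVp x hx, map_zero]
    · intro ℓ hℓ
      rw [← degJBeta_heckeOperatorBar M' hp hpM ℓ (hne ℓ hℓ) x, hEig ℓ hℓ x hx, map_zsmul]

/-- **(G-ω)**: the first half of `S40hGeom`. -/
theorem s40h_geom_omega (hp : p.Prime) (hpM : ¬ p ∣ M')
    (B : ValuationSubring (AlgebraicClosure ℚ)) (hI1 : S40hI1Fix M' p B)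
    (S : Finset ℕ) (a : ℕ → ℤ) (V : AddSubgroup (JZero (M' * p)))
    (hS : ∀ ℓ : ℕ, ℓ.Prime → ℓ ∣ M' * p → ℓ ∈ S)
    (hV : V ≠ ⊥) (hVp : ∀ x ∈ V, p • x = 0)
    (hstab : ∀ (σ : AlgebraicClosure ℚ ≃ₐ[ℚ] AlgebraicClosure ℚ), ∀ x ∈ V, σ • x ∈ V)
    (hEig : S40hEig (M' * p) S a V) (hNot : S40hNotAt M' p S a) :
    ∃ x ∈ V, x ≠ 0 ∧ ∀ τ ∈ S40hI1 p B, τ • x = x := by
  by_cases h : ∀ τ ∈ B.inertiaSubgroupIn ℚ, ∀ y ∈ V, τ • y = y
  · obtain ⟨⟨x, hx⟩, hx0⟩ := (AddSubgroup.ne_bot_iff_exists_ne_zero.mp hV)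
    refine ⟨x, hx, fun h0 => hx0 (Subtype.ext h0), fun τ hτ => h τ hτ.1 x hx⟩
  · obtain ⟨τ, hτ, y, hy, hmove⟩ : ∃ τ ∈ B.inertiaSubgroupIn ℚ, ∃ y ∈ V, τ • y ≠ y := by
      by_contra hcon
      apply h
      intro τ hτ y hy
      by_contra hne
      exact hcon ⟨τ, hτ, y, hy, hne⟩
    have hxV : τ • y - y ∈ V := V.sub_mem (hstab τ y hy) hy
    have hx0 : τ • y - y ≠ 0 := sub_ne_zero.mpr hmove
    have hKI : τ • y - y ∈ s33hKI (M' * p) p B :=
      AddSubgroup.subset_closure ⟨τ, hτ, y, ⟨1, by rw [pow_one]; exact hVp y hy⟩, rfl⟩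
    obtain ⟨hα, hβ⟩ := s40h_new_of_notAt M' p hp hpM S a V hS hVp hEig hNot _ hxV
    exact ⟨_, hxV, hx0, fun σ hσ => hI1 _ (hVp _ hxV) hKI hα hβ σ hσ⟩

end

end Fermat.Agent.S40lib

end
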