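import Mathlib
import Fermat.Agent.S36lib.Speed
import Fermat.Agent.S33lib.TorConc
import Fermat.Agent.S33lib.RayCan
import Fermat.Agent.S33lib.RayConc
import Fermat.Agent.S40lib.GeomOmega
import Fermat.Agent.S36lib.FixedF0

/-!
# Item 88 (S40), the TAME front of the block (A-J) (helper23).  Complete proofs.

`V ⊂ J₀(M' p)[p]` a Galois-stable eigenspace whose eigensystem does not occur at level `M'`
(so `V` is `p`-new), `B` a valuation ring over `p`, `I` its inertia group, `I₁ = S40hI1 p B`.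

* `tmf_comm_rootsOfUnity` : two automorphisms commute on `μ_p`;
* `tmf_commutator_mem_I1` : the commutators of `I` lie in `I₁`;
* `tmf_fixed` : a class `x ∈ V` fixed by `I₁` and by some `τ₀ ∈ I` moving `μ_p` is fixed by ALL
  of `I` (the classes `σ x - x` are `p`-new classes of `s33hKI` fixed by `τ₀`: `s33_torp`);
* `tmf_kummer` : such a class is the class of an `I`-invariant divisor `D` of degree `0` with an
  `I`-fixed Kummer function `u` (`div u = p D`): `x` is rational over the fixed field of `I`.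
-/

set_option autoImplicit false
set_option linter.style.haveILetI false
set_option linter.unusedSectionVars false
set_option linter.unusedVariables false
set_option synthInstance.maxHeartbeats 400000

noncomputable section

namespace Fermat.Agent.S40lib

open Fermat.Agent.GalRep ModularCurve Fermat.Agent.S31lib Fermat.Agent.S35lib
  Fermat.Agent.S33lib AlgebraicCurve Fermat.Agent.S24lib Fermat.Agent.S34lib Fermat.Agent.RRlib

/-- two automorphisms commute on the `p`-th roots of unity -/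
theorem tmf_comm_rootsOfUnity {p : ℕ} (hp : p.Prime)
    (σ τ : AlgebraicClosure ℚ ≃ₐ[ℚ] AlgebraicClosure ℚ) (ζ : AlgebraicClosure ℚ)
    (hζ : ζ ^ p = 1) : σ (τ ζ) = τ (σ ζ) := by
  haveI : NeZero p := ⟨hp.ne_zero⟩
  obtain ⟨ξ, hξ⟩ := HasEnoughRootsOfUnity.exists_primitiveRoot (AlgebraicClosure ℚ) p
  have hpow : ∀ ρ : AlgebraicClosure ℚ ≃ₐ[ℚ] AlgebraicClosure ℚ, ∃ a : ℕ, ρ ξ = ξ ^ a := by
    intro ρ
    have h1 : (ρ ξ) ^ p = 1 := by rw [← map_pow, hξ.pow_eq_one, map_one]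
    obtain ⟨a, -, ha⟩ := hξ.eq_pow_of_pow_eq_one h1
    exact ⟨a, ha.symm⟩
  obtain ⟨k, -, hk⟩ := hξ.eq_pow_of_pow_eq_one hζ
  obtain ⟨a, ha⟩ := hpow σ
  obtain ⟨b, hb⟩ := hpow τ
  rw [← hk]
  simp only [map_pow, ha, hb]
  ring

/-- the commutators of the inertia group fix `μ_p` -/
theorem tmf_commutator_mem_I1 {p : ℕ} (hp : p.Prime)
    (B : ValuationSubring (AlgebraicClosure ℚ))
    {σ τ : AlgebraicClosure ℚ ≃ₐ[ℚ] AlgebraicClosure ℚ}
    (hσ : σ ∈ B.inertiaSubgroupIn ℚ) (hτ : τ ∈ B.inertiaSubgroupIn ℚ) :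
    τ⁻¹ * σ⁻¹ * τ * σ ∈ S40hI1 p B := by
  refine ⟨?_, ?_⟩
  · exact (B.inertiaSubgroupIn ℚ).mul_mem ((B.inertiaSubgroupIn ℚ).mul_mem
      ((B.inertiaSubgroupIn ℚ).mul_mem ((B.inertiaSubgroupIn ℚ).inv_mem hτ)
        ((B.inertiaSubgroupIn ℚ).inv_mem hσ)) hτ) hσ
  · intro ζ hζ
    have h1 : τ (σ ζ) = σ (τ ζ) := tmf_comm_rootsOfUnity hp τ σ ζ hζ
    show (τ⁻¹ * σ⁻¹ * τ * σ) ζ = ζ
    rw [AlgEquiv.mul_apply, AlgEquiv.mul_apply, AlgEquiv.mul_apply, h1]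
    have h2 : σ⁻¹ (σ (τ ζ)) = τ ζ := by
      rw [← AlgEquiv.mul_apply, inv_mul_cancel, AlgEquiv.one_apply]
    rw [h2, ← AlgEquiv.mul_apply, inv_mul_cancel, AlgEquiv.one_apply]

section

variable (M' p : ℕ) [NeZero M'] [NeZero p] [NeZero (M' * p)]

/-- **TAME-FIX**: in a `p`-new Galois-stable eigenspace, a class fixed by `I₁` and by an
inertia element moving `μ_p` is fixed by the whole inertia group. -/
theorem tmf_fixed (hp : p.Prime) (hp2 : p ≠ 2) (hpM : ¬ p ∣ M')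
    (B : ValuationSubring (AlgebraicClosure ℚ)) (hB : B.LiesOverPrime p)
    (S : Finset ℕ) (a : ℕ → ℤ) (V : AddSubgroup (JZero (M' * p)))
    (hS : ∀ ℓ : ℕ, ℓ.Prime → ℓ ∣ M' * p → ℓ ∈ S)
    (hVp : ∀ x ∈ V, p • x = 0)
    (hstab : ∀ (σ : AlgebraicClosure ℚ ≃ₐ[ℚ] AlgebraicClosure ℚ), ∀ x ∈ V, σ • x ∈ V)
    (hEig : S40hEig (M' * p) S a V) (hNot : S40hNotAt M' p S a)
    (x : JZero (M' * p)) (hx : x ∈ V) (hI1 : ∀ τ ∈ S40hI1 p B, τ • x = x)
    (τ₀ : AlgebraicClosure ℚ ≃ₐ[ℚ] AlgebraicClosure ℚ) (hτ₀ : τ₀ ∈ B.inertiaSubgroupIn ℚ)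
    (hmv : S33hMoves p τ₀) (hfix : τ₀ • x = x) :
    ∀ σ ∈ B.inertiaSubgroupIn ℚ, σ • x = x := by
  intro σ hσ
  have hyV : σ • x - x ∈ V := V.sub_mem (hstab σ x hx) hx
  have hKI : σ • x - x ∈ s33hKI (M' * p) p B :=
    AddSubgroup.subset_closure ⟨σ, hσ, x, ⟨1, by rw [pow_one]; exact hVp x hx⟩, rfl⟩
  obtain ⟨hα, hβ⟩ := s40h_new_of_notAt M' p hp hpM S a V hS hVp hEig hNot _ hyV
  -- `τ₀ σ x = σ x`
  have hι := hI1 _ (tmf_commutator_mem_I1 hp B hσ hτ₀)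
  have h1 : τ₀ • σ • x = σ • x := by
    have h3 : σ * τ₀ * (τ₀⁻¹ * σ⁻¹ * τ₀ * σ) = τ₀ * σ := by group
    have h2 : σ • τ₀ • (τ₀⁻¹ * σ⁻¹ * τ₀ * σ) • x = τ₀ • σ • x := by
      rw [← mul_smul, ← mul_smul, h3, mul_smul]
    rw [← h2, hι, hfix]
  have hy : τ₀ • (σ • x - x) = σ • x - x := by
    rw [smul_sub, h1, hfix]
  have h0 := s33_torp p hp hp2 M' hpM B hB (σ • x - x) (hVp _ hyV) hKI hα hβ τ₀ hτ₀ hmv hy
  exact sub_eq_zero.mp h0

end

/-- **CAN over `K0`**: a class of `J₀(N)[p]` fixed by the inertia group at `B` is the class of an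
inertia-invariant divisor `D` of degree `0`, with a Kummer function `u` in `F0 = f0Field B N`
(the functions with `q`-expansion over `K0 = ℚ̄^I`), `div u = p D`. -/
theorem tmf_kummer (N : ℕ) [NeZero N] (p : ℕ) (B : ValuationSubring (AlgebraicClosure ℚ))
    (x : JZero N) (hpx : p • x = 0) (hx : ∀ σ ∈ B.inertiaSubgroupIn ℚ, σ • x = x) :
    ∃ (D : Divisor.degZero (K := Kbar) (F := FF N)) (u : FF N), Pic0.mk D = x ∧ u ≠ 0 ∧
      u ∈ Fermat.Agent.S36lib.f0Field B N ∧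
      (∀ σ ∈ B.inertiaSubgroupIn ℚ, galFF N σ • (D : Divisor Kbar (FF N)) = D) ∧
      (∀ v : Place Kbar (FF N), (p : ℤ) * (D : Divisor Kbar (FF N)) v = v.ord u) := by
  haveI : RRHyp Kbar (FF N) := mod_rrHyp N
  have hxG : ∀ g ∈ rccG N (B.inertiaSubgroupIn ℚ : Set (Kbar ≃ₐ[ℚ] Kbar)), g • x = x := by
    rw [rcc_forall_G]
    intro τ hτ
    exact hx τ hτ
  obtain ⟨D, u, hD, hDG, hu0, huG, hdiv⟩ :=
    rcn_pic0 (rccG N (B.inertiaSubgroupIn ℚ : Set (Kbar ≃ₐ[ℚ] Kbar))) (infPlaceBar N)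
      (rcc_hP N _) (rccLc N) (rcc_lc_ne_zero N) (rcc_lc_mul N) (rcc_hlcG N _) p x hxG hpx
  rw [rcc_forall_G] at hDG huG
  refine ⟨D, u, hD, hu0, ?_, fun σ hσ => hDG σ hσ, ?_⟩
  · rw [Fermat.Agent.S36lib.mem_f0Field_iff_isIFixed]
    exact fun σ hσ => huG σ hσ
  · intro v
    rw [← divOf_apply hu0 v, hdiv, Finsupp.smul_apply, nsmul_eq_mul]

/-- **the TAME front**: in a `p`-new Galois-stable eigenspace, a class fixed by `I₁` and by an
inertia element moving `μ_p` has an inertia-invariant divisor and a Kummer function in `F0`. -/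
theorem tmf_main (M' p : ℕ) [NeZero M'] [NeZero p] [NeZero (M' * p)]
    (hp : p.Prime) (hp2 : p ≠ 2) (hpM : ¬ p ∣ M')
    (B : ValuationSubring (AlgebraicClosure ℚ)) (hB : B.LiesOverPrime p)
    (S : Finset ℕ) (a : ℕ → ℤ) (V : AddSubgroup (JZero (M' * p)))
    (hS : ∀ ℓ : ℕ, ℓ.Prime → ℓ ∣ M' * p → ℓ ∈ S)
    (hVp : ∀ x ∈ V, p • x = 0)
    (hstab : ∀ (σ : AlgebraicClosure ℚ ≃ₐ[ℚ] AlgebraicClosure ℚ), ∀ x ∈ V, σ • x ∈ V)
    (hEig : S40hEig (M' * p) S a V) (hNot : S40hNotAt M' p S a)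
    (x : JZero (M' * p)) (hx : x ∈ V) (hI1 : S40hI1 p B ⊆ S40hStab x)
    (τ₀ : AlgebraicClosure ℚ ≃ₐ[ℚ] AlgebraicClosure ℚ) (hτ₀ : τ₀ ∈ B.inertiaSubgroupIn ℚ)
    (hmv : S33hMoves p τ₀) (hfix : τ₀ • x = x) :
    ∃ (D : Divisor.degZero (K := Kbar) (F := FF (M' * p))) (u : FF (M' * p)),
      Pic0.mk D = x ∧ u ≠ 0 ∧ u ∈ Fermat.Agent.S36lib.f0Field B (M' * p) ∧
      (∀ σ ∈ B.inertiaSubgroupIn ℚ,
        galFF (M' * p) σ • (D : Divisor Kbar (FF (M' * p))) = D) ∧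
      (∀ v : Place Kbar (FF (M' * p)),
        (p : ℤ) * (D : Divisor Kbar (FF (M' * p))) v = v.ord u) :=
  tmf_kummer (M' * p) p B x (hVp x hx)
    (tmf_fixed M' p hp hp2 hpM B hB S a V hS hVp hstab hEig hNot x hx
      (fun τ hτ => hI1 hτ) τ₀ hτ₀ hmv hfix)

end Fermat.Agent.S40lib

end
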