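/-
Item 88 (S40), abstract local lemma TRES-INEQ (helper12).  Complete proofs, Mathlib only.

`Ω` a field, `A` a valuation subring, `K1 ⊆ Ω` a subfield which is discretely valued by `A` with
uniformiser `ϖ` (every nonzero element of `K1` has valuation `v(ϖ)^n`, `n : ℤ`).
`rt ∈ Ω` with `v(rt)^p = v(ϖ)^j`, `p ∤ j` (e.g. `rt^p = a ∈ K1`, `v(a) = v(ϖ)^j`: the extension
`K1(rt)/K1` is "très ramifiée").

* `tri_core`: if `∑_{i<p} t_i rt^i ∈ A` with `t_i ∈ K1`, then every term `t_i rt^i` lies in `A`, and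
  in the maximal ideal for `i ≥ 1`;
* **`tri_ineq`** (TRES-INEQ): if moreover `σ` is a ring endomorphism of `Ω` fixing `K1` with
  `σ rt = ζ^r rt`, `ζ ∈ A`, then `σ t − t ∈ (ζ − 1) · m_A` for `t = ∑ t_i rt^i ∈ A`.
* `tri_excl`: hence an integral `t ∈ K1(rt)` with `σ t − t ∉ (ζ − 1) m_A` cannot exist: the
  properties (TRES) and (PEU) exclude each other.
-/
import Mathlib

set_option autoImplicit false
set_option linter.unusedSectionVars false
set_option linter.unusedVariables false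

noncomputable section

namespace Fermat.Agent.S40lib

open Finset

section Core

variable {Ω : Type*} [Field Ω] (A : ValuationSubring Ω)

/-- the powers of an element of valuation `< 1` are pairwise distinct -/
theorem tri_zpow_inj {ϖ : Ω} (hϖ0 : ϖ ≠ 0) (hϖlt : A.valuation ϖ < 1) {m n : ℤ}
    (h : A.valuation ϖ ^ m = A.valuation ϖ ^ n) : m = n := by
  have hv0 : A.valuation ϖ ≠ 0 := (Valuation.ne_zero_iff _).mpr hϖ0
  have hpos : 0 < A.valuation ϖ := zero_lt_iff.mpr hv0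
  by_contra hne
  rcases lt_or_gt_of_ne hne with hlt | hlt
  · exact absurd h.symm (zpow_lt_zpow_right_of_lt_one₀ hpos hϖlt hlt).ne
  · exact absurd h (zpow_lt_zpow_right_of_lt_one₀ hpos hϖlt hlt).ne

/-- the sum of two nonunits of a valuation ring is a nonunit -/
theorem tri_nonunits_add {a b : Ω} (ha : a ∈ A.nonunits) (hb : b ∈ A.nonunits) :
    a + b ∈ A.nonunits := by
  rw [A.mem_nonunits_iff] at ha hb ⊢
  exact lt_of_le_of_lt (A.valuation.map_add a b) (max_lt ha hb)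

/-- a finite sum of nonunits is a nonunit -/
theorem tri_nonunits_sum {ι : Type*} (s : Finset ι) (f : ι → Ω)
    (h : ∀ i ∈ s, f i ∈ A.nonunits) : ∑ i ∈ s, f i ∈ A.nonunits := by
  classical
  induction s using Finset.induction_on with
  | empty =>
    rw [Finset.sum_empty, A.mem_nonunits_iff, map_zero]
    exact zero_lt_one
  | insert a s ha ih =>
    rw [Finset.sum_insert ha]
    exact tri_nonunits_add A (h a (Finset.mem_insert_self a s))
      (ih (fun i hi => h i (Finset.mem_insert_of_mem hi)))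

/-- an element of `A` times a nonunit is a nonunit -/
theorem tri_mul_nonunits {a b : Ω} (ha : a ∈ A) (hb : b ∈ A.nonunits) : a * b ∈ A.nonunits := by
  rw [A.mem_nonunits_iff] at hb ⊢
  rw [map_mul]
  have h1 : A.valuation a ≤ 1 := (A.valuation_le_one_iff a).mpr ha
  exact lt_of_le_of_lt (mul_le_mul' h1 le_rfl) (by rwa [one_mul])

variable {p : ℕ} (K1 : Subfield Ω) {ϖ rt : Ω} {j : ℤ}

/-- the `p`-th power of the valuation of a nonzero term `t rt^i`, `t ∈ K1` -/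
theorem tri_val_term (hϖ0 : ϖ ≠ 0)
    (hdisc : ∀ x ∈ K1, x ≠ 0 → ∃ n : ℤ, A.valuation x = A.valuation ϖ ^ n)
    (hrt : A.valuation rt ^ p = A.valuation ϖ ^ j) {t : Ω} (ht : t ∈ K1) (ht0 : t ≠ 0) (i : ℕ) :
    ∃ n : ℤ, A.valuation (t * rt ^ i) ^ p = A.valuation ϖ ^ ((p : ℤ) * n + (i : ℤ) * j) := by
  have hv0 : A.valuation ϖ ≠ 0 := (Valuation.ne_zero_iff _).mpr hϖ0
  obtain ⟨n, hn⟩ := hdisc t ht ht0
  refine ⟨n, ?_⟩
  calc A.valuation (t * rt ^ i) ^ p = (A.valuation t) ^ p * (A.valuation rt ^ p) ^ i := by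
        rw [map_mul, map_pow, mul_pow, ← pow_mul, ← pow_mul, mul_comm i p]
    _ = (A.valuation ϖ ^ n) ^ p * (A.valuation ϖ ^ j) ^ i := by rw [hn, hrt]
    _ = A.valuation ϖ ^ ((p : ℤ) * n + (i : ℤ) * j) := by
        rw [zpow_add₀ hv0, ← zpow_natCast (A.valuation ϖ ^ n) p,
          ← zpow_natCast (A.valuation ϖ ^ j) i, ← zpow_mul, ← zpow_mul, mul_comm n, mul_comm j]

/-- two nonzero terms with different exponents `i, i' < p` have different valuations -/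
theorem tri_val_ne (hp : p.Prime) (hϖ0 : ϖ ≠ 0) (hϖlt : A.valuation ϖ < 1)
    (hdisc : ∀ x ∈ K1, x ≠ 0 → ∃ n : ℤ, A.valuation x = A.valuation ϖ ^ n)
    (hj : ¬ (p : ℤ) ∣ j) (hrt : A.valuation rt ^ p = A.valuation ϖ ^ j)
    {t t' : Ω} (ht : t ∈ K1) (ht0 : t ≠ 0) (ht' : t' ∈ K1) (ht'0 : t' ≠ 0) {i i' : ℕ}
    (hi : i < p) (hi' : i' < p) (hne : i ≠ i') :
    A.valuation (t * rt ^ i) ≠ A.valuation (t' * rt ^ i') := by
  intro h
  obtain ⟨n, hn⟩ := tri_val_term A K1 hϖ0 hdisc hrt ht ht0 i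
  obtain ⟨n', hn'⟩ := tri_val_term A K1 hϖ0 hdisc hrt ht' ht'0 i'
  rw [h, hn'] at hn
  have he := tri_zpow_inj A hϖ0 hϖlt hn
  have hdvd : (p : ℤ) ∣ ((i : ℤ) - (i' : ℤ)) * j := ⟨n' - n, by linarith⟩
  have hpz : Prime (p : ℤ) := Nat.prime_iff_prime_int.mp hp
  rcases hpz.dvd_or_dvd hdvd with h1 | h1
  · have h2 : ((i : ℤ) - (i' : ℤ)).natAbs < p := by omega
    have h3 := Int.natAbs_dvd_natAbs.mpr h1
    rw [Int.natAbs_natCast] at h3
    have h4 : ((i : ℤ) - (i' : ℤ)).natAbs = 0 := Nat.eq_zero_of_dvd_of_lt h3 h2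
    omega
  · exact hj h1

/-- a nonzero term with exponent `1 ≤ i < p` does not have valuation `1` -/
theorem tri_val_ne_one (hp : p.Prime) (hϖ0 : ϖ ≠ 0) (hϖlt : A.valuation ϖ < 1)
    (hdisc : ∀ x ∈ K1, x ≠ 0 → ∃ n : ℤ, A.valuation x = A.valuation ϖ ^ n)
    (hj : ¬ (p : ℤ) ∣ j) (hrt : A.valuation rt ^ p = A.valuation ϖ ^ j)
    {t : Ω} (ht : t ∈ K1) (ht0 : t ≠ 0) {i : ℕ} (hi : i < p) (hi0 : i ≠ 0) :
    A.valuation (t * rt ^ i) ≠ 1 := by
  intro h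
  obtain ⟨n, hn⟩ := tri_val_term A K1 hϖ0 hdisc hrt ht ht0 i
  rw [h, one_pow] at hn
  have he := tri_zpow_inj A hϖ0 hϖlt (m := 0) (n := (p : ℤ) * n + (i : ℤ) * j)
    (by rw [zpow_zero]; exact hn)
  have hdvd : (p : ℤ) ∣ (i : ℤ) * j := ⟨-n, by linarith⟩
  have hpz : Prime (p : ℤ) := Nat.prime_iff_prime_int.mp hp
  rcases hpz.dvd_or_dvd hdvd with h1 | h1
  · have h3 : p ∣ i := by exact_mod_cast h1
    exact hi0 (Nat.eq_zero_of_dvd_of_lt h3 hi)
  · exact hj h1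

/-- **the terms of an integral element are integral**: if `∑_{i<p} t_i rt^i ∈ A`, `t_i ∈ K1`,
then every `t_i rt^i` lies in `A`, and in the maximal ideal for `i ≥ 1`. -/
theorem tri_core (hp : p.Prime) (hϖ0 : ϖ ≠ 0) (hϖlt : A.valuation ϖ < 1)
    (hdisc : ∀ x ∈ K1, x ≠ 0 → ∃ n : ℤ, A.valuation x = A.valuation ϖ ^ n)
    (hj : ¬ (p : ℤ) ∣ j) (hrt : A.valuation rt ^ p = A.valuation ϖ ^ j)
    (t : ℕ → Ω) (ht : ∀ i, t i ∈ K1) (hsum : ∑ i ∈ range p, t i * rt ^ i ∈ A) :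
    (∀ i ∈ range p, t i * rt ^ i ∈ A) ∧
      ∀ i ∈ range p, i ≠ 0 → t i * rt ^ i ∈ A.nonunits := by
  classical
  have hrt0 : rt ≠ 0 := by
    rintro rfl
    have hv0 : A.valuation ϖ ≠ 0 := (Valuation.ne_zero_iff _).mpr hϖ0
    rw [map_zero, zero_pow hp.ne_zero] at hrt
    exact (zpow_ne_zero j hv0) hrt.symm
  have hne : (range p).Nonempty := ⟨0, mem_range.mpr hp.pos⟩
  obtain ⟨j₀, hj₀, hmax⟩ := Finset.exists_max_image (range p)
    (fun i => A.valuation (t i * rt ^ i)) hne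
  have hle : A.valuation (t j₀ * rt ^ j₀) ≤ 1 := by
    rcases eq_or_ne (A.valuation (t j₀ * rt ^ j₀)) 0 with h0 | h0
    · rw [h0]; exact zero_le_one
    · have hlt : ∀ i ∈ range p \ {j₀}, A.valuation (t i * rt ^ i)
          < A.valuation (t j₀ * rt ^ j₀) := by
        intro i hi
        rw [mem_sdiff, mem_singleton] at hi
        rcases eq_or_ne (t i) 0 with hti | hti
        · rw [hti, zero_mul, map_zero]
          exact zero_lt_iff.mpr h0
        · have htj : t j₀ ≠ 0 := by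
            rintro h
            rw [h, zero_mul, map_zero] at h0
            exact h0 rfl
          exact lt_of_le_of_ne (hmax i hi.1)
            (tri_val_ne A K1 hp hϖ0 hϖlt hdisc hj hrt (ht i) hti (ht j₀) htj
              (mem_range.mp hi.1) (mem_range.mp hj₀) hi.2)
      have h := Valuation.map_sum_eq_of_lt A.valuation hj₀ hlt
      rw [← h]
      exact (A.valuation_le_one_iff _).mpr hsum
  have hall : ∀ i ∈ range p, t i * rt ^ i ∈ A := fun i hi =>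
    (A.valuation_le_one_iff _).mp ((hmax i hi).trans hle)
  refine ⟨hall, fun i hi hi0 => ?_⟩
  rw [A.mem_nonunits_iff]
  rcases eq_or_ne (t i) 0 with hti | hti
  · rw [hti, zero_mul, map_zero]
    exact zero_lt_one
  · exact lt_of_le_of_ne ((A.valuation_le_one_iff _).mpr (hall i hi))
      (tri_val_ne_one A K1 hp hϖ0 hϖlt hdisc hj hrt (ht i) hti (mem_range.mp hi) hi0)

/-- `ζ^n - 1 = (ζ - 1) (1 + ζ + … + ζ^(n-1))` -/
theorem tri_geom (ζ : Ω) (n : ℕ) : ζ ^ n - 1 = (ζ - 1) * ∑ k ∈ range n, ζ ^ k := by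
  rw [mul_comm]
  exact (geom_sum_mul ζ n).symm

/-- **TRES-INEQ**, sum form: `σ` a ring endomorphism of `Ω` fixing `K1` with `σ rt = ζ^r rt`,
`ζ ∈ A`; `t = ∑_{i<p} t_i rt^i ∈ A`, `t_i ∈ K1`.  Then `σ t − t ∈ (ζ − 1) · m_A`. -/
theorem tri_ineq (hp : p.Prime) (hϖ0 : ϖ ≠ 0) (hϖlt : A.valuation ϖ < 1)
    (hdisc : ∀ x ∈ K1, x ≠ 0 → ∃ n : ℤ, A.valuation x = A.valuation ϖ ^ n)
    (hj : ¬ (p : ℤ) ∣ j) (hrt : A.valuation rt ^ p = A.valuation ϖ ^ j)
    {ζ : Ω} (hζA : ζ ∈ A) (σ : Ω →+* Ω) (hσK : ∀ x ∈ K1, σ x = x) {r : ℕ}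
    (hσrt : σ rt = ζ ^ r * rt)
    (t : ℕ → Ω) (ht : ∀ i, t i ∈ K1) (hsum : ∑ i ∈ range p, t i * rt ^ i ∈ A) :
    ∃ c ∈ A.nonunits,
      σ (∑ i ∈ range p, t i * rt ^ i) - ∑ i ∈ range p, t i * rt ^ i = (ζ - 1) * c := by
  classical
  obtain ⟨-, hnon⟩ := tri_core A K1 hp hϖ0 hϖlt hdisc hj hrt t ht hsum
  refine ⟨∑ i ∈ range p, (∑ k ∈ range (r * i), ζ ^ k) * (t i * rt ^ i), ?_, ?_⟩
  · refine tri_nonunits_sum A _ _ (fun i hi => ?_)
    rcases eq_or_ne i 0 with rfl | hi0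
    · rw [mul_zero, Finset.range_zero, Finset.sum_empty, zero_mul, A.mem_nonunits_iff, map_zero]
      exact zero_lt_one
    · exact tri_mul_nonunits A (A.toSubring.sum_mem (fun k _ => A.toSubring.pow_mem hζA k))
        (hnon i hi hi0)
  · rw [map_sum, ← Finset.sum_sub_distrib, Finset.mul_sum]
    refine Finset.sum_congr rfl (fun i _ => ?_)
    rw [map_mul, map_pow, hσK (t i) (ht i), hσrt, mul_pow, ← pow_mul, ← mul_assoc (ζ - 1),
      ← tri_geom]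
    ring

/-- **(TRES) and (PEU) exclude each other**, sum form: in the situation of `tri_ineq`, an
integral `t = ∑ t_i rt^i` with `σ t − t ∉ (ζ − 1) · m_A` does not exist. -/
theorem tri_excl (hp : p.Prime) (hϖ0 : ϖ ≠ 0) (hϖlt : A.valuation ϖ < 1)
    (hdisc : ∀ x ∈ K1, x ≠ 0 → ∃ n : ℤ, A.valuation x = A.valuation ϖ ^ n)
    (hj : ¬ (p : ℤ) ∣ j) (hrt : A.valuation rt ^ p = A.valuation ϖ ^ j)
    {ζ : Ω} (hζA : ζ ∈ A) (hζ1 : ζ ≠ 1) (σ : Ω →+* Ω) (hσK : ∀ x ∈ K1, σ x = x) {r : ℕ}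
    (hσrt : σ rt = ζ ^ r * rt)
    (t : ℕ → Ω) (ht : ∀ i, t i ∈ K1) (hsum : ∑ i ∈ range p, t i * rt ^ i ∈ A)
    (hpeu : A.valuation (ζ - 1)
      ≤ A.valuation (σ (∑ i ∈ range p, t i * rt ^ i) - ∑ i ∈ range p, t i * rt ^ i)) :
    False := by
  obtain ⟨c, hc, he⟩ := tri_ineq A K1 hp hϖ0 hϖlt hdisc hj hrt hζA σ hσK hσrt t ht hsum
  rw [he, map_mul] at hpeu
  have h0 : A.valuation (ζ - 1) ≠ 0 := (Valuation.ne_zero_iff _).mpr (sub_ne_zero.mpr hζ1)
  have hc1 : A.valuation c < 1 := A.mem_nonunits_iff.mp hc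
  have hlt : A.valuation (ζ - 1) * A.valuation c < A.valuation (ζ - 1) := by
    calc A.valuation (ζ - 1) * A.valuation c < A.valuation (ζ - 1) * 1 :=
          mul_lt_mul_of_pos_left hc1 (zero_lt_iff.mpr h0)
      _ = A.valuation (ζ - 1) := mul_one _
  exact absurd hpeu (not_le.mpr hlt)

end Core

end Fermat.Agent.S40lib

end
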