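/-
Item 88 (S40), abstract algebra (helper12): the Lagrange resolvent decomposition and the
group-action form of TRES-INEQ.  Complete proofs, Mathlib + `TresIneq.lean` only.

`G` a group acting on a field `Ω` by ring automorphisms, `ζ ∈ Ω` a primitive `p`-th root of unity
fixed by `σ ∈ G`, `rt ≠ 0` with `σ • rt = ζ^r rt`, `p ∤ r`, `t ∈ Ω` with `σ^p • t = t`.

* `tri_repr`: `t = ∑_{i<p} c_i rt^i` with `σ • c_i = c_i`, and `h • c_i = c_i` for every `h ∈ G`
  fixing `ζ`, `rt` and all `σ^k • t`;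
* **`tri_tres`**: if moreover `K1` contains every element fixed by `σ` and by a set `H ⊆ G`
  (fixing `ζ`, `rt`, and the `σ^k • t`), `K1` is discretely valued by `A` with uniformiser `ϖ`,
  `v(rt)^p = v(ϖ)^j`, `p ∤ j`, and `t ∈ A`, then `σ • t − t ∈ (ζ − 1) · m_A`;
* `tri_tres_lt`: the valuation form `v(σ • t − t) < v(ζ − 1)`.
-/
import Mathlib
import Fermat.Agent.S40lib.TresIneq

set_option autoImplicit false
set_option linter.unusedSectionVars false
set_option linter.unusedVariables false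

noncomputable section

namespace Fermat.Agent.S40lib

open Finset

section Repr

variable {Ω : Type*} [Field Ω] {G : Type*} [Group G] [MulSemiringAction G Ω]

/-- shifting a sum over `range p` of a function with `f p = f 0` -/
theorem tri_sum_shift (f : ℕ → Ω) (p : ℕ) (h : f p = f 0) :
    ∑ k ∈ range p, f (k + 1) = ∑ k ∈ range p, f k := by
  have h1 := Finset.sum_range_succ f p
  have h2 := Finset.sum_range_succ' f p
  rw [h1, h] at h2
  exact (add_right_cancel h2).symm

/-- the geometric sum of a power `η^k`, `0 < k < p`, of a primitive `p`-th root of unity -/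
theorem tri_geom_zero {p : ℕ} (hp : p.Prime) {η : Ω} (hη : IsPrimitiveRoot η p) {k : ℕ}
    (hk0 : k ≠ 0) (hk : k < p) : ∑ i ∈ range p, (η ^ k) ^ i = 0 := by
  have hcop : k.Coprime p := by
    rw [Nat.coprime_comm]
    exact (Nat.Prime.coprime_iff_not_dvd hp).mpr (fun hd => hk0 (Nat.eq_zero_of_dvd_of_lt hd hk))
  have hprim : IsPrimitiveRoot (η ^ k) p := hη.pow_of_coprime k hcop
  exact hprim.geom_sum_eq_zero hp.one_lt

/-- **Lagrange resolvents**: `t = ∑_{i<p} c_i rt^i` with coefficients fixed by `σ` (and by every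
`h` fixing `ζ`, `rt` and the conjugates `σ^k • t`). -/
theorem tri_repr {p : ℕ} (hp : p.Prime) (hpΩ : (p : Ω) ≠ 0) {ζ : Ω} (hζ : IsPrimitiveRoot ζ p)
    (σ : G) (hσζ : σ • ζ = ζ) {rt : Ω} (hrt0 : rt ≠ 0) {r : ℕ} (hr : ¬ p ∣ r)
    (hσrt : σ • rt = ζ ^ r * rt) (t : Ω) (hσt : σ ^ p • t = t) :
    ∃ c : ℕ → Ω, (∀ i, σ • c i = c i) ∧
      (∀ h : G, h • ζ = ζ → h • rt = rt → (∀ k : ℕ, h • (σ ^ k • t) = σ ^ k • t) →
        ∀ i, h • c i = c i) ∧
      t = ∑ i ∈ range p, c i * rt ^ i := by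
  classical
  -- `η = ζ^{-r}`
  obtain ⟨η, hηdef⟩ : ∃ η : Ω, η = ζ ^ ((p - 1) * r) := ⟨_, rfl⟩
  have hp1 : 1 ≤ p := hp.one_lt.le
  have hηζ : η * ζ ^ r = 1 := by
    rw [hηdef, ← pow_add]
    have : (p - 1) * r + r = p * r := by
      have h1 : (p - 1) + 1 = p := Nat.sub_add_cancel hp1
      calc (p - 1) * r + r = ((p - 1) + 1) * r := by ring
        _ = p * r := by rw [h1]
    rw [this, pow_mul, hζ.pow_eq_one, one_pow]
  have hηprim : IsPrimitiveRoot η p := by
    rw [hηdef]
    refine hζ.pow_of_coprime _ ?_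
    rw [Nat.coprime_comm]
    refine (Nat.Prime.coprime_iff_not_dvd hp).mpr (fun hd => ?_)
    rcases (Nat.Prime.dvd_mul hp).mp hd with h1 | h1
    · have h2 : p - 1 < p := Nat.sub_lt hp.pos Nat.one_pos
      have h3 := Nat.eq_zero_of_dvd_of_lt h1 h2
      have := hp.one_lt
      omega
    · exact hr h1
  have hση : σ • η = η := by rw [hηdef, smul_pow', hσζ]
  have hnat : ∀ g : G, g • (p : Ω) = (p : Ω) := fun g =>
    map_natCast (MulSemiringAction.toRingHom G Ω g) p
  -- the resolvents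
  obtain ⟨s, hs⟩ : ∃ s : ℕ → Ω, ∀ i, s i = ∑ k ∈ range p, η ^ (i * k) * (σ ^ k • t) :=
    ⟨_, fun _ => rfl⟩
  have hσs : ∀ i, η ^ i * (σ • s i) = s i := by
    intro i
    have h1 : η ^ i * (σ • s i) = ∑ k ∈ range p, η ^ (i * (k + 1)) * (σ ^ (k + 1) • t) := by
      rw [hs, Finset.smul_sum, Finset.mul_sum]
      refine Finset.sum_congr rfl (fun k _ => ?_)
      rw [smul_mul', smul_pow', hση, ← mul_assoc, ← pow_add, smul_smul, ← pow_succ']
      congr 2
      ring
    rw [h1, hs]
    refine tri_sum_shift (fun k => η ^ (i * k) * (σ ^ k • t)) p ?_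
    show η ^ (i * p) * (σ ^ p • t) = η ^ (i * 0) * (σ ^ 0 • t)
    rw [hσt, pow_zero, one_smul, mul_zero, pow_zero, mul_comm i p, pow_mul, hηprim.pow_eq_one,
      one_pow]
  have hσrti : ∀ i : ℕ, η ^ i * (σ • rt ^ i) = rt ^ i := by
    intro i
    rw [smul_pow', hσrt, ← mul_pow, ← mul_assoc, hηζ, one_mul]
  refine ⟨fun i => s i / ((p : Ω) * rt ^ i), ?_, ?_, ?_⟩
  · intro i
    show σ • (s i / ((p : Ω) * rt ^ i)) = s i / ((p : Ω) * rt ^ i)
    rw [smul_div₀', smul_mul', hnat σ]
    have hden : (p : Ω) * rt ^ i ≠ 0 := mul_ne_zero hpΩ (pow_ne_zero _ hrt0)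
    have hden' : (p : Ω) * (σ • rt ^ i) ≠ 0 := by
      refine mul_ne_zero hpΩ ?_
      intro h0
      have := hσrti i
      rw [h0, mul_zero] at this
      exact pow_ne_zero i hrt0 this.symm
    rw [div_eq_div_iff hden' hden]
    calc σ • s i * ((p : Ω) * rt ^ i)
        = σ • s i * ((p : Ω) * (η ^ i * (σ • rt ^ i))) := by rw [hσrti i]
      _ = (η ^ i * (σ • s i)) * ((p : Ω) * (σ • rt ^ i)) := by ring
      _ = s i * ((p : Ω) * (σ • rt ^ i)) := by rw [hσs i]
  · intro h hhζ hhrt hht i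
    show h • (s i / ((p : Ω) * rt ^ i)) = s i / ((p : Ω) * rt ^ i)
    have hhη : h • η = η := by rw [hηdef, smul_pow', hhζ]
    rw [smul_div₀', smul_mul', hnat h, smul_pow', hhrt]
    congr 1
    rw [hs, Finset.smul_sum]
    refine Finset.sum_congr rfl (fun k _ => ?_)
    rw [smul_mul', smul_pow', hhη, hht k]
  · show t = ∑ i ∈ range p, s i / ((p : Ω) * rt ^ i) * rt ^ i
    have hterm : ∀ i ∈ range p, s i / ((p : Ω) * rt ^ i) * rt ^ i = s i / (p : Ω) := by
      intro i _
      field_simp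
    rw [Finset.sum_congr rfl hterm, ← Finset.sum_div]
    have hsum : ∑ i ∈ range p, s i = (p : Ω) * t := by
      rw [Finset.sum_congr rfl (fun i _ => hs i), Finset.sum_comm]
      have hk : ∀ k ∈ range p, ∑ i ∈ range p, η ^ (i * k) * (σ ^ k • t)
          = if k = 0 then (p : Ω) * t else 0 := by
        intro k hk
        rw [← Finset.sum_mul]
        split_ifs with h0
        · subst h0
          simp
        · have : ∑ i ∈ range p, η ^ (i * k) = 0 := by
            have h1 := tri_geom_zero hp hηprim h0 (mem_range.mp hk)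
            rw [← h1]
            refine Finset.sum_congr rfl (fun i _ => ?_)
            rw [← pow_mul, mul_comm]
          rw [this, zero_mul]
      rw [Finset.sum_congr rfl hk, Finset.sum_ite_eq' (range p) 0]
      rw [if_pos (mem_range.mpr hp.pos)]
    rw [hsum, mul_div_cancel_left₀ t hpΩ]

end Repr

end Fermat.Agent.S40lib

end
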