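/-
Item 88 (S40), piece (B4) = tail of C4 (helper12): **(TRES) excludes `S40hPeuB`**, in the
language of the hub.  Complete proofs; Mathlib + Hub/Final2 + TresIneq/TresRepr only.

`Ω = AlgebraicClosure ℚ`, `B` a valuation subring, `I1 = S40hI1 p B` (inertia elements fixing
`μ_p`), `St` a set of Galois elements (the stabiliser of a point `x`).  Data (TRES): `rt ∈ Ω` with
`rt^p` fixed by `I1`, `v(rt)^p = v(ϖ)^j` with `p ∤ j`, where the fixed field of `I1` is discretely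
valued by `B` with uniformiser `ϖ`, and `St ∩ I1` = the stabiliser of `rt` in `I1`.

* `triFix p B`       : the fixed field of `S40hI1 p B`;
* `tri_I1_mul`, `tri_I1_inv`, `tri_I1_one`, `tri_I1_pow` : `S40hI1 p B` is a group;
* `tri_root_smul`    : `τ rt = ζ^m rt` for `τ ∈ I1`;
* `tri_moves`        : some `σ₀ ∈ I1` moves `rt`;
* **`tri_not_peuB`** : `¬ S40hPeuB p B St`;
* `tri_not_peuB_coc` : the same in cocycle form (`τ rt = ζ^(m τ) rt`, `τ ∈ St ↔ p ∣ m τ`).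
-/
import Mathlib
import Fermat.Agent.S36lib.Speed
import Fermat.Agent.S40lib.Final2
import Fermat.Agent.S40lib.TresRepr

set_option autoImplicit false
set_option linter.unusedSectionVars false
set_option linter.unusedVariables false

noncomputable section

namespace Fermat.Agent.S40lib

open Finset

/-- the fixed field of `S40hI1 p B` -/
def triFix (p : ℕ) (B : ValuationSubring (AlgebraicClosure ℚ)) :
    Subfield (AlgebraicClosure ℚ) where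
  carrier := {x | ∀ τ ∈ S40hI1 p B, τ x = x}
  mul_mem' := fun {a b} ha hb τ hτ => by rw [map_mul, ha τ hτ, hb τ hτ]
  one_mem' := fun τ _ => map_one τ
  add_mem' := fun {a b} ha hb τ hτ => by rw [map_add, ha τ hτ, hb τ hτ]
  zero_mem' := fun τ _ => map_zero τ
  neg_mem' := fun {a} ha τ hτ => by rw [map_neg, ha τ hτ]
  inv_mem' := fun a ha τ hτ => by rw [map_inv₀, ha τ hτ]

theorem tri_mem_fix {p : ℕ} {B : ValuationSubring (AlgebraicClosure ℚ)}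
    {x : AlgebraicClosure ℚ} : x ∈ triFix p B ↔ ∀ τ ∈ S40hI1 p B, τ x = x :=
  Iff.rfl

section Group

variable {p : ℕ} {B : ValuationSubring (AlgebraicClosure ℚ)}

theorem tri_I1_one : (1 : AlgebraicClosure ℚ ≃ₐ[ℚ] AlgebraicClosure ℚ) ∈ S40hI1 p B :=
  ⟨Subgroup.one_mem _, fun _ _ => rfl⟩

theorem tri_I1_mul {σ τ : AlgebraicClosure ℚ ≃ₐ[ℚ] AlgebraicClosure ℚ}
    (hσ : σ ∈ S40hI1 p B) (hτ : τ ∈ S40hI1 p B) : σ * τ ∈ S40hI1 p B := by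
  refine ⟨Subgroup.mul_mem _ hσ.1 hτ.1, fun ζ hζ => ?_⟩
  rw [AlgEquiv.mul_apply, hτ.2 ζ hζ, hσ.2 ζ hζ]

theorem tri_inv_apply {σ : AlgebraicClosure ℚ ≃ₐ[ℚ] AlgebraicClosure ℚ}
    {a : AlgebraicClosure ℚ} (h : σ a = a) : σ⁻¹ a = a := by
  have h1 : σ⁻¹ (σ a) = a := by
    rw [← AlgEquiv.mul_apply, inv_mul_cancel, AlgEquiv.one_apply]
  rwa [h] at h1

theorem tri_I1_inv {σ : AlgebraicClosure ℚ ≃ₐ[ℚ] AlgebraicClosure ℚ}
    (hσ : σ ∈ S40hI1 p B) : σ⁻¹ ∈ S40hI1 p B :=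
  ⟨Subgroup.inv_mem _ hσ.1, fun ζ hζ => tri_inv_apply (hσ.2 ζ hζ)⟩

theorem tri_I1_pow {σ : AlgebraicClosure ℚ ≃ₐ[ℚ] AlgebraicClosure ℚ}
    (hσ : σ ∈ S40hI1 p B) (k : ℕ) : σ ^ k ∈ S40hI1 p B := by
  induction k with
  | zero => rw [pow_zero]; exact tri_I1_one
  | succ k ih => rw [pow_succ]; exact tri_I1_mul ih hσ

/-- the powers of `σ` act on `rt` by the powers of `ζ^r` -/
theorem tri_pow_apply {σ : AlgebraicClosure ℚ ≃ₐ[ℚ] AlgebraicClosure ℚ}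
    {ζ rt : AlgebraicClosure ℚ} {r : ℕ} (hσζ : σ ζ = ζ) (hσrt : σ rt = ζ ^ r * rt) (k : ℕ) :
    (σ ^ k) rt = ζ ^ (r * k) * rt := by
  induction k with
  | zero => rw [pow_zero, AlgEquiv.one_apply, mul_zero, pow_zero, one_mul]
  | succ k ih =>
    rw [pow_succ, AlgEquiv.mul_apply, hσrt, map_mul, map_pow, ih]
    have hζk : (σ ^ k) ζ = ζ := by
      clear ih
      induction k with
      | zero => rw [pow_zero, AlgEquiv.one_apply]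
      | succ k ih2 => rw [pow_succ, AlgEquiv.mul_apply, hσζ, ih2]
    rw [hζk, ← mul_assoc, ← pow_add]
    congr 2
    ring

/-- the powers of `σ` fix what `σ` fixes -/
theorem tri_pow_fix {σ : AlgebraicClosure ℚ ≃ₐ[ℚ] AlgebraicClosure ℚ}
    {a : AlgebraicClosure ℚ} (h : σ a = a) (k : ℕ) : (σ ^ k) a = a := by
  induction k with
  | zero => rw [pow_zero, AlgEquiv.one_apply]
  | succ k ih => rw [pow_succ, AlgEquiv.mul_apply, h, ih]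

end Group

section Main

variable {p : ℕ} (hp : p.Prime) (B : ValuationSubring (AlgebraicClosure ℚ))
  {ϖ rt : AlgebraicClosure ℚ} {j : ℤ}

include hp

/-- `rt ≠ 0` -/
theorem tri_rt_ne_zero (hϖ0 : ϖ ≠ 0) (hrt : B.valuation rt ^ p = B.valuation ϖ ^ j) :
    rt ≠ 0 := by
  rintro rfl
  rw [map_zero, zero_pow hp.ne_zero] at hrt
  have hv0 : B.valuation ϖ ≠ 0 := (Valuation.ne_zero_iff _).mpr hϖ0
  exact (zpow_ne_zero j hv0) hrt.symm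

/-- `rt` is not fixed by `S40hI1 p B` -/
theorem tri_not_fix (hϖ0 : ϖ ≠ 0) (hϖlt : B.valuation ϖ < 1)
    (hdisc : ∀ x : AlgebraicClosure ℚ, (∀ τ ∈ S40hI1 p B, τ x = x) → x ≠ 0 →
      ∃ n : ℤ, B.valuation x = B.valuation ϖ ^ n)
    (hj : ¬ (p : ℤ) ∣ j) (hrt : B.valuation rt ^ p = B.valuation ϖ ^ j) :
    ¬ ∀ τ ∈ S40hI1 p B, τ rt = rt := by
  intro hfix
  obtain ⟨n, hn⟩ := hdisc rt hfix (tri_rt_ne_zero hp B hϖ0 hrt)
  rw [hn, ← zpow_natCast, ← zpow_mul] at hrt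
  have h1 := tri_zpow_inj B hϖ0 hϖlt hrt
  exact hj ⟨n, by rw [← h1]; ring⟩

/-- some element of `S40hI1 p B` moves `rt` -/
theorem tri_moves (hϖ0 : ϖ ≠ 0) (hϖlt : B.valuation ϖ < 1)
    (hdisc : ∀ x : AlgebraicClosure ℚ, (∀ τ ∈ S40hI1 p B, τ x = x) → x ≠ 0 →
      ∃ n : ℤ, B.valuation x = B.valuation ϖ ^ n)
    (hj : ¬ (p : ℤ) ∣ j) (hrt : B.valuation rt ^ p = B.valuation ϖ ^ j) :
    ∃ σ₀ ∈ S40hI1 p B, σ₀ rt ≠ rt := by
  by_contra hcon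
  refine tri_not_fix hp B hϖ0 hϖlt hdisc hj hrt (fun τ hτ => ?_)
  by_contra hne
  exact hcon ⟨τ, hτ, hne⟩

/-- `τ rt = ζ^m rt` for `τ ∈ I1` -/
theorem tri_root_smul (hrt0 : rt ≠ 0) (hκ : ∀ τ ∈ S40hI1 p B, τ (rt ^ p) = rt ^ p)
    {ζ : AlgebraicClosure ℚ} (hζ : IsPrimitiveRoot ζ p)
    {τ : AlgebraicClosure ℚ ≃ₐ[ℚ] AlgebraicClosure ℚ} (hτ : τ ∈ S40hI1 p B) :
    ∃ m : ℕ, m < p ∧ τ rt = ζ ^ m * rt := by
  have h1 : (τ rt / rt) ^ p = 1 := by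
    rw [div_pow, ← map_pow, hκ τ hτ, div_self (pow_ne_zero p hrt0)]
  have hne : NeZero p := ⟨hp.ne_zero⟩
  obtain ⟨m, hm, hmeq⟩ := hζ.eq_pow_of_pow_eq_one h1
  refine ⟨m, hm, ?_⟩
  rw [hmeq, div_mul_cancel₀ _ hrt0]

/-- a primitive `p`-th root of unity lies in `B` -/
theorem tri_zeta_mem {ζ : AlgebraicClosure ℚ} (hζ : IsPrimitiveRoot ζ p) : ζ ∈ B := by
  rw [← B.valuation_le_one_iff]
  have h1 : B.valuation ζ ^ p = 1 := by rw [← map_pow, hζ.pow_eq_one, map_one]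
  exact le_of_eq ((pow_eq_one_iff_of_nonneg zero_le hp.ne_zero).mp h1)

omit hp in
/-- `σ a = b ⇒ σ⁻¹ b = a` -/
theorem tri_inv_apply' {σ : AlgebraicClosure ℚ ≃ₐ[ℚ] AlgebraicClosure ℚ}
    {a b : AlgebraicClosure ℚ} (h : σ a = b) : σ⁻¹ b = a := by
  rw [← h, ← AlgEquiv.mul_apply, inv_mul_cancel, AlgEquiv.one_apply]

/-- **Lagrange resolvents with coefficients in the fixed field of `I1`**: every `t` fixed by the
stabiliser of `rt` in `I1` is `∑_{i<p} c_i rt^i` with `c_i ∈ triFix p B`. -/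
theorem tri_repr_fix (hrt0 : rt ≠ 0) (hκ : ∀ τ ∈ S40hI1 p B, τ (rt ^ p) = rt ^ p)
    {ζ : AlgebraicClosure ℚ} (hζ : IsPrimitiveRoot ζ p)
    {σ₀ : AlgebraicClosure ℚ ≃ₐ[ℚ] AlgebraicClosure ℚ} (hσ₀ : σ₀ ∈ S40hI1 p B)
    (hσ₀rt : σ₀ rt ≠ rt)
    (t : AlgebraicClosure ℚ) (ht : ∀ τ ∈ S40hI1 p B, τ rt = rt → τ t = t) :
    ∃ c : ℕ → AlgebraicClosure ℚ, (∀ i, c i ∈ triFix p B) ∧
      t = ∑ i ∈ range p, c i * rt ^ i := by
  classical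
  obtain ⟨r, hrlt, hr⟩ := tri_root_smul hp B hrt0 hκ hζ hσ₀
  have hpr : ¬ p ∣ r := by
    intro hd
    have hr0 : r = 0 := Nat.eq_zero_of_dvd_of_lt hd hrlt
    rw [hr0, pow_zero, one_mul] at hr
    exact hσ₀rt hr
  have hσ₀ζ : σ₀ ζ = ζ := hσ₀.2 ζ hζ.pow_eq_one
  have hζI : ∀ τ ∈ S40hI1 p B, τ ζ = ζ := fun τ hτ => hτ.2 ζ hζ.pow_eq_one
  have hσ₀pt : (σ₀ ^ p) t = t := by
    refine ht _ (tri_I1_pow hσ₀ p) ?_
    rw [tri_pow_apply hσ₀ζ hr p, mul_comm r p, pow_mul, hζ.pow_eq_one, one_pow, one_mul]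
  have hpΩ : ((p : ℕ) : AlgebraicClosure ℚ) ≠ 0 := Nat.cast_ne_zero.mpr hp.ne_zero
  obtain ⟨c, hc1, hc2, hc3⟩ := tri_repr (G := AlgebraicClosure ℚ ≃ₐ[ℚ] AlgebraicClosure ℚ)
    hp hpΩ hζ σ₀ hσ₀ζ hrt0 hpr hr t hσ₀pt
  refine ⟨c, fun i τ hτ => ?_, hc3⟩
  -- `τ = σ₀^k h` with `h ∈ I1` fixing `rt`
  obtain ⟨m, -, hτrt⟩ := tri_root_smul hp B hrt0 hκ hζ hτ
  have hcop : r.Coprime p := by
    rw [Nat.coprime_comm]
    exact (Nat.Prime.coprime_iff_not_dvd hp).mpr hpr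
  have hprim : IsPrimitiveRoot (ζ ^ r) p := hζ.pow_of_coprime r hcop
  have hne : NeZero p := ⟨hp.ne_zero⟩
  have hm1 : (ζ ^ m) ^ p = 1 := by rw [← pow_mul, mul_comm, pow_mul, hζ.pow_eq_one, one_pow]
  obtain ⟨k, -, hk⟩ := hprim.eq_pow_of_pow_eq_one hm1
  rw [← pow_mul] at hk
  -- `hk : ζ ^ (r * k) = ζ ^ m`
  have hσk : (σ₀ ^ k) rt = ζ ^ m * rt := by rw [tri_pow_apply hσ₀ζ hr k, hk]
  obtain ⟨h, hdef⟩ : ∃ h : AlgebraicClosure ℚ ≃ₐ[ℚ] AlgebraicClosure ℚ,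
    h = (σ₀ ^ k)⁻¹ * τ := ⟨_, rfl⟩
  have hhI : h ∈ S40hI1 p B := by
    rw [hdef]
    exact tri_I1_mul (tri_I1_inv (tri_I1_pow hσ₀ k)) hτ
  have hhrt : h rt = rt := by
    rw [hdef, AlgEquiv.mul_apply, hτrt]
    exact tri_inv_apply' hσk
  have hτeq : τ = σ₀ ^ k * h := by
    rw [hdef, ← mul_assoc, mul_inv_cancel, one_mul]
  have hhconj : ∀ k' : ℕ, h ((σ₀ ^ k') t) = (σ₀ ^ k') t := by
    intro k'
    obtain ⟨g, hgdef⟩ : ∃ g : AlgebraicClosure ℚ ≃ₐ[ℚ] AlgebraicClosure ℚ,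
      g = (σ₀ ^ k')⁻¹ * (h * σ₀ ^ k') := ⟨_, rfl⟩
    have hgI : g ∈ S40hI1 p B := by
      rw [hgdef]
      exact tri_I1_mul (tri_I1_inv (tri_I1_pow hσ₀ k')) (tri_I1_mul hhI (tri_I1_pow hσ₀ k'))
    have hgrt : g rt = rt := by
      rw [hgdef, AlgEquiv.mul_apply, AlgEquiv.mul_apply]
      refine tri_inv_apply' ?_
      rw [tri_pow_apply hσ₀ζ hr k', map_mul, map_pow, hζI h hhI, hhrt]
    have hgt := ht g hgI hgrt
    rw [hgdef, AlgEquiv.mul_apply, AlgEquiv.mul_apply] at hgt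
    have h2 : (σ₀ ^ k') ((σ₀ ^ k')⁻¹ (h ((σ₀ ^ k') t))) = (σ₀ ^ k') t := by rw [hgt]
    rw [← AlgEquiv.mul_apply (σ₀ ^ k'), mul_inv_cancel, AlgEquiv.one_apply] at h2
    exact h2
  have hhc : h (c i) = c i := hc2 h (hζI h hhI) hhrt hhconj i
  rw [hτeq, AlgEquiv.mul_apply, hhc]
  exact tri_pow_fix (hc1 i) k

/-- **(TRES) excludes (PEU)**, hub form: if `rt^p` is fixed by `I1 = S40hI1 p B`, the fixed
field of `I1` is discretely valued by `B` with uniformiser `ϖ`, `v(rt)^p = v(ϖ)^j` with `p ∤ j`,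
and `St ∩ I1` is the stabiliser of `rt` in `I1`, then `St` is not peu ramifié. -/
theorem tri_not_peuB (St : Set (AlgebraicClosure ℚ ≃ₐ[ℚ] AlgebraicClosure ℚ))
    (hϖ0 : ϖ ≠ 0) (hϖlt : B.valuation ϖ < 1)
    (hdisc : ∀ x : AlgebraicClosure ℚ, (∀ τ ∈ S40hI1 p B, τ x = x) → x ≠ 0 →
      ∃ n : ℤ, B.valuation x = B.valuation ϖ ^ n)
    (hj : ¬ (p : ℤ) ∣ j) (hrt : B.valuation rt ^ p = B.valuation ϖ ^ j)
    (hκ : ∀ τ ∈ S40hI1 p B, τ (rt ^ p) = rt ^ p)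
    (hSt : ∀ τ ∈ S40hI1 p B, (τ ∈ St ↔ τ rt = rt)) :
    ¬ S40hPeuB p B St := by
  rintro (hsplit | ⟨t, htB, htfix, σ, hσ, ζ, hζ, hpeu⟩)
  · exact tri_not_fix hp B hϖ0 hϖlt hdisc hj hrt (fun τ hτ => (hSt τ hτ).mp (hsplit hτ))
  · have hrt0 := tri_rt_ne_zero hp B hϖ0 hrt
    obtain ⟨σ₀, hσ₀, hσ₀rt⟩ := tri_moves hp B hϖ0 hϖlt hdisc hj hrt
    obtain ⟨c, hc, htc⟩ := tri_repr_fix hp B hrt0 hκ hζ hσ₀ hσ₀rt t
      (fun τ hτ h => htfix τ hτ ((hSt τ hτ).mpr h))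
    obtain ⟨r, -, hσrt⟩ := tri_root_smul hp B hrt0 hκ hζ hσ
    have hdisc' : ∀ x ∈ triFix p B, x ≠ 0 → ∃ n : ℤ, B.valuation x = B.valuation ϖ ^ n :=
      fun x hx => hdisc x hx
    refine tri_excl B (triFix p B) hp hϖ0 hϖlt hdisc' hj hrt (tri_zeta_mem hp B hζ)
      (hζ.ne_one hp.one_lt) (σ : AlgebraicClosure ℚ →+* AlgebraicClosure ℚ)
      (fun x hx => hx σ hσ) hσrt c hc ?_ ?_
    · rw [← htc]
      exact htB
    · rw [← htc]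
      exact hpeu

/-- **(TRES) excludes (PEU)**, cocycle form: `τ rt = ζ^(m τ) rt` and `τ ∈ St ↔ p ∣ m τ` on
`I1`. -/
theorem tri_not_peuB_coc (St : Set (AlgebraicClosure ℚ ≃ₐ[ℚ] AlgebraicClosure ℚ))
    (hϖ0 : ϖ ≠ 0) (hϖlt : B.valuation ϖ < 1)
    (hdisc : ∀ x : AlgebraicClosure ℚ, (∀ τ ∈ S40hI1 p B, τ x = x) → x ≠ 0 →
      ∃ n : ℤ, B.valuation x = B.valuation ϖ ^ n)
    (hj : ¬ (p : ℤ) ∣ j) (hrt : B.valuation rt ^ p = B.valuation ϖ ^ j)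
    {ζ : AlgebraicClosure ℚ} (hζ : IsPrimitiveRoot ζ p)
    (m : (AlgebraicClosure ℚ ≃ₐ[ℚ] AlgebraicClosure ℚ) → ℕ)
    (hm : ∀ τ ∈ S40hI1 p B, τ rt = ζ ^ m τ * rt)
    (hSt : ∀ τ ∈ S40hI1 p B, (τ ∈ St ↔ p ∣ m τ)) :
    ¬ S40hPeuB p B St := by
  have hrt0 := tri_rt_ne_zero hp B hϖ0 hrt
  refine tri_not_peuB hp B St hϖ0 hϖlt hdisc hj hrt (fun τ hτ => ?_) (fun τ hτ => ?_)
  · rw [map_pow, hm τ hτ, mul_pow, ← pow_mul, mul_comm (m τ) p, pow_mul, hζ.pow_eq_one,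
      one_pow, one_mul]
  · rw [hSt τ hτ, hm τ hτ]
    constructor
    · intro hd
      rw [(hζ.pow_eq_one_iff_dvd (m τ)).mpr hd, one_mul]
    · intro h
      have h1 : ζ ^ m τ = 1 := by
        have h2 : ζ ^ m τ * rt = 1 * rt := by rw [h, one_mul]
        exact mul_right_cancel₀ hrt0 h2
      exact (hζ.pow_eq_one_iff_dvd (m τ)).mp h1

end Main

end Fermat.Agent.S40lib

end
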