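/-
Item 88 (S40), piece (B4), part 2 (helper12): the DISCRETENESS hypothesis of `tri_not_peuB`
is discharged from the library (`S33lib/LevVal`: coset norms, `K0` unramified).

`B` a valuation subring of `ℚ̄` over `p`, `I` its inertia group, `I1 = S40hI1 p B`.

* `triI1 p B`          : `S40hI1 p B` as a subgroup;
* `tri_index`          : `I1` has finite index `< p` in `I` (`I / I1` embeds into the primitive
  `p`-th roots of unity);
* `tri_hdisc`          : the fixed field of `I1` is discretely valued by `B`, with a uniformiser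
  `ϖ` such that `v(p) = v(ϖ)^e`, `0 < e`, `p ∤ e`;
* **`tri_not_peuB_p`** : `v(rt)^p = v(p)^j0`, `p ∤ j0`, `rt^p` fixed by `I1`,
  `St ∩ I1 = Stab_{I1}(rt)`  ⇒  `¬ S40hPeuB p B St`;
* **`tri_not_peuB_kappa`** : the same for `rt^p = κ ∈ K0` (fixed by `I`) whose valuation is not a
  `p`-th power in the value group of `K0`.
-/
import Mathlib
import Fermat.Agent.S36lib.Speed
import Fermat.Agent.S33lib.LevVal
import Fermat.Agent.S40lib.TresPeuB

set_option autoImplicit false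
set_option linter.unusedSectionVars false
set_option linter.unusedVariables false
set_option linter.style.haveILetI false

noncomputable section

namespace Fermat.Agent.S40lib

open Fermat.Agent.S24lib Fermat.Agent.S36lib Fermat.Agent.S33lib

/-- `S40hI1 p B` as a subgroup of the Galois group -/
def triI1 (p : ℕ) (B : ValuationSubring (AlgebraicClosure ℚ)) :
    Subgroup (AlgebraicClosure ℚ ≃ₐ[ℚ] AlgebraicClosure ℚ) where
  carrier := S40hI1 p B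
  mul_mem' := fun ha hb => tri_I1_mul ha hb
  one_mem' := tri_I1_one
  inv_mem' := fun ha => tri_I1_inv ha

theorem tri_mem_I1 {p : ℕ} {B : ValuationSubring (AlgebraicClosure ℚ)}
    {τ : AlgebraicClosure ℚ ≃ₐ[ℚ] AlgebraicClosure ℚ} : τ ∈ triI1 p B ↔ τ ∈ S40hI1 p B :=
  Iff.rfl

theorem triI1_le (p : ℕ) (B : ValuationSubring (AlgebraicClosure ℚ)) :
    triI1 p B ≤ B.inertiaSubgroupIn ℚ :=
  fun _ hτ => hτ.1

section Index

variable {p : ℕ} (hp : p.Prime) (B : ValuationSubring (AlgebraicClosure ℚ))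

include hp

/-- an inertia element fixing one primitive `p`-th root of unity lies in `S40hI1 p B` -/
theorem tri_mem_I1_of_fix {ζ : AlgebraicClosure ℚ} (hζ : IsPrimitiveRoot ζ p)
    {τ : AlgebraicClosure ℚ ≃ₐ[ℚ] AlgebraicClosure ℚ} (hτ : τ ∈ B.inertiaSubgroupIn ℚ)
    (hfix : τ ζ = ζ) : τ ∈ S40hI1 p B := by
  refine ⟨hτ, fun y hy => ?_⟩
  have hne : NeZero p := ⟨hp.ne_zero⟩
  obtain ⟨m, -, rfl⟩ := hζ.eq_pow_of_pow_eq_one hy
  rw [map_pow, hfix]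

/-- **the index of `I1` in `I` is finite and `< p`** -/
theorem tri_index :
    ((triI1 p B).subgroupOf (B.inertiaSubgroupIn ℚ)).FiniteIndex ∧
      ((triI1 p B).subgroupOf (B.inertiaSubgroupIn ℚ)).index < p := by
  classical
  haveI : NeZero p := ⟨hp.ne_zero⟩
  obtain ⟨ζ, hζ⟩ := HasEnoughRootsOfUnity.exists_primitiveRoot (AlgebraicClosure ℚ) p
  have hwd : ∀ a b : ↥(B.inertiaSubgroupIn ℚ),
      (QuotientGroup.leftRel ((triI1 p B).subgroupOf (B.inertiaSubgroupIn ℚ))) a b →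
      (⟨(a : AlgebraicClosure ℚ ≃ₐ[ℚ] AlgebraicClosure ℚ) ζ,
          (mem_primitiveRoots hp.pos).mpr (hζ.map_of_injective
            (a : AlgebraicClosure ℚ ≃ₐ[ℚ] AlgebraicClosure ℚ).injective)⟩ :
        ↥(primitiveRoots p (AlgebraicClosure ℚ))) =
      ⟨(b : AlgebraicClosure ℚ ≃ₐ[ℚ] AlgebraicClosure ℚ) ζ,
          (mem_primitiveRoots hp.pos).mpr (hζ.map_of_injective
            (b : AlgebraicClosure ℚ ≃ₐ[ℚ] AlgebraicClosure ℚ).injective)⟩ := by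
    intro a b hab
    rw [QuotientGroup.leftRel_apply] at hab
    have h1 : ((a⁻¹ * b : ↥(B.inertiaSubgroupIn ℚ)) :
        AlgebraicClosure ℚ ≃ₐ[ℚ] AlgebraicClosure ℚ) ∈ triI1 p B :=
      Subgroup.mem_subgroupOf.mp hab
    have h2 := h1.2 ζ hζ.pow_eq_one
    have h3 : ((a⁻¹ * b : ↥(B.inertiaSubgroupIn ℚ)) :
        AlgebraicClosure ℚ ≃ₐ[ℚ] AlgebraicClosure ℚ) ζ
        = (a : AlgebraicClosure ℚ ≃ₐ[ℚ] AlgebraicClosure ℚ)⁻¹
          ((b : AlgebraicClosure ℚ ≃ₐ[ℚ] AlgebraicClosure ℚ) ζ) := rfl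
    rw [h3] at h2
    have h4 : (a : AlgebraicClosure ℚ ≃ₐ[ℚ] AlgebraicClosure ℚ)
        ((a : AlgebraicClosure ℚ ≃ₐ[ℚ] AlgebraicClosure ℚ)⁻¹
          ((b : AlgebraicClosure ℚ ≃ₐ[ℚ] AlgebraicClosure ℚ) ζ))
        = (a : AlgebraicClosure ℚ ≃ₐ[ℚ] AlgebraicClosure ℚ) ζ := by rw [h2]
    rw [← AlgEquiv.mul_apply, mul_inv_cancel, AlgEquiv.one_apply] at h4
    exact Subtype.ext h4.symm
  let f : ↥(B.inertiaSubgroupIn ℚ) ⧸ (triI1 p B).subgroupOf (B.inertiaSubgroupIn ℚ) →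
      ↥(primitiveRoots p (AlgebraicClosure ℚ)) :=
    fun q => Quotient.liftOn' q
      (fun σ : ↥(B.inertiaSubgroupIn ℚ) =>
        (⟨(σ : AlgebraicClosure ℚ ≃ₐ[ℚ] AlgebraicClosure ℚ) ζ,
          (mem_primitiveRoots hp.pos).mpr (hζ.map_of_injective
            (σ : AlgebraicClosure ℚ ≃ₐ[ℚ] AlgebraicClosure ℚ).injective)⟩ :
          ↥(primitiveRoots p (AlgebraicClosure ℚ)))) hwd
  have hf_mk : ∀ σ : ↥(B.inertiaSubgroupIn ℚ),
      ((f (QuotientGroup.mk σ) : ↥(primitiveRoots p (AlgebraicClosure ℚ))) :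
        AlgebraicClosure ℚ) = (σ : AlgebraicClosure ℚ ≃ₐ[ℚ] AlgebraicClosure ℚ) ζ :=
    fun σ => rfl
  have hinj : Function.Injective f := by
    intro q1 q2 h
    induction q1 using QuotientGroup.induction_on with
    | H a =>
      induction q2 using QuotientGroup.induction_on with
      | H b =>
        have h1 : (a : AlgebraicClosure ℚ ≃ₐ[ℚ] AlgebraicClosure ℚ) ζ
            = (b : AlgebraicClosure ℚ ≃ₐ[ℚ] AlgebraicClosure ℚ) ζ := by
          rw [← hf_mk a, ← hf_mk b, h]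
        apply QuotientGroup.eq.mpr
        rw [Subgroup.mem_subgroupOf]
        refine tri_mem_I1_of_fix hp B hζ (a⁻¹ * b).2 ?_
        show (a : AlgebraicClosure ℚ ≃ₐ[ℚ] AlgebraicClosure ℚ)⁻¹
          ((b : AlgebraicClosure ℚ ≃ₐ[ℚ] AlgebraicClosure ℚ) ζ) = ζ
        rw [← h1, ← AlgEquiv.mul_apply, inv_mul_cancel, AlgEquiv.one_apply]
  haveI : Finite (↥(B.inertiaSubgroupIn ℚ) ⧸ (triI1 p B).subgroupOf (B.inertiaSubgroupIn ℚ)) :=
    Finite.of_injective f hinj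
  refine ⟨Subgroup.finiteIndex_of_finite_quotient, ?_⟩
  rw [Subgroup.index_eq_card]
  calc Nat.card (↥(B.inertiaSubgroupIn ℚ) ⧸ (triI1 p B).subgroupOf (B.inertiaSubgroupIn ℚ))
      ≤ Nat.card ↥(primitiveRoots p (AlgebraicClosure ℚ)) :=
        Nat.card_le_card_of_injective f hinj
    _ = (primitiveRoots p (AlgebraicClosure ℚ)).card := Nat.card_eq_finsetCard _
    _ = p.totient := hζ.card_primitiveRoots
    _ = p - 1 := Nat.totient_prime hp
    _ < p := Nat.sub_lt hp.pos Nat.one_pos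

/-- **discreteness of the fixed field of `I1`**, with a uniformiser `ϖ` such that
`v(p) = v(ϖ)^e`, `p ∤ e` -/
theorem tri_hdisc (hB : B.LiesOverPrime p) :
    ∃ (ϖ : AlgebraicClosure ℚ) (e : ℕ), ϖ ≠ 0 ∧ B.valuation ϖ < 1 ∧
      (∀ x : AlgebraicClosure ℚ, (∀ τ ∈ S40hI1 p B, τ x = x) → x ≠ 0 →
        ∃ n : ℤ, B.valuation x = B.valuation ϖ ^ n) ∧
      0 < e ∧ ¬ p ∣ e ∧ B.valuation (p : AlgebraicClosure ℚ) = B.valuation ϖ ^ e := by
  obtain ⟨hfin, hlt⟩ := tri_index hp B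
  obtain ⟨ϖ, hd, e, he0, he⟩ := lvv_vdDisc_fixedField B hp hB (triI1 p B) hfin
  obtain ⟨hϖK, hϖ0, hϖlt, hdisc⟩ := hd
  have hϖfix : ∀ σ ∈ triI1 p B, σ ∈ B.inertiaSubgroupIn ℚ → σ ϖ = ϖ :=
    fun σ hσ _ => (IntermediateField.mem_fixedField_iff _ _).mp hϖK σ hσ
  obtain ⟨n, hn⟩ := lvv_val_pow B hp hB (triI1 p B) hfin ϖ hϖ0 hϖfix
  rw [he, ← zpow_natCast (B.valuation ϖ) e, ← zpow_mul, ← zpow_natCast] at hn
  have h1 := tri_zpow_inj B hϖ0 hϖlt hn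
  have hed : e ∣ ((triI1 p B).subgroupOf (B.inertiaSubgroupIn ℚ)).index :=
    Int.natCast_dvd_natCast.mp ⟨n, h1⟩
  have hd0 : 0 < ((triI1 p B).subgroupOf (B.inertiaSubgroupIn ℚ)).index :=
    Nat.pos_of_ne_zero hfin.index_ne_zero
  have hle : e ≤ ((triI1 p B).subgroupOf (B.inertiaSubgroupIn ℚ)).index :=
    Nat.le_of_dvd hd0 hed
  refine ⟨ϖ, e, hϖ0, hϖlt, fun x hx hx0 => ?_, he0, fun hpe => ?_, he⟩
  · exact hdisc x ((IntermediateField.mem_fixedField_iff _ _).mpr hx) hx0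
  · have h2 := Nat.le_of_dvd he0 hpe
    omega

/-- **(TRES) excludes (PEU)**, `p`-form: no discreteness hypothesis.  `v(rt)^p = v(p)^j0`,
`p ∤ j0`. -/
theorem tri_not_peuB_p (hB : B.LiesOverPrime p)
    (St : Set (AlgebraicClosure ℚ ≃ₐ[ℚ] AlgebraicClosure ℚ))
    {rt : AlgebraicClosure ℚ} {j0 : ℤ} (hj0 : ¬ (p : ℤ) ∣ j0)
    (hrt : B.valuation rt ^ p = B.valuation (p : AlgebraicClosure ℚ) ^ j0)
    (hκ : ∀ τ ∈ S40hI1 p B, τ (rt ^ p) = rt ^ p)
    (hSt : ∀ τ ∈ S40hI1 p B, (τ ∈ St ↔ τ rt = rt)) :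
    ¬ S40hPeuB p B St := by
  obtain ⟨ϖ, e, hϖ0, hϖlt, hdisc, he0, hpe, he⟩ := tri_hdisc hp B hB
  refine tri_not_peuB hp B St hϖ0 hϖlt hdisc (j := (e : ℤ) * j0) (fun hd => ?_) ?_ hκ hSt
  · rcases (Int.Prime.dvd_mul' hp hd) with h | h
    · exact hpe (Int.natCast_dvd_natCast.mp h)
    · exact hj0 h
  · rw [hrt, he, ← zpow_natCast (B.valuation ϖ) e, ← zpow_mul]

/-- **(TRES) excludes (PEU)**, `κ`-form: `rt^p = κ ≠ 0`, `κ` fixed by the inertia group, and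
`v(κ)` is not a `p`-th power in the value group `v(p)^ℤ` of `K0`. -/
theorem tri_not_peuB_kappa (hB : B.LiesOverPrime p)
    (St : Set (AlgebraicClosure ℚ ≃ₐ[ℚ] AlgebraicClosure ℚ))
    {rt κ : AlgebraicClosure ℚ} (hκ0 : κ ≠ 0) (hpow : rt ^ p = κ)
    (hκI : ∀ τ ∈ B.inertiaSubgroupIn ℚ, τ κ = κ)
    (hnd : ∀ n : ℤ,
      B.valuation κ ≠ B.valuation (p : AlgebraicClosure ℚ) ^ ((p : ℤ) * n))
    (hSt : ∀ τ ∈ S40hI1 p B, (τ ∈ St ↔ τ rt = rt)) :
    ¬ S40hPeuB p B St := by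
  obtain ⟨j0, hj0⟩ := k0_val_eq_zpow B p hp hB κ hκI hκ0
  refine tri_not_peuB_p hp B hB St (j0 := j0) ?_ ?_ ?_ hSt
  · rintro ⟨n, rfl⟩
    exact hnd n hj0
  · rw [← map_pow, hpow, hj0]
  · intro τ hτ
    rw [hpow]
    exact hκI τ hτ.1

end Index

end Fermat.Agent.S40lib

end
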