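import Mathlib
import Fermat.Agent.S36lib.Speed
import Fermat.Agent.S40lib.TameFix
import Fermat.Agent.S40lib.TresDisc
import Fermat.Agent.S40lib.Final3

/-!
# Item 88 (S40), block (A-J): the hub of the second half of `S40hGeom3` (architect helper22)

Target: in a `p`-new non-Eisenstein Galois-stable eigenspace `V ⊂ J₀(M' p)[p]` with `p²` elements,
no `x ≠ 0` fixed by an inertia element moving `μ_p` has a peu ramifié stabiliser
(`¬ S40hPeuB p B (S40hStab x)`).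

The two geometric blocks:

* `S40jTame M' p B` (**Mazur's principle, unramified case**): a class of `V` fixed by the whole
  inertia group is zero.  (K0-rational Kummer function `tmf_main` → edge rule on `X` → Eisenstein
  step → level-0 step → `(KER2)` → `tpp_fixed_descent`.)
* `S40jWild M' p B` (**the wild case**): a class `x ≠ 0` of `V` fixed by an inertia element moving
  `μ_p` and moved by `S40hI1` has a canonical Kummer generator: `rt` with `rt ^ p = κ`, `κ ≠ 0`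
  fixed by inertia, `v(κ) ∉ p · v(K0)`, and `Stab_{I1}(x) = Stab_{I1}(rt)`.
  (cover `Y_t` inside `ℚ̄((q))`, Kummer descent, `ρ(x)`, edge rule on `Y`.)

`s40j_geom_peu`: the second half of `S40hGeom3` from the two blocks (`tmf_fixed`,
`tri_not_peuB_kappa`).
-/

set_option autoImplicit false
set_option linter.style.haveILetI false

noncomputable section

namespace Fermat.Agent.S40lib

open Fermat.Agent.GalRep ModularCurve Fermat.Agent.S31lib Fermat.Agent.S35lib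
  Fermat.Agent.S33lib

/-- **(J-TAME)**: in an eigenspace `V ⊂ J₀(M' p)[p]` as in `S40hGeom3`, a class fixed by the whole
inertia group at `B` is zero. -/
def S40jTame (M' p : ℕ) [NeZero M'] [NeZero (M' * p)]
    (B : ValuationSubring (AlgebraicClosure ℚ)) : Prop :=
  ∀ (S : Finset ℕ) (a : ℕ → ℤ) (V : AddSubgroup (JZero (M' * p))),
    (∀ ℓ : ℕ, ℓ.Prime → ℓ ∣ M' * p → ℓ ∈ S) →
    Nat.card V = p ^ 2 → (∀ x ∈ V, p • x = 0) →
    (∀ (σ : AlgebraicClosure ℚ ≃ₐ[ℚ] AlgebraicClosure ℚ), ∀ x ∈ V, σ • x ∈ V) →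
    S40hEig (M' * p) S a V → S40hNotAt M' p S a →
    (∃ ℓ : Nat.Primes, (ℓ : ℕ) ∉ S ∧ ¬ (p : ℤ) ∣ a ℓ - (1 + (ℓ : ℕ))) →
    ∀ x ∈ V, (∀ σ ∈ B.inertiaSubgroupIn ℚ, σ • x = x) → x = 0

/-- **(J-WILD)**: in an eigenspace `V ⊂ J₀(M' p)[p]` as in `S40hGeom3`, a class `x ≠ 0` fixed by an
inertia element moving `μ_p` and moved by some element of `S40hI1` has a Kummer generator `rt`:
`rt ^ p = κ ≠ 0`, `κ` fixed by inertia, `v(κ)` not a `p`-th power in `v(p)^ℤ`, and an element of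
`S40hI1` fixes `x` iff it fixes `rt`. -/
def S40jWild (M' p : ℕ) [NeZero M'] [NeZero (M' * p)]
    (B : ValuationSubring (AlgebraicClosure ℚ)) : Prop :=
  ∀ (S : Finset ℕ) (a : ℕ → ℤ) (V : AddSubgroup (JZero (M' * p))),
    (∀ ℓ : ℕ, ℓ.Prime → ℓ ∣ M' * p → ℓ ∈ S) →
    Nat.card V = p ^ 2 → (∀ x ∈ V, p • x = 0) →
    (∀ (σ : AlgebraicClosure ℚ ≃ₐ[ℚ] AlgebraicClosure ℚ), ∀ x ∈ V, σ • x ∈ V) →
    S40hEig (M' * p) S a V → S40hNotAt M' p S a →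
    (∃ ℓ : Nat.Primes, (ℓ : ℕ) ∉ S ∧ ¬ (p : ℤ) ∣ a ℓ - (1 + (ℓ : ℕ))) →
    ∀ x ∈ V, x ≠ 0 → (∃ τ₀ ∈ B.inertiaSubgroupIn ℚ, S33hMoves p τ₀ ∧ τ₀ • x = x) →
      (∃ σ ∈ S40hI1 p B, σ • x ≠ x) →
      ∃ rt κ : AlgebraicClosure ℚ, κ ≠ 0 ∧ rt ^ p = κ ∧
        (∀ τ ∈ B.inertiaSubgroupIn ℚ, τ κ = κ) ∧
        (∀ n : ℤ, B.valuation κ ≠ B.valuation (p : AlgebraicClosure ℚ) ^ ((p : ℤ) * n)) ∧
        ∀ τ ∈ S40hI1 p B, (τ • x = x ↔ τ rt = rt)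

/-- **the second half of `S40hGeom3`** (Mazur's principle at `p`) from (J-TAME) and (J-WILD). -/
theorem s40j_geom_peu (M' p : ℕ) [NeZero M'] [NeZero p] [NeZero (M' * p)]
    (hp : p.Prime) (hp2 : p ≠ 2) (hpM : ¬ p ∣ M')
    (B : ValuationSubring (AlgebraicClosure ℚ)) (hB : B.LiesOverPrime p)
    (hT : S40jTame M' p B) (hW : S40jWild M' p B)
    (S : Finset ℕ) (a : ℕ → ℤ) (V : AddSubgroup (JZero (M' * p)))
    (hS : ∀ ℓ : ℕ, ℓ.Prime → ℓ ∣ M' * p → ℓ ∈ S)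
    (hcard : Nat.card V = p ^ 2) (hVp : ∀ x ∈ V, p • x = 0)
    (hstab : ∀ (σ : AlgebraicClosure ℚ ≃ₐ[ℚ] AlgebraicClosure ℚ), ∀ x ∈ V, σ • x ∈ V)
    (hEig : S40hEig (M' * p) S a V) (hNot : S40hNotAt M' p S a)
    (hnE : ∃ ℓ : Nat.Primes, (ℓ : ℕ) ∉ S ∧ ¬ (p : ℤ) ∣ a ℓ - (1 + (ℓ : ℕ)))
    (x : JZero (M' * p)) (hx : x ∈ V) (hx0 : x ≠ 0)
    (hfix : ∃ τ₀ ∈ B.inertiaSubgroupIn ℚ, S33hMoves p τ₀ ∧ τ₀ • x = x) :
    ¬ S40hPeuB p B (S40hStab x) := by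
  by_cases h1 : S40hI1 p B ⊆ S40hStab x
  · -- tame case: `x` is fixed by the whole inertia group, hence zero
    obtain ⟨τ₀, hτ₀, hmv, hτ₀x⟩ := hfix
    have hI : ∀ σ ∈ B.inertiaSubgroupIn ℚ, σ • x = x :=
      tmf_fixed M' p hp hp2 hpM B hB S a V hS hVp hstab hEig hNot x hx
        (fun τ hτ => h1 hτ) τ₀ hτ₀ hmv hτ₀x
    exact absurd (hT S a V hS hcard hVp hstab hEig hNot hnE x hx hI) hx0
  · -- wild case
    have h2 : ∃ σ ∈ S40hI1 p B, σ • x ≠ x := by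
      by_contra hcon
      apply h1
      intro σ hσ
      by_contra hσx
      exact hcon ⟨σ, hσ, hσx⟩
    obtain ⟨rt, κ, hκ0, hpow, hκI, hnd, hSt⟩ :=
      hW S a V hS hcard hVp hstab hEig hNot hnE x hx hx0 hfix h2
    exact tri_not_peuB_kappa hp B hB (S40hStab x) hκ0 hpow hκI hnd
      (fun τ hτ => hSt τ hτ)

/-- **`S40hGeom3` from the three blocks**: `S40hI1Fix`-half (`hΩ`, first half of `S40hGeom3`),
(J-TAME), (J-WILD). -/
theorem s40j_geom3 (M' p : ℕ) [NeZero M'] [NeZero p] [NeZero (M' * p)]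
    (hp : p.Prime) (hp2 : p ≠ 2) (hpM : ¬ p ∣ M')
    (B : ValuationSubring (AlgebraicClosure ℚ)) (hB : B.LiesOverPrime p)
    (hΩ : ∀ (S : Finset ℕ) (a : ℕ → ℤ) (V : AddSubgroup (JZero (M' * p))),
      (∀ ℓ : ℕ, ℓ.Prime → ℓ ∣ M' * p → ℓ ∈ S) →
      Nat.card V = p ^ 2 → (∀ x ∈ V, p • x = 0) →
      (∀ (σ : AlgebraicClosure ℚ ≃ₐ[ℚ] AlgebraicClosure ℚ), ∀ x ∈ V, σ • x ∈ V) →
      S40hEig (M' * p) S a V → S40hNotAt M' p S a →
      (∃ ℓ : Nat.Primes, (ℓ : ℕ) ∉ S ∧ ¬ (p : ℤ) ∣ a ℓ - (1 + (ℓ : ℕ))) →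
      ∃ x ∈ V, x ≠ 0 ∧ ∀ τ ∈ S40hI1 p B, τ • x = x)
    (hT : S40jTame M' p B) (hW : S40jWild M' p B) :
    S40hGeom3 M' p B (S40hPeuB p B) := by
  intro S a V hS hcard hVp hstab hEig hNot hnE
  refine ⟨hΩ S a V hS hcard hVp hstab hEig hNot hnE, ?_⟩
  intro x hx hx0 hfix
  exact s40j_geom_peu M' p hp hp2 hpM B hB hT hW S a V hS hcard hVp hstab hEig hNot hnE
    x hx hx0 hfix

end Fermat.Agent.S40lib

end
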