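/-
Item 88 (S40), layer (LIFT), piece L2 (DER) (helper29).

For a series reduction `R` of `F ⊆ K((q))` to `Fk ⊆ k((q))` (`IsSeriesRed`): the derivation
`f ↦ df/dx` (`x ∈ O` with `d(x̄)/dq ≠ 0`) maps `O` to `O` and commutes with the reduction.

* `dth_derivative_coeffMap` : `d/dq` commutes with coefficient maps.
* `dth_DER`      : `z · x' = f'` (series), `x, f ∈ O`, `(x̄)' ≠ 0` ⇒ `z ∈ O` and `z̄ · (x̄)' = (f̄)'`.
* `dthDer`       : the derivation `d/dq : F → K((q))` of an intermediate field.
* `dth_D_eq`     : `Ω[F/K] = F · D x` ⇒ `D f = z • D x` with `z · x' = f'`.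
* `dth_D_of_series` : the converse (`x' ≠ 0`).
* `dth_der_main` : `f ∈ O` ⇒ `∃ z ∈ O`, `D f = z • D x` and `D (red f) = red z • D (red x)`.
-/
import Mathlib
import Fermat.Agent.GoodRed.DescTower
import Fermat.Agent.S24lib.FFLaurentDeriv

set_option autoImplicit false
set_option synthInstance.maxHeartbeats 400000

noncomputable section

namespace Fermat.Agent.S40lib

open AlgebraicCurve Fermat.Agent.RRlib Fermat.Agent.GoodRed ModularCurve HahnSeries
open KaehlerDifferential Fermat.Agent.S24lib

section CoeffDer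

variable {R S : Type*} [CommRing R] [CommRing S]

/-- `d/dq` commutes with coefficient maps. -/
theorem dth_derivative_coeffMap (φ : R →+* S) (y : LaurentSeries R) :
    LaurentSeries.derivative S (coeffMap φ y) = coeffMap φ (LaurentSeries.derivative R y) := by
  ext n
  rw [LaurentSeries.derivative_apply, LaurentSeries.hasseDeriv_coeff, coeffMap_coeff,
    coeffMap_coeff, LaurentSeries.derivative_apply, LaurentSeries.hasseDeriv_coeff, map_zsmul]

/-- the numerator of the quotient rule -/
def dthNum (a b : LaurentSeries R) : LaurentSeries R :=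
  LaurentSeries.derivative R a * b - a * LaurentSeries.derivative R b

theorem dth_coeffMap_num (φ : R →+* S) (a b : LaurentSeries R) :
    coeffMap φ (dthNum a b) = dthNum (coeffMap φ a) (coeffMap φ b) := by
  rw [dthNum, dthNum, map_sub, map_mul, map_mul, dth_derivative_coeffMap,
    dth_derivative_coeffMap]

end CoeffDer

section Quot

variable {L : Type*} [Field L]

/-- quotient rule: `x · b = a ⇒ x' · b² = a' b − a b'`. -/
theorem dth_quot_rule {x a b : LaurentSeries L} (h : x * b = a) :
    LaurentSeries.derivative L x * b ^ 2 = dthNum a b := by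
  have h1 := congrArg (LaurentSeries.derivative L) h
  rw [lsDerivative_mul] at h1
  rw [dthNum, ← h1, ← h]
  ring

end Quot

section Main

variable {K : Type*} [Field K] {A : ValuationSubring K}
variable {F : IntermediateField K (LaurentSeries K)}
variable {Fk : IntermediateField (IsLocalRing.ResidueField A)
  (LaurentSeries (IsLocalRing.ResidueField A))}
variable {R : ConstRed A (IsLocalRing.residue A) (↥Fk) (↥F)}

/-- the reduction of the quotient-rule numerator -/
theorem dth_red_num (hR : IsSeriesRed R) {x : ↥F} (hx : x ∈ R.O) {a b : LaurentSeries A}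
    (h : IsRep A F (x : LaurentSeries K) a b) :
    LaurentSeries.derivative (IsLocalRing.ResidueField A)
        ((R.red ⟨x, hx⟩ : ↥Fk) : LaurentSeries (IsLocalRing.ResidueField A))
      * coeffMap (IsLocalRing.residue A) b ^ 2
      = coeffMap (IsLocalRing.residue A) (dthNum a b) := by
  rw [dth_coeffMap_num]
  apply dth_quot_rule
  rw [hR.red_of_isRep h hx, div_mul_cancel₀ _ h.2.2.1]

theorem dth_K_num {x : ↥F} {a b : LaurentSeries A}
    (h : IsRep A F (x : LaurentSeries K) a b) :
    LaurentSeries.derivative K (x : LaurentSeries K) * coeffMap A.subtype b ^ 2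
      = coeffMap A.subtype (dthNum a b) := by
  rw [dth_coeffMap_num]
  exact dth_quot_rule h.2.2.2

/-- **(DER)**: if `z · x' = f'` as series, `x, f ∈ O` and `(x̄)' ≠ 0`, then `z ∈ O` and
`z̄ · (x̄)' = (f̄)'`. -/
theorem dth_DER (hR : IsSeriesRed R) (hfrac : HasPrimFrac A F) {x f z : ↥F}
    (hx : x ∈ R.O) (hf : f ∈ R.O)
    (hx' : LaurentSeries.derivative (IsLocalRing.ResidueField A)
      ((R.red ⟨x, hx⟩ : ↥Fk) : LaurentSeries (IsLocalRing.ResidueField A)) ≠ 0)
    (hz : (z : LaurentSeries K) * LaurentSeries.derivative K (x : LaurentSeries K)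
        = LaurentSeries.derivative K (f : LaurentSeries K)) :
    ∃ hzO : z ∈ R.O,
      ((R.red ⟨z, hzO⟩ : ↥Fk) : LaurentSeries (IsLocalRing.ResidueField A)) *
          LaurentSeries.derivative (IsLocalRing.ResidueField A)
            ((R.red ⟨x, hx⟩ : ↥Fk) : LaurentSeries (IsLocalRing.ResidueField A))
        = LaurentSeries.derivative (IsLocalRing.ResidueField A)
            ((R.red ⟨f, hf⟩ : ↥Fk) : LaurentSeries (IsLocalRing.ResidueField A)) := by
  obtain ⟨ax, bx, hrx⟩ := hR.exists_isRep hfrac hx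
  obtain ⟨af, bf, hrf⟩ := hR.exists_isRep hfrac hf
  have hKx := dth_K_num hrx
  have hKf := dth_K_num hrf
  have hkx := dth_red_num hR hx hrx
  have hkf := dth_red_num hR hf hrf
  have hbx : coeffMap (IsLocalRing.residue A) bx ≠ 0 := hrx.2.2.1
  have hbf : coeffMap (IsLocalRing.residue A) bf ≠ 0 := hrf.2.2.1
  have hnx : coeffMap (IsLocalRing.residue A) (dthNum ax bx) ≠ 0 := by
    rw [← hkx]
    exact mul_ne_zero hx' (pow_ne_zero _ hbx)
  -- the key equation over `K`
  have hkey : (z : LaurentSeries K) * coeffMap A.subtype (dthNum ax bx)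
        * coeffMap A.subtype bf ^ 2
      = coeffMap A.subtype (dthNum af bf) * coeffMap A.subtype bx ^ 2 := by
    rw [← hKx, ← hKf, ← hz]
    ring
  have hzO : z ∈ R.O := by
    by_contra hzn
    have hz0 : z ≠ 0 := by
      rintro rfl
      exact hzn (zero_mem _)
    have hw : z⁻¹ ∈ R.O := (R.O.mem_or_inv_mem z).resolve_left hzn
    have hwn : (z⁻¹ : ↥F) ∈ R.O.nonunits := by
      rw [ValuationSubring.mem_nonunits_iff_or]
      right
      rwa [inv_inv]
    have hred0 : R.red ⟨z⁻¹, hw⟩ = 0 := (R.red_eq_zero_iff ⟨z⁻¹, hw⟩).2 hwn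
    obtain ⟨aw, bw, hrw⟩ := hR.exists_isRep hfrac hw
    have hbw : coeffMap (IsLocalRing.residue A) bw ≠ 0 := hrw.2.2.1
    have haw : coeffMap (IsLocalRing.residue A) aw = 0 := by
      have h1 := hR.red_of_isRep hrw hw
      rw [hred0] at h1
      have h2 : coeffMap (IsLocalRing.residue A) aw / coeffMap (IsLocalRing.residue A) bw = 0 :=
        h1.symm
      rcases div_eq_zero_iff.1 h2 with h3 | h3
      · exact h3
      · exact absurd h3 hbw
    have hzc : (z : LaurentSeries K) ≠ 0 := fun h => hz0 (Subtype.ext h)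
    have hwz : ((z⁻¹ : ↥F) : LaurentSeries K) = (z : LaurentSeries K)⁻¹ := rfl
    have hweq : (z : LaurentSeries K)⁻¹ * coeffMap A.subtype bw = coeffMap A.subtype aw := by
      rw [← hwz]
      exact hrw.2.2.2
    have hK2 : coeffMap A.subtype (bw * dthNum ax bx * bf ^ 2)
        = coeffMap A.subtype (aw * dthNum af bf * bx ^ 2) := by
      rw [map_mul, map_mul, map_pow, map_mul, map_mul, map_pow, ← hweq]
      have e : (z : LaurentSeries K)⁻¹ * coeffMap A.subtype bw * coeffMap A.subtype (dthNum af bf)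
            * coeffMap A.subtype bx ^ 2
          = (z : LaurentSeries K)⁻¹ * coeffMap A.subtype bw
            * (coeffMap A.subtype (dthNum af bf) * coeffMap A.subtype bx ^ 2) := by ring
      rw [e, ← hkey]
      field_simp
    have hA := coeffMap_valSubtype_injective A hK2
    have hk2 := congrArg (coeffMap (IsLocalRing.residue A)) hA
    rw [map_mul, map_mul, map_pow, map_mul, map_mul, map_pow, haw, zero_mul, zero_mul] at hk2
    exact mul_ne_zero (mul_ne_zero hbw hnx) (pow_ne_zero _ hbf) hk2
  refine ⟨hzO, ?_⟩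
  obtain ⟨az, bz, hrz⟩ := hR.exists_isRep hfrac hzO
  have hbz : coeffMap (IsLocalRing.residue A) bz ≠ 0 := hrz.2.2.1
  have hK2 : coeffMap A.subtype (az * dthNum ax bx * bf ^ 2)
      = coeffMap A.subtype (bz * dthNum af bf * bx ^ 2) := by
    rw [map_mul, map_mul, map_pow, map_mul, map_mul, map_pow, ← hrz.2.2.2]
    linear_combination (coeffMap A.subtype bz) * hkey
  have hA := coeffMap_valSubtype_injective A hK2
  have hk2 := congrArg (coeffMap (IsLocalRing.residue A)) hA
  rw [map_mul, map_mul, map_pow, map_mul, map_mul, map_pow, ← hkx, ← hkf] at hk2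
  have hzred := hR.red_of_isRep hrz hzO
  rw [hzred]
  have hne : coeffMap (IsLocalRing.residue A) bx ^ 2
      * coeffMap (IsLocalRing.residue A) bf ^ 2 ≠ 0 :=
    mul_ne_zero (pow_ne_zero _ hbx) (pow_ne_zero _ hbf)
  rw [div_mul_eq_mul_div, div_eq_iff hbz]
  apply mul_right_cancel₀ hne
  linear_combination hk2

end Main

section Kaehler

variable {L : Type*} [Field L] (E : IntermediateField L (LaurentSeries L))

theorem dth_smul_eq (c : L) (x : LaurentSeries L) : c • x = HahnSeries.C c * x := by
  ext n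
  rw [HahnSeries.coeff_smul, HahnSeries.C_apply, HahnSeries.coeff_single_zero_mul, smul_eq_mul]

theorem dth_coe_smul (c : L) (a : ↥E) :
    ((c • a : ↥E) : LaurentSeries L) = HahnSeries.C c * (a : LaurentSeries L) := by
  have hconst : ((algebraMap L ↥E c : ↥E) : LaurentSeries L) = HahnSeries.C c := by
    show algebraMap L (LaurentSeries L) c = HahnSeries.C c
    rw [algebraMap_laurentSeries_eq_single]
    rfl
  rw [Algebra.smul_def, IntermediateField.coe_mul, hconst]

theorem dth_isScalarTower : IsScalarTower L ↥E (LaurentSeries L) :=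
  ⟨fun c a x => by
    show ((c • a : ↥E) : LaurentSeries L) * x = c • ((a : LaurentSeries L) * x)
    rw [dth_coe_smul, dth_smul_eq, mul_assoc]⟩

/-- the derivation `d/dq : E → L((q))` of an intermediate field of `L((q))`. -/
def dthDer : Derivation L ↥E (LaurentSeries L) :=
  haveI := dth_isScalarTower E
  Derivation.mk'
    { toFun := fun a => LaurentSeries.derivative L (a : LaurentSeries L)
      map_add' := fun a b => by
        rw [IntermediateField.coe_add, map_add]
      map_smul' := fun c a => by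
        rw [RingHom.id_apply, dth_smul_eq, dth_coe_smul, lsDerivative_mul, lsDerivative_C,
          mul_zero, add_zero] }
    (fun a b => by
      show LaurentSeries.derivative L ((a * b : ↥E) : LaurentSeries L)
        = a • LaurentSeries.derivative L (b : LaurentSeries L)
          + b • LaurentSeries.derivative L (a : LaurentSeries L)
      rw [IntermediateField.coe_mul, lsDerivative_mul]
      rfl)

theorem dthDer_apply (a : ↥E) :
    dthDer E a = LaurentSeries.derivative L (a : LaurentSeries L) := rfl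

variable {E}

/-- `Ω[E/L] = E · D x` ⇒ `D f = z • D x` with `z · x' = f'` (as series). -/
theorem dth_D_eq {x : ↥E} (hgen : ∀ ω : Ω[↥E⁄L], ∃ c : ↥E, ω = c • D L ↥E x) (f : ↥E) :
    ∃ z : ↥E, D L ↥E f = z • D L ↥E x ∧
      (z : LaurentSeries L) * LaurentSeries.derivative L (x : LaurentSeries L)
        = LaurentSeries.derivative L (f : LaurentSeries L) := by
  have := dth_isScalarTower E
  obtain ⟨z, hz⟩ := hgen (D L ↥E f)
  refine ⟨z, hz, ?_⟩
  have h1 := congrArg (dthDer E).liftKaehlerDifferential hz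
  rw [Derivation.liftKaehlerDifferential_comp_D, map_smul,
    Derivation.liftKaehlerDifferential_comp_D] at h1
  exact h1.symm

/-- the converse, when `x' ≠ 0`. -/
theorem dth_D_of_series {x : ↥E} (hgen : ∀ ω : Ω[↥E⁄L], ∃ c : ↥E, ω = c • D L ↥E x)
    (hx' : LaurentSeries.derivative L (x : LaurentSeries L) ≠ 0) {f z : ↥E}
    (h : (z : LaurentSeries L) * LaurentSeries.derivative L (x : LaurentSeries L)
        = LaurentSeries.derivative L (f : LaurentSeries L)) :
    D L ↥E f = z • D L ↥E x := by
  obtain ⟨c, hc, hcs⟩ := dth_D_eq hgen f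
  have h1 : (c : LaurentSeries L) = z := mul_right_cancel₀ hx' (hcs.trans h.symm)
  have hcz : c = z := Subtype.ext h1
  rw [← hcz]
  exact hc

end Kaehler

section MainKaehler

variable {K : Type*} [Field K] {A : ValuationSubring K}
variable {F : IntermediateField K (LaurentSeries K)}
variable {Fk : IntermediateField (IsLocalRing.ResidueField A)
  (LaurentSeries (IsLocalRing.ResidueField A))}
variable {R : ConstRed A (IsLocalRing.residue A) (↥Fk) (↥F)}

/-- **L2 (DER), Kähler form**: for `x ∈ O` with `(x̄)' ≠ 0` and `Ω = F·Dx`, `Ω_k = Fk·D x̄`: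
every `f ∈ O` has `D f = z • D x` with `z ∈ O` and `D (red f) = red z • D (red x)`. -/
theorem dth_der_main (hR : IsSeriesRed R) (hfrac : HasPrimFrac A F) {x : ↥F} (hx : x ∈ R.O)
    (hx' : LaurentSeries.derivative (IsLocalRing.ResidueField A)
      ((R.red ⟨x, hx⟩ : ↥Fk) : LaurentSeries (IsLocalRing.ResidueField A)) ≠ 0)
    (hgenF : ∀ ω : Ω[↥F⁄K], ∃ c : ↥F, ω = c • D K ↥F x)
    (hgenk : ∀ ω : Ω[↥Fk⁄IsLocalRing.ResidueField A],
      ∃ c : ↥Fk, ω = c • D (IsLocalRing.ResidueField A) ↥Fk (R.red ⟨x, hx⟩))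
    {f : ↥F} (hf : f ∈ R.O) :
    ∃ z : ↥F, ∃ hz : z ∈ R.O, D K ↥F f = z • D K ↥F x ∧
      D (IsLocalRing.ResidueField A) ↥Fk (R.red ⟨f, hf⟩)
        = R.red ⟨z, hz⟩ • D (IsLocalRing.ResidueField A) ↥Fk (R.red ⟨x, hx⟩) := by
  obtain ⟨z, hzD, hzs⟩ := dth_D_eq hgenF f
  obtain ⟨hzO, hred⟩ := dth_DER hR hfrac hx hf hx' hzs
  exact ⟨z, hzO, hzD, dth_D_of_series hgenk hx' hred⟩

end MainKaehler

end Fermat.Agent.S40lib

end
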