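/-
Item 88 (S40), layer (LIFT), piece L2 (DER) (helper29): the hypothesis `hder` of
`RedDiff.lean` (`rdf_apply`, `rdf_W_eq`, `rdf_lift`) for a series reduction.
-/
import Mathlib
import Fermat.Agent.S40lib.DerTheta

set_option autoImplicit false
set_option synthInstance.maxHeartbeats 400000

noncomputable section

namespace Fermat.Agent.S40lib

open AlgebraicCurve Fermat.Agent.RRlib Fermat.Agent.GoodRed ModularCurve HahnSeries
open KaehlerDifferential Fermat.Agent.S24lib

variable {K : Type*} [Field K] {A : ValuationSubring K}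
variable {F : IntermediateField K (LaurentSeries K)}
variable {Fk : IntermediateField (IsLocalRing.ResidueField A)
  (LaurentSeries (IsLocalRing.ResidueField A))}
variable {R : ConstRed A (IsLocalRing.residue A) (↥Fk) (↥F)}

/-- `span {D x} = ⊤` gives the generation hypothesis of `dth_D_eq`. -/
theorem dth_gen_of_span {L : Type*} [Field L] {E : IntermediateField L (LaurentSeries L)}
    {x : ↥E} (h : Submodule.span ↥E {D L ↥E x} = ⊤) :
    ∀ ω : Ω[↥E⁄L], ∃ c : ↥E, ω = c • D L ↥E x := by
  intro ω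
  have hω : ω ∈ Submodule.span ↥E {D L ↥E x} := by
    rw [h]
    exact Submodule.mem_top
  obtain ⟨c, hc⟩ := Submodule.mem_span_singleton.1 hω
  exact ⟨c, hc.symm⟩

/-- **(DER) in the exact shape of `hder` of `RedDiff.lean`**. -/
theorem dth_hder (hR : IsSeriesRed R) (hfrac : HasPrimFrac A F) (x : R.O)
    (hx' : LaurentSeries.derivative (IsLocalRing.ResidueField A)
      ((R.red x : ↥Fk) : LaurentSeries (IsLocalRing.ResidueField A)) ≠ 0)
    (hspanF : Submodule.span ↥F {D K ↥F ((x : R.O) : ↥F)} = ⊤)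
    (hspank : Submodule.span ↥Fk {D (IsLocalRing.ResidueField A) ↥Fk (R.red x)} = ⊤) :
    ∀ f : R.O, ∃ f' : R.O,
      D K ↥F ((f : R.O) : ↥F) = ((f' : R.O) : ↥F) • D K ↥F ((x : R.O) : ↥F) ∧
        D (IsLocalRing.ResidueField A) ↥Fk (R.red f)
          = R.red f' • D (IsLocalRing.ResidueField A) ↥Fk (R.red x) := by
  intro f
  obtain ⟨z, hz, h1, h2⟩ := dth_der_main hR hfrac x.2 hx' (dth_gen_of_span hspanF)
    (dth_gen_of_span hspank) f.2
  exact ⟨⟨z, hz⟩, h1, h2⟩

/-- the series form: for `f ∈ O`, the series `f'/x'` lies in `F`, in `O`, and reduces to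
`(f̄)'/(x̄)'`. -/
theorem dth_hder_series (hR : IsSeriesRed R) (hfrac : HasPrimFrac A F) (x : R.O)
    (hx' : LaurentSeries.derivative (IsLocalRing.ResidueField A)
      ((R.red x : ↥Fk) : LaurentSeries (IsLocalRing.ResidueField A)) ≠ 0)
    (hspanF : Submodule.span ↥F {D K ↥F ((x : R.O) : ↥F)} = ⊤) (f : R.O) :
    ∃ f' : R.O,
      (((f' : R.O) : ↥F) : LaurentSeries K)
          * LaurentSeries.derivative K ((((x : R.O) : ↥F)) : LaurentSeries K)
        = LaurentSeries.derivative K ((((f : R.O) : ↥F)) : LaurentSeries K) ∧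
      ((R.red f' : ↥Fk) : LaurentSeries (IsLocalRing.ResidueField A))
          * LaurentSeries.derivative (IsLocalRing.ResidueField A)
            ((R.red x : ↥Fk) : LaurentSeries (IsLocalRing.ResidueField A))
        = LaurentSeries.derivative (IsLocalRing.ResidueField A)
            ((R.red f : ↥Fk) : LaurentSeries (IsLocalRing.ResidueField A)) := by
  obtain ⟨z, -, hzs⟩ := dth_D_eq (dth_gen_of_span hspanF) ((f : R.O) : ↥F)
  obtain ⟨hzO, hred⟩ := dth_DER hR hfrac x.2 f.2 hx' hzs
  exact ⟨⟨z, hzO⟩, hzs, hred⟩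

end Fermat.Agent.S40lib

end
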