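import Mathlib
import Fermat.Agent.S36lib.Speed
import Fermat.Agent.RRlib.Hurwitz

/-!
# Item 88 (S40), layer (LIFT), piece (DLOG) (helper24): logarithmic differentials in
characteristic `p`

Pure function-field algebra (`RRlib`), for a function field `F / K` with Kähler differentials.

* `dlh_holomorphic_at` : if `ord_v u = 0` in `K` (e.g. `p ∣ ord_v u`, `K` of characteristic `p`)
  then `du / u` is regular at `v`: `0 ≤ ord_v (u⁻¹ • du)`;
* `dlh_holomorphic` : if `p ∣ ord_v u` at every place then `du / u` is holomorphic;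
* `dlh_dlog_mul`, `dlh_dlog_pow`, `dlh_dlog_const` : `dlog` is additive, kills `p`-th powers and
  constants, so it only depends on the class of `u` modulo `K^× · F^{× p}`;
* `dlh_exists_pow_of_D_eq_zero` : for a separating `x` (`F / K(x)` finite separable), `K` perfect
  of characteristic `p`: `du = 0 ⇒ u ∈ F^p`  (so `dlog u ≠ 0` for `u ∉ F^p`).
-/

set_option autoImplicit false

noncomputable section

namespace Fermat.Agent.S40lib

open AlgebraicCurve Fermat.Agent.S24lib Fermat.Agent.FFlib Fermat.Agent.RRlib IntermediateField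
  KaehlerDifferential

variable {K F : Type*} [Field K] [Field F] [Algebra K F]

/-! ### `dlog` -/

/-- the logarithmic differential `du / u` -/
def dlhDlog (K : Type*) {F : Type*} [Field K] [Field F] [Algebra K F] (u : F) : Ω[F⁄K] :=
  u⁻¹ • D K F u

theorem dlh_dlog_mul {u w : F} (hu : u ≠ 0) (hw : w ≠ 0) :
    dlhDlog K (u * w) = dlhDlog K u + dlhDlog K w := by
  unfold dlhDlog
  have h1 : (u * w)⁻¹ * u = w⁻¹ := by field_simp
  have h2 : (u * w)⁻¹ * w = u⁻¹ := by field_simp
  rw [Derivation.leibniz, smul_add, smul_smul, smul_smul, h1, h2, add_comm]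

theorem dlh_dlog_const (c : K) : dlhDlog K (algebraMap K F c) = 0 := by
  unfold dlhDlog
  rw [Derivation.map_algebraMap, smul_zero]

theorem dlh_D_pow_char (p : ℕ) [CharP F p] (s : F) : D K F (s ^ p) = 0 := by
  rw [Derivation.leibniz_pow, ← Nat.cast_smul_eq_nsmul F, CharP.cast_eq_zero, zero_smul]

theorem dlh_dlog_pow (p : ℕ) [CharP F p] (s : F) : dlhDlog K (s ^ p) = 0 := by
  unfold dlhDlog
  rw [dlh_D_pow_char p s, smul_zero]

/-- `dlog` only depends on the class modulo constants and `p`-th powers -/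
theorem dlh_dlog_class (p : ℕ) [CharP F p] {u : F} (hu : u ≠ 0) (c : K) (hc : c ≠ 0) {s : F}
    (hs : s ≠ 0) : dlhDlog K (algebraMap K F c * u * s ^ p) = dlhDlog K u := by
  have hcF : algebraMap K F c ≠ 0 := by
    rw [Ne, map_eq_zero]
    exact hc
  rw [dlh_dlog_mul (mul_ne_zero hcF hu) (pow_ne_zero p hs), dlh_dlog_mul hcF hu,
    dlh_dlog_const, dlh_dlog_pow, zero_add, add_zero]

/-! ### holomorphy -/

section Local

variable [RRBase K F] (v : Place K F) [v.DCoordGenerates] [Nontrivial Ω[F⁄K]]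

/-- **`dlog u` is regular at `v` if `ord_v u = 0` in `K`.** -/
theorem dlh_holomorphic_at {u : F} (hu : u ≠ 0) (hm : ((v.ord u : ℤ) : K) = 0) :
    0 ≤ v.ordDifferential (dlhDlog K u) := by
  obtain ⟨t, w, a, ht, hw0, hwo, hao, hc⟩ := hw_exists_coeff v hu
  have ht0 : t ≠ 0 := by
    rintro rfl
    simp at ht
  have hmF : ((v.ord u : ℤ) : F) = 0 := by
    have : ((v.ord u : ℤ) : F) = algebraMap K F ((v.ord u : ℤ) : K) := (map_intCast _ _).symm
    rw [this, hm, map_zero]
  rw [hmF, zero_mul, mul_zero, zero_add] at hc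
  unfold dlhDlog
  rw [Place.ordDifferential, v.differentialCoeff_smul, hc]
  rcases eq_or_ne a 0 with rfl | ha0
  · rw [mul_zero, mul_zero, v.ord_zero]
  · have hao' : 0 ≤ v.ord a := hao.resolve_left ha0
    rw [v.ord_mul (inv_ne_zero hu) (mul_ne_zero (zpow_ne_zero _ ht0) ha0), v.ord_inv,
      v.ord_mul (zpow_ne_zero _ ht0) ha0, v.ord_zpow, ht]
    omega

/-- `dlog u` is regular at `v` if `p ∣ ord_v u` (`K` of characteristic `p`). -/
theorem dlh_holomorphic_at_of_dvd (p : ℕ) [CharP K p] {u : F} (hu : u ≠ 0)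
    (hp : (p : ℤ) ∣ v.ord u) : 0 ≤ v.ordDifferential (dlhDlog K u) :=
  dlh_holomorphic_at v hu ((CharP.intCast_eq_zero_iff K p _).2 hp)

end Local

/-- **`dlog u` is holomorphic if `p ∣ ord_v u` at every place.** -/
theorem dlh_holomorphic [RRBase K F] [Nontrivial Ω[F⁄K]]
    (hgen : ∀ v : Place K F, v.DCoordGenerates) (p : ℕ) [CharP K p] {u : F} (hu : u ≠ 0)
    (hp : ∀ v : Place K F, (p : ℤ) ∣ v.ord u) (v : Place K F) :
    0 ≤ v.ordDifferential (dlhDlog K u) :=
  haveI := hgen v
  dlh_holomorphic_at_of_dvd v p hu (hp v)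

end Fermat.Agent.S40lib
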