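import Mathlib
import Fermat.Agent.S36lib.Speed
import Fermat.Agent.S40lib.DlogHol

/-!
# Item 88 (S40), layer (LIFT), piece (DLOG) part 2 (helper24): the kernel of `d` in
characteristic `p`

`F / K` a field extension, `K` perfect of characteristic `p`, `x ∈ F` with `F / K(x)` separable
(algebraic) and `dx ≠ 0`.  Then `du = 0 ⇒ u ∈ F^p`  (`dlh_exists_pow_of_D_eq_zero`), hence
`dlog u = 0 ⇒ u ∈ F^p` (`dlh_exists_pow_of_dlog_eq_zero`): `dlog` is injective on
`F^× / F^{× p}`.

Proof: `F = F^p(x)` (`F / F^p(x)` is separable and purely inseparable; Mathlib: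
`adjoin_simple_eq_adjoin_pow_expChar_of_isSeparable'`), so `u = R(x)` with `R ∈ F^p[T]` of degree
`< [F^p(x) : F^p] ≤ p`; `du = R'(x) dx`, so `R' = 0` by minimality, so `R` is constant.
-/

set_option autoImplicit false
set_option linter.style.haveILetI false

noncomputable section

namespace Fermat.Agent.S40lib

open KaehlerDifferential IntermediateField Polynomial

variable {K F : Type*} [Field K] [Field F] [Algebra K F]

/-- the subfield `F^p` of a field of characteristic `p` -/
def dlhFp (F : Type*) [Field F] (p : ℕ) [Fact p.Prime] [CharP F p] : Subfield F :=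
  (frobenius F p).fieldRange

theorem dlh_mem_Fp_iff (p : ℕ) [Fact p.Prime] [CharP F p] (a : F) :
    a ∈ dlhFp F p ↔ ∃ s : F, s ^ p = a := by
  rw [dlhFp, RingHom.mem_fieldRange]
  simp only [frobenius_def]

theorem dlh_D_coe_Fp (p : ℕ) [Fact p.Prime] [CharP F p] (c : dlhFp F p) :
    D K F (algebraMap (dlhFp F p) F c) = 0 := by
  obtain ⟨s, hs⟩ := (dlh_mem_Fp_iff p (c : F)).1 c.2
  have : algebraMap (dlhFp F p) F c = s ^ p := hs.symm
  rw [this]
  exact dlh_D_pow_char p s

/-- `d (R(x)) = R'(x) dx` for `R ∈ F^p[T]` -/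
theorem dlh_D_aeval (p : ℕ) [Fact p.Prime] [CharP F p] (x : F) (P : (dlhFp F p)[X]) :
    D K F (aeval x P) = (aeval x (derivative P)) • D K F x := by
  induction P using Polynomial.induction_on' with
  | add P Q hP hQ => rw [map_add, map_add, derivative_add, map_add, add_smul, hP, hQ]
  | monomial n c =>
    rw [aeval_monomial, derivative_monomial, aeval_monomial, Derivation.leibniz,
      dlh_D_coe_Fp p c, smul_zero, add_zero, Derivation.leibniz_pow, map_mul, map_natCast,
      ← Nat.cast_smul_eq_nsmul F, smul_smul, smul_smul]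

/-- `F = F^p(x)` if `F / K(x)` is separable (`K` perfect) -/
theorem dlh_adjoin_eq_top (p : ℕ) [Fact p.Prime] [CharP K p] [CharP F p] [PerfectField K]
    (x : F) [Algebra.IsSeparable K⟮x⟯ F] : (dlhFp F p)⟮x⟯ = ⊤ := by
  rw [eq_top_iff]
  intro a _
  haveI : CharP K⟮x⟯ p := charP_of_injective_algebraMap (algebraMap K K⟮x⟯).injective p
  haveI : ExpChar K⟮x⟯ p := ExpChar.prime Fact.out
  have h1 : a ∈ (K⟮x⟯)⟮a ^ p⟯ := by
    rw [← adjoin_simple_eq_adjoin_pow_expChar_of_isSeparable' K⟮x⟯ F a p]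
    exact mem_adjoin_simple_self _ a
  have h2 : ((K⟮x⟯)⟮a ^ p⟯).toSubfield ≤ ((dlhFp F p)⟮x⟯).toSubfield := by
    rw [adjoin_toSubfield, Subfield.closure_le]
    rintro z (⟨y, rfl⟩ | hz)
    · have hy : (y : F) ∈ (K⟮x⟯).toSubfield := y.2
      rw [adjoin_toSubfield] at hy
      refine (Subfield.closure_le.2 ?_) hy
      rintro w (⟨c, rfl⟩ | hw)
      · obtain ⟨c', hc'⟩ := surjective_frobenius K p c
        have hmem : algebraMap K F c ∈ dlhFp F p :=
          (dlh_mem_Fp_iff p _).2 ⟨algebraMap K F c', by rw [← map_pow, ← hc', frobenius_def]⟩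
        exact (dlhFp F p)⟮x⟯.algebraMap_mem ⟨_, hmem⟩
      · rw [Set.mem_singleton_iff] at hw
        subst hw
        exact mem_adjoin_simple_self _ _
    · rw [Set.mem_singleton_iff] at hz
      subst hz
      exact (dlhFp F p)⟮x⟯.algebraMap_mem ⟨a ^ p, (dlh_mem_Fp_iff p _).2 ⟨a, rfl⟩⟩
  exact h2 h1

/-- **The kernel of `d` is `F^p`.** -/
theorem dlh_exists_pow_of_D_eq_zero (p : ℕ) [Fact p.Prime] [CharP K p] [PerfectField K]
    (x : F) [Algebra.IsSeparable K⟮x⟯ F] (hx : D K F x ≠ 0) {u : F} (hu : D K F u = 0) :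
    ∃ s : F, s ^ p = u := by
  haveI : CharP F p := charP_of_injective_algebraMap (algebraMap K F).injective p
  have hp : p.Prime := Fact.out
  have hxint : IsIntegral (dlhFp F p) x := by
    refine IsIntegral.of_pow hp.pos ?_
    have : x ^ p = algebraMap (dlhFp F p) F ⟨x ^ p, (dlh_mem_Fp_iff p _).2 ⟨x, rfl⟩⟩ := rfl
    rw [this]
    exact isIntegral_algebraMap
  have htop := dlh_adjoin_eq_top (K := K) p x
  have hmem : u ∈ ((dlhFp F p)⟮x⟯).toSubalgebra := by
    rw [IntermediateField.mem_toSubalgebra, htop]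
    trivial
  rw [adjoin_simple_toSubalgebra_of_isAlgebraic hxint.isAlgebraic,
    Algebra.adjoin_singleton_eq_range_aeval] at hmem
  obtain ⟨P, hP⟩ := hmem
  have hm : (minpoly (dlhFp F p) x).Monic := minpoly.monic hxint
  set R := P %ₘ minpoly (dlhFp F p) x with hRdef
  have hR : aeval x R = u := by
    rw [hRdef, aeval_modByMonic_eq_self_of_root (minpoly.aeval (dlhFp F p) x)]
    exact hP
  have hdeg : R.degree < (minpoly (dlhFp F p) x).degree := degree_modByMonic_lt P hm
  -- the degree of the minimal polynomial is at most `p`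
  have hmp : (minpoly (dlhFp F p) x).degree ≤ (p : WithBot ℕ) := by
    have h1 := minpoly.min (dlhFp F p) x
      (monic_X_pow_sub_C (⟨x ^ p, (dlh_mem_Fp_iff p _).2 ⟨x, rfl⟩⟩ : dlhFp F p) hp.ne_zero)
      (by
        rw [map_sub, map_pow, aeval_X, aeval_C]
        exact sub_self _)
    rwa [degree_X_pow_sub_C hp.pos] at h1
  -- `R' (x) = 0`
  have hD : (aeval x (derivative R)) • D K F x = 0 := by
    rw [← dlh_D_aeval, hR, hu]
  have h0 : aeval x (derivative R) = 0 := (smul_eq_zero.1 hD).resolve_right hx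
  have hder : derivative R = 0 := by
    by_contra hne
    have h1 := minpoly.degree_le_of_ne_zero (dlhFp F p) x hne h0
    have h2 : (derivative R).degree ≤ R.degree := degree_derivative_le
    exact absurd (lt_of_le_of_lt (h1.trans h2) hdeg) (lt_irrefl _)
  -- `R` is constant
  have hRp : R.degree < (p : WithBot ℕ) := lt_of_lt_of_le hdeg hmp
  have hcoeff : ∀ n : ℕ, R.coeff (n + 1) = 0 := by
    intro n
    by_cases hn : n + 1 < p
    · have h1 := congrArg (fun q : (dlhFp F p)[X] => q.coeff n) hder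
      simp only [coeff_derivative, coeff_zero] at h1
      have h2 := congrArg (algebraMap (dlhFp F p) F) h1
      rw [map_mul, map_add, map_natCast, map_one, map_zero] at h2
      have h3 : ((n : F) + 1) ≠ 0 := by
        have : ((n + 1 : ℕ) : F) ≠ 0 := by
          rw [Ne, CharP.cast_eq_zero_iff F p]
          intro hdvd
          exact absurd (Nat.le_of_dvd (Nat.succ_pos n) hdvd) (not_le.2 hn)
        simpa using this
      have h4 := (mul_eq_zero.1 h2).resolve_right h3
      exact (map_eq_zero (algebraMap (dlhFp F p) F)).1 h4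
    · exact coeff_eq_zero_of_degree_lt
        (lt_of_lt_of_le hRp (by exact_mod_cast (not_lt.1 hn)))
  have hRC : R = C (R.coeff 0) := by
    ext n
    rcases n with _ | n
    · simp
    · rw [hcoeff n, coeff_C]
      simp
  rw [hRC, aeval_C] at hR
  exact (dlh_mem_Fp_iff p u).1 (hR ▸ (R.coeff 0).2)

/-- `dlog u = 0 ⇒ u ∈ F^p`: `dlog` is injective on `F^× / F^{× p}`. -/
theorem dlh_exists_pow_of_dlog_eq_zero (p : ℕ) [Fact p.Prime] [CharP K p] [PerfectField K]
    (x : F) [Algebra.IsSeparable K⟮x⟯ F] (hx : D K F x ≠ 0) {u : F} (hu0 : u ≠ 0)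
    (hu : dlhDlog K u = 0) : ∃ s : F, s ^ p = u := by
  refine dlh_exists_pow_of_D_eq_zero p x hx ?_
  unfold dlhDlog at hu
  exact (smul_eq_zero.1 hu).resolve_left (inv_ne_zero hu0)

/-- the converse: `dlog (s ^ p) = 0` is `dlh_dlog_pow`; in particular for `u ≠ 0`:
`dlog u = 0 ↔ u ∈ F^p`. -/
theorem dlh_dlog_eq_zero_iff (p : ℕ) [Fact p.Prime] [CharP K p] [PerfectField K]
    (x : F) [Algebra.IsSeparable K⟮x⟯ F] (hx : D K F x ≠ 0) {u : F} (hu0 : u ≠ 0) :
    dlhDlog K u = 0 ↔ ∃ s : F, s ^ p = u := by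
  haveI : CharP F p := charP_of_injective_algebraMap (algebraMap K F).injective p
  constructor
  · exact dlh_exists_pow_of_dlog_eq_zero p x hx hu0
  · rintro ⟨s, rfl⟩
    exact dlh_dlog_pow p s

/-! ### for a function field with a separating element -/

section Sep

open AlgebraicCurve Fermat.Agent.S24lib Fermat.Agent.FFlib Fermat.Agent.RRlib

variable [IsAlgClosed K] {x : F} [h : FFSep K x]

include h in
/-- `p ∣ ord_v u` at every place ⇒ `dlog u` is holomorphic (function field with a separating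
element, `K` algebraically closed of characteristic `p`). -/
theorem dlh_holomorphic_of_ffSep (p : ℕ) [CharP K p] {u : F} (hu : u ≠ 0)
    (hp : ∀ v : Place K F, (p : ℤ) ∣ v.ord u) (v : Place K F) :
    0 ≤ v.ordDifferential (dlhDlog K u) := by
  haveI : RRBase K F := rrBase_of_ffSep x
  haveI := fsNontrivial_kaehler (K := K) (x := x)
  exact dlh_holomorphic (fun v => fsDCoordGenerates (x := x) v) p hu hp v

include h in
/-- `dlog u = 0 ↔ u ∈ F^p` (function field with a separating element). -/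
theorem dlh_dlog_eq_zero_iff_of_ffSep (p : ℕ) [Fact p.Prime] [CharP K p] {u : F}
    (hu0 : u ≠ 0) : dlhDlog K u = 0 ↔ ∃ s : F, s ^ p = u := by
  haveI := h.sep
  exact dlh_dlog_eq_zero_iff p x (fsD_ne_zero (K := K) (x := x)) hu0

end Sep

end Fermat.Agent.S40lib
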