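import Mathlib
import Fermat.Agent.S36lib.Speed
import Fermat.Agent.S40lib.DlogKer
import Fermat.Agent.GoodRed.ModRR

/-!
# Item 88 (S40), layer (LIFT), piece (DLOG) part 3 (helper24): `dlog` on the reduced modular
function field `F_{N,k}` (`k` algebraically closed of characteristic `p`)

* `dlh_mod_holomorphic` : `p ∣ ord_v ū` at every place of `F_{N,k}` ⇒ `dū / ū` is holomorphic;
* `dlh_mod_dlog_eq_zero_iff` : `dū / ū = 0 ↔ ū ∈ F_{N,k}^p`;
* `dlh_mod_dlog_ne_zero` : if `ū` is not `c · s ^ p` (`c ∈ k`, i.e. the class of `ū` in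
  `Pic⁰[p]` is not `0`) then `dū / ū ≠ 0`.
-/

set_option autoImplicit false
set_option linter.style.haveILetI false

noncomputable section

namespace Fermat.Agent.S40lib

open ModularCurve AlgebraicCurve KaehlerDifferential
open Fermat.Agent.S24lib Fermat.Agent.FFlib Fermat.Agent.RRlib Fermat.Agent.GoodRed

variable (k : Type*) [Field k] [IsAlgClosed k] (N : ℕ) [NeZero N]

/-- `p ∣ ord_v ū` at every place ⇒ `dū / ū` is holomorphic on `X₀(N)_k`. -/
theorem dlh_mod_holomorphic (p : ℕ) [CharP k p] {u : ↥(modularFunctionFieldFullC k N)}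
    (hu : u ≠ 0)
    (hp : ∀ v : Place k ↥(modularFunctionFieldFullC k N), (p : ℤ) ∣ v.ord u)
    (v : Place k ↥(modularFunctionFieldFullC k N)) :
    0 ≤ v.ordDifferential (dlhDlog k u) :=
  haveI := mr_ffSep k N
  dlh_holomorphic_of_ffSep (x := jbarC k N) p hu hp v

/-- `dū / ū = 0 ↔ ū` is a `p`-th power in `F_{N,k}`. -/
theorem dlh_mod_dlog_eq_zero_iff (p : ℕ) [Fact p.Prime] [CharP k p]
    {u : ↥(modularFunctionFieldFullC k N)} (hu : u ≠ 0) :
    dlhDlog k u = 0 ↔ ∃ s : ↥(modularFunctionFieldFullC k N), s ^ p = u :=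
  haveI := mr_ffSep k N
  dlh_dlog_eq_zero_iff_of_ffSep (x := jbarC k N) p hu

/-- if `ū` is not a constant times a `p`-th power then `dū / ū ≠ 0`. -/
theorem dlh_mod_dlog_ne_zero (p : ℕ) [Fact p.Prime] [CharP k p]
    {u : ↥(modularFunctionFieldFullC k N)} (hu : u ≠ 0)
    (hnp : ∀ (c : k) (s : ↥(modularFunctionFieldFullC k N)),
      u ≠ algebraMap k ↥(modularFunctionFieldFullC k N) c * s ^ p) :
    dlhDlog k u ≠ 0 := by
  intro h0
  obtain ⟨s, hs⟩ := (dlh_mod_dlog_eq_zero_iff k N p hu).1 h0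
  exact hnp 1 s (by rw [map_one, one_mul, hs])

end Fermat.Agent.S40lib
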