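import Mathlib
import Fermat.Agent.S36lib.Speed
import Fermat.Agent.S24lib.FFLaurentDeriv
import Fermat.Agent.S37lib.Defs

/-!
# Item 88 (S40), layer (LIFT), piece N7a = HECKE-q, FORMAL identity (helper14).  Complete proofs.

Over ANY field `K` in which the prime `ℓ` is invertible, with a primitive `ℓ`-th root of unity
`ζ`: if the Laurent series `Z`, `Y ≠ 0` satisfy the conjugates formula (the shape of
`S37lib.NormConjStatement`, written in the variable `s = q^{1/ℓ}`)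

  `Z(s^ℓ) = Y(s^{ℓ²}) · ∏_{b < ℓ} Y(ζ^b s)`,

then the logarithmic derivatives `g = θY / Y`, `θ = q d/dq`, satisfy

  `θZ / Z = ℓ · g(q^ℓ) + U_ℓ g`,   i.e.  `(θZ/Z)_n = ℓ · g_{n/ℓ} + g_{nℓ}`,

the formal Hecke operator `T_ℓ` of weight `2` on `q`-expansions.

* `hqfTheta`, `hqfTheta_coeff`, `hqfTheta_mul` (Leibniz), `hqfTheta_qExpand`, `hqfTheta_twq`;
* `hqfDlog`, `hqfDlog_mul`, `hqfDlog_prod`, `hqfDlog_qExpand`, `hqfDlog_twq`;
* `hqfDlog_C`, `hqfDlog_pow`, `hqfDlog_pow_char`, `hqfDlog_kummer` (the logarithmic derivative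
  of `c · x ^ a · w ^ p` in characteristic `p` is `a · θx/x`), `hqfTheta_eq_zero_iff`;
* `hqf_sum_twq_coeff` : the coefficients of `∑_b g(ζ^b q)`;
* `hqf_dlog_conj` (series form), `hqf_coeff_mul`, `hqf_coeff_of_not_dvd`;
* `hqf_main` : the identity above, coefficientwise.
-/

set_option autoImplicit false
set_option linter.style.haveILetI false
set_option linter.unusedSectionVars false

noncomputable section

namespace Fermat.Agent.S40lib

open HahnSeries ModularCurve Fermat.Agent.S24lib Fermat.Agent.S37lib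

variable {K : Type*} [Field K]

/-- `θ = q d/dq` on Laurent series -/
def hqfTheta (x : LaurentSeries K) : LaurentSeries K :=
  HahnSeries.single (1 : ℤ) (1 : K) * LaurentSeries.derivative K x

theorem hqfTheta_coeff (x : LaurentSeries K) (n : ℤ) :
    (hqfTheta x).coeff n = (n : K) * x.coeff n := by
  have h1 : n = (n - 1) + 1 := by ring
  rw [hqfTheta]
  conv_lhs => rw [h1]
  rw [HahnSeries.coeff_single_mul_add, one_mul, lsCoeff_derivative]
  congr 2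
  · ring
  · ring

theorem hqfTheta_zero : hqfTheta (0 : LaurentSeries K) = 0 := by
  ext n
  rw [hqfTheta_coeff]
  simp

theorem hqfTheta_add (x y : LaurentSeries K) : hqfTheta (x + y) = hqfTheta x + hqfTheta y := by
  ext n
  simp only [hqfTheta_coeff, HahnSeries.coeff_add]
  ring

/-- Leibniz rule -/
theorem hqfTheta_mul (x y : LaurentSeries K) :
    hqfTheta (x * y) = x * hqfTheta y + y * hqfTheta x := by
  rw [hqfTheta, hqfTheta, hqfTheta, lsDerivative_mul]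
  ring

theorem hqfTheta_one : hqfTheta (1 : LaurentSeries K) = 0 := by
  ext n
  rw [hqfTheta_coeff, HahnSeries.coeff_one]
  by_cases hn : n = 0
  · subst hn
    simp
  · simp [hn]

variable (m : ℕ) [NeZero m]

/-- `θ (x(q^m)) = m · (θ x)(q^m)` -/
theorem hqfTheta_qExpand (x : LaurentSeries K) :
    hqfTheta (qExpand K m x) = (m : LaurentSeries K) * qExpand K m (hqfTheta x) := by
  have hm : ((m : ℕ) : LaurentSeries K) = HahnSeries.C (m : K) := by
    rw [map_natCast]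
  ext n
  rw [hqfTheta_coeff, hm, HahnSeries.C_mul_eq_smul, HahnSeries.coeff_smul, smul_eq_mul]
  by_cases hn : (m : ℤ) ∣ n
  · obtain ⟨k, rfl⟩ := hn
    rw [qExpand_coeff_mul, qExpand_coeff_mul, hqfTheta_coeff]
    push_cast
    ring
  · rw [qExpand_coeff_of_not_dvd m _ hn, qExpand_coeff_of_not_dvd m _ hn]
    simp

omit [NeZero m] in
/-- `θ (x(u q)) = (θ x)(u q)` -/
theorem hqfTheta_twq (u : Kˣ) (x : LaurentSeries K) :
    hqfTheta (twq u x) = twq u (hqfTheta x) := by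
  ext n
  rw [hqfTheta_coeff, twq_coeff, twq_coeff, hqfTheta_coeff]
  ring

/-- the logarithmic derivative `θ x / x` -/
def hqfDlog (x : LaurentSeries K) : LaurentSeries K := hqfTheta x / x

omit [NeZero m] in
theorem hqfDlog_mul {x y : LaurentSeries K} (hx : x ≠ 0) (hy : y ≠ 0) :
    hqfDlog (x * y) = hqfDlog x + hqfDlog y := by
  rw [hqfDlog, hqfDlog, hqfDlog, hqfTheta_mul]
  field_simp
  ring

omit [NeZero m] in
theorem hqfDlog_one : hqfDlog (1 : LaurentSeries K) = 0 := by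
  rw [hqfDlog, hqfTheta_one, zero_div]

omit [NeZero m] in
theorem hqfDlog_prod {ι : Type*} (s : Finset ι) (f : ι → LaurentSeries K)
    (hf : ∀ i ∈ s, f i ≠ 0) :
    hqfDlog (∏ i ∈ s, f i) = ∑ i ∈ s, hqfDlog (f i) := by
  classical
  induction s using Finset.induction_on with
  | empty => simp [hqfDlog_one]
  | insert a s ha ih =>
    rw [Finset.prod_insert ha, Finset.sum_insert ha,
      hqfDlog_mul (hf a (Finset.mem_insert_self a s))
        (Finset.prod_ne_zero_iff.mpr fun i hi => hf i (Finset.mem_insert_of_mem hi)),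
      ih fun i hi => hf i (Finset.mem_insert_of_mem hi)]

theorem hqfDlog_qExpand (x : LaurentSeries K) :
    hqfDlog (qExpand K m x) = (m : LaurentSeries K) * qExpand K m (hqfDlog x) := by
  rw [hqfDlog, hqfDlog, hqfTheta_qExpand, map_div₀, mul_div_assoc]

omit [NeZero m] in
theorem hqfDlog_twq (u : Kˣ) (x : LaurentSeries K) :
    hqfDlog (twq u x) = twq u (hqfDlog x) := by
  rw [hqfDlog, hqfDlog, hqfTheta_twq, map_div₀]

omit [NeZero m] in
theorem hqfTheta_C (c : K) : hqfTheta (HahnSeries.C c : LaurentSeries K) = 0 := by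
  ext n
  rw [hqfTheta_coeff, HahnSeries.C_apply]
  by_cases hn : n = 0
  · subst hn
    simp
  · rw [HahnSeries.coeff_single_of_ne hn, mul_zero, HahnSeries.coeff_zero]

omit [NeZero m] in
theorem hqfDlog_C (c : K) : hqfDlog (HahnSeries.C c : LaurentSeries K) = 0 := by
  rw [hqfDlog, hqfTheta_C, zero_div]

omit [NeZero m] in
theorem hqfDlog_pow {x : LaurentSeries K} (hx : x ≠ 0) (n : ℕ) :
    hqfDlog (x ^ n) = (n : LaurentSeries K) * hqfDlog x := by
  induction n with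
  | zero => simp [hqfDlog_one]
  | succ n ih =>
    rw [pow_succ, hqfDlog_mul (pow_ne_zero n hx) hx, ih]
    push_cast
    ring

omit [NeZero m] in
/-- in characteristic `p` the logarithmic derivative of a `p`-th power vanishes -/
theorem hqfDlog_pow_char (p : ℕ) [CharP K p] {x : LaurentSeries K} (hx : x ≠ 0) :
    hqfDlog (x ^ p) = 0 := by
  rw [hqfDlog_pow hx]
  have h : ((p : ℕ) : LaurentSeries K) = HahnSeries.C ((p : ℕ) : K) := by rw [map_natCast]
  rw [h, CharP.cast_eq_zero K p, map_zero, zero_mul]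

omit [NeZero m] in
/-- the logarithmic derivative of `c · x ^ a · w ^ p` in characteristic `p` -/
theorem hqfDlog_kummer (p : ℕ) [CharP K p] {c : K} (hc : c ≠ 0) {x w : LaurentSeries K}
    (hx : x ≠ 0) (hw : w ≠ 0) (a : ℕ) :
    hqfDlog (HahnSeries.C c * x ^ a * w ^ p) = (a : LaurentSeries K) * hqfDlog x := by
  have hC : (HahnSeries.C c : LaurentSeries K) ≠ 0 := by
    rw [Ne, map_eq_zero_iff _ HahnSeries.C_injective]
    exact hc
  rw [hqfDlog_mul (mul_ne_zero hC (pow_ne_zero a hx)) (pow_ne_zero p hw),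
    hqfDlog_mul hC (pow_ne_zero a hx), hqfDlog_C, zero_add, hqfDlog_pow hx,
    hqfDlog_pow_char p hw, add_zero]

omit [NeZero m] in
/-- `θ x = 0` iff all coefficients of `x` of index prime to the characteristic vanish -/
theorem hqfTheta_eq_zero_iff (x : LaurentSeries K) :
    hqfTheta x = 0 ↔ ∀ n : ℤ, (n : K) ≠ 0 → x.coeff n = 0 := by
  constructor
  · intro h n hn
    have h1 := congrArg (fun y : LaurentSeries K => y.coeff n) h
    simp only [hqfTheta_coeff, HahnSeries.coeff_zero] at h1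
    rcases mul_eq_zero.mp h1 with h2 | h2
    · exact absurd h2 hn
    · exact h2
  · intro h
    ext n
    rw [hqfTheta_coeff, HahnSeries.coeff_zero]
    by_cases hn : (n : K) = 0
    · rw [hn, zero_mul]
    · rw [h n hn, mul_zero]

/-! ### the sum over the twists -/

variable (ℓ : ℕ) [NeZero ℓ]

omit [NeZero m] in
/-- `∑_{b < ℓ} (ζ^b)^n = ℓ` if `ℓ ∣ n`, and `0` otherwise -/
theorem hqf_sum_zpow (ζ : Kˣ) (hζ : IsPrimitiveRoot (ζ : K) ℓ) (n : ℤ) :
    ∑ b ∈ Finset.range ℓ, (((ζ ^ b) ^ n : Kˣ) : K) = if (ℓ : ℤ) ∣ n then (ℓ : K) else 0 := by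
  have hζu : IsPrimitiveRoot ζ ℓ := IsPrimitiveRoot.coe_units_iff.mp hζ
  set w : Kˣ := ζ ^ n with hw
  have hterm : ∀ b : ℕ, ((ζ ^ b) ^ n : Kˣ) = w ^ b := by
    intro b
    rw [hw, ← zpow_natCast ζ b, ← zpow_mul, mul_comm, zpow_mul, zpow_natCast]
  simp only [hterm, Units.val_pow_eq_pow_val]
  have hwℓ : (w : K) ^ ℓ = 1 := by
    rw [← Units.val_pow_eq_pow_val, hw, ← zpow_natCast, ← zpow_mul, mul_comm, zpow_mul,
      zpow_natCast, hζu.pow_eq_one, one_zpow, Units.val_one]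
  by_cases hn : (ℓ : ℤ) ∣ n
  · rw [if_pos hn]
    have hw1 : w = 1 := by
      rw [hw]
      exact (hζu.zpow_eq_one_iff_dvd n).mpr hn
    rw [hw1, Units.val_one]
    simp
  · rw [if_neg hn]
    have hw1 : (w : K) ≠ 1 := by
      intro h
      apply hn
      apply (hζu.zpow_eq_one_iff_dvd n).mp
      rw [← hw]
      exact Units.ext h
    have hgeom := mul_geom_sum (w : K) ℓ
    rw [hwℓ, sub_self] at hgeom
    rcases mul_eq_zero.mp hgeom with h | h
    · exact absurd (sub_eq_zero.mp h) hw1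
    · exact h

omit [NeZero m] in
/-- the coefficients of `∑_{b < ℓ} g(ζ^b q)` -/
theorem hqf_sum_twq_coeff (ζ : Kˣ) (hζ : IsPrimitiveRoot (ζ : K) ℓ) (g : LaurentSeries K)
    (n : ℤ) :
    (∑ b ∈ Finset.range ℓ, twq (ζ ^ b) g).coeff n
      = (if (ℓ : ℤ) ∣ n then (ℓ : K) else 0) * g.coeff n := by
  rw [← hqf_sum_zpow ℓ ζ hζ n, Finset.sum_mul]
  have h : ∀ s : Finset ℕ, (∑ b ∈ s, twq (ζ ^ b) g).coeff n
      = ∑ b ∈ s, (((ζ ^ b) ^ n : Kˣ) : K) * g.coeff n := by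
    intro s
    classical
    induction s using Finset.induction_on with
    | empty => simp
    | insert a s ha ih =>
      rw [Finset.sum_insert ha, Finset.sum_insert ha, HahnSeries.coeff_add, ih, twq_coeff]
  exact h _

/-! ### the formal identity -/

omit [NeZero m] in
theorem hqf_qExpand_ne_zero (x : LaurentSeries K) (hx : x ≠ 0) : qExpand K ℓ x ≠ 0 :=
  (map_ne_zero (qExpand K ℓ)).mpr hx

omit [NeZero m] [NeZero ℓ] in
theorem hqf_twq_ne_zero (u : Kˣ) (x : LaurentSeries K) (hx : x ≠ 0) : twq u x ≠ 0 :=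
  (map_ne_zero (twq u)).mpr hx

omit [NeZero m] in
/-- **N7a, series form**: the conjugates formula implies
`ℓ · (θZ/Z)(q^ℓ) = ℓ² · g(q^{ℓ²}) + ∑_b g(ζ^b q)`, `g = θY/Y`. -/
theorem hqf_dlog_conj [NeZero (ℓ * ℓ)] (ζ : Kˣ) (Y Z : LaurentSeries K) (hY : Y ≠ 0)
    (hconj : qExpand K ℓ Z = qExpand K (ℓ * ℓ) Y * ∏ b ∈ Finset.range ℓ, twq (ζ ^ b) Y) :
    (ℓ : LaurentSeries K) * qExpand K ℓ (hqfDlog Z)
      = ((ℓ * ℓ : ℕ) : LaurentSeries K) * qExpand K (ℓ * ℓ) (hqfDlog Y)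
        + ∑ b ∈ Finset.range ℓ, twq (ζ ^ b) (hqfDlog Y) := by
  have h1 := congrArg hqfDlog hconj
  rw [hqfDlog_qExpand, hqfDlog_mul (hqf_qExpand_ne_zero (ℓ * ℓ) Y hY)
    (Finset.prod_ne_zero_iff.mpr fun b _ => hqf_twq_ne_zero (ζ ^ b) Y hY),
    hqfDlog_qExpand, hqfDlog_prod _ _ fun b _ => hqf_twq_ne_zero (ζ ^ b) Y hY] at h1
  rw [h1]
  congr 1
  exact Finset.sum_congr rfl fun b _ => hqfDlog_twq (ζ ^ b) Y

omit [NeZero m] in
/-- **N7a, coefficient form at the multiples of `ℓ`**: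
`(θZ/Z)_{ℓ k} = ℓ · g_k + g_{ℓ² k}`. -/
theorem hqf_coeff_mul [NeZero (ℓ * ℓ)] (hℓK : (ℓ : K) ≠ 0) (ζ : Kˣ)
    (hζ : IsPrimitiveRoot (ζ : K) ℓ) (Y Z : LaurentSeries K) (hY : Y ≠ 0)
    (hconj : qExpand K ℓ Z = qExpand K (ℓ * ℓ) Y * ∏ b ∈ Finset.range ℓ, twq (ζ ^ b) Y)
    (k : ℤ) :
    (hqfDlog Z).coeff ((ℓ : ℤ) * k)
      = (ℓ : K) * (hqfDlog Y).coeff k + (hqfDlog Y).coeff ((ℓ : ℤ) * ((ℓ : ℤ) * k)) := by
  have h := congrArg (fun x : LaurentSeries K => x.coeff ((ℓ : ℤ) * ((ℓ : ℤ) * k)))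
    (hqf_dlog_conj ℓ ζ Y Z hY hconj)
  simp only [HahnSeries.coeff_add] at h
  have hC : ∀ (a : ℕ) (x : LaurentSeries K) (n : ℤ),
      (((a : ℕ) : LaurentSeries K) * x).coeff n = (a : K) * x.coeff n := by
    intro a x n
    have ha : ((a : ℕ) : LaurentSeries K) = HahnSeries.C (a : K) := by rw [map_natCast]
    rw [ha, HahnSeries.C_mul_eq_smul, HahnSeries.coeff_smul, smul_eq_mul]
  have h2 : (ℓ : ℤ) * ((ℓ : ℤ) * k) = ((ℓ * ℓ : ℕ) : ℤ) * k := by
    push_cast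
    ring
  rw [hC, hC, qExpand_coeff_mul, hqf_sum_twq_coeff ℓ ζ hζ, if_pos (dvd_mul_right _ _)] at h
  rw [h2, qExpand_coeff_mul, ← h2] at h
  have h3 : (ℓ : K) * (hqfDlog Z).coeff ((ℓ : ℤ) * k)
      = (ℓ : K) * ((ℓ : K) * (hqfDlog Y).coeff k
        + (hqfDlog Y).coeff ((ℓ : ℤ) * ((ℓ : ℤ) * k))) := by
    rw [h]
    push_cast
    ring
  exact mul_left_cancel₀ hℓK h3

omit [NeZero m] in
/-- **N7a, coefficient form away from the multiples of `ℓ`**: `(θZ/Z)_n = g_{ℓ n}`. -/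
theorem hqf_coeff_of_not_dvd [NeZero (ℓ * ℓ)] (hℓ : ℓ.Prime) (hℓK : (ℓ : K) ≠ 0) (ζ : Kˣ)
    (hζ : IsPrimitiveRoot (ζ : K) ℓ) (Y Z : LaurentSeries K) (hY : Y ≠ 0)
    (hconj : qExpand K ℓ Z = qExpand K (ℓ * ℓ) Y * ∏ b ∈ Finset.range ℓ, twq (ζ ^ b) Y)
    (n : ℤ) (hn : ¬ (ℓ : ℤ) ∣ n) :
    (hqfDlog Z).coeff n = (hqfDlog Y).coeff ((ℓ : ℤ) * n) := by
  have h := congrArg (fun x : LaurentSeries K => x.coeff ((ℓ : ℤ) * n))
    (hqf_dlog_conj ℓ ζ Y Z hY hconj)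
  simp only [HahnSeries.coeff_add] at h
  have hC : ∀ (a : ℕ) (x : LaurentSeries K) (n : ℤ),
      (((a : ℕ) : LaurentSeries K) * x).coeff n = (a : K) * x.coeff n := by
    intro a x n
    have ha : ((a : ℕ) : LaurentSeries K) = HahnSeries.C (a : K) := by rw [map_natCast]
    rw [ha, HahnSeries.C_mul_eq_smul, HahnSeries.coeff_smul, smul_eq_mul]
  have hnd : ¬ ((ℓ * ℓ : ℕ) : ℤ) ∣ (ℓ : ℤ) * n := by
    intro hd
    apply hn
    have hℓ0 : (ℓ : ℤ) ≠ 0 := by exact_mod_cast hℓ.ne_zero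
    have h4 : (ℓ : ℤ) * (ℓ : ℤ) ∣ (ℓ : ℤ) * n := by
      have : ((ℓ * ℓ : ℕ) : ℤ) = (ℓ : ℤ) * (ℓ : ℤ) := by push_cast; ring
      rwa [this] at hd
    exact (mul_dvd_mul_iff_left hℓ0).mp h4
  rw [hC, hC, qExpand_coeff_mul, hqf_sum_twq_coeff ℓ ζ hζ, if_pos (dvd_mul_right _ _),
    qExpand_coeff_of_not_dvd (ℓ * ℓ) _ hnd, mul_zero, zero_add] at h
  exact mul_left_cancel₀ hℓK h

omit [NeZero m] in
/-- **N7a (HECKE-q, formal identity)**: under the conjugates formula, the logarithmic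
derivative of `Z` is the formal Hecke operator `T_ℓ` of weight `2` applied to the logarithmic
derivative `g` of `Y`: `(θZ/Z)_n = ℓ · g_{n/ℓ} + g_{ℓ n}` (first term only if `ℓ ∣ n`). -/
theorem hqf_main [NeZero (ℓ * ℓ)] (hℓ : ℓ.Prime) (hℓK : (ℓ : K) ≠ 0) (ζ : Kˣ)
    (hζ : IsPrimitiveRoot (ζ : K) ℓ) (Y Z : LaurentSeries K) (hY : Y ≠ 0)
    (hconj : qExpand K ℓ Z = qExpand K (ℓ * ℓ) Y * ∏ b ∈ Finset.range ℓ, twq (ζ ^ b) Y)
    (n : ℤ) :
    (hqfDlog Z).coeff n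
      = (if (ℓ : ℤ) ∣ n then (ℓ : K) * (hqfDlog Y).coeff (n / (ℓ : ℤ)) else 0)
        + (hqfDlog Y).coeff ((ℓ : ℤ) * n) := by
  by_cases hn : (ℓ : ℤ) ∣ n
  · rw [if_pos hn]
    obtain ⟨k, rfl⟩ := hn
    have hℓ0 : (ℓ : ℤ) ≠ 0 := by exact_mod_cast hℓ.ne_zero
    rw [Int.mul_ediv_cancel_left _ hℓ0]
    exact hqf_coeff_mul ℓ hℓK ζ hζ Y Z hY hconj k
  · rw [if_neg hn, zero_add]
    exact hqf_coeff_of_not_dvd ℓ hℓ hℓK ζ hζ Y Z hY hconj n hn

end Fermat.Agent.S40lib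

end
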