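import Mathlib
import Fermat.Agent.S36lib.Speed
import Fermat.Agent.S34lib.ConstRedInf
import Fermat.Agent.GoodRed.DescNorm
import Fermat.Agent.GoodRed.DescDeg
import Fermat.Agent.GoodRed.HredMain
import Fermat.Agent.S20_Comb

/-!
# Item 88 (S40), block (P2), piece (a) **HECKE-RED** (helper4).  Complete proofs.

Level `M p` (`p ∤ M`), `A` a valuation ring of `ℚ̄` over `p` with residue field `k`, `ℓ ∤ M p`
a prime.  `R` is a series reduction of `F_{Mp}` with residue field `F_{M,k}` (the Gauss valuation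
of the `q`-expansion at `∞`).  Then the Hecke operator `T_ℓ u = N_α (β u)` on functions commutes
with the reduction:

  `red_R (N_α (β u)) = N_ᾱ (β̄ (red_R u))`,   `u ∈ O_R`,

where `ᾱ = inclK`, `β̄ = hkrBetaK : F_{M,k} → F_{Mℓ,k}` (`q ↦ q^ℓ`).

* `hkrBetaK` : the degeneracy map `β̄` in characteristic `p`;
* `hkr_beta_red` : (generic) `q ↦ q^ℓ` commutes with two series reductions;
* `hkr_exists_red` : the series reduction of `F_{Mpℓ}` with residue field `F_{Mℓ,k}`;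
* `hkr_isTower` : the two series reductions form a tower along `α`, `ᾱ`;
* `hkr_finrank_eq` : `[F_{Mpℓ} : F_{Mp}] = [F_{Mℓ,k} : F_{M,k}]`;
* `hkr_norm_red` : `red_R (N_α y) = N_ᾱ (red_{R_ℓ} y)` for `y ∈ O_{R_ℓ}`;
* `hkr_main` : HECKE-RED.
* `hkr_good_*` : the same at a level `M` prime to `p` (good reduction), for BAR-ZERO.
-/

set_option autoImplicit false
set_option linter.style.haveILetI false
set_option linter.unusedSectionVars false
set_option linter.unusedVariables false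
set_option synthInstance.maxHeartbeats 400000

noncomputable section

namespace Fermat.Agent.S40lib

open ModularCurve AlgebraicCurve HahnSeries Fermat.Agent.GoodRed Fermat.Agent.GM
  Fermat.Agent.S24lib Fermat.Agent.HeckeBar Fermat.Agent.S34lib Fermat.Agent.S36lib

/-- the degeneracy map `β̄ : F_{M,k} → F_{Mℓ,k}`, `q ↦ q^ℓ`, over any field `k` -/
def hkrBetaK (k : Type) [Field k] (M ℓ : ℕ) [NeZero M] [NeZero ℓ] :
    Fk k M →+* Fk k (M * ℓ) where
  toFun x := ⟨qExpand k ℓ (x : LaurentSeries k),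
    full_degeneracyC_map_le k M ℓ ⟨(x : LaurentSeries k), x.2, rfl⟩⟩
  map_one' := Subtype.ext (map_one (qExpand k ℓ))
  map_mul' _ _ := Subtype.ext (map_mul (qExpand k ℓ) _ _)
  map_zero' := Subtype.ext (map_zero (qExpand k ℓ))
  map_add' _ _ := Subtype.ext (map_add (qExpand k ℓ) _ _)

@[simp] theorem hkr_coe_betaK (k : Type) [Field k] (M ℓ : ℕ) [NeZero M] [NeZero ℓ] (x : Fk k M) :
    ((hkrBetaK k M ℓ x : Fk k (M * ℓ)) : LaurentSeries k) = qExpand k ℓ (x : LaurentSeries k) :=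
  rfl

section Generic

variable {K : Type*} [Field K] {A : ValuationSubring K}
variable {F F' : IntermediateField K (LaurentSeries K)}
variable {Fk Fk' : IntermediateField (IsLocalRing.ResidueField A)
  (LaurentSeries (IsLocalRing.ResidueField A))}
variable {R : ConstRed A (IsLocalRing.residue A) (↥Fk) (↥F)}
variable {R' : ConstRed A (IsLocalRing.residue A) (↥Fk') (↥F')}

/-- `q ↦ q^ℓ` maps representations to representations -/
theorem hkr_isRep_qExpand (ℓ : ℕ) [NeZero ℓ]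
    (hβ : ∀ x ∈ F, qExpand K ℓ x ∈ F') {f : LaurentSeries K} {a b : LaurentSeries A}
    (h : IsRep A F f a b) : IsRep A F' (qExpand K ℓ f) (qExpand A ℓ a) (qExpand A ℓ b) := by
  obtain ⟨ha, hb, hpb, hab⟩ := h
  refine ⟨?_, ?_, ?_, ?_⟩
  · rw [Kron.coeffMap_qExpand]
    exact hβ _ ha
  · rw [Kron.coeffMap_qExpand]
    exact hβ _ hb
  · rw [Kron.coeffMap_qExpand]
    intro h0
    apply hpb
    apply qExpand_injective (R := IsLocalRing.ResidueField A) ℓ
    rw [h0, map_zero]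
  · rw [Kron.coeffMap_qExpand, Kron.coeffMap_qExpand, ← map_mul, hab]

/-- **(β)**: `q ↦ q^ℓ` commutes with two series reductions. -/
theorem hkr_beta_red (hR : IsSeriesRed R) (hR' : IsSeriesRed R') (hfrac : HasPrimFrac A F)
    (ℓ : ℕ) [NeZero ℓ] (hβ : ∀ x ∈ F, qExpand K ℓ x ∈ F') (x : ↥F) (hx : x ∈ R.O) :
    ∃ h : (⟨qExpand K ℓ (x : LaurentSeries K), hβ _ x.2⟩ : ↥F') ∈ R'.O,
      ((R'.red ⟨_, h⟩ : ↥Fk') : LaurentSeries (IsLocalRing.ResidueField A))
        = qExpand (IsLocalRing.ResidueField A) ℓ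
            ((R.red ⟨x, hx⟩ : ↥Fk) : LaurentSeries (IsLocalRing.ResidueField A)) := by
  obtain ⟨a, b, hrep⟩ := hR.exists_isRep hfrac hx
  have hrep' : IsRep A F'
      (((⟨qExpand K ℓ (x : LaurentSeries K), hβ _ x.2⟩ : ↥F') : ↥F') : LaurentSeries K)
      (qExpand A ℓ a) (qExpand A ℓ b) := hkr_isRep_qExpand ℓ hβ hrep
  have hmem := hR'.mem_of_isRep hrep'
  refine ⟨hmem, ?_⟩
  rw [hR'.red_of_isRep hrep' hmem, hR.red_of_isRep hrep hx, Kron.coeffMap_qExpand,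
    Kron.coeffMap_qExpand, map_div₀]

end Generic

section Concrete

variable (M p ℓ : ℕ) [NeZero M] [NeZero p] [NeZero ℓ] [NeZero (M * p)] [NeZero (M * ℓ)]
  [NeZero (M * p * ℓ)]
variable (A : ValuationSubring Kbar)

/-- arithmetic: `p² ∤ M p ℓ` -/
theorem hkr_not_sq_dvd (hp : p.Prime) (hpM : ¬ p ∣ M) (hℓ : ℓ.Prime) (hℓp : ℓ ≠ p) :
    ¬ p ^ 2 ∣ M * p * ℓ := by
  intro h
  have h1 : p ∣ M * ℓ := by
    have h2 : p * p ∣ p * (M * ℓ) := by
      have e : p * (M * ℓ) = M * p * ℓ := by ring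
      rw [e, ← pow_two]
      exact h
    exact Nat.dvd_of_mul_dvd_mul_left hp.pos h2
  rcases (Nat.Prime.dvd_mul hp).mp h1 with h2 | h2
  · exact hpM h2
  · exact hℓp ((Nat.prime_dvd_prime_iff_eq hp hℓ).mp h2).symm

/-- arithmetic: `p ∤ M ℓ` -/
theorem hkr_not_dvd_mul (hp : p.Prime) (hpM : ¬ p ∣ M) (hℓ : ℓ.Prime) (hℓp : ℓ ≠ p) :
    ¬ p ∣ M * ℓ := by
  intro h1
  rcases (Nat.Prime.dvd_mul hp).mp h1 with h2 | h2
  · exact hpM h2
  · exact hℓp ((Nat.prime_dvd_prime_iff_eq hp hℓ).mp h2).symm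

/-- **the series reduction of `F_{Mpℓ}` with residue field `F_{Mℓ,k}`** -/
theorem hkr_exists_red (hp : p.Prime) (hpM : ¬ p ∣ M) (hℓ : ℓ.Prime) (hℓp : ℓ ≠ p)
    (hA : A.LiesOverPrime p) :
    ∃ Rl : ConstRed A (IsLocalRing.residue A) (Fk (IsLocalRing.ResidueField A) (M * ℓ))
        (FF (M * p * ℓ)), IsSeriesRed Rl := by
  have hdvd : M * ℓ ∣ M * p * ℓ := ⟨p, by ring⟩
  have hpN : p ∣ M * p * ℓ := ⟨M * ℓ, by ring⟩
  have hp2 := hkr_not_sq_dvd M p ℓ hp hpM hℓ hℓp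
  have hdiv : M * p * ℓ / p = M * ℓ := by
    have e : M * p * ℓ = M * ℓ * p := by ring
    rw [e]
    exact Nat.mul_div_cancel _ hp.pos
  refine exists_constRedInf (M * p * ℓ) (M * ℓ) hdvd A (cri_ne_top p A hA hp.ne_zero) ?_
  intro y hy
  have h := hred_semistable (M * p * ℓ) p hp hpN hp2 A hA y hy
  rwa [hdiv] at h

/-- **the tower** along `α = heckeAlphaBar`, `ᾱ = inclK` -/
theorem hkr_isTower (hA : A ≠ ⊤)
    {R : ConstRed A (IsLocalRing.residue A) (Fk (IsLocalRing.ResidueField A) M) (FF (M * p))}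
    {Rl : ConstRed A (IsLocalRing.residue A) (Fk (IsLocalRing.ResidueField A) (M * ℓ))
      (FF (M * p * ℓ))}
    (hR : IsSeriesRed R) (hRl : IsSeriesRed Rl) :
    letI := algebraAlong (heckeAlphaBar Kbar (M * p) ℓ)
    letI := algebraAlong (inclK (IsLocalRing.ResidueField A) (dvd_mul_right M ℓ))
    R.IsTower Rl := by
  letI := algebraAlong (heckeAlphaBar Kbar (M * p) ℓ)
  letI := algebraAlong (inclK (IsLocalRing.ResidueField A) (dvd_mul_right M ℓ))
  exact dw_isTower_of_isSeriesRed (ffBar_mono (dvd_mul_right (M * p) ℓ))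
    (fun x => coe_heckeAlphaBar (M * p) ℓ x)
    (fun w => coe_inclK (IsLocalRing.ResidueField A) (dvd_mul_right M ℓ) w)
    hR hRl (exists_primitive_smul (M * p) A hA)

/-- **the degrees**: `[F_{Mpℓ} : F_{Mp}] = [F_{Mℓ,k} : F_{M,k}]` -/
theorem hkr_finrankAlong_eq (hp : p.Prime) (hpM : ¬ p ∣ M) (hℓ : ℓ.Prime) (hℓp : ℓ ≠ p)
    (hA : A.LiesOverPrime p) :
    finrankAlong Kbar (heckeAlphaBar Kbar (M * p) ℓ)
      = finrankAlong (IsLocalRing.ResidueField A)
          (inclK (IsLocalRing.ResidueField A) (dvd_mul_right M ℓ)) := by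
  haveI : Fact p.Prime := ⟨hp⟩
  have hpMl := hkr_not_dvd_mul M p ℓ hp hpM hℓ hℓp
  have h0 := dedekindPsi_mul_finrankAlong_inclBar (M * p) (M * p * ℓ) (dvd_mul_right (M * p) ℓ)
  have hk := dedekindPsi_mul_finrankAlong_inclK (IsLocalRing.ResidueField A)
    (dvd_mul_right M ℓ) (finrank_Fk_modL M hpM A hA) (finrank_Fk_modL (M * ℓ) hpMl A hA)
  have e1 : dedekindPsi (M * p) = (p + 1) * dedekindPsi M := by
    rw [mul_comm M p]
    exact Fermat.Agent.S20lib.dedekindPsi_prime_mul_of_not_dvd hp (NeZero.ne M) hpM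
  have e2 : dedekindPsi (M * p * ℓ) = (p + 1) * dedekindPsi (M * ℓ) := by
    have e : M * p * ℓ = p * (M * ℓ) := by ring
    rw [e]
    exact Fermat.Agent.S20lib.dedekindPsi_prime_mul_of_not_dvd hp (NeZero.ne (M * ℓ)) hpMl
  rw [heckeAlphaBar_eq_inclBar]
  have hpos : 0 < (p + 1) * dedekindPsi M := Nat.mul_pos (Nat.succ_pos p) (dedekindPsi_pos M)
  apply Nat.eq_of_mul_eq_mul_left hpos
  rw [← e1, h0, e2, ← hk, e1, mul_assoc]

/-- the same as an equality of `finrank`s, with the algebra structures `algebraAlong` -/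
theorem hkr_finrank_eq (hp : p.Prime) (hpM : ¬ p ∣ M) (hℓ : ℓ.Prime) (hℓp : ℓ ≠ p)
    (hA : A.LiesOverPrime p) :
    letI := algebraAlong (heckeAlphaBar Kbar (M * p) ℓ)
    letI := algebraAlong (inclK (IsLocalRing.ResidueField A) (dvd_mul_right M ℓ))
    Module.finrank (FF (M * p)) (FF (M * p * ℓ))
      = Module.finrank (Fk (IsLocalRing.ResidueField A) M)
          (Fk (IsLocalRing.ResidueField A) (M * ℓ)) :=
  hkr_finrankAlong_eq M p ℓ A hp hpM hℓ hℓp hA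

/-- `F_{Mpℓ} / F_{Mp}` is finite -/
theorem hkr_finite : 
    letI := algebraAlong (heckeAlphaBar Kbar (M * p) ℓ)
    FiniteDimensional (FF (M * p)) (FF (M * p * ℓ)) := by
  have h := finiteAlong_inclBar (M * p) (M * p * ℓ) (dvd_mul_right (M * p) ℓ)
  exact h

/-- **the norm commutes with the reduction**: `red_R (N_α y) = N_ᾱ (red_{R_ℓ} y)`. -/
theorem hkr_norm_red (hp : p.Prime) (hpM : ¬ p ∣ M) (hℓ : ℓ.Prime) (hℓp : ℓ ≠ p)
    (hA : A.LiesOverPrime p)
    {R : ConstRed A (IsLocalRing.residue A) (Fk (IsLocalRing.ResidueField A) M) (FF (M * p))}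
    {Rl : ConstRed A (IsLocalRing.residue A) (Fk (IsLocalRing.ResidueField A) (M * ℓ))
      (FF (M * p * ℓ))}
    (hR : IsSeriesRed R) (hRl : IsSeriesRed Rl) (y : Rl.O) :
    letI := algebraAlong (heckeAlphaBar Kbar (M * p) ℓ)
    letI := algebraAlong (inclK (IsLocalRing.ResidueField A) (dvd_mul_right M ℓ))
    ∃ hz : Algebra.norm (FF (M * p)) ((y : Rl.O) : FF (M * p * ℓ)) ∈ R.O,
      R.red ⟨_, hz⟩ = Algebra.norm (Fk (IsLocalRing.ResidueField A) M) (Rl.red y) := by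
  letI := algebraAlong (heckeAlphaBar Kbar (M * p) ℓ)
  letI := algebraAlong (inclK (IsLocalRing.ResidueField A) (dvd_mul_right M ℓ))
  haveI := isScalarTower_along (heckeAlphaBar Kbar (M * p) ℓ)
  haveI := isScalarTower_along (inclK (IsLocalRing.ResidueField A) (dvd_mul_right M ℓ))
  haveI : FiniteDimensional (FF (M * p)) (FF (M * p * ℓ)) := hkr_finite M p ℓ
  have hT := hkr_isTower M p ℓ A (cri_ne_top p A hA hp.ne_zero) hR hRl
  exact hT.norm_mem_red (hkr_finrank_eq M p ℓ A hp hpM hℓ hℓp hA) y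

/-- **(β)** at the level `M p`: `red_{R_ℓ} (β u) = β̄ (red_R u)`. -/
theorem hkr_beta (hA : A ≠ ⊤)
    {R : ConstRed A (IsLocalRing.residue A) (Fk (IsLocalRing.ResidueField A) M) (FF (M * p))}
    {Rl : ConstRed A (IsLocalRing.residue A) (Fk (IsLocalRing.ResidueField A) (M * ℓ))
      (FF (M * p * ℓ))}
    (hR : IsSeriesRed R) (hRl : IsSeriesRed Rl) (u : FF (M * p)) (hu : u ∈ R.O) :
    ∃ h : heckeBetaBar Kbar (M * p) ℓ u ∈ Rl.O,
      Rl.red ⟨_, h⟩ = hkrBetaK (IsLocalRing.ResidueField A) M ℓ (R.red ⟨u, hu⟩) := by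
  obtain ⟨h, hred⟩ := hkr_beta_red hR hRl (exists_primitive_smul (M * p) A hA) ℓ
    (fun x hx => (heckeBetaBar Kbar (M * p) ℓ ⟨x, hx⟩).2) u hu
  exact ⟨h, Subtype.ext hred⟩

/-- **HECKE-RED**: `red_R (N_α (β u)) = N_ᾱ (β̄ (red_R u))` for `u ∈ O_R`, at the level `M p`,
`ℓ ≠ p` a prime, `p ∤ M`. -/
theorem hkr_main (hp : p.Prime) (hpM : ¬ p ∣ M) (hℓ : ℓ.Prime) (hℓp : ℓ ≠ p)
    (hA : A.LiesOverPrime p)
    {R : ConstRed A (IsLocalRing.residue A) (Fk (IsLocalRing.ResidueField A) M) (FF (M * p))}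
    (hR : IsSeriesRed R) (u : FF (M * p)) (hu : u ∈ R.O) :
    letI := algebraAlong (heckeAlphaBar Kbar (M * p) ℓ)
    letI := algebraAlong (inclK (IsLocalRing.ResidueField A) (dvd_mul_right M ℓ))
    ∃ hz : Algebra.norm (FF (M * p)) (heckeBetaBar Kbar (M * p) ℓ u) ∈ R.O,
      R.red ⟨_, hz⟩ = Algebra.norm (Fk (IsLocalRing.ResidueField A) M)
        (hkrBetaK (IsLocalRing.ResidueField A) M ℓ (R.red ⟨u, hu⟩)) := by
  letI := algebraAlong (heckeAlphaBar Kbar (M * p) ℓ)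
  letI := algebraAlong (inclK (IsLocalRing.ResidueField A) (dvd_mul_right M ℓ))
  obtain ⟨Rl, hRl⟩ := hkr_exists_red M p ℓ A hp hpM hℓ hℓp hA
  obtain ⟨hβ, hβred⟩ := hkr_beta M p ℓ A (cri_ne_top p A hA hp.ne_zero) hR hRl u hu
  obtain ⟨hz, hzred⟩ := hkr_norm_red M p ℓ A hp hpM hℓ hℓp hA hR hRl ⟨_, hβ⟩
  refine ⟨hz, ?_⟩
  rw [hzred, hβred]

end Concrete

end Fermat.Agent.S40lib

end
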