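import Mathlib
import Fermat.Agent.S36lib.Speed
import Fermat.Agent.S37lib.KronF
import Fermat.Agent.S37lib.NormConj
import Fermat.Agent.S40lib.HeckeRed
import Fermat.Agent.S40lib.HeckeQFormal

/-!
# Item 88 (S40), layer (LIFT), piece N7b **HECKE-q** (helper13).  Complete proofs.

Level `M` prime to `p`, `A` a valuation ring of `ℚ̄` over `p` with residue field `k`, `ℓ ∤ M p` a
prime.  For `ū ∈ F_{M,k}` the Hecke norm `Z̄ = N_ᾱ (β̄ ū)` (`ᾱ = inclK`, `β̄ = hkrBetaK`) has the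
"sheets" formula in characteristic `p`

  `Z̄(s^ℓ) = ū(s^{ℓ²}) · ∏_{b<ℓ} ū(ζ̄^b s)`,

`ζ̄ ∈ k` a primitive `ℓ`-th root of unity (reduction of the characteristic-`0` formula
`S37lib.normConj` through `hkr_main`), and hence

  `θ Z̄ / Z̄ = U_ℓ (θū/ū) + ℓ · (θū/ū)(q^ℓ)`   (`θ = q d/dq`, by `hqf_main` of helper14),

the formal weight-two Hecke operator `T_ℓ` applied to `θū/ū`.

* `hkqSheets`, `hkq_core` : the sheets product; integrality and reduction of the formula;
* `hkq_exists_red` : the series reduction of `F_{Mp}` with residue field `F_{M,k}`;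
* `hkq_sheets_int`, `hkq_sheets` : the sheets formula in characteristic `p`;
* `hkq_charP`, `hkq_natCast_ne_zero`, `hkq_exists_zeta` : the root of unity and its reduction;
* `hkq_main` : `θlog (N_ᾱ β̄ ū) = T_ℓ (θlog ū)` coefficientwise (`hqfDlog` of `HeckeQFormal`).
-/

set_option autoImplicit false
set_option linter.style.haveILetI false
set_option linter.unusedSectionVars false
set_option linter.unusedVariables false
set_option synthInstance.maxHeartbeats 400000

noncomputable section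

namespace Fermat.Agent.S40lib

open ModularCurve AlgebraicCurve HahnSeries Fermat.Agent.GoodRed Fermat.Agent.GM
  Fermat.Agent.S24lib Fermat.Agent.HeckeBar Fermat.Agent.S34lib Fermat.Agent.S36lib
  Fermat.Agent.S37lib

/-! ### the algebraic core -/

/-- the sheets product `P(v) = v(s^{ℓ²}) · ∏_{b<ℓ} v(u^b s)` -/
def hkqSheets {R : Type*} [CommRing R] (ℓ : ℕ) [NeZero ℓ] (u : Rˣ) (v : LaurentSeries R) :
    LaurentSeries R :=
  haveI : NeZero (ℓ * ℓ) := ⟨Nat.mul_ne_zero (NeZero.ne ℓ) (NeZero.ne ℓ)⟩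
  qExpand R (ℓ * ℓ) v * ∏ b ∈ Finset.range ℓ, twq (u ^ b) v

theorem hkqSheets_mul {R : Type*} [CommRing R] (ℓ : ℕ) [NeZero ℓ] (u : Rˣ)
    (v w : LaurentSeries R) : hkqSheets ℓ u (v * w) = hkqSheets ℓ u v * hkqSheets ℓ u w := by
  unfold hkqSheets
  simp only [map_mul, Finset.prod_mul_distrib]
  ring

theorem hkqSheets_ne_zero {k : Type*} [Field k] (ℓ : ℕ) [NeZero ℓ] (u : kˣ)
    {v : LaurentSeries k} (hv : v ≠ 0) : hkqSheets ℓ u v ≠ 0 := by
  unfold hkqSheets
  refine mul_ne_zero ((map_ne_zero _).mpr hv) ?_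
  exact Finset.prod_ne_zero_iff.mpr fun b _ => (map_ne_zero _).mpr hv

theorem hkq_coeffMap_sheets {R S : Type*} [CommRing R] [CommRing S] (f : R →+* S) (ℓ : ℕ)
    [NeZero ℓ] (u : Rˣ) (v : LaurentSeries R) :
    coeffMap f (hkqSheets ℓ u v) = hkqSheets ℓ (Units.map (f : R →* S) u) (coeffMap f v) := by
  unfold hkqSheets
  rw [map_mul, map_prod, Kron.coeffMap_qExpand]
  congr 1
  refine Finset.prod_congr rfl fun b _ => ?_
  rw [coeffMap_twq, map_pow]

/-- **core**: if `Z(s^ℓ) = Y(s^{ℓ²}) · ∏_{b<ℓ} Y(ζ^b s)` over `K` with `Y` having coefficients in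
the valuation ring `A`, then `Z` has coefficients in `A` and its reduction satisfies the same
formula with the reduction of `ζ`. -/
theorem hkq_core {K : Type*} [Field K] (A : ValuationSubring K) (ℓ : ℕ) [NeZero ℓ]
    (ζA : Aˣ) (y : LaurentSeries A) (Z : LaurentSeries K)
    (hZ : qExpand K ℓ Z = hkqSheets ℓ (Units.map (A.subtype : A →* K) ζA)
      (coeffMap A.subtype y)) :
    ∃ z : LaurentSeries A, coeffMap A.subtype z = Z ∧
      qExpand (IsLocalRing.ResidueField A) ℓ (coeffMap (IsLocalRing.residue A) z)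
        = hkqSheets ℓ (Units.map (IsLocalRing.residue A : A →* IsLocalRing.ResidueField A) ζA)
            (coeffMap (IsLocalRing.residue A) y) := by
  classical
  set w : LaurentSeries A := hkqSheets ℓ ζA y with hw
  have hwK : coeffMap A.subtype w = qExpand K ℓ Z := by
    rw [hZ, hw, hkq_coeffMap_sheets]
  have hw0 : ∀ n : ℤ, ¬ (ℓ : ℤ) ∣ n → w.coeff n = 0 := by
    intro n hn
    apply A.subtype_injective
    have := congrArg (fun t => t.coeff n) hwK
    simp only [coeffMap_coeff] at this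
    rw [this, qExpand_coeff_of_not_dvd ℓ _ hn, map_zero]
  refine ⟨Kron.qContract ℓ w, ?_, ?_⟩
  · apply qExpand_injective (R := K) ℓ
    rw [← Kron.coeffMap_qExpand, Kron.qExpand_qContract ℓ hw0, hwK]
  · rw [← Kron.coeffMap_qExpand, Kron.qExpand_qContract ℓ hw0, hw, hkq_coeffMap_sheets]

/-! ### the sheets formula in characteristic `p` -/

section Concrete

variable (M p ℓ : ℕ) [NeZero M] [NeZero p] [NeZero ℓ] [NeZero (M * p)] [NeZero (M * ℓ)]
  [NeZero (M * p * ℓ)]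
variable (A : ValuationSubring Kbar)

/-- **the series reduction of `F_{Mp}` with residue field `F_{M,k}`** -/
theorem hkq_exists_red (hp : p.Prime) (hpM : ¬ p ∣ M) (hA : A.LiesOverPrime p) :
    ∃ R : ConstRed A (IsLocalRing.residue A) (Fk (IsLocalRing.ResidueField A) M) (FF (M * p)),
      IsSeriesRed R := by
  have hdvd : M ∣ M * p := dvd_mul_right M p
  have hpN : p ∣ M * p := dvd_mul_left p M
  have hp2 : ¬ p ^ 2 ∣ M * p := by
    intro h
    apply hpM
    have h2 : p * p ∣ M * p := by rwa [← pow_two]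
    exact Nat.dvd_of_mul_dvd_mul_right hp.pos h2
  have hdiv : M * p / p = M := Nat.mul_div_cancel _ hp.pos
  refine exists_constRedInf (M * p) M hdvd A (cri_ne_top p A hA hp.ne_zero) ?_
  intro y hy
  have h := hred_semistable (M * p) p hp hpN hp2 A hA y hy
  rwa [hdiv] at h

/-- arithmetic: `ℓ ∤ M p` -/
theorem hkq_not_dvd_mul (hp : p.Prime) (hℓ : ℓ.Prime) (hℓp : ℓ ≠ p) (hℓM : ¬ ℓ ∣ M) :
    ¬ ℓ ∣ M * p := by
  intro h
  rcases (Nat.Prime.dvd_mul hℓ).mp h with h2 | h2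
  · exact hℓM h2
  · exact hℓp ((Nat.prime_dvd_prime_iff_eq hℓ hp).mp h2)

/-- the sheets formula for the reduction of an integral series -/
theorem hkq_sheets_int (hp : p.Prime) (hpM : ¬ p ∣ M) (hℓ : ℓ.Prime) (hℓp : ℓ ≠ p)
    (hℓM : ¬ ℓ ∣ M) (hA : A.LiesOverPrime p)
    {R : ConstRed A (IsLocalRing.residue A) (Fk (IsLocalRing.ResidueField A) M) (FF (M * p))}
    (hR : IsSeriesRed R) (ζA : Aˣ)
    (hζ : IsPrimitiveRoot ((Units.map (A.subtype : A →* Kbar) ζA : Kbarˣ) : Kbar) ℓ)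
    (y : LaurentSeries A) (hy : coeffMap A.subtype y ∈ modularFunctionFieldBar (M * p)) :
    letI := algebraAlong (inclK (IsLocalRing.ResidueField A) (dvd_mul_right M ℓ))
    qExpand (IsLocalRing.ResidueField A) ℓ
        ((Algebra.norm (Fk (IsLocalRing.ResidueField A) M)
          (hkrBetaK (IsLocalRing.ResidueField A) M ℓ
            (R.red ⟨⟨coeffMap A.subtype y, hy⟩, hR.mem y hy⟩)) :
              Fk (IsLocalRing.ResidueField A) M) : LaurentSeries (IsLocalRing.ResidueField A))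
      = hkqSheets ℓ (Units.map (IsLocalRing.residue A : A →* IsLocalRing.ResidueField A) ζA)
          (coeffMap (IsLocalRing.residue A) y) := by
  letI := algebraAlong (heckeAlphaBar Kbar (M * p) ℓ)
  letI := algebraAlong (inclK (IsLocalRing.ResidueField A) (dvd_mul_right M ℓ))
  have hℓMp := hkq_not_dvd_mul M p ℓ hp hℓ hℓp hℓM
  have hconj := normConj (M * p) ℓ hℓ hℓMp (Units.map (A.subtype : A →* Kbar) ζA) hζ
    ⟨coeffMap A.subtype y, hy⟩
  obtain ⟨z, hz1, hz2⟩ := hkq_core A ℓ ζA y _ hconj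
  obtain ⟨hzO, hzred⟩ := hkr_main M p ℓ A hp hpM hℓ hℓp hA hR ⟨coeffMap A.subtype y, hy⟩
    (hR.mem y hy)
  have hzF : coeffMap A.subtype z ∈ modularFunctionFieldBar (M * p) := by
    rw [hz1]
    exact Subtype.property _
  have e := hR.red z hzF
  have e2 : (⟨⟨coeffMap A.subtype z, hzF⟩, hR.mem z hzF⟩ : R.O)
      = ⟨Algebra.norm (FF (M * p)) (heckeBetaBar Kbar (M * p) ℓ ⟨coeffMap A.subtype y, hy⟩),
          hzO⟩ := Subtype.ext (Subtype.ext hz1)
  rw [← hzred, ← e2, e]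
  exact hz2

/-- **the sheets formula in characteristic `p`**:
`(N_ᾱ β̄ ū)(s^ℓ) = ū(s^{ℓ²}) · ∏_{b<ℓ} ū(ζ̄^b s)` for every `ū ∈ F_{M,k}`. -/
theorem hkq_sheets (hp : p.Prime) (hpM : ¬ p ∣ M) (hℓ : ℓ.Prime) (hℓp : ℓ ≠ p)
    (hℓM : ¬ ℓ ∣ M) (hA : A.LiesOverPrime p) (ζA : Aˣ)
    (hζ : IsPrimitiveRoot ((Units.map (A.subtype : A →* Kbar) ζA : Kbarˣ) : Kbar) ℓ)
    (u : Fk (IsLocalRing.ResidueField A) M) :
    letI := algebraAlong (inclK (IsLocalRing.ResidueField A) (dvd_mul_right M ℓ))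
    qExpand (IsLocalRing.ResidueField A) ℓ
        ((Algebra.norm (Fk (IsLocalRing.ResidueField A) M)
          (hkrBetaK (IsLocalRing.ResidueField A) M ℓ u) :
              Fk (IsLocalRing.ResidueField A) M) : LaurentSeries (IsLocalRing.ResidueField A))
      = hkqSheets ℓ (Units.map (IsLocalRing.residue A : A →* IsLocalRing.ResidueField A) ζA)
          (u : LaurentSeries (IsLocalRing.ResidueField A)) := by
  letI := algebraAlong (inclK (IsLocalRing.ResidueField A) (dvd_mul_right M ℓ))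
  obtain ⟨R, hR⟩ := hkq_exists_red M p A hp hpM hA
  obtain ⟨⟨x, hx⟩, rfl⟩ := R.red_surjective u
  obtain ⟨a, b, hrep⟩ := hR.exists_isRep
    (exists_primitive_smul (M * p) A (cri_ne_top p A hA hp.ne_zero)) hx
  obtain ⟨ha, hb, hpb, hab⟩ := hrep
  have Ha := hkq_sheets_int M p ℓ A hp hpM hℓ hℓp hℓM hA hR ζA hζ a ha
  have Hb := hkq_sheets_int M p ℓ A hp hpM hℓ hℓp hℓM hA hR ζA hζ b hb
  have hmul : R.red ⟨x, hx⟩ * R.red ⟨⟨coeffMap A.subtype b, hb⟩, hR.mem b hb⟩
      = R.red ⟨⟨coeffMap A.subtype a, ha⟩, hR.mem a ha⟩ := by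
    rw [← map_mul]
    congr 1
    exact Subtype.ext (Subtype.ext hab)
  have hN : Algebra.norm (Fk (IsLocalRing.ResidueField A) M)
        (hkrBetaK (IsLocalRing.ResidueField A) M ℓ (R.red ⟨x, hx⟩))
      * Algebra.norm (Fk (IsLocalRing.ResidueField A) M)
        (hkrBetaK (IsLocalRing.ResidueField A) M ℓ
          (R.red ⟨⟨coeffMap A.subtype b, hb⟩, hR.mem b hb⟩))
      = Algebra.norm (Fk (IsLocalRing.ResidueField A) M)
        (hkrBetaK (IsLocalRing.ResidueField A) M ℓ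
          (R.red ⟨⟨coeffMap A.subtype a, ha⟩, hR.mem a ha⟩)) := by
    rw [← map_mul, ← map_mul, hmul]
  have hN' := congrArg (fun t : Fk (IsLocalRing.ResidueField A) M =>
    qExpand (IsLocalRing.ResidueField A) ℓ (t : LaurentSeries (IsLocalRing.ResidueField A))) hN
  simp only [MulMemClass.coe_mul, map_mul] at hN'
  rw [Ha, Hb] at hN'
  have hmulL : ((R.red ⟨x, hx⟩ : Fk (IsLocalRing.ResidueField A) M) :
        LaurentSeries (IsLocalRing.ResidueField A)) * coeffMap (IsLocalRing.residue A) b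
      = coeffMap (IsLocalRing.residue A) a := by
    have h1 := congrArg (fun t : Fk (IsLocalRing.ResidueField A) M =>
      (t : LaurentSeries (IsLocalRing.ResidueField A))) hmul
    simp only [MulMemClass.coe_mul] at h1
    rw [hR.red a ha, hR.red b hb] at h1
    exact h1
  rw [← hmulL, hkqSheets_mul] at hN'
  exact mul_right_cancel₀ (hkqSheets_ne_zero ℓ _ hpb) hN'

/-! ### the root of unity -/

/-- the residue field of a place over `p` has characteristic `p` -/
theorem hkq_charP {p : ℕ} (hp : p.Prime) (hA : A.LiesOverPrime p) :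
    CharP (IsLocalRing.ResidueField A) p := by
  rw [CharP.charP_iff_prime_eq_zero hp]
  have hmem : (p : Kbar) ∈ A := A.nonunits_le hA
  have h1 : ((⟨(p : Kbar), hmem⟩ : A)) ∈ IsLocalRing.maximalIdeal A := by
    rw [IsLocalRing.mem_maximalIdeal, mem_nonunits_iff]
    intro hu
    have hA' : (p : Kbar) ∈ A.nonunits := hA
    rw [ValuationSubring.mem_nonunits_iff_exists_mem_maximalIdeal] at hA'
    obtain ⟨ha, hm⟩ := hA'
    rw [IsLocalRing.mem_maximalIdeal, mem_nonunits_iff] at hm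
    exact hm hu
  have h2 : IsLocalRing.residue A (⟨(p : Kbar), hmem⟩ : A) = 0 :=
    (IsLocalRing.residue_eq_zero_iff _).2 h1
  have h3 : ((⟨(p : Kbar), hmem⟩ : A)) = ((p : ℕ) : A) := by
    apply Subtype.ext
    simp
  rw [h3, map_natCast] at h2
  exact h2

/-- `ℓ ≠ 0` in the residue field, `ℓ ≠ p` primes -/
theorem hkq_natCast_ne_zero {p ℓ : ℕ} (hp : p.Prime) (hℓ : ℓ.Prime) (hℓp : ℓ ≠ p)
    (hA : A.LiesOverPrime p) : ((ℓ : ℕ) : IsLocalRing.ResidueField A) ≠ 0 := by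
  haveI := hkq_charP A hp hA
  intro h
  have h1 : p ∣ ℓ := (CharP.cast_eq_zero_iff (IsLocalRing.ResidueField A) p ℓ).mp h
  exact hℓp ((Nat.prime_dvd_prime_iff_eq hp hℓ).mp h1).symm

/-- a primitive `ℓ`-th root of unity of `ℚ̄` as a unit of `A`, with primitive reduction -/
theorem hkq_exists_zeta {p ℓ : ℕ} [NeZero ℓ] (hp : p.Prime) (hℓ : ℓ.Prime) (hℓp : ℓ ≠ p)
    (hA : A.LiesOverPrime p) :
    ∃ ζA : Aˣ, IsPrimitiveRoot ((Units.map (A.subtype : A →* Kbar) ζA : Kbarˣ) : Kbar) ℓ ∧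
      IsPrimitiveRoot ((Units.map
        (IsLocalRing.residue A : A →* IsLocalRing.ResidueField A) ζA :
          (IsLocalRing.ResidueField A)ˣ) : IsLocalRing.ResidueField A) ℓ := by
  have : NeZero ((ℓ : ℕ) : ℚ) := ⟨by exact_mod_cast NeZero.ne ℓ⟩
  obtain ⟨ζ0, hζ0⟩ := HasEnoughRootsOfUnity.exists_primitiveRoot Kbar ℓ
  have hmem : ζ0 ∈ A := kf_mem_of_pow_eq_one A (NeZero.ne ℓ) hζ0.pow_eq_one
  have hζA : (⟨ζ0, hmem⟩ : A) ^ ℓ = 1 := Subtype.ext (by simpa using hζ0.pow_eq_one)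
  let ζA : Aˣ := Units.ofPowEqOne (⟨ζ0, hmem⟩ : A) ℓ hζA (NeZero.ne ℓ)
  have hval : ((Units.map (A.subtype : A →* Kbar) ζA : Kbarˣ) : Kbar) = ζ0 := rfl
  refine ⟨ζA, by rw [hval]; exact hζ0, ?_⟩
  have hres : ((Units.map (IsLocalRing.residue A : A →* IsLocalRing.ResidueField A) ζA :
      (IsLocalRing.ResidueField A)ˣ) : IsLocalRing.ResidueField A)
      = IsLocalRing.residue A (⟨ζ0, hmem⟩ : A) := rfl
  rw [hres]
  have hpow : (IsLocalRing.residue A (⟨ζ0, hmem⟩ : A)) ^ ℓ = 1 := by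
    rw [← map_pow, hζA, map_one]
  have hne : IsLocalRing.residue A (⟨ζ0, hmem⟩ : A) ≠ 1 := by
    intro h1
    have hsum0 : ∑ i ∈ Finset.range ℓ, ζ0 ^ i = 0 := hζ0.geom_sum_eq_zero hℓ.one_lt
    have hsumA : ∑ i ∈ Finset.range ℓ, (⟨ζ0, hmem⟩ : A) ^ i = 0 := by
      apply A.subtype_injective
      rw [map_sum, map_zero]
      simpa using hsum0
    have hsumk := congrArg (IsLocalRing.residue A) hsumA
    rw [map_sum, map_zero] at hsumk
    simp only [map_pow, h1, one_pow, Finset.sum_const, Finset.card_range, nsmul_eq_mul,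
      mul_one] at hsumk
    exact hkq_natCast_ne_zero A hp hℓ hℓp hA hsumk
  have hord : orderOf (IsLocalRing.residue A (⟨ζ0, hmem⟩ : A)) = ℓ :=
    haveI : Fact ℓ.Prime := ⟨hℓ⟩
    orderOf_eq_prime hpow hne
  have := IsPrimitiveRoot.orderOf (IsLocalRing.residue A (⟨ζ0, hmem⟩ : A))
  rwa [hord] at this

/-! ### N7b: the main statement -/

/-- **N7b (HECKE-q, concrete)**: for `u ∈ F_{M,k}`, `u ≠ 0`, the logarithmic derivative of the
Hecke norm `N_ᾱ (β̄ u)` is the formal Hecke operator `T_ℓ` of weight `2` applied to the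
logarithmic derivative `g = θu/u`: `(θZ̄/Z̄)_n = ℓ · g_{n/ℓ} + g_{ℓ n}`. -/
theorem hkq_main (hp : p.Prime) (hpM : ¬ p ∣ M) (hℓ : ℓ.Prime) (hℓp : ℓ ≠ p)
    (hℓM : ¬ ℓ ∣ M) (hA : A.LiesOverPrime p)
    (u : Fk (IsLocalRing.ResidueField A) M) (hu : u ≠ 0) (n : ℤ) :
    letI := algebraAlong (inclK (IsLocalRing.ResidueField A) (dvd_mul_right M ℓ))
    (hqfDlog ((Algebra.norm (Fk (IsLocalRing.ResidueField A) M)
          (hkrBetaK (IsLocalRing.ResidueField A) M ℓ u) :
              Fk (IsLocalRing.ResidueField A) M) :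
                LaurentSeries (IsLocalRing.ResidueField A))).coeff n
      = (if (ℓ : ℤ) ∣ n then ((ℓ : ℕ) : IsLocalRing.ResidueField A)
            * (hqfDlog (u : LaurentSeries (IsLocalRing.ResidueField A))).coeff (n / (ℓ : ℤ))
          else 0)
        + (hqfDlog (u : LaurentSeries (IsLocalRing.ResidueField A))).coeff ((ℓ : ℤ) * n) := by
  letI := algebraAlong (inclK (IsLocalRing.ResidueField A) (dvd_mul_right M ℓ))
  haveI : NeZero (ℓ * ℓ) := ⟨Nat.mul_ne_zero (NeZero.ne ℓ) (NeZero.ne ℓ)⟩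
  obtain ⟨ζA, hζ, hζk⟩ := hkq_exists_zeta A hp hℓ hℓp hA
  have hsh := hkq_sheets M p ℓ A hp hpM hℓ hℓp hℓM hA ζA hζ u
  have hu' : (u : LaurentSeries (IsLocalRing.ResidueField A)) ≠ 0 := fun h =>
    hu (Subtype.ext h)
  exact hqf_main ℓ hℓ (hkq_natCast_ne_zero A hp hℓ hℓp hA) _ hζk _ _ hu' hsh n

end Concrete

end Fermat.Agent.S40lib

end
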