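import Mathlib
import Fermat.Agent.S36lib.Speed
import Fermat.Agent.S40lib.HeckeRed
import Fermat.Agent.S40lib.Hub
import Fermat.Agent.GoodRed.ModRR

/-!
# Item 88 (S40), layer (LIFT): the hub (architect helper8)

Language for the layer (LIFT) = "a `p`-torsion Hecke eigenclass of the reduced function field
`F_k` of level `M` (`p ∤ M`, `k` the residue field at a place over `p`) lifts to characteristic
zero".  Everything is phrased with FUNCTIONS of `F_k = Fk k M ⊂ k((q))`:

* `lfhHeckeFun k M ℓ u = N_ᾱ (β̄ u)` : the Hecke operator on functions (the shape of the right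
  hand side of `hkr_main`);
* `LfhEigFun k M p S a u` : `u ≠ 0`, `p ∣ ord_v u` at every place, and
  `N_ᾱ (β̄ u) = c · u ^ a_ℓ · s ^ p` for the primes `ℓ ∉ S`;
* `LfhTriv k M p u` : `u = c · s ^ p` (the class of `u` is trivial);
* `lfhQ k M h n` : the coefficient of `q ^ n` of the differential `h · dj̄` written as
  `f̄(q) dq / q`, i.e. the coefficient of `q ^ (n - 1)` of `h · dj̄/dq`;
* `LfhIsDiff k M d` : `d = lfhQ h` for a function `h` with `h · dj̄` holomorphic;
* `LfhLift M p S a A` : **(LIFT-EIG)** in contradiction form: an eigenfunction is trivial as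
  soon as the eigensystem `a` does not occur in `J₀(M)[p]`.
-/

set_option autoImplicit false
set_option linter.style.haveILetI false

noncomputable section

namespace Fermat.Agent.S40lib

open ModularCurve AlgebraicCurve HahnSeries Fermat.Agent.GoodRed Fermat.Agent.GM
  Fermat.Agent.S24lib KaehlerDifferential

/-- the Hecke operator on functions in characteristic `p`: `T̄_ℓ u = N_ᾱ (β̄ u)` -/
def lfhHeckeFun (k : Type) [Field k] (M ℓ : ℕ) [NeZero M] [NeZero ℓ] (u : Fk k M) : Fk k M :=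
  letI := algebraAlong (inclK k (dvd_mul_right M ℓ))
  Algebra.norm (Fk k M) (hkrBetaK k M ℓ u)

/-- **a `p`-torsion eigenfunction**: `u ≠ 0`, `div u ∈ p · Div`, and
`N_ᾱ (β̄ u) = c · u ^ a_ℓ · s ^ p` for every prime `ℓ ∉ S`. -/
def LfhEigFun (k : Type) [Field k] (M p : ℕ) [NeZero M] (S : Finset ℕ) (a : ℕ → ℤ)
    (u : Fk k M) : Prop :=
  u ≠ 0 ∧ (∀ v : Place k (Fk k M), (p : ℤ) ∣ v.ord u) ∧
    ∀ (ℓ : ℕ) (hℓ : ℓ.Prime), ℓ ∉ S →
      haveI : NeZero ℓ := ⟨hℓ.ne_zero⟩
      ∃ (c : k) (s : Fk k M), c ≠ 0 ∧ s ≠ 0 ∧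
        lfhHeckeFun k M ℓ u = algebraMap k (Fk k M) c * u ^ (a ℓ) * s ^ p

/-- the class of `u` modulo `k^× · F_k^{× p}` is trivial -/
def LfhTriv (k : Type) [Field k] (M p : ℕ) [NeZero M] (u : Fk k M) : Prop :=
  ∃ (c : k) (s : Fk k M), u = algebraMap k (Fk k M) c * s ^ p

/-- the `q`-expansion of the differential `h · dj̄ = f̄(q) dq / q`: `n ↦` coefficient of
`q ^ n` of `f̄`, i.e. the coefficient of `q ^ (n - 1)` of `h · dj̄/dq`. -/
def lfhQ (k : Type) [Field k] (M : ℕ) [NeZero M] (h : Fk k M) (n : ℕ) : k :=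
  ((h : LaurentSeries k) *
    LaurentSeries.derivative k ((jbarC k M : Fk k M) : LaurentSeries k)).coeff ((n : ℤ) - 1)

/-- `d` is the `q`-expansion of a holomorphic differential of `F_k` -/
def LfhIsDiff (k : Type) [Field k] (M : ℕ) [NeZero M] (d : ℕ → k) : Prop :=
  ∃ h : Fk k M, (∀ v : Place k (Fk k M),
      0 ≤ v.ordDifferential (h • D k (Fk k M) (jbarC k M))) ∧ d = lfhQ k M h

/-- **(LIFT-EIG)**, contradiction form, at the level `M` (`p ∤ M`) and the place `A` over `p`:
if the eigensystem `a` does not occur in `J₀(M)[p]`, every `p`-torsion eigenfunction of `F_k` with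
the eigenvalues `a_ℓ` (`ℓ ∉ S`) is trivial. -/
def LfhLift (M p : ℕ) [NeZero M] (S : Finset ℕ) (a : ℕ → ℤ)
    (A : ValuationSubring Kbar) : Prop :=
  S40hNotAt M p S a →
    ∀ u : Fk (IsLocalRing.ResidueField A) M,
      LfhEigFun (IsLocalRing.ResidueField A) M p S a u → LfhTriv (IsLocalRing.ResidueField A) M p u

end Fermat.Agent.S40lib

end
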