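import Mathlib
import Fermat.Agent.S36lib.Speed
import Fermat.Agent.S40lib.LiftHub
import Fermat.Agent.S24lib.ExpInf

/-!
# Item 88 (S40), layer (LIFT): the three blocks and the assembly (architect helper8)

`LfhLift M p S a A` (see `LiftHub.lean`) from three blocks, all stated with the `q`-series
`d : ℕ → k` (`k` the residue field of `A`):

* `LfhBlockA` (**differential**, pieces N5, N8, DER, N7): a nontrivial `p`-torsion eigenfunction
  `u` gives a nonzero `q`-expansion `d` of a holomorphic differential (`d = θ(u)/u`) which is a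
  formal eigenvector: `d (n ℓ) + [ℓ ∣ n] ℓ d (n / ℓ) = a_ℓ d n` for the primes `ℓ ∉ S`;
* `LfhBlockB` (**lattice**, pieces N1, N4, N3, dimension, DF5): every `q`-expansion of a
  holomorphic differential of `F_k` is the reduction of a cusp form of level `M` with
  `A`-integral `q`-expansion;
* `LfhBlockC` (**Deligne–Serre tail**, piece L6): a cusp form of level `M` with `A`-integral
  `q`-expansion whose reduction is a nonzero formal eigenvector with the eigenvalues `a_ℓ`
  (`ℓ ∉ S`) makes the eigensystem `a` occur in `J₀(M)[p]`.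

`lfh_lift` : the three blocks give `LfhLift`.
-/

set_option autoImplicit false
set_option linter.style.haveILetI false

noncomputable section

namespace Fermat.Agent.S40lib

open ModularCurve AlgebraicCurve HahnSeries Fermat.Agent.GoodRed Fermat.Agent.GM
  Fermat.Agent.S24lib KaehlerDifferential CongruenceSubgroup ModularFormClass

/-- `d` is a formal eigenvector of the weight `2` Hecke operators `T_ℓ`, `ℓ ∉ S` prime, with
the eigenvalues `a_ℓ`. -/
def LfhFormalEig (k : Type) [Field k] (S : Finset ℕ) (a : ℕ → ℤ) (d : ℕ → k) : Prop :=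
  ∀ (ℓ : ℕ), ℓ.Prime → ℓ ∉ S → ∀ n : ℕ,
    d (n * ℓ) + (if ℓ ∣ n then (ℓ : k) * d (n / ℓ) else 0) = (a ℓ : k) * d n

/-- **block A** (differential): a nontrivial `p`-torsion eigenfunction gives a nonzero formal
eigenvector among the `q`-expansions of the holomorphic differentials of `F_k`. -/
def LfhBlockA (M p : ℕ) [NeZero M] (S : Finset ℕ) (a : ℕ → ℤ)
    (A : ValuationSubring Kbar) : Prop :=
  ∀ u : Fk (IsLocalRing.ResidueField A) M,
    LfhEigFun (IsLocalRing.ResidueField A) M p S a u →
    ¬ LfhTriv (IsLocalRing.ResidueField A) M p u →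
    ∃ d : ℕ → IsLocalRing.ResidueField A,
      LfhIsDiff (IsLocalRing.ResidueField A) M d ∧ d ≠ 0 ∧
        LfhFormalEig (IsLocalRing.ResidueField A) S a d

/-- **block B** (lattice): every `q`-expansion of a holomorphic differential of `F_k` is the
reduction of a cusp form of level `M` with `A`-integral `q`-expansion. -/
def LfhBlockB (M : ℕ) [NeZero M] (A : ValuationSubring Kbar) : Prop :=
  ∀ d : ℕ → IsLocalRing.ResidueField A, LfhIsDiff (IsLocalRing.ResidueField A) M d →
    ∃ (F : CuspForm (Gamma0 M) 2) (c : ℕ → A),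
      (∀ n, qCoeff F n = ιC ((c n : A) : Kbar)) ∧ ∀ n, IsLocalRing.residue A (c n) = d n

/-- **block C** (Deligne–Serre tail): a cusp form of level `M` with `A`-integral `q`-expansion
whose reduction is a nonzero formal eigenvector makes the eigensystem occur in `J₀(M)[p]`. -/
def LfhBlockC (M p : ℕ) [NeZero M] (S : Finset ℕ) (a : ℕ → ℤ)
    (A : ValuationSubring Kbar) : Prop :=
  ∀ (F : CuspForm (Gamma0 M) 2) (c : ℕ → A) (d : ℕ → IsLocalRing.ResidueField A),
    (∀ n, qCoeff F n = ιC ((c n : A) : Kbar)) → (∀ n, IsLocalRing.residue A (c n) = d n) →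
    d ≠ 0 → LfhFormalEig (IsLocalRing.ResidueField A) S a d → ¬ S40hNotAt M p S a

/-- **(LIFT-EIG) from the three blocks.** -/
theorem lfh_lift (M p : ℕ) [NeZero M] (S : Finset ℕ) (a : ℕ → ℤ) (A : ValuationSubring Kbar)
    (hA : LfhBlockA M p S a A) (hB : LfhBlockB M A) (hC : LfhBlockC M p S a A) :
    LfhLift M p S a A := by
  intro hNot u hu
  by_contra htriv
  obtain ⟨d, hd, hd0, heig⟩ := hA u hu htriv
  obtain ⟨F, c, hF, hc⟩ := hB d hd
  exact hC F c d hF hc hd0 heig hNot

end Fermat.Agent.S40lib

end
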