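import Mathlib
import Fermat.Agent.S36lib.Speed
import Fermat.Agent.S40lib.LiftHub2
import Fermat.Agent.S40lib.HeckeQ
import Fermat.Agent.S40lib.DlogMod
import Fermat.Agent.S40lib.DerTheta2
import Fermat.Agent.GoodRed.Echelon
import Fermat.Agent.GoodRed.ModRR

/-!
# Item 88 (S40), layer (LIFT): BLOCK A of the hub `LiftHub2.lean` (helper15)

`lba_blockA : LfhBlockA M p S a A` for `p` prime, `p ∤ M`, `A` over `p`, and `S` containing the
primes dividing `M · p`:
a nontrivial `p`-torsion eigenfunction `u` of `F_k = F_{M,k}` gives the nonzero formal eigenvector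
`d = ` the `q`-expansion of the holomorphic differential `dlog u = du / u`.

* `lba_dlog_coeff_neg` : `θ x / x` is a power series (no coefficient of negative degree);
* `lba_dlog_zpow`, `lba_dlog_rel` : `dlog (c · Y ^ a · W ^ p) = a · dlog Y` in characteristic `p`,
  `a ∈ ℤ`;
* `lba_lfhQ_eq` : `lfhQ (u⁻¹ z) n = (θ û / û)_n` if `ẑ · ĵ' = û'`;
* `lba_formalEig` : `LfhEigFun u` ⇒ the coefficients of `θ û / û` are a formal eigenvector
  (N7b `hkq_main` of helper13 + N7a `hqfDlog` of helper14);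
* `lba_blockA` : the block (N5 + N8 `dlh_mod_*` of helper24, (DER) `dth_D_eq` of helper29).
-/

set_option autoImplicit false
set_option linter.style.haveILetI false
set_option linter.unusedSectionVars false
set_option linter.unusedVariables false
set_option synthInstance.maxHeartbeats 400000

noncomputable section

namespace Fermat.Agent.S40lib

open ModularCurve AlgebraicCurve HahnSeries IntermediateField Fermat.Agent.GoodRed Fermat.Agent.GM
  Fermat.Agent.S24lib KaehlerDifferential Fermat.Agent.FFlib Fermat.Agent.RRlib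

section Formal

variable {k : Type*} [Field k]

/-- `θ x / x` has no coefficient of negative degree -/
theorem lba_dlog_coeff_neg {x : LaurentSeries k} (hx : x ≠ 0) {n : ℤ} (hn : n < 0) :
    (hqfDlog x).coeff n = 0 := by
  by_cases hθ : hqfTheta x = 0
  · rw [hqfDlog, hθ, zero_div, HahnSeries.coeff_zero]
  · have hd : hqfDlog x ≠ 0 := by
      rw [hqfDlog]
      exact div_ne_zero hθ hx
    have hmul : hqfDlog x * x = hqfTheta x := by
      rw [hqfDlog, div_mul_cancel₀ _ hx]
    have hord : (hqfDlog x).order + x.order = (hqfTheta x).order := by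
      rw [← hmul, HahnSeries.order_mul hd hx]
    have hle : x.order ≤ (hqfTheta x).order := by
      apply HahnSeries.order_le_of_coeff_ne_zero
      have h1 : (hqfTheta x).coeff (hqfTheta x).order ≠ 0 :=
        fun h => hθ (HahnSeries.coeff_order_eq_zero.mp h)
      rw [hqfTheta_coeff] at h1
      exact right_ne_zero_of_mul h1
    apply HahnSeries.coeff_eq_zero_of_lt_order
    omega

/-- `dlog (x⁻¹) = - dlog x` -/
theorem lba_dlog_inv {x : LaurentSeries k} (hx : x ≠ 0) : hqfDlog x⁻¹ = -hqfDlog x := by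
  have h1 := hqfDlog_mul hx (inv_ne_zero hx)
  rw [mul_inv_cancel₀ hx, hqfDlog_one] at h1
  exact eq_neg_of_add_eq_zero_right h1.symm

/-- `dlog (x ^ a) = a · dlog x`, `a ∈ ℤ` -/
theorem lba_dlog_zpow {x : LaurentSeries k} (hx : x ≠ 0) (a : ℤ) :
    hqfDlog (x ^ a) = (a : LaurentSeries k) * hqfDlog x := by
  rcases Int.eq_nat_or_neg a with ⟨n, rfl | rfl⟩
  · rw [zpow_natCast, hqfDlog_pow hx n]
    push_cast
    rfl
  · rw [zpow_neg, zpow_natCast, lba_dlog_inv (pow_ne_zero n hx), hqfDlog_pow hx n]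
    push_cast
    ring

/-- **`dlog` of an eigen-relation in characteristic `p`**:
`dlog (c · Y ^ a · W ^ p) = a · dlog Y`, `a ∈ ℤ`. -/
theorem lba_dlog_rel (p : ℕ) [CharP k p] {c : k} (hc : c ≠ 0) {Y W : LaurentSeries k}
    (hY : Y ≠ 0) (hW : W ≠ 0) (a : ℤ) :
    hqfDlog (HahnSeries.C c * Y ^ a * W ^ p) = (a : LaurentSeries k) * hqfDlog Y := by
  have hC : (HahnSeries.C c : LaurentSeries k) ≠ 0 := by
    rw [Ne, map_eq_zero_iff _ HahnSeries.C_injective]
    exact hc
  rw [hqfDlog_mul (mul_ne_zero hC (zpow_ne_zero a hY)) (pow_ne_zero p hW),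
    hqfDlog_mul hC (zpow_ne_zero a hY), hqfDlog_C, zero_add, hqfDlog_pow_char p hW, add_zero,
    lba_dlog_zpow hY a]

/-- the coefficients of `a · g`, `a ∈ ℤ` -/
theorem lba_coeff_intCast_mul (a : ℤ) (g : LaurentSeries k) (n : ℤ) :
    ((a : LaurentSeries k) * g).coeff n = (a : k) * g.coeff n := by
  have h1 : (a : LaurentSeries k) = HahnSeries.C (a : k) := by
    rw [map_intCast]
  rw [h1, HahnSeries.C_mul_eq_smul, HahnSeries.coeff_smul, smul_eq_mul]

/-- the coefficient of `q ^ (n - 1)` of `u⁻¹ u'` is the coefficient of `q ^ n` of `θ u / u` -/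
theorem lba_coeff_pred (U U' : LaurentSeries k) (hU' : LaurentSeries.derivative k U = U')
    (n : ℤ) : (U⁻¹ * U').coeff (n - 1) = (hqfDlog U).coeff n := by
  have h1 : hqfDlog U = HahnSeries.single (1 : ℤ) (1 : k) * (U⁻¹ * U') := by
    rw [hqfDlog, hqfTheta, hU', div_eq_mul_inv]
    ring
  have h2 : n = (n - 1) + 1 := by ring
  rw [h1]
  conv_rhs => rw [h2]
  rw [HahnSeries.coeff_single_mul_add, one_mul]

end Formal

section Conc

variable (M p : ℕ) [NeZero M] (A : ValuationSubring Kbar)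

/-- `lfhQ (u⁻¹ z) n = (θ û / û)_n` if `ẑ · ĵ' = û'` -/
theorem lba_lfhQ_eq (k : Type) [Field k] (u z : Fk k M)
    (hz : (z : LaurentSeries k) * LaurentSeries.derivative k ((jbarC k M : Fk k M) :
        LaurentSeries k) = LaurentSeries.derivative k (u : LaurentSeries k)) (n : ℕ) :
    lfhQ k M (u⁻¹ * z) n = (hqfDlog (u : LaurentSeries k)).coeff (n : ℤ) := by
  rw [lfhQ, ← lba_coeff_pred (u : LaurentSeries k) _ rfl (n : ℤ), ← hz,
    IntermediateField.coe_mul, IntermediateField.coe_inv, mul_assoc]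

/-- the series of a relation `c · u ^ a · s ^ p` -/
theorem lba_coe_rel (k : Type) [Field k] (c : k) (u s : Fk k M) (a : ℤ) :
    ((algebraMap k (Fk k M) c * u ^ a * s ^ p : Fk k M) : LaurentSeries k)
      = HahnSeries.C c * (u : LaurentSeries k) ^ a * (s : LaurentSeries k) ^ p := by
  have hconst : ((algebraMap k (Fk k M) c : Fk k M) : LaurentSeries k) = HahnSeries.C c := by
    show algebraMap k (LaurentSeries k) c = HahnSeries.C c
    rw [algebraMap_laurentSeries_eq_single]
    rfl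
  have hz : ((u ^ a : Fk k M) : LaurentSeries k) = (u : LaurentSeries k) ^ a :=
    map_zpow₀ (algebraMap (Fk k M) (LaurentSeries k)) u a
  rw [IntermediateField.coe_mul, IntermediateField.coe_mul, IntermediateField.coe_pow, hconst, hz]

/-- **N7 (formal eigenvector)**: the coefficients of `θ û / û` of an eigenfunction `u` are a
formal eigenvector of the `T_ℓ`, `ℓ ∉ S`. -/
theorem lba_formalEig (S : Finset ℕ) (a : ℕ → ℤ) (hp : p.Prime) (hpM : ¬ p ∣ M)
    (hA : A.LiesOverPrime p) (hS : ∀ ℓ : ℕ, ℓ.Prime → ℓ ∣ M * p → ℓ ∈ S)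
    (u : Fk (IsLocalRing.ResidueField A) M)
    (hu : LfhEigFun (IsLocalRing.ResidueField A) M p S a u) :
    LfhFormalEig (IsLocalRing.ResidueField A) S a
      (fun n : ℕ => (hqfDlog (u : LaurentSeries (IsLocalRing.ResidueField A))).coeff (n : ℤ)) := by
  intro ℓ hℓ hℓS n
  haveI : Fact p.Prime := ⟨hp⟩
  haveI : CharP (IsLocalRing.ResidueField A) p := charP_residueField hA
  haveI : NeZero p := ⟨hp.ne_zero⟩
  haveI : NeZero ℓ := ⟨hℓ.ne_zero⟩
  obtain ⟨hu0, -, heig⟩ := hu
  have hℓMp : ¬ ℓ ∣ M * p := fun h => hℓS (hS ℓ hℓ h)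
  have hℓp : ℓ ≠ p := fun h => hℓMp (h ▸ dvd_mul_left ℓ M)
  have hℓM : ¬ ℓ ∣ M := fun h => hℓMp (dvd_mul_of_dvd_left h p)
  obtain ⟨c, s, hc, hs, hrel⟩ := heig ℓ hℓ hℓS
  have hY : ((u : Fk (IsLocalRing.ResidueField A) M) :
      LaurentSeries (IsLocalRing.ResidueField A)) ≠ 0 := fun h => hu0 (Subtype.ext h)
  have hW : ((s : Fk (IsLocalRing.ResidueField A) M) :
      LaurentSeries (IsLocalRing.ResidueField A)) ≠ 0 := fun h => hs (Subtype.ext h)
  have hmain := hkq_main M p ℓ A hp hpM hℓ hℓp hℓM hA u hu0 (n : ℤ)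
  have hrel' : lfhHeckeFun (IsLocalRing.ResidueField A) M ℓ u
      = algebraMap (IsLocalRing.ResidueField A) (Fk (IsLocalRing.ResidueField A) M) c
        * u ^ (a ℓ) * s ^ p := hrel
  unfold lfhHeckeFun at hrel'
  rw [hrel', lba_coe_rel, lba_dlog_rel p hc hY hW (a ℓ), lba_coeff_intCast_mul] at hmain
  show (hqfDlog (u : LaurentSeries (IsLocalRing.ResidueField A))).coeff ((n * ℓ : ℕ) : ℤ)
      + (if ℓ ∣ n then ((ℓ : ℕ) : IsLocalRing.ResidueField A)
          * (hqfDlog (u : LaurentSeries (IsLocalRing.ResidueField A))).coeff ((n / ℓ : ℕ) : ℤ)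
        else 0)
      = ((a ℓ : ℤ) : IsLocalRing.ResidueField A)
        * (hqfDlog (u : LaurentSeries (IsLocalRing.ResidueField A))).coeff (n : ℤ)
  rw [hmain]
  have e1 : ((n * ℓ : ℕ) : ℤ) = (ℓ : ℤ) * (n : ℤ) := by
    push_cast
    ring
  have e2 : ((n / ℓ : ℕ) : ℤ) = (n : ℤ) / (ℓ : ℤ) := Int.natCast_div n ℓ
  rw [e1, e2, add_comm]
  by_cases hd : ℓ ∣ n
  · rw [if_pos hd, if_pos (Int.natCast_dvd_natCast.mpr hd)]
  · rw [if_neg hd, if_neg (fun h => hd (Int.natCast_dvd_natCast.mp h))]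

/-- **BLOCK A** of the hub `LiftHub2.lean`. -/
theorem lba_blockA (S : Finset ℕ) (a : ℕ → ℤ) (hp : p.Prime) (hpM : ¬ p ∣ M)
    (hA : A.LiesOverPrime p) (hS : ∀ ℓ : ℕ, ℓ.Prime → ℓ ∣ M * p → ℓ ∈ S) :
    LfhBlockA M p S a A := by
  intro u hu htriv
  haveI : Fact p.Prime := ⟨hp⟩
  haveI : IsAlgClosed (IsLocalRing.ResidueField A) := isAlgClosed_residueField A
  haveI : CharP (IsLocalRing.ResidueField A) p := charP_residueField hA
  have hfe := lba_formalEig M p A S a hp hpM hA hS u hu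
  obtain ⟨hu0, hord, -⟩ := hu
  have hY : ((u : Fk (IsLocalRing.ResidueField A) M) :
      LaurentSeries (IsLocalRing.ResidueField A)) ≠ 0 := fun h => hu0 (Subtype.ext h)
  haveI := mr_ffSep (IsLocalRing.ResidueField A) M
  obtain ⟨z, hz, hzs⟩ := dth_D_eq (dth_gen_of_span
    (fsSpan_D_eq_top (K := IsLocalRing.ResidueField A)
      (x := jbarC (IsLocalRing.ResidueField A) M))) u
  have hd : lfhQ (IsLocalRing.ResidueField A) M (u⁻¹ * z)
      = fun n : ℕ => (hqfDlog (u : LaurentSeries (IsLocalRing.ResidueField A))).coeff (n : ℤ) := by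
    funext n
    exact lba_lfhQ_eq M (IsLocalRing.ResidueField A) u z hzs n
  refine ⟨lfhQ (IsLocalRing.ResidueField A) M (u⁻¹ * z), ⟨u⁻¹ * z, ?_, rfl⟩, ?_, ?_⟩
  · intro v
    have h1 : (u⁻¹ * z) • D (IsLocalRing.ResidueField A) (Fk (IsLocalRing.ResidueField A) M)
        (jbarC (IsLocalRing.ResidueField A) M) = dlhDlog (IsLocalRing.ResidueField A) u := by
      rw [mul_smul, ← hz]
      rfl
    rw [h1]
    exact dlh_mod_holomorphic (IsLocalRing.ResidueField A) M p hu0 hord v
  · intro h0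
    apply htriv
    rw [hd] at h0
    have hdlog : hqfDlog (u : LaurentSeries (IsLocalRing.ResidueField A)) = 0 := by
      ext n
      rw [HahnSeries.coeff_zero]
      by_cases hn : n < 0
      · exact lba_dlog_coeff_neg hY hn
      · obtain ⟨m, rfl⟩ := Int.eq_ofNat_of_zero_le (not_lt.mp hn)
        exact congrFun h0 m
    have hθ : hqfTheta (u : LaurentSeries (IsLocalRing.ResidueField A)) = 0 := by
      rw [hqfDlog, div_eq_zero_iff] at hdlog
      exact hdlog.resolve_right hY
    have hder : LaurentSeries.derivative (IsLocalRing.ResidueField A)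
        (u : LaurentSeries (IsLocalRing.ResidueField A)) = 0 := by
      rw [hqfTheta] at hθ
      refine (mul_eq_zero.mp hθ).resolve_left ?_
      exact HahnSeries.single_ne_zero one_ne_zero
    have hz0 : z = 0 := by
      rw [hder] at hzs
      have hj := mr_derivative_jqModC_ne_zero (IsLocalRing.ResidueField A)
      rw [coe_jbarC] at hzs
      exact Subtype.ext ((mul_eq_zero.mp hzs).resolve_right hj)
    have hDu : dlhDlog (IsLocalRing.ResidueField A) u = 0 := by
      unfold dlhDlog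
      rw [hz, hz0, zero_smul, smul_zero]
    obtain ⟨s, hs⟩ := (dlh_mod_dlog_eq_zero_iff (IsLocalRing.ResidueField A) M p hu0).1 hDu
    exact ⟨1, s, by rw [map_one, one_mul, hs]⟩
  · rw [hd]
    exact hfe

end Conc

end Fermat.Agent.S40lib

end
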