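import Mathlib
import Fermat.Agent.S36lib.Speed
import Fermat.Agent.S40lib.LiftBlockA
import Fermat.Agent.S34lib.InfPlace

/-!
# Item 88 (S40/S44): the CUSP GAP at the cusp `∞` (helper15)

For an eigenfunction `u ≠ 0` of `F_k = F_{M,k}` (`N_ᾱ (β̄ u) = c · u ^ a · s ^ p` for ONE prime
`ℓ ∤ M p` with `p ∤ a − (1 + ℓ)`), the order of `u` at the cusp `∞` is divisible by `p`:
the formal eigen-equation of `g = θ û / û` at `n = 0` reads `g₀ + ℓ g₀ = a g₀`, and
`g₀ = ord_∞ u` in `k`.  NO hypothesis on the orders of `u` at the other places is used.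

* `cpi_dlog_coeff_zero` : `(θ x / x)₀ = order x` in `k`;
* `cpi_eig_one` : the formal eigen-equation of `θ û / û` for ONE prime `ℓ` (no `hord`);
* `cpi_ord_inf` : `p ∣ ord_∞ u` (`infPlaceC k M`);
* `cpi_order_inf` : the same for the order of the Laurent series `û`.
-/

set_option autoImplicit false
set_option linter.style.haveILetI false
set_option linter.unusedSectionVars false
set_option linter.unusedVariables false
set_option synthInstance.maxHeartbeats 400000

noncomputable section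

namespace Fermat.Agent.S40lib

open ModularCurve AlgebraicCurve HahnSeries IntermediateField Fermat.Agent.GoodRed Fermat.Agent.GM
  Fermat.Agent.S24lib KaehlerDifferential Fermat.Agent.FFlib Fermat.Agent.RRlib
  Fermat.Agent.S34lib

section Formal

variable {k : Type*} [Field k]

/-- the constant coefficient of `θ x / x` is the order of `x` -/
theorem cpi_dlog_coeff_zero {x : LaurentSeries k} (hx : x ≠ 0) :
    (hqfDlog x).coeff 0 = ((x.order : ℤ) : k) := by
  set m : ℤ := x.order with hm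
  set z : LaurentSeries k := hqfTheta x - HahnSeries.C ((m : ℤ) : k) * x with hz
  have hzc : ∀ n : ℤ, z.coeff n = ((n : k) - (m : k)) * x.coeff n := by
    intro n
    rw [hz, HahnSeries.coeff_sub, hqfTheta_coeff, HahnSeries.C_mul_eq_smul,
      HahnSeries.coeff_smul, smul_eq_mul]
    ring
  have hzle : ∀ n : ℤ, n ≤ m → z.coeff n = 0 := by
    intro n hn
    rw [hzc]
    rcases lt_or_eq_of_le hn with h | h
    · rw [HahnSeries.coeff_eq_zero_of_lt_order (hm ▸ h), mul_zero]
    · rw [h, sub_self, zero_mul]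
  have hgx : (hqfDlog x - HahnSeries.C ((m : ℤ) : k)) * x = z := by
    rw [sub_mul, hqfDlog, div_mul_cancel₀ _ hx]
  have hg0 : (hqfDlog x - HahnSeries.C ((m : ℤ) : k)).coeff 0 = 0 := by
    by_cases hz0 : z = 0
    · rw [hz0] at hgx
      rcases mul_eq_zero.mp hgx with h | h
      · rw [h, HahnSeries.coeff_zero]
      · exact absurd h hx
    · have hg : hqfDlog x - HahnSeries.C ((m : ℤ) : k) ≠ 0 := by
        intro h
        rw [h, zero_mul] at hgx
        exact hz0 hgx.symm
      have hord : (hqfDlog x - HahnSeries.C ((m : ℤ) : k)).order + x.order = z.order := by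
        rw [← hgx, HahnSeries.order_mul hg hx]
      have hlt : m < z.order := by
        by_contra hcon
        have h1 : z.coeff z.order ≠ 0 := fun h => hz0 (HahnSeries.coeff_order_eq_zero.mp h)
        exact h1 (hzle _ (not_lt.mp hcon))
      apply HahnSeries.coeff_eq_zero_of_lt_order
      omega
  rw [HahnSeries.coeff_sub, HahnSeries.C_apply, HahnSeries.coeff_single_same, sub_eq_zero] at hg0
  exact hg0

end Formal

section Conc

variable (M p ℓ : ℕ) [NeZero M] [NeZero ℓ] (A : ValuationSubring Kbar)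

/-- the formal eigen-equation of `θ û / û` for ONE prime `ℓ ∤ M p` (no hypothesis on the orders
of `u`). -/
theorem cpi_eig_one (hp : p.Prime) (hpM : ¬ p ∣ M) (hA : A.LiesOverPrime p)
    (hℓ : ℓ.Prime) (hℓp : ℓ ≠ p) (hℓM : ¬ ℓ ∣ M)
    (u : Fk (IsLocalRing.ResidueField A) M) (hu0 : u ≠ 0) (a : ℤ)
    (c : IsLocalRing.ResidueField A) (s : Fk (IsLocalRing.ResidueField A) M)
    (hc : c ≠ 0) (hs : s ≠ 0)
    (hrel : lfhHeckeFun (IsLocalRing.ResidueField A) M ℓ u
      = algebraMap (IsLocalRing.ResidueField A) (Fk (IsLocalRing.ResidueField A) M) c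
        * u ^ a * s ^ p) (n : ℕ) :
    (hqfDlog (u : LaurentSeries (IsLocalRing.ResidueField A))).coeff ((n * ℓ : ℕ) : ℤ)
      + (if ℓ ∣ n then ((ℓ : ℕ) : IsLocalRing.ResidueField A)
          * (hqfDlog (u : LaurentSeries (IsLocalRing.ResidueField A))).coeff ((n / ℓ : ℕ) : ℤ)
        else 0)
      = ((a : ℤ) : IsLocalRing.ResidueField A)
        * (hqfDlog (u : LaurentSeries (IsLocalRing.ResidueField A))).coeff (n : ℤ) := by
  haveI : Fact p.Prime := ⟨hp⟩
  haveI : CharP (IsLocalRing.ResidueField A) p := charP_residueField hA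
  haveI : NeZero p := ⟨hp.ne_zero⟩
  have hY : ((u : Fk (IsLocalRing.ResidueField A) M) :
      LaurentSeries (IsLocalRing.ResidueField A)) ≠ 0 := fun h => hu0 (Subtype.ext h)
  have hW : ((s : Fk (IsLocalRing.ResidueField A) M) :
      LaurentSeries (IsLocalRing.ResidueField A)) ≠ 0 := fun h => hs (Subtype.ext h)
  have hmain := hkq_main M p ℓ A hp hpM hℓ hℓp hℓM hA u hu0 (n : ℤ)
  have hrel' := hrel
  unfold lfhHeckeFun at hrel'
  rw [hrel', lba_coe_rel, lba_dlog_rel p hc hY hW a, lba_coeff_intCast_mul] at hmain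
  rw [hmain]
  have e1 : ((n * ℓ : ℕ) : ℤ) = (ℓ : ℤ) * (n : ℤ) := by
    push_cast
    ring
  have e2 : ((n / ℓ : ℕ) : ℤ) = (n : ℤ) / (ℓ : ℤ) := Int.natCast_div n ℓ
  rw [e1, e2, add_comm]
  by_cases hd : ℓ ∣ n
  · rw [if_pos hd, if_pos (Int.natCast_dvd_natCast.mpr hd)]
  · rw [if_neg hd, if_neg (fun h => hd (Int.natCast_dvd_natCast.mp h))]

/-- **the cusp `∞`**: the order of the `q`-expansion of an eigenfunction with a non-Eisenstein
eigenvalue is divisible by `p`. -/
theorem cpi_order_inf (hp : p.Prime) (hpM : ¬ p ∣ M) (hA : A.LiesOverPrime p)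
    (hℓ : ℓ.Prime) (hℓp : ℓ ≠ p) (hℓM : ¬ ℓ ∣ M)
    (u : Fk (IsLocalRing.ResidueField A) M) (hu0 : u ≠ 0) (a : ℤ)
    (hcop : ¬ (p : ℤ) ∣ a - (1 + (ℓ : ℤ)))
    (c : IsLocalRing.ResidueField A) (s : Fk (IsLocalRing.ResidueField A) M)
    (hc : c ≠ 0) (hs : s ≠ 0)
    (hrel : lfhHeckeFun (IsLocalRing.ResidueField A) M ℓ u
      = algebraMap (IsLocalRing.ResidueField A) (Fk (IsLocalRing.ResidueField A) M) c
        * u ^ a * s ^ p) :
    (p : ℤ) ∣ (u : LaurentSeries (IsLocalRing.ResidueField A)).order := by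
  haveI : Fact p.Prime := ⟨hp⟩
  haveI : CharP (IsLocalRing.ResidueField A) p := charP_residueField hA
  have hY : ((u : Fk (IsLocalRing.ResidueField A) M) :
      LaurentSeries (IsLocalRing.ResidueField A)) ≠ 0 := fun h => hu0 (Subtype.ext h)
  have h0 := cpi_eig_one M p ℓ A hp hpM hA hℓ hℓp hℓM u hu0 a c s hc hs hrel 0
  rw [zero_mul, if_pos (dvd_zero ℓ), Nat.zero_div, Nat.cast_zero, cpi_dlog_coeff_zero hY] at h0
  set m : ℤ := (u : LaurentSeries (IsLocalRing.ResidueField A)).order with hm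
  have h1 : (((a - (1 + (ℓ : ℤ))) * m : ℤ) : IsLocalRing.ResidueField A) = 0 := by
    push_cast
    linear_combination -h0
  have h2 : (p : ℤ) ∣ (a - (1 + (ℓ : ℤ))) * m :=
    (CharP.intCast_eq_zero_iff (IsLocalRing.ResidueField A) p _).mp h1
  rcases (Nat.prime_iff_prime_int.mp hp).dvd_or_dvd h2 with h | h
  · exact absurd h hcop
  · exact h

/-- **the cusp `∞`**, place form: `p ∣ ord_∞ u`. -/
theorem cpi_ord_inf (hp : p.Prime) (hpM : ¬ p ∣ M) (hA : A.LiesOverPrime p)
    (hℓ : ℓ.Prime) (hℓp : ℓ ≠ p) (hℓM : ¬ ℓ ∣ M)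
    (u : Fk (IsLocalRing.ResidueField A) M) (hu0 : u ≠ 0) (a : ℤ)
    (hcop : ¬ (p : ℤ) ∣ a - (1 + (ℓ : ℤ)))
    (c : IsLocalRing.ResidueField A) (s : Fk (IsLocalRing.ResidueField A) M)
    (hc : c ≠ 0) (hs : s ≠ 0)
    (hrel : lfhHeckeFun (IsLocalRing.ResidueField A) M ℓ u
      = algebraMap (IsLocalRing.ResidueField A) (Fk (IsLocalRing.ResidueField A) M) c
        * u ^ a * s ^ p) :
    (p : ℤ) ∣ (infPlaceC (IsLocalRing.ResidueField A) M).ord u := by
  rw [infPlaceC_ord]
  exact cpi_order_inf M p ℓ A hp hpM hA hℓ hℓp hℓM u hu0 a hcop c s hc hs hrel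

end Conc

end Fermat.Agent.S40lib

end
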