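import Mathlib
import Fermat.Agent.S36lib.Speed
import Fermat.Agent.GoodRed.DescNorm
import Fermat.Agent.GoodRed.DescZeros

/-!
# Item 88 (S40), piece H1 (helper28): Hecke-equivariance of the winding divisor and the
# Eisenstein step, abstract form

Setting: function fields `F ⊆ F'` over `K` (levels `M'p` and `M'pℓ`, tower along `α`), constant
reductions `R` of `F`, `R'` of `F'` (one of the two components of the special fibre) forming a
`ConstRed.IsTower` of the same degree.

* `eis_abs`        : the Eisenstein step in a group: `a_* a^* = m`, `b^* n = a^* n`,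
                     `a_* b^* n = a • n`, `p • n = 0`, `p` prime to `a - m`  ⇒  `n = 0`;
* `eis_push_pull`  : `α_* α^* D = [F' : F] • D` on divisors (`SumRamificationInertia`);
* `eis_div`        : the Eisenstein step for divisors, pointwise and away from a set `C` of places
                     (the cusps): `E' ≡ α^* n`, `α_* E' ≡ a n (mod p)` off `C` ⇒ `p ∣ n v`, `v ∉ C`;
* `eis_red_pull`   : `div (red' (x|F')) = α^* div (red x)` (used along `β`);
* `eis_red_push`   : `div (red (N y)) = α_* div (red' y)` (used along `α`): together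
                     `n (T_ℓ x) = ᾱ_* β̄^* n (x)` for the winding divisor `n x = div (red (w / c))`;
* `eis_gauss_map`, `eis_gauss_norm` : the Gauss valuation of `R` is compatible with the tower:
                     `c g` a unit of `O'` ⇒ `c ^ [F':F] N(g)` a unit of `O`;
* `eis_wind`       : **(H1)** `WINDC ⇒ WIND0`: `u` a unit of `O` (normalised Kummer function of
                     `x`), `g = β u` a unit of `O'`, `N_α g = c u ^ a h ^ p` (`T_ℓ x = a x`), and
                     `div (red' (β u)) ≡ div (red' (α u))` modulo `p` off `C` (both are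
                     `δ • [SS']` by the edge rule at the upper level), `p` prime to `a - [F':F]`
                     ⇒ `p ∣ ord_Q (red u)` for all `Q ∉ C`;
* `eis_delta`      : the `δ`-form of the Eisenstein step (tame case): for a function `w` with
                     Gauss valuations `c₁`, `c₂` on the two components and
                     `N_α (β w) = c w ^ a h ^ p`, `p` prime to `a - [F':F]`:
                     `v (c₁ / c₂)` is a `p`-th power in the value group of `A`.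
No sorry in this file.
-/

set_option autoImplicit false

noncomputable section

namespace Fermat.Agent.S40lib

open AlgebraicCurve Fermat.Agent.RRlib Fermat.Agent.GoodRed

/-! ### 1. the Eisenstein step in an abstract group -/

/-- **Eisenstein step, abstract form**: `aPull`, `bPull : G → G'` (pull-backs along `α`, `β`),
`aPush : G' → G` with `aPush ∘ aPull = m`; if `bPull n = aPull n`, `T n = aPush (bPull n) = a • n`,
`p • n = 0` and `p` is prime to `a - m`, then `n = 0`. -/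
theorem eis_abs {G G' : Type*} [AddCommGroup G] [AddCommGroup G']
    (aPull bPull : G →+ G') (aPush : G' →+ G) (m a : ℤ) (p : ℕ)
    (hpp : ∀ g : G, aPush (aPull g) = m • g)
    (hcop : IsCoprime (p : ℤ) (a - m))
    (n : G) (hp : p • n = 0) (heq : bPull n = aPull n)
    (hT : aPush (bPull n) = a • n) : n = 0 := by
  have h1 : (a - m) • n = 0 := by
    rw [sub_smul, ← hT, heq, hpp, sub_self]
  obtain ⟨u, v, huv⟩ := hcop
  have h2 : n = (u * (p : ℤ) + v * (a - m)) • n := by rw [huv, one_smul]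
  rw [h2, add_smul, mul_smul, mul_smul, h1, smul_zero, add_zero, natCast_zsmul, hp, smul_zero]

/-- the degree trick: a vector `n = δ • 1_S` on a finite set `S` with `∑ n ≡ 0 (mod p)` and
`p ∤ #S` has `p ∣ δ`. -/
theorem eis_degree {ι : Type*} (S : Finset ι) (p : ℕ) (hp : p.Prime) (n : ι → ℤ) (δ : ℤ)
    (hn : ∀ s ∈ S, (p : ℤ) ∣ n s - δ) (hdeg : (p : ℤ) ∣ ∑ s ∈ S, n s)
    (hS : ¬ p ∣ S.card) : (p : ℤ) ∣ δ := by
  have h1 : (p : ℤ) ∣ ∑ s ∈ S, (n s - δ) := Finset.dvd_sum hn
  rw [Finset.sum_sub_distrib, Finset.sum_const, nsmul_eq_mul] at h1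
  have h2 : (p : ℤ) ∣ (S.card : ℤ) * δ := by
    have := dvd_sub hdeg h1
    rwa [sub_sub_cancel] at this
  rcases (Nat.prime_iff_prime_int.mp hp).dvd_or_dvd h2 with h | h
  · exact absurd (Int.natCast_dvd_natCast.mp h) hS
  · exact h

/-! ### 2. divisors in a tower -/

section Divisors

variable {k Fk Fk' : Type*} [Field k] [Field Fk] [Field Fk']
  [Algebra k Fk] [Algebra k Fk'] [Algebra Fk Fk'] [IsScalarTower k Fk Fk']
  [Algebra.IsIntegral Fk Fk'] [HasPrincipalDivisors k Fk']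

/-- `α_* α^* = [F' : F]` on divisors -/
theorem eis_push_pull [SumRamificationInertia k Fk Fk'] (D : Divisor k Fk) :
    Divisor.pushforward Fk (Divisor.pullback Fk' D) = (Module.finrank Fk Fk' : ℤ) • D := by
  induction D using Finsupp.induction with
  | zero => simp
  | single_add v n D _ _ ih =>
    rw [map_add, map_add, ih, smul_add]
    congr 1
    rw [Divisor.pullback_single, map_sum]
    have h1 : ∀ w ∈ v.fiber Fk',
        Divisor.pushforward Fk (Finsupp.single w (n * (w.ramificationIndex Fk : ℤ)))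
          = Finsupp.single v (n * ((w.ramificationIndex Fk : ℤ) * (w.inertiaDeg Fk : ℤ))) := by
      intro w hw
      rw [Divisor.pushforward_single, Place.mem_fiber.mp hw, mul_assoc]
    rw [Finset.sum_congr rfl h1]
    have h2 : ∀ (s : Finset (Place k Fk')) (c : Place k Fk' → ℤ),
        ∑ w ∈ s, Finsupp.single v (c w) = Finsupp.single v (∑ w ∈ s, c w) := by
      intro s c
      rw [← Finsupp.singleAddHom_apply, map_sum]
      rfl
    rw [h2, ← Finset.mul_sum,
      SumRamificationInertia.sum_ramificationIndex_mul_inertiaDeg (K := k) (F := Fk)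
        (F' := Fk') v, Finsupp.smul_single, smul_eq_mul, mul_comm]

omit [HasPrincipalDivisors k Fk'] in
/-- the push-forward of a divisor which is divisible by `p` over `v` is divisible by `p` at
`v` -/
theorem eis_push_dvd (p : ℤ) (E : Divisor k Fk') (v : Place k Fk)
    (hE : ∀ w : Place k Fk', w.restrict Fk = v → p ∣ E w) :
    p ∣ Divisor.pushforward Fk E v := by
  classical
  rw [Divisor.pushforward_apply]
  refine Finset.dvd_sum fun w _ => ?_
  split_ifs with h
  · exact Dvd.dvd.mul_right (hE w h) _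
  · exact dvd_zero _

/-- **Eisenstein step for divisors** (pointwise, away from a set `C` of places, e.g. the cusps):
`n` the winding divisor at the lower level, `E'` the divisor `β̄^* n` at the upper level; if
`E' ≡ ᾱ^* n` and `ᾱ_* E' ≡ a n` modulo `p` off `C`, and `p` is prime to `a - [F' : F]`, then
`n ≡ 0` modulo `p` off `C`. -/
theorem eis_div [SumRamificationInertia k Fk Fk'] (p : ℕ) (a : ℤ)
    (hcop : IsCoprime (p : ℤ) (a - (Module.finrank Fk Fk' : ℤ)))
    (C : Set (Place k Fk)) (n : Divisor k Fk) (E' : Divisor k Fk')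
    (heq : ∀ w : Place k Fk', w.restrict Fk ∉ C → (p : ℤ) ∣ E' w - Divisor.pullback Fk' n w)
    (hT : ∀ v : Place k Fk, v ∉ C → (p : ℤ) ∣ Divisor.pushforward Fk E' v - a * n v)
    (v : Place k Fk) (hv : v ∉ C) : (p : ℤ) ∣ n v := by
  have h1 : (p : ℤ) ∣ Divisor.pushforward Fk (E' - Divisor.pullback Fk' n) v := by
    refine eis_push_dvd (p : ℤ) _ v fun w hw => ?_
    rw [Finsupp.sub_apply]
    exact heq w (hw ▸ hv)
  rw [map_sub, Finsupp.sub_apply, eis_push_pull, Finsupp.smul_apply, smul_eq_mul] at h1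
  have h2 : (p : ℤ) ∣ (a - (Module.finrank Fk Fk' : ℤ)) * n v := by
    have := dvd_sub h1 (hT v hv)
    have e : Divisor.pushforward Fk E' v - (Module.finrank Fk Fk' : ℤ) * n v
        - (Divisor.pushforward Fk E' v - a * n v) = (a - (Module.finrank Fk Fk' : ℤ)) * n v := by
      ring
    rwa [e] at this
  exact hcop.dvd_of_dvd_mul_left h2

end Divisors

/-! ### 3. reduction in a tower of constant reductions -/

section Red

variable {K F F' k Fk Fk' : Type*} [Field K] [Field F] [Field F'] [Algebra K F] [Algebra K F']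
  [Algebra F F'] [IsScalarTower K F F']
  [Field k] [Field Fk] [Field Fk'] [Algebra k Fk] [Algebra k Fk'] [Algebra Fk Fk']
  [IsScalarTower k Fk Fk']
variable {A : ValuationSubring K} {π : A →+* k}
variable {R : ConstRed A π Fk F} {R' : ConstRed A π Fk' F'}

/-- `f` is a unit of the valuation ring of the constant reduction `R` (Gauss valuation `0`) -/
def EisUnit (R : ConstRed A π Fk F) (f : F) : Prop := f ≠ 0 ∧ f ∈ R.O ∧ f⁻¹ ∈ R.O

theorem EisUnit.mul {f g : F} (hf : EisUnit R f) (hg : EisUnit R g) : EisUnit R (f * g) :=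
  ⟨mul_ne_zero hf.1 hg.1, mul_mem hf.2.1 hg.2.1, by
    rw [mul_inv]; exact mul_mem hf.2.2 hg.2.2⟩

theorem EisUnit.inv {f : F} (hf : EisUnit R f) : EisUnit R f⁻¹ :=
  ⟨inv_ne_zero hf.1, hf.2.2, by rw [inv_inv]; exact hf.2.1⟩

theorem EisUnit.pow {f : F} (hf : EisUnit R f) (n : ℕ) : EisUnit R (f ^ n) :=
  ⟨pow_ne_zero n hf.1, pow_mem hf.2.1 n, by rw [← inv_pow]; exact pow_mem hf.2.2 n⟩

theorem EisUnit.zpow {f : F} (hf : EisUnit R f) (n : ℤ) : EisUnit R (f ^ n) := by
  cases n with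
  | ofNat n => simpa using hf.pow n
  | negSucc n => rw [zpow_negSucc]; exact (hf.pow _).inv

/-- a unit has non-zero reduction -/
theorem EisUnit.red_ne_zero {f : F} (hf : EisUnit R f) : R.red ⟨f, hf.2.1⟩ ≠ 0 := by
  intro h0
  have h1 : (⟨f, hf.2.1⟩ : R.O) * ⟨f⁻¹, hf.2.2⟩ = 1 := Subtype.ext (mul_inv_cancel₀ hf.1)
  have h2 := congrArg R.red h1
  rw [map_mul, h0, zero_mul, map_one] at h2
  exact zero_ne_one h2

/-- an element of `O` with non-zero reduction is a unit -/
theorem eisUnit_of_red_ne_zero (x : R.O) (hx : R.red x ≠ 0) : EisUnit R (x : F) := by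
  have hx0 : (x : F) ≠ 0 := by
    intro h
    apply hx
    have : x = 0 := Subtype.ext h
    rw [this, map_zero]
  refine ⟨hx0, x.2, ?_⟩
  by_contra hinv
  apply hx
  rw [R.red_eq_zero_iff, ValuationSubring.mem_nonunits_iff_or]
  exact Or.inr hinv

/-- a constant which is a unit of `O` has valuation `1` -/
theorem EisUnit.valuation_eq_one {c : K} (h : EisUnit R (algebraMap K F c)) :
    A.valuation c = 1 := by
  have h1 : c ∈ A := (R.algebraMap_mem_iff c).mp h.2.1
  have h2 : c⁻¹ ∈ A := by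
    rw [← R.algebraMap_mem_iff, map_inv₀]
    exact h.2.2
  have h3 : A.valuation c ≤ 1 := (A.valuation_le_one_iff c).mpr h1
  have h4 : A.valuation c⁻¹ ≤ 1 := (A.valuation_le_one_iff c⁻¹).mpr h2
  have hc0 : c ≠ 0 := by
    rintro rfl
    exact h.1 (map_zero _)
  have hv0 : A.valuation c ≠ 0 := (Valuation.ne_zero_iff _).mpr hc0
  rw [map_inv₀, inv_le_one₀ (zero_lt_iff.mpr hv0)] at h4
  exact le_antisymm h3 h4

omit [IsScalarTower K F F'] [IsScalarTower k Fk Fk'] in
/-- units of `O` are units of `O'` -/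
theorem eis_gauss_map (hT : R.IsTower R') {f : F} (hf : EisUnit R f) :
    EisUnit R' (algebraMap F F' f) :=
  ⟨(map_ne_zero _).mpr hf.1, hT.map_mem _ hf.2.1, by
    rw [← map_inv₀]; exact hT.map_mem _ hf.2.2⟩

/-- the norm of a unit of `O'` is a unit of `O` -/
theorem eis_unit_norm (hT : R.IsTower R') [FiniteDimensional F F']
    (hdeg : Module.finrank F F' = Module.finrank Fk Fk') {y : F'} (hy : EisUnit R' y) :
    EisUnit R (Algebra.norm F y) := by
  obtain ⟨hz, -⟩ := hT.norm_mem_red hdeg ⟨y, hy.2.1⟩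
  obtain ⟨hz', -⟩ := hT.norm_mem_red hdeg ⟨y⁻¹, hy.2.2⟩
  have h1 : Algebra.norm F y * Algebra.norm F y⁻¹ = 1 := by
    rw [← map_mul, mul_inv_cancel₀ hy.1, map_one]
  have h0 : Algebra.norm F y ≠ 0 := left_ne_zero_of_mul_eq_one h1
  refine ⟨h0, hz, ?_⟩
  rw [← eq_inv_of_mul_eq_one_right h1]
  exact hz'

/-- **the Gauss valuation and the norm**: if `c g` is a unit of `O'` (`c` a constant), then
`c ^ [F' : F] N(g)` is a unit of `O`. -/
theorem eis_gauss_norm (hT : R.IsTower R') [FiniteDimensional F F']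
    (hdeg : Module.finrank F F' = Module.finrank Fk Fk') {g : F'} {c : K}
    (h : EisUnit R' (algebraMap K F' c * g)) :
    EisUnit R (algebraMap K F c ^ Module.finrank F F' * Algebra.norm F g) := by
  have h1 := eis_unit_norm hT hdeg h
  rwa [map_mul, IsScalarTower.algebraMap_apply K F F', Algebra.norm_algebraMap] at h1

omit [IsScalarTower K F F'] in
/-- **Hecke-equivariance of the winding divisor, `β`-part**: `div (red' x) = α^* div (red x)`
for `x ∈ O` (apply it along `β`). -/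
theorem eis_red_pull (hT : R.IsTower R') [Algebra.IsIntegral Fk Fk'] [HasPrincipalDivisors k Fk']
    (x : R.O) (D : Divisor k Fk) (hD : ∀ v : Place k Fk, D v = v.ord (R.red x))
    (w : Place k Fk') :
    Divisor.pullback Fk' D w = w.ord (R'.red ⟨algebraMap F F' (x : F), hT.map_mem _ x.2⟩) := by
  rw [hT.red_map _ x.2]
  exact Divisor.pullback_apply_eq_ord hD w

/-- **Hecke-equivariance of the winding divisor, `α`-part**: `div (red (N y)) = α_* div (red' y)`
for a unit `y` of `O'`. -/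
theorem eis_red_push (hT : R.IsTower R') [FiniteDimensional F F']
    (hdeg : Module.finrank F F' = Module.finrank Fk Fk') [Module.Finite Fk Fk']
    (H : Divisor.PushforwardNormFormula k Fk Fk')
    (y : R'.O) (hy : R'.red y ≠ 0) (D' : Divisor k Fk') (hD' : ∀ w, D' w = w.ord (R'.red y)) :
    ∃ hz : Algebra.norm F ((y : R'.O) : F') ∈ R.O,
      ∀ v : Place k Fk, Divisor.pushforward Fk D' v = v.ord (R.red ⟨_, hz⟩) := by
  obtain ⟨hz, hred⟩ := hT.norm_mem_red hdeg y
  refine ⟨hz, fun v => ?_⟩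
  rw [hred]
  exact H _ hy D' hD' v

/-- **the Gauss valuation of a Hecke relation** (one component): if `N_α g = c w ^ a h ^ p` and
`c₁ g`, `c₁ w`, `d₁ h` are units (`g = β w`), then `c c₁ ^ [F':F] = c₁ ^ a d₁ ^ p` up to a unit
of `A`. -/
theorem eis_gauss_rel (hT : R.IsTower R') [FiniteDimensional F F']
    (hdeg : Module.finrank F F' = Module.finrank Fk Fk') {g : F'} {w h : F} {c c₁ d₁ : K}
    (a : ℤ) (p : ℕ)
    (hg : EisUnit R' (algebraMap K F' c₁ * g)) (hw : EisUnit R (algebraMap K F c₁ * w))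
    (hh : EisUnit R (algebraMap K F d₁ * h))
    (hN : Algebra.norm F g = algebraMap K F c * w ^ a * h ^ p) :
    A.valuation (c * c₁ ^ Module.finrank F F' * (c₁ ^ a)⁻¹ * (d₁ ^ p)⁻¹) = 1 := by
  have hU := eis_gauss_norm hT hdeg hg
  have hc₁ : algebraMap K F c₁ ≠ 0 := left_ne_zero_of_mul hw.1
  have hd₁ : algebraMap K F d₁ ≠ 0 := left_ne_zero_of_mul hh.1
  have hWH := ((hw.zpow a).mul (hh.pow p)).inv
  have key : algebraMap K F (c * c₁ ^ Module.finrank F F' * (c₁ ^ a)⁻¹ * (d₁ ^ p)⁻¹)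
      = algebraMap K F c₁ ^ Module.finrank F F' * Algebra.norm F g
        * ((algebraMap K F c₁ * w) ^ a * (algebraMap K F d₁ * h) ^ p)⁻¹ := by
    have hw0 : w ≠ 0 := right_ne_zero_of_mul hw.1
    have hh0 : h ≠ 0 := right_ne_zero_of_mul hh.1
    rw [hN, mul_zpow, mul_pow]
    simp only [map_mul, map_pow, map_inv₀, map_zpow₀]
    have e1 : (algebraMap K F c₁) ^ a ≠ 0 := zpow_ne_zero a hc₁
    have e2 : w ^ a ≠ 0 := zpow_ne_zero a hw0
    have e3 : (algebraMap K F d₁) ^ p ≠ 0 := pow_ne_zero p hd₁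
    have e4 : h ^ p ≠ 0 := pow_ne_zero p hh0
    field_simp
  apply EisUnit.valuation_eq_one (R := R)
  rw [key]
  exact hU.mul hWH

/-! ### 3b. the reduction as a total function, and (H1) -/

/-- the reduction of `f` (junk value `0` outside `O`) -/
def eisRed (R : ConstRed A π Fk F) (f : F) : Fk :=
  letI := Classical.propDecidable
  if h : f ∈ R.O then R.red ⟨f, h⟩ else 0

theorem eisRed_of_mem {f : F} (h : f ∈ R.O) : eisRed R f = R.red ⟨f, h⟩ := by
  rw [eisRed, dif_pos h]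

theorem eisRed_mul {f g : F} (hf : f ∈ R.O) (hg : g ∈ R.O) :
    eisRed R (f * g) = eisRed R f * eisRed R g := by
  rw [eisRed_of_mem (mul_mem hf hg), eisRed_of_mem hf, eisRed_of_mem hg, ← map_mul]
  rfl

theorem eisRed_one : eisRed R (1 : F) = 1 := by
  rw [eisRed_of_mem (one_mem _)]
  exact map_one R.red

theorem EisUnit.eisRed_ne_zero {f : F} (hf : EisUnit R f) : eisRed R f ≠ 0 := by
  rw [eisRed_of_mem hf.2.1]
  exact hf.red_ne_zero

theorem EisUnit.eisRed_inv {f : F} (hf : EisUnit R f) : eisRed R f⁻¹ = (eisRed R f)⁻¹ := by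
  apply eq_inv_of_mul_eq_one_left
  rw [← eisRed_mul hf.2.2 hf.2.1, inv_mul_cancel₀ hf.1, eisRed_one]

theorem EisUnit.eisRed_pow {f : F} (hf : EisUnit R f) (n : ℕ) :
    eisRed R (f ^ n) = eisRed R f ^ n := by
  induction n with
  | zero => rw [pow_zero, pow_zero, eisRed_one]
  | succ n ih => rw [pow_succ, pow_succ, eisRed_mul (hf.pow n).2.1 hf.2.1, ih]

theorem EisUnit.eisRed_zpow {f : F} (hf : EisUnit R f) (n : ℤ) :
    eisRed R (f ^ n) = eisRed R f ^ n := by
  cases n with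
  | ofNat n =>
    rw [Int.ofNat_eq_natCast, zpow_natCast, zpow_natCast]
    exact hf.eisRed_pow n
  | negSucc n => rw [zpow_negSucc, zpow_negSucc, (hf.pow _).eisRed_inv, hf.eisRed_pow]

/-- the reduction of a unit constant is a non-zero constant -/
theorem EisUnit.eisRed_const {c : K} (h : EisUnit R (algebraMap K F c)) :
    ∃ b : k, b ≠ 0 ∧ eisRed R (algebraMap K F c) = algebraMap k Fk b := by
  have h1 : c ∈ A := (R.algebraMap_mem_iff c).mp h.2.1
  refine ⟨π ⟨c, h1⟩, ?_, ?_⟩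
  · intro h0
    apply h.eisRed_ne_zero
    rw [eisRed_of_mem h.2.1]
    have := R.red_algebraMap ⟨c, h1⟩
    rw [h0, map_zero] at this
    exact this
  · rw [eisRed_of_mem h.2.1]
    exact R.red_algebraMap ⟨c, h1⟩

/-- **(H1), Hecke-equivariance of the winding divisor + Eisenstein step** (`WINDC ⇒ WIND0`).
Tower `F ⊆ F'` along `α` with constant reductions `R`, `R'` of the same degree; `u` a unit of `O`
(the normalised Kummer function of `x`), `g` a unit of `O'` (`g = β u`) with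
`N_α g = c u ^ a h ^ p` (the Kummer form of `T_ℓ x = a x`); if the divisors of `red' g` and of
`red' (α u)` agree modulo `p` off the places over `C`, and `p` is prime to `a - [F' : F]`, then
`p ∣ ord_Q (red u)` for every `Q ∉ C`. -/
theorem eis_wind (hT : R.IsTower R') [FiniteDimensional F F']
    (hdeg : Module.finrank F F' = Module.finrank Fk Fk') [Module.Finite Fk Fk']
    [Algebra.IsIntegral Fk Fk'] [HasPrincipalDivisors k Fk] [HasPrincipalDivisors k Fk']
    [SumRamificationInertia k Fk Fk'] (H : Divisor.PushforwardNormFormula k Fk Fk')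
    (p : ℕ) (hp : 0 < p) (a : ℤ) (hcop : IsCoprime (p : ℤ) (a - (Module.finrank F F' : ℤ)))
    {u h : F} {g : F'} {c : K} (hu : EisUnit R u) (hg : EisUnit R' g)
    (hN : Algebra.norm F g = algebraMap K F c * u ^ a * h ^ p)
    (C : Set (Place k Fk))
    (heq : ∀ Q' : Place k Fk', Q'.restrict Fk ∉ C →
      (p : ℤ) ∣ Q'.ord (R'.red ⟨g, hg.2.1⟩)
        - Q'.ord (R'.red ⟨algebraMap F F' u, hT.map_mem _ hu.2.1⟩))
    (Q : Place k Fk) (hQ : Q ∉ C) : (p : ℤ) ∣ Q.ord (R.red ⟨u, hu.2.1⟩) := by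
  have hNu := eis_unit_norm hT hdeg hg
  have hN0 : Algebra.norm F g ≠ 0 := hNu.1
  have hh0 : h ≠ 0 := by
    rintro rfl
    rw [zero_pow hp.ne', mul_zero] at hN
    exact hN0 hN
  obtain ⟨d, hd0, hd, hd'⟩ := R.exists_unit_smul h hh0
  have hH : EisUnit R (algebraMap K F d * h) :=
    ⟨mul_ne_zero ((map_ne_zero _).mpr hd0) hh0, hd, hd'⟩
  -- the constant
  have hdF : algebraMap K F d ≠ 0 := (map_ne_zero _).mpr hd0
  have key : Algebra.norm F g
      = algebraMap K F (c * (d ^ p)⁻¹) * (u ^ a * (algebraMap K F d * h) ^ p) := by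
    rw [hN, mul_pow, map_mul, map_inv₀, map_pow]
    have e3 : (algebraMap K F d) ^ p ≠ 0 := pow_ne_zero p hdF
    field_simp
  have hUH : EisUnit R (u ^ a * (algebraMap K F d * h) ^ p) := (hu.zpow a).mul (hH.pow p)
  have hγ : EisUnit R (algebraMap K F (c * (d ^ p)⁻¹)) := by
    have e : algebraMap K F (c * (d ^ p)⁻¹)
        = Algebra.norm F g * (u ^ a * (algebraMap K F d * h) ^ p)⁻¹ := by
      rw [key, mul_assoc, mul_inv_cancel₀ hUH.1, mul_one]
    rw [e]
    exact hNu.mul hUH.inv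
  obtain ⟨b, hb0, hb⟩ := hγ.eisRed_const
  have hredN : eisRed R (Algebra.norm F g)
      = algebraMap k Fk b * (eisRed R u ^ a * eisRed R (algebraMap K F d * h) ^ p) := by
    rw [key, eisRed_mul hγ.2.1 hUH.2.1, eisRed_mul (hu.zpow a).2.1 (hH.pow p).2.1, hb,
      hu.eisRed_zpow, hH.eisRed_pow]
  -- the divisors
  have hru0 : R.red ⟨u, hu.2.1⟩ ≠ 0 := hu.red_ne_zero
  have hrg0 : R'.red ⟨g, hg.2.1⟩ ≠ 0 := hg.red_ne_zero
  obtain ⟨n, hn, -⟩ := HasPrincipalDivisors.exists_divisor (K := k) _ hru0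
  obtain ⟨E', hE', -⟩ := HasPrincipalDivisors.exists_divisor (K := k) _ hrg0
  have hcop' : IsCoprime (p : ℤ) (a - (Module.finrank Fk Fk' : ℤ)) := by rwa [← hdeg]
  rw [← hn Q]
  refine eis_div p a hcop' C n E' ?_ ?_ Q hQ
  · intro w hw
    rw [hE' w, eis_red_pull hT ⟨u, hu.2.1⟩ n hn w]
    exact heq w hw
  · intro v _
    obtain ⟨hz, hpush⟩ := eis_red_push hT hdeg H ⟨g, hg.2.1⟩ hrg0 E' hE'
    rw [hpush v, hn v, ← eisRed_of_mem hz, ← eisRed_of_mem hu.2.1, hredN]
    have e1 : eisRed R u ≠ 0 := hu.eisRed_ne_zero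
    have e2 : eisRed R (algebraMap K F d * h) ≠ 0 := hH.eisRed_ne_zero
    have e3 : algebraMap k Fk b ≠ 0 := (map_ne_zero _).mpr hb0
    rw [Place.ord_mul v e3 (mul_ne_zero (zpow_ne_zero a e1) (pow_ne_zero p e2)),
      Place.ord_mul v (zpow_ne_zero a e1) (pow_ne_zero p e2), dz_ord_const, Place.ord_zpow,
      ← zpow_natCast, Place.ord_zpow]
    refine ⟨v.ord (eisRed R (algebraMap K F d * h)), ?_⟩
    ring

end Red

/-! ### 4. the `δ`-form of the Eisenstein step -/

section Delta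

variable {K F F' k Fk₁ Fk₁' Fk₂ Fk₂' : Type*} [Field K] [Field F] [Field F'] [Algebra K F]
  [Algebra K F'] [Algebra F F'] [IsScalarTower K F F']
  [Field k] [Field Fk₁] [Field Fk₁'] [Algebra k Fk₁] [Algebra k Fk₁'] [Algebra Fk₁ Fk₁']
  [IsScalarTower k Fk₁ Fk₁']
  [Field Fk₂] [Field Fk₂'] [Algebra k Fk₂] [Algebra k Fk₂'] [Algebra Fk₂ Fk₂']
  [IsScalarTower k Fk₂ Fk₂']
variable {A : ValuationSubring K} {π : A →+* k}
variable {R₁ : ConstRed A π Fk₁ F} {R₁' : ConstRed A π Fk₁' F'}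
variable {R₂ : ConstRed A π Fk₂ F} {R₂' : ConstRed A π Fk₂' F'}

/-- **Eisenstein step, `δ`-form** (tame case).  `R₁`, `R₂` the two components at the lower level,
`R₁'`, `R₂'` at the upper level (towers along `α` of full residue degree); `w` a function with
Gauss valuations `c₁⁻¹`, `c₂⁻¹`, `g = β w` with the same Gauss valuations at the upper level; if
`N_α g = c w ^ a h ^ p` (`T_ℓ x = a x` on Kummer functions) and `p` is prime to `a - [F' : F]`,
then `δ(w) = v(c₁ / c₂)` is a `p`-th power in the value group. -/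
theorem eis_delta (hT₁ : R₁.IsTower R₁') (hT₂ : R₂.IsTower R₂') [FiniteDimensional F F']
    (hdeg₁ : Module.finrank F F' = Module.finrank Fk₁ Fk₁')
    (hdeg₂ : Module.finrank F F' = Module.finrank Fk₂ Fk₂')
    {g : F'} {w h : F} {c c₁ c₂ : K} (a : ℤ) (p : ℕ) (hp : 0 < p)
    (hcop : IsCoprime (p : ℤ) (a - (Module.finrank F F' : ℤ)))
    (hg₁ : EisUnit R₁' (algebraMap K F' c₁ * g)) (hg₂ : EisUnit R₂' (algebraMap K F' c₂ * g))
    (hw₁ : EisUnit R₁ (algebraMap K F c₁ * w)) (hw₂ : EisUnit R₂ (algebraMap K F c₂ * w))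
    (hN : Algebra.norm F g = algebraMap K F c * w ^ a * h ^ p) :
    ∃ e : K, e ≠ 0 ∧ A.valuation (c₁ / c₂) = A.valuation e ^ p := by
  have hc₁ : c₁ ≠ 0 := by
    rintro rfl
    exact hw₁.1 (by rw [map_zero, zero_mul])
  have hc₂ : c₂ ≠ 0 := by
    rintro rfl
    exact hw₂.1 (by rw [map_zero, zero_mul])
  have hw0 : w ≠ 0 := right_ne_zero_of_mul hw₁.1
  have hg0 : g ≠ 0 := right_ne_zero_of_mul hg₁.1
  have hN0 : Algebra.norm F g ≠ 0 := Algebra.norm_ne_zero_iff.mpr hg0
  have hh0 : h ≠ 0 := by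
    rintro rfl
    rw [zero_pow hp.ne', mul_zero] at hN
    exact hN0 hN
  have hc0 : c ≠ 0 := by
    rintro rfl
    rw [map_zero, zero_mul, zero_mul] at hN
    exact hN0 hN
  obtain ⟨d₁, hd₁0, hd₁, hd₁'⟩ := R₁.exists_unit_smul h hh0
  obtain ⟨d₂, hd₂0, hd₂, hd₂'⟩ := R₂.exists_unit_smul h hh0
  have hh₁ : EisUnit R₁ (algebraMap K F d₁ * h) :=
    ⟨mul_ne_zero ((map_ne_zero _).mpr hd₁0) hh0, hd₁, hd₁'⟩
  have hh₂ : EisUnit R₂ (algebraMap K F d₂ * h) :=
    ⟨mul_ne_zero ((map_ne_zero _).mpr hd₂0) hh0, hd₂, hd₂'⟩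
  have r₁ := eis_gauss_rel hT₁ hdeg₁ a p hg₁ hw₁ hh₁ hN
  have r₂ := eis_gauss_rel hT₂ hdeg₂ a p hg₂ hw₂ hh₂ hN
  obtain ⟨m, hm⟩ : ∃ m : ℕ, m = Module.finrank F F' := ⟨_, rfl⟩
  rw [← hm] at r₁ r₂ hcop
  have hx : c₁ / c₂ ≠ 0 := div_ne_zero hc₁ hc₂
  have hy : d₁ / d₂ ≠ 0 := div_ne_zero hd₁0 hd₂0
  have hz : A.valuation ((c₁ / c₂) ^ ((m : ℤ) - a) * ((d₁ / d₂) ^ (p : ℤ))⁻¹) = 1 := by
    have e : (c₁ / c₂) ^ ((m : ℤ) - a) * ((d₁ / d₂) ^ (p : ℤ))⁻¹
        = (c * c₁ ^ m * (c₁ ^ a)⁻¹ * (d₁ ^ p)⁻¹) / (c * c₂ ^ m * (c₂ ^ a)⁻¹ * (d₂ ^ p)⁻¹) := by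
      rw [zpow_sub₀ hx, zpow_natCast, zpow_natCast, div_pow, div_pow, div_zpow]
      have e1 : c₁ ^ a ≠ 0 := zpow_ne_zero a hc₁
      have e2 : c₂ ^ a ≠ 0 := zpow_ne_zero a hc₂
      field_simp
    rw [e, map_div₀, r₁, r₂, div_one]
  obtain ⟨u, t, huv⟩ := hcop
  refine ⟨(c₁ / c₂) ^ u * (d₁ / d₂) ^ (-t),
    mul_ne_zero (zpow_ne_zero _ hx) (zpow_ne_zero _ hy), ?_⟩
  have hx_eq : c₁ / c₂ = ((c₁ / c₂) ^ u * (d₁ / d₂) ^ (-t)) ^ p
      * ((c₁ / c₂) ^ ((m : ℤ) - a) * ((d₁ / d₂) ^ (p : ℤ))⁻¹) ^ (-t) := by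
    rw [← zpow_natCast ((c₁ / c₂) ^ u * (d₁ / d₂) ^ (-t)) p, mul_zpow, mul_zpow, ← zpow_neg,
      ← zpow_mul, ← zpow_mul, ← zpow_mul, ← zpow_mul, mul_mul_mul_comm, ← zpow_add₀ hx,
      ← zpow_add₀ hy]
    have e1 : u * (p : ℤ) + ((m : ℤ) - a) * (-t) = 1 := by linear_combination huv
    have e2 : -t * (p : ℤ) + -(p : ℤ) * (-t) = 0 := by ring
    rw [e1, e2, zpow_one, zpow_zero, mul_one]
  have h3 := congrArg A.valuation hx_eq
  rw [map_mul, map_pow, map_zpow₀, hz, one_zpow, mul_one] at h3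
  exact h3

end Delta

end Fermat.Agent.S40lib

end
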