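import Mathlib
import Fermat.Agent.S36lib.Speed
import Fermat.Agent.S40lib.HeckeRed
import Fermat.Agent.S40lib.EisStep

/-!
# Item 88 (S40), bridge (B3) of the "levels" note (helper4): the Hecke relation of a Kummer
# function passes to its reduction

* `hkb_normalise` : abstract (any constant reduction): a relation `z = c u ^ a w ^ p` with `z`, `u`
  units of `O` can be rewritten with `c`, `w` units of `O`;
* `hkb_red_rel`   : abstract: then `red z = c̄ (red u) ^ a w̄ ^ p` with `c̄ ≠ 0`, `w̄ ≠ 0`;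
* `hkb_norm_unit` : at level `M p` (series reduction `R`, residue field `F_{M,k}`):
  the Hecke norm `N_α (β u)` of a unit `u` of `O` is a unit of `O`;
* `hkb_main`      : **(B3)**: `u` a unit of `O` with `N_α (β u) = c u ^ a w ^ p` in `FF (M p)`
  (`ℓ ≠ p` prime)  ⇒  `N_ᾱ (β̄ ū) = c̄ ū ^ a w̄ ^ p` in `F_{M,k}`, `ū = red u`, `c̄ ≠ 0`, `w̄ ≠ 0`.
-/

set_option autoImplicit false

noncomputable section

namespace Fermat.Agent.S40lib

open AlgebraicCurve Fermat.Agent.RRlib Fermat.Agent.GoodRed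

section Abstract

variable {K F k Fk : Type*} [Field K] [Field F] [Algebra K F]
  [Field k] [Field Fk] [Algebra k Fk]
variable {A : ValuationSubring K} {π : A →+* k}
variable {R : ConstRed A π Fk F}

/-- a relation `z = c u ^ a w ^ p` between units `z`, `u` of `O` can be normalised: `c` and `w`
may be taken to be units of `O`. -/
theorem hkb_normalise {z u w : F} {c : K} (a : ℤ) {p : ℕ} (hp : p ≠ 0)
    (hz : EisUnit R z) (hu : EisUnit R u)
    (hrel : z = algebraMap K F c * u ^ a * w ^ p) :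
    ∃ (c' : K) (w' : F), EisUnit R (algebraMap K F c') ∧ EisUnit R w' ∧
      z = algebraMap K F c' * u ^ a * w' ^ p := by
  have hw0 : w ≠ 0 := by
    rintro rfl
    apply hz.1
    rw [hrel, zero_pow hp, mul_zero]
  obtain ⟨d, hd0, hd1, hd2⟩ := R.exists_unit_smul w hw0
  have hdF : algebraMap K F d ≠ 0 := (map_ne_zero _).mpr hd0
  have hW : EisUnit R (algebraMap K F d * w) := ⟨mul_ne_zero hdF hw0, hd1, hd2⟩
  have hrel' : z = algebraMap K F (c * (d ^ p)⁻¹) * u ^ a * (algebraMap K F d * w) ^ p := by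
    rw [hrel, mul_pow, map_mul, map_inv₀, map_pow]
    have e : algebraMap K F d ^ p ≠ 0 := pow_ne_zero p hdF
    field_simp
  refine ⟨c * (d ^ p)⁻¹, algebraMap K F d * w, ?_, hW, hrel'⟩
  have hU : EisUnit R (z * (u ^ a * (algebraMap K F d * w) ^ p)⁻¹) :=
    hz.mul ((hu.zpow a).mul (hW.pow p)).inv
  have key : algebraMap K F (c * (d ^ p)⁻¹) = z * (u ^ a * (algebraMap K F d * w) ^ p)⁻¹ := by
    have e1 : u ^ a ≠ 0 := zpow_ne_zero a hu.1
    have e2 : (algebraMap K F d * w) ^ p ≠ 0 := pow_ne_zero p hW.1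
    rw [eq_mul_inv_iff_mul_eq₀ (mul_ne_zero e1 e2), hrel']
    ring
  rw [key]
  exact hU

/-- the reduction of a normalised relation -/
theorem hkb_red_rel {z u w : F} {c : K} (a : ℤ) {p : ℕ} (hp : p ≠ 0)
    (hz : EisUnit R z) (hu : EisUnit R u)
    (hrel : z = algebraMap K F c * u ^ a * w ^ p) :
    ∃ (cbar : k) (wbar : Fk), cbar ≠ 0 ∧ wbar ≠ 0 ∧
      eisRed R z = algebraMap k Fk cbar * eisRed R u ^ a * wbar ^ p := by
  obtain ⟨c', w', hc', hw', hrel'⟩ := hkb_normalise a hp hz hu hrel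
  obtain ⟨b, hb0, hb⟩ := hc'.eisRed_const
  refine ⟨b, eisRed R w', hb0, hw'.eisRed_ne_zero, ?_⟩
  have h1 : eisRed R z = eisRed R (algebraMap K F c' * u ^ a * w' ^ p) := by rw [← hrel']
  rw [h1, eisRed_mul (mul_mem hc'.2.1 (hu.zpow a).2.1) (hw'.pow p).2.1,
    eisRed_mul hc'.2.1 (hu.zpow a).2.1, hb, hu.eisRed_zpow, hw'.eisRed_pow]

end Abstract

section Concrete

open ModularCurve HahnSeries Fermat.Agent.GM
  Fermat.Agent.S24lib Fermat.Agent.HeckeBar Fermat.Agent.S34lib Fermat.Agent.S36lib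

variable (M p ℓ : ℕ) [NeZero M] [NeZero p] [NeZero ℓ] [NeZero (M * p)] [NeZero (M * ℓ)]
  [NeZero (M * p * ℓ)]
variable (A : ValuationSubring Kbar)

/-- the Hecke norm `N_α (β u)` of a unit `u` of the valuation ring of a series reduction at level
`M p` is a unit. -/
theorem hkb_norm_unit (hp : p.Prime) (hpM : ¬ p ∣ M) (hℓ : ℓ.Prime) (hℓp : ℓ ≠ p)
    (hA : A.LiesOverPrime p)
    {R : ConstRed A (IsLocalRing.residue A) (Fk (IsLocalRing.ResidueField A) M) (FF (M * p))}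
    (hR : IsSeriesRed R) (u : FF (M * p)) (hu : EisUnit R u) :
    letI := algebraAlong (heckeAlphaBar Kbar (M * p) ℓ)
    EisUnit R (Algebra.norm (FF (M * p)) (heckeBetaBar Kbar (M * p) ℓ u)) := by
  letI := algebraAlong (heckeAlphaBar Kbar (M * p) ℓ)
  obtain ⟨hz, -⟩ := hkr_main M p ℓ A hp hpM hℓ hℓp hA hR u hu.2.1
  obtain ⟨hz', -⟩ := hkr_main M p ℓ A hp hpM hℓ hℓp hA hR u⁻¹ hu.2.2
  have h1 : Algebra.norm (FF (M * p)) (heckeBetaBar Kbar (M * p) ℓ u)
      * Algebra.norm (FF (M * p)) (heckeBetaBar Kbar (M * p) ℓ u⁻¹) = 1 := by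
    rw [← map_mul, ← map_mul, mul_inv_cancel₀ hu.1, map_one, map_one]
  refine ⟨left_ne_zero_of_mul_eq_one h1, hz, ?_⟩
  rw [← eq_inv_of_mul_eq_one_right h1]
  exact hz'

/-- **(B3)**: the Hecke relation `N_α (β u) = c u ^ a w ^ p` of a unit `u` of `O` at level `M p`
reduces to the same relation for `ū = red u` in `F_{M,k}`:
`N_ᾱ (β̄ ū) = c̄ ū ^ a w̄ ^ p`, `c̄ ≠ 0`, `w̄ ≠ 0`. -/
theorem hkb_main (hp : p.Prime) (hpM : ¬ p ∣ M) (hℓ : ℓ.Prime) (hℓp : ℓ ≠ p)
    (hA : A.LiesOverPrime p)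
    {R : ConstRed A (IsLocalRing.residue A) (Fk (IsLocalRing.ResidueField A) M) (FF (M * p))}
    (hR : IsSeriesRed R) (u w : FF (M * p)) (c : Kbar) (a : ℤ) {n : ℕ} (hn : n ≠ 0)
    (hu : EisUnit R u)
    (hN : letI := algebraAlong (heckeAlphaBar Kbar (M * p) ℓ)
      Algebra.norm (FF (M * p)) (heckeBetaBar Kbar (M * p) ℓ u)
        = algebraMap Kbar (FF (M * p)) c * u ^ a * w ^ n) :
    letI := algebraAlong (inclK (IsLocalRing.ResidueField A) (dvd_mul_right M ℓ))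
    ∃ (cbar : IsLocalRing.ResidueField A) (wbar : Fk (IsLocalRing.ResidueField A) M),
      cbar ≠ 0 ∧ wbar ≠ 0 ∧
      Algebra.norm (Fk (IsLocalRing.ResidueField A) M)
          (hkrBetaK (IsLocalRing.ResidueField A) M ℓ (eisRed R u))
        = algebraMap (IsLocalRing.ResidueField A) (Fk (IsLocalRing.ResidueField A) M) cbar
          * eisRed R u ^ a * wbar ^ n := by
  letI := algebraAlong (heckeAlphaBar Kbar (M * p) ℓ)
  letI := algebraAlong (inclK (IsLocalRing.ResidueField A) (dvd_mul_right M ℓ))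
  have hU := hkb_norm_unit M p ℓ A hp hpM hℓ hℓp hA hR u hu
  obtain ⟨cbar, wbar, hc0, hw0, hrel⟩ := hkb_red_rel a hn hU hu hN
  refine ⟨cbar, wbar, hc0, hw0, ?_⟩
  obtain ⟨hz, hzred⟩ := hkr_main M p ℓ A hp hpM hℓ hℓp hA hR u hu.2.1
  rw [eisRed_of_mem hu.2.1, ← hzred, ← eisRed_of_mem hz, hrel, eisRed_of_mem hu.2.1]

end Concrete

end Fermat.Agent.S40lib

end
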