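import Mathlib
import Fermat.Agent.S36lib.Speed
import Fermat.Agent.LatE.KummerHecke
import Fermat.Agent.S37lib.HeckeInputs
import Fermat.Agent.AJlib.Assembly

/-!
# Item 88 (S40): the Kummer form of a Hecke eigen-relation (helper3)

`y ∈ J₀(N)(ℚ̄)` the class of a divisor `D` of degree `0`, `u` a Kummer function (`p D = div u`).
If `T_ℓ y = a • y` (`a : ℤ`), then

  `N_α (β u) = c · u ^ a · h ^ p`     for a constant `c ≠ 0` and a function `h ≠ 0`.

This is the input `hN` of `eis_wind` (EisStep, helper28) and the starting point of the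
eigen-relation for the logarithmic derivative (`N7c`).

* `kme_abs`        : abstract form (any function field in which functions without zeros and poles
  are constant);
* `kme_norm_rel`   : the statement for `heckeOperatorBar N ⟨ℓ, hℓ⟩`, with `normBeta`;
* `kme_norm_rel'`  : the same with `Algebra.norm` along `α` spelled out (shape of `eis_wind`);
* `kme_norm_rel_eig` : the same for an element of an eigenspace `V` (`S40hEig`).
-/

set_option autoImplicit false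
set_option linter.style.longLine false
set_option linter.unusedSectionVars false
set_option linter.unusedVariables false
set_option linter.style.haveILetI false

noncomputable section

namespace Fermat.Agent.S40lib

open AlgebraicCurve ModularCurve
open Fermat.Agent.S24lib Fermat.Agent.AJlib Fermat.Agent.S37lib Fermat.Agent.LatE
  Fermat.Agent.GalRep

/-- abstract form: two functions with `div f = p D' `, `div u = p D`, `D' - a D = div h`:
then `f = c u ^ a h ^ p`. -/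
theorem kme_abs {K F : Type*} [Field K] [Field F] [Algebra K F]
    (hconst : ∀ f : F, f ≠ 0 → (∀ v : Place K F, v.ord f = 0) → f ∈ (algebraMap K F).range)
    (p : ℕ) (a : ℤ) (D D' : Divisor K F) {u f h : F} (hu : u ≠ 0) (hf : f ≠ 0) (hh : h ≠ 0)
    (hD : ∀ v : Place K F, (p : ℤ) * D v = v.ord u)
    (hD' : ∀ v : Place K F, (p : ℤ) * D' v = v.ord f)
    (hh' : ∀ v : Place K F, (D' - a • D) v = v.ord h) :
    ∃ c : K, c ≠ 0 ∧ f = algebraMap K F c * u ^ a * h ^ p := by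
  have hua : u ^ a ≠ 0 := zpow_ne_zero _ hu
  have hhp : h ^ p ≠ 0 := pow_ne_zero _ hh
  have hden : u ^ a * h ^ p ≠ 0 := mul_ne_zero hua hhp
  have hw0 : f * (u ^ a * h ^ p)⁻¹ ≠ 0 := mul_ne_zero hf (inv_ne_zero hden)
  have hord : ∀ v : Place K F, v.ord (f * (u ^ a * h ^ p)⁻¹) = 0 := by
    intro v
    rw [v.ord_mul hf (inv_ne_zero hden), v.ord_inv, v.ord_mul hua hhp, v.ord_zpow,
      ← zpow_natCast h p, v.ord_zpow, ← hD' v, ← hD v, ← hh' v]
    simp only [Finsupp.coe_sub, Finsupp.coe_smul, Pi.sub_apply, Pi.smul_apply, smul_eq_mul]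
    ring
  obtain ⟨c, hc⟩ := hconst _ hw0 hord
  refine ⟨c, ?_, ?_⟩
  · rintro rfl
    rw [map_zero] at hc
    exact hw0 hc.symm
  · have hc' : algebraMap K F c = f * (u ^ a * h ^ p)⁻¹ := hc
    rw [mul_assoc, hc', mul_assoc, inv_mul_cancel₀ hden, mul_one]

/-- **the Kummer form of `T_ℓ y = a • y`**: `N_α (β u) = c u ^ a h ^ p`. -/
theorem kme_norm_rel (N ℓ : ℕ) [NeZero N] [NeZero ℓ] (hℓ : ℓ.Prime) (p : ℕ) (a : ℤ)
    (y : JZero N) (hy : heckeOperatorBar N ⟨ℓ, hℓ⟩ y = a • y)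
    (D : Divisor.degZero (K := Kbar) (F := FF N)) (hD : Pic0.mk D = y)
    (u : FF N) (hu : u ≠ 0)
    (hdiv : ∀ v : Place Kbar (FF N), (p : ℤ) * (D : Divisor Kbar (FF N)) v = v.ord u) :
    ∃ (c : Kbar) (h : FF N), c ≠ 0 ∧ h ≠ 0 ∧
      normBeta N ℓ u = algebraMap Kbar (FF N) c * u ^ a * h ^ p := by
  obtain ⟨hN0, D', hD', hD'ord⟩ := kummer_hecke N ℓ (heckeInputsAlong_Qbar N ℓ) p D u hu hdiv
  have h1 : Pic0.mk D' = a • Pic0.mk D := by
    rw [← hD', hD]
    exact hy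
  have h2 : Pic0.mk (D' - a • D) = 0 := by
    have h3 : Pic0.mk (D' - a • D) = Pic0.mk D' - a • Pic0.mk D := rfl
    rw [h3, h1, sub_self]
  have h4 : (D' - a • D) ∈
      (Divisor.principal (K := Kbar) (F := FF N)).addSubgroupOf
        (Divisor.degZero (K := Kbar) (F := FF N)) :=
    (QuotientAddGroup.eq_zero_iff _).mp h2
  obtain ⟨h, hh0, hh⟩ := h4
  obtain ⟨c, hc0, hc⟩ := kme_abs (const_of_ord_eq_zero_FF N) p a
    (D : Divisor Kbar (FF N)) (D' : Divisor Kbar (FF N)) hu hN0 hh0 hdiv hD'ord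
    (fun v => by
      have := hh v
      simpa using this)
  exact ⟨c, h, hc0, hh0, hc⟩

/-- `kme_norm_rel` with the norm along `α` spelled out. -/
theorem kme_norm_rel' (N ℓ : ℕ) [NeZero N] [NeZero ℓ] (hℓ : ℓ.Prime) (p : ℕ) (a : ℤ)
    (y : JZero N) (hy : heckeOperatorBar N ⟨ℓ, hℓ⟩ y = a • y)
    (D : Divisor.degZero (K := Kbar) (F := FF N)) (hD : Pic0.mk D = y)
    (u : FF N) (hu : u ≠ 0)
    (hdiv : ∀ v : Place Kbar (FF N), (p : ℤ) * (D : Divisor Kbar (FF N)) v = v.ord u) :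
    ∃ (c : Kbar) (h : FF N), c ≠ 0 ∧ h ≠ 0 ∧
      (letI := algebraAlong (heckeAlphaBar Kbar N ℓ)
       Algebra.norm (FF N) (heckeBetaBar Kbar N ℓ u)) =
        algebraMap Kbar (FF N) c * u ^ a * h ^ p :=
  kme_norm_rel N ℓ hℓ p a y hy D hD u hu hdiv

/-- the same for a class of a Hecke eigenspace `V` (all `T_ℓ`, `ℓ ∉ S`, act by `a ℓ`). -/
theorem kme_norm_rel_eig (N : ℕ) [NeZero N] (S : Finset ℕ) (a : ℕ → ℤ)
    (V : AddSubgroup (JZero N))
    (hEig : ∀ ℓ : Nat.Primes, (ℓ : ℕ) ∉ S → ∀ x ∈ V, heckeOperatorBar N ℓ x = a ℓ • x)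
    (ℓ : ℕ) [NeZero ℓ] (hℓ : ℓ.Prime) (hℓS : ℓ ∉ S) (p : ℕ)
    (y : JZero N) (hyV : y ∈ V)
    (D : Divisor.degZero (K := Kbar) (F := FF N)) (hD : Pic0.mk D = y)
    (u : FF N) (hu : u ≠ 0)
    (hdiv : ∀ v : Place Kbar (FF N), (p : ℤ) * (D : Divisor Kbar (FF N)) v = v.ord u) :
    ∃ (c : Kbar) (h : FF N), c ≠ 0 ∧ h ≠ 0 ∧
      normBeta N ℓ u = algebraMap Kbar (FF N) c * u ^ a ℓ * h ^ p :=
  kme_norm_rel N ℓ hℓ p (a ℓ) y (hEig ⟨ℓ, hℓ⟩ hℓS y hyV) D hD u hu hdiv

end Fermat.Agent.S40lib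

end
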