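import Mathlib
import Fermat.Agent.S36lib.Speed
import Fermat.Agent.S40lib.KumEig
import Fermat.Agent.S40lib.HeckeBridge
import Fermat.Agent.S40lib.LiftHub

/-!
# Item 88 (S40), layer (LIFT), bridge piece **E1** (helper13).  Complete proofs.

Level `N p` (`p ∤ N`), `A` a valuation ring of `ℚ̄` over `p` with residue field `k`, `R` a series
reduction of `F_{Np}` with residue field `F_{N,k}`.  Let `x ∈ J₀(Np)(ℚ̄)` be a Hecke eigenclass,
`T_ℓ x = a_ℓ x` for the primes `ℓ ∉ S` (`p ∈ S`), `x = [D]`, and `u` a Kummer function of `x`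
(`div u = p D`) which is a unit of `O_R` and whose reduction `ū = red_R u` has a divisor in
`p · Div`.  Then `ū` is a `p`-torsion eigenfunction of `F_{N,k}` in the sense of the hub of the
layer (LIFT):

  `LfhEigFun k N p S a ū`,  i.e.  `N_ᾱ (β̄ ū) = c̄ · ū ^ a_ℓ · s̄ ^ p`  (`ℓ ∉ S`).

Proof: `kme_norm_rel'` (helper3: the Kummer form of `T_ℓ x = a_ℓ x` in characteristic `0`) and
`hkb_main` (helper4: the relation passes to the reduction; `hkr_main`).

* `ler_hecke` : one prime `ℓ`;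
* `ler_main`  : `LfhEigFun` for `red_R u`;
* `ler_main_eig` : the same for a class of an eigenspace `V` (`S40hEig`-shape).
-/

set_option autoImplicit false
set_option linter.style.haveILetI false
set_option linter.unusedSectionVars false
set_option linter.unusedVariables false
set_option synthInstance.maxHeartbeats 400000

noncomputable section

namespace Fermat.Agent.S40lib

open ModularCurve AlgebraicCurve HahnSeries Fermat.Agent.GoodRed Fermat.Agent.GM
  Fermat.Agent.S24lib Fermat.Agent.HeckeBar Fermat.Agent.S34lib Fermat.Agent.S36lib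

variable (N p : ℕ) [NeZero N] [NeZero p] [NeZero (N * p)]
variable (A : ValuationSubring Kbar)

/-- **E1, one prime**: the reduction of the Kummer function of a `T_ℓ`-eigenclass satisfies the
Kummer form of the eigen-relation in characteristic `p`. -/
theorem ler_hecke (hp : p.Prime) (hpN : ¬ p ∣ N) (hA : A.LiesOverPrime p)
    {R : ConstRed A (IsLocalRing.residue A) (Fk (IsLocalRing.ResidueField A) N) (FF (N * p))}
    (hR : IsSeriesRed R) (ℓ : ℕ) [NeZero ℓ] (hℓ : ℓ.Prime) (hℓp : ℓ ≠ p) (a : ℤ)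
    (x : JZero (N * p)) (hx : heckeOperatorBar (N * p) ⟨ℓ, hℓ⟩ x = a • x)
    (D : Divisor.degZero (K := Kbar) (F := FF (N * p))) (hD : Pic0.mk D = x)
    (u : FF (N * p)) (hu : EisUnit R u)
    (hdiv : ∀ v : Place Kbar (FF (N * p)),
      (p : ℤ) * (D : Divisor Kbar (FF (N * p))) v = v.ord u) :
    ∃ (c : IsLocalRing.ResidueField A) (s : Fk (IsLocalRing.ResidueField A) N),
      c ≠ 0 ∧ s ≠ 0 ∧
      lfhHeckeFun (IsLocalRing.ResidueField A) N ℓ (R.red ⟨u, hu.2.1⟩)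
        = algebraMap (IsLocalRing.ResidueField A) (Fk (IsLocalRing.ResidueField A) N) c
          * (R.red ⟨u, hu.2.1⟩) ^ a * s ^ p := by
  haveI : NeZero (N * ℓ) := ⟨Nat.mul_ne_zero (NeZero.ne N) (NeZero.ne ℓ)⟩
  haveI : NeZero (N * p * ℓ) := ⟨Nat.mul_ne_zero (NeZero.ne (N * p)) (NeZero.ne ℓ)⟩
  obtain ⟨c, h, hc0, hh0, hrel⟩ := kme_norm_rel' (N * p) ℓ hℓ p a x hx D hD u hu.1 hdiv
  obtain ⟨cbar, wbar, hcb, hwb, hbar⟩ :=
    hkb_main N p ℓ A hp hpN hℓ hℓp hA hR u h c a hp.ne_zero hu hrel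
  refine ⟨cbar, wbar, hcb, hwb, ?_⟩
  rw [eisRed_of_mem hu.2.1] at hbar
  exact hbar

/-- **E1**: the reduction of a unit Kummer function of a Hecke eigenclass of level `N p` is a
`p`-torsion eigenfunction of `F_{N,k}`. -/
theorem ler_main (hp : p.Prime) (hpN : ¬ p ∣ N) (hA : A.LiesOverPrime p)
    {R : ConstRed A (IsLocalRing.residue A) (Fk (IsLocalRing.ResidueField A) N) (FF (N * p))}
    (hR : IsSeriesRed R) (S : Finset ℕ) (hpS : p ∈ S) (a : ℕ → ℤ)
    (x : JZero (N * p))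
    (hx : ∀ ℓ : Nat.Primes, (ℓ : ℕ) ∉ S → heckeOperatorBar (N * p) ℓ x = a ℓ • x)
    (D : Divisor.degZero (K := Kbar) (F := FF (N * p))) (hD : Pic0.mk D = x)
    (u : FF (N * p)) (hu : EisUnit R u)
    (hdiv : ∀ v : Place Kbar (FF (N * p)),
      (p : ℤ) * (D : Divisor Kbar (FF (N * p))) v = v.ord u)
    (hord : ∀ Q : Place (IsLocalRing.ResidueField A) (Fk (IsLocalRing.ResidueField A) N),
      (p : ℤ) ∣ Q.ord (R.red ⟨u, hu.2.1⟩)) :
    LfhEigFun (IsLocalRing.ResidueField A) N p S a (R.red ⟨u, hu.2.1⟩) := by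
  refine ⟨hu.red_ne_zero, hord, ?_⟩
  intro ℓ hℓ hℓS
  haveI : NeZero ℓ := ⟨hℓ.ne_zero⟩
  have hℓp : ℓ ≠ p := fun h => hℓS (h ▸ hpS)
  exact ler_hecke N p A hp hpN hA hR ℓ hℓ hℓp (a ℓ) x (hx ⟨ℓ, hℓ⟩ hℓS) D hD u hu hdiv

/-- **E1** for a class of a Hecke eigenspace `V`. -/
theorem ler_main_eig (hp : p.Prime) (hpN : ¬ p ∣ N) (hA : A.LiesOverPrime p)
    {R : ConstRed A (IsLocalRing.residue A) (Fk (IsLocalRing.ResidueField A) N) (FF (N * p))}
    (hR : IsSeriesRed R) (S : Finset ℕ) (hpS : p ∈ S) (a : ℕ → ℤ)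
    (V : AddSubgroup (JZero (N * p)))
    (hEig : ∀ ℓ : Nat.Primes, (ℓ : ℕ) ∉ S → ∀ y ∈ V, heckeOperatorBar (N * p) ℓ y = a ℓ • y)
    (x : JZero (N * p)) (hxV : x ∈ V)
    (D : Divisor.degZero (K := Kbar) (F := FF (N * p))) (hD : Pic0.mk D = x)
    (u : FF (N * p)) (hu : EisUnit R u)
    (hdiv : ∀ v : Place Kbar (FF (N * p)),
      (p : ℤ) * (D : Divisor Kbar (FF (N * p))) v = v.ord u)
    (hord : ∀ Q : Place (IsLocalRing.ResidueField A) (Fk (IsLocalRing.ResidueField A) N),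
      (p : ℤ) ∣ Q.ord (R.red ⟨u, hu.2.1⟩)) :
    LfhEigFun (IsLocalRing.ResidueField A) N p S a (R.red ⟨u, hu.2.1⟩) :=
  ler_main N p A hp hpN hA hR S hpS a x (fun ℓ hℓS => hEig ℓ hℓS x hxV) D hD u hu hdiv hord

end Fermat.Agent.S40lib

end
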