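import Mathlib
import Fermat.Agent.S36lib.Speed
import Fermat.Agent.S36lib.DegJ2
import Fermat.Agent.S40lib.LiftEigRed
import Fermat.Agent.S40lib.CuspInf

/-!
# Item 88 (S44), CUSP GAP, piece (b) (helper3): the Hecke correspondence on functions commutes
with the Atkin–Lehner involutions, and the eigen-relation of `w_Q u`.

Level `L`, `Q` an exact divisor of `L`, `ℓ` prime to `Q`, `w = w_Q = alQ L Q`:

* `aln_normBeta_alQ` : `N_α (β (w u)) = w (N_α (β u))`  (`normBeta L ℓ ∘ w = w ∘ normBeta L ℓ`);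
* `aln_rel_alQ`      : `N_α (β u) = c · u ^ a · h ^ n  ⇒  N_α (β (w u)) = c · (w u) ^ a · (w h) ^ n`;
* `aln_norm_rel`     : the Kummer form of `T_ℓ x = a x` for the function `w u`
                        (`u` a Kummer function of `x`);
* `aln_hecke_red`    : level `N p`, `R` a series reduction: if `w u` is a unit of `O_R`, then
                        `red (w u)` satisfies the reduced eigen-relation
                        `N_ᾱ (β̄ ū') = c̄ · ū' ^ a · s̄ ^ p`   (`ū' = red_R (w u)`);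
* `aln_ord_inf`      : hence `p ∣ ord_∞ (red_R (w_Q u))` as soon as `p ∤ a − (1 + ℓ)`
                        (`cpi_ord_inf` of helper15).
Complete proofs.
-/

set_option autoImplicit false
set_option linter.style.haveILetI false
set_option linter.unusedSectionVars false
set_option linter.unusedVariables false
set_option linter.style.longLine false
set_option synthInstance.maxHeartbeats 400000

noncomputable section

namespace Fermat.Agent.S40lib

open ModularCurve AlgebraicCurve HahnSeries Fermat.Agent.GoodRed Fermat.Agent.GM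
  Fermat.Agent.S24lib Fermat.Agent.HeckeBar Fermat.Agent.S34lib Fermat.Agent.S36lib
  Fermat.Agent.LatE

section Norm

variable (L : ℕ) [NeZero L] {Q ℓ : ℕ} [NeZero ℓ] [NeZero (L * ℓ)]
variable (hQ : Q ∣ L) (hcop : Nat.Coprime Q (L / Q)) (hℓQ : Nat.Coprime ℓ Q)

include hℓQ

/-- the norm along `α` commutes with the pair `(w_Q, w_Q')` of Atkin–Lehner involutions -/
theorem aln_norm_alQ (y : FF (L * ℓ)) :
    letI := algebraAlong (heckeAlphaBar Kbar L ℓ)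
    Algebra.norm (FF L)
        (alQ (L * ℓ) Q (hQ.mul_right ℓ) (dgj2_coprime_mul hQ hcop hℓQ) y)
      = alQ L Q hQ hcop (Algebra.norm (FF L) y) := by
  letI := algebraAlong (heckeAlphaBar Kbar L ℓ)
  have he : RingHom.comp (algebraMap (FF L) (FF (L * ℓ)))
        ((alQ L Q hQ hcop).toRingEquiv : FF L →+* FF L)
      = RingHom.comp ((alQ (L * ℓ) Q (hQ.mul_right ℓ)
          (dgj2_coprime_mul hQ hcop hℓQ)).toRingEquiv : FF (L * ℓ) →+* FF (L * ℓ))
        (algebraMap (FF L) (FF (L * ℓ))) := by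
    refine RingHom.ext fun x => ?_
    have h := congrArg (fun φ : FF L →ₐ[Kbar] FF (L * ℓ) => φ x)
      (dgj2_al_comp_alpha L hQ hcop hℓQ)
    exact h.symm
  have h := Algebra.norm_eq_of_equiv_equiv (A₁ := FF L) (B₁ := FF (L * ℓ)) (A₂ := FF L)
    (B₂ := FF (L * ℓ)) (alQ L Q hQ hcop).toRingEquiv
    (alQ (L * ℓ) Q (hQ.mul_right ℓ) (dgj2_coprime_mul hQ hcop hℓQ)).toRingEquiv he y
  have h2 := congrArg (alQ L Q hQ hcop).toRingEquiv h
  rw [RingEquiv.apply_symm_apply] at h2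
  exact h2.symm

/-- **`N_α ∘ β` commutes with `w_Q`** -/
theorem aln_normBeta_alQ (u : FF L) :
    normBeta L ℓ (alQ L Q hQ hcop u) = alQ L Q hQ hcop (normBeta L ℓ u) := by
  unfold normBeta
  have hβ : heckeBetaBar Kbar L ℓ (alQ L Q hQ hcop u)
      = alQ (L * ℓ) Q (hQ.mul_right ℓ) (dgj2_coprime_mul hQ hcop hℓQ)
          (heckeBetaBar Kbar L ℓ u) := by
    have h := congrArg (fun φ : FF L →ₐ[Kbar] FF (L * ℓ) => φ u)
      (dgj2_al_comp_beta L hQ hcop hℓQ)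
    exact h.symm
  rw [hβ]
  exact aln_norm_alQ L hQ hcop hℓQ _

/-- the eigen-relation is stable under `w_Q` -/
theorem aln_rel_alQ (u h : FF L) (c : Kbar) (a : ℤ) (n : ℕ)
    (hrel : normBeta L ℓ u = algebraMap Kbar (FF L) c * u ^ a * h ^ n) :
    normBeta L ℓ (alQ L Q hQ hcop u)
      = algebraMap Kbar (FF L) c * (alQ L Q hQ hcop u) ^ a * (alQ L Q hQ hcop h) ^ n := by
  rw [aln_normBeta_alQ L hQ hcop hℓQ, hrel, map_mul, map_mul, map_pow, map_zpow₀,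
    AlgEquiv.commutes]

/-- the same in the `Algebra.norm` form (the hypothesis `hN` of `hkb_main`) -/
theorem aln_rel_alQ' (u h : FF L) (c : Kbar) (a : ℤ) (n : ℕ)
    (hrel : letI := algebraAlong (heckeAlphaBar Kbar L ℓ)
      Algebra.norm (FF L) (heckeBetaBar Kbar L ℓ u)
        = algebraMap Kbar (FF L) c * u ^ a * h ^ n) :
    letI := algebraAlong (heckeAlphaBar Kbar L ℓ)
    Algebra.norm (FF L) (heckeBetaBar Kbar L ℓ (alQ L Q hQ hcop u))
      = algebraMap Kbar (FF L) c * (alQ L Q hQ hcop u) ^ a * (alQ L Q hQ hcop h) ^ n :=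
  aln_rel_alQ L hQ hcop hℓQ u h c a n hrel

end Norm

section Red

variable (N p : ℕ) [NeZero N] [NeZero p] [NeZero (N * p)]
variable (A : ValuationSubring Kbar)

/-- the Kummer form of `T_ℓ x = a x` for the function `w_Q u`, `u` a Kummer function of `x` -/
theorem aln_norm_rel (L : ℕ) [NeZero L] {Q : ℕ} (hQ : Q ∣ L) (hcop : Nat.Coprime Q (L / Q))
    (ℓ : ℕ) [NeZero ℓ] [NeZero (L * ℓ)] (hℓ : ℓ.Prime) (hℓQ : Nat.Coprime ℓ Q) (n : ℕ) (a : ℤ)
    (x : JZero L) (hx : heckeOperatorBar L ⟨ℓ, hℓ⟩ x = a • x)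
    (D : Divisor.degZero (K := Kbar) (F := FF L)) (hD : Pic0.mk D = x)
    (u : FF L) (hu0 : u ≠ 0)
    (hdiv : ∀ v : Place Kbar (FF L), (n : ℤ) * (D : Divisor Kbar (FF L)) v = v.ord u) :
    ∃ (c : Kbar) (h : FF L), c ≠ 0 ∧ h ≠ 0 ∧
      (letI := algebraAlong (heckeAlphaBar Kbar L ℓ)
      Algebra.norm (FF L) (heckeBetaBar Kbar L ℓ (alQ L Q hQ hcop u))
        = algebraMap Kbar (FF L) c * (alQ L Q hQ hcop u) ^ a * h ^ n) := by
  obtain ⟨c, h, hc0, hh0, hrel⟩ := kme_norm_rel' L ℓ hℓ n a x hx D hD u hu0 hdiv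
  refine ⟨c, alQ L Q hQ hcop h, hc0, ?_, aln_rel_alQ' L hQ hcop hℓQ u h c a n hrel⟩
  intro h0
  exact hh0 ((map_eq_zero_iff _ (alQ L Q hQ hcop).injective).1 h0)

/-- **the reduced eigen-relation for `red_R (w_Q u)`** (level `N p`, `R` a series reduction):
no hypothesis on the orders of the reduction. -/
theorem aln_hecke_red (hp : p.Prime) (hpN : ¬ p ∣ N) (hA : A.LiesOverPrime p)
    {R : ConstRed A (IsLocalRing.residue A) (Fk (IsLocalRing.ResidueField A) N) (FF (N * p))}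
    (hR : IsSeriesRed R) {Q : ℕ} (hQ : Q ∣ N * p) (hcop : Nat.Coprime Q (N * p / Q))
    (ℓ : ℕ) [NeZero ℓ] (hℓ : ℓ.Prime) (hℓp : ℓ ≠ p) (hℓQ : Nat.Coprime ℓ Q) (a : ℤ)
    (x : JZero (N * p)) (hx : heckeOperatorBar (N * p) ⟨ℓ, hℓ⟩ x = a • x)
    (D : Divisor.degZero (K := Kbar) (F := FF (N * p))) (hD : Pic0.mk D = x)
    (u : FF (N * p)) (hu0 : u ≠ 0)
    (hdiv : ∀ v : Place Kbar (FF (N * p)),
      (p : ℤ) * (D : Divisor Kbar (FF (N * p))) v = v.ord u)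
    (hu' : EisUnit R (alQ (N * p) Q hQ hcop u)) :
    ∃ (c : IsLocalRing.ResidueField A) (s : Fk (IsLocalRing.ResidueField A) N),
      c ≠ 0 ∧ s ≠ 0 ∧
      lfhHeckeFun (IsLocalRing.ResidueField A) N ℓ (R.red ⟨alQ (N * p) Q hQ hcop u, hu'.2.1⟩)
        = algebraMap (IsLocalRing.ResidueField A) (Fk (IsLocalRing.ResidueField A) N) c
          * (R.red ⟨alQ (N * p) Q hQ hcop u, hu'.2.1⟩) ^ a * s ^ p := by
  haveI : NeZero (N * ℓ) := ⟨Nat.mul_ne_zero (NeZero.ne N) (NeZero.ne ℓ)⟩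
  haveI : NeZero (N * p * ℓ) := ⟨Nat.mul_ne_zero (NeZero.ne (N * p)) (NeZero.ne ℓ)⟩
  obtain ⟨c, h, hc0, hh0, hrel⟩ :=
    aln_norm_rel (N * p) hQ hcop ℓ hℓ hℓQ p a x hx D hD u hu0 hdiv
  obtain ⟨cbar, wbar, hcb, hwb, hbar⟩ :=
    hkb_main N p ℓ A hp hpN hℓ hℓp hA hR (alQ (N * p) Q hQ hcop u) h c a hp.ne_zero hu' hrel
  refine ⟨cbar, wbar, hcb, hwb, ?_⟩
  rw [eisRed_of_mem hu'.2.1] at hbar
  exact hbar

/-- **the cusp `w_Q ∞`**: `p ∣ ord_∞ (red_R (w_Q u))` for the Kummer function `u` of a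
`T_ℓ`-eigenclass with `p ∤ a − (1 + ℓ)`, as soon as `w_Q u` is a unit of `O_R`. -/
theorem aln_ord_inf (hp : p.Prime) (hpN : ¬ p ∣ N) (hA : A.LiesOverPrime p)
    {R : ConstRed A (IsLocalRing.residue A) (Fk (IsLocalRing.ResidueField A) N) (FF (N * p))}
    (hR : IsSeriesRed R) {Q : ℕ} (hQ : Q ∣ N * p) (hcop : Nat.Coprime Q (N * p / Q))
    (ℓ : ℕ) [NeZero ℓ] (hℓ : ℓ.Prime) (hℓp : ℓ ≠ p) (hℓN : ¬ ℓ ∣ N)
    (hℓQ : Nat.Coprime ℓ Q) (a : ℤ)
    (hcopa : ¬ (p : ℤ) ∣ a - (1 + (ℓ : ℤ)))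
    (x : JZero (N * p)) (hx : heckeOperatorBar (N * p) ⟨ℓ, hℓ⟩ x = a • x)
    (D : Divisor.degZero (K := Kbar) (F := FF (N * p))) (hD : Pic0.mk D = x)
    (u : FF (N * p)) (hu0 : u ≠ 0)
    (hdiv : ∀ v : Place Kbar (FF (N * p)),
      (p : ℤ) * (D : Divisor Kbar (FF (N * p))) v = v.ord u)
    (hu' : EisUnit R (alQ (N * p) Q hQ hcop u)) :
    (p : ℤ) ∣ (infPlaceC (IsLocalRing.ResidueField A) N).ord
      (R.red ⟨alQ (N * p) Q hQ hcop u, hu'.2.1⟩) := by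
  obtain ⟨c, s, hc, hs, hrel⟩ :=
    aln_hecke_red N p A hp hpN hA hR hQ hcop ℓ hℓ hℓp hℓQ a x hx D hD u hu0 hdiv hu'
  exact cpi_ord_inf N p ℓ A hp hpN hA hℓ hℓp hℓN _ hu'.red_ne_zero a hcopa c s hc hs hrel

end Red

end Fermat.Agent.S40lib

end
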