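import Mathlib
import Fermat.Agent.S36lib.Speed
import Fermat.Agent.S40lib.Hub
import Fermat.Agent.S58lib.H2Transfer

/-!
# Item 88 (S40): `#W[p] = p²` and `W[p] ≠ 0` (architect helper6)

Providers of the hypotheses `hcardW` of `s40h_main3` and `hnt` of `s40h_main2`, from
`Fermat.Agent.S58lib.h2_card` (division polynomials, odd `p`).
-/

set_option autoImplicit false

noncomputable section

namespace Fermat.Agent.S40lib

open Fermat.Agent.S58lib

/-- `#W(ℚ̄)[p] = p²` for an odd prime `p` -/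
theorem s40h_cardW (W : WeierstrassCurve ℤ) (hΔ : W.Δ ≠ 0) {p : ℕ} (hp : p.Prime)
    (hp2 : p ≠ 2) : Nat.card (S40hWp W p) = p ^ 2 := by
  have h1 := h2_card W hΔ hp hp2 1
  rw [h2_card_ckaTor p 1 p (pow_one p), mul_one] at h1
  exact h1

/-- `W(ℚ̄)[p] ≠ 0` for an odd prime `p` -/
theorem s40h_ntW (W : WeierstrassCurve ℤ) (hΔ : W.Δ ≠ 0) {p : ℕ} (hp : p.Prime)
    (hp2 : p ≠ 2) : ∃ P : S40hWp W p, P ≠ 0 := by
  by_contra h
  have h0 : ∀ P : S40hWp W p, P = 0 := by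
    intro P
    by_contra hP
    exact h ⟨P, hP⟩
  haveI : Subsingleton (S40hWp W p) := ⟨fun a b => by rw [h0 a, h0 b]⟩
  have h1 : Nat.card (S40hWp W p) = 1 := Nat.card_unique
  rw [s40h_cardW W hΔ hp hp2] at h1
  have h2 : 1 < p ^ 2 := Nat.one_lt_pow (by norm_num) hp.one_lt
  omega

end Fermat.Agent.S40lib

end
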