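import Mathlib
import Fermat.Agent.S36lib.Speed
import Fermat.Agent.S41lib.EigenFormMain
import Fermat.Agent.S35lib.ConvFaith
import Fermat.Prelude.Def_FLTPrelim_ModularRep

/-!
# Item 88 (S40), piece (A1) (helper25): from `hmod` to a nonzero eigenclass in `J₀(M)[p]`

Input: `hmod : W.IsResiduallyModularOfLevel p M` (a normalised eigenform `f` of level `M` and a
maximal ideal `𝔪 ∋ p` of `ℤ̄` with `a_ℓ(f) ≡ a_ℓ(W) mod 𝔪` for the primes `ℓ ∤ M`, `ℓ ≠ p`,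
good for `W`).

Output:

* `mth_eigenclass`: a class `z ∈ J₀(M)(ℚ̄)`, `z ≠ 0`, `p • z = 0`, with
  `T_ℓ z = a_ℓ(W) • z` for all these primes `ℓ`;
* `mthTheta W p M S : HPoly M S →+* ZMod p`, the character `T_ℓ ↦ a_ℓ(W) mod p`, and
  `mth_main`: `z` is killed by `evalJac M S M P` for every `P` in the kernel of `mthTheta`,
  as soon as every prime outside `S` is good for `W` and different from `p`;
* `mth_evalJac_eq`: on such a class every Hecke polynomial acts by the integer `mthInt W M S P`.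

Route: `ef_exists_lattice_eigen` (S41lib, EF1) gives a parabolic class `x ∉ p L` with
`T_ℓ x ≡ a_ℓ x mod p L`; the level structure `e_p : HLat M → J₀(M)[p]` of Layer E (Form L) has
kernel `p L` and intertwines the TRANSPOSED operators `heckeLatT` with `heckeOperatorBar`, so we
apply it to the Fricke transform of `x`.
-/

set_option autoImplicit false
open scoped MatrixGroups TensorProduct
open CongruenceSubgroup ModularCurve ModularCurve.Period ModularFormClass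
open Fermat.Agent.GalRep Fermat.Agent.S31lib Fermat.Agent.LatE Fermat.Agent.S35lib
open Fermat.Agent.S41lib

namespace Fermat.Agent.S40lib

noncomputable section

/-- the integer valued character `T_ℓ ↦ a_ℓ(W)` of the Hecke polynomials. -/
def mthInt (W : WeierstrassCurve ℤ) (M : ℕ) (S : Finset ℕ) : HPoly M S →ₐ[ℤ] ℤ :=
  FreeAlgebra.lift ℤ fun ℓ => W.apOfModel ((ℓ.1 : Nat.Primes) : ℕ)

theorem mthInt_ι (W : WeierstrassCurve ℤ) (M : ℕ) (S : Finset ℕ) (ℓ : GoodPrime M S) :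
    mthInt W M S (FreeAlgebra.ι ℤ ℓ) = W.apOfModel ((ℓ.1 : Nat.Primes) : ℕ) := by
  simp [mthInt]

/-- the character `T_ℓ ↦ a_ℓ(W) mod p` of the Hecke polynomials. -/
def mthTheta (W : WeierstrassCurve ℤ) (p M : ℕ) (S : Finset ℕ) : HPoly M S →+* ZMod p :=
  (Int.castRingHom (ZMod p)).comp (mthInt W M S).toRingHom

theorem mthTheta_apply (W : WeierstrassCurve ℤ) (p M : ℕ) (S : Finset ℕ) (P : HPoly M S) :
    mthTheta W p M S P = ((mthInt W M S P : ℤ) : ZMod p) := rfl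

theorem mthTheta_ι (W : WeierstrassCurve ℤ) (p M : ℕ) (S : Finset ℕ) (ℓ : GoodPrime M S) :
    mthTheta W p M S (FreeAlgebra.ι ℤ ℓ) = ((W.apOfModel ((ℓ.1 : Nat.Primes) : ℕ) : ℤ) : ZMod p) := by
  rw [mthTheta_apply, mthInt_ι]

theorem mthTheta_eq_zero_iff (W : WeierstrassCurve ℤ) (p M : ℕ) (S : Finset ℕ) (P : HPoly M S) :
    mthTheta W p M S P = 0 ↔ (p : ℤ) ∣ mthInt W M S P := by
  rw [mthTheta_apply, ZMod.intCast_zmod_eq_zero_iff_dvd]

/-- **(A1), eigenclass form**: a curve which is residually modular of level `M` at `p` has a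
nonzero class in `J₀(M)[p]` on which `T_ℓ` acts by `a_ℓ(W)` for every prime `ℓ ∤ M`, `ℓ ≠ p`
good for `W`. -/
theorem mth_eigenclass (W : WeierstrassCurve ℤ) {p : ℕ} (hp : p.Prime) {M : ℕ} [NeZero M]
    (hmod : W.IsResiduallyModularOfLevel p M) :
    ∃ z : JZero M, z ≠ 0 ∧ p • z = 0 ∧
      ∀ ℓ : Nat.Primes, W.IsGoodPrimeFor ℓ → ¬ (ℓ : ℕ) ∣ M → (ℓ : ℕ) ≠ p →
        heckeOperatorBar M ℓ z = (W.apOfModel (ℓ : ℕ)) • z := by
  classical
  obtain ⟨f, 𝔪, hf, hmax, hpm, hcong⟩ := hmod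
  let I : Set Nat.Primes := {ℓ | W.IsGoodPrimeFor ℓ ∧ ¬ (ℓ : ℕ) ∣ M ∧ (ℓ : ℕ) ≠ p}
  obtain ⟨x, hxpar, hxp, hxa⟩ := ef_exists_lattice_eigen M p hp f hf 𝔪 hmax hpm
    (fun ℓ => W.apOfModel (ℓ : ℕ)) I (fun ℓ hℓ => hcong ℓ ℓ.2 hℓ.1 hℓ.2.1 hℓ.2.2)
  let x' : HLat M := ⟨x, hxpar⟩
  have hF := formL_of_pieces M
  have hker : ∀ ψ : HLat M, hF.e p hp.pos ((p : ℤ) • ψ) = 0 := by
    intro ψ
    refine (hF.e_ker p hp.pos _).2 ⟨ψ, ?_⟩
    rw [natCast_zsmul]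
  refine ⟨hF.e p hp.pos (frickeLat M x'), ?_, ?_, ?_⟩
  · intro h
    obtain ⟨ψ, hψ⟩ := (hF.e_ker p hp.pos _).1 h
    apply hxp
    have h1 : x' = p • frickeLat M ψ := by
      rw [← map_nsmul, ← hψ, frickeLat_frickeLat]
    refine ⟨(frickeLat M ψ).1, ?_⟩
    have h2 : x = ((p • frickeLat M ψ : HLat M) : Additive (Gamma0 M) →+ ℤ) :=
      congrArg (fun y : HLat M => (y : Additive (Gamma0 M) →+ ℤ)) h1
    rw [natCast_zsmul]
    exact h2
  · rw [← map_nsmul]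
    refine (hF.e_ker p hp.pos _).2 ⟨frickeLat M x', rfl⟩
  · intro ℓ hg hM hℓp
    obtain ⟨y, hy⟩ := hxa ℓ ⟨hg, hM, hℓp⟩
    have hypar : IsParabolicHom (Gamma0 M) y := by
      refine efm_isParabolicHom_of_smul M hp.ne_zero ?_
      rw [← hy]
      exact (heckeLat M ℓ x' - (W.apOfModel (ℓ : ℕ)) • x').2
    let y' : HLat M := ⟨y, hypar⟩
    have h1 : heckeLat M ℓ x' = (W.apOfModel (ℓ : ℕ)) • x' + (p : ℤ) • y' := by
      apply Subtype.ext
      have : heckeHom M ℓ ℤ x = (W.apOfModel (ℓ : ℕ)) • x + (p : ℤ) • y := by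
        rw [← hy]; abel
      exact this
    rw [cf_e_hecke, heckeLatT_apply, frickeLat_frickeLat, h1, map_add, map_zsmul, map_zsmul,
      map_add, map_zsmul, hker, add_zero]

/-- **(A1), Hub form** (`S40hEig` on the line of `z`): if `S` contains `p`, the primes dividing
`M` and the primes dividing `Δ`, then `T_ℓ z = a_ℓ(W) • z` for all primes `ℓ ∉ S`. -/
theorem mth_eig (W : WeierstrassCurve ℤ) {p : ℕ} (hp : p.Prime) {M : ℕ} [NeZero M]
    (S : Finset ℕ)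
    (hS : ∀ ℓ : ℕ, (ℓ = p ∨ ℓ ∣ M ∨ (ℓ : ℤ) ∣ W.Δ) → ℓ.Prime → ℓ ∈ S)
    (hmod : W.IsResiduallyModularOfLevel p M) :
    ∃ z : JZero M, z ≠ 0 ∧ p • z = 0 ∧
      ∀ ℓ : Nat.Primes, (ℓ : ℕ) ∉ S → heckeOperatorBar M ℓ z = (W.apOfModel (ℓ : ℕ)) • z := by
  obtain ⟨z, hz0, hzp, hz⟩ := mth_eigenclass W hp hmod
  refine ⟨z, hz0, hzp, fun ℓ hℓ => hz ℓ ?_ ?_ ?_⟩
  · exact fun h => hℓ (hS ℓ (Or.inr (Or.inr h)) ℓ.2)
  · exact fun h => hℓ (hS ℓ (Or.inr (Or.inl h)) ℓ.2)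
  · exact fun h => hℓ (hS ℓ (Or.inl h) ℓ.2)

/-- the same at the level `M' * p`, with the set of bad primes in the form of the Hub
(`s40hBad W p M'`). -/
theorem mth_eig_mul (W : WeierstrassCurve ℤ) {p : ℕ} (hp : p.Prime) {M' : ℕ} [NeZero (M' * p)]
    (S : Finset ℕ)
    (hS : ∀ ℓ : ℕ, (ℓ = p ∨ ℓ ∣ M' ∨ (ℓ : ℤ) ∣ W.Δ) → ℓ.Prime → ℓ ∈ S)
    (hmod : W.IsResiduallyModularOfLevel p (M' * p)) :
    ∃ z : JZero (M' * p), z ≠ 0 ∧ p • z = 0 ∧
      ∀ ℓ : Nat.Primes, (ℓ : ℕ) ∉ S →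
        heckeOperatorBar (M' * p) ℓ z = (W.apOfModel (ℓ : ℕ)) • z := by
  refine mth_eig W hp S (fun ℓ h hℓ => ?_) hmod
  rcases h with h | h | h
  · exact hS ℓ (Or.inl h) hℓ
  · rcases (Nat.Prime.dvd_mul hℓ).1 h with h1 | h1
    · exact hS ℓ (Or.inr (Or.inl h1)) hℓ
    · exact hS ℓ (Or.inl ((Nat.prime_dvd_prime_iff_eq hℓ hp).1 h1)) hℓ
  · exact hS ℓ (Or.inr (Or.inr h)) hℓ

/-- on a simultaneous eigenclass with the eigenvalues `a_ℓ(W)` every Hecke polynomial acts by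
the integer `mthInt W M S P`. -/
theorem mth_evalJac_eq (W : WeierstrassCurve ℤ) {M : ℕ} [NeZero M] (S : Finset ℕ) (N' : ℕ)
    [NeZero N'] (z : JZero N')
    (hz : ∀ ℓ : Nat.Primes, ¬ (ℓ : ℕ) ∣ M → (ℓ : ℕ) ∉ S →
      heckeOperatorBar N' ℓ z = (W.apOfModel (ℓ : ℕ)) • z) (P : HPoly M S) :
    evalJac M S N' P z = (mthInt W M S P) • z := by
  induction P using FreeAlgebra.induction with
  | grade0 r =>
    rw [AlgHom.commutes, AlgHom.commutes, Algebra.algebraMap_eq_smul_one, LinearMap.smul_apply,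
      Module.End.one_apply]
    rfl
  | grade1 ℓ =>
    rw [evalJac_ι, mthInt_ι]
    exact hz ℓ.1 ℓ.2.1 ℓ.2.2
  | mul P Q hP hQ =>
    rw [map_mul, map_mul, Module.End.mul_apply, hQ, map_zsmul, hP, smul_smul, mul_comm]
  | add P Q hP hQ =>
    rw [map_add, map_add, LinearMap.add_apply, hP, hQ]
    exact (add_zsmul z _ _).symm

/-- **(A1), character form**: the class `z` of `mth_eig` is killed by every Hecke polynomial in
the kernel of the character `mthTheta W p M S : T_ℓ ↦ a_ℓ(W) mod p`. -/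
theorem mth_main (W : WeierstrassCurve ℤ) {p : ℕ} (hp : p.Prime) {M : ℕ} [NeZero M]
    (S : Finset ℕ)
    (hS : ∀ ℓ : ℕ, (ℓ = p ∨ ℓ ∣ M ∨ (ℓ : ℤ) ∣ W.Δ) → ℓ.Prime → ℓ ∈ S)
    (hmod : W.IsResiduallyModularOfLevel p M) :
    ∃ z : JZero M, z ≠ 0 ∧ p • z = 0 ∧
      (∀ ℓ : Nat.Primes, (ℓ : ℕ) ∉ S → heckeOperatorBar M ℓ z = (W.apOfModel (ℓ : ℕ)) • z) ∧
      ∀ P : HPoly M S, mthTheta W p M S P = 0 → evalJac M S M P z = 0 := by
  obtain ⟨z, hz0, hzp, hz⟩ := mth_eig W hp S hS hmod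
  refine ⟨z, hz0, hzp, hz, fun P hP => ?_⟩
  rw [mth_evalJac_eq W S M z (fun ℓ _ hℓ => hz ℓ hℓ) P]
  obtain ⟨k, hk⟩ := (mthTheta_eq_zero_iff W p M S P).1 hP
  rw [hk, mul_comm, mul_smul, natCast_zsmul, hzp, smul_zero]

end

end Fermat.Agent.S40lib
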