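import Mathlib
import Fermat.Agent.S36lib.Speed
import Fermat.Agent.S35lib.EigenDown
import Fermat.Agent.S35lib.ConvFaith
import Fermat.Agent.S35lib.DegJK
import Fermat.Agent.GalRep.EigenOneAlg
import Fermat.Agent.S23_Final
import Fermat.Prelude.Def_FLTPrelim_ModularRep

/-!
# Item 88 (S40), chain step 1: the OLD case

`θ' : HPoly M S → κ` is a character of the Hecke polynomials (in the `T_ℓ`, `ℓ ∤ M`, `ℓ ∉ S`) with
values in a field `κ` of characteristic `p`, with `θ' T_ℓ = a_ℓ mod p` for integers `a_ℓ`.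

* `olc_kills`: if a nonzero class `y ∈ J₀(M')[p]` is killed by the kernel of `θ'`, then `θ'` kills
  every Hecke polynomial which vanishes on `S₂(Γ₀(M'))` (converse Faith, `S35lib/ConvFaith`).
* `olc_lift`: a character `θ'` which kills the Hecke polynomials vanishing on `S₂(Γ₀(M'))` lifts:
  there are a normalised eigenform `g` of level `M'` and a maximal ideal `𝔪' ∋ p` of `ℤ̄` with
  `a_ℓ(g) ≡ a_ℓ mod 𝔪'` (Deligne–Serre: a common eigenvector whose character has kernel in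
  `ker θ'`, then lying-over in `ℤ̄`).
* `olc_main`: the two together.
* `olc_alpha`, `olc_beta`: the OLD case at level `M' p`: a class `x ∈ J₀(M' p)[p]` killed by
  `ker θ'` with `α_* x ≠ 0` (or `β_* x ≠ 0`) gives the eigenform of level `M'`.
* `olc_residuallyModular`: the conclusion in the form `W.IsResiduallyModularOfLevel p M'`.
-/

set_option autoImplicit false

open CongruenceSubgroup ModularFormClass

namespace Fermat.Agent.S40lib

open Fermat.Agent.S31lib Fermat.Agent.GalRep Fermat.Agent.S35lib ModularCurve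

section Kills

variable {M : ℕ} {S : Finset ℕ} {κ : Type*} [CommRing κ]

/-- the values of `θ'` are integers. -/
theorem olc_theta_int (θ' : HPoly M S →+* κ) (a : GoodPrime M S → ℤ)
    (hθ : ∀ ℓ : GoodPrime M S, θ' (FreeAlgebra.ι ℤ ℓ) = (a ℓ : κ)) (P : HPoly M S) :
    ∃ n : ℤ, θ' P = (n : κ) := by
  induction P using FreeAlgebra.induction with
  | grade0 r => exact ⟨r, by rw [eq_intCast, map_intCast]⟩
  | grade1 ℓ => exact ⟨a ℓ, hθ ℓ⟩
  | mul P Q hP hQ =>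
    obtain ⟨m, hm⟩ := hP
    obtain ⟨n, hn⟩ := hQ
    exact ⟨m * n, by rw [map_mul, hm, hn, Int.cast_mul]⟩
  | add P Q hP hQ =>
    obtain ⟨m, hm⟩ := hP
    obtain ⟨n, hn⟩ := hQ
    exact ⟨m + n, by rw [map_add, hm, hn, Int.cast_add]⟩

variable {M' : ℕ} [NeZero M']

/-- **OLD case, step (a)**: a nonzero class of `J₀(M')[p]` killed by `ker θ'` forces `θ'` to kill
the Hecke polynomials vanishing on `S₂(Γ₀(M'))`. -/
theorem olc_kills {p : ℕ} (hp : p.Prime) [CharP κ p] (θ' : HPoly M S →+* κ)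
    (a : GoodPrime M S → ℤ) (hθ : ∀ ℓ : GoodPrime M S, θ' (FreeAlgebra.ι ℤ ℓ) = (a ℓ : κ))
    (y : JZero M') (hy0 : y ≠ 0) (hpy : p • y = 0)
    (hy : ∀ P : HPoly M S, θ' P = 0 → evalJac M S M' P y = 0)
    (P : HPoly M S) (hP : evalFormsAt M S M' P = 0) : θ' P = 0 := by
  by_contra hne
  obtain ⟨n, hn⟩ := olc_theta_int θ' a hθ P
  have hpn : ¬ (p : ℤ) ∣ n := by
    intro hdvd
    apply hne
    rw [hn]
    exact (CharP.intCast_eq_zero_iff κ p n).2 hdvd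
  have h1 : evalJac M S M' P y = 0 :=
    evalJac_eq_zero_of_evalFormsAt M S M' P hP p hp.pos y hpy
  have h2 : θ' (P - algebraMap ℤ (HPoly M S) n) = 0 := by
    rw [map_sub, hn, eq_intCast, map_intCast, sub_self]
  have h3 := hy _ h2
  rw [map_sub, LinearMap.sub_apply, h1, AlgHom.commutes, Module.algebraMap_end_apply,
    zero_sub, neg_eq_zero] at h3
  -- `n • y = 0` and `p • y = 0` with `gcd(n, p) = 1`
  have hcop : IsCoprime (p : ℤ) n :=
    (Nat.prime_iff_prime_int.1 hp).irreducible.coprime_iff_not_dvd.2 hpn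
  obtain ⟨u, v, huv⟩ := hcop
  apply hy0
  have hpz : ((p : ℤ)) • y = 0 := by
    rw [natCast_zsmul]; exact hpy
  have : (u * (p : ℤ) + v * n) • y = 0 := by
    rw [add_zsmul, mul_zsmul, mul_zsmul, h3, hpz, zsmul_zero, zsmul_zero, add_zero]
  rwa [huv, one_zsmul] at this

end Kills

section Lift

/-- a character of a ring `A` which kills the kernel of `e : A → T` factors through the range of
`e` (universe-polymorphic copy of `S35lib.ed_exists_factor`). -/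
theorem olc_exists_factor {A T Ω : Type*} [Ring A] [CommRing T] [CommRing Ω] (e : A →+* T)
    (χ : A →+* Ω) (H : ∀ a : A, e a = 0 → χ a = 0) :
    ∃ χ₀ : e.range →+* Ω, ∀ a : A, χ₀ ⟨e a, ⟨a, rfl⟩⟩ = χ a := by
  classical
  have hsurj : Function.Surjective e.rangeRestrict := e.rangeRestrict_surjective
  have hker : RingHom.ker e.rangeRestrict ≤ RingHom.ker χ := by
    intro a ha
    rw [RingHom.mem_ker] at ha ⊢
    apply H
    have := congrArg Subtype.val ha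
    simpa using this
  refine ⟨RingHom.liftOfRightInverse e.rangeRestrict (Function.surjInv hsurj)
    (Function.rightInverse_surjInv hsurj) ⟨χ, hker⟩, fun a => ?_⟩
  have h := RingHom.liftOfRightInverse_comp_apply e.rangeRestrict (Function.surjInv hsurj)
    (Function.rightInverse_surjInv hsurj) ⟨χ, hker⟩ a
  exact h

variable {M : ℕ} {S : Finset ℕ} {M' : ℕ} [NeZero M']

/-- a complex character of the Hecke polynomials which kills the polynomials vanishing on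
`S₂(Γ₀(M'))` is the eigensystem of a normalised eigenform of level `M'`
(`S35lib.exists_eigenform_of_factor` for a character of `HPoly`). -/
theorem olc_exists_eigenform_of_poly_char (χ' : HPoly M S →+* ℂ)
    (H : ∀ P : HPoly M S, evalFormsAt M S M' P = 0 → χ' P = 0) :
    ∃ g' : CuspForm (Gamma0 M') 2, g'.IsNormalizedEigenform ∧
      ∀ ℓ : GoodPrime M S, qCoeff g' ((ℓ.1 : Nat.Primes) : ℕ) = χ' (FreeAlgebra.ι ℤ ℓ) := by
  classical
  have hfin : Module.Finite ℤ (CuspForm.heckeAlgebra M' 2 (∅ : Set ℕ)) :=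
    Fermat.Agent.S22.result M' 2 ∅
  obtain ⟨χ₀, hχ₀⟩ := ed_exists_factor (evalFormsAt M S M').toRingHom χ' (fun a ha => H a ha)
  obtain ⟨ψ, hψ⟩ := fe_exists_lift_algClosed
    ((evalFormsAt M S M').toRingHom.range.subtype) Subtype.val_injective
    (fe_isIntegral_of_finite_int _) ℂ χ₀
  obtain ⟨f, hf, hf0⟩ := eo_exists_ne_zero M' ψ
  obtain ⟨g', hg', hcoef⟩ := Fermat.Agent.S49norm.exists_normalizedEigenform_of_eigenvector f hf0
    (eoLam M' ψ) (fun ℓ hℓ hℓN => eo_heckeT_eq M' ψ hf ℓ hℓ hℓN)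
    (fun q hq hqN => eo_heckeU_eq M' ψ hf q hq hqN)
  refine ⟨g', hg', fun ℓ => ?_⟩
  rw [hcoef ℓ.1.1 ℓ.1.2, eoLam, dif_pos ℓ.1.2]
  have h1 : CuspForm.heckeFormsGen M' 2 ⟨ℓ.1.1, ℓ.1.2⟩ =
      (evalFormsAt M S M').toRingHom.range.subtype
        ⟨(evalFormsAt M S M').toRingHom (FreeAlgebra.ι ℤ ℓ), ⟨_, rfl⟩⟩ := by
    show _ = evalFormsAt M S M' (FreeAlgebra.ι ℤ ℓ)
    rw [evalFormsAt_ι]
    rfl
  rw [h1, hψ, hχ₀]

/-- **OLD case, step (b)**: the mod `p` lifting lemma at level `M'`. -/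
theorem olc_lift {p : ℕ} (hp : p.Prime) {κ : Type*} [Field κ] [CharP κ p]
    (θ' : HPoly M S →+* κ) (a : GoodPrime M S → ℤ)
    (hθ : ∀ ℓ : GoodPrime M S, θ' (FreeAlgebra.ι ℤ ℓ) = (a ℓ : κ))
    (H : ∀ P : HPoly M S, evalFormsAt M S M' P = 0 → θ' P = 0) :
    ∃ (g : CuspForm (Gamma0 M') 2) (𝔪' : Ideal (integralClosure ℤ ℂ)),
      g.IsNormalizedEigenform ∧ 𝔪'.IsMaximal ∧ ((p : ℕ) : integralClosure ℤ ℂ) ∈ 𝔪' ∧
      ∀ ℓ : GoodPrime M S, ∃ c : integralClosure ℤ ℂ,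
        (c : ℂ) = qCoeff g ((ℓ.1 : Nat.Primes) : ℕ) ∧ c - (a ℓ : integralClosure ℤ ℂ) ∈ 𝔪' := by
  classical
  set e : HPoly M S →+* CuspForm.heckeAlgebra M' 2 (∅ : Set ℕ) :=
    (evalFormsAt M S M').toRingHom with he
  obtain ⟨θ₀, hθ₀⟩ := olc_exists_factor e θ' (fun P hP => H P hP)
  have h𝔫 : (RingHom.ker θ₀).IsPrime := RingHom.ker_isPrime θ₀
  have hfd : FiniteDimensional ℂ (CuspForm (Gamma0 M') 2) :=
    Fermat.Agent.S23lib.finiteDimensional_cuspForm M' 2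
  have hfin : Module.Finite ℤ (CuspForm.heckeAlgebra M' 2 (∅ : Set ℕ)) :=
    Fermat.Agent.S22.result M' 2 ∅
  have hnoeth : IsNoetherian ℤ (CuspForm.heckeAlgebra M' 2 (∅ : Set ℕ)) :=
    isNoetherian_of_isNoetherianRing_of_finite ℤ _
  have hfin₀ : Module.Finite ℤ e.range :=
    Module.Finite.of_injective (e.range.subtype.toIntAlgHom.toLinearMap) Subtype.val_injective
  have hint₀ : Algebra.IsIntegral ℤ e.range := Algebra.IsIntegral.of_finite ℤ _
  -- the faithful action on the cusp forms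
  let ρ : e.range →+* Module.End ℂ (CuspForm (Gamma0 M') 2) :=
    (CuspForm.heckeAlgebra M' 2 (∅ : Set ℕ)).val.toRingHom.comp e.range.subtype
  have hρ : Function.Injective ρ := by
    intro x y h
    exact Subtype.ext (Subtype.ext h)
  obtain ⟨g₀, χ, -, -, hker⟩ := eo_exists_eigen_ker_le ρ hρ (RingHom.ker θ₀)
  have hint : ∀ t : e.range, χ t ∈ integralClosure ℤ ℂ := fun t =>
    (Algebra.IsIntegral.isIntegral (R := ℤ) t).map χ.toIntAlgHom
  let χZ : e.range →+* integralClosure ℤ ℂ := χ.codRestrict (integralClosure ℤ ℂ) hint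
  have hχZ : ∀ t : e.range, ((χZ t : integralClosure ℤ ℂ) : ℂ) = χ t := fun t => rfl
  let _ : Algebra e.range (integralClosure ℤ ℂ) := χZ.toAlgebra
  have halg : ∀ t : e.range, algebraMap e.range (integralClosure ℤ ℂ) t = χZ t := fun t => rfl
  have hI : Algebra.IsIntegral e.range (integralClosure ℤ ℂ) :=
    ⟨fun z => (Algebra.IsIntegral.isIntegral (R := ℤ) z).tower_top⟩
  obtain ⟨Q, -, hQp, hQ⟩ := Ideal.exists_ideal_over_prime_of_isIntegral
    (S := integralClosure ℤ ℂ) (RingHom.ker θ₀) (⊥ : Ideal (integralClosure ℤ ℂ)) (by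
      rw [← RingHom.ker_eq_comap_bot]
      intro t ht
      apply hker
      rw [RingHom.mem_ker] at ht ⊢
      rw [halg] at ht
      rw [← hχZ, ht]
      rfl)
  have hmemQ : ∀ t : e.range, θ₀ t = 0 → χZ t ∈ Q := by
    intro t ht
    have : t ∈ Q.comap (algebraMap e.range (integralClosure ℤ ℂ)) := by
      rw [hQ]; exact ht
    exact this
  have hpQ : ((p : ℕ) : integralClosure ℤ ℂ) ∈ Q := by
    have h1 : θ₀ ((p : ℕ) : e.range) = 0 := by
      rw [map_natCast]; exact CharP.cast_eq_zero κ p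
    have h2 := hmemQ _ h1
    rwa [map_natCast] at h2
  have hQmax : Q.IsMaximal := by
    have hcomap : (Q.comap (algebraMap ℤ (integralClosure ℤ ℂ))).IsMaximal := by
      have hprime : (Q.comap (algebraMap ℤ (integralClosure ℤ ℂ))).IsPrime :=
        Ideal.comap_isPrime _ _
      refine Ideal.IsPrime.isMaximal hprime ?_
      intro hbot
      have hp_mem : (p : ℤ) ∈ Q.comap (algebraMap ℤ (integralClosure ℤ ℂ)) := by
        rw [Ideal.mem_comap, eq_intCast, Int.cast_natCast]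
        exact hpQ
      rw [hbot, Ideal.mem_bot] at hp_mem
      exact hp.ne_zero (by exact_mod_cast hp_mem)
    exact Ideal.isMaximal_of_isIntegral_of_isMaximal_comap (R := ℤ) Q hcomap
  -- the eigenform
  have hχ' : ∀ P : HPoly M S, evalFormsAt M S M' P = 0 → (χ.comp e.rangeRestrict) P = 0 := by
    intro P hP
    have h0 : e.rangeRestrict P = 0 := Subtype.ext hP
    rw [RingHom.comp_apply, h0, map_zero]
  obtain ⟨g, hg, hcoef⟩ := olc_exists_eigenform_of_poly_char (χ.comp e.rangeRestrict) hχ'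
  refine ⟨g, Q, hg, hQmax, hpQ, fun ℓ => ?_⟩
  refine ⟨χZ (e.rangeRestrict (FreeAlgebra.ι ℤ ℓ)), ?_, ?_⟩
  · rw [hcoef ℓ, hχZ]
    rfl
  · have h1 : θ₀ (e.rangeRestrict (FreeAlgebra.ι ℤ ℓ) - ((a ℓ : ℤ) : e.range)) = 0 := by
      rw [map_sub, map_intCast]
      have : θ₀ (e.rangeRestrict (FreeAlgebra.ι ℤ ℓ)) = θ' (FreeAlgebra.ι ℤ ℓ) := hθ₀ _
      rw [this, hθ ℓ, sub_self]
    have h2 := hmemQ _ h1
    rwa [map_sub, map_intCast] at h2

/-- **OLD case at level `M'`**: a nonzero class of `J₀(M')[p]` killed by `ker θ'` gives a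
normalised eigenform of level `M'` congruent to the `a_ℓ`. -/
theorem olc_main {p : ℕ} (hp : p.Prime) {κ : Type*} [Field κ] [CharP κ p]
    (θ' : HPoly M S →+* κ) (a : GoodPrime M S → ℤ)
    (hθ : ∀ ℓ : GoodPrime M S, θ' (FreeAlgebra.ι ℤ ℓ) = (a ℓ : κ))
    (y : JZero M') (hy0 : y ≠ 0) (hpy : p • y = 0)
    (hy : ∀ P : HPoly M S, θ' P = 0 → evalJac M S M' P y = 0) :
    ∃ (g : CuspForm (Gamma0 M') 2) (𝔪' : Ideal (integralClosure ℤ ℂ)),
      g.IsNormalizedEigenform ∧ 𝔪'.IsMaximal ∧ ((p : ℕ) : integralClosure ℤ ℂ) ∈ 𝔪' ∧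
      ∀ ℓ : GoodPrime M S, ∃ c : integralClosure ℤ ℂ,
        (c : ℂ) = qCoeff g ((ℓ.1 : Nat.Primes) : ℕ) ∧ c - (a ℓ : integralClosure ℤ ℂ) ∈ 𝔪' :=
  olc_lift hp θ' a hθ (olc_kills hp θ' a hθ y hy0 hpy hy)

end Lift

section Level

variable {M' p : ℕ} [NeZero M'] [NeZero p] [NeZero (M' * p)] {S : Finset ℕ}

/-- **OLD case, `α_*`**: a class `x ∈ J₀(M' p)[p]` killed by `ker θ'` with `α_* x ≠ 0` gives a
normalised eigenform of level `M'` congruent to the `a_ℓ`. -/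
theorem olc_alpha (hp : p.Prime) {κ : Type*} [Field κ] [CharP κ p]
    (θ' : HPoly (M' * p) S →+* κ) (a : GoodPrime (M' * p) S → ℤ)
    (hθ : ∀ ℓ : GoodPrime (M' * p) S, θ' (FreeAlgebra.ι ℤ ℓ) = (a ℓ : κ))
    (x : JZero (M' * p)) (hpx : p • x = 0)
    (hx : ∀ P : HPoly (M' * p) S, θ' P = 0 → evalJac (M' * p) S (M' * p) P x = 0)
    (hα : degJAlpha M' p x ≠ 0) :
    ∃ (g : CuspForm (Gamma0 M') 2) (𝔪' : Ideal (integralClosure ℤ ℂ)),
      g.IsNormalizedEigenform ∧ 𝔪'.IsMaximal ∧ ((p : ℕ) : integralClosure ℤ ℂ) ∈ 𝔪' ∧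
      ∀ ℓ : GoodPrime (M' * p) S, ∃ c : integralClosure ℤ ℂ,
        (c : ℂ) = qCoeff g ((ℓ.1 : Nat.Primes) : ℕ) ∧ c - (a ℓ : integralClosure ℤ ℂ) ∈ 𝔪' := by
  refine olc_main hp θ' a hθ (degJAlpha M' p x) hα ?_ ?_
  · rw [← map_nsmul, hpx, map_zero]
  · intro P hP
    rw [← degJAlpha_evalJac M' hp S P x, hx P hP, map_zero]

/-- **OLD case, `β_*`**: a class `x ∈ J₀(M' p)[p]` killed by `ker θ'` with `β_* x ≠ 0` gives a
normalised eigenform of level `M'` congruent to the `a_ℓ`. -/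
theorem olc_beta (hp : p.Prime) (hpM : ¬ p ∣ M') {κ : Type*} [Field κ] [CharP κ p]
    (θ' : HPoly (M' * p) S →+* κ) (a : GoodPrime (M' * p) S → ℤ)
    (hθ : ∀ ℓ : GoodPrime (M' * p) S, θ' (FreeAlgebra.ι ℤ ℓ) = (a ℓ : κ))
    (x : JZero (M' * p)) (hpx : p • x = 0)
    (hx : ∀ P : HPoly (M' * p) S, θ' P = 0 → evalJac (M' * p) S (M' * p) P x = 0)
    (hβ : degJBeta M' p x ≠ 0) :
    ∃ (g : CuspForm (Gamma0 M') 2) (𝔪' : Ideal (integralClosure ℤ ℂ)),
      g.IsNormalizedEigenform ∧ 𝔪'.IsMaximal ∧ ((p : ℕ) : integralClosure ℤ ℂ) ∈ 𝔪' ∧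
      ∀ ℓ : GoodPrime (M' * p) S, ∃ c : integralClosure ℤ ℂ,
        (c : ℂ) = qCoeff g ((ℓ.1 : Nat.Primes) : ℕ) ∧ c - (a ℓ : integralClosure ℤ ℂ) ∈ 𝔪' := by
  refine olc_main hp θ' a hθ (degJBeta M' p x) hβ ?_ ?_
  · rw [← map_nsmul, hpx, map_zero]
  · intro P hP
    rw [← degJBeta_evalJac M' hp S hpM P x, hx P hP, map_zero]

omit [NeZero M'] [NeZero p] [NeZero (M' * p)] in
/-- the conclusion of the OLD case in the form of the statement S40: if `S` contains only `p`,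
primes dividing `M'` and bad primes of `W`, an eigenform of level `M'` congruent to the
`a_ℓ(W)` at the good primes of `(M' p, S)` makes `W` residually modular of level `M'`. -/
theorem olc_residuallyModular (W : WeierstrassCurve ℤ) (hp : p.Prime)
    (hS : ∀ ℓ ∈ S, ℓ.Prime → W.IsGoodPrimeFor ℓ → ¬ ℓ ∣ M' → ℓ = p)
    (h : ∃ (g : CuspForm (Gamma0 M') 2) (𝔪' : Ideal (integralClosure ℤ ℂ)),
      g.IsNormalizedEigenform ∧ 𝔪'.IsMaximal ∧ ((p : ℕ) : integralClosure ℤ ℂ) ∈ 𝔪' ∧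
      ∀ ℓ : GoodPrime (M' * p) S, ∃ c : integralClosure ℤ ℂ,
        (c : ℂ) = qCoeff g ((ℓ.1 : Nat.Primes) : ℕ) ∧
          c - ((W.apOfModel ((ℓ.1 : Nat.Primes) : ℕ) : ℤ) : integralClosure ℤ ℂ) ∈ 𝔪') :
    W.IsResiduallyModularOfLevel p M' := by
  obtain ⟨g, 𝔪', hg, hmax, hpm, hc⟩ := h
  refine ⟨g, 𝔪', hg, hmax, hpm, fun ℓ hℓ hgood hℓM hℓp => ?_⟩
  have hℓMp : ¬ ℓ ∣ M' * p := by
    intro hd
    rcases (Nat.Prime.dvd_mul hℓ).1 hd with h1 | h1
    · exact hℓM h1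
    · exact hℓp ((Nat.prime_dvd_prime_iff_eq hℓ hp).1 h1)
  have hℓS : ℓ ∉ S := fun hmem => hℓp (hS ℓ hmem hℓ hgood hℓM)
  exact hc ⟨⟨ℓ, hℓ⟩, hℓMp, hℓS⟩

/-- **OLD case, final form**: `W` is residually modular of level `M'` as soon as some class of
`J₀(M' p)[p]` killed by `ker θ'` (`θ' T_ℓ = a_ℓ(W) mod p`) is not killed by `α_*` and `β_*`. -/
theorem olc_old_case (W : WeierstrassCurve ℤ) (hp : p.Prime) (hpM : ¬ p ∣ M')
    (hS : ∀ ℓ ∈ S, ℓ.Prime → W.IsGoodPrimeFor ℓ → ¬ ℓ ∣ M' → ℓ = p)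
    {κ : Type*} [Field κ] [CharP κ p] (θ' : HPoly (M' * p) S →+* κ)
    (hθ : ∀ ℓ : GoodPrime (M' * p) S,
      θ' (FreeAlgebra.ι ℤ ℓ) = ((W.apOfModel ((ℓ.1 : Nat.Primes) : ℕ) : ℤ) : κ))
    (x : JZero (M' * p)) (hpx : p • x = 0)
    (hx : ∀ P : HPoly (M' * p) S, θ' P = 0 → evalJac (M' * p) S (M' * p) P x = 0)
    (hαβ : degJAlpha M' p x ≠ 0 ∨ degJBeta M' p x ≠ 0) :
    W.IsResiduallyModularOfLevel p M' := by
  refine olc_residuallyModular W hp hS ?_
  rcases hαβ with hα | hβ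
  · exact olc_alpha hp θ' (fun ℓ => W.apOfModel ((ℓ.1 : Nat.Primes) : ℕ)) hθ x hpx hx hα
  · exact olc_beta hp hpM θ' (fun ℓ => W.apOfModel ((ℓ.1 : Nat.Primes) : ℕ)) hθ x hpx hx hβ

end Level

end Fermat.Agent.S40lib
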