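import Mathlib
import Fermat.Agent.S36lib.Speed
import Fermat.Agent.S40lib.Hub
import Fermat.Agent.S40lib.ModTheta
import Fermat.Agent.S40lib.OldCase

/-!
# Item 88 (S40): the dictionary `S40hDich` (OLD / NEW dichotomy), assembly (helper25)

`dich_main`: `S40hDich W p M'` from ONE provider, `S40dIso W p M'` (the NEW-case isomorphism,
helper9 / helper3): every nonzero class `z ∈ J₀(M' p)[p]` with `T_ℓ z = a_ℓ(W) z` (`ℓ ∉ S`) gives
a Galois copy `V ≅ W[p]` inside `J₀(M' p)[p]` on which `T_ℓ = a_ℓ(W)` (`ℓ ∉ S`).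

Proof: `S := {p} ∪ {ℓ | M'} ∪ {ℓ | Δ}`.  `mth_eig_mul` (ModTheta) gives `z`.  If the eigensystem
occurs in `J₀(M')[p]` (`¬ S40hNotAt`), `olc_main` + `olc_residuallyModular` (OldCase, helper10)
give the OLD case; else `S40dIso` gives the NEW case.
-/

set_option autoImplicit false
set_option linter.style.haveILetI false

noncomputable section

namespace Fermat.Agent.S40lib

open Fermat.Agent.GalRep ModularCurve Fermat.Agent.S31lib Fermat.Agent.S35lib
  Fermat.Agent.S33lib WeierstrassCurve WeierstrassCurve.Affine WeierstrassCurve.Affine.Point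

/-- **the NEW-case provider**: a nonzero eigenclass `z ∈ J₀(M' p)[p]` with the eigenvalues
`a_ℓ(W)` away from `S` gives a Galois copy of `W[p]` in `J₀(M' p)[p]` with the same
eigenvalues. -/
def S40dIso (W : WeierstrassCurve ℤ) (p M' : ℕ) [NeZero (M' * p)] : Prop :=
  ∀ S : Finset ℕ, (∀ ℓ ∈ s40hBad W p M', ℓ.Prime → ℓ ∈ S) →
    ∀ z : JZero (M' * p), z ≠ 0 → p • z = 0 →
      (∀ ℓ : Nat.Primes, (ℓ : ℕ) ∉ S →
        heckeOperatorBar (M' * p) ℓ z = (W.apOfModel (ℓ : ℕ)) • z) →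
      ∃ V : AddSubgroup (JZero (M' * p)),
        (∀ x ∈ V, p • x = 0) ∧
        (∃ e : S40hWp W p ≃+ V,
          ∀ (σ : AlgebraicClosure ℚ ≃ₐ[ℚ] AlgebraicClosure ℚ) (P : S40hWp W p),
            ((e (σ • P) : V) : JZero (M' * p)) = σ • ((e P : V) : JZero (M' * p))) ∧
        S40hEig (M' * p) S W.apOfModel V

/-- the finite set of the primes `ℓ = p`, `ℓ ∣ M'`, `ℓ ∣ Δ`. -/
def dichS (W : WeierstrassCurve ℤ) (p M' : ℕ) : Finset ℕ :=
  insert p (M'.primeFactors ∪ W.Δ.natAbs.primeFactors)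

theorem dich_mem_S (W : WeierstrassCurve ℤ) (hΔ : W.Δ ≠ 0) (p M' : ℕ) [NeZero M'] (ℓ : ℕ)
    (h : ℓ ∈ s40hBad W p M') (hℓ : ℓ.Prime) : ℓ ∈ dichS W p M' := by
  rcases h with h | h | h
  · rw [h]
    exact Finset.mem_insert_self _ _
  · refine Finset.mem_insert_of_mem (Finset.mem_union_left _ ?_)
    exact Nat.mem_primeFactors.2 ⟨hℓ, h, NeZero.ne M'⟩
  · refine Finset.mem_insert_of_mem (Finset.mem_union_right _ ?_)
    refine Nat.mem_primeFactors.2 ⟨hℓ, ?_, Int.natAbs_ne_zero.2 hΔ⟩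
    exact Int.natCast_dvd.1 h

theorem dich_of_mem_S (W : WeierstrassCurve ℤ) (p M' : ℕ) (ℓ : ℕ) (h : ℓ ∈ dichS W p M') :
    ℓ = p ∨ ℓ ∣ M' ∨ (ℓ : ℤ) ∣ W.Δ := by
  rcases Finset.mem_insert.1 h with h | h
  · exact Or.inl h
  · rcases Finset.mem_union.1 h with h | h
    · exact Or.inr (Or.inl (Nat.dvd_of_mem_primeFactors h))
    · exact Or.inr (Or.inr (Int.natCast_dvd.2 (Nat.dvd_of_mem_primeFactors h)))

/-- a class of `p`-torsion with the eigenvalues `a_ℓ(W)` is killed by the kernel of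
`mthTheta`. -/
theorem dich_kills (W : WeierstrassCurve ℤ) (p : ℕ) {M : ℕ} [NeZero M] (S : Finset ℕ) (N' : ℕ)
    [NeZero N'] (z : JZero N') (hzp : p • z = 0)
    (hz : ∀ ℓ : Nat.Primes, ¬ (ℓ : ℕ) ∣ M → (ℓ : ℕ) ∉ S →
      heckeOperatorBar N' ℓ z = (W.apOfModel (ℓ : ℕ)) • z) (P : HPoly M S)
    (hP : mthTheta W p M S P = 0) : evalJac M S N' P z = 0 := by
  rw [mth_evalJac_eq W S N' z hz P]
  obtain ⟨k, hk⟩ := (mthTheta_eq_zero_iff W p M S P).1 hP
  rw [hk, mul_comm, mul_smul, natCast_zsmul, hzp, smul_zero]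

/-- **the dictionary** `S40hDich` from the NEW-case isomorphism. -/
theorem dich_main (W : WeierstrassCurve ℤ) (hΔ : W.Δ ≠ 0) {p : ℕ} (hp : p.Prime) (M' : ℕ)
    [NeZero M'] [NeZero (M' * p)] (hIso : S40dIso W p M') : S40hDich W p M' := by
  classical
  haveI : Fact p.Prime := ⟨hp⟩
  haveI : NeZero p := ⟨hp.ne_zero⟩
  intro hmod
  have hSbad : ∀ ℓ ∈ s40hBad W p M', ℓ.Prime → ℓ ∈ dichS W p M' :=
    fun ℓ h hℓ => dich_mem_S W hΔ p M' ℓ h hℓ
  by_cases hNot : S40hNotAt M' p (dichS W p M') W.apOfModel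
  · -- NEW case
    obtain ⟨z, hz0, hzp, hz⟩ := mth_eig_mul W hp (dichS W p M')
      (fun ℓ h hℓ => hSbad ℓ h hℓ) hmod
    obtain ⟨V, hVp, he, hEig⟩ := hIso (dichS W p M') hSbad z hz0 hzp hz
    exact Or.inr ⟨dichS W p M', V, hSbad, hVp, he, hEig, hNot⟩
  · -- OLD case
    left
    obtain ⟨y, hpy, hy, hy0⟩ : ∃ y : JZero M', p • y = 0 ∧
        (∀ ℓ : Nat.Primes, (ℓ : ℕ) ∉ dichS W p M' →
          heckeOperatorBar M' ℓ y = (W.apOfModel (ℓ : ℕ)) • y) ∧ y ≠ 0 := by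
      by_contra hcon
      apply hNot
      intro y hpy hy
      by_contra hy0
      exact hcon ⟨y, hpy, hy, hy0⟩
    refine olc_residuallyModular (S := dichS W p M') W hp ?_ ?_
    · intro ℓ hℓS hℓ hgood hℓM
      rcases dich_of_mem_S W p M' ℓ hℓS with h | h | h
      · exact h
      · exact absurd h hℓM
      · exact absurd h hgood
    · exact olc_main hp (mthTheta W p (M' * p) (dichS W p M'))
        (fun ℓ => W.apOfModel ((ℓ.1 : Nat.Primes) : ℕ))
        (fun ℓ => mthTheta_ι W p (M' * p) (dichS W p M') ℓ) y hy0 hpy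
        (fun P hP => dich_kills W p (dichS W p M') M' y hpy (fun ℓ _ hℓ => hy ℓ hℓ) P hP)

end Fermat.Agent.S40lib

end
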