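import Mathlib
import Fermat.Agent.S36lib.Speed

/-!
# Item 88 (S40), dictionary `V₀ ≅ W[p]`: the Boston–Lenstra–Ribet lemma (helper3)

Pure algebra.  `k` a field with `2 ≠ 0`, `G` a group, `ρ : G →* M₂(k)` whose image spans `M₂(k)`
(`ρ` absolutely irreducible), `σ : G →* End_k V` an action of `G` on a `k`-vector space `V` such
that every `g` satisfies on `V` the characteristic polynomial of `ρ g`:
`σ g ^ 2 - tr (ρ g) • σ g + det (ρ g) • 1 = 0`  (Eichler–Shimura + Chebotarev + Hasse).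

* `ble_polar_gen`: the polarized relation `ab + ba = t_b a + t_a b + (t_{ab} - t_a t_b)` for
  `a = σ g`, `b = σ h`;
* `ble_delta_zero`: the same relation on the span `B` of the pairs `(ρ g, σ g)`;
* `ble_ker`: an element of `B` with first component `0` is `0` (BLR: `k[G]/J ≅ M₂(k)`);
* `ble_exists_algHom`: the algebra homomorphism `Ψ : M₂(k) → End_k V` with `Ψ (ρ g) = σ g`;
* `ble_embed`: if `V ≠ 0` there is an injective `k`-linear map `f : k² → V` with
  `f (ρ g *ᵥ u) = σ g (f u)`;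
* `ble_span_of_irred`: the span condition from irreducibility and one element with two distinct
  eigenvalues in `k`.
No sorry.
-/

set_option autoImplicit false
set_option linter.style.longLine false
set_option linter.unusedSectionVars false
set_option linter.unusedVariables false
set_option linter.unusedSimpArgs false

noncomputable section

namespace Fermat.Agent.S40lib

open Matrix

variable {k : Type*} [Field k] {G : Type*} [Group G] {V : Type*} [AddCommGroup V] [Module k V]

/-- the polarized Cayley–Hamilton relation for two elements of the group -/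
theorem ble_polar_gen (ρ : G →* Matrix (Fin 2) (Fin 2) k) (σ : G →* Module.End k V)
    (hCH : ∀ g, σ g * σ g - (ρ g).trace • σ g + (ρ g).det • (1 : Module.End k V) = 0)
    (g h : G) :
    σ g * σ h + σ h * σ g = (ρ h).trace • σ g + (ρ g).trace • σ h +
      ((ρ g * ρ h).trace - (ρ g).trace * (ρ h).trace) • (1 : Module.End k V) := by
  have ha : σ g * σ g⁻¹ = 1 := by rw [← map_mul, mul_inv_cancel, map_one]
  have hai : σ g⁻¹ * σ g = 1 := by rw [← map_mul, inv_mul_cancel, map_one]
  have hb : σ h * σ h⁻¹ = 1 := by rw [← map_mul, mul_inv_cancel, map_one]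
  have hia : ∀ x, σ g⁻¹ * (σ g * x) = x := by
    intro x
    rw [← mul_assoc, hai, one_mul]
  have hEa : (ρ g).det • σ g⁻¹ = (ρ g).trace • (1 : Module.End k V) - σ g := by
    have h1 := congrArg (fun x => x * σ g⁻¹) (hCH g)
    simp only [add_mul, sub_mul, smul_mul_assoc, mul_assoc, ha, mul_one, one_mul, zero_mul] at h1
    rw [← sub_eq_zero]
    rw [← h1]
    abel
  have hEb : (ρ h).det • σ h⁻¹ = (ρ h).trace • (1 : Module.End k V) - σ h := by
    have h1 := congrArg (fun x => x * σ h⁻¹) (hCH h)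
    simp only [add_mul, sub_mul, smul_mul_assoc, mul_assoc, hb, mul_one, one_mul, zero_mul] at h1
    rw [← sub_eq_zero]
    rw [← h1]
    abel
  have h3 := hCH (g * h)
  rw [map_mul, map_mul, Matrix.det_mul] at h3
  have h4 := congrArg (fun x => σ g⁻¹ * x * σ h⁻¹) h3
  simp only [mul_add, mul_sub, add_mul, sub_mul, smul_mul_assoc, mul_smul_comm, mul_assoc, hia, hb,
    mul_one, one_mul, mul_zero, zero_mul] at h4
  have h5 : ((ρ g).det * (ρ h).det) • (σ g⁻¹ * σ h⁻¹) =
      ((ρ g).trace • (1 : Module.End k V) - σ g) * ((ρ h).trace • (1 : Module.End k V) - σ h) := by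
    rw [← hEa, ← hEb, smul_mul_smul_comm]
  rw [h5] at h4
  simp only [mul_sub, sub_mul, smul_mul_assoc, mul_smul_comm, mul_one, one_mul, smul_smul] at h4
  rw [← sub_eq_zero]
  rw [← h4]
  module

/-- the span of the pairs `(ρ g, σ g)` in `M₂(k) × End_k V` -/
def bleB (ρ : G →* Matrix (Fin 2) (Fin 2) k) (σ : G →* Module.End k V) :
    Submodule k (Matrix (Fin 2) (Fin 2) k × Module.End k V) :=
  Submodule.span k (Set.range fun g : G => ((ρ g, σ g) : Matrix (Fin 2) (Fin 2) k × Module.End k V))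

/-- the defect of the polarized Cayley–Hamilton relation -/
def bleDelta (x y : Matrix (Fin 2) (Fin 2) k × Module.End k V) : Module.End k V :=
  x.2 * y.2 + y.2 * x.2 - y.1.trace • x.2 - x.1.trace • y.2 -
    ((x.1 * y.1).trace - x.1.trace * y.1.trace) • (1 : Module.End k V)

theorem bleDelta_add_left (x x' y : Matrix (Fin 2) (Fin 2) k × Module.End k V) :
    bleDelta (x + x') y = bleDelta x y + bleDelta x' y := by
  simp only [bleDelta, Prod.fst_add, Prod.snd_add, add_mul, mul_add, Matrix.trace_add, smul_add,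
    add_smul]
  module

theorem bleDelta_smul_left (c : k) (x y : Matrix (Fin 2) (Fin 2) k × Module.End k V) :
    bleDelta (c • x) y = c • bleDelta x y := by
  simp only [bleDelta, Prod.smul_fst, Prod.smul_snd, smul_mul_assoc, mul_smul_comm,
    Matrix.trace_smul, smul_eq_mul, Matrix.smul_mul]
  module

theorem bleDelta_zero_left (y : Matrix (Fin 2) (Fin 2) k × Module.End k V) :
    bleDelta (0 : Matrix (Fin 2) (Fin 2) k × Module.End k V) y = 0 := by
  simp [bleDelta]

theorem bleDelta_comm (x y : Matrix (Fin 2) (Fin 2) k × Module.End k V) :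
    bleDelta x y = bleDelta y x := by
  simp only [bleDelta]
  rw [Matrix.trace_mul_comm x.1 y.1, mul_comm x.1.trace y.1.trace]
  module

/-- the polarized relation on the span `B` -/
theorem ble_delta_zero (ρ : G →* Matrix (Fin 2) (Fin 2) k) (σ : G →* Module.End k V)
    (hCH : ∀ g, σ g * σ g - (ρ g).trace • σ g + (ρ g).det • (1 : Module.End k V) = 0)
    {x y : Matrix (Fin 2) (Fin 2) k × Module.End k V} (hx : x ∈ bleB ρ σ) (hy : y ∈ bleB ρ σ) :
    bleDelta x y = 0 := by
  have hgen : ∀ g h : G, bleDelta ((ρ g, σ g) : Matrix (Fin 2) (Fin 2) k × Module.End k V)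
      (ρ h, σ h) = 0 := by
    intro g h
    have h1 := ble_polar_gen ρ σ hCH g h
    simp only [bleDelta]
    rw [h1]
    module
  have hleft : ∀ h : G, ∀ x ∈ bleB ρ σ, bleDelta x
      ((ρ h, σ h) : Matrix (Fin 2) (Fin 2) k × Module.End k V) = 0 := by
    intro h x hx
    induction hx using Submodule.span_induction with
    | mem x hx =>
      obtain ⟨g, rfl⟩ := hx
      exact hgen g h
    | zero => exact bleDelta_zero_left _
    | add x x' _ _ hx hx' => rw [bleDelta_add_left, hx, hx', add_zero]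
    | smul c x _ hx => rw [bleDelta_smul_left, hx, smul_zero]
  induction hy using Submodule.span_induction with
  | mem y hy =>
    obtain ⟨h, rfl⟩ := hy
    exact hleft h x hx
  | zero => rw [bleDelta_comm]; exact bleDelta_zero_left _
  | add y y' _ _ hy hy' => rw [bleDelta_comm, bleDelta_add_left, bleDelta_comm y, bleDelta_comm y',
      hy, hy', add_zero]
  | smul c y _ hy => rw [bleDelta_comm, bleDelta_smul_left, bleDelta_comm y, hy, smul_zero]

theorem ble_one_mem (ρ : G →* Matrix (Fin 2) (Fin 2) k) (σ : G →* Module.End k V) :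
    (1 : Matrix (Fin 2) (Fin 2) k × Module.End k V) ∈ bleB ρ σ := by
  apply Submodule.subset_span
  exact ⟨1, by simp [Prod.ext_iff]⟩

theorem ble_gen_mem (ρ : G →* Matrix (Fin 2) (Fin 2) k) (σ : G →* Module.End k V) (g : G) :
    ((ρ g, σ g) : Matrix (Fin 2) (Fin 2) k × Module.End k V) ∈ bleB ρ σ :=
  Submodule.subset_span ⟨g, rfl⟩

theorem ble_mul_mem (ρ : G →* Matrix (Fin 2) (Fin 2) k) (σ : G →* Module.End k V)
    {x y : Matrix (Fin 2) (Fin 2) k × Module.End k V} (hx : x ∈ bleB ρ σ) (hy : y ∈ bleB ρ σ) :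
    x * y ∈ bleB ρ σ := by
  induction hx using Submodule.span_induction with
  | mem x hx =>
    obtain ⟨g, rfl⟩ := hx
    induction hy using Submodule.span_induction with
    | mem y hy =>
      obtain ⟨h, rfl⟩ := hy
      have : ((ρ g, σ g) : Matrix (Fin 2) (Fin 2) k × Module.End k V) * (ρ h, σ h) =
          (ρ (g * h), σ (g * h)) := by
        simp [Prod.ext_iff]
      rw [this]
      exact ble_gen_mem ρ σ (g * h)
    | zero => rw [mul_zero]; exact Submodule.zero_mem _
    | add y y' _ _ hy hy' => rw [mul_add]; exact Submodule.add_mem _ hy hy'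
    | smul c y _ hy => rw [mul_smul_comm]; exact Submodule.smul_mem _ c hy
  | zero => rw [zero_mul]; exact Submodule.zero_mem _
  | add x x' _ _ hx hx' => rw [add_mul]; exact Submodule.add_mem _ hx hx'
  | smul c x _ hx => rw [smul_mul_assoc]; exact Submodule.smul_mem _ c hx

/-- for `n ∈ B` with first component `0`: `n b + b n = tr(b) n` -/
theorem ble_star (ρ : G →* Matrix (Fin 2) (Fin 2) k) (σ : G →* Module.End k V)
    (hCH : ∀ g, σ g * σ g - (ρ g).trace • σ g + (ρ g).det • (1 : Module.End k V) = 0)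
    {n b : Matrix (Fin 2) (Fin 2) k × Module.End k V} (hn : n ∈ bleB ρ σ) (hn1 : n.1 = 0)
    (hb : b ∈ bleB ρ σ) : n.2 * b.2 + b.2 * n.2 = b.1.trace • n.2 := by
  have h1 := ble_delta_zero ρ σ hCH hn hb
  simp only [bleDelta, hn1, Matrix.trace_zero, zero_mul, zero_smul, sub_zero, sub_self] at h1
  rw [← sub_eq_zero]
  exact h1

/-- `n ∈ B` with first component `0` kills the commutators of `B` -/
theorem ble_kill_comm (ρ : G →* Matrix (Fin 2) (Fin 2) k) (σ : G →* Module.End k V)
    (hCH : ∀ g, σ g * σ g - (ρ g).trace • σ g + (ρ g).det • (1 : Module.End k V) = 0)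
    {n a b : Matrix (Fin 2) (Fin 2) k × Module.End k V} (hn : n ∈ bleB ρ σ) (hn1 : n.1 = 0)
    (ha : a ∈ bleB ρ σ) (hb : b ∈ bleB ρ σ) : n.2 * (a.2 * b.2 - b.2 * a.2) = 0 := by
  have H1 := ble_star ρ σ hCH hn hn1 hb
  have H2 := ble_star ρ σ hCH hn hn1 ha
  have H3 := ble_star ρ σ hCH hn hn1 (ble_mul_mem ρ σ ha hb)
  have H4 := ble_delta_zero ρ σ hCH ha hb
  simp only [Prod.snd_mul, Prod.fst_mul] at H3
  simp only [bleDelta] at H4
  rw [← sub_eq_zero] at H1 H2 H3
  have key : n.2 * (a.2 * b.2 - b.2 * a.2) =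
      (n.2 * (a.2 * b.2) + a.2 * b.2 * n.2 - (a.1 * b.1).trace • n.2)
      - n.2 * (a.2 * b.2 + b.2 * a.2 - b.1.trace • a.2 - a.1.trace • b.2 -
          ((a.1 * b.1).trace - a.1.trace * b.1.trace) • (1 : Module.End k V))
      - a.2 * (n.2 * b.2 + b.2 * n.2 - b.1.trace • n.2)
      + (n.2 * a.2 + a.2 * n.2 - a.1.trace • n.2) * b.2
      - b.1.trace • (n.2 * a.2 + a.2 * n.2 - a.1.trace • n.2) := by
    simp only [mul_sub, sub_mul, mul_add, add_mul, mul_smul_comm, smul_mul_assoc, mul_assoc,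
      mul_one, smul_sub, smul_add, smul_smul]
    module
  rw [key, H1, H2, H3, H4]
  simp

/-- **BLR**: an element of the span `B` of the `(ρ g, σ g)` with first component `0` is `0`. -/
theorem ble_ker (h2 : (2 : k) ≠ 0) (ρ : G →* Matrix (Fin 2) (Fin 2) k) (σ : G →* Module.End k V)
    (hCH : ∀ g, σ g * σ g - (ρ g).trace • σ g + (ρ g).det • (1 : Module.End k V) = 0)
    (hsurj : ∀ A : Matrix (Fin 2) (Fin 2) k, ∃ x ∈ bleB ρ σ, x.1 = A)
    {n : Matrix (Fin 2) (Fin 2) k × Module.End k V} (hn : n ∈ bleB ρ σ) (hn1 : n.1 = 0) :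
    n.2 = 0 := by
  -- squares vanish
  have hsq : ∀ m ∈ bleB ρ σ, m.1 = 0 → m.2 * m.2 = 0 := by
    intro m hm hm1
    have h1 := ble_star ρ σ hCH hm hm1 hm
    rw [hm1, Matrix.trace_zero, zero_smul, ← two_smul k (m.2 * m.2)] at h1
    exact (smul_eq_zero.mp h1).resolve_left h2
  obtain ⟨a, ha, ha1⟩ := hsurj (Matrix.single 0 1 1)
  obtain ⟨b, hb, hb1⟩ := hsurj (Matrix.single 1 0 1)
  set c : Matrix (Fin 2) (Fin 2) k × Module.End k V := a * b - b * a with hc
  have hcB : c ∈ bleB ρ σ := Submodule.sub_mem _ (ble_mul_mem ρ σ ha hb) (ble_mul_mem ρ σ hb ha)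
  have hc1 : c.1 * c.1 = 1 := by
    simp only [hc, Prod.fst_sub, Prod.fst_mul, ha1, hb1]
    ext i j
    fin_cases i <;> fin_cases j <;>
      simp [Matrix.mul_apply, Fin.sum_univ_two, Matrix.single_apply, Matrix.one_apply]
  have hnc : n.2 * c.2 = 0 := by
    have := ble_kill_comm ρ σ hCH hn hn1 ha hb
    simpa [hc] using this
  set m : Matrix (Fin 2) (Fin 2) k × Module.End k V := 1 - c * c with hm
  have hmB : m ∈ bleB ρ σ := Submodule.sub_mem _ (ble_one_mem ρ σ) (ble_mul_mem ρ σ hcB hcB)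
  have hm1 : m.1 = 0 := by
    simp only [hm, Prod.fst_sub, Prod.fst_one, Prod.fst_mul, hc1, sub_self]
  have hnm : n.2 * m.2 = n.2 := by
    simp only [hm, Prod.snd_sub, Prod.snd_one, Prod.snd_mul, mul_sub, mul_one]
    rw [← mul_assoc, hnc, zero_mul, sub_zero]
  have hmm := hsq m hmB hm1
  have h3 : n.2 = n.2 * m.2 * m.2 := by rw [hnm, hnm]
  rw [h3, mul_assoc, hmm, mul_zero]

/-- the first projection of `B` is onto if the `ρ g` span `M₂(k)` -/
theorem ble_surj (ρ : G →* Matrix (Fin 2) (Fin 2) k) (σ : G →* Module.End k V)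
    (hspan : Submodule.span k (Set.range ρ) = ⊤) (A : Matrix (Fin 2) (Fin 2) k) :
    ∃ x ∈ bleB ρ σ, x.1 = A := by
  have h1 : (bleB ρ σ).map (LinearMap.fst k (Matrix (Fin 2) (Fin 2) k) (Module.End k V)) = ⊤ := by
    rw [bleB, Submodule.map_span, ← hspan]
    congr 1
    ext B
    constructor
    · rintro ⟨x, ⟨g, rfl⟩, rfl⟩
      exact ⟨g, rfl⟩
    · rintro ⟨g, rfl⟩
      exact ⟨(ρ g, σ g), ⟨g, rfl⟩, rfl⟩
  have h2 : A ∈ (bleB ρ σ).map (LinearMap.fst k (Matrix (Fin 2) (Fin 2) k) (Module.End k V)) := by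
    rw [h1]
    exact Submodule.mem_top
  obtain ⟨x, hx, hxA⟩ := h2
  exact ⟨x, hx, hxA⟩

/-- **BLR, algebra form**: the algebra homomorphism `Ψ : M₂(k) → End_k V` with `Ψ (ρ g) = σ g`. -/
theorem ble_exists_algHom (h2 : (2 : k) ≠ 0) (ρ : G →* Matrix (Fin 2) (Fin 2) k)
    (σ : G →* Module.End k V)
    (hCH : ∀ g, σ g * σ g - (ρ g).trace • σ g + (ρ g).det • (1 : Module.End k V) = 0)
    (hspan : Submodule.span k (Set.range ρ) = ⊤) :
    ∃ Ψ : Matrix (Fin 2) (Fin 2) k →ₐ[k] Module.End k V, ∀ g, Ψ (ρ g) = σ g := by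
  classical
  have hsurj := ble_surj ρ σ hspan
  -- uniqueness of the second component
  have huniq : ∀ x ∈ bleB ρ σ, ∀ y ∈ bleB ρ σ, x.1 = y.1 → x.2 = y.2 := by
    intro x hx y hy hxy
    have h1 := ble_ker h2 ρ σ hCH hsurj (Submodule.sub_mem _ hx hy)
      (by rw [Prod.fst_sub, hxy, sub_self])
    rw [Prod.snd_sub, sub_eq_zero] at h1
    exact h1
  choose X hXB hX1 using hsurj
  have hspec : ∀ x ∈ bleB ρ σ, (X x.1).2 = x.2 := fun x hx =>
    huniq _ (hXB x.1) x hx (hX1 x.1)
  have hadd : ∀ A B : Matrix (Fin 2) (Fin 2) k, (X (A + B)).2 = (X A).2 + (X B).2 := by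
    intro A B
    have h1 := hspec (X A + X B) (Submodule.add_mem _ (hXB A) (hXB B))
    rw [Prod.fst_add, hX1, hX1, Prod.snd_add] at h1
    exact h1
  have hsmul : ∀ (c : k) (A : Matrix (Fin 2) (Fin 2) k), (X (c • A)).2 = c • (X A).2 := by
    intro c A
    have h1 := hspec (c • X A) (Submodule.smul_mem _ c (hXB A))
    rw [Prod.smul_fst, hX1, Prod.smul_snd] at h1
    exact h1
  have hmul : ∀ A B : Matrix (Fin 2) (Fin 2) k, (X (A * B)).2 = (X A).2 * (X B).2 := by
    intro A B
    have h1 := hspec (X A * X B) (ble_mul_mem ρ σ (hXB A) (hXB B))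
    rw [Prod.fst_mul, hX1, hX1, Prod.snd_mul] at h1
    exact h1
  have hone : (X 1).2 = 1 := by
    have h1 := hspec 1 (ble_one_mem ρ σ)
    rw [Prod.fst_one, Prod.snd_one] at h1
    exact h1
  have hgen : ∀ g, (X (ρ g)).2 = σ g := fun g => hspec (ρ g, σ g) (ble_gen_mem ρ σ g)
  let L : Matrix (Fin 2) (Fin 2) k →ₗ[k] Module.End k V :=
    { toFun := fun A => (X A).2
      map_add' := hadd
      map_smul' := fun c A => hsmul c A }
  exact ⟨AlgHom.ofLinearMap L hone hmul, hgen⟩

/-- the matrix with `i`-th column `u` and the other column `0`, linear in `u` -/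
def bleCol (i : Fin 2) : (Fin 2 → k) →ₗ[k] Matrix (Fin 2) (Fin 2) k where
  toFun u := Matrix.of fun r c => if c = i then u r else 0
  map_add' u v := by
    ext r c
    simp only [Matrix.of_apply, Matrix.add_apply, Pi.add_apply]
    split_ifs <;> simp
  map_smul' a u := by
    ext r c
    simp only [Matrix.of_apply, Matrix.smul_apply, Pi.smul_apply, RingHom.id_apply]
    split_ifs <;> simp

theorem bleCol_apply (i : Fin 2) (u : Fin 2 → k) (r c : Fin 2) :
    bleCol (k := k) i u r c = if c = i then u r else 0 := rfl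

theorem bleCol_mulVec (i : Fin 2) (A : Matrix (Fin 2) (Fin 2) k) (u : Fin 2 → k) :
    bleCol i (A *ᵥ u) = A * bleCol i u := by
  ext r c
  simp only [bleCol_apply, Matrix.mul_apply, Matrix.mulVec, dotProduct]
  split_ifs <;> simp

theorem bleCol_single (i : Fin 2) :
    bleCol (k := k) i (Pi.single i 1) = Matrix.single i i 1 := by
  ext r c
  simp only [bleCol_apply, Matrix.single_apply, Pi.single_apply]
  by_cases h1 : c = i
  · by_cases h2 : r = i
    · simp [h1, h2]
    · have h2' : ¬ i = r := fun h => h2 h.symm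
      simp [h1, h2, h2']
  · have h1' : ¬ i = c := fun h => h1 h.symm
    simp [h1, h1']

/-- a nonzero module over `M₂(k)` contains a copy of `k²` -/
theorem ble_embed_of_algHom (Ψ : Matrix (Fin 2) (Fin 2) k →ₐ[k] Module.End k V) [Nontrivial V] :
    ∃ f : (Fin 2 → k) →ₗ[k] V, Function.Injective f ∧
      ∀ (A : Matrix (Fin 2) (Fin 2) k) (u : Fin 2 → k), f (A *ᵥ u) = Ψ A (f u) := by
  classical
  obtain ⟨v, hv⟩ := exists_ne (0 : V)
  have h1 : (Matrix.single 0 0 1 + Matrix.single 1 1 1 : Matrix (Fin 2) (Fin 2) k) = 1 := by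
    ext i j
    fin_cases i <;> fin_cases j <;> simp [Matrix.single_apply, Matrix.one_apply]
  have h2 : Ψ (Matrix.single 0 0 1) v + Ψ (Matrix.single 1 1 1) v = v := by
    rw [← LinearMap.add_apply, ← map_add, h1, map_one]
    rfl
  have h3 : ∃ i : Fin 2, Ψ (Matrix.single i i 1) v ≠ 0 := by
    by_contra hcon
    push Not at hcon
    rw [hcon 0, hcon 1, add_zero] at h2
    exact hv h2.symm
  obtain ⟨i, hi⟩ := h3
  set w := Ψ (Matrix.single i i 1) v with hw
  have hidem : (Matrix.single i i 1 : Matrix (Fin 2) (Fin 2) k) * Matrix.single i i 1 =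
      Matrix.single i i 1 := by
    rw [Matrix.single_mul_single_same, mul_one]
  have hww : Ψ (Matrix.single i i 1) w = w := by
    rw [hw, ← Module.End.mul_apply, ← map_mul, hidem]
  let f : (Fin 2 → k) →ₗ[k] V :=
    (LinearMap.applyₗ w : Module.End k V →ₗ[k] V) ∘ₗ Ψ.toLinearMap ∘ₗ bleCol i
  have hf : ∀ u, f u = Ψ (bleCol i u) w := fun u => rfl
  have hequiv : ∀ (A : Matrix (Fin 2) (Fin 2) k) (u : Fin 2 → k), f (A *ᵥ u) = Ψ A (f u) := by
    intro A u
    rw [hf, hf, bleCol_mulVec, map_mul]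
    rfl
  refine ⟨f, ?_, hequiv⟩
  rw [← LinearMap.ker_eq_bot, LinearMap.ker_eq_bot']
  intro u hu
  by_contra hu0
  have hj : ∃ j, u j ≠ 0 := by
    by_contra hcon
    push Not at hcon
    exact hu0 (funext hcon)
  obtain ⟨j, hj⟩ := hj
  have hA : ((u j)⁻¹ • Matrix.single i j (1 : k)) *ᵥ u = Pi.single i 1 := by
    ext r
    simp only [Matrix.mulVec, dotProduct, Matrix.smul_apply, Matrix.single_apply, smul_eq_mul,
      Pi.single_apply]
    rw [Fin.sum_univ_two]
    by_cases hr : r = i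
    · subst hr
      fin_cases j
      · simp at hj ⊢
        field_simp
      · simp at hj ⊢
        field_simp
    · have hr' : ¬ i = r := fun h => hr h.symm
      simp [hr, hr']
  have h4 : f (Pi.single i 1) = w := by
    rw [hf, bleCol_single, hww]
  have h5 : f (Pi.single i 1) = 0 := by
    rw [← hA, hequiv, hu, map_zero]
  exact hi (by rw [← h4, h5])

/-- **BLR, embedding form** (matrices): if `V ≠ 0` there is an injective `k`-linear map
`f : k² → V` with `f (ρ g *ᵥ u) = σ g (f u)`. -/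
theorem ble_embed (h2 : (2 : k) ≠ 0) (ρ : G →* Matrix (Fin 2) (Fin 2) k)
    (σ : G →* Module.End k V)
    (hCH : ∀ g, σ g * σ g - (ρ g).trace • σ g + (ρ g).det • (1 : Module.End k V) = 0)
    (hspan : Submodule.span k (Set.range ρ) = ⊤) [Nontrivial V] :
    ∃ f : (Fin 2 → k) →ₗ[k] V, Function.Injective f ∧
      ∀ (g : G) (u : Fin 2 → k), f (ρ g *ᵥ u) = σ g (f u) := by
  obtain ⟨Ψ, hΨ⟩ := ble_exists_algHom h2 ρ σ hCH hspan
  obtain ⟨f, hf, hfe⟩ := ble_embed_of_algHom Ψ
  refine ⟨f, hf, fun g u => ?_⟩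
  rw [hfe, hΨ]

end Fermat.Agent.S40lib

end
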