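import Mathlib
import Fermat.Agent.S36lib.Speed
import Fermat.Agent.S40lib.BlrEmb
import Fermat.Agent.S58lib.HResAlg

/-!
# Item 88 (S40), dictionary `V₀ ≅ W[p]`: BLR in module form and the span condition (helper3)

* `blm_mul_mem`, `blm_span_matrix`: a matrix representation `ρ : G →* M₂(k)` containing
  `diag(1, -1)` and two elements with nonzero entries `(1,0)`, resp. `(0,1)`, spans `M₂(k)`;
* `blm_span_of_irred`: an irreducible representation on a plane `U` (characteristic `≠ 2`) with an
  involution of determinant `-1` spans `M₂(k)` in a suitable basis;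
* `blm_embed`: **BLR, module form**: `U` an irreducible plane with an involution of determinant
  `-1`, `V ≠ 0` a `k[G]`-module on which every `g` satisfies
  `g² - tr(g | U) g + det(g | U) = 0`: there is an injective `k`-linear `G`-equivariant map
  `U → V`.
No sorry.
-/

set_option autoImplicit false
set_option linter.style.longLine false
set_option linter.unusedSectionVars false
set_option linter.unusedVariables false
set_option linter.unusedSimpArgs false
set_option linter.unnecessarySeqFocus false

noncomputable section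

namespace Fermat.Agent.S40lib

open Matrix Module Fermat.Agent.S58lib

variable {k : Type*} [Field k] {G : Type*} [Group G]

theorem blm_mul_mem (ρ : G →* Matrix (Fin 2) (Fin 2) k) {x y : Matrix (Fin 2) (Fin 2) k}
    (hx : x ∈ Submodule.span k (Set.range ρ)) (hy : y ∈ Submodule.span k (Set.range ρ)) :
    x * y ∈ Submodule.span k (Set.range ρ) := by
  induction hx using Submodule.span_induction with
  | mem x hx =>
    obtain ⟨g, rfl⟩ := hx
    induction hy using Submodule.span_induction with
    | mem y hy =>
      obtain ⟨h, rfl⟩ := hy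
      rw [← map_mul]
      exact Submodule.subset_span ⟨g * h, rfl⟩
    | zero => rw [mul_zero]; exact Submodule.zero_mem _
    | add y y' _ _ hy hy' => rw [mul_add]; exact Submodule.add_mem _ hy hy'
    | smul c y _ hy => rw [mul_smul_comm]; exact Submodule.smul_mem _ c hy
  | zero => rw [zero_mul]; exact Submodule.zero_mem _
  | add x x' _ _ hx hx' => rw [add_mul]; exact Submodule.add_mem _ hx hx'
  | smul c x _ hx => rw [smul_mul_assoc]; exact Submodule.smul_mem _ c hx

/-- a matrix representation containing `diag(1, -1)` and elements with nonzero entries `(1,0)`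
and `(0,1)` spans `M₂(k)` -/
theorem blm_span_matrix (h2 : (2 : k) ≠ 0) (ρ : G →* Matrix (Fin 2) (Fin 2) k) (c g h : G)
    (hc00 : ρ c 0 0 = 1) (hc01 : ρ c 0 1 = 0) (hc10 : ρ c 1 0 = 0) (hc11 : ρ c 1 1 = -1)
    (hg : ρ g 1 0 ≠ 0) (hh : ρ h 0 1 ≠ 0) :
    Submodule.span k (Set.range ρ) = ⊤ := by
  set B := Submodule.span k (Set.range ρ) with hB
  have hgen : ∀ x : G, ρ x ∈ B := fun x => Submodule.subset_span ⟨x, rfl⟩
  have h1 : (1 : Matrix (Fin 2) (Fin 2) k) ∈ B := by
    have := hgen 1
    rwa [map_one] at this
  have he0 : (Matrix.single 0 0 1 : Matrix (Fin 2) (Fin 2) k) ∈ B := by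
    have h3 : (Matrix.single 0 0 1 : Matrix (Fin 2) (Fin 2) k) = (2 : k)⁻¹ • (1 + ρ c) := by
      ext i j
      fin_cases i <;> fin_cases j <;>
        simp [Matrix.single_apply, Matrix.one_apply, hc00, hc01, hc10, hc11] <;> field_simp <;>
        ring
    rw [h3]
    exact Submodule.smul_mem _ _ (Submodule.add_mem _ h1 (hgen c))
  have he1 : (Matrix.single 1 1 1 : Matrix (Fin 2) (Fin 2) k) ∈ B := by
    have h3 : (Matrix.single 1 1 1 : Matrix (Fin 2) (Fin 2) k) = (2 : k)⁻¹ • (1 - ρ c) := by
      ext i j
      fin_cases i <;> fin_cases j <;>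
        simp [Matrix.single_apply, Matrix.one_apply, hc00, hc01, hc10, hc11] <;> field_simp <;>
        ring
    rw [h3]
    exact Submodule.smul_mem _ _ (Submodule.sub_mem _ h1 (hgen c))
  have he10 : (Matrix.single 1 0 1 : Matrix (Fin 2) (Fin 2) k) ∈ B := by
    have h3 : (Matrix.single 1 0 1 : Matrix (Fin 2) (Fin 2) k) =
        (ρ g 1 0)⁻¹ • (Matrix.single 1 1 1 * ρ g * Matrix.single 0 0 1) := by
      ext i j
      fin_cases i <;> fin_cases j <;>
        simp [Matrix.single_apply, Matrix.mul_apply, Fin.sum_univ_two, hg]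
    rw [h3]
    exact Submodule.smul_mem _ _ (blm_mul_mem ρ (blm_mul_mem ρ he1 (hgen g)) he0)
  have he01 : (Matrix.single 0 1 1 : Matrix (Fin 2) (Fin 2) k) ∈ B := by
    have h3 : (Matrix.single 0 1 1 : Matrix (Fin 2) (Fin 2) k) =
        (ρ h 0 1)⁻¹ • (Matrix.single 0 0 1 * ρ h * Matrix.single 1 1 1) := by
      ext i j
      fin_cases i <;> fin_cases j <;>
        simp [Matrix.single_apply, Matrix.mul_apply, Fin.sum_univ_two, hh]
    rw [h3]
    exact Submodule.smul_mem _ _ (blm_mul_mem ρ (blm_mul_mem ρ he0 (hgen h)) he1)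
  rw [eq_top_iff]
  intro A _
  have hA : A = A 0 0 • Matrix.single 0 0 1 + A 0 1 • Matrix.single 0 1 1 +
      A 1 0 • Matrix.single 1 0 1 + A 1 1 • Matrix.single 1 1 1 := by
    ext i j
    fin_cases i <;> fin_cases j <;> simp [Matrix.single_apply]
  rw [hA]
  exact Submodule.add_mem _ (Submodule.add_mem _ (Submodule.add_mem _
    (Submodule.smul_mem _ _ he0) (Submodule.smul_mem _ _ he01)) (Submodule.smul_mem _ _ he10))
    (Submodule.smul_mem _ _ he1)

variable {U : Type*} [AddCommGroup U] [Module k U] {V : Type*} [AddCommGroup V] [Module k V]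

/-- the matrix representation of `r` in the basis `b` -/
def blmMat (b : Basis (Fin 2) k U) (r : G →* Module.End k U) : G →* Matrix (Fin 2) (Fin 2) k where
  toFun g := LinearMap.toMatrix b b (r g)
  map_one' := by
    rw [map_one]
    exact LinearMap.toMatrix_one b
  map_mul' g h := by
    rw [map_mul]
    exact LinearMap.toMatrix_mul b (r g) (r h)

theorem blmMat_apply (b : Basis (Fin 2) k U) (r : G →* Module.End k U) (g : G) :
    blmMat b r g = LinearMap.toMatrix b b (r g) := rfl

/-- an irreducible representation on a plane with an involution of determinant `-1` spans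
`M₂(k)` (in an eigenbasis of the involution) -/
theorem blm_span_of_irred (h2 : (2 : k) ≠ 0) (hU : finrank k U = 2) (r : G →* Module.End k U)
    (hirr : ∀ N : Submodule k U, (∀ g : G, ∀ x ∈ N, r g x ∈ N) → N = ⊥ ∨ N = ⊤)
    (c : G) (hc : c * c = 1) (hdet : LinearMap.det (r c) = -1) :
    ∃ b : Basis (Fin 2) k U, Submodule.span k (Set.range (blmMat b r)) = ⊤ := by
  classical
  have hCC : r c * r c = 1 := by rw [← map_mul, hc, map_one]
  obtain ⟨b, hb0, hb1⟩ := hrs_exists_eigenbasis h2 hU (r c) hCC hdet
  refine ⟨b, ?_⟩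
  -- the entries of the matrix of `c`
  have hc00 : blmMat b r c 0 0 = 1 := by
    rw [blmMat_apply, LinearMap.toMatrix_apply, hb0]
    simp
  have hc10 : blmMat b r c 1 0 = 0 := by
    rw [blmMat_apply, LinearMap.toMatrix_apply, hb0]
    simp
  have hc01 : blmMat b r c 0 1 = 0 := by
    rw [blmMat_apply, LinearMap.toMatrix_apply, hb1]
    simp
  have hc11 : blmMat b r c 1 1 = -1 := by
    rw [blmMat_apply, LinearMap.toMatrix_apply, hb1]
    simp
  -- a stable line is excluded
  have hline : ∀ i j : Fin 2, i ≠ j → ∃ g : G, blmMat b r g j i ≠ 0 := by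
    intro i j hij
    by_contra hcon
    push Not at hcon
    have hstab : ∀ g : G, ∀ x ∈ Submodule.span k {b i}, r g x ∈ Submodule.span k {b i} := by
      intro g x hx
      obtain ⟨a, rfl⟩ := Submodule.mem_span_singleton.mp hx
      rw [map_smul]
      apply Submodule.smul_mem
      have h3 : r g (b i) = (blmMat b r g i i) • b i := by
        have h4 := b.sum_repr (r g (b i))
        rw [Fin.sum_univ_two] at h4
        have h5 : ∀ l : Fin 2, b.repr (r g (b i)) l = blmMat b r g l i := by
          intro l
          rw [blmMat_apply, LinearMap.toMatrix_apply]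
        rw [h5, h5] at h4
        rw [← h4]
        fin_cases i <;> fin_cases j
        · exact absurd rfl hij
        · have := hcon g
          simp only [Fin.mk_one, Fin.zero_eta] at this ⊢
          rw [this, zero_smul, add_zero]
        · have := hcon g
          simp only [Fin.mk_one, Fin.zero_eta] at this ⊢
          rw [this, zero_smul, zero_add]
        · exact absurd rfl hij
      rw [h3]
      exact Submodule.smul_mem _ _ (Submodule.mem_span_singleton_self _)
    obtain ⟨hne0, hne1⟩ := hrs_span_basis_ne hU b i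
    rcases hirr _ hstab with h | h
    · exact hne0 h
    · exact hne1 h
  obtain ⟨g, hg⟩ := hline 0 1 (by decide)
  obtain ⟨h, hh⟩ := hline 1 0 (by decide)
  exact blm_span_matrix h2 (blmMat b r) c g h hc00 hc01 hc10 hc11 hg hh

/-- **BLR, module form.** -/
theorem blm_embed (h2 : (2 : k) ≠ 0) (hU : finrank k U = 2) (r : G →* Module.End k U)
    (hirr : ∀ N : Submodule k U, (∀ g : G, ∀ x ∈ N, r g x ∈ N) → N = ⊥ ∨ N = ⊤)
    (c : G) (hc : c * c = 1) (hdet : LinearMap.det (r c) = -1)
    (σ : G →* Module.End k V)
    (hCH : ∀ g, σ g * σ g - (LinearMap.trace k U (r g)) • σ g +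
      (LinearMap.det (r g)) • (1 : Module.End k V) = 0)
    [Nontrivial V] :
    ∃ f : U →ₗ[k] V, Function.Injective f ∧ ∀ (g : G) (u : U), f (r g u) = σ g (f u) := by
  classical
  obtain ⟨b, hspan⟩ := blm_span_of_irred h2 hU r hirr c hc hdet
  have hCH' : ∀ g, σ g * σ g - (blmMat b r g).trace • σ g +
      (blmMat b r g).det • (1 : Module.End k V) = 0 := by
    intro g
    have h3 : (blmMat b r g).trace = LinearMap.trace k U (r g) := by
      rw [blmMat_apply, LinearMap.trace_eq_matrix_trace k b]
    have h4 : (blmMat b r g).det = LinearMap.det (r g) := by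
      rw [blmMat_apply, LinearMap.det_toMatrix]
    rw [h3, h4]
    exact hCH g
  obtain ⟨f, hf, hfe⟩ := ble_embed h2 (blmMat b r) σ hCH' hspan
  refine ⟨f ∘ₗ (b.equivFun : U →ₗ[k] (Fin 2 → k)), ?_, ?_⟩
  · rw [LinearMap.coe_comp]
    exact hf.comp b.equivFun.injective
  · intro g u
    rw [LinearMap.comp_apply, LinearMap.comp_apply, ← hfe]
    congr 1
    rw [blmMat_apply]
    exact (LinearMap.toMatrix_mulVec_repr b b (r g) u).symm

end Fermat.Agent.S40lib

end
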