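/-
Item 88 (S40), block (D), piece DictIso (helper9): **the NEW-case isomorphism** `S40dIso`.

A nonzero class `z ∈ J₀(N)[p]` with `T_ℓ z = a_ℓ(W) z` for `ℓ ∉ S` gives a Galois copy of `W[p]`
inside the eigenspace `V_θ = {x ∈ J₀(N)[p] : T_ℓ x = a_ℓ(W) x, ℓ ∉ S}`:

* `dciEig N p S a`       : the eigenspace, an `AddSubgroup` of `J₀(N)`, a `ZMod p`-module;
* `dciRep`               : the Galois action `G_ℚ →* End_{ZMod p} V_θ`;
* `dci_CH`               : the Cayley–Hamilton relation on `V_θ` (`dch_quad_tr`);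
* `DciBLR W p`           : the Boston–Lenstra–Ribet embedding for `W[p]` (provider: helper3);
* `dci_of_blr`           : `DciBLR W p → S40dIso W p M'`;
* `dci_blr`              : `DciBLR W p` from `blm_embed` (helper3), the Hasse package and `hirr`;
* `dci_main`             : **`S40dIso W p M'`** for `W` with `Δ ≠ 0`, `p` odd, `W[p]` irreducible.
Declarations are prefixed `dci`.  Complete proofs.
-/
import Mathlib
import Fermat.Agent.S36lib.Speed
import Fermat.Agent.S40lib.Dich
import Fermat.Agent.S40lib.DictCH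
import Fermat.Agent.S40lib.BlrMod
import Fermat.Agent.S58lib.HRes
import Fermat.Agent.S58lib.HResW
import Fermat.Agent.S58lib.Cond
import Fermat.Agent.S31lib.Wiring
import Fermat.Agent.S37

set_option autoImplicit false
set_option linter.style.haveILetI false
set_option linter.unusedSectionVars false
set_option linter.unusedVariables false
set_option linter.style.longLine false

noncomputable section

open Polynomial
open Fermat.Agent.GalRep Fermat.Agent.S31lib Fermat.Agent.S58lib ModularCurve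

namespace Fermat.Agent.S40lib

section Eig

variable (N p : ℕ) [NeZero N] (S : Finset ℕ) (a : ℕ → ℤ)

/-- the eigenspace `{x ∈ J₀(N)[p] : T_ℓ x = a_ℓ x for ℓ ∉ S}` -/
def dciEig : AddSubgroup (JZero N) where
  carrier := {x | p • x = 0 ∧
    ∀ ℓ : Nat.Primes, (ℓ : ℕ) ∉ S → heckeOperatorBar N ℓ x = a ℓ • x}
  zero_mem' := ⟨smul_zero _, fun ℓ _ => by rw [map_zero, smul_zero]⟩
  add_mem' := by
    rintro x y ⟨hx, hx'⟩ ⟨hy, hy'⟩
    refine ⟨?_, fun ℓ hℓ => ?_⟩
    · have e : p • (x + y) = p • x + p • y := by module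
      rw [e, hx, hy, add_zero]
    · rw [map_add, hx' ℓ hℓ, hy' ℓ hℓ]
      module
  neg_mem' := by
    rintro x ⟨hx, hx'⟩
    refine ⟨?_, fun ℓ hℓ => ?_⟩
    · have e : p • -x = -(p • x) := by module
      rw [e, hx, neg_zero]
    · rw [map_neg, hx' ℓ hℓ]
      module

theorem dci_mem_iff (x : JZero N) :
    x ∈ dciEig N p S a ↔ p • x = 0 ∧
      ∀ ℓ : Nat.Primes, (ℓ : ℕ) ∉ S → heckeOperatorBar N ℓ x = a ℓ • x := Iff.rfl

theorem dci_nsmul_eq_zero (x : dciEig N p S a) : p • x = 0 := by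
  apply Subtype.ext
  rw [AddSubgroup.coe_nsmul]
  exact x.2.1

/-- the eigenspace is a `ZMod p`-module -/
instance dciEigModule : Module (ZMod p) (dciEig N p S a) :=
  AddCommGroup.zmodModule (dci_nsmul_eq_zero N p S a)

variable {N p S a}

/-- the eigenspace is Galois-stable -/
theorem dci_smul_mem (J : JacInput N p) (g : GQ) {x : JZero N} (hx : x ∈ dciEig N p S a) :
    g • x ∈ dciEig N p S a := by
  refine ⟨?_, fun ℓ hℓ => ?_⟩
  · have h := map_nsmul (DistribSMul.toAddMonoidHom (JZero N) g) p x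
    rw [hx.1, map_zero] at h
    exact h.symm
  · have hg := J.galComm g ℓ x
    rw [hx.2 ℓ hℓ] at hg
    rw [← hg]
    exact map_zsmul (DistribSMul.toAddMonoidHom (JZero N) g) (a ℓ) x

/-- the Galois action on the eigenspace, additive -/
def dciAct (J : JacInput N p) (g : GQ) : dciEig N p S a →+ dciEig N p S a where
  toFun x := ⟨g • (x : JZero N), dci_smul_mem J g x.2⟩
  map_zero' := by
    apply Subtype.ext
    show g • ((0 : dciEig N p S a) : JZero N) = 0
    exact smul_zero g
  map_add' x y := by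
    apply Subtype.ext
    show g • ((x + y : dciEig N p S a) : JZero N) = g • (x : JZero N) + g • (y : JZero N)
    rw [AddSubgroup.coe_add, smul_add]

theorem dciAct_coe (J : JacInput N p) (g : GQ) (x : dciEig N p S a) :
    ((dciAct J g x : dciEig N p S a) : JZero N) = g • (x : JZero N) := rfl

/-- the Galois representation on the eigenspace -/
def dciRep (J : JacInput N p) : GQ →* Module.End (ZMod p) (dciEig N p S a) where
  toFun g := (dciAct J g).toZModLinearMap p
  map_one' := by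
    apply LinearMap.ext
    intro x
    apply Subtype.ext
    show (1 : GQ) • (x : JZero N) = x
    rw [one_smul]
  map_mul' g h := by
    apply LinearMap.ext
    intro x
    apply Subtype.ext
    show (g * h) • (x : JZero N) = g • h • (x : JZero N)
    rw [mul_smul]

theorem dciRep_coe (J : JacInput N p) (g : GQ) (x : dciEig N p S a) :
    ((dciRep J g x : dciEig N p S a) : JZero N) = g • (x : JZero N) := rfl

theorem dci_intCast_smul (t : ℤ) (x : dciEig N p S a) :
    (((t : ZMod p) • x : dciEig N p S a) : JZero N) = t • (x : JZero N) := by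
  rw [Int.cast_smul_eq_zsmul, AddSubgroup.coe_zsmul]

/-- the pointwise form of the Cayley–Hamilton relation -/
theorem dci_CH_aux (J : JacInput N p) (g : GQ) (x : dciEig N p S a) (T D : ZMod p) (t d : ℤ)
    (ht : (t : ZMod p) = T) (hd : (d : ZMod p) = D)
    (hrel : g • g • (x : JZero N) - t • g • (x : JZero N) + d • (x : JZero N) = 0) :
    ((dciRep J g * dciRep J g - T • dciRep J g
      + D • (1 : Module.End (ZMod p) (dciEig N p S a)) :
        Module.End (ZMod p) (dciEig N p S a))) x = 0 := by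
  subst ht hd
  have e1 : ((dciRep (S := S) (a := a) J g * dciRep J g
      - (t : ZMod p) • dciRep J g + (d : ZMod p) • (1 : Module.End (ZMod p) (dciEig N p S a)) :
        Module.End (ZMod p) (dciEig N p S a))) x
      = dciRep J g (dciRep J g x) - (t : ZMod p) • dciRep J g x + (d : ZMod p) • x := rfl
  rw [e1]
  apply Subtype.ext
  have e2 : ((dciRep J g (dciRep J g x) - (t : ZMod p) • dciRep J g x + (d : ZMod p) • x
      : dciEig N p S a) : JZero N)
      = ((dciRep J g (dciRep J g x) : dciEig N p S a) : JZero N)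
        - (((t : ZMod p) • dciRep J g x : dciEig N p S a) : JZero N)
        + (((d : ZMod p) • x : dciEig N p S a) : JZero N) := rfl
  rw [e2, dci_intCast_smul, dci_intCast_smul, dciRep_coe, dciRep_coe]
  exact hrel

end Eig

open WeierstrassCurve WeierstrassCurve.Affine WeierstrassCurve.Affine.Point

section CH

variable {N p : ℕ} [NeZero N] (E : WeierstrassCurve ℚ)
  [Module.Free (ZMod p) (Submodule.torsionBy ℤ (E⁄(AlgebraicClosure ℚ)).Point p)]
  [Module.Finite (ZMod p) (Submodule.torsionBy ℤ (E⁄(AlgebraicClosure ℚ)).Point p)]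

/-- **the Cayley–Hamilton relation on the eigenspace** -/
theorem dci_CH (hp0 : p ≠ 0) (J : JacInput N p)
    (hT : Module.finrank (ZMod p)
      (Submodule.torsionBy ℤ (E⁄(AlgebraicClosure ℚ)).Point p) = 2)
    (S : Finset ℕ) (hS : ∀ ℓ : ℕ, ℓ.Prime → ℓ ∣ N * p → ℓ ∈ S) (a : ℕ → ℤ)
    (hr : ChlFrob (galoisRepModuleEnd (K := AlgebraicClosure ℚ) ℚ E p) S a) (g : GQ) :
    dciRep (S := S) (a := a) J g * dciRep J g
      - LinearMap.trace (ZMod p) _ (galoisRepModuleEnd (K := AlgebraicClosure ℚ) ℚ E p g)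
          • dciRep J g
      + LinearMap.det (galoisRepModuleEnd (K := AlgebraicClosure ℚ) ℚ E p g)
          • (1 : Module.End (ZMod p) (dciEig N p S a)) = 0 := by
  apply LinearMap.ext
  intro x
  obtain ⟨t, d, ht, hd, hrel⟩ := dch_quad_tr E hp0 J hT S hS a hr (x : JZero N)
    ⟨1, by rw [pow_one]; exact x.2.1⟩ x.2.2 g
  exact dci_CH_aux J g x _ _ t d ht hd hrel

end CH

section Main

/-- **the Boston–Lenstra–Ribet embedding for `W[p]`** (provider: helper3, `BlrMod.lean`): a
non-zero `ZMod p`-representation of `G_ℚ` on which every `g` satisfies the characteristic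
polynomial of `g` on `W[p]` contains a Galois copy of `W[p]`. -/
def DciBLR (W : WeierstrassCurve ℤ) (p : ℕ) : Prop :=
  ∀ (V : Type) [AddCommGroup V] [Module (ZMod p) V] [Nontrivial V]
    (σ : GQ →* Module.End (ZMod p) V),
    (∀ g : GQ, σ g * σ g
      - LinearMap.trace (ZMod p) _ (galoisRepModuleEnd (K := AlgebraicClosure ℚ) ℚ
          (W.map (Int.castRingHom ℚ)).toAffine p g) • σ g
      + LinearMap.det (galoisRepModuleEnd (K := AlgebraicClosure ℚ) ℚ
          (W.map (Int.castRingHom ℚ)).toAffine p g) • (1 : Module.End (ZMod p) V) = 0) →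
    ∃ f : S40hWp W p →ₗ[ZMod p] V, Function.Injective f ∧
      ∀ (g : GQ) (u : S40hWp W p), f (g • u) = σ g (f u)

/-- **the NEW-case isomorphism** from the BLR embedding. -/
theorem dci_of_blr (W : WeierstrassCurve ℤ) (hΔ : W.Δ ≠ 0) {p : ℕ} (hp : p.Prime) (hp2 : p ≠ 2)
    (M' : ℕ) [NeZero (M' * p)] (hBLR : DciBLR W p) : S40dIso W p M' := by
  intro S hS z hz0 hpz hz
  haveI : Fact p.Prime := ⟨hp⟩
  obtain ⟨J, -⟩ := exists_jacInput_faithEmb
    (fun N' p' _ hcomm => Fermat.Agent.S37.result N' p' hcomm) (M' * p) p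
  -- the Hasse package at level `p`
  have hH : HassePkg W := s58_hassePkg_all W
  haveI hfree1 := h2_free W hΔ hp hp2 1
  haveI hfin1 := h2_finite W hΔ hp hp2 1
  obtain ⟨hfree, hfin, hT, hr₀⟩ := hrs_transport (W.map (Int.castRingHom ℚ)) p (p ^ 1)
    (pow_one p) hfree1 hfin1 (h2_finrank W hΔ hp hp2 1 one_pos) (insert p (upwBad W))
    W.apOfModel (upw_chlFrob_tors W hΔ hH hp hp2 1)
  haveI := hfree
  haveI := hfin
  -- `S` contains `p`, the bad primes of `W` and the primes dividing `M' p`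
  have hpS : p ∈ S := hS p (Or.inl rfl) hp
  have hSsub : insert p (upwBad W) ⊆ S := by
    intro ℓ hℓ
    rcases Finset.mem_insert.1 hℓ with h | h
    · rw [h]; exact hpS
    · rw [upwBad, Nat.mem_primeFactors] at h
      exact hS ℓ (Or.inr (Or.inr (Int.natCast_dvd.2 h.2.1))) h.1
  have hr : ChlFrob (galoisRepModuleEnd (K := AlgebraicClosure ℚ) ℚ
      (W.map (Int.castRingHom ℚ)).toAffine p) S W.apOfModel :=
    upw_chlFrob_mono _ hSsub _ hr₀
  have hSdiv : ∀ ℓ : ℕ, ℓ.Prime → ℓ ∣ M' * p * p → ℓ ∈ S := by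
    intro ℓ hℓ hdvd
    have hp' : ℓ ∣ p → ℓ ∈ S := fun h => by
      have : ℓ = p := (Nat.prime_dvd_prime_iff_eq hℓ hp).1 h
      rw [this]; exact hpS
    rcases (Nat.Prime.dvd_mul hℓ).1 hdvd with h | h
    · rcases (Nat.Prime.dvd_mul hℓ).1 h with h' | h'
      · exact hS ℓ (Or.inr (Or.inl h')) hℓ
      · exact hp' h'
    · exact hp' h
  -- the eigenspace is non-trivial
  have hzmem : z ∈ dciEig (M' * p) p S W.apOfModel := ⟨hpz, hz⟩
  haveI : Nontrivial (dciEig (M' * p) p S W.apOfModel) :=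
    ⟨⟨⟨z, hzmem⟩, 0, fun h => hz0 (congrArg Subtype.val h)⟩⟩
  obtain ⟨f, hf, hfe⟩ := hBLR (dciEig (M' * p) p S W.apOfModel) (dciRep J)
    (fun g => dci_CH (W.map (Int.castRingHom ℚ)).toAffine hp.ne_zero J hT S hSdiv W.apOfModel hr g)
  -- the embedding into `J₀`
  let φ : S40hWp W p →+ JZero (M' * p) :=
    (dciEig (M' * p) p S W.apOfModel).subtype.comp f.toAddMonoidHom
  have hφ : Function.Injective φ := fun u v h => hf (Subtype.ext h)
  have hφmem : ∀ u, φ u ∈ dciEig (M' * p) p S W.apOfModel := fun u => (f u).2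
  refine ⟨φ.range, ?_, ⟨AddMonoidHom.ofInjective hφ, ?_⟩, ?_⟩
  · rintro x ⟨u, rfl⟩
    exact (hφmem u).1
  · intro σ P
    show φ (σ • P) = σ • φ P
    show ((f (σ • P) : dciEig (M' * p) p S W.apOfModel) : JZero (M' * p)) = σ • ((f P : dciEig (M' * p) p S W.apOfModel) : JZero (M' * p))
    rw [hfe σ P, dciRep_coe]
  · rintro ℓ hℓ x ⟨u, rfl⟩
    exact (hφmem u).2 ℓ hℓ

/-- **BLR for `W[p]`**: `blm_embed` (helper3) with the Hasse package, complex conjugation and the
irreducibility of `W[p]`. -/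
theorem dci_blr (W : WeierstrassCurve ℤ) (hΔ : W.Δ ≠ 0) {p : ℕ} (hp : p.Prime) (hp2 : p ≠ 2)
    (hirr : W.ModRepIsIrreducible p) : DciBLR W p := by
  intro V _ _ _ σ hCH
  haveI : Fact p.Prime := ⟨hp⟩
  have hH : HassePkg W := s58_hassePkg_all W
  haveI hfree1 := h2_free W hΔ hp hp2 1
  haveI hfin1 := h2_finite W hΔ hp hp2 1
  obtain ⟨hfree, hfin, hT, hr₀⟩ := hrs_transport (W.map (Int.castRingHom ℚ)) p (p ^ 1)
    (pow_one p) hfree1 hfin1 (h2_finrank W hΔ hp hp2 1 one_pos) (insert p (upwBad W))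
    W.apOfModel (upw_chlFrob_tors W hΔ hH hp hp2 1)
  haveI := hfree
  haveI := hfin
  obtain ⟨c, hc, hc1⟩ := hrs_exists_involution
  have hdet := hrs_det_involution hp2 hT
    (galoisRepModuleEnd (K := AlgebraicClosure ℚ) ℚ (W.map (Int.castRingHom ℚ)).toAffine p)
    (chl_level_tors' (W.map (Int.castRingHom ℚ)) p hp.ne_zero) (insert p (upwBad W))
    (Finset.mem_insert_self _ _) W.apOfModel hr₀ c hc hc1
  exact blm_embed (hrs_two_ne_zero hp2) hT
    (galoisRepModuleEnd (K := AlgebraicClosure ℚ) ℚ (W.map (Int.castRingHom ℚ)).toAffine p)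
    (fun N hN => hirr.2 N hN) c hc hdet σ hCH

/-- **the NEW-case isomorphism `S40dIso`** (block (D) of item 88). -/
theorem dci_main (W : WeierstrassCurve ℤ) (hΔ : W.Δ ≠ 0) {p : ℕ} (hp : p.Prime) (hp2 : p ≠ 2)
    (hirr : W.ModRepIsIrreducible p) (M' : ℕ) [NeZero (M' * p)] : S40dIso W p M' :=
  dci_of_blr W hΔ hp hp2 M' (dci_blr W hΔ hp hp2 hirr)

end Main

end Fermat.Agent.S40lib

end
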