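import Mathlib
import Fermat.Agent.S36lib.Speed
import Fermat.Agent.S40lib.Dich
import Fermat.Agent.S40lib.DictIso

/-!
# Item 88 (S40): the dictionary block (A-D), UNCONDITIONAL (helper25)

`dich_final`: `S40hDich W p M'` for every integral Weierstrass curve `W` with `Δ ≠ 0` whose
mod `p` representation is irreducible, `p` odd: `dich_main` (Dich.lean; OLD case = OldCase.lean
of helper10, eigenclass = ModTheta.lean) applied to `dci_main` (DictIso.lean of helper9, with
BlrMod.lean of helper3).  This is exactly the hypothesis `hDich` of `s40h_main`.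
-/

set_option autoImplicit false

namespace Fermat.Agent.S40lib

/-- **the dictionary `S40hDich`, unconditional**. -/
theorem dich_final (W : WeierstrassCurve ℤ) (hΔ : W.Δ ≠ 0) {p : ℕ} (hp : p.Prime) (hp2 : p ≠ 2)
    (hirr : W.ModRepIsIrreducible p) (M' : ℕ) [NeZero M'] [NeZero (M' * p)] :
    S40hDich W p M' :=
  dich_main W hΔ hp M' (dci_main W hΔ hp hp2 hirr M')

/-- the same in the exact shape of the hypothesis `hDich` of `s40h_main`. -/
theorem dich_final_all (W : WeierstrassCurve ℤ) (hΔ : W.Δ ≠ 0) {p : ℕ} (hp : p.Prime)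
    (hp2 : p ≠ 2) (hirr : W.ModRepIsIrreducible p) :
    ∀ (M' : ℕ) [NeZero M'] [NeZero (M' * p)], ¬ p ∣ M' → S40hDich W p M' :=
  fun M' _ _ _ => dich_final W hΔ hp hp2 hirr M'

end Fermat.Agent.S40lib
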