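import Mathlib
import Fermat.Agent.S36lib.Speed
import Fermat.Agent.S41lib.NonEis
import Fermat.Prelude.Def_FLTPrelim_ModularRep

/-!
# Item 88 (S40), block (NE) (helper15): the curve is not Eisenstein

`new_hnE` : the hypothesis `hnE` of `s40h_main`: if `W[p]` is irreducible (`p` odd), then for every
finite set `S` there is a prime `ℓ ∉ S` with `p ∤ a_ℓ(W) - (1 + ℓ)`.
From `S41lib.nonEisenstein` (weak Chebotarev + the trace of Frobenius).

`new_exists_good` : the same with all the properties of `ℓ` (good prime, `ℓ ≠ p`).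
-/

set_option autoImplicit false

namespace Fermat.Agent.S40lib

open WeierstrassCurve WeierstrassCurve.Affine WeierstrassCurve.Affine.Point

/-- the curve over `ℚ` of an integral model with non-zero discriminant is elliptic -/
theorem new_isElliptic (W : WeierstrassCurve ℤ) (hΔ : W.Δ ≠ 0) :
    (W.map (Int.castRingHom ℚ)).IsElliptic := by
  refine ⟨isUnit_iff_ne_zero.mpr ?_⟩
  rw [WeierstrassCurve.map_Δ]
  exact (map_ne_zero_iff _ (Int.cast_injective (α := ℚ))).mpr hΔ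

/-- **(NE)** with all the properties of the prime -/
theorem new_exists_good (W : WeierstrassCurve ℤ) (hΔ : W.Δ ≠ 0) {p : ℕ} (hp : p.Prime)
    (hp2 : p ≠ 2) (hirr : W.ModRepIsIrreducible p) (S : Finset ℕ) :
    ∃ ℓ : ℕ, ℓ.Prime ∧ ℓ ∉ S ∧ W.IsGoodPrimeFor ℓ ∧ ℓ ≠ p ∧
      ¬ (p : ℤ) ∣ W.apOfModel ℓ - (1 + (ℓ : ℕ)) := by
  haveI : (W.map (Int.castRingHom ℚ)).IsElliptic := new_isElliptic W hΔ
  have hW : W.IsIntegralModelOf (W.map (Int.castRingHom ℚ)) := ⟨1, one_smul _ _⟩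
  obtain ⟨ℓ, hℓ, hℓS, hgood, hℓp, -, hnd⟩ :=
    Fermat.Agent.S41lib.nonEisenstein (W.map (Int.castRingHom ℚ)) hW hp hp2 hirr 1 one_pos S
  refine ⟨ℓ, hℓ, hℓS, hgood, hℓp, fun h => hnd ?_⟩
  have h1 : (ℓ : ℤ) + 1 - W.apOfModel ℓ = -(W.apOfModel ℓ - (1 + (ℓ : ℕ))) := by
    push_cast
    ring
  rw [h1]
  exact (dvd_neg).mpr h

/-- **(NE)**: the hypothesis `hnE` of `s40h_main` -/
theorem new_hnE (W : WeierstrassCurve ℤ) (hΔ : W.Δ ≠ 0) {p : ℕ} (hp : p.Prime)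
    (hp2 : p ≠ 2) (hirr : W.ModRepIsIrreducible p) :
    ∀ S : Finset ℕ, ∃ ℓ : Nat.Primes, (ℓ : ℕ) ∉ S ∧
      ¬ (p : ℤ) ∣ W.apOfModel ℓ - (1 + (ℓ : ℕ)) := by
  intro S
  obtain ⟨ℓ, hℓ, hℓS, -, -, hnd⟩ := new_exists_good W hΔ hp hp2 hirr S
  exact ⟨⟨ℓ, hℓ⟩, hℓS, hnd⟩

end Fermat.Agent.S40lib
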