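import Mathlib
import Fermat.Agent.S36lib.Speed
import Fermat.Agent.S33lib.TorConc
import Fermat.Agent.S33lib.TorCoreConc

/-!
# Item 88 (S40), chain step 2: **(TOR_p+)** (helper17).  Complete proofs.

In `tas_core` (helper13, `S33lib/TorConc.lean`) the hypothesis `x ∈ s33hKI` is used ONLY through
KSAT-PAIR: "`x` has ONE Kummer function `u₀` with `u₀ ≡ 1` modulo the maximal ideals of both Gauss
valuations".  Here this property is a HYPOTHESIS:

* `TppKer2 M p hp hpM R x` : **(KER2)** the class `x` of level `M p` has a Kummer function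
  (`div u₀ = p D₀`, `[D₀] = x`) with `u₀ - 1 ∈ m_R` and `u₀ - 1 ∈ m_{R₀}`, `R₀ = glmZero R`;
* `tpp_ker2_of_mem` : classes of `s33hKI` killed by `p` satisfy (KER2) (`ksp_conc`);
* `tpp_core` : (KER2) + Kummer-new ⟹ the deep normal form
  `c · s ^ p · (1 + (ζ - 1) ^ p f)` of a Kummer function of `-x` (`= TasCore` with (KER2));
* `tpp_fixed` : **(TOR_p+)**, Kummer form, auxiliary level: (KER2) + Kummer-new + `τ₀ x = x` for
  an inertia element `τ₀` moving `μ_p` ⟹ `x = 0`;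
* `tpp_fixed_degJ` : the same with `p • x = 0`, `α_* x = β_* x = 0` (`degJAlpha`, `degJBeta`);
* `tpp_fixed_pull` : the same at an arbitrary level `M' p`, `p ∤ M'`, with (KER2) for the pull-back
  of `x` to the auxiliary level `lcm(M', baseLevel p) · p`.
-/

set_option autoImplicit false
set_option linter.style.haveILetI false
set_option linter.unusedSectionVars false
set_option linter.unusedVariables false
set_option synthInstance.maxHeartbeats 400000

noncomputable section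

namespace Fermat.Agent.S40lib

open AlgebraicCurve Fermat.Agent.GoodRed ModularCurve HahnSeries Fermat.Agent.S24lib
  Fermat.Agent.RRlib Fermat.Agent.GM Fermat.Agent.S34lib Fermat.Agent.S35lib Fermat.Agent.S36lib
  Fermat.Agent.S33lib Fermat.Agent.GalRep Fermat.Agent.HeckeBar

/-- **(KER2)**: the class `x` of level `M p` has ONE Kummer function congruent to `1` modulo the
maximal ideals of both Gauss valuations `R`, `R₀ = glmZero R`. -/
def TppKer2 (M p : ℕ) [NeZero M] [NeZero p] [NeZero (M * p)] (hp : p.Prime) (hpM : ¬ p ∣ M)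
    {A : ValuationSubring Kbar}
    (R : ConstRed A (IsLocalRing.residue A)
      (↥(modularFunctionFieldFullC (IsLocalRing.ResidueField A) M)) (FF (M * p)))
    (x : JZero (M * p)) : Prop :=
  ∃ (D : Divisor.degZero (K := Kbar) (F := FF (M * p))) (f : FF (M * p)), Pic0.mk D = x ∧ f ≠ 0 ∧
    (∀ v : Place Kbar (FF (M * p)), (p : ℤ) * (D : Divisor Kbar (FF (M * p))) v = v.ord f) ∧
      f - 1 ∈ R.O.nonunits ∧ f - 1 ∈ (glmZero M p hp hpM R).O.nonunits

section Main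

variable (M p : ℕ) [NeZero M] [NeZero p] [NeZero (M * p)] (hp : p.Prime)

/-- the classes of `s33hKI` killed by `p` satisfy (KER2) (KSAT-PAIR, helper19) -/
theorem tpp_ker2_of_mem (hpM : ¬ p ∣ M) {A : ValuationSubring Kbar} (hA : A.LiesOverPrime p)
    (R : ConstRed A (IsLocalRing.residue A)
      (↥(modularFunctionFieldFullC (IsLocalRing.ResidueField A) M)) (FF (M * p)))
    (hR : IsSeriesRed R) (x : JZero (M * p)) (hx : x ∈ s33hKI (M * p) p A) (hpx : p • x = 0) :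
    TppKer2 M p hp hpM R x := by
  haveI : Fact p.Prime := ⟨hp⟩
  haveI : IsAlgClosed (IsLocalRing.ResidueField A) := isAlgClosed_residueField A
  haveI : RRHyp (IsLocalRing.ResidueField A)
      (↥(modularFunctionFieldFullC (IsLocalRing.ResidueField A) M)) :=
    mr_rrHyp (IsLocalRing.ResidueField A) M
  have hne := vk_O_ne M p hp hpM hR hA
  exact ksp_conc (M * p) p hp (dvd_mul_left p M) (inf_not_sq_dvd M p hp hpM) A hA R hR hne x hx hpx

set_option maxHeartbeats 2000000 in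
/-- **the core with (KER2)**: a class `x` of the auxiliary level `M p` with (KER2) and a
Kummer-new Kummer function has a Kummer function of `-x` of the form
`c · s ^ p · (1 + (ζ - 1) ^ p f)`, `f ∈ O_R ∩ O_{R₀}` regular outside the two cusps. -/
theorem tpp_core [RRHyp Kbar (FF (M * p))] (hp2 : p ≠ 2) (haux : IsAuxLevel p M)
    {A : ValuationSubring Kbar}
    (hA : A.LiesOverPrime p)
    (R : ConstRed A (IsLocalRing.residue A)
      (↥(modularFunctionFieldFullC (IsLocalRing.ResidueField A) M)) (FF (M * p)))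
    (hR : IsSeriesRed R) {ζ : Kbar} (hζ : IsPrimitiveRoot ζ p)
    (x : JZero (M * p)) (u : FF (M * p)) (hker : TppKer2 M p hp haux.1 R x)
    (hk : gdfIsKummer (K := Kbar) p x u) (hnew : IsKummerNew M p p u) :
    ∃ (c : Kbar) (s f : FF (M * p)), c ≠ 0 ∧ s ≠ 0 ∧
      f ∈ cxiB (infPlaceBar (M * p))
        (cuspZero (M * p) p hp (dvd_mul_left p M) (inf_not_sq_dvd M p hp haux.1)) ∧
      f ∈ R.O ∧ f ∈ (glmZero M p hp haux.1 R).O ∧
      gdfIsKummer (K := Kbar) p (-x)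
        (algebraMap Kbar (FF (M * p)) c * s ^ p *
          (1 + algebraMap Kbar (FF (M * p)) ((ζ - 1) ^ p) * f)) := by
  have hpM : ¬ p ∣ M := haux.1
  haveI : Fact p.Prime := ⟨hp⟩
  haveI : CharP (IsLocalRing.ResidueField A) p := charP_residueField hA
  haveI : IsAlgClosed (IsLocalRing.ResidueField A) := isAlgClosed_residueField A
  haveI : RRHyp (IsLocalRing.ResidueField A)
      (↥(modularFunctionFieldFullC (IsLocalRing.ResidueField A) M)) :=
    mr_rrHyp (IsLocalRing.ResidueField A) M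
  obtain ⟨D₀, u₀, hD₀x, hu₀0, hu₀div, hu₀1, hu₀2⟩ := hker
  obtain ⟨G, a₁, n₂, D₂, f, finv, hGn, hyp, hc⟩ := glbc_exists_cusp M p hp hpM haux hA hR
  classical
  obtain ⟨H, hHI, hHfin, hHζ, hHconj, hHF, hHD, hHX⟩ :=
    sfn_main (M * p) A hp.ne_zero hζ {u₀}
      {D₂, cuspDiv (M * p) p hp (dvd_mul_left p M) (inf_not_sq_dvd M p hp hpM) 1 1,
        (D₀ : Divisor Kbar (FF (M * p)))} ∅
  obtain ⟨ϖ, hd, e, he0, he⟩ := lvv_vdDisc_fixedField A hp hA H hHfin
  have hK' : ∀ c : Kbar, c ∈ IntermediateField.fixedField H ↔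
      ∀ σ ∈ (H : Set (Kbar ≃ₐ[ℚ] Kbar)), σ c = c :=
    fun c => IntermediateField.mem_fixedField_iff H c
  have hK0 : k0Field A ≤ IntermediateField.fixedField H := lvv_k0Field_le A H hHI
  have hHI' : ∀ σ ∈ (H : Set (Kbar ≃ₐ[ℚ] Kbar)), σ ∈ A.inertiaSubgroupIn ℚ := fun σ hσ => hHI hσ
  obtain ⟨R', r, hR', -, -, hgen⟩ := liftInf_exists_red M A p haux hA
  have hkroot : ∀ c : IsLocalRing.ResidueField A, ∃ d : IsLocalRing.ResidueField A, d ^ p = c :=
    fun c => IsAlgClosed.exists_pow_nat_eq c hp.pos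
  -- `lam = ζ - 1`
  have hζA : ζ ∈ A := rin_zeta_mem' A hp.ne_zero hζ.pow_eq_one
  have hlam0 : ζ - 1 ≠ 0 := rdl_hlam0 hp hζ
  have hlam : ζ - 1 ∈ A.nonunits := rdl_hlamA hp hA hζ
  have hlamv : A.valuation ((p : ℕ) : Kbar) = A.valuation (ζ - 1) ^ (p - 1) :=
    tas_val_p A hlam (rpw_p_eq hp hζ A hζA)
  have hlam1 : ζ - 1 ∈ IntermediateField.fixedField H := by
    rw [hK']
    intro σ hσ
    rw [map_sub, map_one, hHζ σ hσ]
  -- stability
  have hD₂ : ∀ σ ∈ (H : Set (Kbar ≃ₐ[ℚ] Kbar)), galFF (M * p) σ • D₂ = D₂ :=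
    fun σ hσ => hHD σ hσ _ (by simp)
  have hEH : ∀ σ ∈ (H : Set (Kbar ≃ₐ[ℚ] Kbar)), galFF (M * p) σ •
      (D₀ : Divisor Kbar (FF (M * p))) = (D₀ : Divisor Kbar (FF (M * p))) :=
    fun σ hσ => hHD σ hσ _ (by simp)
  have huH : u₀ ∈ fixedLBC (H : Set (Kbar ≃ₐ[ℚ] Kbar)) (modularFunctionFieldFull (M * p)) :=
    fun σ hσ => hHF σ hσ u₀ (by simp)
  have hE : Divisor.degree (D₀ : Divisor Kbar (FF (M * p))) = 0 := D₀.2
  have hdiv : ∀ v : Place Kbar (FF (M * p)),
      v.ord u₀ = p * (D₀ : Divisor Kbar (FF (M * p))) v := fun v => (hu₀div v).symm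
  -- Kummer-new
  have hk₀ : gdfIsKummer (K := Kbar) p x u₀ := gdf_isKummer_of_ord hu₀0 D₀ hD₀x hu₀div
  have hnew₀ : IsKummerNew M p p u₀ := by
    obtain ⟨c, w, -, -, hcw⟩ := gdf_isKummer_unique hk hk₀
    rw [hcw]
    exact tas_isKummerNew_mul_pow hnew c w
  -- the deep normal form (`tcc_deep` = `tcr_deep` + `stk_hstep_conc`)
  obtain ⟨s, c₀, g, hs, hc₀, hgH, ⟨b, hgL⟩, hg₁, hg₂, hrel⟩ :=
    tcc_deep M p hp hpM hp2 hA hkroot R' hR' R hR hyp hc hHI' hK' hK0 hd hD₂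
      (le_refl a₁) (Nat.le_mul_of_pos_right a₁ hc.n₂_pos) (D₀ : Divisor Kbar (FF (M * p))) hE hEH
      u₀ huH hu₀1 hu₀2 hdiv hnew₀ hlam1 hlam0 hlam hlamv
  -- the conclusion
  have hP : infPlaceBar (M * p) ≠
      cuspZero (M * p) p hp (dvd_mul_left p M) (inf_not_sq_dvd M p hp hpM) :=
    ac_infPlaceBar_ne_cuspZero _ _ _
  have hgB : g ∈ cxiB (infPlaceBar (M * p))
      (cuspZero (M * p) p hp (dvd_mul_left p M) (inf_not_sq_dvd M p hp hpM)) := by
    rw [cuspDiv_one_one] at hgL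
    exact (glb_mem_B0_iff_cxiB hP g).mp ⟨b, hgL⟩
  refine ⟨c₀, 1, g, hc₀, one_ne_zero, hgB, hg₁, hg₂, ?_⟩
  have h1 := gdf_isKummer_mul_pow (gdf_isKummer_neg hk₀) (c := (1 : Kbar)) one_ne_zero hs
  have h2 : algebraMap Kbar (FF (M * p)) 1 * s ^ p * u₀⁻¹
      = algebraMap Kbar (FF (M * p)) c₀ * 1 ^ p *
        (1 + algebraMap Kbar (FF (M * p)) ((ζ - 1) ^ p) * g) := by
    rw [map_one, one_mul, one_pow, mul_one (algebraMap Kbar (FF (M * p)) c₀),
      mul_comm (s ^ p) u₀⁻¹, hrel]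
  rw [h2] at h1
  exact h1

/-- **(TOR_p+)**, Kummer form, at the auxiliary level `M p`: a class with (KER2) and a Kummer-new
Kummer function, fixed by an inertia element which moves `μ_p`, is zero. -/
theorem tpp_fixed [RRHyp Kbar (FF (M * p))] (hp2 : p ≠ 2) (haux : IsAuxLevel p M)
    {A : ValuationSubring Kbar}
    (hA : A.LiesOverPrime p)
    (R : ConstRed A (IsLocalRing.residue A)
      (↥(modularFunctionFieldFullC (IsLocalRing.ResidueField A) M)) (FF (M * p)))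
    (hR : IsSeriesRed R)
    (x : JZero (M * p)) (u : FF (M * p)) (hker : TppKer2 M p hp haux.1 R x)
    (hk : gdfIsKummer (K := Kbar) p x u) (hnew : IsKummerNew M p p u)
    (τ₀ : Kbar ≃ₐ[ℚ] Kbar) (hτ₀ : τ₀ ∈ A.inertiaSubgroupIn ℚ) (hmv : S33hMoves p τ₀)
    (hfix : τ₀ • x = x) : x = 0 := by
  haveI : Fact p.Prime := ⟨hp⟩
  have hpM : ¬ p ∣ M := haux.1
  obtain ⟨ζ, hζ⟩ := HasEnoughRootsOfUnity.exists_primitiveRoot Kbar p
  obtain ⟨c, s, f, hc, hs, hfB, hf₁, hf₂, hk'⟩ :=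
    tpp_core M p hp hp2 haux hA R hR hζ x u hker hk hnew
  obtain ⟨-, D', hD'x, hD'⟩ := hk'
  have hfix' : τ₀ • (-x) = -x := by rw [smul_neg, hfix]
  have h0 : -x = 0 :=
    r2n_fixed_J M p hp hpM haux hA hζ hR τ₀ hτ₀ hmv c hc s hs f hfB hf₁ hf₂ D' hD' hD'x hfix'
  exact neg_eq_zero.mp h0

/-- **(TOR_p+)** at the auxiliary level `M p` for the `p`-new classes of order `p`. -/
theorem tpp_fixed_degJ (hp2 : p ≠ 2) (haux : IsAuxLevel p M) {A : ValuationSubring Kbar}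
    (hA : A.LiesOverPrime p)
    (R : ConstRed A (IsLocalRing.residue A)
      (↥(modularFunctionFieldFullC (IsLocalRing.ResidueField A) M)) (FF (M * p)))
    (hR : IsSeriesRed R)
    (x : JZero (M * p)) (hpx : p • x = 0) (hker : TppKer2 M p hp haux.1 R x)
    (hα : degJAlpha M p x = 0) (hβ : degJBeta M p x = 0)
    (τ₀ : Kbar ≃ₐ[ℚ] Kbar) (hτ₀ : τ₀ ∈ A.inertiaSubgroupIn ℚ) (hmv : S33hMoves p τ₀)
    (hfix : τ₀ • x = x) : x = 0 := by
  haveI : RRHyp Kbar (FF (M * p)) := mod_rrHyp (M * p)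
  obtain ⟨D, rfl⟩ := Pic0.mk_surjective x
  obtain ⟨u, hu0, hDu⟩ := tax_exists_kummer (M * p) p D hpx
  have hnew : IsKummerNew M p p u := isKummerNew_of_degJ_eq_zero M D p hu0 hDu hα hβ
  have hk : gdfIsKummer (K := Kbar) p (Pic0.mk D : JZero (M * p)) u :=
    gdf_isKummer_of_ord hu0 D rfl hDu
  exact tpp_fixed M p hp hp2 haux hA R hR _ u hker hk hnew τ₀ hτ₀ hmv hfix

end Main

section Descent

/-- **(TOR_p+), descent**: at an arbitrary level `M' p` (`p ∤ M`, `M' ∣ M`, `M` auxiliary,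
`M p = M' p e`, `ψ(M p) < 2 e ψ(M' p)`): a `p`-new class `x` of order `p` of level `M' p`, fixed by
an inertia element moving `μ_p`, whose PULL-BACK to the level `M p` satisfies (KER2), is zero. -/
theorem tpp_fixed_descent (M' M p e : ℕ) [NeZero M'] [NeZero M] [NeZero p] [NeZero (M' * p)]
    [NeZero (M * p)] (hp : p.Prime) (hp2 : p ≠ 2) (haux : IsAuxLevel p M) (hdvd : M' ∣ M)
    (hM : M * p = M' * p * e)
    (hdeg : dedekindPsi (M * p) < 2 * e * dedekindPsi (M' * p))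
    {A : ValuationSubring Kbar} (hA : A.LiesOverPrime p)
    (R : ConstRed A (IsLocalRing.residue A)
      (↥(modularFunctionFieldFullC (IsLocalRing.ResidueField A) M)) (FF (M * p)))
    (hR : IsSeriesRed R)
    (x : JZero (M' * p)) (hpx : p • x = 0)
    (hker : TppKer2 M p hp haux.1 R
      (auxLevelPull (M' * p) (M * p) (Nat.mul_dvd_mul_right hdvd p) x))
    (hα : degJAlpha M' p x = 0) (hβ : degJBeta M' p x = 0)
    (τ₀ : Kbar ≃ₐ[ℚ] Kbar) (hτ₀ : τ₀ ∈ A.inertiaSubgroupIn ℚ) (hmv : S33hMoves p τ₀)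
    (hfix : τ₀ • x = x) : x = 0 := by
  haveI : RRHyp Kbar (FF (M * p)) := mod_rrHyp (M * p)
  have hpM : ¬ p ∣ M := haux.1
  obtain ⟨D, rfl⟩ := Pic0.mk_surjective x
  obtain ⟨u, hu0, hDu⟩ := tax_exists_kummer (M' * p) p D hpx
  have hdiv : ∀ P : Place Kbar (FF (M' * p)), (p : ℤ) ∣ P.ord u := fun P => ⟨_, (hDu P).symm⟩
  have hnew : IsKummerNew M' p p u := isKummerNew_of_degJ_eq_zero M' D p hu0 hDu hα hβ
  have hNM : M' * p ∣ M * p := Nat.mul_dvd_mul_right hdvd p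
  have hιu : inclBar (M' * p) (M * p) hNM u ≠ 0 := (map_ne_zero _).2 hu0
  haveI : HasPrincipalDivisors Kbar (FF (M * p)) := wir_hasPrincipalDivisors (M * p)
  -- the pulled-back Kummer pair
  have hk : gdfIsKummer (K := Kbar) p (auxLevelPull (M' * p) (M * p) hNM (Pic0.mk D))
      (inclBar (M' * p) (M * p) hNM u) :=
    gdf_isKummer_of_ord hιu
      (auxPullDegZero (inclBar (M' * p) (M * p) hNM) (isIntegral_inclBar (M' * p) (M * p) hNM)
        (aux_fundId_incl (M' * p) (M * p) hNM) D)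
      (tax_pull_mk (M' * p) (M * p) hNM D).symm
      (tax_pull_ord (M' * p) (M * p) hNM p D u hDu)
  have hx0 : auxLevelPull (M' * p) (M * p) hNM (Pic0.mk D) = 0 :=
    tpp_fixed M p hp hp2 haux hA R hR _ (inclBar (M' * p) (M * p) hNM u) hker hk
      (dk_isKummerNew_incl M' M p hp hpM hdvd p u hnew) τ₀ hτ₀ hmv
      (by
        have := congrArg (auxLevelPull (M' * p) (M * p) hNM) hfix
        rwa [auxLevelPull_smul] at this)
  obtain ⟨c, s, -, -, hcs⟩ := (gdf_isKummer_zero_iff hp.ne_zero hk).mp hx0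
  obtain ⟨g₀, c₀, h0⟩ := Fermat.Agent.S18lib.exists_root_of_inclBar (M' * p) (M * p) e hM hdeg
    p hp.pos u hu0 hdiv s c hcs
  exact tax_mk_eq_zero (M' * p) p hp.ne_zero D u hu0 hDu c₀ g₀ h0

end Descent

end Fermat.Agent.S40lib

end
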