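import Mathlib
import Fermat.Agent.S36lib.Speed
import Fermat.Agent.S40lib.TorPlus
import Fermat.Agent.S40lib.Final2
import Fermat.Agent.S40lib.GeomOmega
import Fermat.Agent.S33lib.CycSpec

/-!
# Item 88 (S40): (TOR_p+) in the `ω`-form and the `I₁`-form = provider of `S40hI1Fix`; the
J-side block (G-ω); the reduction of (G-peu) to (KER2) (helper17).  Complete proofs.

* `tpp_I1` : **`S40hI1Fix M' p B`** (the hypothesis of helper6's `s40h_geom_omega`), for every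
  odd prime `p`, every level `M'` prime to `p` and every `B` over `p`;

* `tpp_omega` : (KER2) + `p`-new at the auxiliary level ⟹ EVERY inertia element `τ` acts on `x`
  by the mod `p` cyclotomic character (`tpp_core` + `r2n_conc_J`);
* `gom_pull_inj` : the pull-back to the auxiliary level is injective on the classes of order `p`;
* `tpp_omega_descent` : the same at every level `M' p`, `p ∤ M'` ((KER2) for the pull-back);
* `gom_new_of_notAt` : `S40hEig` + `S40hNotAt` (`p ∈ S`) ⟹ `α_* = β_* = 0` on `V`;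
* `gom_omega` : **(G-ω)** in the form of `S40hGeom` (first half): a non-zero `V ⊂ J₀(M' p)[p]`,
  inertia-stable eigenspace whose eigensystem does not occur at level `M'`, contains `x ≠ 0` fixed
  by `S40hI1 p B` (the inertia elements fixing `μ_p`);
* `gom_peu_of_ker2` : **(G-peu)** (second half of `S40hGeom`) from the ONE open statement
  "`PP (S40hStab x)` ⟹ (KER2) for the pull-back of `x`";
* `gom_geom_of_ker2` : `S40hGeom M' p B PP` (with `p ∈ S`) from that statement.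
-/

set_option autoImplicit false
set_option linter.style.haveILetI false
set_option linter.unusedSectionVars false
set_option linter.unusedVariables false
set_option synthInstance.maxHeartbeats 400000

noncomputable section

namespace Fermat.Agent.S40lib

open AlgebraicCurve Fermat.Agent.GoodRed ModularCurve HahnSeries Fermat.Agent.S24lib
  Fermat.Agent.RRlib Fermat.Agent.GM Fermat.Agent.S34lib Fermat.Agent.S35lib Fermat.Agent.S36lib
  Fermat.Agent.S33lib Fermat.Agent.GalRep Fermat.Agent.HeckeBar Fermat.Agent.S31lib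

/-- the mod `p` cyclotomic character is `1` on the elements fixing `μ_p` -/
theorem gom_cyc_one (p : ℕ) [Fact p.Prime] (τ : GQ)
    (h : ∀ ζ : AlgebraicClosure ℚ, ζ ^ p = 1 → τ ζ = ζ) :
    (((cycChi p 1 τ : (ZMod (p ^ 1))ˣ) : ZMod (p ^ 1)).val) = 1 := by
  have h1 : cycChi p 1 τ = 1 := by
    by_contra hne
    obtain ⟨ζ, hζ, hmv⟩ := (cysp_moves_iff p τ).2 hne
    exact hmv (h ζ hζ)
  haveI : Fact (1 < p ^ 1) := ⟨by rw [pow_one]; exact (Fact.out : p.Prime).one_lt⟩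
  rw [h1, Units.val_one, ZMod.val_one]

section Aux

variable (M p : ℕ) [NeZero M] [NeZero p] [NeZero (M * p)] (hp : p.Prime)

/-- **(TOR_p+), `ω`-form**, auxiliary level: on a `p`-new class of order `p` with (KER2) every
inertia element acts by the mod `p` cyclotomic character. -/
theorem tpp_omega [Fact p.Prime] (hp2 : p ≠ 2) (haux : IsAuxLevel p M)
    {A : ValuationSubring Kbar} (hA : A.LiesOverPrime p)
    (R : ConstRed A (IsLocalRing.residue A)
      (↥(modularFunctionFieldFullC (IsLocalRing.ResidueField A) M)) (FF (M * p)))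
    (hR : IsSeriesRed R)
    (x : JZero (M * p)) (hpx : p • x = 0) (hker : TppKer2 M p hp haux.1 R x)
    (hα : degJAlpha M p x = 0) (hβ : degJBeta M p x = 0)
    (τ : Kbar ≃ₐ[ℚ] Kbar) (hτ : τ ∈ A.inertiaSubgroupIn ℚ) :
    τ • x = (((cycChi p 1 τ : (ZMod (p ^ 1))ˣ) : ZMod (p ^ 1)).val) • x := by
  haveI : RRHyp Kbar (FF (M * p)) := mod_rrHyp (M * p)
  have hpM : ¬ p ∣ M := haux.1
  obtain ⟨D, rfl⟩ := Pic0.mk_surjective x
  obtain ⟨u, hu0, hDu⟩ := tax_exists_kummer (M * p) p D hpx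
  have hnew : IsKummerNew M p p u := isKummerNew_of_degJ_eq_zero M D p hu0 hDu hα hβ
  have hk : gdfIsKummer (K := Kbar) p (Pic0.mk D : JZero (M * p)) u :=
    gdf_isKummer_of_ord hu0 D rfl hDu
  obtain ⟨ζ, hζ⟩ := HasEnoughRootsOfUnity.exists_primitiveRoot Kbar p
  obtain ⟨c, s, f, hc, hs, hfB, hf₁, hf₂, hk'⟩ :=
    tpp_core M p hp hp2 haux hA R hR hζ _ u hker hk hnew
  obtain ⟨-, D', hD'x, hD'⟩ := hk'
  have h1 := r2n_conc_J M p hp hpM haux hA hζ hR τ hτ c hc s hs f hfB hf₁ hf₂ D' hD' hD'x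
  rw [smul_neg, neg_nsmul] at h1
  exact neg_injective h1

end Aux

section Descent

variable (M' M p e : ℕ) [NeZero M'] [NeZero M] [NeZero p] [NeZero (M' * p)] [NeZero (M * p)]

/-- the pull-back to the level `M p` is injective on the classes of order `p` of level `M' p`
(`M p = M' p e`, `ψ(M p) < 2 e ψ(M' p)`). -/
theorem gom_pull_inj (hp : p.Prime) (hdvd : M' ∣ M) (hM : M * p = M' * p * e)
    (hdeg : dedekindPsi (M * p) < 2 * e * dedekindPsi (M' * p))
    (x : JZero (M' * p)) (hpx : p • x = 0)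
    (h0 : auxLevelPull (M' * p) (M * p) (Nat.mul_dvd_mul_right hdvd p) x = 0) : x = 0 := by
  haveI : RRHyp Kbar (FF (M * p)) := mod_rrHyp (M * p)
  obtain ⟨D, rfl⟩ := Pic0.mk_surjective x
  obtain ⟨u, hu0, hDu⟩ := tax_exists_kummer (M' * p) p D hpx
  have hdiv : ∀ P : Place Kbar (FF (M' * p)), (p : ℤ) ∣ P.ord u := fun P => ⟨_, (hDu P).symm⟩
  have hNM : M' * p ∣ M * p := Nat.mul_dvd_mul_right hdvd p
  have hιu : inclBar (M' * p) (M * p) hNM u ≠ 0 := (map_ne_zero _).2 hu0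
  haveI : HasPrincipalDivisors Kbar (FF (M * p)) := wir_hasPrincipalDivisors (M * p)
  have hk : gdfIsKummer (K := Kbar) p (auxLevelPull (M' * p) (M * p) hNM (Pic0.mk D))
      (inclBar (M' * p) (M * p) hNM u) :=
    gdf_isKummer_of_ord hιu
      (auxPullDegZero (inclBar (M' * p) (M * p) hNM) (isIntegral_inclBar (M' * p) (M * p) hNM)
        (aux_fundId_incl (M' * p) (M * p) hNM) D)
      (tax_pull_mk (M' * p) (M * p) hNM D).symm
      (tax_pull_ord (M' * p) (M * p) hNM p D u hDu)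
  obtain ⟨c, s, -, -, hcs⟩ := (gdf_isKummer_zero_iff hp.ne_zero hk).mp h0
  obtain ⟨g₀, c₀, hg⟩ := Fermat.Agent.S18lib.exists_root_of_inclBar (M' * p) (M * p) e hM hdeg
    p hp.pos u hu0 hdiv s c hcs
  exact tax_mk_eq_zero (M' * p) p hp.ne_zero D u hu0 hDu c₀ g₀ hg

/-- **(TOR_p+), `ω`-form**, at the level `M' p`: on a `p`-new class of order `p` whose pull-back
to the auxiliary level `M p` satisfies (KER2) every inertia element acts by the mod `p`
cyclotomic character. -/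
theorem tpp_omega_descent [Fact p.Prime] (hp : p.Prime) (hp2 : p ≠ 2) (haux : IsAuxLevel p M)
    (hdvd : M' ∣ M) (hM : M * p = M' * p * e)
    (hdeg : dedekindPsi (M * p) < 2 * e * dedekindPsi (M' * p))
    {A : ValuationSubring Kbar} (hA : A.LiesOverPrime p)
    (R : ConstRed A (IsLocalRing.residue A)
      (↥(modularFunctionFieldFullC (IsLocalRing.ResidueField A) M)) (FF (M * p)))
    (hR : IsSeriesRed R)
    (x : JZero (M' * p)) (hpx : p • x = 0)
    (hker : TppKer2 M p hp haux.1 R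
      (auxLevelPull (M' * p) (M * p) (Nat.mul_dvd_mul_right hdvd p) x))
    (hα : degJAlpha M' p x = 0) (hβ : degJBeta M' p x = 0)
    (τ : Kbar ≃ₐ[ℚ] Kbar) (hτ : τ ∈ A.inertiaSubgroupIn ℚ) :
    τ • x = (((cycChi p 1 τ : (ZMod (p ^ 1))ˣ) : ZMod (p ^ 1)).val) • x := by
  have hpM : ¬ p ∣ M := haux.1
  have hNM : M' * p ∣ M * p := Nat.mul_dvd_mul_right hdvd p
  -- the pull-back is `p`-new
  obtain ⟨D, rfl⟩ := Pic0.mk_surjective x
  obtain ⟨u, hu0, hDu⟩ := tax_exists_kummer (M' * p) p D hpx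
  have hnew : IsKummerNew M' p p u := isKummerNew_of_degJ_eq_zero M' D p hu0 hDu hα hβ
  haveI : RRHyp Kbar (FF (M * p)) := mod_rrHyp (M * p)
  haveI : HasPrincipalDivisors Kbar (FF (M * p)) := wir_hasPrincipalDivisors (M * p)
  have hιu : inclBar (M' * p) (M * p) hNM u ≠ 0 := (map_ne_zero _).2 hu0
  have hk : gdfIsKummer (K := Kbar) p (auxLevelPull (M' * p) (M * p) hNM (Pic0.mk D))
      (inclBar (M' * p) (M * p) hNM u) :=
    gdf_isKummer_of_ord hιu
      (auxPullDegZero (inclBar (M' * p) (M * p) hNM) (isIntegral_inclBar (M' * p) (M * p) hNM)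
        (aux_fundId_incl (M' * p) (M * p) hNM) D)
      (tax_pull_mk (M' * p) (M * p) hNM D).symm
      (tax_pull_ord (M' * p) (M * p) hNM p D u hDu)
  have hnew' := dk_isKummerNew_incl M' M p hp hpM hdvd p u hnew
  obtain ⟨ζ, hζ⟩ := HasEnoughRootsOfUnity.exists_primitiveRoot Kbar p
  obtain ⟨c, s, f, hc, hs, hfB, hf₁, hf₂, hk'⟩ :=
    tpp_core M p hp hp2 haux hA R hR hζ _ _ hker hk hnew'
  obtain ⟨-, D', hD'x, hD'⟩ := hk'
  have h1 := r2n_conc_J M p hp hpM haux hA hζ hR τ hτ c hc s hs f hfB hf₁ hf₂ D' hD' hD'x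
  rw [smul_neg, neg_nsmul] at h1
  have h2 := neg_injective h1
  -- descend
  set n : ℕ := (((cycChi p 1 τ : (ZMod (p ^ 1))ˣ) : ZMod (p ^ 1)).val) with hn
  have h3 : auxLevelPull (M' * p) (M * p) hNM (τ • (Pic0.mk D : JZero (M' * p))
      - n • (Pic0.mk D : JZero (M' * p))) = 0 := by
    rw [map_sub, map_nsmul, auxLevelPull_smul, h2, sub_self]
  have h4 : p • (τ • (Pic0.mk D : JZero (M' * p)) - n • (Pic0.mk D : JZero (M' * p))) = 0 := by
    have h5 : p • (τ • (Pic0.mk D : JZero (M' * p))) = 0 := by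
      have h6 := map_nsmul (DistribSMul.toAddMonoidHom (JZero (M' * p)) τ) p
        (Pic0.mk D : JZero (M' * p))
      rw [hpx, map_zero] at h6
      exact h6.symm
    have h7 : p • (n • (Pic0.mk D : JZero (M' * p))) = 0 := by
      rw [← mul_nsmul, mul_comm n p, mul_nsmul, hpx, nsmul_zero]
    rw [nsmul_sub, h5, h7, sub_zero]
  exact sub_eq_zero.mp (gom_pull_inj M' M p e hp hdvd hM hdeg _ h4 h3)

end Descent

section Geom

variable (M' p : ℕ) [NeZero M'] [NeZero p] [NeZero (M' * p)]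

/-- `S40hEig` + `S40hNotAt` (`p ∈ S`) ⟹ the classes of `V` are `p`-new. -/
theorem gom_new_of_notAt (hp : p.Prime) (S : Finset ℕ) (hpS : p ∈ S) (a : ℕ → ℤ)
    (V : AddSubgroup (JZero (M' * p))) (hVp : ∀ x ∈ V, p • x = 0)
    (hEig : S40hEig (M' * p) S a V) (hNot : S40hNotAt M' p S a)
    (hpM' : ¬ p ∣ M') (x : JZero (M' * p)) (hx : x ∈ V) :
    degJAlpha M' p x = 0 ∧ degJBeta M' p x = 0 := by
  constructor
  · apply hNot
    · rw [← map_nsmul, hVp x hx, map_zero]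
    · intro ℓ hℓ
      have hne : (ℓ : ℕ) ≠ p := fun h => hℓ (h ▸ hpS)
      rw [← degJAlpha_heckeOperatorBar M' hp ℓ hne x, hEig ℓ hℓ x hx, map_zsmul]
  · apply hNot
    · rw [← map_nsmul, hVp x hx, map_zero]
    · intro ℓ hℓ
      have hne : (ℓ : ℕ) ≠ p := fun h => hℓ (h ▸ hpS)
      rw [← degJBeta_heckeOperatorBar M' hp hpM' ℓ hne x, hEig ℓ hℓ x hx, map_zsmul]

end Geom

section Main

variable (M' p : ℕ) [NeZero M'] [NeZero p] [NeZero (M' * p)]

/-- the auxiliary level above `M'`: `M = lcm(M', baseLevel p)` -/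
theorem gom_aux_data (hp : p.Prime) (hpM' : ¬ p ∣ M') :
    ∃ (M e : ℕ) (_ : NeZero M) (_ : NeZero (M * p)), M' ∣ M ∧ IsAuxLevel p M ∧
      M * p = M' * p * e ∧ dedekindPsi (M * p) < 2 * e * dedekindPsi (M' * p) := by
  obtain ⟨e, hlcm, hdeg, haux⟩ := Fermat.Agent.S18lib.dedekindPsi_lcm_lt M' p hp hpM'
  have hN0 : M' ≠ 0 := NeZero.ne M'
  have hM0 : Nat.lcm M' (baseLevel p) ≠ 0 := by
    intro h0
    rw [h0] at haux
    exact haux.1 (dvd_zero p)
  have hMp0 : Nat.lcm M' (baseLevel p) * p ≠ 0 := Nat.mul_ne_zero hM0 hp.ne_zero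
  refine ⟨Nat.lcm M' (baseLevel p), e, ⟨hM0⟩, ⟨hMp0⟩, Nat.dvd_lcm_left _ _, haux, ?_, ?_⟩
  · rw [hlcm]
    ring
  · rw [mul_comm (Nat.lcm M' (baseLevel p)) p, mul_comm M' p,
      Fermat.Agent.S20lib.dedekindPsi_prime_mul_of_not_dvd hp hM0 haux.1,
      Fermat.Agent.S20lib.dedekindPsi_prime_mul_of_not_dvd hp hN0 hpM']
    have hq1 : 0 < p + 1 := Nat.succ_pos p
    calc (p + 1) * dedekindPsi (Nat.lcm M' (baseLevel p))
        < (p + 1) * (2 * e * dedekindPsi M') := Nat.mul_lt_mul_of_pos_left hdeg hq1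
      _ = 2 * e * ((p + 1) * dedekindPsi M') := by ring

/-- **(TOR_p+), `ω`-form, for the classes of `s33hKI`** at the level `M' p`: on a `p`-new class
of order `p` of `s33hKI` every inertia element acts by the mod `p` cyclotomic character. -/
theorem gom_omega_of_mem [Fact p.Prime] (hp : p.Prime) (hp2 : p ≠ 2) (hpM' : ¬ p ∣ M')
    {B : ValuationSubring Kbar} (hB : B.LiesOverPrime p)
    (x : JZero (M' * p)) (hpx : p • x = 0) (hxKI : x ∈ s33hKI (M' * p) p B)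
    (hα : degJAlpha M' p x = 0) (hβ : degJBeta M' p x = 0)
    (τ : Kbar ≃ₐ[ℚ] Kbar) (hτ : τ ∈ B.inertiaSubgroupIn ℚ) :
    τ • x = (((cycChi p 1 τ : (ZMod (p ^ 1))ˣ) : ZMod (p ^ 1)).val) • x := by
  obtain ⟨M, e, hM0, hMp0, hdvd, haux, hM, hdeg⟩ := gom_aux_data M' p hp hpM'
  obtain ⟨R, hR⟩ := exists_constRedInf_aux M p hp haux.1 B hB
  have hNM : M' * p ∣ M * p := Nat.mul_dvd_mul_right hdvd p
  have hker : TppKer2 M p hp haux.1 R (auxLevelPull (M' * p) (M * p) hNM x) := by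
    refine tpp_ker2_of_mem M p hp haux.1 hB R hR _ (tax_pull_mem (M' * p) (M * p) hNM p B x hxKI) ?_
    rw [← map_nsmul, hpx, map_zero]
  exact tpp_omega_descent M' M p e hp hp2 haux hdvd hM hdeg hB R hR x hpx hker hα hβ τ hτ

/-- **(TOR_p+), `I₁`-form** = `S40hI1Fix`: at every level `M' p` (`p` odd, `p ∤ M'`) the `p`-new
classes of order `p` in `s33hKI` are fixed by the inertia elements which fix `μ_p`. -/
theorem tpp_I1 (hp : p.Prime) (hp2 : p ≠ 2) (hpM' : ¬ p ∣ M')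
    {B : ValuationSubring Kbar} (hB : B.LiesOverPrime p) : S40hI1Fix M' p B := by
  haveI : Fact p.Prime := ⟨hp⟩
  intro x hpx hxKI hα hβ τ hτ
  have h1 := gom_omega_of_mem M' p hp hp2 hpM' hB x hpx hxKI hα hβ τ hτ.1
  rw [gom_cyc_one p τ hτ.2, one_nsmul] at h1
  exact h1

/-- **(G-ω)** (first half of `S40hGeom`): a non-zero inertia-stable eigenspace
`V ⊂ J₀(M' p)[p]` whose eigensystem does not occur at level `M'` contains a class `x ≠ 0` fixed
by the inertia elements which fix `μ_p`. -/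
theorem gom_omega (hp : p.Prime) (hp2 : p ≠ 2) (hpM' : ¬ p ∣ M')
    {B : ValuationSubring Kbar} (hB : B.LiesOverPrime p)
    (S : Finset ℕ) (hpS : p ∈ S) (a : ℕ → ℤ) (V : AddSubgroup (JZero (M' * p)))
    (hV0 : V ≠ ⊥) (hVp : ∀ x ∈ V, p • x = 0)
    (hVI : ∀ τ ∈ B.inertiaSubgroupIn ℚ, ∀ x ∈ V, τ • x ∈ V)
    (hEig : S40hEig (M' * p) S a V) (hNot : S40hNotAt M' p S a) :
    ∃ x ∈ V, x ≠ 0 ∧ ∀ τ ∈ S40hI1 p B, τ • x = x := by
  haveI : Fact p.Prime := ⟨hp⟩
  by_cases htriv : ∀ τ ∈ S40hI1 p B, ∀ x ∈ V, τ • x = x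
  · obtain ⟨⟨x, hx⟩, hx0⟩ := (AddSubgroup.ne_bot_iff_exists_ne_zero).mp hV0
    exact ⟨x, hx, fun h => hx0 (Subtype.ext h), fun τ hτ => htriv τ hτ x hx⟩
  · obtain ⟨τ₁, hτ₁, y, hy, hne⟩ : ∃ τ₁ ∈ S40hI1 p B, ∃ y ∈ V, τ₁ • y ≠ y := by
      by_contra hcon
      apply htriv
      intro τ hτ x hx
      by_contra hne
      exact hcon ⟨τ, hτ, x, hx, hne⟩
    refine ⟨τ₁ • y - y, V.sub_mem (hVI τ₁ hτ₁.1 y hy) hy, sub_ne_zero.mpr hne, ?_⟩
    intro τ hτ
    have hz : τ₁ • y - y ∈ V := V.sub_mem (hVI τ₁ hτ₁.1 y hy) hy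
    have hzKI : τ₁ • y - y ∈ s33hKI (M' * p) p B :=
      AddSubgroup.subset_closure ⟨τ₁, hτ₁.1, y, ⟨1, by rw [pow_one]; exact hVp y hy⟩, rfl⟩
    obtain ⟨hα, hβ⟩ := gom_new_of_notAt M' p hp S hpS a V hVp hEig hNot hpM' _ hz
    have h1 := gom_omega_of_mem M' p hp hp2 hpM' hB _ (hVp _ hz) hzKI hα hβ τ hτ.1
    rw [gom_cyc_one p τ hτ.2, one_nsmul] at h1
    exact h1

/-- **(G-peu)** (second half of `S40hGeom`) from the ONE open statement (KER2): if every
`x ≠ 0` of `V`, fixed by an inertia element moving `μ_p`, whose stabiliser has the property `PP`,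
satisfies (KER2) after pull-back to an auxiliary level, then no such `x` exists. -/
theorem gom_peu_of_ker2 (hp : p.Prime) (hp2 : p ≠ 2) (hpM' : ¬ p ∣ M')
    {B : ValuationSubring Kbar} (hB : B.LiesOverPrime p)
    (PP : Set (AlgebraicClosure ℚ ≃ₐ[ℚ] AlgebraicClosure ℚ) → Prop)
    (S : Finset ℕ) (hpS : p ∈ S) (a : ℕ → ℤ) (V : AddSubgroup (JZero (M' * p)))
    (hVp : ∀ x ∈ V, p • x = 0)
    (hEig : S40hEig (M' * p) S a V) (hNot : S40hNotAt M' p S a)
    (hK : ∀ x ∈ V, x ≠ 0 → (∃ τ₀ ∈ B.inertiaSubgroupIn ℚ, S33hMoves p τ₀ ∧ τ₀ • x = x) →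
      PP (S40hStab x) →
      ∃ (M e : ℕ) (_ : NeZero M) (_ : NeZero (M * p)) (haux : IsAuxLevel p M) (hdvd : M' ∣ M)
        (R : ConstRed B (IsLocalRing.residue B)
          (↥(modularFunctionFieldFullC (IsLocalRing.ResidueField B) M)) (FF (M * p))),
        M * p = M' * p * e ∧ dedekindPsi (M * p) < 2 * e * dedekindPsi (M' * p) ∧
        IsSeriesRed R ∧
        TppKer2 M p hp haux.1 R
          (auxLevelPull (M' * p) (M * p) (Nat.mul_dvd_mul_right hdvd p) x)) :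
    ∀ x ∈ V, x ≠ 0 → (∃ τ₀ ∈ B.inertiaSubgroupIn ℚ, S33hMoves p τ₀ ∧ τ₀ • x = x) →
      ¬ PP (S40hStab x) := by
  intro x hx hx0 hfix hPP
  obtain ⟨M, e, hM0, hMp0, haux, hdvd, R, hM, hdeg, hR, hker⟩ := hK x hx hx0 hfix hPP
  obtain ⟨τ₀, hτ₀, hmv, hτx⟩ := hfix
  obtain ⟨hα, hβ⟩ := gom_new_of_notAt M' p hp S hpS a V hVp hEig hNot hpM' x hx
  exact hx0 (tpp_fixed_descent M' M p e hp hp2 haux hdvd hM hdeg hB R hR x (hVp x hx) hker hα hβ
    τ₀ hτ₀ hmv hτx)

end Main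

end Fermat.Agent.S40lib

end
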