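import Mathlib
import Fermat.Agent.S36lib.Speed
import Fermat.Agent.S58lib.RedHom
import Fermat.Agent.S05_Inertia
import Fermat.Agent.S13lib.DecompVal

/-!
# Item 88 (S40), piece (E-ORD): the first-order addition formula at `p` (helper16)

`W` a Weierstrass curve over a valued field `(K, v)` with integral `a₁, a₂`.

* `eoa_sub_val` (abstract): two points `P = (x, y)`, `P' = (x', y')` with `x` integral,
  `x' ≡ x`, `y' ≡ y` modulo the maximal ideal, `P' ≠ P`, and `y - negY x y = 2 y + a₁ x + a₃` a unit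
  (`P` does not reduce to a point of order `2`): then `Q = P' - P` is an affine point `(x_Q, y_Q)`
  with `v(x_Q) · v(x' - x)² = 1`.  In other words `v(x' - x) = v(z(Q))`, `z = x/y`.

* `eoa_inertia` (concrete): `W` integral over `ℤ` with good reduction at the odd prime `p`,
  `A` a valuation subring of `ℚ̄` over `p`, `P = (x, y)` a point killed by `p` with `x ∈ A`,
  `σ` in the inertia group of `A` with `σ P ≠ P`: then `σ P - P = (x_Q, y_Q)` with
  `v(x_Q) · v(σ x - x)² = 1`.
-/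

set_option autoImplicit false
set_option linter.unusedSectionVars false
set_option linter.unusedVariables false
set_option linter.style.haveILetI false

open WeierstrassCurve WeierstrassCurve.Affine WeierstrassCurve.Affine.Point

namespace Fermat.Agent.S40lib

section Abstract

variable {K : Type*} [Field K] [DecidableEq K]
  {Γ₀ : Type*} [LinearOrderedCommGroupWithZero Γ₀] (v : Valuation K Γ₀)

/-- **first-order addition formula**: if `P' ≡ P` modulo the maximal ideal, `P' ≠ P`, and `P` does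
not reduce to a point of order two, then `P' - P = (x_Q, y_Q)` with `v(x_Q) v(x' - x)² = 1`. -/
theorem eoa_sub_val (W : Affine K) (h1 : v W.a₁ ≤ 1) (h2 : v W.a₂ ≤ 1)
    {x y x' y' : K} (h : W.Nonsingular x y) (h' : W.Nonsingular x' y')
    (hx : v x ≤ 1) (hxx : v (x' - x) < 1) (hyy : v (y' - y) < 1)
    (hd : v (y - W.negY x y) = 1)
    (hne : Point.some x' y' h' ≠ Point.some x y h) :
    ∃ (xQ yQ : K) (hQ : W.Nonsingular xQ yQ),
      Point.some x' y' h' - Point.some x y h = Point.some xQ yQ hQ ∧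
      v xQ * v (x' - x) ^ 2 = 1 := by
  have hx'x : x' ≠ x := by
    intro e
    rcases Y_eq_of_X_eq h'.1 h.1 e with e2 | e2
    · apply hne
      subst e e2
      rfl
    · rw [e2] at hyy
      have h3 : v (W.negY x y - y) = 1 := by
        rw [← neg_sub, Valuation.map_neg, hd]
      rw [h3] at hyy
      exact lt_irrefl _ hyy
  have hxy : ¬ (x' = x ∧ y' = W.negY x (W.negY x y)) := fun e => hx'x e.1
  have hnum : v (y' - W.negY x y) = 1 := by
    have e : y' - W.negY x y = (y' - y) + (y - W.negY x y) := by ring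
    rw [e, Valuation.map_add_eq_of_lt_right v (by rw [hd]; exact hyy), hd]
  have hden0 : x' - x ≠ 0 := sub_ne_zero.mpr hx'x
  have hvden : v (x' - x) ≠ 0 := (v.ne_zero_iff).mpr hden0
  have hvpos : 0 < v (x' - x) := zero_lt_iff.mpr hvden
  have hsv : v (W.slope x' x y' (W.negY x y)) = (v (x' - x))⁻¹ := by
    rw [slope_of_X_ne hx'x, map_div₀, hnum, one_div]
  have hs1 : 1 < v (W.slope x' x y' (W.negY x y)) := by
    rw [hsv]
    exact (one_lt_inv₀ hvpos).mpr hxx
  have hx' : v x' ≤ 1 := by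
    have e : x' = (x' - x) + x := by ring
    rw [e]
    exact le_trans (v.map_add _ _) (max_le hxx.le hx)
  refine ⟨W.addX x' x (W.slope x' x y' (W.negY x y)),
    W.addY x' x y' (W.slope x' x y' (W.negY x y)),
    nonsingular_add h' ((nonsingular_neg x y).mpr h) hxy, ?_, ?_⟩
  · rw [sub_eq_add_neg, Point.neg_some, Point.add_some hxy]
  · generalize W.slope x' x y' (W.negY x y) = s at hsv hs1
    have hs0 : 0 < v s := lt_trans zero_lt_one hs1
    have hlt : v s < v s ^ 2 := by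
      rw [pow_two]
      calc v s = 1 * v s := (one_mul _).symm
        _ < v s * v s := mul_lt_mul_of_pos_right hs1 hs0
    have ha : v (W.a₁ * s) ≤ v s := by
      rw [map_mul]
      exact mul_le_of_le_one_left' h1
    have hb : v (W.a₁ * s - W.a₂ - x' - x) ≤ v s := by
      have e1 : v (W.a₁ * s - W.a₂) ≤ v s :=
        le_trans (Valuation.map_sub _ _ _) (max_le ha (le_trans h2 hs1.le))
      have e2 : v (W.a₁ * s - W.a₂ - x') ≤ v s :=
        le_trans (Valuation.map_sub _ _ _) (max_le e1 (le_trans hx' hs1.le))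
      exact le_trans (Valuation.map_sub _ _ _) (max_le e2 (le_trans hx hs1.le))
    have hX : v (W.addX x' x s) = v s ^ 2 := by
      have e : W.addX x' x s = s ^ 2 + (W.a₁ * s - W.a₂ - x' - x) := by
        simp only [addX]
        ring
      rw [e, Valuation.map_add_eq_of_lt_left v (by rw [map_pow]; exact lt_of_le_of_lt hb hlt),
        map_pow]
    rw [hX, hsv, inv_pow, inv_mul_cancel₀ (pow_ne_zero 2 hvden)]

/-- a point with `1 < v x` on an integral Weierstrass curve: `v(x/y)² v(x) = 1` -/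
theorem eoa_val_z (W : Affine K) (h1 : v W.a₁ ≤ 1) (h2 : v W.a₂ ≤ 1) (h3 : v W.a₃ ≤ 1)
    (h4 : v W.a₄ ≤ 1) (h6 : v W.a₆ ≤ 1) {x y : K} (h : W.Equation x y) (hx : 1 < v x) :
    y ≠ 0 ∧ v (x / y) ^ 2 * v x = 1 := by
  rw [equation_iff] at h
  have hx0 : 0 < v x := lt_trans zero_lt_one hx
  have hxne : v x ≠ 0 := ne_of_gt hx0
  have hx2 : v x < v x ^ 2 := by
    rw [pow_two]
    calc v x = 1 * v x := (one_mul _).symm
      _ < v x * v x := mul_lt_mul_of_pos_right hx hx0
  have hx3 : v x ^ 2 < v x ^ 3 := by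
    rw [pow_succ (v x) 2]
    calc v x ^ 2 = v x ^ 2 * 1 := (mul_one _).symm
      _ < v x ^ 2 * v x := mul_lt_mul_of_pos_left hx (pow_pos hx0 2)
  -- the right-hand side has valuation `v x ^ 3`
  have hR : v (x ^ 3 + W.a₂ * x ^ 2 + W.a₄ * x + W.a₆) = v x ^ 3 := by
    have e : x ^ 3 + W.a₂ * x ^ 2 + W.a₄ * x + W.a₆
        = x ^ 3 + (W.a₂ * x ^ 2 + W.a₄ * x + W.a₆) := by ring
    rw [e, Valuation.map_add_eq_of_lt_left v, map_pow]
    rw [map_pow]
    refine lt_of_le_of_lt ?_ hx3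
    have t1 : v (W.a₂ * x ^ 2) ≤ v x ^ 2 := by
      rw [map_mul, map_pow]
      exact mul_le_of_le_one_left' h2
    have t2 : v (W.a₄ * x) ≤ v x ^ 2 := by
      rw [map_mul]
      exact le_trans (mul_le_of_le_one_left' h4) hx2.le
    have t3 : v W.a₆ ≤ v x ^ 2 := le_trans h6 (le_trans hx.le hx2.le)
    exact le_trans (v.map_add _ _) (max_le (le_trans (v.map_add _ _) (max_le t1 t2)) t3)
  have hL : v (y ^ 2 + W.a₁ * x * y + W.a₃ * y) = v x ^ 3 := by rw [h, hR]
  -- `v x < v y`
  have hyx : v x < v y := by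
    by_contra hcon
    rw [not_lt] at hcon
    have t1 : v (y ^ 2) ≤ v x ^ 2 := by
      rw [map_pow]
      exact pow_le_pow_left' hcon 2
    have t2 : v (W.a₁ * x * y) ≤ v x ^ 2 := by
      rw [map_mul, map_mul, pow_two, mul_assoc]
      exact le_trans (mul_le_of_le_one_left' h1) (mul_le_mul' le_rfl hcon)
    have t3 : v (W.a₃ * y) ≤ v x ^ 2 := by
      rw [map_mul]
      exact le_trans (mul_le_of_le_one_left' h3) (le_trans hcon hx2.le)
    have : v (y ^ 2 + W.a₁ * x * y + W.a₃ * y) ≤ v x ^ 2 :=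
      le_trans (v.map_add _ _) (max_le (le_trans (v.map_add _ _) (max_le t1 t2)) t3)
    rw [hL] at this
    exact absurd this (not_le.mpr hx3)
  have hy0 : 0 < v y := lt_trans hx0 hyx
  have hyne : v y ≠ 0 := ne_of_gt hy0
  have hy : y ≠ 0 := (v.ne_zero_iff).mp hyne
  have hy1 : 1 < v y := lt_trans hx hyx
  have hL2 : v (y ^ 2 + W.a₁ * x * y + W.a₃ * y) = v y ^ 2 := by
    have e : y ^ 2 + W.a₁ * x * y + W.a₃ * y = y ^ 2 + (W.a₁ * x * y + W.a₃ * y) := by ring
    rw [e, Valuation.map_add_eq_of_lt_left v, map_pow]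
    rw [map_pow]
    have t2 : v (W.a₁ * x * y) < v y ^ 2 := by
      rw [map_mul, map_mul, pow_two, mul_assoc]
      exact lt_of_le_of_lt (mul_le_of_le_one_left' h1) (mul_lt_mul_of_pos_right hyx hy0)
    have t3 : v (W.a₃ * y) < v y ^ 2 := by
      rw [map_mul, pow_two]
      refine lt_of_le_of_lt (mul_le_of_le_one_left' h3) ?_
      calc v y = 1 * v y := (one_mul _).symm
        _ < v y * v y := mul_lt_mul_of_pos_right hy1 hy0
    exact lt_of_le_of_lt (v.map_add _ _) (max_lt t2 t3)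
  have hkey : v y ^ 2 = v x ^ 3 := by rw [← hL2, hL]
  refine ⟨hy, ?_⟩
  rw [map_div₀, div_pow, hkey, pow_succ (v x) 2, div_mul_eq_mul_div,
    div_eq_one_iff_eq (mul_ne_zero (pow_ne_zero 2 hxne) hxne)]

end Abstract

section Concrete

open IsLocalRing Fermat.Agent.S41lib Fermat.Agent.S58lib Fermat.Agent Fermat.Agent.S05lib
  Fermat.Agent.S05wire

variable (A : ValuationSubring (AlgebraicClosure ℚ)) (W : WeierstrassCurve ℤ) {p : ℕ}
  (hp : p.Prime) (hA : A.LiesOverPrime p) (hgood : W.IsGoodPrimeFor p)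

include hp hA hgood in
/-- a point killed by the odd number `2 m + 1` with integral `x` at a prime of good reduction:
`y` is integral and `y - negY x y = 2 y + a₁ x + a₃` is a unit. -/
theorem eoa_d_unit (m : ℕ) (hm : 1 ≤ m) (E : WeierstrassCurve (AlgebraicClosure ℚ))
    (hE : E = W.map (Int.castRingHom (AlgebraicClosure ℚ)))
    {x y : AlgebraicClosure ℚ} (h : E.toAffine.Nonsingular x y)
    (hP : (2 * m + 1) • Point.some x y h = 0) (hx : x ∈ A) :
    y ∈ A ∧ A.valuation (y - E.toAffine.negY x y) = 1 := by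
  subst hE
  have hy : y ∈ A := by
    have he := h.1
    rw [equation_iff] at he
    simp only [map_a₁, map_a₂, map_a₃, map_a₄, map_a₆, eq_intCast] at he
    refine ner_mem_of_quadratic A (b := (W.a₁ : AlgebraicClosure ℚ) * x + W.a₃)
      (c := x ^ 3 + W.a₂ * x ^ 2 + W.a₄ * x + W.a₆) ?_ ?_ ?_
    · exact A.add_mem _ _ (A.mul_mem _ _ (intCast_mem A _) hx) (intCast_mem A _)
    · exact A.add_mem _ _ (A.add_mem _ _ (A.add_mem _ _ (pow_mem hx 3)
        (A.mul_mem _ _ (intCast_mem A _) (pow_mem hx 2))) (A.mul_mem _ _ (intCast_mem A _) hx))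
        (intCast_mem A _)
    · linear_combination he
  refine ⟨hy, ?_⟩
  have hne := rh_tors_res_not_two A W hp hA hgood m hm h hP hx hy
  have hmem : y - (W.map (Int.castRingHom (AlgebraicClosure ℚ))).toAffine.negY x y ∈ A :=
    A.sub_mem hy (rh_negY_mem A W hx hy)
  have hres : residue A ⟨_, hmem⟩ ≠ 0 := by
    have e : residue A ⟨_, hmem⟩ = residue A ⟨y, hy⟩
        - (W.map (Int.castRingHom (ResidueField A))).toAffine.negY
          (residue A ⟨x, hx⟩) (residue A ⟨y, hy⟩) := by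
      rw [← rh_negY_residue A W hx hy, ← map_sub]
      rfl
    rw [e]
    exact sub_ne_zero.mpr hne
  exact ner_val_eq_one_of_residue_ne_zero A ⟨_, hmem⟩ hres

/-- the coefficients of `W_ℚ ⁄ ℚ̄` are integral -/
theorem eoa_coeff_le :
    A.valuation ((W.map (Int.castRingHom ℚ)).toAffine⁄(AlgebraicClosure ℚ)).a₁ ≤ 1 ∧
    A.valuation ((W.map (Int.castRingHom ℚ)).toAffine⁄(AlgebraicClosure ℚ)).a₂ ≤ 1 ∧
    A.valuation ((W.map (Int.castRingHom ℚ)).toAffine⁄(AlgebraicClosure ℚ)).a₃ ≤ 1 ∧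
    A.valuation ((W.map (Int.castRingHom ℚ)).toAffine⁄(AlgebraicClosure ℚ)).a₄ ≤ 1 ∧
    A.valuation ((W.map (Int.castRingHom ℚ)).toAffine⁄(AlgebraicClosure ℚ)).a₆ ≤ 1 := by
  have hE := ner_baseChange_eq W
  have key : ∀ n : ℤ, A.valuation ((n : ℤ) : AlgebraicClosure ℚ) ≤ 1 := fun n =>
    (A.valuation_le_one_iff _).mpr (intCast_mem A n)
  refine ⟨?_, ?_, ?_, ?_, ?_⟩
  · have e := congrArg WeierstrassCurve.a₁ hE
    rw [map_a₁, eq_intCast] at e
    rw [e]; exact key _
  · have e := congrArg WeierstrassCurve.a₂ hE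
    rw [map_a₂, eq_intCast] at e
    rw [e]; exact key _
  · have e := congrArg WeierstrassCurve.a₃ hE
    rw [map_a₃, eq_intCast] at e
    rw [e]; exact key _
  · have e := congrArg WeierstrassCurve.a₄ hE
    rw [map_a₄, eq_intCast] at e
    rw [e]; exact key _
  · have e := congrArg WeierstrassCurve.a₆ hE
    rw [map_a₆, eq_intCast] at e
    rw [e]; exact key _

include hp hA hgood in
/-- **(E-ORD), the inertial displacement.**  `W` integral with good reduction at the odd prime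
`p`, `P = (x, y)` a point killed by `p` with `x ∈ A`, `σ` in the inertia group of `A`, `σ P ≠ P`:
then `Q = σ P - P = (x_Q, y_Q)` lies in the kernel of reduction (`1 < v x_Q`), is killed by `p`,
and `v(x_Q / y_Q) = v(σ x - x)`. -/
theorem eoa_inertia (hp2 : p ≠ 2) (σ : AlgebraicClosure ℚ ≃ₐ[ℚ] AlgebraicClosure ℚ)
    (hσ : σ ∈ A.inertiaSubgroupIn ℚ) {x y : AlgebraicClosure ℚ}
    (h : ((W.map (Int.castRingHom ℚ)).toAffine⁄(AlgebraicClosure ℚ)).Nonsingular x y)
    (hP : p • (Point.some x y h :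
      ((W.map (Int.castRingHom ℚ)).toAffine⁄(AlgebraicClosure ℚ)).Point) = 0)
    (hx : x ∈ A)
    (hne : σ • (Point.some x y h :
      ((W.map (Int.castRingHom ℚ)).toAffine⁄(AlgebraicClosure ℚ)).Point) ≠ Point.some x y h) :
    ∃ (xQ yQ : AlgebraicClosure ℚ)
      (hQ : ((W.map (Int.castRingHom ℚ)).toAffine⁄(AlgebraicClosure ℚ)).Nonsingular xQ yQ),
      σ • (Point.some x y h :
        ((W.map (Int.castRingHom ℚ)).toAffine⁄(AlgebraicClosure ℚ)).Point) - Point.some x y h
        = Point.some xQ yQ hQ ∧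
      1 < A.valuation xQ ∧ yQ ≠ 0 ∧
      A.valuation (xQ / yQ) = A.valuation (σ x - x) ∧
      p • (Point.some xQ yQ hQ :
        ((W.map (Int.castRingHom ℚ)).toAffine⁄(AlgebraicClosure ℚ)).Point) = 0 := by
  obtain ⟨m, hm, rfl⟩ : ∃ m, 1 ≤ m ∧ p = 2 * m + 1 := by
    rcases hp.eq_two_or_odd' with e | ⟨m, hm⟩
    · exact absurd e hp2
    · refine ⟨m, ?_, hm⟩
      have := hp.two_le
      omega
  obtain ⟨hy, hd⟩ := eoa_d_unit A W hp hA hgood m hm _ (ner_baseChange_eq W) h hP hx
  obtain ⟨ha1, ha2, ha3, ha4, ha6⟩ := eoa_coeff_le A W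
  have hσI : IsInertial A.valuation
      ((σ : AlgebraicClosure ℚ ≃ₐ[ℚ] AlgebraicClosure ℚ) :
        AlgebraicClosure ℚ →+* AlgebraicClosure ℚ) :=
    isInertial_of_mem_inertiaSubgroupIn A hσ
  have hvx : A.valuation x ≤ 1 := (A.valuation_le_one_iff x).mpr hx
  have hvy : A.valuation y ≤ 1 := (A.valuation_le_one_iff y).mpr hy
  have hxx : A.valuation (σ x - x) < 1 := hσI.sub_lt x hvx
  have hyy : A.valuation (σ y - y) < 1 := hσI.sub_lt y hvy
  have hns' : ((W.map (Int.castRingHom ℚ)).toAffine⁄(AlgebraicClosure ℚ)).Nonsingular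
      (σ x) (σ y) :=
    (WeierstrassCurve.Affine.baseChange_nonsingular (W.map (Int.castRingHom ℚ)).toAffine
      σ.toAlgHom.injective ..).mpr h
  have e1 : σ • (Point.some x y h :
      ((W.map (Int.castRingHom ℚ)).toAffine⁄(AlgebraicClosure ℚ)).Point)
      = Point.some (σ x) (σ y) hns' := rfl
  have hne' : (Point.some (σ x) (σ y) hns' :
      ((W.map (Int.castRingHom ℚ)).toAffine⁄(AlgebraicClosure ℚ)).Point) ≠ Point.some x y h := by
    rw [← e1]; exact hne
  obtain ⟨xQ, yQ, hQ, hsub, hval⟩ := eoa_sub_val A.valuation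
    ((W.map (Int.castRingHom ℚ)).toAffine⁄(AlgebraicClosure ℚ)) ha1 ha2 h hns' hvx hxx hyy hd hne'
  have hd0 : A.valuation (σ x - x) ≠ 0 := by
    intro e0
    rw [e0] at hval
    simp at hval
  have hdpos : 0 < A.valuation (σ x - x) := zero_lt_iff.mpr hd0
  have hsq : A.valuation (σ x - x) ^ 2 < 1 := pow_lt_one₀ hdpos.le hxx (by norm_num)
  have hxQ : A.valuation xQ = (A.valuation (σ x - x) ^ 2)⁻¹ :=
    eq_inv_of_mul_eq_one_left hval
  have hxQ1 : 1 < A.valuation xQ := by
    rw [hxQ]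
    exact (one_lt_inv₀ (pow_pos hdpos 2)).mpr hsq
  obtain ⟨hyQ0, hz⟩ := eoa_val_z A.valuation
    ((W.map (Int.castRingHom ℚ)).toAffine⁄(AlgebraicClosure ℚ)) ha1 ha2 ha3 ha4 ha6 hQ.1 hxQ1
  refine ⟨xQ, yQ, hQ, ?_, hxQ1, hyQ0, ?_, ?_⟩
  · rw [e1]; exact hsub
  · have h2 : A.valuation (xQ / yQ) ^ 2 = A.valuation (σ x - x) ^ 2 := by
      have hxQ0 : A.valuation xQ ≠ 0 := ne_of_gt (lt_trans zero_lt_one hxQ1)
      have := hz
      rw [mul_comm] at this
      have h3 : A.valuation xQ * A.valuation (xQ / yQ) ^ 2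
          = A.valuation xQ * A.valuation (σ x - x) ^ 2 := by rw [this, hval]
      exact mul_left_cancel₀ hxQ0 h3
    exact (pow_left_inj₀ zero_le zero_le (by norm_num : (2 : ℕ) ≠ 0)).mp h2
  · rw [← hsub, ← e1, nsmul_sub, hP, sub_zero]
    have := map_nsmul (DistribSMul.toAddMonoidHom
      ((W.map (Int.castRingHom ℚ)).toAffine⁄(AlgebraicClosure ℚ)).Point σ) (2 * m + 1)
      (Point.some x y h)
    rw [DistribSMul.toAddMonoidHom_apply, DistribSMul.toAddMonoidHom_apply] at this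
    rw [← this, hP, smul_zero]

end Concrete

end Fermat.Agent.S40lib
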