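/-
Item 88 (S40), block (W1)-ordinary / (E-ORD), piece KER (helper26).

`W` a Weierstrass curve over a ring `R`, `φ : R →+* K` with image in a valuation subring `B` of the
field `K`, `p` an odd prime which is a non-unit of `B`.  For EVERY point `P = (x, y)` of `W(K)` with
`p • P = 0` in the kernel of reduction (`x ∉ B`):

* `eok_main`  : `v(x)^((p-1)/2) * v(p) ≤ 1`;
* `eok_main_z`: `v(p) ≤ v(x / y)^(p-1)`   (`z = -x/y` is the parameter at the origin);
* `eok_main_zeta`: `v(ζ - 1) ≤ v(x / y)` for a primitive `p`-th root of unity `ζ`.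

No hypothesis of good reduction is needed.  Proof: `x`-only ladder (`v(x(jP)) = v(x(P))` for
`0 < j < p`) and the Newton inequality `eok_newton` for the `p`-th torsion polynomial, whose leading
coefficient is `-p`.
-/
import Fermat.Agent.S36lib.Speed
import Fermat.Agent.Ladder.Eval
import Fermat.Agent.Ladder.Book
import Fermat.Agent.Ladder.Map
import Fermat.Agent.Ladder.AddSub
import Fermat.Agent.S51lib.Dup
import Fermat.Agent.S36lib.ZetaIndep

set_option autoImplicit false
set_option linter.unusedSectionVars false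

namespace Fermat.Agent.S40lib

open Polynomial

section newton

variable {K : Type*} [Field K] (B : ValuationSubring K)

/-- a non-integral element has integral inverse, and is nonzero -/
theorem eok_inv_mem {r : K} (hr : r ∉ B) : r⁻¹ ∈ B :=
  (B.mem_or_inv_mem r).resolve_left hr

theorem eok_ne_zero {r : K} (hr : r ∉ B) : r ≠ 0 := fun h => hr (h ▸ zero_mem B)

/-- `1 < v(r)` for non-integral `r` -/
theorem eok_one_lt {r : K} (hr : r ∉ B) : 1 < B.valuation r := by
  rw [← not_le, ValuationSubring.valuation_le_one_iff]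
  exact hr

/-- peeling off a non-integral root: `f = (X - r) g` with `r g` integral -/
theorem eok_peel (f : K[X]) (hf : ∀ i, f.coeff i ∈ B) {r : K} (hr : r ∉ B) (hroot : f.IsRoot r) :
    ∃ g : K[X], f = (X - C r) * g ∧ ∀ i, r * g.coeff i ∈ B := by
  obtain ⟨g, hg⟩ := dvd_iff_isRoot.mpr hroot
  refine ⟨g, hg, ?_⟩
  have hinv := eok_inv_mem B hr
  have hr0 := eok_ne_zero B hr
  have h0 : f.coeff 0 = -(r * g.coeff 0) := by
    rw [hg]
    simp [coeff_zero_eq_eval_zero]
  have hs : ∀ n, f.coeff (n + 1) = g.coeff n - r * g.coeff (n + 1) := by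
    intro n
    rw [hg, sub_mul, coeff_sub, coeff_X_mul, coeff_C_mul]
  intro i
  induction i with
  | zero =>
    have : r * g.coeff 0 = -f.coeff 0 := by rw [h0, neg_neg]
    rw [this]
    exact neg_mem (hf 0)
  | succ n ih =>
    have e : r * g.coeff (n + 1) = r⁻¹ * (r * g.coeff n) - f.coeff (n + 1) := by
      rw [hs n]
      field_simp
      ring
    rw [e]
    exact sub_mem (mul_mem hinv ih) (hf _)

/-- **Newton inequality**: the product of the valuations of distinct non-integral roots of a
polynomial with integral coefficients, times the valuation of its leading coefficient, is `≤ 1`. -/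
theorem eok_newton [DecidableEq K] (s : Finset K) :
    ∀ (f : K[X]), (∀ i, f.coeff i ∈ B) → f ≠ 0 → (∀ r ∈ s, f.IsRoot r) → (∀ r ∈ s, r ∉ B) →
      (∏ r ∈ s, B.valuation r) * B.valuation f.leadingCoeff ≤ 1 := by
  induction s using Finset.induction_on with
  | empty =>
    intro f hf _ _ _
    rw [Finset.prod_empty, one_mul, ValuationSubring.valuation_le_one_iff]
    exact hf _
  | insert a s ha ih =>
    intro f hf hf0 hroot hB
    have haB : a ∉ B := hB a (Finset.mem_insert_self a s)
    have ha0 := eok_ne_zero B haB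
    obtain ⟨g, hg, hgB⟩ := eok_peel B f hf haB (hroot a (Finset.mem_insert_self a s))
    have hg0 : g ≠ 0 := by
      rintro rfl
      rw [mul_zero] at hg
      exact hf0 hg
    have h1 := ih (C a * g) (fun i => by rw [coeff_C_mul]; exact hgB i)
      (mul_ne_zero (C_ne_zero.mpr ha0) hg0)
      (fun r hr => by
        have hra : r ≠ a := fun h => ha (h ▸ hr)
        have h2 : f.IsRoot r := hroot r (Finset.mem_insert_of_mem hr)
        rw [IsRoot, hg, eval_mul, eval_sub, eval_X, eval_C] at h2
        rcases mul_eq_zero.mp h2 with h3 | h3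
        · exact absurd (sub_eq_zero.mp h3) hra
        · rw [IsRoot, eval_mul, eval_C, h3, mul_zero])
      (fun r hr => hB r (Finset.mem_insert_of_mem hr))
    have hl : f.leadingCoeff = g.leadingCoeff := by
      rw [hg, leadingCoeff_mul, leadingCoeff_X_sub_C, one_mul]
    rw [leadingCoeff_mul, leadingCoeff_C, map_mul] at h1
    rw [Finset.prod_insert ha, hl]
    calc (B.valuation a * ∏ r ∈ s, B.valuation r) * B.valuation g.leadingCoeff
        = (∏ r ∈ s, B.valuation r) * (B.valuation a * B.valuation g.leadingCoeff) := by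
          rw [mul_comm (B.valuation a), mul_assoc]
      _ ≤ 1 := h1

/-- a polynomial with integral coefficients, degree `≤ d` and unit coefficient in degree `d` has
`v(g(x)) = v(x)^d` at a non-integral `x` -/
theorem eok_eval_val (g : K[X]) (hg : ∀ i, g.coeff i ∈ B) {d : ℕ} (hd : g.natDegree ≤ d)
    (hc : B.valuation (g.coeff d) = 1) {x : K} (hx : x ∉ B) :
    B.valuation (g.eval x) = B.valuation x ^ d := by
  have h1 := eok_one_lt B hx
  have hv0 : B.valuation x ≠ 0 := ne_of_gt (lt_trans zero_lt_one h1)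
  rw [eval_eq_sum_range' (Nat.lt_succ_of_le hd), Finset.sum_range_succ]
  have hlow : B.valuation (∑ i ∈ Finset.range d, g.coeff i * x ^ i) < B.valuation x ^ d := by
    apply Valuation.map_sum_lt _ (pow_ne_zero _ hv0)
    intro i hi
    rw [map_mul, map_pow]
    calc B.valuation (g.coeff i) * B.valuation x ^ i ≤ 1 * B.valuation x ^ i :=
          mul_le_mul' ((ValuationSubring.valuation_le_one_iff B _).mpr (hg i)) le_rfl
      _ < B.valuation x ^ d := by
          rw [one_mul]
          exact pow_lt_pow_right₀ h1 (Finset.mem_range.mp hi)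
  have htop : B.valuation (g.coeff d * x ^ d) = B.valuation x ^ d := by
    rw [map_mul, hc, one_mul, map_pow]
  rw [← htop] at hlow
  rw [Valuation.map_add_eq_of_lt_right _ hlow, htop]

/-- natural numbers `0 < j < p` are units of `B` when `p` is a prime non-unit -/
theorem eok_val_nat {p : ℕ} (hp : p.Prime) (hpB : (p : K) ∈ B.nonunits) {j : ℕ} (hj0 : 0 < j)
    (hjp : j < p) : B.valuation (j : K) = 1 := by
  have hjB : (j : K) ∈ B := natCast_mem B j
  have hle : B.valuation (j : K) ≤ 1 := (ValuationSubring.valuation_le_one_iff B _).mpr hjB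
  refine le_antisymm hle (not_lt.mp fun hlt => ?_)
  have hpv : B.valuation (p : K) < 1 := B.mem_nonunits_iff.mp hpB
  have hcop : Nat.Coprime j p :=
    ((Nat.Prime.coprime_iff_not_dvd hp).mpr (Nat.not_dvd_of_pos_of_lt hj0 hjp)).symm
  have hbez : ((j : ℤ) * Int.gcdA j p + (p : ℤ) * Int.gcdB j p : ℤ) = 1 := by
    have := Int.gcd_eq_gcd_ab (j : ℤ) (p : ℤ)
    rw [Int.gcd_natCast_natCast, hcop.gcd_eq_one] at this
    exact_mod_cast this.symm
  have hK : ((j : K) * ((Int.gcdA j p : ℤ) : K) + (p : K) * ((Int.gcdB j p : ℤ) : K)) = 1 := by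
    have := congrArg (fun z : ℤ => (z : K)) hbez
    push_cast at this
    exact this
  have hint : ∀ z : ℤ, B.valuation (z : K) ≤ 1 := fun z =>
    (ValuationSubring.valuation_le_one_iff B _).mpr (intCast_mem B z)
  have h1 : B.valuation ((j : K) * ((Int.gcdA j p : ℤ) : K)) < 1 := by
    rw [map_mul]
    exact lt_of_le_of_lt (mul_le_mul' le_rfl (hint _)) (by rwa [mul_one])
  have h2 : B.valuation ((p : K) * ((Int.gcdB j p : ℤ) : K)) < 1 := by
    rw [map_mul]
    exact lt_of_le_of_lt (mul_le_mul' le_rfl (hint _)) (by rwa [mul_one])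
  have h3 := Valuation.map_add_lt _ h1 h2
  rw [hK, map_one] at h3
  exact lt_irrefl _ h3

end newton

section curve

open WeierstrassCurve WeierstrassCurve.Affine Fermat.Agent.Ladder Fermat.Agent.S51lib

variable {R : Type*} [CommRing R] {K : Type*} [Field K] [DecidableEq K] (B : ValuationSubring K)
  (φ : R →+* K) (hφ : ∀ r, φ r ∈ B) (W : WeierstrassCurve R)

include hφ in
/-- the `x`-coordinate of `j • P`, `0 < j < p`, has the valuation of `x(P)` for `P` in the kernel
of reduction -/
theorem eok_val_mul [(W.map φ).IsElliptic] {p : ℕ} (hp : p.Prime) (hpB : (p : K) ∈ B.nonunits)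
    {x y : K} (h : (W.map φ).toAffine.Nonsingular x y) (hx : x ∉ B)
    {j : ℕ} (hj0 : 0 < j) (hjp : j < p) {x' y' : K}
    (h' : (W.map φ).toAffine.Nonsingular x' y')
    (hj : j • Point.some x y h = Point.some x' y' h') :
    B.valuation x' = B.valuation x := by
  have hA : AddSubSpec (W.map φ) := fun P Q => addSubMap_sym2x (W.map φ) P Q
  obtain ⟨c, hc, hF, hG⟩ := ladder_eval hA h j
  rw [hj, xRep_some_zero] at hF
  rw [hj, xRep_some_one, mul_one] at hG
  have h1 := eok_one_lt B hx
  have hv0 : B.valuation x ≠ 0 := ne_of_gt (lt_trans zero_lt_one h1)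
  have hFv : B.valuation ((LF (W.map φ) j).eval x) = B.valuation x ^ (j ^ 2) := by
    rw [map_LF]
    refine eok_eval_val B _ (fun i => by rw [coeff_map]; exact hφ _)
      ((natDegree_map_le).trans (top_LF W j).le) ?_ hx
    rw [coeff_map, (top_LF W j).co, map_one, map_one]
  have hGv : B.valuation ((LG (W.map φ) j).eval x) = B.valuation x ^ (j ^ 2 - 1) := by
    rw [map_LG]
    refine eok_eval_val B _ (fun i => by rw [coeff_map]; exact hφ _)
      ((natDegree_map_le).trans (top_LG W j hj0).le) ?_ hx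
    rw [coeff_map, (top_LG W j hj0).co, map_pow, map_natCast, map_pow,
      eok_val_nat B hp hpB hj0 hjp, one_pow]
  rw [hG] at hGv
  rw [hF, map_mul, hGv] at hFv
  have hj2 : j ^ 2 = (j ^ 2 - 1) + 1 := by
    have : 1 ≤ j ^ 2 := Nat.one_le_pow _ _ hj0
    omega
  rw [hj2, pow_succ, Nat.add_sub_cancel] at hFv
  exact mul_left_cancel₀ (pow_ne_zero _ hv0) hFv

/-- a point of prime order `p`: `j • P ≠ 0` for `0 < j < p` -/
theorem eok_nsmul_ne_zero {G : Type*} [AddGroup G] {P : G} {p : ℕ} (hp : p.Prime) (hP : P ≠ 0)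
    (htors : p • P = 0) : addOrderOf P = p := by
  rcases (Nat.dvd_prime hp).mp (addOrderOf_dvd_of_nsmul_eq_zero htors) with h | h
  · exact absurd (AddMonoid.addOrderOf_eq_one_iff.mp h) hP
  · exact h

include hφ in
/-- **(E-ORD), KER**: a point `P = (x, y)` of order `p` in the kernel of reduction has
`v(x)^((p-1)/2) * v(p) ≤ 1`. -/
theorem eok_main [(W.map φ).IsElliptic] {p : ℕ} (hp : p.Prime) (hp2 : p ≠ 2)
    (hpB : (p : K) ∈ B.nonunits)
    {x y : K} (h : (W.map φ).toAffine.Nonsingular x y)
    (htors : p • Point.some x y h = 0) (hx : x ∉ B) :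
    B.valuation x ^ ((p - 1) / 2) * B.valuation (p : K) ≤ 1 := by
  by_cases hp0 : (p : K) = 0
  · rw [hp0, map_zero, mul_zero]
    exact zero_le_one
  obtain ⟨m, hm⟩ : ∃ m, p = 2 * m + 1 := by
    rcases hp.eq_two_or_odd' with h2 | ⟨m, hm⟩
    · exact absurd h2 hp2
    · exact ⟨m, hm⟩
  have hm1 : 1 ≤ m := by
    have := hp.two_le
    omega
  have hmm : (p - 1) / 2 = m := by omega
  rw [hmm]
  have hA : AddSubSpec (W.map φ) := fun P Q => addSubMap_sym2x (W.map φ) P Q
  have hP0 : Point.some x y h ≠ 0 := Point.some_ne_zero h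
  have hord : addOrderOf (Point.some x y h) = p := eok_nsmul_ne_zero hp hP0 htors
  have hne : ∀ j : ℕ, 0 < j → j < p → j • Point.some x y h ≠ 0 := by
    intro j hj0 hjp h0
    have := addOrderOf_dvd_of_nsmul_eq_zero h0
    rw [hord] at this
    exact absurd (Nat.le_of_dvd hj0 this) (not_le.mpr hjp)
  -- the roots
  have hcoord : ∀ j : ℕ, 0 < j → j < p → ∃ (x' y' : K)
      (h' : (W.map φ).toAffine.Nonsingular x' y'), j • Point.some x y h = Point.some x' y' h' := by
    intro j hj0 hjp
    rcases hj : j • Point.some x y h with _ | ⟨x', y', h'⟩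
    · exact absurd hj (hne j hj0 hjp)
    · exact ⟨x', y', h', rfl⟩
  set r : ℕ → K := fun j => xc (W.map φ).toAffine (j • Point.some x y h) with hr
  have hrv : ∀ j : ℕ, 0 < j → j < p → B.valuation (r j) = B.valuation x := by
    intro j hj0 hjp
    obtain ⟨x', y', h', e⟩ := hcoord j hj0 hjp
    rw [hr]
    simp only
    rw [e, xc_some]
    exact eok_val_mul B φ hφ W hp hpB h hx hj0 hjp h' e
  have hrroot : ∀ j : ℕ, 0 < j → j < p → (torsPoly (W.map φ) m).IsRoot (r j) := by
    intro j hj0 hjp
    obtain ⟨x', y', h', e⟩ := hcoord j hj0 hjp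
    rw [hr]
    simp only
    rw [e, xc_some]
    refine (odd_nsmul_eq_zero_iff hA h' m hm1).mp ?_
    rw [← e, ← hm, smul_comm, htors, smul_zero]
  have hinj : Set.InjOn r (Finset.Icc 1 m : Set ℕ) := by
    intro j hj j' hj' e
    rw [Finset.coe_Icc, Set.mem_Icc] at hj hj'
    have hjp : j < p := by omega
    have hj'p : j' < p := by omega
    rcases eq_or_eq_neg_of_xc_eq (W.map φ).toAffine (hne j (by omega) hjp)
      (hne j' (by omega) hj'p) e with e1 | e1
    · have h0 : ((j : ℤ) - j') • Point.some x y h = 0 := by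
        rw [sub_smul, natCast_zsmul, natCast_zsmul, e1, sub_self]
      have hd := (addOrderOf_dvd_iff_zsmul_eq_zero).mpr h0
      rw [hord] at hd
      obtain ⟨k, hk⟩ := hd
      have hk0 : k = 0 := by
        by_contra hk0
        rcases lt_or_gt_of_ne hk0 with hneg | hpos
        · have : (p : ℤ) * k ≤ (p : ℤ) * (-1) :=
            mul_le_mul_of_nonneg_left (by omega) (by positivity)
          omega
        · have : (p : ℤ) * 1 ≤ (p : ℤ) * k :=
            mul_le_mul_of_nonneg_left (by omega) (by positivity)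
          omega
      rw [hk0, mul_zero] at hk
      omega
    · exfalso
      have h0 : (j + j') • Point.some x y h = 0 := by
        rw [add_smul, e1, neg_add_cancel]
      exact hne (j + j') (by omega) (by omega) h0
  set s : Finset K := (Finset.Icc 1 m).image r with hs
  have hcard : s.card = m := by
    rw [hs, Finset.card_image_of_injOn hinj, Nat.card_Icc]
    omega
  have hsmem : ∀ t ∈ s, ∃ j, 0 < j ∧ j < p ∧ t = r j := by
    intro t ht
    rw [hs, Finset.mem_image] at ht
    obtain ⟨j, hj, e⟩ := ht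
    rw [Finset.mem_Icc] at hj
    exact ⟨j, by omega, by omega, e.symm⟩
  have h1 := eok_one_lt B hx
  have hsB : ∀ t ∈ s, t ∉ B := by
    intro t ht
    obtain ⟨j, hj0, hjp, rfl⟩ := hsmem t ht
    rw [← ValuationSubring.valuation_le_one_iff, not_le, hrv j hj0 hjp]
    exact h1
  have hsroot : ∀ t ∈ s, (torsPoly (W.map φ) m).IsRoot t := by
    intro t ht
    obtain ⟨j, hj0, hjp, rfl⟩ := hsmem t ht
    exact hrroot j hj0 hjp
  have htop := top_torsPoly (W.map φ) m hm1
  have hc : -(2 * (m : K) + 1) ≠ 0 := by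
    intro h0
    apply hp0
    rw [hm]
    push_cast
    linear_combination -h0
  have hlead : (torsPoly (W.map φ) m).leadingCoeff = -(2 * (m : K) + 1) :=
    htop.leadingCoeff_eq hc
  have hψ0 : torsPoly (W.map φ) m ≠ 0 := by
    intro h0
    rw [h0, leadingCoeff_zero] at hlead
    exact hc hlead.symm
  have hψB : ∀ i, (torsPoly (W.map φ) m).coeff i ∈ B := by
    intro i
    rw [map_torsPoly, coeff_map]
    exact hφ _
  have hN := eok_newton B s (torsPoly (W.map φ) m) hψB hψ0 hsroot hsB
  have hprod : ∏ t ∈ s, B.valuation t = B.valuation x ^ m := by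
    rw [Finset.prod_eq_pow_card (b := B.valuation x), hcard]
    intro t ht
    obtain ⟨j, hj0, hjp, rfl⟩ := hsmem t ht
    exact hrv j hj0 hjp
  have hpK : (p : K) = 2 * (m : K) + 1 := by
    rw [hm]
    push_cast
    ring
  rw [hprod, hlead, Valuation.map_neg, ← hpK] at hN
  exact hN

include hφ in
/-- in the kernel of reduction `v(y)^2 = v(x)^3` (and `v(x) < v(y)`) -/
theorem eok_val_y {x y : K} (heq : (W.map φ).toAffine.Equation x y) (hx : x ∉ B) :
    B.valuation x < B.valuation y ∧ B.valuation y ^ 2 = B.valuation x ^ 3 := by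
  have h1 := eok_one_lt B hx
  have hv0 : B.valuation x ≠ 0 := ne_of_gt (lt_trans zero_lt_one h1)
  have hle : ∀ r : R, B.valuation (φ r) ≤ 1 := fun r =>
    (ValuationSubring.valuation_le_one_iff B _).mpr (hφ r)
  rw [Affine.equation_iff] at heq
  simp only [WeierstrassCurve.map_a₁, WeierstrassCurve.map_a₂, WeierstrassCurve.map_a₃,
    WeierstrassCurve.map_a₄, WeierstrassCurve.map_a₆] at heq
  have hx12 : B.valuation x < B.valuation x ^ 2 := by
    calc B.valuation x = B.valuation x ^ 1 := (pow_one _).symm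
      _ < B.valuation x ^ 2 := pow_lt_pow_right₀ h1 (by norm_num)
  have hx23 : B.valuation x ^ 2 < B.valuation x ^ 3 := pow_lt_pow_right₀ h1 (by norm_num)
  -- the right-hand side
  have hR : B.valuation (x ^ 3 + φ W.a₂ * x ^ 2 + φ W.a₄ * x + φ W.a₆) = B.valuation x ^ 3 := by
    have e : x ^ 3 + φ W.a₂ * x ^ 2 + φ W.a₄ * x + φ W.a₆
        = x ^ 3 + (φ W.a₂ * x ^ 2 + φ W.a₄ * x + φ W.a₆) := by ring
    have hlow : B.valuation (φ W.a₂ * x ^ 2 + φ W.a₄ * x + φ W.a₆) < B.valuation (x ^ 3) := by
      rw [map_pow]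
      refine Valuation.map_add_lt _ (Valuation.map_add_lt _ ?_ ?_) ?_
      · rw [map_mul, map_pow]
        exact lt_of_le_of_lt (mul_le_mul' (hle _) le_rfl) (by rwa [one_mul])
      · rw [map_mul]
        exact lt_of_le_of_lt (mul_le_mul' (hle _) le_rfl)
          (by rw [one_mul]; exact hx12.trans hx23)
      · exact lt_of_le_of_lt (hle _) (h1.trans (hx12.trans hx23))
    rw [e, Valuation.map_add_eq_of_lt_left _ hlow, map_pow]
  have hlin : B.valuation (φ W.a₁ * x + φ W.a₃) ≤ B.valuation x := by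
    refine (Valuation.map_add_le _ ?_ ?_)
    · rw [map_mul]
      exact (mul_le_mul' (hle _) le_rfl).trans (by rw [one_mul])
    · exact (hle _).trans h1.le
  have hL : y ^ 2 + φ W.a₁ * x * y + φ W.a₃ * y = y * (y + (φ W.a₁ * x + φ W.a₃)) := by ring
  have hxy : B.valuation x < B.valuation y := by
    by_contra hcon
    have hyx : B.valuation y ≤ B.valuation x := not_lt.mp hcon
    have h2 : B.valuation (y + (φ W.a₁ * x + φ W.a₃)) ≤ B.valuation x :=
      Valuation.map_add_le _ hyx hlin
    have h3 : B.valuation (y ^ 2 + φ W.a₁ * x * y + φ W.a₃ * y) ≤ B.valuation x ^ 2 := by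
      rw [hL, map_mul, pow_two]
      exact mul_le_mul' hyx h2
    rw [heq, hR] at h3
    exact absurd h3 (not_le.mpr hx23)
  refine ⟨hxy, ?_⟩
  have h4 : B.valuation (y + (φ W.a₁ * x + φ W.a₃)) = B.valuation y :=
    Valuation.map_add_eq_of_lt_left _ (lt_of_le_of_lt hlin hxy)
  have h5 := congrArg B.valuation heq
  rw [hL, map_mul, h4, hR] at h5
  rw [pow_two]
  exact h5

include hφ in
/-- in the kernel of reduction `v(x / y)^2 * v(x) = 1` (`z = -x / y`) -/
theorem eok_val_z {x y : K} (heq : (W.map φ).toAffine.Equation x y) (hx : x ∉ B) :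
    B.valuation (x / y) ^ 2 * B.valuation x = 1 := by
  obtain ⟨hxy, hy⟩ := eok_val_y B φ hφ W heq hx
  have h1 := eok_one_lt B hx
  have hv0 : B.valuation x ≠ 0 := ne_of_gt (lt_trans zero_lt_one h1)
  have hy0 : B.valuation y ≠ 0 := ne_of_gt (lt_trans (lt_trans zero_lt_one h1) hxy)
  rw [map_div₀, div_pow, hy]
  field_simp

include hφ in
/-- **(E-ORD), KER, `z`-form**: `v(p) ≤ v(x / y)^(p-1)` -/
theorem eok_main_z [(W.map φ).IsElliptic] {p : ℕ} (hp : p.Prime) (hp2 : p ≠ 2)
    (hpB : (p : K) ∈ B.nonunits)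
    {x y : K} (h : (W.map φ).toAffine.Nonsingular x y)
    (htors : p • Point.some x y h = 0) (hx : x ∉ B) :
    B.valuation (p : K) ≤ B.valuation (x / y) ^ (p - 1) := by
  have hmain := eok_main B φ hφ W hp hp2 hpB h htors hx
  have hz := eok_val_z B φ hφ W h.1 hx
  obtain ⟨m, hm⟩ : ∃ m, p = 2 * m + 1 := by
    rcases hp.eq_two_or_odd' with h2 | ⟨m, hm⟩
    · exact absurd h2 hp2
    · exact ⟨m, hm⟩
  have hmm : (p - 1) / 2 = m := by omega
  have hp1 : p - 1 = 2 * m := by omega
  rw [hmm] at hmain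
  rw [hp1, pow_mul]
  have e : (B.valuation (x / y) ^ 2) ^ m * B.valuation x ^ m = 1 := by
    rw [← mul_pow, hz, one_pow]
  calc B.valuation (p : K) = ((B.valuation (x / y) ^ 2) ^ m * B.valuation x ^ m)
        * B.valuation (p : K) := by rw [e, one_mul]
    _ = (B.valuation (x / y) ^ 2) ^ m * (B.valuation x ^ m * B.valuation (p : K)) := by
        rw [mul_assoc]
    _ ≤ (B.valuation (x / y) ^ 2) ^ m * 1 := mul_le_mul' le_rfl hmain
    _ = (B.valuation (x / y) ^ 2) ^ m := mul_one _

include hφ in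
/-- **(E-ORD), KER, `ζ`-form**: `v(ζ - 1) ≤ v(x / y)` for a primitive `p`-th root of unity `ζ`:
the parameter `z = -x/y` of a point of order `p` in the kernel of reduction does NOT lie in
`(ζ - 1) m_B`. -/
theorem eok_main_zeta [(W.map φ).IsElliptic] {p : ℕ} (hp : p.Prime) (hp2 : p ≠ 2)
    (hpB : (p : K) ∈ B.nonunits) {ζ : K} (hζ : IsPrimitiveRoot ζ p)
    {x y : K} (h : (W.map φ).toAffine.Nonsingular x y)
    (htors : p • Point.some x y h = 0) (hx : x ∉ B) :
    B.valuation (ζ - 1) ≤ B.valuation (x / y) := by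
  have hz := eok_main_z B φ hφ W hp hp2 hpB h htors hx
  rw [← Fermat.Agent.S36lib.zi_val_zeta_sub_one_pow B.valuation hp hζ] at hz
  have hp1 : p - 1 ≠ 0 := by
    have := hp.two_le
    omega
  exact (pow_le_pow_iff_left₀ zero_le zero_le hp1).mp hz

end curve

end Fermat.Agent.S40lib
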