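import Mathlib
import Fermat.Agent.Ladder.Eval
import Fermat.Agent.Ladder.Book
import Fermat.Agent.Ladder.Map
import Fermat.Agent.Ladder.AddSub
import Fermat.Agent.S33lib.LevVal
import Fermat.Agent.S36lib.Speed

/-!
# Item 88 (S40), piece (W1-ss) (helper7): the supersingular case, on `W` only

`W : WeierstrassCurve ℤ` with good reduction at the odd prime `p = 2 m + 1`, `A` a valuation
subring of `ℚ̄` over `p`, `S = torsPoly W m ∈ ℤ[X]` the `p`-torsion polynomial (degree
`d = 2 m² + 2 m = (p² - 1) / 2`, leading coefficient `-p`; its roots are the `x`-coordinates of the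
nonzero `p`-torsion points).

* `ssn_torsPoly_mod` : `S` is not divisible by `p` (a point of order `2` of the reduction is not a
  `p`-torsion point).
* `ssn_coeff_dvd` : if no root of `S` is integral at `A` (**supersingular case**) then `p` divides
  all the coefficients of `S` in positive degree; hence `p ∤ S(0)`.
* `ssn_val_pow` : in the supersingular case `v(x) ^ d * v(p) = 1` for every root `x` (the Newton
  polygon of `S` has one slope).
* `ssn_index_dvd` : in the supersingular case `d` divides the index in the inertia group `I` of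
  every subgroup `H ∩ I` (of finite index) fixing a root `x`.
* `ssn_not_dvd` : `d = (p² - 1) / 2` does not divide `p (p - 1)`.
-/

set_option autoImplicit false
set_option linter.unusedSectionVars false
set_option linter.unusedVariables false

noncomputable section

namespace Fermat.Agent.S40lib

open Polynomial WeierstrassCurve WeierstrassCurve.Affine Fermat.Agent.Ladder
open Fermat.Agent.S24lib Fermat.Agent.S36lib Fermat.Agent.S33lib

/-! ### a point of order `2` -/

section Two

variable {k : Type*} [Field k] [IsAlgClosed k] [DecidableEq k]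

/-- over an algebraically closed field of characteristic `≠ 2` an elliptic curve has an affine
point `P` with `P + P = 0` -/
theorem ssn_exists_two (E : WeierstrassCurve k) (h2 : (2 : k) ≠ 0) (hΔ : E.Δ ≠ 0) :
    ∃ (x y : k) (h : E.toAffine.Nonsingular x y),
      (Point.some x y h : E.toAffine.Point) + Point.some x y h = 0 := by
  have h4 : (4 : k) ≠ 0 := by
    have : (4 : k) = 2 * 2 := by norm_num
    rw [this]
    exact mul_ne_zero h2 h2
  set q : k[X] := C 4 * X ^ 3 + C E.b₂ * X ^ 2 + C (2 * E.b₄) * X + C E.b₆ with hq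
  have hdeg : q.degree = 3 := by
    rw [hq]
    exact degree_cubic h4
  have hq0 : q.degree ≠ 0 := by
    rw [hdeg]
    norm_num
  obtain ⟨x, hx⟩ := IsAlgClosed.exists_root q hq0
  have hx' : 4 * x ^ 3 + E.b₂ * x ^ 2 + 2 * E.b₄ * x + E.b₆ = 0 := by
    have := hx
    rw [IsRoot.def, hq] at this
    simpa using this
  set y : k := -(E.a₁ * x + E.a₃) / 2 with hy
  have hy2 : 2 * y = -(E.a₁ * x + E.a₃) := by
    rw [hy]
    field_simp
  have heq : E.toAffine.Equation x y := by
    rw [equation_iff]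
    have e4 : (4 : k) * (y ^ 2 + E.a₁ * x * y + E.a₃ * y
        - (x ^ 3 + E.a₂ * x ^ 2 + E.a₄ * x + E.a₆)) = 0 := by
      have e1 : (4 : k) * (y ^ 2 + E.a₁ * x * y + E.a₃ * y
          - (x ^ 3 + E.a₂ * x ^ 2 + E.a₄ * x + E.a₆))
          = (2 * y) ^ 2 + 2 * (E.a₁ * x + E.a₃) * (2 * y)
            - 4 * (x ^ 3 + E.a₂ * x ^ 2 + E.a₄ * x + E.a₆) := by ring
      rw [e1, hy2]
      simp only [WeierstrassCurve.b₂, WeierstrassCurve.b₄, WeierstrassCurve.b₆] at hx'
      linear_combination -hx'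
    have := (mul_eq_zero.mp e4).resolve_left h4
    exact sub_eq_zero.mp this
  have hns : E.toAffine.Nonsingular x y :=
    (equation_iff_nonsingular_of_Δ_ne_zero (W := E.toAffine) hΔ).mp heq
  refine ⟨x, y, hns, ?_⟩
  apply Point.add_self_of_Y_eq
  rw [negY]
  linear_combination hy2

/-- the `p`-torsion polynomial of an elliptic curve over an algebraically closed field of
characteristic `≠ 2` is not zero (`p = 2 m + 1`) -/
theorem ssn_torsPoly_ne_zero (E : WeierstrassCurve k) (h2 : (2 : k) ≠ 0) (hΔ : E.Δ ≠ 0)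
    (m : ℕ) (hm : 1 ≤ m) : torsPoly E m ≠ 0 := by
  have hEll : E.IsElliptic := ⟨hΔ.isUnit⟩
  obtain ⟨x, y, h, hP⟩ := ssn_exists_two E h2 hΔ
  intro h0
  have h1 := (odd_nsmul_eq_zero_iff (addSubMap_sym2x E) h m hm).mpr (by rw [h0, eval_zero])
  have h3 : (2 * m + 1) • (Point.some x y h : E.toAffine.Point) = Point.some x y h := by
    rw [add_smul, one_smul, mul_comm, mul_smul, two_smul, hP, smul_zero, zero_add]
  rw [h3] at h1
  exact Point.some_ne_zero h h1

end Two

/-! ### the torsion polynomial modulo `p` -/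

section ModP

variable (W : WeierstrassCurve ℤ)

/-- the `p`-torsion polynomial of a curve with good reduction at the odd prime `p = 2 m + 1` has
a coefficient which is not divisible by `p` -/
theorem ssn_torsPoly_mod (p : ℕ) (hp : p.Prime) (hp2 : p ≠ 2) (hgood : ¬ (p : ℤ) ∣ W.Δ)
    (m : ℕ) (hm : 1 ≤ m) :
    ∃ j : ℕ, ¬ (p : ℤ) ∣ (torsPoly W m).coeff j := by
  classical
  have hFact : Fact p.Prime := ⟨hp⟩
  have hChar : CharP (AlgebraicClosure (ZMod p)) p := inferInstance
  have hcast : ∀ a : ℤ, (Int.castRingHom (AlgebraicClosure (ZMod p))) a = 0 ↔ (p : ℤ) ∣ a := by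
    intro a
    rw [eq_intCast]
    exact CharP.intCast_eq_zero_iff (AlgebraicClosure (ZMod p)) p a
  have h2 : (2 : AlgebraicClosure (ZMod p)) ≠ 0 := by
    intro h
    have h' : (Int.castRingHom (AlgebraicClosure (ZMod p))) 2 = 0 := by rw [map_ofNat]; exact h
    have := (hcast 2).mp h'
    have h3 : p ∣ 2 := by exact_mod_cast this
    exact hp2 ((Nat.prime_dvd_prime_iff_eq hp Nat.prime_two).mp h3)
  have hΔ : (W.map (Int.castRingHom (AlgebraicClosure (ZMod p)))).Δ ≠ 0 := by
    rw [map_Δ]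
    intro h
    exact hgood ((hcast _).mp h)
  have hne := ssn_torsPoly_ne_zero (W.map (Int.castRingHom (AlgebraicClosure (ZMod p)))) h2 hΔ m hm
  rw [map_torsPoly] at hne
  by_contra hall
  push Not at hall
  apply hne
  ext j
  rw [coeff_map, coeff_zero]
  exact (hcast _).mpr (hall j)

end ModP

/-! ### products of polynomials `1 - y X` with `v(y) < 1` -/

section Units

variable (A : ValuationSubring Kbar)

/-- the polynomials with constant coefficient `1` and all other coefficients in the maximal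
ideal -/
def ssnOne (Q : Kbar[X]) : Prop :=
  Q.coeff 0 = 1 ∧ ∀ j : ℕ, 1 ≤ j → A.valuation (Q.coeff j) < 1

theorem ssnOne_one : ssnOne A (1 : Kbar[X]) := by
  refine ⟨by simp, fun j hj => ?_⟩
  rw [coeff_one, if_neg (by omega), map_zero]
  exact zero_lt_one

theorem ssnOne_mul {P Q : Kbar[X]} (hP : ssnOne A P) (hQ : ssnOne A Q) : ssnOne A (P * Q) := by
  have hPle : ∀ j, A.valuation (P.coeff j) ≤ 1 := by
    intro j
    rcases Nat.eq_zero_or_pos j with rfl | hj
    · rw [hP.1, map_one]
    · exact (hP.2 j hj).le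
  have hQle : ∀ j, A.valuation (Q.coeff j) ≤ 1 := by
    intro j
    rcases Nat.eq_zero_or_pos j with rfl | hj
    · rw [hQ.1, map_one]
    · exact (hQ.2 j hj).le
  refine ⟨by rw [mul_coeff_zero, hP.1, hQ.1, mul_one], fun j hj => ?_⟩
  rw [coeff_mul]
  apply Valuation.map_sum_lt _ one_ne_zero
  intro ab hab
  have hab' : ab.1 + ab.2 = j := Finset.HasAntidiagonal.mem_antidiagonal.mp hab
  rw [map_mul]
  by_cases h1 : 1 ≤ ab.1
  · calc A.valuation (P.coeff ab.1) * A.valuation (Q.coeff ab.2)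
        ≤ A.valuation (P.coeff ab.1) * 1 := mul_le_mul' le_rfl (hQle _)
      _ = A.valuation (P.coeff ab.1) := mul_one _
      _ < 1 := hP.2 _ h1
  · have h2 : 1 ≤ ab.2 := by omega
    calc A.valuation (P.coeff ab.1) * A.valuation (Q.coeff ab.2)
        ≤ 1 * A.valuation (Q.coeff ab.2) := mul_le_mul' (hPle _) le_rfl
      _ = A.valuation (Q.coeff ab.2) := one_mul _
      _ < 1 := hQ.2 _ h2

theorem ssnOne_linear {y : Kbar} (hy : A.valuation y < 1) : ssnOne A (1 - C y * X) := by
  refine ⟨by simp, fun j hj => ?_⟩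
  rw [coeff_sub, coeff_one, if_neg (by omega), zero_sub, Valuation.map_neg, coeff_C_mul,
    coeff_X, map_mul]
  by_cases h : 1 = j
  · rw [if_pos h, map_one, mul_one]
    exact hy
  · rw [if_neg h, map_zero, mul_zero]
    exact zero_lt_one

theorem ssnOne_multiset_prod (s : Multiset Kbar) (hs : ∀ y ∈ s, A.valuation y < 1) :
    ssnOne A (s.map fun y => 1 - C y * X).prod := by
  induction s using Multiset.induction_on with
  | empty =>
    rw [Multiset.map_zero, Multiset.prod_zero]
    exact ssnOne_one A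
  | cons a s ih =>
    rw [Multiset.map_cons, Multiset.prod_cons]
    exact ssnOne_mul A (ssnOne_linear A (hs a (Multiset.mem_cons_self a s)))
      (ih fun y hy => hs y (Multiset.mem_cons_of_mem hy))

/-- a polynomial over `ℚ̄` all of whose roots are non-integral is its constant coefficient times
a polynomial in `1 + 𝔪 X A[X]` -/
theorem ssn_factor (S : Kbar[X]) (hS : S ≠ 0) (hroots : ∀ x : Kbar, S.eval x = 0 → x ∉ A) :
    ∃ Q : Kbar[X], ssnOne A Q ∧ S = C (S.coeff 0) * Q := by
  classical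
  have hsplit : S.Splits := IsAlgClosed.splits S
  have hprod := hsplit.eq_prod_roots
  have hr0 : ∀ x ∈ S.roots, x ≠ 0 := by
    intro x hx h0
    have := hroots x ((mem_roots hS).mp hx)
    rw [h0] at this
    exact this (zero_mem A)
  have hry : ∀ y ∈ S.roots.map (fun x => x⁻¹), A.valuation y < 1 := by
    intro y hy
    obtain ⟨x, hx, rfl⟩ := Multiset.mem_map.mp hy
    have hxA := hroots x ((mem_roots hS).mp hx)
    have h1 : 1 < A.valuation x := by
      by_contra hle
      rw [not_lt] at hle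
      exact hxA ((A.valuation_le_one_iff x).mp hle)
    rw [map_inv₀]
    exact inv_lt_one_of_one_lt₀ h1
  have hQ := ssnOne_multiset_prod A (S.roots.map fun x => x⁻¹) hry
  rw [Multiset.map_map] at hQ
  -- `X - C x = C (-x) * (1 - C x⁻¹ * X)`
  have hlin : ∀ x ∈ S.roots, (X - C x : Kbar[X]) = C (-x) * (1 - C x⁻¹ * X) := by
    intro x hx
    have hx0 := hr0 x hx
    rw [mul_sub, mul_one, ← mul_assoc, ← C_mul, neg_mul, mul_inv_cancel₀ hx0]
    simp
    ring
  have hmap : (S.roots.map fun x => (X - C x : Kbar[X]))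
      = S.roots.map fun x => C (-x) * (1 - C x⁻¹ * X) :=
    Multiset.map_congr rfl hlin
  rw [hmap, Multiset.prod_map_mul] at hprod
  set Q : Kbar[X] := (S.roots.map ((fun y => 1 - C y * X) ∘ fun x => x⁻¹)).prod with hQdef
  have hQ' : (S.roots.map fun x => (1 - C x⁻¹ * X : Kbar[X])).prod = Q := rfl
  rw [hQ'] at hprod
  have hconst : (S.roots.map fun x => (C (-x) : Kbar[X])).prod
      = C ((S.roots.map fun x => -x).prod) := by
    rw [← Multiset.prod_hom (S.roots.map fun x => -x) (C : Kbar →+* Kbar[X]), Multiset.map_map]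
    rfl
  rw [hconst, ← mul_assoc, ← C_mul] at hprod
  have h0 : S.coeff 0 = S.leadingCoeff * (S.roots.map fun x => -x).prod := by
    conv_lhs => rw [hprod]
    rw [coeff_C_mul, hQ.1, mul_one]
  refine ⟨Q, hQ, ?_⟩
  rw [h0]
  exact hprod

end Units

/-! ### the Newton polygon -/

section Newton

variable (W : WeierstrassCurve ℤ) (A : ValuationSubring Kbar)

/-- **supersingular case**: `p` divides the coefficients of positive degree of the torsion
polynomial -/
theorem ssn_coeff_dvd (p : ℕ) (hp : p.Prime) (hA : A.LiesOverPrime p) (m : ℕ)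
    (hS0 : torsPoly W m ≠ 0)
    (hss : ∀ x : Kbar, ((torsPoly W m).map (algebraMap ℤ Kbar)).eval x = 0 → x ∉ A)
    (j : ℕ) (hj : 1 ≤ j) : (p : ℤ) ∣ (torsPoly W m).coeff j := by
  have hinj : Function.Injective (algebraMap ℤ Kbar) := (algebraMap ℤ Kbar).injective_int
  have hSK : (torsPoly W m).map (algebraMap ℤ Kbar) ≠ 0 :=
    (Polynomial.map_ne_zero_iff hinj).mpr hS0
  obtain ⟨Q, hQ, hfac⟩ := ssn_factor A _ hSK hss
  by_contra hnd
  have h1 := k0_val_int_eq_one A p hp hA _ hnd
  have h2 : (((torsPoly W m).coeff j : ℤ) : Kbar)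
      = ((torsPoly W m).map (algebraMap ℤ Kbar)).coeff 0 * Q.coeff j := by
    conv_lhs => rw [← eq_intCast (algebraMap ℤ Kbar), ← coeff_map, hfac]
    rw [coeff_C_mul]
  rw [h2, map_mul] at h1
  have h3 : A.valuation (((torsPoly W m).map (algebraMap ℤ Kbar)).coeff 0) ≤ 1 := by
    rw [coeff_map, eq_intCast, A.valuation_le_one_iff]
    exact intCast_mem A _
  have h4 := hQ.2 j hj
  have h5 : A.valuation (((torsPoly W m).map (algebraMap ℤ Kbar)).coeff 0)
      * A.valuation (Q.coeff j) < 1 := by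
    calc A.valuation (((torsPoly W m).map (algebraMap ℤ Kbar)).coeff 0)
          * A.valuation (Q.coeff j)
        ≤ 1 * A.valuation (Q.coeff j) := mul_le_mul' h3 le_rfl
      _ = A.valuation (Q.coeff j) := one_mul _
      _ < 1 := h4
  rw [h1] at h5
  exact lt_irrefl _ h5

/-- **supersingular case, the Newton polygon has one slope**: `v(x) ^ d * v(p) = 1` for every
root `x` of the `p`-torsion polynomial, `d = 2 m ^ 2 + 2 m = (p ^ 2 - 1) / 2`. -/
theorem ssn_val_pow (p : ℕ) (hp : p.Prime) (hp2 : p ≠ 2) (hgood : ¬ (p : ℤ) ∣ W.Δ)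
    (hA : A.LiesOverPrime p) (m : ℕ) (hm : 1 ≤ m) (hpm : p = 2 * m + 1)
    (hss : ∀ x : Kbar, ((torsPoly W m).map (algebraMap ℤ Kbar)).eval x = 0 → x ∉ A)
    (x : Kbar) (hx : ((torsPoly W m).map (algebraMap ℤ Kbar)).eval x = 0) :
    A.valuation x ^ (2 * m ^ 2 + 2 * m) * A.valuation (p : Kbar) = 1 := by
  classical
  obtain ⟨j0, hj0⟩ := ssn_torsPoly_mod W p hp hp2 hgood m hm
  have hS0 : torsPoly W m ≠ 0 := by
    intro h
    apply hj0
    rw [h, coeff_zero]
    exact dvd_zero _
  have hdvd := ssn_coeff_dvd W A p hp hA m hS0 hss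
  have htop := top_torsPoly W m hm
  set S := torsPoly W m with hS
  set d := 2 * m ^ 2 + 2 * m with hd
  have hd1 : 1 ≤ d := by
    have : 1 ≤ m ^ 2 := Nat.one_le_pow _ _ hm
    omega
  have hlead : S.coeff d = -(p : ℤ) := by
    rw [htop.co, hpm]
    push_cast
    ring
  have hdeg : S.natDegree ≤ d := htop.le
  have hj00 : j0 = 0 := by
    by_contra h
    exact hj0 (hdvd j0 (Nat.one_le_iff_ne_zero.mpr h))
  rw [hj00] at hj0
  have hv0 : A.valuation ((S.coeff 0 : ℤ) : Kbar) = 1 := k0_val_int_eq_one A p hp hA _ hj0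
  have hvp_lt : A.valuation (p : Kbar) < 1 := k0_val_q_lt_one A p hA
  have hvp_ne : A.valuation (p : Kbar) ≠ 0 := k0_val_q_ne_zero A p hp
  -- `x` is not integral
  have hxA := hss x hx
  have hx1 : 1 < A.valuation x := by
    by_contra hle
    rw [not_lt] at hle
    exact hxA ((A.valuation_le_one_iff x).mp hle)
  have hx0 : x ≠ 0 := by
    intro h
    rw [h, map_zero] at hx1
    exact not_lt.mpr zero_le_one hx1
  set y := x⁻¹ with hy
  have hvy : A.valuation y < 1 := by
    rw [hy, map_inv₀]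
    exact inv_lt_one_of_one_lt₀ hx1
  have hxy : x * y = 1 := mul_inv_cancel₀ hx0
  -- the equation, multiplied by `y ^ d`
  have hsum : ∑ i ∈ Finset.range (d + 1), ((S.coeff i : ℤ) : Kbar) * y ^ (d - i) = 0 := by
    have h1 : (S.map (algebraMap ℤ Kbar)).eval x
        = ∑ i ∈ Finset.range (d + 1), ((S.coeff i : ℤ) : Kbar) * x ^ i := by
      rw [eval_eq_sum_range' (n := d + 1) (by
        have := natDegree_map_le (f := algebraMap ℤ Kbar) (p := S)
        omega)]
      refine Finset.sum_congr rfl fun i _ => ?_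
      rw [coeff_map, eq_intCast]
    rw [h1] at hx
    have h2 : (∑ i ∈ Finset.range (d + 1), ((S.coeff i : ℤ) : Kbar) * x ^ i) * y ^ d = 0 := by
      rw [hx, zero_mul]
    rw [Finset.sum_mul] at h2
    rw [← h2]
    refine Finset.sum_congr rfl fun i hi => ?_
    have hid : i ≤ d := Nat.lt_succ_iff.mp (Finset.mem_range.mp hi)
    have e : y ^ d = y ^ i * y ^ (d - i) := by rw [← pow_add, Nat.add_sub_cancel' hid]
    rw [e, mul_assoc, ← mul_assoc (x ^ i), ← mul_pow, hxy, one_pow, one_mul]
  -- split off the terms `i = d` and `i = 0`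
  rw [Finset.sum_range_succ, Nat.sub_self, pow_zero, mul_one] at hsum
  obtain ⟨d', hd'⟩ : ∃ d', d = d' + 1 := ⟨d - 1, by omega⟩
  rw [hd', Finset.sum_range_succ'] at hsum
  rw [← hd'] at hsum
  simp only [Nat.sub_zero] at hsum
  -- the middle terms are small
  have hmid : A.valuation (∑ i ∈ Finset.range d',
      ((S.coeff (i + 1) : ℤ) : Kbar) * y ^ (d - (i + 1))) < A.valuation (p : Kbar) := by
    apply Valuation.map_sum_lt _ hvp_ne
    intro i hi
    have hi' : i < d' := Finset.mem_range.mp hi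
    obtain ⟨c, hc⟩ := hdvd (i + 1) (by omega)
    have hcv : A.valuation ((c : ℤ) : Kbar) ≤ 1 := by
      rw [A.valuation_le_one_iff]
      exact intCast_mem A c
    have hpos : 1 ≤ d - (i + 1) := by omega
    have hyp : A.valuation y ^ (d - (i + 1)) < 1 := pow_lt_one₀ zero_le hvy (by omega)
    rw [hc]
    push_cast
    rw [map_mul, map_mul, map_pow]
    calc A.valuation (p : Kbar) * A.valuation (c : Kbar) * A.valuation y ^ (d - (i + 1))
        ≤ A.valuation (p : Kbar) * 1 * A.valuation y ^ (d - (i + 1)) := by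
          gcongr
      _ = A.valuation (p : Kbar) * A.valuation y ^ (d - (i + 1)) := by rw [mul_one]
      _ < A.valuation (p : Kbar) * 1 := by
          exact mul_lt_mul_of_pos_left hyp (zero_lt_iff.mpr hvp_ne)
      _ = A.valuation (p : Kbar) := mul_one _
  -- conclude
  have hlead' : A.valuation ((S.coeff d : ℤ) : Kbar) = A.valuation (p : Kbar) := by
    rw [hlead]
    push_cast
    rw [Valuation.map_neg]
  have h0 : ((S.coeff 0 : ℤ) : Kbar) * y ^ d
      = -(∑ i ∈ Finset.range d', ((S.coeff (i + 1) : ℤ) : Kbar) * y ^ (d - (i + 1))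
          + ((S.coeff d : ℤ) : Kbar)) := by
    linear_combination hsum
  have hval : A.valuation (((S.coeff 0 : ℤ) : Kbar) * y ^ d) = A.valuation (p : Kbar) := by
    rw [h0, Valuation.map_neg, Valuation.map_add_eq_of_lt_right _ (by rw [hlead']; exact hmid),
      hlead']
  rw [map_mul, hv0, one_mul, map_pow, hy, map_inv₀] at hval
  rw [← hval, ← mul_pow, mul_inv_cancel₀ (by rwa [Ne, map_eq_zero]), one_pow]

/-- **supersingular case**: `d = (p ^ 2 - 1) / 2` divides the index in the inertia group of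
every subgroup `H ∩ I` of finite index which fixes the `x`-coordinate of a nonzero `p`-torsion
point. -/
theorem ssn_index_dvd (p : ℕ) (hp : p.Prime) (hp2 : p ≠ 2) (hgood : ¬ (p : ℤ) ∣ W.Δ)
    (hA : A.LiesOverPrime p) (m : ℕ) (hm : 1 ≤ m) (hpm : p = 2 * m + 1)
    (hss : ∀ x : Kbar, ((torsPoly W m).map (algebraMap ℤ Kbar)).eval x = 0 → x ∉ A)
    (x : Kbar) (hx : ((torsPoly W m).map (algebraMap ℤ Kbar)).eval x = 0)
    (H : Subgroup (Kbar ≃ₐ[ℚ] Kbar))
    (hfin : (H.subgroupOf (A.inertiaSubgroupIn ℚ)).FiniteIndex)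
    (hfix : ∀ σ ∈ H, σ ∈ A.inertiaSubgroupIn ℚ → σ x = x) :
    (2 * m ^ 2 + 2 * m) ∣ (H.subgroupOf (A.inertiaSubgroupIn ℚ)).index := by
  have hv := ssn_val_pow W A p hp hp2 hgood hA m hm hpm hss x hx
  have hvp_lt : A.valuation (p : Kbar) < 1 := k0_val_q_lt_one A p hA
  have hvp_ne : A.valuation (p : Kbar) ≠ 0 := k0_val_q_ne_zero A p hp
  have hx0 : x ≠ 0 := by
    intro h
    exact hss x hx (h ▸ zero_mem A)
  obtain ⟨n, hn⟩ := lvv_val_pow A hp hA H hfin x hx0 hfix
  set e := (H.subgroupOf (A.inertiaSubgroupIn ℚ)).index with he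
  set d := 2 * m ^ 2 + 2 * m with hd
  -- `v(p) ^ (n d + e) = 1`
  have h1 : A.valuation (p : Kbar) ^ (n * (d : ℤ) + (e : ℤ)) = 1 := by
    rw [zpow_add₀ hvp_ne, zpow_mul, ← hn, zpow_natCast, zpow_natCast, ← pow_mul, mul_comm e d,
      pow_mul, ← mul_pow, hv, one_pow]
  have h2 := (zpow_eq_one_iff_right₀ zero_le hvp_lt.ne).mp h1
  have h3 : (e : ℤ) = -n * (d : ℤ) := by linarith
  have h4 : (d : ℤ) ∣ (e : ℤ) := ⟨-n, by rw [h3]; ring⟩
  exact_mod_cast h4

end Newton

/-! ### arithmetic -/

/-- `(p² - 1) / 2 = 2 m² + 2 m` does not divide `p (p - 1) = (2 m + 1) (2 m)` -/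
theorem ssn_not_dvd (m : ℕ) (hm : 1 ≤ m) : ¬ (2 * m ^ 2 + 2 * m) ∣ (2 * m + 1) * (2 * m) := by
  intro h
  have e1 : 2 * m ^ 2 + 2 * m = (m + 1) * (2 * m) := by ring
  rw [e1] at h
  have h2 : 0 < 2 * m := by omega
  have h3 : (m + 1) ∣ (2 * m + 1) := (Nat.mul_dvd_mul_iff_right h2).mp h
  have h4 : (m + 1) ∣ 2 * (m + 1) := dvd_mul_left _ _
  have h5 : (m + 1) ∣ 2 * (m + 1) - (2 * m + 1) := Nat.dvd_sub h4 h3
  have h6 : 2 * (m + 1) - (2 * m + 1) = 1 := by omega
  rw [h6] at h5
  have := Nat.le_of_dvd one_pos h5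
  omega

end Fermat.Agent.S40lib

end
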