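import Mathlib
import Fermat.Agent.S40lib.SSNewton
import Fermat.Agent.S40lib.Hub

/-!
# Item 88 (S40), piece (W1-ss) (helper7): the supersingular shape `S40hSS`

`W : WeierstrassCurve ℤ` with good reduction at the odd prime `p = 2 m + 1`, `B` a valuation
subring of `ℚ̄` over `p`.

* `ssnE W` : the curve over `ℚ̄` of the hub (`S40hWp W p` is its `p`-torsion);
* `ssn_root_iff` : `x`-coordinates of the non-zero `p`-torsion points = roots of `torsPoly W m`;
* `ssn_exists_point` : every root is the `x`-coordinate of a `p`-torsion point;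
* `ssn_shape` : **supersingular case** (no root of the `p`-torsion polynomial is integral at
  `B`) `⇒ S40hSS W p B`;
* `ssn_ord_point` : otherwise there is a non-zero `p`-torsion point with integral
  `x`-coordinate (the entry of the ordinary case).
-/

set_option autoImplicit false
set_option linter.unusedSectionVars false
set_option linter.unusedVariables false
set_option linter.style.haveILetI false

noncomputable section

namespace Fermat.Agent.S40lib

open Polynomial WeierstrassCurve WeierstrassCurve.Affine WeierstrassCurve.Affine.Point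
open Fermat.Agent.Ladder Fermat.Agent.S24lib Fermat.Agent.S36lib Fermat.Agent.S33lib
open Fermat.Agent.S31lib Fermat.Agent.GalRep

/-- the curve over `ℚ̄` -/
abbrev ssnE (W : WeierstrassCurve ℤ) : WeierstrassCurve.Affine (AlgebraicClosure ℚ) :=
  (W.map (Int.castRingHom ℚ)).toAffine⁄(AlgebraicClosure ℚ)

theorem ssnE_torsPoly (W : WeierstrassCurve ℤ) (m : ℕ) :
    torsPoly (ssnE W) m = (torsPoly W m).map (algebraMap ℤ (AlgebraicClosure ℚ)) := by
  change torsPoly ((W.map (Int.castRingHom ℚ)).map (algebraMap ℚ (AlgebraicClosure ℚ))) m = _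
  rw [map_torsPoly, map_torsPoly, Polynomial.map_map,
    show (algebraMap ℚ (AlgebraicClosure ℚ)).comp (Int.castRingHom ℚ)
      = algebraMap ℤ (AlgebraicClosure ℚ) from RingHom.ext_int _ _]

theorem ssnE_Δ_ne_zero (W : WeierstrassCurve ℤ) (hΔ : W.Δ ≠ 0) : (ssnE W).Δ ≠ 0 := by
  change ((W.map (Int.castRingHom ℚ)).map (algebraMap ℚ (AlgebraicClosure ℚ))).Δ ≠ 0
  rw [map_Δ, map_Δ, _root_.map_ne_zero, eq_intCast, Int.cast_ne_zero]
  exact hΔ

/-- the `x`-coordinates of the non-zero points killed by `2 m + 1` are the roots of the torsion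
polynomial -/
theorem ssn_root_iff (W : WeierstrassCurve ℤ) (hΔ : W.Δ ≠ 0) (m : ℕ) (hm : 1 ≤ m)
    {x y : AlgebraicClosure ℚ} (h : (ssnE W).Nonsingular x y) :
    (2 * m + 1) • (Point.some x y h : (ssnE W).Point) = 0 ↔
      ((torsPoly W m).map (algebraMap ℤ (AlgebraicClosure ℚ))).eval x = 0 := by
  haveI : (ssnE W).IsElliptic := ⟨(ssnE_Δ_ne_zero W hΔ).isUnit⟩
  rw [odd_nsmul_eq_zero_iff (addSubMap_sym2x (ssnE W)) h m hm, ssnE_torsPoly]

/-- every `x` is the `x`-coordinate of a point -/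
theorem ssn_exists_y (W : WeierstrassCurve ℤ) (hΔ : W.Δ ≠ 0) (x : AlgebraicClosure ℚ) :
    ∃ y : AlgebraicClosure ℚ, (ssnE W).Nonsingular x y := by
  obtain ⟨y, hy⟩ := IsAlgClosed.exists_root
    (X ^ 2 + C ((ssnE W).a₁ * x + (ssnE W).a₃) * X
      - C (x ^ 3 + (ssnE W).a₂ * x ^ 2 + (ssnE W).a₄ * x + (ssnE W).a₆) : (AlgebraicClosure ℚ)[X])
    (by
      have : (X ^ 2 + C ((ssnE W).a₁ * x + (ssnE W).a₃) * X
          - C (x ^ 3 + (ssnE W).a₂ * x ^ 2 + (ssnE W).a₄ * x + (ssnE W).a₆) :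
            (AlgebraicClosure ℚ)[X]).degree = 2 := by
        compute_degree!
      rw [this]
      norm_num)
  refine ⟨y, (equation_iff_nonsingular_of_Δ_ne_zero (W := (ssnE W).toAffine)
    (ssnE_Δ_ne_zero W hΔ)).mp ?_⟩
  rw [equation_iff]
  simp only [IsRoot.def, eval_sub, eval_add, eval_pow, eval_X, eval_mul, eval_C] at hy
  linear_combination hy

/-- every root of the torsion polynomial is the `x`-coordinate of a point killed by `2 m + 1` -/
theorem ssn_exists_point (W : WeierstrassCurve ℤ) (hΔ : W.Δ ≠ 0) (m : ℕ) (hm : 1 ≤ m)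
    (x : AlgebraicClosure ℚ)
    (hx : ((torsPoly W m).map (algebraMap ℤ (AlgebraicClosure ℚ))).eval x = 0) :
    ∃ (y : AlgebraicClosure ℚ) (h : (ssnE W).Nonsingular x y),
      (2 * m + 1) • (Point.some x y h : (ssnE W).Point) = 0 := by
  obtain ⟨y, h⟩ := ssn_exists_y W hΔ x
  exact ⟨y, h, (ssn_root_iff W hΔ m hm h).mpr hx⟩

/-- the torsion polynomial has a root in `ℚ̄` -/
theorem ssn_exists_root (W : WeierstrassCurve ℤ) (m : ℕ) (hm : 1 ≤ m) :
    ∃ x : AlgebraicClosure ℚ,
      ((torsPoly W m).map (algebraMap ℤ (AlgebraicClosure ℚ))).eval x = 0 := by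
  have htop := top_torsPoly W m hm
  have hd1 : 1 ≤ 2 * m ^ 2 + 2 * m := by
    have : 1 ≤ m ^ 2 := Nat.one_le_pow _ _ hm
    omega
  have hco : ((torsPoly W m).map (algebraMap ℤ (AlgebraicClosure ℚ))).coeff (2 * m ^ 2 + 2 * m)
      ≠ 0 := by
    rw [coeff_map, htop.co, eq_intCast, Int.cast_ne_zero]
    have : (0 : ℤ) < 2 * (m : ℤ) + 1 := by positivity
    omega
  have hdeg : ((torsPoly W m).map (algebraMap ℤ (AlgebraicClosure ℚ))).degree ≠ 0 := by
    intro h0
    apply hco
    apply coeff_eq_zero_of_natDegree_lt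
    rw [natDegree_eq_zero_iff_degree_le_zero.mpr (le_of_eq h0)]
    omega
  obtain ⟨x, hx⟩ := IsAlgClosed.exists_root _ hdeg
  exact ⟨x, hx⟩

/-- membership in `W[p]` -/
theorem ssn_mem_torsionBy (W : WeierstrassCurve ℤ) (p : ℕ) (P : (ssnE W).Point)
    (hP : p • P = 0) :
    P ∈ Submodule.torsionBy ℤ
      ((W.map (Int.castRingHom ℚ)).toAffine⁄(AlgebraicClosure ℚ)).Point ((p : ℕ) : ℤ) := by
  refine (Submodule.mem_torsionBy_iff _ _).mpr ?_
  exact (natCast_zsmul P p).trans hP

/-- the `x`-coordinate (`0` at the origin) -/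
def ssnX (W : WeierstrassCurve ℤ) : (ssnE W).Point → AlgebraicClosure ℚ
  | .zero => 0
  | .some x _ _ => x

/-- the Galois action on the coordinates -/
theorem ssn_fix_x (W : WeierstrassCurve ℤ) (p : ℕ)
    (τ : AlgebraicClosure ℚ ≃ₐ[ℚ] AlgebraicClosure ℚ) {x y : AlgebraicClosure ℚ}
    (h : (ssnE W).Nonsingular x y)
    (hmem : (Point.some x y h : (ssnE W).Point) ∈ Submodule.torsionBy ℤ
      ((W.map (Int.castRingHom ℚ)).toAffine⁄(AlgebraicClosure ℚ)).Point ((p : ℕ) : ℤ))
    (hfix : τ • (⟨Point.some x y h, hmem⟩ : S40hWp W p) = ⟨Point.some x y h, hmem⟩) :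
    τ x = x := by
  have h1 := congrArg Subtype.val hfix
  exact congrArg (ssnX W) h1

/-- the index in the inertia group of the kernel of the mod `p` cyclotomic character is at most
`p` -/
theorem ssn_index_ker_le (p : ℕ) [Fact p.Prime] (B : ValuationSubring (AlgebraicClosure ℚ)) :
    (((cycChi p 1).ker).subgroupOf (B.inertiaSubgroupIn ℚ)).index ≤ p := by
  have hp : p.Prime := Fact.out
  haveI : NeZero (p ^ 1) := ⟨pow_ne_zero _ hp.ne_zero⟩
  have h1 : (((cycChi p 1).ker).subgroupOf (B.inertiaSubgroupIn ℚ)).index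
      = Nat.card ((B.inertiaSubgroupIn ℚ).map (cycChi p 1)) :=
    Subgroup.relIndex_ker (cycChi p 1) (K := B.inertiaSubgroupIn ℚ)
  rw [h1]
  calc Nat.card ((B.inertiaSubgroupIn ℚ).map (cycChi p 1))
      ≤ Nat.card (ZMod (p ^ 1))ˣ := Subgroup.card_le_card_group _
    _ ≤ Nat.card (ZMod (p ^ 1)) := Nat.card_le_card_of_injective _ Units.val_injective
    _ = p := by rw [Nat.card_zmod, pow_one]

/-- **(W1), supersingular case**: if no root of the `p`-torsion polynomial is integral at `B`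
then the inertia group acts non-trivially on `W[p]` and has no non-zero `ω`-eigenvector. -/
theorem ssn_shape (W : WeierstrassCurve ℤ) (p : ℕ) [Fact p.Prime] (hp2 : p ≠ 2)
    (hgood : ¬ (p : ℤ) ∣ W.Δ)
    (B : ValuationSubring (AlgebraicClosure ℚ)) (hB : B.LiesOverPrime p)
    (m : ℕ) (hpm : p = 2 * m + 1)
    (hss : ∀ x : AlgebraicClosure ℚ,
      ((torsPoly W m).map (algebraMap ℤ (AlgebraicClosure ℚ))).eval x = 0 → x ∉ B) :
    S40hSS W p B := by
  have hp : p.Prime := Fact.out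
  have hm : 1 ≤ m := by
    have := hp.two_le
    omega
  have hΔ : W.Δ ≠ 0 := by
    intro h
    apply hgood
    rw [h]
    exact dvd_zero _
  have hd4 : 4 ≤ 2 * m ^ 2 + 2 * m := by
    have : 1 ≤ m ^ 2 := Nat.one_le_pow _ _ hm
    omega
  have hdp : p < 2 * m ^ 2 + 2 * m := by
    have : m ≤ m ^ 2 := by
      calc m = m * 1 := (mul_one m).symm
        _ ≤ m * m := Nat.mul_le_mul_left m hm
        _ = m ^ 2 := (sq m).symm
    omega
  refine ⟨?_, ?_⟩
  · -- inertia acts non-trivially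
    by_contra hall
    push Not at hall
    obtain ⟨x, hx⟩ := ssn_exists_root W m hm
    obtain ⟨y, h, hP⟩ := ssn_exists_point W hΔ m hm x hx
    rw [← hpm] at hP
    have hmem := ssn_mem_torsionBy W p _ hP
    have hfix : ∀ σ ∈ (⊤ : Subgroup (AlgebraicClosure ℚ ≃ₐ[ℚ] AlgebraicClosure ℚ)),
        σ ∈ B.inertiaSubgroupIn ℚ → σ x = x := by
      intro σ _ hσ
      exact ssn_fix_x W p σ h hmem (hall σ hσ ⟨_, hmem⟩)
    have hfin : ((⊤ : Subgroup (AlgebraicClosure ℚ ≃ₐ[ℚ] AlgebraicClosure ℚ)).subgroupOf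
        (B.inertiaSubgroupIn ℚ)).FiniteIndex := inferInstance
    have hdvd := ssn_index_dvd W B p hp hp2 hgood hB m hm hpm hss x hx ⊤ hfin hfix
    rw [Subgroup.top_subgroupOf, Subgroup.index_top] at hdvd
    have := Nat.le_of_dvd one_pos hdvd
    omega
  · -- no `ω`-eigenvector
    intro P hω
    by_contra hP0
    obtain ⟨P1, hmem⟩ := P
    rcases P1 with _ | ⟨x, y, h⟩
    · exact hP0 rfl
    · have hP : (2 * m + 1) • (Point.some x y h : (ssnE W).Point) = 0 := by
        have h1 := (Submodule.mem_torsionBy_iff _ _).mp hmem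
        rw [natCast_zsmul, hpm] at h1
        exact h1
      have hx := (ssn_root_iff W hΔ m hm h).mp hP
      have hfix : ∀ σ ∈ (cycChi p 1).ker, σ ∈ B.inertiaSubgroupIn ℚ → σ x = x := by
        intro σ hσ hσI
        have h1 := hω σ hσI
        have h2 : cycChi p 1 σ = 1 := MonoidHom.mem_ker.mp hσ
        have h3 : ((cycChi p 1 σ : (ZMod (p ^ 1))ˣ) : ZMod (p ^ 1)).val = 1 := by
          rw [h2, Units.val_one]
          apply ZMod.val_one''
          rw [pow_one]
          exact hp.one_lt.ne'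
        rw [h3, one_smul] at h1
        exact ssn_fix_x W p σ h hmem h1
      haveI : NeZero (p ^ 1) := ⟨pow_ne_zero _ hp.ne_zero⟩
      have hfin : (((cycChi p 1).ker).subgroupOf (B.inertiaSubgroupIn ℚ)).FiniteIndex :=
        inferInstance
      have hdvd := ssn_index_dvd W B p hp hp2 hgood hB m hm hpm hss x hx _ hfin hfix
      have hle := ssn_index_ker_le p B
      have hpos : 0 < (((cycChi p 1).ker).subgroupOf (B.inertiaSubgroupIn ℚ)).index :=
        Nat.pos_of_ne_zero hfin.index_ne_zero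
      have := Nat.le_of_dvd hpos hdvd
      omega

/-- **entry of the ordinary case**: if some root of the `p`-torsion polynomial is integral at `B`
then there is a non-zero `p`-torsion point with integral `x`-coordinate. -/
theorem ssn_ord_point (W : WeierstrassCurve ℤ) (p : ℕ) (hΔ : W.Δ ≠ 0)
    (B : ValuationSubring (AlgebraicClosure ℚ))
    (m : ℕ) (hm : 1 ≤ m) (hpm : p = 2 * m + 1)
    (hnss : ¬ ∀ x : AlgebraicClosure ℚ,
      ((torsPoly W m).map (algebraMap ℤ (AlgebraicClosure ℚ))).eval x = 0 → x ∉ B) :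
    ∃ (x y : AlgebraicClosure ℚ) (h : (ssnE W).Nonsingular x y),
      p • (Point.some x y h : (ssnE W).Point) = 0 ∧ x ∈ B := by
  push Not at hnss
  obtain ⟨x, hx, hxB⟩ := hnss
  obtain ⟨y, h, hP⟩ := ssn_exists_point W hΔ m hm x hx
  rw [← hpm] at hP
  exact ⟨x, y, h, hP, hxB⟩

/-- **(W1) from the ordinary case**: the dichotomy supersingular / ordinary. -/
theorem ssn_W1 (W : WeierstrassCurve ℤ) (p : ℕ) [Fact p.Prime] (hp2 : p ≠ 2)
    (hgood : ¬ (p : ℤ) ∣ W.Δ)
    (B : ValuationSubring (AlgebraicClosure ℚ)) (hB : B.LiesOverPrime p)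
    (hord : ∀ (x y : AlgebraicClosure ℚ) (h : (ssnE W).Nonsingular x y),
      p • (Point.some x y h : (ssnE W).Point) = 0 → x ∈ B → S40hOrd W p B) :
    S40hSS W p B ∨ S40hOrd W p B := by
  have hp : p.Prime := Fact.out
  obtain ⟨m, hpm⟩ : ∃ m, p = 2 * m + 1 := by
    rcases hp.eq_two_or_odd with h | h
    · exact absurd h hp2
    · exact ⟨p / 2, by omega⟩
  have hm : 1 ≤ m := by
    have := hp.two_le
    omega
  have hΔ : W.Δ ≠ 0 := by
    intro h
    apply hgood
    rw [h]
    exact dvd_zero _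
  by_cases hss : ∀ x : AlgebraicClosure ℚ,
      ((torsPoly W m).map (algebraMap ℤ (AlgebraicClosure ℚ))).eval x = 0 → x ∉ B
  · exact Or.inl (ssn_shape W p hp2 hgood B hB m hpm hss)
  · obtain ⟨x, y, h, hP, hxB⟩ := ssn_ord_point W p hΔ B m hm hpm hss
    exact Or.inr (hord x y h hP hxB)

end Fermat.Agent.S40lib

end
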