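import Mathlib
import Fermat.Agent.S40lib.SSShape
import Fermat.Agent.S40lib.Final2

/-!
# Item 88 (S40), piece (W1-ss) (helper7): the supersingular shape, STABILISER form

`W : WeierstrassCurve ℤ` with good reduction at the odd prime `p = 2 m + 1`, `B` a valuation
subring of `ℚ̄` over `p`.

* `ssn_index_fix_le` : the index in the inertia group of the stabiliser of a primitive `p`-th
  root of unity is positive and at most `p`;
* `ssn_shape2` : **supersingular case** (no root of the `p`-torsion polynomial is integral at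
  `B`): no point `P ≠ 0` of `W[p]` is fixed by `S40hI1 p B` (first disjunct of `S40hW1`);
* `ssn_W1b` : `S40hW1 W p B PP` from the ordinary case alone (for any `PP`).
-/

set_option autoImplicit false
set_option linter.unusedSectionVars false
set_option linter.unusedVariables false
set_option linter.style.haveILetI false

noncomputable section

namespace Fermat.Agent.S40lib

open Polynomial WeierstrassCurve WeierstrassCurve.Affine WeierstrassCurve.Affine.Point
open Fermat.Agent.Ladder Fermat.Agent.S24lib Fermat.Agent.S36lib Fermat.Agent.S33lib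
open Fermat.Agent.S31lib Fermat.Agent.GalRep

/-- the stabiliser of `ζ` in the Galois group has positive index at most `p` (`ζ ^ p = 1`) -/
theorem ssn_index_stab (p : ℕ) (hp : 0 < p) (ζ : AlgebraicClosure ℚ) (hζ : ζ ^ p = 1) :
    (MulAction.stabilizer (AlgebraicClosure ℚ ≃ₐ[ℚ] AlgebraicClosure ℚ) ζ).index ≠ 0 ∧
    (MulAction.stabilizer (AlgebraicClosure ℚ ≃ₐ[ℚ] AlgebraicClosure ℚ) ζ).index ≤ p := by
  classical
  rw [MulAction.index_stabilizer]
  have hsub : MulAction.orbit (AlgebraicClosure ℚ ≃ₐ[ℚ] AlgebraicClosure ℚ) ζ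
      ⊆ ((nthRootsFinset p (1 : AlgebraicClosure ℚ) : Finset (AlgebraicClosure ℚ)) :
        Set (AlgebraicClosure ℚ)) := by
    rintro t ⟨σ, rfl⟩
    rw [Finset.mem_coe, mem_nthRootsFinset hp]
    change (σ ζ) ^ p = 1
    rw [← map_pow, hζ, map_one]
  have hfin : (MulAction.orbit (AlgebraicClosure ℚ ≃ₐ[ℚ] AlgebraicClosure ℚ) ζ).Finite :=
    (Finset.finite_toSet _).subset hsub
  refine ⟨?_, ?_⟩
  · rw [Ne, Set.ncard_eq_zero hfin]
    exact (MulAction.nonempty_orbit ζ).ne_empty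
  · calc (MulAction.orbit (AlgebraicClosure ℚ ≃ₐ[ℚ] AlgebraicClosure ℚ) ζ).ncard
        ≤ ((nthRootsFinset p (1 : AlgebraicClosure ℚ) : Finset (AlgebraicClosure ℚ)) :
          Set (AlgebraicClosure ℚ)).ncard := Set.ncard_le_ncard hsub (Finset.finite_toSet _)
      _ = (nthRootsFinset p (1 : AlgebraicClosure ℚ)).card := Set.ncard_coe_finset _
      _ ≤ Multiset.card (nthRoots p (1 : AlgebraicClosure ℚ)) := Multiset.toFinset_card_le _
      _ ≤ p := card_nthRoots p 1

/-- the index in the inertia group of the stabiliser of `ζ` is positive and at most `p` -/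
theorem ssn_index_fix_le (p : ℕ) (hp : 0 < p) (B : ValuationSubring (AlgebraicClosure ℚ))
    (ζ : AlgebraicClosure ℚ) (hζ : ζ ^ p = 1) :
    ((MulAction.stabilizer (AlgebraicClosure ℚ ≃ₐ[ℚ] AlgebraicClosure ℚ) ζ).subgroupOf
        (B.inertiaSubgroupIn ℚ)).FiniteIndex ∧
    ((MulAction.stabilizer (AlgebraicClosure ℚ ≃ₐ[ℚ] AlgebraicClosure ℚ) ζ).subgroupOf
        (B.inertiaSubgroupIn ℚ)).index ≤ p := by
  obtain ⟨h0, hle⟩ := ssn_index_stab p hp ζ hζ
  haveI : (MulAction.stabilizer (AlgebraicClosure ℚ ≃ₐ[ℚ] AlgebraicClosure ℚ) ζ).FiniteIndex :=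
    ⟨h0⟩
  refine ⟨inferInstance, ?_⟩
  have h1 : (MulAction.stabilizer (AlgebraicClosure ℚ ≃ₐ[ℚ] AlgebraicClosure ℚ) ζ).relIndex
      (B.inertiaSubgroupIn ℚ)
      ≤ (MulAction.stabilizer (AlgebraicClosure ℚ ≃ₐ[ℚ] AlgebraicClosure ℚ) ζ).relIndex ⊤ :=
    Subgroup.relIndex_le_of_le_right le_top (by rw [Subgroup.relIndex_top_right]; exact h0)
  rw [Subgroup.relIndex_top_right] at h1
  exact h1.trans hle

/-- **(W1), supersingular case, stabiliser form**: if no root of the `p`-torsion polynomial is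
integral at `B` then no point `P ≠ 0` of `W[p]` is fixed by the inertia elements fixing `μ_p`. -/
theorem ssn_shape2 (W : WeierstrassCurve ℤ) (p : ℕ) (hp : p.Prime) (hp2 : p ≠ 2)
    (hgood : ¬ (p : ℤ) ∣ W.Δ)
    (B : ValuationSubring (AlgebraicClosure ℚ)) (hB : B.LiesOverPrime p)
    (m : ℕ) (hpm : p = 2 * m + 1)
    (hss : ∀ x : AlgebraicClosure ℚ,
      ((torsPoly W m).map (algebraMap ℤ (AlgebraicClosure ℚ))).eval x = 0 → x ∉ B) :
    ∀ P : S40hWp W p, P ≠ 0 → ∃ τ ∈ S40hI1 p B, τ • P ≠ P := by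
  have hm : 1 ≤ m := by
    have := hp.two_le
    omega
  have hΔ : W.Δ ≠ 0 := by
    intro h
    apply hgood
    rw [h]
    exact dvd_zero _
  have hdp : p < 2 * m ^ 2 + 2 * m := by
    have : m ≤ m ^ 2 := by
      calc m = m * 1 := (mul_one m).symm
        _ ≤ m * m := Nat.mul_le_mul_left m hm
        _ = m ^ 2 := (sq m).symm
    omega
  intro P hP0
  by_contra hall
  push Not at hall
  obtain ⟨P1, hmem⟩ := P
  rcases P1 with _ | ⟨x, y, h⟩
  · exact hP0 rfl
  · have hP : (2 * m + 1) • (Point.some x y h : (ssnE W).Point) = 0 := by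
      have h1 := (Submodule.mem_torsionBy_iff _ _).mp hmem
      rw [natCast_zsmul, hpm] at h1
      exact h1
    have hx := (ssn_root_iff W hΔ m hm h).mp hP
    haveI : NeZero p := ⟨hp.ne_zero⟩
    obtain ⟨ζ, hζ⟩ := HasEnoughRootsOfUnity.exists_primitiveRoot (AlgebraicClosure ℚ) p
    have hζ1 : ζ ^ p = 1 := hζ.pow_eq_one
    have hfix : ∀ σ ∈ MulAction.stabilizer (AlgebraicClosure ℚ ≃ₐ[ℚ] AlgebraicClosure ℚ) ζ,
        σ ∈ B.inertiaSubgroupIn ℚ → σ x = x := by
      intro σ hσ hσI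
      have hσζ : σ ζ = ζ := MulAction.mem_stabilizer_iff.mp hσ
      have hσ1 : σ ∈ S40hI1 p B := by
        refine ⟨hσI, fun t ht => ?_⟩
        obtain ⟨i, -, rfl⟩ := hζ.eq_pow_of_pow_eq_one ht
        rw [map_pow, hσζ]
      exact ssn_fix_x W p σ h hmem (hall σ hσ1)
    obtain ⟨hfin, hle⟩ := ssn_index_fix_le p hp.pos B ζ hζ1
    have hdvd := ssn_index_dvd W B p hp hp2 hgood hB m hm hpm hss x hx _ hfin hfix
    have hpos : 0 < ((MulAction.stabilizer (AlgebraicClosure ℚ ≃ₐ[ℚ] AlgebraicClosure ℚ)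
        ζ).subgroupOf (B.inertiaSubgroupIn ℚ)).index := Nat.pos_of_ne_zero hfin.index_ne_zero
    have := Nat.le_of_dvd hpos hdvd
    omega

/-- **(W1), stabiliser form, from the ordinary case alone** (for any property `PP`): it is
enough to treat the case where some non-zero `p`-torsion point has an integral
`x`-coordinate. -/
theorem ssn_W1b (W : WeierstrassCurve ℤ) (p : ℕ) (hp : p.Prime) (hp2 : p ≠ 2)
    (hgood : ¬ (p : ℤ) ∣ W.Δ)
    (B : ValuationSubring (AlgebraicClosure ℚ)) (hB : B.LiesOverPrime p)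
    (PP : Set (AlgebraicClosure ℚ ≃ₐ[ℚ] AlgebraicClosure ℚ) → Prop)
    (hord : ∀ (x y : AlgebraicClosure ℚ) (h : (ssnE W).Nonsingular x y),
      p • (Point.some x y h : (ssnE W).Point) = 0 → x ∈ B →
      ∃ P : S40hWp W p, P ≠ 0 ∧
        (∃ τ₀ ∈ B.inertiaSubgroupIn ℚ, S33hMoves p τ₀ ∧ τ₀ • P = P) ∧ PP (S40hStab P)) :
    S40hW1 W p B PP := by
  obtain ⟨m, hpm⟩ : ∃ m, p = 2 * m + 1 := by
    rcases hp.eq_two_or_odd with h | h
    · exact absurd h hp2
    · exact ⟨p / 2, by omega⟩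
  have hm : 1 ≤ m := by
    have := hp.two_le
    omega
  have hΔ : W.Δ ≠ 0 := by
    intro h
    apply hgood
    rw [h]
    exact dvd_zero _
  by_cases hss : ∀ x : AlgebraicClosure ℚ,
      ((torsPoly W m).map (algebraMap ℤ (AlgebraicClosure ℚ))).eval x = 0 → x ∉ B
  · exact Or.inl (ssn_shape2 W p hp hp2 hgood B hB m hpm hss)
  · obtain ⟨x, y, h, hP, hxB⟩ := ssn_ord_point W p hΔ B m hm hpm hss
    exact Or.inr (hord x y h hP hxB)

end Fermat.Agent.S40lib

end
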