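/-
Item 88 (S40), block (W1)-ordinary, the wiring (helper26).

`W` an integral Weierstrass curve with good reduction at the odd prime `p`, `B` a valuation
subring of `ℚ̄` over `p`.  If ONE non-zero point of `W[p]` has an integral `x`-coordinate (ordinary
case), then the second alternative of `S40hW1 W p B (S40hPeuB p B)` holds (`w1o_ord`): some
`P ≠ 0` of `W[p]` is fixed by an inertia element moving `μ_p`, and its stabiliser is
"peu ramifié" in the depth form `S40hPeuB`.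

* `w1o_abs`     : counting lemma (`#V = p²`, `(τ - 1) V ⊆ E ≠ V` ⇒ `τ` or `τ ^ p` fixes a point
  outside `E`);
* `w1o_add_int` : integral + non-integral = integral (any integral Weierstrass equation);
* `w1oE1`       : the kernel of reduction in `W[p]`, a subgroup;
* `w1o_peuB`    : `S40hPeuB p B (S40hStab P)` for an integral `P ≠ 0` of `W[p]`
  (`eoa_inertia` + `eok_main_zeta`);
* `w1o_ord`     : the ordinary case, in the form of the hypothesis `hord` of `ssn_W1b`;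
* `w1o_W1`      : `S40hW1 W p B (S40hPeuB p B)`.
-/
import Mathlib
import Fermat.Agent.S36lib.Speed
import Fermat.Agent.S40lib.Final2
import Fermat.Agent.S40lib.EOrdAdd
import Fermat.Agent.S40lib.EOrdKer
import Fermat.Agent.S40lib.SSShape2
import Fermat.Agent.S33lib.CycSpec
import Fermat.Agent.S41lib.NonEisCard
import Fermat.Agent.S58lib.H2Transfer

set_option autoImplicit false
set_option linter.unusedSectionVars false
set_option linter.unusedVariables false
set_option linter.style.haveILetI false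

open WeierstrassCurve WeierstrassCurve.Affine WeierstrassCurve.Affine.Point

namespace Fermat.Agent.S40lib

/-! ### the counting lemma -/

/-- **counting lemma**: `V` of order `p²` killed by `p`, `E ≠ V` a subgroup, `τ` an automorphism
with `(τ - 1) V ⊆ E`: some `P ∉ E` is fixed by `τ` or by `τ ^ p`. -/
theorem w1o_abs {G V : Type*} [Group G] [AddCommGroup V] [DistribMulAction G V]
    {p : ℕ} (hp : p.Prime) (hcard : Nat.card V = p ^ 2) (hV : ∀ x : V, p • x = 0)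
    (E : AddSubgroup V) (τ : G) (hτ : ∀ x : V, τ • x - x ∈ E)
    (P₀ : V) (hP₀ : P₀ ∉ E) :
    ∃ P : V, P ∉ E ∧ (τ • P = P ∨ τ ^ p • P = P) := by
  have hfin : Finite V := Nat.finite_of_card_ne_zero (by rw [hcard]; exact pow_ne_zero 2 hp.ne_zero)
  set f : V →+ V := DistribSMul.toAddMonoidHom V τ - AddMonoidHom.id V with hf
  have hfx : ∀ x, f x = τ • x - x := fun x => rfl
  -- `#E ≤ p`
  have hEle : Nat.card E ≤ p := by
    have hdvd : Nat.card E ∣ p ^ 2 := hcard ▸ AddSubgroup.card_addSubgroup_dvd_card E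
    obtain ⟨k, hk, hEk⟩ := (Nat.dvd_prime_pow hp).mp hdvd
    have hk2 : k ≠ 2 := by
      rintro rfl
      have : E = ⊤ := AddSubgroup.eq_top_of_card_eq E (by rw [hEk, hcard])
      exact hP₀ (this ▸ AddSubgroup.mem_top P₀)
    have hk1 : k ≤ 1 := by omega
    rw [hEk]
    calc p ^ k ≤ p ^ 1 := Nat.pow_le_pow_right hp.pos hk1
      _ = p := pow_one p
  -- `p ≤ #ker f`
  have hrange : Nat.card f.range ≤ Nat.card E := by
    apply Nat.card_le_card_of_injective
      (fun x : f.range => (⟨x.1, by obtain ⟨y, hy⟩ := x.2; rw [← hy, hfx]; exact hτ y⟩ : E))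
    intro a b hab
    exact Subtype.ext (congrArg (fun z : E => (z : V)) hab)
  have hker : p ≤ Nat.card f.ker := by
    have h1 := AddSubgroup.card_mul_index f.ker
    rw [AddSubgroup.index_ker, hcard] at h1
    have h2 : Nat.card f.range ≤ p := hrange.trans hEle
    by_contra hlt
    have h3 : Nat.card f.ker < p := not_le.mp hlt
    have h4 : Nat.card f.ker * Nat.card f.range < p * p := by
      calc Nat.card f.ker * Nat.card f.range ≤ Nat.card f.ker * p := Nat.mul_le_mul_left _ h2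
        _ < p * p := Nat.mul_lt_mul_of_pos_right h3 hp.pos
    rw [h1, pow_two] at h4
    exact lt_irrefl _ h4
  by_cases hex : ∃ P ∈ f.ker, P ∉ E
  · obtain ⟨P, hPk, hPE⟩ := hex
    refine ⟨P, hPE, Or.inl ?_⟩
    have := AddMonoidHom.mem_ker.mp hPk
    rw [hfx] at this
    exact sub_eq_zero.mp this
  · have hle : f.ker ≤ E := by
      intro P hP
      by_contra hPE
      exact hex ⟨P, hP, hPE⟩
    have heq : f.ker = E := AddSubgroup.eq_of_le_of_card_ge hle (hEle.trans hker)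
    have hfix : τ • f P₀ = f P₀ := by
      have h1 : f P₀ ∈ f.ker := by
        rw [heq, hfx]
        exact hτ P₀
      have := AddMonoidHom.mem_ker.mp h1
      rw [hfx] at this
      exact sub_eq_zero.mp this
    have hpow : ∀ j : ℕ, τ ^ j • P₀ = P₀ + j • f P₀ := by
      intro j
      induction j with
      | zero => simp
      | succ n ih =>
        have h1 : τ • (n • f P₀) = n • (τ • f P₀) := by
          have := map_nsmul (DistribSMul.toAddMonoidHom V τ) n (f P₀)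
          rw [DistribSMul.toAddMonoidHom_apply, DistribSMul.toAddMonoidHom_apply] at this
          exact this
        have h2 : τ • P₀ = P₀ + f P₀ := by rw [hfx]; abel
        rw [pow_succ', mul_smul, ih, smul_add, h1, hfix, h2, succ_nsmul]
        abel
    refine ⟨P₀, hP₀, Or.inr ?_⟩
    rw [hpow p, hV, add_zero]


/-! ### integral + non-integral = integral -/

section
variable {K : Type*} [Field K] [DecidableEq K]
  {Γ₀ : Type*} [LinearOrderedCommGroupWithZero Γ₀] (v : Valuation K Γ₀)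

/-- the numerator identity for `x(P + Q)` -/
theorem w1o_addX_identity (W : Affine K) {x₁ y₁ x₂ y₂ : K} (hP : W.Equation x₁ y₁)
    (hQ : W.Equation x₂ y₂) (hne : x₁ ≠ x₂) :
    W.addX x₁ x₂ ((y₁ - y₂) / (x₁ - x₂)) * (x₁ - x₂) ^ 2
      = x₁ * x₂ ^ 2 - (2 * y₁ + W.a₁ * x₁ + W.a₃) * y₂
        + (W.a₄ - W.a₁ * y₁ + x₁ ^ 2 + 2 * W.a₂ * x₁) * x₂
        + (2 * W.a₆ + W.a₄ * x₁ - W.a₃ * y₁) := by
  rw [equation_iff] at hP hQ
  have hD : x₁ - x₂ ≠ 0 := sub_ne_zero.mpr hne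
  rw [addX]
  field_simp
  linear_combination hP + hQ

/-- **(ADD)**: integral + non-integral = integral -/
theorem w1o_add_int (W : Affine K) (h1 : v W.a₁ ≤ 1) (h2 : v W.a₂ ≤ 1) (h3 : v W.a₃ ≤ 1)
    (h4 : v W.a₄ ≤ 1) (h6 : v W.a₆ ≤ 1) {x₁ y₁ x₂ y₂ : K} (hP : W.Nonsingular x₁ y₁)
    (hQ : W.Nonsingular x₂ y₂) (hx₁ : v x₁ ≤ 1) (hy₁ : v y₁ ≤ 1) (hx₂ : 1 < v x₂) :
    ∃ (x₃ y₃ : K) (h₃ : W.Nonsingular x₃ y₃),
      Point.some x₁ y₁ hP + Point.some x₂ y₂ hQ = Point.some x₃ y₃ h₃ ∧ v x₃ ≤ 1 := by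
  have hne : x₁ ≠ x₂ := by
    rintro rfl
    exact absurd hx₁ (not_le.mpr hx₂)
  have hxy : ¬ (x₁ = x₂ ∧ y₁ = W.negY x₂ y₂) := fun h => hne h.1
  refine ⟨_, _, nonsingular_add hP hQ hxy, Point.add_some hxy, ?_⟩
  rw [slope_of_X_ne hne]
  have hid := w1o_addX_identity W hP.1 hQ.1 hne
  have hx0 : (0 : Γ₀) < v x₂ := lt_trans zero_lt_one hx₂
  have hD : v (x₁ - x₂) = v x₂ := by
    rw [Valuation.map_sub_eq_of_lt_right v (lt_of_le_of_lt hx₁ hx₂)]
  obtain ⟨hy0, hz⟩ := eoa_val_z v W h1 h2 h3 h4 h6 hQ.1 hx₂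
  -- `v y₂ ≤ v x₂ ^ 2`
  have hy2 : v y₂ ^ 2 = v x₂ ^ 3 := by
    have hvy0 : v y₂ ≠ 0 := (Valuation.ne_zero_iff v).mpr hy0
    rw [map_div₀, div_pow] at hz
    field_simp at hz
    exact hz.symm
  have hyle : v y₂ ≤ v x₂ ^ 2 := by
    have h : v y₂ ^ 2 ≤ (v x₂ ^ 2) ^ 2 := by
      rw [hy2, ← pow_mul]
      exact pow_le_pow_right₀ hx₂.le (by norm_num)
    exact (pow_le_pow_iff_left₀ zero_le zero_le (by norm_num)).mp h
  have hx1le : v x₂ ≤ v x₂ ^ 2 := by
    calc v x₂ = v x₂ ^ 1 := (pow_one _).symm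
      _ ≤ v x₂ ^ 2 := pow_le_pow_right₀ hx₂.le (by norm_num)
  have h1le : (1 : Γ₀) ≤ v x₂ ^ 2 := hx₂.le.trans hx1le
  have hint : ∀ {a b : K}, v a ≤ 1 → v b ≤ 1 → v (a * b) ≤ 1 := by
    intro a b ha hb
    rw [map_mul]
    exact mul_le_one' ha hb
  have hadd : ∀ {a b : K}, v a ≤ 1 → v b ≤ 1 → v (a + b) ≤ 1 := fun ha hb =>
    Valuation.map_add_le v ha hb
  have hsub : ∀ {a b : K}, v a ≤ 1 → v b ≤ 1 → v (a - b) ≤ 1 := fun ha hb =>
    Valuation.map_sub_le v ha hb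
  have h2' : v (2 : K) ≤ 1 := by
    have : (2 : K) = 1 + 1 := by norm_num
    rw [this]
    exact hadd (le_of_eq v.map_one) (le_of_eq v.map_one)
  have hscale : ∀ {c t : K}, v c ≤ 1 → v t ≤ v x₂ ^ 2 → v (c * t) ≤ v x₂ ^ 2 := by
    intro c t hc ht
    rw [map_mul]
    calc v c * v t ≤ 1 * v x₂ ^ 2 := mul_le_mul' hc ht
      _ = v x₂ ^ 2 := one_mul _
  have hM : v (x₁ * x₂ ^ 2 - (2 * y₁ + W.a₁ * x₁ + W.a₃) * y₂
        + (W.a₄ - W.a₁ * y₁ + x₁ ^ 2 + 2 * W.a₂ * x₁) * x₂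
        + (2 * W.a₆ + W.a₄ * x₁ - W.a₃ * y₁)) ≤ v x₂ ^ 2 := by
    refine Valuation.map_add_le v (Valuation.map_add_le v (Valuation.map_sub_le v ?_ ?_) ?_) ?_
    · exact hscale hx₁ (by rw [map_pow])
    · exact hscale (hadd (hadd (hint h2' hy₁) (hint h1 hx₁)) h3) hyle
    · refine hscale (hadd (hadd (hsub h4 (hint h1 hy₁)) ?_) (hint (hint h2' h2) hx₁)) hx1le
      rw [map_pow]
      exact pow_le_one₀ zero_le hx₁
    · exact (hsub (hadd (hint h2' h6) (hint h4 hx₁)) (hint h3 hy₁)).trans h1le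
  rw [← hid, map_mul, map_pow, hD] at hM
  have hpos : (0 : Γ₀) < v x₂ ^ 2 := pow_pos hx0 2
  by_contra hcon
  have hlt : 1 < v (W.addX x₁ x₂ ((y₁ - y₂) / (x₁ - x₂))) := not_le.mp hcon
  have : v x₂ ^ 2 < v (W.addX x₁ x₂ ((y₁ - y₂) / (x₁ - x₂))) * v x₂ ^ 2 := by
    calc v x₂ ^ 2 = 1 * v x₂ ^ 2 := (one_mul _).symm
      _ < v (W.addX x₁ x₂ ((y₁ - y₂) / (x₁ - x₂))) * v x₂ ^ 2 :=
        mul_lt_mul_of_pos_right hlt hpos
  exact absurd hM (not_le.mpr this)

end


/-! ### the kernel of reduction in `W[p]` -/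

section Concrete

open Fermat.Agent.S33lib Fermat.Agent.S58lib Fermat.Agent.S41lib Fermat.Agent Fermat.Agent.S05lib
  Fermat.Agent.S05wire IsLocalRing

/-- integral non-zero points -/
def w1oInt (W : WeierstrassCurve ℤ) (B : ValuationSubring (AlgebraicClosure ℚ)) :
    (ssnE W).Point → Prop
  | .zero => False
  | .some x _ _ => x ∈ B

variable (W : WeierstrassCurve ℤ) {p : ℕ} (hp : p.Prime) (hp2 : p ≠ 2)
  (hgood : W.IsGoodPrimeFor p)
  (B : ValuationSubring (AlgebraicClosure ℚ)) (hB : B.LiesOverPrime p)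

theorem w1oInt_some {x y : AlgebraicClosure ℚ} (h : (ssnE W).Nonsingular x y) :
    w1oInt W B (Point.some x y h) ↔ x ∈ B := Iff.rfl

theorem w1oInt_zero : ¬ w1oInt W B (0 : (ssnE W).Point) := fun h => h

theorem w1oInt_neg (P : (ssnE W).Point) : w1oInt W B (-P) ↔ w1oInt W B P := by
  rcases P with _ | ⟨x, y, h⟩
  · exact Iff.rfl
  · exact Iff.rfl

theorem w1oInt_smul (σ : AlgebraicClosure ℚ ≃ₐ[ℚ] AlgebraicClosure ℚ)
    (hσ : σ ∈ B.inertiaSubgroupIn ℚ) (P : (ssnE W).Point) :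
    w1oInt W B (σ • P) ↔ w1oInt W B P := by
  rcases P with _ | ⟨x, y, h⟩
  · exact Iff.rfl
  · have hσI : IsInertial B.valuation
        ((σ : AlgebraicClosure ℚ ≃ₐ[ℚ] AlgebraicClosure ℚ) :
          AlgebraicClosure ℚ →+* AlgebraicClosure ℚ) :=
      isInertial_of_mem_inertiaSubgroupIn B hσ
    show σ x ∈ B ↔ x ∈ B
    constructor
    · intro h1
      by_contra h2
      have h3 : 1 < B.valuation x := not_le.mp (fun h => h2 ((B.valuation_le_one_iff x).mp h))
      have h4 := hσI.one_lt x h3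
      exact absurd ((B.valuation_le_one_iff _).mpr h1) (not_le.mpr h4)
    · intro h1
      exact (B.valuation_le_one_iff _).mp (hσI.le_one x ((B.valuation_le_one_iff x).mpr h1))

/-- the `y`-coordinate of a point with integral `x`-coordinate is integral -/
theorem w1o_y_mem {x y : AlgebraicClosure ℚ} (h : (ssnE W).Nonsingular x y) (hx : x ∈ B) :
    y ∈ B := by
  obtain ⟨ha1, ha2, ha3, ha4, ha6⟩ := eoa_coeff_le B W
  have he := h.1
  rw [equation_iff] at he
  have m1 := (B.valuation_le_one_iff _).mp ha1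
  have m2 := (B.valuation_le_one_iff _).mp ha2
  have m3 := (B.valuation_le_one_iff _).mp ha3
  have m4 := (B.valuation_le_one_iff _).mp ha4
  have m6 := (B.valuation_le_one_iff _).mp ha6
  refine ner_mem_of_quadratic B (b := (ssnE W).a₁ * x + (ssnE W).a₃)
    (c := x ^ 3 + (ssnE W).a₂ * x ^ 2 + (ssnE W).a₄ * x + (ssnE W).a₆) ?_ ?_ ?_
  · exact B.add_mem _ _ (B.mul_mem _ _ m1 hx) m3
  · exact B.add_mem _ _ (B.add_mem _ _ (B.add_mem _ _ (pow_mem hx 3)
      (B.mul_mem _ _ m2 (pow_mem hx 2))) (B.mul_mem _ _ m4 hx)) m6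
  · linear_combination he

/-- integral + non-integral = integral, on `W_ℚ̄` -/
theorem w1oInt_add {P Q : (ssnE W).Point} (hP : w1oInt W B P) (hQ : ¬ w1oInt W B Q) :
    w1oInt W B (P + Q) := by
  rcases P with _ | ⟨x₁, y₁, h₁⟩
  · exact absurd hP (w1oInt_zero W B)
  rcases Q with _ | ⟨x₂, y₂, h₂⟩
  · change w1oInt W B (Point.some x₁ y₁ h₁ + 0)
    rw [add_zero]
    exact hP
  have hx₁ : x₁ ∈ B := hP
  have hx₂ : x₂ ∉ B := hQ
  have hy₁ : y₁ ∈ B := w1o_y_mem W B h₁ hx₁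
  obtain ⟨ha1, ha2, ha3, ha4, ha6⟩ := eoa_coeff_le B W
  obtain ⟨x₃, y₃, h₃, e, hx₃⟩ := w1o_add_int B.valuation (ssnE W) ha1 ha2 ha3 ha4 ha6 h₁ h₂
    ((B.valuation_le_one_iff _).mpr hx₁) ((B.valuation_le_one_iff _).mpr hy₁)
    (not_le.mp (fun h => hx₂ ((B.valuation_le_one_iff x₂).mp h)))
  rw [e]
  exact (B.valuation_le_one_iff _).mp hx₃

/-- **the kernel of reduction in `W[p]`** -/
noncomputable def w1oE1 (p : ℕ) : AddSubgroup (S40hWp W p) where
  carrier := {P | ¬ w1oInt W B (P : (ssnE W).Point)}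
  zero_mem' := w1oInt_zero W B
  add_mem' := by
    intro P Q hP hQ hPQ
    apply hP
    have e : (P : (ssnE W).Point) = ((P + Q : S40hWp W p) : (ssnE W).Point)
        + (-(Q : (ssnE W).Point)) := by
      rw [Submodule.coe_add]
      abel
    rw [e]
    exact w1oInt_add W B hPQ (fun h => hQ ((w1oInt_neg W B _).mp h))
  neg_mem' := by
    intro P hP h
    apply hP
    have e : ((-P : S40hWp W p) : (ssnE W).Point) = -(P : (ssnE W).Point) :=
      rfl
    rw [e] at h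
    exact (w1oInt_neg W B _).mp h

theorem mem_w1oE1 (P : S40hWp W p) :
    P ∈ w1oE1 W B p ↔ ¬ w1oInt W B (P : (ssnE W).Point) := Iff.rfl

include hp hp2 hgood hB in
/-- inertia acts trivially modulo the kernel of reduction -/
theorem w1o_inertia_sub (σ : AlgebraicClosure ℚ ≃ₐ[ℚ] AlgebraicClosure ℚ)
    (hσ : σ ∈ B.inertiaSubgroupIn ℚ) (P : S40hWp W p) : σ • P - P ∈ w1oE1 W B p := by
  by_cases hP : w1oInt W B (P : (ssnE W).Point)
  · by_cases hfix : σ • P = P
    · rw [hfix, sub_self]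
      exact (w1oE1 W B p).zero_mem
    · rw [mem_w1oE1]
      have hPt := rh_nsmul_of_mem W P
      have hne : σ • (P : (ssnE W).Point) ≠ (P : (ssnE W).Point) := fun h =>
        hfix (Subtype.ext h)
      have e0 : ((σ • P - P : S40hWp W p) : (ssnE W).Point)
          = σ • (P : (ssnE W).Point) - (P : (ssnE W).Point) := rfl
      rw [e0]
      rcases hPc : (P : (ssnE W).Point) with _ | ⟨x, y, h⟩
      · rw [hPc] at hP
        exact absurd hP (w1oInt_zero W B)
      · rw [hPc] at hP hPt hne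
        obtain ⟨xQ, yQ, hQ, hsub, hxQ, -, -, -⟩ :=
          eoa_inertia B W hp hB hgood hp2 σ hσ h hPt hP hne
        rw [hsub]
        intro hmem
        exact absurd ((B.valuation_le_one_iff _).mpr hmem) (not_le.mpr hxQ)
  · have h1 : P ∈ w1oE1 W B p := hP
    have h2 : σ • P ∈ w1oE1 W B p := by
      rw [mem_w1oE1]
      intro h
      exact hP ((w1oInt_smul W B σ hσ _).mp h)
    exact (w1oE1 W B p).sub_mem h2 h1

/-- `eok_main_zeta` for a curve given up to equality -/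
theorem w1o_zeta {K : Type*} [Field K] [DecidableEq K] (A : ValuationSubring K)
    (W₀ : WeierstrassCurve ℤ) (E : WeierstrassCurve K) (hE : E = W₀.map (Int.castRingHom K))
    [E.IsElliptic] {q : ℕ} (hq : q.Prime) (hq2 : q ≠ 2) (hqA : (q : K) ∈ A.nonunits)
    {ζ : K} (hζ : IsPrimitiveRoot ζ q) {x y : K} (h : E.toAffine.Nonsingular x y)
    (htors : q • Point.some x y h = 0) (hx : x ∉ A) :
    A.valuation (ζ - 1) ≤ A.valuation (x / y) := by
  subst hE
  exact eok_main_zeta A (Int.castRingHom K) (fun r => by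
    rw [eq_intCast]
    exact intCast_mem A r) W₀ hq hq2 hqA hζ h htors hx

include hp hp2 hgood hB in
/-- **(1)** the stabiliser of an integral point `P ≠ 0` of `W[p]` is peu ramifié (depth form) -/
theorem w1o_peuB (P : S40hWp W p) (hP : w1oInt W B (P : (ssnE W).Point)) :
    S40hPeuB p B (S40hStab P) := by
  by_cases hI : S40hI1 p B ⊆ S40hStab P
  · exact Or.inl hI
  right
  obtain ⟨σ, hσ1, hσP⟩ := Set.not_subset.mp hI
  have hσ : σ ∈ B.inertiaSubgroupIn ℚ := hσ1.1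
  have hfix : σ • P ≠ P := hσP
  have hPt := rh_nsmul_of_mem W P
  have hne : σ • (P : (ssnE W).Point) ≠ (P : (ssnE W).Point) := fun h => hfix (Subtype.ext h)
  rcases hPc : (P : (ssnE W).Point) with _ | ⟨x, y, h⟩
  · rw [hPc] at hP
    exact absurd hP (w1oInt_zero W B)
  rw [hPc] at hP hPt hne
  have hx : x ∈ B := hP
  refine ⟨x, hx, ?_, σ, hσ1, ?_⟩
  · intro τ _ hτ
    have h1 : τ • P = P := hτ
    have h2 : τ • (P : (ssnE W).Point) = (P : (ssnE W).Point) := congrArg Subtype.val h1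
    rw [hPc] at h2
    exact congrArg (ssnX W) h2
  · haveI : NeZero p := ⟨hp.ne_zero⟩
    obtain ⟨ζ, hζ⟩ := HasEnoughRootsOfUnity.exists_primitiveRoot (AlgebraicClosure ℚ) p
    refine ⟨ζ, hζ, ?_⟩
    obtain ⟨xQ, yQ, hQ, hsub, hxQ, hyQ, hval, hpQ⟩ :=
      eoa_inertia B W hp hB hgood hp2 σ hσ h hPt hx hne
    rw [← hval]
    have hxQB : xQ ∉ B := fun hmem =>
      absurd ((B.valuation_le_one_iff _).mpr hmem) (not_le.mpr hxQ)
    have hΔ : W.Δ ≠ 0 := by
      intro h0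
      apply hgood
      rw [h0]
      exact dvd_zero _
    haveI hEll : ((W.map (Int.castRingHom ℚ)).baseChange (AlgebraicClosure ℚ)).IsElliptic :=
      h2_isElliptic W hΔ
    exact w1o_zeta B W ((W.map (Int.castRingHom ℚ)).baseChange (AlgebraicClosure ℚ))
      (ner_baseChange_eq W) hp hp2 hB hζ hQ hpQ hxQB

/-- `2 ^ p = 2 + p c` -/
theorem w1o_two_pow {p : ℕ} (hp : p.Prime) : ∃ c : ℕ, 2 ^ p = 2 + p * c := by
  haveI : Fact p.Prime := ⟨hp⟩
  have h2 : 2 ≤ 2 ^ p := by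
    calc 2 = 2 ^ 1 := (pow_one 2).symm
      _ ≤ 2 ^ p := Nat.pow_le_pow_right (by norm_num) hp.one_le
  have h := ZMod.pow_card (2 : ZMod p)
  have h0 : ((2 ^ p - 2 : ℕ) : ZMod p) = 0 := by
    rw [Nat.cast_sub h2]
    push_cast
    rw [h, sub_self]
  obtain ⟨c, hc⟩ := (ZMod.natCast_eq_zero_iff _ _).mp h0
  exact ⟨c, by omega⟩

/-- **(5)** if `τ` squares the `p`-th roots of unity then `τ ^ p` moves `μ_p` -/
theorem w1o_moves_pow {p : ℕ} (hp : p.Prime)
    (τ : AlgebraicClosure ℚ ≃ₐ[ℚ] AlgebraicClosure ℚ)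
    (hsq : ∀ t : AlgebraicClosure ℚ, t ^ p = 1 → τ t = t ^ 2) : S33hMoves p (τ ^ p) := by
  haveI : Fact p.Prime := ⟨hp⟩
  apply cysp_moves_of_sq p (τ ^ p)
  intro t ht
  have hpow : ∀ k : ℕ, (τ ^ k) t = t ^ (2 ^ k) := by
    intro k
    induction k with
    | zero => simp
    | succ n ih =>
      rw [pow_succ', AlgEquiv.mul_apply, ih, map_pow, hsq t ht, ← pow_mul, ← pow_succ']
  obtain ⟨c, hc⟩ := w1o_two_pow hp
  rw [hpow p, hc, pow_add, pow_mul, ht, one_pow, mul_one]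

include hp hp2 hgood hB in
/-- **the ordinary case of (W1)** (the hypothesis `hord` of `ssn_W1b` for `PP = S40hPeuB p B`) -/
theorem w1o_ord (x y : AlgebraicClosure ℚ) (h : (ssnE W).Nonsingular x y)
    (hP : p • (Point.some x y h : (ssnE W).Point) = 0) (hx : x ∈ B) :
    ∃ P : S40hWp W p, P ≠ 0 ∧
      (∃ τ₀ ∈ B.inertiaSubgroupIn ℚ, S33hMoves p τ₀ ∧ τ₀ • P = P) ∧
      S40hPeuB p B (S40hStab P) := by
  haveI : Fact p.Prime := ⟨hp⟩
  obtain ⟨m, hm, hpm⟩ : ∃ m, 1 ≤ m ∧ p = 2 * m + 1 := by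
    rcases hp.eq_two_or_odd' with e | ⟨m, hm⟩
    · exact absurd e hp2
    · refine ⟨m, ?_, hm⟩
      have := hp.two_le
      omega
  have hΔ : W.Δ ≠ 0 := by
    intro h0
    apply hgood
    rw [h0]
    exact dvd_zero _
  have hmem : (Point.some x y h : (ssnE W).Point) ∈ Submodule.torsionBy ℤ
      ((W.map (Int.castRingHom ℚ)).toAffine⁄(AlgebraicClosure ℚ)).Point ((p : ℕ) : ℤ) := by
    rw [Submodule.mem_torsionBy_iff, natCast_zsmul]
    exact hP
  have hP₀ : (⟨Point.some x y h, hmem⟩ : S40hWp W p) ∉ w1oE1 W B p := by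
    rw [mem_w1oE1]
    exact not_not.mpr hx
  have hcard : Nat.card (S40hWp W p) = p ^ 2 := by
    haveI := h2_isElliptic W hΔ
    have := ne_card_torsionBy ((W.map (Int.castRingHom ℚ)).baseChange (AlgebraicClosure ℚ)) m hm
    rw [← hpm] at this
    exact this
  have hV : ∀ v : S40hWp W p, p • v = 0 := fun v => Subtype.ext (rh_nsmul_of_mem W v)
  obtain ⟨τ₀, hτ₀, hmv, hsq⟩ := cysp_exists_moves p hp2 B hB
  obtain ⟨P, hPE, hfix⟩ := w1o_abs hp hcard hV (w1oE1 W B p) τ₀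
    (fun v => w1o_inertia_sub W hp hp2 hgood B hB τ₀ hτ₀ v) _ hP₀
  have hPint : w1oInt W B (P : (ssnE W).Point) := by
    rw [mem_w1oE1] at hPE
    exact not_not.mp hPE
  have hP0 : P ≠ 0 := by
    rintro rfl
    exact hPE (w1oE1 W B p).zero_mem
  refine ⟨P, hP0, ?_, w1o_peuB W hp hp2 hgood B hB P hPint⟩
  rcases hfix with h1 | h1
  · exact ⟨τ₀, hτ₀, hmv, h1⟩
  · exact ⟨τ₀ ^ p, pow_mem hτ₀ p, w1o_moves_pow hp τ₀ hsq, h1⟩

include hp hp2 hgood hB in
/-- **(W1)**, stabiliser form, for the depth form `S40hPeuB` of "peu ramifié" -/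
theorem w1o_W1 : S40hW1 W p B (S40hPeuB p B) :=
  ssn_W1b W p hp hp2 hgood B hB (S40hPeuB p B) (w1o_ord W hp hp2 hgood B hB)

end Concrete

end Fermat.Agent.S40lib
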