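import Mathlib
import Fermat.Agent.S36lib.Speed
import Fermat.Agent.S40lib.Final4
import Fermat.Agent.S40lib.CardW
import Fermat.Agent.S40lib.GeomOmega
import Fermat.Agent.S40lib.TorPlusI1
import Fermat.Agent.S40lib.AJHub
import Fermat.Agent.S40lib.DichFinal
import Fermat.Agent.S40lib.NonEisW
import Fermat.Agent.S40lib.W1Ord
import Fermat.Agent.FrobProfinite

/-!
# Item 88 (S40): the ASSEMBLY (architect helper6)

All the blocks which are landed are wired here, so that **S40 = the J-side block alone**: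

* `s40h_asm4` : S40 from `S40hGeom4 W M' p B (S40hPeuB p B)` (for every place `B` over `p` and
  every `M'` prime to `p`);
* `s40h_omega3` : the first half of the J-side block (unconditional);
* `s40h_asm`  : S40 from (J-TAME) and (J-WILD) of `AJHub` (`S40jTame`, `S40jWild`).

Used: `dich_final_all` (dictionary, helper25/helper9/helper10/helper3), `new_hnE`
(non-Eisenstein, helper15), `s40h_cardW` (`#W[p] = p²`), `w1o_W1` ((W1), helper26/helper16/helper7),
`tpp_I1` ((TOR_p+), helper17), `s40j_geom3` (helper22), `exists_isFrobeniusAt` (a place over `p`).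
-/

set_option autoImplicit false
set_option linter.style.haveILetI false

noncomputable section

namespace Fermat.Agent.S40lib

open Fermat.Agent.GalRep ModularCurve Fermat.Agent.S31lib Fermat.Agent.S35lib
  Fermat.Agent.S33lib WeierstrassCurve

/-- **S40 from the J-side block** `S40hGeom4` (LIFT form). -/
theorem s40h_asm4 (W : WeierstrassCurve ℤ) (hΔ : W.Δ ≠ 0)
    {p : ℕ} (hp : p.Prime) (hp2 : p ≠ 2)
    (hgood : W.IsGoodPrimeFor p)
    (hirr : W.ModRepIsIrreducible p)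
    {M : ℕ} (hM : 0 < M) (hpM : p ∣ M) (hp2M : ¬ p ^ 2 ∣ M)
    (hmod : W.IsResiduallyModularOfLevel p M)
    (hG : ∀ (B : ValuationSubring (AlgebraicClosure ℚ)), B.LiesOverPrime p →
      ∀ (M' : ℕ) [NeZero M'] [NeZero (M' * p)], ¬ p ∣ M' →
        S40hGeom4 W M' p B (S40hPeuB p B)) :
    W.IsResiduallyModularOfLevel p (M / p) := by
  obtain ⟨B, -, hB, -⟩ := Fermat.Agent.FrobLib.exists_isFrobeniusAt p hp
  exact s40h_main4 W hp hM hpM hp2M hmod (dich_final_all W hΔ hp hp2 hirr)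
    (s40h_cardW W hΔ hp hp2) (new_hnE W hΔ hp hp2 hirr) B (S40hPeuB p B)
    (w1o_W1 W hp hp2 hgood B hB) (hG B hB)

/-- the first half of the J-side block, in the form of `s40j_geom3` (unconditional) -/
theorem s40h_omega3 (M' p : ℕ) [NeZero M'] [NeZero p] [NeZero (M' * p)]
    (hp : p.Prime) (hp2 : p ≠ 2) (hpM : ¬ p ∣ M')
    (B : ValuationSubring (AlgebraicClosure ℚ)) (hB : B.LiesOverPrime p)
    (S : Finset ℕ) (a : ℕ → ℤ) (V : AddSubgroup (JZero (M' * p)))
    (hS : ∀ ℓ : ℕ, ℓ.Prime → ℓ ∣ M' * p → ℓ ∈ S)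
    (hcard : Nat.card V = p ^ 2) (hVp : ∀ x ∈ V, p • x = 0)
    (hstab : ∀ (σ : AlgebraicClosure ℚ ≃ₐ[ℚ] AlgebraicClosure ℚ), ∀ x ∈ V, σ • x ∈ V)
    (hEig : S40hEig (M' * p) S a V) (hNot : S40hNotAt M' p S a) :
    ∃ x ∈ V, x ≠ 0 ∧ ∀ τ ∈ S40hI1 p B, τ • x = x := by
  have hV : V ≠ ⊥ := by
    intro hV
    rw [hV] at hcard
    have h1 : Nat.card (⊥ : AddSubgroup (JZero (M' * p))) = 1 := AddSubgroup.card_bot
    rw [h1] at hcard
    have h2 : 1 < p ^ 2 := Nat.one_lt_pow (by norm_num) hp.one_lt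
    omega
  exact s40h_geom_omega M' p hp hpM B (tpp_I1 M' p hp hp2 hpM hB) S a V hS hV hVp hstab
    hEig hNot

/-- **S40 from (J-TAME) and (J-WILD)**. -/
theorem s40h_asm (W : WeierstrassCurve ℤ) (hΔ : W.Δ ≠ 0)
    {p : ℕ} (hp : p.Prime) (hp2 : p ≠ 2)
    (hgood : W.IsGoodPrimeFor p)
    (hirr : W.ModRepIsIrreducible p)
    {M : ℕ} (hM : 0 < M) (hpM : p ∣ M) (hp2M : ¬ p ^ 2 ∣ M)
    (hmod : W.IsResiduallyModularOfLevel p M)
    (hJ : ∀ (B : ValuationSubring (AlgebraicClosure ℚ)), B.LiesOverPrime p →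
      ∀ (M' : ℕ) [NeZero M'] [NeZero (M' * p)], ¬ p ∣ M' →
        S40jTame M' p B ∧ S40jWild M' p B) :
    W.IsResiduallyModularOfLevel p (M / p) := by
  haveI : NeZero p := ⟨hp.ne_zero⟩
  refine s40h_asm4 W hΔ hp hp2 hgood hirr hM hpM hp2M hmod ?_
  intro B hB M' _ _ hpM'
  refine s40h_geom4_of_geom3 W hp (s40j_geom3 M' p hp hp2 hpM' B hB ?_ (hJ B hB M' hpM').1
    (hJ B hB M' hpM').2)
  intro S a V hS hcard hVp hstab hEig hNot _
  exact s40h_omega3 M' p hp hp2 hpM' B hB S a V hS hcard hVp hstab hEig hNot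

end Fermat.Agent.S40lib

end
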