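import Mathlib
import Fermat.Agent.S36lib.Speed
import Fermat.Agent.RRlib.KaehlerGenus
import Fermat.Agent.RRlib.Modular
import Fermat.Agent.GoodRed.ModRR
import Fermat.Agent.GoodRed.HredMain
import Fermat.Agent.GoodRed.Genus
import Fermat.Agent.GoodRed.ModDatum
import Fermat.Agent.GoodRed.DescWiring

/-!
# Item 88 (S40), layer (LIFT), piece L2 "dim" (helper16)

The space of regular (holomorphic) differentials of a function field has dimension the genus, and
for the reduced modular function field `F_{M,k}` (`k` the residue field of a valuation ring `A` of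
`ℚ̄` over a prime `p ∤ M`) this dimension is at most `dim S₂(Γ₀(M))`.

* `dfd_exists` : (abstract, `RRHyp`) there is a finite-dimensional `K`-subspace `H ⊂ Ω[F/K]` of
  dimension `genusFF K F` whose elements are exactly the `ω` with `0 ≤ ord_v ω` for all `v`;
* `dfdH0`, `dfd_mem_H0`, `dfd_finite_H0`, `dfd_finrank_H0` : the same as a definition;
* `dfd_genus_le` : `genusFF k F_{M,k} ≤ dim_ℂ S₂(Γ₀(M))`;
* `dfd_hdim`, `dfd_hfd` : for EVERY `k`-linear map `q` out of `Ω[F_{M,k}/k]` (the `q`-expansion),
  `finrank (H⁰.map q) ≤ dim S₂(Γ₀(M))` and `H⁰.map q` is finite-dimensional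
  (= the hypotheses `hdim`, `hfd` of `dfs_main`, helper10).
-/

set_option autoImplicit false
set_option linter.style.haveILetI false
set_option linter.unusedSectionVars false
set_option linter.unusedVariables false
set_option synthInstance.maxHeartbeats 400000

noncomputable section

namespace Fermat.Agent.S40lib

open AlgebraicCurve KaehlerDifferential Fermat.Agent.RRlib Fermat.Agent.GoodRed ModularCurve
  Fermat.Agent.S24lib Fermat.Agent.GM CongruenceSubgroup

section Abstract

variable {K F : Type*} [Field K] [Field F] [Algebra K F]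

/-- a nonzero differential has a nonzero local coefficient -/
theorem dfd_coeff_ne_zero (v : Place K F) [v.DCoordGenerates] {ω : Ω[F⁄K]}
    (hω : ω ≠ 0) : v.differentialCoeff ω ≠ 0 := by
  intro h
  apply hω
  rw [← v.differentialCoeff_smul_dCoord ω, h, zero_smul]

/-- **the regular differentials form a space of dimension `g`** -/
theorem dfd_exists [RRHyp K F] [Nontrivial Ω[F⁄K]]
    (hgen : ∀ v : Place K F, v.DCoordGenerates) :
    ∃ H : Submodule K Ω[F⁄K], Module.Finite K H ∧ Module.finrank K H = genusFF K F ∧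
      ∀ ω : Ω[F⁄K], ω ∈ H ↔ ∀ v : Place K F, 0 ≤ v.ordDifferential ω := by
  classical
  obtain ⟨η, hη⟩ : ∃ η : Ω[F⁄K], η ≠ 0 := exists_ne 0
  obtain ⟨W, hW⟩ := exists_canonicalDivisor hgen hη
  have hcan := isCanonicalDivisor_of_kaehler hgen hη W hW
  have hell : ell W = genusFF K F := ell_canonical hcan
  -- the map `f ↦ f • η`
  set φ : F →ₗ[K] Ω[F⁄K] := (LinearMap.toSpanSingleton F Ω[F⁄K] η).restrictScalars K with hφ
  have hφa : ∀ f : F, φ f = f • η := fun f => rfl
  have hinj : Function.Injective φ := by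
    intro a b hab
    rw [hφa, hφa] at hab
    have h0 : (a - b) • η = 0 := by rw [sub_smul, hab, sub_self]
    rcases smul_eq_zero.mp h0 with h | h
    · exact sub_eq_zero.mp h
    · exact absurd h hη
  haveI hfinL : Module.Finite K (riemannRochSpace W) := finite_riemannRochSpace W
  refine ⟨(riemannRochSpace W).map φ, ?_, ?_, ?_⟩
  · exact Module.Finite.map _ φ
  · rw [← hell, ell]
    exact (LinearEquiv.finrank_eq (Submodule.equivMapOfInjective φ hinj _)).symm
  · intro ω
    constructor
    · rintro ⟨f, hf, rfl⟩ v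
      haveI := hgen v
      rw [hφa]
      rcases eq_or_ne f 0 with rfl | hf0
      · rw [zero_smul, Place.ordDifferential, v.differentialCoeff_zero, v.ord_zero]
      · have h1 := (mem_riemannRochSpace_iff.mp hf v).resolve_left hf0
        rw [Place.ordDifferential_smul v hf0 (dfd_coeff_ne_zero v hη), ← hW v]
        omega
    · intro h
      -- `ω = f • η`
      obtain ⟨v₀⟩ := RRBase.nonempty_place (K := K) (F := F)
      haveI := hgen v₀
      obtain ⟨a, ha⟩ := v₀.exists_eq_smul_dCoord ω
      obtain ⟨c, hc⟩ := v₀.exists_eq_smul_dCoord η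
      have hc0 : c ≠ 0 := by
        rintro rfl
        rw [zero_smul] at hc
        exact hη hc
      have hω : ω = (a / c) • η := by
        rw [hc, smul_smul, div_mul_cancel₀ a hc0, ha]
      refine ⟨a / c, ?_, hω.symm⟩
      rw [SetLike.mem_coe, mem_riemannRochSpace_iff]
      intro v
      haveI := hgen v
      rcases eq_or_ne (a / c) 0 with h0 | h0
      · exact Or.inl h0
      · right
        have h2 := h v
        rw [hω, Place.ordDifferential_smul v h0 (dfd_coeff_ne_zero v hη), ← hW v] at h2
        omega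

/-- the space of regular differentials -/
def dfdH0 (K F : Type*) [Field K] [Field F] [Algebra K F] [RRHyp K F] [Nontrivial Ω[F⁄K]]
    (hgen : ∀ v : Place K F, v.DCoordGenerates) : Submodule K Ω[F⁄K] :=
  (dfd_exists (K := K) (F := F) hgen).choose

theorem dfd_finite_H0 [RRHyp K F] [Nontrivial Ω[F⁄K]]
    (hgen : ∀ v : Place K F, v.DCoordGenerates) : Module.Finite K (dfdH0 K F hgen) :=
  (dfd_exists (K := K) (F := F) hgen).choose_spec.1

theorem dfd_finrank_H0 [RRHyp K F] [Nontrivial Ω[F⁄K]]
    (hgen : ∀ v : Place K F, v.DCoordGenerates) :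
    Module.finrank K (dfdH0 K F hgen) = genusFF K F :=
  (dfd_exists (K := K) (F := F) hgen).choose_spec.2.1

theorem dfd_mem_H0 [RRHyp K F] [Nontrivial Ω[F⁄K]]
    (hgen : ∀ v : Place K F, v.DCoordGenerates) (ω : Ω[F⁄K]) :
    ω ∈ dfdH0 K F hgen ↔ ∀ v : Place K F, 0 ≤ v.ordDifferential ω :=
  (dfd_exists (K := K) (F := F) hgen).choose_spec.2.2 ω

/-- the image of the regular differentials under any linear map has dimension `≤ g` -/
theorem dfd_finrank_map_le [RRHyp K F] [Nontrivial Ω[F⁄K]]
    (hgen : ∀ v : Place K F, v.DCoordGenerates) {X : Type*} [AddCommGroup X] [Module K X]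
    (q : Ω[F⁄K] →ₗ[K] X) :
    Module.finrank K ((dfdH0 K F hgen).map q) ≤ genusFF K F := by
  haveI := dfd_finite_H0 (K := K) (F := F) hgen
  rw [← dfd_finrank_H0 (K := K) (F := F) hgen]
  exact Submodule.finrank_map_le q _

theorem dfd_finite_map [RRHyp K F] [Nontrivial Ω[F⁄K]]
    (hgen : ∀ v : Place K F, v.DCoordGenerates) {X : Type*} [AddCommGroup X] [Module K X]
    (q : Ω[F⁄K] →ₗ[K] X) : Module.Finite K ((dfdH0 K F hgen).map q) := by
  haveI := dfd_finite_H0 (K := K) (F := F) hgen
  exact Module.Finite.map _ q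

end Abstract

section Concrete

variable (M : ℕ) [NeZero M] {p : ℕ} (hp : p.Prime) (hpM : ¬ p ∣ M)
  (A : ValuationSubring Kbar) (hA : A.LiesOverPrime p)

include hp hpM hA in
/-- **semicontinuity at level `M`**: the genus of `F_{M,k}` is at most `dim S₂(Γ₀(M))` -/
theorem dfd_genus_le :
    haveI : IsAlgClosed (IsLocalRing.ResidueField A) := isAlgClosed_residueField A
    haveI : RRHyp (IsLocalRing.ResidueField A) (Fk (IsLocalRing.ResidueField A) M) :=
      mr_rrHyp (IsLocalRing.ResidueField A) M
    genusFF (IsLocalRing.ResidueField A) (Fk (IsLocalRing.ResidueField A) M)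
      ≤ Module.finrank ℂ (CuspForm (Gamma0 M) 2) := by
  haveI : Fact p.Prime := ⟨hp⟩
  haveI : IsAlgClosed (IsLocalRing.ResidueField A) := isAlgClosed_residueField A
  haveI : RRHyp (IsLocalRing.ResidueField A) (Fk (IsLocalRing.ResidueField A) M) :=
    mr_rrHyp (IsLocalRing.ResidueField A) M
  haveI : RRHyp Kbar (FF M) := mod_rrHyp M
  haveI : Infinite (IsLocalRing.ResidueField A) := IsAlgClosed.instInfinite
  obtain ⟨R, -⟩ := exists_modConstRed M A (dw_ne_top hp hA) (Fermat.Agent.GoodRed.hred_modL M hpM A hA)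
  have h := R.genusFF_le
  rw [mod_genusFF_eq_finrank M] at h
  exact h

/-- the regular differentials of `F_{M,k}`, `k` algebraically closed of any characteristic -/
def dfdH0k (k : Type) [Field k] [IsAlgClosed k] (M : ℕ) [NeZero M] :
    Submodule k Ω[Fk k M⁄k] :=
  haveI := mr_rrHyp k M
  haveI := mr_ffSep k M
  haveI : Nontrivial Ω[Fk k M⁄k] := fsNontrivial_kaehler (K := k) (x := jbarC k M)
  dfdH0 k (Fk k M) (fun v => fsDCoordGenerates (x := jbarC k M) v)

theorem dfd_mem_H0k (k : Type) [Field k] [IsAlgClosed k] (M : ℕ) [NeZero M]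
    (ω : Ω[Fk k M⁄k]) :
    ω ∈ dfdH0k k M ↔ ∀ v : Place k (Fk k M), 0 ≤ v.ordDifferential ω := by
  haveI := mr_rrHyp k M
  haveI := mr_ffSep k M
  haveI : Nontrivial Ω[Fk k M⁄k] := fsNontrivial_kaehler (K := k) (x := jbarC k M)
  exact dfd_mem_H0 (K := k) (F := Fk k M) (fun v => fsDCoordGenerates (x := jbarC k M) v) ω

theorem dfd_finrank_H0k (k : Type) [Field k] [IsAlgClosed k] (M : ℕ) [NeZero M] :
    haveI := mr_rrHyp k M
    Module.finrank k (dfdH0k k M) = genusFF k (Fk k M) := by
  haveI := mr_rrHyp k M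
  haveI := mr_ffSep k M
  haveI : Nontrivial Ω[Fk k M⁄k] := fsNontrivial_kaehler (K := k) (x := jbarC k M)
  exact dfd_finrank_H0 (K := k) (F := Fk k M) (fun v => fsDCoordGenerates (x := jbarC k M) v)

/-- **hfd**: the image of the regular differentials of `F_{M,k}` under any `k`-linear map is
finite-dimensional -/
theorem dfd_hfd (k : Type) [Field k] [IsAlgClosed k] (M : ℕ) [NeZero M]
    {X : Type*} [AddCommGroup X] [Module k X] (q : Ω[Fk k M⁄k] →ₗ[k] X) :
    Module.Finite k ((dfdH0k k M).map q) := by
  haveI := mr_rrHyp k M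
  haveI := mr_ffSep k M
  haveI : Nontrivial Ω[Fk k M⁄k] := fsNontrivial_kaehler (K := k) (x := jbarC k M)
  exact dfd_finite_map (K := k) (F := Fk k M) (fun v => fsDCoordGenerates (x := jbarC k M) v) q

include hp hpM hA in
/-- **hdim**: the image of the regular differentials of `F_{M,k}` (`k` the residue field of `A`
over `p ∤ M`) under any `k`-linear map (e.g. the `q`-expansion) has dimension at most
`dim S₂(Γ₀(M))`. -/
theorem dfd_hdim {X : Type*} [AddCommGroup X] [Module (IsLocalRing.ResidueField A) X] :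
    haveI : IsAlgClosed (IsLocalRing.ResidueField A) := isAlgClosed_residueField A
    ∀ q : Ω[Fk (IsLocalRing.ResidueField A) M⁄IsLocalRing.ResidueField A]
        →ₗ[IsLocalRing.ResidueField A] X,
      Module.finrank (IsLocalRing.ResidueField A)
          ((dfdH0k (IsLocalRing.ResidueField A) M).map q)
        ≤ Module.finrank ℂ (CuspForm (Gamma0 M) 2) := by
  haveI : IsAlgClosed (IsLocalRing.ResidueField A) := isAlgClosed_residueField A
  intro q
  haveI := mr_rrHyp (IsLocalRing.ResidueField A) M
  haveI := mr_ffSep (IsLocalRing.ResidueField A) M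
  haveI : Nontrivial Ω[Fk (IsLocalRing.ResidueField A) M⁄IsLocalRing.ResidueField A] :=
    fsNontrivial_kaehler (K := IsLocalRing.ResidueField A)
      (x := jbarC (IsLocalRing.ResidueField A) M)
  refine le_trans (dfd_finrank_map_le (K := IsLocalRing.ResidueField A)
    (F := Fk (IsLocalRing.ResidueField A) M)
    (fun v => fsDCoordGenerates (x := jbarC (IsLocalRing.ResidueField A) M) v) q) ?_
  exact dfd_genus_le M hp hpM A hA

end Concrete

end Fermat.Agent.S40lib

end
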