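import Mathlib
import Fermat.Agent.S36lib.Speed
import Fermat.Agent.S49_Modular
import Fermat.Prelude.Def_CuspForm_HeckeLocal

/-!
# Item 88 (S40), block (LIFT), piece DF5: saturation and the dimension count

`L = intLattice M' 2` is the lattice of the cusp forms of weight `2` and level `Γ₀(M')` with
integral `q`-expansion.  Everything about differentials in characteristic `p` enters through ONE
subspace `Dbar` of `q`-series over a field `k` of characteristic `p` (the `q`-expansions of the
regular differentials of the reduced function field), with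

* `hdim` : `finrank Dbar ≤ dim S₂(Γ₀(M'))`  (Riemann–Roch in characteristic `p`, genus equality);
* `hΛ`   : the reduction of every cusp form with INTEGER `q`-expansion lies in `Dbar`.

Then (`dfs_main`) every element of `Dbar` is the reduction of a cusp form of level `M'` whose
`q`-expansion has coefficients in `R` (`R` any ring with a surjection `red : R → k` and a map
`ι : R → ℂ`, e.g. a valuation ring of `ℚ̄` over `p`).

Proof: a `ℤ`-basis of `L` stays linearly independent after reduction modulo `p` (SATURATION: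
a form of `L` whose coefficients are divisible by `p` is `p` times a form of `L`), first over
`ZMod p`, then over `k` (the coordinates lie in the prime field); its rank is at least
`dim S₂(Γ₀(M'))` (`HasIntegralStructure`, S23).
-/

set_option autoImplicit false
set_option linter.style.haveILetI false
set_option linter.unusedSectionVars false
set_option linter.unusedSimpArgs false
set_option linter.deprecated false

open CongruenceSubgroup ModularFormClass

namespace Fermat.Agent.S40lib

noncomputable section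

open Fermat.Agent.S49lib

variable (M' : ℕ)

/-- the integer `q`-coefficients of an element of the integral lattice -/
def dfs_coef (f : ↥(CuspForm.intLattice M' 2)) (n : ℕ) : ℤ :=
  Classical.choose ((mem_intLattice_iff' (f : CuspForm (Gamma0 M') 2)).1 f.2 n)

theorem dfs_coef_spec (f : ↥(CuspForm.intLattice M' 2)) (n : ℕ) :
    qCoeff (f : CuspForm (Gamma0 M') 2) n = ((dfs_coef M' f n : ℤ) : ℂ) :=
  Classical.choose_spec ((mem_intLattice_iff' (f : CuspForm (Gamma0 M') 2)).1 f.2 n)

/-- the integer coefficients are determined by the complex ones -/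
theorem dfs_coef_eq (f : ↥(CuspForm.intLattice M' 2)) (n : ℕ) (m : ℤ)
    (h : qCoeff (f : CuspForm (Gamma0 M') 2) n = (m : ℂ)) : dfs_coef M' f n = m := by
  have h1 := dfs_coef_spec M' f n
  rw [h] at h1
  exact_mod_cast h1.symm

/-- the coefficient map is `ℤ`-linear -/
def dfs_coefLin : ↥(CuspForm.intLattice M' 2) →ₗ[ℤ] (ℕ → ℤ) where
  toFun f n := dfs_coef M' f n
  map_add' f g := by
    funext n
    refine dfs_coef_eq M' (f + g) n _ ?_
    have h := (qCoeffLin M' 2 n).map_add (f : CuspForm (Gamma0 M') 2) g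
    simp only [qCoeffLin_apply] at h
    rw [Pi.add_apply, Int.cast_add, ← dfs_coef_spec, ← dfs_coef_spec]
    exact h
  map_smul' c f := by
    funext n
    refine dfs_coef_eq M' (c • f) n _ ?_
    have h := (qCoeffLin M' 2 n).map_smul (c : ℂ) (f : CuspForm (Gamma0 M') 2)
    simp only [qCoeffLin_apply, smul_eq_mul] at h
    rw [Pi.smul_apply, RingHom.id_apply, smul_eq_mul, Int.cast_mul, ← dfs_coef_spec, ← h]
    congr 1
    rw [Submodule.coe_smul, Int.cast_smul_eq_zsmul]

@[simp] theorem dfs_coefLin_apply (f : ↥(CuspForm.intLattice M' 2)) (n : ℕ) :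
    dfs_coefLin M' f n = dfs_coef M' f n := rfl

/-- **SATURATION**: a form of the lattice whose coefficients are all divisible by `p` is `p`
times a form of the lattice. -/
theorem dfs_saturated {p : ℕ} (hp : p ≠ 0) (f : ↥(CuspForm.intLattice M' 2))
    (h : ∀ n, (p : ℤ) ∣ dfs_coef M' f n) :
    ∃ g : ↥(CuspForm.intLattice M' 2), (p : ℤ) • g = f := by
  have hpC : (p : ℂ) ≠ 0 := Nat.cast_ne_zero.mpr hp
  set g₀ : CuspForm (Gamma0 M') 2 := ((p : ℂ)⁻¹) • (f : CuspForm (Gamma0 M') 2) with hg₀
  have hg₀mem : g₀ ∈ CuspForm.intLattice M' 2 := by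
    rw [mem_intLattice_iff']
    intro n
    obtain ⟨m, hm⟩ := h n
    refine ⟨m, ?_⟩
    have h1 := (qCoeffLin M' 2 n).map_smul ((p : ℂ)⁻¹) (f : CuspForm (Gamma0 M') 2)
    simp only [qCoeffLin_apply, smul_eq_mul] at h1
    rw [hg₀, h1, dfs_coef_spec, hm]
    push_cast
    field_simp
  refine ⟨⟨g₀, hg₀mem⟩, Subtype.ext ?_⟩
  rw [Submodule.coe_smul, Submodule.coe_mk, hg₀, ← Int.cast_smul_eq_zsmul ℂ, smul_smul]
  push_cast
  rw [mul_inv_cancel₀ hpC, one_smul]

section Basis

variable [NeZero M']

/-- **reduction modulo `p` of a `ℤ`-basis is independent** (coordinates in `ZMod p`) -/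
theorem dfs_indep_zmod {p : ℕ} (hp : p.Prime) {ι' : Type*} [Fintype ι']
    (b : Module.Basis ι' ℤ ↥(CuspForm.intLattice M' 2)) (c : ι' → ZMod p)
    (h : ∀ n, ∑ i, c i * ((dfs_coef M' (b i) n : ℤ) : ZMod p) = 0) : ∀ i, c i = 0 := by
  classical
  haveI : NeZero p := ⟨hp.ne_zero⟩
  -- integer lifts
  have hlift : ∀ i, ∃ m : ℤ, (m : ZMod p) = c i := fun i => ZMod.intCast_surjective (c i)
  choose m hm using hlift
  set f : ↥(CuspForm.intLattice M' 2) := ∑ i, m i • b i with hf
  have hcoef : ∀ n, dfs_coef M' f n = ∑ i, m i * dfs_coef M' (b i) n := by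
    intro n
    have h1 : dfs_coefLin M' f = ∑ i, m i • dfs_coefLin M' (b i) := by
      rw [hf, map_sum]
      exact Finset.sum_congr rfl fun i _ => map_smul _ _ _
    have h2 := congrFun h1 n
    rw [dfs_coefLin_apply, Finset.sum_apply] at h2
    rw [h2]
    exact Finset.sum_congr rfl fun i _ => by
      rw [Pi.smul_apply, dfs_coefLin_apply, smul_eq_mul]
  have hdvd : ∀ n, (p : ℤ) ∣ dfs_coef M' f n := by
    intro n
    rw [← ZMod.intCast_zmod_eq_zero_iff_dvd, hcoef n]
    push_cast
    rw [← h n]
    exact Finset.sum_congr rfl fun i _ => by rw [hm i]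
  obtain ⟨g, hg⟩ := dfs_saturated M' hp.ne_zero f hdvd
  intro i
  have h1 : b.repr f i = m i := by
    rw [hf, map_sum, Finsupp.finset_sum_apply]
    simp only [map_smul, Module.Basis.repr_self, Finsupp.smul_apply, smul_eq_mul]
    rw [Finset.sum_eq_single i]
    · simp
    · intro j _ hji
      simp [Finsupp.single_apply, hji]
    · intro hi
      exact absurd (Finset.mem_univ i) hi
  have h2 : b.repr f i = (p : ℤ) * b.repr g i := by
    rw [← hg, map_smul, Finsupp.smul_apply, smul_eq_mul]
  rw [← hm i, ZMod.intCast_zmod_eq_zero_iff_dvd, ← h1, h2]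
  exact dvd_mul_right _ _

/-- **reduction of a `ℤ`-basis is independent over every field of characteristic `p`** -/
theorem dfs_indep {p : ℕ} (hp : p.Prime) {k : Type*} [Field k] [CharP k p] {ι' : Type*}
    [Fintype ι'] (b : Module.Basis ι' ℤ ↥(CuspForm.intLattice M' 2)) (c : ι' → k)
    (h : ∀ n, ∑ i, c i * ((dfs_coef M' (b i) n : ℤ) : k) = 0) : ∀ i, c i = 0 := by
  classical
  haveI : Fact p.Prime := ⟨hp⟩
  letI : Algebra (ZMod p) k := ZMod.algebra k p
  set B := Module.Basis.ofVectorSpace (ZMod p) k with hB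
  by_contra hne
  rw [not_forall] at hne
  obtain ⟨i₀, hi₀⟩ := hne
  have hj : ∃ j, B.repr (c i₀) j ≠ 0 := by
    by_contra hall
    rw [not_exists] at hall
    apply hi₀
    have : B.repr (c i₀) = 0 := Finsupp.ext fun j => by
      have := hall j
      rw [not_not] at this
      rw [this, Finsupp.zero_apply]
    exact (LinearEquiv.map_eq_zero_iff B.repr).1 this
  obtain ⟨j, hj⟩ := hj
  set φ : k →ₗ[ZMod p] ZMod p := B.coord j with hφ
  have hφ0 : φ (c i₀) ≠ 0 := hj
  have key : ∀ n, ∑ i, φ (c i) * ((dfs_coef M' (b i) n : ℤ) : ZMod p) = 0 := by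
    intro n
    have h1 := congrArg φ (h n)
    rw [map_sum, map_zero] at h1
    rw [← h1]
    refine Finset.sum_congr rfl fun i _ => ?_
    have h2 : c i * ((dfs_coef M' (b i) n : ℤ) : k) =
        ((dfs_coef M' (b i) n : ℤ) : ZMod p) • c i := by
      rw [Algebra.smul_def, mul_comm, map_intCast]
    rw [h2, map_smul, smul_eq_mul, mul_comm]
  exact hφ0 (dfs_indep_zmod M' hp b (fun i => φ (c i)) key i₀)

/-- the rank of the lattice is at least `dim S₂(Γ₀(M'))` -/
theorem dfs_card_ge (hint : CuspForm.HasIntegralStructure M' 2) {ι' : Type*} [Fintype ι']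
    (b : Module.Basis ι' ℤ ↥(CuspForm.intLattice M' 2)) :
    Module.finrank ℂ (CuspForm (Gamma0 M') 2) ≤ Fintype.card ι' := by
  classical
  have hspan : Submodule.span ℂ
      (Set.range fun i => ((b i : ↥(CuspForm.intLattice M' 2)) : CuspForm (Gamma0 M') 2)) = ⊤ := by
    rw [eq_top_iff, ← hint, Submodule.span_le]
    intro f hf
    have h1 := b.sum_repr ⟨f, hf⟩
    have h2 : f = ∑ i, ((b.repr ⟨f, hf⟩ i : ℤ) : ℂ) •
        ((b i : ↥(CuspForm.intLattice M' 2)) : CuspForm (Gamma0 M') 2) := by
      have h3 : ((∑ i, b.repr ⟨f, hf⟩ i • b i : ↥(CuspForm.intLattice M' 2)) :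
          CuspForm (Gamma0 M') 2) = f := congrArg (Subtype.val) h1
      rw [Submodule.coe_sum] at h3
      refine h3.symm.trans (Finset.sum_congr rfl fun i _ => ?_)
      rw [Submodule.coe_smul, Int.cast_smul_eq_zsmul]
    rw [SetLike.mem_coe, h2]
    exact Submodule.sum_mem _ fun i _ =>
      Submodule.smul_mem _ _ (Submodule.subset_span ⟨i, rfl⟩)
  have h1 := finrank_range_le_card (R := ℂ)
    (fun i => ((b i : ↥(CuspForm.intLattice M' 2)) : CuspForm (Gamma0 M') 2))
  rw [Set.finrank, hspan, finrank_top] at h1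
  exact h1

/-- the reduction of the lattice: `f ↦ (n ↦ a_n(f) mod p)` as a function `ℕ → k` -/
def dfs_red (k : Type*) [CommRing k] (f : ↥(CuspForm.intLattice M' 2)) : ℕ → k :=
  fun n => ((dfs_coef M' f n : ℤ) : k)

omit [NeZero M'] in
/-- the reduction of a cusp form with integer coefficients `a` is `n ↦ (a n : k)` -/
theorem dfs_red_eq (k : Type*) [CommRing k] (f : CuspForm (Gamma0 M') 2) (a : ℕ → ℤ)
    (ha : ∀ n, qCoeff f n = (a n : ℂ)) :
    ∃ hf : f ∈ CuspForm.intLattice M' 2, dfs_red M' k ⟨f, hf⟩ = fun n => ((a n : ℤ) : k) := by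
  have hf : f ∈ CuspForm.intLattice M' 2 :=
    (mem_intLattice_iff' f).2 fun n => ⟨a n, ha n⟩
  refine ⟨hf, funext fun n => ?_⟩
  rw [dfs_red, dfs_coef_eq M' ⟨f, hf⟩ n (a n) (ha n)]

/-- **the reductions of a `ℤ`-basis of the lattice are linearly independent over `k`** -/
theorem dfs_linearIndependent {p : ℕ} (hp : p.Prime) (k : Type*) [Field k] [CharP k p]
    {ι' : Type*} [Fintype ι'] (b : Module.Basis ι' ℤ ↥(CuspForm.intLattice M' 2)) :
    LinearIndependent k (fun i => dfs_red M' k (b i)) := by
  classical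
  rw [Fintype.linearIndependent_iff]
  intro c hc
  refine dfs_indep M' hp b c fun n => ?_
  have h1 := congrFun hc n
  rw [Finset.sum_apply, Pi.zero_apply] at h1
  rw [← h1]
  exact Finset.sum_congr rfl fun i _ => by rw [Pi.smul_apply, smul_eq_mul, dfs_red]

/-- **DF5, span form**: a subspace `Dbar` of `q`-series over `k`, of dimension at most
`dim S₂(Γ₀(M'))`, which contains the reductions of the cusp forms with integer coefficients, is
SPANNED by the reductions of a `ℤ`-basis of the integral lattice. -/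
theorem dfs_span_eq {p : ℕ} (hp : p.Prime) {k : Type*} [Field k] [CharP k p]
    (hint : CuspForm.HasIntegralStructure M' 2)
    (Dbar : Submodule k (ℕ → k)) [Module.Finite k Dbar]
    (hdim : Module.finrank k Dbar ≤ Module.finrank ℂ (CuspForm (Gamma0 M') 2))
    (hΛ : ∀ (f : CuspForm (Gamma0 M') 2) (a : ℕ → ℤ), (∀ n, qCoeff f n = (a n : ℂ)) →
      (fun n => ((a n : ℤ) : k)) ∈ Dbar)
    {ι' : Type*} [Fintype ι'] (b : Module.Basis ι' ℤ ↥(CuspForm.intLattice M' 2)) :
    Submodule.span k (Set.range fun i => dfs_red M' k (b i)) = Dbar := by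
  classical
  have hle : Submodule.span k (Set.range fun i => dfs_red M' k (b i)) ≤ Dbar := by
    rw [Submodule.span_le]
    rintro _ ⟨i, rfl⟩
    exact hΛ (b i : CuspForm (Gamma0 M') 2) (dfs_coef M' (b i)) (dfs_coef_spec M' (b i))
  have hli := dfs_linearIndependent M' hp k b
  have hcard : Module.finrank k (Submodule.span k (Set.range fun i => dfs_red M' k (b i))) =
      Fintype.card ι' := finrank_span_eq_card hli
  refine Submodule.eq_of_le_of_finrank_le hle ?_
  rw [hcard]
  exact hdim.trans (dfs_card_ge M' hint b)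

/-- **DF5 = saturation + dimension count.**  Let `Dbar` be a finite-dimensional subspace of
`q`-series over a field `k` of characteristic `p` with `dim Dbar ≤ dim S₂(Γ₀(M'))` which contains
the reduction of every cusp form of level `M'` with INTEGER `q`-expansion.  Then every `d ∈ Dbar`
is the reduction of a cusp form `F` of level `M'` whose `q`-expansion has coefficients in `R`
(`R` any ring with a surjection `red : R → k` and a ring homomorphism `ι : R → ℂ`).
The conclusion is the hypothesis `hrel` of `lds_main` (helper17, `LiftDS.lean`). -/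
theorem dfs_main {p : ℕ} (hp : p.Prime) {k : Type*} [Field k] [CharP k p]
    {R : Type*} [CommRing R] (ι : R →+* ℂ) (red : R →+* k) (hred : Function.Surjective red)
    (hint : CuspForm.HasIntegralStructure M' 2)
    (Dbar : Submodule k (ℕ → k)) [Module.Finite k Dbar]
    (hdim : Module.finrank k Dbar ≤ Module.finrank ℂ (CuspForm (Gamma0 M') 2))
    (hΛ : ∀ (f : CuspForm (Gamma0 M') 2) (a : ℕ → ℤ), (∀ n, qCoeff f n = (a n : ℂ)) →
      (fun n => ((a n : ℤ) : k)) ∈ Dbar)
    (d : ℕ → k) (hd : d ∈ Dbar) :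
    ∃ F : CuspForm (Gamma0 M') 2, ∀ n, ∃ c : R, ι c = qCoeff F n ∧ red c = d n := by
  classical
  haveI := CuspForm.intLattice.moduleFinite M'
  haveI := CuspForm.intLattice.moduleFree M'
  set b := Module.Free.chooseBasis ℤ ↥(CuspForm.intLattice M' 2) with hb
  have hspan := dfs_span_eq M' hp hint Dbar hdim hΛ b
  rw [← hspan] at hd
  obtain ⟨cbar, hcbar⟩ := (Submodule.mem_span_range_iff_exists_fun k).1 hd
  choose c hc using fun i => hred (cbar i)
  refine ⟨∑ i, ι (c i) • ((b i : ↥(CuspForm.intLattice M' 2)) : CuspForm (Gamma0 M') 2),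
    fun n => ⟨∑ i, c i * ((dfs_coef M' (b i) n : ℤ) : R), ?_, ?_⟩⟩
  · have h1 := map_sum (qCoeffLin M' 2 n)
      (fun i => ι (c i) • ((b i : ↥(CuspForm.intLattice M' 2)) : CuspForm (Gamma0 M') 2))
      Finset.univ
    rw [qCoeffLin_apply] at h1
    rw [h1, map_sum]
    refine Finset.sum_congr rfl fun i _ => ?_
    rw [map_smul, qCoeffLin_apply, smul_eq_mul, dfs_coef_spec, map_mul, map_intCast]
  · rw [map_sum, ← hcbar, Finset.sum_apply]
    refine Finset.sum_congr rfl fun i _ => ?_
    rw [map_mul, map_intCast, hc i, Pi.smul_apply, smul_eq_mul, dfs_red]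

/-- `dfs_main` with `HasIntegralStructure` as an explicit hypothesis replaced by the rank
inequality it is used for (for callers who have another source of it). -/
theorem dfs_main_of_card {p : ℕ} (hp : p.Prime) {k : Type*} [Field k] [CharP k p]
    {R : Type*} [CommRing R] (ι : R →+* ℂ) (red : R →+* k) (hred : Function.Surjective red)
    (Dbar : Submodule k (ℕ → k)) [Module.Finite k Dbar]
    (hdim : ∀ {ι' : Type} [Fintype ι'] (_ : Module.Basis ι' ℤ ↥(CuspForm.intLattice M' 2)),
      Module.finrank k Dbar ≤ Fintype.card ι')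
    (hΛ : ∀ (f : CuspForm (Gamma0 M') 2) (a : ℕ → ℤ), (∀ n, qCoeff f n = (a n : ℂ)) →
      (fun n => ((a n : ℤ) : k)) ∈ Dbar)
    (d : ℕ → k) (hd : d ∈ Dbar) :
    ∃ F : CuspForm (Gamma0 M') 2, ∀ n, ∃ c : R, ι c = qCoeff F n ∧ red c = d n := by
  classical
  haveI := CuspForm.intLattice.moduleFinite M'
  haveI := CuspForm.intLattice.moduleFree M'
  set b := Module.Free.chooseBasis ℤ ↥(CuspForm.intLattice M' 2) with hb
  have hle : Submodule.span k (Set.range fun i => dfs_red M' k (b i)) ≤ Dbar := by
    rw [Submodule.span_le]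
    rintro _ ⟨i, rfl⟩
    exact hΛ (b i : CuspForm (Gamma0 M') 2) (dfs_coef M' (b i)) (dfs_coef_spec M' (b i))
  have hli := dfs_linearIndependent M' hp k b
  have hcard : Module.finrank k (Submodule.span k (Set.range fun i => dfs_red M' k (b i))) =
      Fintype.card (Module.Free.ChooseBasisIndex ℤ ↥(CuspForm.intLattice M' 2)) :=
    finrank_span_eq_card hli
  have hspan : Submodule.span k (Set.range fun i => dfs_red M' k (b i)) = Dbar := by
    refine Submodule.eq_of_le_of_finrank_le hle ?_
    rw [hcard]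
    exact hdim b
  rw [← hspan] at hd
  obtain ⟨cbar, hcbar⟩ := (Submodule.mem_span_range_iff_exists_fun k).1 hd
  choose c hc using fun i => hred (cbar i)
  refine ⟨∑ i, ι (c i) • ((b i : ↥(CuspForm.intLattice M' 2)) : CuspForm (Gamma0 M') 2),
    fun n => ⟨∑ i, c i * ((dfs_coef M' (b i) n : ℤ) : R), ?_, ?_⟩⟩
  · have h1 := map_sum (qCoeffLin M' 2 n)
      (fun i => ι (c i) • ((b i : ↥(CuspForm.intLattice M' 2)) : CuspForm (Gamma0 M') 2))
      Finset.univ
    rw [qCoeffLin_apply] at h1
    rw [h1, map_sum]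
    refine Finset.sum_congr rfl fun i _ => ?_
    rw [map_smul, qCoeffLin_apply, smul_eq_mul, dfs_coef_spec, map_mul, map_intCast]
  · rw [map_sum, ← hcbar, Finset.sum_apply]
    refine Finset.sum_congr rfl fun i _ => ?_
    rw [map_mul, map_intCast, hc i, Pi.smul_apply, smul_eq_mul, dfs_red]

end Basis

end

end Fermat.Agent.S40lib
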