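import Mathlib
import Fermat.Agent.S36lib.Speed
import Fermat.Agent.S40lib.LiftHub2
import Fermat.Agent.S40lib.DiffSat
import Fermat.Agent.S40lib.DiffDim16
import Fermat.Agent.S40lib.DerTheta
import Fermat.Agent.S23

/-!
# Item 88 (S40), layer (LIFT): BLOCK B (lattice), assembly (helper10)

`LfhBlockB M A` (`LiftHub2.lean`): every `q`-expansion of a holomorphic differential of the
reduced function field `F_k` of level `M` (`p ∤ M`, `k` the residue field of `A` over `p`) is the
reduction of a cusp form of level `M` with `A`-integral `q`-expansion.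

* `bkbSer k M` : the `q`-expansion `ω ↦ ω/dq` of the Kähler differentials of `F_k`
  (the lift of the derivation `d/dq`, `dthDer` of helper29);
* `bkbQ k M` : the `k`-linear map `ω ↦ (n ↦ coefficient of q ^ n of q · ω/dq)`;
  `bkbQ_smul_D : bkbQ (h • D j̄) = lfhQ k M h`;
* `bkb_isDiff_iff : LfhIsDiff k M d ↔ d ∈ (dfdH0k k M).map (bkbQ k M)`;
* `BkbLat M A` : **the one open input** (provider: `DiffLat`, pieces N1 + N4 + N3): the reduction
  of every cusp form of level `M` with INTEGER `q`-expansion is the `q`-expansion of a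
  holomorphic differential of `F_k`;
* `bkb_main : BkbLat M A → LfhBlockB M A` (`dfs_main` + `dfd_hdim` + `dfd_hfd` + S23).
-/

set_option autoImplicit false
set_option linter.style.haveILetI false
set_option linter.unusedSectionVars false
set_option synthInstance.maxHeartbeats 400000

noncomputable section

namespace Fermat.Agent.S40lib

open ModularCurve AlgebraicCurve HahnSeries Fermat.Agent.GoodRed Fermat.Agent.GM
  Fermat.Agent.S24lib Fermat.Agent.RRlib Fermat.Agent.FFlib KaehlerDifferential
  CongruenceSubgroup ModularFormClass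

section Q

variable (k : Type) [Field k] (M : ℕ) [NeZero M]

/-- the `q`-expansion `ω ↦ ω/dq` of the Kähler differentials of `F_k`, `k`-linear -/
def bkbSer : Ω[Fk k M⁄k] →ₗ[k] LaurentSeries k :=
  haveI := dth_isScalarTower (modularFunctionFieldFullC k M)
  ((dthDer (modularFunctionFieldFullC k M)).liftKaehlerDifferential).restrictScalars k

theorem bkbSer_smul_D (h x : Fk k M) :
    bkbSer k M (h • D k (Fk k M) x) =
      (h : LaurentSeries k) * LaurentSeries.derivative k (x : LaurentSeries k) := by
  haveI := dth_isScalarTower (modularFunctionFieldFullC k M)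
  show (dthDer (modularFunctionFieldFullC k M)).liftKaehlerDifferential
    (h • D k (Fk k M) x) = _
  rw [map_smul, Derivation.liftKaehlerDifferential_comp_D, dthDer_apply]
  rfl

/-- the `k`-linear map `ω ↦ (n ↦ coefficient of q ^ n of q · ω/dq)` -/
def bkbQ : Ω[Fk k M⁄k] →ₗ[k] (ℕ → k) where
  toFun ω n := (bkbSer k M ω).coeff ((n : ℤ) - 1)
  map_add' ω η := by
    funext n
    rw [map_add, HahnSeries.coeff_add, Pi.add_apply]
  map_smul' c ω := by
    funext n
    rw [map_smul, HahnSeries.coeff_smul, RingHom.id_apply, Pi.smul_apply]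

theorem bkbQ_smul_D (h : Fk k M) :
    bkbQ k M (h • D k (Fk k M) (jbarC k M)) = lfhQ k M h := by
  funext n
  show (bkbSer k M (h • D k (Fk k M) (jbarC k M))).coeff ((n : ℤ) - 1) = lfhQ k M h n
  rw [bkbSer_smul_D]
  rfl

/-- **the `q`-expansions of the holomorphic differentials form the subspace
`(dfdH0k k M).map (bkbQ k M)`** -/
theorem bkb_isDiff_iff [IsAlgClosed k] (d : ℕ → k) :
    LfhIsDiff k M d ↔ d ∈ (dfdH0k k M).map (bkbQ k M) := by
  haveI := mr_rrHyp k M
  haveI := mr_ffSep k M
  constructor
  · rintro ⟨h, hreg, rfl⟩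
    refine ⟨h • D k (Fk k M) (jbarC k M), ?_, bkbQ_smul_D k M h⟩
    exact (dfd_mem_H0k k M _).2 hreg
  · rintro ⟨ω, hω, rfl⟩
    have hspan : Submodule.span (Fk k M) {D k (Fk k M) (jbarC k M)} = ⊤ :=
      fsSpan_D_eq_top (K := k) (x := jbarC k M)
    have hmem : ω ∈ Submodule.span (Fk k M) {D k (Fk k M) (jbarC k M)} := by
      rw [hspan]; exact Submodule.mem_top
    obtain ⟨h, rfl⟩ := Submodule.mem_span_singleton.1 hmem
    exact ⟨h, (dfd_mem_H0k k M _).1 hω, bkbQ_smul_D k M h⟩

end Q

/-- **the open input of block B** (N1 + N4 + N3, provider `DiffLat`): the reduction of every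
cusp form of level `M` with INTEGER `q`-expansion is the `q`-expansion of a holomorphic
differential of `F_k`. -/
def BkbLat (M : ℕ) [NeZero M] (A : ValuationSubring Kbar) : Prop :=
  ∀ (f : CuspForm (Gamma0 M) 2) (a : ℕ → ℤ), (∀ n, qCoeff f n = (a n : ℂ)) →
    LfhIsDiff (IsLocalRing.ResidueField A) M (fun n => ((a n : ℤ) : IsLocalRing.ResidueField A))

/-- **BLOCK B** from the lattice input: every `q`-expansion of a holomorphic differential of
`F_k` is the reduction of a cusp form of level `M` with `A`-integral `q`-expansion. -/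
theorem bkb_main (M : ℕ) [NeZero M] {p : ℕ} (hp : p.Prime) (hpM : ¬ p ∣ M)
    (A : ValuationSubring Kbar) (hA : A.LiesOverPrime p) (hΛ : BkbLat M A) :
    LfhBlockB M A := by
  haveI : Fact p.Prime := ⟨hp⟩
  haveI : IsAlgClosed (IsLocalRing.ResidueField A) := isAlgClosed_residueField A
  haveI : CharP (IsLocalRing.ResidueField A) p := charP_residueField hA
  intro d hd
  rw [bkb_isDiff_iff] at hd
  haveI : Module.Finite (IsLocalRing.ResidueField A)
      ((dfdH0k (IsLocalRing.ResidueField A) M).map (bkbQ (IsLocalRing.ResidueField A) M)) :=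
    dfd_hfd (IsLocalRing.ResidueField A) M (bkbQ (IsLocalRing.ResidueField A) M)
  have hdim := dfd_hdim M hp hpM A hA (bkbQ (IsLocalRing.ResidueField A) M)
  obtain ⟨F, hF⟩ := dfs_main M hp (ιC.comp A.subtype) (IsLocalRing.residue A)
    IsLocalRing.residue_surjective (Fermat.Agent.S23.result M)
    ((dfdH0k (IsLocalRing.ResidueField A) M).map (bkbQ (IsLocalRing.ResidueField A) M)) hdim
    (fun f a ha => (bkb_isDiff_iff (IsLocalRing.ResidueField A) M _).1 (hΛ f a ha)) d hd
  choose c hc using hF
  exact ⟨F, c, fun n => ((hc n).1).symm, fun n => (hc n).2⟩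

end Fermat.Agent.S40lib

end
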