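import Mathlib
import Fermat.Agent.S36lib.Speed
import Fermat.Agent.S36lib.PlaceDict

/-!
# Item 88 (S40/S44), block (J-WILD), piece (G2e): the branch ring of a node ring

(helper24.)  The input `(D, red0)` of `g2e_congr` (`S40lib/EisExt2.lean`) from a node ring.

`L` is a domain (a node ring of the cover or of `X`), `x` a prime element (the branch), `E` a
field containing `L` (`algebraMap L E` injective; `E` may be bigger than `Frac L`),
`red : L → κ` a ring homomorphism to a field with kernel `(x)`.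
`D := pdPrimeLoc E x hx = {n / d : x ∤ d} ⊆ E` is the branch ring.

* `brr_isUnit_iff`     : `n / d` is a unit of `D` iff `x ∤ n`;
* `brr_isLocalRing`    : `D` is a local ring;
* `brrRed`             : `red0 : D →+* κ`, `red0 (n / d) = red n / red d` (`brrRed_eq`);
* `brrRed_maximalIdeal`: `red0` kills `𝔪_D`;
* `brr_mem_maximalIdeal` : `algebraMap ϖ ∈ 𝔪_D` for `x ∣ ϖ`;
* `brr_w_red`          : `w (red0 (n / d)) = w (red n) - w (red d)` for an additive `w`;
* `brr_exists_unit`    : every non-zero `n / d` (`n, d ∈ L`) is `ϖ ^ k · b`, `b` a unit of `D`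
                         (`L` a UFD, `ϖ = c x`, `x ∤ c`).
-/

set_option autoImplicit false
set_option linter.unusedVariables false
set_option linter.unusedSectionVars false
set_option linter.style.haveILetI false

noncomputable section

namespace Fermat.Agent.S40lib

open Fermat.Agent.S36lib IsLocalRing

section BranchRing

variable {L E κ : Type*} [CommRing L] [IsDomain L] [Field E] [Algebra L E] [Field κ]

theorem brr_algebraMap_mem (x : L) (hx : Prime x) (c : L) :
    algebraMap L E c ∈ pdPrimeLoc E x hx :=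
  ⟨c, 1, hx.not_dvd_one, by simp⟩

theorem brr_ne_zero (hinj : Function.Injective (algebraMap L E)) (x : L) {d : L}
    (hd : ¬ x ∣ d) : algebraMap L E d ≠ 0 := by
  intro h
  apply hd
  have : d = 0 := hinj (by rw [h, map_zero])
  rw [this]
  exact dvd_zero x

theorem brr_inv_mem (hinj : Function.Injective (algebraMap L E)) (x : L) (hx : Prime x)
    {d : L} (hd : ¬ x ∣ d) : (algebraMap L E d)⁻¹ ∈ pdPrimeLoc E x hx :=
  ⟨1, d, hd, by rw [map_one, inv_mul_cancel₀ (brr_ne_zero hinj x hd)]⟩

/-- `n / d` is a unit of `D` iff `x ∤ n` -/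
theorem brr_isUnit_iff (hinj : Function.Injective (algebraMap L E)) (x : L) (hx : Prime x)
    (f : pdPrimeLoc E x hx) (n d : L) (hd : ¬ x ∣ d)
    (hf : (f : E) * algebraMap L E d = algebraMap L E n) : IsUnit f ↔ ¬ x ∣ n := by
  have hd0 := brr_ne_zero hinj x hd
  constructor
  · rintro ⟨v, rfl⟩ hn
    obtain ⟨n', d', hd', hf'⟩ := ((v⁻¹ : (pdPrimeLoc E x hx)ˣ) : pdPrimeLoc E x hx).2
    have h1 : ((v : pdPrimeLoc E x hx) : E) *
        (((v⁻¹ : (pdPrimeLoc E x hx)ˣ) : pdPrimeLoc E x hx) : E) = 1 := by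
      have := congrArg (fun t : pdPrimeLoc E x hx => (t : E)) v.mul_inv
      simp only [Subring.coe_mul, Subring.coe_one] at this
      exact this
    have h2 : algebraMap L E (n * n') = algebraMap L E (d * d') := by
      rw [map_mul, map_mul, ← hf, ← hf']
      calc ((v : pdPrimeLoc E x hx) : E) * algebraMap L E d *
            ((((v⁻¹ : (pdPrimeLoc E x hx)ˣ) : pdPrimeLoc E x hx) : E) * algebraMap L E d')
          = (((v : pdPrimeLoc E x hx) : E) *
              (((v⁻¹ : (pdPrimeLoc E x hx)ˣ) : pdPrimeLoc E x hx) : E)) *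
              (algebraMap L E d * algebraMap L E d') := by ring
        _ = algebraMap L E d * algebraMap L E d' := by rw [h1, one_mul]
    have h3 := hinj h2
    have h4 : x ∣ d * d' := by
      rw [← h3]
      exact Dvd.dvd.mul_right hn n'
    exact (hx.dvd_or_dvd h4).elim hd hd'
  · intro hn
    have hn0 := brr_ne_zero hinj x hn
    have hfE : (f : E) = algebraMap L E n * (algebraMap L E d)⁻¹ := by
      rw [← hf]
      field_simp
    have hinv : algebraMap L E d * (algebraMap L E n)⁻¹ ∈ pdPrimeLoc E x hx :=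
      (pdPrimeLoc E x hx).mul_mem (brr_algebraMap_mem x hx d) (brr_inv_mem hinj x hx hn)
    refine IsUnit.of_mul_eq_one (⟨_, hinv⟩ : pdPrimeLoc E x hx) ?_
    apply Subtype.ext
    show (f : E) * (algebraMap L E d * (algebraMap L E n)⁻¹) = 1
    rw [hfE]
    field_simp

/-- the branch ring is local -/
theorem brr_isLocalRing (hinj : Function.Injective (algebraMap L E)) (x : L) (hx : Prime x) :
    IsLocalRing (pdPrimeLoc E x hx) := by
  haveI : Nontrivial (pdPrimeLoc E x hx) := inferInstance
  refine IsLocalRing.of_isUnit_or_isUnit_one_sub_self fun f => ?_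
  obtain ⟨n, d, hd, hf⟩ := f.2
  by_cases hn : x ∣ n
  · right
    have h1 : (((1 - f : pdPrimeLoc E x hx)) : E) * algebraMap L E d = algebraMap L E (d - n) := by
      rw [map_sub, ← hf]
      push_cast
      ring
    refine (brr_isUnit_iff hinj x hx (1 - f) (d - n) d hd h1).2 ?_
    intro h
    apply hd
    have := dvd_add h hn
    rwa [sub_add_cancel] at this
  · left
    exact (brr_isUnit_iff hinj x hx f n d hd hf).2 hn

/-- the reduction of the branch ring, as a function -/
def brrRedFun (x : L) (hx : Prime x) (red : L →+* κ) (f : pdPrimeLoc E x hx) : κ :=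
  red (Classical.choose f.2) / red (Classical.choose (Classical.choose_spec f.2))

theorem brrRedFun_eq (hinj : Function.Injective (algebraMap L E)) (x : L) (hx : Prime x)
    (red : L →+* κ) (hred : ∀ c, red c = 0 ↔ x ∣ c) (f : pdPrimeLoc E x hx) (n d : L)
    (hd : ¬ x ∣ d) (hf : (f : E) * algebraMap L E d = algebraMap L E n) :
    brrRedFun x hx red f = red n / red d := by
  unfold brrRedFun
  obtain ⟨hd0, hf0⟩ := Classical.choose_spec (Classical.choose_spec f.2)
  set n0 := Classical.choose f.2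
  set d0 := Classical.choose (Classical.choose_spec f.2)
  have h1 : algebraMap L E (n0 * d) = algebraMap L E (n * d0) := by
    rw [map_mul, map_mul, ← hf0, ← hf]
    ring
  have h2 := hinj h1
  have h3 : red n0 * red d = red n * red d0 := by rw [← map_mul, ← map_mul, h2]
  have hrd : red d ≠ 0 := fun h => hd ((hred d).1 h)
  have hrd0 : red d0 ≠ 0 := fun h => hd0 ((hred d0).1 h)
  rw [div_eq_div_iff hrd0 hrd]
  exact h3

/-- **the reduction of the branch ring** `red0 : D →+* κ`. -/
def brrRed (hinj : Function.Injective (algebraMap L E)) (x : L) (hx : Prime x)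
    (red : L →+* κ) (hred : ∀ c, red c = 0 ↔ x ∣ c) : pdPrimeLoc E x hx →+* κ where
  toFun := brrRedFun x hx red
  map_one' := by
    rw [brrRedFun_eq hinj x hx red hred 1 1 1 hx.not_dvd_one (by simp)]
    simp
  map_mul' f g := by
    obtain ⟨n, d, hd, hf⟩ := f.2
    obtain ⟨n', d', hd', hg⟩ := g.2
    rw [brrRedFun_eq hinj x hx red hred (f * g) (n * n') (d * d')
        (fun h => (hx.dvd_or_dvd h).elim hd hd')
        (by rw [map_mul, map_mul, ← hf, ← hg]; push_cast; ring),
      brrRedFun_eq hinj x hx red hred f n d hd hf,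
      brrRedFun_eq hinj x hx red hred g n' d' hd' hg, map_mul, map_mul, div_mul_div_comm]
  map_zero' := by
    rw [brrRedFun_eq hinj x hx red hred 0 0 1 hx.not_dvd_one (by simp)]
    simp
  map_add' f g := by
    obtain ⟨n, d, hd, hf⟩ := f.2
    obtain ⟨n', d', hd', hg⟩ := g.2
    have hrd : red d ≠ 0 := fun h => hd ((hred d).1 h)
    have hrd' : red d' ≠ 0 := fun h => hd' ((hred d').1 h)
    rw [brrRedFun_eq hinj x hx red hred (f + g) (n * d' + n' * d) (d * d')
        (fun h => (hx.dvd_or_dvd h).elim hd hd')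
        (by rw [map_add, map_mul, map_mul, map_mul, ← hf, ← hg]; push_cast; ring),
      brrRedFun_eq hinj x hx red hred f n d hd hf,
      brrRedFun_eq hinj x hx red hred g n' d' hd' hg, map_add, map_mul, map_mul, map_mul]
    field_simp

theorem brrRed_eq (hinj : Function.Injective (algebraMap L E)) (x : L) (hx : Prime x)
    (red : L →+* κ) (hred : ∀ c, red c = 0 ↔ x ∣ c) (f : pdPrimeLoc E x hx) (n d : L)
    (hd : ¬ x ∣ d) (hf : (f : E) * algebraMap L E d = algebraMap L E n) :
    brrRed hinj x hx red hred f = red n / red d :=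
  brrRedFun_eq hinj x hx red hred f n d hd hf

theorem brrRed_algebraMap (hinj : Function.Injective (algebraMap L E)) (x : L) (hx : Prime x)
    (red : L →+* κ) (hred : ∀ c, red c = 0 ↔ x ∣ c) (c : L) :
    brrRed hinj x hx red hred ⟨algebraMap L E c, brr_algebraMap_mem x hx c⟩ = red c := by
  rw [brrRed_eq hinj x hx red hred _ c 1 hx.not_dvd_one (by simp), map_one, div_one]

/-- `red0` kills the maximal ideal of the branch ring -/
theorem brrRed_maximalIdeal (hinj : Function.Injective (algebraMap L E)) (x : L) (hx : Prime x)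
    (red : L →+* κ) (hred : ∀ c, red c = 0 ↔ x ∣ c) :
    haveI := brr_isLocalRing (E := E) hinj x hx
    ∀ z ∈ maximalIdeal (pdPrimeLoc E x hx), brrRed hinj x hx red hred z = 0 := by
  haveI := brr_isLocalRing (E := E) hinj x hx
  intro z hz
  obtain ⟨n, d, hd, hf⟩ := z.2
  have hnu : ¬ IsUnit z := (mem_maximalIdeal z).1 hz
  have hn : x ∣ n := by
    by_contra hn
    exact hnu ((brr_isUnit_iff hinj x hx z n d hd hf).2 hn)
  rw [brrRed_eq hinj x hx red hred z n d hd hf, (hred n).2 hn, zero_div]

/-- the image of a multiple of `x` lies in the maximal ideal -/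
theorem brr_mem_maximalIdeal (hinj : Function.Injective (algebraMap L E)) (x : L)
    (hx : Prime x) (ϖ : L) (hϖ : x ∣ ϖ) :
    haveI := brr_isLocalRing (E := E) hinj x hx
    (⟨algebraMap L E ϖ, brr_algebraMap_mem x hx ϖ⟩ : pdPrimeLoc E x hx) ∈
      maximalIdeal (pdPrimeLoc E x hx) := by
  haveI := brr_isLocalRing (E := E) hinj x hx
  rw [mem_maximalIdeal, mem_nonunits_iff]
  intro hu
  exact (brr_isUnit_iff hinj x hx _ ϖ 1 hx.not_dvd_one (by simp)).1 hu hϖ

/-- the order of the reduction of `n / d` -/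
theorem brr_w_red (hinj : Function.Injective (algebraMap L E)) (x : L) (hx : Prime x)
    (red : L →+* κ) (hred : ∀ c, red c = 0 ↔ x ∣ c)
    (w : κ → ℤ) (hw : ∀ a b : κ, a ≠ 0 → b ≠ 0 → w (a * b) = w a + w b)
    (f : pdPrimeLoc E x hx) (n d : L) (hn : ¬ x ∣ n) (hd : ¬ x ∣ d)
    (hf : (f : E) * algebraMap L E d = algebraMap L E n) :
    w (brrRed hinj x hx red hred f) = w (red n) - w (red d) := by
  have hrd : red d ≠ 0 := fun h => hd ((hred d).1 h)
  have hrn : red n ≠ 0 := fun h => hn ((hred n).1 h)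
  rw [brrRed_eq hinj x hx red hred f n d hd hf]
  have h1 : w (red n / red d * red d) = w (red n / red d) + w (red d) :=
    hw _ _ (div_ne_zero hrn hrd) hrd
  rw [div_mul_cancel₀ _ hrd] at h1
  linarith

/-- **the branch ring is a discrete valuation ring with uniformiser `ϖ`** (`ϖ = c x`, `x ∤ c`):
every non-zero quotient `n / d` of elements of the UFD `L` is `ϖ ^ k · b`, `b` a unit. -/
theorem brr_exists_unit [UniqueFactorizationMonoid L]
    (hinj : Function.Injective (algebraMap L E)) (x : L) (hx : Prime x)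
    (ϖ c : L) (hϖ : ϖ = c * x) (hc : ¬ x ∣ c) (n d : L) (hn : n ≠ 0) (hd : d ≠ 0) :
    ∃ (k : ℤ) (b : E), b ∈ pdPrimeLoc E x hx ∧ b⁻¹ ∈ pdPrimeLoc E x hx ∧ b ≠ 0 ∧
      algebraMap L E n / algebraMap L E d = algebraMap L E ϖ ^ k * b := by
  obtain ⟨i, n', hn', rfl⟩ := WfDvdMonoid.max_power_factor hn hx.irreducible
  obtain ⟨j, d', hd', rfl⟩ := WfDvdMonoid.max_power_factor hd hx.irreducible
  have hx0 : algebraMap L E x ≠ 0 := fun h => hx.ne_zero (hinj (by rw [h, map_zero]))
  have hc0 := brr_ne_zero hinj x hc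
  have hn0 := brr_ne_zero hinj x hn'
  have hd0 := brr_ne_zero hinj x hd'
  have hD := pdPrimeLoc E x hx
  have hcm := brr_algebraMap_mem (E := E) x hx c
  have hcm' := brr_inv_mem (E := E) hinj x hx hc
  have hcz : ∀ m : ℤ, algebraMap L E c ^ m ∈ pdPrimeLoc E x hx := by
    intro m
    rcases Int.eq_nat_or_neg m with ⟨t, rfl | rfl⟩
    · rw [zpow_natCast]
      exact (pdPrimeLoc E x hx).pow_mem hcm t
    · rw [zpow_neg, zpow_natCast, ← inv_pow]
      exact (pdPrimeLoc E x hx).pow_mem hcm' t
  refine ⟨(i : ℤ) - j, algebraMap L E c ^ (-((i : ℤ) - j)) *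
    (algebraMap L E n' * (algebraMap L E d')⁻¹), ?_, ?_, ?_, ?_⟩
  · exact (pdPrimeLoc E x hx).mul_mem (hcz _)
      ((pdPrimeLoc E x hx).mul_mem (brr_algebraMap_mem x hx n') (brr_inv_mem hinj x hx hd'))
  · rw [mul_inv, mul_inv, inv_inv, ← zpow_neg]
    exact (pdPrimeLoc E x hx).mul_mem (hcz _)
      ((pdPrimeLoc E x hx).mul_mem (brr_inv_mem hinj x hx hn') (brr_algebraMap_mem x hx d'))
  · exact mul_ne_zero (zpow_ne_zero _ hc0) (mul_ne_zero hn0 (inv_ne_zero hd0))
  · rw [hϖ, map_mul, map_mul, map_mul, map_pow, map_pow, mul_zpow, zpow_neg,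
      zpow_sub₀ hx0, zpow_natCast, zpow_natCast]
    have hcz0 : algebraMap L E c ^ ((i : ℤ) - j) ≠ 0 := zpow_ne_zero _ hc0
    field_simp

end BranchRing

end Fermat.Agent.S40lib

end
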