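import Mathlib
import Fermat.Agent.S36lib.Speed
import Fermat.Agent.S36lib.SemilocalMove
import Fermat.Agent.S36lib.InvertOrd

/-!
# Item 88 (S40), block (P1'), the geometric input: the abstract EDGE RULE in a UFD node ring

(helper24; the concrete instance at the level `M' p` over `K0` is `S40lib/EdgeConc.lean`.)

`R` is a UFD with fraction field `F` (the local ring of the regular model at a node `s`),
`x`, `y` are non-associated prime elements (local equations of the two branches `C_∞`, `C_0`)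
and `ϖ = ε x y` with `ε` a unit (thickness `1`; `ϖ` is the uniformiser of the base).
`red : R → κ` is the reduction to the branch `C_∞` (kernel `(x)`), `w` an order function on `κ`
which is `≥ 0` on `red R` (the order at the point `s` of `C_∞`).

Let `f ∈ F^×` have order divisible by `m` at every prime element of `R` not associated to `x`
or `y` (the horizontal divisor of `f` is an `m`-th multiple near `s`), let `k = ord_x f`,
`k' = ord_y f`, both read off from decompositions `f d = ϖ ^ k n` (`x ∤ n d`),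
`f d' = ϖ ^ k' n'` (`y ∤ n' d'`).  Then

  `ord_s (red (f / ϖ ^ k)) ≡ ord_s (red y) · (k' - k)   (mod m)`          (`edr_edge_rule`).

With `ord_s (red y) = 1` (transversal branches) this is the EDGE RULE of the note "DESIGN A".

* `edr_factor`: `f = u · x ^ a · y ^ b · g ^ m`, `u ∈ R^×` (from `s36_move_unit_of_ord`);
* `edr_ordAt_of_decomp`: `ord_x f = k` from `f d = ϖ ^ k n`, `x ∤ n d`;
* `edr_exists_decomp`: existence of the decomposition `f d = ϖ ^ k n`, `x ∤ n d`;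
* `edr_edge_rule`, `edr_edge_rule_ordAt` (the same with `k = s36_ordAt x f`, `k' = s36_ordAt y f`),
  `edr_edge_rule_transversal` (`w (red y) = 1`).

Mathlib + `S36lib/SemilocalMove`, `S36lib/InvertOrd` only.
-/

set_option autoImplicit false

namespace Fermat.Agent.S40lib

open Fermat.Agent.S36lib

section EdgeRule

variable {R F κ : Type*} [CommRing R] [IsDomain R] [UniqueFactorizationMonoid R] [Field F]
  [Algebra R F] [IsFractionRing R F] [Field κ]

/-! ### the reduction order `c ↦ w (red c)` -/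

omit [IsDomain R] [UniqueFactorizationMonoid R] in
theorem edr_W_one (w : κ → ℤ) (hw : ∀ a b : κ, a ≠ 0 → b ≠ 0 → w (a * b) = w a + w b) :
    w 1 = 0 := by
  have h := hw 1 1 one_ne_zero one_ne_zero
  rw [mul_one] at h
  linarith

omit [IsDomain R] [UniqueFactorizationMonoid R] in
theorem edr_W_pow (red : R →+* κ) (w : κ → ℤ)
    (hw : ∀ a b : κ, a ≠ 0 → b ≠ 0 → w (a * b) = w a + w b) {c : R}
    (hc : red c ≠ 0) (n : ℕ) : w (red (c ^ n)) = n * w (red c) := by
  induction n with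
  | zero => simp [edr_W_one w hw]
  | succ j ih =>
    rw [pow_succ, map_mul, hw _ _ (by rw [map_pow]; exact pow_ne_zero _ hc) hc, ih]
    push_cast
    ring

omit [IsDomain R] [UniqueFactorizationMonoid R] in
theorem edr_W_unit (red : R →+* κ) (w : κ → ℤ)
    (hw : ∀ a b : κ, a ≠ 0 → b ≠ 0 → w (a * b) = w a + w b)
    (hw0 : ∀ c : R, red c ≠ 0 → 0 ≤ w (red c)) (u : Rˣ) : w (red (u : R)) = 0 := by
  have hu : red (u : R) ≠ 0 := (u.isUnit.map red).ne_zero
  have hu' : red ((u⁻¹ : Rˣ) : R) ≠ 0 := ((u⁻¹).isUnit.map red).ne_zero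
  have h2 := hw _ _ hu hu'
  rw [← map_mul, Units.mul_inv, map_one, edr_W_one w hw] at h2
  have h3 := hw0 _ hu
  have h4 := hw0 _ hu'
  linarith

/-! ### orders from decompositions -/

omit [UniqueFactorizationMonoid R] in
/-- two non-associated primes do not divide each other -/
theorem edr_not_dvd {x y : R} (hx : Prime x) (hy : Prime y) (hxy : ¬ Associated x y) :
    ¬ x ∣ y := fun h => hxy (hx.irreducible.associated_of_dvd hy.irreducible h)

/-- `ord_x ϖ = 1` for `ϖ = ε x y` -/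
theorem edr_ordAt_pi (x y : R) (hx : Prime x) (hy : Prime y) (hxy : ¬ Associated x y)
    (ϖ : R) (ε : Rˣ) (hϖ : ϖ = ε * x * y) : s36_ordAt x hx (algebraMap R F ϖ) = 1 := by
  refine s36_ordAt_eq x hx (a := ε * y) (b := 1) ?_ hx.not_dvd_one ?_
  · intro h
    rcases hx.dvd_or_dvd h with h1 | h1
    · exact hx.not_isUnit (isUnit_of_dvd_unit h1 ε.isUnit)
    · exact edr_not_dvd hx hy hxy h1
  · rw [map_one, mul_one, zpow_one, hϖ, map_mul, map_mul, map_mul]
    ring

/-- `ord_x f = k` from a decomposition `f d = ϖ ^ k n`, `x ∤ n d` -/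
theorem edr_ordAt_of_decomp (x y : R) (hx : Prime x) (hy : Prime y) (hxy : ¬ Associated x y)
    (ϖ : R) (ε : Rˣ) (hϖ : ϖ = ε * x * y) (f : F) (hf : f ≠ 0) (k : ℤ) (n d : R)
    (hn : ¬ x ∣ n) (hd : ¬ x ∣ d)
    (hfx : f * algebraMap R F d = algebraMap R F ϖ ^ k * algebraMap R F n) :
    s36_ordAt x hx f = k := by
  have hinj : Function.Injective (algebraMap R F) := IsFractionRing.injective R F
  have hne : ∀ c : R, ¬ x ∣ c → algebraMap R F c ≠ 0 := fun c hc h0 =>
    hc ((hinj (by rw [h0, map_zero]) : c = 0) ▸ dvd_zero x)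
  have hϖ0 : algebraMap R F ϖ ≠ 0 := by
    intro h0
    have h1 := edr_ordAt_pi (F := F) x y hx hy hxy ϖ ε hϖ
    rw [h0] at h1
    have h2 : s36_ordAt x hx (0 : F) = 0 := by rw [s36_ordAt, dif_pos rfl]
    rw [h2] at h1
    exact zero_ne_one h1
  have hv : ∀ a b : F, a ≠ 0 → b ≠ 0 →
      s36_ordAt x hx (a * b) = s36_ordAt x hx a + s36_ordAt x hx b :=
    fun a b ha hb => s36_ordAt_mul x hx a b ha hb
  have h1 := congrArg (s36_ordAt x hx) hfx
  rw [hv _ _ hf (hne d hd), hv _ _ (zpow_ne_zero k hϖ0) (hne n hn),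
    s36_ord_zpow _ hv hϖ0, edr_ordAt_pi x y hx hy hxy ϖ ε hϖ,
    s36_ordAt_of_not_dvd x hx d hd, s36_ordAt_of_not_dvd x hx n hn] at h1
  linarith

/-- existence of the decomposition `f d = ϖ ^ k n`, `x ∤ n d` (`k = ord_x f`) -/
theorem edr_exists_decomp (x y : R) (hx : Prime x) (hy : Prime y) (hxy : ¬ Associated x y)
    (ϖ : R) (ε : Rˣ) (hϖ : ϖ = ε * x * y) (f : F) (hf : f ≠ 0) :
    ∃ (n d : R), ¬ x ∣ n ∧ ¬ x ∣ d ∧
      f * algebraMap R F d = algebraMap R F ϖ ^ (s36_ordAt x hx f) * algebraMap R F n := by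
  have hinj : Function.Injective (algebraMap R F) := IsFractionRing.injective R F
  have hX : algebraMap R F x ≠ 0 := fun h0 => hx.ne_zero (hinj (by rw [h0, map_zero]))
  have hY : algebraMap R F y ≠ 0 := fun h0 => hy.ne_zero (hinj (by rw [h0, map_zero]))
  have hE : algebraMap R F (ε : R) ≠ 0 := fun h0 => ε.ne_zero (hinj (by rw [h0, map_zero]))
  have hxy' : ¬ x ∣ y := edr_not_dvd hx hy hxy
  have hxε : ∀ u : Rˣ, ¬ x ∣ (u : R) := fun u h => hx.not_isUnit (isUnit_of_dvd_unit h u.isUnit)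
  obtain ⟨a, b, ha, hb, h⟩ := s36_ordAt_spec x hx hf
  set k := s36_ordAt x hx f with hk
  -- `ϖ ^ k = ε ^ k x ^ k y ^ k`; move `ε ^ k y ^ k` to the side where its exponent is `≥ 0`
  have hpow : algebraMap R F ϖ ^ k =
      algebraMap R F ((ε ^ k : Rˣ) : R) * algebraMap R F x ^ k * algebraMap R F y ^ k := by
    rw [hϖ, map_mul, map_mul, mul_zpow, mul_zpow, s36_algebraMap_units_zpow]
  have hmulnd : ∀ c c' : R, ¬ x ∣ c → ¬ x ∣ c' → ¬ x ∣ c * c' := fun c c' hc hc' h =>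
    (hx.dvd_or_dvd h).elim hc hc'
  have hpownd : ∀ j : ℕ, ¬ x ∣ y ^ j := fun j h => hxy' (hx.dvd_of_dvd_pow h)
  rcases le_total 0 k with hk0 | hk0
  · -- `k ≥ 0`: `f b = a x^k`, so `f (b ε^k y^k) = ϖ^k a`
    obtain ⟨j, hj⟩ := Int.eq_ofNat_of_zero_le hk0
    refine ⟨a, b * ((ε ^ k : Rˣ) : R) * y ^ j, ha,
      hmulnd _ _ (hmulnd _ _ hb (hxε _)) (hpownd j), ?_⟩
    rw [hpow, map_mul, map_mul, map_pow]
    simp only [hj, zpow_natCast] at h ⊢
    linear_combination (algebraMap R F ((ε ^ (j : ℤ) : Rˣ) : R) * algebraMap R F y ^ j) * h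
  · -- `k ≤ 0`: `f b = a x^k`, `ϖ^k = ε^k x^k y^k`, `n := a ε^{-k} y^{-k}`
    obtain ⟨j, hj⟩ := Int.eq_ofNat_of_zero_le (neg_nonneg.2 hk0)
    have hkj : k = -(j : ℤ) := by linarith
    refine ⟨a * ((ε ^ (j : ℤ) : Rˣ) : R) * y ^ j, b,
      hmulnd _ _ (hmulnd _ _ ha (hxε _)) (hpownd j), hb, ?_⟩
    rw [hpow, map_mul, map_mul, map_pow, hkj, s36_algebraMap_units_zpow,
      s36_algebraMap_units_zpow, zpow_neg, zpow_neg, zpow_neg, zpow_natCast, zpow_natCast,
      zpow_natCast]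
    rw [hkj, zpow_neg, zpow_natCast] at h
    rw [h]
    field_simp

/-! ### the factorisation -/

/-- **(MOVE)+(UNIT) at a node**: `f = u · x ^ a · y ^ b · g ^ m`. -/
theorem edr_factor (x y : R) (hx : Prime x) (hy : Prime y) (m : ℕ) (f : F) (hf : f ≠ 0)
    (hval : ∀ π : R, Prime π → ¬ Associated π x → ¬ Associated π y →
      ∃ v : F → ℤ, (∀ a b : F, a ≠ 0 → b ≠ 0 → v (a * b) = v a + v b) ∧
        v (algebraMap R F π) = 1 ∧
        (∀ c : R, c ≠ 0 → ¬ π ∣ c → v (algebraMap R F c) = 0) ∧ (m : ℤ) ∣ v f) :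
    ∃ (g : F) (u : Rˣ) (a b : ℤ), g ≠ 0 ∧
      f = algebraMap R F (u : R) * (algebraMap R F x ^ a * algebraMap R F y ^ b) * g ^ m := by
  obtain ⟨g, u, a, hg, hfac⟩ := s36_move_unit_of_ord (ι := Fin 2) ![x, y]
    (by
      intro i
      fin_cases i
      · exact hx.ne_zero
      · exact hy.ne_zero) m f hf
    (by
      intro π hπ hna
      exact hval π hπ (hna 0) (hna 1))
  refine ⟨g, u, a 0, a 1, hg, ?_⟩
  rw [hfac, Fin.prod_univ_two]
  simp only [Matrix.cons_val_zero, Matrix.cons_val_one]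

/-! ### the edge rule -/

/-- **The EDGE RULE in a UFD node ring.**  `ϖ = ε x y`, `red : R → κ` with kernel `(x)`, `w` an
order function on `κ`, `≥ 0` on `red R`; `f` with `m ∣ ord_π f` at the primes `π` not associated
to `x`, `y`; `f d = ϖ ^ k n` (`x ∤ n d`), `f d' = ϖ ^ k' n'` (`y ∤ n' d'`).  Then
`w (red n) - w (red d) ≡ w (red y) (k' - k)  (mod m)`. -/
theorem edr_edge_rule (x y : R) (hx : Prime x) (hy : Prime y) (hxy : ¬ Associated x y)
    (ϖ : R) (ε : Rˣ) (hϖ : ϖ = ε * x * y)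
    (red : R →+* κ) (hred : ∀ c, red c = 0 ↔ x ∣ c)
    (w : κ → ℤ) (hw : ∀ a b : κ, a ≠ 0 → b ≠ 0 → w (a * b) = w a + w b)
    (hw0 : ∀ c : R, red c ≠ 0 → 0 ≤ w (red c))
    (m : ℕ) (f : F) (hf : f ≠ 0)
    (hval : ∀ π : R, Prime π → ¬ Associated π x → ¬ Associated π y →
      ∃ v : F → ℤ, (∀ a b : F, a ≠ 0 → b ≠ 0 → v (a * b) = v a + v b) ∧
        v (algebraMap R F π) = 1 ∧
        (∀ c : R, c ≠ 0 → ¬ π ∣ c → v (algebraMap R F c) = 0) ∧ (m : ℤ) ∣ v f)
    (k k' : ℤ) (n d n' d' : R) (hn : ¬ x ∣ n) (hd : ¬ x ∣ d) (hn' : ¬ y ∣ n') (hd' : ¬ y ∣ d')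
    (hfx : f * algebraMap R F d = algebraMap R F ϖ ^ k * algebraMap R F n)
    (hfy : f * algebraMap R F d' = algebraMap R F ϖ ^ k' * algebraMap R F n') :
    (m : ℤ) ∣ (w (red n) - w (red d)) - w (red y) * (k' - k) := by
  classical
  have hinj : Function.Injective (algebraMap R F) := IsFractionRing.injective R F
  have hX : algebraMap R F x ≠ 0 := fun h0 => hx.ne_zero (hinj (by rw [h0, map_zero]))
  have hY : algebraMap R F y ≠ 0 := fun h0 => hy.ne_zero (hinj (by rw [h0, map_zero]))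
  have hxy' : ¬ x ∣ y := edr_not_dvd hx hy hxy
  have hyx' : ¬ y ∣ x := edr_not_dvd hy hx (fun h => hxy h.symm)
  have hϖ' : ϖ = ε * y * x := by rw [hϖ]; ring
  -- the orders of `f`
  have hk : s36_ordAt x hx f = k := edr_ordAt_of_decomp x y hx hy hxy ϖ ε hϖ f hf k n d hn hd hfx
  have hk' : s36_ordAt y hy f = k' :=
    edr_ordAt_of_decomp y x hy hx (fun h => hxy h.symm) ϖ ε hϖ' f hf k' n' d' hn' hd' hfy
  -- the factorisation
  obtain ⟨g, u, a, b, hg, hfac⟩ := edr_factor x y hx hy m f hf hval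
  have hU : algebraMap R F (u : R) ≠ 0 := fun h0 => u.ne_zero (hinj (by rw [h0, map_zero]))
  have hvx : ∀ a b : F, a ≠ 0 → b ≠ 0 →
      s36_ordAt x hx (a * b) = s36_ordAt x hx a + s36_ordAt x hx b :=
    fun a b ha hb => s36_ordAt_mul x hx a b ha hb
  have hvy : ∀ a b : F, a ≠ 0 → b ≠ 0 →
      s36_ordAt y hy (a * b) = s36_ordAt y hy a + s36_ordAt y hy b :=
    fun a b ha hb => s36_ordAt_mul y hy a b ha hb
  have hunit_x : s36_ordAt x hx (algebraMap R F (u : R)) = 0 :=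
    s36_ordAt_of_not_dvd x hx _ (fun h => hx.not_isUnit (isUnit_of_dvd_unit h u.isUnit))
  have hunit_y : s36_ordAt y hy (algebraMap R F (u : R)) = 0 :=
    s36_ordAt_of_not_dvd y hy _ (fun h => hy.not_isUnit (isUnit_of_dvd_unit h u.isUnit))
  have hXa : algebraMap R F x ^ a ≠ 0 := zpow_ne_zero a hX
  have hYb : algebraMap R F y ^ b ≠ 0 := zpow_ne_zero b hY
  have hgm : g ^ m ≠ 0 := pow_ne_zero m hg
  -- `k = a + m ord_x g`, `k' = b + m ord_y g`
  have hka : k = a + m * s36_ordAt x hx g := by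
    have h1 := congrArg (s36_ordAt x hx) hfac
    rw [hk, hvx _ _ (mul_ne_zero hU (mul_ne_zero hXa hYb)) hgm,
      hvx _ _ hU (mul_ne_zero hXa hYb), hvx _ _ hXa hYb, hunit_x,
      s36_ord_zpow _ hvx hX, s36_ord_zpow _ hvx hY, s36_ord_pow _ hvx hg,
      s36_ordAt_self x hx, s36_ordAt_of_not_dvd x hx y hxy'] at h1
    linarith
  have hkb : k' = b + m * s36_ordAt y hy g := by
    have h1 := congrArg (s36_ordAt y hy) hfac
    rw [hk', hvy _ _ (mul_ne_zero hU (mul_ne_zero hXa hYb)) hgm,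
      hvy _ _ hU (mul_ne_zero hXa hYb), hvy _ _ hXa hYb, hunit_y,
      s36_ord_zpow _ hvy hX, s36_ord_zpow _ hvy hY, s36_ord_pow _ hvy hg,
      s36_ordAt_self y hy, s36_ordAt_of_not_dvd y hy x hyx'] at h1
    linarith
  -- the decomposition of `g` at `x`
  obtain ⟨g1, g2, hg1, hg2, hgspec⟩ := s36_ordAt_spec x hx hg
  set c := s36_ordAt x hx g with hc
  have hne : ∀ z : R, ¬ x ∣ z → algebraMap R F z ≠ 0 := fun z hz h0 =>
    hz ((hinj (by rw [h0, map_zero]) : z = 0) ▸ dvd_zero x)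
  have hG2 := hne g2 hg2
  -- the identity in `F`, with the powers of `x` cancelled
  have hE : algebraMap R F ϖ ^ k = algebraMap R F ((ε ^ k : Rˣ) : R) *
      algebraMap R F x ^ k * algebraMap R F y ^ k := by
    rw [hϖ, map_mul, map_mul, mul_zpow, mul_zpow, s36_algebraMap_units_zpow]
  have hgm' : g ^ m * algebraMap R F g2 ^ m =
      algebraMap R F g1 ^ m * algebraMap R F x ^ ((m : ℤ) * c) := by
    rw [← mul_pow, hgspec, mul_pow, mul_comm (m : ℤ) c, zpow_mul, zpow_natCast]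
  have hXk : algebraMap R F x ^ k =
      algebraMap R F x ^ a * algebraMap R F x ^ ((m : ℤ) * c) := by
    rw [hka, zpow_add₀ hX]
  have hid1 : algebraMap R F (u : R) * algebraMap R F y ^ b * algebraMap R F g1 ^ m *
        algebraMap R F d =
      algebraMap R F ((ε ^ k : Rˣ) : R) * algebraMap R F y ^ k * algebraMap R F n *
        algebraMap R F g2 ^ m := by
    have hXk0 : algebraMap R F x ^ k ≠ 0 := zpow_ne_zero k hX
    apply mul_right_cancel₀ hXk0
    have e1 : algebraMap R F (u : R) * algebraMap R F y ^ b * algebraMap R F g1 ^ m *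
        algebraMap R F d * algebraMap R F x ^ k =
        (f * algebraMap R F d) * algebraMap R F g2 ^ m := by
      rw [hXk, hfac]
      linear_combination (-(algebraMap R F (u : R) * algebraMap R F y ^ b *
        algebraMap R F d * algebraMap R F x ^ a)) * hgm'
    rw [e1, hfx, hE]
    ring
  -- remove the common power of `y`
  set μ : ℤ := min b k with hμ
  obtain ⟨B', hB'⟩ := Int.eq_ofNat_of_zero_le (sub_nonneg.2 (min_le_left b k))
  obtain ⟨K', hK'⟩ := Int.eq_ofNat_of_zero_le (sub_nonneg.2 (min_le_right b k))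
  have hYb' : algebraMap R F y ^ b = algebraMap R F y ^ B' * algebraMap R F y ^ μ := by
    rw [← zpow_natCast, ← zpow_add₀ hY, ← hB']
    congr 1
    ring
  have hYk' : algebraMap R F y ^ k = algebraMap R F y ^ K' * algebraMap R F y ^ μ := by
    rw [← zpow_natCast, ← zpow_add₀ hY, ← hK']
    congr 1
    ring
  have hid2 : algebraMap R F ((u : R) * y ^ B' * g1 ^ m * d) =
      algebraMap R F (((ε ^ k : Rˣ) : R) * y ^ K' * n * g2 ^ m) := by
    have hYμ : algebraMap R F y ^ μ ≠ 0 := zpow_ne_zero μ hY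
    apply mul_right_cancel₀ hYμ
    simp only [map_mul, map_pow]
    rw [hYb', hYk'] at hid1
    linear_combination hid1
  have hid3 : (u : R) * y ^ B' * g1 ^ m * d = ((ε ^ k : Rˣ) : R) * y ^ K' * n * g2 ^ m :=
    hinj hid2
  -- apply `w ∘ red`
  have hr : ∀ z : R, ¬ x ∣ z → red z ≠ 0 := fun z hz h0 => hz ((hred z).1 h0)
  have hru : ∀ v : Rˣ, red (v : R) ≠ 0 := fun v => (v.isUnit.map red).ne_zero
  have hry : red y ≠ 0 := hr y hxy'
  have hrp : ∀ (z : R) (j : ℕ), red z ≠ 0 → red (z ^ j) ≠ 0 := fun z j hz => by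
    rw [map_pow]
    exact pow_ne_zero j hz
  have h4 := congrArg (fun z => w (red z)) hid3
  simp only [map_mul] at h4
  rw [hw _ _ (mul_ne_zero (mul_ne_zero (hru u) (hrp y B' hry)) (hrp g1 m (hr g1 hg1)))
      (hr d hd),
    hw _ _ (mul_ne_zero (hru u) (hrp y B' hry)) (hrp g1 m (hr g1 hg1)),
    hw _ _ (hru u) (hrp y B' hry),
    hw _ _ (mul_ne_zero (mul_ne_zero (hru _) (hrp y K' hry)) (hr n hn))
      (hrp g2 m (hr g2 hg2)),
    hw _ _ (mul_ne_zero (hru _) (hrp y K' hry)) (hr n hn),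
    hw _ _ (hru _) (hrp y K' hry),
    edr_W_unit red w hw hw0, edr_W_unit red w hw hw0,
    edr_W_pow red w hw hry, edr_W_pow red w hw hry,
    edr_W_pow red w hw (hr g1 hg1), edr_W_pow red w hw (hr g2 hg2)] at h4
  -- conclusion
  have hBK : (B' : ℤ) - K' = b - k := by rw [← hB', ← hK']; ring
  refine ⟨w (red g1) - w (red g2) - w (red y) * s36_ordAt y hy g, ?_⟩
  have hb' : b = k' - m * s36_ordAt y hy g := by linarith
  have h5 : w (red n) - w (red d) =
      ((B' : ℤ) - K') * w (red y) + m * (w (red g1) - w (red g2)) := by linarith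
  rw [h5, hBK, hb']
  ring

/-- the edge rule with `k = ord_x f`, `k' = ord_y f` (`s36_ordAt`): for EVERY decomposition
`f d = ϖ ^ (ord_x f) n`, `x ∤ n d`. -/
theorem edr_edge_rule_ordAt (x y : R) (hx : Prime x) (hy : Prime y) (hxy : ¬ Associated x y)
    (ϖ : R) (ε : Rˣ) (hϖ : ϖ = ε * x * y)
    (red : R →+* κ) (hred : ∀ c, red c = 0 ↔ x ∣ c)
    (w : κ → ℤ) (hw : ∀ a b : κ, a ≠ 0 → b ≠ 0 → w (a * b) = w a + w b)
    (hw0 : ∀ c : R, red c ≠ 0 → 0 ≤ w (red c))
    (m : ℕ) (f : F) (hf : f ≠ 0)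
    (hval : ∀ π : R, Prime π → ¬ Associated π x → ¬ Associated π y →
      ∃ v : F → ℤ, (∀ a b : F, a ≠ 0 → b ≠ 0 → v (a * b) = v a + v b) ∧
        v (algebraMap R F π) = 1 ∧
        (∀ c : R, c ≠ 0 → ¬ π ∣ c → v (algebraMap R F c) = 0) ∧ (m : ℤ) ∣ v f)
    (n d : R) (hn : ¬ x ∣ n) (hd : ¬ x ∣ d)
    (hfx : f * algebraMap R F d =
      algebraMap R F ϖ ^ (s36_ordAt x hx f) * algebraMap R F n) :
    (m : ℤ) ∣ (w (red n) - w (red d)) -
      w (red y) * (s36_ordAt y hy f - s36_ordAt x hx f) := by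
  have hϖ' : ϖ = ε * y * x := by rw [hϖ]; ring
  obtain ⟨n', d', hn', hd', hfy⟩ :=
    edr_exists_decomp y x hy hx (fun h => hxy h.symm) ϖ ε hϖ' f hf
  exact edr_edge_rule x y hx hy hxy ϖ ε hϖ red hred w hw hw0 m f hf hval _ _ n d n' d'
    hn hd hn' hd' hfx hfy

/-- the edge rule for transversal branches (`w (red y) = 1`):
`ord_s (red (f / ϖ ^ k)) ≡ k' - k  (mod m)`. -/
theorem edr_edge_rule_transversal (x y : R) (hx : Prime x) (hy : Prime y)
    (hxy : ¬ Associated x y) (ϖ : R) (ε : Rˣ) (hϖ : ϖ = ε * x * y)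
    (red : R →+* κ) (hred : ∀ c, red c = 0 ↔ x ∣ c)
    (w : κ → ℤ) (hw : ∀ a b : κ, a ≠ 0 → b ≠ 0 → w (a * b) = w a + w b)
    (hw0 : ∀ c : R, red c ≠ 0 → 0 ≤ w (red c)) (hwy : w (red y) = 1)
    (m : ℕ) (f : F) (hf : f ≠ 0)
    (hval : ∀ π : R, Prime π → ¬ Associated π x → ¬ Associated π y →
      ∃ v : F → ℤ, (∀ a b : F, a ≠ 0 → b ≠ 0 → v (a * b) = v a + v b) ∧
        v (algebraMap R F π) = 1 ∧
        (∀ c : R, c ≠ 0 → ¬ π ∣ c → v (algebraMap R F c) = 0) ∧ (m : ℤ) ∣ v f)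
    (k k' : ℤ) (n d n' d' : R) (hn : ¬ x ∣ n) (hd : ¬ x ∣ d) (hn' : ¬ y ∣ n') (hd' : ¬ y ∣ d')
    (hfx : f * algebraMap R F d = algebraMap R F ϖ ^ k * algebraMap R F n)
    (hfy : f * algebraMap R F d' = algebraMap R F ϖ ^ k' * algebraMap R F n') :
    (m : ℤ) ∣ (w (red n) - w (red d)) - (k' - k) := by
  have h := edr_edge_rule x y hx hy hxy ϖ ε hϖ red hred w hw hw0 m f hf hval k k' n d n' d'
    hn hd hn' hd' hfx hfy
  rwa [hwy, one_mul] at h

end EdgeRule

end Fermat.Agent.S40lib
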