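/-
Item 88 (S40), block (A-J), piece E2 stage 2 (helper18): **the edge rule at a node of a
`NodeSetup`** (abstract over the setup; instance of helper24's `edr_edge_rule_transversal` in
the local ring `R = B_s`).

* `edc_lift`      : the lift of a reduction map `r : B → κ` to the local ring `B_s`, with kernel
  generated by the local generator of `ker r`;
* `edc_edge_abs`  : for `f ≠ 0` of order divisible by `m` at the horizontal primes (`hhor`, the
  shape of `pd_hhor_FF`), `f d = ϖ ^ k n` with `n, d ∉ p_∞` and `f d' = ϖ ^ k' n'` with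
  `n', d' ∉ p_0`:   `m ∣ ord_s (red_∞ n) - ord_s (red_∞ d) - (k' - k)`.
-/
import Mathlib
import Fermat.Agent.S36lib.Speed
import Fermat.Agent.S36lib.Setup
import Fermat.Agent.S36lib.InvertSetup
import Fermat.Agent.S40lib.EdgeRule

set_option autoImplicit false
set_option linter.style.haveILetI false
set_option linter.unusedSectionVars false
set_option linter.unusedVariables false
set_option synthInstance.maxHeartbeats 400000
set_option maxHeartbeats 1000000

noncomputable section

namespace Fermat.Agent.S40lib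

open Fermat.Agent.S24lib Fermat.Agent.S34lib Fermat.Agent.S36lib

section Lift

variable {κ : Type*} [Field κ]

/-- the lift of a reduction map to the local ring at `s`, with its kernel -/
theorem edc_lift {B : Type*} [CommRing B] (s : Ideal B) [s.IsPrime]
    (r : B →+* κ) (hr : RingHom.ker r ≤ s) (g ε : B) (hg : g ∈ RingHom.ker r)
    (hgen : ∀ z ∈ RingHom.ker r, g ∣ ε * z) (hε : ε ∉ s) :
    ∃ red : Localization.AtPrime s →+* κ,
      (∀ b, red (algebraMap B (Localization.AtPrime s) b) = r b) ∧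
      ∀ c, red c = 0 ↔ algebraMap B (Localization.AtPrime s) g ∣ c := by
  have hunits : ∀ u : s.primeCompl, IsUnit (r u) := by
    intro u
    exact IsUnit.mk0 _ fun h0 => u.2 (hr ((RingHom.mem_ker).2 h0))
  have hlift : ∀ b, (IsLocalization.lift (M := s.primeCompl) (g := r) hunits)
      (algebraMap B (Localization.AtPrime s) b) = r b := fun b => IsLocalization.lift_eq _ b
  refine ⟨IsLocalization.lift (M := s.primeCompl) (g := r) hunits, hlift, fun c => ?_⟩
  obtain ⟨b, u, rfl⟩ := IsLocalization.exists_mk'_eq s.primeCompl c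
  have hspec : IsLocalization.mk' (Localization.AtPrime s) b u *
      algebraMap B (Localization.AtPrime s) u = algebraMap B (Localization.AtPrime s) b :=
    IsLocalization.mk'_spec _ b u
  have hu : IsUnit (algebraMap B (Localization.AtPrime s) (u : B)) :=
    IsLocalization.map_units (Localization.AtPrime s) u
  have hεu : IsUnit (algebraMap B (Localization.AtPrime s) ε) :=
    IsLocalization.map_units (Localization.AtPrime s) (⟨ε, hε⟩ : s.primeCompl)
  have hru : r u ≠ 0 := (hunits u).ne_zero
  have hred : (IsLocalization.lift (M := s.primeCompl) (g := r) hunits)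
      (IsLocalization.mk' (Localization.AtPrime s) b u) * r u = r b := by
    rw [← hlift (u : B), ← map_mul, hspec, hlift]
  constructor
  · intro h0
    have hb : r b = 0 := by rw [← hred, h0, zero_mul]
    obtain ⟨c', hc'⟩ := hgen b ((RingHom.mem_ker).2 hb)
    -- ε b = g c'
    have h1 : algebraMap B (Localization.AtPrime s) g ∣
        algebraMap B (Localization.AtPrime s) ε * algebraMap B (Localization.AtPrime s) b := by
      rw [← map_mul, hc', map_mul]
      exact dvd_mul_right _ _
    have h2 : algebraMap B (Localization.AtPrime s) g ∣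
        algebraMap B (Localization.AtPrime s) b := (hεu.dvd_mul_left).1 h1
    rw [← hspec] at h2
    exact (hu.dvd_mul_right).1 h2
  · rintro ⟨c', hc'⟩
    rw [hc', map_mul, hlift, (RingHom.mem_ker).1 hg, zero_mul]

end Lift

section Abs

universe u

variable {K : Type*} [Field K] {k : Type*} [Field k]
  {A : ValuationSubring K} {π : A →+* k} {κ : Type*} [Field κ] [Algebra k κ]
  {F : Type u} [Field F] [Algebra K F]

set_option maxHeartbeats 4000000 in
/-- **the edge rule at a node `s` of a `NodeSetup`** (thickness 1, transversal branches).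
`x, y` local generators of `p_∞, p_0` at `s` with `x y = t ϖ`, `t ∉ s`; `w` an order function on
`κ`, `≥ 0` on `red_∞ B`, `0` on the reductions of the elements outside `s`, with
`w (red_∞ y) = 1`.  For `f ≠ 0` of order divisible by `m` at the horizontal primes:
`f d = ϖ ^ k n` (`n, d ∉ p_∞`), `f d' = ϖ ^ k' n'` (`n', d' ∉ p_0`) ⇒
`m ∣ w (red_∞ n) - w (red_∞ d) - (k' - k)`. -/
theorem edc_edge_abs (S : NodeSetup A π κ F)
    (hfrac : ∀ z : F, ∃ a b : S.B, b ≠ 0 ∧ z * (b : F) = (a : F))
    (s : Ideal S.B) [hs : s.IsMaximal] (hsInf : S.pInf ≤ s) (hsZero : S.pZero ≤ s)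
    (hufd : UniqueFactorizationMonoid (Localization.AtPrime s))
    (ϖ : A) (hϖ0 : ϖ ≠ 0)
    (hϖK : ∀ c : K, ∃ n : ℕ, c * (ϖ : K) ^ n ∈ A)
    (x y εx εy t : S.B)
    (hx : x ∈ S.pInf) (hxg : ∀ z ∈ S.pInf, x ∣ εx * z) (hεx : εx ∉ s)
    (hy : y ∈ S.pZero) (hyg : ∀ z ∈ S.pZero, y ∣ εy * z) (hεy : εy ∉ s)
    (hxy : x * y = t * S.constB ϖ) (ht : t ∉ s)
    (w : κ → ℤ) (hw : ∀ a b : κ, a ≠ 0 → b ≠ 0 → w (a * b) = w a + w b)
    (hw0 : ∀ c : S.B, S.redInf c ≠ 0 → 0 ≤ w (S.redInf c))
    (hws : ∀ c : S.B, c ∉ s → w (S.redInf c) = 0)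
    (hy0 : S.redInf y ≠ 0) (hwy : w (S.redInf y) = 1)
    (m : ℕ) (f : F) (hf : f ≠ 0)
    (hhor : ∀ (R : Type u) [CommRing R] [IsDomain R] [UniqueFactorizationMonoid R]
      [Algebra R F] [IsFractionRing R F] (p : R), Prime p →
      (∀ c : K, ∃ a b : R, ¬ p ∣ b ∧
        algebraMap K F c * algebraMap R F b = algebraMap R F a) →
      ∃ v : F → ℤ, (∀ a b : F, a ≠ 0 → b ≠ 0 → v (a * b) = v a + v b) ∧
        v (algebraMap R F p) = 1 ∧
        (∀ c : R, c ≠ 0 → ¬ p ∣ c → v (algebraMap R F c) = 0) ∧ (m : ℤ) ∣ v f)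
    (k k' : ℤ) (n d n' d' : S.B) (hn : S.redInf n ≠ 0) (hd : S.redInf d ≠ 0)
    (hn' : S.redZero n' ≠ 0) (hd' : S.redZero d' ≠ 0)
    (hfx : f * (d : F) = algebraMap K F (ϖ : K) ^ k * (n : F))
    (hfy : f * (d' : F) = algebraMap K F (ϖ : K) ^ k' * (n' : F)) :
    (m : ℤ) ∣ (w (S.redInf n) - w (S.redInf d)) - (k' - k) := by
  classical
  haveI hBF : IsFractionRing S.B F := s36_isFractionRing_of_hfrac S.B hfrac
  haveI hsp : s.IsPrime := hs.isPrime
  have hMle : s.primeCompl ≤ nonZeroDivisors S.B := by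
    intro b hb
    refine mem_nonZeroDivisors_of_ne_zero ?_
    rintro rfl
    exact hb s.zero_mem
  have hunits : ∀ u : s.primeCompl, IsUnit (algebraMap S.B F u) := by
    intro u
    have hu0 : (u : S.B) ≠ 0 := nonZeroDivisors.ne_zero (hMle u.2)
    have : algebraMap S.B F u ≠ 0 := fun h0 => hu0 (Subtype.ext h0)
    exact IsUnit.mk0 _ this
  let R := Localization.AtPrime s
  letI algRF : Algebra R F := (IsLocalization.lift (M := s.primeCompl)
    (g := algebraMap S.B F) hunits).toAlgebra
  haveI hST : IsScalarTower S.B R F := IsScalarTower.of_algebraMap_eq fun b =>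
    (IsLocalization.lift_eq (M := s.primeCompl) (g := algebraMap S.B F) hunits b).symm
  haveI hdom : IsDomain R := IsLocalization.isDomain_of_le_nonZeroDivisors R hMle
  haveI hufm : UniqueFactorizationMonoid R := hufd
  haveI hRF : IsFractionRing R F :=
    IsFractionRing.isFractionRing_of_isDomain_of_isLocalization s.primeCompl R F
  have hcoe : ∀ b : S.B, algebraMap R F (algebraMap S.B R b) = (b : F) := fun b =>
    s36_algebraMap_R_F (B := S.B) (R := R) (F := F) b
  have hinjBR : Function.Injective (algebraMap S.B R) :=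
    IsLocalization.injective R hMle
  -- the two reductions on `R`
  obtain ⟨red, hredB, hred⟩ := edc_lift s S.redInf hsInf x εx hx hxg hεx
  obtain ⟨red0, hred0B, hred0⟩ := edc_lift s S.redZero hsZero y εy hy hyg hεy
  -- nonvanishing
  have hq0 : S.constB ϖ ≠ 0 := by
    intro h0
    have h1 : ((S.constB ϖ : S.B) : F) = 0 := by rw [h0]; rfl
    rw [S.coe_constB] at h1
    have h2 : (ϖ : K) = 0 := (map_eq_zero (algebraMap K F)).1 h1
    exact hϖ0 (Subtype.ext h2)
  have ht0 : t ≠ 0 := fun h0 => ht (h0 ▸ s.zero_mem)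
  have hxy0 : x * y ≠ 0 := by rw [hxy]; exact mul_ne_zero ht0 hq0
  have hxB0 : x ≠ 0 := left_ne_zero_of_mul hxy0
  have hyB0 : y ≠ 0 := right_ne_zero_of_mul hxy0
  have hxR0 : algebraMap S.B R x ≠ 0 := fun h0 => hxB0 (hinjBR (by rw [h0, map_zero]))
  have hyR0 : algebraMap S.B R y ≠ 0 := fun h0 => hyB0 (hinjBR (by rw [h0, map_zero]))
  -- primes
  have hxP : Prime (algebraMap S.B R x) := by
    have hker : Ideal.span {algebraMap S.B R x} = RingHom.ker red := by
      ext c
      rw [Ideal.mem_span_singleton, RingHom.mem_ker, hred]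
    have hprime : (Ideal.span {algebraMap S.B R x}).IsPrime := by
      rw [hker]; exact RingHom.ker_isPrime red
    exact (Ideal.span_singleton_prime hxR0).1 hprime
  have hyP : Prime (algebraMap S.B R y) := by
    have hker : Ideal.span {algebraMap S.B R y} = RingHom.ker red0 := by
      ext c
      rw [Ideal.mem_span_singleton, RingHom.mem_ker, hred0]
    have hprime : (Ideal.span {algebraMap S.B R y}).IsPrime := by
      rw [hker]; exact RingHom.ker_isPrime red0
    exact (Ideal.span_singleton_prime hyR0).1 hprime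
  have hnass : ¬ Associated (algebraMap S.B R x) (algebraMap S.B R y) := by
    intro h
    have h1 : red (algebraMap S.B R y) = 0 := (hred _).2 h.dvd
    rw [hredB] at h1
    exact hy0 h1
  -- the unit
  have htu : IsUnit (algebraMap S.B R t) :=
    IsLocalization.map_units R (⟨t, ht⟩ : s.primeCompl)
  obtain ⟨tu, htu'⟩ := htu
  have hϖ : algebraMap S.B R (S.constB ϖ) =
      ((tu⁻¹ : Rˣ) : R) * algebraMap S.B R x * algebraMap S.B R y := by
    have h1 : algebraMap S.B R x * algebraMap S.B R y =
        (tu : R) * algebraMap S.B R (S.constB ϖ) := by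
      rw [htu', ← map_mul, ← map_mul, hxy]
    rw [mul_assoc, h1, ← mul_assoc, Units.inv_mul, one_mul]
  -- `w ∘ red ≥ 0`
  have hw0R : ∀ c : R, red c ≠ 0 → 0 ≤ w (red c) := by
    intro c hc
    obtain ⟨b, u, rfl⟩ := IsLocalization.exists_mk'_eq s.primeCompl c
    have hspec : IsLocalization.mk' R b u * algebraMap S.B R u = algebraMap S.B R b :=
      IsLocalization.mk'_spec _ b u
    have hru : S.redInf (u : S.B) ≠ 0 := fun h0 => u.2 (hsInf ((RingHom.mem_ker).2 h0))
    have h1 : red (IsLocalization.mk' R b u) * S.redInf (u : S.B) = S.redInf b := by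
      rw [← hredB (u : S.B), ← map_mul, hspec, hredB]
    have hb : S.redInf b ≠ 0 := by rw [← h1]; exact mul_ne_zero hc hru
    have h2 := hw _ _ hc hru
    rw [h1, hws (u : S.B) u.2, add_zero] at h2
    rw [← h2]
    exact hw0 b hb
  -- the horizontal primes
  have hval : ∀ p : R, Prime p → ¬ Associated p (algebraMap S.B R x) →
      ¬ Associated p (algebraMap S.B R y) →
      ∃ v : F → ℤ, (∀ a b : F, a ≠ 0 → b ≠ 0 → v (a * b) = v a + v b) ∧
        v (algebraMap R F p) = 1 ∧
        (∀ c : R, c ≠ 0 → ¬ p ∣ c → v (algebraMap R F c) = 0) ∧ (m : ℤ) ∣ v f := by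
    intro p hp hpx hpy
    refine hhor R p hp ?_
    intro c
    obtain ⟨j, hj⟩ := hϖK c
    refine ⟨algebraMap S.B R (S.constB ⟨_, hj⟩), (algebraMap S.B R (S.constB ϖ)) ^ j, ?_, ?_⟩
    · intro hdvd
      have h1 : p ∣ algebraMap S.B R (S.constB ϖ) := hp.dvd_of_dvd_pow hdvd
      rw [hϖ] at h1
      rcases hp.dvd_or_dvd h1 with h2 | h2
      · rcases hp.dvd_or_dvd h2 with h3 | h3
        · exact hp.not_isUnit (isUnit_of_dvd_unit h3 (tu⁻¹).isUnit)
        · exact hpx ((hp.dvd_prime_iff_associated hxP).1 h3)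
      · exact hpy ((hp.dvd_prime_iff_associated hyP).1 h2)
    · rw [map_pow, hcoe, hcoe, S.coe_constB, S.coe_constB, ← map_pow, ← map_mul]
  have hmain := edr_edge_rule_transversal (R := R) (F := F) (κ := κ)
    (algebraMap S.B R x) (algebraMap S.B R y) hxP hyP hnass
    (algebraMap S.B R (S.constB ϖ)) tu⁻¹ hϖ red hred w hw hw0R (by rw [hredB]; exact hwy)
    m f hf hval k k' (algebraMap S.B R n) (algebraMap S.B R d) (algebraMap S.B R n')
    (algebraMap S.B R d')
    (fun h => hn (by rw [← hredB]; exact (hred _).2 h))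
    (fun h => hd (by rw [← hredB]; exact (hred _).2 h))
    (fun h => hn' (by rw [← hred0B]; exact (hred0 _).2 h))
    (fun h => hd' (by rw [← hred0B]; exact (hred0 _).2 h))
    (by rw [hcoe, hcoe, hcoe, S.coe_constB]; exact hfx)
    (by rw [hcoe, hcoe, hcoe, S.coe_constB]; exact hfy)
  rwa [hredB, hredB] at hmain

end Abs

end Fermat.Agent.S40lib

end
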