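import Mathlib
import Fermat.Agent.S36lib.Speed
import Fermat.Agent.S36lib.SemilocalMove
import Fermat.Agent.S36lib.InvertOrd

/-!
# Item 88 (S40), block (C2), abstract part: node rings of an unramified free extension (helper2)

`R` is the local ring of the regular model at a node (Noetherian local domain, maximal ideal
`(x, y)`, `x` prime, `x ∤ y`), `C = R[z]` a free `R`-algebra which is a domain, `P(z) = 0` with
`P'(z)` a unit (the cover is étale over the node), `𝔫` a prime of `C` over the node with
`z ≡ c` modulo `𝔫` for some `c ∈ R` (algebraically closed residue field).  Then the local ring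
`L = C_𝔫` is again a "node ring":

* `etn_dvr`         : a Noetherian local ring with maximal ideal `(π)`, `π` not nilpotent, is a
                      domain and a discrete valuation ring with uniformiser `π`;
* `etn_not_dvd_pow` : `x ∤ y ^ n` in `C_𝔫` (coordinates in a basis of `C` over `R`);
* `etn_quot`        : `𝔪_L = (x, y)` ⇒ `L ⧸ (x)` is a discrete valuation ring, uniformiser `y`;
* `etn_ufm`         : `L` is factorial, `x` is a prime element of `L`, `x ∤ y` in `L`;
* `etn_edge_inputs` : the data `κ, red, w` of `edr_edge_rule_transversal` (EdgeRule.lean):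
                      `red c = 0 ↔ x ∣ c`, `w` additive, `≥ 0` on `red L`, `w (red y) = 1`;
* `etn_unram`, `etn_hunr` : `C = R[z]`, `P(z) = 0`, `P'(z)` a unit, `z - c ∈ 𝔫` ⇒
                      `𝔫 C_𝔫 = 𝔪_R C_𝔫`; with `𝔪_R = (x, y)`: `𝔪_L = (x, y)`;
* `etn_node`        : everything together, for both branches.
(complete proofs; Mathlib + `s36_ufm_of_quotient_dvr`, `s36_ordAt`; standard axioms only)
-/

set_option autoImplicit false
set_option linter.style.haveILetI false
set_option linter.unusedSectionVars false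

namespace Fermat.Agent.S40lib

open IsLocalRing

open IsLocalRing

section Dvr

variable {S : Type*} [CommRing S] [IsLocalRing S] [IsNoetherianRing S]

/-- in a Noetherian local ring with principal maximal ideal `(π)` every non-zero element is
a unit times a power of `π` -/
theorem etn_unit_mul_pow (π : S) (hπ : maximalIdeal S = Ideal.span {π}) (a : S) (ha : a ≠ 0) :
    ∃ (n : ℕ) (u : Sˣ), a = (u : S) * π ^ n := by
  have hkrull : ⨅ i : ℕ, (maximalIdeal S) ^ i = ⊥ :=
    Ideal.iInf_pow_eq_bot_of_isLocalRing (maximalIdeal S) (Ideal.IsPrime.ne_top inferInstance)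
  -- there is `n` with `a ∉ 𝔪 ^ n`
  have hex : ∃ n : ℕ, a ∉ (maximalIdeal S) ^ n := by
    by_contra hcon
    have hcon' : ∀ n : ℕ, a ∈ (maximalIdeal S) ^ n := by
      intro n
      by_contra hn
      exact hcon ⟨n, hn⟩
    have : a ∈ ⨅ i : ℕ, (maximalIdeal S) ^ i := by
      rw [Ideal.mem_iInf]; exact hcon'
    rw [hkrull] at this
    exact ha ((Ideal.mem_bot).1 this)
  classical
  -- the least such `n` is positive; write `n = m + 1`
  have hn0 : Nat.find hex ≠ 0 := by
    intro h0
    have := Nat.find_spec hex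
    rw [h0, pow_zero, Ideal.one_eq_top] at this
    exact this trivial
  obtain ⟨m, hm⟩ := Nat.exists_eq_succ_of_ne_zero hn0
  have hmem : a ∈ (maximalIdeal S) ^ m := by
    by_contra hnot
    have := Nat.find_min' hex hnot
    omega
  have hnot : a ∉ (maximalIdeal S) ^ (m + 1) := by
    have := Nat.find_spec hex
    rwa [hm] at this
  rw [hπ, Ideal.span_singleton_pow, Ideal.mem_span_singleton] at hmem
  obtain ⟨u, hu⟩ := hmem
  have huunit : IsUnit u := by
    by_contra hnu
    have hum : u ∈ maximalIdeal S := (IsLocalRing.mem_maximalIdeal u).2 hnu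
    rw [hπ, Ideal.mem_span_singleton] at hum
    obtain ⟨v, hv⟩ := hum
    apply hnot
    rw [hπ, Ideal.span_singleton_pow, Ideal.mem_span_singleton]
    refine ⟨v, ?_⟩
    rw [hu, hv, pow_succ]
    ring
  refine ⟨m, huunit.unit, ?_⟩
  rw [hu, IsUnit.unit_spec, mul_comm]

/-- a Noetherian local ring with principal maximal ideal `(π)`, `π` not nilpotent, is a domain -/
theorem etn_isDomain (π : S) (hπ : maximalIdeal S = Ideal.span {π}) (hnil : ¬ IsNilpotent π) :
    IsDomain S := by
  haveI : NoZeroDivisors S := by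
    refine ⟨fun {a b} hab => ?_⟩
    by_contra hcon
    have hcon' : a ≠ 0 ∧ b ≠ 0 := by
      constructor
      · intro h; exact hcon (Or.inl h)
      · intro h; exact hcon (Or.inr h)
    obtain ⟨m, u, hu⟩ := etn_unit_mul_pow π hπ a hcon'.1
    obtain ⟨n, v, hv⟩ := etn_unit_mul_pow π hπ b hcon'.2
    apply hnil
    refine ⟨m + n, ?_⟩
    have h1 : ((u * v : Sˣ) : S) * π ^ (m + n) = 0 := by
      rw [Units.val_mul, pow_add]
      calc (u : S) * v * (π ^ m * π ^ n) = ((u : S) * π ^ m) * ((v : S) * π ^ n) := by ring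
        _ = a * b := by rw [← hu, ← hv]
        _ = 0 := hab
    exact (Units.mul_right_eq_zero _).1 h1
  exact NoZeroDivisors.to_isDomain S

/-- a Noetherian local ring with principal maximal ideal `(π)`, `π` not nilpotent, is a
discrete valuation ring with uniformiser `π` -/
theorem etn_dvr (π : S) (hπ : maximalIdeal S = Ideal.span {π}) (hnil : ¬ IsNilpotent π) :
    ∃ _ : IsDomain S, IsDiscreteValuationRing S ∧ Irreducible π := by
  haveI hdom : IsDomain S := etn_isDomain π hπ hnil
  have hπ0 : π ≠ 0 := fun h => hnil (h ▸ IsNilpotent.zero)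
  have hprime : Prime π := by
    rw [← Ideal.span_singleton_prime hπ0, ← hπ]
    infer_instance
  have hirr : Irreducible π := hprime.irreducible
  refine ⟨hdom, ?_, hirr⟩
  apply IsDiscreteValuationRing.ofHasUnitMulPowIrreducibleFactorization
  refine ⟨π, hirr, ?_⟩
  intro a ha
  obtain ⟨n, u, hu⟩ := etn_unit_mul_pow π hπ a ha
  refine ⟨n, ?_⟩
  refine ⟨u, ?_⟩
  rw [hu, mul_comm]

end Dvr


section Node

universe uR uC

variable {R : Type uR} {C : Type uC} [CommRing R] [IsDomain R] [CommRing C] [IsDomain C]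
  [Algebra R C] [Module.Free R C]

/-- coordinates: if `y ^ n • s = x • c` in a free module over a domain, `x` prime, `x ∤ y`,
then `s ∈ x C`. -/
theorem etn_mem_span_of_smul (x y : R) (hx : Prime x) (hyx : ¬ x ∣ y) (n : ℕ) (s c : C)
    (h : algebraMap R C y ^ n * s = algebraMap R C x * c) :
    s ∈ Ideal.span {algebraMap R C x} := by
  classical
  set b := Module.Free.chooseBasis R C with hb
  have hcoord : ∀ i, x ∣ b.repr s i := by
    intro i
    have h1 : (y ^ n) • s = x • c := by
      rw [Algebra.smul_def, Algebra.smul_def, map_pow]; exact h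
    have h2 := congrArg (fun v => b.repr v i) h1
    simp only [map_smul, Finsupp.smul_apply, smul_eq_mul] at h2
    have h3 : x ∣ y ^ n * b.repr s i := ⟨_, h2⟩
    rcases hx.dvd_or_dvd h3 with h4 | h4
    · exact absurd (hx.dvd_of_dvd_pow h4) hyx
    · exact h4
  have hs : s = (b.repr s).sum fun i a => a • b i := by
    have := b.linearCombination_repr s
    rw [Finsupp.linearCombination_apply] at this
    exact this.symm
  rw [hs]
  refine Ideal.sum_mem _ ?_
  intro i _
  obtain ⟨t, ht⟩ := hcoord i
  beta_reduce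
  rw [ht, Algebra.smul_def, map_mul, mul_assoc]
  exact Ideal.mul_mem_right _ _ (Ideal.subset_span (Set.mem_singleton _))

variable (𝔫 : Ideal C) [h𝔫 : 𝔫.IsPrime]

/-- `x ∤ y ^ n` in the localisation of `C` at `𝔫` (where `x ∈ 𝔫`) -/
theorem etn_not_dvd_pow (x y : R) (hx : Prime x) (hyx : ¬ x ∣ y)
    (hx𝔫 : algebraMap R C x ∈ 𝔫) (n : ℕ) :
    ¬ algebraMap C (Localization.AtPrime 𝔫) (algebraMap R C x) ∣
      algebraMap C (Localization.AtPrime 𝔫) (algebraMap R C y) ^ n := by
  rintro ⟨l, hl⟩
  obtain ⟨⟨c, s⟩, hcs⟩ := IsLocalization.surj 𝔫.primeCompl l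
  simp only at hcs
  have hinj : Function.Injective (algebraMap C (Localization.AtPrime 𝔫)) :=
    IsLocalization.injective _ 𝔫.primeCompl_le_nonZeroDivisors
  have h1 : algebraMap R C y ^ n * (s : C) = algebraMap R C x * c := by
    apply hinj
    rw [map_mul, map_mul, map_pow, hl, ← hcs]
    ring
  have h2 := etn_mem_span_of_smul x y hx hyx n (s : C) c h1
  have h3 : (s : C) ∈ 𝔫 := by
    rw [Ideal.mem_span_singleton] at h2
    obtain ⟨t, ht⟩ := h2
    rw [ht]
    exact Ideal.mul_mem_right _ _ hx𝔫
  exact s.2 h3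

/-- the maximal ideal of a quotient of a local ring by an ideal inside the maximal ideal -/
theorem etn_maximalIdeal_quot {L : Type*} [CommRing L] [IsLocalRing L] (I : Ideal L)
    (hI : I ≤ maximalIdeal L) [Nontrivial (L ⧸ I)] [IsLocalRing (L ⧸ I)] :
    maximalIdeal (L ⧸ I) = (maximalIdeal L).map (Ideal.Quotient.mk I) := by
  symm
  apply IsLocalRing.eq_maximalIdeal
  have hsurj : Function.Surjective (Ideal.Quotient.mk I) := Ideal.Quotient.mk_surjective
  rcases Ideal.map_eq_top_or_isMaximal_of_surjective (Ideal.Quotient.mk I) hsurj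
    (maximalIdeal.isMaximal L) with h | h
  · exfalso
    have h1 : (1 : L ⧸ I) ∈ (maximalIdeal L).map (Ideal.Quotient.mk I) := by rw [h]; trivial
    rw [Ideal.mem_map_iff_of_surjective _ hsurj] at h1
    obtain ⟨a, ha, ha1⟩ := h1
    have h2 : a - 1 ∈ I := by
      rw [← Ideal.Quotient.eq_zero_iff_mem, map_sub, ha1, map_one, sub_self]
    have h3 : (1 : L) ∈ maximalIdeal L := by
      have := (maximalIdeal L).sub_mem ha (hI h2)
      simpa using this
    exact (Ideal.ne_top_iff_one _).1 (Ideal.IsPrime.ne_top inferInstance) h3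
  · exact h

/-- **the branch through an unramified point**: `C` free over `R`, `x` prime in `R`, `x ∤ y`,
and the maximal ideal of `L = C_𝔫` generated by (the images of) `x` and `y`: then `L ⧸ (x)` is a
discrete valuation ring with uniformiser the class of `y`. -/
theorem etn_quot [IsNoetherianRing C] (x y : R) (hx : Prime x) (hyx : ¬ x ∣ y)
    (hunr : maximalIdeal (Localization.AtPrime 𝔫) =
      Ideal.span {algebraMap C (Localization.AtPrime 𝔫) (algebraMap R C x),
        algebraMap C (Localization.AtPrime 𝔫) (algebraMap R C y)}) :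
    ∃ _ : IsDomain (Localization.AtPrime 𝔫 ⧸
        Ideal.span {algebraMap C (Localization.AtPrime 𝔫) (algebraMap R C x)}),
      IsDiscreteValuationRing (Localization.AtPrime 𝔫 ⧸
        Ideal.span {algebraMap C (Localization.AtPrime 𝔫) (algebraMap R C x)}) ∧
      Irreducible (Ideal.Quotient.mk
        (Ideal.span {algebraMap C (Localization.AtPrime 𝔫) (algebraMap R C x)})
        (algebraMap C (Localization.AtPrime 𝔫) (algebraMap R C y))) := by
  set L := Localization.AtPrime 𝔫 with hL
  set xL : L := algebraMap C L (algebraMap R C x) with hxL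
  set yL : L := algebraMap C L (algebraMap R C y) with hyL
  set I : Ideal L := Ideal.span {xL} with hI
  have hxm : xL ∈ maximalIdeal L := by
    rw [hunr]; exact Ideal.subset_span (by simp)
  have hx𝔫 : algebraMap R C x ∈ 𝔫 :=
    (IsLocalization.AtPrime.to_map_mem_maximal_iff L 𝔫 (algebraMap R C x)).1 hxm
  have hIle : I ≤ maximalIdeal L := by
    rw [hI, Ideal.span_singleton_le_iff_mem]; exact hxm
  have hIne : I ≠ ⊤ := fun h => (Ideal.IsPrime.ne_top (inferInstance : (maximalIdeal L).IsPrime))
    (top_le_iff.1 (h ▸ hIle))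
  haveI : Nontrivial (L ⧸ I) := Ideal.Quotient.nontrivial_iff.2 hIne
  haveI : IsLocalRing (L ⧸ I) :=
    IsLocalRing.of_surjective' (Ideal.Quotient.mk I) Ideal.Quotient.mk_surjective
  haveI : IsNoetherianRing L := IsLocalization.isNoetherianRing 𝔫.primeCompl L inferInstance
  have hmax : maximalIdeal (L ⧸ I) = Ideal.span {Ideal.Quotient.mk I yL} := by
    rw [etn_maximalIdeal_quot I hIle, hunr, Ideal.map_span, Set.image_pair]
    have h0 : Ideal.Quotient.mk I xL = 0 :=
      Ideal.Quotient.eq_zero_iff_mem.2 (Ideal.subset_span (Set.mem_singleton _))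
    rw [h0]
    apply le_antisymm
    · rw [Ideal.span_le]
      rintro a (rfl | rfl)
      · exact Ideal.zero_mem _
      · exact Ideal.subset_span (Set.mem_singleton _)
    · exact Ideal.span_mono (by simp)
  have hnil : ¬ IsNilpotent (Ideal.Quotient.mk I yL) := by
    rintro ⟨n, hn⟩
    rw [← map_pow, Ideal.Quotient.eq_zero_iff_mem, hI, Ideal.mem_span_singleton] at hn
    exact etn_not_dvd_pow 𝔫 x y hx hyx hx𝔫 n hn
  exact etn_dvr (Ideal.Quotient.mk I yL) hmax hnil

/-- **the node ring of an unramified free extension is factorial**, and `x` is a prime element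
of it -/
theorem etn_ufm [IsNoetherianRing C] (x y : R) (hx : Prime x) (hyx : ¬ x ∣ y)
    (hinj : Function.Injective (algebraMap R C))
    (hunr : maximalIdeal (Localization.AtPrime 𝔫) =
      Ideal.span {algebraMap C (Localization.AtPrime 𝔫) (algebraMap R C x),
        algebraMap C (Localization.AtPrime 𝔫) (algebraMap R C y)}) :
    UniqueFactorizationMonoid (Localization.AtPrime 𝔫) ∧
      Prime (algebraMap C (Localization.AtPrime 𝔫) (algebraMap R C x)) ∧
      ¬ algebraMap C (Localization.AtPrime 𝔫) (algebraMap R C x) ∣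
        algebraMap C (Localization.AtPrime 𝔫) (algebraMap R C y) := by
  set L := Localization.AtPrime 𝔫 with hL
  set xL : L := algebraMap C L (algebraMap R C x) with hxL
  obtain ⟨hdom, hdvr, -⟩ := etn_quot 𝔫 x y hx hyx hunr
  have hxm : xL ∈ maximalIdeal L := by
    rw [hunr]; exact Ideal.subset_span (by simp)
  have hx𝔫 : algebraMap R C x ∈ 𝔫 :=
    (IsLocalization.AtPrime.to_map_mem_maximal_iff L 𝔫 (algebraMap R C x)).1 hxm
  haveI : IsNoetherianRing L := IsLocalization.isNoetherianRing 𝔫.primeCompl L inferInstance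
  have hinjL : Function.Injective (algebraMap C L) :=
    IsLocalization.injective _ 𝔫.primeCompl_le_nonZeroDivisors
  have hx0 : xL ≠ 0 := by
    intro h0
    have h1 : algebraMap R C x = 0 := hinjL (by rw [map_zero]; exact h0)
    exact hx.ne_zero (hinj (by rw [map_zero]; exact h1))
  refine ⟨?_, ?_, ?_⟩
  · haveI := hdom
    haveI := hdvr
    exact Fermat.Agent.S36lib.s36_ufm_of_quotient_dvr xL hxm
  · rw [← Ideal.span_singleton_prime hx0]
    haveI := hdom
    exact (Ideal.Quotient.isDomain_iff_prime _).1 hdom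
  · have := etn_not_dvd_pow 𝔫 x y hx hyx hx𝔫 1
    rwa [pow_one] at this

/-- **the inputs of the edge rule at an unramified point**: a field `κ`, the reduction
`red : C_𝔫 → κ` with kernel `(x)` and an order function `w` on `κ`, `≥ 0` on the image of `red`,
with `w (red y) = 1` (`κ` is the fraction field of the discrete valuation ring `C_𝔫 ⧸ (x)`,
`w` the order at its uniformiser, the class of `y`). -/
theorem etn_edge_inputs [IsNoetherianRing C] (x y : R) (hx : Prime x) (hyx : ¬ x ∣ y)
    (hunr : maximalIdeal (Localization.AtPrime 𝔫) =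
      Ideal.span {algebraMap C (Localization.AtPrime 𝔫) (algebraMap R C x),
        algebraMap C (Localization.AtPrime 𝔫) (algebraMap R C y)}) :
    ∃ (κ : Type uC) (_ : Field κ) (red : Localization.AtPrime 𝔫 →+* κ) (w : κ → ℤ),
      (∀ c, red c = 0 ↔ algebraMap C (Localization.AtPrime 𝔫) (algebraMap R C x) ∣ c) ∧
      (∀ a b : κ, a ≠ 0 → b ≠ 0 → w (a * b) = w a + w b) ∧
      (∀ c, red c ≠ 0 → 0 ≤ w (red c)) ∧
      w (red (algebraMap C (Localization.AtPrime 𝔫) (algebraMap R C y))) = 1 := by
  set L := Localization.AtPrime 𝔫 with hL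
  set xL : L := algebraMap C L (algebraMap R C x) with hxL
  set yL : L := algebraMap C L (algebraMap R C y) with hyL
  set I : Ideal L := Ideal.span {xL} with hI
  obtain ⟨hdom, hdvr, hirr⟩ := etn_quot 𝔫 x y hx hyx hunr
  haveI := hdom
  haveI := hdvr
  set π : L ⧸ I := Ideal.Quotient.mk I yL with hπ
  have hπprime : Prime π := hirr.prime
  have hinjκ : Function.Injective (algebraMap (L ⧸ I) (FractionRing (L ⧸ I))) :=
    IsFractionRing.injective _ _
  refine ⟨FractionRing (L ⧸ I), inferInstance,
    (algebraMap (L ⧸ I) (FractionRing (L ⧸ I))).comp (Ideal.Quotient.mk I),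
    Fermat.Agent.S36lib.s36_ordAt π hπprime, ?_, ?_, ?_, ?_⟩
  · intro c
    rw [RingHom.comp_apply, map_eq_zero_iff _ hinjκ, Ideal.Quotient.eq_zero_iff_mem, hI,
      Ideal.mem_span_singleton]
  · intro a b ha hb
    exact Fermat.Agent.S36lib.s36_ordAt_mul π hπprime a b ha hb
  · intro c hc
    rw [RingHom.comp_apply] at hc ⊢
    set c' : L ⧸ I := Ideal.Quotient.mk I c with hc'
    have hc0 : c' ≠ 0 := fun h => hc (by rw [h, map_zero])
    -- `c' = π ^ n * u`, `π ∤ u`
    obtain ⟨n, u, hu, hcu⟩ := WfDvdMonoid.max_power_factor hc0 hirr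
    rw [hcu, map_mul, map_pow]
    have hu0 : u ≠ 0 := fun h => hu (h ▸ dvd_zero _)
    have hπ0 : algebraMap (L ⧸ I) (FractionRing (L ⧸ I)) π ≠ 0 := by
      rw [Ne, map_eq_zero_iff _ hinjκ]; exact hπprime.ne_zero
    have hu0' : algebraMap (L ⧸ I) (FractionRing (L ⧸ I)) u ≠ 0 := by
      rw [Ne, map_eq_zero_iff _ hinjκ]; exact hu0
    rw [Fermat.Agent.S36lib.s36_ordAt_mul π hπprime _ _ (pow_ne_zero _ hπ0) hu0',
      Fermat.Agent.S36lib.s36_ordAt_of_not_dvd π hπprime u hu, add_zero]
    clear hcu
    induction n with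
    | zero =>
      rw [pow_zero]
      have h1 := Fermat.Agent.S36lib.s36_ordAt_mul (F := FractionRing (L ⧸ I)) π hπprime 1 1
        one_ne_zero one_ne_zero
      rw [mul_one] at h1
      omega
    | succ k ih =>
      rw [pow_succ, Fermat.Agent.S36lib.s36_ordAt_mul π hπprime _ _ (pow_ne_zero _ hπ0) hπ0,
        Fermat.Agent.S36lib.s36_ordAt_self π hπprime]
      omega
  · rw [RingHom.comp_apply]
    exact Fermat.Agent.S36lib.s36_ordAt_self π hπprime

end Node

open Polynomial

section Unram

variable {R C : Type*} [CommRing R] [IsLocalRing R] [CommRing C] [Algebra R C]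

/-- `g(z) - g(c)` is a multiple of `z - c` -/
theorem etn_aeval_sub (z : C) (c : R) (g : R[X]) :
    ∃ q : C, aeval z g = algebraMap R C (g.eval c) + (z - algebraMap R C c) * q := by
  have h1 := Polynomial.sub_dvd_eval_sub z (algebraMap R C c) (g.map (algebraMap R C))
  obtain ⟨q, hq⟩ := h1
  refine ⟨q, ?_⟩
  rw [Polynomial.eval_map, Polynomial.eval_map, Polynomial.eval₂_at_apply] at hq
  rw [Polynomial.aeval_def, ← hq]
  ring

variable (𝔫 : Ideal C) [h𝔫 : 𝔫.IsPrime]

/-- an element of `R` whose image lies in the prime `𝔫` of `C` lies in the maximal ideal -/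
theorem etn_mem_maximalIdeal (r : R) (hr : algebraMap R C r ∈ 𝔫) : r ∈ maximalIdeal R := by
  rw [IsLocalRing.mem_maximalIdeal]
  intro hu
  exact h𝔫.ne_top (Ideal.eq_top_of_isUnit_mem _ hr (hu.map (algebraMap R C)))

/-- **unramified points**: `C = R[z]`, `P(z) = 0`, `P'(z)` a unit, `z ≡ c` modulo the prime `𝔫`
(`c ∈ R`): then `𝔫 C_𝔫` is generated by the maximal ideal of `R`. -/
theorem etn_unram (z : C) (hadj : Algebra.adjoin R {z} = ⊤) (P : R[X]) (hP : aeval z P = 0)
    (hP' : IsUnit (aeval z (derivative P))) (c : R) (hc : z - algebraMap R C c ∈ 𝔫)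
    (a : C) (ha : a ∈ 𝔫) :
    algebraMap C (Localization.AtPrime 𝔫) a ∈
      (maximalIdeal R).map ((algebraMap C (Localization.AtPrime 𝔫)).comp (algebraMap R C)) := by
  set L := Localization.AtPrime 𝔫 with hL
  set φ : R →+* L := (algebraMap C L).comp (algebraMap R C) with hφ
  set J : Ideal L := (maximalIdeal R).map φ with hJ
  have hmem : ∀ r : R, algebraMap R C r ∈ 𝔫 → algebraMap C L (algebraMap R C r) ∈ J := by
    intro r hr
    exact Ideal.mem_map_of_mem φ (etn_mem_maximalIdeal 𝔫 r hr)
  -- the polynomial division `P = (X - c) Q₀ + P(c)`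
  set Q₀ : R[X] := P /ₘ (X - Polynomial.C c) with hQ₀
  have hdiv : P = Polynomial.C (P.eval c) + (X - Polynomial.C c) * Q₀ := by
    have := Polynomial.modByMonic_add_div P (X - Polynomial.C c)
    rw [Polynomial.modByMonic_X_sub_C_eq_C_eval] at this
    exact this.symm
  have hder : derivative P = Q₀ + (X - Polynomial.C c) * derivative Q₀ := by
    conv_lhs => rw [hdiv]
    simp only [derivative_add, derivative_C, derivative_mul, derivative_sub, derivative_X,
      zero_add, sub_zero, one_mul]
  -- `Q₀(z) ∉ 𝔫`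
  have hQz : aeval z Q₀ ∉ 𝔫 := by
    intro hmemQ
    have h1 : aeval z (derivative P) ∈ 𝔫 := by
      rw [hder, map_add, map_mul, map_sub, aeval_X, Polynomial.aeval_C]
      exact 𝔫.add_mem hmemQ (𝔫.mul_mem_right _ hc)
    exact h𝔫.ne_top (Ideal.eq_top_of_isUnit_mem _ h1 hP')
  -- `(z - c) Q₀(z) = - P(c)`
  have hrel : (z - algebraMap R C c) * aeval z Q₀ = - algebraMap R C (P.eval c) := by
    have h1 : aeval z P = algebraMap R C (P.eval c) + (z - algebraMap R C c) * aeval z Q₀ := by
      conv_lhs => rw [hdiv]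
      rw [map_add, map_mul, map_sub, aeval_X, Polynomial.aeval_C, Polynomial.aeval_C]
    rw [hP] at h1
    linear_combination -h1
  have hPc : algebraMap R C (P.eval c) ∈ 𝔫 := by
    have : - algebraMap R C (P.eval c) ∈ 𝔫 := hrel ▸ 𝔫.mul_mem_right _ hc
    simpa using 𝔫.neg_mem this
  -- `z - c` lies in `J`
  have hunit : IsUnit (algebraMap C L (aeval z Q₀)) :=
    IsLocalization.map_units L (⟨aeval z Q₀, hQz⟩ : 𝔫.primeCompl)
  have hzc : algebraMap C L (z - algebraMap R C c) ∈ J := by
    obtain ⟨u, hu⟩ := hunit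
    have h2 : algebraMap C L (z - algebraMap R C c) * (u : L) =
        - algebraMap C L (algebraMap R C (P.eval c)) := by
      rw [hu, ← map_mul, hrel, map_neg]
    have h3 : algebraMap C L (z - algebraMap R C c) =
        - algebraMap C L (algebraMap R C (P.eval c)) * ((u⁻¹ : Lˣ) : L) := by
      rw [← h2, mul_assoc, Units.mul_inv, mul_one]
    rw [h3]
    exact J.mul_mem_right _ (J.neg_mem (hmem _ hPc))
  -- a general element of `𝔫`
  have haz : a ∈ (aeval z : R[X] →ₐ[R] C).range := by
    rw [← Algebra.adjoin_singleton_eq_range_aeval, hadj]; trivial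
  obtain ⟨g, hg⟩ := haz
  have hg' : aeval z g = a := hg
  subst hg'
  obtain ⟨q, hq⟩ := etn_aeval_sub z c g
  have hgc : algebraMap R C (g.eval c) ∈ 𝔫 := by
    have : algebraMap R C (g.eval c) = aeval z g - (z - algebraMap R C c) * q := by
      rw [hq]; ring
    rw [this]
    exact 𝔫.sub_mem ha (𝔫.mul_mem_right _ hc)
  have : algebraMap C L (aeval z g) =
      algebraMap C L (algebraMap R C (g.eval c)) + algebraMap C L (z - algebraMap R C c) *
        algebraMap C L q := by
    rw [← map_mul, ← map_add, ← hq]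
  rw [this]
  exact J.add_mem (hmem _ hgc) (J.mul_mem_right _ hzc)

/-- the maximal ideal of `C_𝔫` at an unramified point over a ring with `𝔪 = (x, y)` -/
theorem etn_hunr (z : C) (hadj : Algebra.adjoin R {z} = ⊤) (P : R[X]) (hP : aeval z P = 0)
    (hP' : IsUnit (aeval z (derivative P))) (c : R) (hc : z - algebraMap R C c ∈ 𝔫)
    (x y : R) (hm : maximalIdeal R = Ideal.span {x, y})
    (hx𝔫 : algebraMap R C x ∈ 𝔫) (hy𝔫 : algebraMap R C y ∈ 𝔫) :
    maximalIdeal (Localization.AtPrime 𝔫) =
      Ideal.span {algebraMap C (Localization.AtPrime 𝔫) (algebraMap R C x),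
        algebraMap C (Localization.AtPrime 𝔫) (algebraMap R C y)} := by
  set L := Localization.AtPrime 𝔫 with hL
  have hJ : (maximalIdeal R).map ((algebraMap C L).comp (algebraMap R C)) =
      Ideal.span {algebraMap C L (algebraMap R C x), algebraMap C L (algebraMap R C y)} := by
    rw [hm, Ideal.map_span, Set.image_pair]
    rfl
  apply le_antisymm
  · rw [← Localization.AtPrime.map_eq_maximalIdeal, Ideal.map_le_iff_le_comap]
    intro a ha
    rw [Ideal.mem_comap, ← hJ]
    exact etn_unram 𝔫 z hadj P hP hP' c hc a ha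
  · rw [Ideal.span_le]
    rintro b (rfl | rfl)
    · exact (IsLocalization.AtPrime.to_map_mem_maximal_iff L 𝔫 _).2 hx𝔫
    · exact (IsLocalization.AtPrime.to_map_mem_maximal_iff L 𝔫 _).2 hy𝔫

end Unram

section NodeMain

universe uR uC

variable {R : Type uR} {C : Type uC} [CommRing R] [IsDomain R] [IsLocalRing R] [CommRing C]
  [IsDomain C] [Algebra R C] [Module.Free R C] [IsNoetherianRing C]
  (𝔫 : Ideal C) [h𝔫 : 𝔫.IsPrime]

/-- a unit relation `ϖ = ε x y` of `R` stays one in `C_𝔫` -/
theorem etn_pi (x y ϖ : R) (ε : Rˣ) (hϖ : ϖ = ε * x * y) :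
    ∃ ε' : (Localization.AtPrime 𝔫)ˣ,
      algebraMap C (Localization.AtPrime 𝔫) (algebraMap R C ϖ) =
        ε' * algebraMap C (Localization.AtPrime 𝔫) (algebraMap R C x) *
          algebraMap C (Localization.AtPrime 𝔫) (algebraMap R C y) := by
  refine ⟨Units.map ((algebraMap C (Localization.AtPrime 𝔫)).comp (algebraMap R C)).toMonoidHom ε,
    ?_⟩
  rw [hϖ, map_mul, map_mul, map_mul, map_mul]
  rfl

/-- **the node ring of the cover** (both branches): `R` a local domain with `𝔪_R = (x, y)`,
`x`, `y` prime, not dividing each other; `C = R[z]` a Noetherian domain, free over `R`,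
`P(z) = 0`, `P'(z)` a unit; `𝔫` a prime of `C` containing `x`, `y` and `z - c`.  Then `L = C_𝔫`
is factorial, `x` and `y` are non-associated prime elements of `L`, and both branches carry the
inputs of the edge rule. -/
theorem etn_node (x y : R) (hx : Prime x) (hy : Prime y) (hyx : ¬ x ∣ y) (hxy : ¬ y ∣ x)
    (hm : maximalIdeal R = Ideal.span {x, y})
    (hinj : Function.Injective (algebraMap R C))
    (z : C) (hadj : Algebra.adjoin R {z} = ⊤) (P : Polynomial R) (hP : Polynomial.aeval z P = 0)
    (hP' : IsUnit (Polynomial.aeval z (Polynomial.derivative P)))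
    (c : R) (hc : z - algebraMap R C c ∈ 𝔫)
    (hx𝔫 : algebraMap R C x ∈ 𝔫) (hy𝔫 : algebraMap R C y ∈ 𝔫) :
    UniqueFactorizationMonoid (Localization.AtPrime 𝔫) ∧
      Prime (algebraMap C (Localization.AtPrime 𝔫) (algebraMap R C x)) ∧
      Prime (algebraMap C (Localization.AtPrime 𝔫) (algebraMap R C y)) ∧
      ¬ Associated (algebraMap C (Localization.AtPrime 𝔫) (algebraMap R C x))
        (algebraMap C (Localization.AtPrime 𝔫) (algebraMap R C y)) ∧
      (∃ (κ : Type uC) (_ : Field κ) (red : Localization.AtPrime 𝔫 →+* κ) (w : κ → ℤ),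
        (∀ c, red c = 0 ↔ algebraMap C (Localization.AtPrime 𝔫) (algebraMap R C x) ∣ c) ∧
        (∀ a b : κ, a ≠ 0 → b ≠ 0 → w (a * b) = w a + w b) ∧
        (∀ c, red c ≠ 0 → 0 ≤ w (red c)) ∧
        w (red (algebraMap C (Localization.AtPrime 𝔫) (algebraMap R C y))) = 1) ∧
      (∃ (κ : Type uC) (_ : Field κ) (red : Localization.AtPrime 𝔫 →+* κ) (w : κ → ℤ),
        (∀ c, red c = 0 ↔ algebraMap C (Localization.AtPrime 𝔫) (algebraMap R C y) ∣ c) ∧
        (∀ a b : κ, a ≠ 0 → b ≠ 0 → w (a * b) = w a + w b) ∧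
        (∀ c, red c ≠ 0 → 0 ≤ w (red c)) ∧
        w (red (algebraMap C (Localization.AtPrime 𝔫) (algebraMap R C x))) = 1) := by
  have hunr := etn_hunr 𝔫 z hadj P hP hP' c hc x y hm hx𝔫 hy𝔫
  have hunr' : maximalIdeal (Localization.AtPrime 𝔫) =
      Ideal.span {algebraMap C (Localization.AtPrime 𝔫) (algebraMap R C y),
        algebraMap C (Localization.AtPrime 𝔫) (algebraMap R C x)} := by
    rw [hunr, Set.pair_comm]
  obtain ⟨hufm, hpx, hndvd⟩ := etn_ufm 𝔫 x y hx hyx hinj hunr
  obtain ⟨-, hpy, -⟩ := etn_ufm 𝔫 y x hy hxy hinj hunr'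
  refine ⟨hufm, hpx, hpy, fun has => hndvd has.dvd, etn_edge_inputs 𝔫 x y hx hyx hunr,
    etn_edge_inputs 𝔫 y x hy hxy hunr'⟩

end NodeMain

end Fermat.Agent.S40lib
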