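import Mathlib
import Fermat.Agent.S36lib.Speed
import Fermat.Agent.S40lib.EtaleNode

/-!
# Item 88 (S40), block (C2), abstract part, second file (helper2): the same with `P'(z) ∉ 𝔫`

`EtaleNode.lean` asks for `IsUnit (aeval z P')` in `C = R[z]`.  Only `aeval z P' ∉ 𝔫` is used;
this file states `etn_unram`, `etn_hunr`, `etn_node` with that weaker hypothesis (easier for the
concrete cover: `P₀'(z') = ∏_{i ≠ 0} (z' - σⁱ z')` and every factor is a unit at a prime over `𝔫`).

* `etn2_unram`, `etn2_hunr`, `etn2_node`;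
* `etn2_node_adjoin`: the same for `C = Algebra.adjoin R {z'}` inside a field `E`, `z'` integral
  over the integrally closed `R` (freeness, Noetherianity, `adjoin = ⊤` are proved here);
* `etn2_not_mem_of_over`: `u ∈ C`, `C ⊆ D`, `𝔑` a prime of `D` over `𝔫`, `u ∉ 𝔑` ⇒ `u ∉ 𝔫`
  (to check `P'(z) ∉ 𝔫` in a bigger ring containing the conjugates).
(complete proofs, standard axioms only)
-/

set_option autoImplicit false
set_option linter.style.haveILetI false
set_option linter.unusedSectionVars false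

namespace Fermat.Agent.S40lib

open IsLocalRing Polynomial

section Unram2

variable {R C : Type*} [CommRing R] [IsLocalRing R] [CommRing C] [Algebra R C]

variable (𝔫 : Ideal C) [h𝔫 : 𝔫.IsPrime]

/-- **unramified points**: `C = R[z]`, `P(z) = 0`, `P'(z) ∉ 𝔫`, `z ≡ c` modulo the prime `𝔫`
(`c ∈ R`): then `𝔫 C_𝔫` is generated by the maximal ideal of `R`. -/
theorem etn2_unram (z : C) (hadj : Algebra.adjoin R {z} = ⊤) (P : R[X]) (hP : aeval z P = 0)
    (hP' : aeval z (derivative P) ∉ 𝔫) (c : R) (hc : z - algebraMap R C c ∈ 𝔫)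
    (a : C) (ha : a ∈ 𝔫) :
    algebraMap C (Localization.AtPrime 𝔫) a ∈
      (maximalIdeal R).map ((algebraMap C (Localization.AtPrime 𝔫)).comp (algebraMap R C)) := by
  set L := Localization.AtPrime 𝔫 with hL
  set φ : R →+* L := (algebraMap C L).comp (algebraMap R C) with hφ
  set J : Ideal L := (maximalIdeal R).map φ with hJ
  have hmem : ∀ r : R, algebraMap R C r ∈ 𝔫 → algebraMap C L (algebraMap R C r) ∈ J := by
    intro r hr
    exact Ideal.mem_map_of_mem φ (etn_mem_maximalIdeal 𝔫 r hr)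
  -- the polynomial division `P = (X - c) Q₀ + P(c)`
  set Q₀ : R[X] := P /ₘ (X - Polynomial.C c) with hQ₀
  have hdiv : P = Polynomial.C (P.eval c) + (X - Polynomial.C c) * Q₀ := by
    have := Polynomial.modByMonic_add_div P (X - Polynomial.C c)
    rw [Polynomial.modByMonic_X_sub_C_eq_C_eval] at this
    exact this.symm
  have hder : derivative P = Q₀ + (X - Polynomial.C c) * derivative Q₀ := by
    conv_lhs => rw [hdiv]
    simp only [derivative_add, derivative_C, derivative_mul, derivative_sub, derivative_X,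
      zero_add, sub_zero, one_mul]
  -- `Q₀(z) ∉ 𝔫`
  have hQz : aeval z Q₀ ∉ 𝔫 := by
    intro hmemQ
    have h1 : aeval z (derivative P) ∈ 𝔫 := by
      rw [hder, map_add, map_mul, map_sub, aeval_X, Polynomial.aeval_C]
      exact 𝔫.add_mem hmemQ (𝔫.mul_mem_right _ hc)
    exact hP' h1
  -- `(z - c) Q₀(z) = - P(c)`
  have hrel : (z - algebraMap R C c) * aeval z Q₀ = - algebraMap R C (P.eval c) := by
    have h1 : aeval z P = algebraMap R C (P.eval c) + (z - algebraMap R C c) * aeval z Q₀ := by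
      conv_lhs => rw [hdiv]
      rw [map_add, map_mul, map_sub, aeval_X, Polynomial.aeval_C, Polynomial.aeval_C]
    rw [hP] at h1
    linear_combination -h1
  have hPc : algebraMap R C (P.eval c) ∈ 𝔫 := by
    have : - algebraMap R C (P.eval c) ∈ 𝔫 := hrel ▸ 𝔫.mul_mem_right _ hc
    simpa using 𝔫.neg_mem this
  -- `z - c` lies in `J`
  have hunit : IsUnit (algebraMap C L (aeval z Q₀)) :=
    IsLocalization.map_units L (⟨aeval z Q₀, hQz⟩ : 𝔫.primeCompl)
  have hzc : algebraMap C L (z - algebraMap R C c) ∈ J := by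
    obtain ⟨u, hu⟩ := hunit
    have h2 : algebraMap C L (z - algebraMap R C c) * (u : L) =
        - algebraMap C L (algebraMap R C (P.eval c)) := by
      rw [hu, ← map_mul, hrel, map_neg]
    have h3 : algebraMap C L (z - algebraMap R C c) =
        - algebraMap C L (algebraMap R C (P.eval c)) * ((u⁻¹ : Lˣ) : L) := by
      rw [← h2, mul_assoc, Units.mul_inv, mul_one]
    rw [h3]
    exact J.mul_mem_right _ (J.neg_mem (hmem _ hPc))
  -- a general element of `𝔫`
  have haz : a ∈ (aeval z : R[X] →ₐ[R] C).range := by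
    rw [← Algebra.adjoin_singleton_eq_range_aeval, hadj]; trivial
  obtain ⟨g, hg⟩ := haz
  have hg' : aeval z g = a := hg
  subst hg'
  obtain ⟨q, hq⟩ := etn_aeval_sub z c g
  have hgc : algebraMap R C (g.eval c) ∈ 𝔫 := by
    have : algebraMap R C (g.eval c) = aeval z g - (z - algebraMap R C c) * q := by
      rw [hq]; ring
    rw [this]
    exact 𝔫.sub_mem ha (𝔫.mul_mem_right _ hc)
  have : algebraMap C L (aeval z g) =
      algebraMap C L (algebraMap R C (g.eval c)) + algebraMap C L (z - algebraMap R C c) *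
        algebraMap C L q := by
    rw [← map_mul, ← map_add, ← hq]
  rw [this]
  exact J.add_mem (hmem _ hgc) (J.mul_mem_right _ hzc)

/-- the maximal ideal of `C_𝔫` at an unramified point over a ring with `𝔪 = (x, y)` -/
theorem etn2_hunr (z : C) (hadj : Algebra.adjoin R {z} = ⊤) (P : R[X]) (hP : aeval z P = 0)
    (hP' : aeval z (derivative P) ∉ 𝔫) (c : R) (hc : z - algebraMap R C c ∈ 𝔫)
    (x y : R) (hm : maximalIdeal R = Ideal.span {x, y})
    (hx𝔫 : algebraMap R C x ∈ 𝔫) (hy𝔫 : algebraMap R C y ∈ 𝔫) :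
    maximalIdeal (Localization.AtPrime 𝔫) =
      Ideal.span {algebraMap C (Localization.AtPrime 𝔫) (algebraMap R C x),
        algebraMap C (Localization.AtPrime 𝔫) (algebraMap R C y)} := by
  set L := Localization.AtPrime 𝔫 with hL
  have hJ : (maximalIdeal R).map ((algebraMap C L).comp (algebraMap R C)) =
      Ideal.span {algebraMap C L (algebraMap R C x), algebraMap C L (algebraMap R C y)} := by
    rw [hm, Ideal.map_span, Set.image_pair]
    rfl
  apply le_antisymm
  · rw [← Localization.AtPrime.map_eq_maximalIdeal, Ideal.map_le_iff_le_comap]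
    intro a ha
    rw [Ideal.mem_comap, ← hJ]
    exact etn2_unram 𝔫 z hadj P hP hP' c hc a ha
  · rw [Ideal.span_le]
    rintro b (rfl | rfl)
    · exact (IsLocalization.AtPrime.to_map_mem_maximal_iff L 𝔫 _).2 hx𝔫
    · exact (IsLocalization.AtPrime.to_map_mem_maximal_iff L 𝔫 _).2 hy𝔫

end Unram2

section Over

variable {C D : Type*} [CommRing C] [CommRing D] [Algebra C D]

/-- membership in `𝔫` can be tested at a prime of a bigger ring lying over `𝔫` -/
theorem etn2_not_mem_of_over (𝔫 : Ideal C) (𝔑 : Ideal D)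
    (hover : 𝔑.comap (algebraMap C D) = 𝔫) (u : C) (hu : algebraMap C D u ∉ 𝔑) : u ∉ 𝔫 := by
  intro h
  rw [← hover, Ideal.mem_comap] at h
  exact hu h

end Over

section NodeMain2

universe uR uC

variable {R : Type uR} {C : Type uC} [CommRing R] [IsDomain R] [IsLocalRing R] [CommRing C]
  [IsDomain C] [Algebra R C] [Module.Free R C] [IsNoetherianRing C]
  (𝔫 : Ideal C) [h𝔫 : 𝔫.IsPrime]

/-- `etn_node` with `P'(z) ∉ 𝔫` instead of `IsUnit (P'(z))` -/
theorem etn2_node (x y : R) (hx : Prime x) (hy : Prime y) (hyx : ¬ x ∣ y) (hxy : ¬ y ∣ x)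
    (hm : maximalIdeal R = Ideal.span {x, y})
    (hinj : Function.Injective (algebraMap R C))
    (z : C) (hadj : Algebra.adjoin R {z} = ⊤) (P : Polynomial R) (hP : Polynomial.aeval z P = 0)
    (hP' : Polynomial.aeval z (Polynomial.derivative P) ∉ 𝔫)
    (c : R) (hc : z - algebraMap R C c ∈ 𝔫)
    (hx𝔫 : algebraMap R C x ∈ 𝔫) (hy𝔫 : algebraMap R C y ∈ 𝔫) :
    UniqueFactorizationMonoid (Localization.AtPrime 𝔫) ∧
      Prime (algebraMap C (Localization.AtPrime 𝔫) (algebraMap R C x)) ∧
      Prime (algebraMap C (Localization.AtPrime 𝔫) (algebraMap R C y)) ∧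
      ¬ Associated (algebraMap C (Localization.AtPrime 𝔫) (algebraMap R C x))
        (algebraMap C (Localization.AtPrime 𝔫) (algebraMap R C y)) ∧
      (∃ (κ : Type uC) (_ : Field κ) (red : Localization.AtPrime 𝔫 →+* κ) (w : κ → ℤ),
        (∀ c, red c = 0 ↔ algebraMap C (Localization.AtPrime 𝔫) (algebraMap R C x) ∣ c) ∧
        (∀ a b : κ, a ≠ 0 → b ≠ 0 → w (a * b) = w a + w b) ∧
        (∀ c, red c ≠ 0 → 0 ≤ w (red c)) ∧
        w (red (algebraMap C (Localization.AtPrime 𝔫) (algebraMap R C y))) = 1) ∧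
      (∃ (κ : Type uC) (_ : Field κ) (red : Localization.AtPrime 𝔫 →+* κ) (w : κ → ℤ),
        (∀ c, red c = 0 ↔ algebraMap C (Localization.AtPrime 𝔫) (algebraMap R C y) ∣ c) ∧
        (∀ a b : κ, a ≠ 0 → b ≠ 0 → w (a * b) = w a + w b) ∧
        (∀ c, red c ≠ 0 → 0 ≤ w (red c)) ∧
        w (red (algebraMap C (Localization.AtPrime 𝔫) (algebraMap R C x))) = 1) := by
  have hunr := etn2_hunr 𝔫 z hadj P hP hP' c hc x y hm hx𝔫 hy𝔫
  have hunr' : maximalIdeal (Localization.AtPrime 𝔫) =
      Ideal.span {algebraMap C (Localization.AtPrime 𝔫) (algebraMap R C y),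
        algebraMap C (Localization.AtPrime 𝔫) (algebraMap R C x)} := by
    rw [hunr, Set.pair_comm]
  obtain ⟨hufm, hpx, hndvd⟩ := etn_ufm 𝔫 x y hx hyx hinj hunr
  obtain ⟨-, hpy, -⟩ := etn_ufm 𝔫 y x hy hxy hinj hunr'
  refine ⟨hufm, hpx, hpy, fun has => hndvd has.dvd, etn_edge_inputs 𝔫 x y hx hyx hunr,
    etn_edge_inputs 𝔫 y x hy hxy hunr'⟩

end NodeMain2

section Adjoin

universe uR uE

variable {R : Type uR} {E : Type uE} [CommRing R] [IsDomain R] [IsLocalRing R]
  [IsNoetherianRing R] [IsIntegrallyClosed R] [Field E] [Algebra R E]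

/-- **the node ring of `R[z']`, `z'` an integral element of a field `E ⊇ R`** (all instances
provided): `R` an integrally closed Noetherian local domain with `𝔪_R = (x, y)`, `x`, `y` prime,
not dividing each other; `z' ∈ E` integral over `R`; `C = R[z'] ⊂ E`; `P ∈ R[T]` with
`P(z') = 0`; `𝔫` a prime of `C` containing `x`, `y`, `z' - c` and not `P'(z')`.
Then the conclusions of `etn_node` hold for `C_𝔫`. -/
theorem etn2_node_adjoin (hinj : Function.Injective (algebraMap R E))
    (x y : R) (hx : Prime x) (hy : Prime y) (hyx : ¬ x ∣ y) (hxy : ¬ y ∣ x)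
    (hm : maximalIdeal R = Ideal.span {x, y})
    (z' : E) (hz : IsIntegral R z')
    (𝔫 : Ideal (Algebra.adjoin R ({z'} : Set E))) [h𝔫 : 𝔫.IsPrime]
    (P : Polynomial R) (hP : Polynomial.aeval z' P = 0)
    (hP' : (⟨Polynomial.aeval z' (Polynomial.derivative P),
      Polynomial.aeval_mem_adjoin_singleton R z'⟩ : Algebra.adjoin R ({z'} : Set E)) ∉ 𝔫)
    (c : R) (hc : (⟨z', Algebra.self_mem_adjoin_singleton R z'⟩ :
      Algebra.adjoin R ({z'} : Set E)) - algebraMap R _ c ∈ 𝔫)
    (hx𝔫 : algebraMap R (Algebra.adjoin R ({z'} : Set E)) x ∈ 𝔫)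
    (hy𝔫 : algebraMap R (Algebra.adjoin R ({z'} : Set E)) y ∈ 𝔫) :
    UniqueFactorizationMonoid (Localization.AtPrime 𝔫) ∧
      Prime (algebraMap _ (Localization.AtPrime 𝔫)
        (algebraMap R (Algebra.adjoin R ({z'} : Set E)) x)) ∧
      Prime (algebraMap _ (Localization.AtPrime 𝔫)
        (algebraMap R (Algebra.adjoin R ({z'} : Set E)) y)) ∧
      ¬ Associated (algebraMap _ (Localization.AtPrime 𝔫)
          (algebraMap R (Algebra.adjoin R ({z'} : Set E)) x))
        (algebraMap _ (Localization.AtPrime 𝔫)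
          (algebraMap R (Algebra.adjoin R ({z'} : Set E)) y)) ∧
      (∃ (κ : Type uE) (_ : Field κ) (red : Localization.AtPrime 𝔫 →+* κ) (w : κ → ℤ),
        (∀ c, red c = 0 ↔ algebraMap _ (Localization.AtPrime 𝔫)
          (algebraMap R (Algebra.adjoin R ({z'} : Set E)) x) ∣ c) ∧
        (∀ a b : κ, a ≠ 0 → b ≠ 0 → w (a * b) = w a + w b) ∧
        (∀ c, red c ≠ 0 → 0 ≤ w (red c)) ∧
        w (red (algebraMap _ (Localization.AtPrime 𝔫)
          (algebraMap R (Algebra.adjoin R ({z'} : Set E)) y))) = 1) ∧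
      (∃ (κ : Type uE) (_ : Field κ) (red : Localization.AtPrime 𝔫 →+* κ) (w : κ → ℤ),
        (∀ c, red c = 0 ↔ algebraMap _ (Localization.AtPrime 𝔫)
          (algebraMap R (Algebra.adjoin R ({z'} : Set E)) y) ∣ c) ∧
        (∀ a b : κ, a ≠ 0 → b ≠ 0 → w (a * b) = w a + w b) ∧
        (∀ c, red c ≠ 0 → 0 ≤ w (red c)) ∧
        w (red (algebraMap _ (Localization.AtPrime 𝔫)
          (algebraMap R (Algebra.adjoin R ({z'} : Set E)) x))) = 1) := by
  haveI : Module.IsTorsionFree R E := Module.isTorsionFree_iff_algebraMap_injective.2 hinj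
  haveI : Module.Free R (Algebra.adjoin R ({z'} : Set E)) :=
    Module.Free.of_basis (Algebra.adjoin.powerBasis' hz).basis
  haveI : Module.Finite R (Algebra.adjoin R ({z'} : Set E)) :=
    (Algebra.adjoin.powerBasis' hz).finite
  haveI : IsNoetherianRing (Algebra.adjoin R ({z'} : Set E)) :=
    IsNoetherianRing.of_finite R (Algebra.adjoin R ({z'} : Set E))
  have hinjC : Function.Injective (algebraMap R (Algebra.adjoin R ({z'} : Set E))) := by
    intro a b hab
    apply hinj
    have := congrArg (fun t : Algebra.adjoin R ({z'} : Set E) => (t : E)) hab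
    exact this
  have hadj : Algebra.adjoin R
      ({(⟨z', Algebra.self_mem_adjoin_singleton R z'⟩ : Algebra.adjoin R ({z'} : Set E))} :
        Set (Algebra.adjoin R ({z'} : Set E))) = ⊤ := by
    have h1 := (Algebra.adjoin.powerBasis' hz).adjoin_gen_eq_top
    rw [Algebra.adjoin.powerBasis'_gen] at h1
    exact h1
  have haev : ∀ Q : Polynomial R,
      ((Polynomial.aeval (⟨z', Algebra.self_mem_adjoin_singleton R z'⟩ :
        Algebra.adjoin R ({z'} : Set E)) Q : Algebra.adjoin R ({z'} : Set E)) : E) =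
        Polynomial.aeval z' Q := by
    intro Q
    have := Polynomial.aeval_algHom_apply (Algebra.adjoin R ({z'} : Set E)).val
      (⟨z', Algebra.self_mem_adjoin_singleton R z'⟩ : Algebra.adjoin R ({z'} : Set E)) Q
    exact this.symm
  have hPz : Polynomial.aeval (⟨z', Algebra.self_mem_adjoin_singleton R z'⟩ :
      Algebra.adjoin R ({z'} : Set E)) P = 0 := by
    apply Subtype.ext
    rw [haev, hP]
    rfl
  have hP'z : Polynomial.aeval (⟨z', Algebra.self_mem_adjoin_singleton R z'⟩ :
      Algebra.adjoin R ({z'} : Set E)) (Polynomial.derivative P) ∉ 𝔫 := by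
    have : Polynomial.aeval (⟨z', Algebra.self_mem_adjoin_singleton R z'⟩ :
        Algebra.adjoin R ({z'} : Set E)) (Polynomial.derivative P) =
        (⟨Polynomial.aeval z' (Polynomial.derivative P),
          Polynomial.aeval_mem_adjoin_singleton R z'⟩ : Algebra.adjoin R ({z'} : Set E)) := by
      apply Subtype.ext
      rw [haev]
    rw [this]
    exact hP'
  exact etn2_node 𝔫 x y hx hy hyx hxy hm hinjC _ hadj P hPz hP'z c hc hx𝔫 hy𝔫

end Adjoin

end Fermat.Agent.S40lib
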