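import Mathlib
import Fermat.Agent.S36lib.Speed
import Fermat.Agent.S40lib.EdgeConc2
import Fermat.Agent.S40lib.EtaleNode2

/-!
# Item 88 (S40), block (J-WILD), piece G2a, part 1 (helper2): the node ring `B_s`

`cvn_local`: abstract REG1-with-thickness ⇒ in `R = Localization.AtPrime s`: `x`, `y` are prime,
`x ∤ y`, `y ∤ x`, `maximalIdeal R = span {x, y}`.  The hypotheses are EXACTLY the outputs of
`edc_hreg1` (EdgeConc.lean) for `r₁ = redInf`, `r₂ = redZero` (`pInf = ker redInf`,
`pZero = ker redZero`), plus `redInf y ≠ 0`, `redZero x ≠ 0`.  These are the inputs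
`hx hy hyx hxy hm` of `etn2_node_adjoin` (EtaleNode2.lean).
(complete proof, standard axioms only)
-/

set_option autoImplicit false
set_option linter.style.haveILetI false
set_option linter.unusedSectionVars false

namespace Fermat.Agent.S40lib

open IsLocalRing

section LocalFacts

variable {B : Type*} [CommRing B] [IsDomain B] (s : Ideal B) [hs : s.IsMaximal]
  {κ : Type*} [Field κ]

/-- **the node ring `B_s`** (REG1 with thickness, abstract): `x` generates `ker r₁` at `s`,
`y` generates `ker r₂` at `s`, `r₁ y ≠ 0`, `r₂ x ≠ 0`, and `y` reduces to a generator of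
`s / ker r₁` (`∀ z ∈ s, ∃ w ∉ s, c, w z - c y ∈ ker r₁`).  Then in `R = B_s`: `x`, `y` are prime
elements, they do not divide each other, and the maximal ideal is `(x, y)`. -/
theorem cvn_local (r₁ r₂ : B →+* κ) (h₁ : RingHom.ker r₁ ≤ s) (h₂ : RingHom.ker r₂ ≤ s)
    (x εx y εy : B)
    (hx : x ∈ RingHom.ker r₁) (hxg : ∀ z ∈ RingHom.ker r₁, x ∣ εx * z) (hεx : εx ∉ s)
    (hy : y ∈ RingHom.ker r₂) (hyg : ∀ z ∈ RingHom.ker r₂, y ∣ εy * z) (hεy : εy ∉ s)
    (hy0 : r₁ y ≠ 0) (hx0 : r₂ x ≠ 0)
    (hth : ∀ z ∈ s, ∃ w c : B, w ∉ s ∧ w * z - c * y ∈ RingHom.ker r₁) :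
    Prime (algebraMap B (Localization.AtPrime s) x) ∧
      Prime (algebraMap B (Localization.AtPrime s) y) ∧
      ¬ algebraMap B (Localization.AtPrime s) x ∣ algebraMap B (Localization.AtPrime s) y ∧
      ¬ algebraMap B (Localization.AtPrime s) y ∣ algebraMap B (Localization.AtPrime s) x ∧
      maximalIdeal (Localization.AtPrime s) =
        Ideal.span {algebraMap B (Localization.AtPrime s) x,
          algebraMap B (Localization.AtPrime s) y} := by
  set R := Localization.AtPrime s with hR
  have hMle : s.primeCompl ≤ nonZeroDivisors B := by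
    intro b hb
    refine mem_nonZeroDivisors_of_ne_zero ?_
    rintro rfl
    exact hb s.zero_mem
  have hinjBR : Function.Injective (algebraMap B R) := IsLocalization.injective R hMle
  obtain ⟨red, hredB, hred⟩ := edc_lift s r₁ h₁ x εx hx hxg hεx
  obtain ⟨red0, hred0B, hred0⟩ := edc_lift s r₂ h₂ y εy hy hyg hεy
  have hxB0 : x ≠ 0 := by
    rintro rfl
    exact hx0 (map_zero r₂)
  have hyB0 : y ≠ 0 := by
    rintro rfl
    exact hy0 (map_zero r₁)
  have hxR0 : algebraMap B R x ≠ 0 := fun h0 => hxB0 (hinjBR (by rw [h0, map_zero]))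
  have hyR0 : algebraMap B R y ≠ 0 := fun h0 => hyB0 (hinjBR (by rw [h0, map_zero]))
  have hxP : Prime (algebraMap B R x) := by
    have hker : Ideal.span {algebraMap B R x} = RingHom.ker red := by
      ext c
      rw [Ideal.mem_span_singleton, RingHom.mem_ker, hred]
    have hprime : (Ideal.span {algebraMap B R x}).IsPrime := by
      rw [hker]; exact RingHom.ker_isPrime red
    exact (Ideal.span_singleton_prime hxR0).1 hprime
  have hyP : Prime (algebraMap B R y) := by
    have hker : Ideal.span {algebraMap B R y} = RingHom.ker red0 := by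
      ext c
      rw [Ideal.mem_span_singleton, RingHom.mem_ker, hred0]
    have hprime : (Ideal.span {algebraMap B R y}).IsPrime := by
      rw [hker]; exact RingHom.ker_isPrime red0
    exact (Ideal.span_singleton_prime hyR0).1 hprime
  refine ⟨hxP, hyP, ?_, ?_, ?_⟩
  · intro h
    have h1 : red (algebraMap B R y) = 0 := (hred _).2 h
    rw [hredB] at h1
    exact hy0 h1
  · intro h
    have h1 : red0 (algebraMap B R x) = 0 := (hred0 _).2 h
    rw [hred0B] at h1
    exact hx0 h1
  · apply le_antisymm
    · rw [← Localization.AtPrime.map_eq_maximalIdeal, Ideal.map_le_iff_le_comap]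
      intro z hz
      rw [Ideal.mem_comap]
      obtain ⟨w, c, hw, hwc⟩ := hth z hz
      -- `w z - c y ∈ ker r₁`, so `x ∣ εx (w z - c y)`
      obtain ⟨b, hb⟩ := hxg _ hwc
      have hwu : IsUnit (algebraMap B R w) :=
        IsLocalization.map_units R (⟨w, hw⟩ : s.primeCompl)
      have hεu : IsUnit (algebraMap B R εx) :=
        IsLocalization.map_units R (⟨εx, hεx⟩ : s.primeCompl)
      obtain ⟨wu, hwu'⟩ := hwu
      obtain ⟨εu, hεu'⟩ := hεu
      have h1 : algebraMap B R εx * (algebraMap B R w * algebraMap B R z -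
          algebraMap B R c * algebraMap B R y) = algebraMap B R x * algebraMap B R b := by
        rw [← map_mul, ← map_mul, ← map_sub, ← map_mul, hb, map_mul]
      have h2 : algebraMap B R z =
          ((wu⁻¹ : Rˣ) : R) * ((εu⁻¹ : Rˣ) : R) * algebraMap B R b * algebraMap B R x +
          ((wu⁻¹ : Rˣ) : R) * algebraMap B R c * algebraMap B R y := by
        rw [← hwu', ← hεu'] at h1
        have h3 : (wu : R) * algebraMap B R z =
            ((εu⁻¹ : Rˣ) : R) * (algebraMap B R x * algebraMap B R b) +
              algebraMap B R c * algebraMap B R y := by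
          rw [← h1, ← mul_assoc, Units.inv_mul, one_mul]
          ring
        calc algebraMap B R z = ((wu⁻¹ : Rˣ) : R) * ((wu : R) * algebraMap B R z) := by
              rw [← mul_assoc, Units.inv_mul, one_mul]
          _ = _ := by rw [h3]; ring
      rw [h2]
      refine Ideal.add_mem _ (Ideal.mul_mem_left _ _ (Ideal.subset_span (Set.mem_insert _ _)))
        (Ideal.mul_mem_left _ _ (Ideal.subset_span
          (Set.mem_insert_of_mem _ (Set.mem_singleton _))))
    · rw [Ideal.span_le]
      rintro b (rfl | rfl)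
      · exact (IsLocalization.AtPrime.to_map_mem_maximal_iff R s _).2 (h₁ hx)
      · exact (IsLocalization.AtPrime.to_map_mem_maximal_iff R s _).2 (h₂ hy)

end LocalFacts

end Fermat.Agent.S40lib
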