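import Mathlib
import Fermat.Agent.S36lib.Speed
import Fermat.Agent.S36lib.InvertOrd
import Fermat.Agent.S40lib.CoverNode

/-!
# Item 88 (S40), block (J-WILD), piece G2a, part 2 (helper2): the node rings of the cover

`R` = the node ring `B_s` (`cvn_local`, CoverNode.lean), `C = R[z'] ⊂ E`, `𝔫` ANY maximal ideal
of `C`, `L = C_𝔫`.

* `cvn_comap_eq`, `cvn_exists_c`, `cvn_exists_c'`: `𝔫 ∩ R = 𝔪_R`, and the residue field does not
  grow when `R/𝔪_R` is algebraically closed (given as a surjection `ρ : R → k`).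
* `cvn_cover`: the conclusions of `etn2_node_adjoin` at every maximal `𝔫` (the hypotheses
  `c`, `x ∈ 𝔫`, `y ∈ 𝔫` are proved), plus `x ∈ 𝔫`, `y ∈ 𝔫`.
* `cvn_not_dvd`: `b ∈ R`, `x ∤ b` ⇒ `x ∤ b` in `L`.
* `cvn_ordAt_map` (abstract), `cvn_ordAt_cover`: `ord_x` of `L` restricted to `F = Frac R` is
  `ord_x` of `R`.
* `cvn_toField`, `cvn_alg`, `cvn_isFractionRing`, `cvn_hfrac`, `cvn_frac`: `Frac L = E` when
  `E = F[z']`.
(complete proofs, standard axioms only)
-/

set_option autoImplicit false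
set_option linter.style.haveILetI false
set_option linter.unusedSectionVars false

namespace Fermat.Agent.S40lib

open IsLocalRing Fermat.Agent.S36lib

section ResField

variable {R C : Type*} [CommRing R] [IsLocalRing R] [CommRing C] [Algebra R C]

/-- a maximal ideal of an integral extension of a local ring lies over the maximal ideal -/
theorem cvn_comap_eq [Algebra.IsIntegral R C] (𝔫 : Ideal C) [h𝔫 : 𝔫.IsMaximal] :
    𝔫.comap (algebraMap R C) = maximalIdeal R := by
  haveI : (𝔫.comap (algebraMap R C)).IsMaximal :=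
    Ideal.isMaximal_comap_of_isIntegral_of_isMaximal 𝔫
  exact IsLocalRing.eq_maximalIdeal inferInstance

/-- **the residue field does not grow**: `R` local with algebraically closed residue field,
`C` integral over `R`, `𝔫` a maximal ideal of `C`: every element of `C` is congruent modulo `𝔫`
to an element of `R`. -/
theorem cvn_exists_c [Algebra.IsIntegral R C] [IsAlgClosed (ResidueField R)]
    (𝔫 : Ideal C) [h𝔫 : 𝔫.IsMaximal] (e : C) :
    ∃ c : R, e - algebraMap R C c ∈ 𝔫 := by
  classical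
  have hcomap := cvn_comap_eq (R := R) 𝔫
  -- the map `k = R/𝔪 → C/𝔫`
  have hker : ∀ a ∈ maximalIdeal R, ((Ideal.Quotient.mk 𝔫).comp (algebraMap R C)) a = 0 := by
    intro a ha
    rw [RingHom.comp_apply, Ideal.Quotient.eq_zero_iff_mem, ← Ideal.mem_comap, hcomap]
    exact ha
  set ψ : ResidueField R →+* C ⧸ 𝔫 :=
    Ideal.Quotient.lift (maximalIdeal R) ((Ideal.Quotient.mk 𝔫).comp (algebraMap R C)) hker
    with hψ
  have hψres : ∀ a : R, ψ (IsLocalRing.residue R a) = Ideal.Quotient.mk 𝔫 (algebraMap R C a) :=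
    fun a => Ideal.Quotient.lift_mk _ _ _
  haveI : IsDomain (C ⧸ 𝔫) := (Ideal.Quotient.isDomain_iff_prime 𝔫).2 h𝔫.isPrime
  -- a monic polynomial over `R` killing `e`
  obtain ⟨p, hpm, hpe⟩ := Algebra.IsIntegral.isIntegral (R := R) e
  set pk : Polynomial (ResidueField R) := p.map (IsLocalRing.residue R) with hpk
  have hpkm : pk.Monic := hpm.map _
  have hsplit : pk.Splits := IsAlgClosed.splits pk
  have hprod : pk = (pk.roots.map fun a => Polynomial.X - Polynomial.C a).prod :=
    (Polynomial.Splits.eq_prod_roots_of_monic hsplit hpkm)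
  -- evaluate at the class of `e`
  have hev : (pk.map ψ).eval (Ideal.Quotient.mk 𝔫 e) = 0 := by
    have h1 : (pk.map ψ) = p.map ((Ideal.Quotient.mk 𝔫).comp (algebraMap R C)) := by
      rw [hpk, Polynomial.map_map]
      have hcomp : ψ.comp (IsLocalRing.residue R) =
          (Ideal.Quotient.mk 𝔫).comp (algebraMap R C) := RingHom.ext fun a => hψres a
      rw [hcomp]
    rw [h1, ← Polynomial.map_map, Polynomial.eval_map, Polynomial.eval₂_hom]
    have h2 : Polynomial.eval e (p.map (algebraMap R C)) = 0 := by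
      rw [Polynomial.eval_map]; exact hpe
    rw [h2, map_zero]
  rw [hprod, Polynomial.map_multiset_prod, Polynomial.eval_multiset_prod, Multiset.map_map,
    Multiset.map_map, Multiset.prod_eq_zero_iff] at hev
  obtain ⟨a, -, ha⟩ := Multiset.mem_map.1 hev
  simp only [Function.comp_apply, Polynomial.map_sub, Polynomial.map_X, Polynomial.map_C,
    Polynomial.eval_sub, Polynomial.eval_X, Polynomial.eval_C] at ha
  obtain ⟨c, rfl⟩ := IsLocalRing.residue_surjective a
  refine ⟨c, ?_⟩
  rw [← Ideal.Quotient.eq_zero_iff_mem, map_sub, ← hψres]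
  exact ha

/-- the same with the residue field given as a surjection `ρ : R → k` onto an algebraically
closed field (e.g. `R = B_s → O_Q → k` for the place `Q` centred at `s`). -/
theorem cvn_exists_c' [Algebra.IsIntegral R C] {k : Type*} [Field k] [IsAlgClosed k]
    (ρ : R →+* k) (hρ : Function.Surjective ρ)
    (𝔫 : Ideal C) [h𝔫 : 𝔫.IsMaximal] (e : C) :
    ∃ c : R, e - algebraMap R C c ∈ 𝔫 := by
  have hker : RingHom.ker ρ = maximalIdeal R :=
    IsLocalRing.eq_maximalIdeal (RingHom.ker_isMaximal_of_surjective ρ hρ)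
  let e1 : (R ⧸ RingHom.ker ρ) ≃+* k := RingHom.quotientKerEquivOfSurjective hρ
  let e2 : (R ⧸ maximalIdeal R) ≃+* (R ⧸ RingHom.ker ρ) := Ideal.quotEquivOfEq hker.symm
  let e3 : ResidueField R ≃+* k := e2.trans e1
  haveI : IsAlgClosed (ResidueField R) := by
    apply IsAlgClosed.of_exists_root
    intro p _ hp
    have hpe : (p.map e3.toRingHom).degree ≠ 0 := by
      rw [Polynomial.degree_map]
      exact ne_of_gt (Polynomial.degree_pos_of_irreducible hp)
    obtain ⟨t, ht⟩ := IsAlgClosed.exists_root (k := k) (p.map e3.toRingHom) hpe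
    refine ⟨e3.symm t, ?_⟩
    rw [Polynomial.IsRoot, Polynomial.eval_map] at ht
    apply e3.injective
    have h1 := Polynomial.eval₂_at_apply (p := p) e3.toRingHom (e3.symm t)
    have h2 : e3.toRingHom (e3.symm t) = t := e3.apply_symm_apply t
    rw [h2, ht] at h1
    rw [map_zero]
    exact h1.symm
  exact cvn_exists_c 𝔫 e

end ResField

section Cover

universe uR uE

variable {R : Type uR} {E : Type uE} [CommRing R] [IsDomain R] [IsLocalRing R]
  [IsNoetherianRing R] [IsIntegrallyClosed R] [Field E] [Algebra R E]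

/-- **the node ring at EVERY maximal ideal `𝔫` of `C = R[z']`** (`R` with algebraically closed
residue field `ρ : R ↠ k`): the hypotheses `c`, `x ∈ 𝔫`, `y ∈ 𝔫` of `etn2_node_adjoin` are
automatic. -/
theorem cvn_cover {k : Type*} [Field k] [IsAlgClosed k] (ρ : R →+* k)
    (hρ : Function.Surjective ρ)
    (hinj : Function.Injective (algebraMap R E))
    (x y : R) (hx : Prime x) (hy : Prime y) (hyx : ¬ x ∣ y) (hxy : ¬ y ∣ x)
    (hm : maximalIdeal R = Ideal.span {x, y})
    (z' : E) (hz : IsIntegral R z')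
    (𝔫 : Ideal (Algebra.adjoin R ({z'} : Set E))) [h𝔫 : 𝔫.IsMaximal]
    (P : Polynomial R) (hP : Polynomial.aeval z' P = 0)
    (hP' : (⟨Polynomial.aeval z' (Polynomial.derivative P),
      Polynomial.aeval_mem_adjoin_singleton R z'⟩ : Algebra.adjoin R ({z'} : Set E)) ∉ 𝔫) :
    algebraMap R (Algebra.adjoin R ({z'} : Set E)) x ∈ 𝔫 ∧
    algebraMap R (Algebra.adjoin R ({z'} : Set E)) y ∈ 𝔫 ∧
    UniqueFactorizationMonoid (Localization.AtPrime 𝔫) ∧
      Prime (algebraMap _ (Localization.AtPrime 𝔫)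
        (algebraMap R (Algebra.adjoin R ({z'} : Set E)) x)) ∧
      Prime (algebraMap _ (Localization.AtPrime 𝔫)
        (algebraMap R (Algebra.adjoin R ({z'} : Set E)) y)) ∧
      ¬ Associated (algebraMap _ (Localization.AtPrime 𝔫)
          (algebraMap R (Algebra.adjoin R ({z'} : Set E)) x))
        (algebraMap _ (Localization.AtPrime 𝔫)
          (algebraMap R (Algebra.adjoin R ({z'} : Set E)) y)) ∧
      (∃ (κ : Type uE) (_ : Field κ) (red : Localization.AtPrime 𝔫 →+* κ) (w : κ → ℤ),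
        (∀ c, red c = 0 ↔ algebraMap _ (Localization.AtPrime 𝔫)
          (algebraMap R (Algebra.adjoin R ({z'} : Set E)) x) ∣ c) ∧
        (∀ a b : κ, a ≠ 0 → b ≠ 0 → w (a * b) = w a + w b) ∧
        (∀ c, red c ≠ 0 → 0 ≤ w (red c)) ∧
        w (red (algebraMap _ (Localization.AtPrime 𝔫)
          (algebraMap R (Algebra.adjoin R ({z'} : Set E)) y))) = 1) ∧
      (∃ (κ : Type uE) (_ : Field κ) (red : Localization.AtPrime 𝔫 →+* κ) (w : κ → ℤ),
        (∀ c, red c = 0 ↔ algebraMap _ (Localization.AtPrime 𝔫)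
          (algebraMap R (Algebra.adjoin R ({z'} : Set E)) y) ∣ c) ∧
        (∀ a b : κ, a ≠ 0 → b ≠ 0 → w (a * b) = w a + w b) ∧
        (∀ c, red c ≠ 0 → 0 ≤ w (red c)) ∧
        w (red (algebraMap _ (Localization.AtPrime 𝔫)
          (algebraMap R (Algebra.adjoin R ({z'} : Set E)) x))) = 1) := by
  haveI : Module.IsTorsionFree R E := Module.isTorsionFree_iff_algebraMap_injective.2 hinj
  haveI : Module.Finite R (Algebra.adjoin R ({z'} : Set E)) :=
    (Algebra.adjoin.powerBasis' hz).finite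
  haveI : Algebra.IsIntegral R (Algebra.adjoin R ({z'} : Set E)) :=
    Algebra.IsIntegral.of_finite R _
  obtain ⟨c, hc⟩ := cvn_exists_c' ρ hρ 𝔫
    (⟨z', Algebra.self_mem_adjoin_singleton R z'⟩ : Algebra.adjoin R ({z'} : Set E))
  have hcomap := cvn_comap_eq (R := R) 𝔫
  have hx𝔫 : algebraMap R (Algebra.adjoin R ({z'} : Set E)) x ∈ 𝔫 := by
    rw [← Ideal.mem_comap, hcomap, hm]
    exact Ideal.subset_span (Set.mem_insert _ _)
  have hy𝔫 : algebraMap R (Algebra.adjoin R ({z'} : Set E)) y ∈ 𝔫 := by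
    rw [← Ideal.mem_comap, hcomap, hm]
    exact Ideal.subset_span (Set.mem_insert_of_mem _ (Set.mem_singleton _))
  haveI : 𝔫.IsPrime := h𝔫.isPrime
  exact ⟨hx𝔫, hy𝔫, etn2_node_adjoin hinj x y hx hy hyx hxy hm z' hz 𝔫 P hP hP' c hc hx𝔫 hy𝔫⟩

omit [IsLocalRing R] [IsNoetherianRing R] in
/-- **no new divisibility by `x`**: `b ∈ R` prime to `x` stays prime to `x` in `C_𝔫`,
`C = R[z']` (`C` is free over `R`). -/
theorem cvn_not_dvd (hinj : Function.Injective (algebraMap R E))
    (x : R) (hx : Prime x) (z' : E) (hz : IsIntegral R z')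
    (𝔫 : Ideal (Algebra.adjoin R ({z'} : Set E))) [h𝔫 : 𝔫.IsPrime]
    (hx𝔫 : algebraMap R (Algebra.adjoin R ({z'} : Set E)) x ∈ 𝔫)
    (b : R) (hb : ¬ x ∣ b) :
    ¬ algebraMap _ (Localization.AtPrime 𝔫)
        (algebraMap R (Algebra.adjoin R ({z'} : Set E)) x) ∣
      algebraMap _ (Localization.AtPrime 𝔫)
        (algebraMap R (Algebra.adjoin R ({z'} : Set E)) b) := by
  haveI : Module.IsTorsionFree R E := Module.isTorsionFree_iff_algebraMap_injective.2 hinj
  haveI : Module.Free R (Algebra.adjoin R ({z'} : Set E)) :=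
    Module.Free.of_basis (Algebra.adjoin.powerBasis' hz).basis
  have h := etn_not_dvd_pow 𝔫 x b hx hb hx𝔫 1
  rwa [pow_one] at h

end Cover

section OrdMap

variable {R F L E : Type*} [CommRing R] [IsDomain R] [UniqueFactorizationMonoid R] [Field F]
  [Algebra R F] [IsFractionRing R F] [CommRing L] [IsDomain L] [UniqueFactorizationMonoid L]
  [Field E] [Algebra L E] [IsFractionRing L E]

/-- **the order function of `x` does not change in the cover**: `φ : R → L`, `ι : F → E`
compatible, `x` prime in `R` and in `L`, elements prime to `x` stay prime to `x`.  Then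
`ord_{φ x} (ι f) = ord_x f` for every `f ∈ F`. -/
theorem cvn_ordAt_map (φ : R →+* L) (ι : F →+* E)
    (hcomm : ∀ r : R, ι (algebraMap R F r) = algebraMap L E (φ r))
    (x : R) (hx : Prime x) (hφx : Prime (φ x))
    (hnd : ∀ b : R, ¬ x ∣ b → ¬ φ x ∣ φ b) (f : F) :
    s36_ordAt (φ x) hφx (ι f) = s36_ordAt x hx f := by
  by_cases hf : f = 0
  · subst hf
    rw [map_zero, s36_ordAt, dif_pos rfl, s36_ordAt, dif_pos rfl]
  · obtain ⟨a, b, ha, hb, h⟩ := s36_ordAt_spec (F := F) x hx hf
    refine s36_ordAt_eq (φ x) hφx (hnd a ha) (hnd b hb) ?_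
    have h1 := congrArg ι h
    rw [map_mul, map_mul, map_zpow₀, hcomm, hcomm, hcomm] at h1
    exact h1

end OrdMap

section Frac

variable {C : Type*} {E : Type*} [CommRing C] [IsDomain C] [Field E] [Algebra C E]
  (𝔫 : Ideal C) [h𝔫 : 𝔫.IsPrime]

theorem cvn_units (hinj : Function.Injective (algebraMap C E)) (t : 𝔫.primeCompl) :
    IsUnit (algebraMap C E t) := by
  refine IsUnit.mk0 _ fun h0 => t.2 ?_
  have : (t : C) = 0 := hinj (by rw [h0, map_zero])
  rw [this]
  exact 𝔫.zero_mem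

/-- the canonical map `C_𝔫 → E` (`C ⊂ E`) -/
noncomputable def cvn_toField (hinj : Function.Injective (algebraMap C E)) :
    Localization.AtPrime 𝔫 →+* E :=
  IsLocalization.lift (M := 𝔫.primeCompl) (g := algebraMap C E) (cvn_units 𝔫 hinj)

theorem cvn_toField_algebraMap (hinj : Function.Injective (algebraMap C E)) (c : C) :
    cvn_toField 𝔫 hinj (algebraMap C (Localization.AtPrime 𝔫) c) = algebraMap C E c :=
  IsLocalization.lift_eq (M := 𝔫.primeCompl) (g := algebraMap C E) (cvn_units 𝔫 hinj) c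

/-- `Frac (C_𝔫) = E` if every element of `E` is a quotient of elements of `C`. -/
theorem cvn_isFractionRing (hinj : Function.Injective (algebraMap C E))
    (hfrac : ∀ e : E, ∃ a b : C, b ≠ 0 ∧ e * algebraMap C E b = algebraMap C E a) :
    @IsFractionRing (Localization.AtPrime 𝔫) _ E _ (cvn_toField 𝔫 hinj).toAlgebra := by
  letI : Algebra (Localization.AtPrime 𝔫) E := (cvn_toField 𝔫 hinj).toAlgebra
  haveI : FaithfulSMul C E := (faithfulSMul_iff_algebraMap_injective C E).2 hinj
  haveI : IsFractionRing C E := by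
    refine IsFractionRing.of_field C E fun z => ?_
    obtain ⟨a, b, hb, h⟩ := hfrac z
    refine ⟨a, b, ?_⟩
    have hb0 : algebraMap C E b ≠ 0 := fun h0 => hb (hinj (by rw [h0, map_zero]))
    rw [← h]
    field_simp
  haveI : IsScalarTower C (Localization.AtPrime 𝔫) E :=
    IsScalarTower.of_algebraMap_eq fun c => (cvn_toField_algebraMap 𝔫 hinj c).symm
  have hMle : 𝔫.primeCompl ≤ nonZeroDivisors C := 𝔫.primeCompl_le_nonZeroDivisors
  haveI : IsDomain (Localization.AtPrime 𝔫) :=
    IsLocalization.isDomain_of_le_nonZeroDivisors _ hMle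
  exact IsFractionRing.isFractionRing_of_isDomain_of_isLocalization 𝔫.primeCompl _ E

end Frac

section Gen

variable {R F E : Type*} [CommRing R] [IsDomain R] [Field F] [Algebra R F] [IsFractionRing R F]
  [Field E] [Algebra R E] [Algebra F E] [IsScalarTower R F E]

/-- `E = F[z']` ⇒ every element of `E` is `a / b` with `a ∈ R[z']`, `0 ≠ b ∈ R`. -/
theorem cvn_hfrac (z' : E) (hgen : Algebra.adjoin F ({z'} : Set E) = ⊤) (e : E) :
    ∃ (a : Algebra.adjoin R ({z'} : Set E)) (b : R), b ≠ 0 ∧ e * algebraMap R E b = (a : E) := by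
  have he : e ∈ Algebra.adjoin F ({z'} : Set E) := by rw [hgen]; exact Algebra.mem_top
  induction he using Algebra.adjoin_induction with
  | mem t ht =>
    rw [Set.mem_singleton_iff] at ht
    subst ht
    exact ⟨⟨t, Algebra.self_mem_adjoin_singleton R t⟩, 1, one_ne_zero, by rw [map_one, mul_one]⟩
  | algebraMap f =>
    obtain ⟨a, b, hb, hab⟩ := IsFractionRing.div_surjective (A := R) f
    have hb0 : b ≠ 0 := nonZeroDivisors.ne_zero hb
    have hbF : algebraMap R F b ≠ 0 := fun h0 =>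
      hb0 (IsFractionRing.injective R F (by rw [h0, map_zero]))
    refine ⟨algebraMap R _ a, b, hb0, ?_⟩
    rw [IsScalarTower.algebraMap_apply R F E b, ← map_mul, ← hab, div_mul_cancel₀ _ hbF,
      ← IsScalarTower.algebraMap_apply R F E a]
    rfl
  | add e₁ e₂ _ _ h₁ h₂ =>
    obtain ⟨a₁, b₁, hb₁, h₁⟩ := h₁
    obtain ⟨a₂, b₂, hb₂, h₂⟩ := h₂
    refine ⟨a₁ * algebraMap R _ b₂ + a₂ * algebraMap R _ b₁, b₁ * b₂, mul_ne_zero hb₁ hb₂, ?_⟩
    have : ((a₁ * algebraMap R _ b₂ + a₂ * algebraMap R _ b₁ :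
        Algebra.adjoin R ({z'} : Set E)) : E) =
        (a₁ : E) * algebraMap R E b₂ + (a₂ : E) * algebraMap R E b₁ := rfl
    rw [this, ← h₁, ← h₂, map_mul]
    ring
  | mul e₁ e₂ _ _ h₁ h₂ =>
    obtain ⟨a₁, b₁, hb₁, h₁⟩ := h₁
    obtain ⟨a₂, b₂, hb₂, h₂⟩ := h₂
    refine ⟨a₁ * a₂, b₁ * b₂, mul_ne_zero hb₁ hb₂, ?_⟩
    have : ((a₁ * a₂ : Algebra.adjoin R ({z'} : Set E)) : E) = (a₁ : E) * (a₂ : E) := rfl
    rw [this, ← h₁, ← h₂, map_mul]
    ring

end Gen

section Final

universe uR uE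

variable {R : Type uR} {E : Type uE} [CommRing R] [IsDomain R]
  [UniqueFactorizationMonoid R] [Field E] [Algebra R E]
  {F : Type*} [Field F] [Algebra R F] [IsFractionRing R F] [Algebra F E] [IsScalarTower R F E]

/-- the algebra structure `C_𝔫 → E` for `C = R[z'] ⊂ E` -/
@[reducible] noncomputable def cvn_alg (z' : E)
    (𝔫 : Ideal (Algebra.adjoin R ({z'} : Set E))) [h𝔫 : 𝔫.IsPrime] :
    Algebra (Localization.AtPrime 𝔫) E :=
  (cvn_toField 𝔫 (E := E) (C := Algebra.adjoin R ({z'} : Set E))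
    (fun _ _ h => Subtype.ext h)).toAlgebra

theorem cvn_alg_apply (z' : E)
    (𝔫 : Ideal (Algebra.adjoin R ({z'} : Set E))) [h𝔫 : 𝔫.IsPrime]
    (c : Algebra.adjoin R ({z'} : Set E)) :
    letI : Algebra (Localization.AtPrime 𝔫) E := cvn_alg z' 𝔫
    algebraMap (Localization.AtPrime 𝔫) E (algebraMap _ (Localization.AtPrime 𝔫) c) = (c : E) :=
  cvn_toField_algebraMap 𝔫 (fun _ _ h => Subtype.ext h) c

/-- `Frac (C_𝔫) = E` when `E = F[z']`, `F = Frac R`. -/
theorem cvn_frac (z' : E) (hgen : Algebra.adjoin F ({z'} : Set E) = ⊤)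
    (𝔫 : Ideal (Algebra.adjoin R ({z'} : Set E))) [h𝔫 : 𝔫.IsPrime] :
    @IsFractionRing (Localization.AtPrime 𝔫) _ E _ (cvn_alg z' 𝔫) := by
  refine cvn_isFractionRing 𝔫 (fun _ _ h => Subtype.ext h) fun e => ?_
  obtain ⟨a, b, hb, h⟩ := cvn_hfrac (R := R) (F := F) z' hgen e
  refine ⟨a, algebraMap R _ b, ?_, h⟩
  intro h0
  apply hb
  have h1 := congrArg (fun t : Algebra.adjoin R ({z'} : Set E) => (t : E)) h0
  have h2 : algebraMap R E b = 0 := h1
  have h3 : algebraMap F E (algebraMap R F b) = 0 := by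
    rw [← IsScalarTower.algebraMap_apply]; exact h2
  have h4 : algebraMap R F b = 0 := (algebraMap F E).injective (by rw [h3, map_zero])
  exact IsFractionRing.injective R F (by rw [h4, map_zero])

/-- **`ord_x` on `C_𝔫` restricted to `F = Frac R` is `ord_x` on `R`** (`C = R[z']` free over
`R`, `E = F[z']`). -/
theorem cvn_ordAt_cover [IsIntegrallyClosed R] (x : R) (hx : Prime x) (z' : E)
    (hz : IsIntegral R z') (hgen : Algebra.adjoin F ({z'} : Set E) = ⊤)
    (𝔫 : Ideal (Algebra.adjoin R ({z'} : Set E))) [h𝔫 : 𝔫.IsPrime]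
    (hx𝔫 : algebraMap R (Algebra.adjoin R ({z'} : Set E)) x ∈ 𝔫)
    (hdom : IsDomain (Localization.AtPrime 𝔫))
    (hufm : UniqueFactorizationMonoid (Localization.AtPrime 𝔫))
    (hxL : Prime (algebraMap _ (Localization.AtPrime 𝔫)
      (algebraMap R (Algebra.adjoin R ({z'} : Set E)) x)))
    (f : F) :
    @s36_ordAt (Localization.AtPrime 𝔫) E _ hdom hufm _ (cvn_alg z' 𝔫) (cvn_frac z' hgen 𝔫)
      (algebraMap _ (Localization.AtPrime 𝔫)
        (algebraMap R (Algebra.adjoin R ({z'} : Set E)) x)) hxL (algebraMap F E f) =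
      s36_ordAt x hx f := by
  letI : Algebra (Localization.AtPrime 𝔫) E := cvn_alg z' 𝔫
  haveI : IsFractionRing (Localization.AtPrime 𝔫) E := cvn_frac z' hgen 𝔫
  have hinj : Function.Injective (algebraMap R E) := by
    intro a b hab
    rw [IsScalarTower.algebraMap_apply R F E, IsScalarTower.algebraMap_apply R F E] at hab
    exact IsFractionRing.injective R F ((algebraMap F E).injective hab)
  exact cvn_ordAt_map (R := R) (F := F) (L := Localization.AtPrime 𝔫) (E := E)
    ((algebraMap (Algebra.adjoin R ({z'} : Set E)) (Localization.AtPrime 𝔫)).comp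
      (algebraMap R (Algebra.adjoin R ({z'} : Set E)))) (algebraMap F E)
    (fun r => by
      rw [RingHom.comp_apply, cvn_alg_apply, ← IsScalarTower.algebraMap_apply]
      rfl)
    x hx hxL
    (fun b hb => cvn_not_dvd hinj x hx z' hz 𝔫 hx𝔫 b hb) f

end Final

end Fermat.Agent.S40lib
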