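/-
Item 88 (S40), block (A-J), piece E2 (helper18): **the node layer at the level `N = M' p`,
concrete**, from the landed REG1 of item 83 (`S36lib`, used with `q := p`).

`SN := nodeSetupNj A M' q hq hqM hA R hR` (`B = B_j(N)` inside the `K0`-rational functions
`f0Field A (M' q)`, over the discrete valuation ring `k0Val A`).

* `edc_side`  : one side of REG1 WITH THE THICKNESS (abstract, = `r1c_side` keeping the last
  conclusions of `reg1x_core`): the generator `y` of `ker r₂` at the node `s` reduces under `r₁`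
  to a generator of the maximal ideal `s / ker r₁`: for `z ∈ s` there are `w ∉ s`, `c` with
  `r₁ (w z - c y) = 0`;
* `edc_hreg1` : at every node `s` of `B_j(N)`: `x ∈ p_∞`, `y ∈ p_0`, `x ^ 12 = ε h'`,
  `y ^ 12 = ε' h`, local generators of `p_∞`, `p_0` and of `s / p_0`, `s / p_∞` (THICKNESS 1).
-/
import Mathlib
import Fermat.Agent.S36lib.Speed
import Fermat.Agent.S36lib.Reg1Done
import Fermat.Agent.S36lib.W2jConc

set_option autoImplicit false
set_option linter.style.haveILetI false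
set_option linter.unusedSectionVars false
set_option linter.unusedVariables false
set_option synthInstance.maxHeartbeats 400000
set_option maxHeartbeats 1000000

noncomputable section

namespace Fermat.Agent.S40lib

open Fermat.Agent.FFlib Fermat.Agent.S24lib Fermat.Agent.GM Fermat.Agent.GoodRed
  Fermat.Agent.S34lib Fermat.Agent.RRlib Fermat.Agent.S16lib Fermat.Agent.S36lib
open AlgebraicCurve IsLocalRing IntermediateField IsDedekindDomain ModularCurve

section Ded

/-- in a Dedekind domain: `y ∈ t \ t²`, `t` maximal: every `z ∈ t` is `c y / w` with `w ∉ t` -/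
theorem edc_ded_gen {C : Type*} [CommRing C] [IsDedekindDomain C] (t : Ideal C)
    (ht : t.IsMaximal) (y : C) (hy : y ∈ t) (hy2 : y ∉ t ^ 2) (z : C) (hz : z ∈ t) :
    ∃ w c : C, w ∉ t ∧ w * z = c * y := by
  have hle : Ideal.span {y} ≤ t := (Ideal.span_singleton_le_iff_mem t).2 hy
  obtain ⟨J, hJ⟩ := Ideal.dvd_iff_le.2 hle
  have hJt : ¬ J ≤ t := by
    intro hJle
    apply hy2
    have h1 : y ∈ Ideal.span {y} := Ideal.mem_span_singleton_self y
    rw [hJ] at h1
    rw [pow_two]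
    exact Ideal.mul_mono le_rfl hJle h1
  obtain ⟨w, hwJ, hwt⟩ := Set.not_subset.1 hJt
  have h2 : w * z ∈ Ideal.span {y} := by
    have h3 : z * w ∈ t * J := Ideal.mul_mem_mul hz hwJ
    rw [hJ, mul_comm w z]
    exact h3
  obtain ⟨c, hc⟩ := Ideal.mem_span_singleton'.1 h2
  exact ⟨w, c, hwt, hc.symm⟩

end Ded

section Side

variable {K F : Type*} [Field K] [Field F] [Algebra K F] {x : F}
variable {B : Type*} [CommRing B] [IsDomain B] [IsIntegrallyClosed B]

/-- **one side of REG1 with the thickness** (`r1c_side` keeping the conclusions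
`r₁ y ∈ s̄ \ s̄²` of `reg1x_core`). -/
theorem edc_side [IsAlgClosed K] [RRHyp K F] [FFSep K x] (Q : Place K F)
    (r₁ r₂ : B →+* F)
    (hi₁ : ∀ z, r₁ z ∈ fsS K x) (hi₂ : ∀ z, r₂ z ∈ fsS K x)
    (ho₁ : ∀ c ∈ fsS K x, ∃ z, r₁ z = c)
    (hle : ∀ a ∈ affRing Q, a ∈ fsS K x)
    {n : ℕ} (e : Fin n → affRing Q →ₐ[K] K) (he : Function.Injective e)
    (hsand : ∀ a : affRing Q, (∀ i, e i a = 0) → ∃ z : B, r₁ z = (a : F) ∧ r₂ z = 0)
    (h : B) (hdiv : RingHom.ker r₂ ^ 12 ≤ Ideal.span {h})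
    (hcount : ∀ c : fsS K x, (c : F) = r₁ h →
      12 * n ≤ Module.finrank K (fsS K x ⧸ Ideal.span {c}))
    (s : Ideal B) (hs : s.IsMaximal) (hk₁ : RingHom.ker r₁ ≤ s) (hk₂ : RingHom.ker r₂ ≤ s) :
    ∃ y ε : B, r₂ y = 0 ∧ y ^ 12 = ε * h ∧ ε ∉ s ∧ (∀ z : B, r₂ z = 0 → y ∣ ε * z) ∧
      ∀ z ∈ s, ∃ w c : B, w ∉ s ∧ r₁ (w * z - c * y) = 0 := by
  classical
  let ρ₁ : B →+* fsS K x := r₁.codRestrict (fsS K x) hi₁
  let ρ₂ : B →+* fsS K x := r₂.codRestrict (fsS K x) hi₂
  have hρ₁ : ∀ z, ((ρ₁ z : fsS K x) : F) = r₁ z := fun _ => rfl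
  have hρ₂ : ∀ z, ((ρ₂ z : fsS K x) : F) = r₂ z := fun _ => rfl
  have hker₁ : RingHom.ker ρ₁ = RingHom.ker r₁ := by
    ext z
    rw [RingHom.mem_ker, RingHom.mem_ker]
    constructor
    · intro hz
      rw [← hρ₁, hz]; rfl
    · intro hz
      apply Subtype.ext
      rw [hρ₁, hz]; rfl
  have hker₂ : RingHom.ker ρ₂ = RingHom.ker r₂ := by
    ext z
    rw [RingHom.mem_ker, RingHom.mem_ker]
    constructor
    · intro hz
      rw [← hρ₂, hz]; rfl
    · intro hz
      apply Subtype.ext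
      rw [hρ₂, hz]; rfl
  have hsurj : Function.Surjective ρ₁ := by
    intro c
    obtain ⟨z, hz⟩ := ho₁ c c.2
    exact ⟨z, Subtype.ext hz⟩
  let ι : affRing Q →+* fsS K x :=
    ((affRing Q).val : affRing Q →+* F).codRestrict (fsS K x) (fun a => hle a a.2)
  let j : fsS K x →+* F := algebraMap (fsS K x) F
  have hj : Function.Injective j := Subtype.val_injective
  have hcomp : ∀ a : affRing Q, j (ι a) = (a : F) := fun _ => rfl
  obtain ⟨hbridge, hdist, hbot⟩ := reg1h_hyps (K := K) Q ι j hj hcomp e he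
  have hsand' : ∀ a ∈ ⨅ i, RingHom.ker (e i : affRing Q →+* K),
      ∃ z : B, ρ₁ z = ι a ∧ ρ₂ z = 0 := by
    intro a ha
    rw [Ideal.mem_iInf] at ha
    obtain ⟨z, h1, h2⟩ := hsand a (fun i => (RingHom.mem_ker).1 (ha i))
    refine ⟨z, Subtype.ext ?_, Subtype.ext ?_⟩
    · rw [hρ₁, h1]; rfl
    · rw [hρ₂, h2]; rfl
  obtain ⟨-, hmain⟩ := reg1x_core (k := K) ρ₁ ρ₂ hsurj ι
    (fun i => RingHom.ker (e i : affRing Q →+* K)) hbridge hdist hbot
    (fun t ht => r1c_hres_fsS t ht) hsand' 12 (by norm_num) h (hker₂ ▸ hdiv)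
    (hcount (ρ₁ h) rfl)
  obtain ⟨y, ε, hy, hpow, hε, hdvd, hy1, hy2, -⟩ := hmain s hs (hker₁ ▸ hk₁) (hker₂ ▸ hk₂)
  have hk₁' : RingHom.ker ρ₁ ≤ s := hker₁ ▸ hk₁
  have hcomap : (s.map ρ₁).comap ρ₁ = s := by
    rw [Ideal.comap_map_of_surjective ρ₁ hsurj, ← RingHom.ker_eq_comap_bot]
    exact sup_eq_left.2 hk₁'
  have hne : s.map ρ₁ ≠ ⊤ := by
    intro htop
    have h1 : (1 : B) ∈ (s.map ρ₁).comap ρ₁ := by
      rw [htop]; trivial
    rw [hcomap] at h1
    exact hs.ne_top ((Ideal.eq_top_iff_one s).2 h1)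
  have hmaxt : (s.map ρ₁).IsMaximal :=
    (Ideal.map_eq_top_or_isMaximal_of_surjective ρ₁ hsurj hs).resolve_left hne
  refine ⟨y, ε, ?_, hpow, hε, fun z hz => hdvd z ?_, ?_⟩
  · have := congrArg Subtype.val hy
    rw [hρ₂] at this
    exact this
  · apply Subtype.ext
    rw [hρ₂, hz]; rfl
  · intro z hz
    obtain ⟨w', c', hw', hwc⟩ := edc_ded_gen (s.map ρ₁) hmaxt (ρ₁ y) hy1 hy2 (ρ₁ z)
      (Ideal.mem_map_of_mem ρ₁ hz)
    obtain ⟨w, rfl⟩ := hsurj w'
    obtain ⟨c, rfl⟩ := hsurj c'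
    refine ⟨w, c, ?_, ?_⟩
    · intro hws
      exact hw' (Ideal.mem_map_of_mem ρ₁ hws)
    · have h1 : ρ₁ (w * z - c * y) = 0 := by
        rw [map_sub, map_mul, map_mul, hwc, sub_self]
      have := congrArg Subtype.val h1
      rw [hρ₁] at this
      exact this

end Side

section Conc

variable (A : ValuationSubring Kbar) (M' q : ℕ) [NeZero M'] [NeZero q] (hq : q.Prime)
  (hqM : ¬ q ∣ M') (hA : A.LiesOverPrime q)
  (R : ConstRed A (IsLocalRing.residue A)
      (↥(modularFunctionFieldFullC (IsLocalRing.ResidueField A) M')) (FF (M' * q)))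
  (hR : IsSeriesRed R)

set_option maxHeartbeats 4000000 in
/-- **REG1 with the thickness at the level `N = M' q`**, from the same hypotheses as
`r1c_hreg1_core`. -/
theorem edc_hreg1_core (haux : IsAuxLevel q M')
    [IsIntegrallyClosed (nodeSetupNj A M' q hq hqM hA R hR).B]
    (hiInf : ∀ z : (nodeSetupNj A M' q hq hqM hA R hR).B,
      (nodeSetupNj A M' q hq hqM hA R hR).redInf z ∈
        fsS (IsLocalRing.ResidueField A) (jk (IsLocalRing.ResidueField A) M'))
    (hiZero : ∀ z : (nodeSetupNj A M' q hq hqM hA R hR).B,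
      (nodeSetupNj A M' q hq hqM hA R hR).redZero z ∈
        fsS (IsLocalRing.ResidueField A) (jk (IsLocalRing.ResidueField A) M'))
    (hoInf : ∀ c ∈ fsS (IsLocalRing.ResidueField A) (jk (IsLocalRing.ResidueField A) M'),
      ∃ z : (nodeSetupNj A M' q hq hqM hA R hR).B,
        (nodeSetupNj A M' q hq hqM hA R hR).redInf z = c)
    (hoZero : ∀ c ∈ fsS (IsLocalRing.ResidueField A) (jk (IsLocalRing.ResidueField A) M'),
      ∃ z : (nodeSetupNj A M' q hq hqM hA R hR).B,
        (nodeSetupNj A M' q hq hqM hA R hR).redZero z = c)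
    (hle : ∀ a ∈ affRing (infPlaceC (IsLocalRing.ResidueField A) M'),
      a ∈ fsS (IsLocalRing.ResidueField A) (jk (IsLocalRing.ResidueField A) M'))
    (h h' : (nodeSetupNj A M' q hq hqM hA R hR).B)
    (hdiv0 : (nodeSetupNj A M' q hq hqM hA R hR).pZero ^ 12 ≤ Ideal.span {h})
    (hdivInf : (nodeSetupNj A M' q hq hqM hA R hR).pInf ^ 12 ≤ Ideal.span {h'})
    (hser : (((nodeSetupNj A M' q hq hqM hA R hR).redInf h :
        Fk (IsLocalRing.ResidueField A) M') : LaurentSeries (IsLocalRing.ResidueField A)) =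
      (ueuU (IsLocalRing.ResidueField A) q)⁻¹)
    (hser' : (((nodeSetupNj A M' q hq hqM hA R hR).redZero h' :
        Fk (IsLocalRing.ResidueField A) M') : LaurentSeries (IsLocalRing.ResidueField A)) =
      (ueuU (IsLocalRing.ResidueField A) q)⁻¹) :
    (∀ s, (nodeSetupNj A M' q hq hqM hA R hR).IsNode s →
      ∃ y ε : (nodeSetupNj A M' q hq hqM hA R hR).B,
        y ∈ (nodeSetupNj A M' q hq hqM hA R hR).pZero ∧ y ^ 12 = ε * h ∧ ε ∉ s ∧
          (∀ z ∈ (nodeSetupNj A M' q hq hqM hA R hR).pZero, y ∣ ε * z) ∧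
          ∀ z ∈ s, ∃ w c : (nodeSetupNj A M' q hq hqM hA R hR).B, w ∉ s ∧
            w * z - c * y ∈ (nodeSetupNj A M' q hq hqM hA R hR).pInf) ∧
    (∀ s, (nodeSetupNj A M' q hq hqM hA R hR).IsNode s →
      ∃ x ε : (nodeSetupNj A M' q hq hqM hA R hR).B,
        x ∈ (nodeSetupNj A M' q hq hqM hA R hR).pInf ∧ x ^ 12 = ε * h' ∧ ε ∉ s ∧
          (∀ z ∈ (nodeSetupNj A M' q hq hqM hA R hR).pInf, x ∣ ε * z) ∧
          ∀ z ∈ s, ∃ w c : (nodeSetupNj A M' q hq hqM hA R hR).B, w ∉ s ∧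
            w * z - c * x ∈ (nodeSetupNj A M' q hq hqM hA R hR).pZero) := by
  classical
  haveI : Fact q.Prime := ⟨hq⟩
  haveI : CharP (IsLocalRing.ResidueField A) q := charP_residueField hA
  haveI : IsAlgClosed (IsLocalRing.ResidueField A) := isAlgClosed_residueField A
  haveI : Infinite (IsLocalRing.ResidueField A) := IsAlgClosed.instInfinite
  haveI : RRHyp Kbar (FF (M' * q)) := mod_rrHyp (M' * q)
  haveI : RRHyp (IsLocalRing.ResidueField A)
      (↥(modularFunctionFieldFullC (IsLocalRing.ResidueField A) M')) :=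
    mr_rrHyp (IsLocalRing.ResidueField A) M'
  haveI : FFSep (IsLocalRing.ResidueField A) (jk (IsLocalRing.ResidueField A) M') :=
    reg1c_ffSep_jk M' hqM A hA
  obtain ⟨X, a₀, hXB, H, -⟩ := r1c_exists_glue M' q hq hqM haux hA hR
  let inc : affRing (infPlaceC (IsLocalRing.ResidueField A) M') →ₐ[IsLocalRing.ResidueField A]
      X.B := Subalgebra.inclusion hXB.ge
  have hinc_surj : Function.Surjective inc := by
    intro b
    exact ⟨⟨(b : Fk (IsLocalRing.ResidueField A) M'), hXB ▸ b.2⟩, Subtype.ext rfl⟩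
  have hinj : ∀ (e : Fin X.n → X.B →ₐ[IsLocalRing.ResidueField A] IsLocalRing.ResidueField A),
      Function.Injective e → Function.Injective fun i => (e i).comp inc := by
    intro e he i i' hii'
    apply he
    ext b
    obtain ⟨a, rfl⟩ := hinc_surj b
    exact DFunLike.congr_fun hii' a
  have hglue := vsand_hglue M' q hq hqM hA hR X (cuspSet (M' * q))
    (r1c_inf_mem_cuspSet M' q) (r1c_zero_mem_cuspSet M' q hq hqM)
  constructor
  · intro s hs
    obtain ⟨y, ε, hy, hpow, hε, hdvd, hth⟩ := edc_side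
      (infPlaceC (IsLocalRing.ResidueField A) M')
      (nodeSetupNj A M' q hq hqM hA R hR).redInf (nodeSetupNj A M' q hq hqM hA R hR).redZero
      hiInf hiZero hoInf hle (fun i => (X.e₁ i).comp inc) (hinj X.e₁ X.inj₁)
      (fun a ha => by
        obtain ⟨z, h1, h2⟩ := hglue (inc a) 0 (fun i => by rw [map_zero]; exact ha i)
        exact ⟨z, h1, h2⟩)
      h hdiv0
      (fun c hc => (reg1c_hcount_aux M' hq haux A hA X H AlgEquiv.refl c (by
        have h1 : ((c : Fk (IsLocalRing.ResidueField A) M') :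
            LaurentSeries (IsLocalRing.ResidueField A)) =
            (ueuU (IsLocalRing.ResidueField A) q)⁻¹ := by rw [hc]; exact hser
        exact h1)).le)
      s hs.1 (le_sup_left.trans hs.2) (le_sup_right.trans hs.2)
    refine ⟨y, ε, (RingHom.mem_ker).2 hy, hpow, hε,
      fun z hz => hdvd z ((RingHom.mem_ker).1 hz), fun z hz => ?_⟩
    obtain ⟨w, c, hw, hwc⟩ := hth z hz
    exact ⟨w, c, hw, (RingHom.mem_ker).2 hwc⟩
  · intro s hs
    obtain ⟨y, ε, hy, hpow, hε, hdvd, hth⟩ := edc_side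
      (infPlaceC (IsLocalRing.ResidueField A) M')
      (nodeSetupNj A M' q hq hqM hA R hR).redZero (nodeSetupNj A M' q hq hqM hA R hR).redInf
      hiZero hiInf hoZero hle (fun i => (X.e₂ i).comp inc) (hinj X.e₂ X.inj₂)
      (fun a ha => by
        obtain ⟨z, h1, h2⟩ := hglue 0 (inc a) (fun i => by rw [map_zero]; exact (ha i).symm)
        exact ⟨z, h2, h1⟩)
      h' hdivInf
      (fun c hc => (reg1c_hcount_aux M' hq haux A hA X H AlgEquiv.refl c (by
        have h1 : ((c : Fk (IsLocalRing.ResidueField A) M') :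
            LaurentSeries (IsLocalRing.ResidueField A)) =
            (ueuU (IsLocalRing.ResidueField A) q)⁻¹ := by rw [hc]; exact hser'
        exact h1)).le)
      s hs.1 (le_sup_right.trans hs.2) (le_sup_left.trans hs.2)
    refine ⟨y, ε, (RingHom.mem_ker).2 hy, hpow, hε,
      fun z hz => hdvd z ((RingHom.mem_ker).1 hz), fun z hz => ?_⟩
    obtain ⟨w, c, hw, hwc⟩ := hth z hz
    exact ⟨w, c, hw, (RingHom.mem_ker).2 hwc⟩

set_option maxHeartbeats 4000000 in
/-- **REG1 WITH THICKNESS 1 at the level `N = M' q`, unconditional** (`h = uqrHB = u⁻¹`,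
`h' = uqrHB' = q¹² u`): at every node `s` of `B = B_j(N)`
* `y ∈ p_0` generates `p_0` at `s` and reduces to a generator of `s / p_∞` (a uniformiser of
  the component `∞` at the node),
* `x ∈ p_∞` generates `p_∞` at `s` and reduces to a generator of `s / p_0`. -/
theorem edc_hreg1 (haux : IsAuxLevel q M') :
    (∀ s, (nodeSetupNj A M' q hq hqM hA R hR).IsNode s →
      ∃ y ε : (nodeSetupNj A M' q hq hqM hA R hR).B,
        y ∈ (nodeSetupNj A M' q hq hqM hA R hR).pZero ∧
          y ^ 12 = ε * uqrHB A M' q hq hqM hA R hR ∧ ε ∉ s ∧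
          (∀ z ∈ (nodeSetupNj A M' q hq hqM hA R hR).pZero, y ∣ ε * z) ∧
          ∀ z ∈ s, ∃ w c : (nodeSetupNj A M' q hq hqM hA R hR).B, w ∉ s ∧
            w * z - c * y ∈ (nodeSetupNj A M' q hq hqM hA R hR).pInf) ∧
    (∀ s, (nodeSetupNj A M' q hq hqM hA R hR).IsNode s →
      ∃ x ε : (nodeSetupNj A M' q hq hqM hA R hR).B,
        x ∈ (nodeSetupNj A M' q hq hqM hA R hR).pInf ∧
          x ^ 12 = ε * uqrHB' A M' q hq hqM hA R hR ∧ ε ∉ s ∧
          (∀ z ∈ (nodeSetupNj A M' q hq hqM hA R hR).pInf, x ∣ ε * z) ∧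
          ∀ z ∈ s, ∃ w c : (nodeSetupNj A M' q hq hqM hA R hR).B, w ∉ s ∧
            w * z - c * x ∈ (nodeSetupNj A M' q hq hqM hA R hR).pZero) := by
  have hSUM : RgnSum A M' q hq hqM R := fun z h1 h3 => w2j_rgnSum A M' q hq hqM hA R hR z h1 h3
  haveI : IsIntegrallyClosed (nodeSetupNj A M' q hq hqM hA R hR).B :=
    r1c_isIntegrallyClosed A M' q hq hqM hA R hR hSUM
  haveI : IsAlgClosed (IsLocalRing.ResidueField A) := isAlgClosed_residueField A
  exact edc_hreg1_core A M' q hq hqM hA R hR haux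
    (rgn_hiInf A M' q hq hqM hA R hR hSUM) (rgn_hiZero A M' q hq hqM hA R hR hSUM)
    (rgn_hoInf A M' q hq hqM hA R hR haux) (rgn_hoZero A M' q hq hqM hA R hR haux)
    (reg1i_affRing_le_fsS (IsLocalRing.ResidueField A) M')
    (uqrHB A M' q hq hqM hA R hR) (uqrHB' A M' q hq hqM hA R hR)
    (uqr_hdiv0 A M' q hq hqM hA R hR) (uqr_hdivInf A M' q hq hqM hA R hR)
    (uqr_redInf_h A M' q hq hqM hA R hR) (uqr_redZero_h' A M' q hq hqM hA R hR)

end Conc

end Fermat.Agent.S40lib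

end
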