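import Mathlib
import Fermat.Agent.S36lib.Speed
import Fermat.Agent.S40lib.CoverNode2
import Fermat.Agent.S40lib.EdgeConc

/-!
# Item 88 (S40/S44), block (J-WILD): the SMOOTH points of the special fibre of the cover `Y`
(helper12)

One-branch analogues of `cvn_local` (CoverNode.lean), `etn2_node`, `etn2_node_adjoin`
(EtaleNode2.lean) and `cvn_cover` (CoverNode2.lean).

X-side (`B` the affine ring of the model, `s` a maximal ideal containing `p_∞ = ker r₁`):
* `cvs_thick`  : `B ⧸ ker r₁` Dedekind, `ker r₁ ≠ s`  ⇒  there is `y ∈ s` with `r₁ y ≠ 0` and the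
  thickness property `∀ z ∈ s, ∃ w ∉ s, c, w z - c y ∈ ker r₁`;
* `cvs_local`  : `x` a local generator of `ker r₁` at `s`, `y` with the thickness property  ⇒
  in `R = B_s`: `x` is prime, `x ∤ y`, `𝔪_R = (x, y)`;
* `cvs_hwy`    : for an order function `wQ` centred at `s` with a uniformiser in `r₁ B`:
  `wQ (r₁ y) = 1`.
Y-side (`R` local, `𝔪_R = (x, y)`, `x` prime, `x ∤ y`; `C = R[z']`):
* `cvs_node`   : `C_𝔫` is factorial, `x` is prime in `C_𝔫`, `x ∤ y`, and the branch `x` carries a
  normalised edge datum (`w (red y) = 1`);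
* `cvs_adjoin` : the same for `C = Algebra.adjoin R {z'} ⊂ E`;
* `cvs_cover`  : the same at EVERY maximal ideal `𝔫` of `C` (algebraically closed residue field).
(complete proofs; standard axioms only)
-/

set_option autoImplicit false
set_option linter.style.haveILetI false
set_option linter.unusedSectionVars false
set_option linter.unusedVariables false

namespace Fermat.Agent.S40lib

open IsLocalRing

/-! ### the X-side -/

section XSide

variable {B : Type*} [CommRing B] (s : Ideal B) [hs : s.IsMaximal] {κ : Type*} [Field κ]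

/-- **thickness at a smooth point**: if `B ⧸ ker r₁` is a Dedekind domain and `s ≠ ker r₁`,
there is `y ∈ s`, `r₁ y ≠ 0`, generating `s / ker r₁` locally at `s`. -/
theorem cvs_thick (r₁ : B →+* κ) (h₁ : RingHom.ker r₁ ≤ s) (hne : RingHom.ker r₁ ≠ s)
    [IsDedekindDomain (B ⧸ RingHom.ker r₁)] :
    ∃ y : B, y ∈ s ∧ r₁ y ≠ 0 ∧
      ∀ z ∈ s, ∃ w c : B, w ∉ s ∧ w * z - c * y ∈ RingHom.ker r₁ := by
  set I : Ideal B := RingHom.ker r₁ with hI
  set t : Ideal (B ⧸ I) := s.map (Ideal.Quotient.mk I) with ht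
  have hsurj : Function.Surjective (Ideal.Quotient.mk I) := Ideal.Quotient.mk_surjective
  have hmemt : ∀ b : B, Ideal.Quotient.mk I b ∈ t ↔ b ∈ s := fun b =>
    Ideal.mem_quotient_iff_mem h₁
  have htmax : t.IsMaximal := by
    rcases Ideal.map_eq_top_or_isMaximal_of_surjective (Ideal.Quotient.mk I) hsurj hs with h | h
    · exfalso
      have h1 : (1 : B ⧸ I) ∈ t := by rw [ht, h]; trivial
      have h2 : (1 : B) ∈ s := (hmemt 1).1 (by rw [map_one]; exact h1)
      exact hs.ne_top ((Ideal.eq_top_iff_one s).2 h2)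
    · exact h
  have htbot : t ≠ ⊥ := by
    intro h0
    apply hne
    apply le_antisymm h₁
    intro b hb
    have h1 : Ideal.Quotient.mk I b ∈ t := (hmemt b).2 hb
    rw [h0, Ideal.mem_bot, Ideal.Quotient.eq_zero_iff_mem] at h1
    exact h1
  haveI : t.IsPrime := htmax.isPrime
  have hlt : t ^ 2 < t := by
    have := Ideal.pow_succ_lt_pow (P := t) htbot 1
    rwa [pow_one] at this
  obtain ⟨yb, hyt, hyt2⟩ := SetLike.exists_of_lt hlt
  obtain ⟨y, rfl⟩ := hsurj yb
  have hys : y ∈ s := (hmemt y).1 hyt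
  have hy0 : r₁ y ≠ 0 := by
    intro h0
    apply hyt2
    have : Ideal.Quotient.mk I y = 0 := Ideal.Quotient.eq_zero_iff_mem.2 ((RingHom.mem_ker).2 h0)
    rw [this]
    exact Ideal.zero_mem _
  refine ⟨y, hys, hy0, fun z hz => ?_⟩
  obtain ⟨wb, cb, hwt, hwc⟩ := edc_ded_gen t htmax _ hyt hyt2 (Ideal.Quotient.mk I z)
    ((hmemt z).2 hz)
  obtain ⟨w, rfl⟩ := hsurj wb
  obtain ⟨c, rfl⟩ := hsurj cb
  refine ⟨w, c, fun hw => hwt ((hmemt w).2 hw), ?_⟩
  rw [← Ideal.Quotient.eq_zero_iff_mem, map_sub, map_mul, map_mul, hwc, sub_self]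

variable [IsDomain B]

/-- **the local ring at a smooth point** (one branch): `x` generates `ker r₁` at `s`, `y ∈ s`
reduces to a generator of `s / ker r₁`.  Then in `R = B_s`: `x` is prime, `x ∤ y`,
`𝔪_R = (x, y)`. -/
theorem cvs_local (r₁ : B →+* κ) (h₁ : RingHom.ker r₁ ≤ s)
    (x εx y : B) (hx0 : x ≠ 0)
    (hx : x ∈ RingHom.ker r₁) (hxg : ∀ z ∈ RingHom.ker r₁, x ∣ εx * z) (hεx : εx ∉ s)
    (hys : y ∈ s) (hy0 : r₁ y ≠ 0)
    (hth : ∀ z ∈ s, ∃ w c : B, w ∉ s ∧ w * z - c * y ∈ RingHom.ker r₁) :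
    Prime (algebraMap B (Localization.AtPrime s) x) ∧
      ¬ algebraMap B (Localization.AtPrime s) x ∣ algebraMap B (Localization.AtPrime s) y ∧
      maximalIdeal (Localization.AtPrime s) =
        Ideal.span {algebraMap B (Localization.AtPrime s) x,
          algebraMap B (Localization.AtPrime s) y} := by
  set R := Localization.AtPrime s with hR
  have hMle : s.primeCompl ≤ nonZeroDivisors B := by
    intro b hb
    refine mem_nonZeroDivisors_of_ne_zero ?_
    rintro rfl
    exact hb s.zero_mem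
  have hinjBR : Function.Injective (algebraMap B R) := IsLocalization.injective R hMle
  obtain ⟨red, hredB, hred⟩ := edc_lift s r₁ h₁ x εx hx hxg hεx
  have hxR0 : algebraMap B R x ≠ 0 := fun h0 => hx0 (hinjBR (by rw [h0, map_zero]))
  have hxP : Prime (algebraMap B R x) := by
    have hker : Ideal.span {algebraMap B R x} = RingHom.ker red := by
      ext c
      rw [Ideal.mem_span_singleton, RingHom.mem_ker, hred]
    have hprime : (Ideal.span {algebraMap B R x}).IsPrime := by
      rw [hker]; exact RingHom.ker_isPrime red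
    exact (Ideal.span_singleton_prime hxR0).1 hprime
  refine ⟨hxP, ?_, ?_⟩
  · intro h
    have h1 : red (algebraMap B R y) = 0 := (hred _).2 h
    rw [hredB] at h1
    exact hy0 h1
  · apply le_antisymm
    · rw [← Localization.AtPrime.map_eq_maximalIdeal, Ideal.map_le_iff_le_comap]
      intro z hz
      rw [Ideal.mem_comap]
      obtain ⟨w, c, hw, hwc⟩ := hth z hz
      obtain ⟨b, hb⟩ := hxg _ hwc
      have hwu : IsUnit (algebraMap B R w) :=
        IsLocalization.map_units R (⟨w, hw⟩ : s.primeCompl)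
      have hεu : IsUnit (algebraMap B R εx) :=
        IsLocalization.map_units R (⟨εx, hεx⟩ : s.primeCompl)
      obtain ⟨wu, hwu'⟩ := hwu
      obtain ⟨εu, hεu'⟩ := hεu
      have h1 : algebraMap B R εx * (algebraMap B R w * algebraMap B R z -
          algebraMap B R c * algebraMap B R y) = algebraMap B R x * algebraMap B R b := by
        rw [← map_mul, ← map_mul, ← map_sub, ← map_mul, hb, map_mul]
      have h2 : algebraMap B R z =
          ((wu⁻¹ : Rˣ) : R) * ((εu⁻¹ : Rˣ) : R) * algebraMap B R b * algebraMap B R x +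
          ((wu⁻¹ : Rˣ) : R) * algebraMap B R c * algebraMap B R y := by
        rw [← hwu', ← hεu'] at h1
        have h3 : (wu : R) * algebraMap B R z =
            ((εu⁻¹ : Rˣ) : R) * (algebraMap B R x * algebraMap B R b) +
              algebraMap B R c * algebraMap B R y := by
          rw [← h1, ← mul_assoc, Units.inv_mul, one_mul]
          ring
        calc algebraMap B R z = ((wu⁻¹ : Rˣ) : R) * ((wu : R) * algebraMap B R z) := by
              rw [← mul_assoc, Units.inv_mul, one_mul]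
          _ = _ := by rw [h3]; ring
      rw [h2]
      refine Ideal.add_mem _ (Ideal.mul_mem_left _ _ (Ideal.subset_span (Set.mem_insert _ _)))
        (Ideal.mul_mem_left _ _ (Ideal.subset_span
          (Set.mem_insert_of_mem _ (Set.mem_singleton _))))
    · rw [Ideal.span_le]
      rintro b (rfl | rfl)
      · exact (IsLocalization.AtPrime.to_map_mem_maximal_iff R s _).2 (h₁ hx)
      · exact (IsLocalization.AtPrime.to_map_mem_maximal_iff R s _).2 hys

omit [IsDomain B] hs in
/-- **the normalisation**: `wQ` an order function centred at `s` (`hmem`, `hord0`), `z₀ ∈ B` with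
`wQ (r₁ z₀) = 1`, `y ∈ s` with the thickness property: `wQ (r₁ y) = 1`. -/
theorem cvs_hwy (r₁ : B →+* κ) (y : B) (hys : y ∈ s)
    (hth : ∀ z ∈ s, ∃ w c : B, w ∉ s ∧ w * z - c * y ∈ RingHom.ker r₁)
    (wQ : κ → ℤ) (hwQ : ∀ a b : κ, a ≠ 0 → b ≠ 0 → wQ (a * b) = wQ a + wQ b)
    (hmem : ∀ b : B, b ∈ s ↔ r₁ b = 0 ∨ 0 < wQ (r₁ b))
    (hord0 : ∀ c : B, r₁ c ≠ 0 → 0 ≤ wQ (r₁ c))
    (z₀ : B) (hz0 : r₁ z₀ ≠ 0) (hz1 : wQ (r₁ z₀) = 1) :
    r₁ y ≠ 0 ∧ wQ (r₁ y) = 1 := by
  have hzs : z₀ ∈ s := (hmem z₀).2 (Or.inr (by rw [hz1]; norm_num))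
  obtain ⟨w, c, hw, hwc⟩ := hth z₀ hzs
  have hwc' : r₁ w * r₁ z₀ = r₁ c * r₁ y := by
    have h1 : r₁ (w * z₀ - c * y) = 0 := (RingHom.mem_ker).1 hwc
    rw [map_sub, map_mul, map_mul, sub_eq_zero] at h1
    exact h1
  have hw0 : r₁ w ≠ 0 := fun h0 => hw ((hmem w).2 (Or.inl h0))
  have hprod : r₁ c * r₁ y ≠ 0 := by
    rw [← hwc']
    exact mul_ne_zero hw0 hz0
  have hc0 : r₁ c ≠ 0 := left_ne_zero_of_mul hprod
  have hy0 : r₁ y ≠ 0 := right_ne_zero_of_mul hprod
  refine ⟨hy0, ?_⟩
  have e1 := hwQ _ _ hw0 hz0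
  have e2 := hwQ _ _ hc0 hy0
  rw [hwc'] at e1
  have e3 : wQ (r₁ w) = 0 := by
    have h1 : ¬ (0 < wQ (r₁ w)) := fun h0 => hw ((hmem w).2 (Or.inr h0))
    have h2 := hord0 w hw0
    omega
  have e5 := hord0 c hc0
  have e6 : 0 < wQ (r₁ y) := by
    rcases (hmem y).1 hys with h0 | h0
    · exact absurd h0 hy0
    · exact h0
  omega

end XSide

/-! ### the Y-side -/

section Node1

universe uR uC

variable {R : Type uR} {C : Type uC} [CommRing R] [IsDomain R] [IsLocalRing R] [CommRing C]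
  [IsDomain C] [Algebra R C] [Module.Free R C] [IsNoetherianRing C]
  (𝔫 : Ideal C) [h𝔫 : 𝔫.IsPrime]

/-- **the local ring of the cover at a point over a smooth point** (one branch): `R` a local
domain with `𝔪_R = (x, y)`, `x` prime, `x ∤ y`; `C = R[z]` a Noetherian domain, free over `R`,
`P(z) = 0`, `P'(z) ∉ 𝔫`; `𝔫` a prime of `C` containing `x`, `y` and `z - c`.  Then `L = C_𝔫` is
factorial, `x` is a prime element of `L`, `x ∤ y` in `L`, and the branch carries a normalised
edge datum. -/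
theorem cvs_node (x y : R) (hx : Prime x) (hyx : ¬ x ∣ y)
    (hm : maximalIdeal R = Ideal.span {x, y})
    (hinj : Function.Injective (algebraMap R C))
    (z : C) (hadj : Algebra.adjoin R {z} = ⊤) (P : Polynomial R) (hP : Polynomial.aeval z P = 0)
    (hP' : Polynomial.aeval z (Polynomial.derivative P) ∉ 𝔫)
    (c : R) (hc : z - algebraMap R C c ∈ 𝔫)
    (hx𝔫 : algebraMap R C x ∈ 𝔫) (hy𝔫 : algebraMap R C y ∈ 𝔫) :
    UniqueFactorizationMonoid (Localization.AtPrime 𝔫) ∧
      Prime (algebraMap C (Localization.AtPrime 𝔫) (algebraMap R C x)) ∧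
      ¬ algebraMap C (Localization.AtPrime 𝔫) (algebraMap R C x) ∣
        algebraMap C (Localization.AtPrime 𝔫) (algebraMap R C y) ∧
      maximalIdeal (Localization.AtPrime 𝔫) =
        Ideal.span {algebraMap C (Localization.AtPrime 𝔫) (algebraMap R C x),
          algebraMap C (Localization.AtPrime 𝔫) (algebraMap R C y)} ∧
      (∃ (κ : Type uC) (_ : Field κ) (red : Localization.AtPrime 𝔫 →+* κ) (w : κ → ℤ),
        (∀ c, red c = 0 ↔ algebraMap C (Localization.AtPrime 𝔫) (algebraMap R C x) ∣ c) ∧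
        (∀ a b : κ, a ≠ 0 → b ≠ 0 → w (a * b) = w a + w b) ∧
        (∀ c, red c ≠ 0 → 0 ≤ w (red c)) ∧
        w (red (algebraMap C (Localization.AtPrime 𝔫) (algebraMap R C y))) = 1) := by
  have hunr := etn2_hunr 𝔫 z hadj P hP hP' c hc x y hm hx𝔫 hy𝔫
  obtain ⟨hufm, hpx, hndvd⟩ := etn_ufm 𝔫 x y hx hyx hinj hunr
  exact ⟨hufm, hpx, hndvd, hunr, etn_edge_inputs 𝔫 x y hx hyx hunr⟩

end Node1

section Adjoin1

universe uR uE

variable {R : Type uR} {E : Type uE} [CommRing R] [IsDomain R] [IsLocalRing R]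
  [IsNoetherianRing R] [IsIntegrallyClosed R] [Field E] [Algebra R E]

/-- `cvs_node` for `C = Algebra.adjoin R {z'} ⊂ E`, `z'` integral over `R` (all instances
provided). -/
theorem cvs_adjoin (hinj : Function.Injective (algebraMap R E))
    (x y : R) (hx : Prime x) (hyx : ¬ x ∣ y)
    (hm : maximalIdeal R = Ideal.span {x, y})
    (z' : E) (hz : IsIntegral R z')
    (𝔫 : Ideal (Algebra.adjoin R ({z'} : Set E))) [h𝔫 : 𝔫.IsPrime]
    (P : Polynomial R) (hP : Polynomial.aeval z' P = 0)
    (hP' : (⟨Polynomial.aeval z' (Polynomial.derivative P),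
      Polynomial.aeval_mem_adjoin_singleton R z'⟩ : Algebra.adjoin R ({z'} : Set E)) ∉ 𝔫)
    (c : R) (hc : (⟨z', Algebra.self_mem_adjoin_singleton R z'⟩ :
      Algebra.adjoin R ({z'} : Set E)) - algebraMap R _ c ∈ 𝔫)
    (hx𝔫 : algebraMap R (Algebra.adjoin R ({z'} : Set E)) x ∈ 𝔫)
    (hy𝔫 : algebraMap R (Algebra.adjoin R ({z'} : Set E)) y ∈ 𝔫) :
    UniqueFactorizationMonoid (Localization.AtPrime 𝔫) ∧
      Prime (algebraMap _ (Localization.AtPrime 𝔫)
        (algebraMap R (Algebra.adjoin R ({z'} : Set E)) x)) ∧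
      ¬ algebraMap _ (Localization.AtPrime 𝔫)
          (algebraMap R (Algebra.adjoin R ({z'} : Set E)) x) ∣
        algebraMap _ (Localization.AtPrime 𝔫)
          (algebraMap R (Algebra.adjoin R ({z'} : Set E)) y) ∧
      maximalIdeal (Localization.AtPrime 𝔫) =
        Ideal.span {algebraMap _ (Localization.AtPrime 𝔫)
            (algebraMap R (Algebra.adjoin R ({z'} : Set E)) x),
          algebraMap _ (Localization.AtPrime 𝔫)
            (algebraMap R (Algebra.adjoin R ({z'} : Set E)) y)} ∧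
      (∃ (κ : Type uE) (_ : Field κ) (red : Localization.AtPrime 𝔫 →+* κ) (w : κ → ℤ),
        (∀ c, red c = 0 ↔ algebraMap _ (Localization.AtPrime 𝔫)
          (algebraMap R (Algebra.adjoin R ({z'} : Set E)) x) ∣ c) ∧
        (∀ a b : κ, a ≠ 0 → b ≠ 0 → w (a * b) = w a + w b) ∧
        (∀ c, red c ≠ 0 → 0 ≤ w (red c)) ∧
        w (red (algebraMap _ (Localization.AtPrime 𝔫)
          (algebraMap R (Algebra.adjoin R ({z'} : Set E)) y))) = 1) := by
  haveI : Module.IsTorsionFree R E := Module.isTorsionFree_iff_algebraMap_injective.2 hinj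
  haveI : Module.Free R (Algebra.adjoin R ({z'} : Set E)) :=
    Module.Free.of_basis (Algebra.adjoin.powerBasis' hz).basis
  haveI : Module.Finite R (Algebra.adjoin R ({z'} : Set E)) :=
    (Algebra.adjoin.powerBasis' hz).finite
  haveI : IsNoetherianRing (Algebra.adjoin R ({z'} : Set E)) :=
    IsNoetherianRing.of_finite R (Algebra.adjoin R ({z'} : Set E))
  have hinjC : Function.Injective (algebraMap R (Algebra.adjoin R ({z'} : Set E))) := by
    intro a b hab
    apply hinj
    have := congrArg (fun t : Algebra.adjoin R ({z'} : Set E) => (t : E)) hab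
    exact this
  have hadj : Algebra.adjoin R
      ({(⟨z', Algebra.self_mem_adjoin_singleton R z'⟩ : Algebra.adjoin R ({z'} : Set E))} :
        Set (Algebra.adjoin R ({z'} : Set E))) = ⊤ := by
    have h1 := (Algebra.adjoin.powerBasis' hz).adjoin_gen_eq_top
    rw [Algebra.adjoin.powerBasis'_gen] at h1
    exact h1
  have haev : ∀ Q : Polynomial R,
      ((Polynomial.aeval (⟨z', Algebra.self_mem_adjoin_singleton R z'⟩ :
        Algebra.adjoin R ({z'} : Set E)) Q : Algebra.adjoin R ({z'} : Set E)) : E) =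
        Polynomial.aeval z' Q := by
    intro Q
    have := Polynomial.aeval_algHom_apply (Algebra.adjoin R ({z'} : Set E)).val
      (⟨z', Algebra.self_mem_adjoin_singleton R z'⟩ : Algebra.adjoin R ({z'} : Set E)) Q
    exact this.symm
  have hPz : Polynomial.aeval (⟨z', Algebra.self_mem_adjoin_singleton R z'⟩ :
      Algebra.adjoin R ({z'} : Set E)) P = 0 := by
    apply Subtype.ext
    rw [haev, hP]
    rfl
  have hP'z : Polynomial.aeval (⟨z', Algebra.self_mem_adjoin_singleton R z'⟩ :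
      Algebra.adjoin R ({z'} : Set E)) (Polynomial.derivative P) ∉ 𝔫 := by
    have : Polynomial.aeval (⟨z', Algebra.self_mem_adjoin_singleton R z'⟩ :
        Algebra.adjoin R ({z'} : Set E)) (Polynomial.derivative P) =
        (⟨Polynomial.aeval z' (Polynomial.derivative P),
          Polynomial.aeval_mem_adjoin_singleton R z'⟩ : Algebra.adjoin R ({z'} : Set E)) := by
      apply Subtype.ext
      rw [haev]
    rw [this]
    exact hP'
  exact cvs_node 𝔫 x y hx hyx hm hinjC _ hadj P hPz hP'z c hc hx𝔫 hy𝔫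

/-- **the local ring of the cover at EVERY maximal ideal `𝔫` of `C = R[z']` over a smooth
point** (`R` with algebraically closed residue field `ρ : R ↠ k`). -/
theorem cvs_cover {k : Type*} [Field k] [IsAlgClosed k] (ρ : R →+* k)
    (hρ : Function.Surjective ρ)
    (hinj : Function.Injective (algebraMap R E))
    (x y : R) (hx : Prime x) (hyx : ¬ x ∣ y)
    (hm : maximalIdeal R = Ideal.span {x, y})
    (z' : E) (hz : IsIntegral R z')
    (𝔫 : Ideal (Algebra.adjoin R ({z'} : Set E))) [h𝔫 : 𝔫.IsMaximal]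
    (P : Polynomial R) (hP : Polynomial.aeval z' P = 0)
    (hP' : (⟨Polynomial.aeval z' (Polynomial.derivative P),
      Polynomial.aeval_mem_adjoin_singleton R z'⟩ : Algebra.adjoin R ({z'} : Set E)) ∉ 𝔫) :
    algebraMap R (Algebra.adjoin R ({z'} : Set E)) x ∈ 𝔫 ∧
    algebraMap R (Algebra.adjoin R ({z'} : Set E)) y ∈ 𝔫 ∧
    UniqueFactorizationMonoid (Localization.AtPrime 𝔫) ∧
      Prime (algebraMap _ (Localization.AtPrime 𝔫)
        (algebraMap R (Algebra.adjoin R ({z'} : Set E)) x)) ∧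
      ¬ algebraMap _ (Localization.AtPrime 𝔫)
          (algebraMap R (Algebra.adjoin R ({z'} : Set E)) x) ∣
        algebraMap _ (Localization.AtPrime 𝔫)
          (algebraMap R (Algebra.adjoin R ({z'} : Set E)) y) ∧
      maximalIdeal (Localization.AtPrime 𝔫) =
        Ideal.span {algebraMap _ (Localization.AtPrime 𝔫)
            (algebraMap R (Algebra.adjoin R ({z'} : Set E)) x),
          algebraMap _ (Localization.AtPrime 𝔫)
            (algebraMap R (Algebra.adjoin R ({z'} : Set E)) y)} ∧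
      (∃ (κ : Type uE) (_ : Field κ) (red : Localization.AtPrime 𝔫 →+* κ) (w : κ → ℤ),
        (∀ c, red c = 0 ↔ algebraMap _ (Localization.AtPrime 𝔫)
          (algebraMap R (Algebra.adjoin R ({z'} : Set E)) x) ∣ c) ∧
        (∀ a b : κ, a ≠ 0 → b ≠ 0 → w (a * b) = w a + w b) ∧
        (∀ c, red c ≠ 0 → 0 ≤ w (red c)) ∧
        w (red (algebraMap _ (Localization.AtPrime 𝔫)
          (algebraMap R (Algebra.adjoin R ({z'} : Set E)) y))) = 1) := by
  haveI : Module.IsTorsionFree R E := Module.isTorsionFree_iff_algebraMap_injective.2 hinj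
  haveI : Module.Finite R (Algebra.adjoin R ({z'} : Set E)) :=
    (Algebra.adjoin.powerBasis' hz).finite
  haveI : Algebra.IsIntegral R (Algebra.adjoin R ({z'} : Set E)) :=
    Algebra.IsIntegral.of_finite R _
  obtain ⟨c, hc⟩ := cvn_exists_c' ρ hρ 𝔫
    (⟨z', Algebra.self_mem_adjoin_singleton R z'⟩ : Algebra.adjoin R ({z'} : Set E))
  have hcomap := cvn_comap_eq (R := R) 𝔫
  have hx𝔫 : algebraMap R (Algebra.adjoin R ({z'} : Set E)) x ∈ 𝔫 := by
    rw [← Ideal.mem_comap, hcomap, hm]
    exact Ideal.subset_span (Set.mem_insert _ _)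
  have hy𝔫 : algebraMap R (Algebra.adjoin R ({z'} : Set E)) y ∈ 𝔫 := by
    rw [← Ideal.mem_comap, hcomap, hm]
    exact Ideal.subset_span (Set.mem_insert_of_mem _ (Set.mem_singleton _))
  haveI : 𝔫.IsPrime := h𝔫.isPrime
  exact ⟨hx𝔫, hy𝔫, cvs_adjoin hinj x y hx hyx hm z' hz 𝔫 P hP hP' c hc hx𝔫 hy𝔫⟩

end Adjoin1

end Fermat.Agent.S40lib
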