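import Mathlib
import Fermat.Agent.S36lib.Speed
import Fermat.Agent.S36lib.SemilocalMove
import Fermat.Agent.S36lib.InvertOrd
import Fermat.Agent.S40lib.EdgeRule

/-!
# Item 88 (S40), piece (E4): DIV-RED at the NON-node places, abstract form (helper15)

The companion of the EDGE RULE (`S40lib/EdgeRule.lean`, helper24) at the SMOOTH points of the
special fibre: only ONE vertical prime passes through the point.

`R` is a UFD with fraction field `F` (the local ring of the model at a smooth point `s` of the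
special fibre), `x` a prime element (the local equation of the component through `s`; at a
smooth point the uniformiser of the base is `ϖ = ε x`, `ε` a unit), `red : R → κ` the reduction
to the component (kernel `(x)`), `w` an order function on `κ` which is `≥ 0` on `red R` (the
order at the point `s`).

Let `f ∈ F^×` have order divisible by `m` at every prime element of `R` not associated to `x`
(the horizontal divisor of `f` is an `m`-th multiple near `s`).  Then for every decomposition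
`f d = x ^ k n`, `x ∤ n d`:

  `ord_s (red n) - ord_s (red d) ≡ 0   (mod m)`                       (`dvr_one_branch`),

i.e. the order at `s` of the reduction of `f / x ^ k` is divisible by `m`.

* `dvr_factor`        : `f = u · x ^ a · g ^ m`, `u ∈ R^×` (from `s36_move_unit_of_ord`);
* `dvr_one_branch`    : the rule for a decomposition `f d = x ^ k n`;
* `dvr_one_branch_pi` : the same for a decomposition `f d = ϖ ^ k n`, `ϖ = ε x`;
* `dvr_one_branch_unit` : the case `k = 0` written with `f d = n`;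
* `dvr_exists_decomp` : existence of the decomposition with `k = s36_ordAt x f`.

Mathlib + `S36lib/SemilocalMove`, `S36lib/InvertOrd`, `S40lib/EdgeRule` only.
-/

set_option autoImplicit false

namespace Fermat.Agent.S40lib

open Fermat.Agent.S36lib

section DivRed

variable {R F κ : Type*} [CommRing R] [IsDomain R] [UniqueFactorizationMonoid R] [Field F]
  [Algebra R F] [IsFractionRing R F] [Field κ]

/-- **(MOVE)+(UNIT) at a smooth point**: `f = u · x ^ a · g ^ m`. -/
theorem dvr_factor (x : R) (hx : Prime x) (m : ℕ) (f : F) (hf : f ≠ 0)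
    (hval : ∀ π : R, Prime π → ¬ Associated π x →
      ∃ v : F → ℤ, (∀ a b : F, a ≠ 0 → b ≠ 0 → v (a * b) = v a + v b) ∧
        v (algebraMap R F π) = 1 ∧
        (∀ c : R, c ≠ 0 → ¬ π ∣ c → v (algebraMap R F c) = 0) ∧ (m : ℤ) ∣ v f) :
    ∃ (g : F) (u : Rˣ) (a : ℤ), g ≠ 0 ∧
      f = algebraMap R F (u : R) * algebraMap R F x ^ a * g ^ m := by
  obtain ⟨g, u, a, hg, hfac⟩ := s36_move_unit_of_ord (ι := Fin 1) ![x]
    (by
      intro i
      fin_cases i
      exact hx.ne_zero) m f hf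
    (by
      intro π hπ hna
      exact hval π hπ (hna 0))
  refine ⟨g, u, a 0, hg, ?_⟩
  rw [hfac, Fin.prod_univ_one]
  simp only [Matrix.cons_val_zero]

/-- existence of the decomposition `f d = x ^ k n`, `x ∤ n d` (`k = ord_x f`) -/
theorem dvr_exists_decomp (x : R) (hx : Prime x) (f : F) (hf : f ≠ 0) :
    ∃ (n d : R), ¬ x ∣ n ∧ ¬ x ∣ d ∧
      f * algebraMap R F d = algebraMap R F x ^ (s36_ordAt x hx f) * algebraMap R F n := by
  obtain ⟨a, b, ha, hb, h⟩ := s36_ordAt_spec x hx hf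
  exact ⟨a, b, ha, hb, by rw [h]; ring⟩

/-- **DIV-RED at a smooth point (one-branch rule).**  `red : R → κ` with kernel `(x)`, `w` an
order function on `κ`, `≥ 0` on `red R`; `f` with `m ∣ ord_π f` at the primes `π` not
associated to `x`; `f d = x ^ k n` (`x ∤ n d`).  Then `m ∣ w (red n) - w (red d)`. -/
theorem dvr_one_branch (x : R) (hx : Prime x)
    (red : R →+* κ) (hred : ∀ c, red c = 0 ↔ x ∣ c)
    (w : κ → ℤ) (hw : ∀ a b : κ, a ≠ 0 → b ≠ 0 → w (a * b) = w a + w b)
    (hw0 : ∀ c : R, red c ≠ 0 → 0 ≤ w (red c))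
    (m : ℕ) (f : F) (hf : f ≠ 0)
    (hval : ∀ π : R, Prime π → ¬ Associated π x →
      ∃ v : F → ℤ, (∀ a b : F, a ≠ 0 → b ≠ 0 → v (a * b) = v a + v b) ∧
        v (algebraMap R F π) = 1 ∧
        (∀ c : R, c ≠ 0 → ¬ π ∣ c → v (algebraMap R F c) = 0) ∧ (m : ℤ) ∣ v f)
    (k : ℤ) (n d : R) (hn : ¬ x ∣ n) (hd : ¬ x ∣ d)
    (hfx : f * algebraMap R F d = algebraMap R F x ^ k * algebraMap R F n) :
    (m : ℤ) ∣ w (red n) - w (red d) := by
  classical
  have hinj : Function.Injective (algebraMap R F) := IsFractionRing.injective R F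
  have hX : algebraMap R F x ≠ 0 := fun h0 => hx.ne_zero (hinj (by rw [h0, map_zero]))
  have hne : ∀ z : R, ¬ x ∣ z → algebraMap R F z ≠ 0 := fun z hz h0 =>
    hz ((hinj (by rw [h0, map_zero]) : z = 0) ▸ dvd_zero x)
  have hvx : ∀ a b : F, a ≠ 0 → b ≠ 0 →
      s36_ordAt x hx (a * b) = s36_ordAt x hx a + s36_ordAt x hx b :=
    fun a b ha hb => s36_ordAt_mul x hx a b ha hb
  -- the order of `f` at `x`
  have hk : s36_ordAt x hx f = k := by
    have h1 := congrArg (s36_ordAt x hx) hfx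
    rw [hvx _ _ hf (hne d hd), hvx _ _ (zpow_ne_zero k hX) (hne n hn),
      s36_ord_zpow _ hvx hX, s36_ordAt_self x hx,
      s36_ordAt_of_not_dvd x hx d hd, s36_ordAt_of_not_dvd x hx n hn] at h1
    linarith
  -- the factorisation
  obtain ⟨g, u, a, hg, hfac⟩ := dvr_factor x hx m f hf hval
  have hU : algebraMap R F (u : R) ≠ 0 := fun h0 => u.ne_zero (hinj (by rw [h0, map_zero]))
  have hunit_x : s36_ordAt x hx (algebraMap R F (u : R)) = 0 :=
    s36_ordAt_of_not_dvd x hx _ (fun h => hx.not_isUnit (isUnit_of_dvd_unit h u.isUnit))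
  have hXa : algebraMap R F x ^ a ≠ 0 := zpow_ne_zero a hX
  have hgm : g ^ m ≠ 0 := pow_ne_zero m hg
  have hka : k = a + m * s36_ordAt x hx g := by
    have h1 := congrArg (s36_ordAt x hx) hfac
    rw [hk, hvx _ _ (mul_ne_zero hU hXa) hgm, hvx _ _ hU hXa, hunit_x,
      s36_ord_zpow _ hvx hX, s36_ord_pow _ hvx hg, s36_ordAt_self x hx] at h1
    linarith
  -- the decomposition of `g` at `x`
  obtain ⟨g1, g2, hg1, hg2, hgspec⟩ := s36_ordAt_spec x hx hg
  set c := s36_ordAt x hx g with hc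
  have hG2 := hne g2 hg2
  have hgm' : g ^ m * algebraMap R F g2 ^ m =
      algebraMap R F g1 ^ m * algebraMap R F x ^ ((m : ℤ) * c) := by
    rw [← mul_pow, hgspec, mul_pow, mul_comm (m : ℤ) c, zpow_mul, zpow_natCast]
  have hXk : algebraMap R F x ^ k =
      algebraMap R F x ^ a * algebraMap R F x ^ ((m : ℤ) * c) := by
    rw [hka, zpow_add₀ hX]
  -- the identity in `F`, with the powers of `x` cancelled
  have hid1 : algebraMap R F (u : R) * algebraMap R F g1 ^ m * algebraMap R F d =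
      algebraMap R F n * algebraMap R F g2 ^ m := by
    have hXk0 : algebraMap R F x ^ k ≠ 0 := zpow_ne_zero k hX
    apply mul_right_cancel₀ hXk0
    have e1 : algebraMap R F (u : R) * algebraMap R F g1 ^ m * algebraMap R F d *
        algebraMap R F x ^ k = (f * algebraMap R F d) * algebraMap R F g2 ^ m := by
      rw [hXk, hfac]
      linear_combination (-(algebraMap R F (u : R) * algebraMap R F d *
        algebraMap R F x ^ a)) * hgm'
    rw [e1, hfx]
    ring
  have hid2 : algebraMap R F ((u : R) * g1 ^ m * d) = algebraMap R F (n * g2 ^ m) := by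
    simp only [map_mul, map_pow]
    exact hid1
  have hid3 : (u : R) * g1 ^ m * d = n * g2 ^ m := hinj hid2
  -- apply `w ∘ red`
  have hr : ∀ z : R, ¬ x ∣ z → red z ≠ 0 := fun z hz h0 => hz ((hred z).1 h0)
  have hru : ∀ v : Rˣ, red (v : R) ≠ 0 := fun v => (v.isUnit.map red).ne_zero
  have hrp : ∀ (z : R) (j : ℕ), red z ≠ 0 → red (z ^ j) ≠ 0 := fun z j hz => by
    rw [map_pow]
    exact pow_ne_zero j hz
  have h4 := congrArg (fun z => w (red z)) hid3
  simp only [map_mul] at h4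
  rw [hw _ _ (mul_ne_zero (hru u) (hrp g1 m (hr g1 hg1))) (hr d hd),
    hw _ _ (hru u) (hrp g1 m (hr g1 hg1)),
    hw _ _ (hr n hn) (hrp g2 m (hr g2 hg2)),
    edr_W_unit red w hw hw0,
    edr_W_pow red w hw (hr g1 hg1), edr_W_pow red w hw (hr g2 hg2)] at h4
  refine ⟨w (red g1) - w (red g2), ?_⟩
  linarith

/-- the one-branch rule for a decomposition in powers of `ϖ = ε x` (the uniformiser of the
base at a smooth point of the special fibre). -/
theorem dvr_one_branch_pi (x : R) (hx : Prime x) (ϖ : R) (ε : Rˣ) (hϖ : ϖ = ε * x)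
    (red : R →+* κ) (hred : ∀ c, red c = 0 ↔ x ∣ c)
    (w : κ → ℤ) (hw : ∀ a b : κ, a ≠ 0 → b ≠ 0 → w (a * b) = w a + w b)
    (hw0 : ∀ c : R, red c ≠ 0 → 0 ≤ w (red c))
    (m : ℕ) (f : F) (hf : f ≠ 0)
    (hval : ∀ π : R, Prime π → ¬ Associated π x →
      ∃ v : F → ℤ, (∀ a b : F, a ≠ 0 → b ≠ 0 → v (a * b) = v a + v b) ∧
        v (algebraMap R F π) = 1 ∧
        (∀ c : R, c ≠ 0 → ¬ π ∣ c → v (algebraMap R F c) = 0) ∧ (m : ℤ) ∣ v f)
    (k : ℤ) (n d : R) (hn : ¬ x ∣ n) (hd : ¬ x ∣ d)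
    (hfx : f * algebraMap R F d = algebraMap R F ϖ ^ k * algebraMap R F n) :
    (m : ℤ) ∣ w (red n) - w (red d) := by
  have hxε : ∀ u : Rˣ, ¬ x ∣ (u : R) := fun u h => hx.not_isUnit (isUnit_of_dvd_unit h u.isUnit)
  have hmulnd : ∀ c c' : R, ¬ x ∣ c → ¬ x ∣ c' → ¬ x ∣ c * c' := fun c c' hc hc' h =>
    (hx.dvd_or_dvd h).elim hc hc'
  have hpow : algebraMap R F ϖ ^ k =
      algebraMap R F ((ε ^ k : Rˣ) : R) * algebraMap R F x ^ k := by
    rw [hϖ, map_mul, mul_zpow, s36_algebraMap_units_zpow]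
  have hr : ∀ z : R, ¬ x ∣ z → red z ≠ 0 := fun z hz h0 => hz ((hred z).1 h0)
  have hru : ∀ v : Rˣ, red (v : R) ≠ 0 := fun v => (v.isUnit.map red).ne_zero
  have h := dvr_one_branch x hx red hred w hw hw0 m f hf hval k
    (((ε ^ k : Rˣ) : R) * n) d (hmulnd _ _ (hxε _) hn) hd
    (by rw [hfx, hpow, map_mul]; ring)
  rwa [map_mul, hw _ _ (hru _) (hr n hn), edr_W_unit red w hw hw0, zero_add] at h

/-- the one-branch rule for `f` a unit at `x`, written `f d = n`, `x ∤ n d`. -/
theorem dvr_one_branch_unit (x : R) (hx : Prime x)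
    (red : R →+* κ) (hred : ∀ c, red c = 0 ↔ x ∣ c)
    (w : κ → ℤ) (hw : ∀ a b : κ, a ≠ 0 → b ≠ 0 → w (a * b) = w a + w b)
    (hw0 : ∀ c : R, red c ≠ 0 → 0 ≤ w (red c))
    (m : ℕ) (f : F) (hf : f ≠ 0)
    (hval : ∀ π : R, Prime π → ¬ Associated π x →
      ∃ v : F → ℤ, (∀ a b : F, a ≠ 0 → b ≠ 0 → v (a * b) = v a + v b) ∧
        v (algebraMap R F π) = 1 ∧
        (∀ c : R, c ≠ 0 → ¬ π ∣ c → v (algebraMap R F c) = 0) ∧ (m : ℤ) ∣ v f)
    (n d : R) (hn : ¬ x ∣ n) (hd : ¬ x ∣ d)
    (hfx : f * algebraMap R F d = algebraMap R F n) :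
    (m : ℤ) ∣ w (red n) - w (red d) :=
  dvr_one_branch x hx red hred w hw hw0 m f hf hval 0 n d hn hd
    (by rw [hfx, zpow_zero, one_mul])

end DivRed

end Fermat.Agent.S40lib
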