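/-
Item 88 (S40), block (A-J), piece E2 stage 3 (helper18): **the edge rule at a supersingular
place, over a `NodeSetup` whose reductions are the ring `fsS k j` of a function field**.

* `edc_root_unit`     : `x ^ n = εx h'`, `y ^ n = εy h`, `h h' = ϖ ^ n` in an integrally closed
  domain ⇒ `x y = t ϖ` with `t ∉ s`;
* `edc_exists_unif`   : a uniformiser in `fsS K x` at a place `Q` where `x` is regular;
* `edc_edge_place_abs`: `Q` a place of `κ` (not a pole of `j`) whose centre on `B` is a node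
  (`hSS`).  For `f ≠ 0` of order divisible by `m` at the horizontal primes, `f d = ϖ ^ k n`
  (`n, d ∉ p_∞`), `f d' = ϖ ^ k' n'` (`n', d' ∉ p_0`):
  `m ∣ ord_Q (red_∞ n) - ord_Q (red_∞ d) - (k' - k)`.
-/
import Mathlib
import Fermat.Agent.S36lib.Speed
import Fermat.Agent.S36lib.Setup
import Fermat.Agent.S36lib.InvertSetup
import Fermat.Agent.S36lib.Reg3Local
import Fermat.Agent.FFlib.FSPrimes
import Fermat.Agent.S40lib.EdgeRule
import Fermat.Agent.S40lib.EdgeConc2

set_option autoImplicit false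
set_option linter.style.haveILetI false
set_option linter.unusedSectionVars false
set_option linter.unusedVariables false
set_option synthInstance.maxHeartbeats 400000
set_option maxHeartbeats 1000000

noncomputable section

namespace Fermat.Agent.S40lib

open Fermat.Agent.FFlib Fermat.Agent.S24lib Fermat.Agent.S34lib Fermat.Agent.S36lib
open AlgebraicCurve IsLocalRing WithZero IsDedekindDomain

section Gen

/-- `x ^ n = εx h'`, `y ^ n = εy h`, `h h' = ϖ ^ n` in an integrally closed domain: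
`x y = t ϖ` with `t ∉ s` -/
theorem edc_root_unit {B F : Type*} [CommRing B] [IsDomain B] [Field F] [Algebra B F]
    [IsFractionRing B F] [IsIntegrallyClosed B] (s : Ideal B) [hs : s.IsPrime]
    (x y εx εy h h' ϖ : B) (n : ℕ) (hn : 0 < n) (hϖ : ϖ ≠ 0)
    (hx : x ^ n = εx * h') (hy : y ^ n = εy * h) (hh : h * h' = ϖ ^ n)
    (hεx : εx ∉ s) (hεy : εy ∉ s) : ∃ t : B, t ∉ s ∧ x * y = t * ϖ := by
  have hinj : Function.Injective (algebraMap B F) := IsFractionRing.injective B F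
  have hϖF : algebraMap B F ϖ ≠ 0 := fun h0 => hϖ (hinj (by rw [h0, map_zero]))
  have hB : (x * y) ^ n = εx * εy * ϖ ^ n := by
    rw [mul_pow, hx, hy, ← hh]; ring
  have hpow : (algebraMap B F (x * y) / algebraMap B F ϖ) ^ n = algebraMap B F (εx * εy) := by
    rw [div_pow, ← map_pow, ← map_pow, hB, map_mul, mul_div_assoc,
      div_self (by rw [map_pow]; exact pow_ne_zero _ hϖF), mul_one]
  have hint : IsIntegral B (algebraMap B F (x * y) / algebraMap B F ϖ) := by
    refine IsIntegral.of_pow hn ?_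
    rw [hpow]
    exact isIntegral_algebraMap
  obtain ⟨t, ht⟩ := (IsIntegrallyClosed.isIntegral_iff (R := B) (K := F)).1 hint
  have htϖ : x * y = t * ϖ := by
    apply hinj
    calc algebraMap B F (x * y)
        = (algebraMap B F (x * y) / algebraMap B F ϖ) * algebraMap B F ϖ :=
          (div_mul_cancel₀ _ hϖF).symm
      _ = algebraMap B F t * algebraMap B F ϖ := by rw [ht]
      _ = algebraMap B F (t * ϖ) := (map_mul _ _ _).symm
  refine ⟨t, ?_, htϖ⟩
  intro hts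
  have htn : t ^ n = εx * εy := by
    apply hinj
    rw [map_pow, ht, hpow]
  have h1 : εx * εy ∈ s := by
    rw [← htn]
    exact Ideal.pow_mem_of_mem s hts n hn
  rcases hs.mem_or_mem h1 with h2 | h2
  · exact hεx h2
  · exact hεy h2

variable {K F : Type*} [Field K] [Field F] [Algebra K F] {x : F}

/-- a uniformiser in `fsS K x` at a place where `x` is regular -/
theorem edc_exists_unif [FFSep K x] (Q : Place K F) (hQ : 0 ≤ Q.ord x) :
    ∃ z : fsS K x, Q.ord (z : F) = 1 := by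
  obtain ⟨π, hπ⟩ := (fsPrimeOfPlace Q hQ).intValuation_exists_uniformizer
  refine ⟨π, ?_⟩
  have h1 : (fsPlaceOfPrime (fsPrimeOfPlace Q hQ)).ord (π : F) = 1 := by
    rw [fsOrd_placeOfPrime]
    have h2 : (fsPrimeOfPlace Q hQ).valuation F (π : F) = exp (-1 : ℤ) := by
      rw [← hπ]
      exact (fsPrimeOfPlace Q hQ).valuation_of_algebraMap π
    rw [h2, log_exp, neg_neg]
  rwa [fsPlaceOfPrime_primeOfPlace Q hQ] at h1

end Gen

section PlaceAbs

universe u

variable {K : Type*} [Field K] {k : Type*} [Field k]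
  {A : ValuationSubring K} {π : A →+* k} {κ : Type*} [Field κ] [Algebra k κ]
  {F : Type u} [Field F] [Algebra K F]

set_option maxHeartbeats 4000000 in
/-- **the edge rule at a supersingular place `Q`** of the component `∞` (abstract over the
setup).  `red_∞ B = fsS k j`; `Q` a place of `κ` where `j` is regular, whose centre on `B`
contains `p_0` (`hSS`); REG1 with thickness at the nodes (`hreg1`, `hreg1'`, the shape of
`edc_hreg1`) with `h h' = ϖ ^ 12`.  For `f ≠ 0` of order divisible by `m` at the horizontal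
primes, `f d = ϖ ^ k₁ n` (`n, d ∉ p_∞`), `f d' = ϖ ^ k₂ n'` (`n', d' ∉ p_0`):
`m ∣ ord_Q (red_∞ n) - ord_Q (red_∞ d) - (k₂ - k₁)`. -/
theorem edc_edge_place_abs (S : NodeSetup A π κ F) [IsNoetherianRing S.B]
    [IsIntegrallyClosed S.B] [IsDedekindDomain (S.B ⧸ S.pInf)]
    (hfrac : ∀ z : F, ∃ a b : S.B, b ≠ 0 ∧ z * (b : F) = (a : F))
    (j : κ) [FFSep k j]
    (hiInf : ∀ z : S.B, S.redInf z ∈ fsS k j)
    (hoInf : ∀ c ∈ fsS k j, ∃ z : S.B, S.redInf z = c)
    (ϖ : A) (hϖ0 : ϖ ≠ 0) (hϖK : ∀ c : K, ∃ n : ℕ, c * (ϖ : K) ^ n ∈ A)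
    (h h' : S.B) (hh : h * h' = S.constB ϖ ^ 12)
    (hreg1 : ∀ s, S.IsNode s → ∃ y ε : S.B, y ∈ S.pZero ∧ y ^ 12 = ε * h ∧ ε ∉ s ∧
        (∀ z ∈ S.pZero, y ∣ ε * z) ∧
        ∀ z ∈ s, ∃ w c : S.B, w ∉ s ∧ w * z - c * y ∈ S.pInf)
    (hreg1' : ∀ s, S.IsNode s → ∃ x ε : S.B, x ∈ S.pInf ∧ x ^ 12 = ε * h' ∧ ε ∉ s ∧
        (∀ z ∈ S.pInf, x ∣ ε * z) ∧
        ∀ z ∈ s, ∃ w c : S.B, w ∉ s ∧ w * z - c * x ∈ S.pZero)
    (Q : Place k κ) (hQ : 0 ≤ Q.ord j)
    (hSS : ∀ z ∈ S.pZero, S.redInf z = 0 ∨ 0 < Q.ord (S.redInf z))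
    (m : ℕ) (f : F) (hf : f ≠ 0)
    (hhor : ∀ (R : Type u) [CommRing R] [IsDomain R] [UniqueFactorizationMonoid R]
      [Algebra R F] [IsFractionRing R F] (p : R), Prime p →
      (∀ c : K, ∃ a b : R, ¬ p ∣ b ∧
        algebraMap K F c * algebraMap R F b = algebraMap R F a) →
      ∃ v : F → ℤ, (∀ a b : F, a ≠ 0 → b ≠ 0 → v (a * b) = v a + v b) ∧
        v (algebraMap R F p) = 1 ∧
        (∀ c : R, c ≠ 0 → ¬ p ∣ c → v (algebraMap R F c) = 0) ∧ (m : ℤ) ∣ v f)
    (k₁ k₂ : ℤ) (n d n' d' : S.B) (hn : S.redInf n ≠ 0) (hd : S.redInf d ≠ 0)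
    (hn' : S.redZero n' ≠ 0) (hd' : S.redZero d' ≠ 0)
    (hfx : f * (d : F) = algebraMap K F (ϖ : K) ^ k₁ * (n : F))
    (hfy : f * (d' : F) = algebraMap K F (ϖ : K) ^ k₂ * (n' : F)) :
    (m : ℤ) ∣ (Q.ord (S.redInf n) - Q.ord (S.redInf d)) - (k₂ - k₁) := by
  classical
  haveI hBF : IsFractionRing S.B F := s36_isFractionRing_of_hfrac S.B hfrac
  let ρ : S.B →+* fsS k j := S.redInf.codRestrict (fsS k j) hiInf
  have hρ : ∀ b, ((ρ b : fsS k j) : κ) = S.redInf b := fun b => rfl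
  have hρsurj : Function.Surjective ρ := by
    intro c
    obtain ⟨z, hz⟩ := hoInf c c.2
    exact ⟨z, Subtype.ext hz⟩
  let s : Ideal S.B := Ideal.comap ρ (fsPrimeOfPlace Q hQ).asIdeal
  have hmem : ∀ b : S.B, b ∈ s ↔ S.redInf b = 0 ∨ 0 < Q.ord (S.redInf b) := by
    intro b
    show ρ b ∈ (fsPrimeOfPlace Q hQ).asIdeal ↔ _
    rw [fsMem_primeOfPlace_iff, hρ b]
    constructor
    · rintro (h0 | h0)
      · left
        rw [← hρ b, h0]
        rfl
      · right; exact h0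
    · rintro (h0 | h0)
      · left; exact Subtype.ext h0
      · right; exact h0
  haveI hPmax : (fsPrimeOfPlace Q hQ).asIdeal.IsMaximal := (fsPrimeOfPlace Q hQ).isMaximal
  haveI hsmax : s.IsMaximal := Ideal.comap_isMaximal_of_surjective ρ hρsurj
  have hsInf : S.pInf ≤ s := fun b hb => (hmem b).2 (Or.inl ((RingHom.mem_ker).1 hb))
  have hsZero : S.pZero ≤ s := fun b hb => (hmem b).2 (hSS b hb)
  have hnode : S.IsNode s := ⟨hsmax, sup_le hsInf hsZero⟩
  obtain ⟨y, εy, hy, hy12, hεy, hyg, hyth⟩ := hreg1 s hnode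
  obtain ⟨x, εx, hx, hx12, hεx, hxg, -⟩ := hreg1' s hnode
  have hq0 : S.constB ϖ ≠ 0 := by
    intro h0
    have h1 : ((S.constB ϖ : S.B) : F) = 0 := by rw [h0]; rfl
    rw [S.coe_constB] at h1
    have h2 : (ϖ : K) = 0 := (map_eq_zero (algebraMap K F)).1 h1
    exact hϖ0 (Subtype.ext h2)
  haveI hsp : s.IsPrime := hsmax.isPrime
  obtain ⟨t, ht, hxy⟩ := edc_root_unit (F := F) s x y εx εy h h' (S.constB ϖ) 12
    (by norm_num) hq0 hx12 hy12 hh hεx hεy
  -- the order at `Q`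
  have hord0 : ∀ c : S.B, 0 ≤ Q.ord (S.redInf c) := fun c =>
    ffOrd_nonneg_of_mem Q (fsS_le Q hQ _ (hiInf c))
  have hws : ∀ c : S.B, c ∉ s → Q.ord (S.redInf c) = 0 := by
    intro c hc
    have h1 : ¬ (0 < Q.ord (S.redInf c)) := fun h0 => hc ((hmem c).2 (Or.inr h0))
    have h2 := hord0 c
    omega
  -- a uniformiser and the thickness
  obtain ⟨z₀, hz₀⟩ := edc_exists_unif Q hQ
  obtain ⟨z, hz⟩ := hoInf z₀ z₀.2
  have hz1 : Q.ord (S.redInf z) = 1 := by rw [hz]; exact hz₀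
  have hzs : z ∈ s := (hmem z).2 (Or.inr (by rw [hz1]; norm_num))
  obtain ⟨w, c, hw, hwc⟩ := hyth z hzs
  have hwc' : S.redInf w * S.redInf z = S.redInf c * S.redInf y := by
    have h1 : S.redInf (w * z - c * y) = 0 := (RingHom.mem_ker).1 hwc
    rw [map_sub, map_mul, map_mul, sub_eq_zero] at h1
    exact h1
  have hw0 : S.redInf w ≠ 0 := fun h0 => hw ((hmem w).2 (Or.inl h0))
  have hz0 : S.redInf z ≠ 0 := by
    intro h0
    rw [h0, Place.ord_zero] at hz1
    norm_num at hz1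
  have hprod : S.redInf c * S.redInf y ≠ 0 := by
    rw [← hwc']
    exact mul_ne_zero hw0 hz0
  have hc0 : S.redInf c ≠ 0 := left_ne_zero_of_mul hprod
  have hy0 : S.redInf y ≠ 0 := right_ne_zero_of_mul hprod
  have hwy : Q.ord (S.redInf y) = 1 := by
    have e1 := Q.ord_mul hw0 hz0
    have e2 := Q.ord_mul hc0 hy0
    rw [hwc'] at e1
    have e3 := hws w hw
    have e5 := hord0 c
    have e6 : 0 < Q.ord (S.redInf y) := by
      rcases (hmem y).1 (hsZero hy) with h0 | h0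
      · exact absurd h0 hy0
      · exact h0
    omega
  -- the local ring is factorial
  have hne : S.pInf ≠ s := by
    intro heq
    have h1 : y ∈ S.pInf := heq ▸ hsZero hy
    exact hy0 ((RingHom.mem_ker).1 h1)
  have hufd : UniqueFactorizationMonoid (Localization.AtPrime s) :=
    reg3_ufm S.pInf s hsInf hne x hx (fun z hz => by
      obtain ⟨c, hc⟩ := hxg z hz
      exact ⟨εx, c, hεx, hc⟩)
  exact edc_edge_abs S hfrac s hsInf hsZero hufd ϖ hϖ0 hϖK x y εx εy t hx hxg hεx hy hyg hεy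
    hxy ht Q.ord (fun a b ha hb => Q.ord_mul ha hb) (fun c _ => hord0 c) hws hy0 hwy m f hf
    hhor k₁ k₂ n d n' d' hn hd hn' hd' hfx hfy

end PlaceAbs

end Fermat.Agent.S40lib

end
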