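/-
Item 88 (S40), block (A-J), piece E2 stage 4 (helper18): **THE EDGE RULE AT THE SUPERSINGULAR
PLACES, level `N = M' q`, concrete and unconditional** (`q := p` for S40).

`SN := nodeSetupNj A M' q hq hqM hA R hR` (`B = B_j(N) ⊂ F0(N) = f0Field A (M' q)`),
`κ = Fk k M'` the function field of `X_0(M')` over `k = ` the residue field, `Q` a place of `κ`
which is not a cusp (`0 ≤ ord_Q j`) and whose centre on `B` is a node
(`hSS : ∀ z ∈ p_0, red_∞ z = 0 ∨ 0 < ord_Q (red_∞ z)`).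

`edc_edge_place`: for a `K0`-rational function `f ≠ 0` whose divisor on `X_0(N)` over `Kbar` is
divisible by `m` (`hdiv`), with `f d = q ^ k₁ n` (`n, d ∈ B ∖ p_∞`) and `f d' = q ^ k₂ n'`
(`n', d' ∈ B ∖ p_0`):

    `m ∣ ord_Q (red_∞ n) - ord_Q (red_∞ d) - (k₂ - k₁)`,

i.e. `ord_Q (red_∞ (f / q ^ v_∞ f)) ≡ v_0 f - v_∞ f  (mod m)`.
-/
import Mathlib
import Fermat.Agent.S36lib.Speed
import Fermat.Agent.S36lib.Reg1Done
import Fermat.Agent.S36lib.W2jConc
import Fermat.Agent.S36lib.PlaceDictFF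
import Fermat.Agent.S36lib.Apply2Invert
import Fermat.Agent.S40lib.EdgeConc
import Fermat.Agent.S40lib.EdgeConc3

set_option autoImplicit false
set_option linter.style.haveILetI false
set_option linter.unusedSectionVars false
set_option linter.unusedVariables false
set_option synthInstance.maxHeartbeats 400000
set_option maxHeartbeats 1000000

noncomputable section

namespace Fermat.Agent.S40lib

open Fermat.Agent.FFlib Fermat.Agent.S24lib Fermat.Agent.GM Fermat.Agent.GoodRed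
  Fermat.Agent.S34lib Fermat.Agent.RRlib Fermat.Agent.S16lib Fermat.Agent.S36lib
open AlgebraicCurve IsLocalRing IntermediateField IsDedekindDomain ModularCurve

section Conc

variable (A : ValuationSubring Kbar) (M' q : ℕ) [NeZero M'] [NeZero q] (hq : q.Prime)
  (hqM : ¬ q ∣ M') (hA : A.LiesOverPrime q)
  (R : ConstRed A (IsLocalRing.residue A)
      (↥(modularFunctionFieldFullC (IsLocalRing.ResidueField A) M')) (FF (M' * q)))
  (hR : IsSeriesRed R)

/-- `h h' = q ^ 12` in `B_j(N)` -/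
theorem edc_hh' :
    uqrHB A M' q hq hqM hA R hR * uqrHB' A M' q hq hqM hA R hR =
      (nodeSetupNj A M' q hq hqM hA R hR).constB (q : k0Val A) ^ 12 := by
  apply Subtype.ext
  apply Subtype.ext
  show (uqrU M' q)⁻¹ * (algebraMap Kbar (FF (M' * q)) ((q : Kbar) ^ 12) * uqrU M' q) =
    (((((nodeSetupNj A M' q hq hqM hA R hR).constB (q : k0Val A) ^ 12 :
      (nodeSetupNj A M' q hq hqM hA R hR).B) : f0Field A (M' * q)) : FF (M' * q)))
  have hu : uqrU M' q ≠ 0 := unitQ_ne_zero (M' * q) q (dvd_mul_left q M')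
  have h1 : (((((nodeSetupNj A M' q hq hqM hA R hR).constB (q : k0Val A) ^ 12 :
      (nodeSetupNj A M' q hq hqM hA R hR).B) : f0Field A (M' * q)) : FF (M' * q))) =
      (algebraMap Kbar (FF (M' * q)) (q : Kbar)) ^ 12 := by
    rw [← a2i_coe_Q A q (L := M' * q)]
    rfl
  rw [h1, map_pow]
  field_simp

set_option maxHeartbeats 4000000 in
/-- **THE EDGE RULE at the supersingular places of level `N = M' q`, unconditional.** -/
theorem edc_edge_place (haux : IsAuxLevel q M')
    (Q : Place (IsLocalRing.ResidueField A) (Fk (IsLocalRing.ResidueField A) M'))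
    (hQ : 0 ≤ Q.ord (jk (IsLocalRing.ResidueField A) M'))
    (hSS : ∀ z ∈ (nodeSetupNj A M' q hq hqM hA R hR).pZero,
      (nodeSetupNj A M' q hq hqM hA R hR).redInf z = 0 ∨
        0 < Q.ord ((nodeSetupNj A M' q hq hqM hA R hR).redInf z))
    (m : ℕ) (f : f0Field A (M' * q)) (hf : f ≠ 0)
    (hdiv : ∀ P : Place Kbar (FF (M' * q)), (m : ℤ) ∣ P.ord (f : FF (M' * q)))
    (k₁ k₂ : ℤ) (n d n' d' : (nodeSetupNj A M' q hq hqM hA R hR).B)
    (hn : (nodeSetupNj A M' q hq hqM hA R hR).redInf n ≠ 0)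
    (hd : (nodeSetupNj A M' q hq hqM hA R hR).redInf d ≠ 0)
    (hn' : (nodeSetupNj A M' q hq hqM hA R hR).redZero n' ≠ 0)
    (hd' : (nodeSetupNj A M' q hq hqM hA R hR).redZero d' ≠ 0)
    (hfx : f * (d : f0Field A (M' * q)) = a2iQ A q (L := M' * q) ^ k₁ * (n : f0Field A (M' * q)))
    (hfy : f * (d' : f0Field A (M' * q)) =
      a2iQ A q (L := M' * q) ^ k₂ * (n' : f0Field A (M' * q))) :
    (m : ℤ) ∣ (Q.ord ((nodeSetupNj A M' q hq hqM hA R hR).redInf n) -
      Q.ord ((nodeSetupNj A M' q hq hqM hA R hR).redInf d)) - (k₂ - k₁) := by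
  have hSUM : RgnSum A M' q hq hqM R := fun z h1 h3 => w2j_rgnSum A M' q hq hqM hA R hR z h1 h3
  haveI : IsAlgClosed (IsLocalRing.ResidueField A) := isAlgClosed_residueField A
  haveI : FFSep (IsLocalRing.ResidueField A) (jk (IsLocalRing.ResidueField A) M') :=
    gmw_ffSep (IsLocalRing.ResidueField A) M'
  haveI : IsIntegrallyClosed (nodeSetupNj A M' q hq hqM hA R hR).B :=
    r1c_isIntegrallyClosed A M' q hq hqM hA R hR hSUM
  haveI : IsNoetherianRing (nodeSetupNj A M' q hq hqM hA R hR).B :=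
    (r1c_noeth_frac A M' q hq hqM hA R hR hSUM).1
  haveI : IsDedekindDomain (nodeSetupNj A M' q hq hqM hA R hR).redInf.range :=
    rgn_isDedekindDomain_inf A M' q hq hqM hA R hR haux hSUM
  haveI : IsDedekindDomain ((nodeSetupNj A M' q hq hqM hA R hR).B ⧸
      (nodeSetupNj A M' q hq hqM hA R hR).pInf) :=
    (nodeSetupNj A M' q hq hqM hA R hR).isDedekindDomain_quot_pInf
  have hreg := edc_hreg1 A M' q hq hqM hA R hR haux
  exact edc_edge_place_abs (nodeSetupNj A M' q hq hqM hA R hR)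
    (r1c_noeth_frac A M' q hq hqM hA R hR hSUM).2
    (jk (IsLocalRing.ResidueField A) M')
    (rgn_hiInf A M' q hq hqM hA R hR hSUM) (rgn_hoInf A M' q hq hqM hA R hR haux)
    (q : k0Val A) (a2i_q_ne_zero A q hq) (a2i_exists_pow_mem A q hq hA)
    (uqrHB A M' q hq hqM hA R hR) (uqrHB' A M' q hq hqM hA R hR)
    (edc_hh' A M' q hq hqM hA R hR) hreg.1 hreg.2 Q hQ hSS m f hf
    (fun R' _ _ _ _ _ p hp hK0 => pd_hhor_FF A (M' * q) m f hdiv R' p hp hK0)
    k₁ k₂ n d n' d' hn hd hn' hd' hfx hfy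

end Conc

end Fermat.Agent.S40lib

end
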