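/-
Item 88 (S40), block (A-J), piece E2 stage 5 (helper18): **the edge rule on the component `0`**
(the roles of `∞` and `0` exchanged), level `N = M' q`, concrete and unconditional.

* `edc_swap`            : the `NodeSetup` with `v_∞` and `v_0` exchanged;
* `edc_edge_place_zero` : `Q` a place of `κ`, not a cusp, whose centre on `B` UNDER `red_0` is a
  node (`hSS0 : ∀ z ∈ p_∞, red_0 z = 0 ∨ 0 < ord_Q (red_0 z)`); then, with the notation of
  `edc_edge_place`,   `m ∣ ord_Q (red_0 n') - ord_Q (red_0 d') - (k₁ - k₂)`.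
-/
import Mathlib
import Fermat.Agent.S40lib.EdgeConc4

set_option autoImplicit false
set_option linter.style.haveILetI false
set_option linter.unusedSectionVars false
set_option linter.unusedVariables false
set_option synthInstance.maxHeartbeats 400000
set_option maxHeartbeats 1000000

noncomputable section

namespace Fermat.Agent.S40lib

open Fermat.Agent.FFlib Fermat.Agent.S24lib Fermat.Agent.GM Fermat.Agent.GoodRed
  Fermat.Agent.S34lib Fermat.Agent.RRlib Fermat.Agent.S16lib Fermat.Agent.S36lib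
open AlgebraicCurve IsLocalRing IntermediateField IsDedekindDomain ModularCurve

section Swap

variable {K : Type*} [Field K] {k : Type*} [Field k]
  {A : ValuationSubring K} {π : A →+* k} {κ : Type*} [Field κ] [Algebra k κ]
  {F : Type*} [Field F] [Algebra K F]

/-- the setup with the components `∞` and `0` exchanged -/
def edc_swap (S : NodeSetup A π κ F) : NodeSetup A π κ F where
  vInf := S.vZero
  vMid := S.vMid
  vZero := S.vInf
  B := S.B
  algebraMap_mem_B := S.algebraMap_mem_B
  B_le_inf := S.B_le_zero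
  B_le_mid := S.B_le_mid
  B_le_zero := S.B_le_inf

end Swap

section Conc

variable (A : ValuationSubring Kbar) (M' q : ℕ) [NeZero M'] [NeZero q] (hq : q.Prime)
  (hqM : ¬ q ∣ M') (hA : A.LiesOverPrime q)
  (R : ConstRed A (IsLocalRing.residue A)
      (↥(modularFunctionFieldFullC (IsLocalRing.ResidueField A) M')) (FF (M' * q)))
  (hR : IsSeriesRed R)

set_option maxHeartbeats 4000000 in
/-- **THE EDGE RULE on the component `0`, at the supersingular places, unconditional.** -/
theorem edc_edge_place_zero (haux : IsAuxLevel q M')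
    (Q : Place (IsLocalRing.ResidueField A) (Fk (IsLocalRing.ResidueField A) M'))
    (hQ : 0 ≤ Q.ord (jk (IsLocalRing.ResidueField A) M'))
    (hSS0 : ∀ z ∈ (nodeSetupNj A M' q hq hqM hA R hR).pInf,
      (nodeSetupNj A M' q hq hqM hA R hR).redZero z = 0 ∨
        0 < Q.ord ((nodeSetupNj A M' q hq hqM hA R hR).redZero z))
    (m : ℕ) (f : f0Field A (M' * q)) (hf : f ≠ 0)
    (hdiv : ∀ P : Place Kbar (FF (M' * q)), (m : ℤ) ∣ P.ord (f : FF (M' * q)))
    (k₁ k₂ : ℤ) (n d n' d' : (nodeSetupNj A M' q hq hqM hA R hR).B)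
    (hn : (nodeSetupNj A M' q hq hqM hA R hR).redInf n ≠ 0)
    (hd : (nodeSetupNj A M' q hq hqM hA R hR).redInf d ≠ 0)
    (hn' : (nodeSetupNj A M' q hq hqM hA R hR).redZero n' ≠ 0)
    (hd' : (nodeSetupNj A M' q hq hqM hA R hR).redZero d' ≠ 0)
    (hfx : f * (d : f0Field A (M' * q)) = a2iQ A q (L := M' * q) ^ k₁ * (n : f0Field A (M' * q)))
    (hfy : f * (d' : f0Field A (M' * q)) =
      a2iQ A q (L := M' * q) ^ k₂ * (n' : f0Field A (M' * q))) :
    (m : ℤ) ∣ (Q.ord ((nodeSetupNj A M' q hq hqM hA R hR).redZero n') -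
      Q.ord ((nodeSetupNj A M' q hq hqM hA R hR).redZero d')) - (k₁ - k₂) := by
  have hSUM : RgnSum A M' q hq hqM R := fun z h1 h3 => w2j_rgnSum A M' q hq hqM hA R hR z h1 h3
  haveI : IsAlgClosed (IsLocalRing.ResidueField A) := isAlgClosed_residueField A
  haveI : FFSep (IsLocalRing.ResidueField A) (jk (IsLocalRing.ResidueField A) M') :=
    gmw_ffSep (IsLocalRing.ResidueField A) M'
  haveI hIC : IsIntegrallyClosed (nodeSetupNj A M' q hq hqM hA R hR).B :=
    r1c_isIntegrallyClosed A M' q hq hqM hA R hR hSUM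
  haveI hN : IsNoetherianRing (nodeSetupNj A M' q hq hqM hA R hR).B :=
    (r1c_noeth_frac A M' q hq hqM hA R hR hSUM).1
  haveI : IsDedekindDomain (nodeSetupNj A M' q hq hqM hA R hR).redZero.range :=
    rgn_isDedekindDomain_zero A M' q hq hqM hA R hR haux hSUM
  haveI hD : IsDedekindDomain ((nodeSetupNj A M' q hq hqM hA R hR).B ⧸
      (nodeSetupNj A M' q hq hqM hA R hR).pZero) :=
    (nodeSetupNj A M' q hq hqM hA R hR).isDedekindDomain_quot_pZero
  have hreg := edc_hreg1 A M' q hq hqM hA R hR haux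
  have hnode : ∀ s, (edc_swap (nodeSetupNj A M' q hq hqM hA R hR)).IsNode s →
      (nodeSetupNj A M' q hq hqM hA R hR).IsNode s := by
    rintro s ⟨h1, h2⟩
    exact ⟨h1, sup_le (le_trans le_sup_right h2) (le_trans le_sup_left h2)⟩
  haveI : IsIntegrallyClosed (edc_swap (nodeSetupNj A M' q hq hqM hA R hR)).B := hIC
  haveI : IsNoetherianRing (edc_swap (nodeSetupNj A M' q hq hqM hA R hR)).B := hN
  haveI : IsDedekindDomain ((edc_swap (nodeSetupNj A M' q hq hqM hA R hR)).B ⧸
      (edc_swap (nodeSetupNj A M' q hq hqM hA R hR)).pInf) := hD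
  exact edc_edge_place_abs (edc_swap (nodeSetupNj A M' q hq hqM hA R hR))
    (r1c_noeth_frac A M' q hq hqM hA R hR hSUM).2
    (jk (IsLocalRing.ResidueField A) M')
    (rgn_hiZero A M' q hq hqM hA R hR hSUM) (rgn_hoZero A M' q hq hqM hA R hR haux)
    (q : k0Val A) (a2i_q_ne_zero A q hq) (a2i_exists_pow_mem A q hq hA)
    (uqrHB' A M' q hq hqM hA R hR) (uqrHB A M' q hq hqM hA R hR)
    ((mul_comm _ _).trans (edc_hh' A M' q hq hqM hA R hR))
    (fun s hs => hreg.2 s (hnode s hs)) (fun s hs => hreg.1 s (hnode s hs)) Q hQ hSS0 m f hf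
    (fun R' _ _ _ _ _ p hp hK0 => pd_hhor_FF A (M' * q) m f hdiv R' p hp hK0)
    k₂ k₁ n' d' n d hn' hd' hn hd hfy hfx

end Conc

end Fermat.Agent.S40lib

end
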