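/-
Item 88 (S40), block (A-J), piece E2 stage 6 (helper18): **the edge rule in UNIT FORM**.

* `edc_decomp_abs` : at a node `s` (local ring factorial, `x` a local generator of `p_∞`,
  `x y = t ϖ`): every `f ≠ 0` of `F` is `f d = ϖ ^ k n` with `n, d ∈ B ∖ p_∞`;
* `edc_unit_exp`   : if moreover `f` is a unit of `O_∞` then `k = 0`;
* `edc_redZero_x_ne_zero` : `red_0 x ≠ 0` from `red_∞ y ≠ 0`.
-/
import Mathlib
import Fermat.Agent.S36lib.Speed
import Fermat.Agent.S36lib.Setup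
import Fermat.Agent.S36lib.InvertSetup
import Fermat.Agent.S36lib.InvertOrd
import Fermat.Agent.S40lib.EdgeRule
import Fermat.Agent.S40lib.EdgeConc2

set_option autoImplicit false
set_option linter.style.haveILetI false
set_option linter.unusedSectionVars false
set_option linter.unusedVariables false
set_option synthInstance.maxHeartbeats 400000
set_option maxHeartbeats 1000000

noncomputable section

namespace Fermat.Agent.S40lib

open Fermat.Agent.S24lib Fermat.Agent.S34lib Fermat.Agent.S36lib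

section Decomp

universe u

variable {K : Type*} [Field K] {k : Type*} [Field k]
  {A : ValuationSubring K} {π : A →+* k} {κ : Type*} [Field κ] [Algebra k κ]
  {F : Type u} [Field F] [Algebra K F]

/-- `red_0 x ≠ 0` for the local generator `x` of `p_∞` at a node, from `red_∞ y ≠ 0` -/
theorem edc_redZero_x_ne_zero (S : NodeSetup A π κ F) (s : Ideal S.B) [hs : s.IsPrime]
    (x y εx εy : S.B) (hx0 : x ≠ 0)
    (hx : x ∈ S.pInf) (hxg : ∀ z ∈ S.pInf, x ∣ εx * z) (hεx : εx ∉ s)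
    (hy : y ∈ S.pZero) (hyg : ∀ z ∈ S.pZero, y ∣ εy * z) (hεy : εy ∉ s)
    (hys : y ∈ s) (hy0 : S.redInf y ≠ 0) : S.redZero x ≠ 0 := by
  intro h0
  obtain ⟨c, hc⟩ := hyg x ((RingHom.mem_ker).2 h0)
  -- εy x = y c ; apply red_∞
  have h1 : S.redInf y * S.redInf c = 0 := by
    rw [← map_mul, ← hc, map_mul, (RingHom.mem_ker).1 hx, mul_zero]
  have hc0 : S.redInf c = 0 := (mul_eq_zero.1 h1).resolve_left hy0
  obtain ⟨c', hc'⟩ := hxg c ((RingHom.mem_ker).2 hc0)
  -- εx c = x c'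
  have h2 : x * (εx * εy) = x * (y * c') := by
    calc x * (εx * εy) = εx * (εy * x) := by ring
      _ = εx * (y * c) := by rw [hc]
      _ = y * (εx * c) := by ring
      _ = y * (x * c') := by rw [hc']
      _ = x * (y * c') := by ring
  have h3 : εx * εy = y * c' := mul_left_cancel₀ hx0 h2
  have h4 : εx * εy ∈ s := by
    rw [h3]
    exact s.mul_mem_right _ hys
  rcases hs.mem_or_mem h4 with h5 | h5
  · exact hεx h5
  · exact hεy h5

/-- a unit of `O_∞` has exponent `0` in any decomposition `f d = ϖ ^ k n`, `n, d ∈ B ∖ p_∞` -/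
theorem edc_unit_exp (S : NodeSetup A π κ F) (ϖ : A) (hϖ0 : ϖ ≠ 0) (hπϖ : π ϖ = 0)
    (f : F) (hfO : f ∈ S.vInf.O) (hfO' : f⁻¹ ∈ S.vInf.O)
    (k : ℤ) (n d : S.B) (hn : S.redInf n ≠ 0) (hd : S.redInf d ≠ 0)
    (hfx : f * (d : F) = algebraMap K F (ϖ : K) ^ k * (n : F)) : k = 0 := by
  have hqF : algebraMap K F (ϖ : K) ≠ 0 := by
    intro h0
    have h2 : (ϖ : K) = 0 := (map_eq_zero (algebraMap K F)).1 h0
    exact hϖ0 (Subtype.ext h2)
  have hqInf : S.constB ϖ ∈ S.pInf := by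
    show S.redInf (S.constB ϖ) = 0
    rw [S.redInf_constB, hπϖ, map_zero]
  have hqnon : algebraMap K F (ϖ : K) ∈ S.vInf.O.nonunits := (S.mem_pInf_iff _).1 hqInf
  have hnO' : ((n : F))⁻¹ ∈ S.vInf.O :=
    s36_unit_of_notMem_nonunits S.vInf.O (S.B_le_inf n.2) (fun h => hn ((S.mem_pInf_iff n).2 h))
  have hdO' : ((d : F))⁻¹ ∈ S.vInf.O :=
    s36_unit_of_notMem_nonunits S.vInf.O (S.B_le_inf d.2) (fun h => hd ((S.mem_pInf_iff d).2 h))
  have hn0 : (n : F) ≠ 0 := fun h0 => hn (by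
    have : n = 0 := Subtype.ext h0
    rw [this, map_zero])
  have hd0 : (d : F) ≠ 0 := fun h0 => hd (by
    have : d = 0 := Subtype.ext h0
    rw [this, map_zero])
  have hf0 : f ≠ 0 := by
    rintro rfl
    rw [zero_mul] at hfx
    exact mul_ne_zero (zpow_ne_zero k hqF) hn0 hfx.symm
  -- `ϖ ^ k = f d n⁻¹` is a unit of `O_∞`
  have hpow : algebraMap K F (ϖ : K) ^ k = f * (d : F) * ((n : F))⁻¹ := by
    rw [hfx, mul_assoc, mul_inv_cancel₀ hn0, mul_one]
  have hpowO : algebraMap K F (ϖ : K) ^ k ∈ S.vInf.O := by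
    rw [hpow]
    exact S.vInf.O.mul_mem _ _ (S.vInf.O.mul_mem _ _ hfO (S.B_le_inf d.2)) hnO'
  have hpowO' : (algebraMap K F (ϖ : K) ^ k)⁻¹ ∈ S.vInf.O := by
    rw [hpow, mul_inv, mul_inv, inv_inv]
    exact S.vInf.O.mul_mem _ _ (S.vInf.O.mul_mem _ _ hfO' hdO') (S.B_le_inf n.2)
  -- the valuation
  have hv1 : S.vInf.O.valuation (algebraMap K F (ϖ : K) ^ k) = 1 := by
    apply le_antisymm
    · exact (S.vInf.O.valuation_le_one_iff _).2 hpowO
    · have h1 := (S.vInf.O.valuation_le_one_iff _).2 hpowO'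
      rw [map_inv₀] at h1
      have hne : S.vInf.O.valuation (algebraMap K F (ϖ : K) ^ k) ≠ 0 :=
        (Valuation.ne_zero_iff _).2 (zpow_ne_zero k hqF)
      exact (inv_le_one₀ (zero_lt_iff.2 hne)).1 h1
  have hvq : S.vInf.O.valuation (algebraMap K F (ϖ : K)) < 1 :=
    (ValuationSubring.mem_nonunits_iff _).1 hqnon
  have hvq0 : S.vInf.O.valuation (algebraMap K F (ϖ : K)) ≠ 0 :=
    (Valuation.ne_zero_iff _).2 hqF
  rw [map_zpow₀] at hv1
  by_contra hk
  rcases lt_or_gt_of_ne hk with hk1 | hk1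
  · -- k < 0
    have h2 : 1 < S.vInf.O.valuation (algebraMap K F (ϖ : K)) ^ k :=
      one_lt_zpow_of_neg₀ (zero_lt_iff.2 hvq0) hvq hk1
    rw [hv1] at h2
    exact lt_irrefl _ h2
  · have h2 : S.vInf.O.valuation (algebraMap K F (ϖ : K)) ^ k < 1 :=
      zpow_lt_one₀ (zero_lt_iff.2 hvq0) hvq hk1
    rw [hv1] at h2
    exact lt_irrefl _ h2

set_option maxHeartbeats 4000000 in
/-- **the decomposition at a node**: the local ring `B_s` factorial, `x` a local generator of
`p_∞` at `s`, `x y = t ϖ` with `t ∉ s`, `red_∞ y ≠ 0`.  Every `f ≠ 0` of `F` is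
`f d = ϖ ^ k n` with `n, d ∈ B ∖ p_∞`. -/
theorem edc_decomp_abs (S : NodeSetup A π κ F)
    (hfrac : ∀ z : F, ∃ a b : S.B, b ≠ 0 ∧ z * (b : F) = (a : F))
    (s : Ideal S.B) [hs : s.IsMaximal] (hsInf : S.pInf ≤ s)
    (hufd : UniqueFactorizationMonoid (Localization.AtPrime s))
    (ϖ : A) (hϖ0 : ϖ ≠ 0)
    (x y εx t : S.B)
    (hx : x ∈ S.pInf) (hxg : ∀ z ∈ S.pInf, x ∣ εx * z) (hεx : εx ∉ s)
    (hxy : x * y = t * S.constB ϖ) (ht : t ∉ s) (hy0 : S.redInf y ≠ 0)
    (f : F) (hf : f ≠ 0) :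
    ∃ (k : ℤ) (n d : S.B), S.redInf n ≠ 0 ∧ S.redInf d ≠ 0 ∧
      f * (d : F) = algebraMap K F (ϖ : K) ^ k * (n : F) := by
  classical
  haveI hBF : IsFractionRing S.B F := s36_isFractionRing_of_hfrac S.B hfrac
  haveI hsp : s.IsPrime := hs.isPrime
  have hMle : s.primeCompl ≤ nonZeroDivisors S.B := by
    intro b hb
    refine mem_nonZeroDivisors_of_ne_zero ?_
    rintro rfl
    exact hb s.zero_mem
  have hunits : ∀ u : s.primeCompl, IsUnit (algebraMap S.B F u) := by
    intro u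
    have hu0 : (u : S.B) ≠ 0 := nonZeroDivisors.ne_zero (hMle u.2)
    have : algebraMap S.B F u ≠ 0 := fun h0 => hu0 (Subtype.ext h0)
    exact IsUnit.mk0 _ this
  let R := Localization.AtPrime s
  letI algRF : Algebra R F := (IsLocalization.lift (M := s.primeCompl)
    (g := algebraMap S.B F) hunits).toAlgebra
  haveI hST : IsScalarTower S.B R F := IsScalarTower.of_algebraMap_eq fun b =>
    (IsLocalization.lift_eq (M := s.primeCompl) (g := algebraMap S.B F) hunits b).symm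
  haveI hdom : IsDomain R := IsLocalization.isDomain_of_le_nonZeroDivisors R hMle
  haveI hufm : UniqueFactorizationMonoid R := hufd
  haveI hRF : IsFractionRing R F :=
    IsFractionRing.isFractionRing_of_isDomain_of_isLocalization s.primeCompl R F
  have hcoe : ∀ b : S.B, algebraMap R F (algebraMap S.B R b) = (b : F) := fun b =>
    s36_algebraMap_R_F (B := S.B) (R := R) (F := F) b
  have hinjBR : Function.Injective (algebraMap S.B R) :=
    IsLocalization.injective R hMle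
  obtain ⟨red, hredB, hred⟩ := edc_lift s S.redInf hsInf x εx hx hxg hεx
  have hq0 : S.constB ϖ ≠ 0 := by
    intro h0
    have h1 : ((S.constB ϖ : S.B) : F) = 0 := by rw [h0]; rfl
    rw [S.coe_constB] at h1
    have h2 : (ϖ : K) = 0 := (map_eq_zero (algebraMap K F)).1 h1
    exact hϖ0 (Subtype.ext h2)
  have ht0 : t ≠ 0 := fun h0 => ht (h0 ▸ s.zero_mem)
  have hxy0 : x * y ≠ 0 := by rw [hxy]; exact mul_ne_zero ht0 hq0
  have hxB0 : x ≠ 0 := left_ne_zero_of_mul hxy0
  have hxR0 : algebraMap S.B R x ≠ 0 := fun h0 => hxB0 (hinjBR (by rw [h0, map_zero]))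
  have hxP : Prime (algebraMap S.B R x) := by
    have hker : Ideal.span {algebraMap S.B R x} = RingHom.ker red := by
      ext c
      rw [Ideal.mem_span_singleton, RingHom.mem_ker, hred]
    have hprime : (Ideal.span {algebraMap S.B R x}).IsPrime := by
      rw [hker]; exact RingHom.ker_isPrime red
    exact (Ideal.span_singleton_prime hxR0).1 hprime
  obtain ⟨a, b, ha, hb, hab⟩ := s36_ordAt_spec (F := F) (algebraMap S.B R x) hxP hf
  obtain ⟨a₀, wa, rfl⟩ := IsLocalization.exists_mk'_eq s.primeCompl a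
  obtain ⟨b₀, wb, rfl⟩ := IsLocalization.exists_mk'_eq s.primeCompl b
  have hspa : IsLocalization.mk' R a₀ wa * algebraMap S.B R wa = algebraMap S.B R a₀ :=
    IsLocalization.mk'_spec _ a₀ wa
  have hspb : IsLocalization.mk' R b₀ wb * algebraMap S.B R wb = algebraMap S.B R b₀ :=
    IsLocalization.mk'_spec _ b₀ wb
  have e1 : algebraMap R F (IsLocalization.mk' R a₀ wa) * ((wa : S.B) : F) = (a₀ : F) := by
    rw [← hcoe (wa : S.B), ← map_mul, hspa, hcoe]
  have e2 : algebraMap R F (IsLocalization.mk' R b₀ wb) * ((wb : S.B) : F) = (b₀ : F) := by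
    rw [← hcoe (wb : S.B), ← map_mul, hspb, hcoe]
  have hrwa : S.redInf (wa : S.B) ≠ 0 := fun h => wa.2 (hsInf ((RingHom.mem_ker).2 h))
  have hrwb : S.redInf (wb : S.B) ≠ 0 := fun h => wb.2 (hsInf ((RingHom.mem_ker).2 h))
  have hrt : S.redInf t ≠ 0 := fun h => ht (hsInf ((RingHom.mem_ker).2 h))
  have hra : S.redInf a₀ ≠ 0 := by
    intro h0
    apply ha
    rw [← hred]
    have h1 : red (IsLocalization.mk' R a₀ wa) * S.redInf (wa : S.B) = S.redInf a₀ := by
      rw [← hredB (wa : S.B), ← map_mul, hspa, hredB]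
    rw [h0] at h1
    exact (mul_eq_zero.1 h1).resolve_right hrwa
  have hrb : S.redInf b₀ ≠ 0 := by
    intro h0
    apply hb
    rw [← hred]
    have h1 : red (IsLocalization.mk' R b₀ wb) * S.redInf (wb : S.B) = S.redInf b₀ := by
      rw [← hredB (wb : S.B), ← map_mul, hspb, hredB]
    rw [h0] at h1
    exact (mul_eq_zero.1 h1).resolve_right hrwb
  have e3 : (x : F) * (y : F) = (t : F) * algebraMap K F (ϖ : K) := by
    have h1 := congrArg (fun z : S.B => (z : F)) hxy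
    simpa using h1
  have hXF : (x : F) ≠ 0 := fun h0 => hxB0 (Subtype.ext h0)
  have hPF : algebraMap K F (ϖ : K) ≠ 0 := by
    intro h0
    have h2 : (ϖ : K) = 0 := (map_eq_zero (algebraMap K F)).1 h0
    exact hϖ0 (Subtype.ext h2)
  rw [hcoe] at hab
  have e5 : ∀ j : ℕ, (x : F) ^ j * (y : F) ^ j = (t : F) ^ j * algebraMap K F (ϖ : K) ^ j := by
    intro j
    rw [← mul_pow, e3, mul_pow]
  rcases le_total 0 (s36_ordAt (algebraMap S.B R x) hxP f) with hk0 | hk0
  · obtain ⟨j, hj⟩ := Int.eq_ofNat_of_zero_le hk0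
    rw [hj, zpow_natCast] at hab
    refine ⟨(j : ℤ), a₀ * wb * t ^ j, b₀ * wa * y ^ j, ?_, ?_, ?_⟩
    · rw [map_mul, map_mul, map_pow]
      exact mul_ne_zero (mul_ne_zero hra hrwb) (pow_ne_zero _ hrt)
    · rw [map_mul, map_mul, map_pow]
      exact mul_ne_zero (mul_ne_zero hrb hrwa) (pow_ne_zero _ hy0)
    · rw [zpow_natCast]
      show f * ((b₀ : F) * ((wa : S.B) : F) * (y : F) ^ j) =
        algebraMap K F (ϖ : K) ^ j * ((a₀ : F) * ((wb : S.B) : F) * (t : F) ^ j)
      rw [← e1, ← e2]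
      linear_combination (((wb : S.B) : F) * ((wa : S.B) : F) * (y : F) ^ j) * hab +
        (algebraMap R F (IsLocalization.mk' R a₀ wa) * ((wa : S.B) : F) * ((wb : S.B) : F)) *
          e5 j
  · obtain ⟨j, hj⟩ := Int.eq_ofNat_of_zero_le (neg_nonneg.2 hk0)
    have hkj : s36_ordAt (algebraMap S.B R x) hxP f = -(j : ℤ) := by linarith
    rw [hkj, zpow_neg, zpow_natCast] at hab
    have hab' : f * algebraMap R F (IsLocalization.mk' R b₀ wb) * (x : F) ^ j =
        algebraMap R F (IsLocalization.mk' R a₀ wa) := by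
      rw [hab, mul_assoc, inv_mul_cancel₀ (pow_ne_zero j hXF), mul_one]
    refine ⟨-(j : ℤ), a₀ * wb * y ^ j, b₀ * wa * t ^ j, ?_, ?_, ?_⟩
    · rw [map_mul, map_mul, map_pow]
      exact mul_ne_zero (mul_ne_zero hra hrwb) (pow_ne_zero _ hy0)
    · rw [map_mul, map_mul, map_pow]
      exact mul_ne_zero (mul_ne_zero hrb hrwa) (pow_ne_zero _ hrt)
    · rw [zpow_neg, zpow_natCast]
      show f * ((b₀ : F) * ((wa : S.B) : F) * (t : F) ^ j) =
        (algebraMap K F (ϖ : K) ^ j)⁻¹ * ((a₀ : F) * ((wb : S.B) : F) * (y : F) ^ j)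
      rw [eq_comm, inv_mul_eq_iff_eq_mul₀ (pow_ne_zero j hPF), ← e1, ← e2]
      linear_combination (-(((wa : S.B) : F) * ((wb : S.B) : F) * (y : F) ^ j)) * hab' +
        (f * algebraMap R F (IsLocalization.mk' R b₀ wb) * ((wb : S.B) : F) *
          ((wa : S.B) : F)) * e5 j

end Decomp

end Fermat.Agent.S40lib

end
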