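/-
Item 88 (S40), block (A-J), piece E2 stage 7 (helper18): **THE EDGE RULE IN UNIT FORM**, level
`N = M' q`, concrete and unconditional.

* `edc_place_node`    : the node `s` = centre of a supersingular place `Q`, with the local data
  (generators `x, y` of `p_∞, p_0` at `s`, `x y = t ϖ`, `B_s` factorial, `ord_Q (red_∞ y) = 1`);
* `edc_edge_unit_abs` : abstract over the setup;
* `edc_edge_unit`     : `u ∈ F0(N)`, `u ≠ 0`, a unit of `O_∞`, `u / q ^ δ` a unit of `O_0`, divisor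
  of `u` on `X_0(N)` divisible by `m`; `Q` a supersingular place (not a cusp, centre a node):
      `m ∣ ord_Q (red_∞ u) - δ`.
-/
import Mathlib
import Fermat.Agent.S40lib.EdgeConc5
import Fermat.Agent.S40lib.EdgeConc6

set_option autoImplicit false
set_option linter.style.haveILetI false
set_option linter.unusedSectionVars false
set_option linter.unusedVariables false
set_option synthInstance.maxHeartbeats 400000
set_option maxHeartbeats 1000000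

noncomputable section

namespace Fermat.Agent.S40lib

open Fermat.Agent.FFlib Fermat.Agent.S24lib Fermat.Agent.GM Fermat.Agent.GoodRed
  Fermat.Agent.S34lib Fermat.Agent.RRlib Fermat.Agent.S16lib Fermat.Agent.S36lib
open AlgebraicCurve IsLocalRing IntermediateField IsDedekindDomain ModularCurve

section PlaceAbs

universe u

variable {K : Type*} [Field K] {k : Type*} [Field k]
  {A : ValuationSubring K} {π : A →+* k} {κ : Type*} [Field κ] [Algebra k κ]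
  {F : Type u} [Field F] [Algebra K F]

set_option maxHeartbeats 4000000 in
/-- **the node at a supersingular place**, with its local data. -/
theorem edc_place_node (S : NodeSetup A π κ F) [IsNoetherianRing S.B]
    [IsIntegrallyClosed S.B] [IsDedekindDomain (S.B ⧸ S.pInf)]
    (hfrac : ∀ z : F, ∃ a b : S.B, b ≠ 0 ∧ z * (b : F) = (a : F))
    (j : κ) [FFSep k j]
    (hiInf : ∀ z : S.B, S.redInf z ∈ fsS k j)
    (hoInf : ∀ c ∈ fsS k j, ∃ z : S.B, S.redInf z = c)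
    (ϖ : A) (hϖ0 : ϖ ≠ 0)
    (h h' : S.B) (hh : h * h' = S.constB ϖ ^ 12)
    (hreg1 : ∀ s, S.IsNode s → ∃ y ε : S.B, y ∈ S.pZero ∧ y ^ 12 = ε * h ∧ ε ∉ s ∧
        (∀ z ∈ S.pZero, y ∣ ε * z) ∧
        ∀ z ∈ s, ∃ w c : S.B, w ∉ s ∧ w * z - c * y ∈ S.pInf)
    (hreg1' : ∀ s, S.IsNode s → ∃ x ε : S.B, x ∈ S.pInf ∧ x ^ 12 = ε * h' ∧ ε ∉ s ∧
        (∀ z ∈ S.pInf, x ∣ ε * z) ∧
        ∀ z ∈ s, ∃ w c : S.B, w ∉ s ∧ w * z - c * x ∈ S.pZero)
    (Q : Place k κ) (hQ : 0 ≤ Q.ord j)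
    (hSS : ∀ z ∈ S.pZero, S.redInf z = 0 ∨ 0 < Q.ord (S.redInf z)) :
    ∃ (s : Ideal S.B) (hs : s.IsMaximal) (x y εx εy t : S.B),
      S.pInf ≤ s ∧ S.pZero ≤ s ∧
      (haveI := hs.isPrime; UniqueFactorizationMonoid (Localization.AtPrime s)) ∧
      x ∈ S.pInf ∧ (∀ z ∈ S.pInf, x ∣ εx * z) ∧ εx ∉ s ∧
      y ∈ S.pZero ∧ (∀ z ∈ S.pZero, y ∣ εy * z) ∧ εy ∉ s ∧
      x * y = t * S.constB ϖ ∧ t ∉ s ∧
      (∀ b : S.B, b ∈ s ↔ S.redInf b = 0 ∨ 0 < Q.ord (S.redInf b)) ∧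
      (∀ c : S.B, 0 ≤ Q.ord (S.redInf c)) ∧
      (∀ c : S.B, c ∉ s → Q.ord (S.redInf c) = 0) ∧
      S.redInf y ≠ 0 ∧ Q.ord (S.redInf y) = 1 ∧
      (∀ z ∈ s, ∃ w c : S.B, w ∉ s ∧ w * z - c * y ∈ S.pInf) ∧
      (∀ z ∈ s, ∃ w c : S.B, w ∉ s ∧ w * z - c * x ∈ S.pZero) := by
  classical
  haveI hBF : IsFractionRing S.B F := s36_isFractionRing_of_hfrac S.B hfrac
  let ρ : S.B →+* fsS k j := S.redInf.codRestrict (fsS k j) hiInf
  have hρ : ∀ b, ((ρ b : fsS k j) : κ) = S.redInf b := fun b => rfl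
  have hρsurj : Function.Surjective ρ := by
    intro c
    obtain ⟨z, hz⟩ := hoInf c c.2
    exact ⟨z, Subtype.ext hz⟩
  let s : Ideal S.B := Ideal.comap ρ (fsPrimeOfPlace Q hQ).asIdeal
  have hmem : ∀ b : S.B, b ∈ s ↔ S.redInf b = 0 ∨ 0 < Q.ord (S.redInf b) := by
    intro b
    show ρ b ∈ (fsPrimeOfPlace Q hQ).asIdeal ↔ _
    rw [fsMem_primeOfPlace_iff, hρ b]
    constructor
    · rintro (h0 | h0)
      · left
        rw [← hρ b, h0]
        rfl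
      · right; exact h0
    · rintro (h0 | h0)
      · left; exact Subtype.ext h0
      · right; exact h0
  haveI hPmax : (fsPrimeOfPlace Q hQ).asIdeal.IsMaximal := (fsPrimeOfPlace Q hQ).isMaximal
  haveI hsmax : s.IsMaximal := Ideal.comap_isMaximal_of_surjective ρ hρsurj
  have hsInf : S.pInf ≤ s := fun b hb => (hmem b).2 (Or.inl ((RingHom.mem_ker).1 hb))
  have hsZero : S.pZero ≤ s := fun b hb => (hmem b).2 (hSS b hb)
  have hnode : S.IsNode s := ⟨hsmax, sup_le hsInf hsZero⟩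
  obtain ⟨y, εy, hy, hy12, hεy, hyg, hyth⟩ := hreg1 s hnode
  obtain ⟨x, εx, hx, hx12, hεx, hxg, hxth⟩ := hreg1' s hnode
  have hq0 : S.constB ϖ ≠ 0 := by
    intro h0
    have h1 : ((S.constB ϖ : S.B) : F) = 0 := by rw [h0]; rfl
    rw [S.coe_constB] at h1
    have h2 : (ϖ : K) = 0 := (map_eq_zero (algebraMap K F)).1 h1
    exact hϖ0 (Subtype.ext h2)
  haveI hsp : s.IsPrime := hsmax.isPrime
  obtain ⟨t, ht, hxy⟩ := edc_root_unit (F := F) s x y εx εy h h' (S.constB ϖ) 12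
    (by norm_num) hq0 hx12 hy12 hh hεx hεy
  have hord0 : ∀ c : S.B, 0 ≤ Q.ord (S.redInf c) := fun c =>
    ffOrd_nonneg_of_mem Q (fsS_le Q hQ _ (hiInf c))
  have hws : ∀ c : S.B, c ∉ s → Q.ord (S.redInf c) = 0 := by
    intro c hc
    have h1 : ¬ (0 < Q.ord (S.redInf c)) := fun h0 => hc ((hmem c).2 (Or.inr h0))
    have h2 := hord0 c
    omega
  obtain ⟨z₀, hz₀⟩ := edc_exists_unif Q hQ
  obtain ⟨z, hz⟩ := hoInf z₀ z₀.2
  have hz1 : Q.ord (S.redInf z) = 1 := by rw [hz]; exact hz₀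
  have hzs : z ∈ s := (hmem z).2 (Or.inr (by rw [hz1]; norm_num))
  obtain ⟨w, c, hw, hwc⟩ := hyth z hzs
  have hwc' : S.redInf w * S.redInf z = S.redInf c * S.redInf y := by
    have h1 : S.redInf (w * z - c * y) = 0 := (RingHom.mem_ker).1 hwc
    rw [map_sub, map_mul, map_mul, sub_eq_zero] at h1
    exact h1
  have hw0 : S.redInf w ≠ 0 := fun h0 => hw ((hmem w).2 (Or.inl h0))
  have hz0 : S.redInf z ≠ 0 := by
    intro h0
    rw [h0, Place.ord_zero] at hz1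
    norm_num at hz1
  have hprod : S.redInf c * S.redInf y ≠ 0 := by
    rw [← hwc']
    exact mul_ne_zero hw0 hz0
  have hc0 : S.redInf c ≠ 0 := left_ne_zero_of_mul hprod
  have hy0 : S.redInf y ≠ 0 := right_ne_zero_of_mul hprod
  have hwy : Q.ord (S.redInf y) = 1 := by
    have e1 := Q.ord_mul hw0 hz0
    have e2 := Q.ord_mul hc0 hy0
    rw [hwc'] at e1
    have e3 := hws w hw
    have e5 := hord0 c
    have e6 : 0 < Q.ord (S.redInf y) := by
      rcases (hmem y).1 (hsZero hy) with h0 | h0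
      · exact absurd h0 hy0
      · exact h0
    omega
  have hne : S.pInf ≠ s := by
    intro heq
    have h1 : y ∈ S.pInf := heq ▸ hsZero hy
    exact hy0 ((RingHom.mem_ker).1 h1)
  have hufd : UniqueFactorizationMonoid (Localization.AtPrime s) :=
    reg3_ufm S.pInf s hsInf hne x hx (fun z hz => by
      obtain ⟨c, hc⟩ := hxg z hz
      exact ⟨εx, c, hεx, hc⟩)
  exact ⟨s, hsmax, x, y, εx, εy, t, hsInf, hsZero, hufd, hx, hxg, hεx, hy, hyg, hεy, hxy, ht,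
    hmem, hord0, hws, hy0, hwy, hyth, hxth⟩

set_option maxHeartbeats 4000000 in
/-- **the edge rule in unit form** (abstract over the setup): `u ≠ 0` a unit of `O_∞` with
`u / ϖ ^ δ` a unit of `O_0`, of order divisible by `m` at the horizontal primes; at a
supersingular place `Q`:  `m ∣ ord_Q (red_∞ u) - δ`. -/
theorem edc_edge_unit_abs (S : NodeSetup A π κ F) [IsNoetherianRing S.B]
    [IsIntegrallyClosed S.B] [IsDedekindDomain (S.B ⧸ S.pInf)]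
    (hfrac : ∀ z : F, ∃ a b : S.B, b ≠ 0 ∧ z * (b : F) = (a : F))
    (j : κ) [FFSep k j]
    (hiInf : ∀ z : S.B, S.redInf z ∈ fsS k j)
    (hoInf : ∀ c ∈ fsS k j, ∃ z : S.B, S.redInf z = c)
    (ϖ : A) (hϖ0 : ϖ ≠ 0) (hπϖ : π ϖ = 0) (hϖK : ∀ c : K, ∃ n : ℕ, c * (ϖ : K) ^ n ∈ A)
    (h h' : S.B) (hh : h * h' = S.constB ϖ ^ 12)
    (hreg1 : ∀ s, S.IsNode s → ∃ y ε : S.B, y ∈ S.pZero ∧ y ^ 12 = ε * h ∧ ε ∉ s ∧
        (∀ z ∈ S.pZero, y ∣ ε * z) ∧
        ∀ z ∈ s, ∃ w c : S.B, w ∉ s ∧ w * z - c * y ∈ S.pInf)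
    (hreg1' : ∀ s, S.IsNode s → ∃ x ε : S.B, x ∈ S.pInf ∧ x ^ 12 = ε * h' ∧ ε ∉ s ∧
        (∀ z ∈ S.pInf, x ∣ ε * z) ∧
        ∀ z ∈ s, ∃ w c : S.B, w ∉ s ∧ w * z - c * x ∈ S.pZero)
    (Q : Place k κ) (hQ : 0 ≤ Q.ord j)
    (hSS : ∀ z ∈ S.pZero, S.redInf z = 0 ∨ 0 < Q.ord (S.redInf z))
    (m : ℕ) (u : F) (hu0 : u ≠ 0) (hu : u ∈ S.vInf.O) (hu' : u⁻¹ ∈ S.vInf.O)
    (δ : ℤ) (hv : u * (algebraMap K F (ϖ : K) ^ δ)⁻¹ ∈ S.vZero.O)
    (hv' : (u * (algebraMap K F (ϖ : K) ^ δ)⁻¹)⁻¹ ∈ S.vZero.O)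
    (hhor : ∀ (R : Type u) [CommRing R] [IsDomain R] [UniqueFactorizationMonoid R]
      [Algebra R F] [IsFractionRing R F] (p : R), Prime p →
      (∀ c : K, ∃ a b : R, ¬ p ∣ b ∧
        algebraMap K F c * algebraMap R F b = algebraMap R F a) →
      ∃ v : F → ℤ, (∀ a b : F, a ≠ 0 → b ≠ 0 → v (a * b) = v a + v b) ∧
        v (algebraMap R F p) = 1 ∧
        (∀ c : R, c ≠ 0 → ¬ p ∣ c → v (algebraMap R F c) = 0) ∧ (m : ℤ) ∣ v u) :
    (m : ℤ) ∣ Q.ord (S.vInf.red ⟨u, hu⟩) - δ := by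
  classical
  obtain ⟨s, hsmax, x, y, εx, εy, t, hsInf, hsZero, hufd, hx, hxg, hεx, hy, hyg, hεy, hxy, ht,
    hmem, hord0, hws, hy0, hwy, -, -⟩ := edc_place_node S hfrac j hiInf hoInf ϖ hϖ0 h h' hh
      hreg1 hreg1' Q hQ hSS
  haveI := hsmax
  haveI hsp : s.IsPrime := hsmax.isPrime
  have hPF : algebraMap K F (ϖ : K) ≠ 0 := by
    intro h0
    have h2 : (ϖ : K) = 0 := (map_eq_zero (algebraMap K F)).1 h0
    exact hϖ0 (Subtype.ext h2)
  have hq0 : S.constB ϖ ≠ 0 := by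
    intro h0
    have h1 : ((S.constB ϖ : S.B) : F) = 0 := by rw [h0]; rfl
    rw [S.coe_constB] at h1
    exact hPF h1
  have ht0 : t ≠ 0 := fun h0 => ht (h0 ▸ s.zero_mem)
  have hxy0 : x * y ≠ 0 := by rw [hxy]; exact mul_ne_zero ht0 hq0
  have hxB0 : x ≠ 0 := left_ne_zero_of_mul hxy0
  have hx0' : S.redZero x ≠ 0 :=
    edc_redZero_x_ne_zero S s x y εx εy hxB0 hx hxg hεx hy hyg hεy (hsZero hy) hy0
  -- the two decompositions
  obtain ⟨k₁, n, d, hn, hd, hfx⟩ := edc_decomp_abs S hfrac s hsInf hufd ϖ hϖ0 x y εx t hx hxg hεx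
    hxy ht hy0 u hu0
  obtain ⟨k₂, n', d', hn', hd', hfy⟩ := edc_decomp_abs (edc_swap S) hfrac s (hs := hsmax)
    hsZero hufd ϖ hϖ0
    y x εy t hy hyg hεy ((mul_comm y x).trans hxy) ht hx0' u hu0
  have hk₁ : k₁ = 0 := edc_unit_exp S ϖ hϖ0 hπϖ u hu hu' k₁ n d hn hd hfx
  have hk₂ : k₂ - δ = 0 := by
    refine edc_unit_exp (edc_swap S) ϖ hϖ0 hπϖ (u * (algebraMap K F (ϖ : K) ^ δ)⁻¹) hv hv'
      (k₂ - δ) n' d' hn' hd' ?_
    have hfy' : u * (d' : F) = algebraMap K F (ϖ : K) ^ k₂ * (n' : F) := hfy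
    rw [zpow_sub₀ hPF, div_eq_mul_inv]
    calc u * (algebraMap K F (ϖ : K) ^ δ)⁻¹ * (d' : F)
        = (u * (d' : F)) * (algebraMap K F (ϖ : K) ^ δ)⁻¹ := by ring
      _ = algebraMap K F (ϖ : K) ^ k₂ * (n' : F) * (algebraMap K F (ϖ : K) ^ δ)⁻¹ := by
          rw [hfy']
      _ = algebraMap K F (ϖ : K) ^ k₂ * (algebraMap K F (ϖ : K) ^ δ)⁻¹ * (n' : F) := by ring
  have hmain := edc_edge_abs S hfrac s hsInf hsZero hufd ϖ hϖ0 hϖK x y εx εy t hx hxg hεx hy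
    hyg hεy hxy ht Q.ord (fun a b ha hb => Q.ord_mul ha hb) (fun c _ => hord0 c) hws hy0 hwy
    m u hu0 hhor k₁ k₂ n d n' d' hn hd hn' hd' hfx hfy
  -- the reduction of `u`
  have hud : (⟨u, hu⟩ : S.vInf.O) * ⟨(d : F), S.B_le_inf d.2⟩ = ⟨(n : F), S.B_le_inf n.2⟩ := by
    apply Subtype.ext
    show u * (d : F) = (n : F)
    rw [hfx, hk₁, zpow_zero, one_mul]
  have hred : S.vInf.red ⟨u, hu⟩ * S.redInf d = S.redInf n := by
    have h1 := congrArg S.vInf.red hud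
    rw [map_mul] at h1
    exact h1
  have hru : S.vInf.red ⟨u, hu⟩ ≠ 0 := by
    intro h0
    rw [h0, zero_mul] at hred
    exact hn hred.symm
  have hord := Q.ord_mul hru hd
  rw [hred] at hord
  have e : Q.ord (S.vInf.red ⟨u, hu⟩) - δ =
      (Q.ord (S.redInf n) - Q.ord (S.redInf d)) - (k₂ - k₁) := by
    rw [hord, hk₁]
    have : k₂ = δ := by linarith
    rw [this]
    ring
  rw [e]
  exact hmain

end PlaceAbs

section Conc

variable (A : ValuationSubring Kbar) (M' q : ℕ) [NeZero M'] [NeZero q] (hq : q.Prime)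
  (hqM : ¬ q ∣ M') (hA : A.LiesOverPrime q)
  (R : ConstRed A (IsLocalRing.residue A)
      (↥(modularFunctionFieldFullC (IsLocalRing.ResidueField A) M')) (FF (M' * q)))
  (hR : IsSeriesRed R)

set_option maxHeartbeats 4000000 in
/-- **THE EDGE RULE IN UNIT FORM at the supersingular places of level `N = M' q`,
unconditional.** -/
theorem edc_edge_unit (haux : IsAuxLevel q M')
    (Q : Place (IsLocalRing.ResidueField A) (Fk (IsLocalRing.ResidueField A) M'))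
    (hQ : 0 ≤ Q.ord (jk (IsLocalRing.ResidueField A) M'))
    (hSS : ∀ z ∈ (nodeSetupNj A M' q hq hqM hA R hR).pZero,
      (nodeSetupNj A M' q hq hqM hA R hR).redInf z = 0 ∨
        0 < Q.ord ((nodeSetupNj A M' q hq hqM hA R hR).redInf z))
    (m : ℕ) (u : f0Field A (M' * q)) (hu0 : u ≠ 0)
    (hdiv : ∀ P : Place Kbar (FF (M' * q)), (m : ℤ) ∣ P.ord (u : FF (M' * q)))
    (hu : u ∈ (nodeSetupNj A M' q hq hqM hA R hR).vInf.O)
    (hu' : u⁻¹ ∈ (nodeSetupNj A M' q hq hqM hA R hR).vInf.O)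
    (δ : ℤ)
    (hv : u * (a2iQ A q (L := M' * q) ^ δ)⁻¹ ∈ (nodeSetupNj A M' q hq hqM hA R hR).vZero.O)
    (hv' : (u * (a2iQ A q (L := M' * q) ^ δ)⁻¹)⁻¹ ∈
      (nodeSetupNj A M' q hq hqM hA R hR).vZero.O) :
    (m : ℤ) ∣ Q.ord ((nodeSetupNj A M' q hq hqM hA R hR).vInf.red ⟨u, hu⟩) - δ := by
  have hSUM : RgnSum A M' q hq hqM R := fun z h1 h3 => w2j_rgnSum A M' q hq hqM hA R hR z h1 h3
  haveI : IsAlgClosed (IsLocalRing.ResidueField A) := isAlgClosed_residueField A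
  haveI : FFSep (IsLocalRing.ResidueField A) (jk (IsLocalRing.ResidueField A) M') :=
    gmw_ffSep (IsLocalRing.ResidueField A) M'
  haveI : IsIntegrallyClosed (nodeSetupNj A M' q hq hqM hA R hR).B :=
    r1c_isIntegrallyClosed A M' q hq hqM hA R hR hSUM
  haveI : IsNoetherianRing (nodeSetupNj A M' q hq hqM hA R hR).B :=
    (r1c_noeth_frac A M' q hq hqM hA R hR hSUM).1
  haveI : IsDedekindDomain (nodeSetupNj A M' q hq hqM hA R hR).redInf.range :=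
    rgn_isDedekindDomain_inf A M' q hq hqM hA R hR haux hSUM
  haveI : IsDedekindDomain ((nodeSetupNj A M' q hq hqM hA R hR).B ⧸
      (nodeSetupNj A M' q hq hqM hA R hR).pInf) :=
    (nodeSetupNj A M' q hq hqM hA R hR).isDedekindDomain_quot_pInf
  have hreg := edc_hreg1 A M' q hq hqM hA R hR haux
  exact edc_edge_unit_abs (nodeSetupNj A M' q hq hqM hA R hR)
    (r1c_noeth_frac A M' q hq hqM hA R hR hSUM).2
    (jk (IsLocalRing.ResidueField A) M')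
    (rgn_hiInf A M' q hq hqM hA R hR hSUM) (rgn_hoInf A M' q hq hqM hA R hR haux)
    (q : k0Val A) (a2i_q_ne_zero A q hq) (a2i_res_q A q hA) (a2i_exists_pow_mem A q hq hA)
    (uqrHB A M' q hq hqM hA R hR) (uqrHB' A M' q hq hqM hA R hR)
    (edc_hh' A M' q hq hqM hA R hR) hreg.1 hreg.2 Q hQ hSS m u hu0 hu hu' δ hv hv'
    (fun R' _ _ _ _ _ p hp hK0 => pd_hhor_FF A (M' * q) m u hdiv R' p hp hK0)

/-- the reduction `red_∞` of the setup is the reduction of `R` -/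
theorem edc_vInf_red (u : f0Field A (M' * q))
    (hu : u ∈ (nodeSetupNj A M' q hq hqM hA R hR).vInf.O) :
    (nodeSetupNj A M' q hq hqM hA R hR).vInf.red ⟨u, hu⟩ =
      R.red ⟨(u : FF (M' * q)), hu⟩ := rfl

end Conc

end Fermat.Agent.S40lib

end
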