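/-
Item 88 (S40), block (A-J), piece E4 concrete (helper18): **DIV-RED AT THE SMOOTH POINTS** of the
component `∞` of level `N = M' q`, and **WINDC at all the non-cuspidal places**.

* `edc_root_mem`       : `x ^ n = a h'`, `y ^ n = b h`, `h h' = ϖ ^ n`, `B` normal ⇒ `ϖ ∣ x y`;
* `edc_centre`         : the centre `s` on `B` of a non-cuspidal place `Q` of `κ`;
* `edc_smooth_abs`     : the one-branch rule in `B_s` (instance of helper15's `dvr_one_branch`);
* `edc_smooth_unit_abs`: abstract over the setup;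
* `edc_smooth_unit`    : `Q` not a cusp, centre NOT a node; `u ∈ F0(N)` a unit of `O_∞` with
  divisor divisible by `m`:   `m ∣ ord_Q (red_∞ u)`;
* `edc_windc`          : both cases together: `m ∣ ord_Q (red_∞ u) - δ` at the supersingular
  places, `m ∣ ord_Q (red_∞ u)` at the other non-cuspidal places.
-/
import Mathlib
import Fermat.Agent.S40lib.EdgeConc7
import Fermat.Agent.S40lib.DivRed

set_option autoImplicit false
set_option linter.style.haveILetI false
set_option linter.unusedSectionVars false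
set_option linter.unusedVariables false
set_option synthInstance.maxHeartbeats 400000
set_option maxHeartbeats 1000000

noncomputable section

namespace Fermat.Agent.S40lib

open Fermat.Agent.FFlib Fermat.Agent.S24lib Fermat.Agent.GM Fermat.Agent.GoodRed
  Fermat.Agent.S34lib Fermat.Agent.RRlib Fermat.Agent.S16lib Fermat.Agent.S36lib
open AlgebraicCurve IsLocalRing IntermediateField IsDedekindDomain ModularCurve

section Gen

/-- `x ^ n = a h'`, `y ^ n = b h`, `h h' = ϖ ^ n` in an integrally closed domain: `ϖ ∣ x y` -/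
theorem edc_root_mem {B F : Type*} [CommRing B] [IsDomain B] [Field F] [Algebra B F]
    [IsFractionRing B F] [IsIntegrallyClosed B]
    (x y a b h h' ϖ : B) (n : ℕ) (hn : 0 < n) (hϖ : ϖ ≠ 0)
    (hx : x ^ n = a * h') (hy : y ^ n = b * h) (hh : h * h' = ϖ ^ n) :
    ∃ t : B, x * y = t * ϖ := by
  have hinj : Function.Injective (algebraMap B F) := IsFractionRing.injective B F
  have hϖF : algebraMap B F ϖ ≠ 0 := fun h0 => hϖ (hinj (by rw [h0, map_zero]))
  have hB : (x * y) ^ n = a * b * ϖ ^ n := by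
    rw [mul_pow, hx, hy, ← hh]; ring
  have hpow : (algebraMap B F (x * y) / algebraMap B F ϖ) ^ n = algebraMap B F (a * b) := by
    rw [div_pow, ← map_pow, ← map_pow, hB, map_mul, mul_div_assoc,
      div_self (by rw [map_pow]; exact pow_ne_zero _ hϖF), mul_one]
  have hint : IsIntegral B (algebraMap B F (x * y) / algebraMap B F ϖ) := by
    refine IsIntegral.of_pow hn ?_
    rw [hpow]
    exact isIntegral_algebraMap
  obtain ⟨t, ht⟩ := (IsIntegrallyClosed.isIntegral_iff (R := B) (K := F)).1 hint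
  refine ⟨t, ?_⟩
  apply hinj
  calc algebraMap B F (x * y)
      = (algebraMap B F (x * y) / algebraMap B F ϖ) * algebraMap B F ϖ :=
        (div_mul_cancel₀ _ hϖF).symm
    _ = algebraMap B F t * algebraMap B F ϖ := by rw [ht]
    _ = algebraMap B F (t * ϖ) := (map_mul _ _ _).symm

end Gen

section Abs

universe u

variable {K : Type*} [Field K] {k : Type*} [Field k]
  {A : ValuationSubring K} {π : A →+* k} {κ : Type*} [Field κ] [Algebra k κ]
  {F : Type u} [Field F] [Algebra K F]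

/-- **the centre on `B` of a non-cuspidal place of `κ`** -/
theorem edc_centre (S : NodeSetup A π κ F) (j : κ) [FFSep k j]
    (hiInf : ∀ z : S.B, S.redInf z ∈ fsS k j)
    (hoInf : ∀ c ∈ fsS k j, ∃ z : S.B, S.redInf z = c)
    (Q : Place k κ) (hQ : 0 ≤ Q.ord j) :
    ∃ (s : Ideal S.B), s.IsMaximal ∧ S.pInf ≤ s ∧
      (∀ b : S.B, b ∈ s ↔ S.redInf b = 0 ∨ 0 < Q.ord (S.redInf b)) ∧
      (∀ c : S.B, 0 ≤ Q.ord (S.redInf c)) ∧
      (∀ c : S.B, c ∉ s → Q.ord (S.redInf c) = 0) := by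
  classical
  let ρ : S.B →+* fsS k j := S.redInf.codRestrict (fsS k j) hiInf
  have hρ : ∀ b, ((ρ b : fsS k j) : κ) = S.redInf b := fun b => rfl
  have hρsurj : Function.Surjective ρ := by
    intro c
    obtain ⟨z, hz⟩ := hoInf c c.2
    exact ⟨z, Subtype.ext hz⟩
  let s : Ideal S.B := Ideal.comap ρ (fsPrimeOfPlace Q hQ).asIdeal
  have hmem : ∀ b : S.B, b ∈ s ↔ S.redInf b = 0 ∨ 0 < Q.ord (S.redInf b) := by
    intro b
    show ρ b ∈ (fsPrimeOfPlace Q hQ).asIdeal ↔ _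
    rw [fsMem_primeOfPlace_iff, hρ b]
    constructor
    · rintro (h0 | h0)
      · left
        rw [← hρ b, h0]
        rfl
      · right; exact h0
    · rintro (h0 | h0)
      · left; exact Subtype.ext h0
      · right; exact h0
  haveI hPmax : (fsPrimeOfPlace Q hQ).asIdeal.IsMaximal := (fsPrimeOfPlace Q hQ).isMaximal
  have hsmax : s.IsMaximal := Ideal.comap_isMaximal_of_surjective ρ hρsurj
  have hsInf : S.pInf ≤ s := fun b hb => (hmem b).2 (Or.inl ((RingHom.mem_ker).1 hb))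
  have hord0 : ∀ c : S.B, 0 ≤ Q.ord (S.redInf c) := fun c =>
    ffOrd_nonneg_of_mem Q (fsS_le Q hQ _ (hiInf c))
  refine ⟨s, hsmax, hsInf, hmem, hord0, ?_⟩
  intro c hc
  have h1 : ¬ (0 < Q.ord (S.redInf c)) := fun h0 => hc ((hmem c).2 (Or.inr h0))
  have h2 := hord0 c
  omega

set_option maxHeartbeats 4000000 in
/-- **the one-branch rule at a maximal ideal `s ⊇ p_∞` where `p_∞` is generated by `ϖ`**. -/
theorem edc_smooth_abs (S : NodeSetup A π κ F)
    (hfrac : ∀ z : F, ∃ a b : S.B, b ≠ 0 ∧ z * (b : F) = (a : F))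
    (s : Ideal S.B) [hs : s.IsMaximal] (hsInf : S.pInf ≤ s)
    (hufd : UniqueFactorizationMonoid (Localization.AtPrime s))
    (ϖ : A) (hϖ0 : ϖ ≠ 0) (hπϖ : π ϖ = 0)
    (hϖK : ∀ c : K, ∃ n : ℕ, c * (ϖ : K) ^ n ∈ A)
    (εx : S.B) (hxg : ∀ z ∈ S.pInf, S.constB ϖ ∣ εx * z) (hεx : εx ∉ s)
    (w : κ → ℤ) (hw : ∀ a b : κ, a ≠ 0 → b ≠ 0 → w (a * b) = w a + w b)
    (hw0 : ∀ c : S.B, S.redInf c ≠ 0 → 0 ≤ w (S.redInf c))
    (hws : ∀ c : S.B, c ∉ s → w (S.redInf c) = 0)
    (m : ℕ) (f : F) (hf : f ≠ 0)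
    (hhor : ∀ (R : Type u) [CommRing R] [IsDomain R] [UniqueFactorizationMonoid R]
      [Algebra R F] [IsFractionRing R F] (p : R), Prime p →
      (∀ c : K, ∃ a b : R, ¬ p ∣ b ∧
        algebraMap K F c * algebraMap R F b = algebraMap R F a) →
      ∃ v : F → ℤ, (∀ a b : F, a ≠ 0 → b ≠ 0 → v (a * b) = v a + v b) ∧
        v (algebraMap R F p) = 1 ∧
        (∀ c : R, c ≠ 0 → ¬ p ∣ c → v (algebraMap R F c) = 0) ∧ (m : ℤ) ∣ v f)
    (k₁ : ℤ) (n d : S.B) (hn : S.redInf n ≠ 0) (hd : S.redInf d ≠ 0)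
    (hfx : f * (d : F) = algebraMap K F (ϖ : K) ^ k₁ * (n : F)) :
    (m : ℤ) ∣ w (S.redInf n) - w (S.redInf d) := by
  classical
  haveI hBF : IsFractionRing S.B F := s36_isFractionRing_of_hfrac S.B hfrac
  haveI hsp : s.IsPrime := hs.isPrime
  have hMle : s.primeCompl ≤ nonZeroDivisors S.B := by
    intro b hb
    refine mem_nonZeroDivisors_of_ne_zero ?_
    rintro rfl
    exact hb s.zero_mem
  have hunits : ∀ u : s.primeCompl, IsUnit (algebraMap S.B F u) := by
    intro u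
    have hu0 : (u : S.B) ≠ 0 := nonZeroDivisors.ne_zero (hMle u.2)
    have : algebraMap S.B F u ≠ 0 := fun h0 => hu0 (Subtype.ext h0)
    exact IsUnit.mk0 _ this
  let R := Localization.AtPrime s
  letI algRF : Algebra R F := (IsLocalization.lift (M := s.primeCompl)
    (g := algebraMap S.B F) hunits).toAlgebra
  haveI hST : IsScalarTower S.B R F := IsScalarTower.of_algebraMap_eq fun b =>
    (IsLocalization.lift_eq (M := s.primeCompl) (g := algebraMap S.B F) hunits b).symm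
  haveI hdom : IsDomain R := IsLocalization.isDomain_of_le_nonZeroDivisors R hMle
  haveI hufm : UniqueFactorizationMonoid R := hufd
  haveI hRF : IsFractionRing R F :=
    IsFractionRing.isFractionRing_of_isDomain_of_isLocalization s.primeCompl R F
  have hcoe : ∀ b : S.B, algebraMap R F (algebraMap S.B R b) = (b : F) := fun b =>
    s36_algebraMap_R_F (B := S.B) (R := R) (F := F) b
  have hinjBR : Function.Injective (algebraMap S.B R) :=
    IsLocalization.injective R hMle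
  have hqInf : S.constB ϖ ∈ S.pInf := by
    show S.redInf (S.constB ϖ) = 0
    rw [S.redInf_constB, hπϖ, map_zero]
  obtain ⟨red, hredB, hred⟩ := edc_lift s S.redInf hsInf (S.constB ϖ) εx hqInf hxg hεx
  have hq0 : S.constB ϖ ≠ 0 := by
    intro h0
    have h1 : ((S.constB ϖ : S.B) : F) = 0 := by rw [h0]; rfl
    rw [S.coe_constB] at h1
    have h2 : (ϖ : K) = 0 := (map_eq_zero (algebraMap K F)).1 h1
    exact hϖ0 (Subtype.ext h2)
  have hxR0 : algebraMap S.B R (S.constB ϖ) ≠ 0 :=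
    fun h0 => hq0 (hinjBR (by rw [h0, map_zero]))
  have hxP : Prime (algebraMap S.B R (S.constB ϖ)) := by
    have hker : Ideal.span {algebraMap S.B R (S.constB ϖ)} = RingHom.ker red := by
      ext c
      rw [Ideal.mem_span_singleton, RingHom.mem_ker, hred]
    have hprime : (Ideal.span {algebraMap S.B R (S.constB ϖ)}).IsPrime := by
      rw [hker]; exact RingHom.ker_isPrime red
    exact (Ideal.span_singleton_prime hxR0).1 hprime
  have hw0R : ∀ c : R, red c ≠ 0 → 0 ≤ w (red c) := by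
    intro c hc
    obtain ⟨b, u, rfl⟩ := IsLocalization.exists_mk'_eq s.primeCompl c
    have hspec : IsLocalization.mk' R b u * algebraMap S.B R u = algebraMap S.B R b :=
      IsLocalization.mk'_spec _ b u
    have hru : S.redInf (u : S.B) ≠ 0 := fun h0 => u.2 (hsInf ((RingHom.mem_ker).2 h0))
    have h1 : red (IsLocalization.mk' R b u) * S.redInf (u : S.B) = S.redInf b := by
      rw [← hredB (u : S.B), ← map_mul, hspec, hredB]
    have hb : S.redInf b ≠ 0 := by rw [← h1]; exact mul_ne_zero hc hru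
    have h2 := hw _ _ hc hru
    rw [h1, hws (u : S.B) u.2, add_zero] at h2
    rw [← h2]
    exact hw0 b hb
  have hval : ∀ p : R, Prime p → ¬ Associated p (algebraMap S.B R (S.constB ϖ)) →
      ∃ v : F → ℤ, (∀ a b : F, a ≠ 0 → b ≠ 0 → v (a * b) = v a + v b) ∧
        v (algebraMap R F p) = 1 ∧
        (∀ c : R, c ≠ 0 → ¬ p ∣ c → v (algebraMap R F c) = 0) ∧ (m : ℤ) ∣ v f := by
    intro p hp hpx
    refine hhor R p hp ?_
    intro c
    obtain ⟨j, hj⟩ := hϖK c
    refine ⟨algebraMap S.B R (S.constB ⟨_, hj⟩), (algebraMap S.B R (S.constB ϖ)) ^ j, ?_, ?_⟩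
    · intro hdvd
      have h1 : p ∣ algebraMap S.B R (S.constB ϖ) := hp.dvd_of_dvd_pow hdvd
      exact hpx ((hp.dvd_prime_iff_associated hxP).1 h1)
    · rw [map_pow, hcoe, hcoe, S.coe_constB, S.coe_constB, ← map_pow, ← map_mul]
  have hmain := dvr_one_branch (R := R) (F := F) (κ := κ)
    (algebraMap S.B R (S.constB ϖ)) hxP red hred w hw hw0R m f hf hval k₁
    (algebraMap S.B R n) (algebraMap S.B R d)
    (fun h => hn (by rw [← hredB]; exact (hred _).2 h))
    (fun h => hd (by rw [← hredB]; exact (hred _).2 h))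
    (by rw [hcoe, hcoe, hcoe, S.coe_constB]; exact hfx)
  rwa [hredB, hredB] at hmain

set_option maxHeartbeats 4000000 in
/-- **DIV-RED at a smooth point, unit form** (abstract over the setup). -/
theorem edc_smooth_unit_abs (S : NodeSetup A π κ F) [IsNoetherianRing S.B]
    [IsIntegrallyClosed S.B] [IsDedekindDomain (S.B ⧸ S.pInf)]
    (hfrac : ∀ z : F, ∃ a b : S.B, b ≠ 0 ∧ z * (b : F) = (a : F))
    (hnmI : ¬ S.pInf.IsMaximal)
    (j : κ) [FFSep k j]
    (hiInf : ∀ z : S.B, S.redInf z ∈ fsS k j)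
    (hoInf : ∀ c ∈ fsS k j, ∃ z : S.B, S.redInf z = c)
    (ϖ : A) (hϖ0 : ϖ ≠ 0) (hπϖ : π ϖ = 0) (hϖK : ∀ c : K, ∃ n : ℕ, c * (ϖ : K) ^ n ∈ A)
    (h h' : S.B) (hh : h * h' = S.constB ϖ ^ 12)
    (hdiv0 : S.pZero ^ 12 ≤ Ideal.span {h}) (hdivInf : S.pInf ^ 12 ≤ Ideal.span {h'})
    (Q : Place k κ) (hQ : 0 ≤ Q.ord j)
    (hNS : ∃ z ∈ S.pZero, S.redInf z ≠ 0 ∧ Q.ord (S.redInf z) = 0)
    (m : ℕ) (u : F) (hu0 : u ≠ 0) (hu : u ∈ S.vInf.O) (hu' : u⁻¹ ∈ S.vInf.O)
    (hhor : ∀ (R : Type u) [CommRing R] [IsDomain R] [UniqueFactorizationMonoid R]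
      [Algebra R F] [IsFractionRing R F] (p : R), Prime p →
      (∀ c : K, ∃ a b : R, ¬ p ∣ b ∧
        algebraMap K F c * algebraMap R F b = algebraMap R F a) →
      ∃ v : F → ℤ, (∀ a b : F, a ≠ 0 → b ≠ 0 → v (a * b) = v a + v b) ∧
        v (algebraMap R F p) = 1 ∧
        (∀ c : R, c ≠ 0 → ¬ p ∣ c → v (algebraMap R F c) = 0) ∧ (m : ℤ) ∣ v u) :
    (m : ℤ) ∣ Q.ord (S.vInf.red ⟨u, hu⟩) := by
  classical
  haveI hBF : IsFractionRing S.B F := s36_isFractionRing_of_hfrac S.B hfrac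
  obtain ⟨s, hsmax, hsInf, hmem, hord0, hws⟩ := edc_centre S j hiInf hoInf Q hQ
  haveI := hsmax
  haveI hsp : s.IsPrime := hsmax.isPrime
  obtain ⟨z₀, hz₀, hz₀r, hz₀o⟩ := hNS
  have hz₀s : z₀ ∉ s := by
    intro hzs
    rcases (hmem z₀).1 hzs with h0 | h0
    · exact hz₀r h0
    · rw [hz₀o] at h0
      exact lt_irrefl _ h0
  have hq0 : S.constB ϖ ≠ 0 := by
    intro h0
    have h1 : ((S.constB ϖ : S.B) : F) = 0 := by rw [h0]; rfl
    rw [S.coe_constB] at h1
    have h2 : (ϖ : K) = 0 := (map_eq_zero (algebraMap K F)).1 h1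
    exact hϖ0 (Subtype.ext h2)
  have hqInf : S.constB ϖ ∈ S.pInf := by
    show S.redInf (S.constB ϖ) = 0
    rw [S.redInf_constB, hπϖ, map_zero]
  -- `p_∞` is generated by `ϖ` at `s`
  obtain ⟨a, ha⟩ := Ideal.mem_span_singleton.1 (hdiv0 (Ideal.pow_mem_pow hz₀ 12))
  have hxg : ∀ z ∈ S.pInf, S.constB ϖ ∣ z₀ * z := by
    intro z hz
    obtain ⟨b, hb⟩ := Ideal.mem_span_singleton.1 (hdivInf (Ideal.pow_mem_pow hz 12))
    obtain ⟨t, ht⟩ := edc_root_mem (F := F) z z₀ b a h h' (S.constB ϖ) 12 (by norm_num) hq0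
      (by rw [hb]; ring) (by rw [ha]; ring) hh
    exact ⟨t, by rw [mul_comm z₀ z, ht]; ring⟩
  have hne : S.pInf ≠ s := fun heq => hnmI (heq ▸ hsmax)
  have hufd : UniqueFactorizationMonoid (Localization.AtPrime s) :=
    reg3_ufm S.pInf s hsInf hne (S.constB ϖ) hqInf (fun z hz => by
      obtain ⟨c, hc⟩ := hxg z hz
      exact ⟨z₀, c, hz₀s, hc⟩)
  have h1s : (1 : S.B) ∉ s := fun h1 => hsmax.ne_top ((Ideal.eq_top_iff_one s).2 h1)
  obtain ⟨k₁, n, d, hn, hd, hfx⟩ := edc_decomp_abs S hfrac s hsInf hufd ϖ hϖ0 (S.constB ϖ) 1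
    z₀ 1 hqInf hxg hz₀s (by rw [mul_one, one_mul]) h1s
    (by rw [map_one]; exact one_ne_zero) u hu0
  have hk₁ : k₁ = 0 := edc_unit_exp S ϖ hϖ0 hπϖ u hu hu' k₁ n d hn hd hfx
  have hmain := edc_smooth_abs S hfrac s hsInf hufd ϖ hϖ0 hπϖ hϖK z₀ hxg hz₀s Q.ord
    (fun a b ha hb => Q.ord_mul ha hb) (fun c _ => hord0 c) hws m u hu0 hhor k₁ n d hn hd hfx
  have hud : (⟨u, hu⟩ : S.vInf.O) * ⟨(d : F), S.B_le_inf d.2⟩ = ⟨(n : F), S.B_le_inf n.2⟩ := by
    apply Subtype.ext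
    show u * (d : F) = (n : F)
    rw [hfx, hk₁, zpow_zero, one_mul]
  have hred : S.vInf.red ⟨u, hu⟩ * S.redInf d = S.redInf n := by
    have h1 := congrArg S.vInf.red hud
    rw [map_mul] at h1
    exact h1
  have hru : S.vInf.red ⟨u, hu⟩ ≠ 0 := by
    intro h0
    rw [h0, zero_mul] at hred
    exact hn hred.symm
  have hord := Q.ord_mul hru hd
  rw [hred] at hord
  have e : Q.ord (S.vInf.red ⟨u, hu⟩) = Q.ord (S.redInf n) - Q.ord (S.redInf d) := by
    rw [hord]; ring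
  rw [e]
  exact hmain

end Abs

section Conc

variable (A : ValuationSubring Kbar) (M' q : ℕ) [NeZero M'] [NeZero q] (hq : q.Prime)
  (hqM : ¬ q ∣ M') (hA : A.LiesOverPrime q)
  (R : ConstRed A (IsLocalRing.residue A)
      (↥(modularFunctionFieldFullC (IsLocalRing.ResidueField A) M')) (FF (M' * q)))
  (hR : IsSeriesRed R)

set_option maxHeartbeats 4000000 in
/-- **DIV-RED at the smooth points of the component `∞`, level `N = M' q`, unconditional**:
`Q` a place of `κ`, not a cusp, whose centre on `B` is not a node (`hNS`); `u ∈ F0(N)` a unit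
of `O_∞` whose divisor on `X_0(N)` is divisible by `m`.  Then `m ∣ ord_Q (red_∞ u)`. -/
theorem edc_smooth_unit (haux : IsAuxLevel q M')
    (Q : Place (IsLocalRing.ResidueField A) (Fk (IsLocalRing.ResidueField A) M'))
    (hQ : 0 ≤ Q.ord (jk (IsLocalRing.ResidueField A) M'))
    (hNS : ∃ z ∈ (nodeSetupNj A M' q hq hqM hA R hR).pZero,
      (nodeSetupNj A M' q hq hqM hA R hR).redInf z ≠ 0 ∧
        Q.ord ((nodeSetupNj A M' q hq hqM hA R hR).redInf z) = 0)
    (m : ℕ) (u : f0Field A (M' * q)) (hu0 : u ≠ 0)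
    (hdiv : ∀ P : Place Kbar (FF (M' * q)), (m : ℤ) ∣ P.ord (u : FF (M' * q)))
    (hu : u ∈ (nodeSetupNj A M' q hq hqM hA R hR).vInf.O)
    (hu' : u⁻¹ ∈ (nodeSetupNj A M' q hq hqM hA R hR).vInf.O) :
    (m : ℤ) ∣ Q.ord ((nodeSetupNj A M' q hq hqM hA R hR).vInf.red ⟨u, hu⟩) := by
  have hSUM : RgnSum A M' q hq hqM R := fun z h1 h3 => w2j_rgnSum A M' q hq hqM hA R hR z h1 h3
  haveI : IsAlgClosed (IsLocalRing.ResidueField A) := isAlgClosed_residueField A
  haveI : FFSep (IsLocalRing.ResidueField A) (jk (IsLocalRing.ResidueField A) M') :=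
    gmw_ffSep (IsLocalRing.ResidueField A) M'
  haveI : IsIntegrallyClosed (nodeSetupNj A M' q hq hqM hA R hR).B :=
    r1c_isIntegrallyClosed A M' q hq hqM hA R hR hSUM
  haveI : IsNoetherianRing (nodeSetupNj A M' q hq hqM hA R hR).B :=
    (r1c_noeth_frac A M' q hq hqM hA R hR hSUM).1
  haveI : IsDedekindDomain (nodeSetupNj A M' q hq hqM hA R hR).redInf.range :=
    rgn_isDedekindDomain_inf A M' q hq hqM hA R hR haux hSUM
  haveI : IsDedekindDomain ((nodeSetupNj A M' q hq hqM hA R hR).B ⧸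
      (nodeSetupNj A M' q hq hqM hA R hR).pInf) :=
    (nodeSetupNj A M' q hq hqM hA R hR).isDedekindDomain_quot_pInf
  have hnf : ¬ IsField (rgnC A M') :=
    r1c_fsS_not_isField (K := IsLocalRing.ResidueField A)
      (x := jk (IsLocalRing.ResidueField A) M')
  have hnmI : ¬ (nodeSetupNj A M' q hq hqM hA R hR).pInf.IsMaximal :=
    (nodeSetupNj A M' q hq hqM hA R hR).pInf_not_isMaximal
      (d1q_not_isField_range _ (rgnC A M') hnf (rgn_hiInf A M' q hq hqM hA R hR hSUM)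
        (rgn_hoInf A M' q hq hqM hA R hR haux))
  exact edc_smooth_unit_abs (nodeSetupNj A M' q hq hqM hA R hR)
    (r1c_noeth_frac A M' q hq hqM hA R hR hSUM).2 hnmI
    (jk (IsLocalRing.ResidueField A) M')
    (rgn_hiInf A M' q hq hqM hA R hR hSUM) (rgn_hoInf A M' q hq hqM hA R hR haux)
    (q : k0Val A) (a2i_q_ne_zero A q hq) (a2i_res_q A q hA) (a2i_exists_pow_mem A q hq hA)
    (uqrHB A M' q hq hqM hA R hR) (uqrHB' A M' q hq hqM hA R hR)
    (edc_hh' A M' q hq hqM hA R hR)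
    (uqr_hdiv0 A M' q hq hqM hA R hR) (uqr_hdivInf A M' q hq hqM hA R hR)
    Q hQ hNS m u hu0 hu hu'
    (fun R' _ _ _ _ _ p hp hK0 => pd_hhor_FF A (M' * q) m u hdiv R' p hp hK0)

set_option maxHeartbeats 4000000 in
/-- **WINDC on the component `∞` at all the non-cuspidal places, level `N = M' q`,
unconditional.**  `u ∈ F0(N)`, `u ≠ 0`, with divisor on `X_0(N)` divisible by `m`, a unit of
`O_∞`, `u / q ^ δ` a unit of `O_0`.  For every place `Q` of `κ` which is not a cusp: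
* if the centre of `Q` is a node (supersingular): `m ∣ ord_Q (red_∞ u) - δ`;
* otherwise: `m ∣ ord_Q (red_∞ u)`. -/
theorem edc_windc (haux : IsAuxLevel q M')
    (m : ℕ) (u : f0Field A (M' * q)) (hu0 : u ≠ 0)
    (hdiv : ∀ P : Place Kbar (FF (M' * q)), (m : ℤ) ∣ P.ord (u : FF (M' * q)))
    (hu : u ∈ (nodeSetupNj A M' q hq hqM hA R hR).vInf.O)
    (hu' : u⁻¹ ∈ (nodeSetupNj A M' q hq hqM hA R hR).vInf.O)
    (δ : ℤ)
    (hv : u * (a2iQ A q (L := M' * q) ^ δ)⁻¹ ∈ (nodeSetupNj A M' q hq hqM hA R hR).vZero.O)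
    (hv' : (u * (a2iQ A q (L := M' * q) ^ δ)⁻¹)⁻¹ ∈
      (nodeSetupNj A M' q hq hqM hA R hR).vZero.O)
    (Q : Place (IsLocalRing.ResidueField A) (Fk (IsLocalRing.ResidueField A) M'))
    (hQ : 0 ≤ Q.ord (jk (IsLocalRing.ResidueField A) M')) :
    ((∀ z ∈ (nodeSetupNj A M' q hq hqM hA R hR).pZero,
        (nodeSetupNj A M' q hq hqM hA R hR).redInf z = 0 ∨
          0 < Q.ord ((nodeSetupNj A M' q hq hqM hA R hR).redInf z)) →
      (m : ℤ) ∣ Q.ord (R.red ⟨(u : FF (M' * q)), hu⟩) - δ) ∧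
    (¬ (∀ z ∈ (nodeSetupNj A M' q hq hqM hA R hR).pZero,
        (nodeSetupNj A M' q hq hqM hA R hR).redInf z = 0 ∨
          0 < Q.ord ((nodeSetupNj A M' q hq hqM hA R hR).redInf z)) →
      (m : ℤ) ∣ Q.ord (R.red ⟨(u : FF (M' * q)), hu⟩)) := by
  have hSUM : RgnSum A M' q hq hqM R := fun z h1 h3 => w2j_rgnSum A M' q hq hqM hA R hR z h1 h3
  haveI : IsAlgClosed (IsLocalRing.ResidueField A) := isAlgClosed_residueField A
  haveI : FFSep (IsLocalRing.ResidueField A) (jk (IsLocalRing.ResidueField A) M') :=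
    gmw_ffSep (IsLocalRing.ResidueField A) M'
  refine ⟨fun hSS => ?_, fun hnSS => ?_⟩
  · exact edc_edge_unit A M' q hq hqM hA R hR haux Q hQ hSS m u hu0 hdiv hu hu' δ hv hv'
  · rw [not_forall] at hnSS
    obtain ⟨z, hz⟩ := hnSS
    rw [Classical.not_imp] at hz
    obtain ⟨hzp, hzn⟩ := hz
    rw [not_or] at hzn
    have h0 : 0 ≤ Q.ord ((nodeSetupNj A M' q hq hqM hA R hR).redInf z) :=
      ffOrd_nonneg_of_mem Q (fsS_le Q hQ _ (rgn_hiInf A M' q hq hqM hA R hR hSUM z))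
    have h1 : Q.ord ((nodeSetupNj A M' q hq hqM hA R hR).redInf z) = 0 := by
      have := hzn.2
      omega
    exact edc_smooth_unit A M' q hq hqM hA R hR haux Q hQ ⟨z, hzp, hzn.1, h1⟩ m u hu0 hdiv
      hu hu'

end Conc

end Fermat.Agent.S40lib

end
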