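import Mathlib
import Fermat.Agent.S36lib.Speed
import Fermat.Agent.S40lib.CoverSmooth
import Fermat.Agent.S40lib.EdgeSmooth

/-!
# Item 88 (S40/S44), block (J-WILD): the X-side package at a SMOOTH centre (helper12)

Twin of `edc_place_node` (EdgeConc7.lean) / `edc_node_ring` (EdgeNode.lean) at the non-cuspidal
places `Q` of the reduced component `∞` whose centre on `B` is NOT a node.

* `cvs_place_smooth_abs` (abstract over the `NodeSetup`): the centre `s`, `εx ∉ s` with
  `ϖ ∣ εx z` on `p_∞`, the outputs `hmem`, `hord0`, `hws` of `edc_centre`, `B_s` factorial, and a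
  local parameter `y ∈ s` with `ord_Q (red_∞ y) = 1`, the thickness property, and in `R = B_s`:
  `ϖ` prime, `ϖ ∤ y`, `𝔪_R = (ϖ, y)`.
  = the inputs of `cvn_cover_one` / `cvs_cover` (cover side) and of `g2e_cmp_B` (comparison).
* `cvs_place_smooth` : the same for `nodeSetupNj` (level `N = M' q`), unconditional.
(complete proofs; standard axioms only)
-/

set_option autoImplicit false
set_option linter.style.haveILetI false
set_option linter.unusedSectionVars false
set_option linter.unusedVariables false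
set_option synthInstance.maxHeartbeats 400000
set_option maxHeartbeats 1000000

noncomputable section

namespace Fermat.Agent.S40lib

open Fermat.Agent.FFlib Fermat.Agent.S24lib Fermat.Agent.GM Fermat.Agent.GoodRed
  Fermat.Agent.S34lib Fermat.Agent.RRlib Fermat.Agent.S16lib Fermat.Agent.S36lib
open AlgebraicCurve IsLocalRing IntermediateField IsDedekindDomain ModularCurve

section Abs

universe u

variable {K : Type*} [Field K] {k : Type*} [Field k]
  {A : ValuationSubring K} {π : A →+* k} {κ : Type*} [Field κ] [Algebra k κ]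
  {F : Type u} [Field F] [Algebra K F]

set_option maxHeartbeats 4000000 in
/-- **the local data at a smooth centre** (abstract over the setup). -/
theorem cvs_place_smooth_abs (S : NodeSetup A π κ F) [IsNoetherianRing S.B]
    [IsIntegrallyClosed S.B] [IsDedekindDomain (S.B ⧸ S.pInf)]
    (hfrac : ∀ z : F, ∃ a b : S.B, b ≠ 0 ∧ z * (b : F) = (a : F))
    (hnmI : ¬ S.pInf.IsMaximal)
    (j : κ) [FFSep k j]
    (hiInf : ∀ z : S.B, S.redInf z ∈ fsS k j)
    (hoInf : ∀ c ∈ fsS k j, ∃ z : S.B, S.redInf z = c)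
    (ϖ : A) (hϖ0 : ϖ ≠ 0) (hπϖ : π ϖ = 0)
    (h h' : S.B) (hh : h * h' = S.constB ϖ ^ 12)
    (hdiv0 : S.pZero ^ 12 ≤ Ideal.span {h}) (hdivInf : S.pInf ^ 12 ≤ Ideal.span {h'})
    (Q : Place k κ) (hQ : 0 ≤ Q.ord j)
    (hNS : ∃ z ∈ S.pZero, S.redInf z ≠ 0 ∧ Q.ord (S.redInf z) = 0) :
    ∃ (s : Ideal S.B) (hs : s.IsMaximal) (εx y : S.B),
      S.pInf ≤ s ∧
      (haveI := hs.isPrime; UniqueFactorizationMonoid (Localization.AtPrime s)) ∧
      (∀ z ∈ S.pInf, S.constB ϖ ∣ εx * z) ∧ εx ∉ s ∧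
      (∀ b : S.B, b ∈ s ↔ S.redInf b = 0 ∨ 0 < Q.ord (S.redInf b)) ∧
      (∀ c : S.B, 0 ≤ Q.ord (S.redInf c)) ∧
      (∀ c : S.B, c ∉ s → Q.ord (S.redInf c) = 0) ∧
      y ∈ s ∧ S.redInf y ≠ 0 ∧ Q.ord (S.redInf y) = 1 ∧
      (∀ z ∈ s, ∃ w c : S.B, w ∉ s ∧ w * z - c * y ∈ S.pInf) ∧
      (haveI := hs.isPrime;
        Prime (algebraMap S.B (Localization.AtPrime s) (S.constB ϖ)) ∧
        ¬ algebraMap S.B (Localization.AtPrime s) (S.constB ϖ) ∣
          algebraMap S.B (Localization.AtPrime s) y ∧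
        maximalIdeal (Localization.AtPrime s) =
          Ideal.span {algebraMap S.B (Localization.AtPrime s) (S.constB ϖ),
            algebraMap S.B (Localization.AtPrime s) y}) := by
  classical
  haveI hBF : IsFractionRing S.B F := s36_isFractionRing_of_hfrac S.B hfrac
  obtain ⟨s, hsmax, hsInf, hmem, hord0, hws⟩ := edc_centre S j hiInf hoInf Q hQ
  haveI := hsmax
  haveI hsp : s.IsPrime := hsmax.isPrime
  obtain ⟨z₀, hz₀, hz₀r, hz₀o⟩ := hNS
  have hz₀s : z₀ ∉ s := by
    intro hzs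
    rcases (hmem z₀).1 hzs with h0 | h0
    · exact hz₀r h0
    · rw [hz₀o] at h0
      exact lt_irrefl _ h0
  have hq0 : S.constB ϖ ≠ 0 := by
    intro h0
    have h1 : ((S.constB ϖ : S.B) : F) = 0 := by rw [h0]; rfl
    rw [S.coe_constB] at h1
    have h2 : (ϖ : K) = 0 := (map_eq_zero (algebraMap K F)).1 h1
    exact hϖ0 (Subtype.ext h2)
  have hqInf : S.constB ϖ ∈ S.pInf := by
    show S.redInf (S.constB ϖ) = 0
    rw [S.redInf_constB, hπϖ, map_zero]
  obtain ⟨a, ha⟩ := Ideal.mem_span_singleton.1 (hdiv0 (Ideal.pow_mem_pow hz₀ 12))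
  have hxg : ∀ z ∈ S.pInf, S.constB ϖ ∣ z₀ * z := by
    intro z hz
    obtain ⟨b, hb⟩ := Ideal.mem_span_singleton.1 (hdivInf (Ideal.pow_mem_pow hz 12))
    obtain ⟨t, ht⟩ := edc_root_mem (F := F) z z₀ b a h h' (S.constB ϖ) 12 (by norm_num) hq0
      (by rw [hb]; ring) (by rw [ha]; ring) hh
    exact ⟨t, by rw [mul_comm z₀ z, ht]; ring⟩
  have hne : S.pInf ≠ s := fun heq => hnmI (heq ▸ hsmax)
  have hufd : UniqueFactorizationMonoid (Localization.AtPrime s) :=
    reg3_ufm S.pInf s hsInf hne (S.constB ϖ) hqInf (fun z hz => by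
      obtain ⟨c, hc⟩ := hxg z hz
      exact ⟨z₀, c, hz₀s, hc⟩)
  -- the local parameter
  haveI hded : IsDedekindDomain (S.B ⧸ RingHom.ker S.redInf) :=
    (inferInstance : IsDedekindDomain (S.B ⧸ S.pInf))
  obtain ⟨y, hys, hy0, hth⟩ := cvs_thick s S.redInf hsInf hne
  obtain ⟨u₀, hu₀⟩ := edc_exists_unif Q hQ
  obtain ⟨z₁, hz₁⟩ := hoInf u₀ u₀.2
  have hz1 : Q.ord (S.redInf z₁) = 1 := by rw [hz₁]; exact hu₀
  have hz10 : S.redInf z₁ ≠ 0 := by
    intro h0
    rw [h0, Place.ord_zero] at hz1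
    norm_num at hz1
  obtain ⟨-, hwy⟩ := cvs_hwy s S.redInf y hys hth Q.ord (fun a b ha hb => Q.ord_mul ha hb) hmem
    (fun c _ => hord0 c) z₁ hz10 hz1
  have hloc := cvs_local s S.redInf hsInf (S.constB ϖ) z₀ y hq0 hqInf hxg hz₀s hys hy0 hth
  exact ⟨s, hsmax, z₀, y, hsInf, hufd, hxg, hz₀s, hmem, hord0, hws, hys, hy0, hwy, hth, hloc⟩

end Abs

section Conc

variable (A : ValuationSubring Kbar) (M' q : ℕ) [NeZero M'] [NeZero q] (hq : q.Prime)
  (hqM : ¬ q ∣ M') (hA : A.LiesOverPrime q)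
  (R : ConstRed A (IsLocalRing.residue A)
      (↥(modularFunctionFieldFullC (IsLocalRing.ResidueField A) M')) (FF (M' * q)))
  (hR : IsSeriesRed R)

set_option maxHeartbeats 4000000 in
/-- **the local data at a smooth centre, level `N = M' q`, unconditional.** -/
theorem cvs_place_smooth (haux : IsAuxLevel q M')
    (Q : Place (IsLocalRing.ResidueField A) (Fk (IsLocalRing.ResidueField A) M'))
    (hQ : 0 ≤ Q.ord (jk (IsLocalRing.ResidueField A) M'))
    (hNS : ∃ z ∈ (nodeSetupNj A M' q hq hqM hA R hR).pZero,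
      (nodeSetupNj A M' q hq hqM hA R hR).redInf z ≠ 0 ∧
        Q.ord ((nodeSetupNj A M' q hq hqM hA R hR).redInf z) = 0) :
    ∃ (s : Ideal (nodeSetupNj A M' q hq hqM hA R hR).B) (hs : s.IsMaximal)
      (εx y : (nodeSetupNj A M' q hq hqM hA R hR).B),
      (nodeSetupNj A M' q hq hqM hA R hR).pInf ≤ s ∧
      (haveI := hs.isPrime; UniqueFactorizationMonoid (Localization.AtPrime s)) ∧
      (∀ z ∈ (nodeSetupNj A M' q hq hqM hA R hR).pInf,
        (nodeSetupNj A M' q hq hqM hA R hR).constB (q : k0Val A) ∣ εx * z) ∧ εx ∉ s ∧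
      (∀ b : (nodeSetupNj A M' q hq hqM hA R hR).B, b ∈ s ↔
        (nodeSetupNj A M' q hq hqM hA R hR).redInf b = 0 ∨
          0 < Q.ord ((nodeSetupNj A M' q hq hqM hA R hR).redInf b)) ∧
      (∀ c : (nodeSetupNj A M' q hq hqM hA R hR).B,
        0 ≤ Q.ord ((nodeSetupNj A M' q hq hqM hA R hR).redInf c)) ∧
      (∀ c : (nodeSetupNj A M' q hq hqM hA R hR).B, c ∉ s →
        Q.ord ((nodeSetupNj A M' q hq hqM hA R hR).redInf c) = 0) ∧
      y ∈ s ∧ (nodeSetupNj A M' q hq hqM hA R hR).redInf y ≠ 0 ∧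
      Q.ord ((nodeSetupNj A M' q hq hqM hA R hR).redInf y) = 1 ∧
      (∀ z ∈ s, ∃ w c : (nodeSetupNj A M' q hq hqM hA R hR).B, w ∉ s ∧
        w * z - c * y ∈ (nodeSetupNj A M' q hq hqM hA R hR).pInf) ∧
      (haveI := hs.isPrime;
        Prime (algebraMap (nodeSetupNj A M' q hq hqM hA R hR).B (Localization.AtPrime s)
          ((nodeSetupNj A M' q hq hqM hA R hR).constB (q : k0Val A))) ∧
        ¬ algebraMap (nodeSetupNj A M' q hq hqM hA R hR).B (Localization.AtPrime s)
            ((nodeSetupNj A M' q hq hqM hA R hR).constB (q : k0Val A)) ∣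
          algebraMap (nodeSetupNj A M' q hq hqM hA R hR).B (Localization.AtPrime s) y ∧
        maximalIdeal (Localization.AtPrime s) =
          Ideal.span {algebraMap (nodeSetupNj A M' q hq hqM hA R hR).B (Localization.AtPrime s)
              ((nodeSetupNj A M' q hq hqM hA R hR).constB (q : k0Val A)),
            algebraMap (nodeSetupNj A M' q hq hqM hA R hR).B (Localization.AtPrime s) y}) := by
  have hSUM : RgnSum A M' q hq hqM R := fun z h1 h3 => w2j_rgnSum A M' q hq hqM hA R hR z h1 h3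
  haveI : IsAlgClosed (IsLocalRing.ResidueField A) := isAlgClosed_residueField A
  haveI : FFSep (IsLocalRing.ResidueField A) (jk (IsLocalRing.ResidueField A) M') :=
    gmw_ffSep (IsLocalRing.ResidueField A) M'
  haveI : IsIntegrallyClosed (nodeSetupNj A M' q hq hqM hA R hR).B :=
    r1c_isIntegrallyClosed A M' q hq hqM hA R hR hSUM
  haveI : IsNoetherianRing (nodeSetupNj A M' q hq hqM hA R hR).B :=
    (r1c_noeth_frac A M' q hq hqM hA R hR hSUM).1
  haveI : IsDedekindDomain (nodeSetupNj A M' q hq hqM hA R hR).redInf.range :=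
    rgn_isDedekindDomain_inf A M' q hq hqM hA R hR haux hSUM
  haveI : IsDedekindDomain ((nodeSetupNj A M' q hq hqM hA R hR).B ⧸
      (nodeSetupNj A M' q hq hqM hA R hR).pInf) :=
    (nodeSetupNj A M' q hq hqM hA R hR).isDedekindDomain_quot_pInf
  have hnf : ¬ IsField (rgnC A M') :=
    r1c_fsS_not_isField (K := IsLocalRing.ResidueField A)
      (x := jk (IsLocalRing.ResidueField A) M')
  have hnmI : ¬ (nodeSetupNj A M' q hq hqM hA R hR).pInf.IsMaximal :=
    (nodeSetupNj A M' q hq hqM hA R hR).pInf_not_isMaximal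
      (d1q_not_isField_range _ (rgnC A M') hnf (rgn_hiInf A M' q hq hqM hA R hR hSUM)
        (rgn_hoInf A M' q hq hqM hA R hR haux))
  exact cvs_place_smooth_abs (nodeSetupNj A M' q hq hqM hA R hR)
    (r1c_noeth_frac A M' q hq hqM hA R hR hSUM).2 hnmI
    (jk (IsLocalRing.ResidueField A) M')
    (rgn_hiInf A M' q hq hqM hA R hR hSUM) (rgn_hoInf A M' q hq hqM hA R hR haux)
    (q : k0Val A) (a2i_q_ne_zero A q hq) (a2i_res_q A q hA)
    (uqrHB A M' q hq hqM hA R hR) (uqrHB' A M' q hq hqM hA R hR)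
    (edc_hh' A M' q hq hqM hA R hR)
    (uqr_hdiv0 A M' q hq hqM hA R hR) (uqr_hdivInf A M' q hq hqM hA R hR)
    Q hQ hNS

end Conc

end Fermat.Agent.S40lib

end
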