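import Mathlib
import Fermat.Agent.S36lib.Speed
import Fermat.Agent.S40lib.CoverSmooth2

/-!
# Item 88 (S40/S44), block (J-WILD): the residue map at the centre of a place (helper12)

At the centre `s` of a non-cuspidal place `Q` of the reduced component `∞` (a node or a smooth
point; `hmem`, `hord0` are outputs of `edc_place_node`, `edc_centre`, `cvs_place_smooth`):

* `ctr_res`    : a SURJECTIVE ring homomorphism `ρ : B_s →+* k` onto the constant field with
                 `ρ (c) = π c` on the constants (= the inputs `ρ`, `hρ` of `cva_node`, `cvn_cover`,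
                 `cvs_cover`);
* `ctr_natCast_mem` : `(p : B_s) ∈ 𝔪` when `p = 0` in `k` (= `hpR` of `cva_node`);
* `ctr_intClosed`   : `B_s` is integrally closed (from factoriality).
(complete proofs; standard axioms only)
-/

set_option autoImplicit false
set_option linter.style.haveILetI false
set_option linter.unusedSectionVars false
set_option linter.unusedVariables false
set_option synthInstance.maxHeartbeats 400000
set_option maxHeartbeats 1000000

noncomputable section

namespace Fermat.Agent.S40lib

open Fermat.Agent.FFlib Fermat.Agent.S24lib Fermat.Agent.GM Fermat.Agent.GoodRed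
  Fermat.Agent.S34lib Fermat.Agent.RRlib Fermat.Agent.S16lib Fermat.Agent.S36lib
open AlgebraicCurve IsLocalRing IntermediateField IsDedekindDomain ModularCurve

section Abs

universe u

variable {K : Type*} [Field K] {k : Type*} [Field k]
  {A : ValuationSubring K} {π : A →+* k} {κ : Type*} [Field κ] [Algebra k κ]
  {F : Type u} [Field F] [Algebra K F]

/-- **the residue map at the centre of a place**: `ρ : B_s →+* k` surjective, `ρ c = π c` on the
constants, `ρ b = 0 ↔ red_∞ b = 0 ∨ 0 < ord_Q (red_∞ b)` on `B`. -/
theorem ctr_res (S : NodeSetup A π κ F) (hπ : Function.Surjective π)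
    (Q : Place k κ) (hres : Function.Surjective (algebraMap k Q.ResidueField))
    (s : Ideal S.B) [hsp : s.IsPrime]
    (hmem : ∀ b : S.B, b ∈ s ↔ S.redInf b = 0 ∨ 0 < Q.ord (S.redInf b))
    (hord0 : ∀ c : S.B, 0 ≤ Q.ord (S.redInf c)) :
    ∃ ρ : Localization.AtPrime s →+* k, Function.Surjective ρ ∧
      (∀ a : A, ρ (algebraMap S.B (Localization.AtPrime s) (S.constB a)) = π a) ∧
      (∀ b : S.B, ρ (algebraMap S.B (Localization.AtPrime s) b) = 0 ↔ b ∈ s) := by
  classical
  -- the map to the valuation ring of `Q`
  let φ : S.B →+* Q.toValuationSubring :=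
    S.redInf.codRestrict Q.toValuationSubring.toSubring
      (fun c => ffMem_of_ord_nonneg Q (hord0 c))
  have hφ : ∀ b, ((φ b : Q.toValuationSubring) : κ) = S.redInf b := fun b => rfl
  have hbij : Function.Bijective (algebraMap k Q.ResidueField) :=
    ⟨(algebraMap k Q.ResidueField).injective, hres⟩
  let e : k ≃+* Q.ResidueField := RingEquiv.ofBijective (algebraMap k Q.ResidueField) hbij
  let ρ' : S.B →+* k := (e.symm : Q.ResidueField →+* k).comp
    ((IsLocalRing.residue Q.toValuationSubring).comp φ)
  have hρ' : ∀ b, ρ' b = e.symm (IsLocalRing.residue Q.toValuationSubring (φ b)) := fun b => rfl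
  have hzero : ∀ b : S.B, ρ' b = 0 ↔ b ∈ s := by
    intro b
    rw [hρ', map_eq_zero_iff _ e.symm.injective, IsLocalRing.residue_eq_zero_iff, hmem]
    constructor
    · intro hb
      by_cases h0 : S.redInf b = 0
      · exact Or.inl h0
      · right
        have hne : φ b ≠ 0 := by
          intro hz
          apply h0
          rw [← hφ b, hz]
          rfl
        have := ffOrd_pos_of_mem_maximalIdeal Q hb hne
        rwa [hφ] at this
    · rintro (h0 | hpos)
      · have : φ b = 0 := Subtype.ext (by rw [hφ, h0]; rfl)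
        rw [this]
        exact Ideal.zero_mem _
      · obtain ⟨a, ha, hae⟩ := ffMem_maximalIdeal_of_ord_pos Q hpos
        have : a = φ b := Subtype.ext (by rw [hae, hφ])
        rwa [← this]
  have hconst : ∀ a : A, ρ' (S.constB a) = π a := by
    intro a
    rw [hρ']
    have h1 : φ (S.constB a) = algebraMap k Q.toValuationSubring (π a) :=
      Subtype.ext (by rw [hφ, S.redInf_constB]; rfl)
    rw [h1]
    have h2 : IsLocalRing.residue Q.toValuationSubring
        (algebraMap k Q.toValuationSubring (π a)) = e (π a) := rfl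
    rw [h2, RingEquiv.symm_apply_apply]
  have hunit : ∀ y : s.primeCompl, IsUnit (ρ' (y : S.B)) := by
    intro y
    rw [isUnit_iff_ne_zero, Ne, hzero]
    exact y.2
  let ρ : Localization.AtPrime s →+* k := IsLocalization.lift (M := s.primeCompl) hunit
  have hρ : ∀ b : S.B, ρ (algebraMap S.B (Localization.AtPrime s) b) = ρ' b :=
    fun b => IsLocalization.lift_eq hunit b
  refine ⟨ρ, ?_, ?_, ?_⟩
  · intro c
    obtain ⟨a, rfl⟩ := hπ c
    exact ⟨algebraMap S.B (Localization.AtPrime s) (S.constB a), by rw [hρ, hconst]⟩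
  · intro a
    rw [hρ, hconst]
  · intro b
    rw [hρ, hzero]

/-- `(p : B_s) ∈ 𝔪` when `p = 0` in the residue field. -/
theorem ctr_natCast_mem {R : Type*} [CommRing R] [IsLocalRing R] {k' : Type*} [Field k']
    (ρ : R →+* k') (p : ℕ) (hp : (p : k') = 0) : (p : R) ∈ maximalIdeal R := by
  rw [mem_maximalIdeal, mem_nonunits_iff]
  intro hu
  have h1 : IsUnit (ρ (p : R)) := hu.map ρ
  rw [map_natCast, hp] at h1
  exact not_isUnit_zero h1

/-- a factorial domain is integrally closed (recorded for `B_s`). -/
theorem ctr_intClosed (R : Type*) [CommRing R] [IsDomain R] [UniqueFactorizationMonoid R] :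
    IsIntegrallyClosed R := inferInstance

/-- the kernel of a surjection of a local ring onto a field is the maximal ideal. -/
theorem ctr_ker {R : Type*} [CommRing R] [IsLocalRing R] {k' : Type*} [Field k']
    (ρ : R →+* k') (hρ : Function.Surjective ρ) (r : R) :
    ρ r = 0 ↔ r ∈ maximalIdeal R := by
  have hmax : (RingHom.ker ρ).IsMaximal := RingHom.ker_isMaximal_of_surjective ρ hρ
  have hker : RingHom.ker ρ = maximalIdeal R := IsLocalRing.eq_maximalIdeal hmax
  rw [← hker, RingHom.mem_ker]

end Abs

section Conc

variable (A : ValuationSubring Kbar) (M' q : ℕ) [NeZero M'] [NeZero q] (hq : q.Prime)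
  (hqM : ¬ q ∣ M') (hA : A.LiesOverPrime q)
  (R : ConstRed A (IsLocalRing.residue A)
      (↥(modularFunctionFieldFullC (IsLocalRing.ResidueField A) M')) (FF (M' * q)))
  (hR : IsSeriesRed R)

/-- **the residue map at the centre of a place, level `N = M' q`**: `ρ : B_s →+* k` surjective
(`k` the residue field of `A`, algebraically closed), with `(q : B_s) ∈ 𝔪`. -/
theorem ctr_res_conc
    (Q : Place (IsLocalRing.ResidueField A) (Fk (IsLocalRing.ResidueField A) M'))
    (s : Ideal (nodeSetupNj A M' q hq hqM hA R hR).B) [hsp : s.IsPrime]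
    (hmem : ∀ b : (nodeSetupNj A M' q hq hqM hA R hR).B, b ∈ s ↔
      (nodeSetupNj A M' q hq hqM hA R hR).redInf b = 0 ∨
        0 < Q.ord ((nodeSetupNj A M' q hq hqM hA R hR).redInf b))
    (hord0 : ∀ c : (nodeSetupNj A M' q hq hqM hA R hR).B,
      0 ≤ Q.ord ((nodeSetupNj A M' q hq hqM hA R hR).redInf c)) :
    ∃ ρ : Localization.AtPrime s →+* IsLocalRing.ResidueField A, Function.Surjective ρ ∧
      (∀ a : k0Val A, ρ (algebraMap (nodeSetupNj A M' q hq hqM hA R hR).B
        (Localization.AtPrime s) ((nodeSetupNj A M' q hq hqM hA R hR).constB a)) = k0Res A a) ∧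
      (∀ b : (nodeSetupNj A M' q hq hqM hA R hR).B,
        ρ (algebraMap (nodeSetupNj A M' q hq hqM hA R hR).B (Localization.AtPrime s) b) = 0 ↔
          b ∈ s) ∧
      (q : Localization.AtPrime s) ∈ maximalIdeal (Localization.AtPrime s) := by
  haveI : IsAlgClosed (IsLocalRing.ResidueField A) := isAlgClosed_residueField A
  haveI hsep : FFSep (IsLocalRing.ResidueField A) (jk (IsLocalRing.ResidueField A) M') :=
    gmw_ffSep (IsLocalRing.ResidueField A) M'
  have hres : Function.Surjective
      (algebraMap (IsLocalRing.ResidueField A) Q.ResidueField) :=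
    ffResidue_surjective Q hsep.trans
  obtain ⟨ρ, hρ, hc, hz⟩ := ctr_res (nodeSetupNj A M' q hq hqM hA R hR)
    (k0_residue_comp_surjective A q hq hA) Q hres s hmem hord0
  refine ⟨ρ, hρ, hc, hz, ?_⟩
  have hq0 : ((q : ℕ) : IsLocalRing.ResidueField A) = 0 := by
    have h1 := a2i_res_q A q hA
    rw [map_natCast] at h1
    exact h1
  exact ctr_natCast_mem ρ q hq0

end Conc

end Fermat.Agent.S40lib
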