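import Mathlib
import Fermat.Agent.S36lib.Speed

/-!
# Item 88 (S40/S44), block (J-WILD), piece (Z2) (helper2): constants that are `p`-th powers

Abstract, Mathlib only.  `F` a field, `O` a valuation subring (e.g. a Gauss valuation ring),
`ζ` a primitive `p`-th root of unity with `λ = ζ - 1` a nonunit, `p` a nonunit.

* `cpw_mem`: `y ^ p = 1 + λ ^ p G`, `G ∈ O` ⇒ `v (y - 1) ≤ v λ` (i.e. `(y - 1) / λ ∈ O`).
* `cpw_fixed`: if moreover `τ : F →+* F` fixes `ζ`, acts trivially on the residue field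
  (`τ f - f` is a nonunit for `f ∈ O`) and `τ y = ζ ^ i y`, then `τ y = y`.
* `cpw_root_fixed`: `lc ^ p = ℓ`, `ℓ ^ m = e ^ p` with `τ e = e`, `p ∤ m`, `τ lc = ζ ^ j lc`
  ⇒ `τ lc = lc`.
(complete proofs, standard axioms only)
-/

set_option autoImplicit false
set_option linter.style.haveILetI false
set_option linter.unusedSectionVars false

namespace Fermat.Agent.S40lib

section ConstPow

variable {F : Type*} [Field F] (O : ValuationSubring F)

theorem cpw_zeta_pow_sub_one (ζ : F) (j : ℕ) :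
    ζ ^ j - 1 = (ζ - 1) * ∑ m ∈ Finset.range j, ζ ^ m := by
  rw [mul_comm, geom_sum_mul]

theorem cpw_geom_mem {ζ : F} (hζO : ζ ∈ O) (j : ℕ) : ∑ m ∈ Finset.range j, ζ ^ m ∈ O :=
  sum_mem fun m _ => pow_mem hζO m

theorem cpw_val_root_sub_one {p : ℕ} (hp : 0 < p) {ζ : F} (hζ : IsPrimitiveRoot ζ p)
    (hζO : ζ ∈ O) {μ : F} (hμ : μ ^ p = 1) :
    O.valuation (μ - 1) ≤ O.valuation (ζ - 1) := by
  haveI : NeZero p := ⟨hp.ne'⟩
  obtain ⟨j, -, rfl⟩ := hζ.eq_pow_of_pow_eq_one hμ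
  rw [cpw_zeta_pow_sub_one, map_mul]
  exact mul_le_of_le_one_right' ((O.valuation_le_one_iff _).2 (cpw_geom_mem O hζO j))

/-- `y ^ p = 1 + λ ^ p G` with `G ∈ O` ⇒ `v (y - 1) ≤ v λ`. -/
theorem cpw_mem {p : ℕ} (hp : 0 < p) {ζ : F} (hζ : IsPrimitiveRoot ζ p) (hζO : ζ ∈ O)
    (y G : F) (hG : G ∈ O) (hy : y ^ p = 1 + (ζ - 1) ^ p * G) :
    O.valuation (y - 1) ≤ O.valuation (ζ - 1) := by
  by_contra hcon
  rw [not_le] at hcon
  haveI : NeZero p := ⟨hp.ne'⟩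
  have hprod := hζ.pow_sub_pow_eq_prod_sub_mul y 1 hp
  have hfac : ∀ μ ∈ Polynomial.nthRootsFinset p (1 : F),
      O.valuation (y - μ * 1) = O.valuation (y - 1) := by
    intro μ hμ
    have hμp : μ ^ p = 1 := (Polynomial.mem_nthRootsFinset hp 1).1 hμ
    have h1 : y - μ * 1 = (y - 1) - (μ - 1) := by ring
    rw [h1]
    exact Valuation.map_sub_eq_of_lt_left _
      (lt_of_le_of_lt (cpw_val_root_sub_one O hp hζ hζO hμp) hcon)
  have hv : O.valuation (y ^ p - 1) = O.valuation (y - 1) ^ p := by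
    have h2 : y ^ p - 1 = ∏ μ ∈ Polynomial.nthRootsFinset p (1 : F), (y - μ * 1) := by
      rw [← hprod, one_pow]
    rw [h2, map_prod, Finset.prod_congr rfl hfac, Finset.prod_const, hζ.card_nthRootsFinset]
  have hv2 : O.valuation (y ^ p - 1) ≤ O.valuation (ζ - 1) ^ p := by
    rw [hy, add_sub_cancel_left, map_mul, map_pow]
    exact mul_le_of_le_one_right' ((O.valuation_le_one_iff _).2 hG)
  rw [hv] at hv2
  exact absurd hv2 (not_le.2 (pow_lt_pow_left₀ hcon zero_le hp.ne'))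

/-- **`τ y = y`**: `y ^ p ≡ 1 mod λ ^ p O`, `τ` trivial on the residue field, `τ ζ = ζ`,
`τ y = ζ ^ i y` ⇒ `τ y = y`. -/
theorem cpw_fixed {p : ℕ} (hp : p.Prime) {ζ : F} (hζ : IsPrimitiveRoot ζ p)
    (hlam : ζ - 1 ∈ O.nonunits) (hpO : (p : F) ∈ O.nonunits)
    (τ : F →+* F) (hτζ : τ ζ = ζ) (hτ : ∀ f ∈ O, τ f - f ∈ O.nonunits)
    (y G : F) (hG : G ∈ O) (hy : y ^ p = 1 + (ζ - 1) ^ p * G)
    (i : ℕ) (hτy : τ y = ζ ^ i * y) : τ y = y := by
  rw [ValuationSubring.mem_nonunits_iff] at hlam hpO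
  have hlam0 : ζ - 1 ≠ 0 := sub_ne_zero.2 (hζ.ne_one hp.one_lt)
  have hvlam0 : O.valuation (ζ - 1) ≠ 0 := (Valuation.ne_zero_iff _).2 hlam0
  have hζO : ζ ∈ O := by
    have h1 : ζ = (ζ - 1) + 1 := by ring
    rw [h1]
    exact add_mem ((O.valuation_le_one_iff _).1 hlam.le) (one_mem _)
  -- `z = (y - 1) / λ ∈ O`
  obtain ⟨z, hz⟩ : ∃ z : F, z = (y - 1) / (ζ - 1) := ⟨_, rfl⟩
  have hyz : y = 1 + (ζ - 1) * z := by
    rw [hz, mul_div_cancel₀ _ hlam0]; ring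
  have hzO : z ∈ O := by
    rw [← O.valuation_le_one_iff, hz, map_div₀]
    exact div_le_one_of_le₀ (cpw_mem O hp.pos hζ hζO y G hG hy) zero_le
  -- reduce `i` modulo `p`
  have hi : ζ ^ i = ζ ^ (i % p) := pow_eq_pow_mod i hζ.pow_eq_one
  rw [hi] at hτy
  have hip : i % p < p := Nat.mod_lt _ hp.pos
  obtain ⟨k, hk⟩ : ∃ k : ℕ, k = i % p := ⟨_, rfl⟩
  rw [← hk] at hτy hip
  -- `τ z - z = S_k · y`
  have hτlam : τ (ζ - 1) = ζ - 1 := by rw [map_sub, hτζ, map_one]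
  have hτz : τ z - z = (∑ m ∈ Finset.range k, ζ ^ m) * y := by
    have h1 : (ζ - 1) * τ z = ζ ^ k * y - 1 := by
      rw [← hτlam, ← map_mul, ← hτy]
      have h2 : (ζ - 1) * z = y - 1 := by rw [hyz]; ring
      rw [h2, map_sub, map_one]
    have h3 : (ζ - 1) * z = y - 1 := by rw [hyz]; ring
    have h4 : (ζ - 1) * (τ z - z) = (ζ - 1) * ((∑ m ∈ Finset.range k, ζ ^ m) * y) := by
      rw [mul_sub, h1, h3, ← mul_assoc, ← cpw_zeta_pow_sub_one]
      ring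
    exact mul_left_cancel₀ hlam0 h4
  have hvy : O.valuation y = 1 := by
    rw [hyz]
    refine Valuation.map_one_add_of_lt _ ?_
    rw [map_mul]
    exact lt_of_le_of_lt (mul_le_of_le_one_right' ((O.valuation_le_one_iff _).2 hzO)) hlam
  have hS : O.valuation (∑ m ∈ Finset.range k, ζ ^ m) < 1 := by
    have h1 := hτ z hzO
    rw [ValuationSubring.mem_nonunits_iff, hτz, map_mul, hvy, mul_one] at h1
    exact h1
  -- `S_k ≡ k`
  have hSk : O.valuation ((∑ m ∈ Finset.range k, ζ ^ m) - (k : F)) < 1 := by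
    have h1 : (∑ m ∈ Finset.range k, ζ ^ m) - (k : F) = ∑ m ∈ Finset.range k, (ζ ^ m - 1) := by
      rw [Finset.sum_sub_distrib, Finset.sum_const, Finset.card_range, nsmul_eq_mul, mul_one]
    rw [h1]
    refine Valuation.map_sum_lt _ one_ne_zero ?_
    intro m _
    exact lt_of_le_of_lt (cpw_val_root_sub_one O hp.pos hζ hζO
      (by rw [← pow_mul, mul_comm, pow_mul, hζ.pow_eq_one, one_pow])) hlam
  have hkv : O.valuation (k : F) < 1 := by
    have h1 : (k : F) = (∑ m ∈ Finset.range k, ζ ^ m) -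
        ((∑ m ∈ Finset.range k, ζ ^ m) - (k : F)) := by ring
    rw [h1]
    exact Valuation.map_sub_lt _ hS hSk
  -- `k = 0`
  have hk0 : k = 0 := by
    by_contra hne
    have hcop : Nat.Coprime k p := (Nat.coprime_of_lt_prime hne hip hp).symm
    obtain ⟨a, b, hab⟩ := (Nat.isCoprime_iff_coprime.2 hcop)
    have h1 : (1 : F) = (a : F) * (k : F) + (b : F) * (p : F) := by
      have := congrArg (fun t : ℤ => (t : F)) hab
      simp only [Int.cast_add, Int.cast_mul, Int.cast_natCast, Int.cast_one] at this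
      exact this.symm
    have h2 : O.valuation (1 : F) < 1 := by
      rw [h1]
      refine Valuation.map_add_lt _ ?_ ?_
      · rw [map_mul]
        exact lt_of_le_of_lt
          (mul_le_of_le_one_left' ((O.valuation_le_one_iff _).2 (intCast_mem O a))) hkv
      · rw [map_mul]
        exact lt_of_le_of_lt
          (mul_le_of_le_one_left' ((O.valuation_le_one_iff _).2 (intCast_mem O b))) hpO
    rw [map_one] at h2
    exact lt_irrefl _ h2
  rw [hτy, hk0, pow_zero, one_mul]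

end ConstPow

section Root

variable {F : Type*} [Field F]

/-- **the final step of (Z2)**: `lc ^ p = ℓ`, `ℓ ^ m = e ^ p` with `e` fixed by `τ`, `p ∤ m`,
`τ ζ = ζ`, `τ lc = ζ ^ j lc` ⇒ `τ lc = lc`. -/
theorem cpw_root_fixed {p : ℕ} (hp : p.Prime) {ζ : F} (hζ : IsPrimitiveRoot ζ p)
    (τ : F →+* F) (hτζ : τ ζ = ζ) (lc e : F) (hlc0 : lc ≠ 0) (m : ℕ) (hm : ¬ p ∣ m)
    (hrel : (lc ^ m) ^ p = e ^ p) (hτe : τ e = e) (j : ℕ) (hτlc : τ lc = ζ ^ j * lc) :
    τ lc = lc := by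
  haveI : NeZero p := ⟨hp.ne_zero⟩
  have he0 : e ≠ 0 := by
    have h0 : (lc ^ m) ^ p ≠ 0 := pow_ne_zero _ (pow_ne_zero _ hlc0)
    rw [hrel] at h0
    exact fun h => h0 (by rw [h, zero_pow hp.ne_zero])
  -- `lc ^ m = ζ ^ s * e`
  have h1 : (lc ^ m / e) ^ p = 1 := by
    rw [div_pow, hrel, div_self (pow_ne_zero _ he0)]
  obtain ⟨s, -, hs⟩ := hζ.eq_pow_of_pow_eq_one h1
  have hlcm : lc ^ m = ζ ^ s * e := by
    rw [hs, div_mul_cancel₀ _ he0]
  -- apply `τ`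
  have h2 : τ (lc ^ m) = lc ^ m := by
    rw [hlcm, map_mul, map_pow, hτζ, hτe]
  rw [map_pow, hτlc, mul_pow] at h2
  have h3 : (ζ ^ j) ^ m = 1 := by
    have h4 : (ζ ^ j) ^ m * lc ^ m = 1 * lc ^ m := by rw [h2, one_mul]
    exact mul_right_cancel₀ (pow_ne_zero _ hlc0) h4
  rw [← pow_mul] at h3
  have h5 : p ∣ j * m := (hζ.pow_eq_one_iff_dvd _).1 h3
  have h6 : p ∣ j := (hp.dvd_mul.1 h5).resolve_right hm
  obtain ⟨t, rfl⟩ := h6
  rw [hτlc, pow_mul, hζ.pow_eq_one, one_pow, one_mul]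

end Root

end Fermat.Agent.S40lib
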