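import Mathlib

/-!
# Item 88 (S40), piece C3 (helper29): abstract Kummer descent

`E` a field with an action of a group `G` by field automorphisms, `C ⊆ E` a `G`-stable subfield of
"constants" which is `p`-closed in `E`, `lc : E → E` a multiplicative, `G`-equivariant "leading
coefficient" with values in `C` which is the identity on `C`.  `N ≤ G` a normal subgroup of finite
index fixing `u`, such that the `N`-fixed constants separate the cosets of `N`.

* `c3d_unique`: the `lc`-normalised `p`-th root is unique;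
* `c3d_descent`: if `g • u ∈ C · u · E^p` for all `g ∈ G` (the class of `div u / p` is `G`-fixed),
  then `c · u · h ^ p` is `G`-fixed for some constant `c ≠ 0` and some `h ≠ 0`
  (Noether's form of Hilbert 90 for the unique `lc`-normalised cocycle).
-/

set_option autoImplicit false

noncomputable section

namespace Fermat.Agent.S40lib

open scoped Pointwise

section Descent

variable {E : Type*} [Field E] {G : Type*} [Group G] [MulSemiringAction G E]

/-- the data of a leading coefficient -/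
structure C3dLc (G : Type*) [Group G] {E : Type*} [Field E] [MulSemiringAction G E]
    (C : Subfield E) where
  /-- the leading coefficient -/
  lc : E → E
  lc_mul : ∀ x y, lc (x * y) = lc x * lc y
  lc_mem : ∀ x, x ≠ 0 → lc x ∈ C
  lc_ne : ∀ x, x ≠ 0 → lc x ≠ 0
  lc_const : ∀ c ∈ C, lc c = c
  lc_smul : ∀ (g : G) x, lc (g • x) = g • lc x

namespace C3dLc

variable {C : Subfield E} (L : C3dLc G C)

theorem lc_one : L.lc 1 = 1 := L.lc_const 1 C.one_mem

theorem lc_inv {x : E} (hx : x ≠ 0) : L.lc x⁻¹ = (L.lc x)⁻¹ := by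
  have h1 : L.lc x * L.lc x⁻¹ = 1 := by
    rw [← L.lc_mul, mul_inv_cancel₀ hx, L.lc_one]
  exact eq_inv_of_mul_eq_one_right h1

theorem lc_pow (x : E) (n : ℕ) : L.lc (x ^ n) = L.lc x ^ n := by
  induction n with
  | zero => simp [L.lc_one]
  | succ n ih => rw [pow_succ, L.lc_mul, ih, pow_succ]

end C3dLc

variable {C : Subfield E}

/-- **uniqueness** of the `lc`-normalised `p`-th root. -/
theorem c3d_unique (L : C3dLc G C) {p : ℕ} (hCroot : ∀ x : E, x ^ p ∈ C → x ∈ C)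
    {w h₁ h₂ c₁ c₂ : E} (hw : w ≠ 0) (h₁0 : h₁ ≠ 0) (h₂0 : h₂ ≠ 0)
    (hc₁ : c₁ ∈ C) (hc₂ : c₂ ∈ C) (hl₁ : L.lc h₁ = 1) (hl₂ : L.lc h₂ = 1)
    (h : c₁ * h₁ ^ p = w) (h' : c₂ * h₂ ^ p = w) : h₁ = h₂ := by
  have hc₁0 : c₁ ≠ 0 := by
    rintro rfl
    exact hw (by rw [← h, zero_mul])
  have hq : (h₁ / h₂) ^ p = c₂ / c₁ := by
    rw [div_pow, div_eq_div_iff (pow_ne_zero _ h₂0) hc₁0]
    calc h₁ ^ p * c₁ = c₁ * h₁ ^ p := mul_comm _ _
      _ = c₂ * h₂ ^ p := by rw [h, h']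
  have hmem : h₁ / h₂ ∈ C := hCroot _ (by rw [hq]; exact C.div_mem hc₂ hc₁)
  have hl : L.lc (h₁ / h₂) = 1 := by
    rw [div_eq_mul_inv, L.lc_mul, L.lc_inv h₂0, hl₁, hl₂, inv_one, mul_one]
  have h1 : h₁ / h₂ = 1 := by rw [← L.lc_const _ hmem, hl]
  exact (div_eq_one_iff_eq h₂0).1 h1


/-- the `N`-fixed constants -/
def c3dCN (C : Subfield E) (N : Subgroup G) : Subfield E where
  carrier := {c | c ∈ C ∧ ∀ n ∈ N, n • c = c}
  mul_mem' := fun {a b} ha hb => ⟨C.mul_mem ha.1 hb.1, fun n hn => by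
    rw [smul_mul', ha.2 n hn, hb.2 n hn]⟩
  one_mem' := ⟨C.one_mem, fun n _ => smul_one n⟩
  add_mem' := fun {a b} ha hb => ⟨C.add_mem ha.1 hb.1, fun n hn => by
    rw [smul_add, ha.2 n hn, hb.2 n hn]⟩
  zero_mem' := ⟨C.zero_mem, fun n _ => smul_zero n⟩
  neg_mem' := fun {a} ha => ⟨C.neg_mem ha.1, fun n hn => by rw [smul_neg, ha.2 n hn]⟩
  inv_mem' := fun a ha => ⟨C.inv_mem ha.1, fun n hn => by rw [smul_inv'', ha.2 n hn]⟩

theorem mem_c3dCN {C : Subfield E} {N : Subgroup G} {c : E} :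
    c ∈ c3dCN C N ↔ c ∈ C ∧ ∀ n ∈ N, n • c = c := Iff.rfl

/-- the restriction of `g` to the `N`-fixed constants, as a monoid homomorphism -/
def c3dPsi (C : Subfield E) (N : Subgroup G) (g : G) : ↥(c3dCN C N) →* E where
  toFun c := g • (c : E)
  map_one' := by simp
  map_mul' a b := by simp [smul_mul']

@[simp] theorem c3dPsi_apply (C : Subfield E) (N : Subgroup G) (g : G) (c : ↥(c3dCN C N)) :
    c3dPsi C N g c = g • (c : E) := rfl

/-- **abstract Kummer descent.** -/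
theorem c3d_descent (L : C3dLc G C) {p : ℕ}
    (hCG : ∀ (g : G) (c : E), c ∈ C → g • c ∈ C)
    (hCroot : ∀ x : E, x ^ p ∈ C → x ∈ C)
    (N : Subgroup G) [N.Normal] [N.FiniteIndex]
    {u : E} (hu : u ≠ 0) (hNu : ∀ n ∈ N, n • u = u)
    (hsep : ∀ g : G, g ∉ N → ∃ c ∈ C, (∀ n ∈ N, n • c = c) ∧ g • c ≠ c)
    (hfix : ∀ g : G, ∃ c ∈ C, ∃ h : E, h ≠ 0 ∧ g • u = c * u * h ^ p) :
    ∃ c ∈ C, c ≠ 0 ∧ ∃ h : E, h ≠ 0 ∧ ∀ g : G, g • (c * u * h ^ p) = c * u * h ^ p := by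
  classical
  -- the normalised roots
  have hnorm : ∀ g : G, ∃ h : E, h ≠ 0 ∧ L.lc h = 1 ∧ ∃ c ∈ C, c * h ^ p = g • u / u := by
    intro g
    obtain ⟨c, hc, h, h0, hg⟩ := hfix g
    have hl0 : L.lc h ≠ 0 := L.lc_ne h h0
    have hlC : L.lc h ∈ C := L.lc_mem h h0
    refine ⟨h / L.lc h, div_ne_zero h0 hl0, ?_, c * L.lc h ^ p,
      C.mul_mem hc (C.pow_mem hlC p), ?_⟩
    · rw [div_eq_mul_inv, L.lc_mul, L.lc_inv hl0, L.lc_const _ hlC, mul_inv_cancel₀ hl0]
    · rw [hg, div_pow]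
      field_simp
  choose Hf hH0 hHl hHc using hnorm
  have hgu : ∀ g : G, g • u ≠ 0 := fun g => (smul_ne_zero_iff_ne g).2 hu
  have hw : ∀ g : G, g • u / u ≠ 0 := fun g => div_ne_zero (hgu g) hu
  -- the cocycle relation
  have hcoc : ∀ g σ : G, Hf (g * σ) = Hf g * g • Hf σ := by
    intro g σ
    obtain ⟨c₁, hc₁, h₁⟩ := hHc (g * σ)
    obtain ⟨cg, hcg, hg⟩ := hHc g
    obtain ⟨cσ, hcσ, hσ⟩ := hHc σ
    have hσu : σ • u = cσ * Hf σ ^ p * u := by
      rw [hσ, div_mul_cancel₀ _ hu]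
    have hgu' : g • u = cg * Hf g ^ p * u := by
      rw [hg, div_mul_cancel₀ _ hu]
    have h2 : (cg * g • cσ) * (Hf g * g • Hf σ) ^ p = (g * σ) • u / u := by
      rw [mul_smul, hσu, smul_mul', smul_mul', smul_pow', eq_div_iff hu]
      conv_rhs => rw [hgu']
      ring
    refine c3d_unique L hCroot (hw (g * σ)) (hH0 _)
      (mul_ne_zero (hH0 g) ((smul_ne_zero_iff_ne g).2 (hH0 σ))) hc₁
      (C.mul_mem hcg (hCG g _ hcσ)) (hHl _) ?_ h₁ h2
    rw [L.lc_mul, L.lc_smul, hHl, hHl, smul_one, mul_one]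
  have hN1 : ∀ n ∈ N, Hf n = 1 := by
    intro n hn
    obtain ⟨c₁, hc₁, h₁⟩ := hHc n
    refine c3d_unique L hCroot (hw n) (hH0 n) one_ne_zero hc₁ C.one_mem (hHl n) L.lc_one h₁ ?_
    rw [hNu n hn, div_self hu, one_pow, mul_one]
  have hright : ∀ (g : G) (n : G), n ∈ N → Hf (g * n) = Hf g := by
    intro g n hn
    rw [hcoc, hN1 n hn, smul_one, mul_one]
  -- the Noether sum
  have : Fintype (G ⧸ N) := Fintype.ofFinite _
  have hcoset : ∀ (b : E), (∀ n ∈ N, n • b = b) → ∀ x y : G, (x : G ⧸ N) = y →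
      Hf x * x • b = Hf y * y • b := by
    intro b hb x y hxy
    have hn : x⁻¹ * y ∈ N := QuotientGroup.eq.1 hxy
    have hy : y = x * (x⁻¹ * y) := by group
    rw [hy, hright x _ hn, mul_smul, hb _ hn]
  have hact : ∀ (b : E), (∀ n ∈ N, n • b = b) → ∀ g : G,
      g • (∑ q : G ⧸ N, Hf q.out * q.out • b) = (Hf g)⁻¹ * ∑ q : G ⧸ N, Hf q.out * q.out • b := by
    intro b hb g
    have h1 : ∀ q : G ⧸ N, g • (Hf q.out * q.out • b)
        = (Hf g)⁻¹ * (Hf (g * q.out) * (g * q.out) • b) := by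
      intro q
      rw [smul_mul', hcoc g q.out, mul_smul]
      field_simp [hH0 g]
    have h2 : ∀ q : G ⧸ N, Hf (g * q.out) * (g * q.out) • b
        = Hf ((g : G ⧸ N) * q).out * ((g : G ⧸ N) * q).out • b := by
      intro q
      refine hcoset b hb _ _ ?_
      rw [QuotientGroup.mk_mul, QuotientGroup.out_eq', QuotientGroup.out_eq']
    rw [Finset.smul_sum, Finset.mul_sum]
    have h3 : ∑ q : G ⧸ N, Hf ((g : G ⧸ N) * q).out * ((g : G ⧸ N) * q).out • b
        = ∑ q : G ⧸ N, Hf q.out * q.out • b :=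
      Equiv.sum_comp (Equiv.mulLeft (g : G ⧸ N)) (fun q => Hf q.out * q.out • b)
    calc ∑ q : G ⧸ N, g • (Hf q.out * q.out • b)
        = ∑ q : G ⧸ N, (Hf g)⁻¹ * (Hf ((g : G ⧸ N) * q).out * ((g : G ⧸ N) * q).out • b) :=
          Finset.sum_congr rfl fun q _ => by rw [h1 q, h2 q]
      _ = (Hf g)⁻¹ * ∑ q : G ⧸ N, Hf ((g : G ⧸ N) * q).out * ((g : G ⧸ N) * q).out • b := by
          rw [Finset.mul_sum]
      _ = ∑ q : G ⧸ N, (Hf g)⁻¹ * (Hf q.out * q.out • b) := by rw [h3, Finset.mul_sum]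
  -- Dedekind: the sum does not vanish for some `N`-fixed constant
  have hex : ∃ b : E, (∀ n ∈ N, n • b = b) ∧ ∑ q : G ⧸ N, Hf q.out * q.out • b ≠ 0 := by
    by_contra hcon
    have hzero : ∀ b : E, (∀ n ∈ N, n • b = b) → ∑ q : G ⧸ N, Hf q.out * q.out • b = 0 := by
      intro b hb
      by_contra h
      exact hcon ⟨b, hb, h⟩
    have hinj : Function.Injective (fun q : G ⧸ N => c3dPsi C N q.out) := by
      intro q q' hqq
      by_contra hne
      have hnot : q.out⁻¹ * q'.out ∉ N := by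
        intro hmem
        apply hne
        have := QuotientGroup.eq.2 hmem
        rwa [QuotientGroup.out_eq', QuotientGroup.out_eq'] at this
      obtain ⟨c, hc, hcN, hcne⟩ := hsep _ hnot
      apply hcne
      have h1 : q.out • c = q'.out • c := by
        have := DFunLike.congr_fun hqq (⟨c, hc, hcN⟩ : ↥(c3dCN C N))
        simpa using this
      rw [mul_smul, ← h1, inv_smul_smul]
    have hli : LinearIndependent E
        (fun q : G ⧸ N => ((c3dPsi C N q.out : ↥(c3dCN C N) →* E) : ↥(c3dCN C N) → E)) :=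
      (linearIndependent_monoidHom ↥(c3dCN C N) E).comp _ hinj
    have hsum : ∑ q : G ⧸ N, Hf q.out •
        ((c3dPsi C N q.out : ↥(c3dCN C N) →* E) : ↥(c3dCN C N) → E) = 0 := by
      funext b
      simp only [Finset.sum_apply, Pi.smul_apply, smul_eq_mul, Pi.zero_apply, c3dPsi_apply]
      exact hzero (b : E) b.2.2
    have h0 := Fintype.linearIndependent_iff.1 hli (fun q => Hf q.out) hsum (1 : G ⧸ N)
    exact hH0 _ h0
  obtain ⟨b, hb, hS⟩ := hex
  set h : E := ∑ q : G ⧸ N, Hf q.out * q.out • b with hh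
  set w : E := u * h ^ p with hwd
  have hw0 : w ≠ 0 := mul_ne_zero hu (pow_ne_zero _ hS)
  -- `g • w = c_g w`
  have hgw : ∀ g : G, ∃ c ∈ C, g • w = c * w := by
    intro g
    obtain ⟨cg, hcg, hg⟩ := hHc g
    refine ⟨cg, hcg, ?_⟩
    have hgu' : g • u = cg * Hf g ^ p * u := by
      rw [hg, div_mul_cancel₀ _ hu]
    have hhg : g • h = (Hf g)⁻¹ * h := hact b hb g
    have hHp : Hf g ^ p ≠ 0 := pow_ne_zero _ (hH0 g)
    rw [hwd, smul_mul', smul_pow', hhg, hgu', mul_pow, inv_pow]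
    field_simp
  have hlw0 : L.lc w ≠ 0 := L.lc_ne w hw0
  have hlwC : L.lc w ∈ C := L.lc_mem w hw0
  refine ⟨(L.lc w)⁻¹, C.inv_mem hlwC, inv_ne_zero hlw0, h, hS, ?_⟩
  intro g
  obtain ⟨c, hc, hgw'⟩ := hgw g
  have hc0 : c ≠ 0 := by
    rintro rfl
    rw [zero_mul] at hgw'
    exact (smul_ne_zero_iff_ne g).2 hw0 hgw'
  have hl : g • L.lc w = c * L.lc w := by
    rw [← L.lc_smul, hgw', L.lc_mul, L.lc_const c hc]
  have e1 : (L.lc w)⁻¹ * u * h ^ p = (L.lc w)⁻¹ * w := by rw [hwd]; ring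
  rw [e1, smul_mul', smul_inv'', hl, hgw']
  field_simp

end Descent

end Fermat.Agent.S40lib

end
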