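import Mathlib
import Fermat.Agent.S36lib.Speed
import Fermat.Prelude.Def_ModularCurve_ArithmeticGalois
import Fermat.Agent.S40lib.KumDescent

/-!
# Item 88 (S40), piece C3, CONCRETE side (helper5)

Ambient field `L = LaurentSeries ℚ̄` with the coefficientwise Galois action `coeffMap σ`.

* `cvcLc` : the leading coefficient; `cvc_lc_mul`, `cvc_lc_algebraMap`, `cvc_lc_coeffMap`,
  `cvc_lc_ne_zero`;
* `cvc_root_const` : `z ^ p = c` constant ⟹ `z` is a constant;
* `cvc_root_unity` : `z ^ p = 1` ⟹ `z = ζ ^ j`;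
* `cvc_coeffMap_root` : `U ^ p = u`, `σ u = c · g ^ p · u ^ w` ⟹ `σ U = d · g · U ^ w`;
* `cvc_stable` : an intermediate field `E` stable under `coeffMap σ`, `σ U ∈ E(U)`
  ⟹ `E(U)` is stable under `coeffMap σ`.
-/

set_option autoImplicit false
set_option linter.style.haveILetI false
set_option linter.unusedSectionVars false
set_option linter.unusedVariables false

noncomputable section

namespace Fermat.Agent.S40lib

open ModularCurve HahnSeries Fermat.Agent.S24lib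

section Lc

variable {k : Type*} [Field k]

/-- the leading coefficient of a Laurent series -/
def cvcLc (x : LaurentSeries k) : k := x.leadingCoeff

theorem cvc_lc_zero : cvcLc (0 : LaurentSeries k) = 0 := HahnSeries.leadingCoeff_zero

theorem cvc_lc_ne_zero {x : LaurentSeries k} (hx : x ≠ 0) : cvcLc x ≠ 0 :=
  HahnSeries.leadingCoeff_ne_zero.mpr hx

theorem cvc_lc_one : cvcLc (1 : LaurentSeries k) = 1 := HahnSeries.leadingCoeff_one

theorem cvc_lc_mul (x y : LaurentSeries k) : cvcLc (x * y) = cvcLc x * cvcLc y :=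
  HahnSeries.leadingCoeff_mul x y

theorem cvc_lc_pow (x : LaurentSeries k) (n : ℕ) : cvcLc (x ^ n) = cvcLc x ^ n := by
  induction n with
  | zero => rw [pow_zero, pow_zero, cvc_lc_one]
  | succ n ih => rw [pow_succ, pow_succ, cvc_lc_mul, ih]

theorem cvc_lc_algebraMap (c : k) : cvcLc (algebraMap k (LaurentSeries k) c) = c := by
  rw [ModularCurve.algebraMap_laurentSeries_eq_single]
  exact HahnSeries.leadingCoeff_of_single

theorem cvc_order_coeffMap (φ : k →+* k) (x : LaurentSeries k) :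
    (coeffMap φ x).order = x.order := by
  rcases eq_or_ne x 0 with rfl | hx
  · rw [map_zero]
  · have hφ : Function.Injective φ := φ.injective
    have hx' : coeffMap φ x ≠ 0 := by
      intro h0
      apply hx
      have := (coeffMap φ).injective (a₁ := x) (a₂ := 0) (by rw [h0, map_zero])
      exact this
    apply le_antisymm
    · apply HahnSeries.order_le_of_coeff_ne_zero
      rw [coeffMap_coeff]
      intro h0
      exact (HahnSeries.coeff_order_eq_zero.not.mpr hx) (hφ (by rw [h0, map_zero]))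
    · apply HahnSeries.order_le_of_coeff_ne_zero
      intro h0
      have h1 := HahnSeries.coeff_order_eq_zero.not.mpr hx'
      rw [coeffMap_coeff, h0, map_zero] at h1
      exact h1 rfl

theorem cvc_lc_coeffMap (φ : k →+* k) (x : LaurentSeries k) :
    cvcLc (coeffMap φ x) = φ (cvcLc x) := by
  unfold cvcLc
  rw [HahnSeries.leadingCoeff_eq, HahnSeries.leadingCoeff_eq, cvc_order_coeffMap, coeffMap_coeff]

end Lc

section Roots

variable {k : Type*} [Field k]

/-- `p`-th roots of unity in `k((q))` are constants -/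
theorem cvc_root_unity {p : ℕ} (hp : 0 < p) {ζ : k} (hζ : IsPrimitiveRoot ζ p)
    {z : LaurentSeries k} (hz : z ^ p = 1) :
    ∃ j : ℕ, j < p ∧ z = algebraMap k (LaurentSeries k) (ζ ^ j) := by
  have hζL : IsPrimitiveRoot (algebraMap k (LaurentSeries k) ζ) p :=
    hζ.map_of_injective (algebraMap k (LaurentSeries k)).injective
  haveI : NeZero p := ⟨hp.ne'⟩
  obtain ⟨j, hj, h⟩ := hζL.eq_pow_of_pow_eq_one hz
  exact ⟨j, hj, by rw [map_pow, h]⟩

/-- `p`-th roots of constants in `k((q))` are constants -/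
theorem cvc_root_const [IsAlgClosed k] {p : ℕ} (hp : 0 < p) {ζ : k} (hζ : IsPrimitiveRoot ζ p)
    {z : LaurentSeries k} {c : k} (hz : z ^ p = algebraMap k (LaurentSeries k) c) :
    ∃ d : k, d ^ p = c ∧ z = algebraMap k (LaurentSeries k) d := by
  rcases eq_or_ne c 0 with rfl | hc
  · rw [map_zero] at hz
    refine ⟨0, zero_pow hp.ne', ?_⟩
    rw [pow_eq_zero_iff hp.ne'] at hz
    rw [hz, map_zero]
  · obtain ⟨d₀, hd₀⟩ := IsAlgClosed.exists_pow_nat_eq c hp
    have hd₀0 : d₀ ≠ 0 := by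
      rintro rfl
      rw [zero_pow hp.ne'] at hd₀
      exact hc hd₀.symm
    have hd₀L : algebraMap k (LaurentSeries k) d₀ ≠ 0 := (map_ne_zero _).mpr hd₀0
    have h1 : (z / algebraMap k (LaurentSeries k) d₀) ^ p = 1 := by
      rw [div_pow, hz, ← map_pow, hd₀, div_self ((map_ne_zero _).mpr hc)]
    obtain ⟨j, -, hj⟩ := cvc_root_unity hp hζ h1
    refine ⟨ζ ^ j * d₀, ?_, ?_⟩
    · rw [mul_pow, ← pow_mul, mul_comm j p, pow_mul, hζ.pow_eq_one, one_pow, one_mul, hd₀]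
    · rw [map_mul, ← hj, div_mul_cancel₀ _ hd₀L]

/-- `U ^ p = u` and `φ u = c · g ^ p · u ^ w` ⟹ `φ U = d · g · U ^ w` with `d ^ p = c`
(`φ` any ring endomorphism of `k((q))`) -/
theorem cvc_map_root [IsAlgClosed k] {p : ℕ} (hp : 0 < p) {ζ : k} (hζ : IsPrimitiveRoot ζ p)
    (φ : LaurentSeries k →+* LaurentSeries k) {U u g : LaurentSeries k} (hU : U ^ p = u)
    (hu0 : u ≠ 0) (hg0 : g ≠ 0) {c : k} {w : ℕ}
    (hφ : φ u = algebraMap k (LaurentSeries k) c * g ^ p * u ^ w) :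
    ∃ d : k, d ^ p = c ∧ φ U = algebraMap k (LaurentSeries k) d * g * U ^ w := by
  have hU0 : U ≠ 0 := by
    rintro rfl
    rw [zero_pow hp.ne'] at hU
    exact hu0 hU.symm
  have hgU : g * U ^ w ≠ 0 := mul_ne_zero hg0 (pow_ne_zero _ hU0)
  have h1 : (φ U / (g * U ^ w)) ^ p = algebraMap k (LaurentSeries k) c := by
    rw [div_pow, ← map_pow, hU, hφ, mul_pow, ← pow_mul, mul_comm w p, pow_mul, hU,
      mul_assoc, mul_div_assoc, div_self (mul_ne_zero (pow_ne_zero _ hg0) (pow_ne_zero _ hu0)),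
      mul_one]
  obtain ⟨d, hd, hz⟩ := cvc_root_const hp hζ h1
  refine ⟨d, hd, ?_⟩
  rw [mul_assoc, ← hz, div_mul_cancel₀ _ hgU]

end Roots

section Stable

/-- the cover field `E(U)` inside the Laurent series -/
def cvcAdj (E : IntermediateField Kbar (LaurentSeries Kbar)) (U : LaurentSeries Kbar) :
    IntermediateField Kbar (LaurentSeries Kbar) :=
  IntermediateField.adjoin Kbar ((E : Set (LaurentSeries Kbar)) ∪ {U})

theorem cvc_le_adj (E : IntermediateField Kbar (LaurentSeries Kbar)) (U : LaurentSeries Kbar) :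
    E ≤ cvcAdj E U := fun x hx =>
  IntermediateField.subset_adjoin Kbar _ (Set.mem_union_left _ hx)

theorem cvc_mem_adj (E : IntermediateField Kbar (LaurentSeries Kbar)) (U : LaurentSeries Kbar) :
    U ∈ cvcAdj E U :=
  IntermediateField.subset_adjoin Kbar _ (Set.mem_union_right _ rfl)

/-- **stability of the cover field**: if `coeffMap σ` maps `E` into `E(U)` and `U` into `E(U)`,
then it maps `E(U)` into itself. -/
theorem cvc_stable (σ : Kbar →+* Kbar) (E : IntermediateField Kbar (LaurentSeries Kbar))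
    (U : LaurentSeries Kbar) (hE : ∀ x ∈ E, coeffMap σ x ∈ cvcAdj E U)
    (hU : coeffMap σ U ∈ cvcAdj E U) :
    ∀ x ∈ cvcAdj E U, coeffMap σ x ∈ cvcAdj E U := by
  intro x hx
  unfold cvcAdj at hx
  induction hx using IntermediateField.adjoin_induction with
  | mem y hy =>
      rcases hy with hy | hy
      · exact hE y hy
      · rw [Set.mem_singleton_iff] at hy
        subst hy
        exact hU
  | algebraMap c =>
      rw [coeffMap_algebraMap]
      exact (cvcAdj E U).algebraMap_mem _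
  | add y z _ _ ihy ihz =>
      rw [map_add]
      exact add_mem ihy ihz
  | inv y _ ihy =>
      rw [map_inv₀]
      exact inv_mem ihy
  | mul y z _ _ ihy ihz =>
      rw [map_mul]
      exact mul_mem ihy ihz

/-- **the cover field is stable under `σ`** if `E` is and `σ u = c · g ^ p · u ^ w`,
`u = U ^ p`, `g ∈ E`. -/
theorem cvc_stable_of_kummer {p : ℕ} (hp : 0 < p) {ζ : Kbar} (hζ : IsPrimitiveRoot ζ p)
    (σ : Kbar →+* Kbar) (E : IntermediateField Kbar (LaurentSeries Kbar))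
    (hE : ∀ x ∈ E, coeffMap σ x ∈ E) {U u g : LaurentSeries Kbar} (hU : U ^ p = u)
    (hu0 : u ≠ 0) (hg : g ∈ E) (hg0 : g ≠ 0) {c : Kbar} {w : ℕ}
    (hσ : coeffMap σ u = algebraMap Kbar (LaurentSeries Kbar) c * g ^ p * u ^ w) :
    ∀ x ∈ cvcAdj E U, coeffMap σ x ∈ cvcAdj E U := by
  apply cvc_stable σ E U (fun x hx => cvc_le_adj E U (hE x hx))
  obtain ⟨d, -, hd⟩ := cvc_map_root hp hζ (coeffMap σ) hU hu0 hg0 hσ
  rw [hd]
  exact mul_mem (mul_mem ((cvcAdj E U).algebraMap_mem d) (cvc_le_adj E U hg))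
    (pow_mem (cvc_mem_adj E U) w)

end Stable

section Fin

/-- `x` is fixed (coefficientwise) by the pointwise stabiliser of a finite Galois-stable set of
algebraic numbers -/
def CvcFin (x : LaurentSeries Kbar) : Prop :=
  ∃ X : Set Kbar, X.Finite ∧ (∀ σ : Kbar ≃ₐ[ℚ] Kbar, ∀ c ∈ X, σ c ∈ X) ∧
    ∀ σ : Kbar ≃ₐ[ℚ] Kbar, (∀ c ∈ X, σ c = c) →
      coeffMap ((σ : Kbar ≃ₐ[ℚ] Kbar) : Kbar →+* Kbar) x = x

theorem cvc_fin_const (c : Kbar) : CvcFin (algebraMap Kbar (LaurentSeries Kbar) c) := by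
  have halg : IsIntegral ℚ c := ((AlgebraicClosure.isAlgebraic ℚ).isAlgebraic c).isIntegral
  refine ⟨(minpoly ℚ c).rootSet Kbar, Polynomial.rootSet_finite _ _, ?_, ?_⟩
  · intro σ x hx
    rw [Polynomial.mem_rootSet] at hx ⊢
    refine ⟨hx.1, ?_⟩
    have h1 : Polynomial.aeval (σ x) (minpoly ℚ c) = σ (Polynomial.aeval x (minpoly ℚ c)) :=
      Polynomial.aeval_algHom_apply (σ : Kbar →ₐ[ℚ] Kbar) x (minpoly ℚ c)
    rw [h1, hx.2, map_zero]
  · intro σ hσ
    rw [coeffMap_algebraMap]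
    congr 1
    apply hσ
    rw [Polynomial.mem_rootSet]
    exact ⟨minpoly.ne_zero halg, minpoly.aeval ℚ c⟩

theorem cvc_fin_coeffEmb (y : LaurentSeries ℚ) : CvcFin (coeffEmb Kbar y) :=
  ⟨∅, Set.finite_empty, fun _ _ h => h.elim, fun σ _ => coeffMap_coeffEmb σ y⟩

theorem cvc_fin_union {x y : LaurentSeries Kbar} (hx : CvcFin x) (hy : CvcFin y) :
    ∃ X : Set Kbar, X.Finite ∧ (∀ σ : Kbar ≃ₐ[ℚ] Kbar, ∀ c ∈ X, σ c ∈ X) ∧
      ∀ σ : Kbar ≃ₐ[ℚ] Kbar, (∀ c ∈ X, σ c = c) →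
        coeffMap ((σ : Kbar ≃ₐ[ℚ] Kbar) : Kbar →+* Kbar) x = x ∧
        coeffMap ((σ : Kbar ≃ₐ[ℚ] Kbar) : Kbar →+* Kbar) y = y := by
  obtain ⟨X, hXf, hXs, hX⟩ := hx
  obtain ⟨Y, hYf, hYs, hY⟩ := hy
  refine ⟨X ∪ Y, hXf.union hYf, ?_, ?_⟩
  · intro σ c hc
    rcases hc with hc | hc
    · exact Or.inl (hXs σ c hc)
    · exact Or.inr (hYs σ c hc)
  · intro σ hσ
    exact ⟨hX σ (fun c hc => hσ c (Or.inl hc)), hY σ (fun c hc => hσ c (Or.inr hc))⟩

theorem cvc_fin_add {x y : LaurentSeries Kbar} (hx : CvcFin x) (hy : CvcFin y) :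
    CvcFin (x + y) := by
  obtain ⟨X, hXf, hXs, hX⟩ := cvc_fin_union hx hy
  exact ⟨X, hXf, hXs, fun σ hσ => by rw [map_add, (hX σ hσ).1, (hX σ hσ).2]⟩

theorem cvc_fin_mul {x y : LaurentSeries Kbar} (hx : CvcFin x) (hy : CvcFin y) :
    CvcFin (x * y) := by
  obtain ⟨X, hXf, hXs, hX⟩ := cvc_fin_union hx hy
  exact ⟨X, hXf, hXs, fun σ hσ => by rw [map_mul, (hX σ hσ).1, (hX σ hσ).2]⟩

theorem cvc_fin_inv {x : LaurentSeries Kbar} (hx : CvcFin x) : CvcFin x⁻¹ := by
  obtain ⟨X, hXf, hXs, hX⟩ := hx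
  exact ⟨X, hXf, hXs, fun σ hσ => by rw [map_inv₀, hX σ hσ]⟩

/-- every element of `ℚ̄ · F₀` is `CvcFin` -/
theorem cvc_fin_baseChange (F₀ : IntermediateField ℚ (LaurentSeries ℚ)) {x : LaurentSeries Kbar}
    (hx : x ∈ laurentBaseChange Kbar F₀) : CvcFin x := by
  unfold laurentBaseChange at hx
  induction hx using IntermediateField.adjoin_induction with
  | mem y hy =>
      obtain ⟨z, -, rfl⟩ := hy
      exact cvc_fin_coeffEmb z
  | algebraMap c => exact cvc_fin_const c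
  | add y z _ _ ihy ihz => exact cvc_fin_add ihy ihz
  | inv y _ ihy => exact cvc_fin_inv ihy
  | mul y z _ _ ihy ihz => exact cvc_fin_mul ihy ihz

/-- a `p`-th root of a `CvcFin` series is `CvcFin` -/
theorem cvc_fin_root {p : ℕ} (hp : 0 < p) {ζ : Kbar} (hζ : IsPrimitiveRoot ζ p)
    {U u : LaurentSeries Kbar} (hU : U ^ p = u) (hu : CvcFin u) : CvcFin U := by
  rcases eq_or_ne U 0 with rfl | hU0
  · exact ⟨∅, Set.finite_empty, fun _ _ h => h.elim, fun σ _ => map_zero _⟩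
  obtain ⟨X, hXf, hXs, hX⟩ := hu
  obtain ⟨Y, hYf, hYs, hY⟩ := cvc_fin_const ζ
  obtain ⟨Z, hZf, hZs, hZ⟩ := cvc_fin_const (cvcLc U)
  refine ⟨X ∪ Y ∪ Z, (hXf.union hYf).union hZf, ?_, ?_⟩
  · intro σ c hc
    rcases hc with (hc | hc) | hc
    · exact Or.inl (Or.inl (hXs σ c hc))
    · exact Or.inl (Or.inr (hYs σ c hc))
    · exact Or.inr (hZs σ c hc)
  · intro σ hσ
    have h1 := hX σ (fun c hc => hσ c (Or.inl (Or.inl hc)))
    have h3 := hZ σ (fun c hc => hσ c (Or.inr hc))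
    rw [coeffMap_algebraMap] at h3
    have h3' : σ (cvcLc U) = cvcLc U := (algebraMap Kbar (LaurentSeries Kbar)).injective h3
    have hpow : (coeffMap ((σ : Kbar ≃ₐ[ℚ] Kbar) : Kbar →+* Kbar) U / U) ^ p = 1 := by
      rw [div_pow, ← map_pow, hU, h1, div_self]
      rw [← hU]
      exact pow_ne_zero _ hU0
    obtain ⟨j, -, hj⟩ := cvc_root_unity hp hζ hpow
    have hσU : coeffMap ((σ : Kbar ≃ₐ[ℚ] Kbar) : Kbar →+* Kbar) U
        = algebraMap Kbar (LaurentSeries Kbar) (ζ ^ j) * U := by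
      rw [← hj, div_mul_cancel₀ _ hU0]
    have hlc := congrArg cvcLc hσU
    rw [cvc_lc_coeffMap, cvc_lc_mul, cvc_lc_algebraMap] at hlc
    have hlc' : σ (cvcLc U) = ζ ^ j * cvcLc U := hlc
    rw [h3'] at hlc'
    have hz : ζ ^ j = 1 := by
      have h0 : cvcLc U ≠ 0 := cvc_lc_ne_zero hU0
      have h4 : (ζ ^ j - 1) * cvcLc U = 0 := by
        rw [sub_mul, one_mul, ← hlc', sub_self]
      rcases mul_eq_zero.mp h4 with h5 | h5
      · exact sub_eq_zero.mp h5
      · exact absurd h5 h0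
    rw [hσU, hz, map_one, one_mul]

/-- every element of the cover field `E(U)` is `CvcFin` if the elements of `E` and `U` are -/
theorem cvc_fin_adj (E : IntermediateField Kbar (LaurentSeries Kbar)) (U : LaurentSeries Kbar)
    (hE : ∀ x ∈ E, CvcFin x) (hU : CvcFin U) {x : LaurentSeries Kbar} (hx : x ∈ cvcAdj E U) :
    CvcFin x := by
  unfold cvcAdj at hx
  induction hx using IntermediateField.adjoin_induction with
  | mem y hy =>
      rcases hy with hy | hy
      · exact hE y hy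
      · rw [Set.mem_singleton_iff] at hy
        subst hy
        exact hU
  | algebraMap c => exact cvc_fin_const c
  | add y z _ _ ihy ihz => exact cvc_fin_add ihy ihz
  | inv y _ ihy => exact cvc_fin_inv ihy
  | mul y z _ _ ihy ihz => exact cvc_fin_mul ihy ihz

end Fin

section Action

/-- the pointwise stabiliser of a finite stable set has finite index -/
theorem cvc_finiteIndex_fixing {G α : Type*} [Group G] [MulAction G α] (X : Set α)
    (hX : X.Finite) (hst : ∀ σ : G, ∀ x ∈ X, σ • x ∈ X) : (fixingSubgroup G X).FiniteIndex := by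
  classical
  haveI : Finite ↥X := hX
  letI act : MulAction G ↥X :=
    { smul := fun σ x => ⟨σ • (x : α), hst σ x x.2⟩
      one_smul := fun x => Subtype.ext (one_smul G (x : α))
      mul_smul := fun σ τ x => Subtype.ext (mul_smul σ τ (x : α)) }
  have hker : (MulAction.toPermHom G ↥X).ker = fixingSubgroup G X := by
    ext σ
    rw [MonoidHom.mem_ker, mem_fixingSubgroup_iff]
    constructor
    · intro h x hx
      have h1 := congrArg (fun e : Equiv.Perm ↥X => ((e ⟨x, hx⟩ : ↥X) : α)) h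
      exact h1
    · intro h
      ext x
      exact h x x.2
  rw [← hker]
  exact Subgroup.finiteIndex_ker _

/-- the pointwise stabiliser of a stable set is normal -/
theorem cvc_normal_fixing {G α : Type*} [Group G] [MulAction G α] (X : Set α)
    (hst : ∀ σ : G, ∀ x ∈ X, σ • x ∈ X) : (fixingSubgroup G X).Normal := by
  refine ⟨fun n hn g => ?_⟩
  rw [mem_fixingSubgroup_iff] at hn ⊢
  intro x hx
  rw [mul_smul, mul_smul, hn _ (hst g⁻¹ x hx), smul_inv_smul]

variable (H : Subgroup (Kbar ≃ₐ[ℚ] Kbar)) (EY : IntermediateField Kbar (LaurentSeries Kbar))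

/-- the coefficientwise action of `H` on a stable intermediate field of `ℚ̄((q))` -/
@[reducible] def cvcAct (hst : ∀ σ ∈ H, ∀ x ∈ EY,
    coeffMap ((σ : Kbar ≃ₐ[ℚ] Kbar) : Kbar →+* Kbar) x ∈ EY) : MulSemiringAction ↥H ↥EY where
  smul σ x := ⟨coeffMap (((σ : Kbar ≃ₐ[ℚ] Kbar)) : Kbar →+* Kbar) (x : LaurentSeries Kbar),
    hst σ σ.2 x x.2⟩
  one_smul x := Subtype.ext (by
    show coeffMap ((((1 : ↥H) : Kbar ≃ₐ[ℚ] Kbar)) : Kbar →+* Kbar) (x : LaurentSeries Kbar)
      = (x : LaurentSeries Kbar)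
    ext k
    simp)
  mul_smul σ τ x := Subtype.ext (by
    show coeffMap ((((σ * τ : ↥H) : Kbar ≃ₐ[ℚ] Kbar)) : Kbar →+* Kbar) (x : LaurentSeries Kbar)
      = coeffMap ((((σ : ↥H) : Kbar ≃ₐ[ℚ] Kbar)) : Kbar →+* Kbar)
          (coeffMap ((((τ : ↥H) : Kbar ≃ₐ[ℚ] Kbar)) : Kbar →+* Kbar) (x : LaurentSeries Kbar))
    ext k
    simp)
  smul_zero σ := Subtype.ext (map_zero _)
  smul_add σ x y := Subtype.ext (map_add _ _ _)
  smul_one σ := Subtype.ext (map_one _)
  smul_mul σ x y := Subtype.ext (map_mul _ _ _)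

set_option maxHeartbeats 1600000 in
/-- **C3, concrete Kummer descent in a stable subfield of `ℚ̄((q))`** (e.g. the cover field
`E(U)`): if the class of `u` is fixed by `H` (`σ u = c · u · h ^ p` for `σ ∈ H`), then
`c · u · h ^ p` is fixed by `H` (coefficientwise) for some constant `c ≠ 0` and some
`h ≠ 0` of the field. -/
theorem cvc_descent {p : ℕ} (hp : 0 < p) {ζ : Kbar} (hζ : IsPrimitiveRoot ζ p)
    (hst : ∀ σ ∈ H, ∀ x ∈ EY, coeffMap ((σ : Kbar ≃ₐ[ℚ] Kbar) : Kbar →+* Kbar) x ∈ EY)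
    {u : LaurentSeries Kbar} (huE : u ∈ EY) (hu0 : u ≠ 0) (hufin : CvcFin u)
    (hfix : ∀ σ ∈ H, ∃ (c : Kbar) (h : LaurentSeries Kbar), h ∈ EY ∧ h ≠ 0 ∧
      coeffMap ((σ : Kbar ≃ₐ[ℚ] Kbar) : Kbar →+* Kbar) u
        = algebraMap Kbar (LaurentSeries Kbar) c * u * h ^ p) :
    ∃ (c : Kbar) (h : LaurentSeries Kbar), c ≠ 0 ∧ h ∈ EY ∧ h ≠ 0 ∧
      ∀ σ ∈ H, coeffMap ((σ : Kbar ≃ₐ[ℚ] Kbar) : Kbar →+* Kbar)
          (algebraMap Kbar (LaurentSeries Kbar) c * u * h ^ p)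
        = algebraMap Kbar (LaurentSeries Kbar) c * u * h ^ p := by
  classical
  letI act : MulSemiringAction ↥H ↥EY := cvcAct H EY hst
  have hsmul : ∀ (σ : ↥H) (x : ↥EY), ((σ • x : ↥EY) : LaurentSeries Kbar)
      = coeffMap (((σ : Kbar ≃ₐ[ℚ] Kbar)) : Kbar →+* Kbar) (x : LaurentSeries Kbar) :=
    fun σ x => rfl
  have hcoeA : ∀ c : Kbar, ((algebraMap Kbar ↥EY c : ↥EY) : LaurentSeries Kbar)
      = algebraMap Kbar (LaurentSeries Kbar) c := fun c => rfl
  set C : Subfield ↥EY := (algebraMap Kbar ↥EY).fieldRange with hC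
  have hCmem : ∀ x : ↥EY, x ∈ C ↔ ∃ c : Kbar, algebraMap Kbar ↥EY c = x := fun x =>
    RingHom.mem_fieldRange
  -- the leading coefficient
  let L : C3dLc ↥H C :=
    { lc := fun x => algebraMap Kbar ↥EY (cvcLc (x : LaurentSeries Kbar))
      lc_mul := fun x y => by
        show algebraMap Kbar ↥EY (cvcLc ((x : LaurentSeries Kbar) * (y : LaurentSeries Kbar))) = _
        rw [cvc_lc_mul, map_mul]
      lc_mem := fun x _ => (hCmem _).mpr ⟨_, rfl⟩
      lc_ne := fun x hx => (map_ne_zero _).mpr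
        (cvc_lc_ne_zero (fun h0 => hx (Subtype.ext h0)))
      lc_const := fun c hc => by
        obtain ⟨d, rfl⟩ := (hCmem c).mp hc
        show algebraMap Kbar ↥EY (cvcLc (algebraMap Kbar (LaurentSeries Kbar) d)) = _
        rw [cvc_lc_algebraMap]
      lc_smul := fun σ x => by
        apply Subtype.ext
        show algebraMap Kbar (LaurentSeries Kbar)
            (cvcLc (coeffMap (((σ : Kbar ≃ₐ[ℚ] Kbar)) : Kbar →+* Kbar) (x : LaurentSeries Kbar)))
          = coeffMap (((σ : Kbar ≃ₐ[ℚ] Kbar)) : Kbar →+* Kbar)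
              (algebraMap Kbar (LaurentSeries Kbar) (cvcLc (x : LaurentSeries Kbar)))
        rw [cvc_lc_coeffMap, coeffMap_algebraMap] }
  have hCG : ∀ (g : ↥H) (c : ↥EY), c ∈ C → g • c ∈ C := by
    intro g c hc
    obtain ⟨d, rfl⟩ := (hCmem c).mp hc
    refine (hCmem _).mpr ⟨(g : Kbar ≃ₐ[ℚ] Kbar) d, Subtype.ext ?_⟩
    rw [hsmul, hcoeA, hcoeA, coeffMap_algebraMap]
    rfl
  have hCroot : ∀ x : ↥EY, x ^ p ∈ C → x ∈ C := by
    intro x hx
    obtain ⟨c, hc⟩ := (hCmem _).mp hx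
    have h1 : (x : LaurentSeries Kbar) ^ p = algebraMap Kbar (LaurentSeries Kbar) c := by
      have := congrArg (fun z : ↥EY => (z : LaurentSeries Kbar)) hc
      simpa using this.symm
    obtain ⟨d, -, hd⟩ := cvc_root_const hp hζ h1
    exact (hCmem _).mpr ⟨d, Subtype.ext hd.symm⟩
  -- the subgroup `N`
  obtain ⟨X, hXf, hXs, hX⟩ := hufin
  have hXs' : ∀ σ : Kbar ≃ₐ[ℚ] Kbar, ∀ x ∈ X, σ • x ∈ X := fun σ x hx => hXs σ x hx
  haveI hfi : (fixingSubgroup (Kbar ≃ₐ[ℚ] Kbar) X).FiniteIndex :=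
    cvc_finiteIndex_fixing X hXf hXs'
  haveI hno : (fixingSubgroup (Kbar ≃ₐ[ℚ] Kbar) X).Normal := cvc_normal_fixing X hXs'
  set N : Subgroup ↥H := (fixingSubgroup (Kbar ≃ₐ[ℚ] Kbar) X).subgroupOf H with hN
  haveI : N.Normal := Subgroup.normal_subgroupOf
  haveI : N.FiniteIndex := Subgroup.instFiniteIndex_subgroupOf _ _
  have hNmem : ∀ n : ↥H, n ∈ N ↔ ∀ c ∈ X, (n : Kbar ≃ₐ[ℚ] Kbar) c = c := by
    intro n
    rw [hN, Subgroup.mem_subgroupOf, mem_fixingSubgroup_iff]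
    rfl
  set u' : ↥EY := ⟨u, huE⟩ with hu'
  have hu'0 : u' ≠ 0 := fun h0 => hu0 (congrArg Subtype.val h0)
  have hNu : ∀ n ∈ N, n • u' = u' := by
    intro n hn
    apply Subtype.ext
    rw [hsmul]
    exact hX _ ((hNmem n).mp hn)
  have hsep : ∀ g : ↥H, g ∉ N → ∃ c ∈ C, (∀ n ∈ N, n • c = c) ∧ g • c ≠ c := by
    intro g hg
    rw [hNmem] at hg
    obtain ⟨x, hg'⟩ := not_forall.mp hg
    obtain ⟨hxX, hgx⟩ := Classical.not_imp.mp hg'
    refine ⟨algebraMap Kbar ↥EY x, (hCmem _).mpr ⟨x, rfl⟩, ?_, ?_⟩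
    · intro n hn
      apply Subtype.ext
      rw [hsmul, hcoeA, coeffMap_algebraMap]
      congr 1
      exact (hNmem n).mp hn x hxX
    · intro h0
      apply hgx
      have h1 := congrArg (fun z : ↥EY => (z : LaurentSeries Kbar)) h0
      simp only [hsmul, hcoeA, coeffMap_algebraMap] at h1
      exact (algebraMap Kbar (LaurentSeries Kbar)).injective h1
  have hfix' : ∀ g : ↥H, ∃ c ∈ C, ∃ h : ↥EY, h ≠ 0 ∧ g • u' = c * u' * h ^ p := by
    intro g
    obtain ⟨c, h, hhE, hh0, hgu⟩ := hfix g g.2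
    refine ⟨algebraMap Kbar ↥EY c, (hCmem _).mpr ⟨c, rfl⟩, ⟨h, hhE⟩,
      fun h0 => hh0 (congrArg Subtype.val h0), Subtype.ext ?_⟩
    rw [hsmul]
    exact hgu
  obtain ⟨c, hcC, hc0, h, hh0, hmain⟩ := c3d_descent L hCG hCroot N hu'0 hNu hsep hfix'
  obtain ⟨d, rfl⟩ := (hCmem c).mp hcC
  refine ⟨d, (h : LaurentSeries Kbar), fun hd0 => hc0 (by rw [hd0, map_zero]), h.2,
    fun h0 => hh0 (Subtype.ext h0), ?_⟩
  intro σ hσ
  have h1 := congrArg (fun z : ↥EY => (z : LaurentSeries Kbar)) (hmain ⟨σ, hσ⟩)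
  exact h1

end Action

end Fermat.Agent.S40lib

end
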