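import Mathlib
import Fermat.Agent.S36lib.Speed
import Fermat.Agent.S36lib.InvRep

/-!
# Item 88 (S40), piece C3 (b): abstract descent of Kummer functions (helper5)

Abstract form of `invRep_descent_full` (`S36lib/InvRep.lean`, helper4): `K`, `F` a function field
with the Riemann–Roch hypotheses, `G` a set of SEMILINEAR automorphisms of `F` fixing a place
`P₀`, and a "leading coefficient" `lc : F → K` (`lc (c x) = c · lc x`, `lc x ≠ 0` for `x ≠ 0`,
`lc (g x) = g (lc x)` for `g ∈ G`).  No Hilbert 90.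

* `cvd_descent_full` : a nonzero `f` all of whose orders are divisible by `m` and which is
  Kummer-fixed by `G` (`g f / f = c s ^ m`) is `c · f0 · s ^ m` with `g f0 = f0` for all `g ∈ G`,
  `div f0 = m (E - r P₀)`, `E ≥ 0` the minimal representative, `g E = E`;
* `cvd_descent` : the same without the divisor;
* `cvd_fixed_of_class` : divisor form: `m D = div f`, `g D - D` principal for `g ∈ G`
  ⟹ the same conclusion (the class of `D` is `G`-fixed);
* `cvd_kummer_const` : two `G`-fixed Kummer functions of the same class differ by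
  `c · s ^ m` with `c`, `s` fixed by `G`.

Use: the cover field `F_Y` (`U ^ p = u_t`) inside the Laurent series, `P₀` the place of the
`q`-expansion, `lc` = leading coefficient of the `q`-expansion, `G` = the inertia group acting
on the coefficients: the pull-back `x' = π^* x` is `I`-fixed, hence has an `I`-fixed Kummer
function `u''`.
-/

set_option autoImplicit false
set_option linter.style.haveILetI false
set_option linter.unusedSectionVars false
set_option linter.unusedVariables false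

noncomputable section

namespace Fermat.Agent.S40lib

open AlgebraicCurve Fermat.Agent.S24lib Fermat.Agent.S34lib Fermat.Agent.RRlib
  Fermat.Agent.S36lib

section Abstract

variable {K F : Type*} [Field K] [Field F] [Algebra K F]

set_option maxHeartbeats 800000 in
/-- **C3 (b)**, full form: the invariant function `f0` has divisor `m (E − r P₀)` with `E ≥ 0`
the minimal representative, which is `G`-invariant. -/
theorem cvd_descent_full [RRHyp K F] (P₀ : Place K F) (lc : F → K)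
    (hlc_mul : ∀ (c : K) (x : F), lc (algebraMap K F c * x) = c * lc x)
    (hlc_ne : ∀ x : F, x ≠ 0 → lc x ≠ 0)
    (m : ℕ) (hm : 0 < m) (G : Set (SemilinearAut K F))
    (hP₀ : ∀ g ∈ G, g • P₀ = P₀)
    (hlc_smul : ∀ g ∈ G, ∀ x : F, lc (g • x) = SemilinearAut.baseAut g (lc x))
    {f : F} (hf : f ≠ 0) (hdiv : ∀ P : Place K F, (m : ℤ) ∣ P.ord f)
    (hfix : ∀ g ∈ G, ∃ (c : K) (s : F), g • f / f = algebraMap K F c * s ^ m) :
    ∃ (c : K) (f0 s : F) (E : Divisor K F) (r : ℕ), c ≠ 0 ∧ f0 ≠ 0 ∧ s ≠ 0 ∧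
      f = algebraMap K F c * f0 * s ^ m ∧
      (∀ g ∈ G, g • f0 = f0) ∧ lc f0 = 1 ∧
      IsMinRep P₀ E ∧ (∀ g ∈ G, g • E = E) ∧
      (∀ v : Place K F,
        v.ord f0 = m * (E v - (r : ℤ) * (Finsupp.single P₀ (1 : ℤ)) v)) := by
  classical
  have hm0 : m ≠ 0 := hm.ne'
  have hmZ : (m : ℤ) ≠ 0 := by exact_mod_cast hm0
  obtain ⟨D₀, hD₀, hdeg⟩ := invrep_exists_div (K := K) hf hm0 hdiv
  obtain ⟨r, E, h, hh0, hE, hEv⟩ := invrep_exists P₀ D₀ hdeg
  -- the single at `P₀` is `G`-invariant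
  have hsingle : ∀ g ∈ G, ∀ v : Place K F,
      (Finsupp.single P₀ (1 : ℤ)) (g⁻¹ • v) = (Finsupp.single P₀ (1 : ℤ)) v := by
    intro g hg v
    rw [← SemilinearAut.divisor_smul_apply, SemilinearAut.smul_single, hP₀ g hg]
  -- `f1 = f h^m`
  set f1 : F := f * h ^ m with hf1
  have hhm0 : h ^ m ≠ 0 := pow_ne_zero _ hh0
  have hf10 : f1 ≠ 0 := mul_ne_zero hf hhm0
  have hf1v : ∀ v : Place K F,
      v.ord f1 = m * (E v - (r : ℤ) * (Finsupp.single P₀ (1 : ℤ)) v) := by
    intro v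
    rw [hf1, v.ord_mul hf hhm0, Fermat.Agent.S18lib.ord_pow_nat, hD₀ v, hEv v]
    ring
  -- invariance of `E`
  have hinv : ∀ g ∈ G, g • E = E := by
    intro g hg
    obtain ⟨c, s, hcs⟩ := hfix g hg
    have hgf0 : g • f ≠ 0 := by simpa using hf
    have hgh0 : g • h ≠ 0 := by simpa using hh0
    have hw0 : g • f / f ≠ 0 := div_ne_zero hgf0 hf
    have hc0 : algebraMap K F c ≠ 0 := by
      intro h0
      rw [hcs, h0, zero_mul] at hw0
      exact hw0 rfl
    have hs0 : s ≠ 0 := by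
      intro h0
      rw [hcs, h0, zero_pow hm0, mul_zero] at hw0
      exact hw0 rfl
    apply hE.smul_eq g (hP₀ g hg)
    refine ⟨s * (g • h / h), mul_ne_zero hs0 (div_ne_zero hgh0 hh0), fun v => ?_⟩
    rw [Finsupp.sub_apply, SemilinearAut.divisor_smul_apply, hEv, hEv, hsingle g hg v,
      v.ord_mul hs0 (div_ne_zero hgh0 hh0), uk_ord_div v hgh0 hh0, uk_ord_smul' g v h]
    have h1 : v.ord (g • f / f) = (m : ℤ) * v.ord s := by
      rw [hcs, v.ord_mul hc0 (pow_ne_zero _ hs0), Fermat.Agent.S18lib.ord_pow_nat,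
        uk_ord_const, zero_add]
    rw [uk_ord_div v hgf0 hf, uk_ord_smul' g v f, hD₀, hD₀] at h1
    have h2 : (m : ℤ) * (D₀ (g⁻¹ • v) - D₀ v) = (m : ℤ) * v.ord s := by
      rw [← h1]
      ring
    have h3 := mul_left_cancel₀ hmZ h2
    linarith
  -- normalisation at `P₀`
  set a : K := lc f1 with ha
  have ha0 : a ≠ 0 := hlc_ne f1 hf10
  have haF : algebraMap K F a ≠ 0 := (map_ne_zero _).mpr ha0
  have haiF : algebraMap K F a⁻¹ ≠ 0 := (map_ne_zero _).mpr (inv_ne_zero ha0)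
  set f0 : F := algebraMap K F a⁻¹ * f1 with hf0
  have hf00 : f0 ≠ 0 := mul_ne_zero haiF hf10
  have hf0n : lc f0 = 1 := by
    rw [hf0, hlc_mul, ← ha, inv_mul_cancel₀ ha0]
  have hf0v : ∀ v : Place K F,
      v.ord f0 = m * (E v - (r : ℤ) * (Finsupp.single P₀ (1 : ℤ)) v) := by
    intro v
    rw [hf0, v.ord_mul haiF hf10, uk_ord_const, zero_add, hf1v]
  refine ⟨a, f0, h⁻¹, E, r, ha0, hf00, inv_ne_zero hh0, ?_, ?_, hf0n, hE, hinv, hf0v⟩
  · rw [hf0, hf1, inv_pow]
    have e : algebraMap K F a * (algebraMap K F a⁻¹ * (f * h ^ m)) * (h ^ m)⁻¹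
        = (algebraMap K F a * algebraMap K F a⁻¹) * f * (h ^ m * (h ^ m)⁻¹) := by ring
    rw [e, ← map_mul, mul_inv_cancel₀ ha0, map_one, mul_inv_cancel₀ hhm0, one_mul, mul_one]
  · intro g hg
    have hgE := hinv g hg
    have hgf00 : g • f0 ≠ 0 := by simpa using hf00
    -- `g f0 / f0` is regular everywhere, hence constant
    have hreg : ∀ v : Place K F, 0 ≤ v.ord (g • f0 / f0) := by
      intro v
      rw [uk_ord_div v hgf00 hf00, uk_ord_smul' g v f0, hf0v, hf0v, hsingle g hg v,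
        ← SemilinearAut.divisor_smul_apply, hgE]
      simp
    obtain ⟨c, hc⟩ := RRBase.const_of_forall_ord_nonneg (K := K) (g • f0 / f0) hreg
    have hgf : g • f0 = algebraMap K F c * f0 := by
      rw [hc, div_mul_cancel₀ _ hf00]
    have h1 := hlc_smul g hg f0
    rw [hgf, hlc_mul, hf0n, map_one, mul_one] at h1
    rw [hgf, h1, map_one, one_mul]

/-- **C3 (b)**: a Kummer-fixed `f` is `c · f0 · s ^ m` with `f0` fixed by `G`. -/
theorem cvd_descent [RRHyp K F] (P₀ : Place K F) (lc : F → K)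
    (hlc_mul : ∀ (c : K) (x : F), lc (algebraMap K F c * x) = c * lc x)
    (hlc_ne : ∀ x : F, x ≠ 0 → lc x ≠ 0)
    (m : ℕ) (hm : 0 < m) (G : Set (SemilinearAut K F))
    (hP₀ : ∀ g ∈ G, g • P₀ = P₀)
    (hlc_smul : ∀ g ∈ G, ∀ x : F, lc (g • x) = SemilinearAut.baseAut g (lc x))
    {f : F} (hf : f ≠ 0) (hdiv : ∀ P : Place K F, (m : ℤ) ∣ P.ord f)
    (hfix : ∀ g ∈ G, ∃ (c : K) (s : F), g • f / f = algebraMap K F c * s ^ m) :
    ∃ (c : K) (f0 s : F), c ≠ 0 ∧ f0 ≠ 0 ∧ s ≠ 0 ∧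
      f = algebraMap K F c * f0 * s ^ m ∧
      (∀ g ∈ G, g • f0 = f0) ∧
      (∀ P : Place K F, (m : ℤ) ∣ P.ord f0) := by
  obtain ⟨c, f0, s, E, r, hc, hf0, hs, hfe, hfix0, -, -, -, hv⟩ :=
    cvd_descent_full P₀ lc hlc_mul hlc_ne m hm G hP₀ hlc_smul hf hdiv hfix
  exact ⟨c, f0, s, hc, hf0, hs, hfe, hfix0, fun P => ⟨_, hv P⟩⟩

end Abstract

end Fermat.Agent.S40lib

end
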