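/-
Item 88 (S40), piece C4, the X-side relation (helper19): for a semilinear automorphism `g`
(e.g. `galFF N τ`) with `g • x = x + j • t`, the Kummer functions satisfy
`g • u_x = c · w ^ p · (u_x · u_t ^ j)`.  This is the hypothesis `hrel` of `rhc_main`
(`RhoCanon.lean`) before pull-back to the cover.
-/
import Mathlib
import Fermat.Agent.S36lib.Speed
import Fermat.Agent.S33lib.GeoDefs
import Fermat.Agent.S34lib.UnipK

set_option autoImplicit false
set_option linter.unusedSectionVars false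
set_option linter.unusedVariables false

noncomputable section

namespace Fermat.Agent.S40lib

open AlgebraicCurve ModularCurve Fermat.Agent.RRlib Fermat.Agent.S33lib Fermat.Agent.S34lib

section Abs

variable {K F : Type*} [Field K] [Field F] [Algebra K F] [RRBase K F]

/-- `g • x = x + j • t`  ⇒  `g • u_x = c · w ^ p · (u_x · u_t ^ j)`. -/
theorem rhr_rel_abs {p : ℕ} {x t : Pic0 K F} {ux ut : F} (hx : gdfIsKummer p x ux)
    (ht : gdfIsKummer p t ut) (g : SemilinearAut K F) (j : ℕ) (hg : g • x = x + j • t) :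
    ∃ (c : K) (w : F), c ≠ 0 ∧ w ≠ 0 ∧ g • ux = algebraMap K F c * w ^ p * (ux * ut ^ j) := by
  have h1 : gdfIsKummer p (x + j • t) (ux * ut ^ j) :=
    gdf_isKummer_add hx (gdf_isKummer_pow ht j)
  have h2 : gdfIsKummer p (x + j • t) (g • ux) := by
    rw [← hg]
    exact gdf_isKummer_smul hx g
  exact gdf_isKummer_unique h1 h2

/-- the same with the `p`-th power of `u_t` split off: `g • u_x = c · u_x · (u_t) ^ j · w ^ p` -/
theorem rhr_rel_abs' {p : ℕ} {x t : Pic0 K F} {ux ut : F} (hx : gdfIsKummer p x ux)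
    (ht : gdfIsKummer p t ut) (g : SemilinearAut K F) (j : ℕ) (hg : g • x = x + j • t) :
    ∃ (c : K) (w : F), c ≠ 0 ∧ w ≠ 0 ∧ g • ux = algebraMap K F c * ux * ut ^ j * w ^ p := by
  obtain ⟨c, w, hc, hw, h⟩ := rhr_rel_abs hx ht g j hg
  exact ⟨c, w, hc, hw, by rw [h]; ring⟩

/-- the stabiliser form: `g • x = x`  ⇒  `g • u_x = c · w ^ p · u_x`. -/
theorem rhr_fix_abs {p : ℕ} {x : Pic0 K F} {ux : F} (hx : gdfIsKummer p x ux)
    (g : SemilinearAut K F) (hg : g • x = x) :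
    ∃ (c : K) (w : F), c ≠ 0 ∧ w ≠ 0 ∧ g • ux = algebraMap K F c * w ^ p * ux := by
  have h2 : gdfIsKummer p x (g • ux) := by
    have := gdf_isKummer_smul hx g
    rwa [hg] at this
  exact gdf_isKummer_unique hx h2

end Abs

section Conc

variable (N : ℕ) [RRBase (AlgebraicClosure ℚ) (modularFunctionFieldBar N)]

/-- concrete form at level `N`, for `τ ∈ G_ℚ` acting on `J_0(N)`. -/
theorem rhr_rel {p : ℕ} {x t : JZero N} {ux ut : modularFunctionFieldBar N}
    (hx : gdfIsKummer (K := AlgebraicClosure ℚ) p x ux)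
    (ht : gdfIsKummer (K := AlgebraicClosure ℚ) p t ut)
    (τ : AlgebraicClosure ℚ ≃ₐ[ℚ] AlgebraicClosure ℚ) (j : ℕ) (hτ : τ • x = x + j • t) :
    ∃ (c : AlgebraicClosure ℚ) (w : modularFunctionFieldBar N), c ≠ 0 ∧ w ≠ 0 ∧
      galFF N τ • ux = algebraMap (AlgebraicClosure ℚ) (modularFunctionFieldBar N) c * ux *
        ut ^ j * w ^ p :=
  rhr_rel_abs' hx ht (galFF N τ) j hτ

/-- concrete stabiliser form -/
theorem rhr_fix {p : ℕ} {x : JZero N} {ux : modularFunctionFieldBar N}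
    (hx : gdfIsKummer (K := AlgebraicClosure ℚ) p x ux)
    (τ : AlgebraicClosure ℚ ≃ₐ[ℚ] AlgebraicClosure ℚ) (hτ : τ • x = x) :
    ∃ (c : AlgebraicClosure ℚ) (w : modularFunctionFieldBar N), c ≠ 0 ∧ w ≠ 0 ∧
      galFF N τ • ux = algebraMap (AlgebraicClosure ℚ) (modularFunctionFieldBar N) c *
        w ^ p * ux :=
  rhr_fix_abs hx (galFF N τ) hτ

/-- the exponent `j` of `τ` on the coset `x + ⟨t⟩`: if `τ • x - x ∈ ⟨t⟩` -/
theorem rhr_exists_j {p : ℕ} (hp : 0 < p) {x t : JZero N} (ht : p • t = 0)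
    (τ : AlgebraicClosure ℚ ≃ₐ[ℚ] AlgebraicClosure ℚ)
    (hτ : τ • x - x ∈ AddSubgroup.zmultiples t) :
    ∃ j : ℕ, j < p ∧ τ • x = x + j • t := by
  obtain ⟨m, hm⟩ := AddSubgroup.mem_zmultiples_iff.mp hτ
  refine ⟨(m % (p : ℤ)).toNat, ?_, ?_⟩
  · have h1 : 0 ≤ m % (p : ℤ) := Int.emod_nonneg _ (by exact_mod_cast hp.ne')
    have h2 : m % (p : ℤ) < p := Int.emod_lt_of_pos _ (by exact_mod_cast hp)
    omega
  · have h1 : 0 ≤ m % (p : ℤ) := Int.emod_nonneg _ (by exact_mod_cast hp.ne')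
    have h3 : ((m % (p : ℤ)).toNat : ℤ) = m % (p : ℤ) := Int.toNat_of_nonneg h1
    have h4 : (m % (p : ℤ)) • t = m • t := by
      have hdecomp : m = m % (p : ℤ) + (p : ℤ) * (m / (p : ℤ)) := (Int.emod_add_mul_ediv m p).symm
      have hpt : ((p : ℤ) * (m / (p : ℤ))) • t = 0 := by
        rw [mul_comm, mul_zsmul]
        have : ((p : ℤ)) • t = 0 := by rw [natCast_zsmul]; exact ht
        rw [this, zsmul_zero]
      conv_rhs => rw [hdecomp, add_zsmul, hpt, add_zero]
    have h5 : ((m % (p : ℤ)).toNat) • t = m • t := by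
      rw [← h4, ← h3, natCast_zsmul, h3]
    rw [h5, hm]
    abel

end Conc

end Fermat.Agent.S40lib

end
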