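/-
Item 88 (S40), piece C4-abstract (helper19): the CANONICAL KUMMER GENERATOR `ρ(x)` of design A
(helper1/helper24/helper22), as pure field algebra.

Setting: `Kb` an algebraically closed field of constants, `Ω` a field over `Kb`
(`Ω = F_Y ⊗ Qbar`, the function field of the cover `Y → X`, `U ^ p = u_t`), `σY : Ω →+* Ω` the deck
transformation (`σY U = ζ U`, constants fixed), `u''` the rational Kummer function of `π^* x` with
`σY u'' = κ g ^ p u''`, and `π^* u_x = γ u'' h ^ p` (fixed by `σY`).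

* `rhc_pow`      : `ρ := h / (g · σY h)` satisfies `ρ ^ p = κ`;
* `rhc_const`    : an element of `Ω` whose `p`-th power is a constant is a constant;
* `rhc_exists`   : `∃ rt : Kb, rt ^ p = κ ∧ algebraMap rt = h / (g · σY h)`;
* `rhc_indep`    : `ρ` does not depend on the choice of `(γ, h)` (nor of `u_x` up to `c · s ^ p`,
                   `s` fixed by `σY`);
* `rhc_tau_h`    : for a semilinear `τ` (Galois) fixing `u''` with `τ u_x = c₀ u_x (U ^ p) ^ j s ^ p`: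
                   `τ h = c · h · U ^ j · s` with a constant `c`;
* `rhc_equiv`    : then `τ ρ = (ζ ^ j)⁻¹ ρ`;
* `rhc_main`     : all together: `∃ rt : Kb, rt ^ p = κ ∧ ∀ τ-data, τ rt = (ζ ^ j)⁻¹ rt`;
* `rhc_fix_iff`  : `τ rt = rt ↔ p ∣ j` (for `ζ` a primitive `p`-th root of unity, `rt ≠ 0`).
-/
import Mathlib
import Fermat.Agent.S36lib.Speed

set_option autoImplicit false
set_option linter.unusedSectionVars false
set_option linter.unusedVariables false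

noncomputable section

namespace Fermat.Agent.S40lib

section Abstract

variable {Kb : Type*} [Field Kb] {Ω : Type*} [Field Ω] [Algebra Kb Ω]

/-- `ρ ^ p = κ`: from `σY u'' = κ g ^ p u''` and `σY (γ u'' h ^ p) = γ u'' h ^ p`. -/
theorem rhc_pow (p : ℕ) (σY : Ω →+* Ω) {u g h γ κ : Ω} (hu : u ≠ 0) (hγ : γ ≠ 0) (hg : g ≠ 0)
    (hh : h ≠ 0) (hσγ : σY γ = γ) (hσu : σY u = κ * g ^ p * u)
    (hfix : σY (γ * u * h ^ p) = γ * u * h ^ p) :
    (h / (g * σY h)) ^ p = κ := by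
  have hσh : σY h ≠ 0 := by
    intro h0
    exact hh ((map_eq_zero σY).mp h0)
  have h1 : γ * (κ * g ^ p * u) * (σY h) ^ p = γ * u * h ^ p := by
    have := hfix
    rw [map_mul, map_mul, map_pow, hσγ, hσu] at this
    exact this
  have h2 : κ * (g * σY h) ^ p = h ^ p := by
    have h3 : γ * u * (κ * (g * σY h) ^ p) = γ * u * h ^ p := by
      rw [← h1]; ring
    exact mul_left_cancel₀ (mul_ne_zero hγ hu) h3
  rw [div_pow, ← h2]
  field_simp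

/-- an element of `Ω` whose `p`-th power (`p ≠ 0`) is a constant is a constant -/
theorem rhc_const [IsAlgClosed Kb] {p : ℕ} (hp : p ≠ 0) {z : Ω} {κ : Kb}
    (hz : z ^ p = algebraMap Kb Ω κ) : ∃ c : Kb, algebraMap Kb Ω c = z := by
  have hint : IsIntegral Kb z := by
    refine ⟨Polynomial.X ^ p - Polynomial.C κ, Polynomial.monic_X_pow_sub_C κ hp, ?_⟩
    simp [hz]
  have hdeg : (minpoly Kb z).degree = 1 :=
    IsAlgClosed.degree_eq_one_of_irreducible Kb (minpoly.irreducible hint)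
  obtain ⟨c, hc⟩ := minpoly.mem_range_of_degree_eq_one Kb z hdeg
  exact ⟨c, hc⟩

/-- the canonical Kummer generator exists in the constants -/
theorem rhc_exists [IsAlgClosed Kb] {p : ℕ} (hp : p ≠ 0) (σY : Ω →+* Ω) {u g h γ : Ω} {κ : Kb}
    (hu : u ≠ 0) (hγ : γ ≠ 0) (hg : g ≠ 0) (hh : h ≠ 0) (hσγ : σY γ = γ)
    (hσu : σY u = algebraMap Kb Ω κ * g ^ p * u)
    (hfix : σY (γ * u * h ^ p) = γ * u * h ^ p) :
    ∃ rt : Kb, rt ^ p = κ ∧ algebraMap Kb Ω rt = h / (g * σY h) := by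
  have hpow := rhc_pow p σY hu hγ hg hh hσγ hσu hfix
  obtain ⟨c, hc⟩ := rhc_const hp hpow
  refine ⟨c, ?_, hc⟩
  apply (algebraMap Kb Ω).injective
  rw [map_pow, hc, hpow]

/-- `ρ` is independent of the choices: if `γ u h ^ p` and `γ' u h' ^ p` differ by `c · s ^ p` with
`c`, `s` fixed by `σY`, then `h / (g σY h) = h' / (g σY h')`, PROVIDED the ratio `h' / (h s)` is
fixed by `σY` (e.g. a constant). -/
theorem rhc_indep (σY : Ω →+* Ω) {g h h' s : Ω} (hg : g ≠ 0) (hh : h ≠ 0) (hs : s ≠ 0)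
    (hσs : σY s = s) {c : Ω} (hc : c ≠ 0) (hσc : σY c = c) (hh' : h' = c * h * s) :
    h' / (g * σY h') = h / (g * σY h) := by
  have hσh : σY h ≠ 0 := fun h0 => hh ((map_eq_zero σY).mp h0)
  rw [hh', map_mul, map_mul, hσs, hσc]
  field_simp

/-- a `p`-th root of unity of `Ω` is a constant -/
theorem rhc_root_const [IsAlgClosed Kb] {p : ℕ} (hp : p ≠ 0) {ξ : Ω} (hξ : ξ ^ p = 1) :
    ∃ c : Kb, algebraMap Kb Ω c = ξ :=
  rhc_const (κ := (1 : Kb)) hp (by rw [hξ, map_one])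

/-- **the Galois action on `h`**: `τ` semilinear over `τK`, `τ u'' = u''`,
`u_x = γ u'' h ^ p`, `τ u_x = c₀ u_x (U ^ p) ^ j s ^ p`  ⇒  `τ h = c · h · U ^ j · s`, `c` a
constant. -/
theorem rhc_tau_h [IsAlgClosed Kb] {p : ℕ} (hp : p ≠ 0) (τ : Ω →+* Ω) (τK : Kb →+* Kb)
    (hτK : ∀ c : Kb, τ (algebraMap Kb Ω c) = algebraMap Kb Ω (τK c))
    {u h U s : Ω} {γ c₀ : Kb} (j : ℕ) (hu : u ≠ 0) (hγ : γ ≠ 0) (hh : h ≠ 0) (hU : U ≠ 0)
    (hs : s ≠ 0) (hτu : τ u = u)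
    (hrel : τ (algebraMap Kb Ω γ * u * h ^ p) =
      algebraMap Kb Ω c₀ * (algebraMap Kb Ω γ * u * h ^ p) * (U ^ p) ^ j * s ^ p) :
    ∃ c : Kb, τ h = algebraMap Kb Ω c * h * U ^ j * s := by
  have hτγ : τK γ ≠ 0 := fun h0 => hγ ((map_eq_zero τK).mp h0)
  have hγΩ : algebraMap Kb Ω γ ≠ 0 := fun h0 => hγ ((map_eq_zero (algebraMap Kb Ω)).mp h0)
  have hτγΩ : algebraMap Kb Ω (τK γ) ≠ 0 :=
    fun h0 => hτγ ((map_eq_zero (algebraMap Kb Ω)).mp h0)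
  have hd : h * U ^ j * s ≠ 0 := mul_ne_zero (mul_ne_zero hh (pow_ne_zero _ hU)) hs
  -- `(τ h) ^ p = (c₀ γ / τ γ) (h U^j s) ^ p`
  have h1 : algebraMap Kb Ω (τK γ) * u * (τ h) ^ p =
      algebraMap Kb Ω c₀ * (algebraMap Kb Ω γ * u * h ^ p) * (U ^ p) ^ j * s ^ p := by
    rw [← hrel, map_mul, map_mul, map_pow, hτK, hτu]
  have h2 : (τ h / (h * U ^ j * s)) ^ p = algebraMap Kb Ω (c₀ * γ / τK γ) := by
    rw [div_pow, map_div₀, map_mul]
    rw [div_eq_div_iff (pow_ne_zero _ hd) hτγΩ]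
    have h3 : algebraMap Kb Ω (τK γ) * u * (τ h) ^ p =
        u * (algebraMap Kb Ω c₀ * algebraMap Kb Ω γ * (h * U ^ j * s) ^ p) := by
      rw [h1]; ring
    have h4 : u * ((τ h) ^ p * algebraMap Kb Ω (τK γ)) =
        u * (algebraMap Kb Ω c₀ * algebraMap Kb Ω γ * (h * U ^ j * s) ^ p) := by
      rw [← h3]; ring
    exact mul_left_cancel₀ hu h4
  obtain ⟨c, hc⟩ := rhc_const hp h2
  refine ⟨c, ?_⟩
  rw [hc]
  field_simp

/-- **equivariance of `ρ`**: `τ ρ = (ζ ^ j)⁻¹ ρ`. -/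
theorem rhc_equiv (σY τ : Ω →+* Ω) (hcomm : ∀ z, σY (τ z) = τ (σY z))
    {g h U s c ζ : Ω} (j : ℕ) (hg : g ≠ 0) (hh : h ≠ 0) (hU : U ≠ 0) (hs : s ≠ 0) (hc : c ≠ 0)
    (hζ : ζ ≠ 0) (hτg : τ g = g) (hσU : σY U = ζ * U) (hσs : σY s = s) (hσc : σY c = c)
    (hτh : τ h = c * h * U ^ j * s) :
    τ (h / (g * σY h)) = (ζ ^ j)⁻¹ * (h / (g * σY h)) := by
  have hσh : σY h ≠ 0 := fun h0 => hh ((map_eq_zero σY).mp h0)
  rw [map_div₀, map_mul, hτg, ← hcomm, hτh, map_mul, map_mul, map_mul, map_pow, hσU, hσs, hσc,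
    mul_pow]
  field_simp

/-- **C4, abstract main statement.**  There is a constant `rt` with `rt ^ p = κ` such that every
semilinear `τ` (over `τK`) commuting with `σY`, fixing `u''` and `g`, with
`τ u_x = c₀ u_x (U ^ p) ^ j s ^ p` (`s` fixed by `σY`), acts on `rt` by `τK rt = (ζ ^ j)⁻¹ rt`. -/
theorem rhc_main [IsAlgClosed Kb] {p : ℕ} (hp : p ≠ 0) (σY : Ω →+* Ω)
    (hσK : ∀ c : Kb, σY (algebraMap Kb Ω c) = algebraMap Kb Ω c)
    {u g h U : Ω} {γ κ ζ : Kb} (hu : u ≠ 0) (hγ : γ ≠ 0) (hg : g ≠ 0) (hh : h ≠ 0) (hU : U ≠ 0)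
    (hζ : ζ ≠ 0) (hσU : σY U = algebraMap Kb Ω ζ * U)
    (hσu : σY u = algebraMap Kb Ω κ * g ^ p * u)
    (hfix : σY (algebraMap Kb Ω γ * u * h ^ p) = algebraMap Kb Ω γ * u * h ^ p) :
    ∃ rt : Kb, rt ^ p = κ ∧ algebraMap Kb Ω rt = h / (g * σY h) ∧
      ∀ (τ : Ω →+* Ω) (τK : Kb →+* Kb),
        (∀ c : Kb, τ (algebraMap Kb Ω c) = algebraMap Kb Ω (τK c)) →
        (∀ z, σY (τ z) = τ (σY z)) → τ u = u → τ g = g →
        ∀ (j : ℕ) (s : Ω) (c₀ : Kb), s ≠ 0 → σY s = s →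
          τ (algebraMap Kb Ω γ * u * h ^ p) =
            algebraMap Kb Ω c₀ * (algebraMap Kb Ω γ * u * h ^ p) * (U ^ p) ^ j * s ^ p →
          τK rt = (ζ ^ j)⁻¹ * rt := by
  have hγΩ : algebraMap Kb Ω γ ≠ 0 := fun h0 => hγ ((map_eq_zero (algebraMap Kb Ω)).mp h0)
  obtain ⟨rt, hrtp, hrt⟩ := rhc_exists hp σY hu hγΩ hg hh (hσK γ) hσu hfix
  refine ⟨rt, hrtp, hrt, ?_⟩
  intro τ τK hτK hcomm hτu hτg j s c₀ hs hσs hrel
  obtain ⟨c, hc⟩ := rhc_tau_h hp τ τK hτK j hu hγ hh hU hs hτu hrel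
  have hτh0 : τ h ≠ 0 := fun h0 => hh ((map_eq_zero τ).mp h0)
  have hc0 : algebraMap Kb Ω c ≠ 0 := by
    intro h0
    apply hτh0
    rw [hc, h0]; simp
  have hζΩ : algebraMap Kb Ω ζ ≠ 0 := fun h0 => hζ ((map_eq_zero (algebraMap Kb Ω)).mp h0)
  have key := rhc_equiv σY τ hcomm j hg hh hU hs hc0 hζΩ hτg hσU hσs (hσK c) hc
  apply (algebraMap Kb Ω).injective
  rw [← hτK, hrt, key, map_mul, map_inv₀, map_pow, hrt]

/-- `τ rt = (ζ ^ j)⁻¹ rt` fixes `rt ≠ 0` iff `p ∣ j` (`ζ` a primitive `p`-th root of unity). -/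
theorem rhc_fix_iff {p : ℕ} {ζ rt τrt : Kb} (hζ : IsPrimitiveRoot ζ p) (hrt : rt ≠ 0) (j : ℕ)
    (h : τrt = (ζ ^ j)⁻¹ * rt) : τrt = rt ↔ p ∣ j := by
  rw [h]
  constructor
  · intro h1
    have h2 : (ζ ^ j)⁻¹ = 1 := by
      have : (ζ ^ j)⁻¹ * rt = 1 * rt := by rw [h1, one_mul]
      exact mul_right_cancel₀ hrt this
    have h3 : ζ ^ j = 1 := by
      rw [inv_eq_one] at h2
      exact h2
    exact (hζ.pow_eq_one_iff_dvd j).mp h3
  · intro hd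
    rw [(hζ.pow_eq_one_iff_dvd j).mpr hd, inv_one, one_mul]

/-- the exponent form used by TRES (`tri_tres`): `τ rt = ζ ^ r * rt` with `r = (p - 1) * j`. -/
theorem rhc_pow_form {p : ℕ} (hp : 0 < p) {ζ rt τrt : Kb} (hζ : ζ ^ p = 1) (j : ℕ)
    (h : τrt = (ζ ^ j)⁻¹ * rt) : τrt = ζ ^ ((p - 1) * j) * rt := by
  rw [h]
  congr 1
  have h1 : ζ ^ ((p - 1) * j) * ζ ^ j = 1 := by
    rw [← pow_add, show (p - 1) * j + j = p * j by
      obtain ⟨q, rfl⟩ : ∃ q, p = q + 1 := ⟨p - 1, by omega⟩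
      simp; ring, pow_mul, hζ, one_pow]
  exact (eq_inv_of_mul_eq_one_left h1).symm

end Abstract

end Fermat.Agent.S40lib

end
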