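/-
Item 88 (S40), piece C4, ASSEMBLY modulo the cover interface (helper19).

`rhk_main`: the canonical Kummer generator of design A.  INPUT (all on an abstract "cover field"
`Ω ⊇ ι F`, e.g. `Ω = F(U) ⊂ Qbar((q))`, `U ^ p = u_t`):
* `σY : Ω →+* Ω` the deck map (constants and `ι F` fixed, `σY U = ζ U`);
* the rational Kummer function `u''` of `π^* x` with `σY u'' = κ g ^ p u''`;
* `ι u_x = γ u'' h ^ p`.
OUTPUT: ONE constant `rt` with `rt ^ p = κ` such that for EVERY semilinear automorphism `a` of `F`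
with a lift `τΩ` to `Ω` (commuting with `σY`, fixing `u''` and `g`) and `a • x - x ∈ ⟨t⟩`:
`a • x = x ↔ τK rt = rt`.
This is the hypothesis `hSt` of `tri_not_peuB_kappa` (helper12, `TresDisc.lean`), with `κ = rt ^ p`.
-/
import Mathlib
import Fermat.Agent.S36lib.Speed
import Fermat.Agent.S40lib.RhoCanon
import Fermat.Agent.S40lib.RhoRel

set_option autoImplicit false
set_option linter.unusedSectionVars false
set_option linter.unusedVariables false
set_option linter.style.haveILetI false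

noncomputable section

namespace Fermat.Agent.S40lib

open AlgebraicCurve Fermat.Agent.RRlib Fermat.Agent.S33lib

section Abs

variable {K F : Type*} [Field K] [Field F] [Algebra K F] [RRBase K F]

/-- the exponent `j` of `a` on the coset `x + ⟨t⟩` -/
theorem rhk_exists_j {p : ℕ} (hp : 0 < p) {x t : Pic0 K F} (ht : p • t = 0)
    (a : SemilinearAut K F) (ha : a • x - x ∈ AddSubgroup.zmultiples t) :
    ∃ j : ℕ, j < p ∧ a • x = x + j • t := by
  obtain ⟨m, hm⟩ := AddSubgroup.mem_zmultiples_iff.mp ha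
  have h1 : 0 ≤ m % (p : ℤ) := Int.emod_nonneg _ (by exact_mod_cast hp.ne')
  have h2 : m % (p : ℤ) < p := Int.emod_lt_of_pos _ (by exact_mod_cast hp)
  have h3 : ((m % (p : ℤ)).toNat : ℤ) = m % (p : ℤ) := Int.toNat_of_nonneg h1
  refine ⟨(m % (p : ℤ)).toNat, by omega, ?_⟩
  have h4 : (m % (p : ℤ)) • t = m • t := by
    have hdecomp : m = m % (p : ℤ) + (p : ℤ) * (m / (p : ℤ)) := (Int.emod_add_mul_ediv m p).symm
    have hpt : ((p : ℤ) * (m / (p : ℤ))) • t = 0 := by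
      rw [mul_comm, mul_zsmul]
      have : ((p : ℤ)) • t = 0 := by rw [natCast_zsmul]; exact ht
      rw [this, zsmul_zero]
    conv_rhs => rw [hdecomp, add_zsmul, hpt, add_zero]
  have h5 : ((m % (p : ℤ)).toNat) • t = m • t := by
    rw [← h4, ← h3, natCast_zsmul, h3]
  rw [h5, hm]
  abel

/-- for `t ≠ 0` of prime order `p`: `j • t = 0 ↔ p ∣ j` -/
theorem rhk_nsmul_eq_zero_iff {p : ℕ} (hp : p.Prime) {t : Pic0 K F} (ht : p • t = 0)
    (ht0 : t ≠ 0) (j : ℕ) : j • t = 0 ↔ p ∣ j := by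
  haveI : Fact p.Prime := ⟨hp⟩
  have ho : addOrderOf t = p := addOrderOf_eq_prime ht ht0
  rw [← ho]
  exact addOrderOf_dvd_iff_nsmul_eq_zero.symm

variable [IsAlgClosed K] {Ω : Type*} [Field Ω] [Algebra K Ω]

/-- **C4 modulo the cover interface.** -/
theorem rhk_main (ι : F →+* Ω) (hι : ∀ c : K, ι (algebraMap K F c) = algebraMap K Ω c)
    {p : ℕ} (hp : p.Prime)
    (σY : Ω →+* Ω) (hσK : ∀ c : K, σY (algebraMap K Ω c) = algebraMap K Ω c)
    (hσF : ∀ f : F, σY (ι f) = ι f)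
    {ζ : K} (hζ : IsPrimitiveRoot ζ p) {U : Ω} (hσU : σY U = algebraMap K Ω ζ * U)
    {x t : Pic0 K F} {ux ut : F} (hx : gdfIsKummer p x ux) (ht : gdfIsKummer p t ut)
    (hpt : p • t = 0) (ht0 : t ≠ 0) (hU : U ^ p = ι ut)
    {u g h : Ω} {γ κ : K} (hu : u ≠ 0) (hγ : γ ≠ 0) (hg : g ≠ 0) (hh : h ≠ 0)
    (hσu : σY u = algebraMap K Ω κ * g ^ p * u)
    (hux : ι ux = algebraMap K Ω γ * u * h ^ p) :
    ∃ rt : K, rt ≠ 0 ∧ rt ^ p = κ ∧
      ∀ (a : SemilinearAut K F) (τΩ : Ω →+* Ω) (τK : K →+* K),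
        (∀ c : K, τΩ (algebraMap K Ω c) = algebraMap K Ω (τK c)) →
        (∀ f : F, τΩ (ι f) = ι (a • f)) →
        (∀ z, σY (τΩ z) = τΩ (σY z)) → τΩ u = u → τΩ g = g →
        a • x - x ∈ AddSubgroup.zmultiples t →
        ∃ j : ℕ, a • x = x + j • t ∧ τK rt = (ζ ^ j)⁻¹ * rt ∧ (a • x = x ↔ τK rt = rt) := by
  have hut0 : ut ≠ 0 := gdf_isKummer_ne_zero ht
  have hU0 : U ≠ 0 := by
    intro h0
    have : ι ut = 0 := by rw [← hU, h0, zero_pow hp.ne_zero]
    exact hut0 ((map_eq_zero ι).mp this)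
  have hζ0 : ζ ≠ 0 := hζ.ne_zero hp.ne_zero
  have hfix : σY (algebraMap K Ω γ * u * h ^ p) = algebraMap K Ω γ * u * h ^ p := by
    rw [← hux, hσF]
  obtain ⟨rt, hrtp, -, hrt⟩ :=
    rhc_main hp.ne_zero σY hσK hu hγ hg hh hU0 hζ0 hσU hσu hfix
  -- `κ ≠ 0`
  have hκ0 : κ ≠ 0 := by
    rintro rfl
    have : σY u = 0 := by rw [hσu, map_zero, zero_mul, zero_mul]
    exact hu ((map_eq_zero σY).mp this)
  have hrt0 : rt ≠ 0 := by
    rintro rfl
    rw [zero_pow hp.ne_zero] at hrtp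
    exact hκ0 hrtp.symm
  refine ⟨rt, hrt0, hrtp, ?_⟩
  intro a τΩ τK hτK hτF hcomm hτu hτg ha
  obtain ⟨j, -, hj⟩ := rhk_exists_j hp.pos hpt a ha
  obtain ⟨c, w, hc, hw, hrel⟩ := rhr_rel_abs' hx ht a j hj
  have hιw : ι w ≠ 0 := fun h0 => hw ((map_eq_zero ι).mp h0)
  have hrel' : τΩ (algebraMap K Ω γ * u * h ^ p) =
      algebraMap K Ω c * (algebraMap K Ω γ * u * h ^ p) * (U ^ p) ^ j * (ι w) ^ p := by
    rw [← hux, hτF, hrel, map_mul, map_mul, map_mul, map_pow, map_pow, hι, hU]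
  have key := hrt τΩ τK hτK hcomm hτu hτg j (ι w) c hιw (hσF w) hrel'
  refine ⟨j, hj, key, ?_⟩
  rw [rhc_fix_iff hζ hrt0 j key, ← rhk_nsmul_eq_zero_iff hp hpt ht0 j, hj]
  constructor
  · intro h1
    have : x + j • t = x + 0 := by rw [h1, add_zero]
    exact add_left_cancel this
  · intro h1
    rw [h1, add_zero]

end Abs

end Fermat.Agent.S40lib

end
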