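/-
Item 88 (S40), block (J-WILD), the ALGEBRAIC CORE (helper19).

Everything of design A (helper1/helper24/helper22) that is pure Kummer theory inside `ℚ̄((q))`:
given the cover field `EY ⊇ F_N ∪ {U}`, `U ^ p = u_t`, stable under the coefficientwise action of
`H` (inertia), and the deck map `σY : EY → EY` (`σY U = ζ U`, identity on `F_N` and on the
constants, commuting with `H`), for a class `x` with `(H - 1) x ⊆ ⟨t⟩`:

`wlc_main`: there are `rt κ : ℚ̄` and `u'' g ∈ EY` with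
* `κ ≠ 0`, `rt ^ p = κ`, `κ` fixed by `H`;
* `τ • x = x ↔ τ rt = rt` for every `τ ∈ H`;
* `u''`, `g` fixed by `H` (coefficientwise), `σY u'' = κ g ^ p u''`, `u'' = c u_x h ^ p`.

Uses `cvc_descent` (helper5/helper29, C3), `rhk_main` (C4), the leading coefficient `cvcLc`.
What remains of (J-WILD) after this file: `p ∤ v(κ)` (edge rule on `Y` + Eisenstein + (LIFT)).
-/
import Mathlib
import Fermat.Agent.S36lib.Speed
import Fermat.Agent.S40lib.CovConc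
import Fermat.Agent.S40lib.RhoConc

set_option autoImplicit false
set_option linter.style.haveILetI false
set_option linter.unusedSectionVars false
set_option linter.unusedVariables false

noncomputable section

namespace Fermat.Agent.S40lib

open ModularCurve HahnSeries AlgebraicCurve Fermat.Agent.S24lib Fermat.Agent.S33lib
  Fermat.Agent.S34lib Fermat.Agent.RRlib

section Tau

variable (H : Subgroup (Kbar ≃ₐ[ℚ] Kbar)) (EY : IntermediateField Kbar (LaurentSeries Kbar))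

/-- the ring endomorphism of `EY` induced by `coeffMap σ`, `σ ∈ H` -/
def wlcTau (hst : ∀ σ ∈ H, ∀ x ∈ EY,
    coeffMap ((σ : Kbar ≃ₐ[ℚ] Kbar) : Kbar →+* Kbar) x ∈ EY)
    (σ : Kbar ≃ₐ[ℚ] Kbar) (hσ : σ ∈ H) : ↥EY →+* ↥EY :=
  ((coeffMap ((σ : Kbar ≃ₐ[ℚ] Kbar) : Kbar →+* Kbar)).comp
    (algebraMap ↥EY (LaurentSeries Kbar))).codRestrict EY (fun z => hst σ hσ z z.2)

theorem wlc_coe_tau (hst : ∀ σ ∈ H, ∀ x ∈ EY,
    coeffMap ((σ : Kbar ≃ₐ[ℚ] Kbar) : Kbar →+* Kbar) x ∈ EY)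
    (σ : Kbar ≃ₐ[ℚ] Kbar) (hσ : σ ∈ H) (z : ↥EY) :
    ((wlcTau H EY hst σ hσ z : ↥EY) : LaurentSeries Kbar) =
      coeffMap ((σ : Kbar ≃ₐ[ℚ] Kbar) : Kbar →+* Kbar) (z : LaurentSeries Kbar) := rfl

theorem wlc_tau_algebraMap (hst : ∀ σ ∈ H, ∀ x ∈ EY,
    coeffMap ((σ : Kbar ≃ₐ[ℚ] Kbar) : Kbar →+* Kbar) x ∈ EY)
    (σ : Kbar ≃ₐ[ℚ] Kbar) (hσ : σ ∈ H) (c : Kbar) :
    wlcTau H EY hst σ hσ (algebraMap Kbar ↥EY c) =
      algebraMap Kbar ↥EY (((σ : Kbar ≃ₐ[ℚ] Kbar) : Kbar →+* Kbar) c) := by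
  apply Subtype.ext
  rw [wlc_coe_tau]
  show coeffMap _ (algebraMap Kbar (LaurentSeries Kbar) c) = algebraMap Kbar (LaurentSeries Kbar) _
  rw [coeffMap_algebraMap]

end Tau

section Lc

/-- two elements of `ℚ̄((q))` with the same `p`-th power and the same leading coefficient are
equal -/
theorem wlc_eq_of_pow_eq {p : ℕ} (hp : 0 < p) {ζ : Kbar} (hζ : IsPrimitiveRoot ζ p)
    {a b : LaurentSeries Kbar} (hb : b ≠ 0) (hpow : a ^ p = b ^ p) (hlc : cvcLc a = cvcLc b) :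
    a = b := by
  have h1 : (a / b) ^ p = 1 := by
    rw [div_pow, hpow, div_self (pow_ne_zero _ hb)]
  obtain ⟨j, -, hj⟩ := cvc_root_unity hp hζ h1
  have h2 : a = algebraMap Kbar (LaurentSeries Kbar) (ζ ^ j) * b := by
    rw [← hj, div_mul_cancel₀ _ hb]
  have h3 : cvcLc a = ζ ^ j * cvcLc b := by
    rw [h2, cvc_lc_mul, cvc_lc_algebraMap]
  have h4 : ζ ^ j = 1 := by
    have hb0 : cvcLc b ≠ 0 := cvc_lc_ne_zero hb
    rw [hlc] at h3
    have : 1 * cvcLc b = ζ ^ j * cvcLc b := by rw [one_mul]; exact h3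
    exact (mul_right_cancel₀ hb0 this).symm
  rw [h2, h4, map_one, one_mul]

end Lc

section Main

variable (N : ℕ) [NeZero N] [RRBase Kbar (modularFunctionFieldBar N)]

set_option maxHeartbeats 1600000 in
/-- **(J-WILD), algebraic core.** -/
theorem wlc_main {p : ℕ} (hp : p.Prime) {ζ : Kbar} (hζ : IsPrimitiveRoot ζ p)
    (H : Subgroup (Kbar ≃ₐ[ℚ] Kbar))
    {x t : JZero N} {ux ut : modularFunctionFieldBar N}
    (hx : gdfIsKummer (K := Kbar) p x ux) (ht : gdfIsKummer (K := Kbar) p t ut)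
    (hpt : p • t = 0) (ht0 : t ≠ 0)
    (hHx : ∀ σ ∈ H, σ • x - x ∈ AddSubgroup.zmultiples t)
    (EY : IntermediateField Kbar (LaurentSeries Kbar)) (hFE : modularFunctionFieldBar N ≤ EY)
    {U : LaurentSeries Kbar} (hUE : U ∈ EY) (hU : U ^ p = (ut : LaurentSeries Kbar))
    (hst : ∀ σ ∈ H, ∀ z ∈ EY, coeffMap ((σ : Kbar ≃ₐ[ℚ] Kbar) : Kbar →+* Kbar) z ∈ EY)
    (σY : ↥EY →+* ↥EY)
    (hσK : ∀ c : Kbar, σY (algebraMap Kbar ↥EY c) = algebraMap Kbar ↥EY c)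
    (hσF : ∀ f : modularFunctionFieldBar N,
      σY ⟨(f : LaurentSeries Kbar), hFE f.2⟩ = ⟨(f : LaurentSeries Kbar), hFE f.2⟩)
    (hσU : σY ⟨U, hUE⟩ = algebraMap Kbar ↥EY ζ * ⟨U, hUE⟩)
    (hcomm : ∀ (σ : Kbar ≃ₐ[ℚ] Kbar) (hσ : σ ∈ H) (z : ↥EY),
      σY (wlcTau H EY hst σ hσ z) = wlcTau H EY hst σ hσ (σY z)) :
    ∃ (rt κ : Kbar) (u g : ↥EY), κ ≠ 0 ∧ rt ≠ 0 ∧ rt ^ p = κ ∧
      (∀ τ ∈ H, τ κ = κ) ∧
      (∀ τ ∈ H, (τ • x = x ↔ τ rt = rt)) ∧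
      u ≠ 0 ∧ g ≠ 0 ∧
      (∀ τ ∈ H, coeffMap ((τ : Kbar ≃ₐ[ℚ] Kbar) : Kbar →+* Kbar) (u : LaurentSeries Kbar) =
        (u : LaurentSeries Kbar)) ∧
      (∀ τ ∈ H, coeffMap ((τ : Kbar ≃ₐ[ℚ] Kbar) : Kbar →+* Kbar) (g : LaurentSeries Kbar) =
        (g : LaurentSeries Kbar)) ∧
      σY u = algebraMap Kbar ↥EY κ * g ^ p * u ∧
      ∃ (c : Kbar) (h : ↥EY), c ≠ 0 ∧ h ≠ 0 ∧
        (u : LaurentSeries Kbar) = algebraMap Kbar (LaurentSeries Kbar) c *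
          (ux : LaurentSeries Kbar) * (h : LaurentSeries Kbar) ^ p := by
  classical
  have hux0 : ux ≠ 0 := gdf_isKummer_ne_zero hx
  have hut0 : ut ≠ 0 := gdf_isKummer_ne_zero ht
  have huxL : (ux : LaurentSeries Kbar) ≠ 0 := fun h0 => hux0 (Subtype.ext h0)
  have hutL : (ut : LaurentSeries Kbar) ≠ 0 := fun h0 => hut0 (Subtype.ext h0)
  have hU0 : U ≠ 0 := by
    rintro rfl
    rw [zero_pow hp.ne_zero] at hU
    exact hutL hU.symm
  -- the X-side relation for every `σ ∈ H`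
  have hrelX : ∀ σ ∈ H, ∃ (j : ℕ) (c : Kbar) (w : modularFunctionFieldBar N), c ≠ 0 ∧ w ≠ 0 ∧
      σ • x = x + j • t ∧
      coeffMap ((σ : Kbar ≃ₐ[ℚ] Kbar) : Kbar →+* Kbar) (ux : LaurentSeries Kbar) =
        algebraMap Kbar (LaurentSeries Kbar) c * (ux : LaurentSeries Kbar) *
          ((ut : LaurentSeries Kbar)) ^ j * (w : LaurentSeries Kbar) ^ p := by
    intro σ hσ
    have ha : galFF N σ • x - x ∈ AddSubgroup.zmultiples t := hHx σ hσ
    obtain ⟨j, -, hj⟩ := rhk_exists_j hp.pos hpt (galFF N σ) ha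
    obtain ⟨c, w, hc, hw, hrel⟩ := rhr_rel_abs' hx ht (galFF N σ) j hj
    refine ⟨j, c, w, hc, hw, hj, ?_⟩
    have h1 := congrArg (fun z : modularFunctionFieldBar N => (z : LaurentSeries Kbar)) hrel
    simpa using h1
  -- C3: the `H`-fixed Kummer function on the cover
  have hfix : ∀ σ ∈ H, ∃ (c : Kbar) (h : LaurentSeries Kbar), h ∈ EY ∧ h ≠ 0 ∧
      coeffMap ((σ : Kbar ≃ₐ[ℚ] Kbar) : Kbar →+* Kbar) (ux : LaurentSeries Kbar)
        = algebraMap Kbar (LaurentSeries Kbar) c * (ux : LaurentSeries Kbar) * h ^ p := by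
    intro σ hσ
    obtain ⟨j, c, w, hc, hw, -, hrel⟩ := hrelX σ hσ
    have hwL : (w : LaurentSeries Kbar) ≠ 0 := fun h0 => hw (Subtype.ext h0)
    refine ⟨c, U ^ j * (w : LaurentSeries Kbar), mul_mem (pow_mem hUE j) (hFE w.2),
      mul_ne_zero (pow_ne_zero _ hU0) hwL, ?_⟩
    rw [hrel, ← hU, mul_pow, ← pow_mul, ← pow_mul, mul_comm p j]
    ring
  obtain ⟨c0, h0, hc0, hh0E, hh00, hfixed⟩ :=
    cvc_descent H EY hp.pos hζ hst (hFE ux.2) huxL
      (cvc_fin_baseChange (modularFunctionFieldFull N) ux.2) hfix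
  -- the elements of `EY`
  set uxE : ↥EY := ⟨(ux : LaurentSeries Kbar), hFE ux.2⟩ with huxE
  set hE : ↥EY := ⟨h0, hh0E⟩ with hhE
  set UE : ↥EY := ⟨U, hUE⟩ with hUEdef
  have huxE0 : uxE ≠ 0 := fun h => huxL (congrArg Subtype.val h)
  have hhE0 : hE ≠ 0 := fun h => hh00 (congrArg Subtype.val h)
  have hUE0 : UE ≠ 0 := fun h => hU0 (congrArg Subtype.val h)
  have hc0E : algebraMap Kbar ↥EY c0 ≠ 0 := (map_ne_zero _).mpr hc0
  set u : ↥EY := algebraMap Kbar ↥EY c0 * uxE * hE ^ p with hu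
  have hu0 : u ≠ 0 := mul_ne_zero (mul_ne_zero hc0E huxE0) (pow_ne_zero _ hhE0)
  have hucoe : (u : LaurentSeries Kbar) = algebraMap Kbar (LaurentSeries Kbar) c0 *
      (ux : LaurentSeries Kbar) * h0 ^ p := rfl
  have hτu : ∀ (σ : Kbar ≃ₐ[ℚ] Kbar) (hσ : σ ∈ H), wlcTau H EY hst σ hσ u = u := by
    intro σ hσ
    apply Subtype.ext
    rw [wlc_coe_tau, hucoe]
    exact hfixed σ hσ
  -- `G = σY h / h`, `d = lc G`, `g = G / d`, `κ = d ^ p`
  have hσh0 : σY hE ≠ 0 := (map_ne_zero σY).mpr hhE0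
  set G : ↥EY := σY hE / hE with hG
  have hG0 : G ≠ 0 := div_ne_zero hσh0 hhE0
  have hGL : (G : LaurentSeries Kbar) ≠ 0 := fun h => hG0 (Subtype.ext h)
  set d : Kbar := cvcLc (G : LaurentSeries Kbar) with hd
  have hd0 : d ≠ 0 := cvc_lc_ne_zero hGL
  have hdE : algebraMap Kbar ↥EY d ≠ 0 := (map_ne_zero _).mpr hd0
  set g : ↥EY := G / algebraMap Kbar ↥EY d with hg
  have hg0 : g ≠ 0 := div_ne_zero hG0 hdE
  have hσuxE : σY uxE = uxE := hσF ux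
  have hGg : G = algebraMap Kbar ↥EY d * g := by
    rw [hg, mul_div_cancel₀ _ hdE]
  have hσhE : σY hE = G * hE := by
    rw [hG, div_mul_cancel₀ _ hhE0]
  have hσuG : σY u = G ^ p * u := by
    rw [hu, map_mul, map_mul, map_pow, hσK, hσuxE, hσhE, mul_pow]
    ring
  have hσu : σY u = algebraMap Kbar ↥EY (d ^ p) * g ^ p * u := by
    rw [hσuG, hGg, mul_pow, map_pow]
  -- `G ^ p = σY u / u` is fixed by `H`
  have hGp : G ^ p = σY u / u := by
    rw [hσuG, mul_div_cancel_right₀ _ hu0]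
  have hτGp : ∀ (σ : Kbar ≃ₐ[ℚ] Kbar) (hσ : σ ∈ H),
      wlcTau H EY hst σ hσ (G ^ p) = G ^ p := by
    intro σ hσ
    rw [hGp, map_div₀, ← hcomm σ hσ u, hτu σ hσ]
  -- `κ` is fixed by `H`
  have hlcτ : ∀ (σ : Kbar ≃ₐ[ℚ] Kbar) (hσ : σ ∈ H) (z : ↥EY),
      cvcLc ((wlcTau H EY hst σ hσ z : ↥EY) : LaurentSeries Kbar) =
        σ (cvcLc (z : LaurentSeries Kbar)) := by
    intro σ hσ z
    rw [wlc_coe_tau, cvc_lc_coeffMap]
    rfl
  have hκfix : ∀ τ ∈ H, τ (d ^ p) = d ^ p := by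
    intro τ hτ
    have h1 : cvcLc ((wlcTau H EY hst τ hτ (G ^ p) : ↥EY) : LaurentSeries Kbar) =
        τ (cvcLc ((G ^ p : ↥EY) : LaurentSeries Kbar)) := hlcτ τ hτ (G ^ p)
    rw [hτGp τ hτ] at h1
    have h2 : cvcLc ((G ^ p : ↥EY) : LaurentSeries Kbar) = d ^ p := by
      show cvcLc ((G : LaurentSeries Kbar) ^ p) = d ^ p
      rw [cvc_lc_pow]
    rw [h2] at h1
    exact h1.symm
  -- `g` is fixed by `H`
  have hlcg : cvcLc (g : LaurentSeries Kbar) = 1 := by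
    show cvcLc ((G : LaurentSeries Kbar) / algebraMap Kbar (LaurentSeries Kbar) d) = 1
    rw [div_eq_mul_inv, cvc_lc_mul, ← map_inv₀, cvc_lc_algebraMap]
    exact mul_inv_cancel₀ hd0
  have hgL : (g : LaurentSeries Kbar) ≠ 0 := fun h => hg0 (Subtype.ext h)
  have hτg : ∀ (σ : Kbar ≃ₐ[ℚ] Kbar) (hσ : σ ∈ H), wlcTau H EY hst σ hσ g = g := by
    intro σ hσ
    apply Subtype.ext
    apply wlc_eq_of_pow_eq hp.pos hζ hgL
    · -- same `p`-th powers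
      have h1 : wlcTau H EY hst σ hσ (g ^ p) = g ^ p := by
        have hgp : g ^ p = G ^ p / algebraMap Kbar ↥EY (d ^ p) := by
          rw [hg, div_pow, map_pow]
        rw [hgp, map_div₀, hτGp σ hσ, wlc_tau_algebraMap]
        congr 2
        exact hκfix σ hσ
      have h2 := congrArg (fun z : ↥EY => (z : LaurentSeries Kbar)) h1
      simpa [map_pow] using h2
    · rw [hlcτ σ hσ g, hlcg, map_one]
  -- C4
  have hγ : (c0⁻¹ : Kbar) ≠ 0 := inv_ne_zero hc0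
  have hhinv : hE⁻¹ ≠ 0 := inv_ne_zero hhE0
  let ι : modularFunctionFieldBar N →+* ↥EY :=
    (IntermediateField.inclusion hFE).toRingHom
  have hιcoe : ∀ f : modularFunctionFieldBar N, ι f = ⟨(f : LaurentSeries Kbar), hFE f.2⟩ :=
    fun f => rfl
  have hι : ∀ c : Kbar, ι (algebraMap Kbar (modularFunctionFieldBar N) c) =
      algebraMap Kbar ↥EY c := fun c => rfl
  have hUp : UE ^ p = ι ut := by
    apply Subtype.ext
    show U ^ p = (ut : LaurentSeries Kbar)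
    exact hU
  have hux' : ι ux = algebraMap Kbar ↥EY c0⁻¹ * u * hE⁻¹ ^ p := by
    rw [hιcoe, hu, map_inv₀, inv_pow]
    show uxE = _
    have hhp : hE ^ p ≠ 0 := pow_ne_zero _ hhE0
    field_simp
  obtain ⟨rt, hrt0, hrtp, hrt⟩ :=
    rhk_main (K := Kbar) (F := modularFunctionFieldBar N) (Ω := ↥EY) ι hι hp σY hσK
      (fun f => by rw [hιcoe]; exact hσF f) hζ hσU hx ht hpt ht0 hUp hu0 hγ hg0 hhinv hσu hux'
  have hκ0 : d ^ p ≠ 0 := pow_ne_zero _ hd0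
  refine ⟨rt, d ^ p, u, g, hκ0, hrt0, hrtp, hκfix, ?_, hu0, hg0, ?_, ?_, hσu,
    ⟨c0, hE, hc0, hhE0, hucoe⟩⟩
  · intro τ hτ
    obtain ⟨j, hj, -, hiff⟩ := hrt (galFF N τ) (wlcTau H EY hst τ hτ)
      ((τ : Kbar ≃ₐ[ℚ] Kbar) : Kbar →+* Kbar)
      (fun c => wlc_tau_algebraMap H EY hst τ hτ c)
      (fun f => by
        apply Subtype.ext
        rw [wlc_coe_tau]
        rfl)
      (fun z => hcomm τ hτ z) (hτu τ hτ) (hτg τ hτ) (hHx τ hτ)
    exact hiff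
  · intro τ hτ
    have := congrArg (fun z : ↥EY => (z : LaurentSeries Kbar)) (hτu τ hτ)
    exact this
  · intro τ hτ
    have := congrArg (fun z : ↥EY => (z : LaurentSeries Kbar)) (hτg τ hτ)
    exact this

end Main

end Fermat.Agent.S40lib

end
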