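import Mathlib
import Fermat.Agent.S36lib.Speed
import Fermat.Agent.S40lib.CovConc
import Fermat.Agent.S40lib.RhoRel
import Fermat.Agent.S40lib.WildCore

/-!
# Item 88 (S40), piece C3, concrete side, part 2 (helper5): the data of the cover for `rhk_main`

`Ω = F_N(U) ⊂ ℚ̄((q))`, `U ^ p = u_t`; `H` a group of Galois automorphisms acting on `t` through
the cyclotomic character (`τ t = w t`, `τ ζ = ζ ^ w`) and on `x` by `τ x = x + j t`; `σY` the deck
transformation (`σY U = ζ U`, identity on `F_N`).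

* `cvm_ff_stable`  : `F_N` is stable under the coefficientwise Galois action;
* `cvm_kummer_t`   : `τ t = w t` ⟹ `τ u_t = c · g ^ p · u_t ^ w`;
* `cvm_stable`     : `Ω` is stable under `H`; `cvm_tau_U` : `τ U = d · g · U ^ w`;
* `cvm_descent`    : `u'' = c · u_x · h ^ p` (`h ∈ Ω`) fixed by `H`;
* `cvm_comm`       : `σY` commutes with the coefficientwise action of `H` on `Ω`;
* `cvm_main`       : the data `u'', g, κ, γ, h` of `rhk_main` (`RhoConc.lean`):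
  `σY u'' = κ g ^ p u''`, `u_x = γ u'' h ^ p`, and `u''`, `g`, `κ` fixed by `H`.
-/

set_option autoImplicit false
set_option linter.style.haveILetI false
set_option linter.unusedSectionVars false
set_option linter.unusedVariables false

noncomputable section

namespace Fermat.Agent.S40lib

open AlgebraicCurve ModularCurve HahnSeries Fermat.Agent.S24lib Fermat.Agent.RRlib
  Fermat.Agent.S33lib Fermat.Agent.S34lib

section Main

variable (N : ℕ)

/-- `F_N` is stable under the coefficientwise Galois action -/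
theorem cvm_ff_stable (τ : Kbar ≃ₐ[ℚ] Kbar) (x : LaurentSeries Kbar)
    (hx : x ∈ modularFunctionFieldBar N) :
    coeffMap ((τ : Kbar ≃ₐ[ℚ] Kbar) : Kbar →+* Kbar) x ∈ modularFunctionFieldBar N :=
  (galFF N τ • (⟨x, hx⟩ : FF N)).2

/-- `τ t = w t` ⟹ `τ u_t = c · g ^ p · u_t ^ w` -/
theorem cvm_kummer_t [RRBase Kbar (FF N)] {p : ℕ} {t : JZero N} {ut : FF N}
    (ht : gdfIsKummer (K := Kbar) p t ut) (τ : Kbar ≃ₐ[ℚ] Kbar) (w : ℕ) (hτ : τ • t = w • t) :
    ∃ (c : Kbar) (g : FF N), c ≠ 0 ∧ g ≠ 0 ∧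
      coeffMap ((τ : Kbar ≃ₐ[ℚ] Kbar) : Kbar →+* Kbar) (ut : LaurentSeries Kbar)
        = algebraMap Kbar (LaurentSeries Kbar) c * (g : LaurentSeries Kbar) ^ p
            * (ut : LaurentSeries Kbar) ^ w := by
  have h1 : gdfIsKummer (K := Kbar) p (w • t) (ut ^ w) := gdf_isKummer_pow ht w
  have h2 : gdfIsKummer (K := Kbar) p (w • t) (galFF N τ • ut) := by
    rw [← hτ]
    exact gdf_isKummer_smul ht (galFF N τ)
  obtain ⟨c, g, hc, hg, h⟩ := gdf_isKummer_unique h1 h2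
  refine ⟨c, g, hc, hg, ?_⟩
  exact congrArg (fun z : FF N => (z : LaurentSeries Kbar)) h

/-- `τ x = x + j t` ⟹ `τ u_x = c · u_x · (U ^ j · w) ^ p` -/
theorem cvm_kummer_x [RRBase Kbar (FF N)] {p : ℕ} {x t : JZero N} {ux ut : FF N}
    (hx : gdfIsKummer (K := Kbar) p x ux) (ht : gdfIsKummer (K := Kbar) p t ut)
    {U : LaurentSeries Kbar} (hU : U ^ p = (ut : LaurentSeries Kbar))
    (τ : Kbar ≃ₐ[ℚ] Kbar) (j : ℕ) (hτ : τ • x = x + j • t) :
    ∃ (c : Kbar) (w : FF N), c ≠ 0 ∧ w ≠ 0 ∧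
      coeffMap ((τ : Kbar ≃ₐ[ℚ] Kbar) : Kbar →+* Kbar) (ux : LaurentSeries Kbar)
        = algebraMap Kbar (LaurentSeries Kbar) c * (ux : LaurentSeries Kbar)
            * (U ^ j * (w : LaurentSeries Kbar)) ^ p := by
  obtain ⟨c, w, hc, hw, h⟩ := rhr_rel N hx ht τ j hτ
  refine ⟨c, w, hc, hw, ?_⟩
  have h1 := congrArg (fun z : FF N => (z : LaurentSeries Kbar)) h
  have h2 : coeffMap ((τ : Kbar ≃ₐ[ℚ] Kbar) : Kbar →+* Kbar) (ux : LaurentSeries Kbar)
      = algebraMap Kbar (LaurentSeries Kbar) c * (ux : LaurentSeries Kbar)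
          * (ut : LaurentSeries Kbar) ^ j * (w : LaurentSeries Kbar) ^ p := h1
  rw [h2, mul_pow, ← pow_mul, mul_comm j p, pow_mul, hU]
  ring

variable {N}

/-- the cover field is stable under `τ` if `τ t = w t` -/
theorem cvm_stable [RRBase Kbar (FF N)] {p : ℕ} (hp : 0 < p) {ζ : Kbar}
    (hζ : IsPrimitiveRoot ζ p) {t : JZero N} {ut : FF N}
    (ht : gdfIsKummer (K := Kbar) p t ut)
    {U : LaurentSeries Kbar} (hU : U ^ p = (ut : LaurentSeries Kbar))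
    (τ : Kbar ≃ₐ[ℚ] Kbar) (w : ℕ) (hτ : τ • t = w • t) :
    ∀ z ∈ cvcAdj (modularFunctionFieldBar N) U,
      coeffMap ((τ : Kbar ≃ₐ[ℚ] Kbar) : Kbar →+* Kbar) z ∈ cvcAdj (modularFunctionFieldBar N) U := by
  obtain ⟨c, g, hc, hg, h⟩ := cvm_kummer_t N ht τ w hτ
  have hut0 : (ut : LaurentSeries Kbar) ≠ 0 := fun h0 =>
    gdf_isKummer_ne_zero ht (Subtype.ext h0)
  have hg0 : (g : LaurentSeries Kbar) ≠ 0 := fun h0 => hg (Subtype.ext h0)
  exact cvc_stable_of_kummer hp hζ _ (modularFunctionFieldBar N) (cvm_ff_stable N τ) hU hut0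
    g.2 hg0 h

/-- `τ U = d · g · U ^ w` -/
theorem cvm_tau_U [RRBase Kbar (FF N)] {p : ℕ} (hp : 0 < p) {ζ : Kbar}
    (hζ : IsPrimitiveRoot ζ p) {t : JZero N} {ut : FF N}
    (ht : gdfIsKummer (K := Kbar) p t ut)
    {U : LaurentSeries Kbar} (hU : U ^ p = (ut : LaurentSeries Kbar))
    (τ : Kbar ≃ₐ[ℚ] Kbar) (w : ℕ) (hτ : τ • t = w • t) :
    ∃ (d : Kbar) (g : FF N), g ≠ 0 ∧
      coeffMap ((τ : Kbar ≃ₐ[ℚ] Kbar) : Kbar →+* Kbar) U
        = algebraMap Kbar (LaurentSeries Kbar) d * (g : LaurentSeries Kbar) * U ^ w := by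
  obtain ⟨c, g, hc, hg, h⟩ := cvm_kummer_t N ht τ w hτ
  have hut0 : (ut : LaurentSeries Kbar) ≠ 0 := fun h0 =>
    gdf_isKummer_ne_zero ht (Subtype.ext h0)
  have hg0 : (g : LaurentSeries Kbar) ≠ 0 := fun h0 => hg (Subtype.ext h0)
  obtain ⟨d, -, hd⟩ := cvc_map_root hp hζ (coeffMap ((τ : Kbar ≃ₐ[ℚ] Kbar) : Kbar →+* Kbar))
    hU hut0 hg0 h
  exact ⟨d, g, hg, hd⟩

/-- **the `H`-fixed Kummer function on the cover**: `u'' = c · u_x · h ^ p`, `h ∈ Ω`. -/
theorem cvm_descent [RRBase Kbar (FF N)] {p : ℕ} (hp : 0 < p) {ζ : Kbar}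
    (hζ : IsPrimitiveRoot ζ p) (H : Subgroup (Kbar ≃ₐ[ℚ] Kbar))
    {x t : JZero N} {ux ut : FF N}
    (hx : gdfIsKummer (K := Kbar) p x ux) (ht : gdfIsKummer (K := Kbar) p t ut)
    {U : LaurentSeries Kbar} (hU : U ^ p = (ut : LaurentSeries Kbar))
    (hHt : ∀ τ ∈ H, ∃ w : ℕ, τ • t = w • t)
    (hHx : ∀ τ ∈ H, ∃ j : ℕ, τ • x = x + j • t) :
    ∃ (c : Kbar) (h : LaurentSeries Kbar), c ≠ 0 ∧ h ∈ cvcAdj (modularFunctionFieldBar N) U ∧
      h ≠ 0 ∧ ∀ τ ∈ H, coeffMap ((τ : Kbar ≃ₐ[ℚ] Kbar) : Kbar →+* Kbar)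
          (algebraMap Kbar (LaurentSeries Kbar) c * (ux : LaurentSeries Kbar) * h ^ p)
        = algebraMap Kbar (LaurentSeries Kbar) c * (ux : LaurentSeries Kbar) * h ^ p := by
  have hst : ∀ τ ∈ H, ∀ z ∈ cvcAdj (modularFunctionFieldBar N) U,
      coeffMap ((τ : Kbar ≃ₐ[ℚ] Kbar) : Kbar →+* Kbar) z
        ∈ cvcAdj (modularFunctionFieldBar N) U := by
    intro τ hτ
    obtain ⟨w, hw⟩ := hHt τ hτ
    exact cvm_stable hp hζ ht hU τ w hw
  have hux0 : (ux : LaurentSeries Kbar) ≠ 0 := fun h0 =>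
    gdf_isKummer_ne_zero hx (Subtype.ext h0)
  have hU0 : U ≠ 0 := by
    rintro rfl
    rw [zero_pow hp.ne'] at hU
    exact gdf_isKummer_ne_zero ht (Subtype.ext hU.symm)
  apply cvc_descent H (cvcAdj (modularFunctionFieldBar N) U) hp hζ hst
    (cvc_le_adj _ U ux.2) hux0 (cvc_fin_baseChange (modularFunctionFieldFull N) ux.2)
  intro τ hτ
  obtain ⟨j, hj⟩ := hHx τ hτ
  obtain ⟨c, w, hc, hw, h⟩ := cvm_kummer_x N hx ht hU τ j hj
  refine ⟨c, U ^ j * (w : LaurentSeries Kbar), ?_, ?_, h⟩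
  · exact mul_mem (pow_mem (cvc_mem_adj _ U) j) (cvc_le_adj _ U w.2)
  · exact mul_ne_zero (pow_ne_zero _ hU0) (fun h0 => hw (Subtype.ext h0))

/-- two ring endomorphisms of an intermediate field generated by `s` which agree on the
constants and on `s` are equal -/
theorem cvm_eq_of_gen (EY : IntermediateField Kbar (LaurentSeries Kbar))
    (s : Set (LaurentSeries Kbar)) (hs : ∀ z ∈ s, z ∈ EY)
    (hgen : EY ≤ IntermediateField.adjoin Kbar s)
    (A B : ↥EY →+* ↥EY)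
    (hK : ∀ c : Kbar, A (algebraMap Kbar ↥EY c) = B (algebraMap Kbar ↥EY c))
    (hsAB : ∀ z (hz : z ∈ s), A ⟨z, hs z hz⟩ = B ⟨z, hs z hz⟩) :
    ∀ z : ↥EY, A z = B z := by
  have hle : IntermediateField.adjoin Kbar s ≤ EY :=
    IntermediateField.adjoin_le_iff.mpr (fun z hz => hs z hz)
  have key : ∀ z ∈ IntermediateField.adjoin Kbar s, ∀ hz : z ∈ EY,
      A ⟨z, hz⟩ = B ⟨z, hz⟩ := by
    intro z hz
    induction hz using IntermediateField.adjoin_induction with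
    | mem y hy =>
        intro _
        exact hsAB y hy
    | algebraMap c =>
        intro _
        exact hK c
    | add y z hy hz ihy ihz =>
        intro _
        have h1 := ihy (hle hy)
        have h2 := ihz (hle hz)
        have h0 : (⟨y + z, hle (add_mem hy hz)⟩ : ↥EY) = ⟨y, hle hy⟩ + ⟨z, hle hz⟩ := rfl
        show A (⟨y + z, hle (add_mem hy hz)⟩ : ↥EY) = B ⟨y + z, hle (add_mem hy hz)⟩
        rw [h0, map_add, map_add, h1, h2]
    | inv y hy ihy =>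
        intro _
        have h1 := ihy (hle hy)
        have h0 : (⟨y⁻¹, hle (inv_mem hy)⟩ : ↥EY) = (⟨y, hle hy⟩ : ↥EY)⁻¹ := rfl
        show A (⟨y⁻¹, hle (inv_mem hy)⟩ : ↥EY) = B ⟨y⁻¹, hle (inv_mem hy)⟩
        rw [h0, map_inv₀, map_inv₀, h1]
    | mul y z hy hz ihy ihz =>
        intro _
        have h1 := ihy (hle hy)
        have h2 := ihz (hle hz)
        have h0 : (⟨y * z, hle (mul_mem hy hz)⟩ : ↥EY) = ⟨y, hle hy⟩ * ⟨z, hle hz⟩ := rfl
        show A (⟨y * z, hle (mul_mem hy hz)⟩ : ↥EY) = B ⟨y * z, hle (mul_mem hy hz)⟩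
        rw [h0, map_mul, map_mul, h1, h2]
  intro z
  exact key z.1 (hgen z.2) z.2

/-- **`hst` of `wlc_main`**: the cover field is stable under `H` if `H` acts on `⟨t⟩`. -/
theorem cvm_hst [RRBase Kbar (FF N)] {p : ℕ} (hp : 0 < p) {ζ : Kbar}
    (hζ : IsPrimitiveRoot ζ p) (H : Subgroup (Kbar ≃ₐ[ℚ] Kbar)) {t : JZero N} {ut : FF N}
    (ht : gdfIsKummer (K := Kbar) p t ut)
    {U : LaurentSeries Kbar} (hU : U ^ p = (ut : LaurentSeries Kbar))
    (hHt : ∀ τ ∈ H, ∃ w : ℕ, τ • t = w • t) :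
    ∀ σ ∈ H, ∀ z ∈ cvcAdj (modularFunctionFieldBar N) U,
      coeffMap ((σ : Kbar ≃ₐ[ℚ] Kbar) : Kbar →+* Kbar) z
        ∈ cvcAdj (modularFunctionFieldBar N) U := by
  intro σ hσ
  obtain ⟨w, hw⟩ := hHt σ hσ
  exact cvm_stable hp hζ ht hU σ w hw

set_option maxHeartbeats 1600000 in
/-- **`hcomm` of `wlc_main`**: the deck transformation `σY` commutes with the coefficientwise
action of `H` on the cover field, if `H` acts on `t` through the cyclotomic character. -/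
theorem cvm_comm [RRBase Kbar (FF N)] {p : ℕ} (hp : 0 < p) {ζ : Kbar}
    (hζ : IsPrimitiveRoot ζ p) (H : Subgroup (Kbar ≃ₐ[ℚ] Kbar)) {t : JZero N} {ut : FF N}
    (ht : gdfIsKummer (K := Kbar) p t ut)
    {U : LaurentSeries Kbar} (hU : U ^ p = (ut : LaurentSeries Kbar))
    (hHt : ∀ τ ∈ H, ∃ w : ℕ, τ • t = w • t ∧ τ ζ = ζ ^ w)
    (hst : ∀ σ ∈ H, ∀ z ∈ cvcAdj (modularFunctionFieldBar N) U,
      coeffMap ((σ : Kbar ≃ₐ[ℚ] Kbar) : Kbar →+* Kbar) z
        ∈ cvcAdj (modularFunctionFieldBar N) U)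
    (σY : ↥(cvcAdj (modularFunctionFieldBar N) U) →+* ↥(cvcAdj (modularFunctionFieldBar N) U))
    (hσK : ∀ c : Kbar, σY (algebraMap Kbar ↥(cvcAdj (modularFunctionFieldBar N) U) c)
      = algebraMap Kbar ↥(cvcAdj (modularFunctionFieldBar N) U) c)
    (hσF : ∀ f : modularFunctionFieldBar N,
      σY ⟨(f : LaurentSeries Kbar), cvc_le_adj (modularFunctionFieldBar N) U f.2⟩
        = ⟨(f : LaurentSeries Kbar), cvc_le_adj (modularFunctionFieldBar N) U f.2⟩)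
    (hσU : σY ⟨U, cvc_mem_adj (modularFunctionFieldBar N) U⟩
      = algebraMap Kbar ↥(cvcAdj (modularFunctionFieldBar N) U) ζ
          * ⟨U, cvc_mem_adj (modularFunctionFieldBar N) U⟩) :
    ∀ (σ : Kbar ≃ₐ[ℚ] Kbar) (hσ : σ ∈ H) (z : ↥(cvcAdj (modularFunctionFieldBar N) U)),
      σY (wlcTau H (cvcAdj (modularFunctionFieldBar N) U) hst σ hσ z)
        = wlcTau H (cvcAdj (modularFunctionFieldBar N) U) hst σ hσ (σY z) := by
  intro σ hσ
  obtain ⟨w, hw, hζw⟩ := hHt σ hσ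
  have hs : ∀ z ∈ ((modularFunctionFieldBar N : Set (LaurentSeries Kbar)) ∪ {U}),
      z ∈ cvcAdj (modularFunctionFieldBar N) U := fun z hz =>
    IntermediateField.subset_adjoin Kbar _ hz
  have hmain := cvm_eq_of_gen (cvcAdj (modularFunctionFieldBar N) U)
    ((modularFunctionFieldBar N : Set (LaurentSeries Kbar)) ∪ {U}) hs (le_refl _)
    (σY.comp (wlcTau H (cvcAdj (modularFunctionFieldBar N) U) hst σ hσ))
    ((wlcTau H (cvcAdj (modularFunctionFieldBar N) U) hst σ hσ).comp σY) ?_ ?_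
  · intro z
    exact hmain z
  · intro c
    show σY (wlcTau H (cvcAdj (modularFunctionFieldBar N) U) hst σ hσ (algebraMap Kbar _ c))
      = wlcTau H (cvcAdj (modularFunctionFieldBar N) U) hst σ hσ (σY (algebraMap Kbar _ c))
    rw [wlc_tau_algebraMap, hσK, hσK, wlc_tau_algebraMap]
  · intro z hz
    show σY (wlcTau H (cvcAdj (modularFunctionFieldBar N) U) hst σ hσ ⟨z, hs z hz⟩)
      = wlcTau H (cvcAdj (modularFunctionFieldBar N) U) hst σ hσ (σY ⟨z, hs z hz⟩)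
    rcases hz with hz' | hz'
    · -- `z ∈ F_N`
      have h1 : wlcTau H (cvcAdj (modularFunctionFieldBar N) U) hst σ hσ ⟨z, hs z (Or.inl hz')⟩
          = ⟨((galFF N σ • (⟨z, hz'⟩ : FF N) : FF N) : LaurentSeries Kbar),
              cvc_le_adj (modularFunctionFieldBar N) U (galFF N σ • (⟨z, hz'⟩ : FF N)).2⟩ :=
        Subtype.ext rfl
      have h2 : σY ⟨z, hs z (Or.inl hz')⟩ = ⟨z, hs z (Or.inl hz')⟩ := hσF ⟨z, hz'⟩
      rw [h2, h1]
      exact hσF (galFF N σ • (⟨z, hz'⟩ : FF N))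
    · -- `z = U`
      have hzU : z = U := hz'
      have e : (⟨z, hs z (Or.inr hz')⟩ : ↥(cvcAdj (modularFunctionFieldBar N) U))
          = ⟨U, cvc_mem_adj (modularFunctionFieldBar N) U⟩ := Subtype.ext hzU
      rw [e]
      obtain ⟨d, g, hg, hd⟩ := cvm_tau_U hp hζ ht hU σ w hw
      have h1 : wlcTau H (cvcAdj (modularFunctionFieldBar N) U) hst σ hσ
          ⟨U, cvc_mem_adj (modularFunctionFieldBar N) U⟩
          = algebraMap Kbar ↥(cvcAdj (modularFunctionFieldBar N) U) d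
              * ⟨(g : LaurentSeries Kbar), cvc_le_adj (modularFunctionFieldBar N) U g.2⟩
              * ⟨U, cvc_mem_adj (modularFunctionFieldBar N) U⟩ ^ w := Subtype.ext hd
      have hζw' : ((σ : Kbar ≃ₐ[ℚ] Kbar) : Kbar →+* Kbar) ζ = ζ ^ w := hζw
      rw [hσU, map_mul, wlc_tau_algebraMap, h1, map_mul, map_mul, map_pow, hσK, hσF, hσU,
        hζw', mul_pow, map_pow]
      ring

end Main

end Fermat.Agent.S40lib

end
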