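/-
Item 88 (S40/S44), piece C1b / G2a-(2),(3) (helper1): the ORBIT POLYNOMIAL of a generator `z'` of
the cover, pure commutative algebra (Mathlib only).

Setting: `E` a field (in the application `E0 = EY^I`, the `K0`-form of the cover field),
`σ : E →+* E` (the deck transformation `σ0`), `R` a domain with `Algebra R E` (the node ring
`B_s ⊂ F0`), `z' : E`.

* `cvxPoly σ p z'`        : `P0 = ∏_{i < p} (X - C (σ^[i] z'))`;
* `cvx_poly_monic`, `cvx_poly_natDegree`, `cvx_poly_eval` (`P0(z') = 0`),
  `cvx_poly_map` (`σ P0 = P0` if `σ^[p] z' = z'`), `cvx_poly_coeff_fixed`,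
  `cvx_poly_deriv` (`P0'(z') = ∏_{0 < i < p} (z' - σ^[i] z')`),
  `cvx_poly_coeff_integral`;
* `cvx_main`              : if the `σ`-fixed elements of `E` integral over `R` lie in `R`, there is
                            `P : R[X]` monic of degree `p` with `aeval z' P = 0` and
                            `aeval z' P' = ∏_{0 < i < p} (z' - σ^[i] z')`
                            (= the inputs `P`, `hP` of `etn2_node_adjoin`, helper2);
* `cvx_deriv_not_mem`     : if in a field `E' ⊇ E` the differences are `σ^[i] z' - z' = i + λ c_i`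
                            (`λ`, `c_i` integral over `R`, `λ ^ n ∈ 𝔪 ·` integral, `i ∉ 𝔪`), then
                            `P'(z') ∉ 𝔫` for every prime `𝔫` of `R[z']` over `𝔪`
                            (= the input `hP'` of `etn2_node_adjoin`).
-/
import Mathlib

set_option autoImplicit false
set_option linter.unusedSectionVars false
set_option linter.unusedVariables false
set_option linter.style.haveILetI false

noncomputable section

namespace Fermat.Agent.S40lib

open Polynomial

section Poly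

variable {E : Type*} [Field E]

/-- the orbit polynomial `∏_{i < p} (X - C (σ^[i] z))` -/
def cvxPoly (σ : E →+* E) (p : ℕ) (z : E) : E[X] :=
  ∏ i ∈ Finset.range p, (X - C (σ^[i] z))

theorem cvx_poly_monic (σ : E →+* E) (p : ℕ) (z : E) : (cvxPoly σ p z).Monic :=
  monic_prod_of_monic _ _ (fun i _ => monic_X_sub_C _)

theorem cvx_poly_natDegree (σ : E →+* E) (p : ℕ) (z : E) : (cvxPoly σ p z).natDegree = p := by
  unfold cvxPoly
  rw [natDegree_prod_of_monic _ _ (fun i _ => monic_X_sub_C _)]
  simp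

theorem cvx_poly_eval (σ : E →+* E) {p : ℕ} (hp : 0 < p) (z : E) :
    (cvxPoly σ p z).eval z = 0 := by
  unfold cvxPoly
  rw [eval_prod]
  apply Finset.prod_eq_zero (Finset.mem_range.mpr hp)
  simp

theorem cvx_poly_map (σ : E →+* E) {p : ℕ} (hp : 0 < p) (z : E) (hσ : σ^[p] z = z) :
    (cvxPoly σ p z).map σ = cvxPoly σ p z := by
  unfold cvxPoly
  rw [Polynomial.map_prod]
  have h1 : ∀ i ∈ Finset.range p, (X - C (σ^[i] z)).map σ = X - C (σ^[i + 1] z) := by
    intro i _
    rw [Polynomial.map_sub, map_X, map_C, Function.iterate_succ_apply']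
  rw [Finset.prod_congr rfl h1]
  obtain ⟨n, rfl⟩ : ∃ n, p = n + 1 := ⟨p - 1, by omega⟩
  rw [Finset.prod_range_succ (fun i => X - C (σ^[i + 1] z)) n,
    Finset.prod_range_succ' (fun i => X - C (σ^[i] z)) n, hσ]
  rfl

theorem cvx_poly_coeff_fixed (σ : E →+* E) {p : ℕ} (hp : 0 < p) (z : E) (hσ : σ^[p] z = z)
    (n : ℕ) : σ ((cvxPoly σ p z).coeff n) = (cvxPoly σ p z).coeff n := by
  conv_rhs => rw [← cvx_poly_map σ hp z hσ]
  rw [coeff_map]

theorem cvx_poly_deriv (σ : E →+* E) {p : ℕ} (hp : 0 < p) (z : E) :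
    (derivative (cvxPoly σ p z)).eval z = ∏ i ∈ Finset.Ico 1 p, (z - σ^[i] z) := by
  classical
  unfold cvxPoly
  rw [derivative_prod_finset, eval_finsetSum]
  rw [Finset.sum_eq_single (0 : ℕ)]
  · rw [eval_mul, eval_prod]
    have h1 : (Finset.range p).erase 0 = Finset.Ico 1 p := by
      ext i
      simp only [Finset.mem_erase, Finset.mem_range, Finset.mem_Ico]
      omega
    rw [h1]
    simp
  · intro a ha ha0
    rw [eval_mul, eval_prod]
    have hmem : (0 : ℕ) ∈ (Finset.range p).erase a :=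
      Finset.mem_erase.mpr ⟨fun h => ha0 h.symm, Finset.mem_range.mpr hp⟩
    rw [Finset.prod_eq_zero hmem, zero_mul]
    simp
  · intro h
    exact absurd (Finset.mem_range.mpr hp) h

end Poly

section Descent

variable {R : Type*} [CommRing R] {E : Type*} [Field E] [Algebra R E]

/-- the conjugates of an integral element are integral -/
theorem cvx_isIntegral_iterate (σ : E →+* E)
    (hσR : ∀ r : R, σ (algebraMap R E r) = algebraMap R E r) {z : E} (hz : IsIntegral R z)
    (i : ℕ) : IsIntegral R (σ^[i] z) := by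
  induction i with
  | zero => exact hz
  | succ i ih =>
    rw [Function.iterate_succ_apply']
    obtain ⟨Q, hQ, hQz⟩ := ih
    refine ⟨Q, hQ, ?_⟩
    have h1 : eval₂ (algebraMap R E) (σ (σ^[i] z)) Q = σ (eval₂ (algebraMap R E) (σ^[i] z) Q) := by
      rw [Polynomial.hom_eval₂]
      congr 1
      ext r
      exact (hσR r).symm
    rw [h1, hQz, map_zero]

/-- the coefficients of the orbit polynomial are integral -/
theorem cvx_poly_coeff_integral (σ : E →+* E)
    (hσR : ∀ r : R, σ (algebraMap R E r) = algebraMap R E r) (p : ℕ) {z : E}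
    (hz : IsIntegral R z) (n : ℕ) : IsIntegral R ((cvxPoly σ p z).coeff n) := by
  let A := integralClosure R E
  have h1 : cvxPoly σ p z =
      (∏ i ∈ Finset.range p,
        (X - C (⟨σ^[i] z, cvx_isIntegral_iterate σ hσR hz i⟩ : A))).map (algebraMap A E) := by
    unfold cvxPoly
    rw [Polynomial.map_prod]
    refine Finset.prod_congr rfl fun i _ => ?_
    rw [Polynomial.map_sub, map_X, map_C]
    rfl
  rw [h1, coeff_map]
  exact ((∏ i ∈ Finset.range p,
    (X - C (⟨σ^[i] z, cvx_isIntegral_iterate σ hσR hz i⟩ : A))).coeff n).2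

/-- **the orbit polynomial descends to `R`**: if every `σ`-fixed element of `E` which is integral
over `R` lies in `R`, there is a monic `P : R[X]` of degree `p` mapping to the orbit polynomial;
in particular `aeval z' P = 0` and `aeval z' P' = ∏_{0 < i < p} (z' - σ^[i] z')`. -/
theorem cvx_main (σ : E →+* E) {p : ℕ} (hp : 0 < p) {z : E} (hz : IsIntegral R z)
    (hσp : σ^[p] z = z) (hσR : ∀ r : R, σ (algebraMap R E r) = algebraMap R E r)
    (hdesc : ∀ y : E, σ y = y → IsIntegral R y → y ∈ Set.range (algebraMap R E)) :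
    ∃ P : R[X], P.Monic ∧ P.natDegree = p ∧ P.map (algebraMap R E) = cvxPoly σ p z ∧
      aeval z P = 0 ∧
      aeval z (derivative P) = ∏ i ∈ Finset.Ico 1 p, (z - σ^[i] z) := by
  have hlifts : cvxPoly σ p z ∈ Polynomial.lifts (algebraMap R E) := by
    rw [Polynomial.lifts_iff_coeff_lifts]
    intro n
    exact hdesc _ (cvx_poly_coeff_fixed σ hp z hσp n) (cvx_poly_coeff_integral σ hσR p hz n)
  obtain ⟨P, hPmap, hPdeg, hPmonic⟩ :=
    Polynomial.lifts_and_natDegree_eq_and_monic hlifts (cvx_poly_monic σ p z)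
  refine ⟨P, hPmonic, ?_, hPmap, ?_, ?_⟩
  · rw [hPdeg, cvx_poly_natDegree]
  · rw [aeval_def, eval₂_eq_eval_map, hPmap, cvx_poly_eval σ hp z]
  · rw [aeval_def, eval₂_eq_eval_map, ← derivative_map, hPmap, cvx_poly_deriv σ hp z]

end Descent

section NotMem

variable {R : Type*} [CommRing R] {E : Type*} [Field E] [Algebra R E]

/-- **`P'(z') ∉ 𝔫`**: if `P'(z') = ∏_{0 < i < p} (z' - w i)` and, in the field `E`,
`w i - z' = i + λ c_i` with `λ`, `c_i` integral over `R`, `λ ^ n = m · e` (`m ∈ 𝔫 ∩ R`, `e`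
integral) and `i ∉ 𝔫`, then `P'(z') ∉ 𝔫` for the prime `𝔫` of `R[z']`. -/
theorem cvx_deriv_not_mem {z' : E} (hz : IsIntegral R z')
    (𝔫 : Ideal (Algebra.adjoin R ({z'} : Set E))) [h𝔫 : 𝔫.IsPrime]
    (P : R[X]) {p : ℕ} (w : ℕ → E)
    (hP' : aeval z' (derivative P) = ∏ i ∈ Finset.Ico 1 p, (z' - w i))
    (lam : E) (hlam : IsIntegral R lam) (c : ℕ → E)
    (hc : ∀ i ∈ Finset.Ico 1 p, IsIntegral R (c i))
    (hcong : ∀ i ∈ Finset.Ico 1 p, w i - z' = algebraMap R E (i : R) + lam * c i)
    (hi : ∀ i ∈ Finset.Ico 1 p,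
      algebraMap R (Algebra.adjoin R ({z'} : Set E)) (i : R) ∉ 𝔫)
    (hlam𝔫 : ∃ n : ℕ, ∃ m : R, algebraMap R (Algebra.adjoin R ({z'} : Set E)) m ∈ 𝔫 ∧
      ∃ e : E, IsIntegral R e ∧ lam ^ n = algebraMap R E m * e) :
    (⟨aeval z' (derivative P), aeval_mem_adjoin_singleton R z'⟩ :
      Algebra.adjoin R ({z'} : Set E)) ∉ 𝔫 := by
  classical
  have hle : Algebra.adjoin R ({z'} : Set E) ≤ integralClosure R E := by
    apply Algebra.adjoin_le
    intro x hx
    rw [Set.mem_singleton_iff] at hx
    subst hx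
    exact hz
  let f : Algebra.adjoin R ({z'} : Set E) →ₐ[R] integralClosure R E := Subalgebra.inclusion hle
  letI : Algebra (Algebra.adjoin R ({z'} : Set E)) (integralClosure R E) := f.toRingHom.toAlgebra
  haveI : IsScalarTower R (Algebra.adjoin R ({z'} : Set E)) (integralClosure R E) :=
    IsScalarTower.of_algebraMap_eq (fun r => (f.commutes r).symm)
  haveI : Algebra.IsIntegral (Algebra.adjoin R ({z'} : Set E)) (integralClosure R E) :=
    Algebra.IsIntegral.tower_top R
  have hinj : Function.Injective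
      (algebraMap (Algebra.adjoin R ({z'} : Set E)) (integralClosure R E)) :=
    Subalgebra.inclusion_injective hle
  have hker : RingHom.ker (algebraMap (Algebra.adjoin R ({z'} : Set E)) (integralClosure R E))
      ≤ 𝔫 := by
    rw [(RingHom.injective_iff_ker_eq_bot _).mp hinj]
    exact bot_le
  obtain ⟨𝔑, h𝔑prime, h𝔑⟩ := Ideal.exists_ideal_over_prime_of_isIntegral_of_isDomain 𝔫 hker
  have hcoe : ∀ y : Algebra.adjoin R ({z'} : Set E),
      ((algebraMap (Algebra.adjoin R ({z'} : Set E)) (integralClosure R E) y :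
        integralClosure R E) : E) = (y : E) := fun y => rfl
  have hR𝔑 : ∀ r : R, algebraMap R (Algebra.adjoin R ({z'} : Set E)) r ∈ 𝔫 →
      algebraMap R (integralClosure R E) r ∈ 𝔑 := by
    intro r hr
    rw [← h𝔑, Ideal.mem_comap] at hr
    have h1 : algebraMap (Algebra.adjoin R ({z'} : Set E)) (integralClosure R E)
        (algebraMap R (Algebra.adjoin R ({z'} : Set E)) r) =
        algebraMap R (integralClosure R E) r := Subtype.ext rfl
    rwa [h1] at hr
  -- `λ ∈ 𝔑`
  have hlam𝔑 : (⟨lam, hlam⟩ : integralClosure R E) ∈ 𝔑 := by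
    obtain ⟨n, m, hm, e, he, hpow⟩ := hlam𝔫
    apply h𝔑prime.mem_of_pow_mem n
    have h1 : (⟨lam, hlam⟩ : integralClosure R E) ^ n =
        algebraMap R (integralClosure R E) m * ⟨e, he⟩ := by
      apply Subtype.ext
      show lam ^ n = algebraMap R E m * e
      exact hpow
    rw [h1]
    exact 𝔑.mul_mem_right _ (hR𝔑 m hm)
  intro hmem
  have h2 : algebraMap (Algebra.adjoin R ({z'} : Set E)) (integralClosure R E)
      ⟨aeval z' (derivative P), aeval_mem_adjoin_singleton R z'⟩ ∈ 𝔑 := by
    rw [← h𝔑, Ideal.mem_comap] at hmem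
    exact hmem
  -- the factors in `D`
  have hfac : ∀ i ∈ Finset.Ico 1 p, IsIntegral R (z' - w i) := by
    intro i hi'
    have h3 : z' - w i = -(algebraMap R E (i : R) + lam * c i) := by
      rw [← hcong i hi']; ring
    rw [h3]
    exact (isIntegral_algebraMap.add (hlam.mul (hc i hi'))).neg
  let u : ℕ → integralClosure R E := fun i =>
    if h : i ∈ Finset.Ico 1 p then ⟨z' - w i, hfac i h⟩ else 1
  have hprod : algebraMap (Algebra.adjoin R ({z'} : Set E)) (integralClosure R E)
      ⟨aeval z' (derivative P), aeval_mem_adjoin_singleton R z'⟩ =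
      ∏ i ∈ Finset.Ico 1 p, u i := by
    apply Subtype.ext
    rw [hcoe]
    show aeval z' (derivative P) = (((∏ i ∈ Finset.Ico 1 p, u i : integralClosure R E)) : E)
    rw [hP']
    have h4 : (((∏ i ∈ Finset.Ico 1 p, u i : integralClosure R E)) : E) =
        ∏ i ∈ Finset.Ico 1 p, ((u i : integralClosure R E) : E) :=
      map_prod (integralClosure R E).val u _
    rw [h4]
    refine Finset.prod_congr rfl fun i hi' => ?_
    simp only [u, dif_pos hi']
  rw [hprod, Ideal.IsPrime.prod_mem_iff] at h2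
  obtain ⟨i, hi', hui⟩ := h2
  have hu : u i = -(algebraMap R (integralClosure R E) (i : R) +
      (⟨lam, hlam⟩ : integralClosure R E) * ⟨c i, hc i hi'⟩) := by
    apply Subtype.ext
    simp only [u, dif_pos hi']
    show z' - w i = -(algebraMap R E (i : R) + lam * c i)
    rw [← hcong i hi']; ring
  rw [hu, neg_mem_iff] at hui
  have h5 : algebraMap R (integralClosure R E) (i : R) ∈ 𝔑 := by
    have h6 := 𝔑.sub_mem hui (𝔑.mul_mem_right (⟨c i, hc i hi'⟩ : integralClosure R E) hlam𝔑)
    simpa using h6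
  apply hi i hi'
  rw [← h𝔑, Ideal.mem_comap]
  have h7 : algebraMap (Algebra.adjoin R ({z'} : Set E)) (integralClosure R E)
      (algebraMap R (Algebra.adjoin R ({z'} : Set E)) (i : R)) =
      algebraMap R (integralClosure R E) (i : R) := Subtype.ext rfl
  rw [h7]
  exact h5

end NotMem

end Fermat.Agent.S40lib

end
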