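import Mathlib
import Fermat.Agent.S36lib.Speed
import Fermat.Agent.S40lib.CoverNode2

/-!
# Item 88 (S40/S44), block (J-WILD), ONE-BRANCH points (helper2)

`R` a Noetherian local domain with `𝔪_R = (x, y)`, `x` prime, `x ∤ y` (a smooth point of the
special fibre: `x` vertical, `y` any thickness parameter).

* `cvn_not_dvd_of_prime`: `y ∤ x`.
* `cvn_prime_of_prime`: `y` is a prime element.
So the hypotheses `hy`, `hxy` of `etn2_node_adjoin` / `cvn_cover` are automatic, and
* `cvn_cover_one`: `cvn_cover` with the hypotheses `hx`, `hyx`, `hm` only.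
(complete proofs, standard axioms only)
-/

set_option autoImplicit false
set_option linter.style.haveILetI false
set_option linter.unusedSectionVars false

namespace Fermat.Agent.S40lib

open IsLocalRing

section OneBranch

universe uR uE

variable {R : Type uR} [CommRing R] [IsDomain R] [IsLocalRing R] [IsNoetherianRing R]

omit [IsNoetherianRing R] in
/-- `y ∤ x` -/
theorem cvn_not_dvd_of_prime (x y : R) (hx : Prime x) (hyx : ¬ x ∣ y)
    (hm : maximalIdeal R = Ideal.span {x, y}) : ¬ y ∣ x := by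
  rintro ⟨c, hc⟩
  have hym : y ∈ maximalIdeal R := by
    rw [hm]; exact Ideal.subset_span (Set.mem_insert_of_mem _ (Set.mem_singleton _))
  have hdvd : x ∣ y * c := ⟨1, by rw [mul_one]; exact hc.symm⟩
  rcases hx.dvd_or_dvd hdvd with h | h
  · exact hyx h
  · obtain ⟨c', rfl⟩ := h
    have h1 : x * 1 = x * (y * c') := by
      rw [mul_one]
      calc x = y * (x * c') := hc
        _ = x * (y * c') := by ring
    have h2 : (1 : R) = y * c' := mul_left_cancel₀ hx.ne_zero h1
    have hu : IsUnit y := IsUnit.of_mul_eq_one c' h2.symm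
    exact (IsLocalRing.mem_maximalIdeal y).1 hym hu

omit [IsLocalRing R] [IsNoetherianRing R] in
/-- a divisor of a power of a prime `x` that is prime to `x` is a unit -/
theorem cvn_isUnit_of_dvd_pow (x y : R) (hx : Prime x) (hyx : ¬ x ∣ y) (n : ℕ)
    (h : y ∣ x ^ n) : IsUnit y := by
  induction n with
  | zero => rw [pow_zero] at h; exact isUnit_of_dvd_one h
  | succ n ih =>
    obtain ⟨c, hc⟩ := h
    have hdvd : x ∣ y * c := ⟨x ^ n, by rw [← hc, pow_succ]; ring⟩
    rcases hx.dvd_or_dvd hdvd with h1 | h1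
    · exact absurd h1 hyx
    · obtain ⟨c', rfl⟩ := h1
      apply ih
      refine ⟨c', ?_⟩
      have h2 : x * x ^ n = x * (y * c') := by
        rw [← pow_succ', hc]; ring
      exact mul_left_cancel₀ hx.ne_zero h2

/-- `y` is prime -/
theorem cvn_prime_of_prime (x y : R) (hx : Prime x) (hyx : ¬ x ∣ y)
    (hm : maximalIdeal R = Ideal.span {x, y}) : Prime y := by
  have hym : y ∈ maximalIdeal R := by
    rw [hm]; exact Ideal.subset_span (Set.mem_insert_of_mem _ (Set.mem_singleton _))
  have hy0 : y ≠ 0 := fun h0 => hyx (h0 ▸ dvd_zero x)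
  have hynu : ¬ IsUnit y := (IsLocalRing.mem_maximalIdeal y).1 hym
  set I : Ideal R := Ideal.span {y} with hI
  have hIle : I ≤ maximalIdeal R := by
    rw [hI, Ideal.span_le]
    intro a ha
    rw [Set.mem_singleton_iff] at ha
    rw [ha]; exact hym
  have hIne : I ≠ ⊤ := fun h => (maximalIdeal.isMaximal R).ne_top (top_le_iff.1 (h ▸ hIle))
  haveI : Nontrivial (R ⧸ I) := Ideal.Quotient.nontrivial_iff.2 hIne
  haveI : IsLocalRing (R ⧸ I) :=
    IsLocalRing.of_surjective' (Ideal.Quotient.mk I) Ideal.Quotient.mk_surjective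
  have hmax : maximalIdeal (R ⧸ I) = Ideal.span {Ideal.Quotient.mk I x} := by
    rw [etn_maximalIdeal_quot I hIle, hm, Ideal.map_span, Set.image_pair]
    apply le_antisymm
    · rw [Ideal.span_le]
      intro a ha
      rcases ha with rfl | ha
      · exact Ideal.subset_span (Set.mem_singleton _)
      · rw [Set.mem_singleton_iff] at ha
        rw [ha]
        have : Ideal.Quotient.mk I y = 0 :=
          Ideal.Quotient.eq_zero_iff_mem.2 (Ideal.subset_span (Set.mem_singleton _))
        rw [this]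
        exact Ideal.zero_mem _
    · exact Ideal.span_mono (by intro a ha; rw [Set.mem_singleton_iff] at ha; rw [ha]; simp)
  have hnil : ¬ IsNilpotent (Ideal.Quotient.mk I x) := by
    rintro ⟨n, hn⟩
    rw [← map_pow, Ideal.Quotient.eq_zero_iff_mem, hI, Ideal.mem_span_singleton] at hn
    exact hynu (cvn_isUnit_of_dvd_pow x y hx hyx n hn)
  haveI hdom : IsDomain (R ⧸ I) := etn_isDomain (Ideal.Quotient.mk I x) hmax hnil
  have hprime : I.IsPrime := (Ideal.Quotient.isDomain_iff_prime I).1 hdom
  exact (Ideal.span_singleton_prime hy0).1 hprime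

end OneBranch

section CoverOne

universe uR uE

variable {R : Type uR} {E : Type uE} [CommRing R] [IsDomain R] [IsLocalRing R]
  [IsNoetherianRing R] [IsIntegrallyClosed R] [Field E] [Algebra R E]

/-- **`cvn_cover` at a one-branch point**: only `x` prime, `x ∤ y`, `𝔪_R = (x, y)` are needed. -/
theorem cvn_cover_one {k : Type*} [Field k] [IsAlgClosed k] (ρ : R →+* k)
    (hρ : Function.Surjective ρ)
    (hinj : Function.Injective (algebraMap R E))
    (x y : R) (hx : Prime x) (hyx : ¬ x ∣ y)
    (hm : maximalIdeal R = Ideal.span {x, y})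
    (z' : E) (hz : IsIntegral R z')
    (𝔫 : Ideal (Algebra.adjoin R ({z'} : Set E))) [h𝔫 : 𝔫.IsMaximal]
    (P : Polynomial R) (hP : Polynomial.aeval z' P = 0)
    (hP' : (⟨Polynomial.aeval z' (Polynomial.derivative P),
      Polynomial.aeval_mem_adjoin_singleton R z'⟩ : Algebra.adjoin R ({z'} : Set E)) ∉ 𝔫) :
    algebraMap R (Algebra.adjoin R ({z'} : Set E)) x ∈ 𝔫 ∧
    algebraMap R (Algebra.adjoin R ({z'} : Set E)) y ∈ 𝔫 ∧
    UniqueFactorizationMonoid (Localization.AtPrime 𝔫) ∧
      Prime (algebraMap _ (Localization.AtPrime 𝔫)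
        (algebraMap R (Algebra.adjoin R ({z'} : Set E)) x)) ∧
      Prime (algebraMap _ (Localization.AtPrime 𝔫)
        (algebraMap R (Algebra.adjoin R ({z'} : Set E)) y)) ∧
      ¬ Associated (algebraMap _ (Localization.AtPrime 𝔫)
          (algebraMap R (Algebra.adjoin R ({z'} : Set E)) x))
        (algebraMap _ (Localization.AtPrime 𝔫)
          (algebraMap R (Algebra.adjoin R ({z'} : Set E)) y)) ∧
      (∃ (κ : Type uE) (_ : Field κ) (red : Localization.AtPrime 𝔫 →+* κ) (w : κ → ℤ),
        (∀ c, red c = 0 ↔ algebraMap _ (Localization.AtPrime 𝔫)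
          (algebraMap R (Algebra.adjoin R ({z'} : Set E)) x) ∣ c) ∧
        (∀ a b : κ, a ≠ 0 → b ≠ 0 → w (a * b) = w a + w b) ∧
        (∀ c, red c ≠ 0 → 0 ≤ w (red c)) ∧
        w (red (algebraMap _ (Localization.AtPrime 𝔫)
          (algebraMap R (Algebra.adjoin R ({z'} : Set E)) y))) = 1) ∧
      (∃ (κ : Type uE) (_ : Field κ) (red : Localization.AtPrime 𝔫 →+* κ) (w : κ → ℤ),
        (∀ c, red c = 0 ↔ algebraMap _ (Localization.AtPrime 𝔫)
          (algebraMap R (Algebra.adjoin R ({z'} : Set E)) y) ∣ c) ∧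
        (∀ a b : κ, a ≠ 0 → b ≠ 0 → w (a * b) = w a + w b) ∧
        (∀ c, red c ≠ 0 → 0 ≤ w (red c)) ∧
        w (red (algebraMap _ (Localization.AtPrime 𝔫)
          (algebraMap R (Algebra.adjoin R ({z'} : Set E)) x))) = 1) :=
  cvn_cover ρ hρ hinj x y hx (cvn_prime_of_prime x y hx hyx hm) hyx
    (cvn_not_dvd_of_prime x y hx hyx hm) hm z' hz 𝔫 P hP hP'

end CoverOne

end Fermat.Agent.S40lib
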