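import Mathlib
import Fermat.Agent.S36lib.Speed
import Fermat.Agent.S33lib.ASPow
import Fermat.Agent.S40lib.CoverFix
import Fermat.Agent.S40lib.CoverNode3

/-!
# Item 88 (S40/S44), block (J-WILD), G2a GLUE (helper2)

`cvx_main` + `cvx_deriv_not_mem` (helper1, CoverFix) + `cvn_cover_one` (CoverNode3) in one
theorem.

* `cva_lam_pow`: `(ζ - 1) ^ (p - 1) = p · e`, `e` integral over `ℤ`.
* `cva_isUnit_natCast`: `0 < i < p`, `p ∈ 𝔪_R` ⇒ `i` is a unit of the local ring `R`.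
* `cva_deriv_not_mem`: `cvx_deriv_not_mem` at a MAXIMAL ideal `𝔫` of `R[z']`, `λ = ζ - 1`:
  the hypotheses `hi`, `hlam𝔫`, `hlam` are proved.
* `cva_transfer`: transfer of `P(z) = 0`, `P'(z) ∉ 𝔫` from the big field `E` (`= EY ∋ ζ`) to a
  subfield `E₀` (`ι : E₀ →ₐ[R] E`, `ι z₀ = z'`), at every maximal ideal of `R[z₀]`.
* `cva_node`: the node package (conclusions of `cvn_cover`) at EVERY maximal ideal of `R[z₀]`
  from the deck map `σ` of `E` and `σ^[i] z' - z' = i + (ζ - 1) c_i`.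
(complete proofs, standard axioms only)
-/

set_option autoImplicit false
set_option linter.style.haveILetI false
set_option linter.unusedSectionVars false

namespace Fermat.Agent.S40lib

open IsLocalRing Polynomial Fermat.Agent.S33lib

section Lam

variable {E : Type*} [Field E]

/-- `(ζ - 1) ^ (p - 1) = p · e` with `e` integral over `ℤ` -/
theorem cva_lam_pow {p : ℕ} (hp : p.Prime) {ζ : E} (hζ : IsPrimitiveRoot ζ p) :
    ∃ e : E, IsIntegral ℤ e ∧ (ζ - 1) ^ (p - 1) = (p : E) * e := by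
  have hζint : IsIntegral ℤ ζ := hζ.isIntegral hp.pos
  have hsum : ∑ i ∈ Finset.range p, (⟨ζ, hζint⟩ : integralClosure ℤ E) ^ i = 0 := by
    apply Subtype.ext
    have h := hζ.geom_sum_eq_zero hp.one_lt
    simpa using h
  obtain ⟨s, hs⟩ := asp_p_mul (O := integralClosure ℤ E) p hp ⟨ζ, hζint⟩ hsum
  refine ⟨((-(1 + ((⟨ζ, hζint⟩ : integralClosure ℤ E) - 1) * s) : integralClosure ℤ E) : E),
    (-(1 + ((⟨ζ, hζint⟩ : integralClosure ℤ E) - 1) * s)).2, ?_⟩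
  have h1 := congrArg (fun z : integralClosure ℤ E => (z : E)) hs
  simp only [Subalgebra.coe_mul, Subalgebra.coe_add, Subalgebra.coe_one, Subalgebra.coe_sub,
    Subalgebra.coe_neg, Subalgebra.coe_pow] at h1 ⊢
  have hcast : (((p : ℕ) : integralClosure ℤ E) : E) = (p : E) := rfl
  rw [hcast] at h1
  linear_combination h1

end Lam

section Unit

variable {R : Type*} [CommRing R] [IsLocalRing R]

/-- `0 < i < p`, `p ∈ 𝔪_R` ⇒ `i` is a unit of `R` -/
theorem cva_isUnit_natCast {p : ℕ} (hp : p.Prime) (hpR : (p : R) ∈ maximalIdeal R)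
    (i : ℕ) (hi0 : i ≠ 0) (hip : i < p) : IsUnit (i : R) := by
  by_contra hcon
  have him : (i : R) ∈ maximalIdeal R := (IsLocalRing.mem_maximalIdeal _).2 hcon
  have hcop : Nat.Coprime i p := (Nat.coprime_of_lt_prime hi0 hip hp).symm
  obtain ⟨a, b, hab⟩ := (Nat.isCoprime_iff_coprime.2 hcop)
  have h1 : (1 : R) = (a : R) * (i : R) + (b : R) * (p : R) := by
    have := congrArg (fun t : ℤ => (t : R)) hab
    simp only [Int.cast_add, Int.cast_mul, Int.cast_natCast, Int.cast_one] at this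
    exact this.symm
  have h2 : (1 : R) ∈ maximalIdeal R := by
    rw [h1]
    exact Ideal.add_mem _ (Ideal.mul_mem_left _ _ him) (Ideal.mul_mem_left _ _ hpR)
  exact (IsLocalRing.mem_maximalIdeal (1 : R)).1 h2 isUnit_one

end Unit

section NotMemMax

variable {R : Type*} [CommRing R] [IsLocalRing R] {E : Type*} [Field E] [Algebra R E]

/-- **`P'(z') ∉ 𝔫` at every maximal ideal of `R[z']`** (`λ = ζ - 1`, `p ∈ 𝔪_R`). -/
theorem cva_deriv_not_mem {p : ℕ} (hp : p.Prime) (hpR : (p : R) ∈ maximalIdeal R)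
    {z' : E} (hz : IsIntegral R z')
    (𝔫 : Ideal (Algebra.adjoin R ({z'} : Set E))) [h𝔫 : 𝔫.IsMaximal]
    (P : R[X]) (w : ℕ → E)
    (hP' : aeval z' (derivative P) = ∏ i ∈ Finset.Ico 1 p, (z' - w i))
    {ζ : E} (hζ : IsPrimitiveRoot ζ p) (c : ℕ → E)
    (hc : ∀ i ∈ Finset.Ico 1 p, IsIntegral R (c i))
    (hcong : ∀ i ∈ Finset.Ico 1 p, w i - z' = algebraMap R E (i : R) + (ζ - 1) * c i) :
    (⟨aeval z' (derivative P), aeval_mem_adjoin_singleton R z'⟩ :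
      Algebra.adjoin R ({z'} : Set E)) ∉ 𝔫 := by
  haveI : 𝔫.IsPrime := h𝔫.isPrime
  haveI : Algebra.IsIntegral R (Algebra.adjoin R ({z'} : Set E)) :=
    Algebra.IsIntegral.adjoin (fun x hx => by
      rw [Set.mem_singleton_iff] at hx; rw [hx]; exact hz)
  have hcomap := cvn_comap_eq (R := R) 𝔫
  have hζint : IsIntegral R ζ := (hζ.isIntegral hp.pos).tower_top
  have hlam : IsIntegral R (ζ - 1) := hζint.sub isIntegral_one
  obtain ⟨e, he, hepow⟩ := cva_lam_pow hp hζ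
  refine cvx_deriv_not_mem hz 𝔫 P w hP' (ζ - 1) hlam c hc hcong ?_ ?_
  · intro i hi
    rw [Finset.mem_Ico] at hi
    have hu : IsUnit (i : R) := cva_isUnit_natCast hp hpR i (by omega) hi.2
    intro hmem
    exact h𝔫.ne_top (Ideal.eq_top_of_isUnit_mem _ hmem (hu.map _))
  · refine ⟨p - 1, (p : R), ?_, e, he.tower_top, ?_⟩
    · rw [← Ideal.mem_comap, hcomap]; exact hpR
    · rw [hepow, map_natCast]

end NotMemMax

section Transfer

variable {R : Type*} [CommRing R] {E₀ E : Type*} [Field E₀] [Field E] [Algebra R E₀]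
  [Algebra R E]

/-- the isomorphism `R[z₀] ≃ R[ι z₀]` -/
noncomputable def cva_equiv (ι : E₀ →ₐ[R] E) (z₀ : E₀) :
    Algebra.adjoin R ({z₀} : Set E₀) ≃ₐ[R] Algebra.adjoin R ({ι z₀} : Set E) :=
  (Subalgebra.equivMapOfInjective (Algebra.adjoin R ({z₀} : Set E₀)) ι ι.injective).trans
    (Subalgebra.equivOfEq _ _ (AlgHom.map_adjoin_singleton ι z₀))

theorem cva_equiv_coe (ι : E₀ →ₐ[R] E) (z₀ : E₀) (c : Algebra.adjoin R ({z₀} : Set E₀)) :
    ((cva_equiv ι z₀ c : Algebra.adjoin R ({ι z₀} : Set E)) : E) = ι (c : E₀) := rfl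

/-- **transfer of `P'(z) ∉ 𝔫`** from `E` to `E₀` -/
theorem cva_transfer (ι : E₀ →ₐ[R] E) (z₀ : E₀) (Q : R[X])
    (H : ∀ (𝔫 : Ideal (Algebra.adjoin R ({ι z₀} : Set E))) [𝔫.IsMaximal],
      (⟨aeval (ι z₀) Q, aeval_mem_adjoin_singleton R (ι z₀)⟩ :
        Algebra.adjoin R ({ι z₀} : Set E)) ∉ 𝔫)
    (𝔫₀ : Ideal (Algebra.adjoin R ({z₀} : Set E₀))) [h𝔫₀ : 𝔫₀.IsMaximal] :
    (⟨aeval z₀ Q, aeval_mem_adjoin_singleton R z₀⟩ : Algebra.adjoin R ({z₀} : Set E₀)) ∉ 𝔫₀ := by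
  intro hmem
  set φ := cva_equiv ι z₀ with hφ
  haveI : (𝔫₀.comap (φ.symm : Algebra.adjoin R ({ι z₀} : Set E) →+*
      Algebra.adjoin R ({z₀} : Set E₀))).IsMaximal :=
    Ideal.comap_isMaximal_of_surjective _ φ.symm.surjective
  apply H (𝔫₀.comap (φ.symm : Algebra.adjoin R ({ι z₀} : Set E) →+*
      Algebra.adjoin R ({z₀} : Set E₀)))
  rw [Ideal.mem_comap]
  have h1 : (⟨aeval (ι z₀) Q, aeval_mem_adjoin_singleton R (ι z₀)⟩ :
      Algebra.adjoin R ({ι z₀} : Set E)) =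
      φ (⟨aeval z₀ Q, aeval_mem_adjoin_singleton R z₀⟩ : Algebra.adjoin R ({z₀} : Set E₀)) := by
    apply Subtype.ext
    rw [cva_equiv_coe]
    exact Polynomial.aeval_algHom_apply ι z₀ Q
  rw [h1]
  have h2 : (φ.symm : Algebra.adjoin R ({ι z₀} : Set E) →+*
      Algebra.adjoin R ({z₀} : Set E₀))
      (φ (⟨aeval z₀ Q, aeval_mem_adjoin_singleton R z₀⟩ :
        Algebra.adjoin R ({z₀} : Set E₀))) =
      (⟨aeval z₀ Q, aeval_mem_adjoin_singleton R z₀⟩ : Algebra.adjoin R ({z₀} : Set E₀)) :=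
    φ.symm_apply_apply _
  rw [h2]
  exact hmem

end Transfer

section NodeAsm

universe uR uE

variable {R : Type uR} {E₀ : Type uE} [CommRing R] [IsDomain R] [IsLocalRing R]
  [IsNoetherianRing R] [IsIntegrallyClosed R] [Field E₀] [Algebra R E₀]
  {E : Type*} [Field E] [Algebra R E]

/-- **G2a, the node package at EVERY maximal ideal of `R[z₀]`**: `R = B_s` with
`𝔪_R = (x, y)`, `x` prime, `x ∤ y`, `p ∈ 𝔪_R`, algebraically closed residue field `ρ`;
`E₀ ⊂ E` (`ι`), `σ₀` the deck map of `E₀` (fixed field `⊂ R` on integral elements), `z₀ ∈ E₀`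
integral over `R` with `σ₀ ^ p z₀ = z₀` and, in `E ∋ ζ`,
`ι (σ₀^[i] z₀) - ι z₀ = i + (ζ - 1) c_i`, `c_i` integral over `R`. -/
theorem cva_node {k : Type*} [Field k] [IsAlgClosed k] (ρ : R →+* k)
    (hρ : Function.Surjective ρ)
    (hinj : Function.Injective (algebraMap R E₀))
    (x y : R) (hx : Prime x) (hyx : ¬ x ∣ y)
    (hm : maximalIdeal R = Ideal.span {x, y})
    {p : ℕ} (hp : p.Prime) (hpR : (p : R) ∈ maximalIdeal R)
    (ι : E₀ →ₐ[R] E) (σ₀ : E₀ →+* E₀) (z₀ : E₀) (hz : IsIntegral R z₀)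
    (hσp : σ₀^[p] z₀ = z₀) (hσR : ∀ r : R, σ₀ (algebraMap R E₀ r) = algebraMap R E₀ r)
    (hdesc : ∀ t : E₀, σ₀ t = t → IsIntegral R t → t ∈ Set.range (algebraMap R E₀))
    {ζ : E} (hζ : IsPrimitiveRoot ζ p) (c : ℕ → E)
    (hc : ∀ i ∈ Finset.Ico 1 p, IsIntegral R (c i))
    (hcong : ∀ i ∈ Finset.Ico 1 p,
      ι (σ₀^[i] z₀) - ι z₀ = algebraMap R E (i : R) + (ζ - 1) * c i)
    (𝔫 : Ideal (Algebra.adjoin R ({z₀} : Set E₀))) [h𝔫 : 𝔫.IsMaximal] :
    algebraMap R (Algebra.adjoin R ({z₀} : Set E₀)) x ∈ 𝔫 ∧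
    algebraMap R (Algebra.adjoin R ({z₀} : Set E₀)) y ∈ 𝔫 ∧
    UniqueFactorizationMonoid (Localization.AtPrime 𝔫) ∧
      Prime (algebraMap _ (Localization.AtPrime 𝔫)
        (algebraMap R (Algebra.adjoin R ({z₀} : Set E₀)) x)) ∧
      Prime (algebraMap _ (Localization.AtPrime 𝔫)
        (algebraMap R (Algebra.adjoin R ({z₀} : Set E₀)) y)) ∧
      ¬ Associated (algebraMap _ (Localization.AtPrime 𝔫)
          (algebraMap R (Algebra.adjoin R ({z₀} : Set E₀)) x))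
        (algebraMap _ (Localization.AtPrime 𝔫)
          (algebraMap R (Algebra.adjoin R ({z₀} : Set E₀)) y)) ∧
      (∃ (κ : Type uE) (_ : Field κ) (red : Localization.AtPrime 𝔫 →+* κ) (w : κ → ℤ),
        (∀ c, red c = 0 ↔ algebraMap _ (Localization.AtPrime 𝔫)
          (algebraMap R (Algebra.adjoin R ({z₀} : Set E₀)) x) ∣ c) ∧
        (∀ a b : κ, a ≠ 0 → b ≠ 0 → w (a * b) = w a + w b) ∧
        (∀ c, red c ≠ 0 → 0 ≤ w (red c)) ∧
        w (red (algebraMap _ (Localization.AtPrime 𝔫)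
          (algebraMap R (Algebra.adjoin R ({z₀} : Set E₀)) y))) = 1) ∧
      (∃ (κ : Type uE) (_ : Field κ) (red : Localization.AtPrime 𝔫 →+* κ) (w : κ → ℤ),
        (∀ c, red c = 0 ↔ algebraMap _ (Localization.AtPrime 𝔫)
          (algebraMap R (Algebra.adjoin R ({z₀} : Set E₀)) y) ∣ c) ∧
        (∀ a b : κ, a ≠ 0 → b ≠ 0 → w (a * b) = w a + w b) ∧
        (∀ c, red c ≠ 0 → 0 ≤ w (red c)) ∧
        w (red (algebraMap _ (Localization.AtPrime 𝔫)
          (algebraMap R (Algebra.adjoin R ({z₀} : Set E₀)) x))) = 1) := by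
  obtain ⟨P, -, -, -, hP0, hPd⟩ := cvx_main σ₀ hp.pos hz hσp hσR hdesc
  have hz' : IsIntegral R (ι z₀) := hz.map ι
  have hPd' : aeval (ι z₀) (derivative P) =
      ∏ i ∈ Finset.Ico 1 p, (ι z₀ - ι (σ₀^[i] z₀)) := by
    rw [Polynomial.aeval_algHom_apply, hPd, map_prod]
    refine Finset.prod_congr rfl fun i _ => ?_
    rw [map_sub]
  have H : ∀ (𝔑 : Ideal (Algebra.adjoin R ({ι z₀} : Set E))) [𝔑.IsMaximal],
      (⟨aeval (ι z₀) (derivative P), aeval_mem_adjoin_singleton R (ι z₀)⟩ :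
        Algebra.adjoin R ({ι z₀} : Set E)) ∉ 𝔑 := fun 𝔑 _ =>
    cva_deriv_not_mem hp hpR hz' 𝔑 P (fun i => ι (σ₀^[i] z₀)) hPd' hζ c hc hcong
  have hP' := cva_transfer ι z₀ (derivative P) H 𝔫
  exact cvn_cover_one ρ hρ hinj x y hx hyx hm z₀ hz 𝔫 P hP0 hP'

end NodeAsm

end Fermat.Agent.S40lib
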