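import Mathlib
import Fermat.Agent.S36lib.Speed
import Fermat.Agent.S40lib.CoverAsm

/-!
# Item 88 (S40/S44), block (J-WILD), G2a GLUE, part 2 (helper2)

The remaining inputs of `g2e_windc_node` / `g2y_node` at `L = C_𝔫`, `C = R[z']`:

* `cvn_hm`: `maximalIdeal L = span {x, y}` and `IsNoetherianRing L` (hypotheses of
  `cvn_cover_one`);
* `cvn_pi`: `ϖ = ε x y` in `R` ⇒ `ϖ = ε' x y` in `L`;
* `cva_node_hm`: the same with the hypotheses of `cva_node`.
(complete proofs, standard axioms only)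
-/

set_option autoImplicit false
set_option linter.style.haveILetI false
set_option linter.unusedSectionVars false

namespace Fermat.Agent.S40lib

open IsLocalRing Polynomial

section Hm

universe uR uE

variable {R : Type uR} {E : Type uE} [CommRing R] [IsDomain R] [IsLocalRing R]
  [IsNoetherianRing R] [IsIntegrallyClosed R] [Field E] [Algebra R E]

/-- **the maximal ideal of `L = C_𝔫` is `(x, y)`**, and `L` is Noetherian. -/
theorem cvn_hm {k : Type*} [Field k] [IsAlgClosed k] (ρ : R →+* k)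
    (hρ : Function.Surjective ρ)
    (hinj : Function.Injective (algebraMap R E))
    (x y : R) (hm : maximalIdeal R = Ideal.span {x, y})
    (z' : E) (hz : IsIntegral R z')
    (𝔫 : Ideal (Algebra.adjoin R ({z'} : Set E))) [h𝔫 : 𝔫.IsMaximal]
    (P : Polynomial R) (hP : Polynomial.aeval z' P = 0)
    (hP' : (⟨Polynomial.aeval z' (Polynomial.derivative P),
      Polynomial.aeval_mem_adjoin_singleton R z'⟩ : Algebra.adjoin R ({z'} : Set E)) ∉ 𝔫) :
    maximalIdeal (Localization.AtPrime 𝔫) =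
      Ideal.span {algebraMap _ (Localization.AtPrime 𝔫)
          (algebraMap R (Algebra.adjoin R ({z'} : Set E)) x),
        algebraMap _ (Localization.AtPrime 𝔫)
          (algebraMap R (Algebra.adjoin R ({z'} : Set E)) y)} ∧
      IsNoetherianRing (Localization.AtPrime 𝔫) := by
  haveI : Module.IsTorsionFree R E := Module.isTorsionFree_iff_algebraMap_injective.2 hinj
  haveI : Module.Finite R (Algebra.adjoin R ({z'} : Set E)) :=
    (Algebra.adjoin.powerBasis' hz).finite
  haveI : Algebra.IsIntegral R (Algebra.adjoin R ({z'} : Set E)) :=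
    Algebra.IsIntegral.of_finite R _
  haveI : IsNoetherianRing (Algebra.adjoin R ({z'} : Set E)) :=
    IsNoetherianRing.of_finite R (Algebra.adjoin R ({z'} : Set E))
  obtain ⟨c, hc⟩ := cvn_exists_c' ρ hρ 𝔫
    (⟨z', Algebra.self_mem_adjoin_singleton R z'⟩ : Algebra.adjoin R ({z'} : Set E))
  have hcomap := cvn_comap_eq (R := R) 𝔫
  have hx𝔫 : algebraMap R (Algebra.adjoin R ({z'} : Set E)) x ∈ 𝔫 := by
    rw [← Ideal.mem_comap, hcomap, hm]
    exact Ideal.subset_span (Set.mem_insert _ _)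
  have hy𝔫 : algebraMap R (Algebra.adjoin R ({z'} : Set E)) y ∈ 𝔫 := by
    rw [← Ideal.mem_comap, hcomap, hm]
    exact Ideal.subset_span (Set.mem_insert_of_mem _ (Set.mem_singleton _))
  haveI : 𝔫.IsPrime := h𝔫.isPrime
  have hadj : Algebra.adjoin R
      ({(⟨z', Algebra.self_mem_adjoin_singleton R z'⟩ : Algebra.adjoin R ({z'} : Set E))} :
        Set (Algebra.adjoin R ({z'} : Set E))) = ⊤ := by
    have h1 := (Algebra.adjoin.powerBasis' hz).adjoin_gen_eq_top
    rw [Algebra.adjoin.powerBasis'_gen] at h1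
    exact h1
  have haev : ∀ Q : Polynomial R,
      ((Polynomial.aeval (⟨z', Algebra.self_mem_adjoin_singleton R z'⟩ :
        Algebra.adjoin R ({z'} : Set E)) Q : Algebra.adjoin R ({z'} : Set E)) : E) =
        Polynomial.aeval z' Q := by
    intro Q
    have := Polynomial.aeval_algHom_apply (Algebra.adjoin R ({z'} : Set E)).val
      (⟨z', Algebra.self_mem_adjoin_singleton R z'⟩ : Algebra.adjoin R ({z'} : Set E)) Q
    exact this.symm
  have hPz : Polynomial.aeval (⟨z', Algebra.self_mem_adjoin_singleton R z'⟩ :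
      Algebra.adjoin R ({z'} : Set E)) P = 0 := by
    apply Subtype.ext
    rw [haev, hP]
    rfl
  have hP'z : Polynomial.aeval (⟨z', Algebra.self_mem_adjoin_singleton R z'⟩ :
      Algebra.adjoin R ({z'} : Set E)) (Polynomial.derivative P) ∉ 𝔫 := by
    have : Polynomial.aeval (⟨z', Algebra.self_mem_adjoin_singleton R z'⟩ :
        Algebra.adjoin R ({z'} : Set E)) (Polynomial.derivative P) =
        (⟨Polynomial.aeval z' (Polynomial.derivative P),
          Polynomial.aeval_mem_adjoin_singleton R z'⟩ : Algebra.adjoin R ({z'} : Set E)) := by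
      apply Subtype.ext
      rw [haev]
    rw [this]
    exact hP'
  exact ⟨etn2_hunr 𝔫 _ hadj P hPz hP'z c hc x y hm hx𝔫 hy𝔫,
    IsLocalization.isNoetherianRing 𝔫.primeCompl _ inferInstance⟩

omit [IsLocalRing R] [IsNoetherianRing R] [IsIntegrallyClosed R] in
/-- a unit relation `ϖ = ε x y` of `R` stays one in `C_𝔫` -/
theorem cvn_pi (z' : E) (𝔫 : Ideal (Algebra.adjoin R ({z'} : Set E))) [h𝔫 : 𝔫.IsPrime]
    (x y ϖ : R) (ε : Rˣ) (hϖ : ϖ = ε * x * y) :
    ∃ ε' : (Localization.AtPrime 𝔫)ˣ,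
      algebraMap _ (Localization.AtPrime 𝔫)
          (algebraMap R (Algebra.adjoin R ({z'} : Set E)) ϖ) =
        ε' * algebraMap _ (Localization.AtPrime 𝔫)
            (algebraMap R (Algebra.adjoin R ({z'} : Set E)) x) *
          algebraMap _ (Localization.AtPrime 𝔫)
            (algebraMap R (Algebra.adjoin R ({z'} : Set E)) y) := by
  refine ⟨Units.map ((algebraMap (Algebra.adjoin R ({z'} : Set E))
    (Localization.AtPrime 𝔫)).comp
      (algebraMap R (Algebra.adjoin R ({z'} : Set E)))).toMonoidHom ε, ?_⟩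
  rw [hϖ, map_mul, map_mul, map_mul, map_mul]
  rfl

end Hm

section NodeHm

universe uR uE

variable {R : Type uR} {E₀ : Type uE} [CommRing R] [IsDomain R] [IsLocalRing R]
  [IsNoetherianRing R] [IsIntegrallyClosed R] [Field E₀] [Algebra R E₀]
  {E : Type*} [Field E] [Algebra R E]

/-- `cvn_hm` with the hypotheses of `cva_node`. -/
theorem cva_node_hm {k : Type*} [Field k] [IsAlgClosed k] (ρ : R →+* k)
    (hρ : Function.Surjective ρ)
    (hinj : Function.Injective (algebraMap R E₀))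
    (x y : R) (hm : maximalIdeal R = Ideal.span {x, y})
    {p : ℕ} (hp : p.Prime) (hpR : (p : R) ∈ maximalIdeal R)
    (ι : E₀ →ₐ[R] E) (σ₀ : E₀ →+* E₀) (z₀ : E₀) (hz : IsIntegral R z₀)
    (hσp : σ₀^[p] z₀ = z₀) (hσR : ∀ r : R, σ₀ (algebraMap R E₀ r) = algebraMap R E₀ r)
    (hdesc : ∀ t : E₀, σ₀ t = t → IsIntegral R t → t ∈ Set.range (algebraMap R E₀))
    {ζ : E} (hζ : IsPrimitiveRoot ζ p) (c : ℕ → E)
    (hc : ∀ i ∈ Finset.Ico 1 p, IsIntegral R (c i))
    (hcong : ∀ i ∈ Finset.Ico 1 p,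
      ι (σ₀^[i] z₀) - ι z₀ = algebraMap R E (i : R) + (ζ - 1) * c i)
    (𝔫 : Ideal (Algebra.adjoin R ({z₀} : Set E₀))) [h𝔫 : 𝔫.IsMaximal] :
    maximalIdeal (Localization.AtPrime 𝔫) =
      Ideal.span {algebraMap _ (Localization.AtPrime 𝔫)
          (algebraMap R (Algebra.adjoin R ({z₀} : Set E₀)) x),
        algebraMap _ (Localization.AtPrime 𝔫)
          (algebraMap R (Algebra.adjoin R ({z₀} : Set E₀)) y)} ∧
      IsNoetherianRing (Localization.AtPrime 𝔫) := by
  obtain ⟨P, -, -, -, hP0, hPd⟩ := cvx_main σ₀ hp.pos hz hσp hσR hdesc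
  have hz' : IsIntegral R (ι z₀) := hz.map ι
  have hPd' : aeval (ι z₀) (derivative P) =
      ∏ i ∈ Finset.Ico 1 p, (ι z₀ - ι (σ₀^[i] z₀)) := by
    rw [Polynomial.aeval_algHom_apply, hPd, map_prod]
    refine Finset.prod_congr rfl fun i _ => ?_
    rw [map_sub]
  have H : ∀ (𝔑 : Ideal (Algebra.adjoin R ({ι z₀} : Set E))) [𝔑.IsMaximal],
      (⟨aeval (ι z₀) (derivative P), aeval_mem_adjoin_singleton R (ι z₀)⟩ :
        Algebra.adjoin R ({ι z₀} : Set E)) ∉ 𝔑 := fun 𝔑 _ =>
    cva_deriv_not_mem hp hpR hz' 𝔑 P (fun i => ι (σ₀^[i] z₀)) hPd' hζ c hc hcong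
  have hP' := cva_transfer ι z₀ (derivative P) H 𝔫
  exact cvn_hm ρ hρ hinj x y hm z₀ hz 𝔫 P hP0 hP'

end NodeHm

end Fermat.Agent.S40lib
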