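/-
Item 88 (S40), block (J-WILD), piece G2c (helper19): CONJUGACY OF DISCRETE VALUATIONS.

`E` a field, `G` a finite group acting on `E` by ring automorphisms, `w w' : E → ℤ` two order
functions (`w (a b) = w a + w b`, `w (a + b) ≥ min (w a) (w b)` on nonzero elements; the value at
`0` is junk), each taking the value `1`, which have the same sign on the `G`-invariant elements
(= they induce the same valuation ring on the fixed field).  Then `w' = w ∘ g` for some `g ∈ G`
(`g2c_conj`).

Elementary proof (no integral closure): `B := ⋂_g (A_{w∘g} ∩ A_{w'∘g})`; prime avoidance in `B` +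
the norm give `g` with `m_{w'} ∩ B ⊆ m_{w∘g} ∩ B`; the Horner trick (`g2c_exists_unit_horner`)
shows that every element of `A_{w∘g}` is a fraction `c / b`, `b, c ∈ B`, `b` a unit of `A_{w∘g}`,
so `A_{w∘g} ⊆ A_{w'}`; two normalised discrete valuations with comparable rings are equal.

Mathlib only.
-/
import Mathlib

set_option autoImplicit false
set_option linter.unusedSectionVars false
set_option linter.unusedVariables false

noncomputable section

namespace Fermat.Agent.S40lib

open Polynomial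

section Ord

variable {E : Type*} [Field E]

/-- order functions: discrete valuations written additively (junk value at `0`) -/
structure G2cOrd (w : E → ℤ) : Prop where
  mul : ∀ a b : E, a ≠ 0 → b ≠ 0 → w (a * b) = w a + w b
  add : ∀ a b : E, a ≠ 0 → b ≠ 0 → a + b ≠ 0 → min (w a) (w b) ≤ w (a + b)

/-- `z` is in the valuation ring of `w` -/
def g2cNN (w : E → ℤ) (z : E) : Prop := z = 0 ∨ 0 ≤ w z

/-- `z` is in the maximal ideal of the valuation ring of `w` -/
def g2cPos (w : E → ℤ) (z : E) : Prop := z = 0 ∨ 0 < w z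

variable {w : E → ℤ}

theorem g2c_one (hw : G2cOrd w) : w 1 = 0 := by
  have h := hw.mul 1 1 one_ne_zero one_ne_zero
  rw [mul_one] at h
  omega

theorem g2c_neg_one (hw : G2cOrd w) : w (-1) = 0 := by
  have h := hw.mul (-1) (-1) (neg_ne_zero.mpr one_ne_zero) (neg_ne_zero.mpr one_ne_zero)
  rw [neg_mul_neg, mul_one, g2c_one hw] at h
  omega

theorem g2c_neg (hw : G2cOrd w) (a : E) : w (-a) = w a := by
  rcases eq_or_ne a 0 with rfl | ha
  · rw [neg_zero]
  · have h := hw.mul (-1) a (neg_ne_zero.mpr one_ne_zero) ha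
    rw [neg_one_mul, g2c_neg_one hw, zero_add] at h
    exact h

theorem g2c_inv (hw : G2cOrd w) {a : E} (ha : a ≠ 0) : w a⁻¹ = - w a := by
  have h := hw.mul a a⁻¹ ha (inv_ne_zero ha)
  rw [mul_inv_cancel₀ ha, g2c_one hw] at h
  omega

theorem g2c_pow (hw : G2cOrd w) {a : E} (ha : a ≠ 0) (n : ℕ) : w (a ^ n) = n * w a := by
  induction n with
  | zero => simp [g2c_one hw]
  | succ n ih =>
    rw [pow_succ, hw.mul _ _ (pow_ne_zero _ ha) ha, ih]
    push_cast
    ring

theorem g2c_zpow (hw : G2cOrd w) {a : E} (ha : a ≠ 0) (n : ℤ) : w (a ^ n) = n * w a := by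
  rcases Int.eq_nat_or_neg n with ⟨m, rfl | rfl⟩
  · rw [zpow_natCast, g2c_pow hw ha]
  · rw [zpow_neg, zpow_natCast, g2c_inv hw (pow_ne_zero _ ha), g2c_pow hw ha]
    ring

theorem g2c_prod (hw : G2cOrd w) {ι : Type*} (s : Finset ι) (f : ι → E)
    (hf : ∀ i ∈ s, f i ≠ 0) : w (∏ i ∈ s, f i) = ∑ i ∈ s, w (f i) := by
  classical
  induction s using Finset.induction_on with
  | empty => simp [g2c_one hw]
  | insert a s ha ih =>
    rw [Finset.prod_insert ha, Finset.sum_insert ha,
      hw.mul _ _ (hf a (Finset.mem_insert_self a s))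
        (Finset.prod_ne_zero_iff.mpr fun i hi => hf i (Finset.mem_insert_of_mem hi)),
      ih fun i hi => hf i (Finset.mem_insert_of_mem hi)]

theorem g2c_nn_of_pos {z : E} (h : g2cPos w z) : g2cNN w z :=
  h.imp id le_of_lt

theorem g2c_nn_add (hw : G2cOrd w) {a b : E} (ha : g2cNN w a) (hb : g2cNN w b) :
    g2cNN w (a + b) := by
  rcases eq_or_ne a 0 with rfl | ha0
  · rwa [zero_add]
  rcases eq_or_ne b 0 with rfl | hb0
  · rwa [add_zero]
  rcases eq_or_ne (a + b) 0 with h | h
  · exact Or.inl h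
  · right
    have h1 := hw.add a b ha0 hb0 h
    rcases ha with ha | ha
    · exact absurd ha ha0
    rcases hb with hb | hb
    · exact absurd hb hb0
    exact le_trans (le_min ha hb) h1

theorem g2c_pos_add (hw : G2cOrd w) {a b : E} (ha : g2cPos w a) (hb : g2cPos w b) :
    g2cPos w (a + b) := by
  rcases eq_or_ne a 0 with rfl | ha0
  · rwa [zero_add]
  rcases eq_or_ne b 0 with rfl | hb0
  · rwa [add_zero]
  rcases eq_or_ne (a + b) 0 with h | h
  · exact Or.inl h
  · right
    have h1 := hw.add a b ha0 hb0 h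
    rcases ha with ha | ha
    · exact absurd ha ha0
    rcases hb with hb | hb
    · exact absurd hb hb0
    exact lt_of_lt_of_le (lt_min ha hb) h1

theorem g2c_nn_mul (hw : G2cOrd w) {a b : E} (ha : g2cNN w a) (hb : g2cNN w b) :
    g2cNN w (a * b) := by
  rcases eq_or_ne a 0 with rfl | ha0
  · left; rw [zero_mul]
  rcases eq_or_ne b 0 with rfl | hb0
  · left; rw [mul_zero]
  right
  rw [hw.mul a b ha0 hb0]
  rcases ha with ha | ha
  · exact absurd ha ha0
  rcases hb with hb | hb
  · exact absurd hb hb0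
  omega

theorem g2c_pos_mul_nn (hw : G2cOrd w) {a b : E} (ha : g2cPos w a) (hb : g2cNN w b) :
    g2cPos w (a * b) := by
  rcases eq_or_ne a 0 with rfl | ha0
  · left; rw [zero_mul]
  rcases eq_or_ne b 0 with rfl | hb0
  · left; rw [mul_zero]
  right
  rw [hw.mul a b ha0 hb0]
  rcases ha with ha | ha
  · exact absurd ha ha0
  rcases hb with hb | hb
  · exact absurd hb hb0
  omega

theorem g2c_nn_neg (hw : G2cOrd w) {a : E} (ha : g2cNN w a) : g2cNN w (-a) := by
  rcases ha with ha | ha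
  · left; rw [ha, neg_zero]
  · right; rwa [g2c_neg hw]

theorem g2c_pos_neg (hw : G2cOrd w) {a : E} (ha : g2cPos w a) : g2cPos w (-a) := by
  rcases ha with ha | ha
  · left; rw [ha, neg_zero]
  · right; rwa [g2c_neg hw]

theorem g2c_nn_sub (hw : G2cOrd w) {a b : E} (ha : g2cNN w a) (hb : g2cNN w b) :
    g2cNN w (a - b) := by
  rw [sub_eq_add_neg]
  exact g2c_nn_add hw ha (g2c_nn_neg hw hb)

theorem g2c_pos_sub (hw : G2cOrd w) {a b : E} (ha : g2cPos w a) (hb : g2cPos w b) :
    g2cPos w (a - b) := by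
  rw [sub_eq_add_neg]
  exact g2c_pos_add hw ha (g2c_pos_neg hw hb)

theorem g2c_not_pos_one (hw : G2cOrd w) : ¬ g2cPos w 1 := by
  rintro (h | h)
  · exact one_ne_zero h
  · rw [g2c_one hw] at h
    exact lt_irrefl _ h

/-- the valuation ring of an order function -/
def g2cRing (hw : G2cOrd w) : Subring E where
  carrier := {z | g2cNN w z}
  mul_mem' := fun ha hb => g2c_nn_mul hw ha hb
  one_mem' := Or.inr (by rw [g2c_one hw])
  add_mem' := fun ha hb => g2c_nn_add hw ha hb
  zero_mem' := Or.inl rfl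
  neg_mem' := fun ha => g2c_nn_neg hw ha

theorem g2c_mem_ring (hw : G2cOrd w) {z : E} : z ∈ g2cRing hw ↔ g2cNN w z := Iff.rfl

/-- a polynomial with coefficients in a subring takes values in the subring on the subring -/
theorem g2c_eval_mem (S : Subring E) (Φ : E[X]) (hΦ : ∀ j, Φ.coeff j ∈ S) {z : E} (hz : z ∈ S) :
    eval z Φ ∈ S := by
  rw [eval_eq_sum_range]
  exact Subring.sum_mem _ (fun j _ => mul_mem (hΦ j) (pow_mem hz j))

theorem g2c_coeff_iter_divX (Φ : E[X]) (k j : ℕ) : (divX^[k] Φ).coeff j = Φ.coeff (j + k) := by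
  induction k generalizing j with
  | zero => rfl
  | succ k ih =>
    rw [Function.iterate_succ_apply', coeff_divX, ih]
    congr 1
    omega

theorem g2c_eval_divX (Φ : E[X]) (z : E) : eval z Φ = eval z (divX Φ) * z + Φ.coeff 0 := by
  conv_lhs => rw [← divX_mul_X_add Φ]
  simp

/-- **Horner sums are integral**: if `Φ` has coefficients in the valuation ring of `w` and
`Φ(z)` is in the valuation ring, then all the Horner sums `Φ_k(z)` are. -/
theorem g2c_horner_nn (hw : G2cOrd w) (Φ : E[X]) (hΦ : ∀ j, g2cNN w (Φ.coeff j)) (z : E)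
    (hz : g2cNN w (eval z Φ)) (k : ℕ) : g2cNN w (eval z (divX^[k] Φ)) := by
  by_cases hzn : g2cNN w z
  · exact g2c_eval_mem (g2cRing hw) _ (fun j => by rw [g2c_coeff_iter_divX]; exact hΦ _) hzn
  · have hz0 : z ≠ 0 := fun h => hzn (Or.inl h)
    have hzneg : w z < 0 := by
      by_contra h
      exact hzn (Or.inr (not_lt.mp h))
    induction k with
    | zero => exact hz
    | succ k ih =>
      rw [Function.iterate_succ_apply']
      have h1 : eval z (divX^[k] Φ) = eval z (divX (divX^[k] Φ)) * z + (divX^[k] Φ).coeff 0 :=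
        g2c_eval_divX _ z
      have h2 : eval z (divX (divX^[k] Φ)) =
          (eval z (divX^[k] Φ) - (divX^[k] Φ).coeff 0) * z⁻¹ := by
        rw [h1]
        field_simp
        ring
      have hc : g2cNN w ((divX^[k] Φ).coeff 0) := by
        rw [g2c_coeff_iter_divX]
        exact hΦ _
      have h3 : g2cNN w (eval z (divX^[k] Φ) - (divX^[k] Φ).coeff 0) := g2c_nn_sub hw ih hc
      rw [h2]
      rcases h3 with h3 | h3
      · left
        rw [h3, zero_mul]
      · by_cases h4 : eval z (divX^[k] Φ) - (divX^[k] Φ).coeff 0 = 0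
        · left
          rw [h4, zero_mul]
        · right
          rw [hw.mul _ _ h4 (inv_ne_zero hz0), g2c_inv hw hz0]
          omega

/-- **the Horner trick**: a root `z` of a polynomial with coefficients in `B = ⋂ A_{ν i}`, one of
them a unit of `A_{ν i₀}`, with `z ∈ A_{ν i₀}`, is a fraction `c / b` with `b, c ∈ B`, `b` a unit
of `A_{ν i₀}`. -/
theorem g2c_exists_unit_horner {ι : Type*} (ν : ι → E → ℤ) (hν : ∀ i, G2cOrd (ν i)) (i₀ : ι)
    (Φ : E[X]) (hΦ : ∀ i j, g2cNN (ν i) (Φ.coeff j)) (m : ℕ) (hm : ¬ g2cPos (ν i₀) (Φ.coeff m))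
    (z : E) (hz0 : eval z Φ = 0) (hzi : g2cNN (ν i₀) z) :
    ∃ b : E, b ≠ 0 ∧ ν i₀ b = 0 ∧ (∀ i, g2cNN (ν i) b) ∧ (∀ i, g2cNN (ν i) (b * z)) := by
  by_contra hcon
  have hall : ∀ i k, g2cNN (ν i) (eval z (divX^[k] Φ)) := fun i k =>
    g2c_horner_nn (hν i) Φ (hΦ i) z (by rw [hz0]; exact Or.inl rfl) k
  have hrec : ∀ k, eval z (divX^[k] Φ) = eval z (divX^[k + 1] Φ) * z + Φ.coeff k := by
    intro k
    have h := g2c_eval_divX (divX^[k] Φ) z
    rw [g2c_coeff_iter_divX, zero_add, ← Function.iterate_succ_apply' divX k Φ] at h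
    exact h
  have hpos : ∀ k, g2cPos (ν i₀) (eval z (divX^[k + 1] Φ)) := by
    intro k
    by_contra hk
    apply hcon
    have hb0 : eval z (divX^[k + 1] Φ) ≠ 0 := fun h => hk (Or.inl h)
    refine ⟨eval z (divX^[k + 1] Φ), hb0, ?_, fun i => hall i (k + 1), ?_⟩
    · rcases hall i₀ (k + 1) with h | h
      · exact absurd h hb0
      · have : ¬ 0 < ν i₀ (eval z (divX^[k + 1] Φ)) := fun h' => hk (Or.inr h')
        omega
    · intro i
      have h := hrec k
      have h' : eval z (divX^[k + 1] Φ) * z = eval z (divX^[k] Φ) - Φ.coeff k := by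
        rw [h]; ring
      rw [h']
      exact g2c_nn_sub (hν i) (hall i k) (hΦ i k)
  have hpos0 : ∀ k, g2cPos (ν i₀) (eval z (divX^[k] Φ)) := by
    intro k
    cases k with
    | zero => exact Or.inl hz0
    | succ k => exact hpos k
  apply hm
  have h := hrec m
  have h' : Φ.coeff m = eval z (divX^[m] Φ) - eval z (divX^[m + 1] Φ) * z := by
    rw [h]; ring
  rw [h']
  exact g2c_pos_sub (hν i₀) (hpos0 m) (g2c_pos_mul_nn (hν i₀) (hpos m) hzi)

/-- two normalised order functions with comparable valuation rings are equal -/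
theorem g2c_eq_of_le {u w' : E → ℤ} (hu : G2cOrd u) (hw' : G2cOrd w')
    (hπ : ∃ π : E, π ≠ 0 ∧ u π = 1) (hπ' : ∃ π : E, π ≠ 0 ∧ w' π = 1)
    (hle : ∀ z : E, z ≠ 0 → 0 ≤ u z → 0 ≤ w' z) :
    ∀ z : E, z ≠ 0 → w' z = u z := by
  have hunit : ∀ z : E, z ≠ 0 → u z = 0 → w' z = 0 := by
    intro z hz h0
    have h1 := hle z hz (le_of_eq h0.symm)
    have h2 := hle z⁻¹ (inv_ne_zero hz) (by rw [g2c_inv hu hz, h0, neg_zero])
    rw [g2c_inv hw' hz] at h2
    omega
  obtain ⟨π, hπ0, hπ1⟩ := hπ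
  have he : 0 ≤ w' π := hle π hπ0 (by rw [hπ1]; exact zero_le_one)
  have hform : ∀ z : E, z ≠ 0 → w' z = u z * w' π := by
    intro z hz
    have hz' : z * π ^ (-(u z)) ≠ 0 := mul_ne_zero hz (zpow_ne_zero _ hπ0)
    have h1 : u (z * π ^ (-(u z))) = 0 := by
      rw [hu.mul _ _ hz (zpow_ne_zero _ hπ0), g2c_zpow hu hπ0, hπ1]
      ring
    have h2 := hunit _ hz' h1
    rw [hw'.mul _ _ hz (zpow_ne_zero _ hπ0), g2c_zpow hw' hπ0] at h2
    linarith
  obtain ⟨π', hπ'0, hπ'1⟩ := hπ'
  have h3 := hform π' hπ'0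
  rw [hπ'1] at h3
  have h4 : w' π = 1 := by
    have h5 : w' π ∣ 1 := ⟨u π', by rw [h3]; ring⟩
    exact Int.eq_one_of_dvd_one he h5
  intro z hz
  rw [hform z hz, h4, mul_one]

end Ord

section Family

variable {E : Type*} [Field E] {ι : Type*} (ν : ι → E → ℤ) (hν : ∀ i, G2cOrd (ν i))

/-- the intersection of the valuation rings of a family of order functions -/
def g2cB : Subring E := ⨅ i, g2cRing (hν i)

theorem g2c_mem_B {z : E} : z ∈ g2cB ν hν ↔ ∀ i, g2cNN (ν i) z := by
  unfold g2cB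
  rw [Subring.mem_iInf]
  rfl

/-- the centre of `ν i` on `B` -/
def g2cIdeal (i : ι) : Ideal (g2cB ν hν) where
  carrier := {b | g2cPos (ν i) (b : E)}
  add_mem' := fun {a b} ha hb => g2c_pos_add (hν i) ha hb
  zero_mem' := Or.inl rfl
  smul_mem' := fun c b hb => by
    show g2cPos (ν i) ((c : E) * (b : E))
    rw [mul_comm]
    exact g2c_pos_mul_nn (hν i) hb ((g2c_mem_B ν hν).mp c.2 i)

theorem g2c_mem_ideal (i : ι) (b : g2cB ν hν) :
    b ∈ g2cIdeal ν hν i ↔ g2cPos (ν i) (b : E) := Iff.rfl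

theorem g2c_ideal_isPrime (i : ι) : (g2cIdeal ν hν i).IsPrime := by
  rw [Ideal.isPrime_iff]
  refine ⟨?_, ?_⟩
  · rw [Ideal.ne_top_iff_one]
    exact g2c_not_pos_one (hν i)
  · intro a b hab
    have hab' : g2cPos (ν i) ((a : E) * (b : E)) := hab
    by_contra hcon
    rw [not_or] at hcon
    obtain ⟨ha, hb⟩ := hcon
    have ha0 : (a : E) ≠ 0 := fun h => ha (Or.inl h)
    have hb0 : (b : E) ≠ 0 := fun h => hb (Or.inl h)
    have ha1 : ¬ 0 < ν i (a : E) := fun h => ha (Or.inr h)
    have hb1 : ¬ 0 < ν i (b : E) := fun h => hb (Or.inr h)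
    rcases hab' with h | h
    · exact mul_ne_zero ha0 hb0 h
    · rw [(hν i).mul _ _ ha0 hb0] at h
      omega

end Family

section Conj

variable {E : Type*} [Field E] {G : Type*} [Group G] [MulSemiringAction G E]

theorem g2c_ord_smul {w : E → ℤ} (hw : G2cOrd w) (g : G) : G2cOrd (fun z => w (g • z)) where
  mul a b ha hb := by
    show w (g • (a * b)) = w (g • a) + w (g • b)
    rw [smul_mul', hw.mul _ _ ((smul_ne_zero_iff_ne g).mpr ha) ((smul_ne_zero_iff_ne g).mpr hb)]
  add a b ha hb hab := by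
    show min (w (g • a)) (w (g • b)) ≤ w (g • (a + b))
    rw [smul_add]
    exact hw.add _ _ ((smul_ne_zero_iff_ne g).mpr ha) ((smul_ne_zero_iff_ne g).mpr hb)
      (by rw [← smul_add]; exact (smul_ne_zero_iff_ne g).mpr hab)

set_option maxHeartbeats 800000 in
/-- **(G2c) conjugacy of discrete valuations**: two normalised order functions on `E` which have
the same sign on the `G`-invariant elements are conjugate under the finite group `G`. -/
theorem g2c_conj [Finite G] {w w' : E → ℤ} (hw : G2cOrd w) (hw' : G2cOrd w')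
    (hπ : ∃ π : E, π ≠ 0 ∧ w π = 1) (hπ' : ∃ π : E, π ≠ 0 ∧ w' π = 1)
    (hres : ∀ f : E, f ≠ 0 → (∀ g : G, g • f = f) → (0 ≤ w f ↔ 0 ≤ w' f)) :
    ∃ g : G, ∀ z : E, z ≠ 0 → w' z = w (g • z) := by
  classical
  cases nonempty_fintype G
  set ν : G ⊕ G → E → ℤ := Sum.elim (fun g z => w (g • z)) (fun g z => w' (g • z)) with hνdef
  have hν : ∀ i, G2cOrd (ν i) := by
    rintro (g | g)
    · exact g2c_ord_smul hw g
    · exact g2c_ord_smul hw' g
  -- sign agreement on invariants, strict version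
  have hres_pos : ∀ f : E, f ≠ 0 → (∀ g : G, g • f = f) → 0 < w' f → 0 < w f := by
    intro f hf hinv hpos
    have hinv' : ∀ g : G, g • f⁻¹ = f⁻¹ := fun g => by rw [smul_inv'', hinv g]
    have h := hres f⁻¹ (inv_ne_zero hf) hinv'
    rw [g2c_inv hw hf, g2c_inv hw' hf] at h
    by_contra hcon
    have h1 : 0 ≤ - w f := by omega
    have h2 := h.mp h1
    omega
  -- prime avoidance
  have hsub : ((g2cIdeal ν hν (Sum.inr 1) : Ideal (g2cB ν hν)) : Set (g2cB ν hν)) ⊆
      ⋃ g ∈ ((Finset.univ : Finset G) : Set G),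
        ((g2cIdeal ν hν (Sum.inl g) : Ideal (g2cB ν hν)) : Set (g2cB ν hν)) := by
    intro b hb
    have hb' : g2cPos (ν (Sum.inr 1)) (b : E) := hb
    rw [Set.mem_iUnion₂]
    rcases eq_or_ne (b : E) 0 with hb0 | hb0
    · exact ⟨1, Finset.mem_coe.mpr (Finset.mem_univ _), Or.inl hb0⟩
    · have hbB := (g2c_mem_B ν hν).mp b.2
      have hgb0 : ∀ g : G, g • (b : E) ≠ 0 := fun g => (smul_ne_zero_iff_ne g).mpr hb0
      have hn0 : (∏ g : G, g • (b : E)) ≠ 0 := Finset.prod_ne_zero_iff.mpr fun g _ => hgb0 g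
      have hninv : ∀ g : G, g • (∏ g : G, g • (b : E)) = ∏ g : G, g • (b : E) :=
        fun g => Finset.smul_prod_perm (b : E) g
      have hw'n : 0 < w' (∏ g : G, g • (b : E)) := by
        rw [g2c_prod hw' _ _ (fun g _ => hgb0 g)]
        apply Finset.sum_pos'
        · intro g _
          rcases hbB (Sum.inr g) with h | h
          · exact absurd h hb0
          · exact h
        · refine ⟨1, Finset.mem_univ _, ?_⟩
          rcases hb' with h | h
          · exact absurd h hb0
          · exact h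
      have hwn := hres_pos _ hn0 hninv hw'n
      rw [g2c_prod hw _ _ (fun g _ => hgb0 g)] at hwn
      obtain ⟨g, -, hg⟩ : ∃ g ∈ (Finset.univ : Finset G), 0 < w (g • (b : E)) := by
        by_contra hcon
        have hcon' : ∀ g ∈ (Finset.univ : Finset G), w (g • (b : E)) ≤ 0 := fun g hg =>
          not_lt.mp fun hlt => hcon ⟨g, hg, hlt⟩
        exact absurd hwn (not_lt.mpr (Finset.sum_nonpos hcon'))
      exact ⟨g, Finset.mem_coe.mpr (Finset.mem_univ _), Or.inr hg⟩
  obtain ⟨h, -, hle⟩ := (Ideal.subset_union_prime (1 : G) (1 : G)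
    (fun g _ _ _ => g2c_ideal_isPrime ν hν (Sum.inl g))).mp hsub
  -- (2): on `B`, positivity at `w'` implies positivity at `w ∘ h`
  have h2 : ∀ b : E, b ∈ g2cB ν hν → g2cPos w' b → g2cPos (fun z => w (h • z)) b := by
    intro b hb hpos
    have hmem : (⟨b, hb⟩ : g2cB ν hν) ∈ g2cIdeal ν hν (Sum.inr 1) := by
      show g2cPos (ν (Sum.inr 1)) b
      rcases hpos with h0 | h0
      · exact Or.inl h0
      · right
        show 0 < w' ((1 : G) • b)
        rw [one_smul]
        exact h0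
    exact hle hmem
  -- (3): the valuation ring of `w ∘ h` is contained in that of `w'`
  have h3 : ∀ z : E, z ≠ 0 → 0 ≤ w (h • z) → 0 ≤ w' z := by
    intro z hz hzu
    have hχmonic : (MulSemiringAction.charpoly G z).Monic := MulSemiringAction.monic_charpoly G z
    have hχev : eval z (MulSemiringAction.charpoly G z) = 0 := MulSemiringAction.eval_charpoly G z
    have hχinv : ∀ j (g : G), g • (MulSemiringAction.charpoly G z).coeff j =
        (MulSemiringAction.charpoly G z).coeff j :=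
      fun j g => MulSemiringAction.smul_coeff_charpoly z j g
    generalize MulSemiringAction.charpoly G z = χ at hχmonic hχev hχinv
    -- index of minimal valuation among the nonzero coefficients
    have hsne : ((Finset.range (χ.natDegree + 1)).filter (fun j => χ.coeff j ≠ 0)).Nonempty :=
      ⟨χ.natDegree, by
        rw [Finset.mem_filter]
        exact ⟨Finset.mem_range.mpr (Nat.lt_succ_self _), by
          rw [Polynomial.coeff_natDegree, hχmonic.leadingCoeff]; exact one_ne_zero⟩⟩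
    obtain ⟨m, hms, hmmin⟩ := Finset.exists_min_image _ (fun j => w (χ.coeff j)) hsne
    have ham0 : χ.coeff m ≠ 0 := (Finset.mem_filter.mp hms).2
    have hΦc : ∀ j, (C (χ.coeff m)⁻¹ * χ).coeff j = (χ.coeff m)⁻¹ * χ.coeff j :=
      fun j => coeff_C_mul χ
    have hΦinv : ∀ j (g : G), g • (C (χ.coeff m)⁻¹ * χ).coeff j = (C (χ.coeff m)⁻¹ * χ).coeff j := by
      intro j g
      rw [hΦc, smul_mul', smul_inv'', hχinv, hχinv]
    have hΦw : ∀ j, (C (χ.coeff m)⁻¹ * χ).coeff j ≠ 0 → 0 ≤ w ((C (χ.coeff m)⁻¹ * χ).coeff j) := by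
      intro j hj
      have hj0 : χ.coeff j ≠ 0 := by
        intro h0
        apply hj
        rw [hΦc, h0, mul_zero]
      have hjs : j ∈ (Finset.range (χ.natDegree + 1)).filter (fun j => χ.coeff j ≠ 0) := by
        rw [Finset.mem_filter]
        refine ⟨Finset.mem_range.mpr ?_, hj0⟩
        by_contra hlt
        exact hj0 (Polynomial.coeff_eq_zero_of_natDegree_lt (by omega))
      rw [hΦc, hw.mul _ _ (inv_ne_zero ham0) hj0, g2c_inv hw ham0]
      have := hmmin j hjs
      omega
    have hΦnn : ∀ i j, g2cNN (ν i) ((C (χ.coeff m)⁻¹ * χ).coeff j) := by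
      intro i j
      by_cases hj : (C (χ.coeff m)⁻¹ * χ).coeff j = 0
      · exact Or.inl hj
      · right
        rcases i with g | g
        · show 0 ≤ w (g • (C (χ.coeff m)⁻¹ * χ).coeff j)
          rw [hΦinv]
          exact hΦw j hj
        · show 0 ≤ w' (g • (C (χ.coeff m)⁻¹ * χ).coeff j)
          rw [hΦinv]
          exact (hres _ hj (hΦinv j)).mp (hΦw j hj)
    have hΦm : (C (χ.coeff m)⁻¹ * χ).coeff m = 1 := by rw [hΦc, inv_mul_cancel₀ ham0]
    have hΦev : eval z (C (χ.coeff m)⁻¹ * χ) = 0 := by rw [eval_mul, hχev, mul_zero]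
    obtain ⟨b, hb0, hbu, hbB, hbzB⟩ := g2c_exists_unit_horner ν hν (Sum.inl h)
      (C (χ.coeff m)⁻¹ * χ) hΦnn m
      (by rw [hΦm]; exact g2c_not_pos_one (hν _)) z hΦev (Or.inr hzu)
    -- `b` is a unit at `w'`
    have hbw' : w' b = 0 := by
      have hnn : g2cNN w' b := by
        rcases hbB (Sum.inr 1) with h0 | h0
        · exact Or.inl h0
        · right
          have h0' : 0 ≤ w' ((1 : G) • b) := h0
          rwa [one_smul] at h0'
      have hnp : ¬ g2cPos w' b := by
        intro hp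
        rcases h2 b ((g2c_mem_B ν hν).mpr hbB) hp with h0 | h0
        · exact hb0 h0
        · have h0' : 0 < w (h • b) := h0
          have h1 : w (h • b) = 0 := hbu
          omega
      rcases hnn with h0 | h0
      · exact absurd h0 hb0
      · by_contra hne
        exact hnp (Or.inr (lt_of_le_of_ne h0 (Ne.symm hne)))
    rcases hbzB (Sum.inr 1) with h0 | h0
    · exact absurd h0 (mul_ne_zero hb0 hz)
    · have h0' : 0 ≤ w' ((1 : G) • (b * z)) := h0
      rw [one_smul, hw'.mul _ _ hb0 hz, hbw', zero_add] at h0'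
      exact h0'
  -- (4)
  obtain ⟨π, hπ0, hπ1⟩ := hπ
  have hπu : ∃ π' : E, π' ≠ 0 ∧ (fun z => w (h • z)) π' = 1 :=
    ⟨h⁻¹ • π, (smul_ne_zero_iff_ne _).mpr hπ0, by
      show w (h • h⁻¹ • π) = 1
      rw [smul_inv_smul]
      exact hπ1⟩
  exact ⟨h, g2c_eq_of_le (g2c_ord_smul hw h) hw' hπu hπ' h3⟩

/-- the same for the cyclic group generated by a ring endomorphism `σ` of finite order, in the
shape of `hcx`, `hcy` of `g2y_node` (helper24, EdgeCover.lean). -/
theorem g2c_conj_iterate {E : Type*} [Field E] (σ : E →+* E) (n : ℕ) (hn : 0 < n)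
    (hσ : ∀ z : E, σ^[n] z = z)
    {w w' : E → ℤ} (hw : G2cOrd w) (hw' : G2cOrd w')
    (hπ : ∃ π : E, π ≠ 0 ∧ w π = 1) (hπ' : ∃ π : E, π ≠ 0 ∧ w' π = 1)
    (hres : ∀ f : E, f ≠ 0 → σ f = f → (0 ≤ w f ↔ 0 ≤ w' f)) :
    ∃ i : ℕ, ∀ z : E, z ≠ 0 → w' z = w (σ^[i] z) := by
  classical
  -- `σ` as a ring automorphism
  have hbij : Function.Bijective σ := by
    obtain ⟨k, rfl⟩ : ∃ k, n = k + 1 := ⟨n - 1, by omega⟩
    refine ⟨σ.injective, fun z => ⟨σ^[k] z, ?_⟩⟩
    rw [← Function.iterate_succ_apply' σ k z]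
    exact hσ z
  set τ : RingAut E := RingEquiv.ofBijective σ hbij with hτ
  have hτapp : ∀ z : E, τ z = σ z := fun z => rfl
  have hpow : ∀ (i : ℕ) (z : E), (τ ^ i) z = σ^[i] z := by
    intro i
    induction i with
    | zero => intro z; rfl
    | succ i ih =>
      intro z
      rw [pow_succ', RingAut.mul_apply, ih, hτapp, Function.iterate_succ_apply']
  have hτn : τ ^ n = 1 := by
    apply RingEquiv.ext
    intro z
    rw [hpow, hσ]
    rfl
  have hfin : IsOfFinOrder τ := isOfFinOrder_iff_pow_eq_one.mpr ⟨n, hn, hτn⟩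
  have hfinite : Finite (Subgroup.zpowers τ) := by
    apply Nat.finite_of_card_ne_zero
    rw [Nat.card_zpowers]
    exact (orderOf_pos_iff.mpr hfin).ne'
  have hmem : ∀ g : Subgroup.zpowers τ, ∃ i : ℕ, ∀ z : E, g • z = σ^[i] z := by
    intro g
    have hg : (g : RingAut E) ∈ Submonoid.powers τ := hfin.mem_powers_iff_mem_zpowers.mpr g.2
    obtain ⟨i, hi⟩ := hg
    refine ⟨i, fun z => ?_⟩
    show (g : RingAut E) z = σ^[i] z
    rw [← hi, hpow]
  have hres' : ∀ f : E, f ≠ 0 → (∀ g : Subgroup.zpowers τ, g • f = f) →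
      (0 ≤ w f ↔ 0 ≤ w' f) := by
    intro f hf hinv
    apply hres f hf
    have := hinv ⟨τ, Subgroup.mem_zpowers τ⟩
    exact this
  obtain ⟨g, hg⟩ := g2c_conj (G := Subgroup.zpowers τ) hw hw' hπ hπ' hres'
  obtain ⟨i, hi⟩ := hmem g
  exact ⟨i, fun z hz => by rw [hg z hz, hi]⟩

end Conj

end Fermat.Agent.S40lib

end
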