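/-
Item 88 (S40), block (J-WILD), piece G2c, second file (helper19): the order function
`s36_ordAt π` of a prime element of a UFD is an order function in the sense of `G2cOrd`
(`g2c_ord_ordAt`: multiplicative + ULTRAMETRIC), normalised (`s36_ordAt_self`), so that
`g2c_conj_iterate` applies to the branch orders of the node rings of the cover `Y`:

`g2c_conj_ordAt`: `L`, `L'` two UFDs with the same fraction field `E`, `π ∈ L`, `π' ∈ L'` prime
elements, `σ` a ring endomorphism of `E` of finite order; if `ord_π` and `ord_π'` have the same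
sign on the `σ`-fixed elements, then `ord_π' f = ord_π (σ^[i] f)` for some `i`
(= `hcx`, `hcy` of `g2y_node` with `vInf := s36_ordAt` at a REFERENCE node).
-/
import Mathlib
import Fermat.Agent.S36lib.Speed
import Fermat.Agent.S36lib.InvertOrd
import Fermat.Agent.S40lib.ValConj

set_option autoImplicit false
set_option linter.unusedSectionVars false
set_option linter.unusedVariables false

noncomputable section

namespace Fermat.Agent.S40lib

open Fermat.Agent.S36lib

section OrdAt

variable {R F : Type*} [CommRing R] [IsDomain R] [UniqueFactorizationMonoid R] [Field F]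
  [Algebra R F] [IsFractionRing R F]

/-- the ultrametric inequality for `s36_ordAt` -/
theorem g2c_ordAt_add (π : R) (hπ : Prime π) (x y : F) (hx : x ≠ 0) (hy : y ≠ 0)
    (hxy : x + y ≠ 0) :
    min (s36_ordAt π hπ x) (s36_ordAt π hπ y) ≤ s36_ordAt π hπ (x + y) := by
  have hinj : Function.Injective (algebraMap R F) := IsFractionRing.injective R F
  have hπF : algebraMap R F π ≠ 0 := fun h0 => hπ.ne_zero (hinj (by rw [h0, map_zero]))
  -- it is enough to treat `ord x ≤ ord y`
  have key : ∀ x y : F, x ≠ 0 → y ≠ 0 → x + y ≠ 0 → s36_ordAt π hπ x ≤ s36_ordAt π hπ y →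
      s36_ordAt π hπ x ≤ s36_ordAt π hπ (x + y) := by
    intro x y hx hy hxy hle
    obtain ⟨a, b, ha, hb, hab⟩ := s36_ordAt_spec (F := F) π hπ hx
    obtain ⟨a', b', ha', hb', hab'⟩ := s36_ordAt_spec (F := F) π hπ hy
    obtain ⟨k, hk⟩ : ∃ k : ℕ, s36_ordAt π hπ y = s36_ordAt π hπ x + k :=
      ⟨(s36_ordAt π hπ y - s36_ordAt π hπ x).toNat, by omega⟩
    have hsum : (x + y) * algebraMap R F (b * b') =
        algebraMap R F (a * b' + a' * b * π ^ k) * (algebraMap R F π) ^ (s36_ordAt π hπ x) := by
      have h1 : (x + y) * algebraMap R F (b * b') =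
          (x * algebraMap R F b) * algebraMap R F b' +
            (y * algebraMap R F b') * algebraMap R F b := by
        rw [map_mul]; ring
      rw [h1, hab, hab', hk, zpow_add₀ hπF, zpow_natCast]
      simp only [map_add, map_mul, map_pow]
      ring
    have hc0 : a * b' + a' * b * π ^ k ≠ 0 := by
      intro h0
      rw [h0, map_zero, zero_mul] at hsum
      have hbb' : algebraMap R F (b * b') ≠ 0 := by
        intro h1
        have h2 : b * b' = 0 := hinj (by rw [h1, map_zero])
        rcases mul_eq_zero.mp h2 with h3 | h3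
        · exact hb (h3 ▸ dvd_zero π)
        · exact hb' (h3 ▸ dvd_zero π)
      rcases mul_eq_zero.mp hsum with h1 | h1
      · exact hxy h1
      · exact hbb' h1
    obtain ⟨i, c, hc, hci⟩ := WfDvdMonoid.max_power_factor hc0 hπ.irreducible
    have hbb' : ¬ π ∣ b * b' := fun h => (hπ.dvd_or_dvd h).elim hb hb'
    have hfin : (x + y) * algebraMap R F (b * b') =
        algebraMap R F c * (algebraMap R F π) ^ (s36_ordAt π hπ x + i) := by
      rw [hsum, hci, map_mul, map_pow, zpow_add₀ hπF, zpow_natCast]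
      ring
    rw [s36_ordAt_eq π hπ hc hbb' hfin]
    omega
  rcases le_total (s36_ordAt π hπ x) (s36_ordAt π hπ y) with hle | hle
  · rw [min_eq_left hle]
    exact key x y hx hy hxy hle
  · rw [min_eq_right hle, add_comm]
    exact key y x hy hx (by rwa [add_comm]) hle

/-- `s36_ordAt π` is an order function -/
theorem g2c_ord_ordAt (π : R) (hπ : Prime π) : G2cOrd (s36_ordAt (F := F) π hπ) where
  mul := fun a b ha hb => s36_ordAt_mul π hπ a b ha hb
  add := fun a b ha hb hab => g2c_ordAt_add π hπ a b ha hb hab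

/-- `s36_ordAt π` is normalised -/
theorem g2c_ordAt_normalised (π : R) (hπ : Prime π) :
    ∃ z : F, z ≠ 0 ∧ s36_ordAt π hπ z = 1 := by
  have hinj : Function.Injective (algebraMap R F) := IsFractionRing.injective R F
  exact ⟨algebraMap R F π, fun h0 => hπ.ne_zero (hinj (by rw [h0, map_zero])),
    s36_ordAt_self π hπ⟩

end OrdAt

section Conj

variable {L L' E : Type*} [CommRing L] [IsDomain L] [UniqueFactorizationMonoid L]
  [CommRing L'] [IsDomain L'] [UniqueFactorizationMonoid L'] [Field E]
  [Algebra L E] [IsFractionRing L E] [Algebra L' E] [IsFractionRing L' E]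

/-- **(G2c) for branch orders**: the orders at prime elements `π ∈ L`, `π' ∈ L'` of two UFDs
with the same fraction field `E`, which have the same sign on the elements fixed by a ring
endomorphism `σ` of finite order, are conjugate under `σ`. -/
theorem g2c_conj_ordAt (σ : E →+* E) (n : ℕ) (hn : 0 < n) (hσ : ∀ z : E, σ^[n] z = z)
    (π : L) (hπ : Prime π) (π' : L') (hπ' : Prime π')
    (hres : ∀ f : E, f ≠ 0 → σ f = f →
      (0 ≤ s36_ordAt (F := E) π hπ f ↔ 0 ≤ s36_ordAt (F := E) π' hπ' f)) :
    ∃ i : ℕ, ∀ f : E, f ≠ 0 →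
      s36_ordAt (F := E) π' hπ' f = s36_ordAt (F := E) π hπ (σ^[i] f) :=
  g2c_conj_iterate σ n hn hσ (g2c_ord_ordAt π hπ) (g2c_ord_ordAt π' hπ')
    (g2c_ordAt_normalised π hπ) (g2c_ordAt_normalised π' hπ') hres

/-- the same with an arbitrary normalised order function `v` as reference (`vInf`, `vZero` of
`g2y_node`) -/
theorem g2c_conj_ordAt_ref (σ : E →+* E) (n : ℕ) (hn : 0 < n) (hσ : ∀ z : E, σ^[n] z = z)
    (v : E → ℤ) (hv : G2cOrd v) (hv1 : ∃ z : E, z ≠ 0 ∧ v z = 1)
    (π : L) (hπ : Prime π)
    (hres : ∀ f : E, f ≠ 0 → σ f = f → (0 ≤ v f ↔ 0 ≤ s36_ordAt (F := E) π hπ f)) :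
    ∃ i : ℕ, ∀ f : E, f ≠ 0 → s36_ordAt (F := E) π hπ f = v (σ^[i] f) :=
  g2c_conj_iterate σ n hn hσ hv (g2c_ord_ordAt π hπ) hv1 (g2c_ordAt_normalised π hπ) hres

end Conj

end Fermat.Agent.S40lib

end
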