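import Mathlib
import Fermat.Agent.S36lib.Speed
import Fermat.Agent.S40lib.CoverNode2
import Fermat.Agent.S40lib.ValConj2

/-!
# Item 88 (S40/S44), block (J-WILD), G2a GLUE, part 3 (helper2): `hcx` / `hcy` of `g2y_node`

`cva_hcx`: the order of the vertical prime `x` of `L = C_𝔫` (`C = R[z₀]`, `Frac L = E₀`) is
`σ`-conjugate to ANY reference order `v` of `E₀` which agrees in sign with `ord_x` of `R` on
`F = Frac R = E₀^σ`.  (= `cvn_ordAt_cover` + `g2c_conj_ordAt_ref` of helper19.)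
(complete proof, standard axioms only)
-/

set_option autoImplicit false
set_option linter.style.haveILetI false
set_option linter.unusedSectionVars false

namespace Fermat.Agent.S40lib

open IsLocalRing Fermat.Agent.S36lib

section Hcx

universe uR uE

variable {R : Type uR} {E₀ : Type uE} [CommRing R] [IsDomain R]
  [UniqueFactorizationMonoid R] [IsIntegrallyClosed R] [Field E₀] [Algebra R E₀]
  {F : Type*} [Field F] [Algebra R F] [IsFractionRing R F] [Algebra F E₀]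
  [IsScalarTower R F E₀]

/-- **`hcx` of `g2y_node`** at `L = C_𝔫`. -/
theorem cva_hcx (x : R) (hx : Prime x) (z₀ : E₀) (hz : IsIntegral R z₀)
    (hgen : Algebra.adjoin F ({z₀} : Set E₀) = ⊤)
    (𝔫 : Ideal (Algebra.adjoin R ({z₀} : Set E₀))) [h𝔫 : 𝔫.IsPrime]
    (hx𝔫 : algebraMap R (Algebra.adjoin R ({z₀} : Set E₀)) x ∈ 𝔫)
    (hdom : IsDomain (Localization.AtPrime 𝔫))
    (hufm : UniqueFactorizationMonoid (Localization.AtPrime 𝔫))
    (hxL : Prime (algebraMap _ (Localization.AtPrime 𝔫)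
      (algebraMap R (Algebra.adjoin R ({z₀} : Set E₀)) x)))
    (σ : E₀ →+* E₀) (n : ℕ) (hn : 0 < n) (hσ : ∀ z : E₀, σ^[n] z = z)
    (hfix : ∀ f : E₀, σ f = f → f ∈ Set.range (algebraMap F E₀))
    (v : E₀ → ℤ) (hv : G2cOrd v) (hv1 : ∃ z : E₀, z ≠ 0 ∧ v z = 1)
    (hvF : ∀ f : F, f ≠ 0 → (0 ≤ v (algebraMap F E₀ f) ↔ 0 ≤ s36_ordAt x hx f)) :
    ∃ i : ℕ, ∀ f : E₀, f ≠ 0 →
      @s36_ordAt (Localization.AtPrime 𝔫) E₀ _ hdom hufm _ (cvn_alg z₀ 𝔫)
        (cvn_frac z₀ hgen 𝔫)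
        (algebraMap _ (Localization.AtPrime 𝔫)
          (algebraMap R (Algebra.adjoin R ({z₀} : Set E₀)) x)) hxL f = v (σ^[i] f) := by
  letI : Algebra (Localization.AtPrime 𝔫) E₀ := cvn_alg z₀ 𝔫
  haveI : IsFractionRing (Localization.AtPrime 𝔫) E₀ := cvn_frac z₀ hgen 𝔫
  refine g2c_conj_ordAt_ref σ n hn hσ v hv hv1 _ hxL ?_
  intro f hf0 hσf
  obtain ⟨f0, rfl⟩ := hfix f hσf
  have hf00 : f0 ≠ 0 := by
    rintro rfl
    exact hf0 (map_zero _)
  rw [hvF f0 hf00]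
  have h := cvn_ordAt_cover x hx z₀ hz hgen 𝔫 hx𝔫 hdom hufm hxL f0
  rw [← h]

end Hcx

end Fermat.Agent.S40lib
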