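import Mathlib
import Fermat.Agent.S36lib.Speed
import Fermat.Agent.S40lib.CoverNode2
import Fermat.Agent.S40lib.ValConj2
import Fermat.Agent.S40lib.CoverAsm3

/-!
# Item 88 (S40/S44), block (J-WILD), G2a GLUE, part 4 (helper2): the GLOBAL reference orders

`vInf`, `vZero` of `g2y_node` / `g2w_node` must be GLOBAL (independent of the point `Q`).
Take them at ONE reference node `𝔫₀` of the cover (`L₀ = C₀_𝔫₀`, `C₀ = R₀[z₁]`):
`vRef := ord_{x₀}` on `L₀`.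

* `cva_ref_ord`  : `vRef` is a normalised order function (`G2cOrd`) and restricts to
                   `ord_{x₀}` of `R₀` on `F`;
* `cva_hcx_ref`  : at ANY other point (`R`, `x`, `𝔫`) whose vertical prime `x` has the same
                   sign as `x₀` on `F` (same component of the special fibre of `X`):
                   `ord_x^L f = vRef (σ^[i] f)`  (= `hcx` / `hcy` of `g2y_node` with
                   `vInf := vRef`).
(complete proofs, standard axioms only)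
-/

set_option autoImplicit false
set_option linter.style.haveILetI false
set_option linter.unusedSectionVars false

namespace Fermat.Agent.S40lib

open IsLocalRing Fermat.Agent.S36lib

section Ref

variable {R₀ R E₀ F : Type*} [CommRing R₀] [IsDomain R₀]
  [UniqueFactorizationMonoid R₀] [IsIntegrallyClosed R₀]
  [CommRing R] [IsDomain R] [UniqueFactorizationMonoid R] [IsIntegrallyClosed R]
  [Field E₀] [Algebra R₀ E₀] [Algebra R E₀]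
  [Field F] [Algebra R₀ F] [IsFractionRing R₀ F] [Algebra R F] [IsFractionRing R F]
  [Algebra F E₀] [IsScalarTower R₀ F E₀] [IsScalarTower R F E₀]

/-- **the reference order** `vRef = ord_{x₀}` of the node ring `L₀ = C₀_𝔫₀`: a normalised
order function of `E₀` which restricts to `ord_{x₀}` of `R₀` on `F`. -/
theorem cva_ref_ord (x₀ : R₀) (hx₀ : Prime x₀) (z₁ : E₀) (hz₁ : IsIntegral R₀ z₁)
    (hgen₁ : Algebra.adjoin F ({z₁} : Set E₀) = ⊤)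
    (𝔫₀ : Ideal (Algebra.adjoin R₀ ({z₁} : Set E₀))) [h𝔫₀ : 𝔫₀.IsPrime]
    (hx𝔫₀ : algebraMap R₀ (Algebra.adjoin R₀ ({z₁} : Set E₀)) x₀ ∈ 𝔫₀)
    (hdom₀ : IsDomain (Localization.AtPrime 𝔫₀))
    (hufm₀ : UniqueFactorizationMonoid (Localization.AtPrime 𝔫₀))
    (hxL₀ : Prime (algebraMap _ (Localization.AtPrime 𝔫₀)
      (algebraMap R₀ (Algebra.adjoin R₀ ({z₁} : Set E₀)) x₀))) :
    G2cOrd (@s36_ordAt (Localization.AtPrime 𝔫₀) E₀ _ hdom₀ hufm₀ _ (cvn_alg z₁ 𝔫₀)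
        (cvn_frac z₁ hgen₁ 𝔫₀) _ hxL₀) ∧
      (∃ z : E₀, z ≠ 0 ∧ @s36_ordAt (Localization.AtPrime 𝔫₀) E₀ _ hdom₀ hufm₀ _
        (cvn_alg z₁ 𝔫₀) (cvn_frac z₁ hgen₁ 𝔫₀) _ hxL₀ z = 1) ∧
      ∀ f : F, @s36_ordAt (Localization.AtPrime 𝔫₀) E₀ _ hdom₀ hufm₀ _
        (cvn_alg z₁ 𝔫₀) (cvn_frac z₁ hgen₁ 𝔫₀) _ hxL₀ (algebraMap F E₀ f) =
          s36_ordAt x₀ hx₀ f := by
  letI : Algebra (Localization.AtPrime 𝔫₀) E₀ := cvn_alg z₁ 𝔫₀
  haveI : IsFractionRing (Localization.AtPrime 𝔫₀) E₀ := cvn_frac z₁ hgen₁ 𝔫₀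
  exact ⟨g2c_ord_ordAt _ hxL₀, g2c_ordAt_normalised _ hxL₀,
    fun f => cvn_ordAt_cover x₀ hx₀ z₁ hz₁ hgen₁ 𝔫₀ hx𝔫₀ hdom₀ hufm₀ hxL₀ f⟩

/-- **`hcx` / `hcy` of `g2y_node` with the GLOBAL reference order** `vRef = ord_{x₀}` of a
reference node `L₀`. -/
theorem cva_hcx_ref (x₀ : R₀) (hx₀ : Prime x₀) (z₁ : E₀) (hz₁ : IsIntegral R₀ z₁)
    (hgen₁ : Algebra.adjoin F ({z₁} : Set E₀) = ⊤)
    (𝔫₀ : Ideal (Algebra.adjoin R₀ ({z₁} : Set E₀))) [h𝔫₀ : 𝔫₀.IsPrime]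
    (hx𝔫₀ : algebraMap R₀ (Algebra.adjoin R₀ ({z₁} : Set E₀)) x₀ ∈ 𝔫₀)
    (hdom₀ : IsDomain (Localization.AtPrime 𝔫₀))
    (hufm₀ : UniqueFactorizationMonoid (Localization.AtPrime 𝔫₀))
    (hxL₀ : Prime (algebraMap _ (Localization.AtPrime 𝔫₀)
      (algebraMap R₀ (Algebra.adjoin R₀ ({z₁} : Set E₀)) x₀)))
    (x : R) (hx : Prime x) (z₀ : E₀) (hz : IsIntegral R z₀)
    (hgen : Algebra.adjoin F ({z₀} : Set E₀) = ⊤)
    (𝔫 : Ideal (Algebra.adjoin R ({z₀} : Set E₀))) [h𝔫 : 𝔫.IsPrime]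
    (hx𝔫 : algebraMap R (Algebra.adjoin R ({z₀} : Set E₀)) x ∈ 𝔫)
    (hdom : IsDomain (Localization.AtPrime 𝔫))
    (hufm : UniqueFactorizationMonoid (Localization.AtPrime 𝔫))
    (hxL : Prime (algebraMap _ (Localization.AtPrime 𝔫)
      (algebraMap R (Algebra.adjoin R ({z₀} : Set E₀)) x)))
    (σ : E₀ →+* E₀) (n : ℕ) (hn : 0 < n) (hσ : ∀ z : E₀, σ^[n] z = z)
    (hfix : ∀ f : E₀, σ f = f → f ∈ Set.range (algebraMap F E₀))
    (hsame : ∀ f : F, f ≠ 0 → (0 ≤ s36_ordAt x₀ hx₀ f ↔ 0 ≤ s36_ordAt x hx f)) :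
    ∃ i : ℕ, ∀ f : E₀, f ≠ 0 →
      @s36_ordAt (Localization.AtPrime 𝔫) E₀ _ hdom hufm _ (cvn_alg z₀ 𝔫)
        (cvn_frac z₀ hgen 𝔫)
        (algebraMap _ (Localization.AtPrime 𝔫)
          (algebraMap R (Algebra.adjoin R ({z₀} : Set E₀)) x)) hxL f =
      @s36_ordAt (Localization.AtPrime 𝔫₀) E₀ _ hdom₀ hufm₀ _ (cvn_alg z₁ 𝔫₀)
        (cvn_frac z₁ hgen₁ 𝔫₀)
        (algebraMap _ (Localization.AtPrime 𝔫₀)
          (algebraMap R₀ (Algebra.adjoin R₀ ({z₁} : Set E₀)) x₀)) hxL₀ (σ^[i] f) := by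
  obtain ⟨hv, hv1, hvF⟩ := cva_ref_ord (F := F) x₀ hx₀ z₁ hz₁ hgen₁ 𝔫₀ hx𝔫₀ hdom₀ hufm₀ hxL₀
  refine cva_hcx (F := F) x hx z₀ hz hgen 𝔫 hx𝔫 hdom hufm hxL σ n hn hσ hfix _ hv hv1 ?_
  intro f hf
  rw [hvF f]
  exact hsame f hf

end Ref

end Fermat.Agent.S40lib
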