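import Mathlib
import Fermat.Agent.S36lib.Speed
import Fermat.Agent.S40lib.CoverNode2

/-!
# Item 88 (S40/S44), block (J-WILD), G2a GLUE, part 5 (helper2): small instance glue at `L = C_𝔫`

* `cva_hinv`  : `hinv` of `g2b_hval_node` / `g2b_hval_smooth` at `L = C_𝔫` from the same
                statement over `R` (`K0 = A0[1/ϖ]`, `A0 ⊂ R`);
* `cvaAlgE`, `cva_tower`, `cva_hinjE` : the instances `[Algebra L E] [IsScalarTower L E0 E]`
                and `hinj` of `g2w_node` / `g2w_smooth` for a big field `E ⊇ E0 = Frac L`.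
(complete proofs, standard axioms only)
-/

set_option autoImplicit false
set_option linter.style.haveILetI false
set_option linter.unusedSectionVars false

namespace Fermat.Agent.S40lib

section Hinv

variable {R E₀ : Type*} [CommRing R] [IsDomain R] [UniqueFactorizationMonoid R]
  [Field E₀] [Algebra R E₀]

/-- **`hinv` at `L = C_𝔫`** from `hinv` over `R`. -/
theorem cva_hinv {K0 : Type*} [Field K0] [Algebra K0 E₀] (z₀ : E₀)
    (𝔫 : Ideal (Algebra.adjoin R ({z₀} : Set E₀))) [h𝔫 : 𝔫.IsPrime] (ϖ : R)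
    (hinvR : ∀ c : K0, ∃ (a : R) (n : ℕ),
      algebraMap K0 E₀ c * algebraMap R E₀ ϖ ^ n = algebraMap R E₀ a) :
    ∀ c : K0, ∃ (a : Localization.AtPrime 𝔫) (n : ℕ),
      algebraMap K0 E₀ c *
          @algebraMap (Localization.AtPrime 𝔫) E₀ _ _ (cvn_alg z₀ 𝔫)
            (algebraMap _ (Localization.AtPrime 𝔫)
              (algebraMap R (Algebra.adjoin R ({z₀} : Set E₀)) ϖ)) ^ n =
        @algebraMap (Localization.AtPrime 𝔫) E₀ _ _ (cvn_alg z₀ 𝔫) a := by
  intro c
  obtain ⟨a, n, h⟩ := hinvR c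
  refine ⟨algebraMap _ (Localization.AtPrime 𝔫)
    (algebraMap R (Algebra.adjoin R ({z₀} : Set E₀)) a), n, ?_⟩
  rw [cvn_alg_apply, cvn_alg_apply]
  exact h

end Hinv

section Big

variable (L E0 E : Type*) [CommRing L] [Field E0] [Field E] [Algebra L E0] [Algebra E0 E]

/-- the algebra structure `L → E0 → E` -/
@[reducible] noncomputable def cvaAlgE : Algebra L E :=
  ((algebraMap E0 E).comp (algebraMap L E0)).toAlgebra

theorem cva_tower : @IsScalarTower L E0 E _ _ (cvaAlgE L E0 E).toSMul := by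
  letI : Algebra L E := cvaAlgE L E0 E
  exact IsScalarTower.of_algebraMap_eq fun _ => rfl

theorem cva_hinjE [IsDomain L] [IsFractionRing L E0] :
    Function.Injective (@algebraMap L E _ _ (cvaAlgE L E0 E)) := by
  letI : Algebra L E := cvaAlgE L E0 E
  exact (algebraMap E0 E).injective.comp (IsFractionRing.injective L E0)

end Big

end Fermat.Agent.S40lib
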