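import Mathlib
import Fermat.Agent.S36lib.Speed
import Fermat.Agent.S36lib.SemilocalMove
import Fermat.Agent.S36lib.InvertOrd
import Fermat.Agent.S40lib.EdgeRule
import Fermat.Agent.S40lib.DivRed

/-!
# Item 88 (S40), block (J-WILD), piece (G2), abstract core: the EDGE RULE ON THE COVER `Y`

(helper24.  Architecture: helper22's note "(A-J) ARCHITECTURE v1", simplifications S2 + S4.)

`E0` is the function field of the `K0`-form of the cover `Y → X`, `σ` a generator of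
`Gal(E0 / F0)`, `u ∈ E0` the `K0`-rational Kummer function of `π^* x` (`u''` of `wlc_main`):

  `σ u = κ · g ^ p · u`,   `κ ∈ K0` (so `σ κ = κ`).

* (a) CONSTANCY.  `g2y_iterate` : `σ^i u = κ ^ i · g_i ^ p · u`;
  `g2y_const` : for an additive order function `v` on `E0` with `p ∣ v κ`:
  `v (σ^i u) ≡ v u  (mod p)`;
  `g2y_const_conj` : if `v' = v ∘ σ^i` (two branches over the same vertical prime of `X` are
  conjugate) then `v' u ≡ v u  (mod p)`.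
* (b) EDGE RULE AT A NODE OF `Y`.  `L` the node ring of `Y` (a UFD, output of `etn2_node` /
  `etn2_node_adjoin`), `x`, `y` its two vertical primes, `ϖ = ε x y`, `(κ, red, w)` the edge
  inputs of the `x`-branch (`w (red y) = 1`).
  `g2y_edge` : `ord_x u ≡ α`, `ord_y u ≡ β  (mod m)`, `u d = ϖ ^ k n`, `x ∤ n d`  ⇒
  `w (red n) - w (red d) ≡ β - α  (mod m)`;
  `g2y_node` : (a) + `g2y_edge`: with reference valuations `v∞`, `v0` of `E0` (the orders at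
  one fixed `∞`-sheet and one fixed `0`-sheet) to which `ord_x`, `ord_y` are `σ`-conjugate:
  `w (red n) - w (red d) ≡ v0 u - v∞ u  (mod p)`: the winding number `δ = v0 u - v∞ u` does not
  depend on the node.
* (c) TRANSFER `Y → X`.  `E ⊇ E0` the function field of `Y` over `Kbar`, `U ⊂ E^×` the units of
  the valuation ring of the branch (Gauss valuation), `ω = W ∘ red_E` the order at a point of the
  reduced branch.  `g2y_transfer` : `u'' = c · u_x · h ^ p`, `c₁ u_x ∈ U`, `c₂ u'' ∈ U`  ⇒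
  `ω (c₂ u'') ≡ ω (c₁ u_x)  (mod p)`.
* (d) `g2y_windc_node` : (a) + (b) + (c): at a node of `Y`,
  `ω (c₁ u_x) ≡ v0 u - v∞ u  (mod p)`    (= WINDC at the supersingular places);
  `g2y_windc_smooth` : the same at a smooth point of the special fibre of `Y` (one vertical
  prime, `dvr_one_branch_pi`): `ω (c₁ u_x) ≡ 0  (mod p)`;
  `g2y_hval` : (S4) the horizontal orders of `u''` are divisible by `p`.

Mathlib + `S36lib/SemilocalMove`, `S36lib/InvertOrd`, `S40lib/EdgeRule`, `S40lib/DivRed` only.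
-/

set_option autoImplicit false

namespace Fermat.Agent.S40lib

open Fermat.Agent.S36lib

/-! ### additive order functions -/

section Orders

variable {E : Type*} [Field E]

theorem g2y_ord_one (v : E → ℤ) (hv : ∀ a b : E, a ≠ 0 → b ≠ 0 → v (a * b) = v a + v b) :
    v 1 = 0 := by
  have h := hv 1 1 one_ne_zero one_ne_zero
  rw [mul_one] at h
  linarith

theorem g2y_ord_pow (v : E → ℤ) (hv : ∀ a b : E, a ≠ 0 → b ≠ 0 → v (a * b) = v a + v b)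
    {a : E} (ha : a ≠ 0) (n : ℕ) : v (a ^ n) = n * v a := by
  induction n with
  | zero => simp [g2y_ord_one v hv]
  | succ j ih =>
    rw [pow_succ, hv _ _ (pow_ne_zero _ ha) ha, ih]
    push_cast
    ring

/-! ### (a) constancy -/

/-- iterating the relation `σ u = κ g ^ p u` (`σ κ = κ`): `σ^i u = κ ^ i g_i ^ p u`. -/
theorem g2y_iterate (σ : E →+* E) (p : ℕ) (u g κ : E) (hg : g ≠ 0) (hκ : σ κ = κ)
    (hσ : σ u = κ * g ^ p * u) (i : ℕ) :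
    ∃ gi : E, gi ≠ 0 ∧ (⇑σ)^[i] u = κ ^ i * gi ^ p * u := by
  induction i with
  | zero => exact ⟨1, one_ne_zero, by simp⟩
  | succ j ih =>
    obtain ⟨gj, hgj, hj⟩ := ih
    refine ⟨σ gj * g, mul_ne_zero ((map_ne_zero σ).2 hgj) hg, ?_⟩
    rw [Function.iterate_succ_apply', hj, map_mul, map_mul, map_pow, map_pow, hκ, hσ]
    ring

/-- **constancy along the `σ`-orbit**: `p ∣ v κ` ⇒ `v (σ^i u) ≡ v u  (mod p)`. -/
theorem g2y_const (σ : E →+* E) (p : ℕ) (u g κ : E) (hu : u ≠ 0) (hg : g ≠ 0) (hκ0 : κ ≠ 0)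
    (hκ : σ κ = κ) (hσ : σ u = κ * g ^ p * u)
    (v : E → ℤ) (hv : ∀ a b : E, a ≠ 0 → b ≠ 0 → v (a * b) = v a + v b)
    (hvκ : (p : ℤ) ∣ v κ) (i : ℕ) :
    (p : ℤ) ∣ v ((⇑σ)^[i] u) - v u := by
  obtain ⟨gi, hgi, hi⟩ := g2y_iterate σ p u g κ hg hκ hσ i
  rw [hi, hv _ _ (mul_ne_zero (pow_ne_zero _ hκ0) (pow_ne_zero _ hgi)) hu,
    hv _ _ (pow_ne_zero _ hκ0) (pow_ne_zero _ hgi), g2y_ord_pow v hv hκ0,
    g2y_ord_pow v hv hgi]
  obtain ⟨t, ht⟩ := hvκ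
  refine ⟨i * t + v gi, ?_⟩
  rw [ht]
  ring

/-- **constancy on conjugate branches**: `v' = v ∘ σ^i`, `p ∣ v κ` ⇒ `v' u ≡ v u  (mod p)`. -/
theorem g2y_const_conj (σ : E →+* E) (p : ℕ) (u g κ : E) (hu : u ≠ 0) (hg : g ≠ 0)
    (hκ0 : κ ≠ 0) (hκ : σ κ = κ) (hσ : σ u = κ * g ^ p * u)
    (v v' : E → ℤ) (hv : ∀ a b : E, a ≠ 0 → b ≠ 0 → v (a * b) = v a + v b)
    (hvκ : (p : ℤ) ∣ v κ)
    (hconj : ∃ i : ℕ, ∀ f : E, f ≠ 0 → v' f = v ((⇑σ)^[i] f)) :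
    (p : ℤ) ∣ v' u - v u := by
  obtain ⟨i, hi⟩ := hconj
  rw [hi u hu]
  exact g2y_const σ p u g κ hu hg hκ0 hκ hσ v hv hvκ i

end Orders

/-! ### (b) the edge rule at a node of the cover -/

section Node

variable {L E κ : Type*} [CommRing L] [IsDomain L] [UniqueFactorizationMonoid L] [Field E]
  [Algebra L E] [IsFractionRing L E] [Field κ]

/-- **the edge rule with prescribed residues of the vertical orders**: `ord_x f ≡ α`,
`ord_y f ≡ β  (mod m)`, `f d = ϖ ^ k n`, `x ∤ n d`  ⇒  `w (red n) - w (red d) ≡ β - α`. -/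
theorem g2y_edge (x y : L) (hx : Prime x) (hy : Prime y) (hxy : ¬ Associated x y)
    (ϖ : L) (ε : Lˣ) (hϖ : ϖ = ε * x * y)
    (red : L →+* κ) (hred : ∀ c, red c = 0 ↔ x ∣ c)
    (w : κ → ℤ) (hw : ∀ a b : κ, a ≠ 0 → b ≠ 0 → w (a * b) = w a + w b)
    (hw0 : ∀ c : L, red c ≠ 0 → 0 ≤ w (red c)) (hwy : w (red y) = 1)
    (m : ℕ) (f : E) (hf : f ≠ 0)
    (hval : ∀ π : L, Prime π → ¬ Associated π x → ¬ Associated π y →
      ∃ v : E → ℤ, (∀ a b : E, a ≠ 0 → b ≠ 0 → v (a * b) = v a + v b) ∧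
        v (algebraMap L E π) = 1 ∧
        (∀ c : L, c ≠ 0 → ¬ π ∣ c → v (algebraMap L E c) = 0) ∧ (m : ℤ) ∣ v f)
    (α β : ℤ) (hα : (m : ℤ) ∣ s36_ordAt x hx f - α) (hβ : (m : ℤ) ∣ s36_ordAt y hy f - β)
    (k : ℤ) (n d : L) (hn : ¬ x ∣ n) (hd : ¬ x ∣ d)
    (hfx : f * algebraMap L E d = algebraMap L E ϖ ^ k * algebraMap L E n) :
    (m : ℤ) ∣ (w (red n) - w (red d)) - (β - α) := by
  have hk : s36_ordAt x hx f = k :=
    edr_ordAt_of_decomp x y hx hy hxy ϖ ε hϖ f hf k n d hn hd hfx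
  have hϖ' : ϖ = ε * y * x := by rw [hϖ]; ring
  obtain ⟨n', d', hn', hd', hfy⟩ :=
    edr_exists_decomp y x hy hx (fun h => hxy h.symm) ϖ ε hϖ' f hf
  have h := edr_edge_rule_transversal x y hx hy hxy ϖ ε hϖ red hred w hw hw0 hwy m f hf hval
    k (s36_ordAt y hy f) n d n' d' hn hd hn' hd' hfx hfy
  have h2 : (w (red n) - w (red d)) - (β - α) =
      ((w (red n) - w (red d)) - (s36_ordAt y hy f - k)) +
        ((s36_ordAt y hy f - β) - (s36_ordAt x hx f - α)) := by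
    rw [hk]
    ring
  rw [h2]
  exact dvd_add h (dvd_sub hβ hα)

/-- **the edge rule at a node of the cover, with the GLOBAL winding number**
`δ = v0 u - v∞ u`: `σ u = κ g ^ p u`, `p ∣ v∞ κ`, `p ∣ v0 κ`, the two vertical orders of the
node ring are `σ`-conjugate to the reference orders `v∞`, `v0`.  Then for every decomposition
`u d = ϖ ^ k n`, `x ∤ n d`:  `w (red n) - w (red d) ≡ v0 u - v∞ u  (mod p)`. -/
theorem g2y_node (x y : L) (hx : Prime x) (hy : Prime y) (hxy : ¬ Associated x y)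
    (ϖ : L) (ε : Lˣ) (hϖ : ϖ = ε * x * y)
    (red : L →+* κ) (hred : ∀ c, red c = 0 ↔ x ∣ c)
    (w : κ → ℤ) (hw : ∀ a b : κ, a ≠ 0 → b ≠ 0 → w (a * b) = w a + w b)
    (hw0 : ∀ c : L, red c ≠ 0 → 0 ≤ w (red c)) (hwy : w (red y) = 1)
    (p : ℕ) (σ : E →+* E) (u g κ' : E) (hu : u ≠ 0) (hg : g ≠ 0) (hκ0 : κ' ≠ 0)
    (hσκ : σ κ' = κ') (hσu : σ u = κ' * g ^ p * u)
    (hval : ∀ π : L, Prime π → ¬ Associated π x → ¬ Associated π y →
      ∃ v : E → ℤ, (∀ a b : E, a ≠ 0 → b ≠ 0 → v (a * b) = v a + v b) ∧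
        v (algebraMap L E π) = 1 ∧
        (∀ c : L, c ≠ 0 → ¬ π ∣ c → v (algebraMap L E c) = 0) ∧ (p : ℤ) ∣ v u)
    (vInf vZero : E → ℤ)
    (hvInf : ∀ a b : E, a ≠ 0 → b ≠ 0 → vInf (a * b) = vInf a + vInf b)
    (hvZero : ∀ a b : E, a ≠ 0 → b ≠ 0 → vZero (a * b) = vZero a + vZero b)
    (hκInf : (p : ℤ) ∣ vInf κ') (hκZero : (p : ℤ) ∣ vZero κ')
    (hcx : ∃ i : ℕ, ∀ f : E, f ≠ 0 → s36_ordAt x hx f = vInf ((⇑σ)^[i] f))
    (hcy : ∃ i : ℕ, ∀ f : E, f ≠ 0 → s36_ordAt y hy f = vZero ((⇑σ)^[i] f))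
    (k : ℤ) (n d : L) (hn : ¬ x ∣ n) (hd : ¬ x ∣ d)
    (hfx : u * algebraMap L E d = algebraMap L E ϖ ^ k * algebraMap L E n) :
    (p : ℤ) ∣ (w (red n) - w (red d)) - (vZero u - vInf u) :=
  g2y_edge x y hx hy hxy ϖ ε hϖ red hred w hw hw0 hwy p u hu hval (vInf u) (vZero u)
    (g2y_const_conj σ p u g κ' hu hg hκ0 hσκ hσu vInf (s36_ordAt x hx) hvInf hκInf hcx)
    (g2y_const_conj σ p u g κ' hu hg hκ0 hσκ hσu vZero (s36_ordAt y hy) hvZero hκZero hcy)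
    k n d hn hd hfx

end Node

/-! ### (c) the transfer from the cover to the curve -/

section Transfer

variable {K E : Type*} [Field K] [Field E] [Algebra K E]

/-- `1 ∈ U` -/
theorem g2y_one_mem (U : Set E) (hU0 : ∀ a ∈ U, a ≠ 0)
    (hUmul : ∀ a ∈ U, ∀ b ∈ U, a * b ∈ U) (hUinv : ∀ a ∈ U, a⁻¹ ∈ U) {a : E} (ha : a ∈ U) :
    (1 : E) ∈ U := by
  have h := hUmul a ha a⁻¹ (hUinv a ha)
  rwa [mul_inv_cancel₀ (hU0 a ha)] at h

/-- powers stay in `U` -/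
theorem g2y_pow_mem (U : Set E) (hU0 : ∀ a ∈ U, a ≠ 0)
    (hUmul : ∀ a ∈ U, ∀ b ∈ U, a * b ∈ U) (hUinv : ∀ a ∈ U, a⁻¹ ∈ U) {a : E} (ha : a ∈ U)
    (n : ℕ) : a ^ n ∈ U := by
  induction n with
  | zero => rw [pow_zero]; exact g2y_one_mem U hU0 hUmul hUinv ha
  | succ j ih => rw [pow_succ]; exact hUmul _ ih _ ha

/-- `ω 1 = 0` -/
theorem g2y_omega_one (U : Set E) (hU0 : ∀ a ∈ U, a ≠ 0)
    (hUmul : ∀ a ∈ U, ∀ b ∈ U, a * b ∈ U) (hUinv : ∀ a ∈ U, a⁻¹ ∈ U)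
    (ω : E → ℤ) (hω : ∀ a ∈ U, ∀ b ∈ U, ω (a * b) = ω a + ω b) {a : E} (ha : a ∈ U) :
    ω 1 = 0 := by
  have h1 := g2y_one_mem U hU0 hUmul hUinv ha
  have h := hω 1 h1 1 h1
  rw [mul_one] at h
  linarith

/-- `ω (a ^ n) = n ω a` on `U` -/
theorem g2y_omega_pow (U : Set E) (hU0 : ∀ a ∈ U, a ≠ 0)
    (hUmul : ∀ a ∈ U, ∀ b ∈ U, a * b ∈ U) (hUinv : ∀ a ∈ U, a⁻¹ ∈ U)
    (ω : E → ℤ) (hω : ∀ a ∈ U, ∀ b ∈ U, ω (a * b) = ω a + ω b) {a : E} (ha : a ∈ U)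
    (n : ℕ) : ω (a ^ n) = n * ω a := by
  induction n with
  | zero => simp [g2y_omega_one U hU0 hUmul hUinv ω hω ha]
  | succ j ih =>
    rw [pow_succ, hω _ (g2y_pow_mem U hU0 hUmul hUinv ha j) _ ha, ih]
    push_cast
    ring

/-- `ω a⁻¹ = - ω a` on `U` -/
theorem g2y_omega_inv (U : Set E) (hU0 : ∀ a ∈ U, a ≠ 0)
    (hUmul : ∀ a ∈ U, ∀ b ∈ U, a * b ∈ U) (hUinv : ∀ a ∈ U, a⁻¹ ∈ U)
    (ω : E → ℤ) (hω : ∀ a ∈ U, ∀ b ∈ U, ω (a * b) = ω a + ω b) {a : E} (ha : a ∈ U) :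
    ω a⁻¹ = - ω a := by
  have h := hω a ha a⁻¹ (hUinv a ha)
  rw [mul_inv_cancel₀ (hU0 a ha), g2y_omega_one U hU0 hUmul hUinv ω hω ha] at h
  linarith

/-- **the transfer `Y → X`.**  `U ⊂ E^×` a subgroup (the units of the valuation ring of the
branch), `ω` additive on `U` (the order at a point of the reduced branch), every `f ≠ 0` has a
constant multiple in `U`, `ω` vanishes on the constants of `U`.  If
`u'' = c · u_x · h ^ p` and `c₁ u_x`, `c₂ u''` lie in `U`, then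
`ω (c₂ u'') ≡ ω (c₁ u_x)  (mod p)`. -/
theorem g2y_transfer (U : Set E) (hU0 : ∀ a ∈ U, a ≠ 0)
    (hUmul : ∀ a ∈ U, ∀ b ∈ U, a * b ∈ U) (hUinv : ∀ a ∈ U, a⁻¹ ∈ U)
    (ω : E → ℤ) (hω : ∀ a ∈ U, ∀ b ∈ U, ω (a * b) = ω a + ω b)
    (hscale : ∀ f : E, f ≠ 0 → ∃ c : K, algebraMap K E c * f ∈ U)
    (hconst : ∀ c : K, algebraMap K E c ∈ U → ω (algebraMap K E c) = 0)
    (p : ℕ) (u'' ux h : E) (c : K) (hh : h ≠ 0)
    (hrel : u'' = algebraMap K E c * ux * h ^ p)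
    (c₁ c₂ : K) (h1 : algebraMap K E c₁ * ux ∈ U) (h2 : algebraMap K E c₂ * u'' ∈ U) :
    (p : ℤ) ∣ ω (algebraMap K E c₂ * u'') - ω (algebraMap K E c₁ * ux) := by
  obtain ⟨c₃, h3⟩ := hscale h hh
  have hB0 := hU0 _ h1
  have hH0 := hU0 _ h3
  have hc1 : algebraMap K E c₁ ≠ 0 := left_ne_zero_of_mul hB0
  have hux : ux ≠ 0 := right_ne_zero_of_mul hB0
  have hc3 : algebraMap K E c₃ ≠ 0 := left_ne_zero_of_mul hH0
  have hHp := g2y_pow_mem U hU0 hUmul hUinv h3 p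
  -- the constant
  have he : algebraMap K E (c₂ * c * (c₁ * c₃ ^ p)⁻¹) =
      (algebraMap K E c₂ * u'') * (algebraMap K E c₁ * ux)⁻¹ *
        ((algebraMap K E c₃ * h) ^ p)⁻¹ := by
    rw [hrel, map_mul, map_mul, map_inv₀, map_mul, map_pow, mul_pow]
    field_simp
  have heU : algebraMap K E (c₂ * c * (c₁ * c₃ ^ p)⁻¹) ∈ U := by
    rw [he]
    exact hUmul _ (hUmul _ h2 _ (hUinv _ h1)) _ (hUinv _ hHp)
  have hA : algebraMap K E c₂ * u'' =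
      algebraMap K E (c₂ * c * (c₁ * c₃ ^ p)⁻¹) * (algebraMap K E c₁ * ux) *
        (algebraMap K E c₃ * h) ^ p := by
    rw [he]
    field_simp
  have h4 := congrArg ω hA
  rw [hω _ (hUmul _ heU _ h1) _ hHp, hω _ heU _ h1, hconst _ heU,
    g2y_omega_pow U hU0 hUmul hUinv ω hω h3] at h4
  refine ⟨ω (algebraMap K E c₃ * h), ?_⟩
  rw [h4]
  ring

/-- **(S4) the horizontal orders of `u''`**: `ṽ` additive on `E`, trivial on the constants,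
`p ∣ ṽ u_x` (`div u_x = p D`), `u'' = c u_x h ^ p`  ⇒  `p ∣ ṽ u''`. -/
theorem g2y_hval (v : E → ℤ) (hv : ∀ a b : E, a ≠ 0 → b ≠ 0 → v (a * b) = v a + v b)
    (hvK : ∀ c : K, c ≠ 0 → v (algebraMap K E c) = 0)
    (p : ℕ) (u'' ux h : E) (c : K) (hu : u'' ≠ 0)
    (hrel : u'' = algebraMap K E c * ux * h ^ p) (hvx : (p : ℤ) ∣ v ux) :
    (p : ℤ) ∣ v u'' := by
  rw [hrel] at hu
  have hh : h ^ p ≠ 0 := right_ne_zero_of_mul hu
  have hcu : algebraMap K E c * ux ≠ 0 := left_ne_zero_of_mul hu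
  have hc : algebraMap K E c ≠ 0 := left_ne_zero_of_mul hcu
  have hux : ux ≠ 0 := right_ne_zero_of_mul hcu
  have hc' : c ≠ 0 := fun h0 => hc (by rw [h0, map_zero])
  have hpow : (p : ℤ) ∣ v (h ^ p) := by
    by_cases hh' : h = 0
    · have hp0 : p = 0 := by
        by_contra hp
        exact hh (by rw [hh', zero_pow hp])
      rw [hp0, pow_zero, g2y_ord_one v hv]
      exact dvd_zero _
    · rw [g2y_ord_pow v hv hh']
      exact dvd_mul_right _ _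
  rw [hrel, hv _ _ hcu hh, hv _ _ hc hux, hvK c hc', zero_add]
  exact dvd_add hvx hpow

end Transfer

/-! ### (d) WINDC at the points of the special fibre of the cover -/

section Windc

variable {L E0 κ K E : Type*} [CommRing L] [IsDomain L] [UniqueFactorizationMonoid L]
  [Field E0] [Algebra L E0] [IsFractionRing L E0] [Field κ] [Field K] [Field E] [Algebra K E]

omit [IsDomain L] [UniqueFactorizationMonoid L] in
/-- the reduction order of `c₂ u` for `c₂ = c₀ ^ (-k)`, from a decomposition `u d = ϖ ^ k n`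
in the node ring (`ϖ ↦ c₀`, `n`, `d` go to `U`, `ω = w ∘ red` on them). -/
theorem g2y_omega_decomp (x : L) (red : L →+* κ) (w : κ → ℤ)
    (ι : E0 →+* E) (U : Set E) (hU0 : ∀ a ∈ U, a ≠ 0)
    (hUmul : ∀ a ∈ U, ∀ b ∈ U, a * b ∈ U) (hUinv : ∀ a ∈ U, a⁻¹ ∈ U)
    (ω : E → ℤ) (hω : ∀ a ∈ U, ∀ b ∈ U, ω (a * b) = ω a + ω b)
    (hLU : ∀ z : L, ¬ x ∣ z →
      ι (algebraMap L E0 z) ∈ U ∧ ω (ι (algebraMap L E0 z)) = w (red z))
    (ϖ : L) (c₀ : K) (hc₀ : ι (algebraMap L E0 ϖ) = algebraMap K E c₀) (hϖ0 : ϖ ≠ 0)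
    (u : E0) (k : ℤ) (n d : L) (hn : ¬ x ∣ n) (hd : ¬ x ∣ d)
    (hfx : u * algebraMap L E0 d = algebraMap L E0 ϖ ^ k * algebraMap L E0 n) :
    algebraMap K E (c₀ ^ (-k)) * ι u ∈ U ∧
      ω (algebraMap K E (c₀ ^ (-k)) * ι u) = w (red n) - w (red d) := by
  obtain ⟨hnU, hnω⟩ := hLU n hn
  obtain ⟨hdU, hdω⟩ := hLU d hd
  have hd0 := hU0 _ hdU
  have hinj : Function.Injective (algebraMap L E0) := IsFractionRing.injective L E0
  have hϖE : ι (algebraMap L E0 ϖ) ≠ 0 := by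
    rw [Ne, map_eq_zero, ← map_zero (algebraMap L E0)]
    exact fun h => hϖ0 (hinj h)
  have hc0 : algebraMap K E c₀ ≠ 0 := by rw [← hc₀]; exact hϖE
  have h1 := congrArg ι hfx
  rw [map_mul, map_mul, map_zpow₀, hc₀] at h1
  have h2 : algebraMap K E (c₀ ^ (-k)) * ι u =
      ι (algebraMap L E0 n) * (ι (algebraMap L E0 d))⁻¹ := by
    rw [map_zpow₀, zpow_neg, eq_mul_inv_iff_mul_eq₀ hd0, mul_assoc, h1, ← mul_assoc,
      inv_mul_cancel₀ (zpow_ne_zero k hc0), one_mul]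
  rw [h2]
  refine ⟨hUmul _ hnU _ (hUinv _ hdU), ?_⟩
  rw [hω _ hnU _ (hUinv _ hdU), g2y_omega_inv U hU0 hUmul hUinv ω hω hdU, hnω, hdω]
  ring

/-- **WINDC at a node of the cover** ((a) + (b) + (c)).  Node ring `L` of `Y` with vertical
primes `x`, `y`, `ϖ = ε x y`, edge inputs `(κ, red, w)`; `u ∈ E0` with `σ u = κ' g ^ p u`,
`p ∣ v∞ κ'`, `p ∣ v0 κ'`, horizontal orders divisible by `p`; the vertical orders of `L` are
`σ`-conjugate to `v∞`, `v0`.  `ι : E0 → E`, `(U, ω)` the unit group and the reduction order of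
the branch on `E`, compatible with `(red, w)` on `L ∖ (x)`; `ι u = c · u_x · h ^ p` and
`c₁ u_x ∈ U`.  Then `ω (c₁ u_x) ≡ v0 u - v∞ u  (mod p)`. -/
theorem g2y_windc_node (x y : L) (hx : Prime x) (hy : Prime y) (hxy : ¬ Associated x y)
    (ϖ : L) (ε : Lˣ) (hϖ : ϖ = ε * x * y)
    (red : L →+* κ) (hred : ∀ c, red c = 0 ↔ x ∣ c)
    (w : κ → ℤ) (hw : ∀ a b : κ, a ≠ 0 → b ≠ 0 → w (a * b) = w a + w b)
    (hw0 : ∀ c : L, red c ≠ 0 → 0 ≤ w (red c)) (hwy : w (red y) = 1)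
    (p : ℕ) (σ : E0 →+* E0) (u g κ' : E0) (hu : u ≠ 0) (hg : g ≠ 0) (hκ0 : κ' ≠ 0)
    (hσκ : σ κ' = κ') (hσu : σ u = κ' * g ^ p * u)
    (hval : ∀ π : L, Prime π → ¬ Associated π x → ¬ Associated π y →
      ∃ v : E0 → ℤ, (∀ a b : E0, a ≠ 0 → b ≠ 0 → v (a * b) = v a + v b) ∧
        v (algebraMap L E0 π) = 1 ∧
        (∀ c : L, c ≠ 0 → ¬ π ∣ c → v (algebraMap L E0 c) = 0) ∧ (p : ℤ) ∣ v u)
    (vInf vZero : E0 → ℤ)
    (hvInf : ∀ a b : E0, a ≠ 0 → b ≠ 0 → vInf (a * b) = vInf a + vInf b)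
    (hvZero : ∀ a b : E0, a ≠ 0 → b ≠ 0 → vZero (a * b) = vZero a + vZero b)
    (hκInf : (p : ℤ) ∣ vInf κ') (hκZero : (p : ℤ) ∣ vZero κ')
    (hcx : ∃ i : ℕ, ∀ f : E0, f ≠ 0 → s36_ordAt x hx f = vInf ((⇑σ)^[i] f))
    (hcy : ∃ i : ℕ, ∀ f : E0, f ≠ 0 → s36_ordAt y hy f = vZero ((⇑σ)^[i] f))
    (ι : E0 →+* E) (U : Set E) (hU0 : ∀ a ∈ U, a ≠ 0)
    (hUmul : ∀ a ∈ U, ∀ b ∈ U, a * b ∈ U) (hUinv : ∀ a ∈ U, a⁻¹ ∈ U)
    (ω : E → ℤ) (hω : ∀ a ∈ U, ∀ b ∈ U, ω (a * b) = ω a + ω b)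
    (hscale : ∀ f : E, f ≠ 0 → ∃ c : K, algebraMap K E c * f ∈ U)
    (hconst : ∀ c : K, algebraMap K E c ∈ U → ω (algebraMap K E c) = 0)
    (hLU : ∀ z : L, ¬ x ∣ z →
      ι (algebraMap L E0 z) ∈ U ∧ ω (ι (algebraMap L E0 z)) = w (red z))
    (c₀ : K) (hc₀ : ι (algebraMap L E0 ϖ) = algebraMap K E c₀)
    (ux h : E) (c : K) (hh : h ≠ 0) (hrel : ι u = algebraMap K E c * ux * h ^ p)
    (c₁ : K) (h1 : algebraMap K E c₁ * ux ∈ U) :
    (p : ℤ) ∣ ω (algebraMap K E c₁ * ux) - (vZero u - vInf u) := by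
  have hϖ0 : ϖ ≠ 0 := by
    rw [hϖ]
    exact mul_ne_zero (mul_ne_zero ε.ne_zero hx.ne_zero) hy.ne_zero
  obtain ⟨n, d, hn, hd, hfx⟩ := edr_exists_decomp x y hx hy hxy ϖ ε hϖ u hu
  have hnode := g2y_node x y hx hy hxy ϖ ε hϖ red hred w hw hw0 hwy p σ u g κ' hu hg hκ0
    hσκ hσu hval vInf vZero hvInf hvZero hκInf hκZero hcx hcy _ n d hn hd hfx
  obtain ⟨h2U, h2ω⟩ := g2y_omega_decomp x red w ι U hU0 hUmul hUinv ω hω hLU ϖ c₀ hc₀ hϖ0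
    u _ n d hn hd hfx
  have htr := g2y_transfer U hU0 hUmul hUinv ω hω hscale hconst p (ι u) ux h c hh hrel
    c₁ _ h1 h2U
  rw [h2ω] at htr
  have h3 : ω (algebraMap K E c₁ * ux) - (vZero u - vInf u) =
      ((w (red n) - w (red d)) - (vZero u - vInf u)) -
        ((w (red n) - w (red d)) - ω (algebraMap K E c₁ * ux)) := by ring
  rw [h3]
  exact dvd_sub hnode htr

/-- **WINDC at a smooth point of the special fibre of the cover** (one vertical prime `x`,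
`ϖ = ε x`): `ω (c₁ u_x) ≡ 0  (mod p)`. -/
theorem g2y_windc_smooth (x : L) (hx : Prime x) (ϖ : L) (ε : Lˣ) (hϖ : ϖ = ε * x)
    (red : L →+* κ) (hred : ∀ c, red c = 0 ↔ x ∣ c)
    (w : κ → ℤ) (hw : ∀ a b : κ, a ≠ 0 → b ≠ 0 → w (a * b) = w a + w b)
    (hw0 : ∀ c : L, red c ≠ 0 → 0 ≤ w (red c))
    (p : ℕ) (u : E0) (hu : u ≠ 0)
    (hval : ∀ π : L, Prime π → ¬ Associated π x →
      ∃ v : E0 → ℤ, (∀ a b : E0, a ≠ 0 → b ≠ 0 → v (a * b) = v a + v b) ∧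
        v (algebraMap L E0 π) = 1 ∧
        (∀ c : L, c ≠ 0 → ¬ π ∣ c → v (algebraMap L E0 c) = 0) ∧ (p : ℤ) ∣ v u)
    (ι : E0 →+* E) (U : Set E) (hU0 : ∀ a ∈ U, a ≠ 0)
    (hUmul : ∀ a ∈ U, ∀ b ∈ U, a * b ∈ U) (hUinv : ∀ a ∈ U, a⁻¹ ∈ U)
    (ω : E → ℤ) (hω : ∀ a ∈ U, ∀ b ∈ U, ω (a * b) = ω a + ω b)
    (hscale : ∀ f : E, f ≠ 0 → ∃ c : K, algebraMap K E c * f ∈ U)
    (hconst : ∀ c : K, algebraMap K E c ∈ U → ω (algebraMap K E c) = 0)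
    (hLU : ∀ z : L, ¬ x ∣ z →
      ι (algebraMap L E0 z) ∈ U ∧ ω (ι (algebraMap L E0 z)) = w (red z))
    (c₀ : K) (hc₀ : ι (algebraMap L E0 ϖ) = algebraMap K E c₀)
    (ux h : E) (c : K) (hh : h ≠ 0) (hrel : ι u = algebraMap K E c * ux * h ^ p)
    (c₁ : K) (h1 : algebraMap K E c₁ * ux ∈ U) :
    (p : ℤ) ∣ ω (algebraMap K E c₁ * ux) := by
  have hϖ0 : ϖ ≠ 0 := by
    rw [hϖ]
    exact mul_ne_zero ε.ne_zero hx.ne_zero
  have hxε : ∀ v : Lˣ, ¬ x ∣ (v : L) := fun v h =>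
    hx.not_isUnit (isUnit_of_dvd_unit h v.isUnit)
  obtain ⟨n, d, hn, hd, hfx⟩ := dvr_exists_decomp x hx u hu
  -- rewrite the decomposition in powers of `ϖ`
  set k : ℤ := s36_ordAt x hx u with hk
  have hn' : ¬ x ∣ ((ε ^ (-k) : Lˣ) : L) * n := fun h =>
    (hx.dvd_or_dvd h).elim (hxε _) hn
  have hinj : Function.Injective (algebraMap L E0) := IsFractionRing.injective L E0
  have hεE : algebraMap L E0 (ε : L) ≠ 0 := by
    rw [Ne, ← map_zero (algebraMap L E0)]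
    exact fun h => ε.ne_zero (hinj h)
  have hfx' : u * algebraMap L E0 d =
      algebraMap L E0 ϖ ^ k * algebraMap L E0 (((ε ^ (-k) : Lˣ) : L) * n) := by
    rw [hfx, hϖ, map_mul, map_mul, mul_zpow, s36_algebraMap_units_zpow, zpow_neg]
    field_simp
  have hone := dvr_one_branch_pi x hx ϖ ε hϖ red hred w hw hw0 p u hu hval k _ d hn' hd hfx'
  obtain ⟨h2U, h2ω⟩ := g2y_omega_decomp x red w ι U hU0 hUmul hUinv ω hω hLU ϖ c₀ hc₀ hϖ0
    u k _ d hn' hd hfx'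
  have htr := g2y_transfer U hU0 hUmul hUinv ω hω hscale hconst p (ι u) ux h c hh hrel
    c₁ _ h1 h2U
  rw [h2ω] at htr
  have h3 : ω (algebraMap K E c₁ * ux) =
      (w (red (((ε ^ (-k) : Lˣ) : L) * n)) - w (red d)) -
        ((w (red (((ε ^ (-k) : Lˣ) : L) * n)) - w (red d)) -
          ω (algebraMap K E c₁ * ux)) := by ring
  rw [h3]
  exact dvd_sub hone htr

end Windc

end Fermat.Agent.S40lib
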