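import Mathlib
import Fermat.Agent.S36lib.Speed
import Fermat.Agent.S40lib.EdgeCover
import Fermat.Agent.S40lib.EtaleNode

/-!
# Item 88 (S40/S44), block (J-WILD), piece G2e (helper12): the comparison `Y → X`

* `g2e_decomp` : `R` Noetherian local, `𝔪_R = (x, y)`, `x ∤ a`  ⇒  `a = u y ^ n + x b`, `u` a unit.
* `g2e_val`    : for an edge datum `(κ, red, w)` on a ring `L` (`red x = 0`, `w` additive, `≥ 0` on
  the image of `red`, `w (red y) = 1`) and `a = u y ^ n + x b`: `red a ≠ 0`, `w (red a) = n`.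
* `g2e_node`   : **the comparison**: `f : R →+* L`, edge data on `R` and on `L`:
  `w₂ (red₂ (f a)) = w₁ (red₁ a)` for every `a ∈ R ∖ (x)`  (at nodes: `y` the other vertical
  prime; at smooth points: `y` any element with `𝔪_R = (x, y)`).
* `g2e_unique` : the case `L = R`: a normalised edge datum is unique on `R ∖ (x)`.
* `g2eU`, `g2eOmega` : the unit group `U` and the reduction order `ω = W ∘ redE` of a valuation
  ring `OE` of `E` with reduction `redE : OE →+* κE` and an additive `W : κE → ℤ`;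
  `g2e_U_mul`, `g2e_U_inv`, `g2e_omega_mul` (= `hU0 hUmul hUinv hω` of `g2y_windc_node`),
  `g2e_hLU` (= `hLU`, from `g2e_unique`), `g2e_tower` (`ω (φ f) = wQ (redF f)` for units `f` of
  the valuation ring of the function field `F` of `X`).
* `g2e_windc_node`, `g2e_windc_smooth` : `g2y_windc_node` / `g2y_windc_smooth` with `(U, ω)`
  built from `(OE, redE, W)` and the conclusion on `X`:
  `p ∣ wQ (redF (c₁ u_x)) - (vZero u - vInf u)`,  resp.  `p ∣ wQ (redF (c₁ u_x))`.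
(complete proofs; standard axioms only)
-/

set_option autoImplicit false
set_option linter.style.haveILetI false
set_option linter.unusedSectionVars false
set_option linter.unusedVariables false

namespace Fermat.Agent.S40lib

open IsLocalRing Fermat.Agent.S36lib

section Decomp

variable {R : Type*} [CommRing R] [IsLocalRing R] [IsNoetherianRing R]

/-- in a Noetherian local ring with `𝔪 = (x, y)` every element outside `(x)` is
`u y ^ n + x b` with `u` a unit -/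
theorem g2e_decomp (x y : R) (hm : maximalIdeal R = Ideal.span {x, y}) (a : R) (ha : ¬ x ∣ a) :
    ∃ (n : ℕ) (u : Rˣ) (b : R), a = (u : R) * y ^ n + x * b := by
  set I : Ideal R := Ideal.span {x} with hI
  have hxm : x ∈ maximalIdeal R := by rw [hm]; exact Ideal.subset_span (by simp)
  have hIle : I ≤ maximalIdeal R := by
    rw [hI, Ideal.span_singleton_le_iff_mem]; exact hxm
  have hIne : I ≠ ⊤ := fun h => (Ideal.IsPrime.ne_top (inferInstance : (maximalIdeal R).IsPrime))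
    (top_le_iff.1 (h ▸ hIle))
  haveI : Nontrivial (R ⧸ I) := Ideal.Quotient.nontrivial_iff.2 hIne
  haveI : IsLocalRing (R ⧸ I) :=
    IsLocalRing.of_surjective' (Ideal.Quotient.mk I) Ideal.Quotient.mk_surjective
  have hmax : maximalIdeal (R ⧸ I) = Ideal.span {Ideal.Quotient.mk I y} := by
    rw [etn_maximalIdeal_quot I hIle, hm, Ideal.map_span, Set.image_pair]
    have h0 : Ideal.Quotient.mk I x = 0 :=
      Ideal.Quotient.eq_zero_iff_mem.2 (Ideal.subset_span (Set.mem_singleton _))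
    rw [h0]
    apply le_antisymm
    · rw [Ideal.span_le]
      rintro a (rfl | rfl)
      · exact Ideal.zero_mem _
      · exact Ideal.subset_span (Set.mem_singleton _)
    · exact Ideal.span_mono (by simp)
  have ha0 : Ideal.Quotient.mk I a ≠ 0 := by
    intro h
    rw [Ideal.Quotient.eq_zero_iff_mem, hI, Ideal.mem_span_singleton] at h
    exact ha h
  obtain ⟨n, ub, hub⟩ := etn_unit_mul_pow (Ideal.Quotient.mk I y) hmax _ ha0
  obtain ⟨u', hu'⟩ := Ideal.Quotient.mk_surjective (ub : R ⧸ I)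
  have hu'unit : IsUnit u' := by
    by_contra hnu
    have hmem : u' ∈ maximalIdeal R := (IsLocalRing.mem_maximalIdeal u').2 hnu
    have h1 : Ideal.Quotient.mk I u' ∈ maximalIdeal (R ⧸ I) := by
      rw [etn_maximalIdeal_quot I hIle]; exact Ideal.mem_map_of_mem _ hmem
    rw [hu'] at h1
    exact (IsLocalRing.mem_maximalIdeal _).1 h1 ub.isUnit
  obtain ⟨u, rfl⟩ := hu'unit
  have hsub : a - (u : R) * y ^ n ∈ I := by
    rw [← Ideal.Quotient.eq_zero_iff_mem, map_sub, map_mul, map_pow, hu', ← hub, sub_self]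
  rw [hI, Ideal.mem_span_singleton] at hsub
  obtain ⟨b, hb⟩ := hsub
  exact ⟨n, u, b, by rw [← hb]; ring⟩

end Decomp

section Val

variable {R L κ : Type*} [CommRing R] [CommRing L] [Field κ]

/-- the reduction order of `a = u y ^ n + x b` is `n` -/
theorem g2e_val (f : R →+* L) (x y : R) (red : L →+* κ) (hredx : red (f x) = 0)
    (w : κ → ℤ) (hw : ∀ a b : κ, a ≠ 0 → b ≠ 0 → w (a * b) = w a + w b)
    (hw0 : ∀ c : L, red c ≠ 0 → 0 ≤ w (red c))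
    (hy0 : red (f y) ≠ 0) (hwy : w (red (f y)) = 1)
    (n : ℕ) (u : Rˣ) (b a : R) (ha : a = (u : R) * y ^ n + x * b) :
    red (f a) ≠ 0 ∧ w (red (f a)) = n := by
  have hu0 : red (f (u : R)) ≠ 0 := ((u.isUnit.map f).map red).ne_zero
  have hyn : red (f y) ^ n ≠ 0 := pow_ne_zero _ hy0
  have hra : red (f a) = red (f (u : R)) * red (f y) ^ n := by
    rw [ha, map_add, map_add, map_mul, map_mul, map_mul, map_mul, map_pow, map_pow, hredx,
      zero_mul, add_zero]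
  refine ⟨by rw [hra]; exact mul_ne_zero hu0 hyn, ?_⟩
  have hwu : w (red (f (u : R))) = 0 := edr_W_unit red w hw hw0 (Units.map (f : R →* L) u)
  have hwp : w (red (f y) ^ n) = n := by
    have := edr_W_pow red w hw hy0 n
    rw [map_pow, hwy, mul_one] at this
    exact this
  rw [hra, hw _ _ hu0 hyn, hwu, hwp, zero_add]

end Val

section Node

variable {R : Type*} [CommRing R] [IsLocalRing R] [IsNoetherianRing R]
  {L : Type*} [CommRing L] {κ₁ κ₂ : Type*} [Field κ₁] [Field κ₂]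

/-- **G2e, the comparison `Y → X`**: `R` the node ring of `X` (or the local ring at a smooth
point), `𝔪_R = (x, y)`, `f : R →+* L` the map to the node ring of `Y`, edge data
`(κ₁, red₁, w₁)` on `R` and `(κ₂, red₂, w₂)` on `L`.  Then the reduction orders agree on
`R ∖ (x)`. -/
theorem g2e_node (f : R →+* L) (x y : R) (hm : maximalIdeal R = Ideal.span {x, y})
    (red₁ : R →+* κ₁) (hred₁ : ∀ c, red₁ c = 0 ↔ x ∣ c)
    (w₁ : κ₁ → ℤ) (hw₁ : ∀ a b : κ₁, a ≠ 0 → b ≠ 0 → w₁ (a * b) = w₁ a + w₁ b)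
    (hw0₁ : ∀ c : R, red₁ c ≠ 0 → 0 ≤ w₁ (red₁ c)) (hwy₁ : w₁ (red₁ y) = 1)
    (hxy₁ : ¬ x ∣ y)
    (red₂ : L →+* κ₂) (hred₂ : ∀ c, red₂ c = 0 ↔ f x ∣ c)
    (w₂ : κ₂ → ℤ) (hw₂ : ∀ a b : κ₂, a ≠ 0 → b ≠ 0 → w₂ (a * b) = w₂ a + w₂ b)
    (hw0₂ : ∀ c : L, red₂ c ≠ 0 → 0 ≤ w₂ (red₂ c)) (hwy₂ : w₂ (red₂ (f y)) = 1)
    (hxy₂ : ¬ f x ∣ f y)
    (a : R) (ha : ¬ x ∣ a) :
    ¬ f x ∣ f a ∧ w₂ (red₂ (f a)) = w₁ (red₁ a) := by
  obtain ⟨n, u, b, hab⟩ := g2e_decomp x y hm a ha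
  have h1 := g2e_val (RingHom.id R) x y red₁ ((hred₁ x).2 dvd_rfl) w₁ hw₁ hw0₁
    (fun h => hxy₁ ((hred₁ y).1 h)) hwy₁ n u b a hab
  have h2 := g2e_val f x y red₂ ((hred₂ (f x)).2 dvd_rfl) w₂ hw₂ hw0₂
    (fun h => hxy₂ ((hred₂ (f y)).1 h)) hwy₂ n u b a hab
  refine ⟨fun h => h2.1 ((hred₂ _).2 h), ?_⟩
  rw [h2.2]
  exact h1.2.symm

/-- a normalised edge datum on a node ring is unique on `R ∖ (x)` -/
theorem g2e_unique (x y : R) (hm : maximalIdeal R = Ideal.span {x, y})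
    (red₁ : R →+* κ₁) (hred₁ : ∀ c, red₁ c = 0 ↔ x ∣ c)
    (w₁ : κ₁ → ℤ) (hw₁ : ∀ a b : κ₁, a ≠ 0 → b ≠ 0 → w₁ (a * b) = w₁ a + w₁ b)
    (hw0₁ : ∀ c : R, red₁ c ≠ 0 → 0 ≤ w₁ (red₁ c)) (hwy₁ : w₁ (red₁ y) = 1)
    (hxy : ¬ x ∣ y)
    (red₂ : R →+* κ₂) (hred₂ : ∀ c, red₂ c = 0 ↔ x ∣ c)
    (w₂ : κ₂ → ℤ) (hw₂ : ∀ a b : κ₂, a ≠ 0 → b ≠ 0 → w₂ (a * b) = w₂ a + w₂ b)
    (hw0₂ : ∀ c : R, red₂ c ≠ 0 → 0 ≤ w₂ (red₂ c)) (hwy₂ : w₂ (red₂ y) = 1)
    (a : R) (ha : ¬ x ∣ a) : w₂ (red₂ a) = w₁ (red₁ a) :=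
  (g2e_node (RingHom.id R) x y hm red₁ hred₁ w₁ hw₁ hw0₁ hwy₁ hxy red₂ hred₂ w₂ hw₂ hw0₂
    hwy₂ hxy a ha).2

end Node

/-! ### the unit group and the reduction order of a branch of `Y` -/

section Package

variable {E κE : Type*} [Field E] [Field κE]

/-- the units of the valuation ring `OE` -/
def g2eU (OE : ValuationSubring E) : Set E := {f | f ≠ 0 ∧ f ∈ OE ∧ f⁻¹ ∈ OE}

open Classical in
/-- the reduction order `ω = W ∘ redE` -/
noncomputable def g2eOmega (OE : ValuationSubring E) (redE : OE →+* κE) (W : κE → ℤ)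
    (f : E) : ℤ :=
  if h : f ∈ OE then W (redE ⟨f, h⟩) else 0

theorem g2e_omega_eq (OE : ValuationSubring E) (redE : OE →+* κE) (W : κE → ℤ)
    (f : E) (h : f ∈ OE) : g2eOmega OE redE W f = W (redE ⟨f, h⟩) := by
  unfold g2eOmega
  rw [dif_pos h]

theorem g2e_U_ne_zero (OE : ValuationSubring E) : ∀ a ∈ g2eU OE, a ≠ 0 := fun _ h => h.1

theorem g2e_U_mul (OE : ValuationSubring E) :
    ∀ a ∈ g2eU OE, ∀ b ∈ g2eU OE, a * b ∈ g2eU OE := by
  rintro a ⟨ha0, ha, ha'⟩ b ⟨hb0, hb, hb'⟩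
  refine ⟨mul_ne_zero ha0 hb0, OE.mul_mem _ _ ha hb, ?_⟩
  rw [mul_inv]
  exact OE.mul_mem _ _ ha' hb'

theorem g2e_U_inv (OE : ValuationSubring E) : ∀ a ∈ g2eU OE, a⁻¹ ∈ g2eU OE := by
  rintro a ⟨ha0, ha, ha'⟩
  exact ⟨inv_ne_zero ha0, ha', by rwa [inv_inv]⟩

theorem g2e_red_ne_zero (OE : ValuationSubring E) (redE : OE →+* κE) {a : E}
    (ha : a ∈ g2eU OE) : redE ⟨a, ha.2.1⟩ ≠ 0 := by
  intro h0
  have h1 : (⟨a, ha.2.1⟩ : OE) * ⟨a⁻¹, ha.2.2⟩ = 1 := by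
    apply Subtype.ext
    show a * a⁻¹ = 1
    exact mul_inv_cancel₀ ha.1
  have h2 := congrArg redE h1
  rw [map_mul, h0, zero_mul, map_one] at h2
  exact zero_ne_one h2

theorem g2e_omega_mul (OE : ValuationSubring E) (redE : OE →+* κE) (W : κE → ℤ)
    (hW : ∀ a b : κE, a ≠ 0 → b ≠ 0 → W (a * b) = W a + W b) :
    ∀ a ∈ g2eU OE, ∀ b ∈ g2eU OE,
      g2eOmega OE redE W (a * b) = g2eOmega OE redE W a + g2eOmega OE redE W b := by
  intro a ha b hb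
  rw [g2e_omega_eq OE redE W _ (OE.mul_mem _ _ ha.2.1 hb.2.1), g2e_omega_eq OE redE W _ ha.2.1,
    g2e_omega_eq OE redE W _ hb.2.1]
  have h1 : (⟨a * b, OE.mul_mem _ _ ha.2.1 hb.2.1⟩ : OE) = ⟨a, ha.2.1⟩ * ⟨b, hb.2.1⟩ := rfl
  rw [h1, map_mul]
  exact hW _ _ (g2e_red_ne_zero OE redE ha) (g2e_red_ne_zero OE redE hb)

/-- **`hLU` of `g2y_windc_node`**: the order `ω = W ∘ redE` restricted to the node ring `L` of
`Y` is the order `w ∘ red` of ANY normalised edge datum of `L`. -/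
theorem g2e_hLU {L E0 κ : Type*} [CommRing L] [IsLocalRing L] [IsNoetherianRing L]
    [Field E0] [Algebra L E0] [Field κ] (x y : L)
    (hm : maximalIdeal L = Ideal.span {x, y})
    (red : L →+* κ) (hred : ∀ c, red c = 0 ↔ x ∣ c)
    (w : κ → ℤ) (hw : ∀ a b : κ, a ≠ 0 → b ≠ 0 → w (a * b) = w a + w b)
    (hw0 : ∀ c : L, red c ≠ 0 → 0 ≤ w (red c)) (hwy : w (red y) = 1)
    (hxy : ¬ x ∣ y)
    (ι : E0 →+* E) (OE : ValuationSubring E) (redE : OE →+* κE)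
    (hOEunit : ∀ f : OE, redE f ≠ 0 → ((f : E))⁻¹ ∈ OE)
    (hLO : ∀ z : L, ι (algebraMap L E0 z) ∈ OE)
    (hredL : ∀ z : L, redE ⟨ι (algebraMap L E0 z), hLO z⟩ = 0 ↔ x ∣ z)
    (W : κE → ℤ) (hW : ∀ a b : κE, a ≠ 0 → b ≠ 0 → W (a * b) = W a + W b)
    (hW0 : ∀ z : L, ¬ x ∣ z → 0 ≤ W (redE ⟨ι (algebraMap L E0 z), hLO z⟩))
    (hWy : W (redE ⟨ι (algebraMap L E0 y), hLO y⟩) = 1) :
    ∀ z : L, ¬ x ∣ z → ι (algebraMap L E0 z) ∈ g2eU OE ∧
      g2eOmega OE redE W (ι (algebraMap L E0 z)) = w (red z) := by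
  intro z hz
  -- the second edge datum on `L`
  set g : L →+* OE := (ι.comp (algebraMap L E0)).codRestrict OE.toSubring hLO with hg
  set red₂ : L →+* κE := redE.comp g with hred₂
  have hred₂z : ∀ c : L, red₂ c = redE ⟨ι (algebraMap L E0 c), hLO c⟩ := fun c => rfl
  have hne : redE ⟨ι (algebraMap L E0 z), hLO z⟩ ≠ 0 := fun h => hz ((hredL z).1 h)
  have hz0 : ι (algebraMap L E0 z) ≠ 0 := by
    intro h0
    apply hne
    have : (⟨ι (algebraMap L E0 z), hLO z⟩ : OE) = 0 := Subtype.ext h0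
    rw [this, map_zero]
  refine ⟨⟨hz0, hLO z, hOEunit _ hne⟩, ?_⟩
  rw [g2e_omega_eq OE redE W _ (hLO z)]
  have huniq := g2e_unique x y hm red hred w hw hw0 hwy hxy red₂
    (fun c => by rw [hred₂z]; exact hredL c) W hW
    (fun c hc => by
      rw [hred₂z] at hc ⊢
      exact hW0 c (fun h => hc ((hredL c).2 h)))
    (by rw [hred₂z]; exact hWy) z hz
  rw [hred₂z] at huniq
  exact huniq

/-- **G2e on functions of `X`**: for a unit `f` of the valuation ring `OF` of the function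
field `F` of `X`, `φ f` is a unit of `OE` and `ω (φ f) = wQ (redF f)`. -/
theorem g2e_tower {F Fk : Type*} [Field F] [Field Fk]
    (OE : ValuationSubring E) (redE : OE →+* κE) (W : κE → ℤ)
    (φ : F →+* E) (OF : ValuationSubring F) (redF : OF →+* Fk) (j : Fk →+* κE)
    (hφO : ∀ f : F, f ∈ OF → φ f ∈ OE)
    (hφred : ∀ (f : F) (hf : f ∈ OF), redE ⟨φ f, hφO f hf⟩ = j (redF ⟨f, hf⟩))
    (wQ : Fk → ℤ) (hWj : ∀ a : Fk, a ≠ 0 → W (j a) = wQ a)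
    (f : F) (hf0 : f ≠ 0) (hf : f ∈ OF) (hf' : f⁻¹ ∈ OF) :
    φ f ∈ g2eU OE ∧ g2eOmega OE redE W (φ f) = wQ (redF ⟨f, hf⟩) := by
  have hU : φ f ∈ g2eU OE := by
    refine ⟨(map_ne_zero φ).2 hf0, hφO f hf, ?_⟩
    rw [← map_inv₀]
    exact hφO _ hf'
  refine ⟨hU, ?_⟩
  rw [g2e_omega_eq OE redE W _ (hφO f hf), hφred f hf]
  apply hWj
  intro h0
  have h1 : (⟨f, hf⟩ : OF) * ⟨f⁻¹, hf'⟩ = 1 := by
    apply Subtype.ext
    show f * f⁻¹ = 1
    exact mul_inv_cancel₀ hf0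
  have h2 := congrArg redF h1
  rw [map_mul, h0, zero_mul, map_one] at h2
  exact zero_ne_one h2

end Package

/-! ### WINDC on `X` from the edge rule on `Y` -/

section Windc

variable {L E0 κ K E κE F Fk : Type*} [CommRing L] [IsDomain L] [UniqueFactorizationMonoid L]
  [IsLocalRing L] [IsNoetherianRing L]
  [Field E0] [Algebra L E0] [IsFractionRing L E0] [Field κ] [Field K] [Field E] [Algebra K E]
  [Field κE] [Field F] [Algebra K F] [Field Fk]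

/-- **WINDC at a supersingular point of `X` from a node of the cover `Y`**: the statement of
`g2y_windc_node` with `(U, ω)` built from a valuation ring `OE` of `E` with reduction
`redE : OE →+* κE` and an additive `W : κE → ℤ`, and with the conclusion on `X`
(`φ : F → E` the inclusion of the function field of `X`, `(OF, redF)` its reduction,
`wQ = W ∘ j` the order at the point of `X` below). -/
theorem g2e_windc_node (x y : L) (hx : Prime x) (hy : Prime y) (hxy : ¬ Associated x y)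
    (hm : maximalIdeal L = Ideal.span {x, y})
    (ϖ : L) (ε : Lˣ) (hϖ : ϖ = ε * x * y)
    (red : L →+* κ) (hred : ∀ c, red c = 0 ↔ x ∣ c)
    (w : κ → ℤ) (hw : ∀ a b : κ, a ≠ 0 → b ≠ 0 → w (a * b) = w a + w b)
    (hw0 : ∀ c : L, red c ≠ 0 → 0 ≤ w (red c)) (hwy : w (red y) = 1)
    (p : ℕ) (σ : E0 →+* E0) (u g κ' : E0) (hu : u ≠ 0) (hg : g ≠ 0) (hκ0 : κ' ≠ 0)
    (hσκ : σ κ' = κ') (hσu : σ u = κ' * g ^ p * u)
    (hval : ∀ π : L, Prime π → ¬ Associated π x → ¬ Associated π y →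
      ∃ v : E0 → ℤ, (∀ a b : E0, a ≠ 0 → b ≠ 0 → v (a * b) = v a + v b) ∧
        v (algebraMap L E0 π) = 1 ∧
        (∀ c : L, c ≠ 0 → ¬ π ∣ c → v (algebraMap L E0 c) = 0) ∧ (p : ℤ) ∣ v u)
    (vInf vZero : E0 → ℤ)
    (hvInf : ∀ a b : E0, a ≠ 0 → b ≠ 0 → vInf (a * b) = vInf a + vInf b)
    (hvZero : ∀ a b : E0, a ≠ 0 → b ≠ 0 → vZero (a * b) = vZero a + vZero b)
    (hκInf : (p : ℤ) ∣ vInf κ') (hκZero : (p : ℤ) ∣ vZero κ')
    (hcx : ∃ i : ℕ, ∀ f : E0, f ≠ 0 → s36_ordAt x hx f = vInf ((⇑σ)^[i] f))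
    (hcy : ∃ i : ℕ, ∀ f : E0, f ≠ 0 → s36_ordAt y hy f = vZero ((⇑σ)^[i] f))
    (ι : E0 →+* E) (OE : ValuationSubring E) (redE : OE →+* κE)
    (hOEunit : ∀ f : OE, redE f ≠ 0 → ((f : E))⁻¹ ∈ OE)
    (hLO : ∀ z : L, ι (algebraMap L E0 z) ∈ OE)
    (hredL : ∀ z : L, redE ⟨ι (algebraMap L E0 z), hLO z⟩ = 0 ↔ x ∣ z)
    (W : κE → ℤ) (hW : ∀ a b : κE, a ≠ 0 → b ≠ 0 → W (a * b) = W a + W b)
    (hW0 : ∀ z : L, ¬ x ∣ z → 0 ≤ W (redE ⟨ι (algebraMap L E0 z), hLO z⟩))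
    (hWy : W (redE ⟨ι (algebraMap L E0 y), hLO y⟩) = 1)
    (hscale : ∀ f : E, f ≠ 0 → ∃ c : K, algebraMap K E c * f ∈ g2eU OE)
    (hconst : ∀ (c : K) (h : algebraMap K E c ∈ OE), (algebraMap K E c)⁻¹ ∈ OE → c ≠ 0 →
      W (redE ⟨algebraMap K E c, h⟩) = 0)
    (φ : F →ₐ[K] E) (OF : ValuationSubring F) (redF : OF →+* Fk) (j : Fk →+* κE)
    (hφO : ∀ f : F, f ∈ OF → φ f ∈ OE)
    (hφred : ∀ (f : F) (hf : f ∈ OF), redE ⟨φ f, hφO f hf⟩ = j (redF ⟨f, hf⟩))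
    (wQ : Fk → ℤ) (hWj : ∀ a : Fk, a ≠ 0 → W (j a) = wQ a)
    (c₀ : K) (hc₀ : ι (algebraMap L E0 ϖ) = algebraMap K E c₀)
    (ux : F) (h : E) (c : K) (hh : h ≠ 0) (hrel : ι u = algebraMap K E c * φ ux * h ^ p)
    (c₁ : K) (h10 : algebraMap K F c₁ * ux ≠ 0) (h1 : algebraMap K F c₁ * ux ∈ OF)
    (h1' : (algebraMap K F c₁ * ux)⁻¹ ∈ OF) :
    (p : ℤ) ∣ wQ (redF ⟨algebraMap K F c₁ * ux, h1⟩) - (vZero u - vInf u) := by
  have hxy' : ¬ x ∣ y := fun hd => hxy (hx.irreducible.associated_of_dvd hy.irreducible hd)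
  have hLU := g2e_hLU x y hm red hred w hw hw0 hwy hxy' ι OE redE hOEunit hLO hredL W hW hW0 hWy
  obtain ⟨hU1, hω1⟩ := g2e_tower OE redE W (φ : F →+* E) OF redF j hφO hφred wQ hWj
    (algebraMap K F c₁ * ux) h10 h1 h1'
  have hφc : (φ : F →+* E) (algebraMap K F c₁ * ux) = algebraMap K E c₁ * φ ux := by
    show φ (algebraMap K F c₁ * ux) = _
    rw [map_mul, AlgHom.commutes]
  rw [hφc] at hU1 hω1
  have hmain := g2y_windc_node x y hx hy hxy ϖ ε hϖ red hred w hw hw0 hwy p σ u g κ' hu hg hκ0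
    hσκ hσu hval vInf vZero hvInf hvZero hκInf hκZero hcx hcy ι (g2eU OE) (g2e_U_ne_zero OE)
    (g2e_U_mul OE) (g2e_U_inv OE) (g2eOmega OE redE W) (g2e_omega_mul OE redE W hW) hscale
    (fun c' hc' => by
      rw [g2e_omega_eq OE redE W _ hc'.2.1]
      refine hconst c' hc'.2.1 hc'.2.2 ?_
      rintro rfl
      exact hc'.1 (map_zero _))
    hLU c₀ hc₀ (φ ux) h c hh hrel c₁ hU1
  rw [hω1] at hmain
  exact hmain

/-- **WINDC at a smooth non-cuspidal point of `X` from a smooth point of the cover `Y`**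
(`𝔪_L = (x, y)`, `x` the vertical prime, `ϖ = ε x`, `y` a horizontal parameter coming from `X`
with `w (red y) = 1`). -/
theorem g2e_windc_smooth (x y : L) (hx : Prime x) (hxy : ¬ x ∣ y)
    (hm : maximalIdeal L = Ideal.span {x, y})
    (ϖ : L) (ε : Lˣ) (hϖ : ϖ = ε * x)
    (red : L →+* κ) (hred : ∀ c, red c = 0 ↔ x ∣ c)
    (w : κ → ℤ) (hw : ∀ a b : κ, a ≠ 0 → b ≠ 0 → w (a * b) = w a + w b)
    (hw0 : ∀ c : L, red c ≠ 0 → 0 ≤ w (red c)) (hwy : w (red y) = 1)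
    (p : ℕ) (u : E0) (hu : u ≠ 0)
    (hval : ∀ π : L, Prime π → ¬ Associated π x →
      ∃ v : E0 → ℤ, (∀ a b : E0, a ≠ 0 → b ≠ 0 → v (a * b) = v a + v b) ∧
        v (algebraMap L E0 π) = 1 ∧
        (∀ c : L, c ≠ 0 → ¬ π ∣ c → v (algebraMap L E0 c) = 0) ∧ (p : ℤ) ∣ v u)
    (ι : E0 →+* E) (OE : ValuationSubring E) (redE : OE →+* κE)
    (hOEunit : ∀ f : OE, redE f ≠ 0 → ((f : E))⁻¹ ∈ OE)
    (hLO : ∀ z : L, ι (algebraMap L E0 z) ∈ OE)
    (hredL : ∀ z : L, redE ⟨ι (algebraMap L E0 z), hLO z⟩ = 0 ↔ x ∣ z)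
    (W : κE → ℤ) (hW : ∀ a b : κE, a ≠ 0 → b ≠ 0 → W (a * b) = W a + W b)
    (hW0 : ∀ z : L, ¬ x ∣ z → 0 ≤ W (redE ⟨ι (algebraMap L E0 z), hLO z⟩))
    (hWy : W (redE ⟨ι (algebraMap L E0 y), hLO y⟩) = 1)
    (hscale : ∀ f : E, f ≠ 0 → ∃ c : K, algebraMap K E c * f ∈ g2eU OE)
    (hconst : ∀ (c : K) (h : algebraMap K E c ∈ OE), (algebraMap K E c)⁻¹ ∈ OE → c ≠ 0 →
      W (redE ⟨algebraMap K E c, h⟩) = 0)
    (φ : F →ₐ[K] E) (OF : ValuationSubring F) (redF : OF →+* Fk) (j : Fk →+* κE)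
    (hφO : ∀ f : F, f ∈ OF → φ f ∈ OE)
    (hφred : ∀ (f : F) (hf : f ∈ OF), redE ⟨φ f, hφO f hf⟩ = j (redF ⟨f, hf⟩))
    (wQ : Fk → ℤ) (hWj : ∀ a : Fk, a ≠ 0 → W (j a) = wQ a)
    (c₀ : K) (hc₀ : ι (algebraMap L E0 ϖ) = algebraMap K E c₀)
    (ux : F) (h : E) (c : K) (hh : h ≠ 0) (hrel : ι u = algebraMap K E c * φ ux * h ^ p)
    (c₁ : K) (h10 : algebraMap K F c₁ * ux ≠ 0) (h1 : algebraMap K F c₁ * ux ∈ OF)
    (h1' : (algebraMap K F c₁ * ux)⁻¹ ∈ OF) :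
    (p : ℤ) ∣ wQ (redF ⟨algebraMap K F c₁ * ux, h1⟩) := by
  have hLU := g2e_hLU x y hm red hred w hw hw0 hwy hxy ι OE redE hOEunit hLO hredL W hW hW0 hWy
  obtain ⟨hU1, hω1⟩ := g2e_tower OE redE W (φ : F →+* E) OF redF j hφO hφred wQ hWj
    (algebraMap K F c₁ * ux) h10 h1 h1'
  have hφc : (φ : F →+* E) (algebraMap K F c₁ * ux) = algebraMap K E c₁ * φ ux := by
    show φ (algebraMap K F c₁ * ux) = _
    rw [map_mul, AlgHom.commutes]
  rw [hφc] at hU1 hω1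
  have hmain := g2y_windc_smooth x hx ϖ ε hϖ red hred w hw hw0 p u hu hval ι (g2eU OE)
    (g2e_U_ne_zero OE) (g2e_U_mul OE) (g2e_U_inv OE) (g2eOmega OE redE W)
    (g2e_omega_mul OE redE W hW) hscale
    (fun c' hc' => by
      rw [g2e_omega_eq OE redE W _ hc'.2.1]
      refine hconst c' hc'.2.1 hc'.2.2 ?_
      rintro rfl
      exact hc'.1 (map_zero _))
    hLU c₀ hc₀ (φ ux) h c hh hrel c₁ hU1
  rw [hω1] at hmain
  exact hmain

end Windc

end Fermat.Agent.S40lib
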