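import Mathlib
import Fermat.Agent.S36lib.Speed
import Fermat.Agent.S40lib.CoverCmp
import Fermat.Agent.S40lib.EdgeConc2

/-!
# Item 88 (S40/S44), block (J-WILD), piece G2e(4) (helper12): the `K0`-rational comparison
`Y → X` in the shape of `edc_place_node`

`B` the affine ring of the model of `X` (level `N`), `s` the centre of a place `Q` of the
reduced component, `r₁ = red_∞ : B → κ₁`, `x` a local generator of `ker r₁` at `s`
(`x ∣ εx z` on `ker r₁`, `εx ∉ s`), `y` with `𝔪(B_s) = (x, y)`, and `wQ = ord_Q` with the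
outputs `hord0`, `hws`, `hwy` of `edc_place_node`.  For ANY ring `L` under `B_s`
(`f : B_s →+* L`, e.g. the node ring `C_𝔫` of the cover) with ANY normalised edge datum
`(κ₂, red₂, w₂)`:

* `g2e_cmp_B`      : `w₂ (red₂ b) = ord_Q (red_∞ b)` for `b ∈ B ∖ ker red_∞`;
* `g2e_cmp_B_frac` : `w₂ (red₂ n) - w₂ (red₂ d) = ord_Q (red_∞ n) - ord_Q (red_∞ d)`.
(complete proofs; standard axioms only)
-/

set_option autoImplicit false
set_option linter.style.haveILetI false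
set_option linter.unusedSectionVars false
set_option linter.unusedVariables false

namespace Fermat.Agent.S40lib

open IsLocalRing

section CmpB

variable {B : Type*} [CommRing B] [IsNoetherianRing B] (s : Ideal B) [hs : s.IsPrime]
  {κ₁ : Type*} [Field κ₁] {L : Type*} [CommRing L] {κ₂ : Type*} [Field κ₂]

/-- **G2e(4)**: the reduction order of the cover at a point over `s` agrees with `ord_Q ∘ red_∞`
on `B ∖ ker red_∞`. -/
theorem g2e_cmp_B (r₁ : B →+* κ₁) (h₁ : RingHom.ker r₁ ≤ s)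
    (x εx y : B) (hx : x ∈ RingHom.ker r₁) (hxg : ∀ z ∈ RingHom.ker r₁, x ∣ εx * z)
    (hεx : εx ∉ s)
    (hm : maximalIdeal (Localization.AtPrime s) =
      Ideal.span {algebraMap B (Localization.AtPrime s) x,
        algebraMap B (Localization.AtPrime s) y})
    (wQ : κ₁ → ℤ) (hwQ : ∀ a b : κ₁, a ≠ 0 → b ≠ 0 → wQ (a * b) = wQ a + wQ b)
    (hord0 : ∀ c : B, r₁ c ≠ 0 → 0 ≤ wQ (r₁ c))
    (hws : ∀ c : B, c ∉ s → wQ (r₁ c) = 0)
    (hy0 : r₁ y ≠ 0) (hwy : wQ (r₁ y) = 1)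
    (f : Localization.AtPrime s →+* L) (red₂ : L →+* κ₂)
    (hred₂ : ∀ c, red₂ c = 0 ↔ f (algebraMap B (Localization.AtPrime s) x) ∣ c)
    (w₂ : κ₂ → ℤ) (hw₂ : ∀ a b : κ₂, a ≠ 0 → b ≠ 0 → w₂ (a * b) = w₂ a + w₂ b)
    (hw0₂ : ∀ c : L, red₂ c ≠ 0 → 0 ≤ w₂ (red₂ c))
    (hwy₂ : w₂ (red₂ (f (algebraMap B (Localization.AtPrime s) y))) = 1)
    (hxy₂ : ¬ f (algebraMap B (Localization.AtPrime s) x) ∣
      f (algebraMap B (Localization.AtPrime s) y))
    (b : B) (hb : r₁ b ≠ 0) :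
    red₂ (f (algebraMap B (Localization.AtPrime s) b)) ≠ 0 ∧
      w₂ (red₂ (f (algebraMap B (Localization.AtPrime s) b))) = wQ (r₁ b) := by
  haveI : IsNoetherianRing (Localization.AtPrime s) :=
    IsLocalization.isNoetherianRing s.primeCompl (Localization.AtPrime s) inferInstance
  obtain ⟨red₁, hredB, hred₁⟩ := edc_lift s r₁ h₁ x εx hx hxg hεx
  have hunits : ∀ u : s.primeCompl, r₁ u ≠ 0 := fun u h0 => u.2 (h₁ ((RingHom.mem_ker).2 h0))
  -- `wQ ≥ 0` on the image of `red₁`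
  have hw0₁ : ∀ c : Localization.AtPrime s, red₁ c ≠ 0 → 0 ≤ wQ (red₁ c) := by
    intro c hc
    obtain ⟨b', u, rfl⟩ := IsLocalization.exists_mk'_eq s.primeCompl c
    have hspec : IsLocalization.mk' (Localization.AtPrime s) b' u *
        algebraMap B (Localization.AtPrime s) u = algebraMap B (Localization.AtPrime s) b' :=
      IsLocalization.mk'_spec _ b' u
    have h2 := congrArg red₁ hspec
    rw [map_mul, hredB, hredB] at h2
    have hb0 : r₁ b' ≠ 0 := by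
      rw [← h2]
      exact mul_ne_zero hc (hunits u)
    have h3 := hwQ _ _ hc (hunits u)
    rw [h2, hws _ u.2, add_zero] at h3
    rw [← h3]
    exact hord0 b' hb0
  have hxy₁ : ¬ algebraMap B (Localization.AtPrime s) x ∣
      algebraMap B (Localization.AtPrime s) y := by
    intro hd
    have := (hred₁ _).2 hd
    rw [hredB] at this
    exact hy0 this
  have hbx : ¬ algebraMap B (Localization.AtPrime s) x ∣
      algebraMap B (Localization.AtPrime s) b := by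
    intro hd
    have := (hred₁ _).2 hd
    rw [hredB] at this
    exact hb this
  have hmain := g2e_node f (algebraMap B (Localization.AtPrime s) x)
    (algebraMap B (Localization.AtPrime s) y) hm red₁ hred₁ wQ hwQ hw0₁
    (by rw [hredB]; exact hwy) hxy₁ red₂ hred₂ w₂ hw₂ hw0₂ hwy₂ hxy₂
    (algebraMap B (Localization.AtPrime s) b) hbx
  refine ⟨fun h0 => hmain.1 ((hred₂ _).1 h0), ?_⟩
  rw [hmain.2, hredB]

/-- **G2e(4), fractions**: for `n, d ∈ B ∖ ker red_∞`: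
`w₂ (red₂ n) - w₂ (red₂ d) = ord_Q (red_∞ n) - ord_Q (red_∞ d)`. -/
theorem g2e_cmp_B_frac (r₁ : B →+* κ₁) (h₁ : RingHom.ker r₁ ≤ s)
    (x εx y : B) (hx : x ∈ RingHom.ker r₁) (hxg : ∀ z ∈ RingHom.ker r₁, x ∣ εx * z)
    (hεx : εx ∉ s)
    (hm : maximalIdeal (Localization.AtPrime s) =
      Ideal.span {algebraMap B (Localization.AtPrime s) x,
        algebraMap B (Localization.AtPrime s) y})
    (wQ : κ₁ → ℤ) (hwQ : ∀ a b : κ₁, a ≠ 0 → b ≠ 0 → wQ (a * b) = wQ a + wQ b)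
    (hord0 : ∀ c : B, r₁ c ≠ 0 → 0 ≤ wQ (r₁ c))
    (hws : ∀ c : B, c ∉ s → wQ (r₁ c) = 0)
    (hy0 : r₁ y ≠ 0) (hwy : wQ (r₁ y) = 1)
    (f : Localization.AtPrime s →+* L) (red₂ : L →+* κ₂)
    (hred₂ : ∀ c, red₂ c = 0 ↔ f (algebraMap B (Localization.AtPrime s) x) ∣ c)
    (w₂ : κ₂ → ℤ) (hw₂ : ∀ a b : κ₂, a ≠ 0 → b ≠ 0 → w₂ (a * b) = w₂ a + w₂ b)
    (hw0₂ : ∀ c : L, red₂ c ≠ 0 → 0 ≤ w₂ (red₂ c))
    (hwy₂ : w₂ (red₂ (f (algebraMap B (Localization.AtPrime s) y))) = 1)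
    (hxy₂ : ¬ f (algebraMap B (Localization.AtPrime s) x) ∣
      f (algebraMap B (Localization.AtPrime s) y))
    (n d : B) (hn : r₁ n ≠ 0) (hd : r₁ d ≠ 0) :
    w₂ (red₂ (f (algebraMap B (Localization.AtPrime s) n))) -
        w₂ (red₂ (f (algebraMap B (Localization.AtPrime s) d))) =
      wQ (r₁ n) - wQ (r₁ d) := by
  rw [(g2e_cmp_B s r₁ h₁ x εx y hx hxg hεx hm wQ hwQ hord0 hws hy0 hwy f red₂ hred₂ w₂ hw₂
      hw0₂ hwy₂ hxy₂ n hn).2,
    (g2e_cmp_B s r₁ h₁ x εx y hx hxg hεx hm wQ hwQ hord0 hws hy0 hwy f red₂ hred₂ w₂ hw₂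
      hw0₂ hwy₂ hxy₂ d hd).2]

end CmpB

end Fermat.Agent.S40lib
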