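import Mathlib
import Fermat.Agent.S36lib.Speed

/-!
# Item 88 (S40), piece C1 (helper1): density of the base field in a split étale extension

Abstract Newton iteration in a valuation ring.  `𝔽` a field with a valuation ring `O`,
`F₀ ⊆ 𝔽` a subfield, `z ∈ O` a root of a polynomial `P` with coefficients in `O ∩ F₀`,
`a ∈ O ∩ F₀` with `z - a` a non-unit and `P'(a)` a unit of `O` (a simple root of the reduction).
If `O` is archimedean in the direction of `δ = z - a` (`δ ^ M * c` is a non-unit for `M ≫ 0`),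
then every polynomial expression `∑ cᵢ zⁱ` (`cᵢ ∈ F₀`) lying in `O` is congruent modulo the
maximal ideal of `O` to an element of `F₀`: **the residue field does not grow**.

* `cvd_newton`  : the Newton approximations `aₙ ∈ O ∩ F₀`, `z - aₙ ∈ δ ^ (n + 1) O`;
* `cvd_dense`   : the density statement;
* `cvd_dense_adjoin` : the same for `y ∈ F₀(z)`, `z` algebraic over `F₀`.
-/

set_option autoImplicit false

noncomputable section

namespace Fermat.Agent.S40lib

open Polynomial

variable {𝔽 : Type*} [Field 𝔽]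

/-- evaluation of a polynomial over `O` with coefficients in `F₀` at a point of `O ∩ F₀` lies
in `F₀` -/
theorem cvd_eval_mem (O : ValuationSubring 𝔽) (F₀ : Subfield 𝔽) (P : (↥O)[X])
    (hP : ∀ i, ((P.coeff i : O) : 𝔽) ∈ F₀) (b : O) (hb : (b : 𝔽) ∈ F₀) :
    ((P.eval b : O) : 𝔽) ∈ F₀ := by
  rw [Polynomial.eval_eq_sum_range]
  have : (((∑ i ∈ Finset.range (P.natDegree + 1), P.coeff i * b ^ i : O)) : 𝔽)
      = ∑ i ∈ Finset.range (P.natDegree + 1), ((P.coeff i : O) : 𝔽) * (b : 𝔽) ^ i := by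
    push_cast
    rfl
  rw [this]
  exact Subfield.sum_mem _ fun i _ => Subfield.mul_mem _ (hP i) (Subfield.pow_mem _ hb i)

/-- the derivative also has coefficients in `F₀` -/
theorem cvd_derivative_coeff_mem (O : ValuationSubring 𝔽) (F₀ : Subfield 𝔽) (P : (↥O)[X])
    (hP : ∀ i, ((P.coeff i : O) : 𝔽) ∈ F₀) (i : ℕ) :
    (((derivative P).coeff i : O) : 𝔽) ∈ F₀ := by
  rw [Polynomial.coeff_derivative]
  push_cast
  exact Subfield.mul_mem _ (hP _) (Subfield.add_mem _ (natCast_mem F₀ _)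
    (Subfield.one_mem _))

/-- **Newton approximations**: for every `n` there is `aₙ ∈ O ∩ F₀` with
`z - aₙ ∈ (z - a) ^ (n + 1) O`. -/
theorem cvd_newton (O : ValuationSubring 𝔽) (F₀ : Subfield 𝔽) (P : (↥O)[X])
    (hP : ∀ i, ((P.coeff i : O) : 𝔽) ∈ F₀) (z a : O) (hz : P.eval z = 0)
    (ha : (a : 𝔽) ∈ F₀) (hza : ((z - a : O) : 𝔽) ∈ O.nonunits)
    (hder : IsUnit ((derivative P).eval a)) (n : ℕ) :
    ∃ b : O, (b : 𝔽) ∈ F₀ ∧ ∃ r : O, z - b = (z - a) ^ (n + 1) * r := by
  induction n with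
  | zero => exact ⟨a, ha, 1, by simp⟩
  | succ n ih =>
    obtain ⟨b, hb, r, hr⟩ := ih
    set δ : O := z - a with hδ
    set ε : O := z - b with hε
    -- `P'(b)` is a unit
    have hδm : δ ∈ IsLocalRing.maximalIdeal O := ValuationSubring.coe_mem_nonunits_iff.mp hza
    have hεm : ε ∈ IsLocalRing.maximalIdeal O := by
      rw [hr]
      exact Ideal.mul_mem_right _ _ (Ideal.pow_mem_of_mem _ hδm _ (Nat.succ_pos _))
    have hba : b - a ∈ IsLocalRing.maximalIdeal O := by
      have : b - a = δ - ε := by rw [hδ, hε]; ring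
      rw [this]
      exact Ideal.sub_mem _ hδm hεm
    have hdvd : b - a ∣ (derivative P).eval b - (derivative P).eval a :=
      Polynomial.sub_dvd_eval_sub b a (derivative P)
    have hdm : (derivative P).eval b - (derivative P).eval a ∈ IsLocalRing.maximalIdeal O := by
      obtain ⟨c, hc⟩ := hdvd
      rw [hc]
      exact Ideal.mul_mem_right _ _ hba
    have hunit : IsUnit ((derivative P).eval b) := by
      by_contra hnu
      have h1 : (derivative P).eval b ∈ IsLocalRing.maximalIdeal O :=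
        (IsLocalRing.mem_maximalIdeal _).mpr hnu
      have h2 : (derivative P).eval a ∈ IsLocalRing.maximalIdeal O := by
        have : (derivative P).eval a
            = (derivative P).eval b - ((derivative P).eval b - (derivative P).eval a) := by ring
        rw [this]
        exact Ideal.sub_mem _ h1 hdm
      exact ((IsLocalRing.mem_maximalIdeal _).mp h2) hder
    obtain ⟨w, hw⟩ := hunit
    -- Taylor expansion
    obtain ⟨k, hk⟩ := Polynomial.binomExpansion P b ε
    have hzb : b + ε = z := by rw [hε]; ring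
    rw [hzb, hz] at hk
    -- the next approximation
    refine ⟨b - P.eval b * (↑w⁻¹ : O), ?_, -(k * (↑w⁻¹ : O)) * r ^ 2 * (z - a) ^ n, ?_⟩
    · -- in `F₀`
      have h1 : ((P.eval b : O) : 𝔽) ∈ F₀ := cvd_eval_mem O F₀ P hP b hb
      have h2 : (((derivative P).eval b : O) : 𝔽) ∈ F₀ :=
        cvd_eval_mem O F₀ (derivative P) (cvd_derivative_coeff_mem O F₀ P hP) b hb
      have h3 : (((↑w⁻¹ : O)) : 𝔽) = (((derivative P).eval b : O) : 𝔽)⁻¹ := by
        have hmul : ((derivative P).eval b) * (↑w⁻¹ : O) = 1 := by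
          rw [← hw]; exact w.mul_inv
        have hmul' : (((derivative P).eval b : O) : 𝔽) * (((↑w⁻¹ : O)) : 𝔽) = 1 := by
          have := congrArg (fun x : O => (x : 𝔽)) hmul
          simpa using this
        exact eq_inv_of_mul_eq_one_right hmul'
      push_cast
      rw [h3]
      exact Subfield.sub_mem _ hb (Subfield.mul_mem _ h1 (Subfield.inv_mem _ h2))
    · -- the estimate
      have hwinv : (↑w : O) * (↑w⁻¹ : O) = 1 := w.mul_inv
      have hPb : P.eval b = -((↑w : O) * ε) - k * ε ^ 2 := by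
        have := hk
        rw [hw]
        linear_combination -this
      have e1 : z - (b - P.eval b * (↑w⁻¹ : O)) = ε + P.eval b * (↑w⁻¹ : O) := by
        rw [hε]; ring
      rw [e1, hPb, hr]
      have : (-((↑w : O) * ((z - a) ^ (n + 1) * r)) - k * ((z - a) ^ (n + 1) * r) ^ 2)
            * (↑w⁻¹ : O)
          = -((↑w : O) * (↑w⁻¹ : O)) * ((z - a) ^ (n + 1) * r)
            - k * (↑w⁻¹ : O) * ((z - a) ^ (n + 1) * r) ^ 2 := by ring
      rw [this, hwinv]
      ring

/-- **density**: a polynomial expression in `z` with coefficients in `F₀` which lies in `O` is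
congruent modulo the maximal ideal to an element of `F₀`. -/
theorem cvd_dense (O : ValuationSubring 𝔽) (F₀ : Subfield 𝔽) (P : (↥O)[X])
    (hP : ∀ i, ((P.coeff i : O) : 𝔽) ∈ F₀) (z a : O) (hz : P.eval z = 0)
    (ha : (a : 𝔽) ∈ F₀) (hza : ((z - a : O) : 𝔽) ∈ O.nonunits)
    (hder : IsUnit ((derivative P).eval a))
    (harch : ∀ c : 𝔽, ∃ M : ℕ, ((z - a : O) : 𝔽) ^ M * c ∈ O.nonunits)
    (m : ℕ) (c : Fin m → 𝔽) (hc : ∀ i, c i ∈ F₀) :
    ∃ y' : 𝔽, y' ∈ F₀ ∧ (∑ i : Fin m, c i * (z : 𝔽) ^ (i : ℕ)) - y' ∈ O.nonunits := by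
  classical
  -- a common exponent
  choose M hM using harch
  set N : ℕ := ∑ i : Fin m, M (c i) with hN
  obtain ⟨b, hb, r, hr⟩ := cvd_newton O F₀ P hP z a hz ha hza hder N
  refine ⟨∑ i : Fin m, c i * (b : 𝔽) ^ (i : ℕ),
    Subfield.sum_mem _ fun i _ => Subfield.mul_mem _ (hc i) (Subfield.pow_mem _ hb _), ?_⟩
  rw [← Finset.sum_sub_distrib]
  have hmax : ∀ s : Finset (Fin m), ∀ g : Fin m → 𝔽, (∀ i ∈ s, g i ∈ O.nonunits) →
      ∑ i ∈ s, g i ∈ O.nonunits := fun s g hg => sum_mem hg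
  apply hmax
  intro i _
  -- `c i * (z ^ i - b ^ i) = (δ ^ (N + 1) * c i) * (r * ∑ ...)`
  have hdvd : (z - b : O) ∣ z ^ (i : ℕ) - b ^ (i : ℕ) := sub_dvd_pow_sub_pow z b _
  obtain ⟨t, ht⟩ := hdvd
  have e : c i * (z : 𝔽) ^ (i : ℕ) - c i * (b : 𝔽) ^ (i : ℕ)
      = (((z - a : O) : 𝔽) ^ (M (c i)) * c i) *
        ((((z - a : O) ^ (N + 1 - M (c i)) * r * t : O)) : 𝔽) := by
    have h1 : (z : 𝔽) ^ (i : ℕ) - (b : 𝔽) ^ (i : ℕ) = (((z - b) * t : O) : 𝔽) := by
      rw [← ht]; push_cast; rfl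
    have hle : M (c i) ≤ N + 1 := by
      have : M (c i) ≤ N := by
        rw [hN]
        exact Finset.single_le_sum (f := fun j => M (c j)) (fun _ _ => Nat.zero_le _)
          (Finset.mem_univ i)
      omega
    have h2 : ((z - a : O) : 𝔽) ^ (N + 1)
        = ((z - a : O) : 𝔽) ^ (M (c i)) * ((z - a : O) : 𝔽) ^ (N + 1 - M (c i)) := by
      rw [← pow_add]
      congr 1
      omega
    rw [← mul_sub, h1, hr]
    push_cast at h2 ⊢
    rw [h2]
    ring
  rw [e]
  -- product of a nonunit and an element of `O`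
  have hnu := hM (c i)
  have hO : ((((z - a : O) ^ (N + 1 - M (c i)) * r * t : O)) : 𝔽) ∈ O := Subtype.coe_prop _
  rw [ValuationSubring.mem_nonunits_iff] at hnu ⊢
  rw [map_mul]
  have h1 : O.valuation ((((z - a : O) ^ (N + 1 - M (c i)) * r * t : O)) : 𝔽) ≤ 1 :=
    (O.valuation_le_one_iff _).mpr hO
  calc O.valuation (((z - a : O) : 𝔽) ^ M (c i) * c i) *
        O.valuation ((((z - a : O) ^ (N + 1 - M (c i)) * r * t : O)) : 𝔽)
      ≤ O.valuation (((z - a : O) : 𝔽) ^ M (c i) * c i) * 1 := by gcongr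
    _ < 1 := by rw [mul_one]; exact hnu

end Fermat.Agent.S40lib

end
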