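/-
Item 88 (S40/S44), piece (Z2)+(Z3) of (Z') (helper1), abstract, Mathlib only.

Setting: a field `E` (the cover field `EY ⊂ ℚ̄((q))`), a subring `𝒜 ⊂ E` with an ideal-like
additive subgroup `𝔐 ⊂ E` (`𝒜 · 𝔐 ⊂ 𝔐`, `1 ∉ 𝔐`; in the application `𝒜 = ` fractions `a / b` of
integral `q`-series with primitive denominator, `𝔐 = ` those with `ā = 0`), a ring endomorphism
`τ` of `E` acting trivially modulo `𝔐` on `𝒜` (an element of the inertia group), `λ = ζ - 1`,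
`U = 1 + λ z` with `z ∈ 𝒜`.

* `cvz_geom_sum_mem`  : `1 + ζ + … + ζ ^ (i - 1) - i ∈ 𝔐`;
* `cvz_fixed`         : **(Z2)** if `τ ζ = ζ` and `τ U = ζ ^ i U` (`τ U` is another `p`-th root of
                        the `τ`-fixed function `U ^ p`), then `τ U = U` and `τ z = z`;
* `cvz_deck_diff`     : `σ^[i] z - z = (1 + ζ + … + ζ ^ (i - 1)) · U` for the deck map `σ U = ζ U`;
* `cvz_trace_cong`    : **(Z3)** for a finite family `τ_a` of ring endomorphisms commuting with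
                        `σ`, with `τ_a ζ` a root of unity `≡ 1` and `τ_a z ∈ 𝒜`, the trace
                        `z' = ∑ τ_a z` satisfies `σ^[i] z' - z' - n · i ∈ 𝔐` (`n` the number of
                        terms) — the congruence `hcong` of `cvx_deriv_not_mem`.
-/
import Mathlib

set_option autoImplicit false
set_option linter.unusedSectionVars false
set_option linter.unusedVariables false
set_option linter.style.haveILetI false

noncomputable section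

namespace Fermat.Agent.S40lib

section Z

variable {E : Type*} [Field E]

/-- `1 + ζ + … + ζ ^ (i - 1) ≡ i` modulo an ideal containing `ζ - 1` -/
theorem cvz_geom_sum_mem (𝒜 : Subring E) (𝔐 : AddSubgroup E)
    (hmul : ∀ a ∈ 𝒜, ∀ m ∈ 𝔐, a * m ∈ 𝔐) {ζ : E} (hζA : ζ ∈ 𝒜) (hlam : ζ - 1 ∈ 𝔐) (i : ℕ) :
    (∑ k ∈ Finset.range i, ζ ^ k) - (i : E) ∈ 𝔐 := by
  induction i with
  | zero => simp
  | succ i ih =>
    rw [Finset.sum_range_succ]
    have h1 : ζ ^ i - 1 ∈ 𝔐 := by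
      have h2 : ζ ^ i - 1 = (∑ k ∈ Finset.range i, ζ ^ k) * (ζ - 1) :=
        (geom_sum_mul ζ i).symm
      rw [h2]
      exact hmul _ (𝒜.sum_mem fun k _ => 𝒜.pow_mem hζA k) _ hlam
    have h3 : (∑ k ∈ Finset.range i, ζ ^ k) + ζ ^ i - ((i + 1 : ℕ) : E) =
        ((∑ k ∈ Finset.range i, ζ ^ k) - (i : E)) + (ζ ^ i - 1) := by
      push_cast; ring
    rw [h3]
    exact 𝔐.add_mem ih h1

/-- **(Z2)**: an inertia element `τ` fixing `ζ` and mapping `U = 1 + (ζ - 1) z`, `z ∈ 𝒜`, to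
`ζ ^ i U` fixes `U`. -/
theorem cvz_fixed (𝒜 : Subring E) (𝔐 : AddSubgroup E)
    (hmul : ∀ a ∈ 𝒜, ∀ m ∈ 𝔐, a * m ∈ 𝔐) (h1 : (1 : E) ∉ 𝔐)
    {p : ℕ} (hp : p.Prime) (hpM : (p : E) ∈ 𝔐) {ζ : E} (hζ : ζ ^ p = 1) (hζ1 : ζ ≠ 1)
    (hζA : ζ ∈ 𝒜) (hlam : ζ - 1 ∈ 𝔐)
    (τ : E →+* E) (hτ : ∀ y ∈ 𝒜, τ y - y ∈ 𝔐) (hτζ : τ ζ = ζ)
    {z : E} (hz : z ∈ 𝒜) (i : ℕ) (hτU : τ (1 + (ζ - 1) * z) = ζ ^ i * (1 + (ζ - 1) * z)) :
    τ (1 + (ζ - 1) * z) = 1 + (ζ - 1) * z ∧ τ z = z := by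
  have hlam0 : ζ - 1 ≠ 0 := sub_ne_zero.mpr hζ1
  -- `τ z - z = [i]_ζ · U`
  have hdiff : τ z - z = (∑ k ∈ Finset.range i, ζ ^ k) * (1 + (ζ - 1) * z) := by
    have h2 : (ζ - 1) * (τ z - z) = (ζ ^ i - 1) * (1 + (ζ - 1) * z) := by
      have h3 : τ (1 + (ζ - 1) * z) = 1 + (ζ - 1) * τ z := by
        rw [map_add, map_one, map_mul, map_sub, map_one, hτζ]
      rw [h3] at hτU
      have h4 : (ζ - 1) * (τ z - z) = (1 + (ζ - 1) * τ z) - (1 + (ζ - 1) * z) := by ring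
      rw [h4, hτU]; ring
    have h5 : ζ ^ i - 1 = (ζ - 1) * ∑ k ∈ Finset.range i, ζ ^ k := by
      rw [mul_comm]
      exact (geom_sum_mul ζ i).symm
    rw [h5, mul_assoc] at h2
    exact mul_left_cancel₀ hlam0 h2
  -- hence `i ∈ 𝔐`
  have hsum := cvz_geom_sum_mem 𝒜 𝔐 hmul hζA hlam i
  have hUA : (1 + (ζ - 1) * z) ∈ 𝒜 :=
    𝒜.add_mem 𝒜.one_mem (𝒜.mul_mem (𝒜.sub_mem hζA 𝒜.one_mem) hz)
  have hi : (i : E) ∈ 𝔐 := by
    have h6 : τ z - z ∈ 𝔐 := hτ z hz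
    rw [hdiff] at h6
    -- `[i] U = [i] + [i] (ζ - 1) z`
    have h7 : (∑ k ∈ Finset.range i, ζ ^ k) * ((ζ - 1) * z) ∈ 𝔐 := by
      have h8 : (∑ k ∈ Finset.range i, ζ ^ k) * ((ζ - 1) * z) =
          ((∑ k ∈ Finset.range i, ζ ^ k) * z) * (ζ - 1) := by ring
      rw [h8]
      exact hmul _ (𝒜.mul_mem (𝒜.sum_mem fun k _ => 𝒜.pow_mem hζA k) hz) _ hlam
    have h9 : (i : E) = (∑ k ∈ Finset.range i, ζ ^ k) * (1 + (ζ - 1) * z) -
        (∑ k ∈ Finset.range i, ζ ^ k) * ((ζ - 1) * z) -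
        ((∑ k ∈ Finset.range i, ζ ^ k) - (i : E)) := by ring
    rw [h9]
    exact 𝔐.sub_mem (𝔐.sub_mem h6 h7) hsum
  -- so `p ∣ i`
  have hdvd : p ∣ i := by
    by_contra hnd
    have hcop : Nat.Coprime i p := (Nat.Coprime.symm ((Nat.Prime.coprime_iff_not_dvd hp).mpr hnd))
    have hgcd : Int.gcd (i : ℤ) (p : ℤ) = 1 := by
      rw [Int.gcd_natCast_natCast]; exact hcop
    have hbez := Int.gcd_eq_gcd_ab (i : ℤ) (p : ℤ)
    rw [hgcd] at hbez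
    have hE : (1 : E) = (i : E) * ((Int.gcdA i p : ℤ) : E) + (p : E) * ((Int.gcdB i p : ℤ) : E) := by
      have := congrArg (fun n : ℤ => (n : E)) hbez
      simpa using this
    apply h1
    rw [hE]
    have hint : ∀ n : ℤ, (n : E) ∈ 𝒜 := fun n => intCast_mem 𝒜 n
    refine 𝔐.add_mem ?_ ?_
    · rw [mul_comm]; exact hmul _ (hint _) _ hi
    · rw [mul_comm]; exact hmul _ (hint _) _ hpM
  obtain ⟨j, rfl⟩ := hdvd
  have hone : ζ ^ (p * j) = 1 := by rw [pow_mul, hζ, one_pow]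
  rw [hone, one_mul] at hτU
  refine ⟨hτU, ?_⟩
  have h3 : τ (1 + (ζ - 1) * z) = 1 + (ζ - 1) * τ z := by
    rw [map_add, map_one, map_mul, map_sub, map_one, hτζ]
  rw [h3] at hτU
  have h10 : (ζ - 1) * τ z = (ζ - 1) * z := add_left_cancel hτU
  exact mul_left_cancel₀ hlam0 h10

/-- the deck map on `z`: `σ U = ζ U` ⇒ `σ^[i] z - z = [i]_ζ · U` -/
theorem cvz_deck_diff {ζ : E} (hζ1 : ζ ≠ 1) (σ : E →+* E) (hσζ : σ ζ = ζ) {z : E}
    (hσU : σ (1 + (ζ - 1) * z) = ζ * (1 + (ζ - 1) * z)) (i : ℕ) :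
    σ^[i] z - z = (∑ k ∈ Finset.range i, ζ ^ k) * (1 + (ζ - 1) * z) := by
  have hlam0 : ζ - 1 ≠ 0 := sub_ne_zero.mpr hζ1
  have hiter : ∀ n : ℕ, σ^[n] (1 + (ζ - 1) * z) = ζ ^ n * (1 + (ζ - 1) * z) := by
    intro n
    induction n with
    | zero => simp
    | succ n ih =>
      rw [Function.iterate_succ_apply', ih, map_mul, map_pow, hσζ, hσU, pow_succ]
      ring
  have hiterz : ∀ n : ℕ, σ^[n] (1 + (ζ - 1) * z) = 1 + (ζ - 1) * σ^[n] z := by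
    intro n
    induction n with
    | zero => simp
    | succ n ih =>
      rw [Function.iterate_succ_apply', ih, Function.iterate_succ_apply', map_add, map_one,
        map_mul, map_sub, map_one, hσζ]
  have h2 : (ζ - 1) * (σ^[i] z - z) = (ζ ^ i - 1) * (1 + (ζ - 1) * z) := by
    have h4 : (ζ - 1) * (σ^[i] z - z) = (1 + (ζ - 1) * σ^[i] z) - (1 + (ζ - 1) * z) := by ring
    rw [h4, ← hiterz, hiter]; ring
  have h5 : ζ ^ i - 1 = (ζ - 1) * ∑ k ∈ Finset.range i, ζ ^ k := by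
    rw [mul_comm]
    exact (geom_sum_mul ζ i).symm
  rw [h5, mul_assoc] at h2
  exact mul_left_cancel₀ hlam0 h2

/-- **(Z3)**: the congruence for the trace `z' = ∑_a τ_a z`: if `σ` commutes with the `τ_a` and
`σ^[i] z - z = c_i` with `τ_a c_i - i ∈ 𝔐` for all `a`, then `σ^[i] z' - z' - n · i ∈ 𝔐`. -/
theorem cvz_trace_cong (𝔐 : AddSubgroup E) {ι : Type*} (s : Finset ι) (τ : ι → E →+* E)
    (σ : E →+* E) (hcomm : ∀ a ∈ s, ∀ y, σ (τ a y) = τ a (σ y)) (z : E) (i : ℕ)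
    (hc : ∀ a ∈ s, τ a (σ^[i] z - z) - (i : E) ∈ 𝔐) :
    σ^[i] (∑ a ∈ s, τ a z) - (∑ a ∈ s, τ a z) - (s.card : E) * (i : E) ∈ 𝔐 := by
  have hiter : ∀ n : ℕ, ∀ a ∈ s, ∀ y, σ^[n] (τ a y) = τ a (σ^[n] y) := by
    intro n
    induction n with
    | zero => intro a _ y; rfl
    | succ n ih =>
      intro a ha y
      rw [Function.iterate_succ_apply', ih a ha, hcomm a ha, Function.iterate_succ_apply']
  have hsum : ∀ n : ℕ, σ^[n] (∑ a ∈ s, τ a z) = ∑ a ∈ s, σ^[n] (τ a z) := by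
    intro n
    induction n with
    | zero => simp
    | succ n ih =>
      rw [Function.iterate_succ_apply', ih, map_sum]
      refine Finset.sum_congr rfl fun a _ => ?_
      rw [Function.iterate_succ_apply']
  have h1 : σ^[i] (∑ a ∈ s, τ a z) - (∑ a ∈ s, τ a z) - (s.card : E) * (i : E) =
      ∑ a ∈ s, (τ a (σ^[i] z - z) - (i : E)) := by
    rw [hsum, Finset.sum_sub_distrib, Finset.sum_const, nsmul_eq_mul, ← Finset.sum_sub_distrib]
    congr 1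
    refine Finset.sum_congr rfl fun a ha => ?_
    rw [hiter i a ha, map_sub]
  rw [h1]
  exact 𝔐.sum_mem hc

end Z

end Fermat.Agent.S40lib

end
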