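/-
Item 88 (S40/S44), piece (Z3) of (Z') (helper1): tame averaging.

* `tav_key`, `tav_trace_fixed` : abstract: `N ◁ G` of finite index, `φ : G → End(E)` multiplicative,
  `z` fixed by `N`  ⇒  the trace `∑_{q ∈ G/N} φ(q.out) z` is fixed by `G`.
* `tavChi`                     : the mod-`p` cyclotomic character `H → (ℤ/p)ˣ` of a subgroup `H` of
  `Aut(K/ℚ)` (`IsPrimitiveRoot.autToPow`), `tav_mem_ker` : its kernel is `{τ ∈ H | τ ζ = ζ}`.
* `tavM`, `tav_hcong`           : the congruence in the shape of `cvx_deriv_not_mem`: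
  `σ^[i] z' - z' = n · i + λ c`, `c` integral over `R` (`z' = ∑_a τ_a z`, `n` = number of terms).
* `tav_prime_eq`               : `p = λ · e`, `e` integral; `tav_hcong_norm` : for `n' n ≡ 1 (p)`,
  `z'' = n' z'` satisfies `σ^[i] z'' - z'' = i + λ c` (= `hcong` of `cvx_deriv_not_mem`).
* `tav_main`                   : concrete: for a Laurent series `z` over `K` fixed (coefficientwise)
  by all `τ ∈ H` with `τ ζ = ζ` (for `H` = inertia: by `I1`), there is a finite set `s ⊂ H` of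
  representatives of `H/H1`, of cardinality dividing `p - 1`, with pairwise distinct characters,
  such that `z' = ∑_{ρ ∈ s} ρ z` is fixed by all of `H`.
-/
import Mathlib
import Fermat.Prelude.Def_ModularCurve_LaurentCoeff
import Fermat.Agent.S40lib.CoverZ

set_option autoImplicit false
set_option linter.unusedSectionVars false
set_option linter.unusedVariables false
set_option linter.style.haveILetI false

noncomputable section

open ModularCurve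

namespace Fermat.Agent.S40lib

section Abstract

variable {G : Type*} [Group G] (N : Subgroup G) [N.Normal]
variable {E : Type*} [Semiring E]

/-- an `N`-fixed element: `φ h z` depends only on the class of `h` modulo `N` -/
theorem tav_key (φ : G → E →+* E) (hφ : ∀ g h x, φ (g * h) x = φ g (φ h x))
    (z : E) (hN : ∀ n ∈ N, φ n z = z) (h : G) :
    φ h z = φ ((h : G ⧸ N).out) z := by
  obtain ⟨n, hn⟩ := QuotientGroup.mk_out_eq_mul N h
  have h1 : h = (QuotientGroup.mk h : G ⧸ N).out * ((n⁻¹ : N) : G) := by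
    rw [hn]; simp
  conv_lhs => rw [h1]
  rw [hφ, hN _ (n⁻¹).2]

/-- **tame averaging, abstract**: the trace over `G ⧸ N` of an `N`-fixed element is `G`-fixed -/
theorem tav_trace_fixed [Fintype (G ⧸ N)] (φ : G → E →+* E)
    (hφ : ∀ g h x, φ (g * h) x = φ g (φ h x))
    (z : E) (hN : ∀ n ∈ N, φ n z = z) (g : G) :
    φ g (∑ q : G ⧸ N, φ q.out z) = ∑ q : G ⧸ N, φ q.out z := by
  rw [map_sum]
  have h1 : ∀ q : G ⧸ N, φ g (φ q.out z) = φ (((g : G ⧸ N) * q).out) z := by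
    intro q
    rw [← hφ, tav_key N φ hφ z hN (g * q.out), QuotientGroup.mk_mul, QuotientGroup.out_eq']
  simp_rw [h1]
  exact Fintype.sum_equiv (Equiv.mulLeft (g : G ⧸ N)) _ _ (fun _ => rfl)

end Abstract


section Cong

variable {R : Type*} [CommRing R] {E : Type*} [Field E] [Algebra R E]

/-- the additive group `λ · (integral closure of R)` -/
def tavM (R : Type*) [CommRing R] {E : Type*} [Field E] [Algebra R E] (lam : E) :
    AddSubgroup E where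
  carrier := {x | ∃ c : E, IsIntegral R c ∧ x = lam * c}
  zero_mem' := ⟨0, isIntegral_zero, by simp⟩
  add_mem' := by
    rintro _ _ ⟨c, hc, rfl⟩ ⟨d, hd, rfl⟩
    exact ⟨c + d, hc.add hd, by ring⟩
  neg_mem' := by
    rintro _ ⟨c, hc, rfl⟩
    exact ⟨-c, hc.neg, by ring⟩

theorem tav_mem_tavM {lam x : E} : x ∈ tavM R lam ↔ ∃ c : E, IsIntegral R c ∧ x = lam * c :=
  Iff.rfl

theorem tav_tavM_mul {lam : E} (a : E) (ha : a ∈ (integralClosure R E).toSubring)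
    (m : E) (hm : m ∈ tavM R lam) : a * m ∈ tavM R lam := by
  obtain ⟨c, hc, rfl⟩ := hm
  exact ⟨a * c, IsIntegral.mul ha hc, by ring⟩

/-- **(Z3), the congruence in the shape of `cvx_deriv_not_mem`**: `z' = ∑_a τ_a z`,
`U = 1 + λ z`, `σ U = ζ U`, `σ` commuting with the `τ_a`, `τ_a ζ = ζ ^ m_a`, `τ_a z` integral:
`σ^[i] z' - z' = n · i + λ c` with `c` integral over `R`. -/
theorem tav_hcong {ι : Type*} (s : Finset ι) (τ : ι → E →+* E) (σ : E →+* E)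
    (hcomm : ∀ a ∈ s, ∀ y, σ (τ a y) = τ a (σ y))
    {ζ : E} (hζ1 : ζ ≠ 1) (hζint : IsIntegral R ζ) (hσζ : σ ζ = ζ) (z : E)
    (hσU : σ (1 + (ζ - 1) * z) = ζ * (1 + (ζ - 1) * z))
    (hτζ : ∀ a ∈ s, ∃ m : ℕ, τ a ζ = ζ ^ m) (hτz : ∀ a ∈ s, IsIntegral R (τ a z)) (i : ℕ) :
    ∃ c : E, IsIntegral R c ∧
      σ^[i] (∑ a ∈ s, τ a z) - (∑ a ∈ s, τ a z) = (s.card : E) * (i : E) + (ζ - 1) * c := by
  have hmul := tav_tavM_mul (R := R) (E := E) (lam := ζ - 1)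
  have hlam : ζ - 1 ∈ tavM R (ζ - 1) := ⟨1, isIntegral_one, by ring⟩
  have hA : ∀ m : ℕ, ζ ^ m ∈ (integralClosure R E).toSubring := fun m => hζint.pow m
  have hlamm : ∀ m : ℕ, ζ ^ m - 1 ∈ tavM R (ζ - 1) := by
    intro m
    refine ⟨∑ k ∈ Finset.range m, ζ ^ k, IsIntegral.sum _ (fun k _ => hζint.pow k), ?_⟩
    rw [mul_comm]
    exact (geom_sum_mul ζ m).symm
  have hc : ∀ a ∈ s, τ a (σ^[i] z - z) - (i : E) ∈ tavM R (ζ - 1) := by
    intro a ha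
    obtain ⟨m, hm⟩ := hτζ a ha
    rw [cvz_deck_diff hζ1 σ hσζ hσU i, map_mul, map_sum]
    have h1 : ∀ k ∈ Finset.range i, τ a (ζ ^ k) = (ζ ^ m) ^ k := by
      intro k _
      rw [map_pow, hm]
    rw [Finset.sum_congr rfl h1]
    have h2 : τ a (1 + (ζ - 1) * z) = 1 + (ζ ^ m - 1) * τ a z := by
      rw [map_add, map_one, map_mul, map_sub, map_one, hm]
    rw [h2]
    have hsumA : (∑ k ∈ Finset.range i, (ζ ^ m) ^ k) ∈ (integralClosure R E).toSubring :=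
      Subring.sum_mem _ fun k _ => Subring.pow_mem _ (hA m) k
    have h3 : (∑ k ∈ Finset.range i, (ζ ^ m) ^ k) * (1 + (ζ ^ m - 1) * τ a z) - (i : E) =
        ((∑ k ∈ Finset.range i, (ζ ^ m) ^ k) - (i : E)) +
          ((∑ k ∈ Finset.range i, (ζ ^ m) ^ k) * τ a z) * (ζ ^ m - 1) := by ring
    rw [h3]
    refine (tavM R (ζ - 1)).add_mem ?_ ?_
    · exact cvz_geom_sum_mem (integralClosure R E).toSubring (tavM R (ζ - 1)) hmul (hA m)
        (hlamm m) i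
    · exact hmul _ (Subring.mul_mem _ hsumA (hτz a ha)) _ (hlamm m)
  obtain ⟨c, hc1, hc2⟩ := cvz_trace_cong (tavM R (ζ - 1)) s τ σ hcomm z i hc
  exact ⟨c, hc1, by rw [← hc2]; ring⟩

/-- `p = (ζ - 1) · e` with `e` integral -/
theorem tav_prime_eq {p : ℕ} {ζ : E} (hζ : ζ ^ p = 1) (hζ1 : ζ ≠ 1) (hζint : IsIntegral R ζ) :
    ∃ e : E, IsIntegral R e ∧ (p : E) = (ζ - 1) * e := by
  have h0 : ∑ k ∈ Finset.range p, ζ ^ k = 0 := by
    have h1 := geom_sum_mul ζ p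
    rw [hζ, sub_self] at h1
    rcases mul_eq_zero.mp h1 with h | h
    · exact h
    · exact absurd (sub_eq_zero.mp h) hζ1
  refine ⟨-∑ k ∈ Finset.range p, ∑ j ∈ Finset.range k, ζ ^ j, ?_, ?_⟩
  · exact (IsIntegral.sum _ fun k _ => IsIntegral.sum _ fun j _ => hζint.pow j).neg
  · have h2 : (ζ - 1) * (-∑ k ∈ Finset.range p, ∑ j ∈ Finset.range k, ζ ^ j) =
        -∑ k ∈ Finset.range p, (ζ ^ k - 1) := by
      rw [mul_neg, Finset.mul_sum]
      congr 1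
      refine Finset.sum_congr rfl fun k _ => ?_
      rw [mul_comm]
      exact geom_sum_mul ζ k
    rw [h2, Finset.sum_sub_distrib, h0]
    simp

/-- **(Z3), normalised**: if `n' · n = 1 + p · k` then `z'' = n' z'` satisfies
`σ^[i] z'' - z'' = i + λ c`, `c` integral: the hypothesis `hcong` of `cvx_deriv_not_mem`. -/
theorem tav_hcong_norm {ι : Type*} (s : Finset ι) (τ : ι → E →+* E) (σ : E →+* E)
    (hcomm : ∀ a ∈ s, ∀ y, σ (τ a y) = τ a (σ y))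
    {p : ℕ} {ζ : E} (hζ : ζ ^ p = 1) (hζ1 : ζ ≠ 1) (hζint : IsIntegral R ζ) (hσζ : σ ζ = ζ)
    (z : E) (hσU : σ (1 + (ζ - 1) * z) = ζ * (1 + (ζ - 1) * z))
    (hτζ : ∀ a ∈ s, ∃ m : ℕ, τ a ζ = ζ ^ m) (hτz : ∀ a ∈ s, IsIntegral R (τ a z))
    (n' k : ℕ) (hn : n' * s.card = 1 + p * k) (i : ℕ) :
    ∃ c : E, IsIntegral R c ∧
      σ^[i] ((n' : E) * ∑ a ∈ s, τ a z) - (n' : E) * (∑ a ∈ s, τ a z) =
        (i : E) + (ζ - 1) * c := by
  obtain ⟨c, hc1, hc2⟩ := tav_hcong (R := R) s τ σ hcomm hζ1 hζint hσζ z hσU hτζ hτz i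
  obtain ⟨e, he1, he2⟩ := tav_prime_eq (R := R) hζ hζ1 hζint
  have hiter : ∀ (m : ℕ) (y : E), σ^[m] ((n' : E) * y) = (n' : E) * σ^[m] y := by
    intro m
    induction m with
    | zero => intro y; rfl
    | succ m ih =>
      intro y
      rw [Function.iterate_succ_apply', ih, map_mul, map_natCast, Function.iterate_succ_apply']
  have hnE : (n' : E) * (s.card : E) = 1 + (p : E) * (k : E) := by
    exact_mod_cast congrArg (fun m : ℕ => (m : E)) hn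
  have hnat : ∀ m : ℕ, IsIntegral R (m : E) := fun m => by
    have := (isIntegral_algebraMap (R := R) (A := E) (x := (m : R)))
    simpa using this
  refine ⟨e * (k : E) * (i : E) + (n' : E) * c, ?_, ?_⟩
  · exact ((he1.mul (hnat k)).mul (hnat i)).add ((hnat n').mul hc1)
  · rw [hiter, ← mul_sub, hc2]
    have h1 : (n' : E) * ((s.card : E) * (i : E) + (ζ - 1) * c) =
        ((n' : E) * (s.card : E)) * (i : E) + (ζ - 1) * ((n' : E) * c) := by ring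
    rw [h1, hnE, he2]
    ring

end Cong

section Concrete

variable {K : Type*} [Field K] [Algebra ℚ K]

/-- the mod-`p` cyclotomic character on a subgroup `H` of `Aut(K/ℚ)` -/
def tavChi {p : ℕ} [NeZero p] {ζ : K} (hζ : IsPrimitiveRoot ζ p) (H : Subgroup (K ≃ₐ[ℚ] K)) :
    ↥H →* (ZMod p)ˣ :=
  (hζ.autToPow ℚ).comp H.subtype

theorem tav_mem_ker {p : ℕ} [NeZero p] (hp : p.Prime) {ζ : K} (hζ : IsPrimitiveRoot ζ p)
    (H : Subgroup (K ≃ₐ[ℚ] K)) (τ : ↥H) :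
    τ ∈ (tavChi hζ H).ker ↔ (τ : K ≃ₐ[ℚ] K) ζ = ζ := by
  haveI : Fact (1 < p) := ⟨hp.one_lt⟩
  have hspec := hζ.autToPow_spec ℚ (τ : K ≃ₐ[ℚ] K)
  rw [MonoidHom.mem_ker]
  constructor
  · intro h
    have h2 : hζ.autToPow ℚ (τ : K ≃ₐ[ℚ] K) = 1 := h
    rw [h2, Units.val_one, ZMod.val_one, pow_one] at hspec
    exact hspec.symm
  · intro h
    rw [h] at hspec
    have hv : ((hζ.autToPow ℚ (τ : K ≃ₐ[ℚ] K) : (ZMod p)ˣ) : ZMod p).val = 1 := by
      refine hζ.pow_inj (ZMod.val_lt _) hp.one_lt ?_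
      rw [hspec, pow_one]
    have h3 : ((hζ.autToPow ℚ (τ : K ≃ₐ[ℚ] K) : (ZMod p)ˣ) : ZMod p) = 1 := by
      rw [← ZMod.natCast_zmod_val ((hζ.autToPow ℚ (τ : K ≃ₐ[ℚ] K) : (ZMod p)ˣ) : ZMod p), hv,
        Nat.cast_one]
    exact Units.ext h3

/-- equal characters ⇔ equal values on `ζ` -/
theorem tav_chi_eq_iff {p : ℕ} [NeZero p] (hp : p.Prime) {ζ : K} (hζ : IsPrimitiveRoot ζ p)
    (H : Subgroup (K ≃ₐ[ℚ] K)) (τ ρ : ↥H) :
    tavChi hζ H τ = tavChi hζ H ρ ↔ (τ : K ≃ₐ[ℚ] K) ζ = (ρ : K ≃ₐ[ℚ] K) ζ := by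
  have h1 : tavChi hζ H τ = tavChi hζ H ρ ↔ ρ⁻¹ * τ ∈ (tavChi hζ H).ker := by
    rw [MonoidHom.mem_ker, map_mul, map_inv, inv_mul_eq_one, eq_comm]
  rw [h1, tav_mem_ker hp hζ H]
  constructor
  · intro h
    have h2 : (ρ : K ≃ₐ[ℚ] K) (((ρ⁻¹ * τ : ↥H) : K ≃ₐ[ℚ] K) ζ) = (ρ : K ≃ₐ[ℚ] K) ζ := by rw [h]
    simpa using h2
  · intro h
    have h2 : ((ρ⁻¹ * τ : ↥H) : K ≃ₐ[ℚ] K) ζ = (ρ : K ≃ₐ[ℚ] K)⁻¹ ((τ : K ≃ₐ[ℚ] K) ζ) := by
      simp
    rw [h2, h]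
    simp

/-- **tame averaging, concrete** -/
theorem tav_main {p : ℕ} (hp : p.Prime) {ζ : K} (hζ : IsPrimitiveRoot ζ p)
    (H : Subgroup (K ≃ₐ[ℚ] K)) (z : LaurentSeries K)
    (hz : ∀ τ ∈ H, τ ζ = ζ → coeffMap ((τ : K ≃ₐ[ℚ] K) : K →+* K) z = z) :
    ∃ s : Finset ↥H, 0 < s.card ∧ s.card ∣ p - 1 ∧
      (∀ ρ ∈ s, ∀ ρ' ∈ s, (ρ : K ≃ₐ[ℚ] K) ζ = (ρ' : K ≃ₐ[ℚ] K) ζ → ρ = ρ') ∧
      (∀ τ ∈ H, ∃ ρ ∈ s, (ρ : K ≃ₐ[ℚ] K) ζ = τ ζ) ∧
      ∀ τ ∈ H, coeffMap ((τ : K ≃ₐ[ℚ] K) : K →+* K)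
          (∑ ρ ∈ s, coeffMap (((ρ : ↥H) : K ≃ₐ[ℚ] K) : K →+* K) z) =
        ∑ ρ ∈ s, coeffMap (((ρ : ↥H) : K ≃ₐ[ℚ] K) : K →+* K) z := by
  classical
  haveI : NeZero p := ⟨hp.ne_zero⟩
  haveI : Fact p.Prime := ⟨hp⟩
  set χ := tavChi hζ H with hχ
  haveI hfin : Finite (↥H ⧸ χ.ker) :=
    Finite.of_injective (QuotientGroup.kerLift χ) (QuotientGroup.kerLift_injective χ)
  letI : Fintype (↥H ⧸ χ.ker) := Fintype.ofFinite _
  let φ : ↥H → LaurentSeries K →+* LaurentSeries K :=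
    fun τ => coeffMap (((τ : K ≃ₐ[ℚ] K)) : K →+* K)
  have hφ : ∀ g h x, φ (g * h) x = φ g (φ h x) := by
    intro g h x
    ext n
    rfl
  have hN : ∀ n ∈ χ.ker, φ n z = z := by
    intro n hn
    exact hz _ n.2 ((tav_mem_ker hp hζ H n).mp hn)
  let r : ↥H ⧸ χ.ker → ↥H := fun q => q.out
  have hr : Function.Injective r := by
    intro q q' h
    have h1 : q.out = q'.out := h
    rw [← QuotientGroup.out_eq' q, h1, QuotientGroup.out_eq']
  have hsum : ∑ ρ ∈ Finset.univ.image r, coeffMap (((ρ : ↥H) : K ≃ₐ[ℚ] K) : K →+* K) z =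
      ∑ q : ↥H ⧸ χ.ker, φ q.out z := by
    rw [Finset.sum_image (fun a _ b _ h => hr h)]
  refine ⟨Finset.univ.image r, ?_, ?_, ?_, ?_, ?_⟩
  · rw [Finset.card_image_of_injective _ hr, Finset.card_univ]
    exact Fintype.card_pos
  · rw [Finset.card_image_of_injective _ hr, Finset.card_univ]
    have h1 : Fintype.card (↥H ⧸ χ.ker) = Nat.card χ.range := by
      rw [← Nat.card_eq_fintype_card]
      exact Nat.card_congr (QuotientGroup.quotientKerEquivRange χ).toEquiv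
    rw [h1]
    have h2 : Nat.card χ.range ∣ Nat.card (ZMod p)ˣ := Subgroup.card_subgroup_dvd_card χ.range
    have h3 : Nat.card (ZMod p)ˣ = p - 1 := by
      rw [Nat.card_eq_fintype_card, ZMod.card_units_eq_totient, Nat.totient_prime hp]
    rwa [h3] at h2
  · intro ρ hρ ρ' hρ' h
    obtain ⟨q, -, rfl⟩ := Finset.mem_image.mp hρ
    obtain ⟨q', -, rfl⟩ := Finset.mem_image.mp hρ'
    have h1 : χ q.out = χ q'.out := (tav_chi_eq_iff hp hζ H _ _).mpr h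
    have h2 : (QuotientGroup.mk q.out : ↥H ⧸ χ.ker) = QuotientGroup.mk q'.out := by
      rw [QuotientGroup.eq, MonoidHom.mem_ker, map_mul, map_inv, h1, inv_mul_cancel]
    rw [QuotientGroup.out_eq', QuotientGroup.out_eq'] at h2
    rw [h2]
  · intro τ hτ
    refine ⟨r (QuotientGroup.mk ⟨τ, hτ⟩), Finset.mem_image_of_mem _ (Finset.mem_univ _), ?_⟩
    obtain ⟨n, hn⟩ := QuotientGroup.mk_out_eq_mul χ.ker (⟨τ, hτ⟩ : ↥H)
    have h1 : ((r (QuotientGroup.mk ⟨τ, hτ⟩) : ↥H) : K ≃ₐ[ℚ] K) =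
        τ * ((n : ↥H) : K ≃ₐ[ℚ] K) := by
      change (((QuotientGroup.mk ⟨τ, hτ⟩ : ↥H ⧸ χ.ker).out : ↥H) : K ≃ₐ[ℚ] K) = _
      rw [hn]
      rfl
    rw [h1, AlgEquiv.mul_apply, (tav_mem_ker hp hζ H n).mp n.2]
  · intro τ hτ
    rw [hsum]
    exact tav_trace_fixed χ.ker φ hφ z hN ⟨τ, hτ⟩

end Concrete

end Fermat.Agent.S40lib

end
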