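/-
Item 88 (S40/S44), piece (Z') glue (helper1): the `I`-fixed cover field `E₀ ⊂ EY` and the inputs
of `cva_node` (helper2, `CoverAsm.lean`).  Abstract, Mathlib + `TameAvg` only.

* `cve0_prime_eq_pow` : `p = λ^(p-1) · e`, `e` integral (`λ = ζ - 1`);
* `cve0_z_integral`   : `(1 + λ z)^p = 1 + λ^p g`, `g` integral over `R`  ⇒  `z` integral over `R`;
* `cve0Field T`       : the subfield of `E` fixed by a set `T` of ring endomorphisms;
* `cve0Sigma`         : the restriction to `E₀` of an endomorphism `σ` commuting with `T`;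
* `cve0Algebra`, `cve0Iota` : the `R`-algebra structure of `E₀` (`R` fixed by `T`) and the
  inclusion `ι : E₀ →ₐ[R] E`;
* `cve0_inputs`       : for a `T`-fixed `z'' ∈ E`, integral over `R`, with
  `σ^[i] z'' - z'' = i + λ c_i`: the element `z₀ = z'' ∈ E₀` satisfies the hypotheses
  `hz`, `hσp`, `hσR`, `hdesc`, `hcong` of `cva_node` (for `E₀`, `σ₀ = cve0Sigma`, `ι = cve0Iota`).
-/
import Mathlib
import Fermat.Agent.S40lib.TameAvg

set_option autoImplicit false
set_option linter.unusedSectionVars false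
set_option linter.unusedVariables false
set_option linter.style.haveILetI false

noncomputable section

open Polynomial

namespace Fermat.Agent.S40lib

section Integral

variable {R : Type*} [CommRing R] {E : Type*} [Field E] [Algebra R E]

theorem cve0_zeta_integral {p : ℕ} (hp : 0 < p) {ζ : E} (hζ : ζ ^ p = 1) : IsIntegral R ζ :=
  IsIntegral.of_pow hp (by rw [hζ]; exact isIntegral_one)

/-- `p = λ^(p-1) · e` with `e` integral over any base ring -/
theorem cve0_prime_eq_pow {p : ℕ} (hp : 0 < p) {ζ : E} (hζ : IsPrimitiveRoot ζ p) :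
    ∃ e : E, IsIntegral R e ∧ (p : E) = (ζ - 1) ^ (p - 1) * e := by
  obtain ⟨n, rfl⟩ : ∃ n, p = n + 1 := ⟨p - 1, (Nat.sub_add_cancel hp).symm⟩
  have hζint : IsIntegral R ζ := cve0_zeta_integral hp hζ.pow_eq_one
  have h := hζ.prod_one_sub_pow_eq_order
  refine ⟨(-1) ^ n * ∏ k ∈ Finset.range n, ∑ j ∈ Finset.range (k + 1), ζ ^ j, ?_, ?_⟩
  · refine IsIntegral.mul ?_ ?_
    · exact (isIntegral_one.neg).pow n
    · exact IsIntegral.prod _ fun k _ => IsIntegral.sum _ fun j _ => hζint.pow j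
  · have h1 : ∀ k ∈ Finset.range n, (1 - ζ ^ (k + 1)) =
        (-(ζ - 1)) * ∑ j ∈ Finset.range (k + 1), ζ ^ j := by
      intro k _
      have := geom_sum_mul ζ (k + 1)
      linear_combination this
    rw [Finset.prod_congr rfl h1, Finset.prod_mul_distrib, Finset.prod_const,
      Finset.card_range] at h
    have h2 : ((n + 1 : ℕ) : E) = (n : E) + 1 := by push_cast; ring
    rw [h2, ← h, Nat.add_sub_cancel, neg_pow]
    ring

/-- **integrality of `z = (U - 1)/λ`**: `(1 + λ z)^p = 1 + λ^p g` with `g` integral over `R`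
implies that `z` is integral over `R`. -/
theorem cve0_z_integral {p : ℕ} (hp : p.Prime) {ζ : E} (hζ : IsPrimitiveRoot ζ p) (z g : E)
    (hg : IsIntegral R g) (hrel : (1 + (ζ - 1) * z) ^ p = 1 + (ζ - 1) ^ p * g) :
    IsIntegral R z := by
  classical
  have hζ1 : ζ ≠ 1 := hζ.ne_one hp.one_lt
  have hlam0 : ζ - 1 ≠ 0 := sub_ne_zero.mpr hζ1
  have hζint : IsIntegral R ζ := cve0_zeta_integral hp.pos hζ.pow_eq_one
  have hlamint : IsIntegral R (ζ - 1) := hζint.sub isIntegral_one
  obtain ⟨e, he, hpe⟩ := cve0_prime_eq_pow (R := R) hp.pos hζ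
  have hnat : ∀ m : ℕ, IsIntegral R (m : E) := fun m => by
    have := (isIntegral_algebraMap (R := R) (A := E) (x := (m : R)))
    simpa using this
  -- the coefficients
  let a : ℕ → E := fun k => (ζ - 1) ^ (k - 1) * e * ((p.choose k / p : ℕ) : E)
  have ha : ∀ k, IsIntegral R (a k) := fun k => ((hlamint.pow _).mul he).mul (hnat _)
  have hterm : ∀ k ∈ Finset.Ico 1 p,
      ((ζ - 1) * z) ^ k * 1 ^ (p - k) * (p.choose k : E) = (ζ - 1) ^ p * (a k * z ^ k) := by
    intro k hk
    rw [Finset.mem_Ico] at hk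
    have hdvd : p ∣ p.choose k := hp.dvd_choose_self (by omega) hk.2
    have hch : (p.choose k : E) = (p : E) * ((p.choose k / p : ℕ) : E) := by
      rw [← Nat.cast_mul, Nat.mul_div_cancel' hdvd]
    have hpow : (ζ - 1) ^ p = (ζ - 1) ^ (p - 1) * (ζ - 1) := by
      rw [← pow_succ, Nat.sub_add_cancel hp.pos]
    have hpowk : (ζ - 1) ^ k = (ζ - 1) ^ (k - 1) * (ζ - 1) := by
      rw [← pow_succ, Nat.sub_add_cancel hk.1]
    rw [hch, hpe, one_pow, mul_one, mul_pow, hpow, hpowk]
    simp only [a]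
    ring
  have hexp : (1 + (ζ - 1) * z) ^ p =
      1 + (ζ - 1) ^ p * (∑ k ∈ Finset.Ico 1 p, a k * z ^ k) + (ζ - 1) ^ p * z ^ p := by
    rw [add_comm 1 ((ζ - 1) * z), add_pow, Finset.sum_range_succ, Finset.range_eq_Ico,
      Finset.sum_eq_sum_Ico_succ_bot hp.pos, Finset.mul_sum]
    rw [Finset.sum_congr rfl hterm]
    simp [mul_pow]
  have hkey : z ^ p + ∑ k ∈ Finset.Ico 1 p, a k * z ^ k - g = 0 := by
    have h1 : (ζ - 1) ^ p * (z ^ p + ∑ k ∈ Finset.Ico 1 p, a k * z ^ k - g) = 0 := by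
      have h2 := hexp.symm.trans hrel
      linear_combination h2
    rcases mul_eq_zero.mp h1 with h | h
    · exact absurd (pow_eq_zero_iff hp.ne_zero |>.mp h) hlam0
    · exact h
  -- `z` is integral over the integral closure
  have hzA : IsIntegral (integralClosure R E) z := by
    refine ⟨X ^ p + (∑ k ∈ Finset.Ico 1 p, C (⟨a k, ha k⟩ : integralClosure R E) * X ^ k -
      C (⟨g, hg⟩ : integralClosure R E)), ?_, ?_⟩
    · apply monic_X_pow_add
      refine lt_of_le_of_lt (degree_sub_le _ _) (max_lt ?_ ?_)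
      · refine lt_of_le_of_lt (degree_sum_le _ _) ?_
        rw [Finset.sup_lt_iff (by exact_mod_cast WithBot.bot_lt_coe p)]
        intro k hk
        rw [Finset.mem_Ico] at hk
        exact lt_of_le_of_lt (degree_C_mul_X_pow_le _ _) (by exact_mod_cast hk.2)
      · exact lt_of_le_of_lt degree_C_le (by exact_mod_cast hp.pos)
    · rw [eval₂_add, eval₂_sub, eval₂_finsetSum, eval₂_X_pow, eval₂_C]
      simp only [eval₂_mul, eval₂_C, eval₂_X_pow]
      have hk2 : z ^ p + (∑ k ∈ Finset.Ico 1 p, a k * z ^ k - g) = 0 := by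
        rw [← hkey]; ring
      exact hk2
  have hmem : z ∈ integralClosure (integralClosure R E) E := hzA
  rw [integralClosure_idem, Algebra.mem_bot] at hmem
  obtain ⟨y, hy⟩ := hmem
  rw [← hy]
  exact y.2

end Integral

section E0

variable {E : Type*} [Field E]

/-- the subfield of `E` fixed by a set `T` of ring endomorphisms -/
def cve0Field (T : Set (E →+* E)) : Subfield E where
  carrier := {y | ∀ τ ∈ T, τ y = y}
  mul_mem' := fun {a b} ha hb τ hτ => by rw [map_mul, ha τ hτ, hb τ hτ]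
  one_mem' := fun τ _ => map_one τ
  add_mem' := fun {a b} ha hb τ hτ => by rw [map_add, ha τ hτ, hb τ hτ]
  zero_mem' := fun τ _ => map_zero τ
  neg_mem' := fun {a} ha τ hτ => by rw [map_neg, ha τ hτ]
  inv_mem' := fun a ha τ hτ => by rw [map_inv₀, ha τ hτ]

theorem cve0_mem {T : Set (E →+* E)} {y : E} : y ∈ cve0Field T ↔ ∀ τ ∈ T, τ y = y := Iff.rfl

/-- the restriction to `E₀` of an endomorphism commuting with `T` -/
def cve0Sigma (T : Set (E →+* E)) (σ : E →+* E)
    (hcomm : ∀ τ ∈ T, ∀ y, σ (τ y) = τ (σ y)) : ↥(cve0Field T) →+* ↥(cve0Field T) :=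
  (σ.comp (cve0Field T).subtype).codRestrict (cve0Field T) (fun y τ hτ => by
    show τ (σ (y : E)) = σ (y : E)
    rw [← hcomm τ hτ, y.2 τ hτ])

theorem cve0_coe_sigma (T : Set (E →+* E)) (σ : E →+* E)
    (hcomm : ∀ τ ∈ T, ∀ y, σ (τ y) = τ (σ y)) (y : ↥(cve0Field T)) :
    ((cve0Sigma T σ hcomm y : ↥(cve0Field T)) : E) = σ (y : E) := rfl

theorem cve0_coe_sigma_iterate (T : Set (E →+* E)) (σ : E →+* E)
    (hcomm : ∀ τ ∈ T, ∀ y, σ (τ y) = τ (σ y)) (n : ℕ) (y : ↥(cve0Field T)) :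
    (((cve0Sigma T σ hcomm)^[n] y : ↥(cve0Field T)) : E) = σ^[n] (y : E) := by
  induction n with
  | zero => rfl
  | succ n ih =>
    rw [Function.iterate_succ_apply', Function.iterate_succ_apply', cve0_coe_sigma, ih]

variable {R : Type*} [CommRing R] [Algebra R E]

/-- the `R`-algebra structure of `E₀` when `T` fixes the image of `R` -/
@[reducible] def cve0Algebra (T : Set (E →+* E))
    (hR : ∀ τ ∈ T, ∀ r : R, τ (algebraMap R E r) = algebraMap R E r) :
    Algebra R ↥(cve0Field T) :=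
  ((algebraMap R E).codRestrict (cve0Field T) (fun r τ hτ => hR τ hτ r)).toAlgebra

/-- the inclusion `ι : E₀ →ₐ[R] E` -/
def cve0Iota (T : Set (E →+* E))
    (hR : ∀ τ ∈ T, ∀ r : R, τ (algebraMap R E r) = algebraMap R E r) :
    letI := cve0Algebra (R := R) T hR
    ↥(cve0Field T) →ₐ[R] E :=
  letI := cve0Algebra (R := R) T hR
  { (cve0Field T).subtype with commutes' := fun r => rfl }

theorem cve0_iota_apply (T : Set (E →+* E))
    (hR : ∀ τ ∈ T, ∀ r : R, τ (algebraMap R E r) = algebraMap R E r) (y : ↥(cve0Field T)) :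
    letI := cve0Algebra (R := R) T hR
    cve0Iota (R := R) T hR y = (y : E) := rfl

theorem cve0_iota_injective (T : Set (E →+* E))
    (hR : ∀ τ ∈ T, ∀ r : R, τ (algebraMap R E r) = algebraMap R E r) :
    letI := cve0Algebra (R := R) T hR
    Function.Injective (cve0Iota (R := R) T hR) :=
  fun _ _ h => Subtype.ext h

/-- **the inputs of `cva_node`** for `E₀ = cve0Field T`, `σ₀ = cve0Sigma T σ`,
`ι = cve0Iota T`, `z₀ = z''`. -/
theorem cve0_inputs (T : Set (E →+* E)) (σ : E →+* E)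
    (hcomm : ∀ τ ∈ T, ∀ y, σ (τ y) = τ (σ y))
    (hR : ∀ τ ∈ T, ∀ r : R, τ (algebraMap R E r) = algebraMap R E r)
    {p : ℕ} (hσp : ∀ y : E, σ^[p] y = y)
    (hσR : ∀ r : R, σ (algebraMap R E r) = algebraMap R E r)
    (hdescE : ∀ t : E, σ t = t → (∀ τ ∈ T, τ t = t) → IsIntegral R t →
      t ∈ Set.range (algebraMap R E))
    (z'' : E) (hz : IsIntegral R z'') (hfix : ∀ τ ∈ T, τ z'' = z'')
    (lam : E) (c : ℕ → E)
    (hcong : ∀ i ∈ Finset.Ico 1 p, σ^[i] z'' - z'' = algebraMap R E (i : R) + lam * c i) :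
    letI := cve0Algebra (R := R) T hR
    ∃ z₀ : ↥(cve0Field T), (z₀ : E) = z'' ∧ IsIntegral R z₀ ∧
      (cve0Sigma T σ hcomm)^[p] z₀ = z₀ ∧
      (∀ r : R, cve0Sigma T σ hcomm (algebraMap R ↥(cve0Field T) r) =
        algebraMap R ↥(cve0Field T) r) ∧
      (∀ t : ↥(cve0Field T), cve0Sigma T σ hcomm t = t → IsIntegral R t →
        t ∈ Set.range (algebraMap R ↥(cve0Field T))) ∧
      ∀ i ∈ Finset.Ico 1 p,
        cve0Iota (R := R) T hR ((cve0Sigma T σ hcomm)^[i] z₀) - cve0Iota (R := R) T hR z₀ =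
          algebraMap R E (i : R) + lam * c i := by
  letI := cve0Algebra (R := R) T hR
  refine ⟨⟨z'', hfix⟩, rfl, ?_, ?_, ?_, ?_, ?_⟩
  · exact (isIntegral_algHom_iff (cve0Iota (R := R) T hR)
      (cve0_iota_injective (R := R) T hR)).mp hz
  · apply Subtype.ext
    rw [cve0_coe_sigma_iterate]
    exact hσp z''
  · intro r
    apply Subtype.ext
    rw [cve0_coe_sigma]
    exact hσR r
  · intro t ht htint
    have h1 : σ (t : E) = (t : E) := by
      have := congrArg (Subtype.val) ht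
      rwa [cve0_coe_sigma] at this
    have h2 : IsIntegral R (t : E) := htint.map (cve0Iota (R := R) T hR)
    obtain ⟨r, hr⟩ := hdescE (t : E) h1 t.2 h2
    exact ⟨r, Subtype.ext hr⟩
  · intro i hi
    rw [cve0_iota_apply, cve0_iota_apply, cve0_coe_sigma_iterate]
    exact hcong i hi

end E0

end Fermat.Agent.S40lib

end
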