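/-
Item 88 (S40/S44), piece (Z') glue, CONCRETE (helper1): in the cover setting of `cvw_main`
(`EY ⊂ ℚ̄((q))` stable under `H` = inertia, deck map `σY` commuting with `H`), from

* (Z2)  `z = (U - 1)/λ ∈ EY` fixed (coefficientwise) by `H1 = {τ ∈ H | τ ζ = ζ}`,
* `z` integral over `R` (e.g. by `cve0_z_integral`), `R` fixed by `H` and `σY`,
* `σY U = ζ U` for `U = 1 + λ z`,

the tame average `z₀ = n' · ∑_{ρ ∈ H/H1} ρ z` lies in the `H`-fixed field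
`E₀ = cve0Field (cve0cT H EY hst)` and satisfies ALL the inputs of `cva_node` (helper2).
-/
import Mathlib
import Fermat.Agent.S36lib.Speed
import Fermat.Agent.S40lib.WildCore
import Fermat.Agent.S40lib.CoverE0

set_option autoImplicit false
set_option linter.style.haveILetI false
set_option linter.unusedSectionVars false
set_option linter.unusedVariables false

noncomputable section

namespace Fermat.Agent.S40lib

open ModularCurve HahnSeries AlgebraicCurve Fermat.Agent.S24lib Fermat.Agent.S33lib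
  Fermat.Agent.S34lib Fermat.Agent.RRlib

section

variable (H : Subgroup (Kbar ≃ₐ[ℚ] Kbar)) (EY : IntermediateField Kbar (LaurentSeries Kbar))

/-- the set of endomorphisms of `EY` induced by `H` -/
def cve0cT (hst : ∀ σ ∈ H, ∀ x ∈ EY,
    coeffMap ((σ : Kbar ≃ₐ[ℚ] Kbar) : Kbar →+* Kbar) x ∈ EY) : Set (↥EY →+* ↥EY) :=
  {f | ∃ (σ : Kbar ≃ₐ[ℚ] Kbar) (hσ : σ ∈ H), f = wlcTau H EY hst σ hσ}

theorem cve0c_hR (hst : ∀ σ ∈ H, ∀ x ∈ EY,
    coeffMap ((σ : Kbar ≃ₐ[ℚ] Kbar) : Kbar →+* Kbar) x ∈ EY)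
    {R : Type*} [CommRing R] [Algebra R ↥EY]
    (hR : ∀ (σ : Kbar ≃ₐ[ℚ] Kbar) (hσ : σ ∈ H) (r : R),
      wlcTau H EY hst σ hσ (algebraMap R ↥EY r) = algebraMap R ↥EY r) :
    ∀ τ ∈ cve0cT H EY hst, ∀ r : R, τ (algebraMap R ↥EY r) = algebraMap R ↥EY r := by
  rintro τ ⟨σ, hσ, rfl⟩ r
  exact hR σ hσ r

theorem cve0c_hcomm (hst : ∀ σ ∈ H, ∀ x ∈ EY,
    coeffMap ((σ : Kbar ≃ₐ[ℚ] Kbar) : Kbar →+* Kbar) x ∈ EY)
    (σY : ↥EY →+* ↥EY)
    (hcomm : ∀ (σ : Kbar ≃ₐ[ℚ] Kbar) (hσ : σ ∈ H) (z : ↥EY),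
      σY (wlcTau H EY hst σ hσ z) = wlcTau H EY hst σ hσ (σY z)) :
    ∀ τ ∈ cve0cT H EY hst, ∀ y, σY (τ y) = τ (σY y) := by
  rintro τ ⟨σ, hσ, rfl⟩ y
  exact hcomm σ hσ y

/-- **(Z'), concrete**: the tame average is an `H`-fixed generator with all the inputs of
`cva_node`. -/
theorem cve0c_main {p : ℕ} (hp : p.Prime) {ζ : Kbar} (hζ : IsPrimitiveRoot ζ p)
    (hst : ∀ σ ∈ H, ∀ x ∈ EY,
      coeffMap ((σ : Kbar ≃ₐ[ℚ] Kbar) : Kbar →+* Kbar) x ∈ EY)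
    (σY : ↥EY →+* ↥EY)
    (hσK : ∀ c : Kbar, σY (algebraMap Kbar ↥EY c) = algebraMap Kbar ↥EY c)
    (hcomm : ∀ (σ : Kbar ≃ₐ[ℚ] Kbar) (hσ : σ ∈ H) (z : ↥EY),
      σY (wlcTau H EY hst σ hσ z) = wlcTau H EY hst σ hσ (σY z))
    (hσp : ∀ y : ↥EY, σY^[p] y = y)
    {R : Type*} [CommRing R] [Algebra R ↥EY]
    (hR : ∀ (σ : Kbar ≃ₐ[ℚ] Kbar) (hσ : σ ∈ H) (r : R),
      wlcTau H EY hst σ hσ (algebraMap R ↥EY r) = algebraMap R ↥EY r)
    (hσR : ∀ r : R, σY (algebraMap R ↥EY r) = algebraMap R ↥EY r)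
    (hdescE : ∀ t : ↥EY, σY t = t →
      (∀ τ ∈ cve0cT H EY hst, τ t = t) → IsIntegral R t →
      t ∈ Set.range (algebraMap R ↥EY))
    (z : ↥EY) (hz : IsIntegral R z)
    (hz1 : ∀ τ ∈ H, τ ζ = ζ →
      coeffMap ((τ : Kbar ≃ₐ[ℚ] Kbar) : Kbar →+* Kbar) (z : LaurentSeries Kbar) =
        (z : LaurentSeries Kbar))
    (hσU : σY (1 + (algebraMap Kbar ↥EY ζ - 1) * z) =
      algebraMap Kbar ↥EY ζ * (1 + (algebraMap Kbar ↥EY ζ - 1) * z)) :
    letI := cve0Algebra (R := R) (cve0cT H EY hst) (cve0c_hR H EY hst hR)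
    ∃ (z₀ : ↥(cve0Field (cve0cT H EY hst))) (c : ℕ → ↥EY),
      IsIntegral R z₀ ∧
      (cve0Sigma (cve0cT H EY hst) σY (cve0c_hcomm H EY hst σY hcomm))^[p] z₀ = z₀ ∧
      (∀ r : R, cve0Sigma (cve0cT H EY hst) σY (cve0c_hcomm H EY hst σY hcomm)
          (algebraMap R ↥(cve0Field (cve0cT H EY hst)) r) =
        algebraMap R ↥(cve0Field (cve0cT H EY hst)) r) ∧
      (∀ t : ↥(cve0Field (cve0cT H EY hst)),
        cve0Sigma (cve0cT H EY hst) σY (cve0c_hcomm H EY hst σY hcomm) t = t →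
        IsIntegral R t → t ∈ Set.range (algebraMap R ↥(cve0Field (cve0cT H EY hst)))) ∧
      (∀ i ∈ Finset.Ico 1 p, IsIntegral R (c i)) ∧
      (∀ i ∈ Finset.Ico 1 p,
        cve0Iota (R := R) (cve0cT H EY hst) (cve0c_hR H EY hst hR)
            ((cve0Sigma (cve0cT H EY hst) σY (cve0c_hcomm H EY hst σY hcomm))^[i] z₀) -
          cve0Iota (R := R) (cve0cT H EY hst) (cve0c_hR H EY hst hR) z₀ =
          algebraMap R ↥EY (i : R) + (algebraMap Kbar ↥EY ζ - 1) * c i) ∧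
      ∃ (s : Finset ↥H) (n' : ℕ), (n' * s.card) % p = 1 ∧
        ((z₀ : ↥EY) : LaurentSeries Kbar) = (n' : LaurentSeries Kbar) *
          ∑ ρ ∈ s, coeffMap (((ρ : ↥H) : Kbar ≃ₐ[ℚ] Kbar) : Kbar →+* Kbar)
            (z : LaurentSeries Kbar) := by
  classical
  haveI : NeZero p := ⟨hp.ne_zero⟩
  -- the representatives
  obtain ⟨s, hs0, hsdvd, -, -, hsfix⟩ := tav_main hp hζ H (z : LaurentSeries Kbar) hz1
  have hndvd : ¬ p ∣ s.card := by
    intro h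
    have h1 : p ≤ s.card := Nat.le_of_dvd hs0 h
    have h2 : s.card ≤ p - 1 := Nat.le_of_dvd (Nat.sub_pos_of_lt hp.one_lt) hsdvd
    have := hp.one_lt
    omega
  have hcop : Nat.Coprime s.card p := ((Nat.Prime.coprime_iff_not_dvd hp).mpr hndvd).symm
  obtain ⟨n', -, hn'⟩ := Nat.exists_mul_mod_eq_one_of_coprime hcop hp.one_lt
  have hn : n' * s.card = 1 + p * (s.card * n' / p) := by
    have := Nat.div_add_mod (s.card * n') p
    rw [hn'] at this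
    rw [mul_comm n' s.card]
    omega
  -- the endomorphisms
  let τ : ↥H → (↥EY →+* ↥EY) := fun ρ => wlcTau H EY hst ρ ρ.2
  have hτT : ∀ ρ : ↥H, τ ρ ∈ cve0cT H EY hst := fun ρ => ⟨ρ, ρ.2, rfl⟩
  set ζ' : ↥EY := algebraMap Kbar ↥EY ζ with hζ'
  have hζ'p : ζ' ^ p = 1 := by rw [hζ', ← map_pow, hζ.pow_eq_one, map_one]
  have hζ'1 : ζ' ≠ 1 := by
    intro h
    have h1 : algebraMap Kbar ↥EY ζ = algebraMap Kbar ↥EY 1 := by rw [map_one]; exact h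
    exact hζ.ne_one hp.one_lt ((algebraMap Kbar ↥EY).injective h1)
  have hζ'int : IsIntegral R ζ' := cve0_zeta_integral hp.pos hζ'p
  have hτζ : ∀ a ∈ s, ∃ m : ℕ, τ a ζ' = ζ' ^ m := by
    intro a _
    have h1 : ((a : Kbar ≃ₐ[ℚ] Kbar) ζ) ^ p = 1 := by rw [← map_pow, hζ.pow_eq_one, map_one]
    obtain ⟨m, -, hm⟩ := hζ.eq_pow_of_pow_eq_one h1
    refine ⟨m, ?_⟩
    show wlcTau H EY hst a a.2 (algebraMap Kbar ↥EY ζ) = _
    rw [wlc_tau_algebraMap, hζ', ← map_pow, hm]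
    rfl
  have hτz : ∀ a ∈ s, IsIntegral R (τ a z) := by
    intro a _
    let f : ↥EY →ₐ[R] ↥EY := { τ a with commutes' := fun r => hR a a.2 r }
    exact hz.map f
  have hcommT := cve0c_hcomm H EY hst σY hcomm
  have hcong := fun i : ℕ => tav_hcong_norm (R := R) s τ σY
    (fun a _ y => hcomm a a.2 y) hζ'p hζ'1 hζ'int (hσK ζ) z hσU hτζ hτz n'
    (s.card * n' / p) hn i
  choose c hc1 hc2 using hcong
  -- the generator
  set z'' : ↥EY := (n' : ↥EY) * ∑ a ∈ s, τ a z with hz''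
  have hnat : ∀ m : ℕ, IsIntegral R (m : ↥EY) := fun m => by
    have := (isIntegral_algebraMap (R := R) (A := ↥EY) (x := (m : R)))
    simpa using this
  have hz''int : IsIntegral R z'' :=
    (hnat n').mul (IsIntegral.sum _ fun a ha => hτz a ha)
  have hcoe : ((∑ a ∈ s, τ a z : ↥EY) : LaurentSeries Kbar) =
      ∑ ρ ∈ s, coeffMap (((ρ : ↥H) : Kbar ≃ₐ[ℚ] Kbar) : Kbar →+* Kbar)
        (z : LaurentSeries Kbar) := by
    rw [← IntermediateField.coe_val, map_sum]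
    rfl
  have hfix : ∀ f ∈ cve0cT H EY hst, f z'' = z'' := by
    rintro f ⟨σ, hσ, rfl⟩
    rw [hz'', map_mul, map_natCast]
    congr 1
    apply Subtype.ext
    rw [wlc_coe_tau, hcoe]
    exact hsfix σ hσ
  have hcong' : ∀ i ∈ Finset.Ico 1 p,
      σY^[i] z'' - z'' = algebraMap R ↥EY (i : R) + (ζ' - 1) * c i := by
    intro i _
    rw [map_natCast]
    exact hc2 i
  letI := cve0Algebra (R := R) (cve0cT H EY hst) (cve0c_hR H EY hst hR)
  obtain ⟨z₀, hz0, hzint, h1, h2, h3, h4⟩ :=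
    cve0_inputs (cve0cT H EY hst) σY hcommT (cve0c_hR H EY hst hR) hσp hσR hdescE z''
      hz''int hfix (ζ' - 1) c hcong'
  refine ⟨z₀, c, hzint, h1, h2, h3, fun i _ => hc1 i, h4, s, n', ?_, ?_⟩
  · rw [mul_comm]; exact hn'
  · rw [hz0, hz'']
    show ((n' : ↥EY) : LaurentSeries Kbar) * ((∑ a ∈ s, τ a z : ↥EY) : LaurentSeries Kbar) = _
    rw [hcoe]
    congr 1

end

end Fermat.Agent.S40lib

end
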