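/-
Item 88 (S40/S44), block (J-WILD), piece (C) (helper5): the inputs `R`, `hR`, `hσR`, `hdescE` of
`cve0c_main` (helper1) at the local ring `R = B_s` of a subring `B ⊂ F0(N)` (in the application
`B = S.B`, `S = nodeSetupNj`, `s` the centre of a place), inside the cover field
`EY ⊃ F_N = modularFunctionFieldBar N`.

* `cdrIncl`      : `B → EY`;  `cdrMap : B_s → EY`;  `cdrAlgebra : Algebra B_s EY`;
* `cdr_map_fix`  : a ring endomorphism of `EY` fixing `B` fixes `B_s`;
* `cdr_hR`       : `B_s` is fixed by `H ≤ I` (coefficientwise action)        (= `hR`);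
* `cdr_hsigR`    : `B_s` is fixed by the deck map `σY`                       (= `hσR`);
* `cdr_hdescE`   : an element of `EY` fixed by `σY` and by `H ≥ I`, integral over `B_s`, is in
                   `B_s` (`B_s` integrally closed, `Frac B = F0(N)`)         (= `hdescE`);
* `cdr_map_injective`.
-/
import Mathlib
import Fermat.Agent.S36lib.Speed
import Fermat.Agent.S36lib.FixedF0
import Fermat.Agent.S36lib.InvertSetup
import Fermat.Agent.S40lib.CoverE0c

set_option autoImplicit false
set_option linter.style.haveILetI false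
set_option linter.unusedSectionVars false
set_option linter.unusedVariables false

noncomputable section

namespace Fermat.Agent.S40lib

open ModularCurve HahnSeries AlgebraicCurve Fermat.Agent.S24lib Fermat.Agent.S33lib
  Fermat.Agent.S34lib Fermat.Agent.RRlib Fermat.Agent.S36lib

section

variable (A : ValuationSubring Kbar) (N : ℕ) [NeZero N]
  (EY : IntermediateField Kbar (LaurentSeries Kbar))
  (hle : modularFunctionFieldBar N ≤ EY)
  (B : Subring (f0Field A N))

/-- the inclusion `B ⊂ F0(N) ⊂ F_N ⊂ EY` -/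
def cdrIncl : B →+* ↥EY :=
  ((IntermediateField.inclusion hle : ↥(modularFunctionFieldBar N) →ₐ[Kbar] ↥EY) :
      ↥(modularFunctionFieldBar N) →+* ↥EY).comp
    ((algebraMap ↥(f0Field A N) (FF N)).comp B.subtype)

theorem cdr_incl_coe (b : B) :
    ((cdrIncl A N EY hle B b : ↥EY) : LaurentSeries Kbar) =
      (((b : f0Field A N) : FF N) : LaurentSeries Kbar) := rfl

theorem cdr_incl_injective : Function.Injective (cdrIncl A N EY hle B) := by
  intro a b h
  apply Subtype.ext
  apply Subtype.ext
  apply Subtype.ext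
  have h1 := congrArg (fun z : ↥EY => (z : LaurentSeries Kbar)) h
  exact h1

variable (s : Ideal B) [hs : s.IsPrime]

theorem cdr_incl_isUnit (y : s.primeCompl) : IsUnit (cdrIncl A N EY hle B (y : B)) := by
  have h0 : (y : B) ≠ 0 := fun h => y.2 (h ▸ s.zero_mem)
  exact IsUnit.mk0 _ fun h =>
    h0 (cdr_incl_injective A N EY hle B (h.trans (map_zero _).symm))

/-- the inclusion `B_s → EY` -/
def cdrMap : Localization.AtPrime s →+* ↥EY :=
  IsLocalization.lift (M := s.primeCompl) (g := cdrIncl A N EY hle B)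
    (cdr_incl_isUnit A N EY hle B s)

theorem cdr_map_algebraMap (b : B) :
    cdrMap A N EY hle B s (algebraMap B (Localization.AtPrime s) b) = cdrIncl A N EY hle B b :=
  IsLocalization.lift_eq _ b

/-- a ring endomorphism of `EY` fixing `B` fixes `B_s` -/
theorem cdr_map_fix (τ : ↥EY →+* ↥EY)
    (hτ : ∀ b : B, τ (cdrIncl A N EY hle B b) = cdrIncl A N EY hle B b)
    (r : Localization.AtPrime s) :
    τ (cdrMap A N EY hle B s r) = cdrMap A N EY hle B s r := by
  obtain ⟨⟨a, b⟩, rfl⟩ := IsLocalization.mk'_surjective s.primeCompl r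
  dsimp only
  have h1 : cdrMap A N EY hle B s (IsLocalization.mk' (Localization.AtPrime s) a b) *
      cdrIncl A N EY hle B (b : B) = cdrIncl A N EY hle B a := by
    rw [← cdr_map_algebraMap A N EY hle B s (b : B), ← cdr_map_algebraMap A N EY hle B s a,
      ← map_mul, IsLocalization.mk'_spec]
  have hb0 : cdrIncl A N EY hle B (b : B) ≠ 0 := (cdr_incl_isUnit A N EY hle B s b).ne_zero
  have h2 := congrArg τ h1
  rw [map_mul, hτ, hτ] at h2
  exact mul_right_cancel₀ hb0 (h2.trans h1.symm)

theorem cdr_map_injective : Function.Injective (cdrMap A N EY hle B s) := by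
  rw [injective_iff_map_eq_zero]
  intro r hr
  obtain ⟨⟨a, b⟩, rfl⟩ := IsLocalization.mk'_surjective s.primeCompl r
  dsimp only
  have h1 : cdrMap A N EY hle B s (IsLocalization.mk' (Localization.AtPrime s) a b) *
      cdrIncl A N EY hle B (b : B) = cdrIncl A N EY hle B a := by
    rw [← cdr_map_algebraMap A N EY hle B s (b : B), ← cdr_map_algebraMap A N EY hle B s a,
      ← map_mul, IsLocalization.mk'_spec]
  rw [hr, zero_mul] at h1
  have ha : a = 0 := cdr_incl_injective A N EY hle B (h1.symm.trans (map_zero _).symm)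
  rw [ha, IsLocalization.mk'_zero]

/-- the algebra structure of `EY` over `B_s` -/
@[reducible] def cdrAlgebra : Algebra (Localization.AtPrime s) ↥EY :=
  (cdrMap A N EY hle B s).toAlgebra

/-- `hR` of `cve0c_main`: `B_s` is fixed by `H ≤ I` -/
theorem cdr_hR (H : Subgroup (Kbar ≃ₐ[ℚ] Kbar)) (hH : H ≤ A.inertiaSubgroupIn ℚ)
    (hst : ∀ σ ∈ H, ∀ x ∈ EY,
      coeffMap ((σ : Kbar ≃ₐ[ℚ] Kbar) : Kbar →+* Kbar) x ∈ EY) :
    letI := cdrAlgebra A N EY hle B s
    ∀ (σ : Kbar ≃ₐ[ℚ] Kbar) (hσ : σ ∈ H) (r : Localization.AtPrime s),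
      wlcTau H EY hst σ hσ (algebraMap (Localization.AtPrime s) ↥EY r) =
        algebraMap (Localization.AtPrime s) ↥EY r := by
  intro σ hσ r
  refine cdr_map_fix A N EY hle B s (wlcTau H EY hst σ hσ) (fun b => ?_) r
  apply Subtype.ext
  rw [wlc_coe_tau, cdr_incl_coe]
  have h1 : IsIFixed N A ((b : f0Field A N) : FF N) :=
    (mem_f0Field_iff_isIFixed A N _).1 (b : f0Field A N).2
  have h2 := h1 σ (hH hσ)
  exact congrArg Subtype.val h2

/-- `hσR` of `cve0c_main`: `B_s` is fixed by the deck map -/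
theorem cdr_hsigR (σY : ↥EY →+* ↥EY)
    (hσF : ∀ f : modularFunctionFieldBar N,
      σY ⟨(f : LaurentSeries Kbar), hle f.2⟩ = ⟨(f : LaurentSeries Kbar), hle f.2⟩) :
    letI := cdrAlgebra A N EY hle B s
    ∀ r : Localization.AtPrime s,
      σY (algebraMap (Localization.AtPrime s) ↥EY r) =
        algebraMap (Localization.AtPrime s) ↥EY r := by
  intro r
  exact cdr_map_fix A N EY hle B s σY (fun b => hσF ((b : f0Field A N) : FF N)) r

/-- the inclusion `B_s → F0(N)` -/
def cdrMap0 : Localization.AtPrime s →+* ↥(f0Field A N) :=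
  IsLocalization.lift (M := s.primeCompl) (g := B.subtype) (fun y => by
    have h0 : (y : B) ≠ 0 := fun h => y.2 (h ▸ s.zero_mem)
    exact IsUnit.mk0 _ fun h => h0 (Subtype.ext h))

theorem cdr_map0_algebraMap (b : B) :
    cdrMap0 A N B s (algebraMap B (Localization.AtPrime s) b) = (b : f0Field A N) :=
  IsLocalization.lift_eq _ b

/-- `B_s → EY` factors through `F0(N)` -/
theorem cdr_map_eq (r : Localization.AtPrime s) :
    ((cdrMap A N EY hle B s r : ↥EY) : LaurentSeries Kbar) =
      (((cdrMap0 A N B s r : f0Field A N) : FF N) : LaurentSeries Kbar) := by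
  let j : ↥(f0Field A N) →+* ↥EY :=
    ((IntermediateField.inclusion hle : ↥(modularFunctionFieldBar N) →ₐ[Kbar] ↥EY) :
      ↥(modularFunctionFieldBar N) →+* ↥EY).comp (algebraMap ↥(f0Field A N) (FF N))
  have h : cdrMap A N EY hle B s = j.comp (cdrMap0 A N B s) := by
    apply IsLocalization.ringHom_ext s.primeCompl
    ext b
    rw [RingHom.comp_apply, RingHom.comp_apply, RingHom.comp_apply, cdr_map_algebraMap,
      cdr_map0_algebraMap]
    rfl
  rw [h]
  rfl

/-- `hdescE` of `cve0c_main`: an element of `EY` fixed by the deck map and by `H ≥ I`, integral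
over `B_s`, lies in `B_s`. -/
theorem cdr_hdescE [IsIntegrallyClosed (Localization.AtPrime s)]
    (hfrac : ∀ z : f0Field A N, ∃ a b : B, b ≠ 0 ∧ z * (b : f0Field A N) = (a : f0Field A N))
    (H : Subgroup (Kbar ≃ₐ[ℚ] Kbar)) (hH : A.inertiaSubgroupIn ℚ ≤ H)
    (hst : ∀ σ ∈ H, ∀ x ∈ EY,
      coeffMap ((σ : Kbar ≃ₐ[ℚ] Kbar) : Kbar →+* Kbar) x ∈ EY)
    (σY : ↥EY →+* ↥EY)
    (hfix : ∀ y : ↥EY, σY y = y → (y : LaurentSeries Kbar) ∈ modularFunctionFieldBar N) :
    letI := cdrAlgebra A N EY hle B s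
    ∀ t : ↥EY, σY t = t → (∀ τ ∈ cve0cT H EY hst, τ t = t) →
      IsIntegral (Localization.AtPrime s) t →
      t ∈ Set.range (algebraMap (Localization.AtPrime s) ↥EY) := by
  intro t hσt hτt hint
  -- `t ∈ F0(N)`
  have htF : (t : LaurentSeries Kbar) ∈ modularFunctionFieldBar N := hfix t hσt
  have hIfix : IsIFixed N A (⟨(t : LaurentSeries Kbar), htF⟩ : FF N) := by
    intro σ hσ
    apply Subtype.ext
    have h1 := hτt (wlcTau H EY hst σ (hH hσ)) ⟨σ, hH hσ, rfl⟩
    have h2 := congrArg (fun z : ↥EY => (z : LaurentSeries Kbar)) h1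
    exact h2
  have ht0 : (⟨(t : LaurentSeries Kbar), htF⟩ : FF N) ∈ f0Field A N :=
    (mem_f0Field_iff_isIFixed A N _).2 hIfix
  set t1 : f0Field A N := ⟨⟨(t : LaurentSeries Kbar), htF⟩, ht0⟩ with ht1
  -- the algebra structures
  letI alg0 : Algebra (Localization.AtPrime s) ↥(f0Field A N) := (cdrMap0 A N B s).toAlgebra
  haveI tow : IsScalarTower B (Localization.AtPrime s) ↥(f0Field A N) :=
    IsScalarTower.of_algebraMap_eq fun b => (cdr_map0_algebraMap A N B s b).symm
  haveI hBF : IsFractionRing B ↥(f0Field A N) := s36_isFractionRing_of_hfrac B hfrac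
  haveI hRF : IsFractionRing (Localization.AtPrime s) ↥(f0Field A N) :=
    IsFractionRing.isFractionRing_of_isDomain_of_isLocalization s.primeCompl
      (Localization.AtPrime s) ↥(f0Field A N)
  -- integrality in `F0(N)`
  have hint1 : IsIntegral (Localization.AtPrime s) t1 := by
    obtain ⟨P, hPm, hP0⟩ := hint
    refine ⟨P, hPm, ?_⟩
    have h2 : (Polynomial.eval₂ (cdrMap A N EY hle B s) t P : ↥EY) = 0 := hP0
    have h3 : ∀ Q : Polynomial (Localization.AtPrime s),
        ((Polynomial.eval₂ (cdrMap A N EY hle B s) t Q : ↥EY) : LaurentSeries Kbar) =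
          (((Polynomial.eval₂ (cdrMap0 A N B s) t1 Q : f0Field A N) : FF N) :
            LaurentSeries Kbar) := by
      intro Q
      induction Q using Polynomial.induction_on' with
      | add f g hf hg =>
        rw [Polynomial.eval₂_add, Polynomial.eval₂_add]
        push_cast
        rw [hf, hg]
      | monomial n a =>
        rw [Polynomial.eval₂_monomial, Polynomial.eval₂_monomial]
        push_cast
        rw [cdr_map_eq A N EY hle B s a]
    have h4 := h3 P
    rw [h2] at h4
    show Polynomial.eval₂ (cdrMap0 A N B s) t1 P = 0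
    apply Subtype.ext
    apply Subtype.ext
    exact h4.symm
  obtain ⟨r, hr⟩ := (IsIntegrallyClosed.isIntegral_iff (K := ↥(f0Field A N))).1 hint1
  refine ⟨r, ?_⟩
  apply Subtype.ext
  show ((cdrMap A N EY hle B s r : ↥EY) : LaurentSeries Kbar) = _
  rw [cdr_map_eq A N EY hle B s r]
  have hr' : cdrMap0 A N B s r = t1 := hr
  rw [hr']

end

end Fermat.Agent.S40lib
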