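/-
Item 88 (S40), piece C1 (helper1): the COVER FIELD `E = F(U)`, `U ^ p = u ∈ F`, of design A, as
pure field theory inside an ambient field `L` (in the application `L = LaurentSeries Kbar`,
`F = FF N`, `U` the `p`-th root of the Kummer function `u_t` with leading coefficient `1`).

* `cvfField F U`      : `IntermediateField.adjoin K (F ∪ {U})`, an intermediate field of `L / K`;
* `cvf_le`, `cvf_U_mem`, `cvf_eq_restrictScalars`;
* `cvf_no_root`, `cvf_minpoly` : if `U ∉ F` then `X ^ p - C u` is the minimal polynomial of `U`;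
* `cvf_kummer_aut`    : the Kummer automorphism of `F₁⟮U⟯ / F₁` (abstract base `F₁`), with its
                        fixed field;
* `cvf_sigma_exists`  : the DECK TRANSFORMATION `σ_Y : E ≃ₐ[K] E`, `σ_Y U = ζ U`, `σ_Y|F = id`,
                        fixed field `= F`, `σ_Y ^ p = 1`;
* `cvf_comm`          : `σ_Y` commutes with every ring endomorphism `τ` of `E` with `τ F ⊆ F`,
                        `τ U = d · g · U ^ w` (`g ∈ F`), `τ ζ = ζ ^ w`  (the Galois action);
* `cvf_finrank`       : `[E : F] = p`.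
-/
import Mathlib

set_option autoImplicit false
set_option linter.unusedSectionVars false
set_option linter.unusedVariables false

noncomputable section

namespace Fermat.Agent.S40lib

open Polynomial IntermediateField

section Kummer

variable {F₁ : Type*} [Field F₁] {L : Type*} [Field L] [Algebra F₁ L]

/-- if `U ^ p = u` and `U` is not in the base field (which contains a primitive `p`-th root of
unity), then `u` is not a `p`-th power in the base field -/
theorem cvf_no_root {p : ℕ} (hp : p.Prime) {ζ : F₁} (hζ : IsPrimitiveRoot ζ p) {U : L} {u : F₁}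
    (hu : U ^ p = algebraMap F₁ L u) (hU : U ∉ Set.range (algebraMap F₁ L)) :
    ∀ b : F₁, b ^ p ≠ u := by
  intro b hb
  have hU0 : U ≠ 0 := by
    rintro rfl
    exact hU ⟨0, map_zero _⟩
  have hb0 : b ≠ 0 := by
    rintro rfl
    rw [zero_pow hp.ne_zero] at hb
    rw [← hb, map_zero] at hu
    exact hU0 ((pow_eq_zero_iff hp.ne_zero).mp hu)
  have hbL : algebraMap F₁ L b ≠ 0 := by simpa using hb0
  have h1 : (U / algebraMap F₁ L b) ^ p = 1 := by
    rw [div_pow, hu, ← hb, map_pow]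
    exact div_self (pow_ne_zero _ hbL)
  have hζL : IsPrimitiveRoot (algebraMap F₁ L ζ) p :=
    hζ.map_of_injective (algebraMap F₁ L).injective
  have : NeZero p := ⟨hp.ne_zero⟩
  obtain ⟨i, _, hi⟩ := hζL.eq_pow_of_pow_eq_one h1
  apply hU
  refine ⟨ζ ^ i * b, ?_⟩
  rw [map_mul, map_pow, hi]
  field_simp

/-- the minimal polynomial of `U` is `X ^ p - C u` -/
theorem cvf_minpoly {p : ℕ} (hp : p.Prime) {ζ : F₁} (hζ : IsPrimitiveRoot ζ p) {U : L} {u : F₁}
    (hu : U ^ p = algebraMap F₁ L u) (hU : U ∉ Set.range (algebraMap F₁ L)) :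
    minpoly F₁ U = X ^ p - C u := by
  have hirr := X_pow_sub_C_irreducible_of_prime hp (cvf_no_root hp hζ hu hU)
  refine (minpoly.eq_of_irreducible_of_monic hirr ?_ (monic_X_pow_sub_C u hp.ne_zero)).symm
  simp [hu]

theorem cvf_isIntegral {p : ℕ} (hp : p.Prime) {U : L} {u : F₁}
    (hu : U ^ p = algebraMap F₁ L u) : IsIntegral F₁ U :=
  ⟨X ^ p - C u, monic_X_pow_sub_C u hp.ne_zero, by simp [hu]⟩

/-- **the Kummer automorphism** of `F₁⟮U⟯ / F₁`, with its fixed field -/
theorem cvf_kummer_aut {p : ℕ} (hp : p.Prime) {ζ : F₁} (hζ : IsPrimitiveRoot ζ p) {U : L}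
    {u : F₁} (hu : U ^ p = algebraMap F₁ L u) (hU : U ∉ Set.range (algebraMap F₁ L)) :
    ∃ σ : F₁⟮U⟯ ≃ₐ[F₁] F₁⟮U⟯,
      σ (AdjoinSimple.gen F₁ U) = algebraMap F₁ F₁⟮U⟯ ζ * AdjoinSimple.gen F₁ U ∧
      (∀ y, σ y = y → y ∈ Set.range (algebraMap F₁ F₁⟮U⟯)) ∧
      (∀ y, (σ ^ p) y = y) := by
  have hmin := cvf_minpoly hp hζ hu hU
  have hint : IsIntegral F₁ U := cvf_isIntegral hp hu
  let pb := adjoin.powerBasis hint
  have hgen : pb.gen = AdjoinSimple.gen F₁ U := rfl
  have hdim : pb.dim = p := by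
    show (minpoly F₁ U).natDegree = p
    rw [hmin, natDegree_X_pow_sub_C]
  have hgenp : (AdjoinSimple.gen F₁ U) ^ p = algebraMap F₁ F₁⟮U⟯ u := by
    apply Subtype.ext
    show ((AdjoinSimple.gen F₁ U : F₁⟮U⟯) : L) ^ p = algebraMap F₁ L u
    rw [AdjoinSimple.coe_gen, hu]
  have hroot : aeval (algebraMap F₁ F₁⟮U⟯ ζ * AdjoinSimple.gen F₁ U) (minpoly F₁ pb.gen) = 0 := by
    rw [hgen, minpoly_gen, hmin]
    simp only [map_sub, map_pow, aeval_X, aeval_C, mul_pow]
    rw [← map_pow, hζ.pow_eq_one, map_one, one_mul, hgenp, sub_self]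
  let f : F₁⟮U⟯ →ₐ[F₁] F₁⟮U⟯ := pb.lift _ hroot
  have hf : f (AdjoinSimple.gen F₁ U) = algebraMap F₁ F₁⟮U⟯ ζ * AdjoinSimple.gen F₁ U :=
    pb.lift_gen _ hroot
  have := adjoin.finiteDimensional hint
  let σ : F₁⟮U⟯ ≃ₐ[F₁] F₁⟮U⟯ := AlgEquiv.ofBijective f (AlgHom.bijective f)
  have hσf : ∀ y, σ y = f y := fun y => rfl
  -- the action on the power basis
  have hrepr : ∀ y : F₁⟮U⟯, y = ∑ i : Fin pb.dim, pb.basis.repr y i • pb.basis i := fun y =>
    (pb.basis.sum_repr y).symm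
  have hfb : ∀ i : Fin pb.dim, f (pb.basis i) = ζ ^ (i : ℕ) • pb.basis i := by
    intro i
    rw [pb.basis_eq_pow, map_pow, hgen, hf, mul_pow, ← map_pow, Algebra.smul_def]
  have hfy : ∀ y : F₁⟮U⟯,
      f y = ∑ i : Fin pb.dim, (pb.basis.repr y i * ζ ^ (i : ℕ)) • pb.basis i := by
    intro y
    conv_lhs => rw [hrepr y]
    rw [map_sum]
    refine Finset.sum_congr rfl fun i _ => ?_
    rw [map_smul, hfb, smul_smul]
  have hcoef : ∀ y : F₁⟮U⟯, ∀ i : Fin pb.dim,
      pb.basis.repr (f y) i = pb.basis.repr y i * ζ ^ (i : ℕ) := by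
    intro y i
    rw [hfy y, pb.basis.repr_sum_self]
  refine ⟨σ, hf, ?_, ?_⟩
  · intro y hy
    have hy' : f y = y := hy
    have hzero : ∀ i : Fin pb.dim, (i : ℕ) ≠ 0 → pb.basis.repr y i = 0 := by
      intro i hi
      have h1 := hcoef y i
      rw [hy'] at h1
      have h2 : pb.basis.repr y i * (ζ ^ (i : ℕ) - 1) = 0 := by
        rw [mul_sub, mul_one, ← h1, sub_self]
      rcases mul_eq_zero.mp h2 with h3 | h3
      · exact h3
      · exfalso
        have hlt : (i : ℕ) < p := by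
          have := i.2
          omega
        exact hζ.pow_ne_one_of_pos_of_lt hi hlt (sub_eq_zero.mp h3)
    have hpos : 0 < pb.dim := by rw [hdim]; exact hp.pos
    refine ⟨pb.basis.repr y ⟨0, hpos⟩, ?_⟩
    conv_rhs => rw [hrepr y]
    rw [Finset.sum_eq_single (⟨0, hpos⟩ : Fin pb.dim)]
    · rw [pb.basis_eq_pow]
      simp [Algebra.smul_def]
    · intro i _ hi
      rw [hzero i (fun h0 => hi (Fin.ext h0)), zero_smul]
    · intro h
      exact absurd (Finset.mem_univ _) h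
  · intro y
    have hpow : ∀ n : ℕ, ∀ z : F₁⟮U⟯, ∀ i : Fin pb.dim,
        pb.basis.repr ((σ ^ n) z) i = pb.basis.repr z i * (ζ ^ (i : ℕ)) ^ n := by
      intro n
      induction n with
      | zero => intro z i; simp
      | succ n ih =>
        intro z i
        rw [pow_succ, AlgEquiv.mul_apply, ih, hσf, hcoef, pow_succ]
        ring
    apply pb.basis.repr.injective
    ext i
    rw [hpow p y i, pow_right_comm, hζ.pow_eq_one, one_pow, mul_one]

end Kummer

section Cover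

variable {K : Type*} [Field K] {L : Type*} [Field L] [Algebra K L]

/-- **the cover field** `F(U)` inside the ambient field `L` -/
def cvfField (F : IntermediateField K L) (U : L) : IntermediateField K L :=
  IntermediateField.adjoin K ((F : Set L) ∪ {U})

theorem cvf_le (F : IntermediateField K L) (U : L) : F ≤ cvfField F U :=
  fun x hx => IntermediateField.subset_adjoin K _ (Or.inl hx)

theorem cvf_U_mem (F : IntermediateField K L) (U : L) : U ∈ cvfField F U :=
  IntermediateField.subset_adjoin K _ (Or.inr rfl)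

theorem cvf_eq_restrictScalars (F : IntermediateField K L) (U : L) :
    cvfField F U = (IntermediateField.adjoin ↥F ({U} : Set L)).restrictScalars K :=
  (IntermediateField.restrictScalars_adjoin K F {U}).symm

theorem cvf_mem_iff (F : IntermediateField K L) (U : L) (x : L) :
    x ∈ cvfField F U ↔ x ∈ IntermediateField.adjoin ↥F ({U} : Set L) := by
  rw [cvf_eq_restrictScalars]
  exact IntermediateField.mem_restrictScalars K

/-- the inclusion `F → F(U)` -/
def cvfIncl (F : IntermediateField K L) (U : L) : ↥F →ₐ[K] ↥(cvfField F U) :=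
  IntermediateField.inclusion (cvf_le F U)

theorem cvfIncl_coe (F : IntermediateField K L) (U : L) (y : ↥F) :
    ((cvfIncl F U y : ↥(cvfField F U)) : L) = (y : L) := rfl

/-- the generator `U` as an element of `F(U)` -/
def cvfGen (F : IntermediateField K L) (U : L) : ↥(cvfField F U) := ⟨U, cvf_U_mem F U⟩

theorem cvfGen_coe (F : IntermediateField K L) (U : L) : ((cvfGen F U : ↥(cvfField F U)) : L) = U :=
  rfl

/-- transport of the Kummer automorphism to an intermediate field of `L / K` with the same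
carrier as `F⟮U⟯` -/
theorem cvf_sigma_aux (F : IntermediateField K L) {p : ℕ} (hp : p.Prime) {ζ : K}
    (hζ : IsPrimitiveRoot ζ p) {U : L} (hu : U ^ p ∈ F) (hU : U ∉ F)
    (E : IntermediateField K L)
    (hE : E = (IntermediateField.adjoin ↥F ({U} : Set L)).restrictScalars K) :
    ∃ σ : ↥E ≃ₐ[K] ↥E,
      (∀ y : ↥E, (y : L) ∈ F → σ y = y) ∧
      (∀ hUE : U ∈ E, ((σ ⟨U, hUE⟩ : ↥E) : L) = algebraMap K L ζ * U) ∧
      (∀ y : ↥E, σ y = y → (y : L) ∈ F) ∧
      (∀ y : ↥E, (σ ^ p) y = y) := by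
  subst hE
  have hζF : IsPrimitiveRoot (algebraMap K ↥F ζ) p :=
    hζ.map_of_injective (algebraMap K ↥F).injective
  have hu' : U ^ p = algebraMap ↥F L ⟨U ^ p, hu⟩ := rfl
  have hU' : U ∉ Set.range (algebraMap ↥F L) := by
    rintro ⟨b, hb⟩
    apply hU
    rw [← hb]
    exact b.2
  obtain ⟨σ, hσU, hσfix, hσp⟩ := cvf_kummer_aut hp hζF hu' hU'
  let σK : ↥((IntermediateField.adjoin ↥F ({U} : Set L)).restrictScalars K) ≃ₐ[K]
      ↥((IntermediateField.adjoin ↥F ({U} : Set L)).restrictScalars K) := σ.restrictScalars K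
  refine ⟨σK, ?_, ?_, ?_, ?_⟩
  · intro y hy
    have : y = algebraMap ↥F (↥F)⟮U⟯ ⟨(y : L), hy⟩ := Subtype.ext rfl
    show σ y = y
    rw [this, σ.commutes]
  · intro hUE
    have h1 : (⟨U, hUE⟩ : (↥F)⟮U⟯) = AdjoinSimple.gen ↥F U := Subtype.ext rfl
    show ((σ ⟨U, hUE⟩ : (↥F)⟮U⟯) : L) = algebraMap K L ζ * U
    rw [h1, hσU]
    rfl
  · intro y hy
    obtain ⟨b, hb⟩ := hσfix y hy
    have : (y : L) = (b : L) := by rw [← hb]; rfl
    rw [this]
    exact b.2
  · intro y
    have h2 : ∀ n : ℕ, ∀ z : ↥((IntermediateField.adjoin ↥F ({U} : Set L)).restrictScalars K),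
        (σK ^ n) z = (σ ^ n) z := by
      intro n
      induction n with
      | zero => intro z; rfl
      | succ n ih =>
        intro z
        have e1 : (σK ^ (n + 1)) z = (σK ^ n) (σK z) := by rw [pow_succ]; rfl
        have e2 : (σ ^ (n + 1)) z = (σ ^ n) (σ z) := by rw [pow_succ]; rfl
        exact e1.trans ((ih (σK z)).trans e2.symm)
    exact (h2 p y).trans (hσp y)

/-- **C1: the deck transformation** `σ_Y` of the cover field `E = F(U)`:
`σ_Y` is a `K`-algebra automorphism of `E`, the identity on `F`, `σ_Y U = ζ U`, the fixed field of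
`σ_Y` is `F`, and `σ_Y ^ p = 1`. -/
theorem cvf_sigma_exists (F : IntermediateField K L) {p : ℕ} (hp : p.Prime) {ζ : K}
    (hζ : IsPrimitiveRoot ζ p) {U : L} (hu : U ^ p ∈ F) (hU : U ∉ F) :
    ∃ σ : ↥(cvfField F U) ≃ₐ[K] ↥(cvfField F U),
      (∀ y : ↥(cvfField F U), (y : L) ∈ F → σ y = y) ∧
      ((σ (cvfGen F U) : ↥(cvfField F U)) : L) = algebraMap K L ζ * U ∧
      (∀ y : ↥(cvfField F U), σ y = y → (y : L) ∈ F) ∧
      (∀ y : ↥(cvfField F U), (σ ^ p) y = y) := by
  obtain ⟨σ, h1, h2, h3, h4⟩ :=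
    cvf_sigma_aux F hp hζ hu hU (cvfField F U) (cvf_eq_restrictScalars F U)
  exact ⟨σ, h1, h2 (cvf_U_mem F U), h3, h4⟩

/-- the same in the shape of the cover interface of `rhk_main` (helper19): `σ_Y` as a ring
endomorphism of `Ω = F(U)` with `ι = cvfIncl F U` -/
theorem cvf_sigma_ringHom (F : IntermediateField K L) {p : ℕ} (hp : p.Prime) {ζ : K}
    (hζ : IsPrimitiveRoot ζ p) {U : L} (hu : U ^ p ∈ F) (hU : U ∉ F) :
    ∃ σY : ↥(cvfField F U) →+* ↥(cvfField F U),
      (∀ c : K, σY (algebraMap K ↥(cvfField F U) c) = algebraMap K ↥(cvfField F U) c) ∧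
      (∀ f : ↥F, σY (cvfIncl F U f) = cvfIncl F U f) ∧
      σY (cvfGen F U) = algebraMap K ↥(cvfField F U) ζ * cvfGen F U ∧
      (∀ y : ↥(cvfField F U), σY y = y → ∃ f : ↥F, cvfIncl F U f = y) ∧
      (∀ y : ↥(cvfField F U), σY^[p] y = y) ∧ Function.Bijective σY := by
  obtain ⟨σ, h1, h2, h3, h4⟩ := cvf_sigma_exists F hp hζ hu hU
  refine ⟨(σ : ↥(cvfField F U) →+* ↥(cvfField F U)), ?_, ?_, ?_, ?_, ?_, ?_⟩
  · intro c
    exact σ.commutes c
  · intro f
    exact h1 _ f.2
  · apply Subtype.ext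
    exact h2
  · intro y hy
    exact ⟨⟨(y : L), h3 y hy⟩, Subtype.ext rfl⟩
  · intro y
    have h5 : ∀ n : ℕ, ∀ z : ↥(cvfField F U),
        (⇑(σ : ↥(cvfField F U) →+* ↥(cvfField F U)))^[n] z = (σ ^ n) z := by
      intro n
      induction n with
      | zero => intro z; rfl
      | succ n ih =>
        intro z
        rw [Function.iterate_succ_apply, ih, pow_succ]
        rfl
    rw [h5]
    exact h4 y
  · exact σ.bijective

/-- **commutation of `σ_Y` with the Galois action**: a ring endomorphism `τ` of `E = F(U)` which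
is semilinear over `τK`, maps `F` into `F`, with `τ U = d · g · U ^ w` (`g ∈ F`) and
`τK ζ = ζ ^ w`, commutes with `σ_Y`. -/
theorem cvf_comm (F : IntermediateField K L) (U : L) {ζ : K}
    (σY : ↥(cvfField F U) →+* ↥(cvfField F U))
    (hσF : ∀ f : ↥F, σY (cvfIncl F U f) = cvfIncl F U f)
    (hσU : σY (cvfGen F U) = algebraMap K ↥(cvfField F U) ζ * cvfGen F U)
    (τ : ↥(cvfField F U) →+* ↥(cvfField F U)) (τK : K →+* K)
    (hτK : ∀ c : K, τ (algebraMap K ↥(cvfField F U) c) = algebraMap K ↥(cvfField F U) (τK c))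
    (hτF : ∀ f : ↥F, ∃ f' : ↥F, τ (cvfIncl F U f) = cvfIncl F U f')
    (w : ℕ) (d : K) (g : ↥F)
    (hτU : τ (cvfGen F U) = algebraMap K ↥(cvfField F U) d * cvfIncl F U g * cvfGen F U ^ w)
    (hτζ : τK ζ = ζ ^ w) :
    ∀ z : ↥(cvfField F U), σY (τ z) = τ (σY z) := by
  have hσK : ∀ c : K, σY (algebraMap K ↥(cvfField F U) c) = algebraMap K ↥(cvfField F U) c := by
    intro c
    have : algebraMap K ↥(cvfField F U) c = cvfIncl F U (algebraMap K ↥F c) := by
      rw [AlgHom.commutes]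
    rw [this, hσF]
  have hF : ∀ f : ↥F, σY (τ (cvfIncl F U f)) = τ (σY (cvfIncl F U f)) := by
    intro f
    obtain ⟨f', hf'⟩ := hτF f
    rw [hσF, hf', hσF]
  have hUU : σY (τ (cvfGen F U)) = τ (σY (cvfGen F U)) := by
    rw [hτU, hσU, map_mul, map_mul, map_pow, hσK, hσF, hσU, map_mul, hτK, hτU, hτζ, map_pow,
      mul_pow]
    ring
  rintro ⟨z, hz⟩
  refine IntermediateField.adjoin_induction (F := K)
    (p := fun x hx => σY (τ ⟨x, hx⟩) = τ (σY ⟨x, hx⟩)) ?_ ?_ ?_ ?_ ?_ hz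
  · rintro x (hx | hx)
    · exact hF ⟨x, hx⟩
    · have hx' : x = U := hx
      subst hx'
      exact hUU
  · intro c
    have h1 : (⟨algebraMap K L c, IntermediateField.algebraMap_mem _ c⟩ : ↥(cvfField F U)) =
        algebraMap K ↥(cvfField F U) c := Subtype.ext rfl
    show σY (τ ⟨algebraMap K L c, _⟩) = τ (σY ⟨algebraMap K L c, _⟩)
    rw [h1, hτK, hσK, hσK, hτK]
  · intro x y hx hy ihx ihy
    have h1 : (⟨x + y, add_mem hx hy⟩ : ↥(cvfField F U)) = ⟨x, hx⟩ + ⟨y, hy⟩ := Subtype.ext rfl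
    show σY (τ ⟨x + y, _⟩) = τ (σY ⟨x + y, _⟩)
    rw [h1, map_add, map_add, map_add, map_add, ihx, ihy]
  · intro x hx ihx
    have h1 : (⟨x⁻¹, inv_mem hx⟩ : ↥(cvfField F U)) = (⟨x, hx⟩ : ↥(cvfField F U))⁻¹ :=
      Subtype.ext rfl
    show σY (τ ⟨x⁻¹, _⟩) = τ (σY ⟨x⁻¹, _⟩)
    rw [h1, map_inv₀, map_inv₀, map_inv₀, map_inv₀, ihx]
  · intro x y hx hy ihx ihy
    have h1 : (⟨x * y, mul_mem hx hy⟩ : ↥(cvfField F U)) = ⟨x, hx⟩ * ⟨y, hy⟩ := Subtype.ext rfl
    show σY (τ ⟨x * y, _⟩) = τ (σY ⟨x * y, _⟩)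
    rw [h1, map_mul, map_mul, map_mul, map_mul, ihx, ihy]

/-- `[E : F] = p` (as the degree of the minimal polynomial of `U` over `F`) -/
theorem cvf_finrank (F : IntermediateField K L) {p : ℕ} (hp : p.Prime) {ζ : K}
    (hζ : IsPrimitiveRoot ζ p) {U : L} (hu : U ^ p ∈ F) (hU : U ∉ F) :
    Module.finrank ↥F ↥(IntermediateField.adjoin ↥F ({U} : Set L)) = p := by
  have hζF : IsPrimitiveRoot (algebraMap K ↥F ζ) p :=
    hζ.map_of_injective (algebraMap K ↥F).injective
  have hu' : U ^ p = algebraMap ↥F L ⟨U ^ p, hu⟩ := rfl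
  have hU' : U ∉ Set.range (algebraMap ↥F L) := by
    rintro ⟨b, hb⟩
    apply hU
    rw [← hb]
    exact b.2
  rw [IntermediateField.adjoin.finrank (cvf_isIntegral hp hu'), cvf_minpoly hp hζF hu' hU',
    natDegree_X_pow_sub_C]

end Cover

end Fermat.Agent.S40lib
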