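/-
Item 88 (S40/S44), piece (C) of the per-point assembly (helper1): the generator of the cover.
Abstract, Mathlib only.

* `cvgEquiv`          : a ring endomorphism `σ` of a field `E` with `σ^p = id`, fixing `F`, as an
                        element of `E ≃ₐ[F] E`;
* `cvg_finrank`       : if moreover `Fix σ = F` and `σ ≠ id`, `p` prime, then `[E : F] = p`;
* `cvg_adjoin_eq_top` : **`hgen`**: if `σ z ≠ z` then `Algebra.adjoin F {z} = ⊤`
                        (the hypothesis `hgen` of `cvn_frac` / `cvn_ordAt_cover` / `cva_hcx`);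
* `cvg_sigma_ne`      : `σ z - z = 1 + λ c` with `λ⁻¹` not integral over `R`, `c` integral
                        ⇒ `σ z ≠ z`.
-/
import Mathlib

set_option autoImplicit false
set_option linter.unusedSectionVars false
set_option linter.unusedVariables false
set_option linter.style.haveILetI false

noncomputable section

open Module

namespace Fermat.Agent.S40lib

section Gen

variable {F E : Type*} [Field F] [Field E] [Algebra F E]

/-- `σ` with `σ^p = id` fixing `F` as an `F`-algebra automorphism -/
def cvgEquiv {p : ℕ} (hp : 0 < p) (σ : E →+* E) (hσp : ∀ y, σ^[p] y = y)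
    (hσF : ∀ a : F, σ (algebraMap F E a) = algebraMap F E a) : E ≃ₐ[F] E where
  toFun := σ
  invFun := σ^[p - 1]
  left_inv := fun y => by
    have h := hσp y
    rw [← Nat.sub_add_cancel hp, Function.iterate_succ_apply] at h
    exact h
  right_inv := fun y => by
    have h := hσp y
    rw [← Nat.sub_add_cancel hp, Function.iterate_succ_apply'] at h
    exact h
  map_mul' := map_mul σ
  map_add' := map_add σ
  commutes' := hσF

theorem cvg_equiv_apply {p : ℕ} (hp : 0 < p) (σ : E →+* E) (hσp : ∀ y, σ^[p] y = y)
    (hσF : ∀ a : F, σ (algebraMap F E a) = algebraMap F E a) (y : E) :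
    cvgEquiv hp σ hσp hσF y = σ y := rfl

theorem cvg_equiv_pow_apply {p : ℕ} (hp : 0 < p) (σ : E →+* E) (hσp : ∀ y, σ^[p] y = y)
    (hσF : ∀ a : F, σ (algebraMap F E a) = algebraMap F E a) (n : ℕ) (y : E) :
    (cvgEquiv hp σ hσp hσF ^ n) y = σ^[n] y := by
  induction n generalizing y with
  | zero => rfl
  | succ n ih =>
    rw [pow_succ, AlgEquiv.mul_apply, ih, cvg_equiv_apply, Function.iterate_succ_apply]

/-- **Artin**: `[E : F] = p` -/
theorem cvg_finrank {p : ℕ} (hp : p.Prime) (σ : E →+* E) (hσp : ∀ y, σ^[p] y = y)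
    (hσF : ∀ a : F, σ (algebraMap F E a) = algebraMap F E a)
    (hfix : ∀ y : E, σ y = y → y ∈ Set.range (algebraMap F E))
    (z : E) (hz : σ z ≠ z) : finrank F E = p := by
  classical
  set σ' := cvgEquiv hp.pos σ hσp hσF with hσ'
  have hpow : σ' ^ p = 1 := by
    ext y
    rw [cvg_equiv_pow_apply, hσp]
    rfl
  have hne : σ' ≠ 1 := by
    intro h
    apply hz
    have := congrArg (fun f : E ≃ₐ[F] E => f z) h
    exact this
  haveI : Fact p.Prime := ⟨hp⟩
  have hord : orderOf σ' = p := orderOf_eq_prime hpow hne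
  have hfo : IsOfFinOrder σ' := isOfFinOrder_iff_pow_eq_one.mpr ⟨p, hp.pos, hpow⟩
  haveI : Finite (Subgroup.zpowers σ') := finite_zpowers.mpr hfo
  letI : Fintype (Subgroup.zpowers σ') := Fintype.ofFinite _
  have hcard : Fintype.card (Subgroup.zpowers σ') = p := by
    rw [← Nat.card_eq_fintype_card, Nat.card_zpowers, hord]
  have hbot : IntermediateField.fixedField (Subgroup.zpowers σ') = (⊥ : IntermediateField F E) := by
    apply le_antisymm
    · intro x hx
      rw [IntermediateField.mem_fixedField_iff] at hx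
      have h1 : σ x = x := hx σ' (Subgroup.mem_zpowers σ')
      obtain ⟨a, ha⟩ := hfix x h1
      rw [← ha]
      exact (⊥ : IntermediateField F E).algebraMap_mem a
    · exact bot_le
  have h1 : finrank (IntermediateField.fixedField (Subgroup.zpowers σ')) E =
      Fintype.card (Subgroup.zpowers σ') :=
    FixedPoints.finrank_eq_card (Subgroup.zpowers σ') E
  rw [hbot, IntermediateField.finrank_bot', hcard] at h1
  exact h1

/-- **`hgen`**: `E = F[z]` for every `z` moved by `σ` -/
theorem cvg_adjoin_eq_top {p : ℕ} (hp : p.Prime) (σ : E →+* E) (hσp : ∀ y, σ^[p] y = y)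
    (hσF : ∀ a : F, σ (algebraMap F E a) = algebraMap F E a)
    (hfix : ∀ y : E, σ y = y → y ∈ Set.range (algebraMap F E))
    (z : E) (hz : σ z ≠ z) : Algebra.adjoin F ({z} : Set E) = ⊤ := by
  have hfr := cvg_finrank hp σ hσp hσF hfix z hz
  haveI : FiniteDimensional F E := Module.finite_of_finrank_pos (by rw [hfr]; exact hp.pos)
  haveI := IntermediateField.isSimpleOrder_of_finrank_prime F E (by rw [hfr]; exact hp)
  have hzint : IsIntegral F z := IsIntegral.of_finite F z
  rcases eq_bot_or_eq_top (IntermediateField.adjoin F ({z} : Set E)) with h | h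
  · exfalso
    apply hz
    have hmem : z ∈ IntermediateField.adjoin F ({z} : Set E) :=
      IntermediateField.mem_adjoin_simple_self F z
    rw [h, IntermediateField.mem_bot] at hmem
    obtain ⟨a, ha⟩ := hmem
    rw [← ha]
    exact hσF a
  · rw [← IntermediateField.adjoin_simple_toSubalgebra_of_isAlgebraic hzint.isAlgebraic, h,
      IntermediateField.top_toSubalgebra]

end Gen

section Ne

variable {R : Type*} [CommRing R] {E : Type*} [Field E] [Algebra R E]

/-- `σ z - z = 1 + λ c`, `c` integral, `λ⁻¹` not integral ⇒ `σ z ≠ z` -/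
theorem cvg_sigma_ne (σ : E →+* E) (z lam c : E) (hc : IsIntegral R c)
    (hlam : ¬ IsIntegral R lam⁻¹) (hcong : σ z - z = 1 + lam * c) : σ z ≠ z := by
  intro h
  rw [h, sub_self] at hcong
  apply hlam
  have hlam0 : lam ≠ 0 := by
    intro h0
    rw [h0, zero_mul, add_zero] at hcong
    exact one_ne_zero hcong.symm
  have h1 : lam⁻¹ = -c := by
    have h2 : lam * c = -1 := by linear_combination -hcong
    have h3 : lam⁻¹ * (lam * c) = c := by rw [← mul_assoc, inv_mul_cancel₀ hlam0, one_mul]
    rw [h2] at h3
    linear_combination -h3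
  rw [h1]
  exact hc.neg

end Ne

end Fermat.Agent.S40lib

end
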