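/-
Item 88 (S40/S44), piece (C) of the per-point assembly (helper1): `hgen` from the congruence.
Abstract, Mathlib + `ASPow` + `CoverGen` + `CoverE0`.

* `cvg_lam_pow_eq`           : `λ^(p-1) = p · e`, `e` integral over any base ring (`λ = ζ - 1`);
* `cvg_lam_inv_not_integral` : `R` local with `p ∈ 𝔪_R`, `R → E` injective, and the descent
  property `hdescE` of `cve0c_main`  ⇒  `λ⁻¹` is not integral over `R`;
* `cvg_sigma0_ne`            : `ι (σ₀ z₀) - ι z₀ = 1 + λ c`, `c` integral ⇒ `σ₀ z₀ ≠ z₀`;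
* `cvg_hgen`                 : **`hgen`** `Algebra.adjoin F {z₀} = ⊤` for the generator `z₀` of
  `cve0c_main` (input of `cvn_frac`, `cva_hcx`, `cvp_hcx`);
* `cve0_sigma_iterate_all`   : `σ₀^[p] = id` on `E₀` from `σ^[p] = id` on `E`.
-/
import Mathlib
import Fermat.Agent.S33lib.ASPow
import Fermat.Agent.S40lib.CoverGen
import Fermat.Agent.S40lib.CoverE0

set_option autoImplicit false
set_option linter.unusedSectionVars false
set_option linter.unusedVariables false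
set_option linter.style.haveILetI false

noncomputable section

open IsLocalRing

namespace Fermat.Agent.S40lib

section Lam

variable {R : Type*} [CommRing R] {E : Type*} [Field E] [Algebra R E]

/-- `λ^(p-1) = p · e` with `e` integral -/
theorem cvg_lam_pow_eq {p : ℕ} (hp : p.Prime) {ζ : E} (hζ : IsPrimitiveRoot ζ p) :
    ∃ e : E, IsIntegral R e ∧ (ζ - 1) ^ (p - 1) = (p : E) * e := by
  have hζint : IsIntegral R ζ := cve0_zeta_integral hp.pos hζ.pow_eq_one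
  have hsumE : ∑ i ∈ Finset.range p, ζ ^ i = 0 := by
    have h1 := geom_sum_mul ζ p
    rw [hζ.pow_eq_one, sub_self] at h1
    rcases mul_eq_zero.mp h1 with h | h
    · exact h
    · exact absurd (sub_eq_zero.mp h) (hζ.ne_one hp.one_lt)
  let ζO : integralClosure R E := ⟨ζ, hζint⟩
  have hsumO : ∑ i ∈ Finset.range p, ζO ^ i = 0 := by
    have h1 : ((∑ i ∈ Finset.range p, ζO ^ i : integralClosure R E) : E) =
        ∑ i ∈ Finset.range p, ζ ^ i := by
      simp [ζO]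
    exact Subtype.ext (h1.trans hsumE)
  obtain ⟨s, hs⟩ := Fermat.Agent.S33lib.asp_p_mul p hp ζO hsumO
  refine ⟨-(1 + (ζ - 1) * (s : E)), ?_, ?_⟩
  · exact (isIntegral_one.add ((hζint.sub isIntegral_one).mul s.2)).neg
  · have h := congrArg (fun t : integralClosure R E => (t : E)) hs
    simp only [ζO] at h
    have h' : (p : E) * (1 + (ζ - 1) * (s : E)) = -(ζ - 1) ^ (p - 1) := by
      simpa using h
    linear_combination h'

/-- `λ⁻¹` is not integral over a local ring `R ∋ p` non-unit with the descent property -/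
theorem cvg_lam_inv_not_integral [IsLocalRing R]
    (hinj : Function.Injective (algebraMap R E))
    {p : ℕ} (hp : p.Prime) (hpR : (p : R) ∈ maximalIdeal R)
    {ζ : E} (hζ : IsPrimitiveRoot ζ p) (σ : E →+* E) (T : Set (E →+* E))
    (hdescE : ∀ t : E, σ t = t → (∀ τ ∈ T, τ t = t) → IsIntegral R t →
      t ∈ Set.range (algebraMap R E)) :
    ¬ IsIntegral R (ζ - 1)⁻¹ := by
  intro hint
  obtain ⟨e, he, hpe⟩ := cvg_lam_pow_eq (R := R) hp hζ
  have hlam0 : ζ - 1 ≠ 0 := sub_ne_zero.mpr (hζ.ne_one hp.one_lt)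
  have hp0 : (p : E) ≠ 0 := by
    intro h0
    rw [h0, zero_mul] at hpe
    exact hlam0 (pow_eq_zero_iff (Nat.sub_ne_zero_of_lt hp.one_lt) |>.mp hpe)
  -- `p⁻¹` is integral
  have hpinv : (p : E)⁻¹ = e * ((ζ - 1)⁻¹) ^ (p - 1) := by
    have h1 : (p : E) * (e * ((ζ - 1)⁻¹) ^ (p - 1)) = 1 := by
      rw [← mul_assoc, ← hpe, inv_pow, mul_inv_cancel₀ (pow_ne_zero _ hlam0)]
    exact (eq_inv_of_mul_eq_one_right h1).symm
  have hpint : IsIntegral R (p : E)⁻¹ := by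
    rw [hpinv]
    exact he.mul (hint.pow _)
  have hσ : σ (p : E)⁻¹ = (p : E)⁻¹ := by rw [map_inv₀, map_natCast]
  have hτ : ∀ τ ∈ T, τ (p : E)⁻¹ = (p : E)⁻¹ := fun τ _ => by rw [map_inv₀, map_natCast]
  obtain ⟨r, hr⟩ := hdescE _ hσ hτ hpint
  have h1 : algebraMap R E (r * (p : R)) = algebraMap R E 1 := by
    rw [map_mul, hr, map_natCast, map_one, inv_mul_cancel₀ hp0]
  have h2 : r * (p : R) = 1 := hinj h1
  have hunit : IsUnit (p : R) := IsUnit.of_mul_eq_one r (by rw [mul_comm]; exact h2)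
  exact (IsLocalRing.mem_maximalIdeal _).mp hpR hunit

end Lam

section Gen

variable {R : Type*} [CommRing R] [IsLocalRing R] {E : Type*} [Field E] [Algebra R E]
  {E₀ : Type*} [Field E₀] {F : Type*} [Field F] [Algebra F E₀]

/-- `σ₀ z₀ ≠ z₀` from the congruence at `i = 1` -/
theorem cvg_sigma0_ne (ι : E₀ →+* E) (hinj : Function.Injective (algebraMap R E))
    {p : ℕ} (hp : p.Prime) (hpR : (p : R) ∈ maximalIdeal R)
    {ζ : E} (hζ : IsPrimitiveRoot ζ p) (σ : E →+* E) (T : Set (E →+* E))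
    (hdescE : ∀ t : E, σ t = t → (∀ τ ∈ T, τ t = t) → IsIntegral R t →
      t ∈ Set.range (algebraMap R E))
    (σ₀ : E₀ →+* E₀) (z₀ : E₀) (c₁ : E) (hc₁ : IsIntegral R c₁)
    (hcong : ι (σ₀ z₀) - ι z₀ = 1 + (ζ - 1) * c₁) : σ₀ z₀ ≠ z₀ := by
  intro h
  rw [h, sub_self] at hcong
  apply cvg_lam_inv_not_integral hinj hp hpR hζ σ T hdescE
  have hlam0 : ζ - 1 ≠ 0 := sub_ne_zero.mpr (hζ.ne_one hp.one_lt)
  have h2 : (ζ - 1) * c₁ = -1 := by linear_combination -hcong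
  have h3 : (ζ - 1)⁻¹ * ((ζ - 1) * c₁) = c₁ := by
    rw [← mul_assoc, inv_mul_cancel₀ hlam0, one_mul]
  rw [h2] at h3
  have h4 : (ζ - 1)⁻¹ = -c₁ := by linear_combination -h3
  rw [h4]
  exact hc₁.neg

/-- **`hgen`** for the generator of `cve0c_main` -/
theorem cvg_hgen (ι : E₀ →+* E) (hinj : Function.Injective (algebraMap R E))
    {p : ℕ} (hp : p.Prime) (hpR : (p : R) ∈ maximalIdeal R)
    {ζ : E} (hζ : IsPrimitiveRoot ζ p) (σ : E →+* E) (T : Set (E →+* E))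
    (hdescE : ∀ t : E, σ t = t → (∀ τ ∈ T, τ t = t) → IsIntegral R t →
      t ∈ Set.range (algebraMap R E))
    (σ₀ : E₀ →+* E₀) (hσp : ∀ y : E₀, σ₀^[p] y = y)
    (hσF : ∀ a : F, σ₀ (algebraMap F E₀ a) = algebraMap F E₀ a)
    (hfix : ∀ y : E₀, σ₀ y = y → y ∈ Set.range (algebraMap F E₀))
    (z₀ : E₀) (c₁ : E) (hc₁ : IsIntegral R c₁)
    (hcong : ι (σ₀ z₀) - ι z₀ = 1 + (ζ - 1) * c₁) :
    Algebra.adjoin F ({z₀} : Set E₀) = ⊤ :=
  cvg_adjoin_eq_top hp σ₀ hσp hσF hfix z₀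
    (cvg_sigma0_ne ι hinj hp hpR hζ σ T hdescE σ₀ z₀ c₁ hc₁ hcong)

end Gen

section Iter

variable {E : Type*} [Field E]

/-- `σ₀^[p] = id` on `E₀` -/
theorem cve0_sigma_iterate_all (T : Set (E →+* E)) (σ : E →+* E)
    (hcomm : ∀ τ ∈ T, ∀ y, σ (τ y) = τ (σ y)) {p : ℕ} (hσp : ∀ y : E, σ^[p] y = y)
    (y : ↥(cve0Field T)) : (cve0Sigma T σ hcomm)^[p] y = y := by
  apply Subtype.ext
  rw [cve0_coe_sigma_iterate]
  exact hσp y

end Iter


end Fermat.Agent.S40lib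

end
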