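import Mathlib
import Fermat.Agent.S36lib.Speed
import Fermat.Agent.S36lib.PlaceDict
import Fermat.Agent.S34lib.UnipK
import Fermat.Agent.S18lib.Normalise
import Fermat.Agent.S33lib.GeoDefs
import Fermat.Agent.S40lib.CovConc
import Fermat.Prelude.Def_AlgebraicCurve_Correspondence

/-!
# Item 88 (S40), block (J-WILD), piece (G2b): the horizontal orders of `u''` on the cover `Y`

(helper24.  Split of (G2): helper22's note "(J-WILD) STATUS + SPLIT of G2".)

`u'' = c · u_x · h ^ p` in the function field `EY` of the cover (`wlc_main`), `u_x` a Kummer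
function of `x` on `X`.  Then every place of `EY / Kbar` has order divisible by `p` at `u''`,
and `pd_hval` (constant extensions are unramified, `S36lib/PlaceDict.lean`) turns this into the
hypothesis `hval` of the edge rule in a node ring `L` of the `K0`-form `E0` of `EY`.

* `g2b_kummer_ord`  : `gdfIsKummer p x u` ⇒ `p ∣ ord_P u` at every place `P`;
* `g2b_ord_dvd`     : `φ : F → E` integral, `u = c · φ u_x · h ^ p`, `p ∣ ord u_x` everywhere
                      ⇒ `p ∣ ord_P u` at every place `P` of `E`  (`Place.ord_restrictAlong`);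
* `g2b_hval`        : the same in the shape `hval` at a prime `π` of a UFD `L`, `Frac L = E0`,
                      `E = E0[K]` (`pd_hval`);
* `g2b_hval_node`   : `hval` of `edr_edge_rule` / `g2y_node` (all primes not associated to
                      `x`, `y`; `ϖ = ε x y`, `K0 = A0[1/ϖ]`);
* `g2b_hval_smooth` : `hval` of `dvr_one_branch` / `g2y_windc_smooth` (`ϖ = ε x`);
* `g2b_place_dvd`   : concrete: `EY ⊇ F_N` inside `ℚ̄((q))`, the output of `wlc_main`;
* `g2b_isIntegral`  : `EY = F_N(U)`, `U ^ p ∈ F_N` ⇒ the inclusion `F_N → EY` is integral.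
-/

set_option autoImplicit false
set_option linter.unusedSectionVars false
set_option linter.style.haveILetI false

noncomputable section

namespace Fermat.Agent.S40lib

open AlgebraicCurve ModularCurve Fermat.Agent.RRlib Fermat.Agent.S33lib Fermat.Agent.S34lib
  Fermat.Agent.S36lib Fermat.Agent.S24lib

section Abs

variable {K F E : Type*} [Field K] [Field F] [Field E] [Algebra K F] [Algebra K E]

/-- a Kummer function has order divisible by `p` at every place -/
theorem g2b_kummer_ord [RRBase K F] {p : ℕ} {x : Pic0 K F} {u : F}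
    (hx : gdfIsKummer (K := K) p x u) (P : Place K F) : (p : ℤ) ∣ P.ord u := by
  obtain ⟨hu, D, -, hpD⟩ := hx
  have h := congrArg (fun E : Divisor K F => E P) hpD
  simp only [Finsupp.smul_apply, nsmul_eq_mul] at h
  rw [divOf_apply hu] at h
  exact ⟨(D : Divisor K F) P, h.symm⟩

/-- **(S4)**: `u = c · φ u_x · h ^ p`, `p ∣ ord u_x` at every place of `F` ⇒ `p ∣ ord_P u` at
every place `P` of `E`. -/
theorem g2b_ord_dvd (φ : F →ₐ[K] E) (hφ : φ.toRingHom.IsIntegral) (p : ℕ) (ux : F)
    (hux : ∀ P' : Place K F, (p : ℤ) ∣ P'.ord ux) (u h : E) (c : K)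
    (hrel : u = algebraMap K E c * φ ux * h ^ p) (P : Place K E) : (p : ℤ) ∣ P.ord u := by
  rcases eq_or_ne u 0 with rfl | hu
  · simp
  rw [hrel] at hu ⊢
  have hh : h ^ p ≠ 0 := right_ne_zero_of_mul hu
  have hcu := left_ne_zero_of_mul hu
  have hc := left_ne_zero_of_mul hcu
  have hux0 := right_ne_zero_of_mul hcu
  rw [P.ord_mul hcu hh, P.ord_mul hc hux0, uk_ord_const, zero_add,
    Fermat.Agent.S18lib.ord_pow_nat, Place.ord_restrictAlong φ hφ]
  exact dvd_add (Dvd.dvd.mul_left (hux _) _) (dvd_mul_right _ _)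

end Abs

section Hval

variable {K0 K E0 E F L : Type*} [Field K0] [Field K] [Field E0] [Field E] [Field F]
  [CommRing L] [IsDomain L] [UniqueFactorizationMonoid L]
  [Algebra K0 K] [Algebra K0 E0] [Algebra K E] [Algebra E0 E] [Algebra K0 E]
  [IsScalarTower K0 K E] [IsScalarTower K0 E0 E] [CharZero K0] [Algebra.IsAlgebraic K0 K]
  [Algebra L E0] [IsFractionRing L E0] [Algebra K F]

/-- **`hval` at one horizontal prime** `π` of the node ring `L` of the cover. -/
theorem g2b_hval (hgen : Algebra.adjoin E0 (Set.range (algebraMap K E)) = ⊤)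
    (φ : F →ₐ[K] E) (hφ : φ.toRingHom.IsIntegral) (p : ℕ) (ux : F)
    (hux : ∀ P' : Place K F, (p : ℤ) ∣ P'.ord ux)
    (u : E0) (h : E) (c : K) (hrel : algebraMap E0 E u = algebraMap K E c * φ ux * h ^ p)
    (π : L) (hπ : Prime π)
    (hK0 : ∀ c : K0, ∃ a b : L, ¬ π ∣ b ∧
      algebraMap K0 E0 c * algebraMap L E0 b = algebraMap L E0 a) :
    ∃ v : E0 → ℤ, (∀ a b : E0, a ≠ 0 → b ≠ 0 → v (a * b) = v a + v b) ∧
      v (algebraMap L E0 π) = 1 ∧
      (∀ c : L, c ≠ 0 → ¬ π ∣ c → v (algebraMap L E0 c) = 0) ∧ (p : ℤ) ∣ v u :=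
  pd_hval (K0 := K0) (K := K) (F0 := E0) (F := E) hgen p u
    (fun P => g2b_ord_dvd φ hφ p ux hux _ h c hrel P) π hπ hK0

/-- **`hval` of the edge rule at a node of the cover**: all primes of `L` not associated to the
vertical primes `x`, `y` (`ϖ = ε x y`, every constant of `K0` has a multiple by a power of `ϖ`
in `L`). -/
theorem g2b_hval_node (hgen : Algebra.adjoin E0 (Set.range (algebraMap K E)) = ⊤)
    (φ : F →ₐ[K] E) (hφ : φ.toRingHom.IsIntegral) (p : ℕ) (ux : F)
    (hux : ∀ P' : Place K F, (p : ℤ) ∣ P'.ord ux)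
    (u : E0) (h : E) (c : K) (hrel : algebraMap E0 E u = algebraMap K E c * φ ux * h ^ p)
    (x y : L) (hx : Prime x) (hy : Prime y) (ϖ : L) (ε : Lˣ) (hϖ : ϖ = ε * x * y)
    (hinv : ∀ c : K0, ∃ (a : L) (n : ℕ),
      algebraMap K0 E0 c * algebraMap L E0 ϖ ^ n = algebraMap L E0 a) :
    ∀ π : L, Prime π → ¬ Associated π x → ¬ Associated π y →
      ∃ v : E0 → ℤ, (∀ a b : E0, a ≠ 0 → b ≠ 0 → v (a * b) = v a + v b) ∧
        v (algebraMap L E0 π) = 1 ∧
        (∀ c : L, c ≠ 0 → ¬ π ∣ c → v (algebraMap L E0 c) = 0) ∧ (p : ℤ) ∣ v u := by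
  intro π hπ hπx hπy
  have hπϖ : ¬ π ∣ ϖ := by
    rw [hϖ]
    intro hd
    rcases hπ.dvd_or_dvd hd with h1 | h1
    · rcases hπ.dvd_or_dvd h1 with h2 | h2
      · exact hπ.not_isUnit (isUnit_of_dvd_unit h2 ε.isUnit)
      · exact hπx ((hπ.dvd_prime_iff_associated hx).1 h2)
    · exact hπy ((hπ.dvd_prime_iff_associated hy).1 h1)
  exact g2b_hval (K0 := K0) hgen φ hφ p ux hux u h c hrel π hπ
    (pd_hK0_of_inv (K0 := K0) (F0 := E0) π hπ ϖ hπϖ hinv)

/-- **`hval` of the one-branch rule at a smooth point of the cover** (`ϖ = ε x`). -/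
theorem g2b_hval_smooth (hgen : Algebra.adjoin E0 (Set.range (algebraMap K E)) = ⊤)
    (φ : F →ₐ[K] E) (hφ : φ.toRingHom.IsIntegral) (p : ℕ) (ux : F)
    (hux : ∀ P' : Place K F, (p : ℤ) ∣ P'.ord ux)
    (u : E0) (h : E) (c : K) (hrel : algebraMap E0 E u = algebraMap K E c * φ ux * h ^ p)
    (x : L) (hx : Prime x) (ϖ : L) (ε : Lˣ) (hϖ : ϖ = ε * x)
    (hinv : ∀ c : K0, ∃ (a : L) (n : ℕ),
      algebraMap K0 E0 c * algebraMap L E0 ϖ ^ n = algebraMap L E0 a) :
    ∀ π : L, Prime π → ¬ Associated π x →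
      ∃ v : E0 → ℤ, (∀ a b : E0, a ≠ 0 → b ≠ 0 → v (a * b) = v a + v b) ∧
        v (algebraMap L E0 π) = 1 ∧
        (∀ c : L, c ≠ 0 → ¬ π ∣ c → v (algebraMap L E0 c) = 0) ∧ (p : ℤ) ∣ v u := by
  intro π hπ hπx
  have hπϖ : ¬ π ∣ ϖ := by
    rw [hϖ]
    intro hd
    rcases hπ.dvd_or_dvd hd with h2 | h2
    · exact hπ.not_isUnit (isUnit_of_dvd_unit h2 ε.isUnit)
    · exact hπx ((hπ.dvd_prime_iff_associated hx).1 h2)
  exact g2b_hval (K0 := K0) hgen φ hφ p ux hux u h c hrel π hπ
    (pd_hK0_of_inv (K0 := K0) (F0 := E0) π hπ ϖ hπϖ hinv)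

end Hval

section Conc

variable (N : ℕ) [NeZero N] [RRBase Kbar (modularFunctionFieldBar N)]

/-- **(G2b), concrete**: for the output `u'' = c · u_x · h ^ p` of `wlc_main`, every place of
the cover field `EY` over `ℚ̄` has order divisible by `p` at `u''`. -/
theorem g2b_place_dvd {p : ℕ} {x : JZero N} {ux : modularFunctionFieldBar N}
    (hx : gdfIsKummer (K := Kbar) p x ux)
    (EY : IntermediateField Kbar (LaurentSeries Kbar)) (hFE : modularFunctionFieldBar N ≤ EY)
    (hint : (IntermediateField.inclusion hFE).toRingHom.IsIntegral)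
    (u h : ↥EY) (c : Kbar)
    (hrel : (u : LaurentSeries Kbar) = algebraMap Kbar (LaurentSeries Kbar) c *
      (ux : LaurentSeries Kbar) * (h : LaurentSeries Kbar) ^ p)
    (P : Place Kbar ↥EY) : (p : ℤ) ∣ P.ord u := by
  refine g2b_ord_dvd (IntermediateField.inclusion hFE) hint p ux
    (fun P' => g2b_kummer_ord hx P') u h c ?_ P
  apply Subtype.ext
  rw [hrel]
  rfl

/-- **integrality of the cover**: `EY ⊆ F(U)` with `U ^ p ∈ F` (`p > 0`) ⇒ the inclusion
`F → EY` is integral. -/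
theorem g2b_isIntegral (F EY : IntermediateField Kbar (LaurentSeries Kbar)) (hFE : F ≤ EY)
    {p : ℕ} (hp : 0 < p) (U : LaurentSeries Kbar) (ut : ↥F)
    (hU : U ^ p = (ut : LaurentSeries Kbar)) (hEY : EY ≤ cvcAdj F U) :
    (IntermediateField.inclusion hFE).toRingHom.IsIntegral := by
  intro z
  have hUint : IsIntegral ↥F U :=
    ⟨Polynomial.X ^ p - Polynomial.C ut, Polynomial.monic_X_pow_sub_C ut hp.ne', by
      simp only [Polynomial.eval₂_sub, Polynomial.eval₂_pow, Polynomial.eval₂_X,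
        Polynomial.eval₂_C, hU]
      exact sub_self _⟩
  have hz : (z : LaurentSeries Kbar) ∈
      IntermediateField.adjoin ↥F ({U} : Set (LaurentSeries Kbar)) := by
    have h1 := hEY z.2
    rw [cvcAdj, ← IntermediateField.restrictScalars_adjoin Kbar F {U}] at h1
    exact h1
  have halg : IsIntegral ↥F (z : LaurentSeries Kbar) := by
    haveI := IntermediateField.isAlgebraic_adjoin_simple hUint
    have h1 : IsIntegral ↥F
        (⟨(z : LaurentSeries Kbar), hz⟩ :
          ↥(IntermediateField.adjoin ↥F ({U} : Set (LaurentSeries Kbar)))) :=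
      (Algebra.IsAlgebraic.isAlgebraic _).isIntegral
    exact h1.map (IntermediateField.val _)
  obtain ⟨q, hq, hq0⟩ := halg
  refine ⟨q, hq, ?_⟩
  apply Subtype.ext
  have h2 := Polynomial.hom_eval₂ q (IntermediateField.inclusion hFE).toRingHom
    (EY.val : ↥EY →+* LaurentSeries Kbar) z
  rw [ZeroMemClass.coe_zero]
  exact h2.trans hq0

end Conc

end Fermat.Agent.S40lib

end
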