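/-
Item 88 (S44), (W) per-point instantiation, cover side (helper8): the ring `R = B_s`
(`Localization.AtPrime s`, `s` a prime of the affine ring `B0 ⊂ F0(N) = f0Field A N`) as an
algebra over which the cover field `EY ⊇ FF N` lives, with the three inputs `hR`, `hσR`, `hdescE`
of helper1's `cve0c_main`:

* `criIncl`   : `B0 →+* EY`;  `criHom : B_s →+* EY`;  `criAlg : Algebra B_s EY`;
* `cri_hR`    : the image of `B_s` is fixed (coefficientwise) by the inertia group;
* `cri_hσR`   : the image of `B_s` is fixed by a deck map fixing `FF N`;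
* `cri_hdescE`: an element of `EY` fixed by the deck map (`Fix σY ⊂ FF N`) and by the inertia
  group, integral over `B_s`, lies in `B_s` (`F^I = F0`, `Frac B0 = F0`, `B_s` integrally closed).
-/
import Mathlib
import Fermat.Agent.S36lib.Speed
import Fermat.Agent.S36lib.FixedF0
import Fermat.Agent.S40lib.CoverE0c

set_option autoImplicit false
set_option linter.style.haveILetI false
set_option linter.unusedSectionVars false
set_option linter.unusedVariables false
set_option synthInstance.maxHeartbeats 400000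

noncomputable section

namespace Fermat.Agent.S40lib

open ModularCurve HahnSeries AlgebraicCurve Fermat.Agent.S24lib Fermat.Agent.S33lib
  Fermat.Agent.S34lib Fermat.Agent.RRlib Fermat.Agent.S36lib

section Abs

variable {F : Type*} [Field F]

/-- a subring of a field all of whose elements are quotients has this field as fraction
field -/
theorem cri_isFractionRing (B : Subring F)
    (hfrac : ∀ z : F, ∃ a b : B, b ≠ 0 ∧ z * (b : F) = (a : F)) : IsFractionRing B F := by
  haveI : FaithfulSMul B F := (faithfulSMul_iff_algebraMap_injective B F).2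
    (fun x y h => Subtype.ext h)
  refine IsFractionRing.of_field B F fun z => ?_
  obtain ⟨a, b, hb, h⟩ := hfrac z
  refine ⟨a, b, ?_⟩
  have hb0 : (b : F) ≠ 0 := fun h0 => hb (Subtype.ext h0)
  show z = (a : F) / (b : F)
  rw [← h]
  field_simp

end Abs

section

variable (A : ValuationSubring Kbar) (N : ℕ) [NeZero N]
  (EY : IntermediateField Kbar (LaurentSeries Kbar))
  (hle : modularFunctionFieldBar N ≤ EY)
  (B0 : Subring ↥(f0Field A N))

/-- the inclusion `B0 ⊂ F0(N) ⊂ FF N ⊂ EY` -/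
def criIncl : ↥B0 →+* ↥EY where
  toFun b := ⟨(((b : ↥(f0Field A N)) : FF N) : LaurentSeries Kbar),
    hle ((b : ↥(f0Field A N)) : FF N).2⟩
  map_one' := rfl
  map_mul' _ _ := rfl
  map_zero' := rfl
  map_add' _ _ := rfl

theorem cri_coe_incl (b : ↥B0) :
    ((criIncl A N EY hle B0 b : ↥EY) : LaurentSeries Kbar) =
      (((b : ↥(f0Field A N)) : FF N) : LaurentSeries Kbar) := rfl

theorem cri_incl_injective : Function.Injective (criIncl A N EY hle B0) := by
  intro a b h
  have h1 : (((a : ↥(f0Field A N)) : FF N) : LaurentSeries Kbar) =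
      (((b : ↥(f0Field A N)) : FF N) : LaurentSeries Kbar) :=
    congrArg (fun z : ↥EY => (z : LaurentSeries Kbar)) h
  exact Subtype.ext (Subtype.ext (Subtype.ext h1))

variable (s : Ideal ↥B0) [hs : s.IsPrime]

theorem cri_isUnit (y : s.primeCompl) : IsUnit (criIncl A N EY hle B0 (y : ↥B0)) := by
  rw [isUnit_iff_ne_zero]
  intro h0
  have h1 : (y : ↥B0) = 0 := cri_incl_injective A N EY hle B0 (by rw [h0, map_zero])
  exact y.2 (by rw [h1]; exact s.zero_mem)

/-- the map `B_s → EY` -/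
def criHom : Localization.AtPrime s →+* ↥EY :=
  IsLocalization.lift (M := s.primeCompl) (g := criIncl A N EY hle B0)
    (cri_isUnit A N EY hle B0 s)

theorem cri_hom_algebraMap (b : ↥B0) :
    criHom A N EY hle B0 s (algebraMap ↥B0 (Localization.AtPrime s) b) =
      criIncl A N EY hle B0 b :=
  IsLocalization.lift_eq _ b

/-- `EY` as an algebra over `B_s` -/
@[reducible] def criAlg : Algebra (Localization.AtPrime s) ↥EY :=
  (criHom A N EY hle B0 s).toAlgebra

/-- elements of `F0(N)` are fixed coefficientwise by the inertia group -/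
theorem cri_coeff_fixed (x : ↥(f0Field A N)) (σ : Kbar ≃ₐ[ℚ] Kbar)
    (hσ : σ ∈ A.inertiaSubgroupIn ℚ) :
    coeffMap ((σ : Kbar ≃ₐ[ℚ] Kbar) : Kbar →+* Kbar) ((x : FF N) : LaurentSeries Kbar) =
      ((x : FF N) : LaurentSeries Kbar) := by
  ext n
  rw [coeffMap_coeff]
  have h1 := (mem_f0Field_iff_coeff A N (x : FF N)).1 x.2 n
  exact (mem_k0Field_iff A _).1 h1 σ hσ

/-- **`hR` of `cve0c_main`**: `B_s` is rational over the inertia-fixed field. -/
theorem cri_hR (H : Subgroup (Kbar ≃ₐ[ℚ] Kbar))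
    (hH : ∀ σ ∈ H, σ ∈ A.inertiaSubgroupIn ℚ)
    (hst : ∀ σ ∈ H, ∀ x ∈ EY,
      coeffMap ((σ : Kbar ≃ₐ[ℚ] Kbar) : Kbar →+* Kbar) x ∈ EY)
    (σ : Kbar ≃ₐ[ℚ] Kbar) (hσ : σ ∈ H) (r : Localization.AtPrime s) :
    wlcTau H EY hst σ hσ (criHom A N EY hle B0 s r) = criHom A N EY hle B0 s r := by
  have h : (wlcTau H EY hst σ hσ).comp (criHom A N EY hle B0 s) = criHom A N EY hle B0 s := by
    refine IsLocalization.ringHom_ext s.primeCompl (RingHom.ext fun b => Subtype.ext ?_)
    show ((wlcTau H EY hst σ hσ (criHom A N EY hle B0 s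
      (algebraMap ↥B0 (Localization.AtPrime s) b)) : ↥EY) : LaurentSeries Kbar) =
      ((criHom A N EY hle B0 s (algebraMap ↥B0 (Localization.AtPrime s) b) : ↥EY) :
        LaurentSeries Kbar)
    rw [cri_hom_algebraMap, wlc_coe_tau, cri_coe_incl]
    exact cri_coeff_fixed A N (b : ↥(f0Field A N)) σ (hH σ hσ)
  exact congrArg (fun f => f r) h

/-- **`hσR` of `cve0c_main`**: `B_s` is fixed by a deck map fixing `FF N`. -/
theorem cri_hσR (σY : ↥EY →+* ↥EY)
    (hσF : ∀ f : FF N, σY ⟨(f : LaurentSeries Kbar), hle f.2⟩ =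
      ⟨(f : LaurentSeries Kbar), hle f.2⟩)
    (r : Localization.AtPrime s) :
    σY (criHom A N EY hle B0 s r) = criHom A N EY hle B0 s r := by
  have h : σY.comp (criHom A N EY hle B0 s) = criHom A N EY hle B0 s := by
    refine IsLocalization.ringHom_ext s.primeCompl (RingHom.ext fun b => Subtype.ext ?_)
    show ((σY (criHom A N EY hle B0 s
      (algebraMap ↥B0 (Localization.AtPrime s) b)) : ↥EY) : LaurentSeries Kbar) =
      ((criHom A N EY hle B0 s (algebraMap ↥B0 (Localization.AtPrime s) b) : ↥EY) :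
        LaurentSeries Kbar)
    rw [cri_hom_algebraMap]
    exact congrArg (fun z : ↥EY => (z : LaurentSeries Kbar))
      (hσF ((b : ↥(f0Field A N)) : FF N))
  exact congrArg (fun f => f r) h

/-- the inclusion `F0(N) ⊂ EY` -/
def criF0 : ↥(f0Field A N) →+* ↥EY where
  toFun x := ⟨((x : FF N) : LaurentSeries Kbar), hle (x : FF N).2⟩
  map_one' := rfl
  map_mul' _ _ := rfl
  map_zero' := rfl
  map_add' _ _ := rfl

theorem cri_F0_injective : Function.Injective (criF0 A N EY hle) := by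
  intro a b h
  have h1 : ((a : FF N) : LaurentSeries Kbar) = ((b : FF N) : LaurentSeries Kbar) :=
    congrArg (fun z : ↥EY => (z : LaurentSeries Kbar)) h
  exact Subtype.ext (Subtype.ext h1)

set_option maxHeartbeats 4000000 in
/-- **`hdescE` of `cve0c_main`**: an element of `EY` fixed by the deck map and by the inertia
group which is integral over `B_s` lies in `B_s`. -/
theorem cri_hdescE (H : Subgroup (Kbar ≃ₐ[ℚ] Kbar))
    (hH : ∀ σ ∈ A.inertiaSubgroupIn ℚ, σ ∈ H)
    (hst : ∀ σ ∈ H, ∀ x ∈ EY,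
      coeffMap ((σ : Kbar ≃ₐ[ℚ] Kbar) : Kbar →+* Kbar) x ∈ EY)
    (σY : ↥EY →+* ↥EY)
    (hfix : ∀ y : ↥EY, σY y = y → (y : LaurentSeries Kbar) ∈ modularFunctionFieldBar N)
    (hfrac : ∀ z : ↥(f0Field A N), ∃ a b : ↥B0, b ≠ 0 ∧
      z * (b : ↥(f0Field A N)) = (a : ↥(f0Field A N)))
    (hic : IsIntegrallyClosed (Localization.AtPrime s))
    (t : ↥EY) (hσt : σY t = t)
    (hτt : ∀ τ ∈ cve0cT H EY hst, τ t = t)
    (hint : (criHom A N EY hle B0 s).IsIntegralElem t) :
    t ∈ Set.range (criHom A N EY hle B0 s) := by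
  classical
  -- `t ∈ FF N`
  have htF : (t : LaurentSeries Kbar) ∈ modularFunctionFieldBar N := hfix t hσt
  -- `t ∈ F0(N)`
  have htF0 : (⟨(t : LaurentSeries Kbar), htF⟩ : FF N) ∈ f0Field A N := by
    rw [mem_f0Field_iff_coeff]
    intro n
    rw [mem_k0Field_iff]
    intro σ hσ
    have h1 := hτt (wlcTau H EY hst σ (hH σ hσ)) ⟨σ, hH σ hσ, rfl⟩
    have h2 : coeffMap ((σ : Kbar ≃ₐ[ℚ] Kbar) : Kbar →+* Kbar) (t : LaurentSeries Kbar) =
        (t : LaurentSeries Kbar) := by
      have := congrArg Subtype.val h1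
      rwa [wlc_coe_tau] at this
    have h3 := congrArg (fun x : LaurentSeries Kbar => x.coeff n) h2
    simp only [coeffMap_coeff] at h3
    exact h3
  obtain ⟨t0, ht0⟩ : ∃ t0 : ↥(f0Field A N), ((t0 : FF N) : LaurentSeries Kbar) =
      (t : LaurentSeries Kbar) := ⟨⟨⟨(t : LaurentSeries Kbar), htF⟩, htF0⟩, rfl⟩
  have ht0E : criF0 A N EY hle t0 = t := Subtype.ext ht0
  -- the algebra `B_s → F0(N)`
  haveI hBF : IsFractionRing ↥B0 ↥(f0Field A N) := cri_isFractionRing B0 hfrac
  have hunit0 : ∀ y : s.primeCompl, IsUnit (algebraMap ↥B0 ↥(f0Field A N) (y : ↥B0)) := by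
    intro y
    rw [isUnit_iff_ne_zero]
    intro h0
    have h1 : (y : ↥B0) = 0 :=
      (IsFractionRing.injective ↥B0 ↥(f0Field A N)) (by rw [h0, map_zero])
    exact y.2 (by rw [h1]; exact s.zero_mem)
  let φ0 : Localization.AtPrime s →+* ↥(f0Field A N) :=
    IsLocalization.lift (M := s.primeCompl) (g := algebraMap ↥B0 ↥(f0Field A N)) hunit0
  letI alg0 : Algebra (Localization.AtPrime s) ↥(f0Field A N) := φ0.toAlgebra
  haveI htow : IsScalarTower ↥B0 (Localization.AtPrime s) ↥(f0Field A N) :=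
    IsScalarTower.of_algebraMap_eq (fun b => (IsLocalization.lift_eq hunit0 b).symm)
  haveI hfr : IsFractionRing (Localization.AtPrime s) ↥(f0Field A N) :=
    IsFractionRing.isFractionRing_of_isDomain_of_isLocalization s.primeCompl
      (Localization.AtPrime s) ↥(f0Field A N)
  -- compatibility `criF0 ∘ φ0 = criHom`
  have hcomp : (criF0 A N EY hle).comp φ0 = criHom A N EY hle B0 s := by
    refine IsLocalization.ringHom_ext s.primeCompl (RingHom.ext fun b => Subtype.ext ?_)
    show (((criF0 A N EY hle) (φ0 (algebraMap ↥B0 (Localization.AtPrime s) b)) : ↥EY) :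
      LaurentSeries Kbar) =
      ((criHom A N EY hle B0 s (algebraMap ↥B0 (Localization.AtPrime s) b) : ↥EY) :
        LaurentSeries Kbar)
    rw [cri_hom_algebraMap, IsLocalization.lift_eq]
    rfl
  -- `t0` is integral over `B_s`
  obtain ⟨P, hPm, hP⟩ := hint
  have hint0 : IsIntegral (Localization.AtPrime s) t0 := by
    refine ⟨P, hPm, ?_⟩
    apply cri_F0_injective A N EY hle
    rw [map_zero]
    show (criF0 A N EY hle) (Polynomial.eval₂ φ0 t0 P) = 0
    rw [Polynomial.hom_eval₂, hcomp, ht0E]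
    exact hP
  obtain ⟨r, hr⟩ := (IsIntegrallyClosed.isIntegral_iff (R := Localization.AtPrime s)
    (K := ↥(f0Field A N))).1 hint0
  refine ⟨r, ?_⟩
  rw [← hcomp, ← ht0E]
  show (criF0 A N EY hle) (φ0 r) = _
  exact congrArg _ hr

/-- **the three inputs `hR`, `hσR`, `hdescE` of `cve0c_main`** for `R = B_s`, in the exact
shape (with the algebra structure `criAlg`). -/
theorem cri_inputs (H : Subgroup (Kbar ≃ₐ[ℚ] Kbar))
    (hH : ∀ σ, σ ∈ H ↔ σ ∈ A.inertiaSubgroupIn ℚ)
    (hst : ∀ σ ∈ H, ∀ x ∈ EY,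
      coeffMap ((σ : Kbar ≃ₐ[ℚ] Kbar) : Kbar →+* Kbar) x ∈ EY)
    (σY : ↥EY →+* ↥EY)
    (hσF : ∀ f : FF N, σY ⟨(f : LaurentSeries Kbar), hle f.2⟩ =
      ⟨(f : LaurentSeries Kbar), hle f.2⟩)
    (hfix : ∀ y : ↥EY, σY y = y → (y : LaurentSeries Kbar) ∈ modularFunctionFieldBar N)
    (hfrac : ∀ z : ↥(f0Field A N), ∃ a b : ↥B0, b ≠ 0 ∧
      z * (b : ↥(f0Field A N)) = (a : ↥(f0Field A N)))
    (hic : IsIntegrallyClosed (Localization.AtPrime s)) :
    letI := criAlg A N EY hle B0 s
    (∀ (σ : Kbar ≃ₐ[ℚ] Kbar) (hσ : σ ∈ H) (r : Localization.AtPrime s),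
      wlcTau H EY hst σ hσ (algebraMap (Localization.AtPrime s) ↥EY r) =
        algebraMap (Localization.AtPrime s) ↥EY r) ∧
    (∀ r : Localization.AtPrime s, σY (algebraMap (Localization.AtPrime s) ↥EY r) =
      algebraMap (Localization.AtPrime s) ↥EY r) ∧
    (∀ t : ↥EY, σY t = t → (∀ τ ∈ cve0cT H EY hst, τ t = t) →
      IsIntegral (Localization.AtPrime s) t →
      t ∈ Set.range (algebraMap (Localization.AtPrime s) ↥EY)) ∧
    (∀ b : ↥B0, algebraMap (Localization.AtPrime s) ↥EY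
      (algebraMap ↥B0 (Localization.AtPrime s) b) = criIncl A N EY hle B0 b) :=
  ⟨fun σ hσ r => cri_hR A N EY hle B0 s H (fun τ hτ => (hH τ).1 hτ) hst σ hσ r,
   fun r => cri_hσR A N EY hle B0 s σY hσF r,
   fun t hσt hτt hint => cri_hdescE A N EY hle B0 s H (fun τ hτ => (hH τ).2 hτ) hst σY hfix
     hfrac hic t hσt hτt hint,
   fun b => cri_hom_algebraMap A N EY hle B0 s b⟩

end

end Fermat.Agent.S40lib

end
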