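/-
Item 88 (S44), (W) per-point instantiation, cover side (helper1): the INSTANCES of
`cvp_hcx` / `cva_hcx` / `cvn_frac` at `R = B_s` (`Localization.AtPrime s`, `s` a prime of the
affine ring `B0 ⊂ F0(N) = f0Field A N`), `F = F0(N)`, `E₀ = cve0Field (cve0cT H EY hst)`:

* `cifMap`, `cifAlgRF`      : `B_s → F0(N)`, `Algebra B_s F0(N)`;
* `cif_tower_BRF`           : `IsScalarTower B0 B_s F0(N)`;
* `cif_isFractionRing`      : `IsFractionRing B_s F0(N)`;
* `cif_comp`                : `criF0 ∘ cifMap = criHom` (helper8's maps into `EY`);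
* `cif_hom_injective`       : `B_s → EY` is injective;
* `cifF0E0`, `cifAlgFE`     : `F0(N) → E₀`, `Algebra F0(N) E₀`;
* `cif_tower_RFE`           : `IsScalarTower B_s F0(N) E₀`;
* `cif_hσF`, `cif_hfix`     : the deck map `σ₀` of `E₀` fixes exactly `F0(N)`;
* `cif_hgen`                : **`hgen`**: `Algebra.adjoin F0(N) {z₀} = ⊤` for the generator `z₀`
                              of `cve0c_main`.
-/
import Mathlib
import Fermat.Agent.S36lib.Speed
import Fermat.Agent.S36lib.FixedF0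
import Fermat.Agent.S40lib.CoverRInst
import Fermat.Agent.S40lib.CoverGen2

set_option autoImplicit false
set_option linter.style.haveILetI false
set_option linter.unusedSectionVars false
set_option linter.unusedVariables false
set_option synthInstance.maxHeartbeats 400000

noncomputable section

namespace Fermat.Agent.S40lib

open ModularCurve HahnSeries AlgebraicCurve Fermat.Agent.S24lib Fermat.Agent.S33lib
  Fermat.Agent.S34lib Fermat.Agent.RRlib Fermat.Agent.S36lib IsLocalRing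

section

variable (A : ValuationSubring Kbar) (N : ℕ) [NeZero N]
  (EY : IntermediateField Kbar (LaurentSeries Kbar))
  (hle : modularFunctionFieldBar N ≤ EY)
  (B0 : Subring ↥(f0Field A N))
  (s : Ideal ↥B0) [hs : s.IsPrime]

theorem cif_isUnit (y : s.primeCompl) :
    IsUnit (algebraMap ↥B0 ↥(f0Field A N) (y : ↥B0)) := by
  rw [isUnit_iff_ne_zero]
  intro h0
  have h1 : (y : ↥B0) = 0 := Subtype.ext h0
  exact y.2 (by rw [h1]; exact s.zero_mem)

/-- the map `B_s → F0(N)` -/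
def cifMap : Localization.AtPrime s →+* ↥(f0Field A N) :=
  IsLocalization.lift (M := s.primeCompl) (g := algebraMap ↥B0 ↥(f0Field A N))
    (cif_isUnit A N B0 s)

theorem cif_map_algebraMap (b : ↥B0) :
    cifMap A N B0 s (algebraMap ↥B0 (Localization.AtPrime s) b) =
      algebraMap ↥B0 ↥(f0Field A N) b :=
  IsLocalization.lift_eq _ b

/-- `F0(N)` as an algebra over `B_s` -/
@[reducible] def cifAlgRF : Algebra (Localization.AtPrime s) ↥(f0Field A N) :=
  (cifMap A N B0 s).toAlgebra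

theorem cif_tower_BRF :
    letI := cifAlgRF A N B0 s
    IsScalarTower ↥B0 (Localization.AtPrime s) ↥(f0Field A N) :=
  letI := cifAlgRF A N B0 s
  IsScalarTower.of_algebraMap_eq (fun b => (cif_map_algebraMap A N B0 s b).symm)

theorem cif_isFractionRing
    (hfrac : ∀ z : ↥(f0Field A N), ∃ a b : ↥B0, b ≠ 0 ∧
      z * (b : ↥(f0Field A N)) = (a : ↥(f0Field A N))) :
    letI := cifAlgRF A N B0 s
    IsFractionRing (Localization.AtPrime s) ↥(f0Field A N) := by
  letI := cifAlgRF A N B0 s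
  haveI hBF : IsFractionRing ↥B0 ↥(f0Field A N) := cri_isFractionRing B0 hfrac
  haveI := cif_tower_BRF A N B0 s
  exact IsFractionRing.isFractionRing_of_isDomain_of_isLocalization s.primeCompl
    (Localization.AtPrime s) ↥(f0Field A N)

/-- `criF0 ∘ cifMap = criHom` -/
theorem cif_comp :
    (criF0 A N EY hle).comp (cifMap A N B0 s) = criHom A N EY hle B0 s := by
  refine IsLocalization.ringHom_ext s.primeCompl (RingHom.ext fun b => Subtype.ext ?_)
  show (((criF0 A N EY hle) (cifMap A N B0 s (algebraMap ↥B0 (Localization.AtPrime s) b)) :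
      ↥EY) : LaurentSeries Kbar) =
    ((criHom A N EY hle B0 s (algebraMap ↥B0 (Localization.AtPrime s) b) : ↥EY) :
      LaurentSeries Kbar)
  rw [cri_hom_algebraMap, cif_map_algebraMap]
  rfl

theorem cif_map_injective
    (hfrac : ∀ z : ↥(f0Field A N), ∃ a b : ↥B0, b ≠ 0 ∧
      z * (b : ↥(f0Field A N)) = (a : ↥(f0Field A N))) :
    Function.Injective (cifMap A N B0 s) := by
  letI := cifAlgRF A N B0 s
  haveI := cif_isFractionRing A N B0 s hfrac
  exact IsFractionRing.injective (Localization.AtPrime s) ↥(f0Field A N)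

/-- `B_s → EY` is injective -/
theorem cif_hom_injective
    (hfrac : ∀ z : ↥(f0Field A N), ∃ a b : ↥B0, b ≠ 0 ∧
      z * (b : ↥(f0Field A N)) = (a : ↥(f0Field A N))) :
    Function.Injective (criHom A N EY hle B0 s) := by
  rw [← cif_comp A N EY hle B0 s]
  exact (cri_F0_injective A N EY hle).comp (cif_map_injective A N B0 s hfrac)

variable (H : Subgroup (Kbar ≃ₐ[ℚ] Kbar))
  (hst : ∀ σ ∈ H, ∀ x ∈ EY,
    coeffMap ((σ : Kbar ≃ₐ[ℚ] Kbar) : Kbar →+* Kbar) x ∈ EY)

theorem cif_F0_fixed (hH : ∀ σ ∈ H, σ ∈ A.inertiaSubgroupIn ℚ) (x : ↥(f0Field A N)) :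
    criF0 A N EY hle x ∈ cve0Field (cve0cT H EY hst) := by
  rintro τ ⟨σ, hσ, rfl⟩
  apply Subtype.ext
  rw [wlc_coe_tau]
  exact cri_coeff_fixed A N x σ (hH σ hσ)

/-- the map `F0(N) → E₀` -/
def cifF0E0 (hH : ∀ σ ∈ H, σ ∈ A.inertiaSubgroupIn ℚ) :
    ↥(f0Field A N) →+* ↥(cve0Field (cve0cT H EY hst)) :=
  (criF0 A N EY hle).codRestrict (cve0Field (cve0cT H EY hst))
    (cif_F0_fixed A N EY hle H hst hH)

theorem cif_coe_F0E0 (hH : ∀ σ ∈ H, σ ∈ A.inertiaSubgroupIn ℚ) (x : ↥(f0Field A N)) :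
    ((cifF0E0 A N EY hle H hst hH x : ↥(cve0Field (cve0cT H EY hst))) : ↥EY) =
      criF0 A N EY hle x := rfl

/-- `E₀` as an algebra over `F0(N)` -/
@[reducible] def cifAlgFE (hH : ∀ σ ∈ H, σ ∈ A.inertiaSubgroupIn ℚ) :
    Algebra ↥(f0Field A N) ↥(cve0Field (cve0cT H EY hst)) :=
  (cifF0E0 A N EY hle H hst hH).toAlgebra

theorem cif_tower_RFE (hH : ∀ σ ∈ H, σ ∈ A.inertiaSubgroupIn ℚ)
    (hR : ∀ τ ∈ cve0cT H EY hst, ∀ r : Localization.AtPrime s,
      τ (criHom A N EY hle B0 s r) = criHom A N EY hle B0 s r) :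
    letI := criAlg A N EY hle B0 s
    letI := cve0Algebra (R := Localization.AtPrime s) (cve0cT H EY hst) hR
    letI := cifAlgRF A N B0 s
    letI := cifAlgFE A N EY hle H hst hH
    IsScalarTower (Localization.AtPrime s) ↥(f0Field A N)
      ↥(cve0Field (cve0cT H EY hst)) := by
  letI := criAlg A N EY hle B0 s
  letI := cve0Algebra (R := Localization.AtPrime s) (cve0cT H EY hst) hR
  letI := cifAlgRF A N B0 s
  letI := cifAlgFE A N EY hle H hst hH
  refine IsScalarTower.of_algebraMap_eq fun r => Subtype.ext ?_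
  show criHom A N EY hle B0 s r = criF0 A N EY hle (cifMap A N B0 s r)
  rw [← cif_comp A N EY hle B0 s]
  rfl

/-- the deck map of `E₀` fixes `F0(N)` -/
theorem cif_hσF (hH : ∀ σ ∈ H, σ ∈ A.inertiaSubgroupIn ℚ)
    (σY : ↥EY →+* ↥EY)
    (hcomm : ∀ τ ∈ cve0cT H EY hst, ∀ y, σY (τ y) = τ (σY y))
    (hσF : ∀ f : FF N, σY ⟨(f : LaurentSeries Kbar), hle f.2⟩ =
      ⟨(f : LaurentSeries Kbar), hle f.2⟩)
    (a : ↥(f0Field A N)) :
    cve0Sigma (cve0cT H EY hst) σY hcomm (cifF0E0 A N EY hle H hst hH a) =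
      cifF0E0 A N EY hle H hst hH a := by
  apply Subtype.ext
  rw [cve0_coe_sigma, cif_coe_F0E0]
  exact hσF (a : FF N)

/-- the fixed field of the deck map of `E₀` is `F0(N)` -/
theorem cif_hfix (hH : ∀ σ ∈ H, σ ∈ A.inertiaSubgroupIn ℚ)
    (hH' : ∀ σ ∈ A.inertiaSubgroupIn ℚ, σ ∈ H)
    (σY : ↥EY →+* ↥EY)
    (hcomm : ∀ τ ∈ cve0cT H EY hst, ∀ y, σY (τ y) = τ (σY y))
    (hfix : ∀ y : ↥EY, σY y = y → (y : LaurentSeries Kbar) ∈ modularFunctionFieldBar N)
    (y : ↥(cve0Field (cve0cT H EY hst)))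
    (hy : cve0Sigma (cve0cT H EY hst) σY hcomm y = y) :
    y ∈ Set.range (cifF0E0 A N EY hle H hst hH) := by
  have h1 : σY (y : ↥EY) = (y : ↥EY) := by
    have := congrArg Subtype.val hy
    rwa [cve0_coe_sigma] at this
  have htF : ((y : ↥EY) : LaurentSeries Kbar) ∈ modularFunctionFieldBar N := hfix _ h1
  have htF0 : (⟨((y : ↥EY) : LaurentSeries Kbar), htF⟩ : FF N) ∈ f0Field A N := by
    rw [mem_f0Field_iff_coeff]
    intro n
    rw [mem_k0Field_iff]
    intro σ hσ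
    have h2 := y.2 (wlcTau H EY hst σ (hH' σ hσ)) ⟨σ, hH' σ hσ, rfl⟩
    have h3 : coeffMap ((σ : Kbar ≃ₐ[ℚ] Kbar) : Kbar →+* Kbar)
        ((y : ↥EY) : LaurentSeries Kbar) = ((y : ↥EY) : LaurentSeries Kbar) := by
      have := congrArg Subtype.val h2
      rwa [wlc_coe_tau] at this
    have h4 := congrArg (fun x : LaurentSeries Kbar => x.coeff n) h3
    simp only [coeffMap_coeff] at h4
    exact h4
  exact ⟨⟨⟨((y : ↥EY) : LaurentSeries Kbar), htF⟩, htF0⟩, Subtype.ext (Subtype.ext rfl)⟩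

/-- **`hgen`** for the generator `z₀` of `cve0c_main`, over `F = F0(N)` -/
theorem cif_hgen (hH : ∀ σ ∈ H, σ ∈ A.inertiaSubgroupIn ℚ)
    (hH' : ∀ σ ∈ A.inertiaSubgroupIn ℚ, σ ∈ H)
    (hfrac : ∀ z : ↥(f0Field A N), ∃ a b : ↥B0, b ≠ 0 ∧
      z * (b : ↥(f0Field A N)) = (a : ↥(f0Field A N)))
    {p : ℕ} (hp : p.Prime)
    (hpR : (p : Localization.AtPrime s) ∈ maximalIdeal (Localization.AtPrime s))
    {ζ : Kbar} (hζ : IsPrimitiveRoot ζ p)
    (σY : ↥EY →+* ↥EY)
    (hcomm : ∀ τ ∈ cve0cT H EY hst, ∀ y, σY (τ y) = τ (σY y))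
    (hσp : ∀ y : ↥EY, σY^[p] y = y)
    (hσF : ∀ f : FF N, σY ⟨(f : LaurentSeries Kbar), hle f.2⟩ =
      ⟨(f : LaurentSeries Kbar), hle f.2⟩)
    (hfix : ∀ y : ↥EY, σY y = y → (y : LaurentSeries Kbar) ∈ modularFunctionFieldBar N)
    (hdescE : ∀ t : ↥EY, σY t = t → (∀ τ ∈ cve0cT H EY hst, τ t = t) →
      (criHom A N EY hle B0 s).IsIntegralElem t →
      t ∈ Set.range (criHom A N EY hle B0 s))
    (z₀ : ↥(cve0Field (cve0cT H EY hst))) (c₁ : ↥EY)
    (hc₁ : (criHom A N EY hle B0 s).IsIntegralElem c₁)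
    (hcong : ((cve0Sigma (cve0cT H EY hst) σY hcomm z₀ : ↥(cve0Field (cve0cT H EY hst))) : ↥EY)
      - (z₀ : ↥EY) = 1 + (algebraMap Kbar ↥EY ζ - 1) * c₁) :
    letI := cifAlgFE A N EY hle H hst hH
    Algebra.adjoin ↥(f0Field A N) ({z₀} : Set ↥(cve0Field (cve0cT H EY hst))) = ⊤ := by
  letI := criAlg A N EY hle B0 s
  letI := cifAlgFE A N EY hle H hst hH
  have hζ' : IsPrimitiveRoot (algebraMap Kbar ↥EY ζ) p :=
    hζ.map_of_injective (algebraMap Kbar ↥EY).injective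
  exact cvg_hgen (R := Localization.AtPrime s) (E := ↥EY)
    (F := ↥(f0Field A N)) (cve0Field (cve0cT H EY hst)).subtype
    (cif_hom_injective A N EY hle B0 s hfrac) hp hpR hζ' σY (cve0cT H EY hst) hdescE
    (cve0Sigma (cve0cT H EY hst) σY hcomm)
    (cve0_sigma_iterate_all (cve0cT H EY hst) σY hcomm hσp)
    (cif_hσF A N EY hle H hst hH σY hcomm hσF)
    (cif_hfix A N EY hle H hst hH hH' σY hcomm hfix) z₀ c₁ hc₁ hcong

end

end Fermat.Agent.S40lib

end
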