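import Mathlib
import Fermat.Agent.S36lib.Speed
import Fermat.Agent.S36lib.InvertOrd
import Fermat.Agent.S40lib.CoverAsm4

/-!
# Item 88 (S40/S44), block (J-WILD), piece (V) (helper2): the vertical orders are GLOBAL

`B` the affine ring of the model of `X`, `r₁ : B → κ₁` the reduction to one component of the
special fibre, `s` the centre of a place `Q`, `R = B_s` (a UFD), `x ∈ B` a local generator of
`ker r₁` at `s`.

* `cvp_sign`  : `0 ≤ ord_x^R f  ⟺  f = n / d` with `n d : B`, `r₁ d ≠ 0`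
                (the right-hand side does NOT depend on `s`);
* `cvp_hsame` : the hypothesis `hsame` of `cva_hcx_ref` for two centres `s₀`, `s`;
* `cvp_hcx`   : `hcx` / `hcy` of `g2y_node` / `g2w_point_node` at the node ring `L = C_𝔫` of the
                cover over `R = B_s`, with the reference order `vRef = ord_{x₀}` of the node ring
                `L₀` over `R₀ = B_{s₀}`.
(complete proofs, standard axioms only)
-/

set_option autoImplicit false
set_option linter.style.haveILetI false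
set_option linter.unusedSectionVars false

namespace Fermat.Agent.S40lib

open IsLocalRing Fermat.Agent.S36lib

section Sign

variable {B R κ₁ F : Type*} [CommRing B] [CommRing R] [IsDomain R]
  [UniqueFactorizationMonoid R] [Algebra B R] (s : Ideal B) [hs : s.IsPrime]
  [IsLocalization.AtPrime R s] [Field κ₁] [Field F] [Algebra R F] [IsFractionRing R F]
  [Algebra B F] [IsScalarTower B R F]

omit [IsDomain R] [UniqueFactorizationMonoid R] in
/-- elements outside `s` are units of `R = B_s` -/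
theorem cvp_isUnit (t : B) (ht : t ∉ s) : IsUnit (algebraMap B R t) :=
  IsLocalization.map_units R (⟨t, ht⟩ : s.primeCompl)

omit [IsDomain R] [UniqueFactorizationMonoid R] in
/-- `x ∣ d` in `R = B_s` for `x ∈ ker r₁` forces `r₁ d = 0`. -/
theorem cvp_not_dvd (r₁ : B →+* κ₁) (h₁ : RingHom.ker r₁ ≤ s) (x : B)
    (hx : x ∈ RingHom.ker r₁) (d : B) (hd : r₁ d ≠ 0) :
    ¬ algebraMap B R x ∣ algebraMap B R d := by
  rintro ⟨t, ht⟩
  obtain ⟨b, u, rfl⟩ := IsLocalization.exists_mk'_eq s.primeCompl t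
  have h2 : algebraMap B R (d * (u : B)) = algebraMap B R (x * b) := by
    rw [map_mul, map_mul, ht, mul_assoc, IsLocalization.mk'_spec]
  obtain ⟨c, hc⟩ := (IsLocalization.eq_iff_exists s.primeCompl R).1 h2
  have h3 := congrArg r₁ hc
  rw [map_mul, map_mul, map_mul, map_mul, (RingHom.mem_ker).1 hx, zero_mul, mul_zero] at h3
  have hc0 : r₁ (c : B) ≠ 0 := fun h => c.2 (h₁ ((RingHom.mem_ker).2 h))
  have hu0 : r₁ (u : B) ≠ 0 := fun h => u.2 (h₁ ((RingHom.mem_ker).2 h))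
  exact mul_ne_zero hc0 (mul_ne_zero hd hu0) h3

/-- **the sign of the vertical order in `B`-form**: `0 ≤ ord_x^R f ⟺ f = n / d`, `r₁ d ≠ 0`. -/
theorem cvp_sign (r₁ : B →+* κ₁) (h₁ : RingHom.ker r₁ ≤ s) (x εx : B)
    (hx : x ∈ RingHom.ker r₁) (hxg : ∀ z ∈ RingHom.ker r₁, x ∣ εx * z) (hεx : εx ∉ s)
    (hxR : Prime (algebraMap B R x)) (f : F) (hf : f ≠ 0) :
    0 ≤ s36_ordAt (algebraMap B R x) hxR f ↔
      ∃ n d : B, r₁ d ≠ 0 ∧ f * algebraMap B F d = algebraMap B F n := by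
  have hinj : Function.Injective (algebraMap R F) := IsFractionRing.injective R F
  constructor
  · intro h0
    obtain ⟨a, b, ha, hb, hab⟩ := s36_ordAt_spec (F := F) (algebraMap B R x) hxR hf
    obtain ⟨k, hk⟩ := Int.eq_ofNat_of_zero_le h0
    rw [hk, zpow_natCast, ← map_pow, ← map_mul] at hab
    obtain ⟨nb, ub, hbeq⟩ := IsLocalization.exists_mk'_eq s.primeCompl b
    obtain ⟨na, ua, haeq⟩ :=
      IsLocalization.exists_mk'_eq s.primeCompl (a * algebraMap B R x ^ k)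
    have hb1 : b * algebraMap B R (ub : B) = algebraMap B R nb := by
      rw [← hbeq, IsLocalization.mk'_spec]
    have ha1 : (a * algebraMap B R x ^ k) * algebraMap B R (ua : B) = algebraMap B R na := by
      rw [← haeq, IsLocalization.mk'_spec]
    refine ⟨na * (ub : B), nb * (ua : B), ?_, ?_⟩
    · rw [map_mul]
      refine mul_ne_zero ?_ (fun h => ua.2 (h₁ ((RingHom.mem_ker).2 h)))
      intro h
      obtain ⟨q, hq⟩ := hxg nb ((RingHom.mem_ker).2 h)
      have h2 : algebraMap B R x ∣ algebraMap B R εx * algebraMap B R nb :=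
        ⟨algebraMap B R q, by rw [← map_mul, ← map_mul, hq]⟩
      rcases hxR.dvd_or_dvd h2 with h3 | h3
      · exact hxR.not_isUnit (isUnit_of_dvd_unit h3 (cvp_isUnit (R := R) s εx hεx))
      · rw [← hb1] at h3
        rcases hxR.dvd_or_dvd h3 with h4 | h4
        · exact hb h4
        · exact hxR.not_isUnit (isUnit_of_dvd_unit h4 (cvp_isUnit (R := R) s _ ub.2))
    · have e1 : algebraMap B F (nb * (ua : B)) =
          algebraMap R F b * algebraMap R F (algebraMap B R (ub : B)) *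
            algebraMap R F (algebraMap B R (ua : B)) := by
        rw [IsScalarTower.algebraMap_apply B R F, map_mul (algebraMap B R), ← hb1, map_mul,
          map_mul]
      have e2 : algebraMap B F (na * (ub : B)) =
          algebraMap R F (a * algebraMap B R x ^ k) * algebraMap R F (algebraMap B R (ua : B)) *
            algebraMap R F (algebraMap B R (ub : B)) := by
        rw [IsScalarTower.algebraMap_apply B R F, map_mul (algebraMap B R), ← ha1, map_mul,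
          map_mul]
      rw [e1, e2, ← hab]
      ring
  · rintro ⟨n, d, hd, hnd⟩
    have hdx := cvp_not_dvd (R := R) s r₁ h₁ x hx d hd
    have hn0 : algebraMap B R n ≠ 0 := by
      intro h
      rw [IsScalarTower.algebraMap_apply B R F n, h, map_zero] at hnd
      rcases mul_eq_zero.1 hnd with h5 | h5
      · exact hf h5
      · rw [IsScalarTower.algebraMap_apply B R F] at h5
        have h6 : algebraMap B R d = 0 := hinj (by rw [h5, map_zero])
        exact hdx (h6 ▸ dvd_zero _)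
    obtain ⟨i, a, ha, hna⟩ := WfDvdMonoid.max_power_factor hn0 hxR.irreducible
    have h7 : s36_ordAt (algebraMap B R x) hxR f = (i : ℤ) := by
      refine s36_ordAt_eq (algebraMap B R x) hxR (a := a) (b := algebraMap B R d) ha hdx ?_
      rw [← IsScalarTower.algebraMap_apply B R F, hnd, IsScalarTower.algebraMap_apply B R F,
        hna, map_mul, map_pow, zpow_natCast]
      ring
    rw [h7]
    exact Int.natCast_nonneg i

end Sign

section Same

variable {B R₀ R κ₁ F : Type*} [CommRing B] [Field κ₁] [Field F] [Algebra B F]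
  [CommRing R₀] [IsDomain R₀] [UniqueFactorizationMonoid R₀] [Algebra B R₀]
  (s₀ : Ideal B) [hs₀ : s₀.IsPrime] [IsLocalization.AtPrime R₀ s₀]
  [Algebra R₀ F] [IsFractionRing R₀ F] [IsScalarTower B R₀ F]
  [CommRing R] [IsDomain R] [UniqueFactorizationMonoid R] [Algebra B R]
  (s : Ideal B) [hs : s.IsPrime] [IsLocalization.AtPrime R s]
  [Algebra R F] [IsFractionRing R F] [IsScalarTower B R F]

/-- **`hsame` of `cva_hcx_ref`**: the vertical orders of the SAME component at two centres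
`s₀`, `s` have the same sign on `F`. -/
theorem cvp_hsame (r₁ : B →+* κ₁) (h₁₀ : RingHom.ker r₁ ≤ s₀) (h₁ : RingHom.ker r₁ ≤ s)
    (x₀ εx₀ : B) (hx₀ : x₀ ∈ RingHom.ker r₁) (hxg₀ : ∀ z ∈ RingHom.ker r₁, x₀ ∣ εx₀ * z)
    (hεx₀ : εx₀ ∉ s₀) (hxR₀ : Prime (algebraMap B R₀ x₀))
    (x εx : B) (hx : x ∈ RingHom.ker r₁) (hxg : ∀ z ∈ RingHom.ker r₁, x ∣ εx * z)
    (hεx : εx ∉ s) (hxR : Prime (algebraMap B R x)) :
    ∀ f : F, f ≠ 0 → (0 ≤ s36_ordAt (algebraMap B R₀ x₀) hxR₀ f ↔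
      0 ≤ s36_ordAt (algebraMap B R x) hxR f) := fun f hf =>
  (cvp_sign (R := R₀) s₀ r₁ h₁₀ x₀ εx₀ hx₀ hxg₀ hεx₀ hxR₀ f hf).trans
    (cvp_sign (R := R) s r₁ h₁ x εx hx hxg hεx hxR f hf).symm

end Same

section Hcx

variable {B R₀ R κ₁ F E₀ : Type*} [CommRing B] [Field κ₁] [Field F] [Algebra B F]
  [CommRing R₀] [IsDomain R₀] [UniqueFactorizationMonoid R₀] [IsIntegrallyClosed R₀]
  [Algebra B R₀]
  (s₀ : Ideal B) [hs₀ : s₀.IsPrime] [IsLocalization.AtPrime R₀ s₀]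
  [Algebra R₀ F] [IsFractionRing R₀ F] [IsScalarTower B R₀ F]
  [CommRing R] [IsDomain R] [UniqueFactorizationMonoid R] [IsIntegrallyClosed R] [Algebra B R]
  (s : Ideal B) [hs : s.IsPrime] [IsLocalization.AtPrime R s]
  [Algebra R F] [IsFractionRing R F] [IsScalarTower B R F]
  [Field E₀] [Algebra R₀ E₀] [Algebra R E₀] [Algebra F E₀] [IsScalarTower R₀ F E₀]
  [IsScalarTower R F E₀]

/-- **`hcx` / `hcy` of `g2w_point_node` at the node ring `L = C_𝔫` over `R = B_s`**, with the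
GLOBAL reference order `vRef = ord_{x₀}` of the node ring `L₀ = C₀_𝔫₀` over `R₀ = B_{s₀}`
(`x₀`, `x` local generators of the SAME `ker r₁`). -/
theorem cvp_hcx (r₁ : B →+* κ₁) (h₁₀ : RingHom.ker r₁ ≤ s₀) (h₁ : RingHom.ker r₁ ≤ s)
    (x₀ εx₀ : B) (hx₀ : x₀ ∈ RingHom.ker r₁) (hxg₀ : ∀ z ∈ RingHom.ker r₁, x₀ ∣ εx₀ * z)
    (hεx₀ : εx₀ ∉ s₀) (hxR₀ : Prime (algebraMap B R₀ x₀))
    (x εx : B) (hx : x ∈ RingHom.ker r₁) (hxg : ∀ z ∈ RingHom.ker r₁, x ∣ εx * z)
    (hεx : εx ∉ s) (hxR : Prime (algebraMap B R x))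
    (z₁ : E₀) (hz₁ : IsIntegral R₀ z₁)
    (hgen₁ : Algebra.adjoin F ({z₁} : Set E₀) = ⊤)
    (𝔫₀ : Ideal (Algebra.adjoin R₀ ({z₁} : Set E₀))) [h𝔫₀ : 𝔫₀.IsPrime]
    (hx𝔫₀ : algebraMap R₀ (Algebra.adjoin R₀ ({z₁} : Set E₀)) (algebraMap B R₀ x₀) ∈ 𝔫₀)
    (hdom₀ : IsDomain (Localization.AtPrime 𝔫₀))
    (hufm₀ : UniqueFactorizationMonoid (Localization.AtPrime 𝔫₀))
    (hxL₀ : Prime (algebraMap _ (Localization.AtPrime 𝔫₀)
      (algebraMap R₀ (Algebra.adjoin R₀ ({z₁} : Set E₀)) (algebraMap B R₀ x₀))))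
    (z₀ : E₀) (hz : IsIntegral R z₀)
    (hgen : Algebra.adjoin F ({z₀} : Set E₀) = ⊤)
    (𝔫 : Ideal (Algebra.adjoin R ({z₀} : Set E₀))) [h𝔫 : 𝔫.IsPrime]
    (hx𝔫 : algebraMap R (Algebra.adjoin R ({z₀} : Set E₀)) (algebraMap B R x) ∈ 𝔫)
    (hdom : IsDomain (Localization.AtPrime 𝔫))
    (hufm : UniqueFactorizationMonoid (Localization.AtPrime 𝔫))
    (hxL : Prime (algebraMap _ (Localization.AtPrime 𝔫)
      (algebraMap R (Algebra.adjoin R ({z₀} : Set E₀)) (algebraMap B R x))))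
    (σ : E₀ →+* E₀) (n : ℕ) (hn : 0 < n) (hσ : ∀ z : E₀, σ^[n] z = z)
    (hfix : ∀ f : E₀, σ f = f → f ∈ Set.range (algebraMap F E₀)) :
    ∃ i : ℕ, ∀ f : E₀, f ≠ 0 →
      @s36_ordAt (Localization.AtPrime 𝔫) E₀ _ hdom hufm _ (cvn_alg z₀ 𝔫)
        (cvn_frac z₀ hgen 𝔫)
        (algebraMap _ (Localization.AtPrime 𝔫)
          (algebraMap R (Algebra.adjoin R ({z₀} : Set E₀)) (algebraMap B R x))) hxL f =
      @s36_ordAt (Localization.AtPrime 𝔫₀) E₀ _ hdom₀ hufm₀ _ (cvn_alg z₁ 𝔫₀)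
        (cvn_frac z₁ hgen₁ 𝔫₀)
        (algebraMap _ (Localization.AtPrime 𝔫₀)
          (algebraMap R₀ (Algebra.adjoin R₀ ({z₁} : Set E₀)) (algebraMap B R₀ x₀))) hxL₀
        (σ^[i] f) :=
  cva_hcx_ref (F := F) (algebraMap B R₀ x₀) hxR₀ z₁ hz₁ hgen₁ 𝔫₀ hx𝔫₀ hdom₀ hufm₀ hxL₀
    (algebraMap B R x) hxR z₀ hz hgen 𝔫 hx𝔫 hdom hufm hxL σ n hn hσ hfix
    (cvp_hsame (F := F) s₀ s r₁ h₁₀ h₁ x₀ εx₀ hx₀ hxg₀ hεx₀ hxR₀ x εx hx hxg hεx hxR)

end Hcx

end Fermat.Agent.S40lib
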