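import Mathlib
import Fermat.Agent.S36lib.Speed
import Fermat.Agent.S40lib.CoverAsm2

/-!
# Item 88 (S40/S44), block (J-WILD), pieces (C) + (SMOOTH) (helper2): the cover package in the
EXACT shape of `g2w_point_node` / `g2w_point_smooth`

`R = B_s` the local ring of the model of `X` at the centre of `Q` (node OR smooth point):
`𝔪_R = (x, y)`, `x` the vertical prime, `x ∤ y` (`y` = the other vertical prime at a node,
a horizontal parameter at a smooth point).  `L = C_𝔫`, `C = R[z₀]`, `f = cvpF z₀ 𝔫 : R → L`.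

* `cvpF`      : the map `f : R →+* L`;
* `cvp_pkg`   : `L` UFD, `f x`, `f y` prime, not associated, `¬ f x ∣ f y`, `(red₂, w₂)` with
                `w₂ (red₂ (f y)) = 1`, the symmetric `(red₂', w₂')`, `𝔪_L = (f x, f y)`,
                `L` Noetherian, and `ϖ = ε x y` / `ϖ = ε x` transported to `L`.
The hypotheses are those of `cva_node` (only `hx : Prime x`, `hyx : ¬ x ∣ y`, `hm`): the SAME
statement serves the nodes and the smooth points.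
(complete proofs, standard axioms only)
-/

set_option autoImplicit false
set_option linter.style.haveILetI false
set_option linter.unusedSectionVars false

namespace Fermat.Agent.S40lib

open IsLocalRing Polynomial

section Pkg

universe uR uE

variable {R : Type uR} {E₀ : Type uE} [CommRing R] [IsDomain R] [IsLocalRing R]
  [IsNoetherianRing R] [IsIntegrallyClosed R] [Field E₀] [Algebra R E₀]
  {E : Type*} [Field E] [Algebra R E]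

/-- the map `f : R → L = C_𝔫`, `C = R[z₀]` -/
@[reducible] noncomputable def cvpF (z₀ : E₀)
    (𝔫 : Ideal (Algebra.adjoin R ({z₀} : Set E₀))) [h𝔫 : 𝔫.IsPrime] :
    R →+* Localization.AtPrime 𝔫 :=
  (algebraMap (Algebra.adjoin R ({z₀} : Set E₀)) (Localization.AtPrime 𝔫)).comp
    (algebraMap R (Algebra.adjoin R ({z₀} : Set E₀)))

omit [IsDomain R] [IsLocalRing R] [IsNoetherianRing R] [IsIntegrallyClosed R] in
theorem cvpF_apply (z₀ : E₀)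
    (𝔫 : Ideal (Algebra.adjoin R ({z₀} : Set E₀))) [h𝔫 : 𝔫.IsPrime] (r : R) :
    cvpF z₀ 𝔫 r = algebraMap _ (Localization.AtPrime 𝔫)
      (algebraMap R (Algebra.adjoin R ({z₀} : Set E₀)) r) := rfl

omit [IsDomain R] [IsLocalRing R] [IsNoetherianRing R] [IsIntegrallyClosed R] in
/-- `ϖ = ε x` of `R` stays one in `L` -/
theorem cvp_pi_one (z₀ : E₀) (𝔫 : Ideal (Algebra.adjoin R ({z₀} : Set E₀))) [h𝔫 : 𝔫.IsPrime]
    (x ϖ : R) (ε : Rˣ) (hϖ : ϖ = ε * x) :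
    ∃ ε' : (Localization.AtPrime 𝔫)ˣ, cvpF z₀ 𝔫 ϖ = ε' * cvpF z₀ 𝔫 x := by
  refine ⟨Units.map (cvpF z₀ 𝔫).toMonoidHom ε, ?_⟩
  rw [hϖ, map_mul]
  rfl

omit [IsDomain R] [IsLocalRing R] [IsNoetherianRing R] [IsIntegrallyClosed R] in
/-- `ϖ = ε x y` of `R` stays one in `L` -/
theorem cvp_pi_two (z₀ : E₀) (𝔫 : Ideal (Algebra.adjoin R ({z₀} : Set E₀))) [h𝔫 : 𝔫.IsPrime]
    (x y ϖ : R) (ε : Rˣ) (hϖ : ϖ = ε * x * y) :
    ∃ ε' : (Localization.AtPrime 𝔫)ˣ, cvpF z₀ 𝔫 ϖ = ε' * cvpF z₀ 𝔫 x * cvpF z₀ 𝔫 y := by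
  refine ⟨Units.map (cvpF z₀ 𝔫).toMonoidHom ε, ?_⟩
  rw [hϖ, map_mul, map_mul]
  rfl

/-- **the cover package at the centre of `Q`** (node or smooth point), in the exact shape of
the cover hypotheses of `g2w_point_node` / `g2w_point_smooth` with `f := cvpF z₀ 𝔫`. -/
theorem cvp_pkg {k : Type*} [Field k] [IsAlgClosed k] (ρ : R →+* k)
    (hρ : Function.Surjective ρ)
    (hinj : Function.Injective (algebraMap R E₀))
    (x y : R) (hx : Prime x) (hyx : ¬ x ∣ y)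
    (hm : maximalIdeal R = Ideal.span {x, y})
    {p : ℕ} (hp : p.Prime) (hpR : (p : R) ∈ maximalIdeal R)
    (ι : E₀ →ₐ[R] E) (σ₀ : E₀ →+* E₀) (z₀ : E₀) (hz : IsIntegral R z₀)
    (hσp : σ₀^[p] z₀ = z₀) (hσR : ∀ r : R, σ₀ (algebraMap R E₀ r) = algebraMap R E₀ r)
    (hdesc : ∀ t : E₀, σ₀ t = t → IsIntegral R t → t ∈ Set.range (algebraMap R E₀))
    {ζ : E} (hζ : IsPrimitiveRoot ζ p) (c : ℕ → E)
    (hc : ∀ i ∈ Finset.Ico 1 p, IsIntegral R (c i))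
    (hcong : ∀ i ∈ Finset.Ico 1 p,
      ι (σ₀^[i] z₀) - ι z₀ = algebraMap R E (i : R) + (ζ - 1) * c i)
    (𝔫 : Ideal (Algebra.adjoin R ({z₀} : Set E₀))) [h𝔫 : 𝔫.IsMaximal] :
    algebraMap R (Algebra.adjoin R ({z₀} : Set E₀)) x ∈ 𝔫 ∧
    algebraMap R (Algebra.adjoin R ({z₀} : Set E₀)) y ∈ 𝔫 ∧
    UniqueFactorizationMonoid (Localization.AtPrime 𝔫) ∧
    Prime (cvpF z₀ 𝔫 x) ∧ Prime (cvpF z₀ 𝔫 y) ∧
    ¬ Associated (cvpF z₀ 𝔫 x) (cvpF z₀ 𝔫 y) ∧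
    ¬ cvpF z₀ 𝔫 x ∣ cvpF z₀ 𝔫 y ∧ ¬ cvpF z₀ 𝔫 y ∣ cvpF z₀ 𝔫 x ∧
    (∃ (κ₂ : Type uE) (_ : Field κ₂) (red₂ : Localization.AtPrime 𝔫 →+* κ₂) (w₂ : κ₂ → ℤ),
      (∀ c, red₂ c = 0 ↔ cvpF z₀ 𝔫 x ∣ c) ∧
      (∀ a b : κ₂, a ≠ 0 → b ≠ 0 → w₂ (a * b) = w₂ a + w₂ b) ∧
      (∀ c, red₂ c ≠ 0 → 0 ≤ w₂ (red₂ c)) ∧
      w₂ (red₂ (cvpF z₀ 𝔫 y)) = 1) ∧
    (∃ (κ₂ : Type uE) (_ : Field κ₂) (red₂ : Localization.AtPrime 𝔫 →+* κ₂) (w₂ : κ₂ → ℤ),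
      (∀ c, red₂ c = 0 ↔ cvpF z₀ 𝔫 y ∣ c) ∧
      (∀ a b : κ₂, a ≠ 0 → b ≠ 0 → w₂ (a * b) = w₂ a + w₂ b) ∧
      (∀ c, red₂ c ≠ 0 → 0 ≤ w₂ (red₂ c)) ∧
      w₂ (red₂ (cvpF z₀ 𝔫 x)) = 1) ∧
    maximalIdeal (Localization.AtPrime 𝔫) = Ideal.span {cvpF z₀ 𝔫 x, cvpF z₀ 𝔫 y} ∧
    IsNoetherianRing (Localization.AtPrime 𝔫) := by
  obtain ⟨hx𝔫, hy𝔫, hufm, hxL, hyL, hxy, hpk1, hpk2⟩ :=
    cva_node ρ hρ hinj x y hx hyx hm hp hpR ι σ₀ z₀ hz hσp hσR hdesc hζ c hc hcong 𝔫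
  obtain ⟨hmL, hnoeth⟩ :=
    cva_node_hm ρ hρ hinj x y hm hp hpR ι σ₀ z₀ hz hσp hσR hdesc hζ c hc hcong 𝔫
  refine ⟨hx𝔫, hy𝔫, hufm, hxL, hyL, hxy, ?_, ?_, hpk1, hpk2, hmL, hnoeth⟩
  · exact fun h => hxy ((hxL.dvd_prime_iff_associated hyL).1 h)
  · exact fun h => hxy ((hyL.dvd_prime_iff_associated hxL).1 h).symm

end Pkg

end Fermat.Agent.S40lib
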