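/-
Item 88 (S40), block (A-J), piece E2 stage 8 (helper18): **THE NODE RINGS of level `N = M' q`,
concrete and unconditional** (input of the cover side `CoverNode.lean` / `etn2_node_adjoin`).

* `edc_node_ring_abs` : abstract over the setup;
* `edc_node_ring`     : at EVERY node `s` of `B = B_j(N)` there are `x ∈ p_∞`, `y ∈ p_0`,
  `εx, εy, t ∉ s` with `x ∣ εx z` on `p_∞`, `y ∣ εy z` on `p_0`, `x y = t q`,
  `red_∞ y ≠ 0`, `red_0 x ≠ 0`, thickness on both sides, and in `R = B_s`: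
  `R` is factorial, `x`, `y` are prime, `x ∤ y`, `y ∤ x`, `𝔪_R = (x, y)`.
-/
import Mathlib
import Fermat.Agent.S40lib.EdgeConc7
import Fermat.Agent.S40lib.CoverNode

set_option autoImplicit false
set_option linter.style.haveILetI false
set_option linter.unusedSectionVars false
set_option linter.unusedVariables false
set_option synthInstance.maxHeartbeats 400000
set_option maxHeartbeats 1000000

noncomputable section

namespace Fermat.Agent.S40lib

open Fermat.Agent.FFlib Fermat.Agent.S24lib Fermat.Agent.GM Fermat.Agent.GoodRed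
  Fermat.Agent.S34lib Fermat.Agent.RRlib Fermat.Agent.S16lib Fermat.Agent.S36lib
open AlgebraicCurve IsLocalRing IntermediateField IsDedekindDomain ModularCurve

section Abs

universe u

variable {K : Type*} [Field K] {k : Type*} [Field k]
  {A : ValuationSubring K} {π : A →+* k} {κ : Type*} [Field κ] [Algebra k κ]
  {F : Type u} [Field F] [Algebra K F]

set_option maxHeartbeats 4000000 in
/-- **the node ring at a node of a `NodeSetup`** (REG1 with thickness, `h h' = ϖ ^ 12`,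
`B` normal Noetherian, `B ⧸ p_∞` Dedekind, `p_∞` not maximal). -/
theorem edc_node_ring_abs (S : NodeSetup A π κ F) [IsNoetherianRing S.B]
    [IsIntegrallyClosed S.B] [IsDedekindDomain (S.B ⧸ S.pInf)]
    (hfrac : ∀ z : F, ∃ a b : S.B, b ≠ 0 ∧ z * (b : F) = (a : F))
    (hnmI : ¬ S.pInf.IsMaximal)
    (ϖ : A) (hϖ0 : ϖ ≠ 0)
    (h h' : S.B) (hh : h * h' = S.constB ϖ ^ 12)
    (hreg1 : ∀ s, S.IsNode s → ∃ y ε : S.B, y ∈ S.pZero ∧ y ^ 12 = ε * h ∧ ε ∉ s ∧
        (∀ z ∈ S.pZero, y ∣ ε * z) ∧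
        ∀ z ∈ s, ∃ w c : S.B, w ∉ s ∧ w * z - c * y ∈ S.pInf)
    (hreg1' : ∀ s, S.IsNode s → ∃ x ε : S.B, x ∈ S.pInf ∧ x ^ 12 = ε * h' ∧ ε ∉ s ∧
        (∀ z ∈ S.pInf, x ∣ ε * z) ∧
        ∀ z ∈ s, ∃ w c : S.B, w ∉ s ∧ w * z - c * x ∈ S.pZero)
    (s : Ideal S.B) (hs : S.IsNode s) :
    ∃ (x y εx εy t : S.B),
      x ∈ S.pInf ∧ (∀ z ∈ S.pInf, x ∣ εx * z) ∧ εx ∉ s ∧
      y ∈ S.pZero ∧ (∀ z ∈ S.pZero, y ∣ εy * z) ∧ εy ∉ s ∧
      x * y = t * S.constB ϖ ∧ t ∉ s ∧
      S.redInf y ≠ 0 ∧ S.redZero x ≠ 0 ∧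
      (∀ z ∈ s, ∃ w c : S.B, w ∉ s ∧ w * z - c * y ∈ S.pInf) ∧
      (∀ z ∈ s, ∃ w c : S.B, w ∉ s ∧ w * z - c * x ∈ S.pZero) ∧
      (haveI := hs.1; haveI := hs.1.isPrime;
        UniqueFactorizationMonoid (Localization.AtPrime s) ∧
        Prime (algebraMap S.B (Localization.AtPrime s) x) ∧
        Prime (algebraMap S.B (Localization.AtPrime s) y) ∧
        ¬ algebraMap S.B (Localization.AtPrime s) x ∣
          algebraMap S.B (Localization.AtPrime s) y ∧
        ¬ algebraMap S.B (Localization.AtPrime s) y ∣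
          algebraMap S.B (Localization.AtPrime s) x ∧
        maximalIdeal (Localization.AtPrime s) =
          Ideal.span {algebraMap S.B (Localization.AtPrime s) x,
            algebraMap S.B (Localization.AtPrime s) y}) := by
  classical
  haveI hBF : IsFractionRing S.B F := s36_isFractionRing_of_hfrac S.B hfrac
  haveI hsmax : s.IsMaximal := hs.1
  haveI hsp : s.IsPrime := hsmax.isPrime
  have hsInf : S.pInf ≤ s := le_trans le_sup_left hs.2
  have hsZero : S.pZero ≤ s := le_trans le_sup_right hs.2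
  obtain ⟨y, εy, hy, hy12, hεy, hyg, hyth⟩ := hreg1 s hs
  obtain ⟨x, εx, hx, hx12, hεx, hxg, hxth⟩ := hreg1' s hs
  have hq0 : S.constB ϖ ≠ 0 := by
    intro h0
    have h1 : ((S.constB ϖ : S.B) : F) = 0 := by rw [h0]; rfl
    rw [S.coe_constB] at h1
    have h2 : (ϖ : K) = 0 := (map_eq_zero (algebraMap K F)).1 h1
    exact hϖ0 (Subtype.ext h2)
  obtain ⟨t, ht, hxy⟩ := edc_root_unit (F := F) s x y εx εy h h' (S.constB ϖ) 12
    (by norm_num) hq0 hx12 hy12 hh hεx hεy
  have hne : S.pInf ≠ s := fun heq => hnmI (heq ▸ hsmax)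
  have hy0 : S.redInf y ≠ 0 := by
    intro h0
    apply hne
    apply le_antisymm hsInf
    intro z hz
    obtain ⟨w, c, hw, hwc⟩ := hyth z hz
    have h1 : S.redInf (w * z - c * y) = 0 := (RingHom.mem_ker).1 hwc
    rw [map_sub, map_mul, map_mul, h0, mul_zero, sub_zero] at h1
    have hw0 : S.redInf w ≠ 0 := fun hw0 => hw (hsInf ((RingHom.mem_ker).2 hw0))
    exact (RingHom.mem_ker).2 ((mul_eq_zero.1 h1).resolve_left hw0)
  have ht0 : t ≠ 0 := fun h0 => ht (h0 ▸ s.zero_mem)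
  have hxy0 : x * y ≠ 0 := by rw [hxy]; exact mul_ne_zero ht0 hq0
  have hxB0 : x ≠ 0 := left_ne_zero_of_mul hxy0
  have hx0' : S.redZero x ≠ 0 :=
    edc_redZero_x_ne_zero S s x y εx εy hxB0 hx hxg hεx hy hyg hεy (hsZero hy) hy0
  have hufd : UniqueFactorizationMonoid (Localization.AtPrime s) :=
    reg3_ufm S.pInf s hsInf hne x hx (fun z hz => by
      obtain ⟨c, hc⟩ := hxg z hz
      exact ⟨εx, c, hεx, hc⟩)
  have hloc := cvn_local s S.redInf S.redZero hsInf hsZero x εx y εy hx hxg hεx hy hyg hεy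
    hy0 hx0' hyth
  exact ⟨x, y, εx, εy, t, hx, hxg, hεx, hy, hyg, hεy, hxy, ht, hy0, hx0', hyth, hxth,
    hufd, hloc⟩

end Abs

section Conc

variable (A : ValuationSubring Kbar) (M' q : ℕ) [NeZero M'] [NeZero q] (hq : q.Prime)
  (hqM : ¬ q ∣ M') (hA : A.LiesOverPrime q)
  (R : ConstRed A (IsLocalRing.residue A)
      (↥(modularFunctionFieldFullC (IsLocalRing.ResidueField A) M')) (FF (M' * q)))
  (hR : IsSeriesRed R)

set_option maxHeartbeats 4000000 in
/-- **THE NODE RINGS of level `N = M' q`, unconditional.** -/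
theorem edc_node_ring (haux : IsAuxLevel q M')
    (s : Ideal (nodeSetupNj A M' q hq hqM hA R hR).B)
    (hs : (nodeSetupNj A M' q hq hqM hA R hR).IsNode s) :
    ∃ (x y εx εy t : (nodeSetupNj A M' q hq hqM hA R hR).B),
      x ∈ (nodeSetupNj A M' q hq hqM hA R hR).pInf ∧
      (∀ z ∈ (nodeSetupNj A M' q hq hqM hA R hR).pInf, x ∣ εx * z) ∧ εx ∉ s ∧
      y ∈ (nodeSetupNj A M' q hq hqM hA R hR).pZero ∧
      (∀ z ∈ (nodeSetupNj A M' q hq hqM hA R hR).pZero, y ∣ εy * z) ∧ εy ∉ s ∧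
      x * y = t * (nodeSetupNj A M' q hq hqM hA R hR).constB (q : k0Val A) ∧ t ∉ s ∧
      (nodeSetupNj A M' q hq hqM hA R hR).redInf y ≠ 0 ∧
      (nodeSetupNj A M' q hq hqM hA R hR).redZero x ≠ 0 ∧
      (∀ z ∈ s, ∃ w c : (nodeSetupNj A M' q hq hqM hA R hR).B, w ∉ s ∧
        w * z - c * y ∈ (nodeSetupNj A M' q hq hqM hA R hR).pInf) ∧
      (∀ z ∈ s, ∃ w c : (nodeSetupNj A M' q hq hqM hA R hR).B, w ∉ s ∧
        w * z - c * x ∈ (nodeSetupNj A M' q hq hqM hA R hR).pZero) ∧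
      (haveI := hs.1; haveI := hs.1.isPrime;
        UniqueFactorizationMonoid (Localization.AtPrime s) ∧
        Prime (algebraMap (nodeSetupNj A M' q hq hqM hA R hR).B (Localization.AtPrime s) x) ∧
        Prime (algebraMap (nodeSetupNj A M' q hq hqM hA R hR).B (Localization.AtPrime s) y) ∧
        ¬ algebraMap (nodeSetupNj A M' q hq hqM hA R hR).B (Localization.AtPrime s) x ∣
          algebraMap (nodeSetupNj A M' q hq hqM hA R hR).B (Localization.AtPrime s) y ∧
        ¬ algebraMap (nodeSetupNj A M' q hq hqM hA R hR).B (Localization.AtPrime s) y ∣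
          algebraMap (nodeSetupNj A M' q hq hqM hA R hR).B (Localization.AtPrime s) x ∧
        maximalIdeal (Localization.AtPrime s) =
          Ideal.span {algebraMap (nodeSetupNj A M' q hq hqM hA R hR).B
              (Localization.AtPrime s) x,
            algebraMap (nodeSetupNj A M' q hq hqM hA R hR).B (Localization.AtPrime s) y}) := by
  have hSUM : RgnSum A M' q hq hqM R := fun z h1 h3 => w2j_rgnSum A M' q hq hqM hA R hR z h1 h3
  haveI : IsAlgClosed (IsLocalRing.ResidueField A) := isAlgClosed_residueField A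
  haveI : FFSep (IsLocalRing.ResidueField A) (jk (IsLocalRing.ResidueField A) M') :=
    gmw_ffSep (IsLocalRing.ResidueField A) M'
  haveI : IsIntegrallyClosed (nodeSetupNj A M' q hq hqM hA R hR).B :=
    r1c_isIntegrallyClosed A M' q hq hqM hA R hR hSUM
  haveI : IsNoetherianRing (nodeSetupNj A M' q hq hqM hA R hR).B :=
    (r1c_noeth_frac A M' q hq hqM hA R hR hSUM).1
  haveI : IsDedekindDomain (nodeSetupNj A M' q hq hqM hA R hR).redInf.range :=
    rgn_isDedekindDomain_inf A M' q hq hqM hA R hR haux hSUM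
  haveI : IsDedekindDomain ((nodeSetupNj A M' q hq hqM hA R hR).B ⧸
      (nodeSetupNj A M' q hq hqM hA R hR).pInf) :=
    (nodeSetupNj A M' q hq hqM hA R hR).isDedekindDomain_quot_pInf
  have hnf : ¬ IsField (rgnC A M') :=
    r1c_fsS_not_isField (K := IsLocalRing.ResidueField A)
      (x := jk (IsLocalRing.ResidueField A) M')
  have hnmI : ¬ (nodeSetupNj A M' q hq hqM hA R hR).pInf.IsMaximal :=
    (nodeSetupNj A M' q hq hqM hA R hR).pInf_not_isMaximal
      (d1q_not_isField_range _ (rgnC A M') hnf (rgn_hiInf A M' q hq hqM hA R hR hSUM)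
        (rgn_hoInf A M' q hq hqM hA R hR haux))
  have hreg := edc_hreg1 A M' q hq hqM hA R hR haux
  exact edc_node_ring_abs (nodeSetupNj A M' q hq hqM hA R hR)
    (r1c_noeth_frac A M' q hq hqM hA R hR hSUM).2 hnmI
    (q : k0Val A) (a2i_q_ne_zero A q hq)
    (uqrHB A M' q hq hqM hA R hR) (uqrHB' A M' q hq hqM hA R hR)
    (edc_hh' A M' q hq hqM hA R hR) hreg.1 hreg.2 s hs

end Conc

end Fermat.Agent.S40lib

end
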