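/-
Item 88 (S40), block (A-J), piece E2/E4 on the component `0` (helper18): **WINDC on the
component `0` at all the non-cuspidal places, level `N = M' q`, unconditional** (the statements
of `EdgeConc7.lean` / `EdgeSmooth.lean` for the setup with `∞` and `0` exchanged).

* `edc_edge_unit_zero`   : supersingular places;
* `edc_smooth_unit_zero` : the other non-cuspidal places;
* `edc_windc_zero`       : both;
* `edc_vZero_red`        : `red_0 u = R.red (w_q u)`.
-/
import Mathlib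
import Fermat.Agent.S40lib.EdgeSmooth

set_option autoImplicit false
set_option linter.style.haveILetI false
set_option linter.unusedSectionVars false
set_option linter.unusedVariables false
set_option synthInstance.maxHeartbeats 400000
set_option maxHeartbeats 1000000

noncomputable section

namespace Fermat.Agent.S40lib

open Fermat.Agent.FFlib Fermat.Agent.S24lib Fermat.Agent.GM Fermat.Agent.GoodRed
  Fermat.Agent.S34lib Fermat.Agent.RRlib Fermat.Agent.S16lib Fermat.Agent.S36lib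
open AlgebraicCurve IsLocalRing IntermediateField IsDedekindDomain ModularCurve

section Conc

variable (A : ValuationSubring Kbar) (M' q : ℕ) [NeZero M'] [NeZero q] (hq : q.Prime)
  (hqM : ¬ q ∣ M') (hA : A.LiesOverPrime q)
  (R : ConstRed A (IsLocalRing.residue A)
      (↥(modularFunctionFieldFullC (IsLocalRing.ResidueField A) M')) (FF (M' * q)))
  (hR : IsSeriesRed R)

/-- the reduction `red_0` of the setup is the reduction of `R ∘ w_q` -/
theorem edc_vZero_red (u : f0Field A (M' * q))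
    (hu : u ∈ (nodeSetupNj A M' q hq hqM hA R hR).vZero.O) :
    (nodeSetupNj A M' q hq hqM hA R hR).vZero.red ⟨u, hu⟩ =
      R.red ⟨alW1 M' hq hqM (u : FF (M' * q)), hu⟩ := rfl

set_option maxHeartbeats 4000000 in
/-- **the edge rule in unit form on the component `0`** -/
theorem edc_edge_unit_zero (haux : IsAuxLevel q M')
    (Q : Place (IsLocalRing.ResidueField A) (Fk (IsLocalRing.ResidueField A) M'))
    (hQ : 0 ≤ Q.ord (jk (IsLocalRing.ResidueField A) M'))
    (hSS0 : ∀ z ∈ (nodeSetupNj A M' q hq hqM hA R hR).pInf,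
      (nodeSetupNj A M' q hq hqM hA R hR).redZero z = 0 ∨
        0 < Q.ord ((nodeSetupNj A M' q hq hqM hA R hR).redZero z))
    (m : ℕ) (u : f0Field A (M' * q)) (hu0 : u ≠ 0)
    (hdiv : ∀ P : Place Kbar (FF (M' * q)), (m : ℤ) ∣ P.ord (u : FF (M' * q)))
    (hu : u ∈ (nodeSetupNj A M' q hq hqM hA R hR).vZero.O)
    (hu' : u⁻¹ ∈ (nodeSetupNj A M' q hq hqM hA R hR).vZero.O)
    (δ : ℤ)
    (hv : u * (a2iQ A q (L := M' * q) ^ δ)⁻¹ ∈ (nodeSetupNj A M' q hq hqM hA R hR).vInf.O)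
    (hv' : (u * (a2iQ A q (L := M' * q) ^ δ)⁻¹)⁻¹ ∈
      (nodeSetupNj A M' q hq hqM hA R hR).vInf.O) :
    (m : ℤ) ∣ Q.ord ((nodeSetupNj A M' q hq hqM hA R hR).vZero.red ⟨u, hu⟩) - δ := by
  have hSUM : RgnSum A M' q hq hqM R := fun z h1 h3 => w2j_rgnSum A M' q hq hqM hA R hR z h1 h3
  haveI : IsAlgClosed (IsLocalRing.ResidueField A) := isAlgClosed_residueField A
  haveI : FFSep (IsLocalRing.ResidueField A) (jk (IsLocalRing.ResidueField A) M') :=
    gmw_ffSep (IsLocalRing.ResidueField A) M'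
  haveI hIC : IsIntegrallyClosed (nodeSetupNj A M' q hq hqM hA R hR).B :=
    r1c_isIntegrallyClosed A M' q hq hqM hA R hR hSUM
  haveI hN : IsNoetherianRing (nodeSetupNj A M' q hq hqM hA R hR).B :=
    (r1c_noeth_frac A M' q hq hqM hA R hR hSUM).1
  haveI : IsDedekindDomain (nodeSetupNj A M' q hq hqM hA R hR).redZero.range :=
    rgn_isDedekindDomain_zero A M' q hq hqM hA R hR haux hSUM
  haveI hD : IsDedekindDomain ((nodeSetupNj A M' q hq hqM hA R hR).B ⧸
      (nodeSetupNj A M' q hq hqM hA R hR).pZero) :=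
    (nodeSetupNj A M' q hq hqM hA R hR).isDedekindDomain_quot_pZero
  have hreg := edc_hreg1 A M' q hq hqM hA R hR haux
  have hnode : ∀ s, (edc_swap (nodeSetupNj A M' q hq hqM hA R hR)).IsNode s →
      (nodeSetupNj A M' q hq hqM hA R hR).IsNode s := by
    rintro s ⟨h1, h2⟩
    exact ⟨h1, sup_le (le_trans le_sup_right h2) (le_trans le_sup_left h2)⟩
  haveI : IsIntegrallyClosed (edc_swap (nodeSetupNj A M' q hq hqM hA R hR)).B := hIC
  haveI : IsNoetherianRing (edc_swap (nodeSetupNj A M' q hq hqM hA R hR)).B := hN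
  haveI : IsDedekindDomain ((edc_swap (nodeSetupNj A M' q hq hqM hA R hR)).B ⧸
      (edc_swap (nodeSetupNj A M' q hq hqM hA R hR)).pInf) := hD
  exact edc_edge_unit_abs (edc_swap (nodeSetupNj A M' q hq hqM hA R hR))
    (r1c_noeth_frac A M' q hq hqM hA R hR hSUM).2
    (jk (IsLocalRing.ResidueField A) M')
    (rgn_hiZero A M' q hq hqM hA R hR hSUM) (rgn_hoZero A M' q hq hqM hA R hR haux)
    (q : k0Val A) (a2i_q_ne_zero A q hq) (a2i_res_q A q hA) (a2i_exists_pow_mem A q hq hA)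
    (uqrHB' A M' q hq hqM hA R hR) (uqrHB A M' q hq hqM hA R hR)
    ((mul_comm _ _).trans (edc_hh' A M' q hq hqM hA R hR))
    (fun s hs => hreg.2 s (hnode s hs)) (fun s hs => hreg.1 s (hnode s hs)) Q hQ hSS0
    m u hu0 hu hu' δ hv hv'
    (fun R' _ _ _ _ _ p hp hK0 => pd_hhor_FF A (M' * q) m u hdiv R' p hp hK0)

set_option maxHeartbeats 4000000 in
/-- **DIV-RED at the smooth points of the component `0`** -/
theorem edc_smooth_unit_zero (haux : IsAuxLevel q M')
    (Q : Place (IsLocalRing.ResidueField A) (Fk (IsLocalRing.ResidueField A) M'))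
    (hQ : 0 ≤ Q.ord (jk (IsLocalRing.ResidueField A) M'))
    (hNS : ∃ z ∈ (nodeSetupNj A M' q hq hqM hA R hR).pInf,
      (nodeSetupNj A M' q hq hqM hA R hR).redZero z ≠ 0 ∧
        Q.ord ((nodeSetupNj A M' q hq hqM hA R hR).redZero z) = 0)
    (m : ℕ) (u : f0Field A (M' * q)) (hu0 : u ≠ 0)
    (hdiv : ∀ P : Place Kbar (FF (M' * q)), (m : ℤ) ∣ P.ord (u : FF (M' * q)))
    (hu : u ∈ (nodeSetupNj A M' q hq hqM hA R hR).vZero.O)
    (hu' : u⁻¹ ∈ (nodeSetupNj A M' q hq hqM hA R hR).vZero.O) :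
    (m : ℤ) ∣ Q.ord ((nodeSetupNj A M' q hq hqM hA R hR).vZero.red ⟨u, hu⟩) := by
  have hSUM : RgnSum A M' q hq hqM R := fun z h1 h3 => w2j_rgnSum A M' q hq hqM hA R hR z h1 h3
  haveI : IsAlgClosed (IsLocalRing.ResidueField A) := isAlgClosed_residueField A
  haveI : FFSep (IsLocalRing.ResidueField A) (jk (IsLocalRing.ResidueField A) M') :=
    gmw_ffSep (IsLocalRing.ResidueField A) M'
  haveI hIC : IsIntegrallyClosed (nodeSetupNj A M' q hq hqM hA R hR).B :=
    r1c_isIntegrallyClosed A M' q hq hqM hA R hR hSUM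
  haveI hN : IsNoetherianRing (nodeSetupNj A M' q hq hqM hA R hR).B :=
    (r1c_noeth_frac A M' q hq hqM hA R hR hSUM).1
  haveI : IsDedekindDomain (nodeSetupNj A M' q hq hqM hA R hR).redZero.range :=
    rgn_isDedekindDomain_zero A M' q hq hqM hA R hR haux hSUM
  haveI hD : IsDedekindDomain ((nodeSetupNj A M' q hq hqM hA R hR).B ⧸
      (nodeSetupNj A M' q hq hqM hA R hR).pZero) :=
    (nodeSetupNj A M' q hq hqM hA R hR).isDedekindDomain_quot_pZero
  have hnf : ¬ IsField (rgnC A M') :=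
    r1c_fsS_not_isField (K := IsLocalRing.ResidueField A)
      (x := jk (IsLocalRing.ResidueField A) M')
  have hnmZ : ¬ (nodeSetupNj A M' q hq hqM hA R hR).pZero.IsMaximal :=
    (nodeSetupNj A M' q hq hqM hA R hR).pZero_not_isMaximal
      (d1q_not_isField_range _ (rgnC A M') hnf (rgn_hiZero A M' q hq hqM hA R hR hSUM)
        (rgn_hoZero A M' q hq hqM hA R hR haux))
  haveI : IsIntegrallyClosed (edc_swap (nodeSetupNj A M' q hq hqM hA R hR)).B := hIC
  haveI : IsNoetherianRing (edc_swap (nodeSetupNj A M' q hq hqM hA R hR)).B := hN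
  haveI : IsDedekindDomain ((edc_swap (nodeSetupNj A M' q hq hqM hA R hR)).B ⧸
      (edc_swap (nodeSetupNj A M' q hq hqM hA R hR)).pInf) := hD
  exact edc_smooth_unit_abs (edc_swap (nodeSetupNj A M' q hq hqM hA R hR))
    (r1c_noeth_frac A M' q hq hqM hA R hR hSUM).2 hnmZ
    (jk (IsLocalRing.ResidueField A) M')
    (rgn_hiZero A M' q hq hqM hA R hR hSUM) (rgn_hoZero A M' q hq hqM hA R hR haux)
    (q : k0Val A) (a2i_q_ne_zero A q hq) (a2i_res_q A q hA) (a2i_exists_pow_mem A q hq hA)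
    (uqrHB' A M' q hq hqM hA R hR) (uqrHB A M' q hq hqM hA R hR)
    ((mul_comm _ _).trans (edc_hh' A M' q hq hqM hA R hR))
    (uqr_hdivInf A M' q hq hqM hA R hR) (uqr_hdiv0 A M' q hq hqM hA R hR)
    Q hQ hNS m u hu0 hu hu'
    (fun R' _ _ _ _ _ p hp hK0 => pd_hhor_FF A (M' * q) m u hdiv R' p hp hK0)

set_option maxHeartbeats 4000000 in
/-- **WINDC on the component `0` at all the non-cuspidal places, level `N = M' q`,
unconditional.**  `u ∈ F0(N)`, `u ≠ 0`, with divisor divisible by `m`, a unit of `O_0`,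
`u / q ^ δ` a unit of `O_∞`.  For every place `Q` of `κ` which is not a cusp:
* if the centre of `Q` (under `red_0`) is a node: `m ∣ ord_Q (red_0 u) - δ`;
* otherwise: `m ∣ ord_Q (red_0 u)`. -/
theorem edc_windc_zero (haux : IsAuxLevel q M')
    (m : ℕ) (u : f0Field A (M' * q)) (hu0 : u ≠ 0)
    (hdiv : ∀ P : Place Kbar (FF (M' * q)), (m : ℤ) ∣ P.ord (u : FF (M' * q)))
    (hu : u ∈ (nodeSetupNj A M' q hq hqM hA R hR).vZero.O)
    (hu' : u⁻¹ ∈ (nodeSetupNj A M' q hq hqM hA R hR).vZero.O)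
    (δ : ℤ)
    (hv : u * (a2iQ A q (L := M' * q) ^ δ)⁻¹ ∈ (nodeSetupNj A M' q hq hqM hA R hR).vInf.O)
    (hv' : (u * (a2iQ A q (L := M' * q) ^ δ)⁻¹)⁻¹ ∈
      (nodeSetupNj A M' q hq hqM hA R hR).vInf.O)
    (Q : Place (IsLocalRing.ResidueField A) (Fk (IsLocalRing.ResidueField A) M'))
    (hQ : 0 ≤ Q.ord (jk (IsLocalRing.ResidueField A) M')) :
    ((∀ z ∈ (nodeSetupNj A M' q hq hqM hA R hR).pInf,
        (nodeSetupNj A M' q hq hqM hA R hR).redZero z = 0 ∨
          0 < Q.ord ((nodeSetupNj A M' q hq hqM hA R hR).redZero z)) →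
      (m : ℤ) ∣ Q.ord (R.red ⟨alW1 M' hq hqM (u : FF (M' * q)), hu⟩) - δ) ∧
    (¬ (∀ z ∈ (nodeSetupNj A M' q hq hqM hA R hR).pInf,
        (nodeSetupNj A M' q hq hqM hA R hR).redZero z = 0 ∨
          0 < Q.ord ((nodeSetupNj A M' q hq hqM hA R hR).redZero z)) →
      (m : ℤ) ∣ Q.ord (R.red ⟨alW1 M' hq hqM (u : FF (M' * q)), hu⟩)) := by
  have hSUM : RgnSum A M' q hq hqM R := fun z h1 h3 => w2j_rgnSum A M' q hq hqM hA R hR z h1 h3
  haveI : IsAlgClosed (IsLocalRing.ResidueField A) := isAlgClosed_residueField A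
  haveI : FFSep (IsLocalRing.ResidueField A) (jk (IsLocalRing.ResidueField A) M') :=
    gmw_ffSep (IsLocalRing.ResidueField A) M'
  refine ⟨fun hSS => ?_, fun hnSS => ?_⟩
  · exact edc_edge_unit_zero A M' q hq hqM hA R hR haux Q hQ hSS m u hu0 hdiv hu hu' δ hv hv'
  · rw [not_forall] at hnSS
    obtain ⟨z, hz⟩ := hnSS
    rw [Classical.not_imp] at hz
    obtain ⟨hzp, hzn⟩ := hz
    rw [not_or] at hzn
    have h0 : 0 ≤ Q.ord ((nodeSetupNj A M' q hq hqM hA R hR).redZero z) :=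
      ffOrd_nonneg_of_mem Q (fsS_le Q hQ _ (rgn_hiZero A M' q hq hqM hA R hR hSUM z))
    have h1 : Q.ord ((nodeSetupNj A M' q hq hqM hA R hR).redZero z) = 0 := by
      have := hzn.2
      omega
    exact edc_smooth_unit_zero A M' q hq hqM hA R hR haux Q hQ ⟨z, hzp, hzn.1, h1⟩ m u hu0
      hdiv hu hu'

end Conc

end Fermat.Agent.S40lib

end
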