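import Mathlib
import Fermat.Agent.S36lib.Speed
import Fermat.Agent.S40lib.EdgeNode
import Fermat.Agent.S40lib.EdgeZero
import Fermat.Agent.S40lib.CentreRes

/-!
# Item 88 (S40/S44), block (J-WILD): the `X`-side package of the per-point theorem (helper12)

The hypotheses `(X)` of `g2w_point_node` / `g2w_point_smooth` (WindcPoint.lean), of `g2e_cmp_B`
(CoverCmp2.lean) and the ring-side hypotheses of `cva_node` (CoverAsm.lean), at the centre `s` of
a non-cuspidal place `Q`:

* `wcx_node_abs`, `wcx_smooth_abs` : abstract over the `NodeSetup`;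
* `wcx_node_inf`, `wcx_smooth_inf` : level `N = M' q`, component `∞` (`r₁ = red_∞`);
* `wcx_node_zero`, `wcx_smooth_zero` : level `N = M' q`, component `0` (`r₁ = red_0`).

In every case: `s` maximal, `ker r₁ ≤ s`, `x ∈ ker r₁`, `x ∣ εx z` on `ker r₁`, `εx ∉ s`,
`𝔪 (B_s) = (x, y)`, `hmem`, `hord0`, `hws`, `r₁ y ≠ 0`, `ord_Q (r₁ y) = 1`, `B_s` factorial,
`x` prime in `B_s`, `x ∤ y`, a surjection `ρ : B_s →+* k`; at a node `x y = t ϖ` with `t ∉ s`
and `y` prime; at a smooth centre `x = ϖ`.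
(complete proofs; standard axioms only)
-/

set_option autoImplicit false
set_option linter.style.haveILetI false
set_option linter.unusedSectionVars false
set_option linter.unusedVariables false
set_option synthInstance.maxHeartbeats 400000
set_option maxHeartbeats 1000000

noncomputable section

namespace Fermat.Agent.S40lib

open Fermat.Agent.FFlib Fermat.Agent.S24lib Fermat.Agent.GM Fermat.Agent.GoodRed
  Fermat.Agent.S34lib Fermat.Agent.RRlib Fermat.Agent.S16lib Fermat.Agent.S36lib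
open AlgebraicCurve IsLocalRing IntermediateField IsDedekindDomain ModularCurve

section Abs

universe u

variable {K : Type*} [Field K] {k : Type*} [Field k]
  {A : ValuationSubring K} {π : A →+* k} {κ : Type*} [Field κ] [Algebra k κ]
  {F : Type u} [Field F] [Algebra K F]

set_option maxHeartbeats 4000000 in
/-- **the `X`-side package at a node** (abstract over the setup). -/
theorem wcx_node_abs (S : NodeSetup A π κ F) [IsNoetherianRing S.B]
    [IsIntegrallyClosed S.B] [IsDedekindDomain (S.B ⧸ S.pInf)]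
    (hfrac : ∀ z : F, ∃ a b : S.B, b ≠ 0 ∧ z * (b : F) = (a : F))
    (hπ : Function.Surjective π)
    (j : κ) [FFSep k j]
    (hiInf : ∀ z : S.B, S.redInf z ∈ fsS k j)
    (hoInf : ∀ c ∈ fsS k j, ∃ z : S.B, S.redInf z = c)
    (ϖ : A) (hϖ0 : ϖ ≠ 0)
    (h h' : S.B) (hh : h * h' = S.constB ϖ ^ 12)
    (hreg1 : ∀ s, S.IsNode s → ∃ y ε : S.B, y ∈ S.pZero ∧ y ^ 12 = ε * h ∧ ε ∉ s ∧
        (∀ z ∈ S.pZero, y ∣ ε * z) ∧
        ∀ z ∈ s, ∃ w c : S.B, w ∉ s ∧ w * z - c * y ∈ S.pInf)
    (hreg1' : ∀ s, S.IsNode s → ∃ x ε : S.B, x ∈ S.pInf ∧ x ^ 12 = ε * h' ∧ ε ∉ s ∧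
        (∀ z ∈ S.pInf, x ∣ ε * z) ∧
        ∀ z ∈ s, ∃ w c : S.B, w ∉ s ∧ w * z - c * x ∈ S.pZero)
    (Q : Place k κ) (hQ : 0 ≤ Q.ord j)
    (hres : Function.Surjective (algebraMap k Q.ResidueField))
    (hSS : ∀ z ∈ S.pZero, S.redInf z = 0 ∨ 0 < Q.ord (S.redInf z)) :
    ∃ (s : Ideal S.B) (hs : s.IsMaximal) (x y εx εy t : S.B),
      RingHom.ker S.redInf ≤ s ∧ RingHom.ker S.redZero ≤ s ∧
      x ∈ RingHom.ker S.redInf ∧ (∀ z ∈ RingHom.ker S.redInf, x ∣ εx * z) ∧ εx ∉ s ∧
      y ∈ RingHom.ker S.redZero ∧ (∀ z ∈ RingHom.ker S.redZero, y ∣ εy * z) ∧ εy ∉ s ∧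
      x * y = t * S.constB ϖ ∧ t ∉ s ∧
      (∀ b : S.B, b ∈ s ↔ S.redInf b = 0 ∨ 0 < Q.ord (S.redInf b)) ∧
      (∀ c : S.B, S.redInf c ≠ 0 → 0 ≤ Q.ord (S.redInf c)) ∧
      (∀ c : S.B, c ∉ s → Q.ord (S.redInf c) = 0) ∧
      S.redInf y ≠ 0 ∧ Q.ord (S.redInf y) = 1 ∧ S.redZero x ≠ 0 ∧
      (haveI := hs.isPrime;
        UniqueFactorizationMonoid (Localization.AtPrime s) ∧
        Prime (algebraMap S.B (Localization.AtPrime s) x) ∧
        Prime (algebraMap S.B (Localization.AtPrime s) y) ∧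
        ¬ algebraMap S.B (Localization.AtPrime s) x ∣
          algebraMap S.B (Localization.AtPrime s) y ∧
        ¬ algebraMap S.B (Localization.AtPrime s) y ∣
          algebraMap S.B (Localization.AtPrime s) x ∧
        maximalIdeal (Localization.AtPrime s) =
          Ideal.span {algebraMap S.B (Localization.AtPrime s) x,
            algebraMap S.B (Localization.AtPrime s) y} ∧
        ∃ ρ : Localization.AtPrime s →+* k, Function.Surjective ρ ∧
          (∀ a : A, ρ (algebraMap S.B (Localization.AtPrime s) (S.constB a)) = π a) ∧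
          (∀ b : S.B, ρ (algebraMap S.B (Localization.AtPrime s) b) = 0 ↔ b ∈ s)) := by
  classical
  obtain ⟨s, hs, x, y, εx, εy, t, hsInf, hsZero, hufd, hx, hxg, hεx, hy, hyg, hεy, hxy, ht,
    hmem, hord0, hws, hy0, hwy, hyth, hxth⟩ :=
    edc_place_node S hfrac j hiInf hoInf ϖ hϖ0 h h' hh hreg1 hreg1' Q hQ hSS
  haveI hsp : s.IsPrime := hs.isPrime
  have hq0 : S.constB ϖ ≠ 0 := by
    intro h0
    have h1 : ((S.constB ϖ : S.B) : F) = 0 := by rw [h0]; rfl
    rw [S.coe_constB] at h1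
    have h2 : (ϖ : K) = 0 := (map_eq_zero (algebraMap K F)).1 h1
    exact hϖ0 (Subtype.ext h2)
  have ht0 : t ≠ 0 := fun h0 => ht (h0 ▸ s.zero_mem)
  have hxy0 : x * y ≠ 0 := by rw [hxy]; exact mul_ne_zero ht0 hq0
  have hxB0 : x ≠ 0 := left_ne_zero_of_mul hxy0
  have hx0' : S.redZero x ≠ 0 :=
    edc_redZero_x_ne_zero S s x y εx εy hxB0 hx hxg hεx hy hyg hεy (hsZero hy) hy0
  have hloc := cvn_local s S.redInf S.redZero hsInf hsZero x εx y εy hx hxg hεx hy hyg hεy
    hy0 hx0' hyth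
  obtain ⟨ρ, hρ, hρc, hρz⟩ := ctr_res S hπ Q hres s hmem hord0
  exact ⟨s, hs, x, y, εx, εy, t, hsInf, hsZero, hx, hxg, hεx, hy, hyg, hεy, hxy, ht, hmem,
    fun c _ => hord0 c, hws, hy0, hwy, hx0', hufd, hloc.1, hloc.2.1, hloc.2.2.1, hloc.2.2.2.1,
    hloc.2.2.2.2, ρ, hρ, hρc, hρz⟩

set_option maxHeartbeats 4000000 in
/-- **the `X`-side package at a smooth centre** (abstract over the setup); `x = ϖ`. -/
theorem wcx_smooth_abs (S : NodeSetup A π κ F) [IsNoetherianRing S.B]
    [IsIntegrallyClosed S.B] [IsDedekindDomain (S.B ⧸ S.pInf)]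
    (hfrac : ∀ z : F, ∃ a b : S.B, b ≠ 0 ∧ z * (b : F) = (a : F))
    (hnmI : ¬ S.pInf.IsMaximal)
    (hπ : Function.Surjective π)
    (j : κ) [FFSep k j]
    (hiInf : ∀ z : S.B, S.redInf z ∈ fsS k j)
    (hoInf : ∀ c ∈ fsS k j, ∃ z : S.B, S.redInf z = c)
    (ϖ : A) (hϖ0 : ϖ ≠ 0) (hπϖ : π ϖ = 0)
    (h h' : S.B) (hh : h * h' = S.constB ϖ ^ 12)
    (hdiv0 : S.pZero ^ 12 ≤ Ideal.span {h}) (hdivInf : S.pInf ^ 12 ≤ Ideal.span {h'})
    (Q : Place k κ) (hQ : 0 ≤ Q.ord j)
    (hres : Function.Surjective (algebraMap k Q.ResidueField))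
    (hNS : ∃ z ∈ S.pZero, S.redInf z ≠ 0 ∧ Q.ord (S.redInf z) = 0) :
    ∃ (s : Ideal S.B) (hs : s.IsMaximal) (εx y : S.B),
      RingHom.ker S.redInf ≤ s ∧
      S.constB ϖ ∈ RingHom.ker S.redInf ∧
      (∀ z ∈ RingHom.ker S.redInf, S.constB ϖ ∣ εx * z) ∧ εx ∉ s ∧
      (∀ b : S.B, b ∈ s ↔ S.redInf b = 0 ∨ 0 < Q.ord (S.redInf b)) ∧
      (∀ c : S.B, S.redInf c ≠ 0 → 0 ≤ Q.ord (S.redInf c)) ∧
      (∀ c : S.B, c ∉ s → Q.ord (S.redInf c) = 0) ∧
      y ∈ s ∧ S.redInf y ≠ 0 ∧ Q.ord (S.redInf y) = 1 ∧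
      (haveI := hs.isPrime;
        UniqueFactorizationMonoid (Localization.AtPrime s) ∧
        Prime (algebraMap S.B (Localization.AtPrime s) (S.constB ϖ)) ∧
        ¬ algebraMap S.B (Localization.AtPrime s) (S.constB ϖ) ∣
          algebraMap S.B (Localization.AtPrime s) y ∧
        maximalIdeal (Localization.AtPrime s) =
          Ideal.span {algebraMap S.B (Localization.AtPrime s) (S.constB ϖ),
            algebraMap S.B (Localization.AtPrime s) y} ∧
        ∃ ρ : Localization.AtPrime s →+* k, Function.Surjective ρ ∧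
          (∀ a : A, ρ (algebraMap S.B (Localization.AtPrime s) (S.constB a)) = π a) ∧
          (∀ b : S.B, ρ (algebraMap S.B (Localization.AtPrime s) b) = 0 ↔ b ∈ s)) := by
  classical
  obtain ⟨s, hs, εx, y, hsInf, hufd, hxg, hεx, hmem, hord0, hws, hys, hy0, hwy, hth, hloc⟩ :=
    cvs_place_smooth_abs S hfrac hnmI j hiInf hoInf ϖ hϖ0 hπϖ h h' hh hdiv0 hdivInf Q hQ hNS
  haveI hsp : s.IsPrime := hs.isPrime
  have hqker : S.constB ϖ ∈ RingHom.ker S.redInf := by
    rw [RingHom.mem_ker, S.redInf_constB, hπϖ, map_zero]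
  obtain ⟨ρ, hρ, hρc, hρz⟩ := ctr_res S hπ Q hres s hmem hord0
  exact ⟨s, hs, εx, y, hsInf, hqker, hxg, hεx, hmem, fun c _ => hord0 c, hws, hys, hy0, hwy,
    hufd, hloc.1, hloc.2.1, hloc.2.2, ρ, hρ, hρc, hρz⟩

end Abs

section Conc

variable (A : ValuationSubring Kbar) (M' q : ℕ) [NeZero M'] [NeZero q] (hq : q.Prime)
  (hqM : ¬ q ∣ M') (hA : A.LiesOverPrime q)
  (R : ConstRed A (IsLocalRing.residue A)
      (↥(modularFunctionFieldFullC (IsLocalRing.ResidueField A) M')) (FF (M' * q)))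
  (hR : IsSeriesRed R)

set_option maxHeartbeats 4000000 in
/-- **the `X`-side package at a supersingular place, component `∞`, level `N = M' q`.** -/
theorem wcx_node_inf (haux : IsAuxLevel q M')
    (Q : Place (IsLocalRing.ResidueField A) (Fk (IsLocalRing.ResidueField A) M'))
    (hQ : 0 ≤ Q.ord (jk (IsLocalRing.ResidueField A) M'))
    (hSS : ∀ z ∈ (nodeSetupNj A M' q hq hqM hA R hR).pZero,
      (nodeSetupNj A M' q hq hqM hA R hR).redInf z = 0 ∨
        0 < Q.ord ((nodeSetupNj A M' q hq hqM hA R hR).redInf z)) :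
    ∃ (s : Ideal (nodeSetupNj A M' q hq hqM hA R hR).B) (hs : s.IsMaximal)
      (x y εx εy t : (nodeSetupNj A M' q hq hqM hA R hR).B),
      RingHom.ker (nodeSetupNj A M' q hq hqM hA R hR).redInf ≤ s ∧
      RingHom.ker (nodeSetupNj A M' q hq hqM hA R hR).redZero ≤ s ∧
      x ∈ RingHom.ker (nodeSetupNj A M' q hq hqM hA R hR).redInf ∧
      (∀ z ∈ RingHom.ker (nodeSetupNj A M' q hq hqM hA R hR).redInf, x ∣ εx * z) ∧ εx ∉ s ∧
      y ∈ RingHom.ker (nodeSetupNj A M' q hq hqM hA R hR).redZero ∧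
      (∀ z ∈ RingHom.ker (nodeSetupNj A M' q hq hqM hA R hR).redZero, y ∣ εy * z) ∧ εy ∉ s ∧
      x * y = t * (nodeSetupNj A M' q hq hqM hA R hR).constB (q : k0Val A) ∧ t ∉ s ∧
      (∀ b : (nodeSetupNj A M' q hq hqM hA R hR).B, b ∈ s ↔
        (nodeSetupNj A M' q hq hqM hA R hR).redInf b = 0 ∨
          0 < Q.ord ((nodeSetupNj A M' q hq hqM hA R hR).redInf b)) ∧
      (∀ c : (nodeSetupNj A M' q hq hqM hA R hR).B,
        (nodeSetupNj A M' q hq hqM hA R hR).redInf c ≠ 0 →
          0 ≤ Q.ord ((nodeSetupNj A M' q hq hqM hA R hR).redInf c)) ∧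
      (∀ c : (nodeSetupNj A M' q hq hqM hA R hR).B, c ∉ s →
        Q.ord ((nodeSetupNj A M' q hq hqM hA R hR).redInf c) = 0) ∧
      (nodeSetupNj A M' q hq hqM hA R hR).redInf y ≠ 0 ∧
      Q.ord ((nodeSetupNj A M' q hq hqM hA R hR).redInf y) = 1 ∧
      (nodeSetupNj A M' q hq hqM hA R hR).redZero x ≠ 0 ∧
      (haveI := hs.isPrime;
        UniqueFactorizationMonoid (Localization.AtPrime s) ∧
        Prime (algebraMap (nodeSetupNj A M' q hq hqM hA R hR).B (Localization.AtPrime s) x) ∧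
        Prime (algebraMap (nodeSetupNj A M' q hq hqM hA R hR).B (Localization.AtPrime s) y) ∧
        ¬ algebraMap (nodeSetupNj A M' q hq hqM hA R hR).B (Localization.AtPrime s) x ∣
          algebraMap (nodeSetupNj A M' q hq hqM hA R hR).B (Localization.AtPrime s) y ∧
        ¬ algebraMap (nodeSetupNj A M' q hq hqM hA R hR).B (Localization.AtPrime s) y ∣
          algebraMap (nodeSetupNj A M' q hq hqM hA R hR).B (Localization.AtPrime s) x ∧
        maximalIdeal (Localization.AtPrime s) =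
          Ideal.span {algebraMap (nodeSetupNj A M' q hq hqM hA R hR).B (Localization.AtPrime s) x,
            algebraMap (nodeSetupNj A M' q hq hqM hA R hR).B (Localization.AtPrime s) y} ∧
        IsNoetherianRing (Localization.AtPrime s) ∧
        IsIntegrallyClosed (Localization.AtPrime s) ∧
        ((q : ℕ) : Localization.AtPrime s) ∈ maximalIdeal (Localization.AtPrime s) ∧
        ∃ ρ : Localization.AtPrime s →+* IsLocalRing.ResidueField A, Function.Surjective ρ ∧
          (∀ a : k0Val A, ρ (algebraMap (nodeSetupNj A M' q hq hqM hA R hR).B (Localization.AtPrime s)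
            ((nodeSetupNj A M' q hq hqM hA R hR).constB a)) = k0Res A a) ∧
          (∀ b : (nodeSetupNj A M' q hq hqM hA R hR).B,
            ρ (algebraMap (nodeSetupNj A M' q hq hqM hA R hR).B (Localization.AtPrime s) b) = 0 ↔ b ∈ s)) := by
  have hSUM : RgnSum A M' q hq hqM R := fun z h1 h3 => w2j_rgnSum A M' q hq hqM hA R hR z h1 h3
  haveI : IsAlgClosed (IsLocalRing.ResidueField A) := isAlgClosed_residueField A
  haveI hsep : FFSep (IsLocalRing.ResidueField A) (jk (IsLocalRing.ResidueField A) M') :=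
    gmw_ffSep (IsLocalRing.ResidueField A) M'
  haveI hIC : IsIntegrallyClosed (nodeSetupNj A M' q hq hqM hA R hR).B :=
    r1c_isIntegrallyClosed A M' q hq hqM hA R hR hSUM
  haveI hN : IsNoetherianRing (nodeSetupNj A M' q hq hqM hA R hR).B :=
    (r1c_noeth_frac A M' q hq hqM hA R hR hSUM).1
  have hres : Function.Surjective (algebraMap (IsLocalRing.ResidueField A) Q.ResidueField) :=
    ffResidue_surjective Q hsep.trans
  have hq0 : ((q : ℕ) : IsLocalRing.ResidueField A) = 0 := by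
    have h1 := a2i_res_q A q hA
    rw [map_natCast] at h1
    exact h1
  haveI : IsDedekindDomain (nodeSetupNj A M' q hq hqM hA R hR).redInf.range :=
    rgn_isDedekindDomain_inf A M' q hq hqM hA R hR haux hSUM
  haveI hD : IsDedekindDomain ((nodeSetupNj A M' q hq hqM hA R hR).B ⧸
      (nodeSetupNj A M' q hq hqM hA R hR).pInf) :=
    (nodeSetupNj A M' q hq hqM hA R hR).isDedekindDomain_quot_pInf
  have hreg := edc_hreg1 A M' q hq hqM hA R hR haux
  have hpkg := wcx_node_abs (nodeSetupNj A M' q hq hqM hA R hR)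
    (r1c_noeth_frac A M' q hq hqM hA R hR hSUM).2
    (k0_residue_comp_surjective A q hq hA)
    (jk (IsLocalRing.ResidueField A) M')
    (rgn_hiInf A M' q hq hqM hA R hR hSUM) (rgn_hoInf A M' q hq hqM hA R hR haux)
    (q : k0Val A) (a2i_q_ne_zero A q hq)
    (uqrHB A M' q hq hqM hA R hR) (uqrHB' A M' q hq hqM hA R hR)
    (edc_hh' A M' q hq hqM hA R hR) hreg.1 hreg.2 Q hQ hres hSS
  obtain ⟨s, hs, x, y, εx, εy, t, h1, h2, h3, h4, h5, h6, h7, h8, h9, h10, h11, h12, h13, h14,
    h15, h16, hufd, hpx, hpy, hnxy, hnyx, hm, ρ, hρ, hρc, hρz⟩ := hpkg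
  haveI hsp : s.IsPrime := hs.isPrime
  haveI := hufd
  have hno : IsNoetherianRing (Localization.AtPrime s) := inferInstance
  have hic : IsIntegrallyClosed (Localization.AtPrime s) := inferInstance
  exact ⟨s, hs, x, y, εx, εy, t, h1, h2, h3, h4, h5, h6, h7, h8, h9, h10, h11, h12, h13, h14,
    h15, h16, hufd, hpx, hpy, hnxy, hnyx, hm, hno, hic,
    ctr_natCast_mem ρ q hq0, ρ, hρ, hρc, hρz⟩

set_option maxHeartbeats 4000000 in
/-- **the `X`-side package at a smooth centre, component `∞`, level `N = M' q`.** -/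
theorem wcx_smooth_inf (haux : IsAuxLevel q M')
    (Q : Place (IsLocalRing.ResidueField A) (Fk (IsLocalRing.ResidueField A) M'))
    (hQ : 0 ≤ Q.ord (jk (IsLocalRing.ResidueField A) M'))
    (hNS : ∃ z ∈ (nodeSetupNj A M' q hq hqM hA R hR).pZero,
      (nodeSetupNj A M' q hq hqM hA R hR).redInf z ≠ 0 ∧
        Q.ord ((nodeSetupNj A M' q hq hqM hA R hR).redInf z) = 0) :
    ∃ (s : Ideal (nodeSetupNj A M' q hq hqM hA R hR).B) (hs : s.IsMaximal)
      (εx y : (nodeSetupNj A M' q hq hqM hA R hR).B),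
      RingHom.ker (nodeSetupNj A M' q hq hqM hA R hR).redInf ≤ s ∧
      (nodeSetupNj A M' q hq hqM hA R hR).constB (q : k0Val A) ∈ RingHom.ker (nodeSetupNj A M' q hq hqM hA R hR).redInf ∧
      (∀ z ∈ RingHom.ker (nodeSetupNj A M' q hq hqM hA R hR).redInf, (nodeSetupNj A M' q hq hqM hA R hR).constB (q : k0Val A) ∣ εx * z) ∧ εx ∉ s ∧
      (∀ b : (nodeSetupNj A M' q hq hqM hA R hR).B, b ∈ s ↔
        (nodeSetupNj A M' q hq hqM hA R hR).redInf b = 0 ∨
          0 < Q.ord ((nodeSetupNj A M' q hq hqM hA R hR).redInf b)) ∧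
      (∀ c : (nodeSetupNj A M' q hq hqM hA R hR).B,
        (nodeSetupNj A M' q hq hqM hA R hR).redInf c ≠ 0 →
          0 ≤ Q.ord ((nodeSetupNj A M' q hq hqM hA R hR).redInf c)) ∧
      (∀ c : (nodeSetupNj A M' q hq hqM hA R hR).B, c ∉ s →
        Q.ord ((nodeSetupNj A M' q hq hqM hA R hR).redInf c) = 0) ∧
      y ∈ s ∧ (nodeSetupNj A M' q hq hqM hA R hR).redInf y ≠ 0 ∧
      Q.ord ((nodeSetupNj A M' q hq hqM hA R hR).redInf y) = 1 ∧
      (haveI := hs.isPrime;
        UniqueFactorizationMonoid (Localization.AtPrime s) ∧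
        Prime (algebraMap (nodeSetupNj A M' q hq hqM hA R hR).B (Localization.AtPrime s) ((nodeSetupNj A M' q hq hqM hA R hR).constB (q : k0Val A))) ∧
        ¬ algebraMap (nodeSetupNj A M' q hq hqM hA R hR).B (Localization.AtPrime s) ((nodeSetupNj A M' q hq hqM hA R hR).constB (q : k0Val A)) ∣
          algebraMap (nodeSetupNj A M' q hq hqM hA R hR).B (Localization.AtPrime s) y ∧
        maximalIdeal (Localization.AtPrime s) =
          Ideal.span {algebraMap (nodeSetupNj A M' q hq hqM hA R hR).B (Localization.AtPrime s) ((nodeSetupNj A M' q hq hqM hA R hR).constB (q : k0Val A)),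
            algebraMap (nodeSetupNj A M' q hq hqM hA R hR).B (Localization.AtPrime s) y} ∧
        IsNoetherianRing (Localization.AtPrime s) ∧
        IsIntegrallyClosed (Localization.AtPrime s) ∧
        ((q : ℕ) : Localization.AtPrime s) ∈ maximalIdeal (Localization.AtPrime s) ∧
        ∃ ρ : Localization.AtPrime s →+* IsLocalRing.ResidueField A, Function.Surjective ρ ∧
          (∀ a : k0Val A, ρ (algebraMap (nodeSetupNj A M' q hq hqM hA R hR).B (Localization.AtPrime s)
            ((nodeSetupNj A M' q hq hqM hA R hR).constB a)) = k0Res A a) ∧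
          (∀ b : (nodeSetupNj A M' q hq hqM hA R hR).B,
            ρ (algebraMap (nodeSetupNj A M' q hq hqM hA R hR).B (Localization.AtPrime s) b) = 0 ↔ b ∈ s)) := by
  have hSUM : RgnSum A M' q hq hqM R := fun z h1 h3 => w2j_rgnSum A M' q hq hqM hA R hR z h1 h3
  haveI : IsAlgClosed (IsLocalRing.ResidueField A) := isAlgClosed_residueField A
  haveI hsep : FFSep (IsLocalRing.ResidueField A) (jk (IsLocalRing.ResidueField A) M') :=
    gmw_ffSep (IsLocalRing.ResidueField A) M'
  haveI hIC : IsIntegrallyClosed (nodeSetupNj A M' q hq hqM hA R hR).B :=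
    r1c_isIntegrallyClosed A M' q hq hqM hA R hR hSUM
  haveI hN : IsNoetherianRing (nodeSetupNj A M' q hq hqM hA R hR).B :=
    (r1c_noeth_frac A M' q hq hqM hA R hR hSUM).1
  have hres : Function.Surjective (algebraMap (IsLocalRing.ResidueField A) Q.ResidueField) :=
    ffResidue_surjective Q hsep.trans
  have hq0 : ((q : ℕ) : IsLocalRing.ResidueField A) = 0 := by
    have h1 := a2i_res_q A q hA
    rw [map_natCast] at h1
    exact h1
  haveI : IsDedekindDomain (nodeSetupNj A M' q hq hqM hA R hR).redInf.range :=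
    rgn_isDedekindDomain_inf A M' q hq hqM hA R hR haux hSUM
  haveI hD : IsDedekindDomain ((nodeSetupNj A M' q hq hqM hA R hR).B ⧸
      (nodeSetupNj A M' q hq hqM hA R hR).pInf) :=
    (nodeSetupNj A M' q hq hqM hA R hR).isDedekindDomain_quot_pInf
  have hnf : ¬ IsField (rgnC A M') :=
    r1c_fsS_not_isField (K := IsLocalRing.ResidueField A)
      (x := jk (IsLocalRing.ResidueField A) M')
  have hnmI : ¬ (nodeSetupNj A M' q hq hqM hA R hR).pInf.IsMaximal :=
    (nodeSetupNj A M' q hq hqM hA R hR).pInf_not_isMaximal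
      (d1q_not_isField_range _ (rgnC A M') hnf (rgn_hiInf A M' q hq hqM hA R hR hSUM)
        (rgn_hoInf A M' q hq hqM hA R hR haux))
  have hpkg := wcx_smooth_abs (nodeSetupNj A M' q hq hqM hA R hR)
    (r1c_noeth_frac A M' q hq hqM hA R hR hSUM).2 hnmI
    (k0_residue_comp_surjective A q hq hA)
    (jk (IsLocalRing.ResidueField A) M')
    (rgn_hiInf A M' q hq hqM hA R hR hSUM) (rgn_hoInf A M' q hq hqM hA R hR haux)
    (q : k0Val A) (a2i_q_ne_zero A q hq) (a2i_res_q A q hA)
    (uqrHB A M' q hq hqM hA R hR) (uqrHB' A M' q hq hqM hA R hR)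
    (edc_hh' A M' q hq hqM hA R hR)
    (uqr_hdiv0 A M' q hq hqM hA R hR) (uqr_hdivInf A M' q hq hqM hA R hR)
    Q hQ hres hNS
  obtain ⟨s, hs, εx, y, h1, h2, h3, h4, h5, h6, h7, h8, h9, h10, hufd, hpx, hnxy, hm,
    ρ, hρ, hρc, hρz⟩ := hpkg
  haveI hsp : s.IsPrime := hs.isPrime
  haveI := hufd
  have hno : IsNoetherianRing (Localization.AtPrime s) := inferInstance
  have hic : IsIntegrallyClosed (Localization.AtPrime s) := inferInstance
  exact ⟨s, hs, εx, y, h1, h2, h3, h4, h5, h6, h7, h8, h9, h10, hufd, hpx, hnxy, hm,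
    hno, hic, ctr_natCast_mem ρ q hq0, ρ, hρ, hρc, hρz⟩

set_option maxHeartbeats 4000000 in
/-- **the `X`-side package at a supersingular place, component `0`, level `N = M' q`.** -/
theorem wcx_node_zero (haux : IsAuxLevel q M')
    (Q : Place (IsLocalRing.ResidueField A) (Fk (IsLocalRing.ResidueField A) M'))
    (hQ : 0 ≤ Q.ord (jk (IsLocalRing.ResidueField A) M'))
    (hSS0 : ∀ z ∈ (nodeSetupNj A M' q hq hqM hA R hR).pInf,
      (nodeSetupNj A M' q hq hqM hA R hR).redZero z = 0 ∨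
        0 < Q.ord ((nodeSetupNj A M' q hq hqM hA R hR).redZero z)) :
    ∃ (s : Ideal (nodeSetupNj A M' q hq hqM hA R hR).B) (hs : s.IsMaximal)
      (x y εx εy t : (nodeSetupNj A M' q hq hqM hA R hR).B),
      RingHom.ker (nodeSetupNj A M' q hq hqM hA R hR).redZero ≤ s ∧
      RingHom.ker (nodeSetupNj A M' q hq hqM hA R hR).redInf ≤ s ∧
      x ∈ RingHom.ker (nodeSetupNj A M' q hq hqM hA R hR).redZero ∧
      (∀ z ∈ RingHom.ker (nodeSetupNj A M' q hq hqM hA R hR).redZero, x ∣ εx * z) ∧ εx ∉ s ∧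
      y ∈ RingHom.ker (nodeSetupNj A M' q hq hqM hA R hR).redInf ∧
      (∀ z ∈ RingHom.ker (nodeSetupNj A M' q hq hqM hA R hR).redInf, y ∣ εy * z) ∧ εy ∉ s ∧
      x * y = t * (nodeSetupNj A M' q hq hqM hA R hR).constB (q : k0Val A) ∧ t ∉ s ∧
      (∀ b : (nodeSetupNj A M' q hq hqM hA R hR).B, b ∈ s ↔
        (nodeSetupNj A M' q hq hqM hA R hR).redZero b = 0 ∨
          0 < Q.ord ((nodeSetupNj A M' q hq hqM hA R hR).redZero b)) ∧
      (∀ c : (nodeSetupNj A M' q hq hqM hA R hR).B,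
        (nodeSetupNj A M' q hq hqM hA R hR).redZero c ≠ 0 →
          0 ≤ Q.ord ((nodeSetupNj A M' q hq hqM hA R hR).redZero c)) ∧
      (∀ c : (nodeSetupNj A M' q hq hqM hA R hR).B, c ∉ s →
        Q.ord ((nodeSetupNj A M' q hq hqM hA R hR).redZero c) = 0) ∧
      (nodeSetupNj A M' q hq hqM hA R hR).redZero y ≠ 0 ∧
      Q.ord ((nodeSetupNj A M' q hq hqM hA R hR).redZero y) = 1 ∧
      (nodeSetupNj A M' q hq hqM hA R hR).redInf x ≠ 0 ∧
      (haveI := hs.isPrime;
        UniqueFactorizationMonoid (Localization.AtPrime s) ∧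
        Prime (algebraMap (nodeSetupNj A M' q hq hqM hA R hR).B (Localization.AtPrime s) x) ∧
        Prime (algebraMap (nodeSetupNj A M' q hq hqM hA R hR).B (Localization.AtPrime s) y) ∧
        ¬ algebraMap (nodeSetupNj A M' q hq hqM hA R hR).B (Localization.AtPrime s) x ∣
          algebraMap (nodeSetupNj A M' q hq hqM hA R hR).B (Localization.AtPrime s) y ∧
        ¬ algebraMap (nodeSetupNj A M' q hq hqM hA R hR).B (Localization.AtPrime s) y ∣
          algebraMap (nodeSetupNj A M' q hq hqM hA R hR).B (Localization.AtPrime s) x ∧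
        maximalIdeal (Localization.AtPrime s) =
          Ideal.span {algebraMap (nodeSetupNj A M' q hq hqM hA R hR).B (Localization.AtPrime s) x,
            algebraMap (nodeSetupNj A M' q hq hqM hA R hR).B (Localization.AtPrime s) y} ∧
        IsNoetherianRing (Localization.AtPrime s) ∧
        IsIntegrallyClosed (Localization.AtPrime s) ∧
        ((q : ℕ) : Localization.AtPrime s) ∈ maximalIdeal (Localization.AtPrime s) ∧
        ∃ ρ : Localization.AtPrime s →+* IsLocalRing.ResidueField A, Function.Surjective ρ ∧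
          (∀ a : k0Val A, ρ (algebraMap (nodeSetupNj A M' q hq hqM hA R hR).B (Localization.AtPrime s)
            ((nodeSetupNj A M' q hq hqM hA R hR).constB a)) = k0Res A a) ∧
          (∀ b : (nodeSetupNj A M' q hq hqM hA R hR).B,
            ρ (algebraMap (nodeSetupNj A M' q hq hqM hA R hR).B (Localization.AtPrime s) b) = 0 ↔ b ∈ s)) := by
  have hSUM : RgnSum A M' q hq hqM R := fun z h1 h3 => w2j_rgnSum A M' q hq hqM hA R hR z h1 h3
  haveI : IsAlgClosed (IsLocalRing.ResidueField A) := isAlgClosed_residueField A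
  haveI hsep : FFSep (IsLocalRing.ResidueField A) (jk (IsLocalRing.ResidueField A) M') :=
    gmw_ffSep (IsLocalRing.ResidueField A) M'
  haveI hIC : IsIntegrallyClosed (nodeSetupNj A M' q hq hqM hA R hR).B :=
    r1c_isIntegrallyClosed A M' q hq hqM hA R hR hSUM
  haveI hN : IsNoetherianRing (nodeSetupNj A M' q hq hqM hA R hR).B :=
    (r1c_noeth_frac A M' q hq hqM hA R hR hSUM).1
  have hres : Function.Surjective (algebraMap (IsLocalRing.ResidueField A) Q.ResidueField) :=
    ffResidue_surjective Q hsep.trans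
  have hq0 : ((q : ℕ) : IsLocalRing.ResidueField A) = 0 := by
    have h1 := a2i_res_q A q hA
    rw [map_natCast] at h1
    exact h1
  haveI : IsDedekindDomain (nodeSetupNj A M' q hq hqM hA R hR).redZero.range :=
    rgn_isDedekindDomain_zero A M' q hq hqM hA R hR haux hSUM
  haveI hD : IsDedekindDomain ((nodeSetupNj A M' q hq hqM hA R hR).B ⧸
      (nodeSetupNj A M' q hq hqM hA R hR).pZero) :=
    (nodeSetupNj A M' q hq hqM hA R hR).isDedekindDomain_quot_pZero
  haveI : IsIntegrallyClosed (edc_swap (nodeSetupNj A M' q hq hqM hA R hR)).B := hIC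
  haveI : IsNoetherianRing (edc_swap (nodeSetupNj A M' q hq hqM hA R hR)).B := hN
  haveI : IsDedekindDomain ((edc_swap (nodeSetupNj A M' q hq hqM hA R hR)).B ⧸
      (edc_swap (nodeSetupNj A M' q hq hqM hA R hR)).pInf) := hD
  have hreg := edc_hreg1 A M' q hq hqM hA R hR haux
  have hnode : ∀ s, (edc_swap (nodeSetupNj A M' q hq hqM hA R hR)).IsNode s →
      (nodeSetupNj A M' q hq hqM hA R hR).IsNode s := by
    rintro s ⟨h1, h2⟩
    exact ⟨h1, sup_le (le_trans le_sup_right h2) (le_trans le_sup_left h2)⟩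
  have hpkg := wcx_node_abs (edc_swap (nodeSetupNj A M' q hq hqM hA R hR))
    (r1c_noeth_frac A M' q hq hqM hA R hR hSUM).2
    (k0_residue_comp_surjective A q hq hA)
    (jk (IsLocalRing.ResidueField A) M')
    (rgn_hiZero A M' q hq hqM hA R hR hSUM) (rgn_hoZero A M' q hq hqM hA R hR haux)
    (q : k0Val A) (a2i_q_ne_zero A q hq)
    (uqrHB' A M' q hq hqM hA R hR) (uqrHB A M' q hq hqM hA R hR)
    ((mul_comm _ _).trans (edc_hh' A M' q hq hqM hA R hR))
    (fun s hs => hreg.2 s (hnode s hs)) (fun s hs => hreg.1 s (hnode s hs)) Q hQ hres hSS0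
  obtain ⟨s, hs, x, y, εx, εy, t, h1, h2, h3, h4, h5, h6, h7, h8, h9, h10, h11, h12, h13, h14,
    h15, h16, hufd, hpx, hpy, hnxy, hnyx, hm, ρ, hρ, hρc, hρz⟩ := hpkg
  haveI hsp : s.IsPrime := hs.isPrime
  haveI := hufd
  have hno : IsNoetherianRing (Localization.AtPrime s) := inferInstance
  have hic : IsIntegrallyClosed (Localization.AtPrime s) := inferInstance
  exact ⟨s, hs, x, y, εx, εy, t, h1, h2, h3, h4, h5, h6, h7, h8, h9, h10, h11, h12, h13, h14,
    h15, h16, hufd, hpx, hpy, hnxy, hnyx, hm, hno, hic,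
    ctr_natCast_mem ρ q hq0, ρ, hρ, hρc, hρz⟩

set_option maxHeartbeats 4000000 in
/-- **the `X`-side package at a smooth centre, component `0`, level `N = M' q`.** -/
theorem wcx_smooth_zero (haux : IsAuxLevel q M')
    (Q : Place (IsLocalRing.ResidueField A) (Fk (IsLocalRing.ResidueField A) M'))
    (hQ : 0 ≤ Q.ord (jk (IsLocalRing.ResidueField A) M'))
    (hNS0 : ∃ z ∈ (nodeSetupNj A M' q hq hqM hA R hR).pInf,
      (nodeSetupNj A M' q hq hqM hA R hR).redZero z ≠ 0 ∧
        Q.ord ((nodeSetupNj A M' q hq hqM hA R hR).redZero z) = 0) :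
    ∃ (s : Ideal (nodeSetupNj A M' q hq hqM hA R hR).B) (hs : s.IsMaximal)
      (εx y : (nodeSetupNj A M' q hq hqM hA R hR).B),
      RingHom.ker (nodeSetupNj A M' q hq hqM hA R hR).redZero ≤ s ∧
      (nodeSetupNj A M' q hq hqM hA R hR).constB (q : k0Val A) ∈ RingHom.ker (nodeSetupNj A M' q hq hqM hA R hR).redZero ∧
      (∀ z ∈ RingHom.ker (nodeSetupNj A M' q hq hqM hA R hR).redZero, (nodeSetupNj A M' q hq hqM hA R hR).constB (q : k0Val A) ∣ εx * z) ∧ εx ∉ s ∧
      (∀ b : (nodeSetupNj A M' q hq hqM hA R hR).B, b ∈ s ↔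
        (nodeSetupNj A M' q hq hqM hA R hR).redZero b = 0 ∨
          0 < Q.ord ((nodeSetupNj A M' q hq hqM hA R hR).redZero b)) ∧
      (∀ c : (nodeSetupNj A M' q hq hqM hA R hR).B,
        (nodeSetupNj A M' q hq hqM hA R hR).redZero c ≠ 0 →
          0 ≤ Q.ord ((nodeSetupNj A M' q hq hqM hA R hR).redZero c)) ∧
      (∀ c : (nodeSetupNj A M' q hq hqM hA R hR).B, c ∉ s →
        Q.ord ((nodeSetupNj A M' q hq hqM hA R hR).redZero c) = 0) ∧
      y ∈ s ∧ (nodeSetupNj A M' q hq hqM hA R hR).redZero y ≠ 0 ∧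
      Q.ord ((nodeSetupNj A M' q hq hqM hA R hR).redZero y) = 1 ∧
      (haveI := hs.isPrime;
        UniqueFactorizationMonoid (Localization.AtPrime s) ∧
        Prime (algebraMap (nodeSetupNj A M' q hq hqM hA R hR).B (Localization.AtPrime s) ((nodeSetupNj A M' q hq hqM hA R hR).constB (q : k0Val A))) ∧
        ¬ algebraMap (nodeSetupNj A M' q hq hqM hA R hR).B (Localization.AtPrime s) ((nodeSetupNj A M' q hq hqM hA R hR).constB (q : k0Val A)) ∣
          algebraMap (nodeSetupNj A M' q hq hqM hA R hR).B (Localization.AtPrime s) y ∧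
        maximalIdeal (Localization.AtPrime s) =
          Ideal.span {algebraMap (nodeSetupNj A M' q hq hqM hA R hR).B (Localization.AtPrime s) ((nodeSetupNj A M' q hq hqM hA R hR).constB (q : k0Val A)),
            algebraMap (nodeSetupNj A M' q hq hqM hA R hR).B (Localization.AtPrime s) y} ∧
        IsNoetherianRing (Localization.AtPrime s) ∧
        IsIntegrallyClosed (Localization.AtPrime s) ∧
        ((q : ℕ) : Localization.AtPrime s) ∈ maximalIdeal (Localization.AtPrime s) ∧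
        ∃ ρ : Localization.AtPrime s →+* IsLocalRing.ResidueField A, Function.Surjective ρ ∧
          (∀ a : k0Val A, ρ (algebraMap (nodeSetupNj A M' q hq hqM hA R hR).B (Localization.AtPrime s)
            ((nodeSetupNj A M' q hq hqM hA R hR).constB a)) = k0Res A a) ∧
          (∀ b : (nodeSetupNj A M' q hq hqM hA R hR).B,
            ρ (algebraMap (nodeSetupNj A M' q hq hqM hA R hR).B (Localization.AtPrime s) b) = 0 ↔ b ∈ s)) := by
  have hSUM : RgnSum A M' q hq hqM R := fun z h1 h3 => w2j_rgnSum A M' q hq hqM hA R hR z h1 h3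
  haveI : IsAlgClosed (IsLocalRing.ResidueField A) := isAlgClosed_residueField A
  haveI hsep : FFSep (IsLocalRing.ResidueField A) (jk (IsLocalRing.ResidueField A) M') :=
    gmw_ffSep (IsLocalRing.ResidueField A) M'
  haveI hIC : IsIntegrallyClosed (nodeSetupNj A M' q hq hqM hA R hR).B :=
    r1c_isIntegrallyClosed A M' q hq hqM hA R hR hSUM
  haveI hN : IsNoetherianRing (nodeSetupNj A M' q hq hqM hA R hR).B :=
    (r1c_noeth_frac A M' q hq hqM hA R hR hSUM).1
  have hres : Function.Surjective (algebraMap (IsLocalRing.ResidueField A) Q.ResidueField) :=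
    ffResidue_surjective Q hsep.trans
  have hq0 : ((q : ℕ) : IsLocalRing.ResidueField A) = 0 := by
    have h1 := a2i_res_q A q hA
    rw [map_natCast] at h1
    exact h1
  haveI : IsDedekindDomain (nodeSetupNj A M' q hq hqM hA R hR).redZero.range :=
    rgn_isDedekindDomain_zero A M' q hq hqM hA R hR haux hSUM
  haveI hD : IsDedekindDomain ((nodeSetupNj A M' q hq hqM hA R hR).B ⧸
      (nodeSetupNj A M' q hq hqM hA R hR).pZero) :=
    (nodeSetupNj A M' q hq hqM hA R hR).isDedekindDomain_quot_pZero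
  haveI : IsIntegrallyClosed (edc_swap (nodeSetupNj A M' q hq hqM hA R hR)).B := hIC
  haveI : IsNoetherianRing (edc_swap (nodeSetupNj A M' q hq hqM hA R hR)).B := hN
  haveI : IsDedekindDomain ((edc_swap (nodeSetupNj A M' q hq hqM hA R hR)).B ⧸
      (edc_swap (nodeSetupNj A M' q hq hqM hA R hR)).pInf) := hD
  have hnf : ¬ IsField (rgnC A M') :=
    r1c_fsS_not_isField (K := IsLocalRing.ResidueField A)
      (x := jk (IsLocalRing.ResidueField A) M')
  have hnmZ : ¬ (nodeSetupNj A M' q hq hqM hA R hR).pZero.IsMaximal :=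
    (nodeSetupNj A M' q hq hqM hA R hR).pZero_not_isMaximal
      (d1q_not_isField_range _ (rgnC A M') hnf (rgn_hiZero A M' q hq hqM hA R hR hSUM)
        (rgn_hoZero A M' q hq hqM hA R hR haux))
  have hpkg := wcx_smooth_abs (edc_swap (nodeSetupNj A M' q hq hqM hA R hR))
    (r1c_noeth_frac A M' q hq hqM hA R hR hSUM).2 hnmZ
    (k0_residue_comp_surjective A q hq hA)
    (jk (IsLocalRing.ResidueField A) M')
    (rgn_hiZero A M' q hq hqM hA R hR hSUM) (rgn_hoZero A M' q hq hqM hA R hR haux)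
    (q : k0Val A) (a2i_q_ne_zero A q hq) (a2i_res_q A q hA)
    (uqrHB' A M' q hq hqM hA R hR) (uqrHB A M' q hq hqM hA R hR)
    ((mul_comm _ _).trans (edc_hh' A M' q hq hqM hA R hR))
    (uqr_hdivInf A M' q hq hqM hA R hR) (uqr_hdiv0 A M' q hq hqM hA R hR)
    Q hQ hres hNS0
  obtain ⟨s, hs, εx, y, h1, h2, h3, h4, h5, h6, h7, h8, h9, h10, hufd, hpx, hnxy, hm,
    ρ, hρ, hρc, hρz⟩ := hpkg
  haveI hsp : s.IsPrime := hs.isPrime
  haveI := hufd
  have hno : IsNoetherianRing (Localization.AtPrime s) := inferInstance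
  have hic : IsIntegrallyClosed (Localization.AtPrime s) := inferInstance
  exact ⟨s, hs, εx, y, h1, h2, h3, h4, h5, h6, h7, h8, h9, h10, hufd, hpx, hnxy, hm,
    hno, hic, ctr_natCast_mem ρ q hq0, ρ, hρ, hρc, hρz⟩

end Conc

end Fermat.Agent.S40lib
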