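/-
Item 88 (S44), (W) per-point instantiation, cover side, CONCRETE (helper8): `cri_inputs`
(`CoverRInst.lean`) at `B0 = (nodeSetupNj A M' q …).B`, `H = ` the inertia group of `A`, with
`hfrac` discharged (`r1c_noeth_frac`): for every prime `s` of `S.B` with `B_s` integrally closed
(`wcx_node_inf/zero`, `wcx_smooth_inf/zero` give it), the three inputs `hR`, `hσR`, `hdescE` of
`cve0c_main` for `R = B_s` hold for any field `EY ⊇ FF (M' q)` with a deck map `σY` fixing
exactly `FF (M' q)`.
-/
import Mathlib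
import Fermat.Agent.S36lib.Speed
import Fermat.Agent.S40lib.CoverRInst
import Fermat.Agent.S40lib.WindcX

set_option autoImplicit false
set_option linter.style.haveILetI false
set_option linter.unusedSectionVars false
set_option linter.unusedVariables false
set_option synthInstance.maxHeartbeats 400000
set_option maxHeartbeats 1000000

noncomputable section

namespace Fermat.Agent.S40lib

open Fermat.Agent.FFlib Fermat.Agent.S24lib Fermat.Agent.GM Fermat.Agent.GoodRed
  Fermat.Agent.S34lib Fermat.Agent.RRlib Fermat.Agent.S16lib Fermat.Agent.S36lib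
open AlgebraicCurve IsLocalRing IntermediateField IsDedekindDomain ModularCurve HahnSeries

section Conc

variable (A : ValuationSubring Kbar) (M' q : ℕ) [NeZero M'] [NeZero q] (hq : q.Prime)
  (hqM : ¬ q ∣ M') (hA : A.LiesOverPrime q)
  (R : ConstRed A (IsLocalRing.residue A)
      (↥(modularFunctionFieldFullC (IsLocalRing.ResidueField A) M')) (FF (M' * q)))
  (hR : IsSeriesRed R)

/-- `F0(M' q)` is the fraction field of `B_j(M' q)` -/
theorem cri_hfrac_Nj :
    ∀ z : f0Field A (M' * q), ∃ a b : (nodeSetupNj A M' q hq hqM hA R hR).B,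
      b ≠ 0 ∧ z * (b : f0Field A (M' * q)) = (a : f0Field A (M' * q)) :=
  (r1c_noeth_frac A M' q hq hqM hA R hR
    (fun z h1 h3 => w2j_rgnSum A M' q hq hqM hA R hR z h1 h3)).2

/-- **the inputs `hR`, `hσR`, `hdescE` of `cve0c_main` for `R = B_s`**, `s` a prime of
`B_j(M' q)` with `B_s` integrally closed, `H` = the inertia group. -/
theorem cri_inputs_Nj
    (EY : IntermediateField Kbar (LaurentSeries Kbar))
    (hle : modularFunctionFieldBar (M' * q) ≤ EY)
    (s : Ideal (nodeSetupNj A M' q hq hqM hA R hR).B) [hs : s.IsPrime]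
    (hic : IsIntegrallyClosed (Localization.AtPrime s))
    (hst : ∀ σ ∈ A.inertiaSubgroupIn ℚ, ∀ x ∈ EY,
      coeffMap ((σ : Kbar ≃ₐ[ℚ] Kbar) : Kbar →+* Kbar) x ∈ EY)
    (σY : ↥EY →+* ↥EY)
    (hσF : ∀ f : FF (M' * q), σY ⟨(f : LaurentSeries Kbar), hle f.2⟩ =
      ⟨(f : LaurentSeries Kbar), hle f.2⟩)
    (hfix : ∀ y : ↥EY, σY y = y →
      (y : LaurentSeries Kbar) ∈ modularFunctionFieldBar (M' * q)) :
    letI := criAlg A (M' * q) EY hle (nodeSetupNj A M' q hq hqM hA R hR).B s
    (∀ (σ : Kbar ≃ₐ[ℚ] Kbar) (hσ : σ ∈ A.inertiaSubgroupIn ℚ) (r : Localization.AtPrime s),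
      wlcTau (A.inertiaSubgroupIn ℚ) EY hst σ hσ (algebraMap (Localization.AtPrime s) ↥EY r) =
        algebraMap (Localization.AtPrime s) ↥EY r) ∧
    (∀ r : Localization.AtPrime s, σY (algebraMap (Localization.AtPrime s) ↥EY r) =
      algebraMap (Localization.AtPrime s) ↥EY r) ∧
    (∀ t : ↥EY, σY t = t → (∀ τ ∈ cve0cT (A.inertiaSubgroupIn ℚ) EY hst, τ t = t) →
      IsIntegral (Localization.AtPrime s) t →
      t ∈ Set.range (algebraMap (Localization.AtPrime s) ↥EY)) ∧
    (∀ b : (nodeSetupNj A M' q hq hqM hA R hR).B, algebraMap (Localization.AtPrime s) ↥EY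
      (algebraMap (nodeSetupNj A M' q hq hqM hA R hR).B (Localization.AtPrime s) b) =
        criIncl A (M' * q) EY hle (nodeSetupNj A M' q hq hqM hA R hR).B b) :=
  cri_inputs A (M' * q) EY hle (nodeSetupNj A M' q hq hqM hA R hR).B s
    (A.inertiaSubgroupIn ℚ) (fun σ => Iff.rfl) hst σY hσF hfix
    (cri_hfrac_Nj A M' q hq hqM hA R hR) hic

end Conc

end Fermat.Agent.S40lib

end
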