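import Mathlib
import Fermat.Agent.S36lib.Speed
import Fermat.Agent.S40lib.CovConc

/-!
# Item 88 (S40), block (J-WILD), piece G2e (1) (helper2): rationality of `h` in `u'' = c u_x h ^ p`

Ambient field `k((q))` with the coefficientwise action `coeffMap φ` of ring endomorphisms `φ` of
`k` (e.g. `φ = σ ∈ Gal(ℚ̄/ℚ)`).

`cvr_descent`: if `u = c · u_x · h ^ p` and `u`, `u_x` are fixed by every `φ ∈ G`, then with
`b := lc(h)` (leading coefficient) and `h₁ := h / b`:  `h₁` is fixed by `G`, `c b ^ p` is fixed by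
`G`, and `u = (c b ^ p) · u_x · h₁ ^ p`.  (No Hilbert 90: the leading coefficient kills the
cocycle.)  `cvr_descent_gal`: the same for a set of Galois automorphisms.
(complete proofs, standard axioms only)
-/

set_option autoImplicit false
set_option linter.style.haveILetI false
set_option linter.unusedSectionVars false

noncomputable section

namespace Fermat.Agent.S40lib

open ModularCurve HahnSeries Fermat.Agent.S24lib

section Rat

variable {k : Type*} [Field k]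

/-- **rationality of the `p`-th power part** (leading-coefficient normalisation). -/
theorem cvr_descent {p : ℕ} (hp : 0 < p) {ζ : k} (hζ : IsPrimitiveRoot ζ p)
    (G : Set (k →+* k))
    {u ux h : LaurentSeries k} {c : k} (hc : c ≠ 0) (hux : ux ≠ 0) (hh : h ≠ 0)
    (hrel : u = algebraMap k (LaurentSeries k) c * ux * h ^ p)
    (hu : ∀ φ ∈ G, coeffMap φ u = u) (hx : ∀ φ ∈ G, coeffMap φ ux = ux) :
    ∃ (b : k) (h1 : LaurentSeries k), b ≠ 0 ∧ h1 ≠ 0 ∧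
      h = algebraMap k (LaurentSeries k) b * h1 ∧ cvcLc h1 = 1 ∧
      (∀ φ ∈ G, coeffMap φ h1 = h1) ∧ (∀ φ ∈ G, φ (c * b ^ p) = c * b ^ p) ∧
      u = algebraMap k (LaurentSeries k) (c * b ^ p) * ux * h1 ^ p := by
  obtain ⟨b, hb⟩ : ∃ b : k, b = cvcLc h := ⟨_, rfl⟩
  have hb0 : b ≠ 0 := by rw [hb]; exact cvc_lc_ne_zero hh
  have hbL : algebraMap k (LaurentSeries k) b ≠ 0 := (map_ne_zero _).mpr hb0
  obtain ⟨h1, hh1⟩ : ∃ h1 : LaurentSeries k, h1 = algebraMap k (LaurentSeries k) b⁻¹ * h :=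
    ⟨_, rfl⟩
  have hh10 : h1 ≠ 0 := by
    rw [hh1]; exact mul_ne_zero ((map_ne_zero _).mpr (inv_ne_zero hb0)) hh
  have hhh1 : h = algebraMap k (LaurentSeries k) b * h1 := by
    rw [hh1, ← mul_assoc, ← map_mul, mul_inv_cancel₀ hb0, map_one, one_mul]
  have hlc1 : cvcLc h1 = 1 := by
    rw [hh1, cvc_lc_mul, cvc_lc_algebraMap, ← hb, inv_mul_cancel₀ hb0]
  have hfinal : u = algebraMap k (LaurentSeries k) (c * b ^ p) * ux * h1 ^ p := by
    rw [hrel, hhh1, mul_pow, map_mul, map_pow]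
    ring
  have hcb0 : c * b ^ p ≠ 0 := mul_ne_zero hc (pow_ne_zero _ hb0)
  have hcbL : algebraMap k (LaurentSeries k) (c * b ^ p) ≠ 0 := (map_ne_zero _).mpr hcb0
  -- the constant is fixed
  have hconst : ∀ φ ∈ G, φ (c * b ^ p) = c * b ^ p := by
    intro φ hφ
    have h1' := congrArg (coeffMap φ) hfinal
    rw [hu φ hφ, map_mul, map_mul, map_pow, hx φ hφ, coeffMap_algebraMap] at h1'
    have h2 := congrArg cvcLc h1'
    rw [hfinal, cvc_lc_mul, cvc_lc_mul, cvc_lc_pow, hlc1, cvc_lc_algebraMap, cvc_lc_mul,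
      cvc_lc_mul, cvc_lc_pow, cvc_lc_coeffMap, hlc1, map_one, cvc_lc_algebraMap, one_pow,
      mul_one, mul_one] at h2
    have hlcx : cvcLc ux ≠ 0 := cvc_lc_ne_zero hux
    exact (mul_right_cancel₀ hlcx h2).symm
  refine ⟨b, h1, hb0, hh10, hhh1, hlc1, ?_, hconst, hfinal⟩
  intro φ hφ
  have h1' := congrArg (coeffMap φ) hfinal
  rw [hu φ hφ, map_mul, map_mul, map_pow, hx φ hφ, coeffMap_algebraMap, hconst φ hφ] at h1'
  -- `h1 ^ p = (φ h1) ^ p`
  have h3 : h1 ^ p = (coeffMap φ h1) ^ p := by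
    have h4 : algebraMap k (LaurentSeries k) (c * b ^ p) * ux * h1 ^ p =
        algebraMap k (LaurentSeries k) (c * b ^ p) * ux * (coeffMap φ h1) ^ p := by
      rw [← hfinal]; exact h1'
    exact mul_left_cancel₀ (mul_ne_zero hcbL hux) h4
  have hpow : (coeffMap φ h1 / h1) ^ p = 1 := by
    rw [div_pow, ← h3, div_self (pow_ne_zero _ hh10)]
  obtain ⟨j, -, hj⟩ := cvc_root_unity hp hζ hpow
  have hφh : coeffMap φ h1 = algebraMap k (LaurentSeries k) (ζ ^ j) * h1 := by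
    rw [← hj, div_mul_cancel₀ _ hh10]
  have hlc := congrArg cvcLc hφh
  rw [cvc_lc_coeffMap, cvc_lc_mul, cvc_lc_algebraMap, hlc1, map_one, mul_one] at hlc
  rw [hφh, ← hlc, map_one, one_mul]

end Rat

section Gal

/-- the same for a set `G` of automorphisms of `ℚ̄` (e.g. `G = Stab_I(x)`). -/
theorem cvr_descent_gal {p : ℕ} (hp : 0 < p) {ζ : Kbar} (hζ : IsPrimitiveRoot ζ p)
    (G : Set (Kbar ≃ₐ[ℚ] Kbar))
    {u ux h : LaurentSeries Kbar} {c : Kbar} (hc : c ≠ 0) (hux : ux ≠ 0) (hh : h ≠ 0)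
    (hrel : u = algebraMap Kbar (LaurentSeries Kbar) c * ux * h ^ p)
    (hu : ∀ σ ∈ G, coeffMap ((σ : Kbar ≃ₐ[ℚ] Kbar) : Kbar →+* Kbar) u = u)
    (hx : ∀ σ ∈ G, coeffMap ((σ : Kbar ≃ₐ[ℚ] Kbar) : Kbar →+* Kbar) ux = ux) :
    ∃ (b : Kbar) (h1 : LaurentSeries Kbar), b ≠ 0 ∧ h1 ≠ 0 ∧
      h = algebraMap Kbar (LaurentSeries Kbar) b * h1 ∧ cvcLc h1 = 1 ∧
      (∀ σ ∈ G, coeffMap ((σ : Kbar ≃ₐ[ℚ] Kbar) : Kbar →+* Kbar) h1 = h1) ∧
      (∀ σ ∈ G, σ (c * b ^ p) = c * b ^ p) ∧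
      u = algebraMap Kbar (LaurentSeries Kbar) (c * b ^ p) * ux * h1 ^ p := by
  obtain ⟨b, h1, hb0, hh10, hhh1, hlc1, hfix, hconst, hfinal⟩ :=
    cvr_descent hp hζ ((fun σ : Kbar ≃ₐ[ℚ] Kbar => ((σ : Kbar ≃ₐ[ℚ] Kbar) : Kbar →+* Kbar)) '' G)
      hc hux hh hrel
      (by rintro φ ⟨σ, hσ, rfl⟩; exact hu σ hσ)
      (by rintro φ ⟨σ, hσ, rfl⟩; exact hx σ hσ)
  exact ⟨b, h1, hb0, hh10, hhh1, hlc1, fun σ hσ => hfix _ ⟨σ, hσ, rfl⟩,
    fun σ hσ => hconst _ ⟨σ, hσ, rfl⟩, hfinal⟩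

end Gal

end Fermat.Agent.S40lib
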