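/-
Item 88 (S40/S44), block (J-WILD), per-point assembly, the `X`-side at a SMOOTH centre on the
component `0` (helper4): the twin of `cvs_place_smooth` (`CoverSmooth2`, helper12) with the two
components exchanged (`edc_swap`): `Q` a non-cuspidal place of `F_{M',k}` which is NOT
supersingular for the component `0` (some `z ∈ p_∞` has `red_0 z ≠ 0`, `ord_Q (red_0 z) = 0`).
Complete proofs.
-/
import Mathlib
import Fermat.Agent.S36lib.Speed
import Fermat.Agent.S40lib.CoverSmooth2
import Fermat.Agent.S40lib.EdgeZero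

set_option autoImplicit false
set_option linter.style.haveILetI false
set_option linter.unusedSectionVars false
set_option linter.unusedVariables false
set_option synthInstance.maxHeartbeats 400000
set_option maxHeartbeats 1000000

noncomputable section

namespace Fermat.Agent.S40lib

open Fermat.Agent.FFlib Fermat.Agent.S24lib Fermat.Agent.GM Fermat.Agent.GoodRed
  Fermat.Agent.S34lib Fermat.Agent.RRlib Fermat.Agent.S16lib Fermat.Agent.S36lib
open AlgebraicCurve IsLocalRing IntermediateField IsDedekindDomain ModularCurve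

section Conc

variable (A : ValuationSubring Kbar) (M' q : ℕ) [NeZero M'] [NeZero q] (hq : q.Prime)
  (hqM : ¬ q ∣ M') (hA : A.LiesOverPrime q)
  (R : ConstRed A (IsLocalRing.residue A)
      (↥(modularFunctionFieldFullC (IsLocalRing.ResidueField A) M')) (FF (M' * q)))
  (hR : IsSeriesRed R)

set_option maxHeartbeats 4000000 in
/-- **the local data at a smooth centre of the component `0`, level `N = M' q`,
unconditional.** -/
theorem csz_place_smooth_zero (haux : IsAuxLevel q M')
    (Q : Place (IsLocalRing.ResidueField A) (Fk (IsLocalRing.ResidueField A) M'))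
    (hQ : 0 ≤ Q.ord (jk (IsLocalRing.ResidueField A) M'))
    (hNS : ∃ z ∈ (nodeSetupNj A M' q hq hqM hA R hR).pInf,
      (nodeSetupNj A M' q hq hqM hA R hR).redZero z ≠ 0 ∧
        Q.ord ((nodeSetupNj A M' q hq hqM hA R hR).redZero z) = 0) :
    ∃ (s : Ideal (nodeSetupNj A M' q hq hqM hA R hR).B) (hs : s.IsMaximal)
      (εx y : (nodeSetupNj A M' q hq hqM hA R hR).B),
      (nodeSetupNj A M' q hq hqM hA R hR).pZero ≤ s ∧
      (haveI := hs.isPrime; UniqueFactorizationMonoid (Localization.AtPrime s)) ∧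
      (∀ z ∈ (nodeSetupNj A M' q hq hqM hA R hR).pZero,
        (nodeSetupNj A M' q hq hqM hA R hR).constB (q : k0Val A) ∣ εx * z) ∧ εx ∉ s ∧
      (∀ b : (nodeSetupNj A M' q hq hqM hA R hR).B, b ∈ s ↔
        (nodeSetupNj A M' q hq hqM hA R hR).redZero b = 0 ∨
          0 < Q.ord ((nodeSetupNj A M' q hq hqM hA R hR).redZero b)) ∧
      (∀ c : (nodeSetupNj A M' q hq hqM hA R hR).B,
        0 ≤ Q.ord ((nodeSetupNj A M' q hq hqM hA R hR).redZero c)) ∧
      (∀ c : (nodeSetupNj A M' q hq hqM hA R hR).B, c ∉ s →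
        Q.ord ((nodeSetupNj A M' q hq hqM hA R hR).redZero c) = 0) ∧
      y ∈ s ∧ (nodeSetupNj A M' q hq hqM hA R hR).redZero y ≠ 0 ∧
      Q.ord ((nodeSetupNj A M' q hq hqM hA R hR).redZero y) = 1 ∧
      (∀ z ∈ s, ∃ w c : (nodeSetupNj A M' q hq hqM hA R hR).B, w ∉ s ∧
        w * z - c * y ∈ (nodeSetupNj A M' q hq hqM hA R hR).pZero) ∧
      (haveI := hs.isPrime;
        Prime (algebraMap (nodeSetupNj A M' q hq hqM hA R hR).B (Localization.AtPrime s)
          ((nodeSetupNj A M' q hq hqM hA R hR).constB (q : k0Val A))) ∧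
        ¬ algebraMap (nodeSetupNj A M' q hq hqM hA R hR).B (Localization.AtPrime s)
            ((nodeSetupNj A M' q hq hqM hA R hR).constB (q : k0Val A)) ∣
          algebraMap (nodeSetupNj A M' q hq hqM hA R hR).B (Localization.AtPrime s) y ∧
        maximalIdeal (Localization.AtPrime s) =
          Ideal.span {algebraMap (nodeSetupNj A M' q hq hqM hA R hR).B (Localization.AtPrime s)
              ((nodeSetupNj A M' q hq hqM hA R hR).constB (q : k0Val A)),
            algebraMap (nodeSetupNj A M' q hq hqM hA R hR).B (Localization.AtPrime s) y}) := by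
  have hSUM : RgnSum A M' q hq hqM R := fun z h1 h3 => w2j_rgnSum A M' q hq hqM hA R hR z h1 h3
  haveI : IsAlgClosed (IsLocalRing.ResidueField A) := isAlgClosed_residueField A
  haveI : FFSep (IsLocalRing.ResidueField A) (jk (IsLocalRing.ResidueField A) M') :=
    gmw_ffSep (IsLocalRing.ResidueField A) M'
  haveI hIC : IsIntegrallyClosed (nodeSetupNj A M' q hq hqM hA R hR).B :=
    r1c_isIntegrallyClosed A M' q hq hqM hA R hR hSUM
  haveI hN : IsNoetherianRing (nodeSetupNj A M' q hq hqM hA R hR).B :=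
    (r1c_noeth_frac A M' q hq hqM hA R hR hSUM).1
  haveI : IsDedekindDomain (nodeSetupNj A M' q hq hqM hA R hR).redZero.range :=
    rgn_isDedekindDomain_zero A M' q hq hqM hA R hR haux hSUM
  haveI hD : IsDedekindDomain ((nodeSetupNj A M' q hq hqM hA R hR).B ⧸
      (nodeSetupNj A M' q hq hqM hA R hR).pZero) :=
    (nodeSetupNj A M' q hq hqM hA R hR).isDedekindDomain_quot_pZero
  haveI : IsIntegrallyClosed (edc_swap (nodeSetupNj A M' q hq hqM hA R hR)).B := hIC
  haveI : IsNoetherianRing (edc_swap (nodeSetupNj A M' q hq hqM hA R hR)).B := hN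
  haveI : IsDedekindDomain ((edc_swap (nodeSetupNj A M' q hq hqM hA R hR)).B ⧸
      (edc_swap (nodeSetupNj A M' q hq hqM hA R hR)).pInf) := hD
  have hnf : ¬ IsField (rgnC A M') :=
    r1c_fsS_not_isField (K := IsLocalRing.ResidueField A)
      (x := jk (IsLocalRing.ResidueField A) M')
  have hnmI : ¬ (edc_swap (nodeSetupNj A M' q hq hqM hA R hR)).pInf.IsMaximal :=
    (edc_swap (nodeSetupNj A M' q hq hqM hA R hR)).pInf_not_isMaximal
      (d1q_not_isField_range _ (rgnC A M') hnf (rgn_hiZero A M' q hq hqM hA R hR hSUM)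
        (rgn_hoZero A M' q hq hqM hA R hR haux))
  exact cvs_place_smooth_abs (edc_swap (nodeSetupNj A M' q hq hqM hA R hR))
    (r1c_noeth_frac A M' q hq hqM hA R hR hSUM).2 hnmI
    (jk (IsLocalRing.ResidueField A) M')
    (rgn_hiZero A M' q hq hqM hA R hR hSUM) (rgn_hoZero A M' q hq hqM hA R hR haux)
    (q : k0Val A) (a2i_q_ne_zero A q hq) (a2i_res_q A q hA)
    (uqrHB' A M' q hq hqM hA R hR) (uqrHB A M' q hq hqM hA R hR)
    ((mul_comm _ _).trans (edc_hh' A M' q hq hqM hA R hR))
    (uqr_hdivInf A M' q hq hqM hA R hR) (uqr_hdiv0 A M' q hq hqM hA R hR)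
    Q hQ hNS

end Conc

end Fermat.Agent.S40lib

end
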