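/-
Item 88 (S40), piece C1-concrete (helper1): the DECK TRANSFORMATION of the cover
`EY = F_N(U) ⊂ ℚ̄((q))`, `U ^ p = u_t`, with ALL the hypotheses of `wlc_main` (helper19) on
`σY`: `hst` (stability of `EY` under the coefficientwise Galois action of `H`), `hσK`, `hσF`,
`hσU`, `hcomm` (commutation with `H`), from the single geometric input

  `hω : ∀ σ ∈ H, ∃ w, σ • t = w • t ∧ σ ζ = ζ ^ w`     (`H` acts on `t` by the cyclotomic character).

* `cvw_not_mem`  : `t ≠ 0` ⇒ `U ∉ F_N`;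
* `cvw_rel`      : `σ • t = w • t` ⇒ `coeffMap σ u_t = c · g ^ p · u_t ^ (w + p)`, `g ∈ F_N`;
* `cvw_main`     : `∃ hst σY, hσK ∧ hσF ∧ hσU ∧ hcomm ∧ (fixed field of σY = F_N) ∧ σY^p = 1`;
* `cvw_wild`     : `wlc_main` with no hypothesis on the cover.
-/
import Mathlib
import Fermat.Agent.S36lib.Speed
import Fermat.Agent.S40lib.CoverField
import Fermat.Agent.S40lib.WildCore

set_option autoImplicit false
set_option linter.style.haveILetI false
set_option linter.unusedSectionVars false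
set_option linter.unusedVariables false

noncomputable section

namespace Fermat.Agent.S40lib

open ModularCurve HahnSeries AlgebraicCurve Fermat.Agent.S24lib Fermat.Agent.S33lib
  Fermat.Agent.S34lib Fermat.Agent.RRlib

section Main

variable (N : ℕ) [NeZero N] [RRBase Kbar (modularFunctionFieldBar N)]

/-- `t ≠ 0` ⇒ the `p`-th root `U` of the Kummer function of `t` is not in `F_N` -/
theorem cvw_not_mem {p : ℕ} (hp : p.Prime) {t : JZero N} {ut : modularFunctionFieldBar N}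
    (ht : gdfIsKummer (K := Kbar) p t ut) (ht0 : t ≠ 0)
    {U : LaurentSeries Kbar} (hU : U ^ p = (ut : LaurentSeries Kbar)) :
    U ∉ modularFunctionFieldBar N := by
  intro hmem
  apply ht0
  rw [gdf_isKummer_zero_iff hp.ne_zero ht]
  have hut0 : ut ≠ 0 := gdf_isKummer_ne_zero ht
  refine ⟨1, ⟨U, hmem⟩, one_ne_zero, ?_, ?_⟩
  · intro h0
    have hU0 : U = 0 := congrArg Subtype.val h0
    rw [hU0, zero_pow hp.ne_zero] at hU
    exact hut0 (Subtype.ext hU.symm)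
  · apply Subtype.ext
    rw [map_one, one_mul]
    exact hU.symm

/-- the Kummer relation of `u_t` under `σ` with `σ • t = w • t` -/
theorem cvw_rel {p : ℕ} (hp : p.Prime) {t : JZero N} {ut : modularFunctionFieldBar N}
    (ht : gdfIsKummer (K := Kbar) p t ut) (hpt : p • t = 0)
    (σ : Kbar ≃ₐ[ℚ] Kbar) (w : ℕ) (hσ : σ • t = w • t) :
    ∃ (c : Kbar) (g : modularFunctionFieldBar N), c ≠ 0 ∧ g ≠ 0 ∧
      coeffMap ((σ : Kbar ≃ₐ[ℚ] Kbar) : Kbar →+* Kbar) (ut : LaurentSeries Kbar) =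
        algebraMap Kbar (LaurentSeries Kbar) c * (g : LaurentSeries Kbar) ^ p *
          (ut : LaurentSeries Kbar) ^ (w + p) := by
  have hj : galFF N σ • t = t + (w + (p - 1)) • t := by
    have h1 : t + (w + (p - 1)) • t = (w + p) • t := by
      rw [← one_nsmul t, ← mul_nsmul, ← add_nsmul, one_nsmul]
      congr 1
      have := hp.pos
      omega
    rw [h1, add_nsmul, hpt, add_zero]
    exact hσ
  obtain ⟨c, g, hc, hg, hrel⟩ := rhr_rel_abs' ht ht (galFF N σ) (w + (p - 1)) hj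
  refine ⟨c, g, hc, hg, ?_⟩
  have h1 := congrArg (fun z : modularFunctionFieldBar N => (z : LaurentSeries Kbar)) hrel
  have h2 : coeffMap ((σ : Kbar ≃ₐ[ℚ] Kbar) : Kbar →+* Kbar) (ut : LaurentSeries Kbar) =
      algebraMap Kbar (LaurentSeries Kbar) c * (ut : LaurentSeries Kbar) *
        (ut : LaurentSeries Kbar) ^ (w + (p - 1)) * (g : LaurentSeries Kbar) ^ p := by
    simpa using h1
  rw [h2]
  have h3 : w + p = (w + (p - 1)) + 1 := by
    have := hp.pos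
    omega
  rw [h3, pow_succ]
  ring

/-- **C1, concrete**: the deck transformation of the cover `EY = F_N(U)` with all the
hypotheses of `wlc_main`. -/
theorem cvw_main {p : ℕ} (hp : p.Prime) {ζ : Kbar} (hζ : IsPrimitiveRoot ζ p)
    (H : Subgroup (Kbar ≃ₐ[ℚ] Kbar))
    {t : JZero N} {ut : modularFunctionFieldBar N}
    (ht : gdfIsKummer (K := Kbar) p t ut) (hpt : p • t = 0) (ht0 : t ≠ 0)
    (hω : ∀ σ ∈ H, ∃ w : ℕ, σ • t = w • t ∧ σ ζ = ζ ^ w)
    {U : LaurentSeries Kbar} (hU : U ^ p = (ut : LaurentSeries Kbar)) :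
    ∃ (hst : ∀ σ ∈ H, ∀ z ∈ cvcAdj (modularFunctionFieldBar N) U,
        coeffMap ((σ : Kbar ≃ₐ[ℚ] Kbar) : Kbar →+* Kbar) z ∈ cvcAdj (modularFunctionFieldBar N) U)
      (σY : ↥(cvcAdj (modularFunctionFieldBar N) U) →+* ↥(cvcAdj (modularFunctionFieldBar N) U)),
      (∀ c : Kbar, σY (algebraMap Kbar ↥(cvcAdj (modularFunctionFieldBar N) U) c) =
        algebraMap Kbar ↥(cvcAdj (modularFunctionFieldBar N) U) c) ∧
      (∀ f : modularFunctionFieldBar N,
        σY ⟨(f : LaurentSeries Kbar), cvc_le_adj (modularFunctionFieldBar N) U f.2⟩ =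
          ⟨(f : LaurentSeries Kbar), cvc_le_adj (modularFunctionFieldBar N) U f.2⟩) ∧
      σY ⟨U, cvc_mem_adj (modularFunctionFieldBar N) U⟩ =
        algebraMap Kbar ↥(cvcAdj (modularFunctionFieldBar N) U) ζ *
          ⟨U, cvc_mem_adj (modularFunctionFieldBar N) U⟩ ∧
      (∀ (σ : Kbar ≃ₐ[ℚ] Kbar) (hσ : σ ∈ H) (z : ↥(cvcAdj (modularFunctionFieldBar N) U)),
        σY (wlcTau H (cvcAdj (modularFunctionFieldBar N) U) hst σ hσ z) =
          wlcTau H (cvcAdj (modularFunctionFieldBar N) U) hst σ hσ (σY z)) ∧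
      (∀ y : ↥(cvcAdj (modularFunctionFieldBar N) U), σY y = y →
        (y : LaurentSeries Kbar) ∈ modularFunctionFieldBar N) ∧
      (∀ y : ↥(cvcAdj (modularFunctionFieldBar N) U), σY^[p] y = y) := by
  classical
  have hut0 : ut ≠ 0 := gdf_isKummer_ne_zero ht
  have hutL : (ut : LaurentSeries Kbar) ≠ 0 := fun h0 => hut0 (Subtype.ext h0)
  have hUF : U ∉ modularFunctionFieldBar N := cvw_not_mem N hp ht ht0 hU
  have huF : U ^ p ∈ modularFunctionFieldBar N := by rw [hU]; exact ut.2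
  -- stability of `F_N`
  have hFst : ∀ (σ : Kbar ≃ₐ[ℚ] Kbar), ∀ x ∈ modularFunctionFieldBar N,
      coeffMap ((σ : Kbar ≃ₐ[ℚ] Kbar) : Kbar →+* Kbar) x ∈ modularFunctionFieldBar N := by
    intro σ x hx
    have h1 : coeffMap ((σ : Kbar ≃ₐ[ℚ] Kbar) : Kbar →+* Kbar) x =
        ((galFF N σ • (⟨x, hx⟩ : modularFunctionFieldBar N) : modularFunctionFieldBar N) :
          LaurentSeries Kbar) := rfl
    rw [h1]
    exact (galFF N σ • (⟨x, hx⟩ : modularFunctionFieldBar N)).2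
  -- the relations
  have hrel : ∀ σ ∈ H, ∃ (W : ℕ) (d : Kbar) (g : modularFunctionFieldBar N),
      σ ζ = ζ ^ W ∧
      coeffMap ((σ : Kbar ≃ₐ[ℚ] Kbar) : Kbar →+* Kbar) U =
        algebraMap Kbar (LaurentSeries Kbar) d * (g : LaurentSeries Kbar) * U ^ W ∧
      (∀ z ∈ cvcAdj (modularFunctionFieldBar N) U,
        coeffMap ((σ : Kbar ≃ₐ[ℚ] Kbar) : Kbar →+* Kbar) z ∈
          cvcAdj (modularFunctionFieldBar N) U) := by
    intro σ hσ
    obtain ⟨w, hw, hζw⟩ := hω σ hσ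
    obtain ⟨c, g, hc, hg, hr⟩ := cvw_rel N hp ht hpt σ w hw
    have hgL : (g : LaurentSeries Kbar) ≠ 0 := fun h0 => hg (Subtype.ext h0)
    obtain ⟨d, -, hd⟩ := cvc_map_root hp.pos hζ
      (coeffMap ((σ : Kbar ≃ₐ[ℚ] Kbar) : Kbar →+* Kbar)) hU hutL hgL hr
    refine ⟨w + p, d, g, ?_, hd, ?_⟩
    · rw [_root_.pow_add, hζ.pow_eq_one, mul_one]
      exact hζw
    · exact cvc_stable_of_kummer hp.pos hζ ((σ : Kbar ≃ₐ[ℚ] Kbar) : Kbar →+* Kbar)
        (modularFunctionFieldBar N) (hFst σ) hU hutL g.2 hgL hr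
  have hst : ∀ σ ∈ H, ∀ z ∈ cvcAdj (modularFunctionFieldBar N) U,
      coeffMap ((σ : Kbar ≃ₐ[ℚ] Kbar) : Kbar →+* Kbar) z ∈
        cvcAdj (modularFunctionFieldBar N) U := by
    intro σ hσ
    obtain ⟨W, d, g, -, -, h⟩ := hrel σ hσ
    exact h
  obtain ⟨σY, hσK, hσF, hσU, hσfix, hσp, -⟩ :=
    cvf_sigma_ringHom (modularFunctionFieldBar N) hp hζ huF hUF
  refine ⟨hst, σY, hσK, ?_, ?_, ?_, ?_, hσp⟩
  · intro f
    exact hσF f
  · exact hσU
  · intro σ hσ z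
    obtain ⟨W, d, g, hζW, hτU, -⟩ := hrel σ hσ
    refine cvf_comm (modularFunctionFieldBar N) U σY hσF hσU
      (wlcTau H (cvcAdj (modularFunctionFieldBar N) U) hst σ hσ)
      ((σ : Kbar ≃ₐ[ℚ] Kbar) : Kbar →+* Kbar) ?_ ?_ W d g ?_ hζW z
    · intro c
      exact wlc_tau_algebraMap H (cvcAdj (modularFunctionFieldBar N) U) hst σ hσ c
    · intro f
      refine ⟨⟨_, hFst σ f f.2⟩, ?_⟩
      apply Subtype.ext
      rfl
    · apply Subtype.ext
      exact hτU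
  · intro y hy
    obtain ⟨f, hf⟩ := hσfix y hy
    rw [← hf]
    exact f.2

/-- **(J-WILD), algebraic core with NO hypothesis on the cover**: `wlc_main` (helper19) with
`EY := cvcAdj F_N U`, the deck transformation `σY` being provided by `cvw_main`. -/
theorem cvw_wild {p : ℕ} (hp : p.Prime) {ζ : Kbar} (hζ : IsPrimitiveRoot ζ p)
    (H : Subgroup (Kbar ≃ₐ[ℚ] Kbar))
    {x t : JZero N} {ux ut : modularFunctionFieldBar N}
    (hx : gdfIsKummer (K := Kbar) p x ux) (ht : gdfIsKummer (K := Kbar) p t ut)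
    (hpt : p • t = 0) (ht0 : t ≠ 0)
    (hHx : ∀ σ ∈ H, σ • x - x ∈ AddSubgroup.zmultiples t)
    (hω : ∀ σ ∈ H, ∃ w : ℕ, σ • t = w • t ∧ σ ζ = ζ ^ w)
    {U : LaurentSeries Kbar} (hU : U ^ p = (ut : LaurentSeries Kbar)) :
    ∃ (σY : ↥(cvcAdj (modularFunctionFieldBar N) U) →+* ↥(cvcAdj (modularFunctionFieldBar N) U)),
      ((∀ c : Kbar, σY (algebraMap Kbar ↥(cvcAdj (modularFunctionFieldBar N) U) c) =
        algebraMap Kbar ↥(cvcAdj (modularFunctionFieldBar N) U) c) ∧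
      (∀ f : modularFunctionFieldBar N,
        σY ⟨(f : LaurentSeries Kbar), cvc_le_adj (modularFunctionFieldBar N) U f.2⟩ =
          ⟨(f : LaurentSeries Kbar), cvc_le_adj (modularFunctionFieldBar N) U f.2⟩) ∧
      σY ⟨U, cvc_mem_adj (modularFunctionFieldBar N) U⟩ =
        algebraMap Kbar ↥(cvcAdj (modularFunctionFieldBar N) U) ζ *
          ⟨U, cvc_mem_adj (modularFunctionFieldBar N) U⟩ ∧
      (∀ (σ : Kbar ≃ₐ[ℚ] Kbar), σ ∈ H → ∀ (z : ↥(cvcAdj (modularFunctionFieldBar N) U)),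
        ∃ hz : coeffMap ((σ : Kbar ≃ₐ[ℚ] Kbar) : Kbar →+* Kbar) (z : LaurentSeries Kbar) ∈
            cvcAdj (modularFunctionFieldBar N) U,
          ∃ hz' : coeffMap ((σ : Kbar ≃ₐ[ℚ] Kbar) : Kbar →+* Kbar)
              ((σY z : ↥(cvcAdj (modularFunctionFieldBar N) U)) : LaurentSeries Kbar) ∈
              cvcAdj (modularFunctionFieldBar N) U,
            σY ⟨_, hz⟩ = ⟨_, hz'⟩) ∧
      (∀ y : ↥(cvcAdj (modularFunctionFieldBar N) U), σY y = y →
        (y : LaurentSeries Kbar) ∈ modularFunctionFieldBar N) ∧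
      (∀ y : ↥(cvcAdj (modularFunctionFieldBar N) U), σY^[p] y = y)) ∧
      ∃ (rt κ : Kbar) (u g : ↥(cvcAdj (modularFunctionFieldBar N) U)),
        κ ≠ 0 ∧ rt ≠ 0 ∧ rt ^ p = κ ∧
        (∀ τ ∈ H, τ κ = κ) ∧
        (∀ τ ∈ H, (τ • x = x ↔ τ rt = rt)) ∧
        u ≠ 0 ∧ g ≠ 0 ∧
        (∀ τ ∈ H, coeffMap ((τ : Kbar ≃ₐ[ℚ] Kbar) : Kbar →+* Kbar) (u : LaurentSeries Kbar) =
          (u : LaurentSeries Kbar)) ∧
        (∀ τ ∈ H, coeffMap ((τ : Kbar ≃ₐ[ℚ] Kbar) : Kbar →+* Kbar) (g : LaurentSeries Kbar) =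
          (g : LaurentSeries Kbar)) ∧
        σY u = algebraMap Kbar ↥(cvcAdj (modularFunctionFieldBar N) U) κ * g ^ p * u ∧
        ∃ (c : Kbar) (h : ↥(cvcAdj (modularFunctionFieldBar N) U)), c ≠ 0 ∧ h ≠ 0 ∧
          (u : LaurentSeries Kbar) = algebraMap Kbar (LaurentSeries Kbar) c *
            (ux : LaurentSeries Kbar) * (h : LaurentSeries Kbar) ^ p := by
  obtain ⟨hst, σY, hσK, hσF, hσU, hcomm, hfix, hσp⟩ := cvw_main N hp hζ H ht hpt ht0 hω hU
  refine ⟨σY, ⟨hσK, hσF, hσU, ?_, hfix, hσp⟩, ?_⟩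
  · intro σ hσ z
    refine ⟨hst σ hσ z z.2, hst σ hσ _ (σY z).2, ?_⟩
    exact hcomm σ hσ z
  · exact wlc_main N hp hζ H hx ht hpt ht0 hHx (cvcAdj (modularFunctionFieldBar N) U)
      (cvc_le_adj (modularFunctionFieldBar N) U) (cvc_mem_adj (modularFunctionFieldBar N) U) hU
      hst σY hσK hσF hσU hcomm

end Main

end Fermat.Agent.S40lib

end
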