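import Mathlib
import Fermat.Agent.S36lib.Speed

/-!
# Item 88 (S44), the CUSP GAP, piece (a), abstract part (helper8)

**Full residue degree ⇒ unique extension.**  `F / F₁` a finite extension of degree `n`, `O₁` a
valuation ring of `F₁`, `V` a valuation ring of `F` with `V ∩ F₁ = O₁`, and `y₁, …, y_n ∈ V` whose
reductions are linearly independent over the residue field of `O₁` (stated without residue
fields: `∑ cᵢ yᵢ ∈ 𝔪_V`, `cᵢ ∈ O₁` ⇒ all `cᵢ ∈ 𝔪_{O₁}`).  Then

* `vun_coeff_mem` : `∑ cᵢ yᵢ ∈ V` (`cᵢ ∈ F₁`) ⇒ all `cᵢ ∈ O₁`;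
* `vun_linearIndependent` : the `yᵢ` are a basis of `F / F₁`;
* `vun_isIntegral` : every element of `V` is integral over `O₁`;
* `vun_le` : `V ≤ V'` for every valuation ring `V'` of `F` containing `O₁`.
-/

set_option autoImplicit false
set_option linter.style.haveILetI false
set_option linter.unusedSectionVars false
set_option linter.unusedVariables false

noncomputable section

namespace Fermat.Agent.S40lib

variable {F₁ F : Type*} [Field F₁] [Field F] [Algebra F₁ F]

/-- normalisation: a nonzero family has an entry of maximal valuation -/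
theorem vun_exists_max (O₁ : ValuationSubring F₁) {n : ℕ} (c : Fin n → F₁) (j : Fin n)
    (hj : c j ≠ 0) :
    ∃ i₀ : Fin n, c i₀ ≠ 0 ∧ O₁.valuation (c j) ≤ O₁.valuation (c i₀) ∧
      ∀ i, c i / c i₀ ∈ O₁ := by
  obtain ⟨i₀, -, hmax⟩ := Finset.exists_max_image Finset.univ
    (fun i => O₁.valuation (c i)) ⟨j, Finset.mem_univ j⟩
  have h0 : c i₀ ≠ 0 := by
    intro h
    have h1 := hmax j (Finset.mem_univ j)
    rw [h, map_zero] at h1
    exact hj ((map_eq_zero _).1 (le_antisymm h1 zero_le))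
  refine ⟨i₀, h0, hmax j (Finset.mem_univ j), fun i => ?_⟩
  rw [← ValuationSubring.valuation_le_one_iff, map_div₀]
  exact div_le_one_of_le₀ (hmax i (Finset.mem_univ i)) zero_le

variable (O₁ : ValuationSubring F₁) (V : ValuationSubring F)
  (hcomap : ∀ x : F₁, algebraMap F₁ F x ∈ V ↔ x ∈ O₁)
  {n : ℕ} (y : Fin n → F)
  (hind : ∀ c : Fin n → F₁, (∀ i, c i ∈ O₁) →
    (∑ i, algebraMap F₁ F (c i) * y i) ∈ V.nonunits → ∀ i, c i ∈ O₁.nonunits)

include hcomap hind in
/-- the coefficients of an element of `V` in the family `y` are in `O₁` -/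
theorem vun_coeff_mem (c : Fin n → F₁) (h : (∑ i, algebraMap F₁ F (c i) * y i) ∈ V) :
    ∀ i, c i ∈ O₁ := by
  by_contra hcon
  rw [not_forall] at hcon
  obtain ⟨j, hj⟩ := hcon
  have hj0 : c j ≠ 0 := fun h0 => hj (h0 ▸ zero_mem _)
  obtain ⟨i₀, hi0, hle, hdiv⟩ := vun_exists_max O₁ c j hj0
  have hi₀ : c i₀ ∉ O₁ := by
    intro hm
    apply hj
    rw [← ValuationSubring.valuation_le_one_iff] at hm ⊢
    exact hle.trans hm
  -- `(c i₀)⁻¹` is a non-unit of `V`
  have hinv : algebraMap F₁ F (c i₀)⁻¹ ∈ V.nonunits := by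
    rw [ValuationSubring.mem_nonunits_iff_or]
    right
    rw [map_inv₀, inv_inv, hcomap]
    exact hi₀
  have hsum : (∑ i, algebraMap F₁ F (c i / c i₀) * y i) =
      (∑ i, algebraMap F₁ F (c i) * y i) * algebraMap F₁ F (c i₀)⁻¹ := by
    rw [Finset.sum_mul]
    refine Finset.sum_congr rfl (fun i _ => ?_)
    rw [div_eq_mul_inv, map_mul]
    ring
  have hnu : (∑ i, algebraMap F₁ F (c i / c i₀) * y i) ∈ V.nonunits := by
    rw [hsum, ValuationSubring.mem_nonunits_iff, map_mul]
    have h1 : V.valuation (∑ i, algebraMap F₁ F (c i) * y i) ≤ 1 :=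
      (ValuationSubring.valuation_le_one_iff V _).2 h
    have h2 : V.valuation (algebraMap F₁ F (c i₀)⁻¹) < 1 :=
      (ValuationSubring.mem_nonunits_iff V).1 hinv
    calc V.valuation (∑ i, algebraMap F₁ F (c i) * y i) * V.valuation (algebraMap F₁ F (c i₀)⁻¹)
        ≤ 1 * V.valuation (algebraMap F₁ F (c i₀)⁻¹) := mul_le_mul' h1 le_rfl
      _ < 1 := by rw [one_mul]; exact h2
  have h3 := hind (fun i => c i / c i₀) hdiv hnu i₀
  rw [div_self hi0, ValuationSubring.mem_nonunits_iff, map_one] at h3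
  exact lt_irrefl _ h3

include hind in
/-- the family `y` is linearly independent over `F₁` -/
theorem vun_linearIndependent : LinearIndependent F₁ y := by
  rw [Fintype.linearIndependent_iff]
  intro c hc
  by_contra hcon
  rw [not_forall] at hcon
  obtain ⟨j, hj⟩ := hcon
  obtain ⟨i₀, hi0, -, hdiv⟩ := vun_exists_max O₁ c j hj
  have hsum : (∑ i, algebraMap F₁ F (c i / c i₀) * y i) = 0 := by
    have h1 : (∑ i, algebraMap F₁ F (c i / c i₀) * y i) =
        (∑ i, c i • y i) * algebraMap F₁ F (c i₀)⁻¹ := by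
      rw [Finset.sum_mul]
      refine Finset.sum_congr rfl (fun i _ => ?_)
      rw [div_eq_mul_inv, map_mul, Algebra.smul_def]
      ring
    rw [h1, hc, zero_mul]
  have hnu : (∑ i, algebraMap F₁ F (c i / c i₀) * y i) ∈ V.nonunits := by
    rw [hsum, ValuationSubring.mem_nonunits_iff, map_zero]
    exact zero_lt_one
  have h3 := hind (fun i => c i / c i₀) hdiv hnu i₀
  rw [div_self hi0, ValuationSubring.mem_nonunits_iff, map_one] at h3
  exact lt_irrefl _ h3

include hcomap hind in
/-- every element of `V` is an `O₁`-combination of the `y i` -/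
theorem vun_exists_coeff (hn : Module.finrank F₁ F = n) (hn0 : 0 < n) (f : F) (hf : f ∈ V) :
    ∃ c : Fin n → F₁, (∀ i, c i ∈ O₁) ∧ f = ∑ i, algebraMap F₁ F (c i) * y i := by
  haveI : Nonempty (Fin n) := ⟨⟨0, hn0⟩⟩
  have hli := vun_linearIndependent O₁ V y hind
  let b := basisOfLinearIndependentOfCardEqFinrank hli (by rw [Fintype.card_fin, hn])
  have hb : ∀ i, b i = y i := fun i => by
    simp only [b, coe_basisOfLinearIndependentOfCardEqFinrank]
  have hf' : f = ∑ i, algebraMap F₁ F (b.repr f i) * y i := by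
    conv_lhs => rw [← b.sum_repr f]
    refine Finset.sum_congr rfl (fun i _ => ?_)
    rw [hb, Algebra.smul_def]
  refine ⟨fun i => b.repr f i, ?_, hf'⟩
  exact vun_coeff_mem O₁ V hcomap y hind _ (hf' ▸ hf)

include hcomap hind in
/-- **full residue degree ⇒ unique extension**: `V` is contained in every valuation ring of `F`
containing `O₁` and the `y i`. -/
theorem vun_le_of_mem (hn : Module.finrank F₁ F = n) (hn0 : 0 < n) (V' : ValuationSubring F)
    (hV' : ∀ x : F₁, x ∈ O₁ → algebraMap F₁ F x ∈ V') (hy' : ∀ i, y i ∈ V') : V ≤ V' := by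
  intro f hf
  obtain ⟨c, hc, rfl⟩ := vun_exists_coeff O₁ V hcomap y hind hn hn0 f hf
  exact sum_mem (fun i _ => mul_mem (hV' _ (hc i)) (hy' i))

include hcomap hind in
/-- every element of `V` is integral over `O₁` -/
theorem vun_isIntegral (hn : Module.finrank F₁ F = n) (hn0 : 0 < n) (hy : ∀ i, y i ∈ V)
    (f : F) (hf : f ∈ V) :
    letI : Algebra ↥O₁ F := ((algebraMap F₁ F).comp O₁.subtype).toAlgebra
    IsIntegral ↥O₁ f := by
  classical
  letI : Algebra ↥O₁ F := ((algebraMap F₁ F).comp O₁.subtype).toAlgebra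
  have halg : ∀ a : ↥O₁, algebraMap ↥O₁ F a = algebraMap F₁ F (a : F₁) := fun a => rfl
  let S : Subalgebra ↥O₁ F :=
    { V.toSubring.toSubsemiring with
      algebraMap_mem' := fun a => by
        show algebraMap ↥O₁ F a ∈ V
        rw [halg, hcomap]
        exact a.2 }
  have hS : ∀ x, x ∈ S ↔ x ∈ V := fun x => Iff.rfl
  refine IsIntegral.of_mem_of_fg S ?_ f ((hS f).2 hf)
  refine ⟨Finset.univ.image y, ?_⟩
  apply le_antisymm
  · rw [Submodule.span_le]
    intro x hx
    rw [Finset.coe_image, Finset.coe_univ, Set.image_univ] at hx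
    obtain ⟨i, rfl⟩ := hx
    exact (hS _).2 (hy i)
  · intro x hx
    obtain ⟨c, hc, rfl⟩ := vun_exists_coeff O₁ V hcomap y hind hn hn0 x ((hS x).1 hx)
    refine Submodule.sum_mem _ (fun i _ => ?_)
    have h1 : algebraMap F₁ F (c i) * y i = (⟨c i, hc i⟩ : ↥O₁) • y i := by
      rw [Algebra.smul_def, halg]
    rw [h1]
    refine Submodule.smul_mem _ _ (Submodule.subset_span ?_)
    rw [Finset.coe_image, Finset.coe_univ, Set.image_univ]
    exact ⟨i, rfl⟩

include hcomap hind in
/-- **full residue degree ⇒ unique extension**: `V` is contained in every valuation ring of `F`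
containing `O₁`. -/
theorem vun_le (hn : Module.finrank F₁ F = n) (hn0 : 0 < n) (hy : ∀ i, y i ∈ V)
    (V' : ValuationSubring F) (hV' : ∀ x : F₁, x ∈ O₁ → algebraMap F₁ F x ∈ V') : V ≤ V' := by
  intro f hf
  letI : Algebra ↥O₁ F := ((algebraMap F₁ F).comp O₁.subtype).toAlgebra
  have hint : IsIntegral ↥O₁ f := vun_isIntegral O₁ V hcomap y hind hn hn0 hy f hf
  -- pass to `V'`
  let φ : ↥O₁ →+* ↥V' :=
    { toFun := fun a => ⟨algebraMap F₁ F (a : F₁), hV' _ a.2⟩
      map_one' := by apply Subtype.ext; simp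
      map_mul' := fun a b => by apply Subtype.ext; simp
      map_zero' := by apply Subtype.ext; simp
      map_add' := fun a b => by apply Subtype.ext; simp }
  letI : Algebra ↥O₁ ↥V' := φ.toAlgebra
  haveI : IsScalarTower ↥O₁ ↥V' F := IsScalarTower.of_algebraMap_eq (fun a => rfl)
  have hint' : IsIntegral ↥V' f := hint.tower_top
  obtain ⟨z, hz⟩ := IsIntegrallyClosed.isIntegral_iff.1 hint'
  rw [← hz]
  exact z.2

end Fermat.Agent.S40lib

end
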