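import Mathlib
import Fermat.Agent.S36lib.Speed
import Fermat.Agent.S40lib.ValUnique
import Fermat.Agent.GoodRed.DescDefs
import Fermat.Agent.GoodRed.Lattice

/-!
# Item 88 (S44), the CUSP GAP, piece (a), the abstract stability statement (helper8)

`R₁ ⊆ R` a tower of constant reductions (fields `F₁ ⊆ F`, residue fields `Fk₁ ⊆ Fk`) with
`[F : F₁] = [Fk : Fk₁] = n` (full residue degree).  Then `O_R` is the ONLY valuation ring of `F`
containing `O_{R₁}`:

* `cps_comap` : `incl x ∈ O_R ↔ x ∈ O_{R₁}`;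
* `cps_le` : `O_R ≤ V'` for every valuation ring `V'` of `F` containing `incl O_{R₁}`;
* `cps_stable` : a ring endomorphism `w` of `F` with `w (incl O_{R₁}) ⊆ O_R` maps `O_R` into
  `O_R` (for us: `w = w_q` the Atkin–Lehner involution, `w ∘ incl = (q ↦ q ^ q)`).
-/

set_option autoImplicit false
set_option linter.style.haveILetI false
set_option linter.unusedSectionVars false
set_option linter.unusedVariables false

noncomputable section

namespace Fermat.Agent.S40lib

open Fermat.Agent.GoodRed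

variable {K k : Type*} [Field K] [Field k] {A : ValuationSubring K} {π : A →+* k}
  {F₁ F Fk₁ Fk : Type*} [Field F₁] [Field F] [Field Fk₁] [Field Fk]
  [Algebra K F₁] [Algebra K F] [Algebra k Fk₁] [Algebra k Fk]
  [Algebra F₁ F] [Algebra Fk₁ Fk]
  {R₁ : ConstRed A π Fk₁ F₁} {R : ConstRed A π Fk F}

/-- `incl x ∈ O_R ↔ x ∈ O_{R₁}` -/
theorem cps_comap (hT : R₁.IsTower R) (x : F₁) : algebraMap F₁ F x ∈ R.O ↔ x ∈ R₁.O := by
  refine ⟨fun h => ?_, fun h => hT.map_mem x h⟩
  by_contra hx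
  have hx0 : x ≠ 0 := fun h0 => hx (h0 ▸ zero_mem _)
  have hinv : x⁻¹ ∈ R₁.O := (R₁.O.mem_or_inv_mem x).resolve_left hx
  have hnu : x⁻¹ ∈ R₁.O.nonunits := by
    rw [ValuationSubring.mem_nonunits_iff_or]
    right
    rw [inv_inv]
    exact hx
  have h0 : R₁.red ⟨x⁻¹, hinv⟩ = 0 := (R₁.red_eq_zero_iff ⟨x⁻¹, hinv⟩).2 hnu
  have h1 := hT.red_map x⁻¹ hinv
  rw [h0, map_zero] at h1
  have h2 : algebraMap F₁ F x⁻¹ ∈ R.O.nonunits := (R.red_eq_zero_iff ⟨_, _⟩).1 h1
  rw [ValuationSubring.mem_nonunits_iff_or, map_inv₀, inv_inv] at h2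
  rcases h2 with h2 | h2
  · exact hx0 ((map_eq_zero _).1 (inv_eq_zero.1 h2))
  · exact h2 h

/-- **full residue degree ⇒ unique extension**, for a tower of constant reductions -/
theorem cps_le (hT : R₁.IsTower R) {n : ℕ} (hn : Module.finrank F₁ F = n)
    (hnk : Module.finrank Fk₁ Fk = n) (hn0 : 0 < n) (V' : ValuationSubring F)
    (hV' : ∀ x : F₁, x ∈ R₁.O → algebraMap F₁ F x ∈ V') : R.O ≤ V' := by
  haveI : Module.Finite Fk₁ Fk := Module.finite_of_finrank_pos (by rw [hnk]; exact hn0)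
  let b : Module.Basis (Fin n) Fk₁ Fk := (Module.finBasis Fk₁ Fk).reindex (finCongr hnk)
  have hlift : ∀ i, ∃ y : R.O, R.red y = b i := fun i => R.red_surjective (b i)
  choose y hy using hlift
  refine vun_le R₁.O R.O (cps_comap hT) (fun i => ((y i : R.O) : F)) ?_ hn hn0
    (fun i => (y i).2) V' hV'
  intro c hc hsum i
  -- the sum as an element of `O_R`
  have hmem : ∀ i, algebraMap F₁ F (c i) ∈ R.O := fun i => hT.map_mem _ (hc i)
  have hS : (∑ i, algebraMap F₁ F (c i) * ((y i : R.O) : F)) =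
      ((∑ i, (⟨algebraMap F₁ F (c i), hmem i⟩ : R.O) * y i : R.O) : F) := by
    rw [AddSubmonoidClass.coe_finsetSum]
    rfl
  rw [hS] at hsum
  have h0 : R.red (∑ i, (⟨algebraMap F₁ F (c i), hmem i⟩ : R.O) * y i) = 0 :=
    (R.red_eq_zero_iff _).2 hsum
  rw [map_sum] at h0
  have h1 : ∑ i, (R₁.red ⟨c i, hc i⟩) • b i = 0 := by
    rw [← h0]
    refine Finset.sum_congr rfl (fun i _ => ?_)
    rw [map_mul, hT.red_map (c i) (hc i), hy, Algebra.smul_def]
  have h2 := (Fintype.linearIndependent_iff.1 b.linearIndependent) _ h1 i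
  exact (R₁.red_eq_zero_iff ⟨c i, hc i⟩).1 h2

/-- **stability**: a ring endomorphism `w` of `F` which maps `incl O_{R₁}` into `O_R` maps `O_R`
into `O_R`. -/
theorem cps_stable (hT : R₁.IsTower R) {n : ℕ} (hn : Module.finrank F₁ F = n)
    (hnk : Module.finrank Fk₁ Fk = n) (hn0 : 0 < n) (w : F →+* F)
    (hw : ∀ x : F₁, x ∈ R₁.O → w (algebraMap F₁ F x) ∈ R.O) (f : F) (hf : f ∈ R.O) :
    w f ∈ R.O := by
  have h := cps_le hT hn hnk hn0 (R.O.comap w) (fun x hx => by
    rw [ValuationSubring.mem_comap]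
    exact hw x hx)
  have h1 := h hf
  rwa [ValuationSubring.mem_comap] at h1

end Fermat.Agent.S40lib

end
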