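import Mathlib
import Fermat.Agent.S36lib.Speed
import Fermat.Agent.S40lib.CuspStable
import Fermat.Agent.S40lib.HeckeRed
import Fermat.Agent.S34lib.VAtkinLehner
import Fermat.Agent.GoodRed.DescTower
import Fermat.Agent.GoodRed.HredMain

/-!
# Item 88 (S44), the CUSP GAP, piece (a), concrete (helper8)

`M` a level with `p ∤ M` (good reduction), `q ‖ M` a prime, `A` a valuation ring of `ℚ̄` over `p`
with residue field `k`, `R` the series reduction of `F_M` (residue field `F_{M,k}`).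

* `cpl_al_incl` : `w_q ∘ incl = (q ↦ q ^ q)` on `F_1 = ℚ̄(j)`;
* `cpl_stable`  : **`O_R` is stable under the Atkin–Lehner involution `w_q`** (the Gauss
  valuation of `ℚ̄(j)` has the unique extension `O_R` to `F_M`: full residue degree `ψ(M)`);
* `cplBar`, `cplBar_red` : the induced automorphism `w̄_q` of `F_{M,k}`,
  `w̄_q (red x) = red (w_q x)`;
* `cplBar_algebraMap`, `cplBar_jk` : `w̄_q` fixes the constants, `w̄_q j̄_d = j̄_{σ(d)}`.
-/

set_option autoImplicit false
set_option linter.style.haveILetI false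
set_option linter.unusedSectionVars false
set_option linter.unusedVariables false
set_option synthInstance.maxHeartbeats 400000

noncomputable section

namespace Fermat.Agent.S40lib

open ModularCurve AlgebraicCurve HahnSeries Fermat.Agent.GoodRed Fermat.Agent.GM
  Fermat.Agent.S24lib Fermat.Agent.HeckeBar Fermat.Agent.S34lib

section AL

variable (M q : ℕ) [NeZero M] [NeZero q]

/-- `w_q ∘ incl = (q ↦ q ^ q)` on `F_1` -/
theorem cpl_al_incl (hq : q.Prime) (hqM : q ∣ M) (hq2 : ¬ q ^ 2 ∣ M) (x : FF 1) :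
    atkinLehnerFF M q hq hqM hq2 (inclBar 1 M (one_dvd M) x) =
      qpowBar 1 M q ((one_mul q).symm ▸ hqM) x := by
  have h : ((atkinLehnerFF M q hq hqM hq2 : FF M →ₐ[Kbar] FF M).comp
        (inclBar 1 M (one_dvd M))).toRingHom =
      (qpowBar 1 M q ((one_mul q).symm ▸ hqM)).toRingHom := by
    apply FF_ringHom_ext
    · intro c
      show ((atkinLehnerFF M q hq hqM hq2 : FF M →ₐ[Kbar] FF M).comp
        (inclBar 1 M (one_dvd M))) (algebraMap Kbar (FF 1) c) =
        (qpowBar 1 M q ((one_mul q).symm ▸ hqM)) (algebraMap Kbar (FF 1) c)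
      rw [AlgHom.commutes, AlgHom.commutes]
    · intro d _ hd
      haveI : NeZero (alSwap q d) := ⟨alSwap_ne_zero hq (NeZero.ne d)⟩
      haveI : NeZero (q * d) := ⟨Nat.mul_ne_zero (NeZero.ne q) (NeZero.ne d)⟩
      show atkinLehnerFF M q hq hqM hq2 (inclBar 1 M (one_dvd M) (jdF 1 d hd)) =
        qpowBar 1 M q ((one_mul q).symm ▸ hqM) (jdF 1 d hd)
      have hd1 : d = 1 := Nat.dvd_one.1 hd
      have hqd : ¬ q ∣ d := by
        rw [hd1]
        intro hq1
        exact hq.one_lt.ne' (Nat.dvd_one.1 hq1)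
      rw [inclBar_jdF, atkinLehnerFF_jdF, qpowBar_jdF]
      refine val_jdF_congr M _ _ ?_
      rw [alSwap_of_not_dvd hqd, mul_comm]
  exact congrArg (fun φ : FF 1 →+* FF M => φ x) h

end AL

section Stable

variable (M q p : ℕ) [NeZero M] [NeZero q] (A : ValuationSubring Kbar)

/-- the degrees of `F_M / F_1` and `F_{M,k} / F_{1,k}` agree (good reduction) -/
theorem cpl_finrank_eq (hp : p.Prime) (hpM : ¬ p ∣ M) (hA : A.LiesOverPrime p) :
    finrankAlong (IsLocalRing.ResidueField A)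
      (inclK (IsLocalRing.ResidueField A) (one_dvd M)) =
    finrankAlong Kbar (inclBar 1 M (one_dvd M)) := by
  haveI : Fact p.Prime := ⟨hp⟩
  have hp1 : ¬ p ∣ 1 := fun h => hp.one_lt.ne' (Nat.dvd_one.1 h)
  have h1 := dedekindPsi_mul_finrankAlong_inclK (IsLocalRing.ResidueField A) (one_dvd M)
    (finrank_Fk_modL 1 hp1 A hA) (finrank_Fk_modL M hpM A hA)
  have h2 := dedekindPsi_mul_finrankAlong_inclBar 1 M (one_dvd M)
  have hpos : 0 < dedekindPsi 1 := dedekindPsi_pos 1
  exact Nat.eq_of_mul_eq_mul_left hpos (h1.trans h2.symm)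

/-- **`O_R` is stable under the Atkin–Lehner involution `w_q`** (`q ‖ M`, `p ∤ M`). -/
theorem cpl_stable (hp : p.Prime) (hpM : ¬ p ∣ M) (hA : A.LiesOverPrime p)
    (hq : q.Prime) (hqM : q ∣ M) (hq2 : ¬ q ^ 2 ∣ M)
    {R : ConstRed A (IsLocalRing.residue A) (Fk (IsLocalRing.ResidueField A) M) (FF M)}
    (hR : IsSeriesRed R) (f : FF M) (hf : f ∈ R.O) :
    atkinLehnerFF M q hq hqM hq2 f ∈ R.O := by
  haveI : Fact p.Prime := ⟨hp⟩
  have hAtop : A ≠ ⊤ := cri_ne_top p A (A.mem_nonunits_iff.mp hA) hp.ne_zero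
  have hp1 : ¬ p ∣ 1 := fun h => hp.one_lt.ne' (Nat.dvd_one.1 h)
  obtain ⟨R₁, hR₁⟩ := exists_modConstRed 1 A hAtop (Fermat.Agent.GoodRed.hred_modL 1 hp1 A hA)
  letI := algebraAlong (inclBar 1 M (one_dvd M))
  letI := algebraAlong (inclK (IsLocalRing.ResidueField A) (one_dvd M))
  have hT : R₁.IsTower R :=
    dw_isTower_of_isSeriesRed (ffBar_mono (one_dvd M))
      (fun x => coe_inclBar 1 M (one_dvd M) x)
      (fun w => coe_inclK (IsLocalRing.ResidueField A) (one_dvd M) w)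
      hR₁ hR (exists_primitive_smul 1 A hAtop)
  have hn : Module.finrank (FF 1) (FF M) = finrankAlong Kbar (inclBar 1 M (one_dvd M)) := rfl
  have hnk : Module.finrank (Fk (IsLocalRing.ResidueField A) 1)
      (Fk (IsLocalRing.ResidueField A) M) = finrankAlong Kbar (inclBar 1 M (one_dvd M)) :=
    cpl_finrank_eq M p A hp hpM hA
  have hn0 : 0 < finrankAlong Kbar (inclBar 1 M (one_dvd M)) :=
    finrankAlong_inclBar_pos 1 M (one_dvd M)
  refine cps_stable hT hn hnk hn0
    ((atkinLehnerFF M q hq hqM hq2 : FF M →ₐ[Kbar] FF M) : FF M →+* FF M) ?_ f hf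
  intro x hx
  show atkinLehnerFF M q hq hqM hq2 (inclBar 1 M (one_dvd M) x) ∈ R.O
  rw [cpl_al_incl M q hq hqM hq2 x]
  obtain ⟨h, -⟩ := hkr_beta_red hR₁ hR (exists_primitive_smul 1 A hAtop) q
    (fun y hy => (qpowBar 1 M q ((one_mul q).symm ▸ hqM) ⟨y, hy⟩).2) x hx
  exact h

end Stable

section Bar

variable (M q p : ℕ) [NeZero M] [NeZero q] (A : ValuationSubring Kbar)
variable (hp : p.Prime) (hpM : ¬ p ∣ M) (hA : A.LiesOverPrime p)
  (hq : q.Prime) (hqM : q ∣ M) (hq2 : ¬ q ^ 2 ∣ M)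
  (R : ConstRed A (IsLocalRing.residue A) (Fk (IsLocalRing.ResidueField A) M) (FF M))
  (hR : IsSeriesRed R)

/-- the restriction of `w_q` to `O_R` -/
def cplO : R.O →+* R.O :=
  RingHom.restrict ((atkinLehnerFF M q hq hqM hq2 : FF M →ₐ[Kbar] FF M) : FF M →+* FF M)
    R.O R.O (fun x hx => cpl_stable M q p A hp hpM hA hq hqM hq2 hR x hx)

theorem cplO_coe (x : R.O) :
    ((cplO M q p A hp hpM hA hq hqM hq2 R hR x : R.O) : FF M) =
      atkinLehnerFF M q hq hqM hq2 (x : FF M) := rfl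

theorem cplO_cplO (x : R.O) :
    cplO M q p A hp hpM hA hq hqM hq2 R hR (cplO M q p A hp hpM hA hq hqM hq2 R hR x) = x := by
  apply Subtype.ext
  rw [cplO_coe, cplO_coe, atkinLehnerFF_involutive]

theorem cpl_ker_le :
    RingHom.ker R.red ≤
      RingHom.ker (R.red.comp (cplO M q p A hp hpM hA hq hqM hq2 R hR)) := by
  intro x hx
  rw [RingHom.mem_ker] at hx ⊢
  rw [RingHom.comp_apply]
  by_contra hne
  -- `w x` is a unit of `O_R`, hence so is `x = w (w x)`
  have hwx : ((cplO M q p A hp hpM hA hq hqM hq2 R hR x : R.O) : FF M) ∉ R.O.nonunits :=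
    fun h => hne ((R.red_eq_zero_iff _).2 h)
  rw [ValuationSubring.mem_nonunits_iff_or, not_or, not_not, cplO_coe] at hwx
  have h1 := cpl_stable M q p A hp hpM hA hq hqM hq2 hR _ hwx.2
  rw [map_inv₀, atkinLehnerFF_involutive] at h1
  have h2 : (x : FF M) ∈ R.O.nonunits := (R.red_eq_zero_iff x).1 hx
  rw [ValuationSubring.mem_nonunits_iff_or] at h2
  rcases h2 with h2 | h2
  · apply hwx.1
    rw [h2, map_zero]
  · exact h2 h1

/-- the reduction `w̄_q` of the Atkin–Lehner involution, as a ring homomorphism -/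
def cplBarHom : Fk (IsLocalRing.ResidueField A) M →+* Fk (IsLocalRing.ResidueField A) M :=
  RingHom.liftOfSurjective R.red R.red_surjective
    ⟨R.red.comp (cplO M q p A hp hpM hA hq hqM hq2 R hR),
      cpl_ker_le M q p A hp hpM hA hq hqM hq2 R hR⟩

theorem cplBarHom_red (x : R.O) :
    cplBarHom M q p A hp hpM hA hq hqM hq2 R hR (R.red x) =
      R.red (cplO M q p A hp hpM hA hq hqM hq2 R hR x) := by
  unfold cplBarHom
  rw [RingHom.liftOfRightInverse_comp_apply]
  rfl

theorem cplBarHom_invol (y : Fk (IsLocalRing.ResidueField A) M) :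
    cplBarHom M q p A hp hpM hA hq hqM hq2 R hR
      (cplBarHom M q p A hp hpM hA hq hqM hq2 R hR y) = y := by
  obtain ⟨x, rfl⟩ := R.red_surjective y
  rw [cplBarHom_red, cplBarHom_red, cplO_cplO]

/-- **the reduction `w̄_q` of the Atkin–Lehner involution `w_q`** (`q ‖ M`, `p ∤ M`), an
automorphism of `F_{M,k}`. -/
def cplBar : Fk (IsLocalRing.ResidueField A) M ≃+* Fk (IsLocalRing.ResidueField A) M :=
  RingEquiv.ofRingHom (cplBarHom M q p A hp hpM hA hq hqM hq2 R hR)
    (cplBarHom M q p A hp hpM hA hq hqM hq2 R hR)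
    (RingHom.ext (cplBarHom_invol M q p A hp hpM hA hq hqM hq2 R hR))
    (RingHom.ext (cplBarHom_invol M q p A hp hpM hA hq hqM hq2 R hR))

/-- `w̄_q (red x) = red (w_q x)` -/
theorem cplBar_red (x : FF M) (hx : x ∈ R.O) :
    cplBar M q p A hp hpM hA hq hqM hq2 R hR (R.red ⟨x, hx⟩) =
      R.red ⟨atkinLehnerFF M q hq hqM hq2 x,
        cpl_stable M q p A hp hpM hA hq hqM hq2 hR x hx⟩ :=
  cplBarHom_red M q p A hp hpM hA hq hqM hq2 R hR ⟨x, hx⟩

theorem cplBar_invol (y : Fk (IsLocalRing.ResidueField A) M) :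
    cplBar M q p A hp hpM hA hq hqM hq2 R hR
      (cplBar M q p A hp hpM hA hq hqM hq2 R hR y) = y :=
  cplBarHom_invol M q p A hp hpM hA hq hqM hq2 R hR y

/-- `w̄_q` fixes the constants -/
theorem cplBar_algebraMap (c : IsLocalRing.ResidueField A) :
    cplBar M q p A hp hpM hA hq hqM hq2 R hR
      (algebraMap (IsLocalRing.ResidueField A) (Fk (IsLocalRing.ResidueField A) M) c) =
      algebraMap (IsLocalRing.ResidueField A) (Fk (IsLocalRing.ResidueField A) M) c := by
  obtain ⟨a, rfl⟩ := R.π_surjective c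
  rw [← R.red_algebraMap a, cplBar_red]
  congr 1
  apply Subtype.ext
  exact AlgEquiv.commutes _ _

/-- `w̄_q (red j_d) = red j_{σ(d)}` -/
theorem cplBar_red_jdF (d : ℕ) [NeZero d] (hd : d ∣ M) (h : jdF M d hd ∈ R.O) :
    haveI : NeZero (alSwap q d) := ⟨alSwap_ne_zero hq (NeZero.ne d)⟩
    ∃ h' : jdF M (alSwap q d) (alSwap_dvd hq hqM hd) ∈ R.O,
      cplBar M q p A hp hpM hA hq hqM hq2 R hR (R.red ⟨jdF M d hd, h⟩) =
        R.red ⟨jdF M (alSwap q d) (alSwap_dvd hq hqM hd), h'⟩ := by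
  haveI : NeZero (alSwap q d) := ⟨alSwap_ne_zero hq (NeZero.ne d)⟩
  have h1 := cpl_stable M q p A hp hpM hA hq hqM hq2 hR _ h
  have h2 : atkinLehnerFF M q hq hqM hq2 (jdF M d hd) =
      jdF M (alSwap q d) (alSwap_dvd hq hqM hd) := atkinLehnerFF_jdF M q hq hqM hq2 d hd
  refine ⟨h2 ▸ h1, ?_⟩
  rw [cplBar_red]
  congr 1
  exact Subtype.ext h2

end Bar



end Fermat.Agent.S40lib

end
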