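import Mathlib
import Fermat.Agent.S36lib.Speed
import Fermat.Agent.S40lib.CuspInf

/-!
# Item 88 (S40/S44): the CUSP GAP, piece (b) (helper25): Hecke commutes with `w̄`

`w̄ : F_{M,k} ≃ F_{M,k}` and `W̄ : F_{Mℓ,k} ≃ F_{Mℓ,k}` ring automorphisms which are compatible
with the two degeneracy maps (`W̄ ∘ incl = incl ∘ w̄`, `W̄ ∘ β̄ = β̄ ∘ w̄`; e.g. the reductions of
the Atkin–Lehner involutions `w_d` of the levels `M p` and `M ℓ p`, `d ∣ M`).  Then

* `cph_hecke_comm` : `T̄_ℓ (w̄ u) = w̄ (T̄_ℓ u)` (`T̄_ℓ = lfhHeckeFun`);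
* `cph_rel`        : the eigen-relation `T̄_ℓ u = c · u ^ a · s ^ p` is inherited by `w̄ u`
                     (same `c`, `s ↦ w̄ s`);
* `cph_ord_inf`    : hence `p ∣ ord_∞ (w̄ u)` (`cpi_ord_inf`, helper15);
* `cph_ord_place`  : hence `p ∣ ord_Q u` for every place `Q` with `ord_Q = ord_∞ ∘ w̄`;
* `cph_compat`     : the compatibility `W̄ ∘ φ̄ = φ̄ ∘ w̄` of the reduced maps from the
                     compatibility `W ∘ φ = φ ∘ w` in characteristic `0` (abstract, for two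
                     constant reductions `R`, `R'`).
-/

set_option autoImplicit false
set_option linter.style.haveILetI false
set_option linter.unusedSectionVars false
set_option linter.unusedVariables false
set_option synthInstance.maxHeartbeats 400000

noncomputable section

namespace Fermat.Agent.S40lib

open ModularCurve AlgebraicCurve HahnSeries IntermediateField Fermat.Agent.GoodRed Fermat.Agent.GM
  Fermat.Agent.S24lib Fermat.Agent.S34lib

section CharP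

variable (k : Type) [Field k] (M ℓ : ℕ) [NeZero M] [NeZero ℓ]

/-- **Hecke commutes with `w̄`.** -/
theorem cph_hecke_comm (w : Fk k M ≃+* Fk k M) (W : Fk k (M * ℓ) ≃+* Fk k (M * ℓ))
    (hα : ∀ x : Fk k M, W (inclK k (dvd_mul_right M ℓ) x) = inclK k (dvd_mul_right M ℓ) (w x))
    (hβ : ∀ x : Fk k M, W (hkrBetaK k M ℓ x) = hkrBetaK k M ℓ (w x)) (u : Fk k M) :
    lfhHeckeFun k M ℓ (w u) = w (lfhHeckeFun k M ℓ u) := by
  unfold lfhHeckeFun
  letI := algebraAlong (inclK k (dvd_mul_right M ℓ))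
  have he : RingHom.comp (algebraMap (Fk k M) (Fk k (M * ℓ))) (w : Fk k M →+* Fk k M)
      = RingHom.comp (W : Fk k (M * ℓ) →+* Fk k (M * ℓ))
          (algebraMap (Fk k M) (Fk k (M * ℓ))) := by
    ext1 x
    exact (hα x).symm
  have h := Algebra.norm_eq_of_equiv_equiv w W he (hkrBetaK k M ℓ u)
  rw [hβ] at h
  rw [h, RingEquiv.apply_symm_apply]

/-- the eigen-relation is inherited by `w̄ u`. -/
theorem cph_rel (p : ℕ) (w : Fk k M ≃+* Fk k M) (W : Fk k (M * ℓ) ≃+* Fk k (M * ℓ))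
    (hα : ∀ x : Fk k M, W (inclK k (dvd_mul_right M ℓ) x) = inclK k (dvd_mul_right M ℓ) (w x))
    (hβ : ∀ x : Fk k M, W (hkrBetaK k M ℓ x) = hkrBetaK k M ℓ (w x))
    (hc : ∀ c : k, w (algebraMap k (Fk k M) c) = algebraMap k (Fk k M) c)
    (u : Fk k M) (a : ℤ) (c : k) (s : Fk k M)
    (hrel : lfhHeckeFun k M ℓ u = algebraMap k (Fk k M) c * u ^ a * s ^ p) :
    lfhHeckeFun k M ℓ (w u) = algebraMap k (Fk k M) c * (w u) ^ a * (w s) ^ p := by
  rw [cph_hecke_comm k M ℓ w W hα hβ u, hrel, map_mul, map_mul, hc, map_zpow₀, map_pow]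

end CharP

section Conc

variable (M p ℓ : ℕ) [NeZero M] [NeZero ℓ] (A : ValuationSubring (AlgebraicClosure ℚ))

/-- **the cusp `w̄⁻¹ ∞`**: `p ∣ ord_∞ (w̄ u)`. -/
theorem cph_ord_inf (hp : p.Prime) (hpM : ¬ p ∣ M) (hA : A.LiesOverPrime p)
    (hℓ : ℓ.Prime) (hℓp : ℓ ≠ p) (hℓM : ¬ ℓ ∣ M)
    (w : Fk (IsLocalRing.ResidueField A) M ≃+* Fk (IsLocalRing.ResidueField A) M)
    (W : Fk (IsLocalRing.ResidueField A) (M * ℓ) ≃+* Fk (IsLocalRing.ResidueField A) (M * ℓ))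
    (hα : ∀ x : Fk (IsLocalRing.ResidueField A) M,
      W (inclK (IsLocalRing.ResidueField A) (dvd_mul_right M ℓ) x)
        = inclK (IsLocalRing.ResidueField A) (dvd_mul_right M ℓ) (w x))
    (hβ : ∀ x : Fk (IsLocalRing.ResidueField A) M,
      W (hkrBetaK (IsLocalRing.ResidueField A) M ℓ x)
        = hkrBetaK (IsLocalRing.ResidueField A) M ℓ (w x))
    (hwc : ∀ c : IsLocalRing.ResidueField A,
      w (algebraMap (IsLocalRing.ResidueField A) (Fk (IsLocalRing.ResidueField A) M) c)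
        = algebraMap (IsLocalRing.ResidueField A) (Fk (IsLocalRing.ResidueField A) M) c)
    (u : Fk (IsLocalRing.ResidueField A) M) (hu0 : u ≠ 0) (a : ℤ)
    (hcop : ¬ (p : ℤ) ∣ a - (1 + (ℓ : ℤ)))
    (c : IsLocalRing.ResidueField A) (s : Fk (IsLocalRing.ResidueField A) M)
    (hc : c ≠ 0) (hs : s ≠ 0)
    (hrel : lfhHeckeFun (IsLocalRing.ResidueField A) M ℓ u
      = algebraMap (IsLocalRing.ResidueField A) (Fk (IsLocalRing.ResidueField A) M) c
        * u ^ a * s ^ p) :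
    (p : ℤ) ∣ (infPlaceC (IsLocalRing.ResidueField A) M).ord (w u) := by
  have hwu : w u ≠ 0 := fun h => hu0 ((map_eq_zero_iff w w.injective).mp h)
  have hws : w s ≠ 0 := fun h => hs ((map_eq_zero_iff w w.injective).mp h)
  exact cpi_ord_inf M p ℓ A hp hpM hA hℓ hℓp hℓM (w u) hwu a hcop c (w s) hc hws
    (cph_rel (IsLocalRing.ResidueField A) M ℓ p w W hα hβ hwc u a c s hrel)

/-- **the cusp `Q = w̄⁻¹ ∞`**, place form: `p ∣ ord_Q u` for every place `Q` of `F_{M,k}` with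
`ord_Q = ord_∞ ∘ w̄`. -/
theorem cph_ord_place (hp : p.Prime) (hpM : ¬ p ∣ M) (hA : A.LiesOverPrime p)
    (hℓ : ℓ.Prime) (hℓp : ℓ ≠ p) (hℓM : ¬ ℓ ∣ M)
    (w : Fk (IsLocalRing.ResidueField A) M ≃+* Fk (IsLocalRing.ResidueField A) M)
    (W : Fk (IsLocalRing.ResidueField A) (M * ℓ) ≃+* Fk (IsLocalRing.ResidueField A) (M * ℓ))
    (hα : ∀ x : Fk (IsLocalRing.ResidueField A) M,
      W (inclK (IsLocalRing.ResidueField A) (dvd_mul_right M ℓ) x)
        = inclK (IsLocalRing.ResidueField A) (dvd_mul_right M ℓ) (w x))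
    (hβ : ∀ x : Fk (IsLocalRing.ResidueField A) M,
      W (hkrBetaK (IsLocalRing.ResidueField A) M ℓ x)
        = hkrBetaK (IsLocalRing.ResidueField A) M ℓ (w x))
    (hwc : ∀ c : IsLocalRing.ResidueField A,
      w (algebraMap (IsLocalRing.ResidueField A) (Fk (IsLocalRing.ResidueField A) M) c)
        = algebraMap (IsLocalRing.ResidueField A) (Fk (IsLocalRing.ResidueField A) M) c)
    (Q : Place (IsLocalRing.ResidueField A) (Fk (IsLocalRing.ResidueField A) M))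
    (hQ : ∀ x : Fk (IsLocalRing.ResidueField A) M,
      Q.ord x = (infPlaceC (IsLocalRing.ResidueField A) M).ord (w x))
    (u : Fk (IsLocalRing.ResidueField A) M) (hu0 : u ≠ 0) (a : ℤ)
    (hcop : ¬ (p : ℤ) ∣ a - (1 + (ℓ : ℤ)))
    (c : IsLocalRing.ResidueField A) (s : Fk (IsLocalRing.ResidueField A) M)
    (hc : c ≠ 0) (hs : s ≠ 0)
    (hrel : lfhHeckeFun (IsLocalRing.ResidueField A) M ℓ u
      = algebraMap (IsLocalRing.ResidueField A) (Fk (IsLocalRing.ResidueField A) M) c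
        * u ^ a * s ^ p) :
    (p : ℤ) ∣ Q.ord u := by
  rw [hQ]
  exact cph_ord_inf M p ℓ A hp hpM hA hℓ hℓp hℓM w W hα hβ hwc u hu0 a hcop c s hc hs hrel

end Conc

section Compat

variable {K : Type*} [Field K] {k : Type*} [Field k]
variable {A : ValuationSubring K} {π : A →+* k}
variable {F F' : Type*} [Field F] [Field F'] [Algebra K F] [Algebra K F']
variable {κ κ' : Type*} [Field κ] [Field κ'] [Algebra k κ] [Algebra k κ']

/-- **compatibility of the reduced maps**: `R`, `R'` constant reductions of `F`, `F'`;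
`w`, `W` maps of `F`, `F'` preserving the unit balls, with reductions `w̄`, `W̄`;
`φ : F → F'` with reduction `φ̄`; then `W ∘ φ = φ ∘ w` implies `W̄ ∘ φ̄ = φ̄ ∘ w̄`. -/
theorem cph_compat (R : ConstRed A π κ F) (R' : ConstRed A π κ' F')
    (w : F → F) (W : F' → F') (φ : F → F') (wb : κ → κ) (Wb : κ' → κ') (φb : κ → κ')
    (hw : ∀ x ∈ R.O, w x ∈ R.O) (hW : ∀ x ∈ R'.O, W x ∈ R'.O) (hφ : ∀ x ∈ R.O, φ x ∈ R'.O)
    (hwb : ∀ (x : F) (hx : x ∈ R.O), R.red ⟨w x, hw x hx⟩ = wb (R.red ⟨x, hx⟩))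
    (hWb : ∀ (x : F') (hx : x ∈ R'.O), R'.red ⟨W x, hW x hx⟩ = Wb (R'.red ⟨x, hx⟩))
    (hφb : ∀ (x : F) (hx : x ∈ R.O), R'.red ⟨φ x, hφ x hx⟩ = φb (R.red ⟨x, hx⟩))
    (hcomm : ∀ x : F, W (φ x) = φ (w x)) (y : κ) :
    Wb (φb y) = φb (wb y) := by
  obtain ⟨⟨x, hx⟩, rfl⟩ := R.red_surjective y
  rw [← hφb x hx, ← hWb (φ x) (hφ x hx), ← hwb x hx, ← hφb (w x) (hw x hx)]
  congr 1
  exact Subtype.ext (hcomm x)

end Compat

end Fermat.Agent.S40lib

end
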