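import Mathlib
import Fermat.Agent.S36lib.Speed
import Fermat.Agent.S40lib.CuspHecke
import Fermat.Agent.GM.RedGenTwist

/-!
# Item 88 (S40/S44): the CUSP GAP, piece (b), part 2 (helper25): the compatibilities on generators

`w̄ : F_{M,k} ≃ F_{M,k}` and `W̄ : F_{Mℓ,k} ≃ F_{Mℓ,k}` which fix the constants and permute the
generators `j̄_d = j̄(q^d)` (`w̄ j̄_d = j̄_{σ d}`, `W̄ j̄_e = j̄_{σ' e}`), with `σ' d = σ d` and
`σ' (d ℓ) = (σ d) ℓ` for `d ∣ M` (Atkin–Lehner: `σ = σ_Q`, `Q ∣ M`).  Then the hypotheses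
`hα`, `hβ` of `cph_hecke_comm` hold:

* `cph2_gen`, `cph2_incl_gen`, `cph2_beta_gen` : the generators as elements, and their images;
* `cph2_alpha` : `W̄ ∘ incl = incl ∘ w̄`;
* `cph2_beta`  : `W̄ ∘ β̄ = β̄ ∘ w̄`;
* `cph2_ord_inf`, `cph2_ord_place` : `p ∣ ord_∞ (w̄ u)`, `p ∣ ord_Q u` (`ord_Q = ord_∞ ∘ w̄`) from
  the generator conditions.
-/

set_option autoImplicit false
set_option linter.style.haveILetI false
set_option linter.unusedSectionVars false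
set_option linter.unusedVariables false
set_option synthInstance.maxHeartbeats 400000

noncomputable section

namespace Fermat.Agent.S40lib

open ModularCurve AlgebraicCurve HahnSeries IntermediateField Fermat.Agent.GoodRed Fermat.Agent.GM
  Fermat.Agent.S24lib Fermat.Agent.S34lib

section Gen

variable (k : Type) [Field k] (M ℓ : ℕ) [NeZero M] [NeZero ℓ]

/-- the generator `j̄_d` of `F_{M,k}` -/
def cph2_gen (d : Dv M) : Fk k M := polyF (M := M) (MvPolynomial.X d)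

theorem cph2_coe_gen (d : Dv M) :
    ((cph2_gen k M d : Fk k M) : LaurentSeries k) = jbarGen k M d := by
  rw [cph2_gen, coe_polyF, MvPolynomial.aeval_X]

/-- `d ∣ M` as a divisor of `M ℓ` -/
def cph2_up (d : Dv M) : Dv (M * ℓ) := ⟨d.1, Dvd.dvd.mul_right d.2 ℓ⟩

/-- `d ℓ` as a divisor of `M ℓ` -/
def cph2_upℓ (d : Dv M) : Dv (M * ℓ) := ⟨d.1 * ℓ, Nat.mul_dvd_mul_right d.2 ℓ⟩

theorem cph2_incl_gen (d : Dv M) :
    inclK k (dvd_mul_right M ℓ) (cph2_gen k M d) = cph2_gen k (M * ℓ) (cph2_up M ℓ d) := by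
  apply Subtype.ext
  rw [coe_inclK, cph2_coe_gen, cph2_coe_gen]
  rfl

theorem cph2_beta_gen (d : Dv M) :
    hkrBetaK k M ℓ (cph2_gen k M d) = cph2_gen k (M * ℓ) (cph2_upℓ M ℓ d) := by
  apply Subtype.ext
  rw [hkr_coe_betaK, cph2_coe_gen, cph2_coe_gen]
  haveI : NeZero d.1 := ⟨d.ne_zero⟩
  haveI : NeZero (d.1 * ℓ) := ⟨Nat.mul_ne_zero d.ne_zero (NeZero.ne ℓ)⟩
  haveI : NeZero (ℓ * d.1) := ⟨Nat.mul_ne_zero (NeZero.ne ℓ) d.ne_zero⟩
  show qExpand k ℓ (qExpand k d.1 (jqModC k)) = qExpand k (d.1 * ℓ) (jqModC k)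
  rw [qExpand_qExpand]
  exact qExpand_congr (Nat.mul_comm ℓ d.1) _

/-- two ring homs `F_{M,k} → L` agreeing on the constants and on the generators are equal -/
theorem cph2_ringHom_ext {L : Type*} [Field L] (φ ψ : Fk k M →+* L)
    (hc : ∀ c : k, φ (algebraMap k (Fk k M) c) = ψ (algebraMap k (Fk k M) c))
    (hg : ∀ d : Dv M, φ (cph2_gen k M d) = ψ (cph2_gen k M d)) : φ = ψ := by
  apply Fk_ringHom_ext
  intro P
  have h : φ.comp (polyF (k := k) (M := M)) = ψ.comp (polyF (k := k) (M := M)) := by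
    apply MvPolynomial.ringHom_ext
    · intro c
      rw [RingHom.comp_apply, RingHom.comp_apply, polyF_C]
      exact hc c
    · intro d
      exact hg d
  exact RingHom.congr_fun h P

variable (w : Fk k M ≃+* Fk k M) (W : Fk k (M * ℓ) ≃+* Fk k (M * ℓ))
  (σ : Dv M → Dv M) (σ' : Dv (M * ℓ) → Dv (M * ℓ))

/-- `W̄ ∘ incl = incl ∘ w̄` -/
theorem cph2_alpha
    (hwc : ∀ c : k, w (algebraMap k (Fk k M) c) = algebraMap k (Fk k M) c)
    (hWc : ∀ c : k, W (algebraMap k (Fk k (M * ℓ)) c) = algebraMap k (Fk k (M * ℓ)) c)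
    (hw : ∀ d : Dv M, w (cph2_gen k M d) = cph2_gen k M (σ d))
    (hW : ∀ e : Dv (M * ℓ), W (cph2_gen k (M * ℓ) e) = cph2_gen k (M * ℓ) (σ' e))
    (hσ : ∀ d : Dv M, σ' (cph2_up M ℓ d) = cph2_up M ℓ (σ d)) (x : Fk k M) :
    W (inclK k (dvd_mul_right M ℓ) x) = inclK k (dvd_mul_right M ℓ) (w x) := by
  have key : (W : Fk k (M * ℓ) →+* Fk k (M * ℓ)).comp
      ((inclK k (dvd_mul_right M ℓ) : Fk k M →ₐ[k] Fk k (M * ℓ)) : Fk k M →+* Fk k (M * ℓ))
      = ((inclK k (dvd_mul_right M ℓ) : Fk k M →ₐ[k] Fk k (M * ℓ)) :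
          Fk k M →+* Fk k (M * ℓ)).comp (w : Fk k M →+* Fk k M) := by
    apply cph2_ringHom_ext
    · intro c
      simp only [RingHom.comp_apply, RingHom.coe_coe, AlgHom.commutes]
      rw [hWc, hwc, AlgHom.commutes]
    · intro d
      simp only [RingHom.comp_apply, RingHom.coe_coe]
      rw [cph2_incl_gen, hW, hw, cph2_incl_gen, hσ]
  exact RingHom.congr_fun key x

/-- `W̄ ∘ β̄ = β̄ ∘ w̄` -/
theorem cph2_beta
    (hwc : ∀ c : k, w (algebraMap k (Fk k M) c) = algebraMap k (Fk k M) c)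
    (hWc : ∀ c : k, W (algebraMap k (Fk k (M * ℓ)) c) = algebraMap k (Fk k (M * ℓ)) c)
    (hw : ∀ d : Dv M, w (cph2_gen k M d) = cph2_gen k M (σ d))
    (hW : ∀ e : Dv (M * ℓ), W (cph2_gen k (M * ℓ) e) = cph2_gen k (M * ℓ) (σ' e))
    (hσℓ : ∀ d : Dv M, σ' (cph2_upℓ M ℓ d) = cph2_upℓ M ℓ (σ d)) (x : Fk k M) :
    W (hkrBetaK k M ℓ x) = hkrBetaK k M ℓ (w x) := by
  have hβc : ∀ c : k, hkrBetaK k M ℓ (algebraMap k (Fk k M) c)
      = algebraMap k (Fk k (M * ℓ)) c := by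
    intro c
    apply Subtype.ext
    rw [hkr_coe_betaK]
    show qExpand k ℓ (algebraMap k (LaurentSeries k) c) = algebraMap k (LaurentSeries k) c
    rw [algebraMap_eq_C, qExpand_C]
  have key : (W : Fk k (M * ℓ) →+* Fk k (M * ℓ)).comp (hkrBetaK k M ℓ)
      = (hkrBetaK k M ℓ).comp (w : Fk k M →+* Fk k M) := by
    apply cph2_ringHom_ext
    · intro c
      simp only [RingHom.comp_apply, RingHom.coe_coe]
      rw [hβc, hWc, hwc, hβc]
    · intro d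
      simp only [RingHom.comp_apply, RingHom.coe_coe]
      rw [cph2_beta_gen, hW, hw, cph2_beta_gen, hσℓ]
  exact RingHom.congr_fun key x

end Gen

section Conc

variable (M p ℓ : ℕ) [NeZero M] [NeZero ℓ] (A : ValuationSubring (AlgebraicClosure ℚ))

/-- **the cusp `w̄⁻¹ ∞`** from the generator conditions: `p ∣ ord_∞ (w̄ u)`. -/
theorem cph2_ord_inf (hp : p.Prime) (hpM : ¬ p ∣ M) (hA : A.LiesOverPrime p)
    (hℓ : ℓ.Prime) (hℓp : ℓ ≠ p) (hℓM : ¬ ℓ ∣ M)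
    (w : Fk (IsLocalRing.ResidueField A) M ≃+* Fk (IsLocalRing.ResidueField A) M)
    (W : Fk (IsLocalRing.ResidueField A) (M * ℓ) ≃+* Fk (IsLocalRing.ResidueField A) (M * ℓ))
    (σ : Dv M → Dv M) (σ' : Dv (M * ℓ) → Dv (M * ℓ))
    (hwc : ∀ c : IsLocalRing.ResidueField A,
      w (algebraMap (IsLocalRing.ResidueField A) (Fk (IsLocalRing.ResidueField A) M) c)
        = algebraMap (IsLocalRing.ResidueField A) (Fk (IsLocalRing.ResidueField A) M) c)
    (hWc : ∀ c : IsLocalRing.ResidueField A,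
      W (algebraMap (IsLocalRing.ResidueField A) (Fk (IsLocalRing.ResidueField A) (M * ℓ)) c)
        = algebraMap (IsLocalRing.ResidueField A) (Fk (IsLocalRing.ResidueField A) (M * ℓ)) c)
    (hw : ∀ d : Dv M, w (cph2_gen (IsLocalRing.ResidueField A) M d)
      = cph2_gen (IsLocalRing.ResidueField A) M (σ d))
    (hW : ∀ e : Dv (M * ℓ), W (cph2_gen (IsLocalRing.ResidueField A) (M * ℓ) e)
      = cph2_gen (IsLocalRing.ResidueField A) (M * ℓ) (σ' e))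
    (hσ : ∀ d : Dv M, σ' (cph2_up M ℓ d) = cph2_up M ℓ (σ d))
    (hσℓ : ∀ d : Dv M, σ' (cph2_upℓ M ℓ d) = cph2_upℓ M ℓ (σ d))
    (u : Fk (IsLocalRing.ResidueField A) M) (hu0 : u ≠ 0) (a : ℤ)
    (hcop : ¬ (p : ℤ) ∣ a - (1 + (ℓ : ℤ)))
    (c : IsLocalRing.ResidueField A) (s : Fk (IsLocalRing.ResidueField A) M)
    (hc : c ≠ 0) (hs : s ≠ 0)
    (hrel : lfhHeckeFun (IsLocalRing.ResidueField A) M ℓ u
      = algebraMap (IsLocalRing.ResidueField A) (Fk (IsLocalRing.ResidueField A) M) c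
        * u ^ a * s ^ p) :
    (p : ℤ) ∣ (infPlaceC (IsLocalRing.ResidueField A) M).ord (w u) :=
  cph_ord_inf M p ℓ A hp hpM hA hℓ hℓp hℓM w W
    (cph2_alpha (IsLocalRing.ResidueField A) M ℓ w W σ σ' hwc hWc hw hW hσ)
    (cph2_beta (IsLocalRing.ResidueField A) M ℓ w W σ σ' hwc hWc hw hW hσℓ)
    hwc u hu0 a hcop c s hc hs hrel

/-- **the cusp `Q = w̄⁻¹ ∞`**, place form, from the generator conditions. -/
theorem cph2_ord_place (hp : p.Prime) (hpM : ¬ p ∣ M) (hA : A.LiesOverPrime p)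
    (hℓ : ℓ.Prime) (hℓp : ℓ ≠ p) (hℓM : ¬ ℓ ∣ M)
    (w : Fk (IsLocalRing.ResidueField A) M ≃+* Fk (IsLocalRing.ResidueField A) M)
    (W : Fk (IsLocalRing.ResidueField A) (M * ℓ) ≃+* Fk (IsLocalRing.ResidueField A) (M * ℓ))
    (σ : Dv M → Dv M) (σ' : Dv (M * ℓ) → Dv (M * ℓ))
    (hwc : ∀ c : IsLocalRing.ResidueField A,
      w (algebraMap (IsLocalRing.ResidueField A) (Fk (IsLocalRing.ResidueField A) M) c)
        = algebraMap (IsLocalRing.ResidueField A) (Fk (IsLocalRing.ResidueField A) M) c)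
    (hWc : ∀ c : IsLocalRing.ResidueField A,
      W (algebraMap (IsLocalRing.ResidueField A) (Fk (IsLocalRing.ResidueField A) (M * ℓ)) c)
        = algebraMap (IsLocalRing.ResidueField A) (Fk (IsLocalRing.ResidueField A) (M * ℓ)) c)
    (hw : ∀ d : Dv M, w (cph2_gen (IsLocalRing.ResidueField A) M d)
      = cph2_gen (IsLocalRing.ResidueField A) M (σ d))
    (hW : ∀ e : Dv (M * ℓ), W (cph2_gen (IsLocalRing.ResidueField A) (M * ℓ) e)
      = cph2_gen (IsLocalRing.ResidueField A) (M * ℓ) (σ' e))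
    (hσ : ∀ d : Dv M, σ' (cph2_up M ℓ d) = cph2_up M ℓ (σ d))
    (hσℓ : ∀ d : Dv M, σ' (cph2_upℓ M ℓ d) = cph2_upℓ M ℓ (σ d))
    (Q : Place (IsLocalRing.ResidueField A) (Fk (IsLocalRing.ResidueField A) M))
    (hQ : ∀ x : Fk (IsLocalRing.ResidueField A) M,
      Q.ord x = (infPlaceC (IsLocalRing.ResidueField A) M).ord (w x))
    (u : Fk (IsLocalRing.ResidueField A) M) (hu0 : u ≠ 0) (a : ℤ)
    (hcop : ¬ (p : ℤ) ∣ a - (1 + (ℓ : ℤ)))
    (c : IsLocalRing.ResidueField A) (s : Fk (IsLocalRing.ResidueField A) M)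
    (hc : c ≠ 0) (hs : s ≠ 0)
    (hrel : lfhHeckeFun (IsLocalRing.ResidueField A) M ℓ u
      = algebraMap (IsLocalRing.ResidueField A) (Fk (IsLocalRing.ResidueField A) M) c
        * u ^ a * s ^ p) :
    (p : ℤ) ∣ Q.ord u := by
  rw [hQ]
  exact cph2_ord_inf M p ℓ A hp hpM hA hℓ hℓp hℓM w W σ σ' hwc hWc hw hW hσ hσℓ u hu0 a hcop
    c s hc hs hrel

end Conc

end Fermat.Agent.S40lib

end
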