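import Mathlib
import Fermat.Agent.S36lib.Speed
import Fermat.Agent.S40lib.CuspAL
import Fermat.Agent.S40lib.CuspHecke2
import Fermat.Agent.S34lib.LiftInfCusp
import Fermat.Agent.S35lib.DegJBeta

/-!
# Item 88 (S44), the CUSP GAP: the reduced Atkin–Lehner involutions `w̄_q` and their
compatibilities (helper8)

`M` a level, `p ∤ M`, `q ‖ M` a prime, `ℓ ∤ p q` a prime; `k` the residue field of `A`.

* `cpcSigma` : the permutation `d ↦ σ_q d` of the divisors of `M`;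
* `cpc_gen` : `w̄_q j̄_d = j̄_{σ_q d}` (`w̄_q = cplBar`);
* `cpc_ord_jk` : `ord_∞ (w̄_q j̄) = - q`;
* `cpc_main` : **the inputs of the cusp step for the prime `q`**: ring automorphisms
  `w̄` of `F_{M,k}`, `W̄` of `F_{Mℓ,k}` with `W̄ ∘ incl = incl ∘ w̄`, `W̄ ∘ β̄ = β̄ ∘ w̄`, which fix the
  constants and act on the generators by `σ_q`, and `ord_∞ (w̄ j̄) = - q`.
-/

set_option autoImplicit false
set_option linter.style.haveILetI false
set_option linter.unusedSectionVars false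
set_option linter.unusedVariables false
set_option synthInstance.maxHeartbeats 400000

noncomputable section

namespace Fermat.Agent.S40lib

open ModularCurve AlgebraicCurve HahnSeries Fermat.Agent.GoodRed Fermat.Agent.GM
  Fermat.Agent.S24lib Fermat.Agent.HeckeBar Fermat.Agent.S34lib Fermat.Agent.S35lib

/-- the permutation of the divisors of `M` induced by `w_q` -/
def cpcSigma (M q : ℕ) (hq : q.Prime) (hqM : q ∣ M) (d : Dv M) : Dv M :=
  ⟨alSwap q d.1, alSwap_dvd hq hqM d.2⟩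

theorem cpc_alSwap_mul {q ℓ : ℕ} (hq : q.Prime) (hℓ : ℓ.Prime) (hne : ℓ ≠ q) (d : ℕ) :
    alSwap q (d * ℓ) = alSwap q d * ℓ := by
  have hqℓ : ¬ q ∣ ℓ := fun h => hne ((Nat.prime_dvd_prime_iff_eq hq hℓ).1 h).symm
  by_cases h : q ∣ d
  · rw [alSwap_of_dvd (h.mul_right ℓ), alSwap_of_dvd h]
    obtain ⟨e, rfl⟩ := h
    rw [Nat.mul_div_cancel_left e hq.pos, mul_assoc, Nat.mul_div_cancel_left _ hq.pos]
  · have h' : ¬ q ∣ d * ℓ := fun hd =>
      ((Nat.Prime.dvd_mul hq).1 hd).elim h hqℓ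
    rw [alSwap_of_not_dvd h', alSwap_of_not_dvd h]
    ring

section Bar

variable (M q p : ℕ) [NeZero M] [NeZero q] (A : ValuationSubring Kbar)
variable (hp : p.Prime) (hpM : ¬ p ∣ M) (hA : A.LiesOverPrime p)
  (hq : q.Prime) (hqM : q ∣ M) (hq2 : ¬ q ^ 2 ∣ M)
  (R : ConstRed A (IsLocalRing.residue A) (Fk (IsLocalRing.ResidueField A) M) (FF M))
  (hR : IsSeriesRed R)

include hR in
/-- `red j_d` is the generator `j̄_d` -/
theorem cpc_red_jdF (d : ℕ) [NeZero d] (hd : d ∣ M) (h : jdF M d hd ∈ R.O) :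
    R.red ⟨jdF M d hd, h⟩ = cph2_gen (IsLocalRing.ResidueField A) M ⟨d, hd⟩ := by
  apply Subtype.ext
  rw [cph2_coe_gen]
  exact liftInf_coe_red_jdF hR d hd

/-- `w̄_q j̄_d = j̄_{σ_q d}` -/
theorem cpc_gen (d : Dv M) :
    cplBar M q p A hp hpM hA hq hqM hq2 R hR (cph2_gen (IsLocalRing.ResidueField A) M d) =
      cph2_gen (IsLocalRing.ResidueField A) M (cpcSigma M q hq hqM d) := by
  haveI : NeZero d.1 := ⟨d.ne_zero⟩
  haveI : NeZero (alSwap q d.1) := ⟨alSwap_ne_zero hq (NeZero.ne d.1)⟩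
  have h0 := liftInf_jdF_mem hR d.1 d.2
  obtain ⟨h', h⟩ := cplBar_red_jdF M q p A hp hpM hA hq hqM hq2 R hR d.1 d.2 h0
  rw [cpc_red_jdF M A R hR d.1 d.2 h0, cpc_red_jdF M A R hR _ _ h'] at h
  exact h

/-- `ord_∞ (w̄_q j̄) = - q` -/
theorem cpc_ord_jk :
    (infPlaceC (IsLocalRing.ResidueField A) M).ord
      (cplBar M q p A hp hpM hA hq hqM hq2 R hR (jk (IsLocalRing.ResidueField A) M)) =
      -(q : ℤ) := by
  have h1 : jk (IsLocalRing.ResidueField A) M =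
      cph2_gen (IsLocalRing.ResidueField A) M ⟨1, one_dvd M⟩ := by
    apply Subtype.ext
    rw [cph2_coe_gen, coe_jk]
    show jqModC (IsLocalRing.ResidueField A) =
      qExpand (IsLocalRing.ResidueField A) 1 (jqModC (IsLocalRing.ResidueField A))
    rw [qExpand_one_apply]
  rw [h1, cpc_gen, infPlaceC_ord, cph2_coe_gen]
  have hq1 : ¬ q ∣ 1 := fun h => hq.one_lt.ne' (Nat.dvd_one.1 h)
  have h2 : (cpcSigma M q hq hqM ⟨1, one_dvd M⟩ : Dv M) = ⟨q, hqM⟩ := by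
    apply Subtype.ext
    show alSwap q 1 = q
    rw [alSwap_of_not_dvd hq1, one_mul]
  rw [h2]
  show (qExpand (IsLocalRing.ResidueField A) q (jqModC (IsLocalRing.ResidueField A))).order = _
  rw [rg_order_qExpand, rg_order_jqModC]
  ring

end Bar

section Main

variable (M q p ℓ : ℕ) [NeZero M] [NeZero q] [NeZero ℓ] (A : ValuationSubring Kbar)

/-- **the inputs of the cusp step for the prime `q ‖ M`**: the reductions `w̄` (level `M`) and
`W̄` (level `M ℓ`) of the Atkin–Lehner involution `w_q`, with their compatibilities. -/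
theorem cpc_main (hp : p.Prime) (hpM : ¬ p ∣ M) (hA : A.LiesOverPrime p)
    (hq : q.Prime) (hqM : q ∣ M) (hq2 : ¬ q ^ 2 ∣ M)
    (hℓ : ℓ.Prime) (hℓp : ℓ ≠ p) (hℓq : ℓ ≠ q) :
    ∃ (w : Fk (IsLocalRing.ResidueField A) M ≃+* Fk (IsLocalRing.ResidueField A) M)
      (W : Fk (IsLocalRing.ResidueField A) (M * ℓ) ≃+*
        Fk (IsLocalRing.ResidueField A) (M * ℓ)),
      (∀ x : Fk (IsLocalRing.ResidueField A) M,
        W (inclK (IsLocalRing.ResidueField A) (dvd_mul_right M ℓ) x)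
          = inclK (IsLocalRing.ResidueField A) (dvd_mul_right M ℓ) (w x)) ∧
      (∀ x : Fk (IsLocalRing.ResidueField A) M,
        W (hkrBetaK (IsLocalRing.ResidueField A) M ℓ x)
          = hkrBetaK (IsLocalRing.ResidueField A) M ℓ (w x)) ∧
      (∀ c : IsLocalRing.ResidueField A,
        w (algebraMap (IsLocalRing.ResidueField A) (Fk (IsLocalRing.ResidueField A) M) c)
          = algebraMap (IsLocalRing.ResidueField A) (Fk (IsLocalRing.ResidueField A) M) c) ∧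
      (∀ c : IsLocalRing.ResidueField A,
        W (algebraMap (IsLocalRing.ResidueField A)
            (Fk (IsLocalRing.ResidueField A) (M * ℓ)) c)
          = algebraMap (IsLocalRing.ResidueField A)
            (Fk (IsLocalRing.ResidueField A) (M * ℓ)) c) ∧
      (∀ d : Dv M, w (cph2_gen (IsLocalRing.ResidueField A) M d)
        = cph2_gen (IsLocalRing.ResidueField A) M (cpcSigma M q hq hqM d)) ∧
      (∀ e : Dv (M * ℓ), W (cph2_gen (IsLocalRing.ResidueField A) (M * ℓ) e)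
        = cph2_gen (IsLocalRing.ResidueField A) (M * ℓ)
            (cpcSigma (M * ℓ) q hq (hqM.mul_right ℓ) e)) ∧
      (∀ y : Fk (IsLocalRing.ResidueField A) M, w (w y) = y) ∧
      (infPlaceC (IsLocalRing.ResidueField A) M).ord
        (w (jk (IsLocalRing.ResidueField A) M)) = -(q : ℤ) := by
  haveI : Fact p.Prime := ⟨hp⟩
  haveI : NeZero (M * ℓ) := ⟨Nat.mul_ne_zero (NeZero.ne M) (NeZero.ne ℓ)⟩
  have hAtop : A ≠ ⊤ := cri_ne_top p A (A.mem_nonunits_iff.mp hA) hp.ne_zero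
  have hpMℓ : ¬ p ∣ M * ℓ := fun h =>
    ((Nat.Prime.dvd_mul hp).1 h).elim hpM
      (fun h' => hℓp ((Nat.prime_dvd_prime_iff_eq hp hℓ).1 h').symm)
  have hq2ℓ : ¬ q ^ 2 ∣ M * ℓ := dgj_not_sq_dvd_mul hq hℓ hℓq hq2
  obtain ⟨R, hR⟩ := exists_modConstRed M A hAtop (Fermat.Agent.GoodRed.hred_modL M hpM A hA)
  obtain ⟨Rl, hRl⟩ := exists_modConstRed (M * ℓ) A hAtop
    (Fermat.Agent.GoodRed.hred_modL (M * ℓ) hpMℓ A hA)
  have hwc := cplBar_algebraMap M q p A hp hpM hA hq hqM hq2 R hR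
  have hWc := cplBar_algebraMap (M * ℓ) q p A hp hpMℓ hA hq (hqM.mul_right ℓ) hq2ℓ Rl hRl
  have hw := cpc_gen M q p A hp hpM hA hq hqM hq2 R hR
  have hW := cpc_gen (M * ℓ) q p A hp hpMℓ hA hq (hqM.mul_right ℓ) hq2ℓ Rl hRl
  have hσ : ∀ d : Dv M, cpcSigma (M * ℓ) q hq (hqM.mul_right ℓ) (cph2_up M ℓ d)
      = cph2_up M ℓ (cpcSigma M q hq hqM d) := fun d => Subtype.ext rfl
  have hσℓ : ∀ d : Dv M, cpcSigma (M * ℓ) q hq (hqM.mul_right ℓ) (cph2_upℓ M ℓ d)
      = cph2_upℓ M ℓ (cpcSigma M q hq hqM d) := fun d =>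
    Subtype.ext (cpc_alSwap_mul hq hℓ hℓq d.1)
  refine ⟨cplBar M q p A hp hpM hA hq hqM hq2 R hR,
    cplBar (M * ℓ) q p A hp hpMℓ hA hq (hqM.mul_right ℓ) hq2ℓ Rl hRl, ?_, ?_, hwc, hWc, hw, hW,
    cplBar_invol M q p A hp hpM hA hq hqM hq2 R hR,
    cpc_ord_jk M q p A hp hpM hA hq hqM hq2 R hR⟩
  · exact cph2_alpha (IsLocalRing.ResidueField A) M ℓ _ _ _ _ hwc hWc hw hW hσ
  · exact cph2_beta (IsLocalRing.ResidueField A) M ℓ _ _ _ _ hwc hWc hw hW hσℓ

end Main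


end Fermat.Agent.S40lib

end
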