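import Mathlib
import Fermat.Agent.S36lib.Speed
import Fermat.Agent.S40lib.CuspHecke2
import Fermat.Agent.S40lib.CuspAL
import Fermat.Agent.S34lib.LiftInfCusp
import Fermat.Agent.GM.RedGenBase

/-!
# Item 88 (S40/S44): the CUSP GAP, wiring for a PRIME `q ‖ M` (helper25)

`M` a good level (`p ∤ M`), `q ‖ M` prime, `ℓ ∤ M p` prime, `R`, `R'` the series reductions of
`FF M`, `FF (M ℓ)`; `w̄_q = cplBar M q` and `W̄_q = cplBar (M ℓ) q` (helper8, `CuspAL`).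

* `cph3_red_gen`  : `red j_d = j̄_d` (`cph2_gen`);
* `cph3_gen`      : `w̄_q j̄_d = j̄_{σ_q d}` (`σ_q = alSwap q`);
* `cph3_alpha`    : `W̄_q ∘ incl = incl ∘ w̄_q`   (`hα` of `cph_hecke_comm`, `ccs_cusp_step`);
* `cph3_beta`     : `W̄_q ∘ β̄_ℓ = β̄_ℓ ∘ w̄_q`   (`hβ`);
* `cph3_ord_gen`  : `ord_∞ j̄_d = -d`;
* `cph3_ord_jk`   : `ord_∞ (w̄_q j̄) = -q`.
-/

set_option autoImplicit false
set_option linter.style.haveILetI false
set_option linter.unusedSectionVars false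
set_option linter.unusedVariables false
set_option synthInstance.maxHeartbeats 400000

noncomputable section

namespace Fermat.Agent.S40lib

open ModularCurve AlgebraicCurve HahnSeries IntermediateField Fermat.Agent.GoodRed Fermat.Agent.GM
  Fermat.Agent.S24lib Fermat.Agent.S34lib

section Wire

variable (M q p : ℕ) [NeZero M] [NeZero q] (A : ValuationSubring Kbar)
variable (hp : p.Prime) (hpM : ¬ p ∣ M) (hA : A.LiesOverPrime p)
  (hq : q.Prime) (hqM : q ∣ M) (hq2 : ¬ q ^ 2 ∣ M)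
  (R : ConstRed A (IsLocalRing.residue A) (Fk (IsLocalRing.ResidueField A) M) (FF M))
  (hR : IsSeriesRed R)

/-- the swap `σ_q` on the divisors of `M` -/
def cph3_σ (hq : q.Prime) (hqM : q ∣ M) (d : Dv M) : Dv M :=
  ⟨alSwap q d.1, alSwap_dvd hq hqM d.2⟩

/-- `red j_d = j̄_d` -/
theorem cph3_red_gen (hR : IsSeriesRed R) (d : Dv M) :
    haveI : NeZero d.1 := ⟨d.ne_zero⟩
    ∀ h : jdF M d.1 d.2 ∈ R.O,
      R.red ⟨jdF M d.1 d.2, h⟩ = cph2_gen (IsLocalRing.ResidueField A) M d := by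
  haveI : NeZero d.1 := ⟨d.ne_zero⟩
  intro h
  apply Subtype.ext
  rw [cph2_coe_gen]
  exact liftInf_coe_red_jdF hR d.1 d.2

/-- **`w̄_q j̄_d = j̄_{σ_q d}`** -/
theorem cph3_gen (d : Dv M) :
    cplBar M q p A hp hpM hA hq hqM hq2 R hR (cph2_gen (IsLocalRing.ResidueField A) M d)
      = cph2_gen (IsLocalRing.ResidueField A) M (cph3_σ M q hq hqM d) := by
  haveI : NeZero d.1 := ⟨d.ne_zero⟩
  haveI : NeZero (alSwap q d.1) := ⟨alSwap_ne_zero hq d.ne_zero⟩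
  have h : jdF M d.1 d.2 ∈ R.O := liftInf_jdF_mem hR d.1 d.2
  rw [← cph3_red_gen M A R hR d h]
  obtain ⟨h', e⟩ := cplBar_red_jdF M q p A hp hpM hA hq hqM hq2 R hR d.1 d.2 h
  rw [e]
  exact cph3_red_gen M A R hR (cph3_σ M q hq hqM d) h'

/-- `ord_∞ j̄_d = -d` -/
theorem cph3_ord_gen (d : Dv M) :
    (infPlaceC (IsLocalRing.ResidueField A) M).ord (cph2_gen (IsLocalRing.ResidueField A) M d)
      = -(d.1 : ℤ) := by
  haveI : NeZero d.1 := ⟨d.ne_zero⟩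
  rw [infPlaceC_ord, cph2_coe_gen]
  show (qExpand (IsLocalRing.ResidueField A) d.1 (jqModC (IsLocalRing.ResidueField A))).order
    = -(d.1 : ℤ)
  rw [rg_order_qExpand, rg_order_jqModC]
  ring

/-- `j̄ = j̄_1` -/
theorem cph3_jk_eq :
    jk (IsLocalRing.ResidueField A) M
      = cph2_gen (IsLocalRing.ResidueField A) M ⟨1, one_dvd M⟩ := by
  rw [cph2_gen]
  exact (polyF_X_one (k := IsLocalRing.ResidueField A) (M := M)).symm

/-- **`ord_∞ (w̄_q j̄) = -q`** -/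
theorem cph3_ord_jk :
    (infPlaceC (IsLocalRing.ResidueField A) M).ord
      (cplBar M q p A hp hpM hA hq hqM hq2 R hR (jk (IsLocalRing.ResidueField A) M))
      = -(q : ℤ) := by
  rw [cph3_jk_eq M A, cph3_gen, cph3_ord_gen]
  show -((alSwap q 1 : ℕ) : ℤ) = -(q : ℤ)
  have h1 : ¬ q ∣ 1 := fun h => hq.one_lt.ne' (Nat.dvd_one.mp h)
  rw [alSwap_of_not_dvd h1, one_mul]

end Wire

section Comm

variable (M q p ℓ : ℕ) [NeZero M] [NeZero q] [NeZero ℓ] (A : ValuationSubring Kbar)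
variable (hp : p.Prime) (hpM : ¬ p ∣ M) (hpMℓ : ¬ p ∣ M * ℓ) (hA : A.LiesOverPrime p)
  (hq : q.Prime) (hqM : q ∣ M) (hq2 : ¬ q ^ 2 ∣ M)
  (hqMℓ : q ∣ M * ℓ) (hq2ℓ : ¬ q ^ 2 ∣ M * ℓ)
  (R : ConstRed A (IsLocalRing.residue A) (Fk (IsLocalRing.ResidueField A) M) (FF M))
  (hR : IsSeriesRed R)
  (R' : ConstRed A (IsLocalRing.residue A) (Fk (IsLocalRing.ResidueField A) (M * ℓ))
    (FF (M * ℓ)))
  (hR' : IsSeriesRed R')

theorem cph3_σ_up (d : Dv M) :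
    cph3_σ (M * ℓ) q hq hqMℓ (cph2_up M ℓ d) = cph2_up M ℓ (cph3_σ M q hq hqM d) :=
  Subtype.ext rfl

theorem cph3_σ_upℓ (hqℓ : ¬ q ∣ ℓ) (d : Dv M) :
    cph3_σ (M * ℓ) q hq hqMℓ (cph2_upℓ M ℓ d) = cph2_upℓ M ℓ (cph3_σ M q hq hqM d) := by
  apply Subtype.ext
  show alSwap q (d.1 * ℓ) = alSwap q d.1 * ℓ
  by_cases hd : q ∣ d.1
  · have hdℓ : q ∣ d.1 * ℓ := Dvd.dvd.mul_right hd ℓ
    rw [alSwap_of_dvd hd, alSwap_of_dvd hdℓ]
    obtain ⟨e, he⟩ := hd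
    rw [he, Nat.mul_assoc, Nat.mul_div_cancel_left _ hq.pos, Nat.mul_div_cancel_left _ hq.pos]
  · have hdℓ : ¬ q ∣ d.1 * ℓ := fun h =>
      (hq.dvd_mul.mp h).elim hd hqℓ
    rw [alSwap_of_not_dvd hd, alSwap_of_not_dvd hdℓ]
    ring

/-- **`W̄_q ∘ incl = incl ∘ w̄_q`** -/
theorem cph3_alpha (x : Fk (IsLocalRing.ResidueField A) M) :
    cplBar (M * ℓ) q p A hp hpMℓ hA hq hqMℓ hq2ℓ R' hR'
        (inclK (IsLocalRing.ResidueField A) (dvd_mul_right M ℓ) x)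
      = inclK (IsLocalRing.ResidueField A) (dvd_mul_right M ℓ)
          (cplBar M q p A hp hpM hA hq hqM hq2 R hR x) :=
  cph2_alpha (IsLocalRing.ResidueField A) M ℓ
    (cplBar M q p A hp hpM hA hq hqM hq2 R hR)
    (cplBar (M * ℓ) q p A hp hpMℓ hA hq hqMℓ hq2ℓ R' hR')
    (cph3_σ M q hq hqM) (cph3_σ (M * ℓ) q hq hqMℓ)
    (cplBar_algebraMap M q p A hp hpM hA hq hqM hq2 R hR)
    (cplBar_algebraMap (M * ℓ) q p A hp hpMℓ hA hq hqMℓ hq2ℓ R' hR')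
    (cph3_gen M q p A hp hpM hA hq hqM hq2 R hR)
    (cph3_gen (M * ℓ) q p A hp hpMℓ hA hq hqMℓ hq2ℓ R' hR')
    (cph3_σ_up M q ℓ hq hqM hqMℓ) x

/-- **`W̄_q ∘ β̄_ℓ = β̄_ℓ ∘ w̄_q`** -/
theorem cph3_beta (hqℓ : ¬ q ∣ ℓ) (x : Fk (IsLocalRing.ResidueField A) M) :
    cplBar (M * ℓ) q p A hp hpMℓ hA hq hqMℓ hq2ℓ R' hR'
        (hkrBetaK (IsLocalRing.ResidueField A) M ℓ x)
      = hkrBetaK (IsLocalRing.ResidueField A) M ℓ
          (cplBar M q p A hp hpM hA hq hqM hq2 R hR x) :=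
  cph2_beta (IsLocalRing.ResidueField A) M ℓ
    (cplBar M q p A hp hpM hA hq hqM hq2 R hR)
    (cplBar (M * ℓ) q p A hp hpMℓ hA hq hqMℓ hq2ℓ R' hR')
    (cph3_σ M q hq hqM) (cph3_σ (M * ℓ) q hq hqMℓ)
    (cplBar_algebraMap M q p A hp hpM hA hq hqM hq2 R hR)
    (cplBar_algebraMap (M * ℓ) q p A hp hpMℓ hA hq hqMℓ hq2ℓ R' hR')
    (cph3_gen M q p A hp hpM hA hq hqM hq2 R hR)
    (cph3_gen (M * ℓ) q p A hp hpMℓ hA hq hqMℓ hq2ℓ R' hR')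
    (cph3_σ_upℓ M q ℓ hq hqM hqMℓ hqℓ) x

end Comm

end Fermat.Agent.S40lib

end
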