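import Mathlib
import Fermat.Agent.FFlib.FSPrimes
import Fermat.Prelude.Def_ModularCurve_X0

/-!
# Item 88 (S40/S44): the CUSP GAP, piece (c) = the counting of the cusps (helper23)

Abstract form.  `F / K` a function field, `K` algebraically closed, `x` separating.

* `ccn_exhaust_finset` : a finite set `T` of poles of `x` with `∑_{v ∈ T} ord_v x = -[F : K(x)]`
  contains EVERY pole of `x`;
* `ccn_exhaust` : a family `P d` (`d ∈ D`) of places with `ord_{P d} x = -n d`, `n d > 0`,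
  `n` injective on `D`, `∑ n d = [F : K(x)]`: every pole of `x` is some `P d`;
* `ccn_exhaust_aut` : the same for `P d = v₀ ∘ w d`, `w d` automorphisms of `F / K`:
  every pole `v` of `x` is `v₀ ∘ w d` for some `d ∈ D`, i.e. `ord_v f = ord_{v₀} (w d f)`;
* `ccn_dvd_of_aut` : hence `m ∣ ord_{v₀} (w d u)` for all `d ∈ D` gives `m ∣ ord_v u` at every
  pole `v` of `x`;
* `ccn_sum_divisors_squarefree` : `∑_{d ∣ M} d = ψ(M)` for `M` squarefree.
-/

set_option autoImplicit false
set_option linter.unusedSectionVars false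
set_option linter.unusedVariables false

noncomputable section

namespace Fermat.Agent.S40lib

open AlgebraicCurve IntermediateField Fermat.Agent.FFlib Fermat.Agent.S24lib

section Abstract

variable {K F : Type*} [Field K] [Field F] [Algebra K F] [IsAlgClosed K] {x : F} [FFSep K x]

/-- a finite set of poles of `x` which accounts for the full degree `[F : K(x)]` contains every
pole of `x` -/
theorem ccn_exhaust_finset (T : Finset (Place K F)) (hT : ∀ v ∈ T, v.ord x < 0)
    (hsum : ∑ v ∈ T, v.ord x = -(Module.finrank K⟮x⟯ F : ℤ)) :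
    ∀ v : Place K F, v.ord x < 0 → v ∈ T := by
  classical
  obtain ⟨s, hs, hssum⟩ := fsExists_poles (K := K) (x := x)
  have hTs : T ⊆ s := fun v hv => (hs v).2 (hT v hv)
  intro v hv
  by_contra hvT
  have hvs : v ∈ s \ T := Finset.mem_sdiff.mpr ⟨(hs v).2 hv, hvT⟩
  have h1 := Finset.sum_sdiff (f := fun w : Place K F => w.ord x) hTs
  have h2 : ∑ w ∈ s \ T, w.ord x < 0 :=
    Finset.sum_neg (fun w hw => (hs w).1 (Finset.mem_sdiff.mp hw).1) ⟨v, hvs⟩
  rw [hssum, hsum] at h1
  omega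

/-- a family of places `P d`, `d ∈ D`, with pairwise distinct pole orders `n d` of `x` and
`∑ n d = [F : K(x)]`, exhausts the poles of `x` -/
theorem ccn_exhaust {ι : Type*} (D : Finset ι) (P : ι → Place K F) (n : ι → ℤ)
    (hord : ∀ d ∈ D, (P d).ord x = -(n d)) (hpos : ∀ d ∈ D, 0 < n d)
    (hinj : ∀ d ∈ D, ∀ d' ∈ D, n d = n d' → d = d')
    (hsum : ∑ d ∈ D, n d = (Module.finrank K⟮x⟯ F : ℤ)) :
    ∀ v : Place K F, v.ord x < 0 → ∃ d ∈ D, v = P d := by
  classical
  have hPinj : Set.InjOn P (D : Set ι) := by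
    intro d hd d' hd' h
    refine hinj d hd d' hd' ?_
    have h1 := hord d hd
    have h2 := hord d' hd'
    rw [h] at h1
    omega
  have hT : ∀ v ∈ D.image P, v.ord x < 0 := by
    intro v hv
    obtain ⟨d, hd, rfl⟩ := Finset.mem_image.mp hv
    rw [hord d hd]
    have := hpos d hd
    omega
  have hsumT : ∑ v ∈ D.image P, v.ord x = -(Module.finrank K⟮x⟯ F : ℤ) := by
    rw [Finset.sum_image hPinj, ← hsum, ← Finset.sum_neg_distrib]
    exact Finset.sum_congr rfl fun d hd => hord d hd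
  intro v hv
  obtain ⟨d, hd, hdv⟩ := Finset.mem_image.mp (ccn_exhaust_finset (D.image P) hT hsumT v hv)
  exact ⟨d, hd, hdv.symm⟩

/-- the order at the place `σ⁻¹ • v₀ = v₀ ∘ σ` -/
theorem ccn_ord_symm_smul (σ : F ≃ₐ[K] F) (v₀ : Place K F) (f : F) :
    (σ.symm • v₀).ord f = v₀.ord (σ f) := by
  have h := Place.ord_smul σ.symm v₀ (σ f)
  rw [AlgEquiv.symm_apply_apply] at h
  exact h

/-- **the counting of the cusps**, abstract form: if the places `v₀ ∘ w d` (`d ∈ D`) are poles
of `x` of pairwise distinct orders `n d` with `∑ n d = [F : K(x)]`, then every pole of `x` is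
one of them -/
theorem ccn_exhaust_aut {ι : Type*} (D : Finset ι) (w : ι → (F ≃ₐ[K] F)) (v₀ : Place K F)
    (n : ι → ℤ) (hord : ∀ d ∈ D, v₀.ord (w d x) = -(n d)) (hpos : ∀ d ∈ D, 0 < n d)
    (hinj : ∀ d ∈ D, ∀ d' ∈ D, n d = n d' → d = d')
    (hsum : ∑ d ∈ D, n d = (Module.finrank K⟮x⟯ F : ℤ)) :
    ∀ v : Place K F, v.ord x < 0 → ∃ d ∈ D, ∀ f : F, v.ord f = v₀.ord (w d f) := by
  intro v hv
  obtain ⟨d, hd, rfl⟩ := ccn_exhaust (x := x) D (fun d => (w d).symm • v₀) n
    (fun d hd => by rw [ccn_ord_symm_smul]; exact hord d hd) hpos hinj hsum v hv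
  exact ⟨d, hd, fun f => ccn_ord_symm_smul (w d) v₀ f⟩

/-- divisibility of the orders at the poles of `x` from the divisibility at `v₀` of the
transforms -/
theorem ccn_dvd_of_aut {ι : Type*} (D : Finset ι) (w : ι → (F ≃ₐ[K] F)) (v₀ : Place K F)
    (n : ι → ℤ) (hord : ∀ d ∈ D, v₀.ord (w d x) = -(n d)) (hpos : ∀ d ∈ D, 0 < n d)
    (hinj : ∀ d ∈ D, ∀ d' ∈ D, n d = n d' → d = d')
    (hsum : ∑ d ∈ D, n d = (Module.finrank K⟮x⟯ F : ℤ))
    (m : ℤ) (u : F) (hu : ∀ d ∈ D, m ∣ v₀.ord (w d u)) :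
    ∀ v : Place K F, v.ord x < 0 → m ∣ v.ord u := by
  intro v hv
  obtain ⟨d, hd, hf⟩ := ccn_exhaust_aut D w v₀ n hord hpos hinj hsum v hv
  rw [hf u]
  exact hu d hd

end Abstract

/-- `∑_{d ∣ M} d = ψ(M)` for squarefree `M` -/
theorem ccn_sum_divisors_squarefree (M : ℕ) (hM : Squarefree M) :
    ∑ d ∈ M.divisors, d = ModularCurve.dedekindPsi M := by
  unfold ModularCurve.dedekindPsi
  have h1 : (M.divisors.filter fun d => Squarefree d) = M.divisors := by
    refine Finset.filter_true_of_mem fun d hd => ?_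
    exact hM.squarefree_of_dvd (Nat.dvd_of_mem_divisors hd)
  rw [h1]
  exact (Nat.sum_div_divisors M fun d => d).symm

end Fermat.Agent.S40lib

end
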