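import Mathlib
import Fermat.Agent.S36lib.Speed
import Fermat.Agent.S33lib.KSatPair
import Fermat.Agent.GoodRed.DescZeros

/-!
# Item 88 (S40), (P2') TAIL: from `p`-th power reductions to (KER2)  (helper6)

Abstract form, for two constant reductions `R₁`, `R₂` of the same function field `F` which are
separated (`hsep`, as in `ksp_diag`):

* `k2t_one_side` : for every `w₁` there is `G ∈ O₁ ∩ O₂` with `red₁ G = w₁`, `red₂ G = 0`;
* `k2t_approx`   : weak approximation with ARBITRARY residues: `red₁ g = w₁`, `red₂ g = w₂`;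
* `k2t_main`     : a Kummer function `u` (`div u = p D`) whose normalisations `c₁ u`, `c₂ u`
  reduce to `p`-th powers `w₁ ^ p`, `w₂ ^ p` at `R₁`, `R₂`, together with a function `g₀`, unit
  at `R₁`, such that `d g₀` is a unit at `R₂` (`d ^ p * c₂ = c₁`: the difference of the two
  Gauss valuations of `u` is `p` times the difference of the Gauss valuations of a function),
  gives the conclusion of (KSAT-PAIR) = `TppKer2`: ONE Kummer function `f` of the class of `D`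
  with `f ≡ 1` modulo both maximal ideals.
-/

set_option autoImplicit false
set_option linter.unusedSectionVars false
set_option linter.unusedVariables false

noncomputable section

namespace Fermat.Agent.S40lib

open AlgebraicCurve Fermat.Agent.RRlib Fermat.Agent.GoodRed Fermat.Agent.S33lib

section

variable {K F k Fk₁ Fk₂ : Type*} [Field K] [Field F] [Algebra K F] [Field k]
variable [Field Fk₁] [Algebra k Fk₁] [Field Fk₂] [Algebra k Fk₂]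
variable {A : ValuationSubring K} {π : A →+* k}
variable (R₁ : ConstRed A π Fk₁ F) (R₂ : ConstRed A π Fk₂ F)

/-- every element of `O` has a reduction -/
theorem k2t_red_self {Fk : Type*} [Field Fk] [Algebra k Fk] (R : ConstRed A π Fk F) {g : F}
    (hg : g ∈ R.O) : KspRed R g (R.red ⟨g, hg⟩) := ⟨hg, rfl⟩

/-- one-sided approximation: `red₁ G = w₁`, `red₂ G = 0` -/
theorem k2t_one_side
    (hsep : ∃ z : F, z ≠ 0 ∧ z ∈ R₁.O.nonunits ∧ z⁻¹ ∈ R₂.O.nonunits) (w₁ : Fk₁) :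
    ∃ G : F, KspRed R₁ G w₁ ∧ KspRed R₂ G 0 := by
  rcases eq_or_ne w₁ 0 with rfl | hw
  · exact ⟨0, kspRed_zero R₁, kspRed_zero R₂⟩
  obtain ⟨⟨g₁, hg₁⟩, hred⟩ := R₁.red_surjective w₁
  have h₁ : KspRed R₁ g₁ w₁ := ⟨hg₁, hred⟩
  have hg0 : g₁ ≠ 0 := kspRed_ne_zero R₁ h₁ hw
  rcases R₂.O.mem_or_inv_mem g₁ with hmem | hmem
  · obtain ⟨t, ht₁, ht₂⟩ := ksp_exists_idem R₁ R₂ hsep
    refine ⟨t * g₁, ?_, ?_⟩
    · have := kspRed_mul R₁ ht₁ h₁
      rwa [one_mul] at this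
    · have := kspRed_mul R₂ ht₂ (k2t_red_self R₂ hmem)
      rwa [zero_mul] at this
  · obtain ⟨z, hz0, hz₁, hz₂⟩ := hsep
    have hzg : KspRed R₁ (z * g₁) 0 := by
      have := kspRed_mul R₁ ((kspRed_zero_iff R₁).2 hz₁) h₁
      rwa [zero_mul] at this
    have h1 : KspRed R₁ (1 + z * g₁) 1 := by
      have := kspRed_add R₁ (kspRed_one R₁) hzg
      rwa [add_zero] at this
    have hne1 : 1 + z * g₁ ≠ 0 := kspRed_ne_zero R₁ h1 one_ne_zero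
    have hs : KspRed R₁ (1 + z * g₁)⁻¹ 1 := by
      have := kspRed_inv R₁ h1 one_ne_zero
      rwa [inv_one] at this
    have hzg2 : KspRed R₂ (z⁻¹ * g₁⁻¹) 0 := by
      have := kspRed_mul R₂ ((kspRed_zero_iff R₂).2 hz₂) (k2t_red_self R₂ hmem)
      rwa [zero_mul] at this
    have h2 : KspRed R₂ (1 + z⁻¹ * g₁⁻¹) 1 := by
      have := kspRed_add R₂ (kspRed_one R₂) hzg2
      rwa [add_zero] at this
    have hne2 : 1 + z⁻¹ * g₁⁻¹ ≠ 0 := kspRed_ne_zero R₂ h2 one_ne_zero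
    have hs2 : KspRed R₂ (1 + z⁻¹ * g₁⁻¹)⁻¹ 1 := by
      have := kspRed_inv R₂ h2 one_ne_zero
      rwa [inv_one] at this
    refine ⟨(1 + z * g₁)⁻¹ * g₁, ?_, ?_⟩
    · have := kspRed_mul R₁ hs h₁
      rwa [one_mul] at this
    · have e : (1 + z * g₁)⁻¹ * g₁ = z⁻¹ * (1 + z⁻¹ * g₁⁻¹)⁻¹ := by
        have h3 : 1 + z⁻¹ * g₁⁻¹ = (1 + z * g₁) * (z⁻¹ * g₁⁻¹) := by
          field_simp
          ring
        rw [h3, mul_inv, mul_inv, inv_inv, inv_inv]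
        field_simp
      rw [e]
      have := kspRed_mul R₂ ((kspRed_zero_iff R₂).2 hz₂) hs2
      rwa [zero_mul] at this

/-- **weak approximation** with arbitrary residues -/
theorem k2t_approx
    (hsep : ∃ z : F, z ≠ 0 ∧ z ∈ R₁.O.nonunits ∧ z⁻¹ ∈ R₂.O.nonunits) (w₁ : Fk₁) (w₂ : Fk₂) :
    ∃ g : F, KspRed R₁ g w₁ ∧ KspRed R₂ g w₂ := by
  obtain ⟨G₁, h11, h12⟩ := k2t_one_side R₁ R₂ hsep w₁
  have hsep' : ∃ z : F, z ≠ 0 ∧ z ∈ R₂.O.nonunits ∧ z⁻¹ ∈ R₁.O.nonunits := by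
    obtain ⟨z, hz0, hz₁, hz₂⟩ := hsep
    exact ⟨z⁻¹, inv_ne_zero hz0, hz₂, by rwa [inv_inv]⟩
  obtain ⟨G₂, h22, h21⟩ := k2t_one_side R₂ R₁ hsep' w₂
  refine ⟨G₁ + G₂, ?_, ?_⟩
  · have := kspRed_add R₁ h11 h21
    rwa [add_zero] at this
  · have := kspRed_add R₂ h12 h22
    rwa [zero_add] at this

/-- **(P2') tail**: from `p`-th power reductions at both valuations to the conclusion of
(KSAT-PAIR). -/
theorem k2t_main [RRBase K F] (p : ℕ)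
    (hsep : ∃ z : F, z ≠ 0 ∧ z ∈ R₁.O.nonunits ∧ z⁻¹ ∈ R₂.O.nonunits)
    (D : Divisor.degZero (K := K) (F := F)) (u : F) (hu : u ≠ 0)
    (hdiv : ∀ v : Place K F, (p : ℤ) * (D : Divisor K F) v = v.ord u)
    (c₁ c₂ d : K) (hc₁ : c₁ ≠ 0) (hd : d ^ p * c₂ = c₁)
    (w₁ : Fk₁) (w₂ : Fk₂) (hw₁ : w₁ ≠ 0) (hw₂ : w₂ ≠ 0)
    (h₁ : KspRed R₁ (algebraMap K F c₁ * u) (w₁ ^ p))
    (h₂ : KspRed R₂ (algebraMap K F c₂ * u) (w₂ ^ p))
    (g₀ : F) (a₁ : Fk₁) (a₂ : Fk₂) (ha₁ : a₁ ≠ 0) (ha₂ : a₂ ≠ 0)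
    (hg₁ : KspRed R₁ g₀ a₁) (hg₂ : KspRed R₂ (algebraMap K F d * g₀) a₂) :
    ∃ (D' : Divisor.degZero (K := K) (F := F)) (f : F), Pic0.mk D' = Pic0.mk D ∧ f ≠ 0 ∧
      (∀ v : Place K F, (p : ℤ) * (D' : Divisor K F) v = v.ord f) ∧
      f - 1 ∈ R₁.O.nonunits ∧ f - 1 ∈ R₂.O.nonunits := by
  have hg0 : g₀ ≠ 0 := kspRed_ne_zero R₁ hg₁ ha₁
  obtain ⟨g', hg'₁, hg'₂⟩ := k2t_approx R₁ R₂ hsep (w₁ * a₁)⁻¹ (w₂ * a₂)⁻¹
  have hg'0 : g' ≠ 0 := kspRed_ne_zero R₁ hg'₁ (inv_ne_zero (mul_ne_zero hw₁ ha₁))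
  have hcF : algebraMap K F c₁ ≠ 0 := (map_ne_zero _).mpr hc₁
  have hgg : g₀ * g' ≠ 0 := mul_ne_zero hg0 hg'0
  refine ⟨D + gdfDiv (K := K) (g₀ * g'), algebraMap K F c₁ * u * (g₀ * g') ^ p, ?_,
    mul_ne_zero (mul_ne_zero hcF hu) (pow_ne_zero _ hgg), ?_, ?_, ?_⟩
  · rw [Pic0.mk_add, gdf_mk_div hgg, add_zero]
  · intro v
    rw [v.ord_mul (mul_ne_zero hcF hu) (pow_ne_zero _ hgg), v.ord_mul hcF hu,
      Fermat.Agent.GoodRed.dz_ord_const, Fermat.Agent.S18lib.ord_pow_nat, ← hdiv v,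
      AddSubgroup.coe_add, Finsupp.add_apply, gdf_coe_div, divOf_apply' (g₀ * g') v]
    ring
  · rw [← kspRed_one_iff]
    have h := kspRed_mul R₁ h₁ (kspRed_pow R₁ (kspRed_mul R₁ hg₁ hg'₁) p)
    have e : w₁ ^ p * (a₁ * (w₁ * a₁)⁻¹) ^ p = 1 := by
      rw [← mul_pow]
      have : w₁ * (a₁ * (w₁ * a₁)⁻¹) = 1 := by
        field_simp
      rw [this, one_pow]
    rwa [e] at h
  · rw [← kspRed_one_iff]
    have h := kspRed_mul R₂ h₂ (kspRed_pow R₂ (kspRed_mul R₂ hg₂ hg'₂) p)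
    have e : w₂ ^ p * (a₂ * (w₂ * a₂)⁻¹) ^ p = 1 := by
      rw [← mul_pow]
      have : w₂ * (a₂ * (w₂ * a₂)⁻¹) = 1 := by
        field_simp
      rw [this, one_pow]
    rw [e] at h
    have e2 : algebraMap K F c₂ * u * (algebraMap K F d * g₀ * g') ^ p
        = algebraMap K F c₁ * u * (g₀ * g') ^ p := by
      rw [← hd, map_mul, map_pow]
      ring
    rwa [e2] at h

end

end Fermat.Agent.S40lib

end
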