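import Mathlib
import Fermat.Agent.S36lib.Speed
import Fermat.Agent.S40lib.TorPlus
import Fermat.Agent.S40lib.Ker2Tail
import Fermat.Agent.S33lib.KSatPair
import Fermat.Agent.S33lib.GeoWrap
import Fermat.Agent.S34lib.GrowthSS
import Fermat.Agent.S34lib.ValArch

/-!
# Item 88 (S40), block (P2'), piece (B4): the **GLUE** (helper17).  Complete proofs.

The layer (LIFT), applied on both components of the special fibre, says: the class `x` (of the
auxiliary level `M p`) has a Kummer function `u` whose normalisations `c₁ u`, `c₂ u` (`c_i`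
constants) reduce to `p`-th powers at the Gauss valuations `R` and `R₀ = glmZero R`.  This file
glues: `x` has ONE Kummer function congruent to `1` modulo both maximal ideals, i.e. `TppKer2`
(the input of `tpp_fixed_descent`, `gom_peu_of_ker2`).

It completes `k2t_main` (helper6, `Ker2Tail.lean`): the auxiliary function `g₀` (unit at `R₁`,
`d g₀` unit at `R₂`) ALWAYS exists, for every constant `d ≠ 0`, because the valuation of the
constants is archimedean (`GssArch`, `gssArch_Qbar`): no node function is needed.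

* `kgl_pow_mul` : archimedean scaling: for `e ∈ 𝔪_O`, `e ≠ 0`, and any `w`, some `e ^ r * w` lies
  in `𝔪_O`;
* `kgl_exists_near` : for two different constant reductions and any `w`: `a ≡ 1 mod 𝔪₁` with
  `a w ∈ 𝔪₂`;
* `kgl_exists_g0` : for every constant `d ≠ 0`: `g₀ ≡ 1 mod 𝔪₁` with `d g₀ ≡ 1 mod 𝔪₂`;
* `kgl_main` : `k2t_main` without `g₀` (`K` closed under `p`-th roots, `A` archimedean);
* `kgl_ker2` : **(B4)** at the level `M p`: `TppKer2 M p hp hpM R x` from ONE Kummer function;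
* `kgl_ker2_two` : the same from two Kummer functions `u`, `u₀` of `x` (one for each valuation).
-/

set_option autoImplicit false
set_option linter.style.haveILetI false
set_option linter.unusedSectionVars false
set_option linter.unusedVariables false
set_option synthInstance.maxHeartbeats 400000

noncomputable section

namespace Fermat.Agent.S40lib

open AlgebraicCurve Fermat.Agent.GoodRed ModularCurve HahnSeries Fermat.Agent.S24lib
  Fermat.Agent.RRlib Fermat.Agent.GM Fermat.Agent.S34lib Fermat.Agent.S35lib Fermat.Agent.S36lib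
  Fermat.Agent.S33lib Fermat.Agent.GalRep Fermat.Agent.HeckeBar

section Abstract

variable {K F k Fk₁ Fk₂ : Type*} [Field K] [Field F] [Algebra K F] [Field k]
variable [Field Fk₁] [Algebra k Fk₁] [Field Fk₂] [Algebra k Fk₂]
variable {A : ValuationSubring K} {π : A →+* k}

/-- **archimedean scaling**: the powers of a nonzero element of the maximal ideal move every
element into the maximal ideal. -/
theorem kgl_pow_mul (hA : GssArch A) (R : ConstRed A π Fk₁ F) {e : F} (he0 : e ≠ 0)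
    (he : e ∈ R.O.nonunits) (w : F) : ∃ r : ℕ, e ^ r * w ∈ R.O.nonunits := by
  by_cases hw0 : w = 0
  · refine ⟨0, ?_⟩
    rw [hw0, mul_zero, ValuationSubring.mem_nonunits_iff_or]
    left; rfl
  obtain ⟨c, hc0, hc1, -⟩ := R.exists_unit_smul w hw0
  obtain ⟨ce, hce0, hce1, hce2⟩ := R.exists_unit_smul e he0
  have hcF : algebraMap K F c ≠ 0 := by rwa [Ne, map_eq_zero]
  have hceF : algebraMap K F ce ≠ 0 := by rwa [Ne, map_eq_zero]
  have hcenu : ce⁻¹ ∈ A.nonunits := by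
    rw [← gss_algebraMap_mem_nonunits_iff R]
    have : algebraMap K F ce⁻¹ = (algebraMap K F ce * e)⁻¹ * e := by
      rw [map_inv₀]
      field_simp
    rw [this]
    exact gss_mul_mem_nonunits R.O hce2 he
  obtain ⟨r, hr⟩ := hA ce⁻¹ c⁻¹ hcenu
  have hrO : algebraMap K F (ce⁻¹ ^ r * c⁻¹) ∈ R.O := R.algebraMap_mem ⟨_, hr⟩
  refine ⟨r + 1, ?_⟩
  have hfac : e ^ (r + 1) * w
      = (algebraMap K F (ce⁻¹ ^ r * c⁻¹) * (algebraMap K F c * w)
          * (algebraMap K F ce * e) ^ r) * e := by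
    rw [map_mul, map_pow, map_inv₀, map_inv₀, mul_pow, inv_pow]
    have hE : ((algebraMap K F ce) ^ r)⁻¹ * (algebraMap K F ce) ^ r = 1 :=
      inv_mul_cancel₀ (pow_ne_zero _ hceF)
    have hC : (algebraMap K F c)⁻¹ * algebraMap K F c = 1 := inv_mul_cancel₀ hcF
    linear_combination (-w * e ^ (r + 1) * ((algebraMap K F c)⁻¹ * algebraMap K F c)) * hE
      + (-w * e ^ (r + 1)) * hC
  rw [hfac]
  exact gss_mul_mem_nonunits R.O
    (R.O.mul_mem _ _ (R.O.mul_mem _ _ hrO hc1) (R.O.pow_mem hce1 _)) he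

/-- for two different constant reductions and any `w` there is `a ≡ 1 mod 𝔪₁` with
`a w ∈ 𝔪₂`. -/
theorem kgl_exists_near (hA : GssArch A) (R₁ : ConstRed A π Fk₁ F) (R₂ : ConstRed A π Fk₂ F)
    (hne : R₁.O ≠ R₂.O) (w : F) : ∃ a : F, KspRed R₁ a 1 ∧ a * w ∈ R₂.O.nonunits := by
  obtain ⟨e, he₁, he₂⟩ := ksp_exists_idem R₁ R₂ (ksp_sep_of_ne R₁ R₂ hne)
  have he0 : e ≠ 0 := kspRed_ne_zero R₁ he₁ one_ne_zero
  obtain ⟨r, hr⟩ := kgl_pow_mul hA R₂ he0 ((kspRed_zero_iff R₂).1 he₂) w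
  refine ⟨e ^ r, ?_, hr⟩
  have := kspRed_pow R₁ he₁ r
  rwa [one_pow] at this

/-- for every constant `d ≠ 0` there is `g₀ ≡ 1 mod 𝔪₁` with `d g₀ ≡ 1 mod 𝔪₂`
(approximation theorem for two different constant reductions over an archimedean `A`). -/
theorem kgl_exists_g0 (hA : GssArch A) (R₁ : ConstRed A π Fk₁ F) (R₂ : ConstRed A π Fk₂ F)
    (hne : R₁.O ≠ R₂.O) {d : K} (hd : d ≠ 0) :
    ∃ g₀ : F, KspRed R₁ g₀ 1 ∧ KspRed R₂ (algebraMap K F d * g₀) 1 := by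
  have hdF : algebraMap K F d ≠ 0 := (map_ne_zero _).mpr hd
  obtain ⟨a, ha₁, ha₂⟩ := kgl_exists_near hA R₁ R₂ hne (algebraMap K F d)
  obtain ⟨b, hb₂, hb₁⟩ := kgl_exists_near hA R₂ R₁ (Ne.symm hne) (algebraMap K F d)⁻¹
  refine ⟨a + b * (algebraMap K F d)⁻¹, ?_, ?_⟩
  · have := kspRed_add R₁ ha₁ ((kspRed_zero_iff R₁).2 hb₁)
    rwa [add_zero] at this
  · have h := kspRed_add R₂ ((kspRed_zero_iff R₂).2 ha₂) hb₂
    rw [zero_add] at h
    have e : algebraMap K F d * (a + b * (algebraMap K F d)⁻¹) = a * algebraMap K F d + b := by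
      field_simp
    rwa [e]

/-- **(P2') tail without `g₀`**: a Kummer function `u` (`div u = p D`) whose normalisations
`c₁ u`, `c₂ u` reduce to `p`-th powers at two different constant reductions gives ONE Kummer
function of the class of `D` congruent to `1` modulo both maximal ideals. -/
theorem kgl_main [RRBase K F] (hA : GssArch A) (R₁ : ConstRed A π Fk₁ F)
    (R₂ : ConstRed A π Fk₂ F) (hne : R₁.O ≠ R₂.O) (p : ℕ) (hp : p ≠ 0)
    (hrootK : ∀ c : K, ∃ d : K, d ^ p = c)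
    (D : Divisor.degZero (K := K) (F := F)) (u : F) (hu : u ≠ 0)
    (hdiv : ∀ v : Place K F, (p : ℤ) * (D : Divisor K F) v = v.ord u)
    (c₁ c₂ : K) (hc₁ : c₁ ≠ 0) (hc₂ : c₂ ≠ 0)
    (w₁ : Fk₁) (w₂ : Fk₂) (hw₁ : w₁ ≠ 0) (hw₂ : w₂ ≠ 0)
    (h₁ : KspRed R₁ (algebraMap K F c₁ * u) (w₁ ^ p))
    (h₂ : KspRed R₂ (algebraMap K F c₂ * u) (w₂ ^ p)) :
    ∃ (D' : Divisor.degZero (K := K) (F := F)) (f : F), Pic0.mk D' = Pic0.mk D ∧ f ≠ 0 ∧
      (∀ v : Place K F, (p : ℤ) * (D' : Divisor K F) v = v.ord f) ∧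
      f - 1 ∈ R₁.O.nonunits ∧ f - 1 ∈ R₂.O.nonunits := by
  obtain ⟨d, hd⟩ := hrootK (c₁ * c₂⁻¹)
  have hdc : d ^ p * c₂ = c₁ := by
    rw [hd, mul_assoc, inv_mul_cancel₀ hc₂, mul_one]
  have hd0 : d ≠ 0 := by
    rintro rfl
    rw [zero_pow hp, zero_mul] at hdc
    exact hc₁ hdc.symm
  obtain ⟨g₀, hg₁, hg₂⟩ := kgl_exists_g0 hA R₁ R₂ hne hd0
  exact k2t_main R₁ R₂ p (ksp_sep_of_ne R₁ R₂ hne) D u hu hdiv c₁ c₂ d hc₁ hdc w₁ w₂ hw₁ hw₂
    h₁ h₂ g₀ 1 1 one_ne_zero one_ne_zero hg₁ hg₂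

end Abstract

section Concrete

variable (M p : ℕ) [NeZero M] [NeZero p] [NeZero (M * p)] (hp : p.Prime)

/-- **(B4), the GLUE at the auxiliary level `M p`**: a class `x` with a Kummer function `u` whose
normalisations `c₁ u`, `c₂ u` reduce to `p`-th powers at the two Gauss valuations `R`,
`R₀ = glmZero R` satisfies (KER2). -/
theorem kgl_ker2 [RRHyp Kbar (FF (M * p))] (hpM : ¬ p ∣ M) {A : ValuationSubring Kbar} (hA : A.LiesOverPrime p)
    (R : ConstRed A (IsLocalRing.residue A)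
      (↥(modularFunctionFieldFullC (IsLocalRing.ResidueField A) M)) (FF (M * p)))
    (hR : IsSeriesRed R) (x : JZero (M * p)) (u : FF (M * p))
    (hk : gdfIsKummer (K := Kbar) p x u)
    (c₁ c₂ : Kbar) (hc₁ : c₁ ≠ 0) (hc₂ : c₂ ≠ 0)
    (w₁ w₂ : ↥(modularFunctionFieldFullC (IsLocalRing.ResidueField A) M))
    (hw₁ : w₁ ≠ 0) (hw₂ : w₂ ≠ 0)
    (h₁ : KspRed R (algebraMap Kbar (FF (M * p)) c₁ * u) (w₁ ^ p))
    (h₂ : KspRed (glmZero M p hp hpM R) (algebraMap Kbar (FF (M * p)) c₂ * u) (w₂ ^ p)) :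
    TppKer2 M p hp hpM R x := by
  haveI : Fact p.Prime := ⟨hp⟩
  have hne := vk_O_ne M p hp hpM hR hA
  obtain ⟨D, hD, hdiv⟩ := gdf_isKummer_ord hk
  obtain ⟨D', f, hD', hf0, hfdiv, hf₁, hf₂⟩ :=
    kgl_main (gssArch_Qbar A) R (glmZero M p hp hpM R) hne p hp.ne_zero
      (fun c => IsAlgClosed.exists_pow_nat_eq c hp.pos) D u hk.1 hdiv c₁ c₂ hc₁ hc₂ w₁ w₂
      hw₁ hw₂ h₁ h₂
  exact ⟨D', f, hD'.trans hD, hf0, hfdiv, hf₁, hf₂⟩

/-- **(B4) with two Kummer functions**: a class `x` with a Kummer function `u` whose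
normalisation `c₁ u` reduces to a `p`-th power at `R`, and a Kummer function `u₀` whose
normalisation `c₂ u₀` reduces to a `p`-th power at `R₀ = glmZero R`, satisfies (KER2). -/
theorem kgl_ker2_two [RRHyp Kbar (FF (M * p))] (hpM : ¬ p ∣ M) {A : ValuationSubring Kbar} (hA : A.LiesOverPrime p)
    (R : ConstRed A (IsLocalRing.residue A)
      (↥(modularFunctionFieldFullC (IsLocalRing.ResidueField A) M)) (FF (M * p)))
    (hR : IsSeriesRed R) (x : JZero (M * p)) (u u₀ : FF (M * p))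
    (hk : gdfIsKummer (K := Kbar) p x u) (hk₀ : gdfIsKummer (K := Kbar) p x u₀)
    (c₁ c₂ : Kbar) (hc₁ : c₁ ≠ 0) (hc₂ : c₂ ≠ 0)
    (w₁ w₂ : ↥(modularFunctionFieldFullC (IsLocalRing.ResidueField A) M))
    (hw₁ : w₁ ≠ 0) (hw₂ : w₂ ≠ 0)
    (h₁ : KspRed R (algebraMap Kbar (FF (M * p)) c₁ * u) (w₁ ^ p))
    (h₂ : KspRed (glmZero M p hp hpM R) (algebraMap Kbar (FF (M * p)) c₂ * u₀) (w₂ ^ p)) :
    TppKer2 M p hp hpM R x := by
  -- `u₀ = c s ^ p u`; `s = κ⁻¹ s'` with `s'` a unit of `R₀`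
  obtain ⟨c, s, hc0, hs0, hcs⟩ := gdf_isKummer_unique hk hk₀
  obtain ⟨κ, hκ0, hκ1, hκ2⟩ := (glmZero M p hp hpM R).exists_unit_smul s hs0
  have hκF : algebraMap Kbar (FF (M * p)) κ ≠ 0 := (map_ne_zero _).mpr hκ0
  set s' : FF (M * p) := algebraMap Kbar (FF (M * p)) κ * s with hs'
  have hs'0 : s' ≠ 0 := mul_ne_zero hκF hs0
  have hs'r : KspRed (glmZero M p hp hpM R) s'⁻¹
      ((glmZero M p hp hpM R).red ⟨s'⁻¹, hκ2⟩) := ⟨hκ2, rfl⟩
  have hs'ne : (glmZero M p hp hpM R).red ⟨s'⁻¹, hκ2⟩ ≠ 0 := by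
    intro h0
    have h1 : KspRed (glmZero M p hp hpM R) s' ((glmZero M p hp hpM R).red ⟨s', hκ1⟩) :=
      ⟨hκ1, rfl⟩
    have h2 := kspRed_mul (glmZero M p hp hpM R) h1 hs'r
    rw [h0, mul_zero, mul_inv_cancel₀ hs'0] at h2
    exact one_ne_zero (kspRed_unique (glmZero M p hp hpM R) (kspRed_one _) h2)
  refine kgl_ker2 M p hp hpM hA R hR x u hk c₁ (c₂ * c * (κ ^ p)⁻¹) hc₁
    (mul_ne_zero (mul_ne_zero hc₂ hc0) (inv_ne_zero (pow_ne_zero _ hκ0))) w₁
    (w₂ * (glmZero M p hp hpM R).red ⟨s'⁻¹, hκ2⟩) hw₁ (mul_ne_zero hw₂ hs'ne) h₁ ?_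
  have h3 := kspRed_mul (glmZero M p hp hpM R) h₂ (kspRed_pow (glmZero M p hp hpM R) hs'r p)
  rw [← mul_pow] at h3
  have e : algebraMap Kbar (FF (M * p)) (c₂ * c * (κ ^ p)⁻¹) * u
      = algebraMap Kbar (FF (M * p)) c₂ * u₀ * s'⁻¹ ^ p := by
    rw [hcs, hs', mul_inv, mul_pow, map_mul, map_mul, map_inv₀, map_pow, inv_pow, inv_pow]
    have hsp : s ^ p ≠ 0 := pow_ne_zero _ hs0
    have hκp : algebraMap Kbar (FF (M * p)) κ ^ p ≠ 0 := pow_ne_zero _ hκF
    field_simp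
  rwa [e]

end Concrete

end Fermat.Agent.S40lib

end
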