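import Mathlib
import Fermat.Agent.S36lib.Speed
import Fermat.Agent.S40lib.HeckeRed
import Fermat.Agent.GM.Main

/-!
# Item 88 (S40), layer (P2'), the LEVEL BRIDGE (B1)+(B2) (helper12)

`M' ∣ M`, `p ∤ M`, `A` a valuation ring of `ℚ̄` over `p` with residue field `k`.  `R'`, `R` are the
series reductions (Gauss valuations of the `q`-expansion at `∞`) of `F_{M'p}` and `F_{Mp}`, with
residue fields `F_{M',k} ⊆ F_{M,k}`.

* `lvb_isTower`   : **(B1)** the two series reductions form a tower along `inclBar`, `inclK`;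
* `lvb_red_incl`  : **(B1)** explicit: `red_R (incl u) = incl_k (red_{R'} u)` for `u ∈ O_{R'}`;
* `lvb_exists_tame`, `lvb_ord_dvd` : **(B2)**, abstract: in a finite extension `F' / F` of function
  fields with the fundamental identity, if `p ∤ [F' : F] · deg v` then some place `w ∣ v` has
  ramification index prime to `p`; hence `p ∣ ord_w f` for all `w` implies `p ∣ ord_v f`;
* `lvb_ord_dvd_level` : **(B2)** for `F_{M',k} ⊆ F_{M,k}`, `p ∤ [F_{M,k} : F_{M',k}]`;
* `lvb_finrank`   : `ψ(M') · [F_{M,k} : F_{M',k}] = ψ(M)`;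
* `lvb_bridge`    : **(B1)+(B2)**: if `p ∣ ord_Q̃ (red_R (incl u))` at all places `Q̃` of `F_{M,k}`,
  then `p ∣ ord_Q (red_{R'} u)` at all places `Q` of `F_{M',k}`.

What `p = 3` needs: the degree `ψ(M) / ψ(M')` must be prime to `p`.  For an auxiliary level
`M = lcm(M', 4)` the degree is `1`, `2`, `4` (`M'` even) or `6` (`M'` odd): prime to every
`p ≥ 5`, and prime to `3` iff `M'` is even.
-/

set_option autoImplicit false
set_option linter.style.haveILetI false
set_option linter.unusedSectionVars false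
set_option linter.unusedVariables false
set_option synthInstance.maxHeartbeats 400000

noncomputable section

namespace Fermat.Agent.S40lib

open ModularCurve AlgebraicCurve HahnSeries Fermat.Agent.GoodRed Fermat.Agent.GM
  Fermat.Agent.S24lib Fermat.Agent.HeckeBar Fermat.Agent.S34lib Fermat.Agent.S36lib
  Fermat.Agent.RRlib

section Abstract

variable {K F F' : Type*} [Field K] [Field F] [Field F'] [Algebra K F] [Algebra K F']
  [Algebra F F'] [IsScalarTower K F F'] [Algebra.IsIntegral F F'] [HasPrincipalDivisors K F']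

/-- **(B2), abstract**: if `p ∤ [F' : F] · deg v`, some place over `v` has ramification index
prime to `p`. -/
theorem lvb_exists_tame [FundamentalIdentity K F F'] {p : ℕ} (v : Place K F)
    (hn : ¬ (p : ℤ) ∣ (Module.finrank F F' : ℤ) * (v.deg : ℤ)) :
    ∃ w ∈ v.fiber F', ¬ (p : ℤ) ∣ (w.ramificationIndex F : ℤ) := by
  by_contra hcon
  apply hn
  rw [← FundamentalIdentity.sum_ramificationIndex_mul_deg (K := K) (F := F) (F' := F') v]
  refine Finset.dvd_sum (fun w hw => ?_)
  have h1 : (p : ℤ) ∣ (w.ramificationIndex F : ℤ) := by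
    by_contra h2
    exact hcon ⟨w, hw, h2⟩
  exact Dvd.dvd.mul_right h1 _

/-- **(B2), abstract**: `p ∣ ord_w f` at all places of `F'` implies `p ∣ ord_v f`. -/
theorem lvb_ord_dvd [FundamentalIdentity K F F'] {p : ℕ} (hp : p.Prime) (v : Place K F)
    (hn : ¬ (p : ℤ) ∣ (Module.finrank F F' : ℤ) * (v.deg : ℤ)) (f : F)
    (h : ∀ w : Place K F', (p : ℤ) ∣ w.ord (algebraMap F F' f)) :
    (p : ℤ) ∣ v.ord f := by
  obtain ⟨w, hw, hpe⟩ := lvb_exists_tame v hn
  have h1 := h w
  rw [Place.ord_restrict, Place.mem_fiber.mp hw] at h1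
  rcases Int.Prime.dvd_mul' hp h1 with h2 | h2
  · exact absurd h2 hpe
  · exact h2

end Abstract

section Level

variable {M' M p : ℕ} [NeZero M'] [NeZero M] [NeZero p] [NeZero (M' * p)] [NeZero (M * p)]
  {A : ValuationSubring Kbar}

/-- **(B1)**: the series reductions at the levels `M' p ∣ M p` form a tower along `inclBar`,
`inclK`. -/
theorem lvb_isTower (hdvd : M' ∣ M) (hA : A ≠ ⊤)
    {R' : ConstRed A (IsLocalRing.residue A) (Fk (IsLocalRing.ResidueField A) M') (FF (M' * p))}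
    {R : ConstRed A (IsLocalRing.residue A) (Fk (IsLocalRing.ResidueField A) M) (FF (M * p))}
    (hR' : IsSeriesRed R') (hR : IsSeriesRed R) :
    letI := algebraAlong (inclBar (M' * p) (M * p) (Nat.mul_dvd_mul_right hdvd p))
    letI := algebraAlong (inclK (IsLocalRing.ResidueField A) hdvd)
    R'.IsTower R := by
  letI := algebraAlong (inclBar (M' * p) (M * p) (Nat.mul_dvd_mul_right hdvd p))
  letI := algebraAlong (inclK (IsLocalRing.ResidueField A) hdvd)
  exact dw_isTower_of_isSeriesRed (ffBar_mono (Nat.mul_dvd_mul_right hdvd p))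
    (fun x => coe_inclBar (M' * p) (M * p) (Nat.mul_dvd_mul_right hdvd p) x)
    (fun w => coe_inclK (IsLocalRing.ResidueField A) hdvd w)
    hR' hR (exists_primitive_smul (M' * p) A hA)

/-- **(B1)**, explicit: `incl u ∈ O_R` and `red_R (incl u) = incl_k (red_{R'} u)`. -/
theorem lvb_red_incl (hdvd : M' ∣ M) (hA : A ≠ ⊤)
    {R' : ConstRed A (IsLocalRing.residue A) (Fk (IsLocalRing.ResidueField A) M') (FF (M' * p))}
    {R : ConstRed A (IsLocalRing.residue A) (Fk (IsLocalRing.ResidueField A) M) (FF (M * p))}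
    (hR' : IsSeriesRed R') (hR : IsSeriesRed R) (u : FF (M' * p)) (hu : u ∈ R'.O) :
    ∃ h : inclBar (M' * p) (M * p) (Nat.mul_dvd_mul_right hdvd p) u ∈ R.O,
      R.red ⟨_, h⟩ = inclK (IsLocalRing.ResidueField A) hdvd (R'.red ⟨u, hu⟩) := by
  letI := algebraAlong (inclBar (M' * p) (M * p) (Nat.mul_dvd_mul_right hdvd p))
  letI := algebraAlong (inclK (IsLocalRing.ResidueField A) hdvd)
  have hT := lvb_isTower (p := p) hdvd hA hR' hR
  exact ⟨hT.1 u hu, hT.2 u hu⟩

end Level

section LevelK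

variable {k : Type} [Field k] [IsAlgClosed k] {M' M : ℕ} [NeZero M'] [NeZero M]

/-- **(B2)** for `F_{M',k} ⊆ F_{M,k}`: if `p ∤ [F_{M,k} : F_{M',k}]`, a function of level `M'`
whose orders at all places of level `M` are divisible by `p` has all its orders divisible by
`p`. -/
theorem lvb_ord_dvd_level (hdvd : M' ∣ M) {p : ℕ} (hp : p.Prime)
    (hdeg : ¬ p ∣ finrankAlong k (inclK k hdvd)) (f : Fk k M')
    (h : ∀ w : Place k (Fk k M), (p : ℤ) ∣ w.ord (inclK k hdvd f))
    (v : Place k (Fk k M')) : (p : ℤ) ∣ v.ord f := by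
  letI := algK k hdvd
  haveI := isScalarTower_algK k hdvd
  haveI := gmw_finite (k := k) hdvd
  haveI : Algebra.IsIntegral (Fk k M') (Fk k M) := Algebra.IsIntegral.of_finite _ _
  haveI := gmw_hasPrincipalDivisors k M
  haveI := gmw_ffSep k M'
  haveI := gmw_ffSep' (k := k) hdvd
  haveI : FundamentalIdentity k (Fk k M') (Fk k M) :=
    fundamentalIdentity_of_ffSep (K := k) (x := jk k M')
  haveI : RRHyp k (Fk k M') := mr_rrHyp k M'
  have hv1 : v.deg = 1 := deg_eq_one (K := k) v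
  refine lvb_ord_dvd (K := k) (F := Fk k M') (F' := Fk k M) hp v ?_ f h
  rw [hv1, Nat.cast_one, mul_one]
  intro hd
  exact hdeg (Int.natCast_dvd_natCast.mp hd)

end LevelK

section Bridge

variable {M' M p : ℕ} [NeZero M'] [NeZero M] [NeZero p] [NeZero (M' * p)] [NeZero (M * p)]
  {A : ValuationSubring Kbar}

/-- the degree: `ψ(M') · [F_{M,k} : F_{M',k}] = ψ(M)` (`p ∤ M`) -/
theorem lvb_finrank (hdvd : M' ∣ M) (hp : p.Prime) (hpM : ¬ p ∣ M)
    (hA : A.LiesOverPrime p) :
    dedekindPsi M' * finrankAlong (IsLocalRing.ResidueField A)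
      (inclK (IsLocalRing.ResidueField A) hdvd) = dedekindPsi M := by
  haveI : Fact p.Prime := ⟨hp⟩
  have hpM' : ¬ p ∣ M' := fun h => hpM (h.trans hdvd)
  exact dedekindPsi_mul_finrankAlong_inclK (IsLocalRing.ResidueField A) hdvd
    (finrank_Fk_modL M' hpM' A hA) (finrank_Fk_modL M hpM A hA)

/-- **the LEVEL BRIDGE (B1)+(B2)**: `u` a function of level `M' p`, integral for the series
reduction `R'`; if the orders of `red_R (incl u)` at all places of `F_{M,k}` are divisible by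
`p` and `p ∤ [F_{M,k} : F_{M',k}]`, then the orders of `red_{R'} u` at all places of `F_{M',k}`
are divisible by `p`. -/
theorem lvb_bridge (hdvd : M' ∣ M) (hp : p.Prime) (hA : A.LiesOverPrime p)
    {R' : ConstRed A (IsLocalRing.residue A) (Fk (IsLocalRing.ResidueField A) M') (FF (M' * p))}
    {R : ConstRed A (IsLocalRing.residue A) (Fk (IsLocalRing.ResidueField A) M) (FF (M * p))}
    (hR' : IsSeriesRed R') (hR : IsSeriesRed R)
    (hdeg : ¬ p ∣ finrankAlong (IsLocalRing.ResidueField A)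
      (inclK (IsLocalRing.ResidueField A) hdvd))
    (u : FF (M' * p)) (hu : u ∈ R'.O)
    (hu' : inclBar (M' * p) (M * p) (Nat.mul_dvd_mul_right hdvd p) u ∈ R.O)
    (h : ∀ w : Place (IsLocalRing.ResidueField A) (Fk (IsLocalRing.ResidueField A) M),
      (p : ℤ) ∣ w.ord (R.red ⟨_, hu'⟩))
    (v : Place (IsLocalRing.ResidueField A) (Fk (IsLocalRing.ResidueField A) M')) :
    (p : ℤ) ∣ v.ord (R'.red ⟨u, hu⟩) := by
  haveI : IsAlgClosed (IsLocalRing.ResidueField A) := isAlgClosed_residueField A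
  have hAtop : A ≠ ⊤ := cri_ne_top p A (A.mem_nonunits_iff.mp hA) hp.ne_zero
  obtain ⟨h1, h2⟩ := lvb_red_incl (p := p) hdvd hAtop hR' hR u hu
  refine lvb_ord_dvd_level hdvd hp hdeg _ (fun w => ?_) v
  rw [← h2]
  exact h w

end Bridge

section Numerics

/-- the numerics of the auxiliary level `lcm(M', 4)`: `ψ(lcm(M', 4)) = c ψ(M')` with
`c ∈ {1, 2, 6}`, and `c = 6` only for odd `M'`. -/
theorem lvb_psi_aux (M' : ℕ) (hM' : M' ≠ 0) :
    ∃ c : ℕ, (c = 1 ∨ c = 2 ∨ (c = 6 ∧ ¬ 2 ∣ M')) ∧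
      dedekindPsi (Nat.lcm M' 4) = c * dedekindPsi M' := by
  by_cases h2 : 2 ∣ M'
  · by_cases h4 : 4 ∣ M'
    · exact ⟨1, Or.inl rfl, by rw [Nat.lcm_eq_left h4, one_mul]⟩
    · obtain ⟨k, hk⟩ := h2
      have hk2 : ¬ 2 ∣ k := fun ⟨j, hj⟩ => h4 ⟨j, by rw [hk, hj]; ring⟩
      have hcop : Nat.Coprime k 2 :=
        ((Nat.Prime.coprime_iff_not_dvd Nat.prime_two).2 hk2).symm
      have hlcm : Nat.lcm M' 4 = 2 * M' := by
        have e4 : (4 : ℕ) = 2 * 2 := by norm_num
        rw [hk, e4, Nat.lcm_mul_left, hcop.lcm_eq_mul]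
        ring
      refine ⟨2, Or.inr (Or.inl rfl), ?_⟩
      rw [hlcm, Fermat.Agent.S20lib.dedekindPsi_prime_mul_of_dvd Nat.prime_two hM' ⟨k, hk⟩]
  · have hcop : Nat.Coprime M' 4 := by
      have e4 : (4 : ℕ) = 2 * 2 := by norm_num
      rw [e4]
      exact Nat.Coprime.mul_right ((Nat.Prime.coprime_iff_not_dvd Nat.prime_two).2 h2).symm
        ((Nat.Prime.coprime_iff_not_dvd Nat.prime_two).2 h2).symm
    have hlcm : Nat.lcm M' 4 = 2 * (2 * M') := by
      rw [hcop.lcm_eq_mul]
      ring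
    have h2M : 2 * M' ≠ 0 := Nat.mul_ne_zero (by norm_num) hM'
    refine ⟨6, Or.inr (Or.inr ⟨rfl, h2⟩), ?_⟩
    rw [hlcm, Fermat.Agent.S20lib.dedekindPsi_prime_mul_of_dvd Nat.prime_two h2M
      (dvd_mul_right 2 M'),
      Fermat.Agent.S20lib.dedekindPsi_prime_mul_of_not_dvd Nat.prime_two hM' h2]
    ring

variable {M' M p : ℕ} [NeZero M'] [NeZero M] {A : ValuationSubring Kbar}

/-- **the degree condition of the bridge at the auxiliary level** `M = lcm(M', 4)`: the degree
`[F_{M,k} : F_{M',k}] ∈ {1, 2, 6}` is prime to `p` for `p ≥ 5`, and for `p = 3` if `M'` is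
even. -/
theorem lvb_hdeg_aux (hM : M = Nat.lcm M' 4) (hdvd : M' ∣ M) (hp : p.Prime) (hp2 : p ≠ 2)
    (h3 : p ≠ 3 ∨ 2 ∣ M') (hpM : ¬ p ∣ M) (hA : A.LiesOverPrime p) :
    ¬ p ∣ finrankAlong (IsLocalRing.ResidueField A)
      (inclK (IsLocalRing.ResidueField A) hdvd) := by
  haveI : NeZero p := ⟨hp.ne_zero⟩
  haveI : NeZero (M' * p) := ⟨Nat.mul_ne_zero (NeZero.ne M') hp.ne_zero⟩
  haveI : NeZero (M * p) := ⟨Nat.mul_ne_zero (NeZero.ne M) hp.ne_zero⟩
  have hfr := lvb_finrank (A := A) hdvd hp hpM hA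
  obtain ⟨c, hc, hψ⟩ := lvb_psi_aux M' (NeZero.ne M')
  rw [← hM] at hψ
  have hpos : 0 < dedekindPsi M' := dedekindPsi_pos M'
  have hd : finrankAlong (IsLocalRing.ResidueField A)
      (inclK (IsLocalRing.ResidueField A) hdvd) = c := by
    have h1 : dedekindPsi M' * finrankAlong (IsLocalRing.ResidueField A)
        (inclK (IsLocalRing.ResidueField A) hdvd) = dedekindPsi M' * c := by
      rw [hfr, hψ, mul_comm]
    exact Nat.eq_of_mul_eq_mul_left hpos h1
  rw [hd]
  intro hpc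
  have hple : p ≤ c := Nat.le_of_dvd (by rcases hc with h | h | ⟨h, -⟩ <;> omega) hpc
  have hp1 := hp.one_lt
  rcases hc with h | h | ⟨h, hodd⟩
  · omega
  · have : p = 2 := by omega
    exact hp2 this
  · subst h
    -- `p ∣ 6`, `p ≠ 2`: `p = 3`
    have h6 : p ∣ 2 * 3 := by simpa using hpc
    rcases (Nat.Prime.dvd_mul hp).1 h6 with h | h
    · exact hp2 ((Nat.prime_dvd_prime_iff_eq hp Nat.prime_two).1 h)
    · have hp3 : p = 3 := (Nat.prime_dvd_prime_iff_eq hp Nat.prime_three).1 h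
      rcases h3 with h3 | h3
      · exact h3 hp3
      · exact hodd h3

end Numerics

end Fermat.Agent.S40lib

end
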