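import Mathlib
import Fermat.Agent.S36lib.Speed
import Fermat.Agent.S40lib.EisStep
import Fermat.Agent.S40lib.HeckeRed
import Fermat.Agent.LatE.KummerHecke
import Fermat.Agent.S33lib.GeoDefs
import Fermat.Agent.S37lib.HeckeInputs
import Fermat.Agent.GoodRed.DescNormK
import Fermat.Agent.GM.Main

/-!
# Item 88 (S40), piece H1 (helper28), CONCRETE: the Eisenstein step at the level `M p`

* `eic_kummer_hecke` : `u` Kummer function of `x`  ⇒  `N_α (β u)` Kummer function of `T_ℓ x`;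
* `eic_kummer_zsmul` : `u ^ a` (`a : ℤ`) is a Kummer function of `a • x`;
* `eic_kummer_rel`   : `T_ℓ x = a • x`  ⇒  `N_α (β u) = c u ^ a h ^ p`;
* `eic_wind_inf`     : (H1) on the `∞`-component at the level `M p` (`R`, `R_ℓ` the series
                       reductions of `F_{Mp}`, `F_{Mpℓ}`), from `eis_wind` + HECKE-RED (helper4);
* `eic_h1_inf`       : the same from `heckeOperatorBar (M p) ℓ x = a • x`.
No sorry in this file.
-/

set_option autoImplicit false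
set_option linter.style.haveILetI false
set_option linter.unusedSectionVars false
set_option linter.unusedVariables false
set_option synthInstance.maxHeartbeats 400000

noncomputable section

namespace Fermat.Agent.S40lib

open ModularCurve AlgebraicCurve HahnSeries Fermat.Agent.GoodRed Fermat.Agent.GM
  Fermat.Agent.S24lib Fermat.Agent.HeckeBar Fermat.Agent.S34lib Fermat.Agent.S36lib
  Fermat.Agent.RRlib Fermat.Agent.S33lib Fermat.Agent.LatE Fermat.Agent.S37lib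

/-! ### 1. Kummer functions and the Hecke operator -/

section Kummer

variable (N ℓ : ℕ) [NeZero N] [NeZero ℓ] [RRBase Kbar (FF N)]

/-- `N_α (β u)` is a Kummer function of `T_ℓ x` -/
theorem eic_kummer_hecke {p : ℕ} {x : JZero N} {u : FF N}
    (hx : gdfIsKummer (K := Kbar) p x u) :
    gdfIsKummer (K := Kbar) p (heckeOperatorAlong Kbar N ℓ x) (normBeta N ℓ u) := by
  obtain ⟨hu, D, hD, hpD⟩ := hx
  have hDv : ∀ v : Place Kbar (FF N), (p : ℤ) * (D : Divisor Kbar (FF N)) v = v.ord u := by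
    intro v
    have := congrArg (fun E : Divisor Kbar (FF N) => E v) hpD
    simp only [Finsupp.smul_apply, nsmul_eq_mul] at this
    rw [divOf_apply hu] at this
    exact_mod_cast this
  obtain ⟨h1, D', hD', hv⟩ := kummer_hecke N ℓ (heckeInputsAlong_Qbar N ℓ) p D u hu hDv
  refine ⟨h1, D', by rw [← hD, hD'], ?_⟩
  refine Finsupp.ext fun v => ?_
  rw [divOf_apply h1, ← hv v]
  simp only [Finsupp.smul_apply, nsmul_eq_mul]

end Kummer

section KummerAbs

variable {K F : Type*} [Field K] [Field F] [Algebra K F] [RRBase K F]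

/-- `u ^ a` is a Kummer function of `a • x`, `a : ℤ` -/
theorem eic_kummer_zsmul {p : ℕ} {x : Pic0 K F} {u : F} (hx : gdfIsKummer p x u) (a : ℤ) :
    gdfIsKummer p (a • x) (u ^ a) := by
  cases a with
  | ofNat n =>
    rw [Int.ofNat_eq_natCast, natCast_zsmul, zpow_natCast]
    exact gdf_isKummer_pow hx n
  | negSucc n =>
    rw [zpow_negSucc, negSucc_zsmul]
    exact gdf_isKummer_neg (gdf_isKummer_pow hx (n + 1))

end KummerAbs

section KummerRel

variable (N : ℕ) [NeZero N] [RRBase Kbar (FF N)]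

/-- **the Kummer form of the eigen-relation**: `T_ℓ x = a • x`  ⇒  `N_α (β u) = c u ^ a h ^ p` -/
theorem eic_kummer_rel (ℓ : Nat.Primes) {p : ℕ} {x : JZero N} {u : FF N}
    (hx : gdfIsKummer (K := Kbar) p x u) (a : ℤ) (heig : heckeOperatorBar N ℓ x = a • x) :
    haveI : NeZero (ℓ : ℕ) := ⟨ℓ.2.ne_zero⟩
    ∃ (c : Kbar) (h : FF N), c ≠ 0 ∧ h ≠ 0 ∧
      normBeta N ℓ u = algebraMap Kbar (FF N) c * u ^ a * h ^ p := by
  haveI : NeZero (ℓ : ℕ) := ⟨ℓ.2.ne_zero⟩
  have h1 := eic_kummer_hecke N ℓ hx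
  rw [← heckeOperatorBar_apply, heig] at h1
  obtain ⟨c, w, hc, hw, h⟩ := gdf_isKummer_unique (eic_kummer_zsmul hx a) h1
  exact ⟨c, w, hc, hw, by rw [h]; ring⟩

end KummerRel

/-! ### 2. (H1) on the `∞`-component at the level `M p` -/

section Concrete

variable (M p ℓ : ℕ) [NeZero M] [NeZero p] [NeZero ℓ] [NeZero (M * p)] [NeZero (M * ℓ)]
  [NeZero (M * p * ℓ)]
variable (A : ValuationSubring Kbar)

/-- **(H1), `∞`-component, level `M p`**: `R`, `R_ℓ` the series reductions of `F_{Mp}`,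
`F_{Mpℓ}`; `u` a unit of `O_R` with `N_α (β u) = c u ^ a h ^ p`; if the divisors of the reductions
of `β u` and `α u` (level `M ℓ`, characteristic `p`) agree modulo `p` and `p` is prime to
`a - [F_{Mpℓ} : F_{Mp}]`, then `p ∣ ord_Q (red u)` for every place `Q` of `F_{M,k}`. -/
theorem eic_wind_inf (hp : p.Prime) (hpM : ¬ p ∣ M) (hℓ : ℓ.Prime) (hℓp : ℓ ≠ p)
    (hA : A.LiesOverPrime p)
    {R : ConstRed A (IsLocalRing.residue A) (Fk (IsLocalRing.ResidueField A) M) (FF (M * p))}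
    {Rl : ConstRed A (IsLocalRing.residue A) (Fk (IsLocalRing.ResidueField A) (M * ℓ))
      (FF (M * p * ℓ))}
    (hR : IsSeriesRed R) (hRl : IsSeriesRed Rl) (a : ℤ)
    (hcop : IsCoprime (p : ℤ) (a - (finrankAlong Kbar (heckeAlphaBar Kbar (M * p) ℓ) : ℤ)))
    {u h : FF (M * p)} {c : Kbar} (hu : EisUnit R u)
    (hN : normBeta (M * p) ℓ u = algebraMap Kbar (FF (M * p)) c * u ^ a * h ^ p)
    (hα : heckeAlphaBar Kbar (M * p) ℓ u ∈ Rl.O) (hβ : heckeBetaBar Kbar (M * p) ℓ u ∈ Rl.O)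
    (heq : ∀ Q' : Place (IsLocalRing.ResidueField A) (Fk (IsLocalRing.ResidueField A) (M * ℓ)),
      (p : ℤ) ∣ Q'.ord (Rl.red ⟨_, hβ⟩) - Q'.ord (Rl.red ⟨_, hα⟩))
    (Q : Place (IsLocalRing.ResidueField A) (Fk (IsLocalRing.ResidueField A) M)) :
    (p : ℤ) ∣ Q.ord (R.red ⟨u, hu.2.1⟩) := by
  haveI : IsAlgClosed (IsLocalRing.ResidueField A) := isAlgClosed_residueField A
  haveI : Fact p.Prime := ⟨hp⟩
  have hpMl := hkr_not_dvd_mul M p ℓ hp hpM hℓ hℓp
  have hfinK : FiniteAlong (IsLocalRing.ResidueField A)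
      (inclK (IsLocalRing.ResidueField A) (dvd_mul_right M ℓ)) :=
    finiteAlong_inclK (IsLocalRing.ResidueField A) (dvd_mul_right M ℓ)
      (finrank_Fk_modL M hpM A hA) (finrank_Fk_modL (M * ℓ) hpMl A hA)
  have hNF := normFormulaAlong_inclK (IsLocalRing.ResidueField A) (dvd_mul_right M ℓ) hfinK
  have hne : A ≠ ⊤ := cri_ne_top p A hA hp.ne_zero
  letI := algebraAlong (heckeAlphaBar Kbar (M * p) ℓ)
  letI := algebraAlong (inclK (IsLocalRing.ResidueField A) (dvd_mul_right M ℓ))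
  haveI := isScalarTower_along (heckeAlphaBar Kbar (M * p) ℓ)
  haveI := isScalarTower_along (inclK (IsLocalRing.ResidueField A) (dvd_mul_right M ℓ))
  haveI : FiniteDimensional (FF (M * p)) (FF (M * p * ℓ)) := hkr_finite M p ℓ
  haveI : Module.Finite (Fk (IsLocalRing.ResidueField A) M)
      (Fk (IsLocalRing.ResidueField A) (M * ℓ)) := hfinK
  haveI : Algebra.IsIntegral (Fk (IsLocalRing.ResidueField A) M)
      (Fk (IsLocalRing.ResidueField A) (M * ℓ)) := Algebra.IsIntegral.of_finite _ _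
  haveI := gmw_hasPrincipalDivisors (IsLocalRing.ResidueField A) M
  haveI := gmw_hasPrincipalDivisors (IsLocalRing.ResidueField A) (M * ℓ)
  haveI : SumRamificationInertia (IsLocalRing.ResidueField A)
      (Fk (IsLocalRing.ResidueField A) M) (Fk (IsLocalRing.ResidueField A) (M * ℓ)) :=
    sumRamificationInertia_of_normFormula hNF
  have hT := hkr_isTower M p ℓ A hne hR hRl
  have hdeg := hkr_finrank_eq M p ℓ A hp hpM hℓ hℓp hA
  -- `β u` is a unit of `O_{R_ℓ}`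
  obtain ⟨hβi, -⟩ := hkr_beta M p ℓ A hne hR hRl u⁻¹ hu.2.2
  have hg : EisUnit Rl (heckeBetaBar Kbar (M * p) ℓ u) :=
    ⟨(map_ne_zero _).mpr hu.1, hβ, by rw [← map_inv₀]; exact hβi⟩
  exact eis_wind hT hdeg hNF p hp.pos a hcop hu hg hN ∅ (fun Q' _ => heq Q') Q
    (Set.notMem_empty Q)

omit [NeZero M] [NeZero p] [NeZero (M * ℓ)] [NeZero (M * p * ℓ)] in
/-- `[F_{Mpℓ} : F_{Mp}] = ℓ + 1` for a prime `ℓ ∤ M p` -/
theorem eic_finrank (hℓ : ℓ.Prime) (hℓN : ¬ ℓ ∣ M * p) :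
    finrankAlong Kbar (heckeAlphaBar Kbar (M * p) ℓ) = ℓ + 1 := by
  haveI : NeZero (M * p * ℓ) := ⟨Nat.mul_ne_zero (NeZero.ne _) (NeZero.ne ℓ)⟩
  have h := finrankAlong_inclBar_prime (M * p) hℓ (M * p * ℓ) rfl
  rw [if_neg hℓN] at h
  exact h

/-- **(H1), `∞`-component, from the eigen-relation**: `x ∈ J₀(M p)` with Kummer function `u`
(a unit of `O_R`), `T_ℓ x = a • x`, `p ∤ a - (ℓ + 1)`; if the divisors of the reductions of `β u`
and `α u` agree modulo `p`, then `p ∣ ord_Q (red u)` for every place `Q` of `F_{M,k}`. -/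
theorem eic_h1_inf [RRBase Kbar (FF (M * p))] (hp : p.Prime) (hpM : ¬ p ∣ M) (hℓ : ℓ.Prime)
    (hℓp : ℓ ≠ p) (hℓN : ¬ ℓ ∣ M * p) (hA : A.LiesOverPrime p)
    {R : ConstRed A (IsLocalRing.residue A) (Fk (IsLocalRing.ResidueField A) M) (FF (M * p))}
    {Rl : ConstRed A (IsLocalRing.residue A) (Fk (IsLocalRing.ResidueField A) (M * ℓ))
      (FF (M * p * ℓ))}
    (hR : IsSeriesRed R) (hRl : IsSeriesRed Rl) (a : ℤ)
    (hcop : ¬ (p : ℤ) ∣ a - ((ℓ : ℤ) + 1))
    {x : JZero (M * p)} {u : FF (M * p)} (hx : gdfIsKummer (K := Kbar) p x u)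
    (heig : heckeOperatorBar (M * p) ⟨ℓ, hℓ⟩ x = a • x) (hu : EisUnit R u)
    (hα : heckeAlphaBar Kbar (M * p) ℓ u ∈ Rl.O) (hβ : heckeBetaBar Kbar (M * p) ℓ u ∈ Rl.O)
    (heq : ∀ Q' : Place (IsLocalRing.ResidueField A) (Fk (IsLocalRing.ResidueField A) (M * ℓ)),
      (p : ℤ) ∣ Q'.ord (Rl.red ⟨_, hβ⟩) - Q'.ord (Rl.red ⟨_, hα⟩))
    (Q : Place (IsLocalRing.ResidueField A) (Fk (IsLocalRing.ResidueField A) M)) :
    (p : ℤ) ∣ Q.ord (R.red ⟨u, hu.2.1⟩) := by
  obtain ⟨c, h, -, -, hN⟩ := eic_kummer_rel (M * p) ⟨ℓ, hℓ⟩ hx a heig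
  have hcop' : IsCoprime (p : ℤ)
      (a - (finrankAlong Kbar (heckeAlphaBar Kbar (M * p) ℓ) : ℤ)) := by
    rw [eic_finrank M p ℓ hℓ hℓN]
    push_cast
    exact (Nat.prime_iff_prime_int.mp hp).coprime_iff_not_dvd.mpr hcop
  exact eic_wind_inf M p ℓ A hp hpM hℓ hℓp hA hR hRl a hcop' hu hN hα hβ heq Q

end Concrete

end Fermat.Agent.S40lib

end
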