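import Mathlib
import Fermat.Agent.S36lib.Speed
import Fermat.Agent.S40lib.EisConc
import Fermat.Agent.S35lib.DegJBeta
import Fermat.Agent.S34lib.InertiaRedAL

/-!
# Item 88 (S40), piece H1 (helper28), CONCRETE, the `0`-component

`R₀ = R ∘ w_p` (`inredZero`) at the levels `M p` and `M p ℓ`.  The Atkin–Lehner involution `w_p`
commutes with `α_ℓ`, `β_ℓ` (`dgj_al_comp_alpha`, `dgj_al_comp_beta`) and with the norm along `α_ℓ`,
so (H1) on the `0`-component for `u₀` is (H1) on the `∞`-component for `w_p u₀`.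

* `eiz_norm_al`     : `N_α (w' y) = w (N_α y)`;
* `eiz_normBeta_al` : `T_ℓ (w u) = w (T_ℓ u)` on functions;
* `eiz_wind_zero`   : (H1) on the `0`-component from `N_α (β u₀) = c u₀ ^ a h ^ p`;
* `eiz_h1_zero`     : the same from `heckeOperatorBar (M p) ℓ x = a • x`.
No sorry in this file.
-/

set_option autoImplicit false
set_option linter.style.haveILetI false
set_option linter.unusedSectionVars false
set_option linter.unusedVariables false
set_option synthInstance.maxHeartbeats 400000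

noncomputable section

namespace Fermat.Agent.S40lib

open ModularCurve AlgebraicCurve HahnSeries Fermat.Agent.GoodRed Fermat.Agent.GM
  Fermat.Agent.S24lib Fermat.Agent.HeckeBar Fermat.Agent.S34lib Fermat.Agent.S36lib
  Fermat.Agent.RRlib Fermat.Agent.S33lib Fermat.Agent.LatE Fermat.Agent.S37lib
  Fermat.Agent.S35lib

section AL

variable (N : ℕ) [NeZero N] {q ℓ : ℕ} [NeZero ℓ] [NeZero (N * ℓ)]
variable (hq : q.Prime) (hqN : q ∣ N) (hq2 : ¬ q ^ 2 ∣ N) (hℓ : ℓ.Prime) (hne : ℓ ≠ q)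

/-- the norm along `α_ℓ` commutes with the Atkin–Lehner involution `w_q`, `q ≠ ℓ` -/
theorem eiz_norm_al (y : FF (N * ℓ)) :
    letI := algebraAlong (heckeAlphaBar Kbar N ℓ)
    Algebra.norm (FF N)
        (atkinLehnerFF (N * ℓ) q hq (hqN.mul_right ℓ) (dgj_not_sq_dvd_mul hq hℓ hne hq2) y)
      = atkinLehnerFF N q hq hqN hq2 (Algebra.norm (FF N) y) := by
  letI := algebraAlong (heckeAlphaBar Kbar N ℓ)
  have he : RingHom.comp (algebraMap (FF N) (FF (N * ℓ)))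
        ((atkinLehnerFF N q hq hqN hq2).toRingEquiv : FF N →+* FF N)
      = RingHom.comp ((atkinLehnerFF (N * ℓ) q hq (hqN.mul_right ℓ)
          (dgj_not_sq_dvd_mul hq hℓ hne hq2)).toRingEquiv : FF (N * ℓ) →+* FF (N * ℓ))
        (algebraMap (FF N) (FF (N * ℓ))) := by
    refine RingHom.ext fun x => ?_
    have := congrArg (fun φ : FF N →ₐ[Kbar] FF (N * ℓ) => φ x)
      (dgj_al_comp_alpha N hq hqN hq2 hℓ hne)
    exact this.symm
  have h := Algebra.norm_eq_of_equiv_equiv (atkinLehnerFF N q hq hqN hq2).toRingEquiv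
    (atkinLehnerFF (N * ℓ) q hq (hqN.mul_right ℓ)
      (dgj_not_sq_dvd_mul hq hℓ hne hq2)).toRingEquiv he y
  rw [h]
  exact ((atkinLehnerFF N q hq hqN hq2).toRingEquiv.apply_symm_apply _).symm

include hℓ hne in
/-- `T_ℓ` on functions commutes with `w_q` -/
theorem eiz_normBeta_al (u : FF N) :
    normBeta N ℓ (atkinLehnerFF N q hq hqN hq2 u)
      = atkinLehnerFF N q hq hqN hq2 (normBeta N ℓ u) := by
  have hβ : heckeBetaBar Kbar N ℓ (atkinLehnerFF N q hq hqN hq2 u)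
      = atkinLehnerFF (N * ℓ) q hq (hqN.mul_right ℓ) (dgj_not_sq_dvd_mul hq hℓ hne hq2)
          (heckeBetaBar Kbar N ℓ u) := by
    have := congrArg (fun φ : FF N →ₐ[Kbar] FF (N * ℓ) => φ u)
      (dgj_al_comp_beta N hq hqN hq2 hℓ hne)
    exact this.symm
  unfold normBeta
  rw [hβ]
  exact eiz_norm_al N hq hqN hq2 hℓ hne _

end AL

/-! ### (H1) on the `0`-component at the level `M p` -/

section Zero

variable (M p ℓ : ℕ) [NeZero M] [NeZero p] [NeZero ℓ] [NeZero (M * p)] [NeZero (M * ℓ)]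
  [NeZero (M * p * ℓ)]
variable (A : ValuationSubring Kbar)

/-- **(H1), `0`-component, level `M p`**: the statement of `eic_wind_inf` for `R₀ = R ∘ w_p` and
`R_{ℓ,0} = R_ℓ ∘ w_p`. -/
theorem eiz_wind_zero (hp : p.Prime) (hpM : ¬ p ∣ M) (hℓ : ℓ.Prime) (hℓp : ℓ ≠ p)
    (hA : A.LiesOverPrime p)
    (h1 : p ∣ M * p) (h2 : ¬ p ^ 2 ∣ M * p) (h1' : p ∣ M * p * ℓ) (h2' : ¬ p ^ 2 ∣ M * p * ℓ)
    {R : ConstRed A (IsLocalRing.residue A) (Fk (IsLocalRing.ResidueField A) M) (FF (M * p))}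
    {Rl : ConstRed A (IsLocalRing.residue A) (Fk (IsLocalRing.ResidueField A) (M * ℓ))
      (FF (M * p * ℓ))}
    (hR : IsSeriesRed R) (hRl : IsSeriesRed Rl) (a : ℤ)
    (hcop : IsCoprime (p : ℤ) (a - (finrankAlong Kbar (heckeAlphaBar Kbar (M * p) ℓ) : ℤ)))
    {u h : FF (M * p)} {c : Kbar} (hu : EisUnit (inredZero (M * p) p hp h1 h2 R) u)
    (hN : normBeta (M * p) ℓ u = algebraMap Kbar (FF (M * p)) c * u ^ a * h ^ p)
    (hα : heckeAlphaBar Kbar (M * p) ℓ u ∈ (inredZero (M * p * ℓ) p hp h1' h2' Rl).O)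
    (hβ : heckeBetaBar Kbar (M * p) ℓ u ∈ (inredZero (M * p * ℓ) p hp h1' h2' Rl).O)
    (heq : ∀ Q' : Place (IsLocalRing.ResidueField A) (Fk (IsLocalRing.ResidueField A) (M * ℓ)),
      (p : ℤ) ∣ Q'.ord ((inredZero (M * p * ℓ) p hp h1' h2' Rl).red ⟨_, hβ⟩)
        - Q'.ord ((inredZero (M * p * ℓ) p hp h1' h2' Rl).red ⟨_, hα⟩))
    (Q : Place (IsLocalRing.ResidueField A) (Fk (IsLocalRing.ResidueField A) M)) :
    (p : ℤ) ∣ Q.ord ((inredZero (M * p) p hp h1 h2 R).red ⟨u, hu.2.1⟩) := by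
  have hu' : EisUnit R (atkinLehnerFF (M * p) p hp h1 h2 u) :=
    ⟨(map_ne_zero _).mpr hu.1, hu.2.1, by rw [← map_inv₀]; exact hu.2.2⟩
  have hN' : normBeta (M * p) ℓ (atkinLehnerFF (M * p) p hp h1 h2 u)
      = algebraMap Kbar (FF (M * p)) c * (atkinLehnerFF (M * p) p hp h1 h2 u) ^ a
        * (atkinLehnerFF (M * p) p hp h1 h2 h) ^ p := by
    rw [eiz_normBeta_al (M * p) hp h1 h2 hℓ hℓp, hN, map_mul, map_mul, map_pow, map_zpow₀,
      AlgEquiv.commutes]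
  have eα : heckeAlphaBar Kbar (M * p) ℓ (atkinLehnerFF (M * p) p hp h1 h2 u)
      = atkinLehnerFF (M * p * ℓ) p hp h1' h2' (heckeAlphaBar Kbar (M * p) ℓ u) := by
    have := congrArg (fun φ : FF (M * p) →ₐ[Kbar] FF (M * p * ℓ) => φ u)
      (dgj_al_comp_alpha (M * p) hp h1 h2 hℓ hℓp)
    exact this.symm
  have eβ : heckeBetaBar Kbar (M * p) ℓ (atkinLehnerFF (M * p) p hp h1 h2 u)
      = atkinLehnerFF (M * p * ℓ) p hp h1' h2' (heckeBetaBar Kbar (M * p) ℓ u) := by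
    have := congrArg (fun φ : FF (M * p) →ₐ[Kbar] FF (M * p * ℓ) => φ u)
      (dgj_al_comp_beta (M * p) hp h1 h2 hℓ hℓp)
    exact this.symm
  have hα' : heckeAlphaBar Kbar (M * p) ℓ (atkinLehnerFF (M * p) p hp h1 h2 u) ∈ Rl.O := by
    rw [eα]; exact hα
  have hβ' : heckeBetaBar Kbar (M * p) ℓ (atkinLehnerFF (M * p) p hp h1 h2 u) ∈ Rl.O := by
    rw [eβ]; exact hβ
  have rα : Rl.red ⟨_, hα'⟩ = (inredZero (M * p * ℓ) p hp h1' h2' Rl).red ⟨_, hα⟩ := by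
    rw [inredZero_red]
    exact congrArg Rl.red (Subtype.ext eα)
  have rβ : Rl.red ⟨_, hβ'⟩ = (inredZero (M * p * ℓ) p hp h1' h2' Rl).red ⟨_, hβ⟩ := by
    rw [inredZero_red]
    exact congrArg Rl.red (Subtype.ext eβ)
  have key := eic_wind_inf M p ℓ A hp hpM hℓ hℓp hA hR hRl a hcop hu' hN' hα' hβ'
    (fun Q' => by rw [rα, rβ]; exact heq Q') Q
  exact key

/-- **(H1), `0`-component, from the eigen-relation** -/
theorem eiz_h1_zero [RRBase Kbar (FF (M * p))] (hp : p.Prime) (hpM : ¬ p ∣ M) (hℓ : ℓ.Prime)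
    (hℓp : ℓ ≠ p) (hℓN : ¬ ℓ ∣ M * p) (hA : A.LiesOverPrime p)
    (h1 : p ∣ M * p) (h2 : ¬ p ^ 2 ∣ M * p) (h1' : p ∣ M * p * ℓ) (h2' : ¬ p ^ 2 ∣ M * p * ℓ)
    {R : ConstRed A (IsLocalRing.residue A) (Fk (IsLocalRing.ResidueField A) M) (FF (M * p))}
    {Rl : ConstRed A (IsLocalRing.residue A) (Fk (IsLocalRing.ResidueField A) (M * ℓ))
      (FF (M * p * ℓ))}
    (hR : IsSeriesRed R) (hRl : IsSeriesRed Rl) (a : ℤ)
    (hcop : ¬ (p : ℤ) ∣ a - ((ℓ : ℤ) + 1))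
    {x : JZero (M * p)} {u : FF (M * p)} (hx : gdfIsKummer (K := Kbar) p x u)
    (heig : heckeOperatorBar (M * p) ⟨ℓ, hℓ⟩ x = a • x)
    (hu : EisUnit (inredZero (M * p) p hp h1 h2 R) u)
    (hα : heckeAlphaBar Kbar (M * p) ℓ u ∈ (inredZero (M * p * ℓ) p hp h1' h2' Rl).O)
    (hβ : heckeBetaBar Kbar (M * p) ℓ u ∈ (inredZero (M * p * ℓ) p hp h1' h2' Rl).O)
    (heq : ∀ Q' : Place (IsLocalRing.ResidueField A) (Fk (IsLocalRing.ResidueField A) (M * ℓ)),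
      (p : ℤ) ∣ Q'.ord ((inredZero (M * p * ℓ) p hp h1' h2' Rl).red ⟨_, hβ⟩)
        - Q'.ord ((inredZero (M * p * ℓ) p hp h1' h2' Rl).red ⟨_, hα⟩))
    (Q : Place (IsLocalRing.ResidueField A) (Fk (IsLocalRing.ResidueField A) M)) :
    (p : ℤ) ∣ Q.ord ((inredZero (M * p) p hp h1 h2 R).red ⟨u, hu.2.1⟩) := by
  obtain ⟨c, h, -, -, hN⟩ := eic_kummer_rel (M * p) ⟨ℓ, hℓ⟩ hx a heig
  have hcop' : IsCoprime (p : ℤ)
      (a - (finrankAlong Kbar (heckeAlphaBar Kbar (M * p) ℓ) : ℤ)) := by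
    rw [eic_finrank M p ℓ hℓ hℓN]
    push_cast
    exact (Nat.prime_iff_prime_int.mp hp).coprime_iff_not_dvd.mpr hcop
  exact eiz_wind_zero M p ℓ A hp hpM hℓ hℓp hA h1 h2 h1' h2' hR hRl a hcop' hu hN hα hβ heq Q

end Zero

end Fermat.Agent.S40lib

end
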