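import Mathlib
import Fermat.Agent.S36lib.Speed
import Fermat.Agent.S40lib.LiftEigRed
import Fermat.Agent.S40lib.EisZero

/-!
# Item 88 (S40), layer (LIFT), bridge piece **E2** (helper13).  Complete proofs.

The `0`-component of `E1` (`LiftEigRed.lean`).  Level `N p` (`p ∤ N`), `R` a series reduction of
`F_{Np}` with residue field `F_{N,k}`, `R₀ = R ∘ w_p = inredZero (N p) p _ _ _ R` the reduction at
the `0`-component.  If `x ∈ J₀(Np)(ℚ̄)` is a Hecke eigenclass (`T_ℓ x = a_ℓ x`, `ℓ ∉ S`, `p ∈ S`)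
and `u₀` a Kummer function of `x` which is a unit of `O_{R₀}` and whose reduction has a divisor in
`p · Div`, then `red_{R₀} u₀` is a `p`-torsion eigenfunction of `F_{N,k}`:

  `LfhEigFun k N p S a (red_{R₀} u₀)`.

Proof: `T_ℓ` on functions commutes with `w_p` (`eiz_normBeta_al`, helper28), so `w_p u₀` is a unit
of `O_R` with the same Kummer relation; then `hkb_main` (helper4).  No Hecke-equivariance of `w_p`
on `J₀` is needed.

* `lez_hecke` : one prime `ℓ`;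
* `lez_main`, `lez_main_eig` : `LfhEigFun` for `red_{R₀} u₀`.
-/

set_option autoImplicit false
set_option linter.style.haveILetI false
set_option linter.unusedSectionVars false
set_option linter.unusedVariables false
set_option synthInstance.maxHeartbeats 400000

noncomputable section

namespace Fermat.Agent.S40lib

open ModularCurve AlgebraicCurve HahnSeries Fermat.Agent.GoodRed Fermat.Agent.GM
  Fermat.Agent.S24lib Fermat.Agent.HeckeBar Fermat.Agent.S34lib Fermat.Agent.S36lib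
  Fermat.Agent.LatE Fermat.Agent.S35lib

variable (N p : ℕ) [NeZero N] [NeZero p] [NeZero (N * p)]
variable (A : ValuationSubring Kbar)

/-- **E2, one prime**: the Kummer form of the eigen-relation for the reduction at the
`0`-component. -/
theorem lez_hecke (hp : p.Prime) (hpN : ¬ p ∣ N) (hA : A.LiesOverPrime p)
    (h1 : p ∣ N * p) (h2 : ¬ p ^ 2 ∣ N * p)
    {R : ConstRed A (IsLocalRing.residue A) (Fk (IsLocalRing.ResidueField A) N) (FF (N * p))}
    (hR : IsSeriesRed R) (ℓ : ℕ) [NeZero ℓ] (hℓ : ℓ.Prime) (hℓp : ℓ ≠ p) (a : ℤ)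
    (x : JZero (N * p)) (hx : heckeOperatorBar (N * p) ⟨ℓ, hℓ⟩ x = a • x)
    (D : Divisor.degZero (K := Kbar) (F := FF (N * p))) (hD : Pic0.mk D = x)
    (u : FF (N * p)) (hu : EisUnit (inredZero (N * p) p hp h1 h2 R) u)
    (hdiv : ∀ v : Place Kbar (FF (N * p)),
      (p : ℤ) * (D : Divisor Kbar (FF (N * p))) v = v.ord u) :
    ∃ (c : IsLocalRing.ResidueField A) (s : Fk (IsLocalRing.ResidueField A) N),
      c ≠ 0 ∧ s ≠ 0 ∧
      lfhHeckeFun (IsLocalRing.ResidueField A) N ℓ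
          ((inredZero (N * p) p hp h1 h2 R).red ⟨u, hu.2.1⟩)
        = algebraMap (IsLocalRing.ResidueField A) (Fk (IsLocalRing.ResidueField A) N) c
          * ((inredZero (N * p) p hp h1 h2 R).red ⟨u, hu.2.1⟩) ^ a * s ^ p := by
  haveI : NeZero (N * ℓ) := ⟨Nat.mul_ne_zero (NeZero.ne N) (NeZero.ne ℓ)⟩
  haveI : NeZero (N * p * ℓ) := ⟨Nat.mul_ne_zero (NeZero.ne (N * p)) (NeZero.ne ℓ)⟩
  obtain ⟨c, h, hc0, hh0, hrel⟩ := kme_norm_rel (N * p) ℓ hℓ p a x hx D hD u hu.1 hdiv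
  have hu' : EisUnit R (atkinLehnerFF (N * p) p hp h1 h2 u) :=
    ⟨(map_ne_zero _).mpr hu.1, hu.2.1, by rw [← map_inv₀]; exact hu.2.2⟩
  have hN' : normBeta (N * p) ℓ (atkinLehnerFF (N * p) p hp h1 h2 u)
      = algebraMap Kbar (FF (N * p)) c * (atkinLehnerFF (N * p) p hp h1 h2 u) ^ a
        * (atkinLehnerFF (N * p) p hp h1 h2 h) ^ p := by
    rw [eiz_normBeta_al (N * p) hp h1 h2 hℓ hℓp, hrel, map_mul, map_mul, map_pow, map_zpow₀,
      AlgEquiv.commutes]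
  obtain ⟨cbar, wbar, hcb, hwb, hbar⟩ :=
    hkb_main N p ℓ A hp hpN hℓ hℓp hA hR (atkinLehnerFF (N * p) p hp h1 h2 u)
      (atkinLehnerFF (N * p) p hp h1 h2 h) c a hp.ne_zero hu' hN'
  refine ⟨cbar, wbar, hcb, hwb, ?_⟩
  rw [eisRed_of_mem hu'.2.1] at hbar
  exact hbar

/-- **E2**: the reduction at the `0`-component of a unit Kummer function of a Hecke eigenclass of
level `N p` is a `p`-torsion eigenfunction of `F_{N,k}`. -/
theorem lez_main (hp : p.Prime) (hpN : ¬ p ∣ N) (hA : A.LiesOverPrime p)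
    (h1 : p ∣ N * p) (h2 : ¬ p ^ 2 ∣ N * p)
    {R : ConstRed A (IsLocalRing.residue A) (Fk (IsLocalRing.ResidueField A) N) (FF (N * p))}
    (hR : IsSeriesRed R) (S : Finset ℕ) (hpS : p ∈ S) (a : ℕ → ℤ)
    (x : JZero (N * p))
    (hx : ∀ ℓ : Nat.Primes, (ℓ : ℕ) ∉ S → heckeOperatorBar (N * p) ℓ x = a ℓ • x)
    (D : Divisor.degZero (K := Kbar) (F := FF (N * p))) (hD : Pic0.mk D = x)
    (u : FF (N * p)) (hu : EisUnit (inredZero (N * p) p hp h1 h2 R) u)
    (hdiv : ∀ v : Place Kbar (FF (N * p)),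
      (p : ℤ) * (D : Divisor Kbar (FF (N * p))) v = v.ord u)
    (hord : ∀ Q : Place (IsLocalRing.ResidueField A) (Fk (IsLocalRing.ResidueField A) N),
      (p : ℤ) ∣ Q.ord ((inredZero (N * p) p hp h1 h2 R).red ⟨u, hu.2.1⟩)) :
    LfhEigFun (IsLocalRing.ResidueField A) N p S a
      ((inredZero (N * p) p hp h1 h2 R).red ⟨u, hu.2.1⟩) := by
  refine ⟨hu.red_ne_zero, hord, ?_⟩
  intro ℓ hℓ hℓS
  haveI : NeZero ℓ := ⟨hℓ.ne_zero⟩
  have hℓp : ℓ ≠ p := fun h => hℓS (h ▸ hpS)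
  exact lez_hecke N p A hp hpN hA h1 h2 hR ℓ hℓ hℓp (a ℓ) x (hx ⟨ℓ, hℓ⟩ hℓS) D hD u hu hdiv

/-- **E2** for a class of a Hecke eigenspace `V`. -/
theorem lez_main_eig (hp : p.Prime) (hpN : ¬ p ∣ N) (hA : A.LiesOverPrime p)
    (h1 : p ∣ N * p) (h2 : ¬ p ^ 2 ∣ N * p)
    {R : ConstRed A (IsLocalRing.residue A) (Fk (IsLocalRing.ResidueField A) N) (FF (N * p))}
    (hR : IsSeriesRed R) (S : Finset ℕ) (hpS : p ∈ S) (a : ℕ → ℤ)
    (V : AddSubgroup (JZero (N * p)))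
    (hEig : ∀ ℓ : Nat.Primes, (ℓ : ℕ) ∉ S → ∀ y ∈ V, heckeOperatorBar (N * p) ℓ y = a ℓ • y)
    (x : JZero (N * p)) (hxV : x ∈ V)
    (D : Divisor.degZero (K := Kbar) (F := FF (N * p))) (hD : Pic0.mk D = x)
    (u : FF (N * p)) (hu : EisUnit (inredZero (N * p) p hp h1 h2 R) u)
    (hdiv : ∀ v : Place Kbar (FF (N * p)),
      (p : ℤ) * (D : Divisor Kbar (FF (N * p))) v = v.ord u)
    (hord : ∀ Q : Place (IsLocalRing.ResidueField A) (Fk (IsLocalRing.ResidueField A) N),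
      (p : ℤ) ∣ Q.ord ((inredZero (N * p) p hp h1 h2 R).red ⟨u, hu.2.1⟩)) :
    LfhEigFun (IsLocalRing.ResidueField A) N p S a
      ((inredZero (N * p) p hp h1 h2 R).red ⟨u, hu.2.1⟩) :=
  lez_main N p A hp hpN hA h1 h2 hR S hpS a x (fun ℓ hℓS => hEig ℓ hℓS x hxV) D hD u hu hdiv
    hord

end Fermat.Agent.S40lib

end
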