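import Mathlib
import Fermat.Agent.S36lib.Speed
import Fermat.Agent.S33lib.CycSpec
import Fermat.Agent.S33lib.KSatPairConc
import Fermat.Agent.S40lib.AJHub
import Fermat.Agent.S40lib.TorPlusI1
import Fermat.Agent.S40lib.Ker2Tail

/-!
# Item 88 (S40), block (A-J): the ASSEMBLY of (J-TAME) (helper14).  Complete proofs.

(J-TAME) = `S40jTame M' p B` (`AJHub.lean`): in a `p`-new non-Eisenstein eigenspace
`V ⊂ J₀(M' p)[p]` a class fixed by the whole inertia group at `B` is zero.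

The chain: `x` inertia-fixed ⇒ (`tmf_kummer`) an inertia-invariant divisor `D` of class `x` with a
Kummer function `u ∈ F0(M' p)` ⇒ pull back to an auxiliary level `M p`: `ũ = incl u` is a Kummer
function of `x̃` ⇒ **(TAME-POW)**: the normalisations `c₁ ũ`, `c₂ ũ` at the two Gauss valuations
`R`, `R₀ = glmZero R` reduce to `p`-th powers, and `c₁ / c₂ = d ^ p` with `d⁻¹` the difference of
the Gauss valuations of a function `g₀` ⇒ (`k2t_main`) `(KER2)` for `x̃` ⇒ (`tpp_fixed_descent`,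
with an inertia element moving `μ_p`, `cysp_exists_moves`) `x = 0`.

* `S40tmaPow M' p hp B` : the ONE open statement (TAME-POW), = WINDC (edge rule + DIV-RED) + H1
  (Eisenstein step) + (P2') (level-0 step, (LIFT)) for the inertia-fixed classes;
* `tma_ker2_gen` : the data of (TAME-POW) for an ARBITRARY Kummer function `u` of an ARBITRARY
  class `x` of the level `M p` ⇒ `TppKer2 x`;
* `tma_pull_kummer`, `tma_ker2` : the same for the pulled-back class;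
* `tma_tame_of_pow` : (TAME-POW) ⇒ `S40jTame`.
-/

set_option autoImplicit false
set_option linter.style.haveILetI false
set_option linter.unusedSectionVars false
set_option linter.unusedVariables false
set_option synthInstance.maxHeartbeats 400000

noncomputable section

namespace Fermat.Agent.S40lib

open Fermat.Agent.GalRep ModularCurve AlgebraicCurve Fermat.Agent.S31lib Fermat.Agent.S35lib
  Fermat.Agent.S33lib Fermat.Agent.S36lib Fermat.Agent.S24lib Fermat.Agent.S34lib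
  Fermat.Agent.RRlib Fermat.Agent.GoodRed Fermat.Agent.S18lib Fermat.Agent.GM
  Fermat.Agent.HeckeBar HahnSeries

section

variable (M' p : ℕ) [NeZero M'] [NeZero p] [NeZero (M' * p)]

/-- **(TAME-POW)**: for an inertia-fixed class `x` of `V` with an inertia-fixed Kummer function
`u` at the level `M' p`, at every auxiliary level `M p` above `M' p` with series reduction `R`:
the hypotheses of `k2t_main` for `ũ = incl u` and the pair `(R, glmZero R)`. -/
def S40tmaPow (hp : p.Prime) (B : ValuationSubring (AlgebraicClosure ℚ)) : Prop :=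
  ∀ (S : Finset ℕ) (a : ℕ → ℤ) (V : AddSubgroup (JZero (M' * p))),
    (∀ ℓ : ℕ, ℓ.Prime → ℓ ∣ M' * p → ℓ ∈ S) →
    Nat.card V = p ^ 2 → (∀ x ∈ V, p • x = 0) →
    (∀ (σ : AlgebraicClosure ℚ ≃ₐ[ℚ] AlgebraicClosure ℚ), ∀ x ∈ V, σ • x ∈ V) →
    S40hEig (M' * p) S a V → S40hNotAt M' p S a →
    (∃ ℓ : Nat.Primes, (ℓ : ℕ) ∉ S ∧ ¬ (p : ℤ) ∣ a ℓ - (1 + (ℓ : ℕ))) →
    ∀ x ∈ V, x ≠ 0 → (∀ σ ∈ B.inertiaSubgroupIn ℚ, σ • x = x) →
    ∀ (D : Divisor.degZero (K := Kbar) (F := FF (M' * p))) (u : FF (M' * p)),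
      Pic0.mk D = x → u ≠ 0 → u ∈ f0Field B (M' * p) →
      (∀ σ ∈ B.inertiaSubgroupIn ℚ,
        galFF (M' * p) σ • (D : Divisor Kbar (FF (M' * p))) = D) →
      (∀ v : Place Kbar (FF (M' * p)),
        (p : ℤ) * (D : Divisor Kbar (FF (M' * p))) v = v.ord u) →
    ∀ (M e : ℕ) [NeZero M] [NeZero (M * p)] (haux : IsAuxLevel p M) (hdvd : M' ∣ M)
      (R : ConstRed B (IsLocalRing.residue B)
        (↥(modularFunctionFieldFullC (IsLocalRing.ResidueField B) M)) (FF (M * p))),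
      IsSeriesRed R → M * p = M' * p * e →
      ∃ (c₁ c₂ d : Kbar)
        (w₁ w₂ a₁ a₂ : ↥(modularFunctionFieldFullC (IsLocalRing.ResidueField B) M))
        (g₀ : FF (M * p)),
        c₁ ≠ 0 ∧ d ^ p * c₂ = c₁ ∧ w₁ ≠ 0 ∧ w₂ ≠ 0 ∧ a₁ ≠ 0 ∧ a₂ ≠ 0 ∧
        KspRed R (algebraMap Kbar (FF (M * p)) c₁ *
          inclBar (M' * p) (M * p) (Nat.mul_dvd_mul_right hdvd p) u) (w₁ ^ p) ∧
        KspRed (glmZero M p hp haux.1 R) (algebraMap Kbar (FF (M * p)) c₂ *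
          inclBar (M' * p) (M * p) (Nat.mul_dvd_mul_right hdvd p) u) (w₂ ^ p) ∧
        KspRed R g₀ a₁ ∧
        KspRed (glmZero M p hp haux.1 R) (algebraMap Kbar (FF (M * p)) d * g₀) a₂

/-- **(TAME-POW) ⇒ (KER2)**, general form: an ARBITRARY class `x` of the level `M p` with an
ARBITRARY Kummer function `u` (not necessarily rational over the inertia field). -/
theorem tma_ker2_gen (M : ℕ) [NeZero M] [NeZero (M * p)] [RRBase Kbar (FF (M * p))]
    (hp : p.Prime) (hpM : ¬ p ∣ M)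
    {B : ValuationSubring (AlgebraicClosure ℚ)} (hB : B.LiesOverPrime p)
    (R : ConstRed B (IsLocalRing.residue B)
      (↥(modularFunctionFieldFullC (IsLocalRing.ResidueField B) M)) (FF (M * p)))
    (hR : IsSeriesRed R)
    (x : JZero (M * p)) (u : FF (M * p)) (hk : gdfIsKummer (K := Kbar) p x u)
    (c₁ c₂ d : Kbar)
    (w₁ w₂ a₁ a₂ : ↥(modularFunctionFieldFullC (IsLocalRing.ResidueField B) M))
    (g₀ : FF (M * p))
    (hc₁ : c₁ ≠ 0) (hd : d ^ p * c₂ = c₁) (hw₁ : w₁ ≠ 0) (hw₂ : w₂ ≠ 0)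
    (ha₁ : a₁ ≠ 0) (ha₂ : a₂ ≠ 0)
    (h₁ : KspRed R (algebraMap Kbar (FF (M * p)) c₁ * u) (w₁ ^ p))
    (h₂ : KspRed (glmZero M p hp hpM R) (algebraMap Kbar (FF (M * p)) c₂ * u) (w₂ ^ p))
    (hg₁ : KspRed R g₀ a₁)
    (hg₂ : KspRed (glmZero M p hp hpM R) (algebraMap Kbar (FF (M * p)) d * g₀) a₂) :
    TppKer2 M p hp hpM R x := by
  haveI : RRHyp Kbar (FF (M * p)) := mod_rrHyp (M * p)
  haveI : IsAlgClosed (IsLocalRing.ResidueField B) := isAlgClosed_residueField B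
  haveI : RRHyp (IsLocalRing.ResidueField B)
      (↥(modularFunctionFieldFullC (IsLocalRing.ResidueField B) M)) :=
    mr_rrHyp (IsLocalRing.ResidueField B) M
  haveI : HasPrincipalDivisors Kbar (FF (M * p)) := wir_hasPrincipalDivisors (M * p)
  obtain ⟨Dt, hDt, hordt⟩ := gdf_isKummer_ord hk
  have hne := vk_O_ne M p hp hpM hR hB
  have hsep := ksp_sep_of_ne R (glmZero M p hp hpM R) hne
  obtain ⟨D', f, hD', hf0, hdivf, hf₁, hf₂⟩ :=
    k2t_main R (glmZero M p hp hpM R) p hsep Dt u hk.1 hordt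
      c₁ c₂ d hc₁ hd w₁ w₂ hw₁ hw₂ h₁ h₂ g₀ a₁ a₂ ha₁ ha₂ hg₁ hg₂
  exact ⟨D', f, hD'.trans hDt, hf0, hdivf, hf₁, hf₂⟩

/-- the pull-back of a Kummer function is a Kummer function of the pulled-back class -/
theorem tma_pull_kummer (M : ℕ) [NeZero M] [NeZero (M * p)] [RRBase Kbar (FF (M * p))]
    (hdvd : M' ∣ M)
    (D : Divisor.degZero (K := Kbar) (F := FF (M' * p))) (u : FF (M' * p)) (hu0 : u ≠ 0)
    (hDu : ∀ v : Place Kbar (FF (M' * p)),
      (p : ℤ) * (D : Divisor Kbar (FF (M' * p))) v = v.ord u) :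
    gdfIsKummer (K := Kbar) p
      (auxLevelPull (M' * p) (M * p) (Nat.mul_dvd_mul_right hdvd p) (Pic0.mk D))
      (inclBar (M' * p) (M * p) (Nat.mul_dvd_mul_right hdvd p) u) := by
  haveI : RRHyp Kbar (FF (M * p)) := mod_rrHyp (M * p)
  haveI : HasPrincipalDivisors Kbar (FF (M * p)) := wir_hasPrincipalDivisors (M * p)
  have hNM : M' * p ∣ M * p := Nat.mul_dvd_mul_right hdvd p
  have hιu : inclBar (M' * p) (M * p) hNM u ≠ 0 := (map_ne_zero _).2 hu0
  exact gdf_isKummer_of_ord hιu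
      (auxPullDegZero (inclBar (M' * p) (M * p) hNM) (isIntegral_inclBar (M' * p) (M * p) hNM)
        (aux_fundId_incl (M' * p) (M * p) hNM) D)
      (tax_pull_mk (M' * p) (M * p) hNM D).symm
      (tax_pull_ord (M' * p) (M * p) hNM p D u hDu)

/-- **(TAME-POW) ⇒ (KER2)** for the pulled-back class. -/
theorem tma_ker2 (hp : p.Prime) (hpM' : ¬ p ∣ M')
    {B : ValuationSubring (AlgebraicClosure ℚ)} (hB : B.LiesOverPrime p)
    (D : Divisor.degZero (K := Kbar) (F := FF (M' * p))) (u : FF (M' * p)) (hu0 : u ≠ 0)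
    (hDu : ∀ v : Place Kbar (FF (M' * p)),
      (p : ℤ) * (D : Divisor Kbar (FF (M' * p))) v = v.ord u)
    (M : ℕ) [NeZero M] [NeZero (M * p)] (haux : IsAuxLevel p M) (hdvd : M' ∣ M)
    (R : ConstRed B (IsLocalRing.residue B)
      (↥(modularFunctionFieldFullC (IsLocalRing.ResidueField B) M)) (FF (M * p)))
    (hR : IsSeriesRed R)
    (c₁ c₂ d : Kbar)
    (w₁ w₂ a₁ a₂ : ↥(modularFunctionFieldFullC (IsLocalRing.ResidueField B) M))
    (g₀ : FF (M * p))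
    (hc₁ : c₁ ≠ 0) (hd : d ^ p * c₂ = c₁) (hw₁ : w₁ ≠ 0) (hw₂ : w₂ ≠ 0)
    (ha₁ : a₁ ≠ 0) (ha₂ : a₂ ≠ 0)
    (h₁ : KspRed R (algebraMap Kbar (FF (M * p)) c₁ *
      inclBar (M' * p) (M * p) (Nat.mul_dvd_mul_right hdvd p) u) (w₁ ^ p))
    (h₂ : KspRed (glmZero M p hp haux.1 R) (algebraMap Kbar (FF (M * p)) c₂ *
      inclBar (M' * p) (M * p) (Nat.mul_dvd_mul_right hdvd p) u) (w₂ ^ p))
    (hg₁ : KspRed R g₀ a₁)
    (hg₂ : KspRed (glmZero M p hp haux.1 R) (algebraMap Kbar (FF (M * p)) d * g₀) a₂) :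
    TppKer2 M p hp haux.1 R
      (auxLevelPull (M' * p) (M * p) (Nat.mul_dvd_mul_right hdvd p) (Pic0.mk D)) := by
  haveI : RRBase Kbar (FF (M * p)) := (mod_rrHyp (M * p)).toRRBase
  exact tma_ker2_gen p M hp haux.1 hB R hR _ _ (tma_pull_kummer M' p M hdvd D u hu0 hDu)
    c₁ c₂ d w₁ w₂ a₁ a₂ g₀ hc₁ hd hw₁ hw₂ ha₁ ha₂ h₁ h₂ hg₁ hg₂

/-- **(J-TAME) from (TAME-POW)**: Mazur's principle in the unramified case. -/
theorem tma_tame_of_pow (hp : p.Prime) (hp2 : p ≠ 2) (hpM' : ¬ p ∣ M')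
    (B : ValuationSubring (AlgebraicClosure ℚ)) (hB : B.LiesOverPrime p)
    (hPow : S40tmaPow M' p hp B) : S40jTame M' p B := by
  haveI : Fact p.Prime := ⟨hp⟩
  intro S a V hS hcard hVp hstab hEig hNot hnE x hx hI
  by_contra hx0
  -- the inertia-fixed Kummer function at the level `M' p`
  obtain ⟨D, u, hD, hu0, huF, hDI, hDu⟩ := tmf_kummer (M' * p) p B x (hVp x hx) hI
  -- the auxiliary level
  obtain ⟨M, e, hM0, hMp0, hdvd, haux, hM, hdeg⟩ := gom_aux_data M' p hp hpM'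
  obtain ⟨R, hR⟩ := exists_constRedInf_aux M p hp haux.1 B hB
  obtain ⟨c₁, c₂, d, w₁, w₂, a₁, a₂, g₀, hc₁, hd, hw₁, hw₂, ha₁, ha₂, h₁, h₂, hg₁, hg₂⟩ :=
    hPow S a V hS hcard hVp hstab hEig hNot hnE x hx hx0 hI D u hD hu0 huF hDI hDu M e haux
      hdvd R hR hM
  have hker := tma_ker2 M' p hp hpM' hB D u hu0 hDu M haux hdvd R hR c₁ c₂ d w₁ w₂ a₁ a₂ g₀
    hc₁ hd hw₁ hw₂ ha₁ ha₂ h₁ h₂ hg₁ hg₂
  rw [hD] at hker
  -- `p`-new
  obtain ⟨hα, hβ⟩ := s40h_new_of_notAt M' p hp hpM' S a V hS hVp hEig hNot x hx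
  -- an inertia element moving `μ_p`
  obtain ⟨τ₀, hτ₀, hmv, -⟩ := cysp_exists_moves p hp2 B hB
  exact hx0 (tpp_fixed_descent M' M p e hp hp2 haux hdvd hM hdeg hB R hR x (hVp x hx) hker hα hβ
    τ₀ hτ₀ hmv (hI τ₀ hτ₀))

end

end Fermat.Agent.S40lib

end
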