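import Mathlib
import Fermat.Agent.S36lib.Speed
import Fermat.Agent.S40lib.TameAsm
import Fermat.Agent.S40lib.KerGlue
import Fermat.Agent.S40lib.LevelBridge
import Fermat.Agent.S40lib.LiftEigRed
import Fermat.Agent.S40lib.LiftEigRedZero
import Fermat.Agent.S40lib.HeckeQ

/-!
# Item 88 (S40/S44), block (A-J): (KER2) and (J-TAME) from **WIND0 + (LIFT)** (helper14)

Complete proofs.  `M' ∣ M`, `p ∤ M`, `B` over `p`, `R'`, `R` the series reductions of `F_{M'p}`,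
`F_{Mp}`, `R₀ = glmZero R` the second components.

* `tmw_wind_transfer` : (abstract) WIND0 (`p ∣ ord_Q (red f)` for all `Q`) does not depend on the
  normalisation nor on the Kummer function: it passes from `f` to `g = c w ^ p f`;
* `tmw_al_incl` : `w_q` commutes with the inclusion `F_N ⊆ F_M`;
* `tmw_zero_red_incl` : the tower `(R'₀, R₀)` at the second component (the analogue of
  `lvb_red_incl` of helper12);
* `tmw_pow_inf`, `tmw_pow_zero` : at a level `N p`: a normalised Kummer function of an eigenclass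
  with WIND0 reduces to a `p`-th power, if the eigensystem does not occur at the level `N`
  (E1 `ler_main`, E2 `lez_main` of helper13, `LfhLift`);
* `tmw_ker2_of_wind` : **the tail, general form**: `x` an eigenclass of level `M' p` killed by
  `p` whose eigensystem does not occur at the level `M'`, `u'` ANY Kummer function of the
  pull-back `x̃` of `x` to the level `M p`, with WIND0 on both components ⇒ `TppKer2 x̃`;
* `tmw_tame_of_wind` : (J-TAME) from (TAME-WIND) and (LIFT).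
-/

set_option autoImplicit false
set_option linter.style.haveILetI false
set_option linter.unusedSectionVars false
set_option linter.unusedVariables false
set_option synthInstance.maxHeartbeats 400000

noncomputable section

namespace Fermat.Agent.S40lib

open Fermat.Agent.GalRep ModularCurve AlgebraicCurve Fermat.Agent.S31lib Fermat.Agent.S35lib
  Fermat.Agent.S33lib Fermat.Agent.S36lib Fermat.Agent.S24lib Fermat.Agent.S34lib
  Fermat.Agent.RRlib Fermat.Agent.GoodRed Fermat.Agent.S18lib Fermat.Agent.GM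
  Fermat.Agent.HeckeBar HahnSeries

/-! ### 1. WIND0 is independent of the Kummer function -/

section Abstract

variable {K F k Fk : Type*} [Field K] [Field F] [Algebra K F] [Field k] [Field Fk] [Algebra k Fk]
variable {A : ValuationSubring K} {π : A →+* k} (R : ConstRed A π Fk F)

/-- WIND0 passes from a unit `f` to the unit `g = c w ^ p f`. -/
theorem tmw_wind_transfer (p : ℕ) {f g : F} (hf : EisUnit R f) (hg : EisUnit R g) (c : K)
    (w : F) (hw : w ≠ 0) (hrel : g = algebraMap K F c * w ^ p * f)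
    (hord : ∀ Q : Place k Fk, (p : ℤ) ∣ Q.ord (R.red ⟨f, hf.2.1⟩)) (Q : Place k Fk) :
    (p : ℤ) ∣ Q.ord (R.red ⟨g, hg.2.1⟩) := by
  obtain ⟨κ, hκ0, hκ1, hκ2⟩ := R.exists_unit_smul w hw
  have hκF : algebraMap K F κ ≠ 0 := (map_ne_zero _).mpr hκ0
  have hW : EisUnit R (algebraMap K F κ * w) := ⟨mul_ne_zero hκF hw, hκ1, hκ2⟩
  have hf0 := hf.1
  have hE : algebraMap K F (c * (κ ^ p)⁻¹) = g * f⁻¹ * ((algebraMap K F κ * w) ^ p)⁻¹ := by
    rw [hrel, map_mul, map_inv₀, map_pow, mul_pow]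
    field_simp
  have hEu : EisUnit R (algebraMap K F (c * (κ ^ p)⁻¹)) := by
    rw [hE]
    exact (hg.mul hf.inv).mul (hW.pow p).inv
  obtain ⟨b, hb0, hb⟩ := hEu.eisRed_const
  have hg' : g = algebraMap K F (c * (κ ^ p)⁻¹) * (algebraMap K F κ * w) ^ p * f := by
    rw [hrel, map_mul, map_inv₀, map_pow, mul_pow]
    field_simp
  have hred : eisRed R g
      = algebraMap k Fk b * (eisRed R (algebraMap K F κ * w)) ^ p * eisRed R f := by
    rw [hg', eisRed_mul (mul_mem hEu.2.1 (hW.pow p).2.1) hf.2.1,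
      eisRed_mul hEu.2.1 (hW.pow p).2.1, hb, hW.eisRed_pow]
  have hbF : algebraMap k Fk b ≠ 0 := (map_ne_zero _).mpr hb0
  have hWr := hW.eisRed_ne_zero
  have hfr := hf.eisRed_ne_zero
  rw [← eisRed_of_mem hg.2.1, hred, Place.ord_mul Q (mul_ne_zero hbF (pow_ne_zero _ hWr)) hfr,
    Place.ord_mul Q hbF (pow_ne_zero _ hWr), wir_ord_algebraMap Q hb0, zero_add, du_ord_pow,
    eisRed_of_mem hf.2.1]
  exact dvd_add (dvd_mul_right _ _) (hord Q)

end Abstract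

/-! ### 2. `w_q` and the inclusions; the tower at the second component -/

section AL

variable (N M q : ℕ) [NeZero N] [NeZero M]

/-- `w_q` commutes with the inclusion `F_N ⊆ F_M` (`q ‖ N`, `q ‖ M`) -/
theorem tmw_al_incl (h : N ∣ M) (hq : q.Prime) (hqN : q ∣ N) (hq2N : ¬ q ^ 2 ∣ N)
    (hqM : q ∣ M) (hq2M : ¬ q ^ 2 ∣ M) (x : FF N) :
    atkinLehnerFF M q hq hqM hq2M (inclBar N M h x)
      = inclBar N M h (atkinLehnerFF N q hq hqN hq2N x) := by
  have key : ((atkinLehnerFF M q hq hqM hq2M : FF M ≃ₐ[Kbar] FF M) : FF M →+* FF M).comp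
      ((inclBar N M h : FF N →ₐ[Kbar] FF M) : FF N →+* FF M)
      = ((inclBar N M h : FF N →ₐ[Kbar] FF M) : FF N →+* FF M).comp
        ((atkinLehnerFF N q hq hqN hq2N : FF N ≃ₐ[Kbar] FF N) : FF N →+* FF N) := by
    apply FF_ringHom_ext
    · intro c
      simp only [RingHom.comp_apply, RingHom.coe_coe, AlgHom.commutes, AlgEquiv.commutes]
    · intro d _ hd
      haveI : NeZero (alSwap q d) := ⟨alSwap_ne_zero hq (NeZero.ne d)⟩
      simp only [RingHom.comp_apply, RingHom.coe_coe]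
      rw [inclBar_jdF, atkinLehnerFF_jdF, atkinLehnerFF_jdF, inclBar_jdF]
  exact RingHom.congr_fun key x

end AL

section Zero

variable {M' M p : ℕ} [NeZero M'] [NeZero M] [NeZero p] [NeZero (M' * p)] [NeZero (M * p)]
  {A : ValuationSubring Kbar}

/-- the tower at the second component: `incl u ∈ O_{R₀}` and
`red_{R₀} (incl u) = incl_k (red_{R'₀} u)`. -/
theorem tmw_zero_red_incl (hp : p.Prime) (hpM' : ¬ p ∣ M') (hpM : ¬ p ∣ M) (hdvd : M' ∣ M)
    (hA : A ≠ ⊤)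
    {R' : ConstRed A (IsLocalRing.residue A) (Fk (IsLocalRing.ResidueField A) M') (FF (M' * p))}
    {R : ConstRed A (IsLocalRing.residue A) (Fk (IsLocalRing.ResidueField A) M) (FF (M * p))}
    (hR' : IsSeriesRed R') (hR : IsSeriesRed R) (u : FF (M' * p))
    (hu : u ∈ (glmZero M' p hp hpM' R').O) :
    ∃ h : inclBar (M' * p) (M * p) (Nat.mul_dvd_mul_right hdvd p) u ∈ (glmZero M p hp hpM R).O,
      (glmZero M p hp hpM R).red ⟨_, h⟩
        = inclK (IsLocalRing.ResidueField A) hdvd ((glmZero M' p hp hpM' R').red ⟨u, hu⟩) := by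
  obtain ⟨h, hred⟩ := lvb_red_incl (p := p) hdvd hA hR' hR
    (atkinLehnerFF (M' * p) p hp (dvd_mul_left p M') (inf_not_sq_dvd M' p hp hpM') u) hu
  have e := tmw_al_incl (M' * p) (M * p) p (Nat.mul_dvd_mul_right hdvd p) hp
    (dvd_mul_left p M') (inf_not_sq_dvd M' p hp hpM') (dvd_mul_left p M)
    (inf_not_sq_dvd M p hp hpM) u
  have h' : atkinLehnerFF (M * p) p hp (dvd_mul_left p M) (inf_not_sq_dvd M p hp hpM)
      (inclBar (M' * p) (M * p) (Nat.mul_dvd_mul_right hdvd p) u) ∈ R.O := by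
    rw [e]
    exact h
  refine ⟨h', ?_⟩
  have hred' : (glmZero M' p hp hpM' R').red ⟨u, hu⟩
      = R'.red ⟨atkinLehnerFF (M' * p) p hp (dvd_mul_left p M') (inf_not_sq_dvd M' p hp hpM') u,
        hu⟩ := rfl
  rw [hred', ← hred]
  show R.red ⟨atkinLehnerFF (M * p) p hp (dvd_mul_left p M) (inf_not_sq_dvd M p hp hpM)
      (inclBar (M' * p) (M * p) (Nat.mul_dvd_mul_right hdvd p) u), h'⟩ = _
  congr 1
  exact Subtype.ext e

end Zero

/-! ### 3. the core at a level `N p`: WIND0 + (LIFT) ⇒ `p`-th powers -/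

section Core

variable (N p : ℕ) [NeZero N] [NeZero p] [NeZero (N * p)] (A : ValuationSubring Kbar)

/-- a nonzero function with trivial class is a `p`-th power (`k` algebraically closed) -/
theorem tmw_triv_pow (hp : p.Prime) {k : Type} [Field k] [IsAlgClosed k] {u : Fk k N}
    (hu : u ≠ 0) (h : LfhTriv k N p u) : ∃ w : Fk k N, w ≠ 0 ∧ u = w ^ p := by
  obtain ⟨c, s, hcs⟩ := h
  obtain ⟨e, he⟩ := IsAlgClosed.exists_pow_nat_eq c hp.pos
  have hu' : u = (algebraMap k (Fk k N) e * s) ^ p := by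
    rw [hcs, ← he, map_pow, mul_pow]
  refine ⟨algebraMap k (Fk k N) e * s, ?_, hu'⟩
  intro h0
  apply hu
  rw [hu', h0, zero_pow hp.ne_zero]

/-- **the `∞`-component**: a normalised Kummer function with WIND0 of an eigenclass whose
eigensystem does not occur at the level `N` reduces to a `p`-th power. -/
theorem tmw_pow_inf (hp : p.Prime) (hpN : ¬ p ∣ N) (hA : A.LiesOverPrime p)
    {R : ConstRed A (IsLocalRing.residue A) (Fk (IsLocalRing.ResidueField A) N) (FF (N * p))}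
    (hR : IsSeriesRed R) (S : Finset ℕ) (hpS : p ∈ S) (a : ℕ → ℤ)
    (hL : LfhLift N p S a A) (hNot : S40hNotAt N p S a)
    (x : JZero (N * p))
    (hx : ∀ ℓ : Nat.Primes, (ℓ : ℕ) ∉ S → heckeOperatorBar (N * p) ℓ x = a ℓ • x)
    (D : Divisor.degZero (K := Kbar) (F := FF (N * p))) (hD : Pic0.mk D = x)
    (u : FF (N * p)) (hu : EisUnit R u)
    (hdiv : ∀ v : Place Kbar (FF (N * p)),
      (p : ℤ) * (D : Divisor Kbar (FF (N * p))) v = v.ord u)
    (hord : ∀ Q : Place (IsLocalRing.ResidueField A) (Fk (IsLocalRing.ResidueField A) N),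
      (p : ℤ) ∣ Q.ord (R.red ⟨u, hu.2.1⟩)) :
    ∃ w : Fk (IsLocalRing.ResidueField A) N, w ≠ 0 ∧ KspRed R u (w ^ p) := by
  haveI : IsAlgClosed (IsLocalRing.ResidueField A) := isAlgClosed_residueField A
  have hE := ler_main N p A hp hpN hA hR S hpS a x hx D hD u hu hdiv hord
  obtain ⟨w, hw0, hw⟩ := tmw_triv_pow N p hp hu.red_ne_zero (hL hNot _ hE)
  exact ⟨w, hw0, hu.2.1, hw⟩

/-- **the `0`-component**: the same at `R₀ = glmZero R`. -/
theorem tmw_pow_zero (hp : p.Prime) (hpN : ¬ p ∣ N) (hA : A.LiesOverPrime p)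
    {R : ConstRed A (IsLocalRing.residue A) (Fk (IsLocalRing.ResidueField A) N) (FF (N * p))}
    (hR : IsSeriesRed R) (S : Finset ℕ) (hpS : p ∈ S) (a : ℕ → ℤ)
    (hL : LfhLift N p S a A) (hNot : S40hNotAt N p S a)
    (x : JZero (N * p))
    (hx : ∀ ℓ : Nat.Primes, (ℓ : ℕ) ∉ S → heckeOperatorBar (N * p) ℓ x = a ℓ • x)
    (D : Divisor.degZero (K := Kbar) (F := FF (N * p))) (hD : Pic0.mk D = x)
    (u : FF (N * p)) (hu : EisUnit (glmZero N p hp hpN R) u)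
    (hdiv : ∀ v : Place Kbar (FF (N * p)),
      (p : ℤ) * (D : Divisor Kbar (FF (N * p))) v = v.ord u)
    (hord : ∀ Q : Place (IsLocalRing.ResidueField A) (Fk (IsLocalRing.ResidueField A) N),
      (p : ℤ) ∣ Q.ord ((glmZero N p hp hpN R).red ⟨u, hu.2.1⟩)) :
    ∃ w : Fk (IsLocalRing.ResidueField A) N, w ≠ 0 ∧ KspRed (glmZero N p hp hpN R) u (w ^ p) := by
  haveI : IsAlgClosed (IsLocalRing.ResidueField A) := isAlgClosed_residueField A
  have hE := lez_main N p A hp hpN hA (dvd_mul_left p N) (inf_not_sq_dvd N p hp hpN) hR S hpS a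
    x hx D hD u hu hdiv hord
  obtain ⟨w, hw0, hw⟩ := tmw_triv_pow N p hp hu.red_ne_zero (hL hNot _ hE)
  exact ⟨w, hw0, hu.2.1, hw⟩

end Core

/-! ### 4. the tail: WIND0 + (LIFT) ⇒ (KER2) -/

section Tail

variable (M' M p : ℕ) [NeZero M'] [NeZero M] [NeZero p] [NeZero (M' * p)] [NeZero (M * p)]

/-- **the tail, general form**: `x` an eigenclass of level `M' p` killed by `p` whose
eigensystem does not occur at the level `M'` ((LIFT) at the level `M'`), `u'` ANY Kummer function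
of the pull-back `x̃` of `x` to the level `M p` (`p ∤ [F_{M,k} : F_{M',k}]`) with WIND0 on both
components ⇒ (KER2) for `x̃`. -/
theorem tmw_ker2_of_wind [RRBase Kbar (FF (M * p))] (hp : p.Prime) (hpM' : ¬ p ∣ M')
    (hpM : ¬ p ∣ M) (hdvd : M' ∣ M)
    {B : ValuationSubring Kbar} (hB : B.LiesOverPrime p)
    (hdeg : ¬ p ∣ finrankAlong (IsLocalRing.ResidueField B)
      (inclK (IsLocalRing.ResidueField B) hdvd))
    {R' : ConstRed B (IsLocalRing.residue B) (Fk (IsLocalRing.ResidueField B) M') (FF (M' * p))}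
    {R : ConstRed B (IsLocalRing.residue B) (Fk (IsLocalRing.ResidueField B) M) (FF (M * p))}
    (hR' : IsSeriesRed R') (hR : IsSeriesRed R)
    (S : Finset ℕ) (hS : ∀ ℓ : ℕ, ℓ.Prime → ℓ ∣ M' * p → ℓ ∈ S) (a : ℕ → ℤ)
    (hL : LfhLift M' p S a B) (hNot : S40hNotAt M' p S a)
    (x : JZero (M' * p)) (hpx : p • x = 0)
    (hx : ∀ ℓ : Nat.Primes, (ℓ : ℕ) ∉ S → heckeOperatorBar (M' * p) ℓ x = a ℓ • x)
    (u' : FF (M * p))
    (hk' : gdfIsKummer (K := Kbar) p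
      (auxLevelPull (M' * p) (M * p) (Nat.mul_dvd_mul_right hdvd p) x) u')
    (c₁ c₂ : Kbar)
    (h₁ : EisUnit R (algebraMap Kbar (FF (M * p)) c₁ * u'))
    (h₂ : EisUnit (glmZero M p hp hpM R) (algebraMap Kbar (FF (M * p)) c₂ * u'))
    (hord₁ : ∀ Q : Place (IsLocalRing.ResidueField B) (Fk (IsLocalRing.ResidueField B) M),
      (p : ℤ) ∣ Q.ord (R.red ⟨_, h₁.2.1⟩))
    (hord₂ : ∀ Q : Place (IsLocalRing.ResidueField B) (Fk (IsLocalRing.ResidueField B) M),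
      (p : ℤ) ∣ Q.ord ((glmZero M p hp hpM R).red ⟨_, h₂.2.1⟩)) :
    TppKer2 M p hp hpM R (auxLevelPull (M' * p) (M * p) (Nat.mul_dvd_mul_right hdvd p) x) := by
  haveI : RRHyp Kbar (FF (M * p)) := mod_rrHyp (M * p)
  haveI : RRHyp Kbar (FF (M' * p)) := mod_rrHyp (M' * p)
  haveI : RRBase Kbar (FF (M' * p)) := (mod_rrHyp (M' * p)).toRRBase
  haveI : HasPrincipalDivisors Kbar (FF (M' * p)) := wir_hasPrincipalDivisors (M' * p)
  haveI : IsAlgClosed (IsLocalRing.ResidueField B) := isAlgClosed_residueField B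
  have hAtop : B ≠ ⊤ := cri_ne_top p B (B.mem_nonunits_iff.mp hB) hp.ne_zero
  have hNM : M' * p ∣ M * p := Nat.mul_dvd_mul_right hdvd p
  have hpS : p ∈ S := hS p hp (dvd_mul_left p M')
  obtain ⟨D, rfl⟩ := Pic0.mk_surjective x
  obtain ⟨u, hu0, hDu⟩ := tax_exists_kummer (M' * p) p D hpx
  have hkx : gdfIsKummer (K := Kbar) p (Pic0.mk D) u := gdf_isKummer_of_ord hu0 D rfl hDu
  have hk := tma_pull_kummer M' p M hdvd D u hu0 hDu
  obtain ⟨c, w, hc0, hw0, hrel⟩ := gdf_isKummer_unique hk' hk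
  have hc₁0 : c₁ ≠ 0 := by
    intro h0
    apply h₁.1
    rw [h0, map_zero, zero_mul]
  have hc₂0 : c₂ ≠ 0 := by
    intro h0
    apply h₂.1
    rw [h0, map_zero, zero_mul]
  have hc₁F : algebraMap Kbar (FF (M * p)) c₁ ≠ 0 := (map_ne_zero _).mpr hc₁0
  have hc₂F : algebraMap Kbar (FF (M * p)) c₂ ≠ 0 := (map_ne_zero _).mpr hc₂0
  -- the constant multiples of `u` are Kummer functions of `x`
  have hdivc : ∀ κ : Kbar, κ ≠ 0 → ∀ v : Place Kbar (FF (M' * p)),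
      (p : ℤ) * (D : Divisor Kbar (FF (M' * p))) v
        = v.ord (algebraMap Kbar (FF (M' * p)) κ * u) := by
    intro κ hκ v
    rw [Place.ord_mul v ((map_ne_zero _).mpr hκ) hu0, wir_ord_algebraMap v hκ, zero_add]
    exact hDu v
  have hinclc : ∀ κ : Kbar, inclBar (M' * p) (M * p) hNM (algebraMap Kbar (FF (M' * p)) κ * u)
      = algebraMap Kbar (FF (M * p)) κ * inclBar (M' * p) (M * p) hNM u := by
    intro κ
    rw [map_mul, AlgHom.commutes]
  -- ### the `∞`-component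
  obtain ⟨κ₁, hκ₁0, hκ₁a, hκ₁b⟩ := R'.exists_unit_smul u hu0
  have hU₁ : EisUnit R' (algebraMap Kbar (FF (M' * p)) κ₁ * u) :=
    ⟨mul_ne_zero ((map_ne_zero _).mpr hκ₁0) hu0, hκ₁a, hκ₁b⟩
  obtain ⟨hm₁, hredm₁⟩ := lvb_red_incl (p := p) hdvd hAtop hR' hR _ hκ₁a
  obtain ⟨hm₁', -⟩ := lvb_red_incl (p := p) hdvd hAtop hR' hR _ hκ₁b
  have hŨ₁ : EisUnit R (inclBar (M' * p) (M * p) hNM (algebraMap Kbar (FF (M' * p)) κ₁ * u)) :=
    ⟨(map_ne_zero _).mpr hU₁.1, hm₁, by rw [← map_inv₀]; exact hm₁'⟩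
  have hrel₁ : inclBar (M' * p) (M * p) hNM (algebraMap Kbar (FF (M' * p)) κ₁ * u)
      = algebraMap Kbar (FF (M * p)) (κ₁ * c * c₁⁻¹) * w ^ p
        * (algebraMap Kbar (FF (M * p)) c₁ * u') := by
    rw [hinclc, hrel, map_mul, map_mul, map_inv₀]
    field_simp
  have hW₁ := tmw_wind_transfer R p h₁ hŨ₁ (κ₁ * c * c₁⁻¹) w hw0 hrel₁ hord₁
  have hW₁' := lvb_bridge (p := p) hdvd hp hB hR' hR hdeg _ hκ₁a hm₁ hW₁
  obtain ⟨w₁, hw₁0, hw₁⟩ := tmw_pow_inf M' p B hp hpM' hB hR' S hpS a hL hNot _ hx D rfl _ hU₁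
    (hdivc κ₁ hκ₁0) hW₁'
  have hP₁ : KspRed R (algebraMap Kbar (FF (M * p)) κ₁ * inclBar (M' * p) (M * p) hNM u)
      ((inclK (IsLocalRing.ResidueField B) hdvd w₁) ^ p) := by
    rw [← hinclc]
    refine ⟨hm₁, ?_⟩
    rw [hredm₁, ← map_pow]
    congr 1
    exact hw₁.2
  -- ### the `0`-component
  obtain ⟨κ₂, hκ₂0, hκ₂a, hκ₂b⟩ := (glmZero M' p hp hpM' R').exists_unit_smul u hu0
  have hU₂ : EisUnit (glmZero M' p hp hpM' R') (algebraMap Kbar (FF (M' * p)) κ₂ * u) :=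
    ⟨mul_ne_zero ((map_ne_zero _).mpr hκ₂0) hu0, hκ₂a, hκ₂b⟩
  obtain ⟨hm₂, hredm₂⟩ := tmw_zero_red_incl hp hpM' hpM hdvd hAtop hR' hR _ hκ₂a
  obtain ⟨hm₂', -⟩ := tmw_zero_red_incl hp hpM' hpM hdvd hAtop hR' hR _ hκ₂b
  have hŨ₂ : EisUnit (glmZero M p hp hpM R)
      (inclBar (M' * p) (M * p) hNM (algebraMap Kbar (FF (M' * p)) κ₂ * u)) :=
    ⟨(map_ne_zero _).mpr hU₂.1, hm₂, by rw [← map_inv₀]; exact hm₂'⟩
  have hrel₂ : inclBar (M' * p) (M * p) hNM (algebraMap Kbar (FF (M' * p)) κ₂ * u)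
      = algebraMap Kbar (FF (M * p)) (κ₂ * c * c₂⁻¹) * w ^ p
        * (algebraMap Kbar (FF (M * p)) c₂ * u') := by
    rw [hinclc, hrel, map_mul, map_mul, map_inv₀]
    field_simp
  have hW₂ := tmw_wind_transfer (glmZero M p hp hpM R) p h₂ hŨ₂ (κ₂ * c * c₂⁻¹) w hw0 hrel₂ hord₂
  have hW₂' : ∀ v : Place (IsLocalRing.ResidueField B) (Fk (IsLocalRing.ResidueField B) M'),
      (p : ℤ) ∣ v.ord ((glmZero M' p hp hpM' R').red ⟨_, hU₂.2.1⟩) := by
    refine lvb_ord_dvd_level hdvd hp hdeg _ (fun v => ?_)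
    rw [← hredm₂]
    exact hW₂ v
  obtain ⟨w₂, hw₂0, hw₂⟩ := tmw_pow_zero M' p B hp hpM' hB hR' S hpS a hL hNot _ hx D rfl _ hU₂
    (hdivc κ₂ hκ₂0) hW₂'
  have hP₂ : KspRed (glmZero M p hp hpM R)
      (algebraMap Kbar (FF (M * p)) κ₂ * inclBar (M' * p) (M * p) hNM u)
      ((inclK (IsLocalRing.ResidueField B) hdvd w₂) ^ p) := by
    rw [← hinclc]
    refine ⟨hm₂, ?_⟩
    rw [hredm₂, ← map_pow]
    congr 1
    exact hw₂.2
  exact kgl_ker2 M p hp hpM hB R hR _ _ hk κ₁ κ₂ hκ₁0 hκ₂0 _ _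
    ((map_ne_zero _).mpr hw₁0) ((map_ne_zero _).mpr hw₂0) hP₁ hP₂

end Tail

/-! ### 5. (J-TAME) from (TAME-WIND) and (LIFT) -/

section Tame

variable (M' p : ℕ) [NeZero M'] [NeZero p] [NeZero (M' * p)]

/-- the auxiliary level `M = lcm(M', baseLevel p)`, explicitly -/
theorem tmw_aux_data (hp : p.Prime) (hpM' : ¬ p ∣ M') :
    ∃ (e : ℕ) (_ : NeZero (Nat.lcm M' (baseLevel p)))
      (_ : NeZero (Nat.lcm M' (baseLevel p) * p)),
      M' ∣ Nat.lcm M' (baseLevel p) ∧ IsAuxLevel p (Nat.lcm M' (baseLevel p)) ∧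
      Nat.lcm M' (baseLevel p) * p = M' * p * e ∧
      dedekindPsi (Nat.lcm M' (baseLevel p) * p) < 2 * e * dedekindPsi (M' * p) := by
  obtain ⟨e, hlcm, hdeg, haux⟩ := Fermat.Agent.S18lib.dedekindPsi_lcm_lt M' p hp hpM'
  have hN0 : M' ≠ 0 := NeZero.ne M'
  have hM0 : Nat.lcm M' (baseLevel p) ≠ 0 := by
    intro h0
    rw [h0] at haux
    exact haux.1 (dvd_zero p)
  have hMp0 : Nat.lcm M' (baseLevel p) * p ≠ 0 := Nat.mul_ne_zero hM0 hp.ne_zero
  refine ⟨e, ⟨hM0⟩, ⟨hMp0⟩, Nat.dvd_lcm_left _ _, haux, ?_, ?_⟩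
  · rw [hlcm]
    ring
  · rw [mul_comm (Nat.lcm M' (baseLevel p)) p, mul_comm M' p,
      Fermat.Agent.S20lib.dedekindPsi_prime_mul_of_not_dvd hp hM0 haux.1,
      Fermat.Agent.S20lib.dedekindPsi_prime_mul_of_not_dvd hp hN0 hpM']
    have hq1 : 0 < p + 1 := Nat.succ_pos p
    calc (p + 1) * dedekindPsi (Nat.lcm M' (baseLevel p))
        < (p + 1) * (2 * e * dedekindPsi M') := Nat.mul_lt_mul_of_pos_left hdeg hq1
      _ = 2 * e * ((p + 1) * dedekindPsi M') := by ring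

/-- **(TAME-WIND)**: WIND0 on both components at the auxiliary level `M = lcm(M', baseLevel p)`
for the pull-back of an inertia-fixed Kummer function `u` of an inertia-fixed class `x ≠ 0` of
`V`: for suitable normalisations `c₁ ũ`, `c₂ ũ` (units at `R`, `R₀`), all orders of the
reductions are divisible by `p`.  (= WINDC (edge rule + DIV-RED) + H1 (Eisenstein step).) -/
def S40tmwWind (hp : p.Prime) (B : ValuationSubring (AlgebraicClosure ℚ)) : Prop :=
  ∀ (S : Finset ℕ) (a : ℕ → ℤ) (V : AddSubgroup (JZero (M' * p))),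
    (∀ ℓ : ℕ, ℓ.Prime → ℓ ∣ M' * p → ℓ ∈ S) →
    Nat.card V = p ^ 2 → (∀ x ∈ V, p • x = 0) →
    (∀ (σ : AlgebraicClosure ℚ ≃ₐ[ℚ] AlgebraicClosure ℚ), ∀ x ∈ V, σ • x ∈ V) →
    S40hEig (M' * p) S a V → S40hNotAt M' p S a →
    (∃ ℓ : Nat.Primes, (ℓ : ℕ) ∉ S ∧ ¬ (p : ℤ) ∣ a ℓ - (1 + (ℓ : ℕ))) →
    ∀ x ∈ V, x ≠ 0 → (∀ σ ∈ B.inertiaSubgroupIn ℚ, σ • x = x) →
    ∀ (D : Divisor.degZero (K := Kbar) (F := FF (M' * p))) (u : FF (M' * p)),
      Pic0.mk D = x → u ≠ 0 → u ∈ f0Field B (M' * p) →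
      (∀ σ ∈ B.inertiaSubgroupIn ℚ,
        galFF (M' * p) σ • (D : Divisor Kbar (FF (M' * p))) = D) →
      (∀ v : Place Kbar (FF (M' * p)),
        (p : ℤ) * (D : Divisor Kbar (FF (M' * p))) v = v.ord u) →
    ∀ (M : ℕ) [NeZero M] [NeZero (M * p)] (haux : IsAuxLevel p M) (hdvd : M' ∣ M),
      M = Nat.lcm M' (baseLevel p) →
      ∀ (R : ConstRed B (IsLocalRing.residue B)
        (↥(modularFunctionFieldFullC (IsLocalRing.ResidueField B) M)) (FF (M * p))),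
      IsSeriesRed R →
      ∃ (c₁ c₂ : Kbar)
        (h₁ : EisUnit R (algebraMap Kbar (FF (M * p)) c₁ *
          inclBar (M' * p) (M * p) (Nat.mul_dvd_mul_right hdvd p) u))
        (h₂ : EisUnit (glmZero M p hp haux.1 R) (algebraMap Kbar (FF (M * p)) c₂ *
          inclBar (M' * p) (M * p) (Nat.mul_dvd_mul_right hdvd p) u)),
        (∀ Q : Place (IsLocalRing.ResidueField B) (Fk (IsLocalRing.ResidueField B) M),
          (p : ℤ) ∣ Q.ord (R.red ⟨_, h₁.2.1⟩)) ∧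
        (∀ Q : Place (IsLocalRing.ResidueField B) (Fk (IsLocalRing.ResidueField B) M),
          (p : ℤ) ∣ Q.ord ((glmZero M p hp haux.1 R).red ⟨_, h₂.2.1⟩))

/-- **(J-TAME) from (TAME-WIND) and (LIFT)** (`p ≥ 5`, or `p = 3` and `M'` even). -/
theorem tmw_tame_of_wind (hp : p.Prime) (hp2 : p ≠ 2) (h3 : p ≠ 3 ∨ 2 ∣ M') (hpM' : ¬ p ∣ M')
    (B : ValuationSubring (AlgebraicClosure ℚ)) (hB : B.LiesOverPrime p)
    (hW : S40tmwWind M' p hp B)
    (hL : ∀ (S : Finset ℕ) (a : ℕ → ℤ), LfhLift M' p S a B) : S40jTame M' p B := by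
  haveI : Fact p.Prime := ⟨hp⟩
  intro S a V hS hcard hVp hstab hEig hNot hnE x hx hI
  by_contra hx0
  obtain ⟨D, u, hD, hu0, huF, hDI, hDu⟩ := tmf_kummer (M' * p) p B x (hVp x hx) hI
  obtain ⟨e, hM0, hMp0, hdvd, haux, hM, hdegψ⟩ := tmw_aux_data M' p hp hpM'
  obtain ⟨R, hR⟩ := exists_constRedInf_aux (Nat.lcm M' (baseLevel p)) p hp haux.1 B hB
  obtain ⟨R', hR'⟩ := hkq_exists_red M' p B hp hpM' hB
  obtain ⟨c₁, c₂, h₁, h₂, hord₁, hord₂⟩ :=
    hW S a V hS hcard hVp hstab hEig hNot hnE x hx hx0 hI D u hD hu0 huF hDI hDu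
      (Nat.lcm M' (baseLevel p)) haux hdvd rfl R hR
  have hb4 : baseLevel p = 4 := by
    unfold baseLevel
    rw [if_neg hp2]
  have hdeg := lvb_hdeg_aux (A := B) (M := Nat.lcm M' (baseLevel p)) (by rw [hb4]) hdvd hp hp2
    h3 haux.1 hB
  haveI : RRBase Kbar (FF (Nat.lcm M' (baseLevel p) * p)) :=
    (mod_rrHyp (Nat.lcm M' (baseLevel p) * p)).toRRBase
  have hk := tma_pull_kummer M' p (Nat.lcm M' (baseLevel p)) hdvd D u hu0 hDu
  have hker := tmw_ker2_of_wind M' (Nat.lcm M' (baseLevel p)) p hp hpM' haux.1 hdvd hB hdeg hR' hR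
    S hS a (hL S a) hNot (Pic0.mk D) (by rw [hD]; exact hVp x hx)
    (fun ℓ hℓS => by rw [hD]; exact hEig ℓ hℓS x hx) _ hk c₁ c₂ h₁ h₂ hord₁ hord₂
  rw [hD] at hker
  obtain ⟨hα, hβ⟩ := s40h_new_of_notAt M' p hp hpM' S a V hS hVp hEig hNot x hx
  obtain ⟨τ₀, hτ₀, hmv, -⟩ := cysp_exists_moves p hp2 B hB
  exact hx0 (tpp_fixed_descent M' (Nat.lcm M' (baseLevel p)) p e hp hp2 haux hdvd hM hdegψ hB R hR
    x (hVp x hx) hker hα hβ τ₀ hτ₀ hmv (hI τ₀ hτ₀))

end Tame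

end Fermat.Agent.S40lib

end
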