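import Mathlib
import Fermat.Agent.S36lib.Speed
import Fermat.Agent.S40lib.TameWind

/-!
# Item 88 (S40/S44), block (A-J): (J-TAME) from WIND0 **off the cusps** + the cusp step + (LIFT)
(helper14).  Complete proofs.

`TameWind.lean` asks for WIND0 at ALL places of the auxiliary level `M = lcm(M', 4)`; the
Eisenstein step (H1, `ehq_h1_inf`, `ehq_h1_zero` of helper28) gives it off the cusps, and the
cusps of the auxiliary level are not all of Atkin–Lehner type.  Here the cusps are treated at the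
level `M'`:

* `S40tmwCusp M' p S a k` : **the cusp step** at the level `M'`: a function `u ≠ 0` of `F_{M',k}`
  with `p ∣ ord_v u` off the cusps and with the eigen-relations
  `N_ᾱ (β̄ u) = c u ^ a_ℓ s ^ p` (`ℓ ∉ S`) has `p ∣ ord_v u` at the cusps, too;
* `tmw2_ord_dvd_nc` : the level bridge (B2) of helper12 off the cusps;
* `tmw2_wind_transfer_at` : `tmw_wind_transfer` at one place;
* `tmw2_ker2_of_wind` : the tail, general form, with WIND0 off the cusps (level `M`) and the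
  cusp step (level `M'`);
* `S40tmwWindNC`, `tmw2_tame` : (J-TAME) from (TAME-WIND-NC), the cusp step and (LIFT).
-/

set_option autoImplicit false
set_option linter.style.haveILetI false
set_option linter.unusedSectionVars false
set_option linter.unusedVariables false
set_option synthInstance.maxHeartbeats 400000

noncomputable section

namespace Fermat.Agent.S40lib

open Fermat.Agent.GalRep ModularCurve AlgebraicCurve Fermat.Agent.S31lib Fermat.Agent.S35lib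
  Fermat.Agent.S33lib Fermat.Agent.S36lib Fermat.Agent.S24lib Fermat.Agent.S34lib
  Fermat.Agent.RRlib Fermat.Agent.GoodRed Fermat.Agent.S18lib Fermat.Agent.GM
  Fermat.Agent.HeckeBar HahnSeries

/-- **the cusp step** at the level `M'` (characteristic `p`): an eigenfunction off the cusps is
an eigenfunction. -/
def S40tmwCusp (M' p : ℕ) [NeZero M'] (S : Finset ℕ) (a : ℕ → ℤ) (k : Type) [Field k] : Prop :=
  ∀ u : Fk k M', u ≠ 0 →
    (∀ v : Place k (Fk k M'), 0 ≤ v.ord (jk k M') → (p : ℤ) ∣ v.ord u) →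
    (∀ (ℓ : ℕ) (hℓ : ℓ.Prime), ℓ ∉ S →
      haveI : NeZero ℓ := ⟨hℓ.ne_zero⟩
      ∃ (c : k) (s : Fk k M'), c ≠ 0 ∧ s ≠ 0 ∧
        lfhHeckeFun k M' ℓ u = algebraMap k (Fk k M') c * u ^ (a ℓ) * s ^ p) →
    ∀ v : Place k (Fk k M'), (p : ℤ) ∣ v.ord u

section Abstract

variable {K F k Fk : Type*} [Field K] [Field F] [Algebra K F] [Field k] [Field Fk] [Algebra k Fk]
variable {A : ValuationSubring K} {π : A →+* k} (R : ConstRed A π Fk F)

/-- WIND0 at ONE place passes from a unit `f` to the unit `g = c w ^ p f`. -/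
theorem tmw2_wind_transfer_at (p : ℕ) {f g : F} (hf : EisUnit R f) (hg : EisUnit R g) (c : K)
    (w : F) (hw : w ≠ 0) (hrel : g = algebraMap K F c * w ^ p * f) (Q : Place k Fk)
    (hord : (p : ℤ) ∣ Q.ord (R.red ⟨f, hf.2.1⟩)) :
    (p : ℤ) ∣ Q.ord (R.red ⟨g, hg.2.1⟩) := by
  obtain ⟨κ, hκ0, hκ1, hκ2⟩ := R.exists_unit_smul w hw
  have hκF : algebraMap K F κ ≠ 0 := (map_ne_zero _).mpr hκ0
  have hW : EisUnit R (algebraMap K F κ * w) := ⟨mul_ne_zero hκF hw, hκ1, hκ2⟩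
  have hf0 := hf.1
  have hE : algebraMap K F (c * (κ ^ p)⁻¹) = g * f⁻¹ * ((algebraMap K F κ * w) ^ p)⁻¹ := by
    rw [hrel, map_mul, map_inv₀, map_pow, mul_pow]
    field_simp
  have hEu : EisUnit R (algebraMap K F (c * (κ ^ p)⁻¹)) := by
    rw [hE]
    exact (hg.mul hf.inv).mul (hW.pow p).inv
  obtain ⟨b, hb0, hb⟩ := hEu.eisRed_const
  have hg' : g = algebraMap K F (c * (κ ^ p)⁻¹) * (algebraMap K F κ * w) ^ p * f := by
    rw [hrel, map_mul, map_inv₀, map_pow, mul_pow]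
    field_simp
  have hred : eisRed R g
      = algebraMap k Fk b * (eisRed R (algebraMap K F κ * w)) ^ p * eisRed R f := by
    rw [hg', eisRed_mul (mul_mem hEu.2.1 (hW.pow p).2.1) hf.2.1,
      eisRed_mul hEu.2.1 (hW.pow p).2.1, hb, hW.eisRed_pow]
  have hbF : algebraMap k Fk b ≠ 0 := (map_ne_zero _).mpr hb0
  have hWr := hW.eisRed_ne_zero
  have hfr := hf.eisRed_ne_zero
  rw [← eisRed_of_mem hg.2.1, hred, Place.ord_mul Q (mul_ne_zero hbF (pow_ne_zero _ hWr)) hfr,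
    Place.ord_mul Q hbF (pow_ne_zero _ hWr), wir_ord_algebraMap Q hb0, zero_add, du_ord_pow,
    eisRed_of_mem hf.2.1]
  exact dvd_add (dvd_mul_right _ _) hord

end Abstract

section NC

variable {k : Type} [Field k] [IsAlgClosed k] {M' M : ℕ} [NeZero M'] [NeZero M]

/-- **(B2) off the cusps**: if `p ∤ [F_{M,k} : F_{M',k}]`, a function of level `M'` whose orders
at the non-cuspidal places of level `M` are divisible by `p` has its orders at the non-cuspidal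
places of level `M'` divisible by `p`. -/
theorem tmw2_ord_dvd_nc (hdvd : M' ∣ M) {p : ℕ} (hp : p.Prime)
    (hdeg : ¬ p ∣ finrankAlong k (inclK k hdvd)) (f : Fk k M')
    (h : ∀ w : Place k (Fk k M), 0 ≤ w.ord (jk k M) → (p : ℤ) ∣ w.ord (inclK k hdvd f))
    (v : Place k (Fk k M')) (hv : 0 ≤ v.ord (jk k M')) : (p : ℤ) ∣ v.ord f := by
  letI := algK k hdvd
  haveI := isScalarTower_algK k hdvd
  haveI := gmw_finite (k := k) hdvd
  haveI : Algebra.IsIntegral (Fk k M') (Fk k M) := Algebra.IsIntegral.of_finite _ _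
  haveI := gmw_hasPrincipalDivisors k M
  haveI := gmw_ffSep k M'
  haveI := gmw_ffSep' (k := k) hdvd
  haveI : FundamentalIdentity k (Fk k M') (Fk k M) :=
    fundamentalIdentity_of_ffSep (K := k) (x := jk k M')
  haveI : RRHyp k (Fk k M') := mr_rrHyp k M'
  have hv1 : v.deg = 1 := deg_eq_one (K := k) v
  have hn : ¬ (p : ℤ) ∣ (Module.finrank (Fk k M') (Fk k M) : ℤ) * (v.deg : ℤ) := by
    rw [hv1, Nat.cast_one, mul_one]
    intro hd
    exact hdeg (Int.natCast_dvd_natCast.mp hd)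
  obtain ⟨w, hw, hpe⟩ := lvb_exists_tame (K := k) (F := Fk k M') (F' := Fk k M) v hn
  have hwv := Place.mem_fiber.mp hw
  have hj : w.ord (jk k M) = w.ord (algebraMap (Fk k M') (Fk k M) (jk k M')) := by
    rw [← inclK_jk k hdvd]
    rfl
  have hnc : 0 ≤ w.ord (jk k M) := by
    rw [hj, Place.ord_restrict, hwv]
    exact mul_nonneg (by positivity) hv
  have h1 : (p : ℤ) ∣ w.ord (algebraMap (Fk k M') (Fk k M) f) := h w hnc
  rw [Place.ord_restrict, hwv] at h1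
  rcases Int.Prime.dvd_mul' hp h1 with h2 | h2
  · exact absurd h2 hpe
  · exact h2

end NC

/-! ### the tail with WIND0 off the cusps -/

section Tail

variable (M' M p : ℕ) [NeZero M'] [NeZero M] [NeZero p] [NeZero (M' * p)] [NeZero (M * p)]

/-- **the tail, general form, off the cusps**: as `tmw_ker2_of_wind`, with WIND0 only at the
non-cuspidal places of the level `M` and with the cusp step at the level `M'`. -/
theorem tmw2_ker2_of_wind [RRBase Kbar (FF (M * p))] (hp : p.Prime) (hpM' : ¬ p ∣ M')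
    (hpM : ¬ p ∣ M) (hdvd : M' ∣ M)
    {B : ValuationSubring Kbar} (hB : B.LiesOverPrime p)
    (hdeg : ¬ p ∣ finrankAlong (IsLocalRing.ResidueField B)
      (inclK (IsLocalRing.ResidueField B) hdvd))
    {R' : ConstRed B (IsLocalRing.residue B) (Fk (IsLocalRing.ResidueField B) M') (FF (M' * p))}
    {R : ConstRed B (IsLocalRing.residue B) (Fk (IsLocalRing.ResidueField B) M) (FF (M * p))}
    (hR' : IsSeriesRed R') (hR : IsSeriesRed R)
    (S : Finset ℕ) (hS : ∀ ℓ : ℕ, ℓ.Prime → ℓ ∣ M' * p → ℓ ∈ S) (a : ℕ → ℤ)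
    (hL : LfhLift M' p S a B) (hNot : S40hNotAt M' p S a)
    (hC : S40tmwCusp M' p S a (IsLocalRing.ResidueField B))
    (x : JZero (M' * p)) (hpx : p • x = 0)
    (hx : ∀ ℓ : Nat.Primes, (ℓ : ℕ) ∉ S → heckeOperatorBar (M' * p) ℓ x = a ℓ • x)
    (u' : FF (M * p))
    (hk' : gdfIsKummer (K := Kbar) p
      (auxLevelPull (M' * p) (M * p) (Nat.mul_dvd_mul_right hdvd p) x) u')
    (c₁ c₂ : Kbar)
    (h₁ : EisUnit R (algebraMap Kbar (FF (M * p)) c₁ * u'))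
    (h₂ : EisUnit (glmZero M p hp hpM R) (algebraMap Kbar (FF (M * p)) c₂ * u'))
    (hord₁ : ∀ Q : Place (IsLocalRing.ResidueField B) (Fk (IsLocalRing.ResidueField B) M),
      0 ≤ Q.ord (jk (IsLocalRing.ResidueField B) M) → (p : ℤ) ∣ Q.ord (R.red ⟨_, h₁.2.1⟩))
    (hord₂ : ∀ Q : Place (IsLocalRing.ResidueField B) (Fk (IsLocalRing.ResidueField B) M),
      0 ≤ Q.ord (jk (IsLocalRing.ResidueField B) M) →
        (p : ℤ) ∣ Q.ord ((glmZero M p hp hpM R).red ⟨_, h₂.2.1⟩)) :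
    TppKer2 M p hp hpM R (auxLevelPull (M' * p) (M * p) (Nat.mul_dvd_mul_right hdvd p) x) := by
  haveI : RRHyp Kbar (FF (M * p)) := mod_rrHyp (M * p)
  haveI : RRHyp Kbar (FF (M' * p)) := mod_rrHyp (M' * p)
  haveI : RRBase Kbar (FF (M' * p)) := (mod_rrHyp (M' * p)).toRRBase
  haveI : HasPrincipalDivisors Kbar (FF (M' * p)) := wir_hasPrincipalDivisors (M' * p)
  haveI : IsAlgClosed (IsLocalRing.ResidueField B) := isAlgClosed_residueField B
  have hAtop : B ≠ ⊤ := cri_ne_top p B (B.mem_nonunits_iff.mp hB) hp.ne_zero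
  have hNM : M' * p ∣ M * p := Nat.mul_dvd_mul_right hdvd p
  have hpS : p ∈ S := hS p hp (dvd_mul_left p M')
  obtain ⟨D, rfl⟩ := Pic0.mk_surjective x
  obtain ⟨u, hu0, hDu⟩ := tax_exists_kummer (M' * p) p D hpx
  have hkx : gdfIsKummer (K := Kbar) p (Pic0.mk D) u := gdf_isKummer_of_ord hu0 D rfl hDu
  have hk := tma_pull_kummer M' p M hdvd D u hu0 hDu
  obtain ⟨c, w, hc0, hw0, hrel⟩ := gdf_isKummer_unique hk' hk
  have hc₁0 : c₁ ≠ 0 := by
    intro h0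
    apply h₁.1
    rw [h0, map_zero, zero_mul]
  have hc₂0 : c₂ ≠ 0 := by
    intro h0
    apply h₂.1
    rw [h0, map_zero, zero_mul]
  have hc₁F : algebraMap Kbar (FF (M * p)) c₁ ≠ 0 := (map_ne_zero _).mpr hc₁0
  have hc₂F : algebraMap Kbar (FF (M * p)) c₂ ≠ 0 := (map_ne_zero _).mpr hc₂0
  -- the constant multiples of `u` are Kummer functions of `x`
  have hdivc : ∀ κ : Kbar, κ ≠ 0 → ∀ v : Place Kbar (FF (M' * p)),
      (p : ℤ) * (D : Divisor Kbar (FF (M' * p))) v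
        = v.ord (algebraMap Kbar (FF (M' * p)) κ * u) := by
    intro κ hκ v
    rw [Place.ord_mul v ((map_ne_zero _).mpr hκ) hu0, wir_ord_algebraMap v hκ, zero_add]
    exact hDu v
  have hinclc : ∀ κ : Kbar, inclBar (M' * p) (M * p) hNM (algebraMap Kbar (FF (M' * p)) κ * u)
      = algebraMap Kbar (FF (M * p)) κ * inclBar (M' * p) (M * p) hNM u := by
    intro κ
    rw [map_mul, AlgHom.commutes]
  -- ### the `∞`-component
  obtain ⟨κ₁, hκ₁0, hκ₁a, hκ₁b⟩ := R'.exists_unit_smul u hu0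
  have hU₁ : EisUnit R' (algebraMap Kbar (FF (M' * p)) κ₁ * u) :=
    ⟨mul_ne_zero ((map_ne_zero _).mpr hκ₁0) hu0, hκ₁a, hκ₁b⟩
  obtain ⟨hm₁, hredm₁⟩ := lvb_red_incl (p := p) hdvd hAtop hR' hR _ hκ₁a
  obtain ⟨hm₁', -⟩ := lvb_red_incl (p := p) hdvd hAtop hR' hR _ hκ₁b
  have hŨ₁ : EisUnit R (inclBar (M' * p) (M * p) hNM (algebraMap Kbar (FF (M' * p)) κ₁ * u)) :=
    ⟨(map_ne_zero _).mpr hU₁.1, hm₁, by rw [← map_inv₀]; exact hm₁'⟩
  have hrel₁ : inclBar (M' * p) (M * p) hNM (algebraMap Kbar (FF (M' * p)) κ₁ * u)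
      = algebraMap Kbar (FF (M * p)) (κ₁ * c * c₁⁻¹) * w ^ p
        * (algebraMap Kbar (FF (M * p)) c₁ * u') := by
    rw [hinclc, hrel, map_mul, map_mul, map_inv₀]
    field_simp
  have hW₁nc : ∀ v : Place (IsLocalRing.ResidueField B) (Fk (IsLocalRing.ResidueField B) M'),
      0 ≤ v.ord (jk (IsLocalRing.ResidueField B) M') →
        (p : ℤ) ∣ v.ord (R'.red ⟨_, hU₁.2.1⟩) := by
    refine tmw2_ord_dvd_nc hdvd hp hdeg _ (fun Q hQ => ?_)
    rw [← hredm₁]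
    exact tmw2_wind_transfer_at R p h₁ hŨ₁ (κ₁ * c * c₁⁻¹) w hw0 hrel₁ Q (hord₁ Q hQ)
  have hW₁' : ∀ v : Place (IsLocalRing.ResidueField B) (Fk (IsLocalRing.ResidueField B) M'),
      (p : ℤ) ∣ v.ord (R'.red ⟨_, hU₁.2.1⟩) := by
    refine hC _ hU₁.red_ne_zero hW₁nc (fun ℓ hℓ hℓS => ?_)
    haveI : NeZero ℓ := ⟨hℓ.ne_zero⟩
    have hℓp : ℓ ≠ p := fun h => hℓS (h ▸ hpS)
    exact ler_hecke M' p B hp hpM' hB hR' ℓ hℓ hℓp (a ℓ) _ (hx ⟨ℓ, hℓ⟩ hℓS) D rfl _ hU₁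
      (hdivc κ₁ hκ₁0)
  obtain ⟨w₁, hw₁0, hw₁⟩ := tmw_pow_inf M' p B hp hpM' hB hR' S hpS a hL hNot _ hx D rfl _ hU₁
    (hdivc κ₁ hκ₁0) hW₁'
  have hP₁ : KspRed R (algebraMap Kbar (FF (M * p)) κ₁ * inclBar (M' * p) (M * p) hNM u)
      ((inclK (IsLocalRing.ResidueField B) hdvd w₁) ^ p) := by
    rw [← hinclc]
    refine ⟨hm₁, ?_⟩
    rw [hredm₁, ← map_pow]
    congr 1
    exact hw₁.2
  -- ### the `0`-component
  obtain ⟨κ₂, hκ₂0, hκ₂a, hκ₂b⟩ := (glmZero M' p hp hpM' R').exists_unit_smul u hu0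
  have hU₂ : EisUnit (glmZero M' p hp hpM' R') (algebraMap Kbar (FF (M' * p)) κ₂ * u) :=
    ⟨mul_ne_zero ((map_ne_zero _).mpr hκ₂0) hu0, hκ₂a, hκ₂b⟩
  obtain ⟨hm₂, hredm₂⟩ := tmw_zero_red_incl hp hpM' hpM hdvd hAtop hR' hR _ hκ₂a
  obtain ⟨hm₂', -⟩ := tmw_zero_red_incl hp hpM' hpM hdvd hAtop hR' hR _ hκ₂b
  have hŨ₂ : EisUnit (glmZero M p hp hpM R)
      (inclBar (M' * p) (M * p) hNM (algebraMap Kbar (FF (M' * p)) κ₂ * u)) :=
    ⟨(map_ne_zero _).mpr hU₂.1, hm₂, by rw [← map_inv₀]; exact hm₂'⟩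
  have hrel₂ : inclBar (M' * p) (M * p) hNM (algebraMap Kbar (FF (M' * p)) κ₂ * u)
      = algebraMap Kbar (FF (M * p)) (κ₂ * c * c₂⁻¹) * w ^ p
        * (algebraMap Kbar (FF (M * p)) c₂ * u') := by
    rw [hinclc, hrel, map_mul, map_mul, map_inv₀]
    field_simp
  have hW₂nc : ∀ v : Place (IsLocalRing.ResidueField B) (Fk (IsLocalRing.ResidueField B) M'),
      0 ≤ v.ord (jk (IsLocalRing.ResidueField B) M') →
        (p : ℤ) ∣ v.ord ((glmZero M' p hp hpM' R').red ⟨_, hU₂.2.1⟩) := by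
    refine tmw2_ord_dvd_nc hdvd hp hdeg _ (fun Q hQ => ?_)
    rw [← hredm₂]
    exact tmw2_wind_transfer_at (glmZero M p hp hpM R) p h₂ hŨ₂ (κ₂ * c * c₂⁻¹) w hw0 hrel₂ Q
      (hord₂ Q hQ)
  have hW₂' : ∀ v : Place (IsLocalRing.ResidueField B) (Fk (IsLocalRing.ResidueField B) M'),
      (p : ℤ) ∣ v.ord ((glmZero M' p hp hpM' R').red ⟨_, hU₂.2.1⟩) := by
    refine hC _ hU₂.red_ne_zero hW₂nc (fun ℓ hℓ hℓS => ?_)
    haveI : NeZero ℓ := ⟨hℓ.ne_zero⟩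
    have hℓp : ℓ ≠ p := fun h => hℓS (h ▸ hpS)
    exact lez_hecke M' p B hp hpM' hB (dvd_mul_left p M') (inf_not_sq_dvd M' p hp hpM') hR' ℓ hℓ
      hℓp (a ℓ) _ (hx ⟨ℓ, hℓ⟩ hℓS) D rfl _ hU₂ (hdivc κ₂ hκ₂0)
  obtain ⟨w₂, hw₂0, hw₂⟩ := tmw_pow_zero M' p B hp hpM' hB hR' S hpS a hL hNot _ hx D rfl _ hU₂
    (hdivc κ₂ hκ₂0) hW₂'
  have hP₂ : KspRed (glmZero M p hp hpM R)
      (algebraMap Kbar (FF (M * p)) κ₂ * inclBar (M' * p) (M * p) hNM u)
      ((inclK (IsLocalRing.ResidueField B) hdvd w₂) ^ p) := by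
    rw [← hinclc]
    refine ⟨hm₂, ?_⟩
    rw [hredm₂, ← map_pow]
    congr 1
    exact hw₂.2
  exact kgl_ker2 M p hp hpM hB R hR _ _ hk κ₁ κ₂ hκ₁0 hκ₂0 _ _
    ((map_ne_zero _).mpr hw₁0) ((map_ne_zero _).mpr hw₂0) hP₁ hP₂

end Tail

/-! ### (J-TAME) -/

section Tame

variable (M' p : ℕ) [NeZero M'] [NeZero p] [NeZero (M' * p)]

/-- **(TAME-WIND-NC)**: WIND0 OFF THE CUSPS on both components at the auxiliary level `M = lcm(M', baseLevel p)`
for the pull-back of an inertia-fixed Kummer function `u` of an inertia-fixed class `x ≠ 0` of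
`V`: for suitable normalisations `c₁ ũ`, `c₂ ũ` (units at `R`, `R₀`), all orders of the
reductions are divisible by `p`.  (= WINDC (edge rule + DIV-RED) + H1 (Eisenstein step).) -/
def S40tmwWindNC (hp : p.Prime) (B : ValuationSubring (AlgebraicClosure ℚ)) : Prop :=
  ∀ (S : Finset ℕ) (a : ℕ → ℤ) (V : AddSubgroup (JZero (M' * p))),
    (∀ ℓ : ℕ, ℓ.Prime → ℓ ∣ M' * p → ℓ ∈ S) →
    Nat.card V = p ^ 2 → (∀ x ∈ V, p • x = 0) →
    (∀ (σ : AlgebraicClosure ℚ ≃ₐ[ℚ] AlgebraicClosure ℚ), ∀ x ∈ V, σ • x ∈ V) →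
    S40hEig (M' * p) S a V → S40hNotAt M' p S a →
    (∃ ℓ : Nat.Primes, (ℓ : ℕ) ∉ S ∧ ¬ (p : ℤ) ∣ a ℓ - (1 + (ℓ : ℕ))) →
    ∀ x ∈ V, x ≠ 0 → (∀ σ ∈ B.inertiaSubgroupIn ℚ, σ • x = x) →
    ∀ (D : Divisor.degZero (K := Kbar) (F := FF (M' * p))) (u : FF (M' * p)),
      Pic0.mk D = x → u ≠ 0 → u ∈ f0Field B (M' * p) →
      (∀ σ ∈ B.inertiaSubgroupIn ℚ,
        galFF (M' * p) σ • (D : Divisor Kbar (FF (M' * p))) = D) →
      (∀ v : Place Kbar (FF (M' * p)),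
        (p : ℤ) * (D : Divisor Kbar (FF (M' * p))) v = v.ord u) →
    ∀ (M : ℕ) [NeZero M] [NeZero (M * p)] (haux : IsAuxLevel p M) (hdvd : M' ∣ M),
      M = Nat.lcm M' (baseLevel p) →
      ∀ (R : ConstRed B (IsLocalRing.residue B)
        (↥(modularFunctionFieldFullC (IsLocalRing.ResidueField B) M)) (FF (M * p))),
      IsSeriesRed R →
      ∃ (c₁ c₂ : Kbar)
        (h₁ : EisUnit R (algebraMap Kbar (FF (M * p)) c₁ *
          inclBar (M' * p) (M * p) (Nat.mul_dvd_mul_right hdvd p) u))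
        (h₂ : EisUnit (glmZero M p hp haux.1 R) (algebraMap Kbar (FF (M * p)) c₂ *
          inclBar (M' * p) (M * p) (Nat.mul_dvd_mul_right hdvd p) u)),
        (∀ Q : Place (IsLocalRing.ResidueField B) (Fk (IsLocalRing.ResidueField B) M),
          0 ≤ Q.ord (jk (IsLocalRing.ResidueField B) M) →
            (p : ℤ) ∣ Q.ord (R.red ⟨_, h₁.2.1⟩)) ∧
        (∀ Q : Place (IsLocalRing.ResidueField B) (Fk (IsLocalRing.ResidueField B) M),
          0 ≤ Q.ord (jk (IsLocalRing.ResidueField B) M) →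
            (p : ℤ) ∣ Q.ord ((glmZero M p hp haux.1 R).red ⟨_, h₂.2.1⟩))

/-- **(J-TAME) from (TAME-WIND-NC), the cusp step at the level `M'` and (LIFT)**
(`p ≥ 5`, or `p = 3` and `M'` even). -/
theorem tmw2_tame (hp : p.Prime) (hp2 : p ≠ 2) (h3 : p ≠ 3 ∨ 2 ∣ M') (hpM' : ¬ p ∣ M')
    (B : ValuationSubring (AlgebraicClosure ℚ)) (hB : B.LiesOverPrime p)
    (hW : S40tmwWindNC M' p hp B)
    (hC : ∀ (S : Finset ℕ) (a : ℕ → ℤ),
      (∀ ℓ : ℕ, ℓ.Prime → ℓ ∣ M' * p → ℓ ∈ S) →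
      (∃ ℓ : Nat.Primes, (ℓ : ℕ) ∉ S ∧ ¬ (p : ℤ) ∣ a ℓ - (1 + (ℓ : ℕ))) →
      S40tmwCusp M' p S a (IsLocalRing.ResidueField B))
    (hL : ∀ (S : Finset ℕ) (a : ℕ → ℤ), LfhLift M' p S a B) : S40jTame M' p B := by
  haveI : Fact p.Prime := ⟨hp⟩
  intro S a V hS hcard hVp hstab hEig hNot hnE x hx hI
  by_contra hx0
  obtain ⟨D, u, hD, hu0, huF, hDI, hDu⟩ := tmf_kummer (M' * p) p B x (hVp x hx) hI
  obtain ⟨e, hM0, hMp0, hdvd, haux, hM, hdegψ⟩ := tmw_aux_data M' p hp hpM'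
  obtain ⟨R, hR⟩ := exists_constRedInf_aux (Nat.lcm M' (baseLevel p)) p hp haux.1 B hB
  obtain ⟨R', hR'⟩ := hkq_exists_red M' p B hp hpM' hB
  obtain ⟨c₁, c₂, h₁, h₂, hord₁, hord₂⟩ :=
    hW S a V hS hcard hVp hstab hEig hNot hnE x hx hx0 hI D u hD hu0 huF hDI hDu
      (Nat.lcm M' (baseLevel p)) haux hdvd rfl R hR
  have hb4 : baseLevel p = 4 := by
    unfold baseLevel
    rw [if_neg hp2]
  have hdeg := lvb_hdeg_aux (A := B) (M := Nat.lcm M' (baseLevel p)) (by rw [hb4]) hdvd hp hp2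
    h3 haux.1 hB
  haveI : RRBase Kbar (FF (Nat.lcm M' (baseLevel p) * p)) :=
    (mod_rrHyp (Nat.lcm M' (baseLevel p) * p)).toRRBase
  have hk := tma_pull_kummer M' p (Nat.lcm M' (baseLevel p)) hdvd D u hu0 hDu
  have hker := tmw2_ker2_of_wind M' (Nat.lcm M' (baseLevel p)) p hp hpM' haux.1 hdvd hB hdeg hR' hR
    S hS a (hL S a) hNot (hC S a hS hnE) (Pic0.mk D) (by rw [hD]; exact hVp x hx)
    (fun ℓ hℓS => by rw [hD]; exact hEig ℓ hℓS x hx) _ hk c₁ c₂ h₁ h₂ hord₁ hord₂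
  rw [hD] at hker
  obtain ⟨hα, hβ⟩ := s40h_new_of_notAt M' p hp hpM' S a V hS hVp hEig hNot x hx
  obtain ⟨τ₀, hτ₀, hmv, -⟩ := cysp_exists_moves p hp2 B hB
  exact hx0 (tpp_fixed_descent M' (Nat.lcm M' (baseLevel p)) p e hp hp2 haux hdvd hM hdegψ hB R hR
    x (hVp x hx) hker hα hβ τ₀ hτ₀ hmv (hI τ₀ hτ₀))

end Tame

end Fermat.Agent.S40lib

end
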