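import Mathlib
import Fermat.Agent.S40lib.CuspCount
import Fermat.Agent.S40lib.CuspHecke
import Fermat.Agent.S40lib.TameWind2
import Fermat.Agent.GoodRed.HredMain

/-!
# Item 88 (S40/S44): the CUSP GAP, assembly of the cusp step (helper23)

Level `M` squarefree, prime to `p`; `k` the residue field of `A` (over `p`).  Inputs:

* (a) ring automorphisms `w d` of `F_{M,k}` (`d ∣ M`), fixing the constants, with
  `ord_∞ (w d j̄) = -d` (the reductions of the Atkin–Lehner involutions `w_d`);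
* (b) automorphisms `W d` of `F_{Mℓ,k}` compatible with `w d` under the two degeneracy maps,
  for ONE prime `ℓ ∉ S`, `ℓ ∤ M p`, with `p ∤ a_ℓ - (1 + ℓ)`.

Output: `ccs_cusp_step : S40tmwCusp M p S a k` (the cusp step of `TameWind2`): by the counting
`∑_{d ∣ M} d = ψ(M) = [F_{M,k} : k(j̄)]` (`CuspCount`) every cusp of `F_{M,k}` is `∞ ∘ w d` for
some `d ∣ M`, and `p ∣ ord_∞ (w d u)` is `cph_ord_inf` (helper25, helper15).
-/

set_option autoImplicit false
set_option linter.style.haveILetI false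
set_option linter.unusedSectionVars false
set_option linter.unusedVariables false
set_option synthInstance.maxHeartbeats 400000

noncomputable section

namespace Fermat.Agent.S40lib

open ModularCurve AlgebraicCurve HahnSeries IntermediateField Fermat.Agent.GoodRed Fermat.Agent.GM
  Fermat.Agent.S24lib Fermat.Agent.S34lib Fermat.Agent.FFlib

section Conc

variable (M p ℓ : ℕ) [NeZero M] [NeZero ℓ] (A : ValuationSubring (AlgebraicClosure ℚ))

/-- `[F_{M,k} : k(j̄)] = ψ(M)` -/
theorem ccs_finrank_jk (hp : p.Prime) (hpM : ¬ p ∣ M) (hA : A.LiesOverPrime p) :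
    Module.finrank (IsLocalRing.ResidueField A)⟮jk (IsLocalRing.ResidueField A) M⟯
      (Fk (IsLocalRing.ResidueField A) M) = dedekindPsi M := by
  haveI : Fact p.Prime := ⟨hp⟩
  rw [← finrank_Fk_modL M hpM A hA]
  exact fsFinrank_of_adjoin_eq (fsAdjoin_inv (jk (IsLocalRing.ResidueField A) M)).symm

/-- **every cusp of `F_{M,k}` is `∞ ∘ w d`**, `M` squarefree. -/
theorem ccs_cusp_eq (hp : p.Prime) (hpM : ¬ p ∣ M) (hA : A.LiesOverPrime p)
    (hsq : Squarefree M)
    (w : ℕ → (Fk (IsLocalRing.ResidueField A) M ≃+* Fk (IsLocalRing.ResidueField A) M))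
    (hwc : ∀ d ∈ M.divisors, ∀ c : IsLocalRing.ResidueField A,
      w d (algebraMap (IsLocalRing.ResidueField A) (Fk (IsLocalRing.ResidueField A) M) c)
        = algebraMap (IsLocalRing.ResidueField A) (Fk (IsLocalRing.ResidueField A) M) c)
    (hj : ∀ d ∈ M.divisors, (infPlaceC (IsLocalRing.ResidueField A) M).ord
      (w d (jk (IsLocalRing.ResidueField A) M)) = -(d : ℤ))
    (v : Place (IsLocalRing.ResidueField A) (Fk (IsLocalRing.ResidueField A) M))
    (hv : v.ord (jk (IsLocalRing.ResidueField A) M) < 0) :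
    ∃ d ∈ M.divisors, ∀ f : Fk (IsLocalRing.ResidueField A) M,
      v.ord f = (infPlaceC (IsLocalRing.ResidueField A) M).ord (w d f) := by
  classical
  haveI : IsAlgClosed (IsLocalRing.ResidueField A) := isAlgClosed_residueField A
  haveI : FFSep (IsLocalRing.ResidueField A) (jk (IsLocalRing.ResidueField A) M) :=
    gmw_ffSep (IsLocalRing.ResidueField A) M
  have hfin := ccs_finrank_jk M p A hp hpM hA
  obtain ⟨d, -, hd⟩ := ccn_exhaust_aut (x := jk (IsLocalRing.ResidueField A) M)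
    M.divisors.attach
    (fun d => AlgEquiv.ofRingEquiv (f := w d.1) (hwc d.1 d.2))
    (infPlaceC (IsLocalRing.ResidueField A) M) (fun d => ((d.1 : ℕ) : ℤ))
    (fun d _ => hj d.1 d.2)
    (fun d _ => by
      have := Nat.pos_of_mem_divisors d.2
      exact_mod_cast this)
    (fun d _ d' _ h => Subtype.ext (by exact_mod_cast h))
    (by
      rw [hfin, ← ccn_sum_divisors_squarefree M hsq, Finset.sum_attach M.divisors
        (fun d => ((d : ℕ) : ℤ))]
      push_cast
      rfl) v hv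
  exact ⟨d.1, d.2, hd⟩

/-- **the cusp step** at the squarefree level `M` from the reduced Atkin–Lehner involutions. -/
theorem ccs_cusp_step (hp : p.Prime) (hpM : ¬ p ∣ M) (hA : A.LiesOverPrime p)
    (hsq : Squarefree M) (S : Finset ℕ) (a : ℕ → ℤ)
    (hℓ : ℓ.Prime) (hℓS : ℓ ∉ S) (hℓp : ℓ ≠ p) (hℓM : ¬ ℓ ∣ M)
    (hcop : ¬ (p : ℤ) ∣ a ℓ - (1 + (ℓ : ℤ)))
    (w : ℕ → (Fk (IsLocalRing.ResidueField A) M ≃+* Fk (IsLocalRing.ResidueField A) M))
    (W : ℕ → (Fk (IsLocalRing.ResidueField A) (M * ℓ)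
      ≃+* Fk (IsLocalRing.ResidueField A) (M * ℓ)))
    (hα : ∀ d ∈ M.divisors, ∀ x : Fk (IsLocalRing.ResidueField A) M,
      W d (inclK (IsLocalRing.ResidueField A) (dvd_mul_right M ℓ) x)
        = inclK (IsLocalRing.ResidueField A) (dvd_mul_right M ℓ) (w d x))
    (hβ : ∀ d ∈ M.divisors, ∀ x : Fk (IsLocalRing.ResidueField A) M,
      W d (hkrBetaK (IsLocalRing.ResidueField A) M ℓ x)
        = hkrBetaK (IsLocalRing.ResidueField A) M ℓ (w d x))
    (hwc : ∀ d ∈ M.divisors, ∀ c : IsLocalRing.ResidueField A,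
      w d (algebraMap (IsLocalRing.ResidueField A) (Fk (IsLocalRing.ResidueField A) M) c)
        = algebraMap (IsLocalRing.ResidueField A) (Fk (IsLocalRing.ResidueField A) M) c)
    (hj : ∀ d ∈ M.divisors, (infPlaceC (IsLocalRing.ResidueField A) M).ord
      (w d (jk (IsLocalRing.ResidueField A) M)) = -(d : ℤ)) :
    S40tmwCusp M p S a (IsLocalRing.ResidueField A) := by
  intro u hu0 hnc hrel v
  by_cases hv : 0 ≤ v.ord (jk (IsLocalRing.ResidueField A) M)
  · exact hnc v hv
  · obtain ⟨d, hd, hf⟩ := ccs_cusp_eq M p A hp hpM hA hsq w hwc hj v (not_le.mp hv)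
    obtain ⟨c, s, hc, hs, hr⟩ := hrel ℓ hℓ hℓS
    exact cph_ord_place M p ℓ A hp hpM hA hℓ hℓp hℓM (w d) (W d) (hα d hd) (hβ d hd)
      (hwc d hd) v hf u hu0 (a ℓ) hcop c s hc hs hr

end Conc

end Fermat.Agent.S40lib

end
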