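import Mathlib
import Fermat.Agent.S40lib.CuspStep

/-!
# Item 88 (S40/S44): the CUSP GAP, the cusp step from the PRIME Atkin–Lehner involutions (helper23)

Level `M` squarefree, prime to `p`.  Inputs, for the PRIMES `q ∣ M` only:

* ring automorphisms `w q` of `F_{M,k}` and `W q` of `F_{Mℓ,k}` with `hα`, `hβ`, `hwc`
  (the interface of `CuspHecke`, helper25; e.g. `cplBar` of `CuspAL`, helper8);
* a family `J d ∈ F_{M,k}` (`d ∣ M`; `J d = j̄_d`) with `J 1 = j̄`, `ord_∞ (J d) = -d` and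
  `w q (J d) = J (d q)` for `q ∤ d`.

Output: `ccs2_cusp_step : S40tmwCusp M p S a k`.  The automorphism `w̄_d` of a divisor `d ∣ M` is
the composition `ccs2Comp w (primeFactorsList d)` of the `w q`, `q ∣ d`.
-/

set_option autoImplicit false
set_option linter.style.haveILetI false
set_option linter.unusedSectionVars false
set_option linter.unusedVariables false
set_option synthInstance.maxHeartbeats 400000

noncomputable section

namespace Fermat.Agent.S40lib

open ModularCurve AlgebraicCurve HahnSeries IntermediateField Fermat.Agent.GoodRed Fermat.Agent.GM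
  Fermat.Agent.S24lib Fermat.Agent.S34lib Fermat.Agent.FFlib

section Compose

variable {E : Type*} [Field E]

/-- the composition `w q₁ ∘ w q₂ ∘ ⋯ ∘ w qₙ` along a list -/
def ccs2Comp (w : ℕ → (E ≃+* E)) : List ℕ → (E ≃+* E)
  | [] => RingEquiv.refl E
  | q :: L => (ccs2Comp w L).trans (w q)

theorem ccs2Comp_nil (w : ℕ → (E ≃+* E)) (x : E) : ccs2Comp w [] x = x := rfl

theorem ccs2Comp_cons (w : ℕ → (E ≃+* E)) (q : ℕ) (L : List ℕ) (x : E) :
    ccs2Comp w (q :: L) x = w q (ccs2Comp w L x) := rfl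

/-- a relation `W ∘ φ = φ ∘ w` passes to the compositions -/
theorem ccs2Comp_comm {E' : Type*} [Field E'] (w : ℕ → (E ≃+* E)) (W : ℕ → (E' ≃+* E'))
    (φ : E → E') (L : List ℕ) (h : ∀ q ∈ L, ∀ x : E, W q (φ x) = φ (w q x)) (x : E) :
    ccs2Comp W L (φ x) = φ (ccs2Comp w L x) := by
  induction L with
  | nil => rfl
  | cons q L ih =>
    rw [ccs2Comp_cons, ccs2Comp_cons,
      ih (fun q' hq' => h q' (List.mem_cons_of_mem q hq')), h q List.mem_cons_self]

/-- fixed elements of all the `w q` are fixed by the compositions -/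
theorem ccs2Comp_fixed (w : ℕ → (E ≃+* E)) (L : List ℕ) (c : E) (h : ∀ q ∈ L, w q c = c) :
    ccs2Comp w L c = c := by
  induction L with
  | nil => rfl
  | cons q L ih =>
    rw [ccs2Comp_cons, ih (fun q' hq' => h q' (List.mem_cons_of_mem q hq')),
      h q List.mem_cons_self]

/-- the action of the composition on `J 1`: `w̄_d (J 1) = J d` -/
theorem ccs2Comp_J (M : ℕ) (w : ℕ → (E ≃+* E)) (J : ℕ → E)
    (hJw : ∀ q : ℕ, q.Prime → q ∣ M → ∀ d : ℕ, d ∣ M → ¬ q ∣ d → d * q ∣ M →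
      w q (J d) = J (d * q))
    (L : List ℕ) (hL : ∀ q ∈ L, q.Prime) (hnd : L.Nodup) (hdvd : L.prod ∣ M) :
    ccs2Comp w L (J 1) = J L.prod := by
  induction L with
  | nil => rfl
  | cons q L ih =>
    rw [List.prod_cons] at hdvd
    have hq : q.Prime := hL q List.mem_cons_self
    have hLp : ∀ q' ∈ L, q'.Prime := fun q' hq' => hL q' (List.mem_cons_of_mem q hq')
    have hnd' := List.nodup_cons.mp hnd
    have hLM : L.prod ∣ M := dvd_trans (dvd_mul_left _ _) hdvd
    have hqM : q ∣ M := dvd_trans (dvd_mul_right _ _) hdvd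
    have hqL : ¬ q ∣ L.prod := by
      intro hd
      obtain ⟨a, ha, hqa⟩ := (Prime.dvd_prod_iff hq.prime).mp hd
      have := (Nat.prime_dvd_prime_iff_eq hq (hLp a ha)).mp hqa
      exact hnd'.1 (this ▸ ha)
    rw [ccs2Comp_cons, ih hLp hnd'.2 hLM, List.prod_cons, mul_comm q L.prod]
    exact hJw q hq hqM L.prod hLM hqL (by rwa [mul_comm])

end Compose

section Conc

variable (M p ℓ : ℕ) [NeZero M] [NeZero ℓ] (A : ValuationSubring (AlgebraicClosure ℚ))

/-- **the cusp step** at the squarefree level `M` from the reduced Atkin–Lehner involutions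
`w̄_q` of the PRIMES `q ∣ M`. -/
theorem ccs2_cusp_step (hp : p.Prime) (hpM : ¬ p ∣ M) (hA : A.LiesOverPrime p)
    (hsq : Squarefree M) (S : Finset ℕ) (a : ℕ → ℤ)
    (hℓ : ℓ.Prime) (hℓS : ℓ ∉ S) (hℓp : ℓ ≠ p) (hℓM : ¬ ℓ ∣ M)
    (hcop : ¬ (p : ℤ) ∣ a ℓ - (1 + (ℓ : ℤ)))
    (w : ℕ → (Fk (IsLocalRing.ResidueField A) M ≃+* Fk (IsLocalRing.ResidueField A) M))
    (W : ℕ → (Fk (IsLocalRing.ResidueField A) (M * ℓ)
      ≃+* Fk (IsLocalRing.ResidueField A) (M * ℓ)))
    (hα : ∀ q : ℕ, q.Prime → q ∣ M → ∀ x : Fk (IsLocalRing.ResidueField A) M,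
      W q (inclK (IsLocalRing.ResidueField A) (dvd_mul_right M ℓ) x)
        = inclK (IsLocalRing.ResidueField A) (dvd_mul_right M ℓ) (w q x))
    (hβ : ∀ q : ℕ, q.Prime → q ∣ M → ∀ x : Fk (IsLocalRing.ResidueField A) M,
      W q (hkrBetaK (IsLocalRing.ResidueField A) M ℓ x)
        = hkrBetaK (IsLocalRing.ResidueField A) M ℓ (w q x))
    (hwc : ∀ q : ℕ, q.Prime → q ∣ M → ∀ c : IsLocalRing.ResidueField A,
      w q (algebraMap (IsLocalRing.ResidueField A) (Fk (IsLocalRing.ResidueField A) M) c)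
        = algebraMap (IsLocalRing.ResidueField A) (Fk (IsLocalRing.ResidueField A) M) c)
    (J : ℕ → Fk (IsLocalRing.ResidueField A) M)
    (hJ1 : J 1 = jk (IsLocalRing.ResidueField A) M)
    (hJord : ∀ d : ℕ, d ∣ M → (infPlaceC (IsLocalRing.ResidueField A) M).ord (J d) = -(d : ℤ))
    (hJw : ∀ q : ℕ, q.Prime → q ∣ M → ∀ d : ℕ, d ∣ M → ¬ q ∣ d → d * q ∣ M →
      w q (J d) = J (d * q)) :
    S40tmwCusp M p S a (IsLocalRing.ResidueField A) := by
  have hprime : ∀ d ∈ M.divisors, ∀ q ∈ d.primeFactorsList, q.Prime ∧ q ∣ M := by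
    intro d hd q hq
    exact ⟨Nat.prime_of_mem_primeFactorsList hq,
      dvd_trans (Nat.dvd_of_mem_primeFactorsList hq) (Nat.dvd_of_mem_divisors hd)⟩
  refine ccs_cusp_step M p ℓ A hp hpM hA hsq S a hℓ hℓS hℓp hℓM hcop
    (fun d => ccs2Comp w d.primeFactorsList) (fun d => ccs2Comp W d.primeFactorsList)
    ?_ ?_ ?_ ?_
  · intro d hd x
    exact ccs2Comp_comm w W _ _ (fun q hq x => hα q (hprime d hd q hq).1 (hprime d hd q hq).2 x) x
  · intro d hd x
    exact ccs2Comp_comm w W _ _ (fun q hq x => hβ q (hprime d hd q hq).1 (hprime d hd q hq).2 x) x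
  · intro d hd c
    exact ccs2Comp_fixed w _ _ (fun q hq => hwc q (hprime d hd q hq).1 (hprime d hd q hq).2 c)
  · intro d hd
    have hdM : d ∣ M := Nat.dvd_of_mem_divisors hd
    have hd0 : d ≠ 0 := fun h => by
      rw [h, zero_dvd_iff] at hdM
      exact NeZero.ne M hdM
    have hdsq : Squarefree d := hsq.squarefree_of_dvd hdM
    have hprod : d.primeFactorsList.prod = d := Nat.prod_primeFactorsList hd0
    have h1 := ccs2Comp_J M w J hJw d.primeFactorsList
      (fun q hq => Nat.prime_of_mem_primeFactorsList hq)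
      ((Nat.squarefree_iff_nodup_primeFactorsList hd0).mp hdsq) (hprod.symm ▸ hdM)
    rw [← hJ1, h1, hprod]
    exact hJord d hdM

end Conc

end Fermat.Agent.S40lib

end
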