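import Mathlib
import Fermat.Agent.S40lib.CuspStep2
import Fermat.Agent.S40lib.CuspHecke2
import Fermat.Agent.S40lib.CuspAL
import Fermat.Agent.S34lib.LiftInfCusp

/-!
# Item 88 (S40/S44): the CUSP GAP, final assembly (helper15)

`M` squarefree, `p ∤ M`, `A` a valuation ring of `ℚ̄` over `p` with residue field `k`.

* `cpf_red_jdF`  : `red j_d = j̄_d` (the generator `cph2_gen`);
* `cpf_bar_gen`  : `w̄_q j̄_d = j̄_{σ_q d}` for `cplBar` (helper8);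
* `cpfW`         : the family `q ↦ w̄_q` (identity when `q` is not a prime exactly dividing `M`);
* `cpf_cusp_of`  : the cusp step `S40tmwCusp M p S a k` from ONE prime `ℓ ∉ S`, `ℓ ∤ M p`,
  non-Eisenstein (`p ∤ a ℓ - (1 + ℓ)`);
* `cpf_cusp`     : the hypothesis `hC` of `tmw2_tame` / `s44g_tame` for squarefree `M'`.
-/

set_option autoImplicit false
set_option linter.style.haveILetI false
set_option linter.unusedSectionVars false
set_option linter.unusedVariables false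
set_option synthInstance.maxHeartbeats 400000

noncomputable section

namespace Fermat.Agent.S40lib

open ModularCurve AlgebraicCurve HahnSeries IntermediateField Fermat.Agent.GoodRed Fermat.Agent.GM
  Fermat.Agent.S24lib Fermat.Agent.S34lib Fermat.Agent.HeckeBar

section Gen

variable (M q p : ℕ) [NeZero M] [NeZero q] (A : ValuationSubring Kbar)
variable (hp : p.Prime) (hpM : ¬ p ∣ M) (hA : A.LiesOverPrime p)
  (hq : q.Prime) (hqM : q ∣ M) (hq2 : ¬ q ^ 2 ∣ M)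
  (R : ConstRed A (IsLocalRing.residue A) (Fk (IsLocalRing.ResidueField A) M) (FF M))
  (hR : IsSeriesRed R)

/-- `red j_d = j̄_d` -/
theorem cpf_red_jdF
    {R : ConstRed A (IsLocalRing.residue A) (Fk (IsLocalRing.ResidueField A) M) (FF M)}
    (hR : IsSeriesRed R) (d : ℕ) [NeZero d] (hd : d ∣ M) (h : jdF M d hd ∈ R.O) :
    R.red ⟨jdF M d hd, h⟩ = cph2_gen (IsLocalRing.ResidueField A) M ⟨d, hd⟩ := by
  apply Subtype.ext
  rw [cph2_coe_gen]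
  exact liftInf_coe_red_jdF hR d hd

/-- the permutation `σ_q` of the divisors of `M` -/
def cpfSwap (d : Dv M) : Dv M := ⟨alSwap q d.1, alSwap_dvd hq hqM d.2⟩

/-- `w̄_q j̄_d = j̄_{σ_q d}` -/
theorem cpf_bar_gen (d : Dv M) :
    cplBar M q p A hp hpM hA hq hqM hq2 R hR (cph2_gen (IsLocalRing.ResidueField A) M d) =
      cph2_gen (IsLocalRing.ResidueField A) M (cpfSwap M q hq hqM d) := by
  haveI : NeZero d.1 := ⟨d.ne_zero⟩
  haveI : NeZero (alSwap q d.1) := ⟨alSwap_ne_zero hq (NeZero.ne d.1)⟩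
  have h0 : jdF M d.1 d.2 ∈ R.O := liftInf_jdF_mem hR d.1 d.2
  obtain ⟨h', he⟩ := cplBar_red_jdF M q p A hp hpM hA hq hqM hq2 R hR d.1 d.2 h0
  have e1 := cpf_red_jdF M A hR d.1 d.2 h0
  have e2 := cpf_red_jdF M A hR (alSwap q d.1) (alSwap_dvd hq hqM d.2) h'
  rw [e1, e2] at he
  exact he

end Gen

section Fam

variable (M p : ℕ) [NeZero M] (A : ValuationSubring Kbar)
variable (hp : p.Prime) (hpM : ¬ p ∣ M) (hA : A.LiesOverPrime p)
  (R : ConstRed A (IsLocalRing.residue A) (Fk (IsLocalRing.ResidueField A) M) (FF M))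
  (hR : IsSeriesRed R)

open Classical in
/-- the family `q ↦ w̄_q` -/
def cpfW (q : ℕ) : Fk (IsLocalRing.ResidueField A) M ≃+* Fk (IsLocalRing.ResidueField A) M :=
  if h : q.Prime ∧ q ∣ M ∧ ¬ q ^ 2 ∣ M then
    haveI : NeZero q := ⟨h.1.ne_zero⟩
    cplBar M q p A hp hpM hA h.1 h.2.1 h.2.2 R hR
  else RingEquiv.refl _

theorem cpfW_eq (q : ℕ) [NeZero q] (hq : q.Prime) (hqM : q ∣ M) (hq2 : ¬ q ^ 2 ∣ M) :
    cpfW M p A hp hpM hA R hR q = cplBar M q p A hp hpM hA hq hqM hq2 R hR := by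
  unfold cpfW
  rw [dif_pos ⟨hq, hqM, hq2⟩]

end Fam

section Main

variable (M p ℓ : ℕ) [NeZero M] [NeZero ℓ] (A : ValuationSubring Kbar)

/-- **the cusp step** at a squarefree level `M`, `p ∤ M`, from ONE non-Eisenstein prime
`ℓ ∤ M p`. -/
theorem cpf_cusp_of (hp : p.Prime) (hpM : ¬ p ∣ M) (hA : A.LiesOverPrime p)
    (hsq : Squarefree M) (S : Finset ℕ) (a : ℕ → ℤ)
    (hℓ : ℓ.Prime) (hℓS : ℓ ∉ S) (hℓp : ℓ ≠ p) (hℓM : ¬ ℓ ∣ M)
    (hcop : ¬ (p : ℤ) ∣ a ℓ - (1 + (ℓ : ℤ))) :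
    S40tmwCusp M p S a (IsLocalRing.ResidueField A) := by
  haveI : Fact p.Prime := ⟨hp⟩
  have hAtop : A ≠ ⊤ := dw_ne_top hp hA
  haveI : NeZero (M * ℓ) := ⟨Nat.mul_ne_zero (NeZero.ne M) (NeZero.ne ℓ)⟩
  have hpMℓ : ¬ p ∣ M * ℓ := by
    intro h
    rcases (Nat.Prime.dvd_mul hp).1 h with h | h
    · exact hpM h
    · exact hℓp ((Nat.prime_dvd_prime_iff_eq hp hℓ).1 h).symm
  obtain ⟨R, hR⟩ := exists_modConstRed M A hAtop (Fermat.Agent.GoodRed.hred_modL M hpM A hA)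
  obtain ⟨Rl, hRl⟩ := exists_modConstRed (M * ℓ) A hAtop
    (Fermat.Agent.GoodRed.hred_modL (M * ℓ) hpMℓ A hA)
  have hq2 : ∀ q : ℕ, q.Prime → ¬ q ^ 2 ∣ M := by
    intro q hq h
    rw [pow_two] at h
    exact hq.not_isUnit (hsq q h)
  have hqℓ : ∀ q : ℕ, q.Prime → q ∣ M → ¬ q ∣ ℓ := by
    intro q hq hqM h
    exact hℓM (((Nat.prime_dvd_prime_iff_eq hq hℓ).1 h) ▸ hqM)
  have hq2ℓ : ∀ q : ℕ, q.Prime → q ∣ M → ¬ q ^ 2 ∣ M * ℓ := by
    intro q hq hqM h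
    have hc : Nat.Coprime (q ^ 2) ℓ :=
      Nat.Coprime.pow_left 2 ((Nat.Prime.coprime_iff_not_dvd hq).2 (hqℓ q hq hqM))
    exact hq2 q hq (hc.dvd_of_dvd_mul_right h)
  have hswapℓ : ∀ q : ℕ, q.Prime → q ∣ M → ∀ d : ℕ, alSwap q (d * ℓ) = alSwap q d * ℓ := by
    intro q hq hqM d
    have hcop' : Nat.Coprime q ℓ := (Nat.Prime.coprime_iff_not_dvd hq).2 (hqℓ q hq hqM)
    by_cases hd : q ∣ d
    · rw [alSwap_of_dvd hd, alSwap_of_dvd (Dvd.dvd.mul_right hd ℓ)]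
      obtain ⟨e, rfl⟩ := hd
      rw [Nat.mul_div_cancel_left _ hq.pos, mul_assoc, Nat.mul_div_cancel_left _ hq.pos]
    · have hd' : ¬ q ∣ d * ℓ := fun h => hd (hcop'.dvd_of_dvd_mul_right h)
      rw [alSwap_of_not_dvd hd, alSwap_of_not_dvd hd']
      ring
  refine ccs2_cusp_step M p ℓ A hp hpM hA hsq S a hℓ hℓS hℓp hℓM hcop
    (cpfW M p A hp hpM hA R hR) (cpfW (M * ℓ) p A hp hpMℓ hA Rl hRl) ?_ ?_ ?_
    (fun d => if h : d ∣ M then cph2_gen (IsLocalRing.ResidueField A) M ⟨d, h⟩ else 0) ?_ ?_ ?_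
  · -- hα
    intro q hq hqM x
    haveI : NeZero q := ⟨hq.ne_zero⟩
    rw [cpfW_eq M p A hp hpM hA R hR q hq hqM (hq2 q hq),
      cpfW_eq (M * ℓ) p A hp hpMℓ hA Rl hRl q hq (Dvd.dvd.mul_right hqM ℓ) (hq2ℓ q hq hqM)]
    refine cph2_alpha (IsLocalRing.ResidueField A) M ℓ _ _ (cpfSwap M q hq hqM)
      (cpfSwap (M * ℓ) q hq (Dvd.dvd.mul_right hqM ℓ))
      (cplBar_algebraMap M q p A hp hpM hA hq hqM (hq2 q hq) R hR)
      (cplBar_algebraMap (M * ℓ) q p A hp hpMℓ hA hq _ (hq2ℓ q hq hqM) Rl hRl)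
      (cpf_bar_gen M q p A hp hpM hA hq hqM (hq2 q hq) R hR)
      (cpf_bar_gen (M * ℓ) q p A hp hpMℓ hA hq _ (hq2ℓ q hq hqM) Rl hRl) ?_ x
    intro d
    rfl
  · -- hβ
    intro q hq hqM x
    haveI : NeZero q := ⟨hq.ne_zero⟩
    rw [cpfW_eq M p A hp hpM hA R hR q hq hqM (hq2 q hq),
      cpfW_eq (M * ℓ) p A hp hpMℓ hA Rl hRl q hq (Dvd.dvd.mul_right hqM ℓ) (hq2ℓ q hq hqM)]
    refine cph2_beta (IsLocalRing.ResidueField A) M ℓ _ _ (cpfSwap M q hq hqM)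
      (cpfSwap (M * ℓ) q hq (Dvd.dvd.mul_right hqM ℓ))
      (cplBar_algebraMap M q p A hp hpM hA hq hqM (hq2 q hq) R hR)
      (cplBar_algebraMap (M * ℓ) q p A hp hpMℓ hA hq _ (hq2ℓ q hq hqM) Rl hRl)
      (cpf_bar_gen M q p A hp hpM hA hq hqM (hq2 q hq) R hR)
      (cpf_bar_gen (M * ℓ) q p A hp hpMℓ hA hq _ (hq2ℓ q hq hqM) Rl hRl) ?_ x
    intro d
    apply Subtype.ext
    exact hswapℓ q hq hqM d.1
  · -- hwc
    intro q hq hqM c
    haveI : NeZero q := ⟨hq.ne_zero⟩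
    rw [cpfW_eq M p A hp hpM hA R hR q hq hqM (hq2 q hq)]
    exact cplBar_algebraMap M q p A hp hpM hA hq hqM (hq2 q hq) R hR c
  · -- hJ1
    rw [dif_pos (one_dvd M)]
    apply Subtype.ext
    rw [cph2_coe_gen, coe_jk]
    show qExpand (IsLocalRing.ResidueField A) 1 (jqModC (IsLocalRing.ResidueField A)) = _
    exact qExpand_one_apply _
  · -- hJord
    intro d hd
    rw [dif_pos hd]
    have hd0 : d ≠ 0 := fun h => by
      rw [h, zero_dvd_iff] at hd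
      exact NeZero.ne M hd
    haveI : NeZero d := ⟨hd0⟩
    rw [← cpf_red_jdF M A hR d hd (liftInf_jdF_mem hR d hd), infPlaceC_ord]
    exact liftInf_order_red_jdF hR d hd
  · -- hJw
    intro q hq hqM d hd hqd hdq
    haveI : NeZero q := ⟨hq.ne_zero⟩
    rw [dif_pos hd, dif_pos hdq, cpfW_eq M p A hp hpM hA R hR q hq hqM (hq2 q hq),
      cpf_bar_gen M q p A hp hpM hA hq hqM (hq2 q hq) R hR ⟨d, hd⟩]
    congr 1
    apply Subtype.ext
    exact alSwap_of_not_dvd hqd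

/-- **the hypothesis `hC`** of `tmw2_tame` / `s44g_tame` at a squarefree level `M'`. -/
theorem cpf_cusp (hp : p.Prime) (hpM : ¬ p ∣ M) (hA : A.LiesOverPrime p)
    (hsq : Squarefree M) (S : Finset ℕ) (a : ℕ → ℤ)
    (hS : ∀ ℓ : ℕ, ℓ.Prime → ℓ ∣ M * p → ℓ ∈ S)
    (hnE : ∃ ℓ : Nat.Primes, (ℓ : ℕ) ∉ S ∧ ¬ (p : ℤ) ∣ a ℓ - (1 + (ℓ : ℕ))) :
    S40tmwCusp M p S a (IsLocalRing.ResidueField A) := by
  obtain ⟨ℓ, hℓS, hcop⟩ := hnE
  haveI : NeZero (ℓ : ℕ) := ⟨ℓ.2.ne_zero⟩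
  have hℓp : (ℓ : ℕ) ≠ p := fun h => hℓS (hS ℓ ℓ.2 (h ▸ dvd_mul_left _ _))
  have hℓM : ¬ (ℓ : ℕ) ∣ M := fun h => hℓS (hS ℓ ℓ.2 (Dvd.dvd.mul_right h p))
  exact cpf_cusp_of M p ℓ A hp hpM hA hsq S a ℓ.2 hℓS hℓp hℓM hcop

end Main

end Fermat.Agent.S40lib

end
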