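import Mathlib
import Fermat.Agent.S40lib.CuspStep2
import Fermat.Agent.S40lib.CuspALCompat

/-!
# Item 88 (S40/S44): the CUSP GAP closed at the squarefree levels (helper23)

`cpj_cusp_step : S40tmwCusp M p S a k` for `M` squarefree, `p ∤ M`, from ONE prime `ℓ ∉ S`,
`ℓ ∤ M p`, with `p ∤ a_ℓ - (1 + ℓ)`: `ccs2_cusp_step` (`CuspStep2`) applied to the reduced
Atkin–Lehner involutions `w̄_q`, `W̄_q` of `cpc_main` (`CuspALCompat`, helper8) and to the
generators `J d = j̄_d = cph2_gen k M d` (helper25).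
-/

set_option autoImplicit false
set_option linter.style.haveILetI false
set_option linter.unusedSectionVars false
set_option linter.unusedVariables false
set_option synthInstance.maxHeartbeats 400000

noncomputable section

namespace Fermat.Agent.S40lib

open ModularCurve AlgebraicCurve HahnSeries Fermat.Agent.GoodRed Fermat.Agent.GM
  Fermat.Agent.S24lib Fermat.Agent.HeckeBar Fermat.Agent.S34lib Fermat.Agent.S35lib

section Gen

variable (k : Type) [Field k] (M : ℕ) [NeZero M]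

/-- the family `J d = j̄_d` (`d ∣ M`) -/
def cpjJ (d : ℕ) : Fk k M := if h : d ∣ M then cph2_gen k M ⟨d, h⟩ else 0

theorem cpjJ_of_dvd (d : ℕ) (h : d ∣ M) : cpjJ k M d = cph2_gen k M ⟨d, h⟩ := dif_pos h

theorem cpjJ_one : cpjJ k M 1 = jk k M := by
  rw [cpjJ_of_dvd k M 1 (one_dvd M)]
  apply Subtype.ext
  rw [cph2_coe_gen, coe_jk]
  show qExpand k 1 (jqModC k) = jqModC k
  rw [qExpand_one_apply]

theorem cpjJ_ord (d : ℕ) (h : d ∣ M) : (infPlaceC k M).ord (cpjJ k M d) = -(d : ℤ) := by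
  haveI : NeZero d := ⟨fun h0 => NeZero.ne M (by rwa [h0, zero_dvd_iff] at h)⟩
  rw [cpjJ_of_dvd k M d h, infPlaceC_ord, cph2_coe_gen]
  show (qExpand k d (jqModC k)).order = _
  rw [rg_order_qExpand, rg_order_jqModC]
  ring

end Gen

section Conc

variable (M p ℓ : ℕ) [NeZero M] [NeZero ℓ] (A : ValuationSubring (AlgebraicClosure ℚ))

/-- **the cusp step at the squarefree level `M`**, unconditional. -/
theorem cpj_cusp_step (hp : p.Prime) (hpM : ¬ p ∣ M) (hA : A.LiesOverPrime p)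
    (hsq : Squarefree M) (S : Finset ℕ) (a : ℕ → ℤ)
    (hℓ : ℓ.Prime) (hℓS : ℓ ∉ S) (hℓp : ℓ ≠ p) (hℓM : ¬ ℓ ∣ M)
    (hcop : ¬ (p : ℤ) ∣ a ℓ - (1 + (ℓ : ℤ))) :
    S40tmwCusp M p S a (IsLocalRing.ResidueField A) := by
  have hq2 : ∀ q : ℕ, q.Prime → ¬ q ^ 2 ∣ M := by
    intro q hq h
    rw [pow_two] at h
    exact hq.one_lt.ne' (Nat.isUnit_iff.mp (hsq q h))
  have key : ∀ q : ℕ, ∃ (w : Fk (IsLocalRing.ResidueField A) M ≃+*
        Fk (IsLocalRing.ResidueField A) M)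
      (W : Fk (IsLocalRing.ResidueField A) (M * ℓ) ≃+*
        Fk (IsLocalRing.ResidueField A) (M * ℓ)),
      q.Prime → q ∣ M →
      (∀ x : Fk (IsLocalRing.ResidueField A) M,
        W (inclK (IsLocalRing.ResidueField A) (dvd_mul_right M ℓ) x)
          = inclK (IsLocalRing.ResidueField A) (dvd_mul_right M ℓ) (w x)) ∧
      (∀ x : Fk (IsLocalRing.ResidueField A) M,
        W (hkrBetaK (IsLocalRing.ResidueField A) M ℓ x)
          = hkrBetaK (IsLocalRing.ResidueField A) M ℓ (w x)) ∧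
      (∀ c : IsLocalRing.ResidueField A,
        w (algebraMap (IsLocalRing.ResidueField A) (Fk (IsLocalRing.ResidueField A) M) c)
          = algebraMap (IsLocalRing.ResidueField A) (Fk (IsLocalRing.ResidueField A) M) c) ∧
      (∀ d : ℕ, d ∣ M → ¬ q ∣ d → d * q ∣ M →
        w (cpjJ (IsLocalRing.ResidueField A) M d)
          = cpjJ (IsLocalRing.ResidueField A) M (d * q)) := by
    intro q
    by_cases hq : q.Prime ∧ q ∣ M
    · haveI : NeZero q := ⟨hq.1.ne_zero⟩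
      have hℓq : ℓ ≠ q := fun h => hℓM (h ▸ hq.2)
      obtain ⟨w, W, h1, h2, h3, -, h5, -, -, -⟩ :=
        cpc_main M q p ℓ A hp hpM hA hq.1 hq.2 (hq2 q hq.1) hℓ hℓp hℓq
      refine ⟨w, W, fun _ _ => ⟨h1, h2, h3, ?_⟩⟩
      intro d hd hqd hdq
      rw [cpjJ_of_dvd _ M d hd, cpjJ_of_dvd _ M (d * q) hdq, h5 ⟨d, hd⟩]
      congr 1
      apply Subtype.ext
      show alSwap q d = d * q
      exact alSwap_of_not_dvd hqd
    · exact ⟨RingEquiv.refl _, RingEquiv.refl _, fun h1 h2 => absurd ⟨h1, h2⟩ hq⟩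
  choose w W hwW using key
  exact ccs2_cusp_step M p ℓ A hp hpM hA hsq S a hℓ hℓS hℓp hℓM hcop w W
    (fun q hq hqM => (hwW q hq hqM).1) (fun q hq hqM => (hwW q hq hqM).2.1)
    (fun q hq hqM => (hwW q hq hqM).2.2.1)
    (cpjJ (IsLocalRing.ResidueField A) M) (cpjJ_one _ M) (cpjJ_ord _ M)
    (fun q hq hqM d hd hqd hdq => (hwW q hq hqM).2.2.2 d hd hqd hdq)

end Conc

end Fermat.Agent.S40lib

end
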