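import Mathlib
import Fermat.Agent.S40lib.CuspJ

/-!
# Item 88 (S44): the provider `hC` of `s44g_final` (helper23)

`cpj_hC` has EXACTLY the type of the hypothesis `hC` of `s44g_final` (`FreyFinal2`): the cusp
step `S40tmwCusp M' p S a k` at every squarefree level `M'` prime to `p`, from `cpj_cusp_step`
(`CuspJ`) with the non-Eisenstein prime `ℓ` of `hnE`.
-/

set_option autoImplicit false
set_option linter.style.haveILetI false
set_option linter.unusedSectionVars false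
set_option linter.unusedVariables false
set_option synthInstance.maxHeartbeats 400000

noncomputable section

namespace Fermat.Agent.S40lib

/-- **(C)**: the cusp step, in the form of the hypothesis `hC` of `s44g_final`. -/
theorem cpj_hC : ∀ (p : ℕ), p.Prime → 5 ≤ p → ∀ (B : ValuationSubring (AlgebraicClosure ℚ)),
    B.LiesOverPrime p → ∀ (M' : ℕ) [NeZero M'] [NeZero p] [NeZero (M' * p)], ¬ p ∣ M' →
      Squarefree M' → ∀ (S : Finset ℕ) (a : ℕ → ℤ),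
      (∀ ℓ : ℕ, ℓ.Prime → ℓ ∣ M' * p → ℓ ∈ S) → 2 ∈ S →
      (∃ ℓ : Nat.Primes, (ℓ : ℕ) ∉ S ∧ ¬ (p : ℤ) ∣ a ℓ - (1 + (ℓ : ℕ))) →
      S40tmwCusp M' p S a (IsLocalRing.ResidueField B) := by
  intro p hp _ B hB M' _ _ _ hpM' hsq S a hS _ hnE
  obtain ⟨ℓ, hℓS, hcop⟩ := hnE
  haveI : NeZero (ℓ : ℕ) := ⟨ℓ.2.ne_zero⟩
  have hℓp : (ℓ : ℕ) ≠ p := fun h => hℓS (hS ℓ ℓ.2 (h ▸ dvd_mul_left _ _))
  have hℓM : ¬ (ℓ : ℕ) ∣ M' := fun h => hℓS (hS ℓ ℓ.2 (h.mul_right p))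
  exact cpj_cusp_step M' p ℓ B hp hpM' hB hsq S a ℓ.2 hℓS hℓp hℓM hcop

end Fermat.Agent.S40lib

end
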