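/-
Item 88 (S44), block (J-WILD), glue for (G-INT) (helper19).

The normal form `u₂ = 1 + (ζ - 1) ^ p g` of `wzn_normal` / `zin_main` / `rkn_normal` comes with
`g ∈ cxiB ∞ 0` (regular off the two cusps `∞`, `0` of `X₀(M p)` over `X₀(M)`), while
`gint_EY_isIntegral` (helper29, GInt.lean) asks `g ∈ cuspRegular (M p)` (regular at every place
where `j` is regular).  Since `j` has poles at `∞` and at `0`:

* `cxc_mem_cuspRegular` : `cxiB ∞ 0 ≤ cuspRegular (M p)`.
-/
import Mathlib
import Fermat.Agent.S36lib.Speed
import Fermat.Agent.S36lib.Reg1Conc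
import Fermat.Agent.S36lib.SetupK0
import Fermat.Agent.S33lib.CruxPInst

set_option autoImplicit false
set_option linter.style.haveILetI false
set_option linter.unusedVariables false
set_option linter.unusedSectionVars false

noncomputable section

namespace Fermat.Agent.S40lib

open AlgebraicCurve Fermat.Agent.GoodRed ModularCurve Fermat.Agent.S24lib
  Fermat.Agent.RRlib Fermat.Agent.GM Fermat.Agent.S34lib Fermat.Agent.S35lib
  Fermat.Agent.S36lib Fermat.Agent.S33lib

variable (M' q : ℕ) [NeZero M'] [NeZero q] [NeZero (M' * q)] (hq : q.Prime) (hqM : ¬ q ∣ M')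

/-- **a function regular off the cusps `∞` and `0` is regular off the cusps** -/
theorem cxc_mem_cuspRegular {g : FF (M' * q)}
    (hg : g ∈ cxiB (infPlaceBar (M' * q))
      (cuspZero (M' * q) q hq (dvd_mul_left q M') (inf_not_sq_dvd M' q hq hqM))) :
    g ∈ cuspRegular (M' * q) := by
  rw [mem_cuspRegular_iff]
  intro P hP
  have h1 : P ≠ infPlaceBar (M' * q) := by
    intro h
    have hj : jF (M' * q) ∉ (infPlaceBar (M' * q)).toValuationSubring := by
      rw [ffMem_iff_ord_nonneg, infPlaceBar_ord_jF]
      norm_num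
    exact hj (h ▸ hP)
  have h2 : P ≠ cuspZero (M' * q) q hq (dvd_mul_left q M') (inf_not_sq_dvd M' q hq hqM) := by
    intro h
    have hj : jF (M' * q) ∉
        (cuspZero (M' * q) q hq (dvd_mul_left q M')
          (inf_not_sq_dvd M' q hq hqM)).toValuationSubring := by
      rw [ffMem_iff_ord_nonneg, ac_cuspZero_eq, zeroPlaceBar_ord_jF]
      have : (0 : ℤ) < q := by exact_mod_cast hq.pos
      omega
    exact hj (h ▸ hP)
  rcases P.adicValuation_le_one_iff.mp (hg P h1 h2) with h0 | h0
  · rw [h0]
    exact zero_mem _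
  · exact (ffMem_iff_ord_nonneg P).mpr h0

end Fermat.Agent.S40lib

end
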