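/-
Item 88 (S44), (W) per-point instantiation, group (D) "the deck data", CONCRETE (helper4).

`EY ⊇ FF N` an intermediate field of `K̄((q))` stable under the inertia group `I` of `A`,
`σY` a deck map of `EY` commuting with the coefficientwise action of `I`,
`T := cve0cT I EY hst`, `E₀ := cve0Field T` (the `I`-fixed elements of `EY`),
`σ₀ := cve0Sigma T σY _`.  From the binders of `S44jWildWindC2`
(`u`, `g` coefficientwise `I`-fixed, `κ` fixed by `I`, `σY u = κ g ^ p u`, `σY ^ p = 1`,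
`Fix σY ⊂ FF N`):

* `dki_mem`, `dki_const_mem` : `u`, `g`, `κ` are elements of `E₀`;
* `dki_sigma_const`, `dki_sigma_u` : `σ₀ κ = κ`, `σ₀ u = κ g ^ p u` in `E₀`;
* `dki_sigma_iter` : `σ₀ ^ p = 1` on `E₀`;
* `dki_fix` : an element of `E₀` fixed by `σ₀` is the image of an element of `F0(N)`
  (`criF0`, helper8).
Complete proofs.
-/
import Mathlib
import Fermat.Agent.S36lib.Speed
import Fermat.Agent.S40lib.CoverE0c
import Fermat.Agent.S40lib.CoverRInst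
import Fermat.Agent.S40lib.CoverGen2

set_option autoImplicit false
set_option linter.style.haveILetI false
set_option linter.unusedSectionVars false
set_option linter.unusedVariables false
set_option synthInstance.maxHeartbeats 400000
set_option maxHeartbeats 1000000

noncomputable section

namespace Fermat.Agent.S40lib

open ModularCurve HahnSeries AlgebraicCurve Fermat.Agent.S24lib Fermat.Agent.S33lib
  Fermat.Agent.S34lib Fermat.Agent.RRlib Fermat.Agent.S36lib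

section Deck

variable (A : ValuationSubring Kbar) (N : ℕ) [NeZero N]
  (EY : IntermediateField Kbar (LaurentSeries Kbar))
  (hle : modularFunctionFieldBar N ≤ EY)
  (hst : ∀ σ ∈ A.inertiaSubgroupIn ℚ, ∀ x ∈ EY,
    coeffMap ((σ : Kbar ≃ₐ[ℚ] Kbar) : Kbar →+* Kbar) x ∈ EY)

/-- a coefficientwise `I`-fixed element of `EY` lies in `E₀` -/
theorem dki_mem (u : ↥EY)
    (hu : ∀ τ ∈ A.inertiaSubgroupIn ℚ,
      coeffMap ((τ : Kbar ≃ₐ[ℚ] Kbar) : Kbar →+* Kbar) (u : LaurentSeries Kbar) =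
        (u : LaurentSeries Kbar)) :
    u ∈ cve0Field (cve0cT (A.inertiaSubgroupIn ℚ) EY hst) := by
  rintro τ ⟨σ, hσ, rfl⟩
  apply Subtype.ext
  rw [wlc_coe_tau]
  exact hu σ hσ

/-- an `I`-fixed constant lies in `E₀` -/
theorem dki_const_mem (κ : Kbar) (hκ : ∀ τ ∈ A.inertiaSubgroupIn ℚ, τ κ = κ) :
    algebraMap Kbar ↥EY κ ∈ cve0Field (cve0cT (A.inertiaSubgroupIn ℚ) EY hst) := by
  rintro τ ⟨σ, hσ, rfl⟩
  rw [wlc_tau_algebraMap]
  exact congrArg (algebraMap Kbar ↥EY) (hκ σ hσ)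

variable (σY : ↥EY →+* ↥EY)
  (hcomm : ∀ (σ : Kbar ≃ₐ[ℚ] Kbar) (hσ : σ ∈ A.inertiaSubgroupIn ℚ) (z : ↥EY),
    σY (wlcTau (A.inertiaSubgroupIn ℚ) EY hst σ hσ z) =
      wlcTau (A.inertiaSubgroupIn ℚ) EY hst σ hσ (σY z))

/-- `σ₀ κ = κ` -/
theorem dki_sigma_const
    (hσK : ∀ c : Kbar, σY (algebraMap Kbar ↥EY c) = algebraMap Kbar ↥EY c)
    (κ : Kbar) (hκ : ∀ τ ∈ A.inertiaSubgroupIn ℚ, τ κ = κ) :
    cve0Sigma (cve0cT (A.inertiaSubgroupIn ℚ) EY hst) σY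
        (cve0c_hcomm (A.inertiaSubgroupIn ℚ) EY hst σY hcomm)
      ⟨algebraMap Kbar ↥EY κ, dki_const_mem A EY hst κ hκ⟩ =
      ⟨algebraMap Kbar ↥EY κ, dki_const_mem A EY hst κ hκ⟩ := by
  apply Subtype.ext
  rw [cve0_coe_sigma]
  exact hσK κ

/-- `σ₀ u = κ g ^ p u` in `E₀` -/
theorem dki_sigma_u (p : ℕ) (κ : Kbar) (hκ : ∀ τ ∈ A.inertiaSubgroupIn ℚ, τ κ = κ)
    (u g : ↥EY)
    (hu : ∀ τ ∈ A.inertiaSubgroupIn ℚ,
      coeffMap ((τ : Kbar ≃ₐ[ℚ] Kbar) : Kbar →+* Kbar) (u : LaurentSeries Kbar) =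
        (u : LaurentSeries Kbar))
    (hg : ∀ τ ∈ A.inertiaSubgroupIn ℚ,
      coeffMap ((τ : Kbar ≃ₐ[ℚ] Kbar) : Kbar →+* Kbar) (g : LaurentSeries Kbar) =
        (g : LaurentSeries Kbar))
    (hσu : σY u = algebraMap Kbar ↥EY κ * g ^ p * u) :
    cve0Sigma (cve0cT (A.inertiaSubgroupIn ℚ) EY hst) σY
        (cve0c_hcomm (A.inertiaSubgroupIn ℚ) EY hst σY hcomm)
      ⟨u, dki_mem A EY hst u hu⟩ =
      ⟨algebraMap Kbar ↥EY κ, dki_const_mem A EY hst κ hκ⟩ *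
        (⟨g, dki_mem A EY hst g hg⟩ :
          ↥(cve0Field (cve0cT (A.inertiaSubgroupIn ℚ) EY hst))) ^ p *
        ⟨u, dki_mem A EY hst u hu⟩ := by
  apply Subtype.ext
  rw [cve0_coe_sigma]
  exact hσu

/-- `σ₀ ^ p = 1` on `E₀` -/
theorem dki_sigma_iter (p : ℕ) (hσp : ∀ y : ↥EY, σY^[p] y = y)
    (z : ↥(cve0Field (cve0cT (A.inertiaSubgroupIn ℚ) EY hst))) :
    (cve0Sigma (cve0cT (A.inertiaSubgroupIn ℚ) EY hst) σY
      (cve0c_hcomm (A.inertiaSubgroupIn ℚ) EY hst σY hcomm))^[p] z = z :=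
  cve0_sigma_iterate_all _ σY _ hσp z

/-- an element of `E₀` fixed by `σ₀` comes from `F0(N)` -/
theorem dki_fix
    (hfix : ∀ y : ↥EY, σY y = y → (y : LaurentSeries Kbar) ∈ modularFunctionFieldBar N)
    (f : ↥(cve0Field (cve0cT (A.inertiaSubgroupIn ℚ) EY hst)))
    (hf : cve0Sigma (cve0cT (A.inertiaSubgroupIn ℚ) EY hst) σY
      (cve0c_hcomm (A.inertiaSubgroupIn ℚ) EY hst σY hcomm) f = f) :
    ∃ f₀ : ↥(f0Field A N), criF0 A N EY hle f₀ = (f : ↥EY) := by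
  have h1 : σY (f : ↥EY) = (f : ↥EY) := by
    have := congrArg (fun z : ↥(cve0Field (cve0cT (A.inertiaSubgroupIn ℚ) EY hst)) =>
      (z : ↥EY)) hf
    simpa only [cve0_coe_sigma] using this
  have h2 : ((f : ↥EY) : LaurentSeries Kbar) ∈ modularFunctionFieldBar N := hfix _ h1
  have h3 : (⟨((f : ↥EY) : LaurentSeries Kbar), h2⟩ : FF N) ∈ f0Field A N := by
    rw [mem_f0Field_iff_coeff]
    intro n
    rw [mem_k0Field_iff]
    intro σ hσ
    have h4 := f.2 (wlcTau (A.inertiaSubgroupIn ℚ) EY hst σ hσ) ⟨σ, hσ, rfl⟩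
    have h5 := congrArg (fun z : ↥EY => (z : LaurentSeries Kbar).coeff n) h4
    simp only [wlc_coe_tau, coeffMap_coeff] at h5
    exact h5
  exact ⟨⟨⟨((f : ↥EY) : LaurentSeries Kbar), h2⟩, h3⟩, Subtype.ext rfl⟩

end Deck

end Fermat.Agent.S40lib

end
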