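/-
Item 88 (S44), (J-WILD), LAYER B CONTEXT (helper8): the concrete instances for the call of
`s40j_pt_node` / `s40j_pt_smooth` (helper22, `WildPtAsm.lean`) at

  `R := B_s = Localization.AtPrime s`, `F₀ := f0Field A N`, `E := EY`,
  `E₀ := cve0Field (cve0cT I EY hst)`   (`I` the inertia group of `A`).

* `wpbHomF0`, `wpbAlgF0`  : `Algebra B_s F₀`;  `wpb_frac : IsFractionRing B_s F₀`;
* `wpbAlgE0`              : `Algebra B_s E₀`  (= `cve0Algebra` over `criAlg`);
* `wpbHomF0E0`, `wpbAlgF0E0` : `Algebra F₀ E₀`;  `wpb_tower : IsScalarTower B_s F₀ E₀`;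
* `wpbAlgK0E0`, `wpbAlgK0E`  : `Algebra K0 E₀`, `Algebra K0 E`; `wpb_tower_K0_Kbar`,
  `wpb_tower_K0_E0`;
* `Algebra B_s E` is `criAlg`; `Algebra E₀ E` is the subfield instance; `Algebra Kbar E` is the
  intermediate field instance.
-/
import Mathlib
import Fermat.Agent.S36lib.Speed
import Fermat.Agent.S40lib.CoverRInst2

set_option autoImplicit false
set_option linter.style.haveILetI false
set_option linter.unusedSectionVars false
set_option linter.unusedVariables false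
set_option synthInstance.maxHeartbeats 400000
set_option maxHeartbeats 1000000

noncomputable section

namespace Fermat.Agent.S40lib

open ModularCurve HahnSeries AlgebraicCurve Fermat.Agent.S24lib Fermat.Agent.S33lib
  Fermat.Agent.S34lib Fermat.Agent.RRlib Fermat.Agent.S36lib

section

variable (A : ValuationSubring Kbar) (N : ℕ) [NeZero N]
  (EY : IntermediateField Kbar (LaurentSeries Kbar))
  (hle : modularFunctionFieldBar N ≤ EY)
  (hst : ∀ σ ∈ A.inertiaSubgroupIn ℚ, ∀ x ∈ EY,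
    coeffMap ((σ : Kbar ≃ₐ[ℚ] Kbar) : Kbar →+* Kbar) x ∈ EY)
  (B0 : Subring ↥(f0Field A N)) (s : Ideal ↥B0) [hs : s.IsPrime]

/-- the inertia-fixed subfield `E₀` of `EY` -/
abbrev wpbE0 : Subfield ↥EY := cve0Field (cve0cT (A.inertiaSubgroupIn ℚ) EY hst)

theorem wpb_unitF0 (y : s.primeCompl) : IsUnit (B0.subtype (y : ↥B0)) := by
  rw [isUnit_iff_ne_zero]
  intro h0
  have h1 : (y : ↥B0) = 0 := Subtype.ext h0
  exact y.2 (by rw [h1]; exact s.zero_mem)

/-- the map `B_s → F₀` -/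
def wpbHomF0 : Localization.AtPrime s →+* ↥(f0Field A N) :=
  IsLocalization.lift (M := s.primeCompl) (g := B0.subtype) (wpb_unitF0 A N B0 s)

theorem wpb_homF0_algebraMap (b : ↥B0) :
    wpbHomF0 A N B0 s (algebraMap ↥B0 (Localization.AtPrime s) b) = (b : ↥(f0Field A N)) :=
  IsLocalization.lift_eq _ b

/-- `F₀` as an algebra over `B_s` -/
@[reducible] def wpbAlgF0 : Algebra (Localization.AtPrime s) ↥(f0Field A N) :=
  (wpbHomF0 A N B0 s).toAlgebra

/-- `F₀ = Frac (B_s)` -/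
theorem wpb_frac (hfrac : ∀ z : ↥(f0Field A N), ∃ a b : ↥B0, b ≠ 0 ∧
      z * (b : ↥(f0Field A N)) = (a : ↥(f0Field A N))) :
    letI := wpbAlgF0 A N B0 s
    IsFractionRing (Localization.AtPrime s) ↥(f0Field A N) := by
  letI := wpbAlgF0 A N B0 s
  haveI hBF : IsFractionRing ↥B0 ↥(f0Field A N) := cri_isFractionRing B0 hfrac
  haveI htow : IsScalarTower ↥B0 (Localization.AtPrime s) ↥(f0Field A N) :=
    IsScalarTower.of_algebraMap_eq (fun b => (wpb_homF0_algebraMap A N B0 s b).symm)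
  exact IsFractionRing.isFractionRing_of_isDomain_of_isLocalization s.primeCompl
    (Localization.AtPrime s) ↥(f0Field A N)

/-- `criF0 ∘ wpbHomF0 = criHom` -/
theorem wpb_F0_comp (r : Localization.AtPrime s) :
    criF0 A N EY hle (wpbHomF0 A N B0 s r) = criHom A N EY hle B0 s r := by
  have h : (criF0 A N EY hle).comp (wpbHomF0 A N B0 s) = criHom A N EY hle B0 s := by
    refine IsLocalization.ringHom_ext s.primeCompl (RingHom.ext fun b => Subtype.ext ?_)
    show (((criF0 A N EY hle) (wpbHomF0 A N B0 s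
      (algebraMap ↥B0 (Localization.AtPrime s) b)) : ↥EY) : LaurentSeries Kbar) =
      ((criHom A N EY hle B0 s (algebraMap ↥B0 (Localization.AtPrime s) b) : ↥EY) :
        LaurentSeries Kbar)
    rw [cri_hom_algebraMap, wpb_homF0_algebraMap]
    rfl
  exact congrArg (fun f => f r) h

/-- the image of `B_s` in `EY` is fixed by the inertia group -/
theorem wpb_hRfix (σ : Kbar ≃ₐ[ℚ] Kbar) (hσ : σ ∈ A.inertiaSubgroupIn ℚ)
    (r : Localization.AtPrime s) :
    letI := criAlg A N EY hle B0 s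
    wlcTau (A.inertiaSubgroupIn ℚ) EY hst σ hσ (algebraMap (Localization.AtPrime s) ↥EY r) =
      algebraMap (Localization.AtPrime s) ↥EY r :=
  cri_hR A N EY hle B0 s (A.inertiaSubgroupIn ℚ) (fun τ hτ => hτ) hst σ hσ r

/-- `E₀` as an algebra over `B_s` (`= cve0Algebra` over `criAlg`) -/
@[reducible] def wpbAlgE0 : Algebra (Localization.AtPrime s) ↥(wpbE0 A EY hst) :=
  letI := criAlg A N EY hle B0 s
  cve0Algebra (R := Localization.AtPrime s) (cve0cT (A.inertiaSubgroupIn ℚ) EY hst)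
    (cve0c_hR (A.inertiaSubgroupIn ℚ) EY hst (wpb_hRfix A N EY hle hst B0 s))

/-- elements of `F₀` are inertia-fixed in `EY` -/
theorem wpb_F0_mem (x : ↥(f0Field A N)) : criF0 A N EY hle x ∈ wpbE0 A EY hst := by
  rintro τ ⟨σ, hσ, rfl⟩
  apply Subtype.ext
  rw [wlc_coe_tau]
  exact cri_coeff_fixed A N x σ hσ

/-- the map `F₀ → E₀` -/
def wpbHomF0E0 : ↥(f0Field A N) →+* ↥(wpbE0 A EY hst) :=
  (criF0 A N EY hle).codRestrict (wpbE0 A EY hst) (wpb_F0_mem A N EY hle hst)

theorem wpb_coe_homF0E0 (x : ↥(f0Field A N)) :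
    ((wpbHomF0E0 A N EY hle hst x : ↥(wpbE0 A EY hst)) : ↥EY) = criF0 A N EY hle x := rfl

/-- `E₀` as an algebra over `F₀` -/
@[reducible] def wpbAlgF0E0 : Algebra ↥(f0Field A N) ↥(wpbE0 A EY hst) :=
  (wpbHomF0E0 A N EY hle hst).toAlgebra

/-- the tower `B_s → F₀ → E₀` -/
theorem wpb_tower :
    letI := wpbAlgF0 A N B0 s
    letI := wpbAlgE0 A N EY hle hst B0 s
    letI := wpbAlgF0E0 A N EY hle hst
    IsScalarTower (Localization.AtPrime s) ↥(f0Field A N) ↥(wpbE0 A EY hst) := by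
  letI := wpbAlgF0 A N B0 s
  letI := wpbAlgE0 A N EY hle hst B0 s
  letI := wpbAlgF0E0 A N EY hle hst
  refine IsScalarTower.of_algebraMap_eq fun r => Subtype.ext ?_
  show criHom A N EY hle B0 s r = criF0 A N EY hle (wpbHomF0 A N B0 s r)
  rw [wpb_F0_comp]

/-- the map `K0 → E₀` -/
def wpbHomK0E0 : ↥(k0Field A) →+* ↥(wpbE0 A EY hst) :=
  (wpbHomF0E0 A N EY hle hst).comp (algebraMap ↥(k0Field A) ↥(f0Field A N))

/-- `E₀` as an algebra over `K0` -/
@[reducible] def wpbAlgK0E0 : Algebra ↥(k0Field A) ↥(wpbE0 A EY hst) :=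
  (wpbHomK0E0 A N EY hle hst).toAlgebra

/-- `EY` as an algebra over `K0` -/
@[reducible] def wpbAlgK0E : Algebra ↥(k0Field A) ↥EY :=
  ((algebraMap Kbar ↥EY).comp (algebraMap ↥(k0Field A) Kbar)).toAlgebra

/-- the tower `K0 → Kbar → EY` -/
theorem wpb_tower_K0_Kbar :
    letI := wpbAlgK0E A EY
    @IsScalarTower ↥(k0Field A) Kbar ↥EY Algebra.toSMul Algebra.toSMul Algebra.toSMul := by
  letI := wpbAlgK0E A EY
  exact IsScalarTower.of_algebraMap_eq fun c => rfl

/-- the tower `K0 → E₀ → EY` -/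
theorem wpb_tower_K0_E0 :
    letI := wpbAlgK0E A EY
    letI := wpbAlgK0E0 A N EY hle hst
    @IsScalarTower ↥(k0Field A) ↥(wpbE0 A EY hst) ↥EY Algebra.toSMul Algebra.toSMul
      Algebra.toSMul := by
  letI := wpbAlgK0E A EY
  letI := wpbAlgK0E0 A N EY hle hst
  refine IsScalarTower.of_algebraMap_eq fun c => Subtype.ext ?_
  rfl

end

end Fermat.Agent.S40lib

end
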