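/-
Item 88 (S44), (W), LAYER B, group (D) "the deck data" in the CONTEXT of `WildPtCtx.lean`
(helper4): `E₀ := wpbE0 A EY hst`, `F₀ := f0Field A N` with `Algebra F₀ E₀ := wpbAlgF0E0`,
`σ₀ := cve0Sigma T σY _`.

* `dki_hfix` : `hfix` of `s40j_pt_node` / `s40j_pt_smooth` VERBATIM:
  `∀ f : E₀, σ₀ f = f → f ∈ Set.range (algebraMap F₀ E₀)`;
* `dki_pkg`  : the whole group (D): `u₀ g₀ κ₀ : E₀` with the given images in `EY`, nonzero,
  `σ₀ κ₀ = κ₀`, `σ₀ u₀ = κ₀ g₀ ^ p u₀`, `σ₀ ^ p = 1`, and `hfix`.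
Complete proofs.
-/
import Mathlib
import Fermat.Agent.S36lib.Speed
import Fermat.Agent.S40lib.DeckInst
import Fermat.Agent.S40lib.WildPtCtx

set_option autoImplicit false
set_option linter.style.haveILetI false
set_option linter.unusedSectionVars false
set_option linter.unusedVariables false
set_option synthInstance.maxHeartbeats 400000
set_option maxHeartbeats 1000000

noncomputable section

namespace Fermat.Agent.S40lib

open ModularCurve HahnSeries AlgebraicCurve Fermat.Agent.S24lib Fermat.Agent.S33lib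
  Fermat.Agent.S34lib Fermat.Agent.RRlib Fermat.Agent.S36lib

section Deck

variable (A : ValuationSubring Kbar) (N : ℕ) [NeZero N]
  (EY : IntermediateField Kbar (LaurentSeries Kbar))
  (hle : modularFunctionFieldBar N ≤ EY)
  (hst : ∀ σ ∈ A.inertiaSubgroupIn ℚ, ∀ x ∈ EY,
    coeffMap ((σ : Kbar ≃ₐ[ℚ] Kbar) : Kbar →+* Kbar) x ∈ EY)
  (σY : ↥EY →+* ↥EY)
  (hcomm : ∀ (σ : Kbar ≃ₐ[ℚ] Kbar) (hσ : σ ∈ A.inertiaSubgroupIn ℚ) (z : ↥EY),
    σY (wlcTau (A.inertiaSubgroupIn ℚ) EY hst σ hσ z) =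
      wlcTau (A.inertiaSubgroupIn ℚ) EY hst σ hσ (σY z))

/-- **`hfix`** of `s40j_pt_node` in the context of `WildPtCtx` -/
theorem dki_hfix
    (hfix : ∀ y : ↥EY, σY y = y → (y : LaurentSeries Kbar) ∈ modularFunctionFieldBar N) :
    letI := wpbAlgF0E0 A N EY hle hst
    ∀ f : ↥(wpbE0 A EY hst),
      cve0Sigma (cve0cT (A.inertiaSubgroupIn ℚ) EY hst) σY
        (cve0c_hcomm (A.inertiaSubgroupIn ℚ) EY hst σY hcomm) f = f →
      f ∈ Set.range (algebraMap ↥(f0Field A N) ↥(wpbE0 A EY hst)) := by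
  letI := wpbAlgF0E0 A N EY hle hst
  intro f hf
  obtain ⟨f₀, hf₀⟩ := dki_fix A N EY hle hst σY hcomm hfix f hf
  exact ⟨f₀, Subtype.ext hf₀⟩

/-- **the group (D)** of `s40j_pt_node` / `s40j_pt_smooth` from the binders of
`S44jWildWindC2`. -/
theorem dki_pkg (p : ℕ)
    (hσK : ∀ c : Kbar, σY (algebraMap Kbar ↥EY c) = algebraMap Kbar ↥EY c)
    (hσp : ∀ y : ↥EY, σY^[p] y = y)
    (hfix : ∀ y : ↥EY, σY y = y → (y : LaurentSeries Kbar) ∈ modularFunctionFieldBar N)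
    (κ : Kbar) (hκ0 : κ ≠ 0) (hκ : ∀ τ ∈ A.inertiaSubgroupIn ℚ, τ κ = κ)
    (u g : ↥EY) (hu0 : u ≠ 0) (hg0 : g ≠ 0)
    (hu : ∀ τ ∈ A.inertiaSubgroupIn ℚ,
      coeffMap ((τ : Kbar ≃ₐ[ℚ] Kbar) : Kbar →+* Kbar) (u : LaurentSeries Kbar) =
        (u : LaurentSeries Kbar))
    (hg : ∀ τ ∈ A.inertiaSubgroupIn ℚ,
      coeffMap ((τ : Kbar ≃ₐ[ℚ] Kbar) : Kbar →+* Kbar) (g : LaurentSeries Kbar) =
        (g : LaurentSeries Kbar))
    (hσu : σY u = algebraMap Kbar ↥EY κ * g ^ p * u) :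
    letI := wpbAlgF0E0 A N EY hle hst
    ∃ u₀ g₀ κ₀ : ↥(wpbE0 A EY hst),
      (u₀ : ↥EY) = u ∧ (g₀ : ↥EY) = g ∧ (κ₀ : ↥EY) = algebraMap Kbar ↥EY κ ∧
      u₀ ≠ 0 ∧ g₀ ≠ 0 ∧ κ₀ ≠ 0 ∧
      cve0Sigma (cve0cT (A.inertiaSubgroupIn ℚ) EY hst) σY
        (cve0c_hcomm (A.inertiaSubgroupIn ℚ) EY hst σY hcomm) κ₀ = κ₀ ∧
      cve0Sigma (cve0cT (A.inertiaSubgroupIn ℚ) EY hst) σY
        (cve0c_hcomm (A.inertiaSubgroupIn ℚ) EY hst σY hcomm) u₀ = κ₀ * g₀ ^ p * u₀ ∧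
      (∀ z : ↥(wpbE0 A EY hst),
        (cve0Sigma (cve0cT (A.inertiaSubgroupIn ℚ) EY hst) σY
          (cve0c_hcomm (A.inertiaSubgroupIn ℚ) EY hst σY hcomm))^[p] z = z) ∧
      (∀ f : ↥(wpbE0 A EY hst),
        cve0Sigma (cve0cT (A.inertiaSubgroupIn ℚ) EY hst) σY
          (cve0c_hcomm (A.inertiaSubgroupIn ℚ) EY hst σY hcomm) f = f →
        f ∈ Set.range (algebraMap ↥(f0Field A N) ↥(wpbE0 A EY hst))) := by
  letI := wpbAlgF0E0 A N EY hle hst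
  have hκF : algebraMap Kbar ↥EY κ ≠ 0 := (map_ne_zero _).2 hκ0
  refine ⟨⟨u, dki_mem A EY hst u hu⟩, ⟨g, dki_mem A EY hst g hg⟩,
    ⟨algebraMap Kbar ↥EY κ, dki_const_mem A EY hst κ hκ⟩, rfl, rfl, rfl, ?_, ?_, ?_,
    dki_sigma_const A EY hst σY hcomm hσK κ hκ,
    dki_sigma_u A EY hst σY hcomm p κ hκ u g hu hg hσu,
    dki_sigma_iter A EY hst σY hcomm p hσp,
    dki_hfix A N EY hle hst σY hcomm hfix⟩
  · exact fun h => hu0 (congrArg Subtype.val h)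
  · exact fun h => hg0 (congrArg Subtype.val h)
  · exact fun h => hκF (congrArg Subtype.val h)

end Deck

end Fermat.Agent.S40lib

end
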