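/-
Item 88 (S40), layer (LIFT), piece L2 (DER) (helper29): the hypothesis `hDER` of
`DiffRed.lean` (`dfr_regular`) for a series reduction: for ALL `x t ∈ O` with `D (red t) ≠ 0`
there is `w ∈ O` with `D x = w • D t` and `D (red x) = red w • D (red t)`.
-/
import Mathlib
import Fermat.Agent.S40lib.DerTheta2

set_option autoImplicit false
set_option synthInstance.maxHeartbeats 400000

noncomputable section

namespace Fermat.Agent.S40lib

open AlgebraicCurve Fermat.Agent.RRlib Fermat.Agent.GoodRed ModularCurve HahnSeries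
open KaehlerDifferential Fermat.Agent.S24lib

section Abstract

variable {K F k Fk : Type*} [Field K] [Field F] [Algebra K F] [Field k] [Field Fk] [Algebra k Fk]
variable {A : ValuationSubring K} {π : A →+* k} {R : ConstRed A π Fk F}

/-- change of the reference element: `hder` at one `j` gives `hDER` at every `t` with
`D (red t) ≠ 0`. -/
theorem dth_hDER_of_hder (j : R.O)
    (hder : ∀ f : R.O, ∃ f' : R.O,
      D K F ((f : R.O) : F) = ((f' : R.O) : F) • D K F ((j : R.O) : F) ∧
        D k Fk (R.red f) = R.red f' • D k Fk (R.red j)) :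
    ∀ x t : R.O, D k Fk (R.red t) ≠ 0 → ∃ w : R.O,
      D K F ((x : R.O) : F) = ((w : R.O) : F) • D K F ((t : R.O) : F) ∧
        D k Fk (R.red x) = R.red w • D k Fk (R.red t) := by
  intro x t ht
  obtain ⟨zt, h1, h2⟩ := hder t
  obtain ⟨zx, h3, h4⟩ := hder x
  have hzt : R.red zt ≠ 0 := by
    intro h0
    apply ht
    rw [h2, h0, zero_smul]
  have hnu : ((zt : R.O) : F) ∉ R.O.nonunits := fun h => hzt ((R.red_eq_zero_iff zt).2 h)
  have hzt0 : ((zt : R.O) : F) ≠ 0 := by
    intro h0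
    apply hnu
    rw [ValuationSubring.mem_nonunits_iff_or]
    exact Or.inl h0
  have hinv : ((zt : R.O) : F)⁻¹ ∈ R.O := by
    by_contra hcon
    apply hnu
    rw [ValuationSubring.mem_nonunits_iff_or]
    exact Or.inr hcon
  have hmul : (⟨((zt : R.O) : F)⁻¹, hinv⟩ : R.O) * zt = 1 := by
    apply Subtype.ext
    show ((zt : R.O) : F)⁻¹ * ((zt : R.O) : F) = 1
    exact inv_mul_cancel₀ hzt0
  have hredinv : R.red ⟨((zt : R.O) : F)⁻¹, hinv⟩ * R.red zt = 1 := by
    rw [← map_mul, hmul, map_one]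
  refine ⟨zx * ⟨((zt : R.O) : F)⁻¹, hinv⟩, ?_, ?_⟩
  · have e : (((zx * ⟨((zt : R.O) : F)⁻¹, hinv⟩ : R.O) : R.O) : F)
        = ((zx : R.O) : F) * ((zt : R.O) : F)⁻¹ := rfl
    rw [e, h3, h1, smul_smul, mul_assoc, inv_mul_cancel₀ hzt0, mul_one]
  · rw [map_mul, h4, h2, smul_smul, mul_assoc, hredinv, mul_one]

end Abstract

section Series

variable {K : Type*} [Field K] {A : ValuationSubring K}
variable {F : IntermediateField K (LaurentSeries K)}
variable {Fk : IntermediateField (IsLocalRing.ResidueField A)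
  (LaurentSeries (IsLocalRing.ResidueField A))}
variable {R : ConstRed A (IsLocalRing.residue A) (↥Fk) (↥F)}

/-- **(DER) in the exact shape of `hDER` of `DiffRed.dfr_regular`**, for a series reduction with a
reference element `j ∈ O`, `(j̄)' ≠ 0`, `Ω = F·Dj`, `Ω_k = Fk·D j̄`. -/
theorem dth_hDER (hR : IsSeriesRed R) (hfrac : HasPrimFrac A F) (j : R.O)
    (hj' : LaurentSeries.derivative (IsLocalRing.ResidueField A)
      ((R.red j : ↥Fk) : LaurentSeries (IsLocalRing.ResidueField A)) ≠ 0)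
    (hspanF : Submodule.span ↥F {D K ↥F ((j : R.O) : ↥F)} = ⊤)
    (hspank : Submodule.span ↥Fk {D (IsLocalRing.ResidueField A) ↥Fk (R.red j)} = ⊤) :
    ∀ x t : R.O, D (IsLocalRing.ResidueField A) ↥Fk (R.red t) ≠ 0 → ∃ w : R.O,
      D K ↥F ((x : R.O) : ↥F) = ((w : R.O) : ↥F) • D K ↥F ((t : R.O) : ↥F) ∧
        D (IsLocalRing.ResidueField A) ↥Fk (R.red x)
          = R.red w • D (IsLocalRing.ResidueField A) ↥Fk (R.red t) :=
  dth_hDER_of_hder j (dth_hder hR hfrac j hj' hspanF hspank)

end Series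

end Fermat.Agent.S40lib

end
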