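import Mathlib
import Fermat.Agent.S36lib.Speed

/-!
# Item 88 (S44), J-WILD, (Z') glue: the descent hypothesis `hdescE` of `cve0c_main` (helper21)

Abstract form.  `R` an integrally closed domain (e.g. a UFD: the node ring `B_s`), `E` a field
with an injective `algebraMap R E`.  If an element `t` of `E` is a fraction of elements of `R`
and is integral over `R`, then `t` lies in the image of `R` (`dsi_mem_range`).  Hence, if the
elements of `E` fixed by `σ` and by a set `T` of endomorphisms are fractions of `R`
(`Fix σY = F`, `F ^ I = F₀ = Frac R`), the descent hypothesis holds (`dsi_hdescE`,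
`dsi_hdesc`).

* `dsi_mem_range`  : fraction + integral ⇒ in the image of `R`;
* `dsi_hdescE`     : the hypothesis `hdescE` of `cve0c_main` (with a set `T`);
* `dsi_hdesc`      : the hypothesis `hdesc` of `cva_node` / `cvx_main` (no `T`);
* `dsi_isIntegrallyClosed_of_ufd` : a UFD is integrally closed.
-/

set_option autoImplicit false
set_option linter.style.haveILetI false

namespace Fermat.Agent.S40lib

variable {R E : Type*} [CommRing R] [IsDomain R] [Field E] [Algebra R E]

/-- a UFD is integrally closed -/
theorem dsi_isIntegrallyClosed_of_ufd (R : Type*) [CommRing R] [IsDomain R]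
    [UniqueFactorizationMonoid R] : IsIntegrallyClosed R :=
  UniqueFactorizationMonoid.instIsIntegrallyClosed

/-- **fraction + integral ⇒ in the image of `R`** (`R` integrally closed, `R → E` injective) -/
theorem dsi_mem_range [IsIntegrallyClosed R]
    (hinj : Function.Injective (algebraMap R E)) {t : E} {a b : R} (hb : b ≠ 0)
    (hfrac : t * algebraMap R E b = algebraMap R E a) (hint : IsIntegral R t) :
    t ∈ Set.range (algebraMap R E) := by
  -- the map `Frac R → E`
  have hinj' : Function.Injective (Algebra.ofId R E) := hinj
  let f : FractionRing R →ₐ[R] E :=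
    IsFractionRing.liftAlgHom (K := FractionRing R) (g := Algebra.ofId R E) hinj'
  have hf : ∀ r : R, f (algebraMap R (FractionRing R) r) = algebraMap R E r := fun r =>
    f.commutes r
  have hb' : algebraMap R (FractionRing R) b ≠ 0 := by
    intro h0
    exact hb ((IsFractionRing.injective R (FractionRing R))
      (by rw [h0, map_zero]))
  have hbE : algebraMap R E b ≠ 0 := fun h0 => hb (hinj (by rw [h0, map_zero]))
  set x : FractionRing R :=
    algebraMap R (FractionRing R) a / algebraMap R (FractionRing R) b with hx
  have hfx : f x = t := by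
    rw [hx, map_div₀, hf, hf, div_eq_iff hbE]
    exact hfrac.symm
  have hxint : IsIntegral R x := by
    have h1 : IsIntegral R (f x) := by rw [hfx]; exact hint
    exact (isIntegral_algHom_iff f f.toRingHom.injective).mp h1
  obtain ⟨r, hr⟩ := IsIntegrallyClosed.isIntegral_iff.mp hxint
  exact ⟨r, by rw [← hfx, ← hr, hf]⟩

/-- **the hypothesis `hdescE` of `cve0c_main`**: if the elements of `E` fixed by `σ` and by all
`τ ∈ T` are fractions of elements of `R`, then those which are integral over `R` lie in `R`. -/
theorem dsi_hdescE [IsIntegrallyClosed R]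
    (hinj : Function.Injective (algebraMap R E))
    (σ : E →+* E) (T : Set (E →+* E))
    (hfix : ∀ t : E, σ t = t → (∀ τ ∈ T, τ t = t) →
      ∃ a b : R, b ≠ 0 ∧ t * algebraMap R E b = algebraMap R E a) :
    ∀ t : E, σ t = t → (∀ τ ∈ T, τ t = t) → IsIntegral R t →
      t ∈ Set.range (algebraMap R E) := by
  intro t hσ hT hint
  obtain ⟨a, b, hb, hfrac⟩ := hfix t hσ hT
  exact dsi_mem_range hinj hb hfrac hint

/-- **the hypothesis `hdesc` of `cva_node` / `cvx_main`** -/
theorem dsi_hdesc [IsIntegrallyClosed R]
    (hinj : Function.Injective (algebraMap R E))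
    (σ : E →+* E)
    (hfix : ∀ t : E, σ t = t → ∃ a b : R, b ≠ 0 ∧ t * algebraMap R E b = algebraMap R E a) :
    ∀ t : E, σ t = t → IsIntegral R t → t ∈ Set.range (algebraMap R E) := by
  intro t hσ hint
  obtain ⟨a, b, hb, hfrac⟩ := hfix t hσ
  exact dsi_mem_range hinj hb hfrac hint

end Fermat.Agent.S40lib
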