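/-
Item 88 (S40), block (D), piece DictCH (helper9): **the Cayley–Hamilton relation on an eigenspace**.

`x ∈ J₀(M)` a `p`-power torsion point with `T_ℓ x = a_ℓ x` for the primes `ℓ ∉ S` (`S` contains the
primes dividing `M p`), `E / ℚ` an elliptic curve whose `E[p]` (free of rank `2` over `ZMod p`) has
the Frobenius characteristic polynomials `X² - a_ℓ X + ℓ` outside `S`.  Then every `σ ∈ G_ℚ`
satisfies ON `x` the characteristic polynomial of `σ` on `E[p]`:

  `∃ t d : ℤ, charpoly (σ | E[p]) = X² - t X + d  ∧  σ σ x - t σ x + d x = 0`.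

Route: Eichler–Shimura in power form (`powTr_heckeBar_apply`, S31lib), the Lucas sequence on an
eigenvector, weak Chebotarev (`weakCheb`) at the level `normal closure of a field fixing x` ⊔
`level of E[p]`, and `chl_charpoly_pow` (S58lib).

* `dch_powTr_eig`   : `powTr T d k x = chlLucas a ℓ k • x` on an eigenvector;
* `dch_frob_pow`    : `τ^k τ^k x - s_k τ^k x + ℓ^k x = 0` for a Frobenius `τ`;
* `dch_normal_fix`  : an element fixing a normal field pointwise fixes all Galois translates;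
* `dch_quad`        : the relation with the characteristic polynomial;
* `dch_quad_tr`     : the same with `t = trace`, `d = det` in `ZMod p`.
Declarations are prefixed `dch`.  Complete proofs.
-/
import Mathlib
import Fermat.Agent.S36lib.Speed
import Fermat.Agent.S58lib.ChebLinkW
import Fermat.Agent.S31lib.Jac
import Fermat.Agent.S31lib.PowTr
import Fermat.Agent.Cheb.WeakQbar

set_option autoImplicit false
set_option linter.style.haveILetI false
set_option linter.unusedSectionVars false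
set_option linter.unusedVariables false
set_option linter.style.longLine false

noncomputable section

open Polynomial
open WeierstrassCurve WeierstrassCurve.Affine WeierstrassCurve.Affine.Point
open Fermat.Agent.GalRep Fermat.Agent.S31lib Fermat.Agent.S58lib ModularCurve

namespace Fermat.Agent.S40lib

section Lucas

variable {N : ℕ} [NeZero N]

/-- the power-trace operator on an eigenvector: the Lucas sequence -/
theorem dch_powTr_eig (ℓ : Nat.Primes) (a : ℤ) (x : JZero N)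
    (hx : heckeOperatorBar N ℓ x = a • x) (k : ℕ) :
    powTr (heckeOperatorBar N ℓ) (((ℓ : ℕ) : ℤ) • (1 : Module.End ℤ (JZero N))) k x
      = chlLucas a ((ℓ : ℕ) : ℤ) k • x := by
  induction k using pow_two_step with
  | h0 =>
    rw [powTr_zero, chlLucas_zero]
    show ((2 : Module.End ℤ (JZero N))) x = (2 : ℤ) • x
    rw [← one_add_one_eq_two, LinearMap.add_apply, Module.End.one_apply]
    exact (two_zsmul x).symm
  | h1 => rw [powTr_one, chlLucas_one, hx]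
  | h2 k ih0 ih1 =>
    rw [powTr_succ_succ, LinearMap.sub_apply, Module.End.mul_apply, Module.End.mul_apply, ih0, ih1,
      map_zsmul, hx, LinearMap.smul_apply, Module.End.one_apply, chlLucas_add_two]
    module

end Lucas

section Frob

variable {N p : ℕ} [NeZero N]

/-- Eichler–Shimura for the powers of a Frobenius on an eigenvector:
`τ^k τ^k x - s_k τ^k x + ℓ^k x = 0`. -/
theorem dch_frob_pow (J : JacInput N p) (ℓ : ℕ) (hℓ : ℓ.Prime) (hℓNp : ¬ ℓ ∣ N * p)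
    (A : ValuationSubring (AlgebraicClosure ℚ)) (hA : A.LiesOverPrime ℓ)
    (τ : GQ) (hτ : A.IsFrobeniusAt τ ℓ) (a : ℤ) (x : JZero N) (hpx : ∃ n : ℕ, p ^ n • x = 0)
    (hx : heckeOperatorBar N ⟨ℓ, hℓ⟩ x = a • x) (k : ℕ) :
    τ ^ k • τ ^ k • x - chlLucas a (ℓ : ℤ) k • τ ^ k • x + ((ℓ : ℤ) ^ k) • x = 0 := by
  -- the translate `y = τ^k x` is again a torsion eigenvector
  have hpy : ∃ n : ℕ, p ^ n • (τ ^ k • x) = 0 := jac_torsion_smul _ hpx
  have hy : heckeOperatorBar N ⟨ℓ, hℓ⟩ (τ ^ k • x) = a • τ ^ k • x := by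
    have hg := J.galComm (τ ^ k) ⟨ℓ, hℓ⟩ x
    rw [hx] at hg
    rw [← hg]
    exact map_zsmul (DistribSMul.toAddMonoidHom (JZero N) (τ ^ k)) a x
  have h1 := powTr_heckeBar_apply J ℓ hℓ hℓNp A hA τ hτ k (τ ^ k • x) hpy
  have h2 := dch_powTr_eig (N := N) ⟨ℓ, hℓ⟩ a (τ ^ k • x) hy k
  rw [h2, inv_smul_smul] at h1
  have h3 : chlLucas a (ℓ : ℤ) k • τ ^ k • x = τ ^ k • τ ^ k • x + ((ℓ : ℤ) ^ k) • x := by
    have : (((⟨ℓ, hℓ⟩ : Nat.Primes) : ℕ) : ℤ) = (ℓ : ℤ) := rfl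
    rw [this] at h1
    exact h1
  rw [h3]
  abel

end Frob

section Normal

/-- an element of `G_ℚ` fixing a normal field `K` pointwise fixes every Galois translate of a
point whose stabiliser contains the pointwise stabiliser of a subfield `L₀ ≤ K`. -/
theorem dch_normal_fix {X : Type*} [MulAction GQ X]
    (L₀ K : IntermediateField ℚ (AlgebraicClosure ℚ)) [Normal ℚ K] (hLK : L₀ ≤ K)
    (x : X) (hx : ∀ σ : GQ, (∀ a ∈ L₀, σ a = a) → σ • x = x)
    (g : GQ) (hg : ∀ a ∈ K, g a = a) (h : GQ) : g • h • x = h • x := by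
  have hfix : ∀ a ∈ L₀, (h⁻¹ * g * h) a = a := by
    intro a ha
    have haK : a ∈ K := hLK ha
    have hha : h a ∈ K := by
      have e := AlgEquiv.restrictNormal_commutes h K ⟨a, haK⟩
      have e' : h a = ((h.restrictNormal K ⟨a, haK⟩ : K) : AlgebraicClosure ℚ) := e.symm
      rw [e']
      exact (h.restrictNormal K ⟨a, haK⟩).2
    rw [AlgEquiv.mul_apply, AlgEquiv.mul_apply, hg _ hha]
    show h⁻¹ (h a) = a
    exact h.symm_apply_apply a
  have h1 := hx (h⁻¹ * g * h) hfix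
  have h2 : g • h • x = h • (h⁻¹ * g * h) • x := by
    rw [smul_smul, smul_smul]
    congr 1
    group
  rw [h2, h1]

end Normal

section Main

variable {N p : ℕ} [NeZero N] (E : WeierstrassCurve ℚ)
  [Module.Free (ZMod p) (Submodule.torsionBy ℤ (E⁄(AlgebraicClosure ℚ)).Point p)]
  [Module.Finite (ZMod p) (Submodule.torsionBy ℤ (E⁄(AlgebraicClosure ℚ)).Point p)]

/-- **the Cayley–Hamilton relation on an eigenvector**: every `σ ∈ G_ℚ` satisfies on `x` the
characteristic polynomial of `σ` on `E[p]`. -/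
theorem dch_quad (hp0 : p ≠ 0) (J : JacInput N p)
    (hT : Module.finrank (ZMod p)
      (Submodule.torsionBy ℤ (E⁄(AlgebraicClosure ℚ)).Point p) = 2)
    (S : Finset ℕ) (hS : ∀ ℓ : ℕ, ℓ.Prime → ℓ ∣ N * p → ℓ ∈ S) (a : ℕ → ℤ)
    (hr : ChlFrob (galoisRepModuleEnd (K := AlgebraicClosure ℚ) ℚ E p) S a)
    (x : JZero N) (hpx : ∃ n : ℕ, p ^ n • x = 0)
    (hx : ∀ ℓ : Nat.Primes, (ℓ : ℕ) ∉ S → heckeOperatorBar N ℓ x = a ℓ • x) (σ : GQ) :
    ∃ t d : ℤ,
      LinearMap.charpoly (galoisRepModuleEnd (K := AlgebraicClosure ℚ) ℚ E p σ)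
        = X ^ 2 - C (t : ZMod p) * X + C (d : ZMod p) ∧
      σ • σ • x - t • σ • x + d • x = 0 := by
  obtain ⟨L₀, hL₀, hfix₀⟩ := J.stab x hpx
  obtain ⟨L₂, hL₂, k₂⟩ := chl_level_tors' E p hp0
  haveI := hL₀
  haveI := hL₂
  haveI hgal : IsGalois ℚ (AlgebraicClosure ℚ) := Fermat.Agent.FrobLib.isGalois_QBar
  haveI : Normal ℚ (AlgebraicClosure ℚ) := hgal.to_normal
  let K : IntermediateField ℚ (AlgebraicClosure ℚ) :=
    IntermediateField.normalClosure ℚ L₀ (AlgebraicClosure ℚ)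
  haveI hKfin : FiniteDimensional ℚ K :=
    normalClosure.is_finiteDimensional ℚ L₀ (AlgebraicClosure ℚ)
  haveI hKn : Normal ℚ K := normalClosure.normal ℚ L₀ (AlgebraicClosure ℚ)
  have hLK : L₀ ≤ K := IntermediateField.le_normalClosure L₀
  have hL : FiniteDimensional ℚ ↥(K ⊔ L₂) := IntermediateField.finiteDimensional_sup K L₂
  obtain ⟨ℓ, A, τ, k, k', hℓ, hℓS, hA, hτ, hτg, hgτ⟩ := weakCheb (K ⊔ L₂) hL S σ
  have hℓNp : ¬ ℓ ∣ N * p := fun h => hℓS (hS ℓ hℓ h)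
  -- `g = (τ^k')⁻¹ σ` fixes `K ⊔ L₂`
  have hfix : ∀ y ∈ K ⊔ L₂, ((τ ^ k')⁻¹ * σ) y = y := by
    intro y hy
    rw [AlgEquiv.mul_apply, hgτ y hy]
    exact (τ ^ k').symm_apply_apply y
  have hσ : σ = τ ^ k' * ((τ ^ k')⁻¹ * σ) := (mul_inv_cancel_left _ _).symm
  have hgK : ∀ y ∈ K, ((τ ^ k')⁻¹ * σ) y = y :=
    fun y hy => hfix y ((le_sup_left : K ≤ K ⊔ L₂) hy)
  -- on `E[p]`
  have e₂ : galoisRepModuleEnd (K := AlgebraicClosure ℚ) ℚ E p σ
      = galoisRepModuleEnd (K := AlgebraicClosure ℚ) ℚ E p τ ^ k' := by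
    have h := k₂ ((τ ^ k')⁻¹ * σ) (fun y hy => hfix y ((le_sup_right : L₂ ≤ K ⊔ L₂) hy))
    conv_lhs => rw [hσ]
    rw [map_mul, h, mul_one, map_pow]
  have c₂ := hr ℓ hℓ hℓS A hA τ hτ
  rw [← Int.cast_natCast (R := ZMod p) ℓ] at c₂
  -- on `x`
  have hx1 : σ • x = τ ^ k' • x := by
    have h := dch_normal_fix L₀ K hLK x hfix₀ ((τ ^ k')⁻¹ * σ) hgK 1
    rw [one_smul] at h
    conv_lhs => rw [hσ]
    rw [mul_smul, h]
  have hx2 : σ • σ • x = τ ^ k' • τ ^ k' • x := by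
    rw [hx1]
    have h := dch_normal_fix L₀ K hLK x hfix₀ ((τ ^ k')⁻¹ * σ) hgK (τ ^ k')
    conv_lhs => rw [hσ]
    rw [mul_smul, h]
  refine ⟨chlLucas (a ℓ) (ℓ : ℤ) k', (ℓ : ℤ) ^ k', ?_, ?_⟩
  · rw [e₂]
    exact chl_charpoly_pow hT _ (a ℓ) (ℓ : ℤ) c₂ k'
  · rw [hx2, hx1]
    exact dch_frob_pow J ℓ hℓ hℓNp A hA τ hτ (a ℓ) x hpx (hx ⟨ℓ, hℓ⟩ hℓS) k'

/-- the same, with `t` and `d` lifting the trace and the determinant of `σ` on `E[p]`. -/
theorem dch_quad_tr (hp0 : p ≠ 0) (J : JacInput N p)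
    (hT : Module.finrank (ZMod p)
      (Submodule.torsionBy ℤ (E⁄(AlgebraicClosure ℚ)).Point p) = 2)
    (S : Finset ℕ) (hS : ∀ ℓ : ℕ, ℓ.Prime → ℓ ∣ N * p → ℓ ∈ S) (a : ℕ → ℤ)
    (hr : ChlFrob (galoisRepModuleEnd (K := AlgebraicClosure ℚ) ℚ E p) S a)
    (x : JZero N) (hpx : ∃ n : ℕ, p ^ n • x = 0)
    (hx : ∀ ℓ : Nat.Primes, (ℓ : ℕ) ∉ S → heckeOperatorBar N ℓ x = a ℓ • x) (σ : GQ) :
    ∃ t d : ℤ,
      (t : ZMod p) = LinearMap.trace (ZMod p) _
        (galoisRepModuleEnd (K := AlgebraicClosure ℚ) ℚ E p σ) ∧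
      (d : ZMod p) = LinearMap.det (galoisRepModuleEnd (K := AlgebraicClosure ℚ) ℚ E p σ) ∧
      σ • σ • x - t • σ • x + d • x = 0 := by
  obtain ⟨t, d, h1, h2⟩ := dch_quad E hp0 J hT S hS a hr x hpx hx σ
  obtain ⟨ht, hd⟩ := chl_trace_det hT _ h1
  exact ⟨t, d, ht.symm, hd.symm, h2⟩

end Main

end Fermat.Agent.S40lib

end
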