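import Mathlib
import Fermat.Agent.S36lib.Speed
import Fermat.Agent.GoodRed.PlaceRed
import Fermat.Agent.RRlib.Hurwitz
import Fermat.Agent.RRlib.KaehlerLink
import Fermat.Agent.RRlib.KaehlerExists
import Fermat.Agent.RRlib.Duality
import Fermat.Agent.S16lib.UEA

/-!
# Item 88 (S40), layer (LIFT), piece DF2 = (N4) = (RD) (helper21): reduction of differentials

Abstract form, for a constant reduction `R : ConstRed A π Fk F` with place reduction `r` and genus
equality.  Let `x ∈ O` with `dx ≠ 0`, `d(red x) ≠ 0`, and assume (DER): for every `f ∈ O` there is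
`f' ∈ O` with `df = f' dx` and `d(red f) = red f' d(red x)` (the derivation `d/dx` preserves `O`
and commutes with the reduction).  Then

* `rdf_mapDomain_canonical` : `r_* (div dx) = div (d (red x))` (no tameness, any characteristic);
* `rdf_W_eq` : `W(div dx) = L(div d(red x))`;
* `rdf_lift` : every `w̄` with `w̄ d(red x)` regular is the reduction of some `w ∈ O` with `w dx`
  regular.

Proof of the first statement at a place `Q`: choose `t ∈ O` without poles over `Q` whose reduction
is a uniformiser at `Q` ((F3)); for every `P ↦ Q` the function `t - t(P)` is a uniformiser at `P`,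
so `ord_P (dt) = 0`; `dx = (dx/dt) dt` and `r_* div (dt/dx) = div (red (dt/dx))`.
-/

set_option autoImplicit false

noncomputable section

namespace Fermat.Agent.S40lib

open AlgebraicCurve KaehlerDifferential Fermat.Agent.RRlib Fermat.Agent.GoodRed
  Fermat.Agent.S24lib

variable {K F k Fk : Type*} [Field K] [Field F] [Algebra K F] [Field k] [Field Fk] [Algebra k Fk]
variable {A : ValuationSubring K} {π : A →+* k} {R : ConstRed A π Fk F}

/-- the value of a push-forward divisor at `Q` only depends on the fibre over `Q` -/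
theorem rdf_mapDomain_eq_zero (r : Place K F → Place k Fk) (E : Divisor K F) (Q : Place k Fk)
    (h : ∀ P, r P = Q → E P = 0) : Finsupp.mapDomain r E Q = 0 := by
  classical
  rw [Finsupp.mapDomain, Finsupp.sum_apply, Finsupp.sum]
  refine Finset.sum_eq_zero fun P _ => ?_
  rw [Finsupp.single_apply]
  split_ifs with hP
  · exact h P hP
  · rfl

/-- a nonnegative fibre with total mass `1`: a positive term is `1` -/
theorem rdf_fibre_eq_one (r : Place K F → Place k Fk) (E : Divisor K F) (Q : Place k Fk)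
    (hnn : ∀ P, r P = Q → 0 ≤ E P) (hsum : Finsupp.mapDomain r E Q = 1) (P₀ : Place K F)
    (hP₀ : r P₀ = Q) (hpos : 0 < E P₀) : E P₀ = 1 := by
  classical
  have hterm : ∀ P ∈ E.support, 0 ≤ (Finsupp.single (r P) (E P)) Q := by
    intro P _
    rw [Finsupp.single_apply]
    split_ifs with h
    · exact hnn P h
    · exact le_refl _
  have hPs : P₀ ∈ E.support := by
    rw [Finsupp.mem_support_iff]
    exact ne_of_gt hpos
  have hle := Finset.single_le_sum hterm hPs
  rw [Finsupp.single_apply, if_pos hP₀] at hle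
  rw [Finsupp.mapDomain, Finsupp.sum_apply, Finsupp.sum] at hsum
  rw [hsum] at hle
  omega

/-- a place reduction is onto -/
theorem rdf_surjective [RRBase K F] [RRBase k Fk] {r : Place K F → Place k Fk}
    (hr : R.IsPlaceRed r) (Q : Place k Fk) : ∃ P, r P = Q := by
  classical
  obtain ⟨u, hu0, hu⟩ := kl_exists_ord_eq Q 1
  obtain ⟨y, hy⟩ := R.red_surjective u
  have hy0 : R.red y ≠ 0 := by rw [hy]; exact hu0
  have h1 := hr.2 y hy0 Q
  rw [hy, hu] at h1
  by_contra hcon
  have h2 : Finsupp.mapDomain r (divOf (K := K) ((y : R.O) : F)) Q = 0 :=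
    rdf_mapDomain_eq_zero r _ Q (fun P hP => absurd ⟨P, hP⟩ hcon)
  rw [h2] at h1
  exact zero_ne_one h1

/-- the differential of a uniformiser is not zero and has order `0` -/
theorem rdf_D_unif [RRBase K F] (v : Place K F) [v.DCoordGenerates] [Nontrivial Ω[F⁄K]]
    {u : F} (hu : v.ord u = 1) : D K F u ≠ 0 ∧ v.ordDifferential (D K F u) = 0 := by
  have hm : ((v.ord u : ℤ) : K) ≠ 0 := by
    rw [hu]
    simp
  have h0 := hw_ordDifferential_D_eq v hm
  refine ⟨?_, by rw [h0, hu]; ring⟩
  intro hD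
  have hu0 : u ≠ 0 := by
    rintro rfl
    rw [v.ord_zero] at hu
    omega
  obtain ⟨t, w, a, ht, hw0, hwo, hao, hc⟩ := hw_exists_coeff v hu0
  rw [hD, v.differentialCoeff_zero, hu] at hc
  have hc' : w = -(t * a) := by
    have h1 : w * (((1 : ℤ) : F) * t ^ ((1 : ℤ) - 1)) + t ^ (1 : ℤ) * a = w + t * a := by
      simp
    rw [h1] at hc
    exact eq_neg_of_add_eq_zero_left hc.symm
  have ht0 : t ≠ 0 := by
    rintro rfl
    rw [v.ord_zero] at ht
    omega
  rcases eq_or_ne a 0 with rfl | ha0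
  · rw [mul_zero, neg_zero] at hc'
    exact hw0 hc'
  · have hao' : 0 ≤ v.ord a := hao.resolve_left ha0
    rw [hc', ffOrd_neg, v.ord_mul ht0 ha0, ht] at hwo
    omega

/-- the coefficient of a nonzero differential is not zero -/
theorem rdf_coeff_ne_zero (v : Place K F) [v.DCoordGenerates] {ω : Ω[F⁄K]} (hω : ω ≠ 0) :
    v.differentialCoeff ω ≠ 0 := by
  intro h0
  apply hω
  rw [← v.differentialCoeff_smul_dCoord ω, h0, zero_smul]

/-- **(N4), placewise**: `Σ_{P ↦ Q} ord_P (dx) = ord_Q (d (red x))`. -/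
theorem rdf_apply [RRHyp K F] [RRHyp k Fk] [Nontrivial Ω[F⁄K]] [Nontrivial Ω[Fk⁄k]]
    (hgenF : ∀ v : Place K F, v.DCoordGenerates) (hgenk : ∀ v : Place k Fk, v.DCoordGenerates)
    {r : Place K F → Place k Fk} (hr : R.IsPlaceRed r) (hg : genusFF K F ≤ genusFF k Fk)
    (x : R.O) (hx : D K F ((x : R.O) : F) ≠ 0) (hxb : D k Fk (R.red x) ≠ 0)
    (hder : ∀ f : R.O, ∃ f' : R.O,
      D K F ((f : R.O) : F) = ((f' : R.O) : F) • D K F ((x : R.O) : F) ∧
        D k Fk (R.red f) = R.red f' • D k Fk (R.red x))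
    (W : Divisor K F) (hW : ∀ P : Place K F, W P = P.ordDifferential (D K F ((x : R.O) : F)))
    (Q : Place k Fk) :
    Finsupp.mapDomain r W Q = Q.ordDifferential (D k Fk (R.red x)) := by
  classical
  have := hgenk Q
  obtain ⟨u, -, hu⟩ := kl_exists_ord_eq Q 1
  obtain ⟨Q', hQ'⟩ : ∃ Q' : Place k Fk, Q'.ord u < 0 := by
    by_contra hcon
    have hall : ∀ v : Place k Fk, 0 ≤ v.ord u := fun v => not_lt.mp (fun h => hcon ⟨v, h⟩)
    obtain ⟨c, hc⟩ := RRBase.const_of_forall_ord_nonneg (K := k) u hall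
    rw [← hc, ffOrd_algebraMap] at hu
    omega
  have hQQ : Q' ≠ Q := by
    rintro rfl
    omega
  obtain ⟨P', hP'⟩ := rdf_surjective hr Q'
  obtain ⟨t, ht1, ht2⟩ := Fermat.Agent.S16lib.uea_exists_uniformizer R hr hg Q P'
    (by rw [hP']; exact hQQ)
  obtain ⟨t', hd, hdb⟩ := hder t
  obtain ⟨hDtb, hordb⟩ := rdf_D_unif Q ht1
  have hrt' : R.red t' ≠ 0 := by
    intro h0
    apply hDtb
    rw [hdb, h0, zero_smul]
  have ht'0 : ((t' : R.O) : F) ≠ 0 := by
    intro h0
    apply hrt'
    rw [show t' = 0 from Subtype.ext h0, map_zero]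
  have hQeq : Q.ordDifferential (D k Fk (R.red x)) = - Q.ord (R.red t') := by
    have h := Q.ordDifferential_smul hrt' (rdf_coeff_ne_zero Q hxb)
    rw [← hdb, hordb] at h
    omega
  set E : Divisor K F := W + divOf (K := K) ((t' : R.O) : F) with hE
  have hEz : ∀ P, r P = Q → E P = 0 := by
    intro P hP
    have := hgenF P
    obtain ⟨c, hc⟩ := ht2 P hP
    obtain ⟨-, hord⟩ := rdf_D_unif P hc
    have hDt : D K F (((t : R.O) : F) - algebraMap K F c) = D K F ((t : R.O) : F) := by
      rw [map_sub, Derivation.map_algebraMap, sub_zero]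
    rw [hDt, hd] at hord
    have h := P.ordDifferential_smul ht'0 (rdf_coeff_ne_zero P hx)
    rw [hE, Finsupp.add_apply, hW P, divOf_apply ht'0]
    omega
  have h0 := rdf_mapDomain_eq_zero r E Q hEz
  rw [hE, Finsupp.mapDomain_add, Finsupp.add_apply, hr.2 t' hrt' Q] at h0
  rw [hQeq]
  omega

/-- **(N4)**: `r_* (div dx) = div (d (red x))`, for any divisors representing the two sides. -/
theorem rdf_mapDomain_eq [RRHyp K F] [RRHyp k Fk] [Nontrivial Ω[F⁄K]] [Nontrivial Ω[Fk⁄k]]
    (hgenF : ∀ v : Place K F, v.DCoordGenerates) (hgenk : ∀ v : Place k Fk, v.DCoordGenerates)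
    {r : Place K F → Place k Fk} (hr : R.IsPlaceRed r) (hg : genusFF K F ≤ genusFF k Fk)
    (x : R.O) (hx : D K F ((x : R.O) : F) ≠ 0) (hxb : D k Fk (R.red x) ≠ 0)
    (hder : ∀ f : R.O, ∃ f' : R.O,
      D K F ((f : R.O) : F) = ((f' : R.O) : F) • D K F ((x : R.O) : F) ∧
        D k Fk (R.red f) = R.red f' • D k Fk (R.red x))
    (W : Divisor K F) (hW : ∀ P : Place K F, W P = P.ordDifferential (D K F ((x : R.O) : F)))
    (Wb : Divisor k Fk) (hWb : ∀ Q : Place k Fk, Wb Q = Q.ordDifferential (D k Fk (R.red x))) :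
    Finsupp.mapDomain r W = Wb := by
  ext Q
  rw [hWb Q]
  exact rdf_apply hgenF hgenk hr hg x hx hxb hder W hW Q

/-- **(N4)** for the canonical divisors of the Prelude. -/
theorem rdf_mapDomain_canonical [RRHyp K F] [RRHyp k Fk] [Nontrivial Ω[F⁄K]]
    [Nontrivial Ω[Fk⁄k]] [HasCanonicalDivisor (K := K) (F := F)]
    [HasCanonicalDivisor (K := k) (F := Fk)]
    (hgenF : ∀ v : Place K F, v.DCoordGenerates) (hgenk : ∀ v : Place k Fk, v.DCoordGenerates)
    {r : Place K F → Place k Fk} (hr : R.IsPlaceRed r) (hg : genusFF K F ≤ genusFF k Fk)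
    (x : R.O) (hx : D K F ((x : R.O) : F) ≠ 0) (hxb : D k Fk (R.red x) ≠ 0)
    (hder : ∀ f : R.O, ∃ f' : R.O,
      D K F ((f : R.O) : F) = ((f' : R.O) : F) • D K F ((x : R.O) : F) ∧
        D k Fk (R.red f) = R.red f' • D k Fk (R.red x)) :
    Finsupp.mapDomain r (canonicalDivisorOf hx) = canonicalDivisorOf hxb :=
  rdf_mapDomain_eq hgenF hgenk hr hg x hx hxb hder _ (canonicalDivisorOf_apply hx) _
    (canonicalDivisorOf_apply hxb)

/-- **(RD)**: `W(div dx) = L(div d(red x))`: the reduction of the regular differentials `w dx`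
(`w` integral) is the space of ALL regular differentials `w̄ d(red x)`. -/
theorem rdf_W_eq [RRHyp K F] [RRHyp k Fk] [Infinite k] [Nontrivial Ω[F⁄K]] [Nontrivial Ω[Fk⁄k]]
    (hgenF : ∀ v : Place K F, v.DCoordGenerates) (hgenk : ∀ v : Place k Fk, v.DCoordGenerates)
    {r : Place K F → Place k Fk} (hr : R.IsPlaceRed r) (hg : genusFF K F ≤ genusFF k Fk)
    (x : R.O) (hx : D K F ((x : R.O) : F) ≠ 0) (hxb : D k Fk (R.red x) ≠ 0)
    (hder : ∀ f : R.O, ∃ f' : R.O,
      D K F ((f : R.O) : F) = ((f' : R.O) : F) • D K F ((x : R.O) : F) ∧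
        D k Fk (R.red f) = R.red f' • D k Fk (R.red x))
    (W : Divisor K F) (hW : ∀ P : Place K F, W P = P.ordDifferential (D K F ((x : R.O) : F)))
    (Wb : Divisor k Fk) (hWb : ∀ Q : Place k Fk, Wb Q = Q.ordDifferential (D k Fk (R.red x))) :
    R.W W = riemannRochSpace (K := k) Wb := by
  have hmap := rdf_mapDomain_eq hgenF hgenk hr hg x hx hxb hder W hW Wb hWb
  have hle : R.W W ≤ riemannRochSpace (K := k) Wb := by
    rw [← hmap]
    exact hr.W_le W
  have hgeq : genusFF k Fk = genusFF K F := le_antisymm R.genusFF_le hg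
  have hfin := finite_riemannRochSpace (K := k) Wb
  apply Submodule.eq_of_le_of_finrank_eq hle
  rw [(R.finrank_W W).2, ell_canonical (isCanonicalDivisor_of_kaehler hgenF hx W hW)]
  have h2 := ell_canonical (isCanonicalDivisor_of_kaehler hgenk hxb Wb hWb)
  rw [ell] at h2
  rw [h2, hgeq]

/-- **(RD), lifting form**: every `w̄` with `w̄ d(red x)` regular is the reduction of an integral
`w` with `w dx` regular. -/
theorem rdf_lift [RRHyp K F] [RRHyp k Fk] [Infinite k] [Nontrivial Ω[F⁄K]] [Nontrivial Ω[Fk⁄k]]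
    (hgenF : ∀ v : Place K F, v.DCoordGenerates) (hgenk : ∀ v : Place k Fk, v.DCoordGenerates)
    {r : Place K F → Place k Fk} (hr : R.IsPlaceRed r) (hg : genusFF K F ≤ genusFF k Fk)
    (x : R.O) (hx : D K F ((x : R.O) : F) ≠ 0) (hxb : D k Fk (R.red x) ≠ 0)
    (hder : ∀ f : R.O, ∃ f' : R.O,
      D K F ((f : R.O) : F) = ((f' : R.O) : F) • D K F ((x : R.O) : F) ∧
        D k Fk (R.red f) = R.red f' • D k Fk (R.red x))
    (wb : Fk)
    (hwb : ∀ Q : Place k Fk, wb = 0 ∨ 0 ≤ Q.ord wb + Q.ordDifferential (D k Fk (R.red x))) :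
    ∃ w : R.O, R.red w = wb ∧
      ∀ P : Place K F, ((w : R.O) : F) = 0 ∨
        0 ≤ P.ord ((w : R.O) : F) + P.ordDifferential (D K F ((x : R.O) : F)) := by
  have := hasCanonicalDivisor_of_rrHyp (K := K) (F := F) hgenF
  have := hasCanonicalDivisor_of_rrHyp (K := k) (F := Fk) hgenk
  have hWeq := rdf_W_eq hgenF hgenk hr hg x hx hxb hder (canonicalDivisorOf hx)
    (canonicalDivisorOf_apply hx) (canonicalDivisorOf hxb) (canonicalDivisorOf_apply hxb)
  have hmem : wb ∈ riemannRochSpace (K := k) (canonicalDivisorOf hxb) := by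
    rw [mem_riemannRochSpace_iff]
    intro Q
    rcases hwb Q with h | h
    · exact Or.inl h
    · right
      rw [canonicalDivisorOf_apply]
      omega
  rw [← hWeq, R.mem_W_iff] at hmem
  obtain ⟨w, hw, hred⟩ := hmem
  refine ⟨w, hred, fun P => ?_⟩
  rcases mem_riemannRochSpace_iff.mp hw P with h | h
  · exact Or.inl h
  · right
    rw [canonicalDivisorOf_apply] at h
    omega

end Fermat.Agent.S40lib

end
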