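/-
Item 88 (S40), block (LIFT), piece DF2 = (N4) CONCRETE (helper26): the canonical divisor
`div (dj)` of the modular function field `FF N` reduces to the canonical divisor `div (dj̄)` of
`F_{N,k}`; instantiation of the abstract `rdf_*` (S40lib/RedDiff.lean, helper21) at `x = j`, with
(DER) = `ued_exists_deriv` (S16lib/UEDb).

`R` a series reduction of `FF N` along a valuation ring `A ≠ ⊤` of `ℚ̄`, `k` its residue field.

* general level, hypotheses `r`, `hr : R.IsPlaceRed r`, `hg : g(FF N) ≤ g(F_{N,k})`: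
  `dfr_mapDomain_eq` (`r_* div dj = div dj̄`), `dfr_W_eq` (`W(div dj) = L(div dj̄)`),
  `dfr_lift`, `dfr_red_regular` (`w` integral, `w dj` regular ⇒ `red w · dj̄` regular);
* auxiliary level (`IsAuxLevel ℓ N`, `A` over `ℓ`), NO further hypothesis, EVERY series reduction:
  `dfr_aux_red_regular`, `dfr_aux_lift`, `dfr_aux_W_eq`, `dfr_aux_genus_eq`, `dfr_aux_exists`.

Any residue characteristic (`ℓ = 3` and `ℓ = 2` included), no tameness, no degree count.
-/
import Mathlib
import Fermat.Agent.S36lib.Speed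
import Fermat.Agent.S40lib.RedDiff
import Fermat.Agent.S16lib.UEDb
import Fermat.Agent.GoodRed.DescWiring
import Fermat.Agent.GoodRed.ModRR
import Fermat.Agent.RRlib.Modular
import Fermat.Agent.GM.MainFinal
import Fermat.Agent.GoodRed.HredMain

set_option autoImplicit false
set_option synthInstance.maxHeartbeats 400000
set_option linter.unusedSectionVars false
set_option linter.unusedVariables false
set_option linter.style.haveILetI false

noncomputable section

namespace Fermat.Agent.S40lib

open AlgebraicCurve ModularCurve KaehlerDifferential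
open Fermat.Agent.RRlib Fermat.Agent.GoodRed Fermat.Agent.S24lib Fermat.Agent.GM
  Fermat.Agent.FFlib Fermat.Agent.S16lib

/-- `D j ≠ 0` in `Ω[FF N / ℚ̄]` -/
theorem dfr_D_jF_ne_zero (N : ℕ) [NeZero N] : D Kbar (FF N) (jF N) ≠ 0 := by
  intro h0
  have := fin_ffData N
  have hspan : Submodule.span (FF N) {D Kbar (FF N) (jF N)} = ⊤ :=
    ffSpan_D_eq_top_of_transcendental (x := jF N) (fin_ffData N).trans
  rw [h0] at hspan
  have hnt := mod_nontrivial_kaehler N
  obtain ⟨ω, ω', hω⟩ := hnt
  have h1 : ω ∈ Submodule.span (FF N) {(0 : Ω[FF N⁄Kbar])} := by rw [hspan]; trivial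
  have h2 : ω' ∈ Submodule.span (FF N) {(0 : Ω[FF N⁄Kbar])} := by rw [hspan]; trivial
  rw [Submodule.span_zero_singleton, Submodule.mem_bot] at h1 h2
  exact hω (h1.trans h2.symm)

/-- `D j̄ ≠ 0` in `Ω[F_{N,k} / k]`, any field `k` -/
theorem dfr_D_jk_ne_zero (k : Type) [Field k] (N : ℕ) [NeZero N] :
    D k (Fk k N) (jk k N) ≠ 0 :=
  mr_D_jbarC_ne_zero k N

section Modular

variable (N : ℕ) [NeZero N] (A : ValuationSubring Kbar) (hA : A ≠ ⊤)
  (R : ConstRed A (IsLocalRing.residue A) (Fk (IsLocalRing.ResidueField A) N) (FF N))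
  (hR : IsSeriesRed R)
  (r : Place Kbar (FF N) → Place (IsLocalRing.ResidueField A) (Fk (IsLocalRing.ResidueField A) N))

include hA hR in
/-- (DER) at `x = j`: `d/dj` preserves `O` and commutes with the reduction -/
theorem dfr_der (f : R.O) : ∃ f' : R.O,
    D Kbar (FF N) ((f : R.O) : FF N)
        = ((f' : R.O) : FF N) • D Kbar (FF N) (((⟨jF N, dw_jF_mem hR⟩ : R.O) : R.O) : FF N) ∧
      D (IsLocalRing.ResidueField A) (Fk (IsLocalRing.ResidueField A) N) (R.red f)
        = R.red f' • D (IsLocalRing.ResidueField A) (Fk (IsLocalRing.ResidueField A) N)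
            (R.red ⟨jF N, dw_jF_mem hR⟩) := by
  obtain ⟨f', h1, h2⟩ := ued_exists_deriv N A hA R hR f
  refine ⟨f', h1, ?_⟩
  rw [dw_red_jF hR]
  exact h2

include hA hR in
/-- **(N4) concrete**: `r_* div (dj) = div (dj̄)`. -/
theorem dfr_mapDomain_eq [RRHyp Kbar (FF N)]
    [RRHyp (IsLocalRing.ResidueField A) (Fk (IsLocalRing.ResidueField A) N)]
    (hr : R.IsPlaceRed r)
    (hg : genusFF Kbar (FF N)
      ≤ genusFF (IsLocalRing.ResidueField A) (Fk (IsLocalRing.ResidueField A) N))
    (W : Divisor Kbar (FF N))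
    (hW : ∀ v : Place Kbar (FF N), W v = v.ordDifferential (D Kbar (FF N) (jF N)))
    (Wk : Divisor (IsLocalRing.ResidueField A) (Fk (IsLocalRing.ResidueField A) N))
    (hWk : ∀ x : Place (IsLocalRing.ResidueField A) (Fk (IsLocalRing.ResidueField A) N),
      Wk x = x.ordDifferential
        (D (IsLocalRing.ResidueField A) (Fk (IsLocalRing.ResidueField A) N)
          (jk (IsLocalRing.ResidueField A) N))) :
    Finsupp.mapDomain r W = Wk := by
  have : IsAlgClosed (IsLocalRing.ResidueField A) := isAlgClosed_residueField A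
  have hsepk : FFSep (IsLocalRing.ResidueField A) (jbarC (IsLocalRing.ResidueField A) N) :=
    mr_ffSep (IsLocalRing.ResidueField A) N
  have hgenk : ∀ v : Place (IsLocalRing.ResidueField A)
      (Fk (IsLocalRing.ResidueField A) N), v.DCoordGenerates :=
    fun v => fsDCoordGenerates (x := jbarC (IsLocalRing.ResidueField A) N) v
  have : Nontrivial Ω[Fk (IsLocalRing.ResidueField A) N⁄IsLocalRing.ResidueField A] :=
    fsNontrivial_kaehler (K := IsLocalRing.ResidueField A)
      (x := jbarC (IsLocalRing.ResidueField A) N)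
  have : Nontrivial Ω[FF N⁄Kbar] := mod_nontrivial_kaehler N
  have hgenK : ∀ v : Place Kbar (FF N), v.DCoordGenerates := fun v => mod_dCoordGenerates N v
  refine rdf_mapDomain_eq hgenK hgenk hr hg ⟨jF N, dw_jF_mem hR⟩ (dfr_D_jF_ne_zero N) ?_
    (dfr_der N A hA R hR) W hW Wk ?_
  · rw [dw_red_jF hR]
    exact dfr_D_jk_ne_zero _ N
  · intro Q
    rw [dw_red_jF hR]
    exact hWk Q

include hA hR in
/-- **(RD) concrete**: `W(div dj) = L(div dj̄)`. -/
theorem dfr_W_eq [RRHyp Kbar (FF N)]
    [RRHyp (IsLocalRing.ResidueField A) (Fk (IsLocalRing.ResidueField A) N)]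
    (hr : R.IsPlaceRed r)
    (hg : genusFF Kbar (FF N)
      ≤ genusFF (IsLocalRing.ResidueField A) (Fk (IsLocalRing.ResidueField A) N))
    (W : Divisor Kbar (FF N))
    (hW : ∀ v : Place Kbar (FF N), W v = v.ordDifferential (D Kbar (FF N) (jF N)))
    (Wk : Divisor (IsLocalRing.ResidueField A) (Fk (IsLocalRing.ResidueField A) N))
    (hWk : ∀ x : Place (IsLocalRing.ResidueField A) (Fk (IsLocalRing.ResidueField A) N),
      Wk x = x.ordDifferential
        (D (IsLocalRing.ResidueField A) (Fk (IsLocalRing.ResidueField A) N)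
          (jk (IsLocalRing.ResidueField A) N))) :
    R.W W = riemannRochSpace (K := IsLocalRing.ResidueField A) Wk := by
  have : IsAlgClosed (IsLocalRing.ResidueField A) := isAlgClosed_residueField A
  have : Infinite (IsLocalRing.ResidueField A) := IsAlgClosed.instInfinite
  have hsepk : FFSep (IsLocalRing.ResidueField A) (jbarC (IsLocalRing.ResidueField A) N) :=
    mr_ffSep (IsLocalRing.ResidueField A) N
  have hgenk : ∀ v : Place (IsLocalRing.ResidueField A)
      (Fk (IsLocalRing.ResidueField A) N), v.DCoordGenerates :=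
    fun v => fsDCoordGenerates (x := jbarC (IsLocalRing.ResidueField A) N) v
  have : Nontrivial Ω[Fk (IsLocalRing.ResidueField A) N⁄IsLocalRing.ResidueField A] :=
    fsNontrivial_kaehler (K := IsLocalRing.ResidueField A)
      (x := jbarC (IsLocalRing.ResidueField A) N)
  have : Nontrivial Ω[FF N⁄Kbar] := mod_nontrivial_kaehler N
  have hgenK : ∀ v : Place Kbar (FF N), v.DCoordGenerates := fun v => mod_dCoordGenerates N v
  refine rdf_W_eq hgenK hgenk hr hg ⟨jF N, dw_jF_mem hR⟩ (dfr_D_jF_ne_zero N) ?_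
    (dfr_der N A hA R hR) W hW Wk ?_
  · rw [dw_red_jF hR]
    exact dfr_D_jk_ne_zero _ N
  · intro Q
    rw [dw_red_jF hR]
    exact hWk Q

include hA hR in
/-- **(N3) direction**: if `w ∈ O` and `w dj` is regular, then `red w · dj̄` is regular. -/
theorem dfr_red_regular [RRHyp Kbar (FF N)]
    [RRHyp (IsLocalRing.ResidueField A) (Fk (IsLocalRing.ResidueField A) N)]
    (hr : R.IsPlaceRed r)
    (hg : genusFF Kbar (FF N)
      ≤ genusFF (IsLocalRing.ResidueField A) (Fk (IsLocalRing.ResidueField A) N))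
    (w : R.O)
    (hw : ∀ P : Place Kbar (FF N), ((w : R.O) : FF N) = 0 ∨
      0 ≤ P.ord ((w : R.O) : FF N) + P.ordDifferential (D Kbar (FF N) (jF N)))
    (Q : Place (IsLocalRing.ResidueField A) (Fk (IsLocalRing.ResidueField A) N)) :
    R.red w = 0 ∨ 0 ≤ Q.ord (R.red w) + Q.ordDifferential
      (D (IsLocalRing.ResidueField A) (Fk (IsLocalRing.ResidueField A) N)
        (jk (IsLocalRing.ResidueField A) N)) := by
  have : IsAlgClosed (IsLocalRing.ResidueField A) := isAlgClosed_residueField A
  have hsepk : FFSep (IsLocalRing.ResidueField A) (jbarC (IsLocalRing.ResidueField A) N) :=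
    mr_ffSep (IsLocalRing.ResidueField A) N
  have hgenk : ∀ v : Place (IsLocalRing.ResidueField A)
      (Fk (IsLocalRing.ResidueField A) N), v.DCoordGenerates :=
    fun v => fsDCoordGenerates (x := jbarC (IsLocalRing.ResidueField A) N) v
  have : Nontrivial Ω[Fk (IsLocalRing.ResidueField A) N⁄IsLocalRing.ResidueField A] :=
    fsNontrivial_kaehler (K := IsLocalRing.ResidueField A)
      (x := jbarC (IsLocalRing.ResidueField A) N)
  have : Nontrivial Ω[FF N⁄Kbar] := mod_nontrivial_kaehler N
  have hgenK : ∀ v : Place Kbar (FF N), v.DCoordGenerates := fun v => mod_dCoordGenerates N v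
  have := hasCanonicalDivisor_of_rrHyp (K := Kbar) (F := FF N) hgenK
  have := hasCanonicalDivisor_of_rrHyp (K := IsLocalRing.ResidueField A)
    (F := Fk (IsLocalRing.ResidueField A) N) hgenk
  have hjk := dfr_D_jk_ne_zero (IsLocalRing.ResidueField A) N
  have hmap := dfr_mapDomain_eq N A hA R hR r hr hg (canonicalDivisorOf (dfr_D_jF_ne_zero N))
    (canonicalDivisorOf_apply (dfr_D_jF_ne_zero N)) (canonicalDivisorOf hjk)
    (canonicalDivisorOf_apply hjk)
  have hmem : R.red w ∈ R.W (canonicalDivisorOf (dfr_D_jF_ne_zero N)) := by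
    rw [R.mem_W_iff]
    refine ⟨w, ?_, rfl⟩
    rw [mem_riemannRochSpace_iff]
    intro P
    rcases hw P with h | h
    · exact Or.inl h
    · right
      rw [canonicalDivisorOf_apply]
      omega
  have h2 := hr.W_le _ hmem
  rw [hmap, mem_riemannRochSpace_iff] at h2
  rcases h2 Q with h | h
  · exact Or.inl h
  · right
    rw [canonicalDivisorOf_apply] at h
    omega

include hA hR in
/-- **(RD), lifting form, concrete**: every `w̄` with `w̄ dj̄` regular is the reduction of an
integral `w` with `w dj` regular. -/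
theorem dfr_lift [RRHyp Kbar (FF N)]
    [RRHyp (IsLocalRing.ResidueField A) (Fk (IsLocalRing.ResidueField A) N)]
    (hr : R.IsPlaceRed r)
    (hg : genusFF Kbar (FF N)
      ≤ genusFF (IsLocalRing.ResidueField A) (Fk (IsLocalRing.ResidueField A) N))
    (wb : Fk (IsLocalRing.ResidueField A) N)
    (hwb : ∀ Q : Place (IsLocalRing.ResidueField A) (Fk (IsLocalRing.ResidueField A) N),
      wb = 0 ∨ 0 ≤ Q.ord wb + Q.ordDifferential
        (D (IsLocalRing.ResidueField A) (Fk (IsLocalRing.ResidueField A) N)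
          (jk (IsLocalRing.ResidueField A) N))) :
    ∃ w : R.O, R.red w = wb ∧ ∀ P : Place Kbar (FF N), ((w : R.O) : FF N) = 0 ∨
      0 ≤ P.ord ((w : R.O) : FF N) + P.ordDifferential (D Kbar (FF N) (jF N)) := by
  have : IsAlgClosed (IsLocalRing.ResidueField A) := isAlgClosed_residueField A
  have : Infinite (IsLocalRing.ResidueField A) := IsAlgClosed.instInfinite
  have hsepk : FFSep (IsLocalRing.ResidueField A) (jbarC (IsLocalRing.ResidueField A) N) :=
    mr_ffSep (IsLocalRing.ResidueField A) N
  have hgenk : ∀ v : Place (IsLocalRing.ResidueField A)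
      (Fk (IsLocalRing.ResidueField A) N), v.DCoordGenerates :=
    fun v => fsDCoordGenerates (x := jbarC (IsLocalRing.ResidueField A) N) v
  have : Nontrivial Ω[Fk (IsLocalRing.ResidueField A) N⁄IsLocalRing.ResidueField A] :=
    fsNontrivial_kaehler (K := IsLocalRing.ResidueField A)
      (x := jbarC (IsLocalRing.ResidueField A) N)
  have : Nontrivial Ω[FF N⁄Kbar] := mod_nontrivial_kaehler N
  have hgenK : ∀ v : Place Kbar (FF N), v.DCoordGenerates := fun v => mod_dCoordGenerates N v
  refine rdf_lift hgenK hgenk hr hg ⟨jF N, dw_jF_mem hR⟩ (dfr_D_jF_ne_zero N) ?_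
    (dfr_der N A hA R hR) wb ?_
  · rw [dw_red_jF hR]
    exact dfr_D_jk_ne_zero _ N
  · intro Q
    rw [dw_red_jF hR]
    exact hwb Q

end Modular

section Aux

variable (N : ℕ) [NeZero N] {ℓ : ℕ} [Fact ℓ.Prime] (hN : IsAuxLevel ℓ N)
  (A : ValuationSubring Kbar) (hA : A.LiesOverPrime ℓ)
  (R : ConstRed A (IsLocalRing.residue A) (Fk (IsLocalRing.ResidueField A) N) (FF N))
  (hR : IsSeriesRed R)

include hN hA in
/-- genus equality at an auxiliary level -/
theorem dfr_aux_genus_eq :
    genusFF (IsLocalRing.ResidueField A) (Fk (IsLocalRing.ResidueField A) N)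
      = genusFF Kbar (FF N) := by
  have : IsAlgClosed (IsLocalRing.ResidueField A) := isAlgClosed_residueField A
  have : Infinite (IsLocalRing.ResidueField A) := IsAlgClosed.instInfinite
  have : RRHyp Kbar (FF N) := mod_rrHyp N
  have : RRHyp (IsLocalRing.ResidueField A) (Fk (IsLocalRing.ResidueField A) N) :=
    mr_rrHyp (IsLocalRing.ResidueField A) N
  obtain ⟨R, -⟩ := exists_modConstRed N A (dw_ne_top Fact.out hA)
    (Fermat.Agent.GoodRed.hred_modL N hN.1 A hA)
  exact le_antisymm R.genusFF_le (genusFF_le_modL N hN A hA)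

include hN hA in
/-- at an auxiliary level there are a series reduction and a place reduction -/
theorem dfr_aux_exists :
    haveI : RRHyp Kbar (FF N) := mod_rrHyp N
    haveI : IsAlgClosed (IsLocalRing.ResidueField A) := isAlgClosed_residueField A
    haveI : RRHyp (IsLocalRing.ResidueField A) (Fk (IsLocalRing.ResidueField A) N) :=
      mr_rrHyp (IsLocalRing.ResidueField A) N
    ∃ R : ConstRed A (IsLocalRing.residue A) (Fk (IsLocalRing.ResidueField A) N) (FF N),
      IsSeriesRed R ∧ ∃ r : Place Kbar (FF N) →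
        Place (IsLocalRing.ResidueField A) (Fk (IsLocalRing.ResidueField A) N),
        R.IsPlaceRed r := by
  have : IsAlgClosed (IsLocalRing.ResidueField A) := isAlgClosed_residueField A
  have : Infinite (IsLocalRing.ResidueField A) := IsAlgClosed.instInfinite
  have : RRHyp Kbar (FF N) := mod_rrHyp N
  have : RRHyp (IsLocalRing.ResidueField A) (Fk (IsLocalRing.ResidueField A) N) :=
    mr_rrHyp (IsLocalRing.ResidueField A) N
  obtain ⟨R, hR⟩ := exists_modConstRed N A (dw_ne_top Fact.out hA)
    (Fermat.Agent.GoodRed.hred_modL N hN.1 A hA)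
  obtain ⟨r, hr, -⟩ := R.exists_isPlaceRed (genusFF_le_modL N hN A hA)
  exact ⟨R, hR, r, hr⟩

include hN hA hR in
/-- **(N3) direction at an auxiliary level**, for EVERY series reduction: if `w ∈ O` and `w dj`
is regular, then `red w · dj̄` is regular. -/
theorem dfr_aux_red_regular (w : R.O)
    (hw : ∀ P : Place Kbar (FF N), ((w : R.O) : FF N) = 0 ∨
      0 ≤ P.ord ((w : R.O) : FF N) + P.ordDifferential (D Kbar (FF N) (jF N)))
    (Q : Place (IsLocalRing.ResidueField A) (Fk (IsLocalRing.ResidueField A) N)) :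
    R.red w = 0 ∨ 0 ≤ Q.ord (R.red w) + Q.ordDifferential
      (D (IsLocalRing.ResidueField A) (Fk (IsLocalRing.ResidueField A) N)
        (jk (IsLocalRing.ResidueField A) N)) := by
  have : IsAlgClosed (IsLocalRing.ResidueField A) := isAlgClosed_residueField A
  have : Infinite (IsLocalRing.ResidueField A) := IsAlgClosed.instInfinite
  have : RRHyp Kbar (FF N) := mod_rrHyp N
  have : RRHyp (IsLocalRing.ResidueField A) (Fk (IsLocalRing.ResidueField A) N) :=
    mr_rrHyp (IsLocalRing.ResidueField A) N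
  have hg := genusFF_le_modL N hN A hA
  obtain ⟨r, hr, -⟩ := R.exists_isPlaceRed hg
  exact dfr_red_regular N A (dw_ne_top Fact.out hA) R hR r hr hg w hw Q

include hN hA hR in
/-- **(RD), lifting form, at an auxiliary level**, for EVERY series reduction. -/
theorem dfr_aux_lift (wb : Fk (IsLocalRing.ResidueField A) N)
    (hwb : ∀ Q : Place (IsLocalRing.ResidueField A) (Fk (IsLocalRing.ResidueField A) N),
      wb = 0 ∨ 0 ≤ Q.ord wb + Q.ordDifferential
        (D (IsLocalRing.ResidueField A) (Fk (IsLocalRing.ResidueField A) N)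
          (jk (IsLocalRing.ResidueField A) N))) :
    ∃ w : R.O, R.red w = wb ∧ ∀ P : Place Kbar (FF N), ((w : R.O) : FF N) = 0 ∨
      0 ≤ P.ord ((w : R.O) : FF N) + P.ordDifferential (D Kbar (FF N) (jF N)) := by
  have : IsAlgClosed (IsLocalRing.ResidueField A) := isAlgClosed_residueField A
  have : Infinite (IsLocalRing.ResidueField A) := IsAlgClosed.instInfinite
  have : RRHyp Kbar (FF N) := mod_rrHyp N
  have : RRHyp (IsLocalRing.ResidueField A) (Fk (IsLocalRing.ResidueField A) N) :=
    mr_rrHyp (IsLocalRing.ResidueField A) N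
  have hg := genusFF_le_modL N hN A hA
  obtain ⟨r, hr, -⟩ := R.exists_isPlaceRed hg
  exact dfr_lift N A (dw_ne_top Fact.out hA) R hR r hr hg wb hwb

end Aux

end Fermat.Agent.S40lib

end
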