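/-
Item 88 (S40), layer (LIFT), piece N1 (helper23): the char-0 dictionary "forms ⇒ differentials"
at GENERAL level `N` (generalising `S16lib.uer_exists_phi`, which was at level `p`).

For `f ∈ M₂(Γ₀(N))` with integer `q`-expansion `∑ a_n q^n`:
`φ = -f Δ / (E₄² E₆) = f / θ(j) ∈ FF N`, its `q`-expansion is the integral power series `y` with
`y E₄² E₆ = -f Δ`, and `φ dj` is regular at every place where `j` is regular
(`fdf_exists_phi_fin`), PROVIDED the three functions `ψ₀ ψ₁ ψ₂` are `ℚ̄`-rational at all cusps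
(`KRat`; the `q`-expansion principle, piece `FormKRat`).  At the cusps (`fdf_cusp_regular`):
`ord_P ψ₀ > ord_P j` ⇒ `φ dj` regular at `P`.
No sorry.
-/
import Mathlib
import Fermat.Agent.S16lib.UERFinal
import Fermat.Agent.RRlib.Hurwitz

set_option autoImplicit false

noncomputable section

namespace Fermat.Agent.S40lib

open UpperHalfPlane ModularForm CongruenceSubgroup ModularFormClass ModularCurve EisensteinSeries
open Fermat.Agent.S20lib Fermat.Agent.S24lib Fermat.Agent.S28lib Fermat.Agent.S16lib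
open AlgebraicCurve KaehlerDifferential ModularCurve.IgusaScheme
open scoped MatrixGroups ModularForm Manifold

variable {N : ℕ} [NeZero N]

/-! ### Invariance -/

theorem fdf_isMF {k : ℤ} (f : ModularForm (Gamma0 N) k) : IsMF (Gamma N) k ⇑f :=
  (isMF_of_modularForm f).mono (uw_Gamma_le_Gamma0 N)

theorem fdf_slash_inv (f : ModularForm (Gamma0 N) 2) (γ : SL(2, ℤ))
    (hγ : γ ∈ Gamma0 N) : ⇑f ∣[(2 : ℤ)] γ⁻¹ = ⇑f :=
  (isMF_of_modularForm f).inv γ⁻¹ (inv_mem hγ)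

theorem fdf_smul_psi0 (f : ModularForm (Gamma0 N) 2) (γ : SL(2, ℤ))
    (hγ : γ ∈ Gamma0 N) :
    γ • uerPsi0 N ⇑f (fdf_isMF f) = uerPsi0 N ⇑f (fdf_isMF f) := by
  rw [smul_uerPsi0]
  exact uerPsi0_congr _ _ (fdf_slash_inv f γ hγ)

theorem fdf_smul_psi1 (f : ModularForm (Gamma0 N) 2) (γ : SL(2, ℤ))
    (hγ : γ ∈ Gamma0 N) :
    γ • uerPsi1 N ⇑f (fdf_isMF f) = uerPsi1 N ⇑f (fdf_isMF f) := by
  rw [smul_uerPsi1]
  exact uerPsi1_congr _ _ (fdf_slash_inv f γ hγ)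

theorem fdf_smul_psi2 (f : ModularForm (Gamma0 N) 2) (γ : SL(2, ℤ))
    (hγ : γ ∈ Gamma0 N) :
    γ • uerPsi2 N ⇑f (fdf_isMF f) = uerPsi2 N ⇑f (fdf_isMF f) := by
  rw [smul_uerPsi2]
  exact uerPsi2_congr _ _ (fdf_slash_inv f γ hγ)

/-! ### Expansions at `∞` -/

theorem fdf_bridge_f (f : ModularForm (Gamma0 N) 2) (a : ℕ → ℤ)
    (hf : ∀ n : ℕ, qCoeff f n = (a n : ℂ)) :
    HahnSeries.ofPowerSeries ℤ ℂ (qExpansion (N : ℝ) ⇑f) = uerPhi N (sdQ (PowerSeries.mk a)) := by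
  refine uer_bridgeZ ⇑f (SlashInvariantFormClass.periodic_comp_ofComplex f
    (CongruenceSubgroup.one_mem_strictPeriods_Gamma0 N)) (isMF_of_modularForm f).holo ?_
    (PowerSeries.mk a) ?_
  · have := (isMF_of_modularForm f).bdd 1
    simpa using this
  · ext n
    rw [PowerSeries.coeff_map, PowerSeries.coeff_mk]
    exact hf n

section Exp

variable (f : ModularForm (Gamma0 N) 2) (a : ℕ → ℤ)
  (hf : ∀ n : ℕ, qCoeff f n = (a n : ℂ))

include hf

theorem fdf_expInf_psi0 :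
    expInf N (uerPsi0 N ⇑f (fdf_isMF f)) = uerPhi N (uerX0 a) := by
  unfold uerPsi0 uerX0
  rw [expInf_uerWH, qExpansion_uerG0 (fdf_isMF f), map_mul, map_mul, fdf_bridge_f f a hf,
    uer_bridge_levelOne E₄ sdE4 sd_qExpansion_E4, uer_bridge_levelOne E₆ sdE6 sd_qExpansion_E6,
    uer_deltaL_eq, sdQ_sdDelta, pow_one, div_eq_mul_inv, map_mul, map_mul, map_mul, map_inv₀]

theorem fdf_expInf_psi1 :
    expInf N (uerPsi1 N ⇑f (fdf_isMF f)) = uerPhi N (uerX1 a) := by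
  unfold uerPsi1 uerX1
  rw [expInf_uerWH, qExpansion_uerG1 (fdf_isMF f), map_pow, map_mul, fdf_bridge_f f a hf,
    uer_bridge_levelOne E₄ sdE4 sd_qExpansion_E4,
    uer_deltaL_eq, sdQ_sdDelta, pow_one, div_eq_mul_inv, map_mul, map_pow, map_mul, map_inv₀]

theorem fdf_expInf_psi2 :
    expInf N (uerPsi2 N ⇑f (fdf_isMF f)) = uerPhi N (uerX2 a) := by
  unfold uerPsi2 uerX2
  rw [expInf_uerWH, qExpansion_uerG2 (fdf_isMF f), map_pow, map_mul, fdf_bridge_f f a hf,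
    uer_bridge_levelOne E₆ sdE6 sd_qExpansion_E6,
    uer_deltaL_eq, sdQ_sdDelta, div_eq_mul_inv, map_mul, map_pow, map_mul, map_inv₀, map_pow,
    inv_pow]

/-! ### Membership -/

theorem fdfX0_mem : uerX0 a ∈ modularFunctionFieldFull N :=
  mem_full_of_expInf N (uerX0 a) _ (fdf_smul_psi0 f) (fdf_expInf_psi0 f a hf)

theorem fdfX1_mem : uerX1 a ∈ modularFunctionFieldFull N :=
  mem_full_of_expInf N (uerX1 a) _ (fdf_smul_psi1 f) (fdf_expInf_psi1 f a hf)

theorem fdfX2_mem : uerX2 a ∈ modularFunctionFieldFull N :=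
  mem_full_of_expInf N (uerX2 a) _ (fdf_smul_psi2 f) (fdf_expInf_psi2 f a hf)

end Exp

/-! ### The `q`-expansion principle as a hypothesis -/

/-- the `q`-expansion principle at level `N`: a `Γ₀(N)`-invariant weakly holomorphic function
with `ℚ`-rational expansion at `∞` is `ℚ̄`-rational at all cusps (provider: `FormKRat`). -/
def FdfKRat (N : ℕ) [NeZero N] : Prop :=
  ∀ (x : LaurentSeries ℚ) (a : WH N), (∀ γ ∈ Gamma0 N, γ • a = a) →
    expInf N a = qExpand ℂ N (coeffMap (algebraMap ℚ ℂ) x) → a ∈ KRat N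

section Int

variable (hK : FdfKRat N) (f : ModularForm (Gamma0 N) 2) (a : ℕ → ℤ)
  (hf : ∀ n : ℕ, qCoeff f n = (a n : ℂ))

include hK hf

theorem fdf_psi0_mem_KRat : uerPsi0 N ⇑f (fdf_isMF f) ∈ KRat N :=
  hK (uerX0 a) _ (fdf_smul_psi0 f) (fdf_expInf_psi0 f a hf)

theorem fdf_psi1_mem_KRat : uerPsi1 N ⇑f (fdf_isMF f) ∈ KRat N :=
  hK (uerX1 a) _ (fdf_smul_psi1 f) (fdf_expInf_psi1 f a hf)

theorem fdf_psi2_mem_KRat : uerPsi2 N ⇑f (fdf_isMF f) ∈ KRat N :=
  hK (uerX2 a) _ (fdf_smul_psi2 f) (fdf_expInf_psi2 f a hf)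

theorem fdfX0_isIntegral :
    IsIntegral ↥(Algebra.adjoin ℚ ({jFull N} : Set ↥(modularFunctionFieldFull N)))
      (⟨uerX0 a, fdfX0_mem f a hf⟩ : ↥(modularFunctionFieldFull N)) :=
  isIntegral_of_WH N _ _ (fdf_psi0_mem_KRat hK f a hf) (fdf_smul_psi0 f)
    (fdf_expInf_psi0 f a hf)

theorem fdfX1_isIntegral :
    IsIntegral ↥(Algebra.adjoin ℚ ({jFull N} : Set ↥(modularFunctionFieldFull N)))
      (⟨uerX1 a, fdfX1_mem f a hf⟩ : ↥(modularFunctionFieldFull N)) :=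
  isIntegral_of_WH N _ _ (fdf_psi1_mem_KRat hK f a hf) (fdf_smul_psi1 f)
    (fdf_expInf_psi1 f a hf)

theorem fdfX2_isIntegral :
    IsIntegral ↥(Algebra.adjoin ℚ ({jFull N} : Set ↥(modularFunctionFieldFull N)))
      (⟨uerX2 a, fdfX2_mem f a hf⟩ : ↥(modularFunctionFieldFull N)) :=
  isIntegral_of_WH N _ _ (fdf_psi2_mem_KRat hK f a hf) (fdf_smul_psi2 f)
    (fdf_expInf_psi2 f a hf)

end Int

/-! ### The finite places -/

/-- the function `φ = f/θ(j)` of a form with integer coefficients -/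
def fdfPhi (f : ModularForm (Gamma0 N) 2) (a : ℕ → ℤ)
    (hf : ∀ n : ℕ, qCoeff f n = (a n : ℂ)) : FF N :=
  -(toFF N ⟨uerX0 a, fdfX0_mem f a hf⟩) / (jF N * (jF N - algebraMap Kbar (FF N) 1728))

set_option synthInstance.maxHeartbeats 400000 in
/-- the expansion of `φ` -/
theorem fdfPhi_coe (f : ModularForm (Gamma0 N) 2) (a : ℕ → ℤ)
    (hf : ∀ n : ℕ, qCoeff f n = (a n : ℂ)) (y : PowerSeries ℤ)
    (hy : y * (sdE4 ^ 2 * sdE6) = -(PowerSeries.mk a * sdDelta)) :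
    (fdfPhi f a hf : LaurentSeries Kbar) =
      HahnSeries.ofPowerSeries ℤ Kbar (y.map (Int.castRingHom Kbar)) := by
  set ψ0 : ↥(modularFunctionFieldFull N) := ⟨uerX0 a, fdfX0_mem f a hf⟩ with hψ0
  have h1728 : toFF N (1728 : ↥(modularFunctionFieldFull N)) = algebraMap Kbar (FF N) 1728 := by
    rw [map_ofNat, map_ofNat]
  have e : fdfPhi f a hf = toFF N (-ψ0 / (jFull N * (jFull N - 1728))) := by
    unfold fdfPhi
    rw [map_div₀, map_neg, map_mul, map_sub, uer_toFF_jFull, h1728]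
  rw [e, coe_toFF]
  have e2 : ((-ψ0 / (jFull N * (jFull N - 1728)) : ↥(modularFunctionFieldFull N)) :
      LaurentSeries ℚ) = -uerX0 a / (jq * (jq - 1728)) := by
    push_cast
    rfl
  rw [e2, uerX_phi a y hy, coeffEmb_sdQ]

set_option synthInstance.maxHeartbeats 400000 in
/-- **N1, finite places**: `φ dj` is regular wherever `j` is. -/
theorem fdf_regular_fin (hK : FdfKRat N) (f : ModularForm (Gamma0 N) 2) (a : ℕ → ℤ)
    (hf : ∀ n : ℕ, qCoeff f n = (a n : ℂ)) (P : Place Kbar (FF N)) (hP : 0 ≤ P.ord (jF N)) :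
    0 ≤ P.ordDifferential (fdfPhi f a hf • D Kbar (FF N) (jF N)) := by
  set ψ0 : ↥(modularFunctionFieldFull N) := ⟨uerX0 a, fdfX0_mem f a hf⟩ with hψ0
  set ψ1 : ↥(modularFunctionFieldFull N) := ⟨uerX1 a, fdfX1_mem f a hf⟩ with hψ1
  set ψ2 : ↥(modularFunctionFieldFull N) := ⟨uerX2 a, fdfX2_mem f a hf⟩ with hψ2
  have hr1 : ψ0 ^ 2 = ψ1 * (jFull N - 1728) := by
    apply Subtype.ext
    push_cast
    exact uerX_rel1 a
  have hr2 : ψ0 ^ 3 = ψ2 * jFull N := by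
    apply Subtype.ext
    push_cast
    exact uerX_rel2 a
  have h1728 : toFF N (1728 : ↥(modularFunctionFieldFull N)) = algebraMap Kbar (FF N) 1728 := by
    rw [map_ofNat, map_ofNat]
  have hr1' : (toFF N ψ0) ^ 2 = toFF N ψ1 * (jF N - algebraMap Kbar (FF N) 1728) := by
    rw [← map_pow, hr1, map_mul, map_sub, uer_toFF_jFull, h1728]
  have hr2' : (toFF N ψ0) ^ 3 = toFF N ψ2 * jF N := by
    rw [← map_pow, hr2, map_mul, uer_toFF_jFull]
  exact uer_regular N _ _ _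
    (uer_isIntegral_toFF N ψ0 (fdfX0_isIntegral hK f a hf))
    (uer_isIntegral_toFF N ψ1 (fdfX1_isIntegral hK f a hf))
    (uer_isIntegral_toFF N ψ2 (fdfX2_isIntegral hK f a hf)) hr1' hr2' P hP

/-! ### The cusps -/

section CuspLocal

variable {K F : Type*} [Field K] [Field F] [Algebra K F] [CharZero K]
  [Fermat.Agent.RRlib.RRBase K F]

open Fermat.Agent.RRlib Fermat.Agent.FFlib in
/-- at a pole of `j`: `ord ψ₀ > ord j` ⇒ `(-ψ₀/(j (j - a))) dj` is regular. -/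
theorem fdf_cusp_local (v : Place K F) [v.DCoordGenerates] [Nontrivial Ω[F⁄K]]
    {j ψ₀ : F} (a : K) (hj : v.ord j < 0) (hdj : D K F j ≠ 0) (h : v.ord j < v.ord ψ₀) :
    0 ≤ v.ordDifferential ((-ψ₀ / (j * (j - algebraMap K F a))) • D K F j) := by
  rcases eq_or_ne ψ₀ 0 with rfl | hψ
  · rw [neg_zero, zero_div, zero_smul, Place.ordDifferential, Place.differentialCoeff_zero,
      v.ord_zero]
  have hj0 : j ≠ 0 := by
    rintro rfl
    rw [v.ord_zero] at hj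
    exact lt_irrefl _ hj
  have hja_ord : v.ord (j - algebraMap K F a) = v.ord j ∧ j - algebraMap K F a ≠ 0 := by
    by_cases ha : a = 0
    · subst ha
      rw [map_zero, sub_zero]
      exact ⟨rfl, hj0⟩
    · have hc0 : -algebraMap K F a ≠ 0 := by
        rw [Ne, neg_eq_zero, map_eq_zero]; exact ha
      have h1 : v.ord (j + -algebraMap K F a) = v.ord j :=
        hw_ord_add_eq_of_lt v hj0 hc0 (by rw [ffOrd_neg, ffOrd_algebraMap]; exact hj)
      rw [← sub_eq_add_neg] at h1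
      refine ⟨h1, ?_⟩
      intro h0
      rw [h0, v.ord_zero] at h1
      omega
  obtain ⟨hja1, hja⟩ := hja_ord
  have hφ : -ψ₀ / (j * (j - algebraMap K F a)) ≠ 0 :=
    div_ne_zero (neg_ne_zero.mpr hψ) (mul_ne_zero hj0 hja)
  have hordφ : v.ord (-ψ₀ / (j * (j - algebraMap K F a))) =
      v.ord ψ₀ - v.ord j - v.ord (j - algebraMap K F a) := by
    rw [div_eq_mul_inv, v.ord_mul (neg_ne_zero.mpr hψ) (inv_ne_zero (mul_ne_zero hj0 hja)),
      v.ord_inv, v.ord_mul hj0 hja, ffOrd_neg]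
    ring
  have hD : v.ordDifferential (D K F j) = v.ord j - 1 :=
    hw_ordDifferential_D_eq v (by exact_mod_cast hj.ne)
  rw [kl_ordDifferential_smul v hdj hφ, hordφ, hD, hja1]
  omega

end CuspLocal

/-- a power series without constant term has order `≥ 1` as a Laurent series -/
theorem fdf_order_ofPowerSeries (G : PowerSeries ℂ) (h0 : PowerSeries.coeff 0 G = 0)
    (hG : HahnSeries.ofPowerSeries ℤ ℂ G ≠ 0) :
    1 ≤ (HahnSeries.ofPowerSeries ℤ ℂ G).order := by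
  set x := HahnSeries.ofPowerSeries ℤ ℂ G with hx
  have h1 : x.coeff x.order ≠ 0 := fun h => hG (HahnSeries.coeff_order_eq_zero.1 h)
  by_contra hlt
  rw [not_le] at hlt
  apply h1
  by_cases hn : 0 ≤ x.order
  · have h00 : x.order = 0 := by omega
    rw [h00]
    have := HahnSeries.ofPowerSeries_apply_coeff (Γ := ℤ) G 0
    rw [Nat.cast_zero] at this
    rw [hx, this, h0]
  · exact uw_ofPowerSeries_coeff_neg _ (not_le.1 hn)

/-- **the cusp condition** for `ψ₀` of a form vanishing at all cusps: every conjugate has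
`q_N`-order `> -N`. -/
theorem fdf_hcusp {u : ℍ → ℂ} (hu : IsMF (Gamma N) 2 u)
    (hz : ∀ g : SL(2, ℤ), IsZeroAtImInfty (u ∣[(2 : ℤ)] g)) (g : SL(2, ℤ)) :
    -(N : ℤ) < (expInf N (g • uerPsi0 N u hu)).order := by
  have hN : (0 : ℤ) < (N : ℤ) := by exact_mod_cast Nat.pos_of_ne_zero (NeZero.ne N)
  rw [smul_uerPsi0]
  set u' : ℍ → ℂ := u ∣[(2 : ℤ)] g⁻¹ with hu'
  have hu'mf : IsMF (Gamma N) 2 u' := uer_isMF_slash' hu g⁻¹
  set s := expInf N (uerPsi0 N u' hu'mf) with hs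
  by_cases hs0 : s = 0
  · rw [hs0, HahnSeries.order_zero]
    omega
  have hmul : s * deltaL N = HahnSeries.ofPowerSeries ℤ ℂ
      (qExpansion (N : ℝ) u' * qExpansion (N : ℝ) ⇑E₄ * qExpansion (N : ℝ) ⇑E₆) := by
    rw [hs]
    unfold uerPsi0
    rw [← qExpansion_uerG0 hu'mf, ← expInf_uerWH_mul, pow_one]
  have hc0 : PowerSeries.coeff 0 (qExpansion (N : ℝ) u' * qExpansion (N : ℝ) ⇑E₄ *
      qExpansion (N : ℝ) ⇑E₆) = 0 := by
    have h1 : PowerSeries.coeff 0 (qExpansion (N : ℝ) u') = 0 := by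
      rw [UpperHalfPlane.qExpansion_coeff]
      have hNr : (0 : ℝ) < (N : ℝ) := by exact_mod_cast Nat.pos_of_ne_zero (NeZero.ne N)
      rw [iteratedDeriv_zero, (hz g⁻¹).cuspFunction_apply_zero hNr, mul_zero]
    rw [PowerSeries.coeff_zero_eq_constantCoeff_apply] at h1 ⊢
    rw [map_mul, map_mul, h1, zero_mul, zero_mul]
  have hne : s * deltaL N ≠ 0 := mul_ne_zero hs0 (deltaL_ne_zero N)
  have hord := HahnSeries.order_mul hs0 (deltaL_ne_zero N)
  rw [(deltaL_unit ⊤ N).2.2.1] at hord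
  have h1 := fdf_order_ofPowerSeries _ hc0 (by rw [← hmul]; exact hne)
  rw [← hmul, hord] at h1
  omega

/-! ### The final statement -/

/-- the cusp half as a hypothesis (provider: `FormDiffCusp.fdc_cusp`) -/
def FdfCusp (N : ℕ) [NeZero N] : Prop :=
  ∀ (x : ↥(modularFunctionFieldFull N)) (a : WH N), a ∈ KRat N →
    (∀ γ ∈ Gamma0 N, γ • a = a) →
    expInf N a = qExpand ℂ N (coeffMap (algebraMap ℚ ℂ) (x : LaurentSeries ℚ)) →
    (∀ g : SL(2, ℤ), -(N : ℤ) < (expInf N (g • a)).order) →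
    ∀ P : Place Kbar (FF N), P.ord (jF N) < 0 → P.ord (jF N) < P.ord (toFF N x)

/-- the modular form underlying a cusp form -/
def fdfOfCusp (f : CuspForm (Gamma0 N) 2) : ModularForm (Gamma0 N) 2 :=
  (isCF_of_cuspForm f).isMF.toModularForm

theorem fdfOfCusp_coe (f : CuspForm (Gamma0 N) 2) : ⇑(fdfOfCusp f) = ⇑f := rfl

set_option synthInstance.maxHeartbeats 400000 in
set_option maxHeartbeats 1000000 in
/-- **N1, cusps**: for a cusp form, `φ dj` is regular at the poles of `j`. -/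
theorem fdf_regular_cusp (hK : FdfKRat N) (hC : FdfCusp N) (f : CuspForm (Gamma0 N) 2)
    (a : ℕ → ℤ) (hf : ∀ n : ℕ, qCoeff (fdfOfCusp f) n = (a n : ℂ))
    (P : Place Kbar (FF N)) (hP : P.ord (jF N) < 0) :
    0 ≤ P.ordDifferential (fdfPhi (fdfOfCusp f) a hf • D Kbar (FF N) (jF N)) := by
  have hff := fin_ffData N
  have hrr := Fermat.Agent.RRlib.mod_rrHyp N
  have hdc := Fermat.Agent.RRlib.mod_dCoordGenerates N P
  have hnt := Fermat.Agent.RRlib.mod_nontrivial_kaehler N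
  have hz : ∀ g : SL(2, ℤ), IsZeroAtImInfty (⇑(fdfOfCusp f) ∣[(2 : ℤ)] g) :=
    fun g => (isCF_of_cuspForm f).zero g
  have h1 := hC ⟨uerX0 a, fdfX0_mem (fdfOfCusp f) a hf⟩ _
    (fdf_psi0_mem_KRat hK (fdfOfCusp f) a hf) (fdf_smul_psi0 (fdfOfCusp f))
    (fdf_expInf_psi0 (fdfOfCusp f) a hf) (fdf_hcusp (fdf_isMF (fdfOfCusp f)) hz) P hP
  exact fdf_cusp_local P (1728 : Kbar) hP (uer_D_jF_ne_zero N) h1

set_option synthInstance.maxHeartbeats 400000 in
set_option maxHeartbeats 1000000 in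
/-- **N1 (char-0 dictionary, forms ⇒ differentials), general level**: a cusp form of level
`Γ₀(N)` with integer `q`-coefficients `a` gives `φ = f/θ(j) ∈ FF N` with integral expansion `y`,
`y E₄² E₆ = -f Δ`, and `φ dj` REGULAR AT EVERY PLACE. -/
theorem fdf_main (hK : FdfKRat N) (hC : FdfCusp N) (f : CuspForm (Gamma0 N) 2)
    (a : ℕ → ℤ) (hf : ∀ n : ℕ, qCoeff f n = (a n : ℂ)) :
    ∃ (φ : FF N) (y : PowerSeries ℤ),
      (φ : LaurentSeries Kbar) = HahnSeries.ofPowerSeries ℤ Kbar (y.map (Int.castRingHom Kbar)) ∧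
      y * (sdE4 ^ 2 * sdE6) = -(PowerSeries.mk a * sdDelta) ∧
      ∀ P : Place Kbar (FF N), 0 ≤ P.ordDifferential (φ • D Kbar (FF N) (jF N)) := by
  obtain ⟨y, hy⟩ := uer_exists_y a
  have hf' : ∀ n : ℕ, qCoeff (fdfOfCusp f) n = (a n : ℂ) := hf
  refine ⟨fdfPhi (fdfOfCusp f) a hf', y, fdfPhi_coe _ a hf' y hy, hy, fun P => ?_⟩
  rcases le_or_gt 0 (P.ord (jF N)) with hP | hP
  · exact fdf_regular_fin hK _ a hf' P hP
  · exact fdf_regular_cusp hK hC f a hf' P hP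

end Fermat.Agent.S40lib

end
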