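/-
Item 88 (S40), layer (LIFT), piece N1-KRat (helper23): the `q`-EXPANSION PRINCIPLE at general
level `N`.

`fdk_mem_KRat` : a weakly holomorphic function `a ∈ WH N` whose expansion at `∞` is (the image of)
an element `x` of the function field `modularFunctionFieldFull N = ℚ(j(q^d) : d ∣ N)` has
`ℚ̄`-rational expansions at ALL cusps (`a ∈ KRat N`).
`fdk_KRat` : `FdfKRat N` (the hypothesis of `FormDiff.fdf_main`), via `mem_full_of_expInf`.

Proof: `x = P/Q` with `P, Q` polynomials in the `j(q^d)`; in `WH N`: `a · B = A` with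
`A, B ∈ KRat N` (`jdWH_mem_KRat`), `B ≠ 0`; conjugate by `g` and divide in `ℚ̄((q_N))`.
No sorry.
-/
import Mathlib
import Fermat.Agent.S40lib.FormDiff

set_option autoImplicit false

noncomputable section

namespace Fermat.Agent.S40lib

open UpperHalfPlane ModularForm CongruenceSubgroup ModularFormClass ModularCurve
open Fermat.Agent.S20lib Fermat.Agent.S24lib Fermat.Agent.S28lib Fermat.Agent.S16lib
open scoped MatrixGroups ModularForm Manifold

variable {N : ℕ} [NeZero N]

/-- a `ℚ̄`-rational series is the image of a series over `ℚ̄` -/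
theorem fdk_exists_coeffMap {s : LaurentSeries ℂ} (hs : IsKSeries s) :
    ∃ s' : LaurentSeries Kbar, coeffMap ιC s' = s := by
  choose c hc using hs
  refine ⟨⟨c, ?_⟩, ?_⟩
  · refine s.isPWO_support.mono ?_
    intro n hn
    simp only [Function.mem_support, ne_eq] at hn ⊢
    intro h0
    apply hn
    have := hc n
    rw [h0] at this
    exact ιC_injective (by rw [this, map_zero])
  · ext n
    rw [coeffMap_coeff]
    exact hc n

theorem fdk_isKSeries_coeffMap (s' : LaurentSeries Kbar) : IsKSeries (coeffMap ιC s') := by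
  intro n
  rw [coeffMap_coeff]
  exact ⟨_, rfl⟩

/-- `ℚ̄`-rational series are closed under division -/
theorem fdk_isKSeries_div {s t r : LaurentSeries ℂ} (ht : IsKSeries t) (hr : IsKSeries r)
    (ht0 : t ≠ 0) (h : s * t = r) : IsKSeries s := by
  obtain ⟨t', rfl⟩ := fdk_exists_coeffMap ht
  obtain ⟨r', rfl⟩ := fdk_exists_coeffMap hr
  have hs : s = coeffMap ιC (r' / t') := by
    rw [map_div₀, eq_div_iff ht0]
    exact h
  rw [hs]
  exact fdk_isKSeries_coeffMap _

theorem fdk_coeffMap_qExpand {R S : Type*} [CommRing R] [CommRing S] (f : R →+* S) (n : ℕ)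
    [NeZero n] (x : LaurentSeries R) : coeffMap f (qExpand R n x) = qExpand S n (coeffMap f x) := by
  ext k
  by_cases hk : (n : ℤ) ∣ k
  · obtain ⟨m, rfl⟩ := hk
    rw [coeffMap_coeff, qExpand_coeff_mul, qExpand_coeff_mul, coeffMap_coeff]
  · rw [coeffMap_coeff, qExpand_coeff_of_not_dvd n _ hk, qExpand_coeff_of_not_dvd n _ hk,
      map_zero]

/-- the fraction predicate -/
def FdkFrac (N : ℕ) [NeZero N] (x : LaurentSeries ℚ) : Prop :=
  ∃ A B : WH N, A ∈ KRat N ∧ B ∈ KRat N ∧ B ≠ 0 ∧ expInf N A = uerPhi N x * expInf N B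

theorem fdk_expInf_ne_zero {B : WH N} (hB : B ≠ 0) : expInf N B ≠ 0 := by
  intro h
  apply hB
  apply expInf_injective N
  rw [h, map_zero]

theorem fdk_mul_ne_zero {B₁ B₂ : WH N} (h1 : B₁ ≠ 0) (h2 : B₂ ≠ 0) : B₁ * B₂ ≠ 0 := by
  intro h
  have := congrArg (expInf N) h
  rw [map_mul, map_zero] at this
  rcases mul_eq_zero.mp this with h' | h'
  · exact fdk_expInf_ne_zero h1 h'
  · exact fdk_expInf_ne_zero h2 h'

theorem fdk_frac_of_mem (x : LaurentSeries ℚ) (hx : x ∈ modularFunctionFieldFull N) :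
    FdkFrac N x := by
  unfold modularFunctionFieldFull at hx
  induction hx using IntermediateField.adjoin_induction with
  | mem y hy =>
    obtain ⟨d, hd0, hd, rfl⟩ := hy
    refine ⟨jdWH N d hd, 1, jdWH_mem_KRat N d hd, (KRat N).one_mem, one_ne_zero, ?_⟩
    rw [map_one, mul_one, expInf_jdWH, uerPhi_apply, fdk_coeffMap_qExpand]
  | algebraMap c =>
    refine ⟨whC N (ιC (c : Kbar)), 1, whC_mem_KRat N _, (KRat N).one_mem, one_ne_zero, ?_⟩
    rw [map_one, mul_one, expInf_whC, eq_ratCast, map_ratCast, map_ratCast]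
    exact (map_ratCast (uerPhi N) c).symm
  | add y z _ _ hy hz =>
    obtain ⟨A₁, B₁, hA₁, hB₁, h1, e1⟩ := hy
    obtain ⟨A₂, B₂, hA₂, hB₂, h2, e2⟩ := hz
    refine ⟨A₁ * B₂ + A₂ * B₁, B₁ * B₂,
      (KRat N).add_mem ((KRat N).mul_mem hA₁ hB₂) ((KRat N).mul_mem hA₂ hB₁),
      (KRat N).mul_mem hB₁ hB₂, fdk_mul_ne_zero h1 h2, ?_⟩
    rw [map_add, map_mul, map_mul, map_mul, map_add, e1, e2]
    ring
  | inv y _ hy =>
    obtain ⟨A, B, hA, hB, h1, e1⟩ := hy
    by_cases hy0 : y = 0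
    · subst hy0
      refine ⟨0, 1, (KRat N).zero_mem, (KRat N).one_mem, one_ne_zero, ?_⟩
      rw [inv_zero, map_zero, map_zero, zero_mul]
    · have hΦ : uerPhi N y ≠ 0 := by
        intro h
        exact hy0 (uerPhi_injective N (by rw [h, map_zero]))
      have hA0 : A ≠ 0 := by
        rintro rfl
        rw [map_zero] at e1
        rcases mul_eq_zero.mp e1.symm with h' | h'
        · exact hΦ h'
        · exact fdk_expInf_ne_zero h1 h'
      refine ⟨B, A, hB, hA, hA0, ?_⟩
      rw [map_inv₀, e1, ← mul_assoc, inv_mul_cancel₀ hΦ, one_mul]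
  | mul y z _ _ hy hz =>
    obtain ⟨A₁, B₁, hA₁, hB₁, h1, e1⟩ := hy
    obtain ⟨A₂, B₂, hA₂, hB₂, h2, e2⟩ := hz
    refine ⟨A₁ * A₂, B₁ * B₂, (KRat N).mul_mem hA₁ hA₂, (KRat N).mul_mem hB₁ hB₂,
      fdk_mul_ne_zero h1 h2, ?_⟩
    rw [map_mul, map_mul, map_mul, e1, e2]
    ring

/-- **the `q`-expansion principle**, function-field form -/
theorem fdk_mem_KRat_of_mem (x : LaurentSeries ℚ) (hx : x ∈ modularFunctionFieldFull N)
    (a : WH N) (hexp : expInf N a = qExpand ℂ N (coeffMap (algebraMap ℚ ℂ) x)) :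
    a ∈ KRat N := by
  obtain ⟨A, B, hA, hB, hB0, e⟩ := fdk_frac_of_mem x hx
  have hAB : a * B = A := by
    apply expInf_injective N
    rw [map_mul, hexp, e, uerPhi_apply]
  intro g
  have h1 : expInf N (g • a) * expInf N (g • B) = expInf N (g • A) := by
    rw [← map_mul, ← smul_mul', hAB]
  have hgB : g • B ≠ 0 := by
    intro h
    exact hB0 ((smul_eq_zero_iff_eq g).mp h)
  exact fdk_isKSeries_div (hB g) (hA g) (fdk_expInf_ne_zero hgB) h1

/-- **the `q`-expansion principle at level `N`** -/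
theorem fdk_mem_KRat (x : LaurentSeries ℚ) (a : WH N)
    (hinv : ∀ γ ∈ Gamma0 N, γ • a = a)
    (hexp : expInf N a = qExpand ℂ N (coeffMap (algebraMap ℚ ℂ) x)) : a ∈ KRat N :=
  fdk_mem_KRat_of_mem x (mem_full_of_expInf N x a hinv hexp) a hexp

/-- the hypothesis `FdfKRat` of `FormDiff` holds -/
theorem fdk_KRat (N : ℕ) [NeZero N] : FdfKRat N :=
  fun x a hinv hexp => fdk_mem_KRat x a hinv hexp

end Fermat.Agent.S40lib

end
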