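/-
Item 88 (S40), layer (LIFT), piece N1 COMPLETE (helper23, with helper7's cusp half):
the char-0 dictionary "cusp forms ⇒ holomorphic differentials" at GENERAL level `N`,
UNCONDITIONAL.

`fda_main` : for a cusp form `f` of level `Γ₀(N)` with integer `q`-coefficients `a`:
`∃ φ ∈ FF N` with integral expansion `y`, `y E₄² E₆ = -f Δ` (i.e. `φ = f/θ(j)`), and
`φ dj` is regular at EVERY place of `FF N`.
No sorry.
-/
import Mathlib
import Fermat.Agent.S40lib.FormKRat
import Fermat.Agent.S40lib.FormDiffCusp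

set_option autoImplicit false

noncomputable section

namespace Fermat.Agent.S40lib

open UpperHalfPlane ModularForm CongruenceSubgroup ModularFormClass ModularCurve
open Fermat.Agent.S20lib Fermat.Agent.S24lib Fermat.Agent.S28lib Fermat.Agent.S16lib
open AlgebraicCurve KaehlerDifferential ModularCurve.IgusaScheme
open scoped MatrixGroups ModularForm Manifold

variable {N : ℕ} [NeZero N]

/-- the cusp hypothesis of `FormDiff` holds (helper7's `fdc_cusp`) -/
theorem fda_cusp (N : ℕ) [NeZero N] : FdfCusp N :=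
  fun x a ha hinv h hcusp => fdc_cusp N x a ha hinv h hcusp

set_option synthInstance.maxHeartbeats 400000 in
set_option maxHeartbeats 1000000 in
/-- **N1 (char-0 dictionary, forms ⇒ differentials), general level, UNCONDITIONAL.** -/
theorem fda_main (f : CuspForm (Gamma0 N) 2) (a : ℕ → ℤ)
    (hf : ∀ n : ℕ, qCoeff f n = (a n : ℂ)) :
    ∃ (φ : FF N) (y : PowerSeries ℤ),
      (φ : LaurentSeries Kbar) = HahnSeries.ofPowerSeries ℤ Kbar (y.map (Int.castRingHom Kbar)) ∧
      y * (sdE4 ^ 2 * sdE6) = -(PowerSeries.mk a * sdDelta) ∧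
      ∀ P : Place Kbar (FF N), 0 ≤ P.ordDifferential (φ • D Kbar (FF N) (jF N)) :=
  fdf_main (fdk_KRat N) (fda_cusp N) f a hf

set_option synthInstance.maxHeartbeats 400000 in
set_option maxHeartbeats 1000000 in
/-- the same for modular forms, at the places where `j` is regular -/
theorem fda_fin (f : ModularForm (Gamma0 N) 2) (a : ℕ → ℤ)
    (hf : ∀ n : ℕ, qCoeff f n = (a n : ℂ)) :
    ∃ (φ : FF N) (y : PowerSeries ℤ),
      (φ : LaurentSeries Kbar) = HahnSeries.ofPowerSeries ℤ Kbar (y.map (Int.castRingHom Kbar)) ∧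
      y * (sdE4 ^ 2 * sdE6) = -(PowerSeries.mk a * sdDelta) ∧
      ∀ P : Place Kbar (FF N), 0 ≤ P.ord (jF N) →
        0 ≤ P.ordDifferential (φ • D Kbar (FF N) (jF N)) := by
  obtain ⟨y, hy⟩ := uer_exists_y a
  exact ⟨fdfPhi f a hf, y, fdfPhi_coe f a hf y hy, hy,
    fun P hP => fdf_regular_fin (fdk_KRat N) f a hf P hP⟩

end Fermat.Agent.S40lib

end
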