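import Mathlib
import Fermat.Agent.S36lib.Speed
import Fermat.Agent.S40lib.LiftHub2
import Fermat.Agent.S40lib.FormDiffAll
import Fermat.Agent.S40lib.DiffRed
import Fermat.Agent.S16lib.UEMain

/-!
# Item 88 (row 38), layer (LIFT), piece N3 (helper25): the LATTICE of Block B.  Complete proofs.

`k` = residue field of a valuation ring `A ≠ ⊤` of `ℚ̄`, `R` a series reduction of `FF N` with
residue field `F_{N,k}`.

The reduction of a cusp form of level `N` with INTEGER `q`-expansion `∑ a_n q^n` is the
`q`-expansion (`lfhQ` of the hub `LiftHub.lean`) of a regular differential of `F_{N,k}`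
(`LfhIsDiff`), i.e. the hypothesis `hΛ` of `dfs_main` for `Dbar = {d | LfhIsDiff k N d}`.

* `dltT` : the integer power series `X · J' - J`, `J = jNum` (`j = q⁻¹ J`), so that
  `θ j = q⁻¹ (X J' - J)`;
* `DltRam` : **(RAM)** Ramanujan's identity `θ(j) · Δ = - E₄² E₆` in the form
  `dltT * dedekindEtaUnit = -(sdE4 ^ 2 * sdE6)` in `ℤ[[X]]` (EXPLICIT HYPOTHESIS);
* `DltReg N A R` : "`w ∈ O`, `w dj` regular ⇒ `red w · dj̄` regular" = the conclusion of
  `dfr_red_regular` (helper26) for all `w` (EXPLICIT HYPOTHESIS; `dlt_reg_of_genus` gives it from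
  a place reduction and the genus inequality at level `N`);
* `dlt_derivative_jq` : `d j̄ / dq = q⁻² · (X J' - J)` over any field;
* `dlt_main` : `DltRam → DltReg N A R → ∀ f a, (∀ n, qCoeff f n = a n) → LfhIsDiff k N (n ↦ a n)`.
-/

set_option autoImplicit false
set_option linter.style.haveILetI false
set_option linter.unusedSectionVars false
set_option linter.unusedVariables false
set_option synthInstance.maxHeartbeats 400000

noncomputable section

namespace Fermat.Agent.S40lib

open AlgebraicCurve KaehlerDifferential Fermat.Agent.RRlib Fermat.Agent.GoodRed ModularCurve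
  Fermat.Agent.S24lib Fermat.Agent.GM CongruenceSubgroup Fermat.Agent.S16lib Fermat.Agent.FFlib
  ModularFormClass

/-- the integer power series `X · J' - J` for `J = jNum` (coefficients `(n - 1) c_n`) -/
def dltT : PowerSeries ℤ := PowerSeries.mk fun n => ((n : ℤ) - 1) * PowerSeries.coeff n jNum

/-- **(RAM)**: Ramanujan's identity `θ(j) · Δ = - E₄² E₆` for the integral `q`-expansions -/
def DltRam : Prop := dltT * dedekindEtaUnit = -(sdE4 ^ 2 * sdE6)

/-- `d j̄ / dq = q⁻² · (X J' - J)` -/
theorem dlt_derivative_jq (k : Type*) [Field k] :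
    LaurentSeries.derivative k (jqModC k)
      = HahnSeries.single (-2 : ℤ) (1 : k)
          * HahnSeries.ofPowerSeries ℤ k (dltT.map (Int.castRingHom k)) := by
  ext n
  rw [lsCoeff_derivative, jqModC, HahnSeries.coeff_single_mul, HahnSeries.coeff_single_mul,
    one_mul, one_mul, PowerSeries.coeff_coe, PowerSeries.coeff_coe]
  have e1 : n + 1 - -1 = n + 2 := by ring
  have e2 : n - -2 = n + 2 := by ring
  rw [e1, e2]
  by_cases hn : n + 2 < 0
  · rw [if_pos hn, if_pos hn, mul_zero]
  · rw [if_neg hn, if_neg hn]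
    obtain ⟨m, hm⟩ := Int.eq_ofNat_of_zero_le (not_lt.1 hn)
    rw [hm, Int.natAbs_natCast, PowerSeries.coeff_map, PowerSeries.coeff_map, dltT,
      PowerSeries.coeff_mk, map_mul]
    congr 1
    rw [eq_intCast]
    have : (n + 1 : ℤ) = (m : ℤ) - 1 := by omega
    rw [this]

/-- from (RAM) and the relation `y E₄² E₆ = - f Δ`: `y · (X J' - J) = X · f` -/
theorem dlt_key (hram : DltRam) (y : PowerSeries ℤ) (a : ℕ → ℤ)
    (hy : y * (sdE4 ^ 2 * sdE6) = -(PowerSeries.mk a * sdDelta)) :
    y * dltT = PowerSeries.X * PowerSeries.mk a := by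
  have h1 : y * dltT * dedekindEtaUnit = PowerSeries.X * PowerSeries.mk a * dedekindEtaUnit := by
    rw [mul_assoc, hram, mul_neg, hy, neg_neg, sdDelta]
    ring
  have h2 := congrArg (fun z => z * dedekindEtaUnitInv) h1
  simp only [mul_assoc, dedekindEtaUnit_mul_inv, mul_one] at h2
  exact h2

section Main

variable (N : ℕ) [NeZero N] (A : ValuationSubring Kbar)

/-- "`w ∈ O` and `w dj` regular ⇒ `red w · dj̄` regular" (the conclusion of `dfr_red_regular`) -/
def DltReg (R : ConstRed A (IsLocalRing.residue A) (Fk (IsLocalRing.ResidueField A) N) (FF N)) :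
    Prop :=
  ∀ w : R.O,
    (∀ P : Place Kbar (FF N), ((w : R.O) : FF N) = 0 ∨
      0 ≤ P.ord ((w : R.O) : FF N) + P.ordDifferential (D Kbar (FF N) (jF N))) →
    ∀ Q : Place (IsLocalRing.ResidueField A) (Fk (IsLocalRing.ResidueField A) N),
      R.red w = 0 ∨ 0 ≤ Q.ord (R.red w) + Q.ordDifferential
        (D (IsLocalRing.ResidueField A) (Fk (IsLocalRing.ResidueField A) N)
          (jk (IsLocalRing.ResidueField A) N))

variable {N A}
variable {R : ConstRed A (IsLocalRing.residue A) (Fk (IsLocalRing.ResidueField A) N) (FF N)}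

/-- `DltReg` from a place reduction and the genus inequality at level `N` (helper26's
`dfr_red_regular`) -/
theorem dlt_reg_of_genus (hA : A ≠ ⊤) (hR : IsSeriesRed R)
    {r : Place Kbar (FF N) →
      Place (IsLocalRing.ResidueField A) (Fk (IsLocalRing.ResidueField A) N)}
    (hr :
      haveI : RRHyp Kbar (FF N) := mod_rrHyp N
      R.IsPlaceRed r)
    (hg :
      haveI : IsAlgClosed (IsLocalRing.ResidueField A) := isAlgClosed_residueField A
      haveI : RRHyp Kbar (FF N) := mod_rrHyp N
      haveI : RRHyp (IsLocalRing.ResidueField A) (Fk (IsLocalRing.ResidueField A) N) :=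
        mr_rrHyp (IsLocalRing.ResidueField A) N
      genusFF Kbar (FF N)
        ≤ genusFF (IsLocalRing.ResidueField A) (Fk (IsLocalRing.ResidueField A) N)) :
    DltReg N A R := by
  haveI : IsAlgClosed (IsLocalRing.ResidueField A) := isAlgClosed_residueField A
  haveI : RRHyp Kbar (FF N) := mod_rrHyp N
  haveI : RRHyp (IsLocalRing.ResidueField A) (Fk (IsLocalRing.ResidueField A) N) :=
    mr_rrHyp (IsLocalRing.ResidueField A) N
  intro w hw Q
  exact dfr_red_regular N A hA R hR r hr hg w hw Q

/-- **(N3)**: the reduction of a cusp form of level `N` with integer `q`-expansion is the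
`q`-expansion of a regular differential of `F_{N,k}`. -/
theorem dlt_main (hR : IsSeriesRed R) (hram : DltRam) (hreg : DltReg N A R)
    (f : CuspForm (Gamma0 N) 2) (a : ℕ → ℤ) (hf : ∀ n : ℕ, qCoeff f n = (a n : ℂ)) :
    LfhIsDiff (IsLocalRing.ResidueField A) N
      (fun n => ((a n : ℤ) : IsLocalRing.ResidueField A)) := by
  haveI : IsAlgClosed (IsLocalRing.ResidueField A) := isAlgClosed_residueField A
  haveI : RRHyp Kbar (FF N) := mod_rrHyp N
  haveI : RRHyp (IsLocalRing.ResidueField A) (Fk (IsLocalRing.ResidueField A) N) :=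
    mr_rrHyp (IsLocalRing.ResidueField A) N
  haveI hsepk : FFSep (IsLocalRing.ResidueField A) (jbarC (IsLocalRing.ResidueField A) N) :=
    mr_ffSep (IsLocalRing.ResidueField A) N
  haveI : Nontrivial Ω[Fk (IsLocalRing.ResidueField A) N⁄IsLocalRing.ResidueField A] :=
    fsNontrivial_kaehler (K := IsLocalRing.ResidueField A)
      (x := jbarC (IsLocalRing.ResidueField A) N)
  haveI : Nontrivial Ω[FF N⁄Kbar] := mod_nontrivial_kaehler N
  obtain ⟨φ, y, hφy, hyrel, hφreg⟩ := fda_main (N := N) f a hf
  obtain ⟨hφO, hφred⟩ := uem_mem_of_powerSeries hR φ y hφy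
  -- regularity upstairs, in the `ord + ordDifferential` form
  have hw : ∀ P : Place Kbar (FF N), (((⟨φ, hφO⟩ : R.O) : R.O) : FF N) = 0 ∨
      0 ≤ P.ord (((⟨φ, hφO⟩ : R.O) : R.O) : FF N)
        + P.ordDifferential (D Kbar (FF N) (jF N)) := by
    intro P
    haveI := mod_dCoordGenerates N P
    by_cases h0 : φ = 0
    · exact Or.inl h0
    · right
      have h1 := hφreg P
      rw [Place.ordDifferential_smul P h0
        (uew_differentialCoeff_ne_zero P (dfr_D_jF_ne_zero N))] at h1
      exact h1
  refine ⟨R.red ⟨φ, hφO⟩, fun v => ?_, ?_⟩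
  · -- regularity downstairs
    haveI := fsDCoordGenerates (x := jbarC (IsLocalRing.ResidueField A) N) v
    rcases hreg ⟨φ, hφO⟩ hw v with h0 | h
    · rw [h0, zero_smul, Place.ordDifferential, v.differentialCoeff_zero, v.ord_zero]
    · by_cases h0 : R.red ⟨φ, hφO⟩ = 0
      · rw [h0, zero_smul, Place.ordDifferential, v.differentialCoeff_zero, v.ord_zero]
      · rw [Place.ordDifferential_smul v h0
          (uew_differentialCoeff_ne_zero v (mr_D_jbarC_ne_zero (IsLocalRing.ResidueField A) N))]
        exact h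
  · -- the `q`-expansion
    funext n
    have hkey := congrArg (PowerSeries.map (Int.castRingHom (IsLocalRing.ResidueField A)))
      (dlt_key hram y a hyrel)
    rw [map_mul, map_mul, PowerSeries.map_X] at hkey
    show _ = ((R.red ⟨φ, hφO⟩ : LaurentSeries (IsLocalRing.ResidueField A))
      * LaurentSeries.derivative (IsLocalRing.ResidueField A)
          (jqModC (IsLocalRing.ResidueField A))).coeff ((n : ℤ) - 1)
    rw [hφred, dlt_derivative_jq, mul_left_comm, ← map_mul, hkey, HahnSeries.coeff_single_mul,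
      one_mul, PowerSeries.coeff_coe]
    have e : (n : ℤ) - 1 - -2 = ((n + 1 : ℕ) : ℤ) := by push_cast; ring
    rw [e, if_neg (by omega), Int.natAbs_natCast, PowerSeries.coeff_succ_X_mul,
      PowerSeries.coeff_map, PowerSeries.coeff_mk, eq_intCast]

end Main

end Fermat.Agent.S40lib

end
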