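import Mathlib
import Fermat.Agent.S36lib.Speed
import Fermat.Agent.GoodRed.Unique
import Fermat.Agent.GoodRed.DescDefs
import Fermat.Agent.S18lib.Crux
import Fermat.Prelude.Def_AlgebraicCurve_Correspondence

/-!
# Item 88 (S40), piece (P2)(b) BAR-ZERO, abstract part (helper13): reduction of correspondences

`K ⊃ A`, `k` the residue field; `F ⊂ F'` function fields over `K` with constant reductions
`R` (to `Fk`), `R'` (to `Fk'`), `Fk ⊂ Fk'`, such that the inclusion maps `R.O` into `R'.O` and
induces the inclusion on the reductions (`ConstRed.IsTower`); `r`, `r'` place reductions.  If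
`[F' : F] = [Fk' : Fk]` and the genus of `F` does not drop, then

* `rcr_pullback`    : `r'_* (π^* D) = π̄^* (r_* D)`            (from (F3) `W(D) = L(r_* D)` and degrees);
* `rcr_restrict`    : `r' w` lies over `r (w|_F)`;
* `rcr_pushforward` : `r_* (π_* D') = π̄_* (r'_* D')`;
* `rcr_surjective`, `rcr_principal` : `r` is surjective, `r_*` maps principal divisors to
  principal divisors;
* the `Along` forms for algebra homomorphisms `φ : F →ₐ[K] F'`, `φ̄ : Fk →ₐ[k] Fk'` and
  `rcr_correspondence` : `r_* ∘ corr(φ, ψ) = corr(φ̄, ψ̄) ∘ r_*`;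
* `rcr_barZero` : an additive operator `T` on `Div(F)` which maps `Div⁰` into the principal
  divisors and is intertwined by `r_*` with `Tbar` on `Div(Fk)`: `Tbar` maps `Div⁰(Fk)` into the
  principal divisors.
-/

set_option autoImplicit false
set_option linter.unusedSectionVars false
set_option linter.style.haveILetI false

noncomputable section

namespace Fermat.Agent.S40lib

open AlgebraicCurve Fermat.Agent.RRlib Fermat.Agent.GoodRed

section Core

variable {K F F' k Fk Fk' : Type*} [Field K] [Field F] [Field F'] [Field k] [Field Fk] [Field Fk']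
  [Algebra K F] [Algebra K F'] [Algebra F F'] [IsScalarTower K F F'] [Algebra.IsIntegral F F']
  [Algebra k Fk] [Algebra k Fk'] [Algebra Fk Fk'] [IsScalarTower k Fk Fk']
  [Algebra.IsIntegral Fk Fk']
  [HasPrincipalDivisors K F'] [HasPrincipalDivisors k Fk']
variable {A : ValuationSubring K} {π : A →+* k}

variable {R : ConstRed A π Fk F} {R' : ConstRed A π Fk' F'}

theorem rcr_pullback_nonneg {D : Divisor K F} (hD : 0 ≤ D) : 0 ≤ Divisor.pullback F' D := by
  intro w
  rw [Finsupp.zero_apply, Divisor.pullback_apply]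
  exact mul_nonneg (Int.natCast_nonneg _) (hD _)

/-- **(PB)** for a single place -/
theorem rcr_pullback_single [RRHyp K F] [RRHyp k Fk] [RRBase K F'] [RRBase k Fk']
    [FundamentalIdentity K F F'] [FundamentalIdentity k Fk Fk']
    (hO : R.IsTower R') {r : Place K F → Place k Fk} {r' : Place K F' → Place k Fk'}
    (hr : R.IsPlaceRed r) (hr' : R'.IsPlaceRed r') (hg : genusFF K F ≤ genusFF k Fk)
    (hdeg : Module.finrank F F' = Module.finrank Fk Fk') (P : Place K F) :
    Finsupp.mapDomain r' (Divisor.pullback F' (Finsupp.single P (1 : ℤ)))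
      = Divisor.pullback Fk' (Finsupp.single (r P) (1 : ℤ)) := by
  classical
  symm
  set Y₁ : Divisor k Fk' :=
    Finsupp.mapDomain r' (Divisor.pullback F' (Finsupp.single P (1 : ℤ))) with hY₁
  have hY₁nn : 0 ≤ Y₁ :=
    uq_mapDomain_nonneg r' (rcr_pullback_nonneg (F' := F') (by
      intro v
      rw [Finsupp.zero_apply, Finsupp.single_apply]
      split_ifs <;> omega))
  set n : ℕ := 2 * genusFF K F + 2 * genusFF k Fk + 1 with hn
  have hnpos : (0 : ℤ) < n := by rw [hn]; positivity
  set D : Divisor K F := n • Finsupp.single P (1 : ℤ) with hD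
  have hdegD : Divisor.degree D = (n : ℤ) := by
    rw [hD, map_nsmul, degree_single_one, nsmul_eq_mul, mul_one]
  have hDbig : 2 * (genusFF K F : ℤ) - 2 < Divisor.degree D := by
    rw [hdegD, hn]; push_cast; linarith
  have h1 := hr.W_eq' hg hDbig
  have hrD : Finsupp.mapDomain r D = n • Finsupp.single (r P) (1 : ℤ) := by
    rw [hD, uq_mapDomain_nsmul_single]
  rw [hrD] at h1
  have hX : 2 * (genusFF k Fk : ℤ) ≤ Divisor.degree (n • Finsupp.single (r P) (1 : ℤ)) := by
    rw [map_nsmul, degree_single_one, nsmul_eq_mul, mul_one, hn]; push_cast; linarith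
  obtain ⟨w, hw, hw0, hQ⟩ := exists_ord_eq_neg k Fk hX (r P)
  rw [Finsupp.smul_apply, Finsupp.single_eq_same, nsmul_eq_mul, mul_one] at hQ
  rw [← h1] at hw
  obtain ⟨x, hxL, hxw⟩ := (R.mem_W_iff D w).mp hw
  have hx0 : ((x : R.O) : F) ≠ 0 := by
    intro h
    apply hw0
    rw [← hxw, show x = 0 from Subtype.ext h, map_zero]
  -- the image of `x` in `F'`
  have hy'L : algebraMap F F' (x : F) ∈ riemannRochSpace (K := K) (Divisor.pullback F' D) := by
    rw [mem_riemannRochSpace_iff]
    intro v'
    right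
    rw [Divisor.pullback_apply, Place.ord_restrict]
    have hxv := (mem_riemannRochSpace_iff.mp hxL (v'.restrict F)).resolve_left hx0
    have he : (0 : ℤ) ≤ (Place.ramificationIndex (F := F) v' : ℤ) := Int.natCast_nonneg _
    nlinarith
  have hw' : algebraMap Fk Fk' w ∈ R'.W (Divisor.pullback F' D) := by
    rw [R'.mem_W_iff]
    refine ⟨⟨algebraMap F F' (x : F), hO.map_mem _ x.2⟩, hy'L, ?_⟩
    rw [hO.red_map (x : F) x.2, ← hxw]
  have hw'' := hr'.W_le _ hw'
  have hpbD : Finsupp.mapDomain r' (Divisor.pullback F' D) = n • Y₁ := by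
    rw [hD, map_nsmul, Finsupp.mapDomain_smul]
  rw [hpbD, mem_riemannRochSpace_iff] at hw''
  have hw'0 : algebraMap Fk Fk' w ≠ 0 := by simpa using hw0
  -- the inequality
  have hle : Divisor.pullback Fk' (Finsupp.single (r P) (1 : ℤ)) ≤ Y₁ := by
    intro Q'
    rw [Divisor.pullback_apply, Finsupp.single_apply]
    split_ifs with hQ'
    · have h2 := (hw'' Q').resolve_left hw'0
      rw [Place.ord_restrict, ← hQ', hQ, Finsupp.smul_apply, nsmul_eq_mul] at h2
      have : (Place.ramificationIndex (F := Fk) Q' : ℤ) * (n : ℤ) ≤ (n : ℤ) * Y₁ Q' := by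
        linarith
      rw [mul_one]
      nlinarith
    · rw [mul_zero]
      exact hY₁nn Q'
  refine eq_of_le_of_degree_le hle ?_
  rw [hY₁, uq_degree_mapDomain hr'.1, Divisor.degree_pullback, Divisor.degree_pullback,
    degree_single_one, degree_single_one, hdeg]

variable [RRHyp K F] [RRHyp k Fk] [RRBase K F'] [RRBase k Fk']
  [FundamentalIdentity K F F'] [FundamentalIdentity k Fk Fk']

/-- **(PB)**: `r'_* (π^* D) = π̄^* (r_* D)` -/
theorem rcr_pullback (hO : R.IsTower R') {r : Place K F → Place k Fk}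
    {r' : Place K F' → Place k Fk'}
    (hr : R.IsPlaceRed r) (hr' : R'.IsPlaceRed r') (hg : genusFF K F ≤ genusFF k Fk)
    (hdeg : Module.finrank F F' = Module.finrank Fk Fk') (D : Divisor K F) :
    Finsupp.mapDomain r' (Divisor.pullback F' D)
      = Divisor.pullback Fk' (Finsupp.mapDomain r D) := by
  induction D using Finsupp.induction_linear with
  | zero => simp
  | add D₁ D₂ h₁ h₂ =>
    rw [map_add, Finsupp.mapDomain_add, Finsupp.mapDomain_add, map_add, h₁, h₂]
  | single P m =>
    have hs : Finsupp.single P m = m • Finsupp.single P (1 : ℤ) := by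
      rw [Finsupp.smul_single, smul_eq_mul, mul_one]
    rw [hs, map_zsmul, Finsupp.mapDomain_smul, Finsupp.mapDomain_smul, map_zsmul,
      rcr_pullback_single hO hr hr' hg hdeg P, Finsupp.mapDomain_single]

/-- **(SET)**: `r' w` lies over `r (w|_F)` -/
theorem rcr_restrict (hO : R.IsTower R') {r : Place K F → Place k Fk}
    {r' : Place K F' → Place k Fk'}
    (hr : R.IsPlaceRed r) (hr' : R'.IsPlaceRed r') (hg : genusFF K F ≤ genusFF k Fk)
    (hdeg : Module.finrank F F' = Module.finrank Fk Fk') (w : Place K F') :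
    (r' w).restrict Fk = r (w.restrict F) := by
  classical
  have h := rcr_pullback_single hO hr hr' hg hdeg (w.restrict F)
  have h1 := DFunLike.congr_fun h (r' w)
  rw [Divisor.pullback_apply, Finsupp.single_apply] at h1
  by_contra hne
  rw [if_neg (fun h' => hne h'.symm), mul_zero] at h1
  -- the left hand side is positive
  set E : Divisor K F' := Divisor.pullback F' (Finsupp.single (w.restrict F) (1 : ℤ)) with hE
  have hEnn : 0 ≤ E := rcr_pullback_nonneg (F' := F') (by
    intro v
    rw [Finsupp.zero_apply, Finsupp.single_apply]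
    split_ifs <;> omega)
  have hEw : 0 < E w := by
    rw [hE, Divisor.pullback_apply, Finsupp.single_eq_same, mul_one]
    exact_mod_cast Place.ramificationIndex_pos (F := F) w
  have hwsupp : w ∈ E.support := Finsupp.mem_support_iff.mpr (ne_of_gt hEw)
  rw [uq_mapDomain_apply] at h1
  have hge : E w ≤ ∑ P ∈ E.support, if r' P = r' w then E P else 0 := by
    have hterm : E w = (if r' w = r' w then E w else 0) := by rw [if_pos rfl]
    rw [hterm]
    exact Finset.single_le_sum (f := fun P => if r' P = r' w then E P else 0)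
      (fun P _ => by
        show (0 : ℤ) ≤ if r' P = r' w then E P else 0
        split_ifs
        · exact hEnn P
        · exact le_rfl) hwsupp
  omega

theorem rcr_inertiaDeg_eq_one {K F F' : Type*} [Field K] [Field F] [Field F']
    [Algebra K F] [Algebra K F'] [Algebra F F'] [IsScalarTower K F F'] [Algebra.IsIntegral F F']
    [RRBase K F] [RRBase K F'] (w : Place K F') : w.inertiaDeg F = 1 := by
  have h := w.deg_restrict_mul_inertiaDeg (F := F)
  rw [deg_eq_one, deg_eq_one, one_mul] at h
  exact h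

/-- **(PF)**: `r_* (π_* D') = π̄_* (r'_* D')` -/
theorem rcr_pushforward (hO : R.IsTower R') {r : Place K F → Place k Fk}
    {r' : Place K F' → Place k Fk'}
    (hr : R.IsPlaceRed r) (hr' : R'.IsPlaceRed r') (hg : genusFF K F ≤ genusFF k Fk)
    (hdeg : Module.finrank F F' = Module.finrank Fk Fk') (D' : Divisor K F') :
    Finsupp.mapDomain r (Divisor.pushforward F D')
      = Divisor.pushforward Fk (Finsupp.mapDomain r' D') := by
  induction D' using Finsupp.induction_linear with
  | zero => simp
  | add D₁ D₂ h₁ h₂ =>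
    rw [map_add, Finsupp.mapDomain_add, Finsupp.mapDomain_add, map_add, h₁, h₂]
  | single w m =>
    rw [Divisor.pushforward_single, Finsupp.mapDomain_single, Finsupp.mapDomain_single,
      Divisor.pushforward_single, rcr_restrict hO hr hr' hg hdeg w, rcr_inertiaDeg_eq_one,
      rcr_inertiaDeg_eq_one]

end Core

section Single

variable {K F k Fk : Type*} [Field K] [Field F] [Field k] [Field Fk] [Algebra K F] [Algebra k Fk]
variable {A : ValuationSubring K} {π : A →+* k} {R : ConstRed A π Fk F}

/-- **(SURJ)**: a place reduction is surjective -/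
theorem rcr_surjective [RRBase K F] [RRBase k Fk] {r : Place K F → Place k Fk}
    (hr : R.IsPlaceRed r) : Function.Surjective r := by
  classical
  intro Q
  obtain ⟨ϖ, hϖ⟩ := IsDiscreteValuationRing.exists_irreducible Q.toValuationSubring
  have hQϖ : Q.ord ((ϖ : Q.toValuationSubring) : Fk) = 1 := Q.ord_coe_irreducible hϖ
  obtain ⟨y, hy⟩ := R.red_surjective ((ϖ : Q.toValuationSubring) : Fk)
  have hy0 : R.red y ≠ 0 := by
    rw [hy]
    intro h0
    rw [h0, Place.ord_zero] at hQϖ
    exact zero_ne_one hQϖ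
  have h := hr.2 y hy0 Q
  rw [hy, hQϖ, uq_mapDomain_apply] at h
  by_contra hne
  have hz : ∑ P ∈ (divOf (K := K) ((y : R.O) : F)).support,
      (if r P = Q then (divOf (K := K) ((y : R.O) : F)) P else 0) = 0 :=
    Finset.sum_eq_zero fun P _ => by
      rw [if_neg]
      intro hP
      exact hne ⟨P, hP⟩
  rw [hz] at h
  exact zero_ne_one h

/-- **(PRIN)**: `r_*` maps principal divisors to principal divisors -/
theorem rcr_principal [RRBase K F] [RRBase k Fk] {r : Place K F → Place k Fk}
    (hr : R.IsPlaceRed r) {D : Divisor K F} (hD : D ∈ Divisor.principal (K := K) (F := F)) :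
    Finsupp.mapDomain r D ∈ Divisor.principal (K := k) (F := Fk) := by
  obtain ⟨f, hf, hDf⟩ := hD
  obtain ⟨c, hc, hmem, hinv⟩ := R.exists_unit_smul f hf
  set y : R.O := ⟨algebraMap K F c * f, hmem⟩ with hy
  have hy0 : R.red y ≠ 0 := by
    intro h0
    have h1 : y * ⟨(algebraMap K F c * f)⁻¹, hinv⟩ = 1 := by
      apply Subtype.ext
      show algebraMap K F c * f * (algebraMap K F c * f)⁻¹ = 1
      rw [mul_inv_cancel₀]
      exact mul_ne_zero (by simpa using hc) hf
    have h2 := congrArg R.red h1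
    rw [map_mul, h0, zero_mul, map_one] at h2
    exact zero_ne_one h2
  have hc' : algebraMap K F c ≠ 0 := by simpa using hc
  have hDy : D = divOf (K := K) ((y : R.O) : F) := by
    ext v
    rw [hDf v, divOf_apply (mul_ne_zero hc' hf), v.ord_mul hc' hf, Fermat.Agent.S18lib.cxa_ord_const,
      zero_add]
  refine ⟨R.red y, hy0, fun Q => ?_⟩
  rw [hDy, hr.mapDomain_divOf y hy0, divOf_apply hy0]

/-- `T` and `Tbar` are intertwined by `r_*` -/
def RcrInter (r : Place K F → Place k Fk) (T : Divisor K F →+ Divisor K F)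
    (Tbar : Divisor k Fk →+ Divisor k Fk) : Prop :=
  ∀ D : Divisor K F, Finsupp.mapDomain r (T D) = Tbar (Finsupp.mapDomain r D)

theorem RcrInter.id (r : Place K F → Place k Fk) :
    RcrInter r (AddMonoidHom.id _) (AddMonoidHom.id _) := fun _ => rfl

theorem RcrInter.zero (r : Place K F → Place k Fk) : RcrInter r 0 0 := fun _ => by
  simp

theorem RcrInter.add {r : Place K F → Place k Fk} {T T' : Divisor K F →+ Divisor K F}
    {Tb Tb' : Divisor k Fk →+ Divisor k Fk} (h : RcrInter r T Tb) (h' : RcrInter r T' Tb') :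
    RcrInter r (T + T') (Tb + Tb') := fun D => by
  rw [AddMonoidHom.add_apply, AddMonoidHom.add_apply, Finsupp.mapDomain_add, h D, h' D]

theorem RcrInter.neg {r : Place K F → Place k Fk} {T : Divisor K F →+ Divisor K F}
    {Tb : Divisor k Fk →+ Divisor k Fk} (h : RcrInter r T Tb) :
    RcrInter r (-T) (-Tb) := fun D => by
  have hneg : Finsupp.mapDomain r (-(T D)) = -Finsupp.mapDomain r (T D) := by
    have h0 : Finsupp.mapDomain r (-(T D)) + Finsupp.mapDomain r (T D) = 0 := by
      rw [← Finsupp.mapDomain_add, neg_add_cancel, Finsupp.mapDomain_zero]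
    exact eq_neg_of_add_eq_zero_left h0
  rw [AddMonoidHom.neg_apply, AddMonoidHom.neg_apply, hneg, h D]

theorem RcrInter.sub {r : Place K F → Place k Fk} {T T' : Divisor K F →+ Divisor K F}
    {Tb Tb' : Divisor k Fk →+ Divisor k Fk} (h : RcrInter r T Tb) (h' : RcrInter r T' Tb') :
    RcrInter r (T - T') (Tb - Tb') := by
  rw [sub_eq_add_neg, sub_eq_add_neg]
  exact h.add h'.neg

theorem RcrInter.comp {r : Place K F → Place k Fk} {T T' : Divisor K F →+ Divisor K F}
    {Tb Tb' : Divisor k Fk →+ Divisor k Fk} (h : RcrInter r T Tb) (h' : RcrInter r T' Tb') :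
    RcrInter r (T.comp T') (Tb.comp Tb') := fun D => by
  rw [AddMonoidHom.comp_apply, AddMonoidHom.comp_apply, h (T' D), h' D]

theorem RcrInter.nsmul {r : Place K F → Place k Fk} {T : Divisor K F →+ Divisor K F}
    {Tb : Divisor k Fk →+ Divisor k Fk} (h : RcrInter r T Tb) (n : ℕ) :
    RcrInter r (n • T) (n • Tb) := by
  induction n with
  | zero => rw [zero_nsmul, zero_nsmul]; exact RcrInter.zero r
  | succ n ih => rw [succ_nsmul, succ_nsmul]; exact ih.add h

theorem RcrInter.zsmul {r : Place K F → Place k Fk} {T : Divisor K F →+ Divisor K F}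
    {Tb : Divisor k Fk →+ Divisor k Fk} (h : RcrInter r T Tb) (n : ℤ) :
    RcrInter r (n • T) (n • Tb) := by
  obtain ⟨m, rfl | rfl⟩ := n.eq_nat_or_neg
  · rw [natCast_zsmul, natCast_zsmul]; exact h.nsmul m
  · rw [neg_smul, neg_smul, natCast_zsmul, natCast_zsmul]; exact (h.nsmul m).neg

/-- **(BAR-ZERO)**, abstract form: if `T` maps the divisors of degree `0` of `F` to principal
divisors and `r_* ∘ T = Tbar ∘ r_*`, then `Tbar` maps the divisors of degree `0` of `Fk` to
principal divisors. -/
theorem rcr_barZero [RRBase K F] [RRBase k Fk] {r : Place K F → Place k Fk}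
    (hr : R.IsPlaceRed r) {T : Divisor K F →+ Divisor K F}
    {Tbar : Divisor k Fk →+ Divisor k Fk} (hcomm : RcrInter r T Tbar)
    (hT : ∀ D : Divisor K F, Divisor.degree D = 0 → T D ∈ Divisor.principal (K := K) (F := F))
    (Dbar : Divisor k Fk) (hDbar : Divisor.degree Dbar = 0) :
    Tbar Dbar ∈ Divisor.principal (K := k) (F := Fk) := by
  classical
  set s : Place k Fk → Place K F := Function.surjInv (rcr_surjective hr) with hs
  have hrs : r ∘ s = id := funext fun Q => Function.surjInv_eq (rcr_surjective hr) Q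
  set D : Divisor K F := Finsupp.mapDomain s Dbar with hD
  have hrD : Finsupp.mapDomain r D = Dbar := by
    rw [hD, ← Finsupp.mapDomain_comp, hrs, Finsupp.mapDomain_id]
  have hdeg : Divisor.degree D = 0 := by
    rw [← uq_degree_mapDomain (r := r) hr.1 D, hrD, hDbar]
  have h := rcr_principal hr (hT D hdeg)
  rwa [hcomm D, hrD] at h

end Single

section Along

variable {K F F' k Fk Fk' : Type*} [Field K] [Field F] [Field F'] [Field k] [Field Fk] [Field Fk']
  [Algebra K F] [Algebra K F'] [Algebra k Fk] [Algebra k Fk']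
  [HasPrincipalDivisors K F'] [HasPrincipalDivisors k Fk']
variable {A : ValuationSubring K} {π : A →+* k}
variable {R : ConstRed A π Fk F} {R' : ConstRed A π Fk' F'}

/-- `φ̄` is the reduction of `φ` -/
structure RcrRedOf (R : ConstRed A π Fk F) (R' : ConstRed A π Fk' F')
    (φ : F →ₐ[K] F') (φbar : Fk →ₐ[k] Fk') : Prop where
  map_mem : ∀ x : F, x ∈ R.O → φ x ∈ R'.O
  red_map : ∀ (x : F) (hx : x ∈ R.O), R'.red ⟨φ x, map_mem x hx⟩ = φbar (R.red ⟨x, hx⟩)

theorem RcrRedOf.isTower {φ : F →ₐ[K] F'} {φbar : Fk →ₐ[k] Fk'} (h : RcrRedOf R R' φ φbar) :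
    letI := algebraAlong φ
    letI := algebraAlong φbar
    R.IsTower R' :=
  letI := algebraAlong φ
  letI := algebraAlong φbar
  ⟨h.map_mem, h.red_map⟩

variable [RRHyp K F] [RRHyp k Fk] [RRBase K F'] [RRBase k Fk']

/-- **(PB)**, `Along` form -/
theorem rcr_pullbackAlong {φ : F →ₐ[K] F'} {φbar : Fk →ₐ[k] Fk'}
    (hφ : φ.toRingHom.IsIntegral) (hφbar : φbar.toRingHom.IsIntegral)
    (hFI : FundamentalIdentityAlong K φ hφ) (hFIbar : FundamentalIdentityAlong k φbar hφbar)
    (hdeg : finrankAlong K φ = finrankAlong k φbar) (hO : RcrRedOf R R' φ φbar)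
    {r : Place K F → Place k Fk} {r' : Place K F' → Place k Fk'}
    (hr : R.IsPlaceRed r) (hr' : R'.IsPlaceRed r') (hg : genusFF K F ≤ genusFF k Fk)
    (D : Divisor K F) :
    Finsupp.mapDomain r' (Divisor.pullbackAlong φ hφ D)
      = Divisor.pullbackAlong φbar hφbar (Finsupp.mapDomain r D) := by
  letI := algebraAlong φ
  haveI := isScalarTower_along φ
  haveI := isIntegral_along φ hφ
  letI := algebraAlong φbar
  haveI := isScalarTower_along φbar
  haveI := isIntegral_along φbar hφbar
  haveI : FundamentalIdentity K F F' := hFI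
  haveI : FundamentalIdentity k Fk Fk' := hFIbar
  exact rcr_pullback hO.isTower hr hr' hg hdeg D

/-- **(PF)**, `Along` form -/
theorem rcr_pushforwardAlong {φ : F →ₐ[K] F'} {φbar : Fk →ₐ[k] Fk'}
    (hφ : φ.toRingHom.IsIntegral) (hφbar : φbar.toRingHom.IsIntegral)
    (hFI : FundamentalIdentityAlong K φ hφ) (hFIbar : FundamentalIdentityAlong k φbar hφbar)
    (hdeg : finrankAlong K φ = finrankAlong k φbar) (hO : RcrRedOf R R' φ φbar)
    {r : Place K F → Place k Fk} {r' : Place K F' → Place k Fk'}
    (hr : R.IsPlaceRed r) (hr' : R'.IsPlaceRed r') (hg : genusFF K F ≤ genusFF k Fk)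
    (D' : Divisor K F') :
    Finsupp.mapDomain r (Divisor.pushforwardAlong φ hφ D')
      = Divisor.pushforwardAlong φbar hφbar (Finsupp.mapDomain r' D') := by
  letI := algebraAlong φ
  haveI := isScalarTower_along φ
  haveI := isIntegral_along φ hφ
  letI := algebraAlong φbar
  haveI := isScalarTower_along φbar
  haveI := isIntegral_along φbar hφbar
  haveI : FundamentalIdentity K F F' := hFI
  haveI : FundamentalIdentity k Fk Fk' := hFIbar
  exact rcr_pushforward hO.isTower hr hr' hg hdeg D'

/-- **(CORR)**: `r_* ∘ corr(φ, ψ) = corr(φ̄, ψ̄) ∘ r_*` -/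
theorem rcr_correspondence {φ ψ : F →ₐ[K] F'} {φbar ψbar : Fk →ₐ[k] Fk'}
    (hφ : φ.toRingHom.IsIntegral) (hφbar : φbar.toRingHom.IsIntegral)
    (hψ : ψ.toRingHom.IsIntegral) (hψbar : ψbar.toRingHom.IsIntegral)
    (hFIφ : FundamentalIdentityAlong K φ hφ) (hFIφbar : FundamentalIdentityAlong k φbar hφbar)
    (hFIψ : FundamentalIdentityAlong K ψ hψ) (hFIψbar : FundamentalIdentityAlong k ψbar hψbar)
    (hdegφ : finrankAlong K φ = finrankAlong k φbar)
    (hdegψ : finrankAlong K ψ = finrankAlong k ψbar)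
    (hOφ : RcrRedOf R R' φ φbar) (hOψ : RcrRedOf R R' ψ ψbar)
    {r : Place K F → Place k Fk} {r' : Place K F' → Place k Fk'}
    (hr : R.IsPlaceRed r) (hr' : R'.IsPlaceRed r') (hg : genusFF K F ≤ genusFF k Fk) :
    RcrInter r (Divisor.correspondence φ ψ hφ hψ) (Divisor.correspondence φbar ψbar hφbar hψbar) := by
  intro D
  rw [Divisor.correspondence_apply, Divisor.correspondence_apply,
    rcr_pushforwardAlong hψ hψbar hFIψ hFIψbar hdegψ hOψ hr hr' hg,
    rcr_pullbackAlong hφ hφbar hFIφ hFIφbar hdegφ hOφ hr hr' hg]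

end Along

end Fermat.Agent.S40lib

end
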