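import Mathlib
import Fermat.Agent.S36lib.Speed
import Fermat.Agent.GoodRed.Descent
import Fermat.Agent.GoodRed.Polar
import Fermat.Agent.GoodRed.Unique
import Fermat.Agent.S40lib.RedCorr

/-!
# Item 88 (S40), layer (LIFT), bypass of the open piece (G) (helper9):
# lifts of uniformisers at EVERY level, by norm descent

`F ⊂ F'`, `Fk ⊂ Fk'` a tower of constant reductions with the descent data of GOODRED-a
(`ConstRed.DescentData`: (F3) at the UPPER level only, norm formulas).  No hypothesis on the genus
of `F`, `Fk`, no tameness.  For every place `Q` of `Fk` there is `t ∈ R.O` without poles on the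
residue disc `r⁻¹ Q` whose reduction is a uniformiser at `Q`:
`t = N_{F'/F} t'`, where `t' ∈ R'.O` lifts (by (F3)) a function `w` of `Fk'` which is a
uniformiser at ONE place `Q₁` over `Q`, a unit at the other places over `Q`, with poles only at one
place not over `Q`.

* `dfl_bad_subsingleton` : at most one constant `c` makes `w + c w'` vanish to higher order;
* `dfl_multi`   : `L(X)` has no base point on a finite set (`deg X ≥ 2g`, `K` infinite);
* `dfl_hlift`   : the lift; it is the hypothesis `hlift` of `DiffRed.dfr_regular`.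
-/

set_option autoImplicit false
set_option linter.unusedSectionVars false
set_option linter.style.haveILetI false

noncomputable section

namespace Fermat.Agent.S40lib

open AlgebraicCurve Fermat.Agent.RRlib Fermat.Agent.GoodRed Fermat.Agent.S24lib

section Multi

variable {K F : Type*} [Field K] [Field F] [Algebra K F]

/-- `f = 0` or `ord_v f > a` is stable under differences and constant multiples -/
lemma dfl_gt_sub (v : Place K F) {a : ℤ} {f g : F} (hf : f = 0 ∨ a < v.ord f)
    (hg : g = 0 ∨ a < v.ord g) : f - g = 0 ∨ a < v.ord (f - g) := by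
  by_cases h0 : f - g = 0
  · exact Or.inl h0
  right
  rw [sub_eq_add_neg] at h0 ⊢
  have h1 : a + 1 ≤ v.ord (f + -g) := by
    refine ffOrd_add_ge v h0 ?_ ?_
    · rcases hf with hf | hf
      · exact Or.inl hf
      · exact Or.inr (by omega)
    · rcases hg with hg | hg
      · left
        rw [hg, neg_zero]
      · right
        rw [ffOrd_neg]
        omega
  omega

lemma dfl_gt_smul (v : Place K F) {a : ℤ} {f : F} (c : K) (hf : f = 0 ∨ a < v.ord f) :
    algebraMap K F c * f = 0 ∨ a < v.ord (algebraMap K F c * f) := by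
  rcases hf with hf | hf
  · left
    rw [hf, mul_zero]
  by_cases hc : algebraMap K F c = 0
  · left
    rw [hc, zero_mul]
  by_cases hf0 : f = 0
  · left
    rw [hf0, mul_zero]
  right
  rw [v.ord_mul hc hf0, ffOrd_algebraMap, zero_add]
  exact hf

/-- at most one constant `c` makes `w + c w'` vanish to order `> a`, if `w` or `w'` has order
exactly `a` -/
theorem dfl_bad_subsingleton (v : Place K F) {w w' : F} {a : ℤ}
    (hex : (w ≠ 0 ∧ v.ord w = a) ∨ (w' ≠ 0 ∧ v.ord w' = a)) :
    {c : K | w + algebraMap K F c * w' = 0 ∨ a < v.ord (w + algebraMap K F c * w')}.Subsingleton := by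
  intro c hc c' hc'
  by_contra hne
  have hd : c - c' ≠ 0 := sub_ne_zero.mpr hne
  have h1 := dfl_gt_sub v hc hc'
  have e1 : (w + algebraMap K F c * w') - (w + algebraMap K F c' * w')
      = algebraMap K F (c - c') * w' := by
    rw [map_sub]
    ring
  rw [e1] at h1
  have h2 := dfl_gt_smul v (c - c')⁻¹ h1
  have e2 : algebraMap K F (c - c')⁻¹ * (algebraMap K F (c - c') * w') = w' := by
    rw [← mul_assoc, ← map_mul, inv_mul_cancel₀ hd, map_one, one_mul]
  rw [e2] at h2
  rcases hex with ⟨hw0, hwa⟩ | ⟨hw'0, hw'a⟩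
  · have h3 := dfl_gt_sub v hc (dfl_gt_smul v c h2)
    rw [add_sub_cancel_right] at h3
    rcases h3 with h3 | h3
    · exact hw0 h3
    · omega
  · rcases h2 with h2 | h2
    · exact hw'0 h2
    · omega

/-- **`L(X)` has no base point on a finite set** (`deg X ≥ 2g`, infinite constant field) -/
theorem dfl_multi [RRHyp K F] [Infinite K] {X : Divisor K F}
    (hX : 2 * (genusFF K F : ℤ) ≤ Divisor.degree X) (T : Finset (Place K F)) :
    ∃ w ∈ riemannRochSpace (K := K) X, w ≠ 0 ∧ ∀ Q ∈ T, Q.ord w = -X Q := by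
  classical
  induction T using Finset.induction_on with
  | empty =>
    obtain ⟨P⟩ := RRBase.nonempty_place (K := K) (F := F)
    obtain ⟨w, hw, hw0, -⟩ := exists_ord_eq_neg K F hX P
    exact ⟨w, hw, hw0, fun Q hQ => absurd hQ (Finset.notMem_empty Q)⟩
  | insert Q T hQT ih =>
    obtain ⟨w, hw, hw0, hwT⟩ := ih
    obtain ⟨w', hw', hw'0, hw'Q⟩ := exists_ord_eq_neg K F hX Q
    have hwge : ∀ v : Place K F, -X v ≤ v.ord w := fun v =>
      ((mem_riemannRochSpace_iff.mp hw) v).resolve_left hw0
    have hw'ge : ∀ v : Place K F, -X v ≤ v.ord w' := fun v =>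
      ((mem_riemannRochSpace_iff.mp hw') v).resolve_left hw'0
    set B : Place K F → Set K := fun v =>
      {c : K | w + algebraMap K F c * w' = 0 ∨ -X v < v.ord (w + algebraMap K F c * w')} with hB
    have hBfin : ∀ v ∈ insert Q T, (B v).Finite := by
      intro v hv
      apply Set.Subsingleton.finite
      rcases Finset.mem_insert.mp hv with rfl | hvT
      · exact dfl_bad_subsingleton v (Or.inr ⟨hw'0, hw'Q⟩)
      · exact dfl_bad_subsingleton v (Or.inl ⟨hw0, hwT v hvT⟩)
    have hUfin : (⋃ v ∈ insert Q T, B v).Finite :=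
      Set.Finite.biUnion (Finset.finite_toSet _) hBfin
    obtain ⟨c, hc⟩ := hUfin.infinite_compl.nonempty
    have hc' : ∀ v ∈ insert Q T, c ∉ B v := by
      intro v hv hcv
      apply hc
      exact Set.mem_biUnion (Finset.mem_coe.mpr hv) hcv
    have hmem : w + algebraMap K F c * w' ∈ riemannRochSpace (K := K) X := by
      refine Submodule.add_mem _ hw ?_
      have := Submodule.smul_mem (riemannRochSpace (K := K) X) c hw'
      rwa [Algebra.smul_def] at this
    have hne : w + algebraMap K F c * w' ≠ 0 := by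
      intro h0
      exact hc' Q (Finset.mem_insert_self Q T) (Or.inl h0)
    refine ⟨_, hmem, hne, fun v hv => ?_⟩
    have h1 : -X v ≤ v.ord (w + algebraMap K F c * w') :=
      ((mem_riemannRochSpace_iff.mp hmem) v).resolve_left hne
    have h2 : ¬ (-X v < v.ord (w + algebraMap K F c * w')) := fun h =>
      hc' v hv (Or.inr h)
    omega

end Multi

section Lift

variable {K F F' k Fk Fk' : Type*} [Field K] [Field F] [Field F'] [Algebra K F] [Algebra K F']
  [Algebra F F'] [IsScalarTower K F F']
  [Field k] [Field Fk] [Field Fk'] [Algebra k Fk] [Algebra k Fk'] [Algebra Fk Fk']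
  [IsScalarTower k Fk Fk']
variable {A : ValuationSubring K} {π : A →+* k}
variable {R : ConstRed A π Fk F} {R' : ConstRed A π Fk' F'}
variable [RRHyp K F'] [RRHyp k Fk'] [RRHyp k Fk] [Algebra.IsIntegral F F']
  [Algebra.IsIntegral Fk Fk'] [FiniteDimensional F F'] [FiniteDimensional Fk Fk']
  {r' : Place K F' → Place k Fk'} {x : R.O}

/-- **lift of a uniformiser without poles on the residue disc**, at the lower level of a tower
with descent data; no hypothesis on the genus of the lower level. -/
theorem dfl_hlift [RRBase K F] [Infinite k] (h : ConstRed.DescentData R R' r' x)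
    {r : Place K F → Place k Fk}
    (hrr : ∀ P' : Place K F', r (P'.restrict F) = (r' P').restrict Fk) (Q : Place k Fk) :
    ∃ t : R.O, Q.ord (R.red t) = 1 ∧ ∀ P, r P = Q → 0 ≤ P.ord (t : F) := by
  classical
  haveI := hasPrincipalDivisors_of_rrBase K F'
  haveI := hasPrincipalDivisors_of_rrBase k Fk'
  obtain ⟨Q1, hQ1⟩ := ds_exists_restrict_eq h.norm_k Q
  set T : Finset (Place k Fk') := Q.fiber Fk' with hT
  have hQ1T : Q1 ∈ T := Place.mem_fiber.mpr hQ1
  obtain ⟨Qinf, hQinf⟩ := exists_place_notMem (K := k) (F := Fk') T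
  obtain ⟨Pinf, hPinf⟩ := rcr_surjective h.isPlaceRed Qinf
  have hne1 : Qinf ≠ Q1 := fun h0 => hQinf (h0 ▸ hQ1T)
  set n : ℕ := 2 * genusFF K F' + 2 * genusFF k Fk' + 1 with hn
  set X : Divisor k Fk' := n • Finsupp.single Qinf (1 : ℤ) - Finsupp.single Q1 (1 : ℤ) with hXdef
  have hdegX : Divisor.degree X = (n : ℤ) - 1 := by
    rw [hXdef, map_sub, map_nsmul, degree_single_one, degree_single_one, nsmul_eq_mul, mul_one]
  have hX : 2 * (genusFF k Fk' : ℤ) ≤ Divisor.degree X := by
    rw [hdegX, hn]
    push_cast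
    omega
  obtain ⟨w, hwX, hw0, hwT⟩ := dfl_multi (K := k) (F := Fk') hX T
  have hXQ1 : X Q1 = -1 := by
    rw [hXdef, Finsupp.sub_apply, Finsupp.smul_apply, Finsupp.single_apply, if_neg hne1,
      Finsupp.single_eq_same]
    simp
  have hXT : ∀ Q' ∈ T, Q' ≠ Q1 → X Q' = 0 := by
    intro Q' hQ' hne
    have hneinf : Qinf ≠ Q' := fun h0 => hQinf (h0 ▸ hQ')
    rw [hXdef, Finsupp.sub_apply, Finsupp.smul_apply, Finsupp.single_apply, if_neg hneinf,
      Finsupp.single_apply, if_neg (Ne.symm hne)]
    simp
  set D : Divisor K F' := n • Finsupp.single Pinf (1 : ℤ) with hD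
  have hdegD : Divisor.degree D = (n : ℤ) := by
    rw [hD, map_nsmul, degree_single_one, nsmul_eq_mul, mul_one]
  have hWeq := h.W_eq D (by
    rw [hdegD, hn]
    push_cast
    omega)
  have hrD : Finsupp.mapDomain r' D = n • Finsupp.single Qinf (1 : ℤ) := by
    rw [hD, uq_mapDomain_nsmul_single, hPinf]
  have hXle : X ≤ n • Finsupp.single Qinf (1 : ℤ) := by
    rw [hXdef, sub_le_self_iff]
    intro v
    rw [Finsupp.zero_apply, Finsupp.single_apply]
    split_ifs <;> simp
  have hwW : w ∈ R'.W D := by
    rw [hWeq, hrD]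
    exact riemannRochSpace_mono hXle hwX
  obtain ⟨t', ht'L, ht'red⟩ := (R'.mem_W_iff D w).mp hwW
  have ht'0 : ((t' : R'.O) : F') ≠ 0 := by
    intro h0
    apply hw0
    rw [← ht'red]
    have : t' = 0 := Subtype.ext h0
    rw [this, map_zero]
  have ht'ord : ∀ P' : Place K F', P' ≠ Pinf → 0 ≤ P'.ord ((t' : R'.O) : F') := by
    intro P' hP'
    have h1 := ((mem_riemannRochSpace_iff.mp ht'L) P').resolve_left ht'0
    rw [hD, Finsupp.smul_apply, Finsupp.single_apply, if_neg (Ne.symm hP')] at h1
    simpa using h1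
  obtain ⟨hz, hred⟩ := h.tower.norm_mem_red h.finrank_eq t'
  refine ⟨⟨Algebra.norm F ((t' : R'.O) : F'), hz⟩, ?_, ?_⟩
  · rw [hred, ht'red]
    have hN := h.norm_k w hw0 (divOf (K := k) w) (fun v => divOf_apply hw0 v) Q
    rw [← hN, Divisor.pushforward_apply, Finset.sum_eq_single Q1]
    · rw [if_pos hQ1, divOf_apply hw0, hwT Q1 hQ1T, hXQ1, rcr_inertiaDeg_eq_one]
      simp
    · intro b _ hb
      split_ifs with hbQ
      · rw [divOf_apply hw0, hwT b (Place.mem_fiber.mpr hbQ),
          hXT b (Place.mem_fiber.mpr hbQ) hb]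
        simp
      · rfl
    · intro hnot
      rw [Finsupp.notMem_support_iff.mp hnot, zero_mul]
      simp
  · intro P hP
    have hN := h.norm_K ((t' : R'.O) : F') ht'0 (divOf (K := K) ((t' : R'.O) : F'))
      (fun v => divOf_apply ht'0 v) P
    show 0 ≤ P.ord (Algebra.norm F ((t' : R'.O) : F'))
    rw [← hN, Divisor.pushforward_apply]
    refine Finset.sum_nonneg fun P' _ => ?_
    split_ifs with hP'
    · have hne : P' ≠ Pinf := by
        rintro rfl
        apply hQinf
        rw [hT, Place.mem_fiber, ← hPinf, ← hrr, hP', hP]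
      rw [divOf_apply ht'0]
      exact mul_nonneg (ht'ord P' hne) (Int.natCast_nonneg _)
    · exact le_rfl

end Lift

end Fermat.Agent.S40lib

end
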