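import Mathlib
import Fermat.Agent.S36lib.Speed
import Fermat.Agent.GoodRed.Unique
import Fermat.Agent.RRlib.Hurwitz

/-!
# Item 88 (S40), layer (LIFT), piece (L5), abstract half (helper9):
# regular differentials reduce to regular differentials

`K ⊃ A`, `k` the residue field, `F` a function field over `K` with constant reduction `R`
(to `Fk`) and place reduction `r` (`ConstRed.IsPlaceRed`: `r_* div y = div (red y)`).

No tameness hypothesis.  For a place `Q` of `Fk` take `t ∈ R.O` without poles on the residue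
disc `r⁻¹ Q` whose reduction is a uniformiser at `Q`.  Then for every `P ↦ Q` some `t - c` is a
uniformiser at `P` (`dfr_unif`), so `dt` has neither zeros nor poles on the disc, and
`h dx = (h w) dt` is regular on the disc iff the function `h w` is; `r_* div (h w) = div (red (h w))`
gives the regularity of `red h · d(red x) = red (h w) · d(red t)` at `Q` (`dfr_regular_at`).

* `dfr_center`      : the value of a function at a place;
* `dfr_ker_pi`, `dfr_pi_inv` : `π` kills the non-units of `A`;
* `dfr_ord_le`, `dfr_ord_nonneg` : orders on the residue disc against the order at `Q`;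
* `dfr_unif`        : `t - c` is a uniformiser at every `P ↦ Q`;
* `dfr_coeff_ne_zero`, `dfr_ordDifferential_unif`, `dfr_ordDifferential_smul_unif` :
  `ord_v (g du) = ord_v g` when `ord_v u = 1`;
* `dfr_regular_at`, `dfr_regular` : the reduction of a regular differential is regular.
-/

set_option autoImplicit false
set_option linter.unusedSectionVars false
set_option linter.style.haveILetI false

noncomputable section

namespace Fermat.Agent.S40lib
open AlgebraicCurve Fermat.Agent.RRlib Fermat.Agent.GoodRed Fermat.Agent.S24lib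
  Fermat.Agent.FFlib KaehlerDifferential

section Center
variable {K F : Type*} [Field K] [Field F] [Algebra K F]

theorem dfr_center [RRBase K F] (v : Place K F) {f : F} (hf : 0 ≤ v.ord f) :
    ∃ c : K, f = algebraMap K F c ∨ 0 < v.ord (f - algebraMap K F c) := by
  have hmem : f ∈ v.toValuationSubring := ffMem_of_ord_nonneg v hf
  obtain ⟨c, hc⟩ := RRBase.residue_surjective (K := K) v
    (IsLocalRing.residue v.toValuationSubring ⟨f, hmem⟩)
  refine ⟨c, ?_⟩
  by_cases h0 : f = algebraMap K F c
  · exact Or.inl h0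
  right
  have hg0 : f - algebraMap K F c ≠ 0 := sub_ne_zero.mpr h0
  have hm : (⟨f, hmem⟩ - algebraMap K v.toValuationSubring c : v.toValuationSubring)
      ∈ IsLocalRing.maximalIdeal v.toValuationSubring := by
    rw [← Ideal.Quotient.eq_zero_iff_mem]
    have : (Ideal.Quotient.mk (IsLocalRing.maximalIdeal v.toValuationSubring))
        (⟨f, hmem⟩ - algebraMap K v.toValuationSubring c)
        = IsLocalRing.residue v.toValuationSubring ⟨f, hmem⟩
          - algebraMap K v.ResidueField c := by
      rw [map_sub]; rfl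
    rw [this, hc]
    exact sub_self _
  have hcoe : (((⟨f, hmem⟩ - algebraMap K v.toValuationSubring c : v.toValuationSubring)) : F)
      = f - algebraMap K F c := by
    rw [AddSubgroupClass.coe_sub]
    rfl
  have hne : (⟨f, hmem⟩ - algebraMap K v.toValuationSubring c : v.toValuationSubring) ≠ 0 := by
    intro h
    apply hg0
    rw [← hcoe, h]
    rfl
  have h := ffOrd_pos_of_mem_maximalIdeal v hm hne
  rw [hcoe] at h
  exact h

end Center

section Red

variable {K F k Fk : Type*} [Field K] [Field F] [Field k] [Field Fk] [Algebra K F] [Algebra k Fk]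
variable {A : ValuationSubring K} {π : A →+* k} {R : ConstRed A π Fk F}

/-- `π` kills the non-units of `A` -/
theorem dfr_ker_pi (hπ : Function.Surjective π) (a : A) (ha : ¬ IsUnit a) : π a = 0 := by
  have hmax : (RingHom.ker π).IsMaximal := RingHom.ker_isMaximal_of_surjective π hπ
  have heq : RingHom.ker π = IsLocalRing.maximalIdeal A := IsLocalRing.eq_maximalIdeal hmax
  have hmem : a ∈ IsLocalRing.maximalIdeal A := by
    rw [IsLocalRing.mem_maximalIdeal, mem_nonunits_iff]
    exact ha
  rw [← heq] at hmem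
  exact (RingHom.mem_ker).mp hmem

/-- `π` kills the inverse of an element outside `A` -/
theorem dfr_pi_inv (hπ : Function.Surjective π) {c : K} (hc : c ∉ A) :
    ∃ b : A, (b : K) = c⁻¹ ∧ π b = 0 := by
  have hinv : c⁻¹ ∈ A := (A.mem_or_inv_mem c).resolve_left hc
  refine ⟨⟨c⁻¹, hinv⟩, rfl, dfr_ker_pi hπ _ ?_⟩
  intro hu
  obtain ⟨u, hu⟩ := hu
  apply hc
  have h1 : ((u⁻¹ : Aˣ) : A) * (u : A) = 1 := u.inv_mul
  have h2 := congrArg (fun z : A => (z : K)) h1
  simp only [MulMemClass.coe_mul, OneMemClass.coe_one] at h2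
  rw [hu] at h2
  have hc0 : c ≠ 0 := fun h => hc (h ▸ A.zero_mem)
  have h3 : (((u⁻¹ : Aˣ) : A) : K) = c := by
    have h4 : (((u⁻¹ : Aˣ) : A) : K) * c⁻¹ = 1 := h2
    field_simp at h4
    exact h4
  rw [← h3]
  exact ((u⁻¹ : Aˣ) : A).2

/-- the order at `P` is bounded by the order of the reduction at `r P`, for a function without
poles on the residue disc -/
theorem dfr_ord_le [RRBase K F] [RRBase k Fk] {r : Place K F → Place k Fk}
    (hr : R.IsPlaceRed r) (Q : Place k Fk) (P : Place K F) (hP : r P = Q) (y : R.O)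
    (hy : R.red y ≠ 0) (hnn : ∀ P', r P' = Q → 0 ≤ P'.ord (y : F)) :
    P.ord (y : F) ≤ Q.ord (R.red y) := by
  classical
  have h := hr.2 y hy Q
  rw [uq_mapDomain_apply] at h
  rw [← h]
  have hterm : ∀ P' ∈ (divOf (K := K) ((y : R.O) : F)).support,
      (0 : ℤ) ≤ (if r P' = Q then (divOf (K := K) ((y : R.O) : F)) P' else 0) := by
    intro P' _
    split_ifs with h1
    · rw [divOf_apply']
      exact hnn P' h1
    · exact le_rfl
  by_cases hPs : P ∈ (divOf (K := K) ((y : R.O) : F)).support
  · have h2 := Finset.single_le_sum hterm hPs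
    rw [if_pos hP, divOf_apply'] at h2
    exact h2
  · have h3 : (divOf (K := K) ((y : R.O) : F)) P = 0 := Finsupp.notMem_support_iff.mp hPs
    rw [divOf_apply'] at h3
    rw [h3]
    exact Finset.sum_nonneg hterm

/-- the order of the reduction at `Q` is `≥ 0` for a function without poles on the disc -/
theorem dfr_ord_nonneg [RRBase K F] [RRBase k Fk] {r : Place K F → Place k Fk}
    (hr : R.IsPlaceRed r) (Q : Place k Fk) (y : R.O)
    (hnn : ∀ P', r P' = Q → 0 ≤ P'.ord (y : F)) :
    0 ≤ Q.ord (R.red y) := by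
  classical
  by_cases hy : R.red y = 0
  · rw [hy, Place.ord_zero]
  have h := hr.2 y hy Q
  rw [uq_mapDomain_apply] at h
  rw [← h]
  refine Finset.sum_nonneg fun P' _ => ?_
  split_ifs with h1
  · rw [divOf_apply']
    exact hnn P' h1
  · exact le_rfl

/-- **uniformisers on the residue disc**: if `t ∈ O` has no pole on `r⁻¹ Q` and `red t` is a
uniformiser at `Q`, then for every `P ↦ Q` some `t - c` is a uniformiser at `P`. -/
theorem dfr_unif [RRBase K F] [RRBase k Fk] {r : Place K F → Place k Fk}
    (hr : R.IsPlaceRed r) (Q : Place k Fk) (t : R.O) (htQ : Q.ord (R.red t) = 1)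
    (hpole : ∀ P, r P = Q → 0 ≤ P.ord (t : F)) (P : Place K F) (hP : r P = Q) :
    ∃ c : K, P.ord ((t : F) - algebraMap K F c) = 1 := by
  classical
  have hrt0 : R.red t ≠ 0 := by
    intro h0
    rw [h0, Place.ord_zero] at htQ
    exact zero_ne_one htQ
  obtain ⟨c, hc⟩ := dfr_center P (hpole P hP)
  rcases hc with hc | hc
  · exfalso
    have h := hr.2 t hrt0 Q
    rw [uq_mapDomain_apply, htQ] at h
    have hz : ∑ P' ∈ (divOf (K := K) ((t : R.O) : F)).support,
        (if r P' = Q then (divOf (K := K) ((t : R.O) : F)) P' else 0) = 0 :=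
      Finset.sum_eq_zero fun P' _ => by
        split_ifs
        · rw [divOf_apply', hc, ffOrd_algebraMap]
        · rfl
    rw [hz] at h
    exact zero_ne_one h
  have hcA : c ∈ A := by
    by_contra hcA
    have hc0 : c ≠ 0 := fun h => hcA (h ▸ A.zero_mem)
    obtain ⟨b, hbc, hb⟩ := dfr_pi_inv R.π_surjective hcA
    set y : R.O := 1 - ⟨algebraMap K F (b : K), R.algebraMap_mem b⟩ * t with hy
    have hy1 : R.red y = 1 := by
      rw [hy, map_sub, map_one, map_mul, R.red_algebraMap, hb, map_zero, zero_mul, sub_zero]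
    have hycoe : (y : F) = 1 - algebraMap K F (b : K) * (t : F) := rfl
    have hcF : algebraMap K F c ≠ 0 := by simpa using hc0
    have hycoe2 : (y : F) = -(algebraMap K F c⁻¹) * ((t : F) - algebraMap K F c) := by
      rw [hycoe, hbc, map_inv₀]
      field_simp
      ring
    have htc0 : (t : F) - algebraMap K F c ≠ 0 := by
      intro h0
      rw [h0, Place.ord_zero] at hc
      exact lt_irrefl _ hc
    have hci : -(algebraMap K F c⁻¹) ≠ 0 := by
      rw [neg_ne_zero, map_inv₀]
      exact inv_ne_zero hcF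
    have hyP : 0 < P.ord (y : F) := by
      rw [hycoe2, P.ord_mul hci htc0, ffOrd_neg, ffOrd_algebraMap, zero_add]
      exact hc
    have hnn : ∀ P', r P' = Q → 0 ≤ P'.ord (y : F) := by
      intro P' hP'
      by_cases hy0 : (y : F) = 0
      · rw [hy0, Place.ord_zero]
      rw [hycoe, sub_eq_add_neg] at hy0 ⊢
      refine ffOrd_add_ge P' hy0 (Or.inr (by rw [Place.ord_one])) ?_
      by_cases ht0 : (t : F) = 0
      · left
        rw [ht0, mul_zero, neg_zero]
      by_cases hb0 : algebraMap K F (b : K) = 0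
      · left
        rw [hb0, zero_mul, neg_zero]
      right
      rw [ffOrd_neg, P'.ord_mul hb0 ht0, ffOrd_algebraMap, zero_add]
      exact hpole P' hP'
    have h1 := dfr_ord_le hr Q P hP y (by rw [hy1]; exact one_ne_zero) hnn
    rw [hy1, Place.ord_one] at h1
    omega
  set a : A := ⟨c, hcA⟩ with ha
  set y : R.O := t - ⟨algebraMap K F (a : K), R.algebraMap_mem a⟩ with hy
  have hycoe : (y : F) = (t : F) - algebraMap K F c := rfl
  have hyred : R.red y = R.red t - algebraMap k Fk (π a) := by
    rw [hy, map_sub, R.red_algebraMap]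
  have hyred0 : R.red y ≠ 0 := by
    intro h0
    rw [hyred, sub_eq_zero] at h0
    rw [h0, ffOrd_algebraMap] at htQ
    exact zero_ne_one htQ
  have hnn : ∀ P', r P' = Q → 0 ≤ P'.ord (y : F) := by
    intro P' hP'
    by_cases hy0 : (y : F) = 0
    · rw [hy0, Place.ord_zero]
    rw [hycoe, sub_eq_add_neg] at hy0 ⊢
    refine ffOrd_add_ge P' hy0 ?_ ?_
    · by_cases ht0 : (t : F) = 0
      · exact Or.inl ht0
      · exact Or.inr (hpole P' hP')
    · right
      rw [ffOrd_neg, ffOrd_algebraMap]
  have h1 := dfr_ord_le hr Q P hP y hyred0 hnn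
  rw [hycoe] at h1
  have hpos : 0 < Q.ord (R.red t - algebraMap k Fk (π a)) := by
    rw [← hyred]
    omega
  have hπa : π a = 0 := by
    refine hw_center_unique Q hpos ?_
    rw [map_zero, sub_zero, htQ]
    exact one_pos
  rw [hyred, hπa, map_zero, sub_zero, htQ] at h1
  exact ⟨c, by omega⟩

/-- `du ≠ 0` (in the form: its local coefficient is not zero) when `ord_v u = 1` -/
theorem dfr_coeff_ne_zero {K F : Type*} [Field K] [Field F] [Algebra K F]
    [RRBase K F] (v : Place K F) [v.DCoordGenerates] [Nontrivial Ω[F⁄K]]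
    {u : F} (hu1 : v.ord u = 1) : v.differentialCoeff (D K F u) ≠ 0 := by
  have hu : u ≠ 0 := by
    rintro rfl
    rw [v.ord_zero] at hu1
    exact zero_ne_one hu1
  obtain ⟨t, w, a, ht, hw0, hwo, hao, hc⟩ := hw_exists_coeff v hu
  rw [hc, hu1]
  simp only [Int.cast_one, sub_self, zpow_zero, mul_one, zpow_one]
  intro h0
  have ht0 : t ≠ 0 := by
    rintro rfl
    rw [v.ord_zero] at ht
    exact zero_ne_one ht
  by_cases ha0 : a = 0
  · rw [ha0, mul_zero, add_zero] at h0
    exact hw0 h0
  have hao' : 0 ≤ v.ord a := hao.resolve_left ha0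
  have hw : w = -(t * a) := eq_neg_of_add_eq_zero_left h0
  have h1 : v.ord w = v.ord (t * a) := by rw [hw, ffOrd_neg]
  rw [v.ord_mul ht0 ha0, ht, hwo] at h1
  omega

/-- `ord_v (du) = 0` when `ord_v u = 1` -/
theorem dfr_ordDifferential_unif {K F : Type*} [Field K] [Field F] [Algebra K F]
    [RRBase K F] (v : Place K F) [v.DCoordGenerates]
    [Nontrivial Ω[F⁄K]] {u : F} (hu1 : v.ord u = 1) : v.ordDifferential (D K F u) = 0 := by
  have h := hw_ordDifferential_D_eq (K := K) v (u := u) (by
    rw [hu1]
    simp)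
  rw [h, hu1]
  rfl

/-- `ord_v (g du) = ord_v g` when `ord_v u = 1` -/
theorem dfr_ordDifferential_smul_unif {K F : Type*} [Field K] [Field F] [Algebra K F]
    [RRBase K F] (v : Place K F) [v.DCoordGenerates]
    [Nontrivial Ω[F⁄K]] {u : F} (hu1 : v.ord u = 1) (g : F) :
    v.ordDifferential (g • D K F u) = v.ord g := by
  by_cases hg : g = 0
  · rw [hg, zero_smul, Place.ordDifferential, v.differentialCoeff_zero]
  rw [v.ordDifferential_smul hg (dfr_coeff_ne_zero v hu1), dfr_ordDifferential_unif v hu1,
    add_zero]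

/-- **regular differentials reduce to regular differentials**, at one place `Q`, given a good
lift `t` of a uniformiser at `Q` and the derivative `w = dx/dt` with its reduction. -/
theorem dfr_regular_at [RRBase K F] [RRBase k Fk] [Nontrivial Ω[F⁄K]] [Nontrivial Ω[Fk⁄k]]
    (hgenF : ∀ v : Place K F, v.DCoordGenerates) (hgenk : ∀ v : Place k Fk, v.DCoordGenerates)
    {r : Place K F → Place k Fk} (hr : R.IsPlaceRed r) (Q : Place k Fk) (t : R.O)
    (htQ : Q.ord (R.red t) = 1) (hpole : ∀ P, r P = Q → 0 ≤ P.ord (t : F))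
    (x h w : R.O) (hw : D K F (x : F) = (w : F) • D K F (t : F))
    (hwred : D k Fk (R.red x) = R.red w • D k Fk (R.red t))
    (hhol : ∀ P, r P = Q → 0 ≤ P.ordDifferential ((h : F) • D K F (x : F))) :
    0 ≤ Q.ordDifferential (R.red h • D k Fk (R.red x)) := by
  haveI := hgenk Q
  have e1 : R.red h • D k Fk (R.red x) = R.red (h * w) • D k Fk (R.red t) := by
    rw [hwred, smul_smul, map_mul]
  rw [e1, dfr_ordDifferential_smul_unif Q htQ]
  refine dfr_ord_nonneg hr Q (h * w) fun P hP => ?_
  haveI := hgenF P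
  obtain ⟨c, hc⟩ := dfr_unif hr Q t htQ hpole P hP
  have hD : D K F ((t : F) - algebraMap K F c) = D K F (t : F) := by
    rw [map_sub, Derivation.map_algebraMap, sub_zero]
  have e2 : (h : F) • D K F (x : F)
      = (((h * w : R.O) : R.O) : F) • D K F ((t : F) - algebraMap K F c) := by
    rw [hD, hw, smul_smul]
    rfl
  have h2 := hhol P hP
  rw [e2, dfr_ordDifferential_smul_unif P hc] at h2
  exact h2

/-- **regular differentials reduce to regular differentials** -/
theorem dfr_regular [RRBase K F] [RRBase k Fk] [Nontrivial Ω[F⁄K]] [Nontrivial Ω[Fk⁄k]]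
    (hgenF : ∀ v : Place K F, v.DCoordGenerates) (hgenk : ∀ v : Place k Fk, v.DCoordGenerates)
    {r : Place K F → Place k Fk} (hr : R.IsPlaceRed r)
    (hlift : ∀ Q : Place k Fk, ∃ t : R.O, Q.ord (R.red t) = 1 ∧
      ∀ P, r P = Q → 0 ≤ P.ord (t : F))
    (hDER : ∀ x t : R.O, D k Fk (R.red t) ≠ 0 → ∃ w : R.O,
      D K F (x : F) = (w : F) • D K F (t : F) ∧
      D k Fk (R.red x) = R.red w • D k Fk (R.red t))
    (x h : R.O) (hhol : ∀ P : Place K F, 0 ≤ P.ordDifferential ((h : F) • D K F (x : F)))
    (Q : Place k Fk) : 0 ≤ Q.ordDifferential (R.red h • D k Fk (R.red x)) := by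
  obtain ⟨t, htQ, hpole⟩ := hlift Q
  haveI := hgenk Q
  have hdt : D k Fk (R.red t) ≠ 0 := by
    intro h0
    have h1 := dfr_coeff_ne_zero Q htQ
    rw [h0, Q.differentialCoeff_zero] at h1
    exact h1 rfl
  obtain ⟨w, hw, hwred⟩ := hDER x t hdt
  exact dfr_regular_at hgenF hgenk hr Q t htQ hpole x h w hw hwred fun P _ => hhol P

end Red

end Fermat.Agent.S40lib
end
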