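import Mathlib
import Fermat.Agent.S36lib.Speed
import Fermat.Agent.S05_Defs
import Fermat.Agent.S40lib.EOrdAdd

/-!
# Item 88 (S40), block (W1)-ordinary, piece (ADD) (helper16)

`W` a Weierstrass curve over a valued field `K` with integral coefficients (`v aᵢ ≤ 1`).

* `eoi_addX_identity` : the numerator identity
  `x₃ (x₁ - x₂)² = x₁ x₂² + (x₁² + 2 a₂ x₁ - a₁ y₁ + a₄) x₂ - (2 y₁ + a₁ x₁ + a₃) y₂
      + (2 a₆ + a₄ x₁ - a₃ y₁)`;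
* `eoi_val_y_le` : an affine point with `v x ≤ 1` has `v y ≤ 1`;
* **`eoi_add_int`** : (ADD) integral + non-integral = integral: `v x₁ ≤ 1`, `1 < v x₂` ⇒
  `P₁ + P₂ = (x₃, y₃)` with `v x₃ ≤ 1`;
* **`eoi_add_E1`**, `eoi_neg_E1`, `eoi_sub_E1` : the kernel of reduction
  `E₁ = {O} ∪ {(x, y) : 1 < v x}` (the predicate `InE1` of `S05lib`) is closed under `+`, `-`;
* `eoiE1` : `E₁` as an additive subgroup of the group of points;
* `eoi_int_add_E1` : integral + `E₁` is an affine integral point (form with `InE1`).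
-/

set_option autoImplicit false
set_option linter.unusedSectionVars false
set_option linter.unusedVariables false

open WeierstrassCurve WeierstrassCurve.Affine WeierstrassCurve.Affine.Point

namespace Fermat.Agent.S40lib

open Fermat.Agent.S05lib

section Abstract

variable {K : Type*} [Field K] [DecidableEq K]
  {Γ₀ : Type*} [LinearOrderedCommGroupWithZero Γ₀] (v : Valuation K Γ₀)

/-- the numerator identity for the `x`-coordinate of a sum -/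
theorem eoi_addX_identity (W : Affine K) {x₁ y₁ x₂ y₂ : K} (h₁ : W.Equation x₁ y₁)
    (h₂ : W.Equation x₂ y₂) (hx : x₁ ≠ x₂) :
    W.addX x₁ x₂ (W.slope x₁ x₂ y₁ y₂) * (x₁ - x₂) ^ 2 =
      x₁ * x₂ ^ 2 + (x₁ ^ 2 + 2 * W.a₂ * x₁ - W.a₁ * y₁ + W.a₄) * x₂
        - (2 * y₁ + W.a₁ * x₁ + W.a₃) * y₂ + (2 * W.a₆ + W.a₄ * x₁ - W.a₃ * y₁) := by
  rw [equation_iff] at h₁ h₂
  rw [slope_of_X_ne hx]
  have hD : x₁ - x₂ ≠ 0 := sub_ne_zero.mpr hx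
  have hℓ : (y₁ - y₂) / (x₁ - x₂) * (x₁ - x₂) = y₁ - y₂ := div_mul_cancel₀ _ hD
  generalize (y₁ - y₂) / (x₁ - x₂) = ℓ at hℓ
  have hpoly : (y₁ - y₂) ^ 2 + W.a₁ * (y₁ - y₂) * (x₁ - x₂)
      - (W.a₂ + x₁ + x₂) * (x₁ - x₂) ^ 2 =
      x₁ * x₂ ^ 2 + (x₁ ^ 2 + 2 * W.a₂ * x₁ - W.a₁ * y₁ + W.a₄) * x₂
        - (2 * y₁ + W.a₁ * x₁ + W.a₃) * y₂ + (2 * W.a₆ + W.a₄ * x₁ - W.a₃ * y₁) := by
    linear_combination h₁ + h₂
  simp only [addX]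
  linear_combination (ℓ * (x₁ - x₂) + (y₁ - y₂) + W.a₁ * (x₁ - x₂)) * hℓ + hpoly

/-- `2` is integral -/
theorem eoi_val_two_le : v (2 : K) ≤ 1 := by
  have h := v.map_add_le (x := (1 : K)) (y := 1) (g := 1) v.map_one.le v.map_one.le
  rwa [one_add_one_eq_two] at h

/-- an affine point with integral `x` has integral `y` -/
theorem eoi_val_y_le (W : Affine K) (h1 : v W.a₁ ≤ 1) (h2 : v W.a₂ ≤ 1) (h3 : v W.a₃ ≤ 1)
    (h4 : v W.a₄ ≤ 1) (h6 : v W.a₆ ≤ 1) {x y : K} (h : W.Equation x y) (hx : v x ≤ 1) :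
    v y ≤ 1 := by
  rw [equation_iff] at h
  by_contra hcon
  rw [not_le] at hcon
  have hy0 : 0 < v y := lt_trans zero_lt_one hcon
  have hb : v (W.a₁ * x + W.a₃) ≤ 1 := by
    refine v.map_add_le ?_ h3
    rw [map_mul]
    exact le_trans (mul_le_of_le_one_left' h1) hx
  have hc : v (x ^ 3 + W.a₂ * x ^ 2 + W.a₄ * x + W.a₆) ≤ 1 := by
    refine v.map_add_le (v.map_add_le (v.map_add_le ?_ ?_) ?_) h6
    · rw [map_pow]
      exact pow_le_one₀ zero_le hx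
    · rw [map_mul, map_pow]
      exact le_trans (mul_le_of_le_one_left' h2) (pow_le_one₀ zero_le hx)
    · rw [map_mul]
      exact le_trans (mul_le_of_le_one_left' h4) hx
  have e : y ^ 2 = (x ^ 3 + W.a₂ * x ^ 2 + W.a₄ * x + W.a₆) - (W.a₁ * x + W.a₃) * y := by
    linear_combination h
  have hlt : v y < v y ^ 2 := by
    rw [pow_two]
    calc v y = 1 * v y := (one_mul _).symm
      _ < v y * v y := mul_lt_mul_of_pos_right hcon hy0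
  have hle : v (y ^ 2) ≤ v y := by
    rw [e]
    refine v.map_sub_le (le_trans hc hcon.le) ?_
    rw [map_mul]
    exact mul_le_of_le_one_left' hb
  rw [map_pow] at hle
  exact absurd hle (not_le.mpr hlt)

/-- **(ADD)**: integral + non-integral = integral. -/
theorem eoi_add_int (W : Affine K) (h1 : v W.a₁ ≤ 1) (h2 : v W.a₂ ≤ 1) (h3 : v W.a₃ ≤ 1)
    (h4 : v W.a₄ ≤ 1) (h6 : v W.a₆ ≤ 1)
    {x₁ y₁ x₂ y₂ : K} (hP₁ : W.Nonsingular x₁ y₁) (hP₂ : W.Nonsingular x₂ y₂)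
    (hx₁ : v x₁ ≤ 1) (hy₁ : v y₁ ≤ 1) (hx₂ : 1 < v x₂) :
    ∃ (x₃ y₃ : K) (h₃ : W.Nonsingular x₃ y₃),
      Point.some x₁ y₁ hP₁ + Point.some x₂ y₂ hP₂ = Point.some x₃ y₃ h₃ ∧ v x₃ ≤ 1 := by
  have hx : x₁ ≠ x₂ := by
    rintro rfl
    exact absurd hx₁ (not_le.mpr hx₂)
  have hxy : ¬ (x₁ = x₂ ∧ y₁ = W.negY x₂ y₂) := fun e => hx e.1
  refine ⟨_, _, nonsingular_add hP₁ hP₂ hxy, Point.add_some hxy, ?_⟩
  have hid := eoi_addX_identity W hP₁.1 hP₂.1 hx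
  have hV0 : 0 < v x₂ := lt_trans zero_lt_one hx₂
  have hD : v (x₁ - x₂) = v x₂ :=
    Valuation.map_sub_eq_of_lt_right v (lt_of_le_of_lt hx₁ hx₂)
  obtain ⟨hy0, hz⟩ := eoa_val_z v W h1 h2 h3 h4 h6 hP₂.1 hx₂
  have hvy_ne : v y₂ ≠ 0 := (v.ne_zero_iff).mpr hy0
  have hkey : v x₂ ^ 2 * v x₂ = v y₂ ^ 2 := by
    rw [map_div₀, div_pow, div_mul_eq_mul_div, div_eq_one_iff_eq (pow_ne_zero 2 hvy_ne)] at hz
    exact hz
  have hVle : v x₂ ≤ v x₂ ^ 2 := by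
    rw [pow_two]
    calc v x₂ = 1 * v x₂ := (one_mul _).symm
      _ ≤ v x₂ * v x₂ := mul_le_mul' hx₂.le le_rfl
  have h1V : (1 : Γ₀) ≤ v x₂ ^ 2 := le_trans hx₂.le hVle
  have hy₂ : v y₂ ≤ v x₂ ^ 2 := by
    refine (pow_le_pow_iff_left₀ zero_le zero_le two_ne_zero).mp ?_
    rw [← hkey, pow_two (v x₂ ^ 2)]
    exact mul_le_mul' le_rfl hVle
  have hv2 := eoi_val_two_le v
  -- the three coefficients are integral
  have hc₁ : v (x₁ ^ 2 + 2 * W.a₂ * x₁ - W.a₁ * y₁ + W.a₄) ≤ 1 := by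
    refine v.map_add_le (v.map_sub_le (v.map_add_le ?_ ?_) ?_) h4
    · rw [map_pow]
      exact pow_le_one₀ zero_le hx₁
    · rw [map_mul, map_mul]
      exact le_trans (mul_le_of_le_one_left' (le_trans (mul_le_of_le_one_left' hv2) h2)) hx₁
    · rw [map_mul]
      exact le_trans (mul_le_of_le_one_left' h1) hy₁
  have hc₂ : v (2 * y₁ + W.a₁ * x₁ + W.a₃) ≤ 1 := by
    refine v.map_add_le (v.map_add_le ?_ ?_) h3
    · rw [map_mul]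
      exact le_trans (mul_le_of_le_one_left' hv2) hy₁
    · rw [map_mul]
      exact le_trans (mul_le_of_le_one_left' h1) hx₁
  have hc₃ : v (2 * W.a₆ + W.a₄ * x₁ - W.a₃ * y₁) ≤ 1 := by
    refine v.map_sub_le (v.map_add_le ?_ ?_) ?_
    · rw [map_mul]
      exact le_trans (mul_le_of_le_one_left' hv2) h6
    · rw [map_mul]
      exact le_trans (mul_le_of_le_one_left' h4) hx₁
    · rw [map_mul]
      exact le_trans (mul_le_of_le_one_left' h3) hy₁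
  have hR : v (x₁ * x₂ ^ 2 + (x₁ ^ 2 + 2 * W.a₂ * x₁ - W.a₁ * y₁ + W.a₄) * x₂
        - (2 * y₁ + W.a₁ * x₁ + W.a₃) * y₂ + (2 * W.a₆ + W.a₄ * x₁ - W.a₃ * y₁))
      ≤ v x₂ ^ 2 := by
    refine v.map_add_le (v.map_sub_le (v.map_add_le ?_ ?_) ?_) (le_trans hc₃ h1V)
    · rw [map_mul, map_pow]
      exact mul_le_of_le_one_left' hx₁
    · rw [map_mul]
      exact le_trans (mul_le_of_le_one_left' hc₁) hVle
    · rw [map_mul]
      exact le_trans (mul_le_of_le_one_left' hc₂) hy₂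
  have hfin : v (W.addX x₁ x₂ (W.slope x₁ x₂ y₁ y₂)) * v x₂ ^ 2 ≤ v x₂ ^ 2 := by
    have e : v (W.addX x₁ x₂ (W.slope x₁ x₂ y₁ y₂)) * v x₂ ^ 2
        = v (x₁ * x₂ ^ 2 + (x₁ ^ 2 + 2 * W.a₂ * x₁ - W.a₁ * y₁ + W.a₄) * x₂
          - (2 * y₁ + W.a₁ * x₁ + W.a₃) * y₂ + (2 * W.a₆ + W.a₄ * x₁ - W.a₃ * y₁)) := by
      rw [← hid, map_mul, map_pow, hD]
    rw [e]
    exact hR
  by_contra hcon
  rw [not_le] at hcon
  have hlt : v x₂ ^ 2 < v (W.addX x₁ x₂ (W.slope x₁ x₂ y₁ y₂)) * v x₂ ^ 2 := by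
    calc v x₂ ^ 2 = 1 * v x₂ ^ 2 := (one_mul _).symm
      _ < v (W.addX x₁ x₂ (W.slope x₁ x₂ y₁ y₂)) * v x₂ ^ 2 :=
        mul_lt_mul_of_pos_right hcon (pow_pos hV0 2)
  exact absurd hfin (not_le.mpr hlt)

/-- `E₁` is stable under negation -/
theorem eoi_neg_E1 (W : Affine K) (P : W.Point) : InE1 v (-P) ↔ InE1 v P := by
  rcases P with _ | ⟨x, y, h⟩
  · exact Iff.rfl
  · rw [Point.neg_some]
    exact Iff.rfl

/-- **`E₁` is closed under addition** (integral Weierstrass curve, any shape). -/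
theorem eoi_add_E1 (W : Affine K) (h1 : v W.a₁ ≤ 1) (h2 : v W.a₂ ≤ 1) (h3 : v W.a₃ ≤ 1)
    (h4 : v W.a₄ ≤ 1) (h6 : v W.a₆ ≤ 1) {P Q : W.Point} (hP : InE1 v P) (hQ : InE1 v Q) :
    InE1 v (P + Q) := by
  rcases P with _ | ⟨x₁, y₁, hP₁⟩
  · change InE1 v ((0 : W.Point) + Q)
    rw [zero_add]
    exact hQ
  rcases Q with _ | ⟨x₂, y₂, hP₂⟩
  · change InE1 v (Point.some x₁ y₁ hP₁ + (0 : W.Point))
    rw [add_zero]
    exact hP
  rcases hR : Point.some x₁ y₁ hP₁ + Point.some x₂ y₂ hP₂ with _ | ⟨x₃, y₃, hP₃⟩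
  · trivial
  · change 1 < v x₃
    by_contra hcon
    rw [not_lt] at hcon
    have hy₃ := eoi_val_y_le v W h1 h2 h3 h4 h6 hP₃.1 hcon
    have hx₁ : 1 < v x₁ := hP
    have hx₂ : 1 < v x₂ := hQ
    obtain ⟨x₄, y₄, hP₄, hsum, hx₄⟩ := eoi_add_int v W h1 h2 h3 h4 h6 hP₃
      ((nonsingular_neg x₁ y₁).mpr hP₁) hcon hy₃ hx₁
    have e : Point.some x₃ y₃ hP₃ + Point.some x₁ (W.negY x₁ y₁)
        ((nonsingular_neg x₁ y₁).mpr hP₁) = Point.some x₂ y₂ hP₂ := by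
      rw [← hR, ← Point.neg_some hP₁, add_comm (Point.some x₁ y₁ hP₁), add_assoc,
        add_neg_cancel, add_zero]
    rw [hsum] at e
    have e2 : x₄ = x₂ := by
      simp only [Point.some.injEq] at e
      exact e.1
    rw [e2] at hx₄
    exact absurd hx₄ (not_le.mpr hx₂)

/-- `E₁` is closed under subtraction -/
theorem eoi_sub_E1 (W : Affine K) (h1 : v W.a₁ ≤ 1) (h2 : v W.a₂ ≤ 1) (h3 : v W.a₃ ≤ 1)
    (h4 : v W.a₄ ≤ 1) (h6 : v W.a₆ ≤ 1) {P Q : W.Point} (hP : InE1 v P) (hQ : InE1 v Q) :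
    InE1 v (P - Q) := by
  rw [sub_eq_add_neg]
  exact eoi_add_E1 v W h1 h2 h3 h4 h6 hP ((eoi_neg_E1 v W Q).mpr hQ)

/-- the kernel of reduction as an additive subgroup -/
def eoiE1 (W : Affine K) (h1 : v W.a₁ ≤ 1) (h2 : v W.a₂ ≤ 1) (h3 : v W.a₃ ≤ 1)
    (h4 : v W.a₄ ≤ 1) (h6 : v W.a₆ ≤ 1) : AddSubgroup W.Point where
  carrier := {P | InE1 v P}
  zero_mem' := show InE1 v (0 : W.Point) from trivial
  add_mem' := fun hP hQ => eoi_add_E1 v W h1 h2 h3 h4 h6 hP hQ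
  neg_mem' := fun {P} hP => (eoi_neg_E1 v W P).mpr hP

theorem eoi_mem_E1 (W : Affine K) (h1 : v W.a₁ ≤ 1) (h2 : v W.a₂ ≤ 1) (h3 : v W.a₃ ≤ 1)
    (h4 : v W.a₄ ≤ 1) (h6 : v W.a₆ ≤ 1) (P : W.Point) :
    P ∈ eoiE1 v W h1 h2 h3 h4 h6 ↔ InE1 v P := ⟨fun h => h, fun h => h⟩

/-- a point outside `E₁` plus a point of `E₁` is outside `E₁` -/
theorem eoi_int_add_E1 (W : Affine K) (h1 : v W.a₁ ≤ 1) (h2 : v W.a₂ ≤ 1) (h3 : v W.a₃ ≤ 1)
    (h4 : v W.a₄ ≤ 1) (h6 : v W.a₆ ≤ 1) {P Q : W.Point} (hP : ¬ InE1 v P) (hQ : InE1 v Q) :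
    ¬ InE1 v (P + Q) := by
  intro h
  apply hP
  have := eoi_sub_E1 v W h1 h2 h3 h4 h6 h hQ
  rwa [add_sub_cancel_right] at this

end Abstract

end Fermat.Agent.S40lib
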