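/-
Item 88 (S40/S44), block (J-WILD), per-point assembly, the `X`-side at a NODE (helper18):
**the node at a supersingular place with its local data AND its local ring**, for ONE choice of
the local generators `x`, `y`.

* `edp_place_ring_abs` : abstract over the setup: all conclusions of `edc_place_node`
  (`EdgeConc7`) and, for the SAME `s, x, y, εx, εy`, the local-ring block of `edc_node_ring`
  (`EdgeNode`): `B_s` factorial, `x`, `y` prime in `B_s`, `x ∤ y`, `y ∤ x`, `𝔪 = (x, y)`,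
  and `red_0 x ≠ 0`;
* `edp_place_ring`     : concrete at the level `N = M' q`, unconditional.
-/
import Mathlib
import Fermat.Agent.S40lib.EdgeNode
import Fermat.Agent.S40lib.EdgeSmooth

set_option autoImplicit false
set_option linter.style.haveILetI false
set_option linter.unusedSectionVars false
set_option linter.unusedVariables false
set_option synthInstance.maxHeartbeats 400000
set_option maxHeartbeats 1000000

noncomputable section

namespace Fermat.Agent.S40lib

open Fermat.Agent.FFlib Fermat.Agent.S24lib Fermat.Agent.GM Fermat.Agent.GoodRed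
  Fermat.Agent.S34lib Fermat.Agent.RRlib Fermat.Agent.S16lib Fermat.Agent.S36lib
open AlgebraicCurve IsLocalRing IntermediateField IsDedekindDomain ModularCurve

section Abs

universe u

variable {K : Type*} [Field K] {k : Type*} [Field k]
  {A : ValuationSubring K} {π : A →+* k} {κ : Type*} [Field κ] [Algebra k κ]
  {F : Type u} [Field F] [Algebra K F]

set_option maxHeartbeats 4000000 in
/-- **the node at a supersingular place, with its local data and its local ring**. -/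
theorem edp_place_ring_abs (S : NodeSetup A π κ F) [IsNoetherianRing S.B]
    [IsIntegrallyClosed S.B] [IsDedekindDomain (S.B ⧸ S.pInf)]
    (hfrac : ∀ z : F, ∃ a b : S.B, b ≠ 0 ∧ z * (b : F) = (a : F))
    (j : κ) [FFSep k j]
    (hiInf : ∀ z : S.B, S.redInf z ∈ fsS k j)
    (hoInf : ∀ c ∈ fsS k j, ∃ z : S.B, S.redInf z = c)
    (ϖ : A) (hϖ0 : ϖ ≠ 0)
    (h h' : S.B) (hh : h * h' = S.constB ϖ ^ 12)
    (hreg1 : ∀ s, S.IsNode s → ∃ y ε : S.B, y ∈ S.pZero ∧ y ^ 12 = ε * h ∧ ε ∉ s ∧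
        (∀ z ∈ S.pZero, y ∣ ε * z) ∧
        ∀ z ∈ s, ∃ w c : S.B, w ∉ s ∧ w * z - c * y ∈ S.pInf)
    (hreg1' : ∀ s, S.IsNode s → ∃ x ε : S.B, x ∈ S.pInf ∧ x ^ 12 = ε * h' ∧ ε ∉ s ∧
        (∀ z ∈ S.pInf, x ∣ ε * z) ∧
        ∀ z ∈ s, ∃ w c : S.B, w ∉ s ∧ w * z - c * x ∈ S.pZero)
    (Q : Place k κ) (hQ : 0 ≤ Q.ord j)
    (hSS : ∀ z ∈ S.pZero, S.redInf z = 0 ∨ 0 < Q.ord (S.redInf z)) :
    ∃ (s : Ideal S.B) (hs : s.IsMaximal) (x y εx εy t : S.B),
      S.IsNode s ∧ S.pInf ≤ s ∧ S.pZero ≤ s ∧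
      x ∈ S.pInf ∧ (∀ z ∈ S.pInf, x ∣ εx * z) ∧ εx ∉ s ∧
      y ∈ S.pZero ∧ (∀ z ∈ S.pZero, y ∣ εy * z) ∧ εy ∉ s ∧
      x * y = t * S.constB ϖ ∧ t ∉ s ∧
      y ^ 12 = εy * h ∧ x ^ 12 = εx * h' ∧
      (∀ b : S.B, b ∈ s ↔ S.redInf b = 0 ∨ 0 < Q.ord (S.redInf b)) ∧
      (∀ c : S.B, 0 ≤ Q.ord (S.redInf c)) ∧
      (∀ c : S.B, c ∉ s → Q.ord (S.redInf c) = 0) ∧
      S.redInf y ≠ 0 ∧ Q.ord (S.redInf y) = 1 ∧ S.redZero x ≠ 0 ∧
      (∀ z ∈ s, ∃ w c : S.B, w ∉ s ∧ w * z - c * y ∈ S.pInf) ∧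
      (∀ z ∈ s, ∃ w c : S.B, w ∉ s ∧ w * z - c * x ∈ S.pZero) ∧
      (haveI := hs.isPrime;
        UniqueFactorizationMonoid (Localization.AtPrime s) ∧
        Prime (algebraMap S.B (Localization.AtPrime s) x) ∧
        Prime (algebraMap S.B (Localization.AtPrime s) y) ∧
        ¬ algebraMap S.B (Localization.AtPrime s) x ∣
          algebraMap S.B (Localization.AtPrime s) y ∧
        ¬ algebraMap S.B (Localization.AtPrime s) y ∣
          algebraMap S.B (Localization.AtPrime s) x ∧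
        maximalIdeal (Localization.AtPrime s) =
          Ideal.span {algebraMap S.B (Localization.AtPrime s) x,
            algebraMap S.B (Localization.AtPrime s) y}) := by
  classical
  haveI hBF : IsFractionRing S.B F := s36_isFractionRing_of_hfrac S.B hfrac
  obtain ⟨s, hsmax, hsInf, hmem, hord0, hws⟩ := edc_centre S j hiInf hoInf Q hQ
  haveI := hsmax
  haveI hsp : s.IsPrime := hsmax.isPrime
  have hsZero : S.pZero ≤ s := fun b hb => (hmem b).2 (hSS b hb)
  have hnode : S.IsNode s := ⟨hsmax, sup_le hsInf hsZero⟩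
  obtain ⟨y, εy, hy, hy12, hεy, hyg, hyth⟩ := hreg1 s hnode
  obtain ⟨x, εx, hx, hx12, hεx, hxg, hxth⟩ := hreg1' s hnode
  have hq0 : S.constB ϖ ≠ 0 := by
    intro h0
    have h1 : ((S.constB ϖ : S.B) : F) = 0 := by rw [h0]; rfl
    rw [S.coe_constB] at h1
    have h2 : (ϖ : K) = 0 := (map_eq_zero (algebraMap K F)).1 h1
    exact hϖ0 (Subtype.ext h2)
  obtain ⟨t, ht, hxy⟩ := edc_root_unit (F := F) s x y εx εy h h' (S.constB ϖ) 12
    (by norm_num) hq0 hx12 hy12 hh hεx hεy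
  obtain ⟨z₀, hz₀⟩ := edc_exists_unif Q hQ
  obtain ⟨z, hz⟩ := hoInf z₀ z₀.2
  have hz1 : Q.ord (S.redInf z) = 1 := by rw [hz]; exact hz₀
  have hzs : z ∈ s := (hmem z).2 (Or.inr (by rw [hz1]; norm_num))
  obtain ⟨w, c, hw, hwc⟩ := hyth z hzs
  have hwc' : S.redInf w * S.redInf z = S.redInf c * S.redInf y := by
    have h1 : S.redInf (w * z - c * y) = 0 := (RingHom.mem_ker).1 hwc
    rw [map_sub, map_mul, map_mul, sub_eq_zero] at h1
    exact h1
  have hw0 : S.redInf w ≠ 0 := fun h0 => hw ((hmem w).2 (Or.inl h0))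
  have hz0 : S.redInf z ≠ 0 := by
    intro h0
    rw [h0, Place.ord_zero] at hz1
    norm_num at hz1
  have hprod : S.redInf c * S.redInf y ≠ 0 := by
    rw [← hwc']
    exact mul_ne_zero hw0 hz0
  have hc0 : S.redInf c ≠ 0 := left_ne_zero_of_mul hprod
  have hy0 : S.redInf y ≠ 0 := right_ne_zero_of_mul hprod
  have hwy : Q.ord (S.redInf y) = 1 := by
    have e1 := Q.ord_mul hw0 hz0
    have e2 := Q.ord_mul hc0 hy0
    rw [hwc'] at e1
    have e3 := hws w hw
    have e5 := hord0 c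
    have e6 : 0 < Q.ord (S.redInf y) := by
      rcases (hmem y).1 (hsZero hy) with h0 | h0
      · exact absurd h0 hy0
      · exact h0
    omega
  have hne : S.pInf ≠ s := by
    intro heq
    have h1 : y ∈ S.pInf := heq ▸ hsZero hy
    exact hy0 ((RingHom.mem_ker).1 h1)
  have ht0 : t ≠ 0 := fun h0 => ht (h0 ▸ s.zero_mem)
  have hxy0 : x * y ≠ 0 := by rw [hxy]; exact mul_ne_zero ht0 hq0
  have hxB0 : x ≠ 0 := left_ne_zero_of_mul hxy0
  have hx0' : S.redZero x ≠ 0 :=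
    edc_redZero_x_ne_zero S s x y εx εy hxB0 hx hxg hεx hy hyg hεy (hsZero hy) hy0
  have hufd : UniqueFactorizationMonoid (Localization.AtPrime s) :=
    reg3_ufm S.pInf s hsInf hne x hx (fun z hz => by
      obtain ⟨c, hc⟩ := hxg z hz
      exact ⟨εx, c, hεx, hc⟩)
  have hloc := cvn_local s S.redInf S.redZero hsInf hsZero x εx y εy hx hxg hεx hy hyg hεy
    hy0 hx0' hyth
  exact ⟨s, hsmax, x, y, εx, εy, t, hnode, hsInf, hsZero, hx, hxg, hεx, hy, hyg, hεy, hxy, ht,
    hy12, hx12, hmem, hord0, hws, hy0, hwy, hx0', hyth, hxth, hufd, hloc⟩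

end Abs

section Conc

variable (A : ValuationSubring Kbar) (M' q : ℕ) [NeZero M'] [NeZero q] (hq : q.Prime)
  (hqM : ¬ q ∣ M') (hA : A.LiesOverPrime q)
  (R : ConstRed A (IsLocalRing.residue A)
      (↥(modularFunctionFieldFullC (IsLocalRing.ResidueField A) M')) (FF (M' * q)))
  (hR : IsSeriesRed R)

set_option maxHeartbeats 4000000 in
/-- **THE NODE AT A SUPERSINGULAR PLACE of level `N = M' q`, with its local data and its local
ring, unconditional.** -/
theorem edp_place_ring (haux : IsAuxLevel q M')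
    (Q : Place (IsLocalRing.ResidueField A) (Fk (IsLocalRing.ResidueField A) M'))
    (hQ : 0 ≤ Q.ord (jk (IsLocalRing.ResidueField A) M'))
    (hSS : ∀ z ∈ (nodeSetupNj A M' q hq hqM hA R hR).pZero,
      (nodeSetupNj A M' q hq hqM hA R hR).redInf z = 0 ∨
        0 < Q.ord ((nodeSetupNj A M' q hq hqM hA R hR).redInf z)) :
    ∃ (s : Ideal (nodeSetupNj A M' q hq hqM hA R hR).B) (hs : s.IsMaximal)
      (x y εx εy t : (nodeSetupNj A M' q hq hqM hA R hR).B),
      (nodeSetupNj A M' q hq hqM hA R hR).IsNode s ∧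
      (nodeSetupNj A M' q hq hqM hA R hR).pInf ≤ s ∧
      (nodeSetupNj A M' q hq hqM hA R hR).pZero ≤ s ∧
      x ∈ (nodeSetupNj A M' q hq hqM hA R hR).pInf ∧
      (∀ z ∈ (nodeSetupNj A M' q hq hqM hA R hR).pInf, x ∣ εx * z) ∧ εx ∉ s ∧
      y ∈ (nodeSetupNj A M' q hq hqM hA R hR).pZero ∧
      (∀ z ∈ (nodeSetupNj A M' q hq hqM hA R hR).pZero, y ∣ εy * z) ∧ εy ∉ s ∧
      x * y = t * (nodeSetupNj A M' q hq hqM hA R hR).constB (q : k0Val A) ∧ t ∉ s ∧
      y ^ 12 = εy * uqrHB A M' q hq hqM hA R hR ∧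
      x ^ 12 = εx * uqrHB' A M' q hq hqM hA R hR ∧
      (∀ b : (nodeSetupNj A M' q hq hqM hA R hR).B,
        b ∈ s ↔ (nodeSetupNj A M' q hq hqM hA R hR).redInf b = 0 ∨
          0 < Q.ord ((nodeSetupNj A M' q hq hqM hA R hR).redInf b)) ∧
      (∀ c : (nodeSetupNj A M' q hq hqM hA R hR).B,
        0 ≤ Q.ord ((nodeSetupNj A M' q hq hqM hA R hR).redInf c)) ∧
      (∀ c : (nodeSetupNj A M' q hq hqM hA R hR).B, c ∉ s →
        Q.ord ((nodeSetupNj A M' q hq hqM hA R hR).redInf c) = 0) ∧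
      (nodeSetupNj A M' q hq hqM hA R hR).redInf y ≠ 0 ∧
      Q.ord ((nodeSetupNj A M' q hq hqM hA R hR).redInf y) = 1 ∧
      (nodeSetupNj A M' q hq hqM hA R hR).redZero x ≠ 0 ∧
      (∀ z ∈ s, ∃ w c : (nodeSetupNj A M' q hq hqM hA R hR).B, w ∉ s ∧
        w * z - c * y ∈ (nodeSetupNj A M' q hq hqM hA R hR).pInf) ∧
      (∀ z ∈ s, ∃ w c : (nodeSetupNj A M' q hq hqM hA R hR).B, w ∉ s ∧
        w * z - c * x ∈ (nodeSetupNj A M' q hq hqM hA R hR).pZero) ∧
      (haveI := hs.isPrime;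
        UniqueFactorizationMonoid (Localization.AtPrime s) ∧
        Prime (algebraMap (nodeSetupNj A M' q hq hqM hA R hR).B (Localization.AtPrime s) x) ∧
        Prime (algebraMap (nodeSetupNj A M' q hq hqM hA R hR).B (Localization.AtPrime s) y) ∧
        ¬ algebraMap (nodeSetupNj A M' q hq hqM hA R hR).B (Localization.AtPrime s) x ∣
          algebraMap (nodeSetupNj A M' q hq hqM hA R hR).B (Localization.AtPrime s) y ∧
        ¬ algebraMap (nodeSetupNj A M' q hq hqM hA R hR).B (Localization.AtPrime s) y ∣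
          algebraMap (nodeSetupNj A M' q hq hqM hA R hR).B (Localization.AtPrime s) x ∧
        maximalIdeal (Localization.AtPrime s) =
          Ideal.span {algebraMap (nodeSetupNj A M' q hq hqM hA R hR).B
              (Localization.AtPrime s) x,
            algebraMap (nodeSetupNj A M' q hq hqM hA R hR).B (Localization.AtPrime s) y}) := by
  have hSUM : RgnSum A M' q hq hqM R := fun z h1 h3 => w2j_rgnSum A M' q hq hqM hA R hR z h1 h3
  haveI : IsAlgClosed (IsLocalRing.ResidueField A) := isAlgClosed_residueField A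
  haveI : FFSep (IsLocalRing.ResidueField A) (jk (IsLocalRing.ResidueField A) M') :=
    gmw_ffSep (IsLocalRing.ResidueField A) M'
  haveI : IsIntegrallyClosed (nodeSetupNj A M' q hq hqM hA R hR).B :=
    r1c_isIntegrallyClosed A M' q hq hqM hA R hR hSUM
  haveI : IsNoetherianRing (nodeSetupNj A M' q hq hqM hA R hR).B :=
    (r1c_noeth_frac A M' q hq hqM hA R hR hSUM).1
  haveI : IsDedekindDomain (nodeSetupNj A M' q hq hqM hA R hR).redInf.range :=
    rgn_isDedekindDomain_inf A M' q hq hqM hA R hR haux hSUM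
  haveI : IsDedekindDomain ((nodeSetupNj A M' q hq hqM hA R hR).B ⧸
      (nodeSetupNj A M' q hq hqM hA R hR).pInf) :=
    (nodeSetupNj A M' q hq hqM hA R hR).isDedekindDomain_quot_pInf
  have hreg := edc_hreg1 A M' q hq hqM hA R hR haux
  exact edp_place_ring_abs (nodeSetupNj A M' q hq hqM hA R hR)
    (r1c_noeth_frac A M' q hq hqM hA R hR hSUM).2
    (jk (IsLocalRing.ResidueField A) M')
    (rgn_hiInf A M' q hq hqM hA R hR hSUM) (rgn_hoInf A M' q hq hqM hA R hR haux)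
    (q : k0Val A) (a2i_q_ne_zero A q hq)
    (uqrHB A M' q hq hqM hA R hR) (uqrHB' A M' q hq hqM hA R hR)
    (edc_hh' A M' q hq hqM hA R hR) hreg.1 hreg.2 Q hQ hSS

end Conc

end Fermat.Agent.S40lib

end
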