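/-
Item 88 (S40/S44), block (J-WILD), per-point assembly, the `X`-side at a NODE on the component
`0` (helper18): the twin of `edp_place_ring` (`EdgePlaceRing`) with the two components exchanged
(`edc_swap`): `Q` a place of `F_{M',k}` which is supersingular for the component `0`
(`red_0 z = 0 ∨ 0 < ord_Q (red_0 z)` on `p_∞`).
-/
import Mathlib
import Fermat.Agent.S40lib.EdgePlaceRing
import Fermat.Agent.S40lib.EdgeZero

set_option autoImplicit false
set_option linter.style.haveILetI false
set_option linter.unusedSectionVars false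
set_option linter.unusedVariables false
set_option synthInstance.maxHeartbeats 400000
set_option maxHeartbeats 1000000

noncomputable section

namespace Fermat.Agent.S40lib

open Fermat.Agent.FFlib Fermat.Agent.S24lib Fermat.Agent.GM Fermat.Agent.GoodRed
  Fermat.Agent.S34lib Fermat.Agent.RRlib Fermat.Agent.S16lib Fermat.Agent.S36lib
open AlgebraicCurve IsLocalRing IntermediateField IsDedekindDomain ModularCurve

section Conc

variable (A : ValuationSubring Kbar) (M' q : ℕ) [NeZero M'] [NeZero q] (hq : q.Prime)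
  (hqM : ¬ q ∣ M') (hA : A.LiesOverPrime q)
  (R : ConstRed A (IsLocalRing.residue A)
      (↥(modularFunctionFieldFullC (IsLocalRing.ResidueField A) M')) (FF (M' * q)))
  (hR : IsSeriesRed R)

set_option maxHeartbeats 4000000 in
/-- **THE NODE AT A SUPERSINGULAR PLACE of the component `0`, level `N = M' q`, with its local
data and its local ring, unconditional.**  (`x ∈ p_0` is the local equation of the component
`0`, `y ∈ p_∞` the one of the component `∞`.) -/
theorem edp_place_ring_zero (haux : IsAuxLevel q M')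
    (Q : Place (IsLocalRing.ResidueField A) (Fk (IsLocalRing.ResidueField A) M'))
    (hQ : 0 ≤ Q.ord (jk (IsLocalRing.ResidueField A) M'))
    (hSS0 : ∀ z ∈ (nodeSetupNj A M' q hq hqM hA R hR).pInf,
      (nodeSetupNj A M' q hq hqM hA R hR).redZero z = 0 ∨
        0 < Q.ord ((nodeSetupNj A M' q hq hqM hA R hR).redZero z)) :
    ∃ (s : Ideal (nodeSetupNj A M' q hq hqM hA R hR).B) (hs : s.IsMaximal)
      (x y εx εy t : (nodeSetupNj A M' q hq hqM hA R hR).B),
      (nodeSetupNj A M' q hq hqM hA R hR).IsNode s ∧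
      (nodeSetupNj A M' q hq hqM hA R hR).pZero ≤ s ∧
      (nodeSetupNj A M' q hq hqM hA R hR).pInf ≤ s ∧
      x ∈ (nodeSetupNj A M' q hq hqM hA R hR).pZero ∧
      (∀ z ∈ (nodeSetupNj A M' q hq hqM hA R hR).pZero, x ∣ εx * z) ∧ εx ∉ s ∧
      y ∈ (nodeSetupNj A M' q hq hqM hA R hR).pInf ∧
      (∀ z ∈ (nodeSetupNj A M' q hq hqM hA R hR).pInf, y ∣ εy * z) ∧ εy ∉ s ∧
      x * y = t * (nodeSetupNj A M' q hq hqM hA R hR).constB (q : k0Val A) ∧ t ∉ s ∧
      y ^ 12 = εy * uqrHB' A M' q hq hqM hA R hR ∧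
      x ^ 12 = εx * uqrHB A M' q hq hqM hA R hR ∧
      (∀ b : (nodeSetupNj A M' q hq hqM hA R hR).B,
        b ∈ s ↔ (nodeSetupNj A M' q hq hqM hA R hR).redZero b = 0 ∨
          0 < Q.ord ((nodeSetupNj A M' q hq hqM hA R hR).redZero b)) ∧
      (∀ c : (nodeSetupNj A M' q hq hqM hA R hR).B,
        0 ≤ Q.ord ((nodeSetupNj A M' q hq hqM hA R hR).redZero c)) ∧
      (∀ c : (nodeSetupNj A M' q hq hqM hA R hR).B, c ∉ s →
        Q.ord ((nodeSetupNj A M' q hq hqM hA R hR).redZero c) = 0) ∧
      (nodeSetupNj A M' q hq hqM hA R hR).redZero y ≠ 0 ∧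
      Q.ord ((nodeSetupNj A M' q hq hqM hA R hR).redZero y) = 1 ∧
      (nodeSetupNj A M' q hq hqM hA R hR).redInf x ≠ 0 ∧
      (∀ z ∈ s, ∃ w c : (nodeSetupNj A M' q hq hqM hA R hR).B, w ∉ s ∧
        w * z - c * y ∈ (nodeSetupNj A M' q hq hqM hA R hR).pZero) ∧
      (∀ z ∈ s, ∃ w c : (nodeSetupNj A M' q hq hqM hA R hR).B, w ∉ s ∧
        w * z - c * x ∈ (nodeSetupNj A M' q hq hqM hA R hR).pInf) ∧
      (haveI := hs.isPrime;
        UniqueFactorizationMonoid (Localization.AtPrime s) ∧
        Prime (algebraMap (nodeSetupNj A M' q hq hqM hA R hR).B (Localization.AtPrime s) x) ∧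
        Prime (algebraMap (nodeSetupNj A M' q hq hqM hA R hR).B (Localization.AtPrime s) y) ∧
        ¬ algebraMap (nodeSetupNj A M' q hq hqM hA R hR).B (Localization.AtPrime s) x ∣
          algebraMap (nodeSetupNj A M' q hq hqM hA R hR).B (Localization.AtPrime s) y ∧
        ¬ algebraMap (nodeSetupNj A M' q hq hqM hA R hR).B (Localization.AtPrime s) y ∣
          algebraMap (nodeSetupNj A M' q hq hqM hA R hR).B (Localization.AtPrime s) x ∧
        maximalIdeal (Localization.AtPrime s) =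
          Ideal.span {algebraMap (nodeSetupNj A M' q hq hqM hA R hR).B
              (Localization.AtPrime s) x,
            algebraMap (nodeSetupNj A M' q hq hqM hA R hR).B (Localization.AtPrime s) y}) := by
  have hSUM : RgnSum A M' q hq hqM R := fun z h1 h3 => w2j_rgnSum A M' q hq hqM hA R hR z h1 h3
  haveI : IsAlgClosed (IsLocalRing.ResidueField A) := isAlgClosed_residueField A
  haveI : FFSep (IsLocalRing.ResidueField A) (jk (IsLocalRing.ResidueField A) M') :=
    gmw_ffSep (IsLocalRing.ResidueField A) M'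
  haveI hIC : IsIntegrallyClosed (nodeSetupNj A M' q hq hqM hA R hR).B :=
    r1c_isIntegrallyClosed A M' q hq hqM hA R hR hSUM
  haveI hN : IsNoetherianRing (nodeSetupNj A M' q hq hqM hA R hR).B :=
    (r1c_noeth_frac A M' q hq hqM hA R hR hSUM).1
  haveI : IsDedekindDomain (nodeSetupNj A M' q hq hqM hA R hR).redZero.range :=
    rgn_isDedekindDomain_zero A M' q hq hqM hA R hR haux hSUM
  haveI hD : IsDedekindDomain ((nodeSetupNj A M' q hq hqM hA R hR).B ⧸
      (nodeSetupNj A M' q hq hqM hA R hR).pZero) :=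
    (nodeSetupNj A M' q hq hqM hA R hR).isDedekindDomain_quot_pZero
  have hreg := edc_hreg1 A M' q hq hqM hA R hR haux
  have hnode : ∀ s, (edc_swap (nodeSetupNj A M' q hq hqM hA R hR)).IsNode s →
      (nodeSetupNj A M' q hq hqM hA R hR).IsNode s := by
    rintro s ⟨h1, h2⟩
    exact ⟨h1, sup_le (le_trans le_sup_right h2) (le_trans le_sup_left h2)⟩
  haveI : IsIntegrallyClosed (edc_swap (nodeSetupNj A M' q hq hqM hA R hR)).B := hIC
  haveI : IsNoetherianRing (edc_swap (nodeSetupNj A M' q hq hqM hA R hR)).B := hN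
  haveI : IsDedekindDomain ((edc_swap (nodeSetupNj A M' q hq hqM hA R hR)).B ⧸
      (edc_swap (nodeSetupNj A M' q hq hqM hA R hR)).pInf) := hD
  obtain ⟨s, hs, x, y, εx, εy, t, h1, h2, h3, h4, h5, h6, h7, h8, h9, h10, h11, h12, h13, h14,
    h15, h16, h17, h18, h19, h20, h21, h22⟩ :=
    edp_place_ring_abs (edc_swap (nodeSetupNj A M' q hq hqM hA R hR))
      (r1c_noeth_frac A M' q hq hqM hA R hR hSUM).2
      (jk (IsLocalRing.ResidueField A) M')
      (rgn_hiZero A M' q hq hqM hA R hR hSUM) (rgn_hoZero A M' q hq hqM hA R hR haux)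
      (q : k0Val A) (a2i_q_ne_zero A q hq)
      (uqrHB' A M' q hq hqM hA R hR) (uqrHB A M' q hq hqM hA R hR)
      ((mul_comm _ _).trans (edc_hh' A M' q hq hqM hA R hR))
      (fun s hs => hreg.2 s (hnode s hs)) (fun s hs => hreg.1 s (hnode s hs)) Q hQ hSS0
  exact ⟨s, hs, x, y, εx, εy, t, hnode s h1, h2, h3, h4, h5, h6, h7, h8, h9, h10, h11, h12, h13,
    h14, h15, h16, h17, h18, h19, h20, h21, h22⟩

end Conc

end Fermat.Agent.S40lib

end
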