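import Mathlib
import Fermat.Agent.S36lib.Speed
import Fermat.Agent.S40lib.EisZero

/-!
# Item 88 (S40), piece H1 (helper28): the Gauss valuations are compatible with `α_ℓ`, `β_ℓ`

Level `M p`, `ℓ ≠ p` prime; `R`, `R_ℓ` the series reductions (component `∞`) of `F_{Mp}`,
`F_{Mpℓ}`, `R₀ = R ∘ w_p`, `R_{ℓ,0} = R_ℓ ∘ w_p` (component `0`).

* `eiu_alpha_inf`, `eiu_beta_inf`   : `u` unit of `O_R` ⇒ `α u`, `β u` units of `O_{R_ℓ}`;
* `eiu_alpha_zero`, `eiu_beta_zero` : the same for `R₀`, `R_{ℓ,0}`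
  (so the difference `δ` of the two Gauss valuations of `u` is that of `α u` and of `β u`);
* `eiu_h1_inf`, `eiu_h1_zero` : (H1) (`eic_h1_inf`, `eiz_h1_zero`) without the membership
  hypotheses `hα`, `hβ`;
* `eiu_delta` : the `δ`-form of the Eisenstein step with an EXPLICIT `e`
  (`e = (c₁/c₂)^s (d₁/d₂)^t`): use it with constants in a discretely valued subfield `K₀`
  (over `K = ℚ̄` the statement of `eis_delta` is empty, the value group being divisible).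
No sorry in this file.
-/

set_option autoImplicit false
set_option linter.style.haveILetI false
set_option linter.unusedSectionVars false
set_option linter.unusedVariables false
set_option synthInstance.maxHeartbeats 400000

noncomputable section

namespace Fermat.Agent.S40lib

open ModularCurve AlgebraicCurve HahnSeries Fermat.Agent.GoodRed Fermat.Agent.GM
  Fermat.Agent.S24lib Fermat.Agent.HeckeBar Fermat.Agent.S34lib Fermat.Agent.S36lib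
  Fermat.Agent.RRlib Fermat.Agent.S33lib Fermat.Agent.LatE Fermat.Agent.S37lib
  Fermat.Agent.S35lib

section Units

variable (M p ℓ : ℕ) [NeZero M] [NeZero p] [NeZero ℓ] [NeZero (M * p)] [NeZero (M * ℓ)]
  [NeZero (M * p * ℓ)]
variable (A : ValuationSubring Kbar)
variable {R : ConstRed A (IsLocalRing.residue A) (Fk (IsLocalRing.ResidueField A) M) (FF (M * p))}
  {Rl : ConstRed A (IsLocalRing.residue A) (Fk (IsLocalRing.ResidueField A) (M * ℓ))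
    (FF (M * p * ℓ))}

/-- `α` maps the units of `O_R` to units of `O_{R_ℓ}` -/
theorem eiu_alpha_inf (hA : A ≠ ⊤) (hR : IsSeriesRed R) (hRl : IsSeriesRed Rl)
    {u : FF (M * p)} (hu : EisUnit R u) : EisUnit Rl (heckeAlphaBar Kbar (M * p) ℓ u) := by
  letI := algebraAlong (heckeAlphaBar Kbar (M * p) ℓ)
  letI := algebraAlong (inclK (IsLocalRing.ResidueField A) (dvd_mul_right M ℓ))
  have hT := hkr_isTower M p ℓ A hA hR hRl
  exact eis_gauss_map hT hu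

/-- `β` maps the units of `O_R` to units of `O_{R_ℓ}` -/
theorem eiu_beta_inf (hA : A ≠ ⊤) (hR : IsSeriesRed R) (hRl : IsSeriesRed Rl)
    {u : FF (M * p)} (hu : EisUnit R u) : EisUnit Rl (heckeBetaBar Kbar (M * p) ℓ u) := by
  obtain ⟨h1, -⟩ := hkr_beta M p ℓ A hA hR hRl u hu.2.1
  obtain ⟨h2, -⟩ := hkr_beta M p ℓ A hA hR hRl u⁻¹ hu.2.2
  exact ⟨(map_ne_zero _).mpr hu.1, h1, by rw [← map_inv₀]; exact h2⟩

variable (hp : p.Prime) (hℓ : ℓ.Prime) (hℓp : ℓ ≠ p)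
  (h1 : p ∣ M * p) (h2 : ¬ p ^ 2 ∣ M * p) (h1' : p ∣ M * p * ℓ) (h2' : ¬ p ^ 2 ∣ M * p * ℓ)

include hℓ hℓp in
/-- `α` maps the units of `O_{R₀}` to units of `O_{R_{ℓ,0}}` -/
theorem eiu_alpha_zero (hA : A ≠ ⊤) (hR : IsSeriesRed R) (hRl : IsSeriesRed Rl)
    {u : FF (M * p)} (hu : EisUnit (inredZero (M * p) p hp h1 h2 R) u) :
    EisUnit (inredZero (M * p * ℓ) p hp h1' h2' Rl) (heckeAlphaBar Kbar (M * p) ℓ u) := by
  have hu' : EisUnit R (atkinLehnerFF (M * p) p hp h1 h2 u) :=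
    ⟨(map_ne_zero _).mpr hu.1, hu.2.1, by rw [← map_inv₀]; exact hu.2.2⟩
  have h := eiu_alpha_inf M p ℓ A hA hR hRl hu'
  have e : ∀ y : FF (M * p), heckeAlphaBar Kbar (M * p) ℓ (atkinLehnerFF (M * p) p hp h1 h2 y)
      = atkinLehnerFF (M * p * ℓ) p hp h1' h2' (heckeAlphaBar Kbar (M * p) ℓ y) := by
    intro y
    have := congrArg (fun φ : FF (M * p) →ₐ[Kbar] FF (M * p * ℓ) => φ y)
      (dgj_al_comp_alpha (M * p) hp h1 h2 hℓ hℓp)
    exact this.symm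
  refine ⟨(map_ne_zero _).mpr hu.1, ?_, ?_⟩
  · show atkinLehnerFF (M * p * ℓ) p hp h1' h2' (heckeAlphaBar Kbar (M * p) ℓ u) ∈ Rl.O
    rw [← e]
    exact h.2.1
  · show atkinLehnerFF (M * p * ℓ) p hp h1' h2' (heckeAlphaBar Kbar (M * p) ℓ u)⁻¹ ∈ Rl.O
    rw [map_inv₀, ← e]
    exact h.2.2

include hℓ hℓp in
/-- `β` maps the units of `O_{R₀}` to units of `O_{R_{ℓ,0}}` -/
theorem eiu_beta_zero (hA : A ≠ ⊤) (hR : IsSeriesRed R) (hRl : IsSeriesRed Rl)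
    {u : FF (M * p)} (hu : EisUnit (inredZero (M * p) p hp h1 h2 R) u) :
    EisUnit (inredZero (M * p * ℓ) p hp h1' h2' Rl) (heckeBetaBar Kbar (M * p) ℓ u) := by
  have hu' : EisUnit R (atkinLehnerFF (M * p) p hp h1 h2 u) :=
    ⟨(map_ne_zero _).mpr hu.1, hu.2.1, by rw [← map_inv₀]; exact hu.2.2⟩
  have h := eiu_beta_inf M p ℓ A hA hR hRl hu'
  have e : ∀ y : FF (M * p), heckeBetaBar Kbar (M * p) ℓ (atkinLehnerFF (M * p) p hp h1 h2 y)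
      = atkinLehnerFF (M * p * ℓ) p hp h1' h2' (heckeBetaBar Kbar (M * p) ℓ y) := by
    intro y
    have := congrArg (fun φ : FF (M * p) →ₐ[Kbar] FF (M * p * ℓ) => φ y)
      (dgj_al_comp_beta (M * p) hp h1 h2 hℓ hℓp)
    exact this.symm
  refine ⟨(map_ne_zero _).mpr hu.1, ?_, ?_⟩
  · show atkinLehnerFF (M * p * ℓ) p hp h1' h2' (heckeBetaBar Kbar (M * p) ℓ u) ∈ Rl.O
    rw [← e]
    exact h.2.1
  · show atkinLehnerFF (M * p * ℓ) p hp h1' h2' (heckeBetaBar Kbar (M * p) ℓ u)⁻¹ ∈ Rl.O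
    rw [map_inv₀, ← e]
    exact h.2.2

include hp hℓp in
/-- **(H1), `∞`-component**, without membership hypotheses: `eic_h1_inf` with `hα`, `hβ`
discharged. -/
theorem eiu_h1_inf [RRBase Kbar (FF (M * p))] (hpM : ¬ p ∣ M) (hℓN : ¬ ℓ ∣ M * p)
    (hA : A.LiesOverPrime p) (hR : IsSeriesRed R) (hRl : IsSeriesRed Rl) (a : ℤ)
    (hcop : ¬ (p : ℤ) ∣ a - ((ℓ : ℤ) + 1))
    {x : JZero (M * p)} {u : FF (M * p)} (hx : gdfIsKummer (K := Kbar) p x u)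
    (heig : heckeOperatorBar (M * p) ⟨ℓ, hℓ⟩ x = a • x) (hu : EisUnit R u)
    (heq : ∀ (hα : heckeAlphaBar Kbar (M * p) ℓ u ∈ Rl.O)
      (hβ : heckeBetaBar Kbar (M * p) ℓ u ∈ Rl.O)
      (Q' : Place (IsLocalRing.ResidueField A) (Fk (IsLocalRing.ResidueField A) (M * ℓ))),
      (p : ℤ) ∣ Q'.ord (Rl.red ⟨_, hβ⟩) - Q'.ord (Rl.red ⟨_, hα⟩))
    (Q : Place (IsLocalRing.ResidueField A) (Fk (IsLocalRing.ResidueField A) M)) :
    (p : ℤ) ∣ Q.ord (R.red ⟨u, hu.2.1⟩) := by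
  have hne : A ≠ ⊤ := cri_ne_top p A hA hp.ne_zero
  have hα := (eiu_alpha_inf M p ℓ A hne hR hRl hu).2.1
  have hβ := (eiu_beta_inf M p ℓ A hne hR hRl hu).2.1
  exact eic_h1_inf M p ℓ A hp hpM hℓ hℓp hℓN hA hR hRl a hcop hx heig hu hα hβ
    (heq hα hβ) Q

include hℓp in
/-- **(H1), `0`-component**, without membership hypotheses: `eiz_h1_zero` with `hα`, `hβ`
discharged. -/
theorem eiu_h1_zero [RRBase Kbar (FF (M * p))] (hpM : ¬ p ∣ M) (hℓN : ¬ ℓ ∣ M * p)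
    (hA : A.LiesOverPrime p) (hR : IsSeriesRed R) (hRl : IsSeriesRed Rl) (a : ℤ)
    (hcop : ¬ (p : ℤ) ∣ a - ((ℓ : ℤ) + 1))
    {x : JZero (M * p)} {u : FF (M * p)} (hx : gdfIsKummer (K := Kbar) p x u)
    (heig : heckeOperatorBar (M * p) ⟨ℓ, hℓ⟩ x = a • x)
    (hu : EisUnit (inredZero (M * p) p hp h1 h2 R) u)
    (heq : ∀ (hα : heckeAlphaBar Kbar (M * p) ℓ u ∈ (inredZero (M * p * ℓ) p hp h1' h2' Rl).O)
      (hβ : heckeBetaBar Kbar (M * p) ℓ u ∈ (inredZero (M * p * ℓ) p hp h1' h2' Rl).O)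
      (Q' : Place (IsLocalRing.ResidueField A) (Fk (IsLocalRing.ResidueField A) (M * ℓ))),
      (p : ℤ) ∣ Q'.ord ((inredZero (M * p * ℓ) p hp h1' h2' Rl).red ⟨_, hβ⟩)
        - Q'.ord ((inredZero (M * p * ℓ) p hp h1' h2' Rl).red ⟨_, hα⟩))
    (Q : Place (IsLocalRing.ResidueField A) (Fk (IsLocalRing.ResidueField A) M)) :
    (p : ℤ) ∣ Q.ord ((inredZero (M * p) p hp h1 h2 R).red ⟨u, hu.2.1⟩) := by
  have hne : A ≠ ⊤ := cri_ne_top p A hA hp.ne_zero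
  have hα := (eiu_alpha_zero M p ℓ A hp hℓ hℓp h1 h2 h1' h2' hne hR hRl hu).2.1
  have hβ := (eiu_beta_zero M p ℓ A hp hℓ hℓp h1 h2 h1' h2' hne hR hRl hu).2.1
  exact eiz_h1_zero M p ℓ A hp hpM hℓ hℓp hℓN hA h1 h2 h1' h2' hR hRl a hcop hx heig hu hα hβ
    (heq hα hβ) Q

end Units

/-! ### the `δ`-form with an explicit `e` -/

section Delta

variable {K F F' k Fk₁ Fk₁' Fk₂ Fk₂' : Type*} [Field K] [Field F] [Field F'] [Algebra K F]
  [Algebra K F'] [Algebra F F'] [IsScalarTower K F F']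
  [Field k] [Field Fk₁] [Field Fk₁'] [Algebra k Fk₁] [Algebra k Fk₁'] [Algebra Fk₁ Fk₁']
  [IsScalarTower k Fk₁ Fk₁']
  [Field Fk₂] [Field Fk₂'] [Algebra k Fk₂] [Algebra k Fk₂'] [Algebra Fk₂ Fk₂']
  [IsScalarTower k Fk₂ Fk₂']
variable {A : ValuationSubring K} {π : A →+* k}
variable {R₁ : ConstRed A π Fk₁ F} {R₁' : ConstRed A π Fk₁' F'}
variable {R₂ : ConstRed A π Fk₂ F} {R₂' : ConstRed A π Fk₂' F'}

/-- **Eisenstein step, `δ`-form, explicit**: as `eis_delta`, with the Gauss valuations `d₁`, `d₂`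
of `h` given; then `e = (c₁ / c₂) ^ s (d₁ / d₂) ^ t` for integers `s`, `t`.  If `c₁, c₂, d₁, d₂`
lie in a subfield `K₀` (e.g. are powers of `p`), so does `e`. -/
theorem eiu_delta (hT₁ : R₁.IsTower R₁') (hT₂ : R₂.IsTower R₂') [FiniteDimensional F F']
    (hdeg₁ : Module.finrank F F' = Module.finrank Fk₁ Fk₁')
    (hdeg₂ : Module.finrank F F' = Module.finrank Fk₂ Fk₂')
    {g : F'} {w h : F} {c c₁ c₂ d₁ d₂ : K} (a : ℤ) (p : ℕ)
    (hcop : IsCoprime (p : ℤ) (a - (Module.finrank F F' : ℤ)))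
    (hg₁ : EisUnit R₁' (algebraMap K F' c₁ * g)) (hg₂ : EisUnit R₂' (algebraMap K F' c₂ * g))
    (hw₁ : EisUnit R₁ (algebraMap K F c₁ * w)) (hw₂ : EisUnit R₂ (algebraMap K F c₂ * w))
    (hh₁ : EisUnit R₁ (algebraMap K F d₁ * h)) (hh₂ : EisUnit R₂ (algebraMap K F d₂ * h))
    (hN : Algebra.norm F g = algebraMap K F c * w ^ a * h ^ p) :
    ∃ s t : ℤ, A.valuation (c₁ / c₂) = A.valuation ((c₁ / c₂) ^ s * (d₁ / d₂) ^ t) ^ p := by
  have hc₁ : c₁ ≠ 0 := by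
    rintro rfl
    exact hw₁.1 (by rw [map_zero, zero_mul])
  have hc₂ : c₂ ≠ 0 := by
    rintro rfl
    exact hw₂.1 (by rw [map_zero, zero_mul])
  have hd₁0 : d₁ ≠ 0 := by
    rintro rfl
    exact hh₁.1 (by rw [map_zero, zero_mul])
  have hd₂0 : d₂ ≠ 0 := by
    rintro rfl
    exact hh₂.1 (by rw [map_zero, zero_mul])
  have hg0 : g ≠ 0 := right_ne_zero_of_mul hg₁.1
  have hN0 : Algebra.norm F g ≠ 0 := Algebra.norm_ne_zero_iff.mpr hg0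
  have hc0 : c ≠ 0 := by
    rintro rfl
    rw [map_zero, zero_mul, zero_mul] at hN
    exact hN0 hN
  have r₁ := eis_gauss_rel hT₁ hdeg₁ a p hg₁ hw₁ hh₁ hN
  have r₂ := eis_gauss_rel hT₂ hdeg₂ a p hg₂ hw₂ hh₂ hN
  obtain ⟨m, hm⟩ : ∃ m : ℕ, m = Module.finrank F F' := ⟨_, rfl⟩
  rw [← hm] at r₁ r₂ hcop
  have hx : c₁ / c₂ ≠ 0 := div_ne_zero hc₁ hc₂
  have hy : d₁ / d₂ ≠ 0 := div_ne_zero hd₁0 hd₂0
  have hz : A.valuation ((c₁ / c₂) ^ ((m : ℤ) - a) * ((d₁ / d₂) ^ (p : ℤ))⁻¹) = 1 := by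
    have e : (c₁ / c₂) ^ ((m : ℤ) - a) * ((d₁ / d₂) ^ (p : ℤ))⁻¹
        = (c * c₁ ^ m * (c₁ ^ a)⁻¹ * (d₁ ^ p)⁻¹) / (c * c₂ ^ m * (c₂ ^ a)⁻¹ * (d₂ ^ p)⁻¹) := by
      rw [zpow_sub₀ hx, zpow_natCast, zpow_natCast, div_pow, div_pow, div_zpow]
      have e1 : c₁ ^ a ≠ 0 := zpow_ne_zero a hc₁
      have e2 : c₂ ^ a ≠ 0 := zpow_ne_zero a hc₂
      field_simp
    rw [e, map_div₀, r₁, r₂, div_one]
  obtain ⟨u, t, huv⟩ := hcop
  refine ⟨u, -t, ?_⟩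
  have hx_eq : c₁ / c₂ = ((c₁ / c₂) ^ u * (d₁ / d₂) ^ (-t)) ^ p
      * ((c₁ / c₂) ^ ((m : ℤ) - a) * ((d₁ / d₂) ^ (p : ℤ))⁻¹) ^ (-t) := by
    rw [← zpow_natCast ((c₁ / c₂) ^ u * (d₁ / d₂) ^ (-t)) p, mul_zpow, mul_zpow, ← zpow_neg,
      ← zpow_mul, ← zpow_mul, ← zpow_mul, ← zpow_mul, mul_mul_mul_comm, ← zpow_add₀ hx,
      ← zpow_add₀ hy]
    have e1 : u * (p : ℤ) + ((m : ℤ) - a) * (-t) = 1 := by linear_combination huv
    have e2 : -t * (p : ℤ) + -(p : ℤ) * (-t) = 0 := by ring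
    rw [e1, e2, zpow_one, zpow_zero, mul_one]
  have h3 := congrArg A.valuation hx_eq
  rw [map_mul, map_pow, map_zpow₀, hz, one_zpow, mul_one] at h3
  exact h3

end Delta

end Fermat.Agent.S40lib

end
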