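import Mathlib
import Fermat.Agent.S40lib.EisUnits
import Fermat.Agent.S40lib.EdgeSmooth
import Fermat.Agent.S36lib.FixedF0
import Fermat.Agent.S37lib.HeckeInputs

/-!
# Item 88 (S44/S40), piece H1 (helper28): the hypothesis `heq` of the Eisenstein step

Gap (i) of the J-TAME assembly.  `heq` = "the divisors of the reductions of `β u` and `α u`
agree modulo `p` off the cusps (level `M ℓ`, characteristic `p`)".  It is WINDC with `δ = 0`
for `w := β u / α u` at the level `(M ℓ) p`: `w` is a unit on BOTH components whatever `δ (u)`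
is, its divisor is divisible by `p`, and it is `K0`-rational when `u` is.

* `ehq_windc0`  : WINDC with `δ = 0` at a level `N = M' q` (generic `N`; from helper18's
                  `edc_windc`);
* `ehq_heq_inf` : `heq` on the `∞`-component off the cusps;
* `ehq_wind_inf`: `eic_wind_inf` with `heq` off the cusps only, conclusion off the cusps;
* `ehq_core_inf`, `ehq_core_zero` : the same from `N_α (β u) = c u ^ a h ^ p` and `p ∣ div u`,
                  WITHOUT `heq`, on both components;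
* `ehq_h1_inf`, `ehq_h1_zero` : **(H1), no `heq`**: `u ∈ F0` Kummer function of an eigenclass
                  `x`, unit of `O_R`, `c u` unit of `O_{R₀}`  ⇒  `p ∣ ord_Q (red u)` for every
                  non-cuspidal `Q` (both components).
All proofs complete.
-/

set_option autoImplicit false
set_option linter.style.haveILetI false
set_option linter.unusedSectionVars false
set_option linter.unusedVariables false
set_option synthInstance.maxHeartbeats 400000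
set_option maxHeartbeats 1000000

noncomputable section

namespace Fermat.Agent.S40lib

open ModularCurve AlgebraicCurve HahnSeries Fermat.Agent.GoodRed Fermat.Agent.GM
  Fermat.Agent.S24lib Fermat.Agent.HeckeBar Fermat.Agent.S34lib Fermat.Agent.S36lib
  Fermat.Agent.RRlib Fermat.Agent.S33lib Fermat.Agent.LatE Fermat.Agent.S37lib
  Fermat.Agent.S35lib

/-! ### 1. WINDC with `δ = 0` at a generic level -/

section Generic

variable (A : ValuationSubring Kbar)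

/-- **WINDC with `δ = 0`**, level `N = M' q` (generic `N`): `w ∈ F0 (N)` a unit on both
components with divisor divisible by `m`; then `m ∣ ord_Q (red_∞ w)` at every non-cuspidal `Q`. -/
theorem ehq_windc0 (N M' q : ℕ) [NeZero N] [NeZero M'] [NeZero q] (hN : N = M' * q)
    (hq : q.Prime) (hqM : ¬ q ∣ M') (hA : A.LiesOverPrime q) (haux : IsAuxLevel q M')
    (R : ConstRed A (IsLocalRing.residue A) (Fk (IsLocalRing.ResidueField A) M') (FF N))
    (hR : IsSeriesRed R) (h1 : q ∣ N) (h2 : ¬ q ^ 2 ∣ N)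
    (m : ℕ) (w : FF N) (hwF : w ∈ f0Field A N)
    (hdiv : ∀ P : Place Kbar (FF N), (m : ℤ) ∣ P.ord w)
    (hw : EisUnit R w) (hw0 : EisUnit (inredZero N q hq h1 h2 R) w)
    (Q : Place (IsLocalRing.ResidueField A) (Fk (IsLocalRing.ResidueField A) M'))
    (hQ : 0 ≤ Q.ord (jk (IsLocalRing.ResidueField A) M')) :
    (m : ℤ) ∣ Q.ord (R.red ⟨w, hw.2.1⟩) := by
  subst hN
  have hw0' : (⟨w, hwF⟩ : f0Field A (M' * q)) ≠ 0 := by
    intro h
    exact hw.1 (congrArg Subtype.val h)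
  have e1 : (⟨w, hwF⟩ : f0Field A (M' * q)) * (a2iQ A q (L := M' * q) ^ (0 : ℤ))⁻¹
      = ⟨w, hwF⟩ := by
    rw [zpow_zero, inv_one, mul_one]
  have hv : (⟨w, hwF⟩ : f0Field A (M' * q)) * (a2iQ A q (L := M' * q) ^ (0 : ℤ))⁻¹ ∈
      (nodeSetupNj A M' q hq hqM hA R hR).vZero.O := by
    rw [e1]
    exact hw0.2.1
  have hv' : ((⟨w, hwF⟩ : f0Field A (M' * q)) * (a2iQ A q (L := M' * q) ^ (0 : ℤ))⁻¹)⁻¹ ∈
      (nodeSetupNj A M' q hq hqM hA R hR).vZero.O := by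
    rw [e1]
    exact hw0.2.2
  have h := edc_windc A M' q hq hqM hA R hR haux m ⟨w, hwF⟩ hw0' hdiv hw.2.1 hw.2.2 0 hv hv' Q hQ
  by_cases hSS : ∀ z ∈ (nodeSetupNj A M' q hq hqM hA R hR).pZero,
      (nodeSetupNj A M' q hq hqM hA R hR).redInf z = 0 ∨
        0 < Q.ord ((nodeSetupNj A M' q hq hqM hA R hR).redInf z)
  · have := h.1 hSS
    rwa [sub_zero] at this
  · exact h.2 hSS

end Generic

/-! ### 2. `heq` on the `∞`-component -/

section Concrete

variable (M p ℓ : ℕ) [NeZero M] [NeZero p] [NeZero ℓ] [NeZero (M * p)] [NeZero (M * ℓ)]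
  [NeZero (M * p * ℓ)]
variable (A : ValuationSubring Kbar)
variable {R : ConstRed A (IsLocalRing.residue A) (Fk (IsLocalRing.ResidueField A) M) (FF (M * p))}
  {Rl : ConstRed A (IsLocalRing.residue A) (Fk (IsLocalRing.ResidueField A) (M * ℓ))
    (FF (M * p * ℓ))}
variable (hp : p.Prime) (hℓ : ℓ.Prime) (hℓp : ℓ ≠ p)
  (h1 : p ∣ M * p) (h2 : ¬ p ^ 2 ∣ M * p) (h1' : p ∣ M * p * ℓ) (h2' : ¬ p ^ 2 ∣ M * p * ℓ)

/-- the divisor of `β u / α u` is divisible by `m` when the divisor of `u` is -/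
theorem ehq_hdiv (m : ℕ) {u : FF (M * p)}
    (hdiv : ∀ P : Place Kbar (FF (M * p)), (m : ℤ) ∣ P.ord u)
    (P : Place Kbar (FF (M * p * ℓ))) :
    (m : ℤ) ∣ P.ord (heckeBetaBar Kbar (M * p) ℓ u * (heckeAlphaBar Kbar (M * p) ℓ u)⁻¹) := by
  by_cases hu : u = 0
  · subst hu
    simp only [map_zero, inv_zero, mul_zero]
    have := hdiv (P.restrictAlong (heckeAlphaBar Kbar (M * p) ℓ) (hinp_isIntegral_alpha (M * p) ℓ))
    have e := Place.ord_restrictAlong (heckeAlphaBar Kbar (M * p) ℓ)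
      (hinp_isIntegral_alpha (M * p) ℓ) P 0
    rw [map_zero] at e
    rw [e]
    exact Dvd.dvd.mul_left this _
  have ha : heckeAlphaBar Kbar (M * p) ℓ u ≠ 0 := (map_ne_zero _).mpr hu
  have hb : heckeBetaBar Kbar (M * p) ℓ u ≠ 0 := (map_ne_zero _).mpr hu
  rw [P.ord_mul hb (inv_ne_zero ha), P.ord_inv,
    Place.ord_restrictAlong (heckeBetaBar Kbar (M * p) ℓ) (hinp_isIntegral_beta (M * p) ℓ) P u,
    Place.ord_restrictAlong (heckeAlphaBar Kbar (M * p) ℓ) (hinp_isIntegral_alpha (M * p) ℓ) P u]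
  exact dvd_add (Dvd.dvd.mul_left (hdiv _) _) ((dvd_neg).mpr (Dvd.dvd.mul_left (hdiv _) _))

include hℓ hℓp in
/-- **`heq` on the `∞`-component, off the cusps**: `u ∈ F0 (M p)` with divisor divisible by `m`,
a unit of `O_R`, `c u` a unit of `O_{R₀}`; then the divisors of the reductions of `β u` and
`α u` agree modulo `m` at every non-cuspidal place of level `M ℓ`. -/
theorem ehq_heq_inf (hpM : ¬ p ∣ M) (hA : A.LiesOverPrime p) (haux : IsAuxLevel p (M * ℓ))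
    (hR : IsSeriesRed R) (hRl : IsSeriesRed Rl) (m : ℕ)
    {u : FF (M * p)} (huF : u ∈ f0Field A (M * p))
    (hdiv : ∀ P : Place Kbar (FF (M * p)), (m : ℤ) ∣ P.ord u)
    (hu : EisUnit R u) {c : Kbar}
    (hu0 : EisUnit (inredZero (M * p) p hp h1 h2 R) (algebraMap Kbar (FF (M * p)) c * u))
    (hα : heckeAlphaBar Kbar (M * p) ℓ u ∈ Rl.O) (hβ : heckeBetaBar Kbar (M * p) ℓ u ∈ Rl.O)
    (Q' : Place (IsLocalRing.ResidueField A) (Fk (IsLocalRing.ResidueField A) (M * ℓ)))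
    (hQ' : 0 ≤ Q'.ord (jk (IsLocalRing.ResidueField A) (M * ℓ))) :
    (m : ℤ) ∣ Q'.ord (Rl.red ⟨_, hβ⟩) - Q'.ord (Rl.red ⟨_, hα⟩) := by
  have hne : A ≠ ⊤ := cri_ne_top p A hA hp.ne_zero
  have hpMl : ¬ p ∣ M * ℓ := hkr_not_dvd_mul M p ℓ hp hpM hℓ hℓp
  have h1' : p ∣ M * p * ℓ := Dvd.dvd.mul_right (dvd_mul_left p M) ℓ
  have h2' : ¬ p ^ 2 ∣ M * p * ℓ := by
    intro h
    apply hpMl
    have e : M * p * ℓ = p * (M * ℓ) := by ring
    rw [e, pow_two] at h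
    exact (Nat.mul_dvd_mul_iff_left hp.pos).mp h
  have Ha := eiu_alpha_inf M p ℓ A hne hR hRl hu
  have Hb := eiu_beta_inf M p ℓ A hne hR hRl hu
  have Ha0 := eiu_alpha_zero M p ℓ A hp hℓ hℓp h1 h2 h1' h2' hne hR hRl hu0
  have Hb0 := eiu_beta_zero M p ℓ A hp hℓ hℓp h1 h2 h1' h2' hne hR hRl hu0
  have hc : algebraMap Kbar (FF (M * p * ℓ)) c ≠ 0 := by
    intro h0
    have h3 : c = 0 := (map_eq_zero _).mp h0
    apply hu0.1
    rw [h3, map_zero, zero_mul]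
  have hw : EisUnit Rl
      (heckeBetaBar Kbar (M * p) ℓ u * (heckeAlphaBar Kbar (M * p) ℓ u)⁻¹) := Hb.mul Ha.inv
  have hw0 : EisUnit (inredZero (M * p * ℓ) p hp h1' h2' Rl)
      (heckeBetaBar Kbar (M * p) ℓ u * (heckeAlphaBar Kbar (M * p) ℓ u)⁻¹) := by
    have h3 := Hb0.mul Ha0.inv
    have e : heckeBetaBar Kbar (M * p) ℓ (algebraMap Kbar (FF (M * p)) c * u) *
        (heckeAlphaBar Kbar (M * p) ℓ (algebraMap Kbar (FF (M * p)) c * u))⁻¹
        = heckeBetaBar Kbar (M * p) ℓ u * (heckeAlphaBar Kbar (M * p) ℓ u)⁻¹ := by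
      rw [map_mul, map_mul, AlgHom.commutes, AlgHom.commutes, mul_inv]
      have := Ha.1
      field_simp
    rw [e] at h3
    exact h3
  have hwF : heckeBetaBar Kbar (M * p) ℓ u * (heckeAlphaBar Kbar (M * p) ℓ u)⁻¹ ∈
      f0Field A (M * p * ℓ) :=
    mul_mem (f0_heckeBetaBar_mem A ℓ huF) (inv_mem (f0_heckeAlphaBar_mem A ℓ huF))
  have key := ehq_windc0 A (M * p * ℓ) (M * ℓ) p (by ring) hp hpMl hA haux Rl hRl h1' h2' m _ hwF
    (ehq_hdiv M p ℓ m hdiv) hw hw0 Q' hQ'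
  have hred : Rl.red ⟨_, hβ⟩ = Rl.red ⟨_, hw.2.1⟩ * Rl.red ⟨_, hα⟩ := by
    rw [← map_mul]
    congr 1
    apply Subtype.ext
    show heckeBetaBar Kbar (M * p) ℓ u
      = heckeBetaBar Kbar (M * p) ℓ u * (heckeAlphaBar Kbar (M * p) ℓ u)⁻¹ *
        heckeAlphaBar Kbar (M * p) ℓ u
    rw [inv_mul_cancel_right₀ Ha.1]
  rw [hred, Q'.ord_mul hw.red_ne_zero Ha.red_ne_zero, add_sub_cancel_right]
  exact key

/-! ### 3. (H1) on the `∞`-component, off the cusps -/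

include hp hℓ hℓp in
/-- **(H1), `∞`-component, level `M p`, off the cusps**: `eic_wind_inf` with `heq` at the
non-cuspidal places only; the conclusion holds at the non-cuspidal places. -/
theorem ehq_wind_inf (hpM : ¬ p ∣ M) (hA : A.LiesOverPrime p)
    (hR : IsSeriesRed R) (hRl : IsSeriesRed Rl) (a : ℤ)
    (hcop : IsCoprime (p : ℤ) (a - (finrankAlong Kbar (heckeAlphaBar Kbar (M * p) ℓ) : ℤ)))
    {u h : FF (M * p)} {c : Kbar} (hu : EisUnit R u)
    (hN : normBeta (M * p) ℓ u = algebraMap Kbar (FF (M * p)) c * u ^ a * h ^ p)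
    (hα : heckeAlphaBar Kbar (M * p) ℓ u ∈ Rl.O) (hβ : heckeBetaBar Kbar (M * p) ℓ u ∈ Rl.O)
    (heq : ∀ Q' : Place (IsLocalRing.ResidueField A) (Fk (IsLocalRing.ResidueField A) (M * ℓ)),
      0 ≤ Q'.ord (jk (IsLocalRing.ResidueField A) (M * ℓ)) →
      (p : ℤ) ∣ Q'.ord (Rl.red ⟨_, hβ⟩) - Q'.ord (Rl.red ⟨_, hα⟩))
    (Q : Place (IsLocalRing.ResidueField A) (Fk (IsLocalRing.ResidueField A) M))
    (hQ : 0 ≤ Q.ord (jk (IsLocalRing.ResidueField A) M)) :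
    (p : ℤ) ∣ Q.ord (R.red ⟨u, hu.2.1⟩) := by
  haveI : IsAlgClosed (IsLocalRing.ResidueField A) := isAlgClosed_residueField A
  haveI : Fact p.Prime := ⟨hp⟩
  have hpMl := hkr_not_dvd_mul M p ℓ hp hpM hℓ hℓp
  have hfinK : FiniteAlong (IsLocalRing.ResidueField A)
      (inclK (IsLocalRing.ResidueField A) (dvd_mul_right M ℓ)) :=
    finiteAlong_inclK (IsLocalRing.ResidueField A) (dvd_mul_right M ℓ)
      (finrank_Fk_modL M hpM A hA) (finrank_Fk_modL (M * ℓ) hpMl A hA)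
  have hNF := normFormulaAlong_inclK (IsLocalRing.ResidueField A) (dvd_mul_right M ℓ) hfinK
  have hne : A ≠ ⊤ := cri_ne_top p A hA hp.ne_zero
  letI := algebraAlong (heckeAlphaBar Kbar (M * p) ℓ)
  letI := algebraAlong (inclK (IsLocalRing.ResidueField A) (dvd_mul_right M ℓ))
  haveI := isScalarTower_along (heckeAlphaBar Kbar (M * p) ℓ)
  haveI := isScalarTower_along (inclK (IsLocalRing.ResidueField A) (dvd_mul_right M ℓ))
  haveI : FiniteDimensional (FF (M * p)) (FF (M * p * ℓ)) := hkr_finite M p ℓ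
  haveI : Module.Finite (Fk (IsLocalRing.ResidueField A) M)
      (Fk (IsLocalRing.ResidueField A) (M * ℓ)) := hfinK
  haveI : Algebra.IsIntegral (Fk (IsLocalRing.ResidueField A) M)
      (Fk (IsLocalRing.ResidueField A) (M * ℓ)) := Algebra.IsIntegral.of_finite _ _
  haveI := gmw_hasPrincipalDivisors (IsLocalRing.ResidueField A) M
  haveI := gmw_hasPrincipalDivisors (IsLocalRing.ResidueField A) (M * ℓ)
  haveI : SumRamificationInertia (IsLocalRing.ResidueField A)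
      (Fk (IsLocalRing.ResidueField A) M) (Fk (IsLocalRing.ResidueField A) (M * ℓ)) :=
    sumRamificationInertia_of_normFormula hNF
  have hT := hkr_isTower M p ℓ A hne hR hRl
  have hdeg := hkr_finrank_eq M p ℓ A hp hpM hℓ hℓp hA
  obtain ⟨hβi, -⟩ := hkr_beta M p ℓ A hne hR hRl u⁻¹ hu.2.2
  have hg : EisUnit Rl (heckeBetaBar Kbar (M * p) ℓ u) :=
    ⟨(map_ne_zero _).mpr hu.1, hβ, by rw [← map_inv₀]; exact hβi⟩
  refine eis_wind hT hdeg hNF p hp.pos a hcop hu hg hN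
    {Q | Q.ord (jk (IsLocalRing.ResidueField A) M) < 0} (fun Q' hQ' => heq Q' ?_) Q
    (by simpa using hQ)
  have h3 : 0 ≤ (Q'.restrict (Fk (IsLocalRing.ResidueField A) M)).ord
      (jk (IsLocalRing.ResidueField A) M) := by
    simpa using hQ'
  have h4 := Q'.ord_restrict (F := Fk (IsLocalRing.ResidueField A) M)
    (jk (IsLocalRing.ResidueField A) M)
  have h5 : algebraMap (Fk (IsLocalRing.ResidueField A) M)
      (Fk (IsLocalRing.ResidueField A) (M * ℓ)) (jk (IsLocalRing.ResidueField A) M)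
      = jk (IsLocalRing.ResidueField A) (M * ℓ) :=
    inclK_jk (IsLocalRing.ResidueField A) (dvd_mul_right M ℓ)
  rw [h5] at h4
  rw [h4]
  exact mul_nonneg (Int.natCast_nonneg _) h3

include hp hℓ hℓp in
/-- **the core, `∞`-component**: `u ∈ F0 (M p)` with divisor divisible by `p`, unit of `O_R`,
`c u` unit of `O_{R₀}`, `N_α (β u) = c' u ^ a h ^ p`, `p` prime to `a - (ℓ + 1)`, `M ℓ`
auxiliary.  Then `p ∣ ord_Q (red_∞ u)` at every non-cuspidal place `Q`. -/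
theorem ehq_core_inf (hpM : ¬ p ∣ M) (hℓN : ¬ ℓ ∣ M * p)
    (hA : A.LiesOverPrime p) (haux : IsAuxLevel p (M * ℓ))
    (hR : IsSeriesRed R) (hRl : IsSeriesRed Rl) (a : ℤ)
    (hcop : ¬ (p : ℤ) ∣ a - ((ℓ : ℤ) + 1))
    {u h : FF (M * p)} {c' : Kbar}
    (hN : normBeta (M * p) ℓ u = algebraMap Kbar (FF (M * p)) c' * u ^ a * h ^ p)
    (hdiv : ∀ P : Place Kbar (FF (M * p)), (p : ℤ) ∣ P.ord u)
    (huF : u ∈ f0Field A (M * p)) (hu : EisUnit R u) {c : Kbar}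
    (hu0 : EisUnit (inredZero (M * p) p hp h1 h2 R) (algebraMap Kbar (FF (M * p)) c * u))
    (Q : Place (IsLocalRing.ResidueField A) (Fk (IsLocalRing.ResidueField A) M))
    (hQ : 0 ≤ Q.ord (jk (IsLocalRing.ResidueField A) M)) :
    (p : ℤ) ∣ Q.ord (R.red ⟨u, hu.2.1⟩) := by
  have hne : A ≠ ⊤ := cri_ne_top p A hA hp.ne_zero
  have hα := (eiu_alpha_inf M p ℓ A hne hR hRl hu).2.1
  have hβ := (eiu_beta_inf M p ℓ A hne hR hRl hu).2.1
  have hcop' : IsCoprime (p : ℤ)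
      (a - (finrankAlong Kbar (heckeAlphaBar Kbar (M * p) ℓ) : ℤ)) := by
    rw [eic_finrank M p ℓ hℓ hℓN]
    push_cast
    exact (Nat.prime_iff_prime_int.mp hp).coprime_iff_not_dvd.mpr hcop
  exact ehq_wind_inf M p ℓ A hp hℓ hℓp hpM hA hR hRl a hcop' hu hN hα hβ
    (fun Q' hQ' => ehq_heq_inf M p ℓ A hp hℓ hℓp h1 h2 hpM hA haux hR hRl p huF hdiv hu hu0
      hα hβ Q' hQ') Q hQ

omit [NeZero M] [NeZero p] [NeZero ℓ] [NeZero (M * ℓ)] [NeZero (M * p * ℓ)] in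
/-- the divisor of a Kummer function is divisible by `p` -/
theorem ehq_kummer_hdiv [RRBase Kbar (FF (M * p))] {x : JZero (M * p)} {u : FF (M * p)}
    (hx : gdfIsKummer (K := Kbar) p x u) (P : Place Kbar (FF (M * p))) :
    (p : ℤ) ∣ P.ord u := by
  obtain ⟨hu0', D, -, hpD⟩ := hx
  have := congrArg (fun E : Divisor Kbar (FF (M * p)) => E P) hpD
  simp only [Finsupp.smul_apply, nsmul_eq_mul] at this
  rw [divOf_apply hu0'] at this
  exact ⟨_, this.symm⟩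

include hp hℓp in
/-- **(H1), `∞`-component, WITHOUT `heq`** (level `M p`, `M ℓ` auxiliary): `x ∈ J₀(M p)` with
`T_ℓ x = a • x`, `p ∤ a - (ℓ + 1)`; `u ∈ F0 (M p)` a Kummer function of `x`, unit of `O_R`, with
`c u` a unit of `O_{R₀}`.  Then `p ∣ ord_Q (red_∞ u)` at every non-cuspidal place `Q`. -/
theorem ehq_h1_inf [RRBase Kbar (FF (M * p))] (hpM : ¬ p ∣ M) (hℓN : ¬ ℓ ∣ M * p)
    (hA : A.LiesOverPrime p) (haux : IsAuxLevel p (M * ℓ))
    (hR : IsSeriesRed R) (hRl : IsSeriesRed Rl) (a : ℤ)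
    (hcop : ¬ (p : ℤ) ∣ a - ((ℓ : ℤ) + 1))
    {x : JZero (M * p)} {u : FF (M * p)} (hx : gdfIsKummer (K := Kbar) p x u)
    (heig : heckeOperatorBar (M * p) ⟨ℓ, hℓ⟩ x = a • x)
    (huF : u ∈ f0Field A (M * p)) (hu : EisUnit R u) {c : Kbar}
    (hu0 : EisUnit (inredZero (M * p) p hp h1 h2 R) (algebraMap Kbar (FF (M * p)) c * u))
    (Q : Place (IsLocalRing.ResidueField A) (Fk (IsLocalRing.ResidueField A) M))
    (hQ : 0 ≤ Q.ord (jk (IsLocalRing.ResidueField A) M)) :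
    (p : ℤ) ∣ Q.ord (R.red ⟨u, hu.2.1⟩) := by
  obtain ⟨c', h, -, -, hN⟩ := eic_kummer_rel (M * p) ⟨ℓ, hℓ⟩ hx a heig
  exact ehq_core_inf M p ℓ A hp hℓ hℓp h1 h2 hpM hℓN hA haux hR hRl a hcop hN
    (ehq_kummer_hdiv M p hx) huF hu hu0 Q hQ

/-! ### 4. the `0`-component -/

omit [NeZero M] [NeZero p] in
/-- `w_p` preserves "divisor divisible by `m`" -/
theorem ehq_hdiv_al (m : ℕ) {u : FF (M * p)}
    (hdiv : ∀ P : Place Kbar (FF (M * p)), (m : ℤ) ∣ P.ord u)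
    (P : Place Kbar (FF (M * p))) :
    (m : ℤ) ∣ P.ord (atkinLehnerFF (M * p) p hp h1 h2 u) := by
  have hint : ((atkinLehnerFF (M * p) p hp h1 h2 : FF (M * p) ≃ₐ[Kbar] FF (M * p)) :
      FF (M * p) →ₐ[Kbar] FF (M * p)).toRingHom.IsIntegral :=
    RingHom.isIntegral_of_surjective _ (atkinLehnerFF (M * p) p hp h1 h2).surjective
  have e := Place.ord_restrictAlong
    ((atkinLehnerFF (M * p) p hp h1 h2 : FF (M * p) ≃ₐ[Kbar] FF (M * p)) :
      FF (M * p) →ₐ[Kbar] FF (M * p)) hint P u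
  have e' : P.ord (atkinLehnerFF (M * p) p hp h1 h2 u) = _ := e
  rw [e']
  exact Dvd.dvd.mul_left (hdiv _) _

include hℓ hℓp in
/-- **the core, `0`-component**. -/
theorem ehq_core_zero (hpM : ¬ p ∣ M) (hℓN : ¬ ℓ ∣ M * p)
    (hA : A.LiesOverPrime p) (haux : IsAuxLevel p (M * ℓ))
    (hR : IsSeriesRed R) (hRl : IsSeriesRed Rl) (a : ℤ)
    (hcop : ¬ (p : ℤ) ∣ a - ((ℓ : ℤ) + 1))
    {u h : FF (M * p)} {c' : Kbar}
    (hN : normBeta (M * p) ℓ u = algebraMap Kbar (FF (M * p)) c' * u ^ a * h ^ p)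
    (hdiv : ∀ P : Place Kbar (FF (M * p)), (p : ℤ) ∣ P.ord u)
    (huF : u ∈ f0Field A (M * p)) (hu : EisUnit (inredZero (M * p) p hp h1 h2 R) u) {c : Kbar}
    (hu0 : EisUnit R (algebraMap Kbar (FF (M * p)) c * u))
    (Q : Place (IsLocalRing.ResidueField A) (Fk (IsLocalRing.ResidueField A) M))
    (hQ : 0 ≤ Q.ord (jk (IsLocalRing.ResidueField A) M)) :
    (p : ℤ) ∣ Q.ord ((inredZero (M * p) p hp h1 h2 R).red ⟨u, hu.2.1⟩) := by
  have hu' : EisUnit R (atkinLehnerFF (M * p) p hp h1 h2 u) :=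
    ⟨(map_ne_zero _).mpr hu.1, hu.2.1, by rw [← map_inv₀]; exact hu.2.2⟩
  have hN' : normBeta (M * p) ℓ (atkinLehnerFF (M * p) p hp h1 h2 u)
      = algebraMap Kbar (FF (M * p)) c' * (atkinLehnerFF (M * p) p hp h1 h2 u) ^ a
        * (atkinLehnerFF (M * p) p hp h1 h2 h) ^ p := by
    rw [eiz_normBeta_al (M * p) hp h1 h2 hℓ hℓp, hN, map_mul, map_mul, map_pow, map_zpow₀,
      AlgEquiv.commutes]
  have hu0' : EisUnit (inredZero (M * p) p hp h1 h2 R)
      (algebraMap Kbar (FF (M * p)) c * atkinLehnerFF (M * p) p hp h1 h2 u) := by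
    have e : atkinLehnerFF (M * p) p hp h1 h2
        (algebraMap Kbar (FF (M * p)) c * atkinLehnerFF (M * p) p hp h1 h2 u)
        = algebraMap Kbar (FF (M * p)) c * u := by
      rw [map_mul, AlgEquiv.commutes, atkinLehnerFF_involutive]
    refine ⟨mul_ne_zero ?_ hu'.1, ?_, ?_⟩
    · intro h0
      apply hu0.1
      rw [h0, zero_mul]
    · show atkinLehnerFF (M * p) p hp h1 h2 _ ∈ R.O
      rw [e]
      exact hu0.2.1
    · show atkinLehnerFF (M * p) p hp h1 h2 _ ∈ R.O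
      rw [map_inv₀, e]
      exact hu0.2.2
  exact ehq_core_inf M p ℓ A hp hℓ hℓp h1 h2 hpM hℓN hA haux hR hRl a hcop hN'
    (ehq_hdiv_al M p hp h1 h2 p hdiv) (atkinLehnerFF_mem_f0Field A (M * p) hp _ _ huF) hu' hu0' Q hQ

include hℓp in
/-- **(H1), `0`-component, WITHOUT `heq`**: `u ∈ F0 (M p)` a Kummer function of the eigenclass
`x`, unit of `O_{R₀}`, with `c u` a unit of `O_R`.  Then `p ∣ ord_Q (red_0 u)` at every
non-cuspidal place `Q`. -/
theorem ehq_h1_zero [RRBase Kbar (FF (M * p))] (hpM : ¬ p ∣ M) (hℓN : ¬ ℓ ∣ M * p)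
    (hA : A.LiesOverPrime p) (haux : IsAuxLevel p (M * ℓ))
    (hR : IsSeriesRed R) (hRl : IsSeriesRed Rl) (a : ℤ)
    (hcop : ¬ (p : ℤ) ∣ a - ((ℓ : ℤ) + 1))
    {x : JZero (M * p)} {u : FF (M * p)} (hx : gdfIsKummer (K := Kbar) p x u)
    (heig : heckeOperatorBar (M * p) ⟨ℓ, hℓ⟩ x = a • x)
    (huF : u ∈ f0Field A (M * p)) (hu : EisUnit (inredZero (M * p) p hp h1 h2 R) u) {c : Kbar}
    (hu0 : EisUnit R (algebraMap Kbar (FF (M * p)) c * u))
    (Q : Place (IsLocalRing.ResidueField A) (Fk (IsLocalRing.ResidueField A) M))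
    (hQ : 0 ≤ Q.ord (jk (IsLocalRing.ResidueField A) M)) :
    (p : ℤ) ∣ Q.ord ((inredZero (M * p) p hp h1 h2 R).red ⟨u, hu.2.1⟩) := by
  obtain ⟨c', h, -, -, hN⟩ := eic_kummer_rel (M * p) ⟨ℓ, hℓ⟩ hx a heig
  exact ehq_core_zero M p ℓ A hp hℓ hℓp h1 h2 hpM hℓN hA haux hR hRl a hcop hN
    (ehq_kummer_hdiv M p hx) huF hu hu0 Q hQ

end Concrete

/-! ### 5. the auxiliary level -/

/-- `M` auxiliary for `p`, `ℓ ≠ p` prime  ⇒  `M ℓ` auxiliary for `p` -/
theorem ehq_aux_mul {p M ℓ : ℕ} (hp : p.Prime) (hℓ : ℓ.Prime) (hℓp : ℓ ≠ p)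
    (haux : IsAuxLevel p M) : IsAuxLevel p (M * ℓ) := by
  obtain ⟨h0, h⟩ := haux
  refine ⟨?_, ?_⟩
  · intro hd
    rcases (Nat.Prime.dvd_mul hp).mp hd with h3 | h3
    · exact h0 h3
    · exact hℓp ((Nat.prime_dvd_prime_iff_eq hp hℓ).mp h3).symm
  · rcases h with ⟨h3, h4⟩ | ⟨h3, h4⟩
    · exact Or.inl ⟨h3, Dvd.dvd.mul_right h4 ℓ⟩
    · exact Or.inr ⟨h3, Dvd.dvd.mul_right h4 ℓ⟩

end Fermat.Agent.S40lib

end
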