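import Mathlib
import Fermat.Agent.S40lib.EisHeq
import Fermat.Agent.S24lib.FFTrans
import Fermat.Agent.HeckeBar.GenBasic
import Fermat.Agent.S36lib.Reg2Maps

/-!
# Item 88 (S44), piece H1 (helper28), WILD form: `heq` from WINDC at the LOWER level only

For a Kummer function `u` which is NOT `K0`-rational (wild case) the edge rule at the level
`(M ℓ) p` is not available for `β u / α u`.  Instead compare with the `K0`-rational modular unit
`g = Δ(pz)/Δ(z)` (`unitQ (M p) p`):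

* `ehwBetaK`, `ehw_isIntegral_beta` : `β̄ : F_{M,k} → F_{Mℓ,k}` as a `k`-algebra map; integral;
* `ehw_ord_nonneg`  : (generic level `N = M' q`) `z ∈ F0 (N)` regular off the cusps, integral on
                      both components  ⇒  `0 ≤ ord_Q (red_∞ z)` at the non-cuspidal `Q`;
* `ehw_ord_zero`    : the same for units: `ord_Q (red_∞ w) = 0`;
* `ehw_unit_eq`     : `div red (β g) = div red (α g)` off the cusps (level `M ℓ`);
* `ehw_beta_j`      : `β̄` maps non-cusps to non-cusps;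
* `ehw_heq_inf`     : **`heq` for ANY unit `u`** from `div red u ≡ lam · div red g` mod `m` off
                      the cusps of level `M` (WINDC at the lower level in comparison form);
* `ehw_core_inf/zero`, `ehw_h1_inf/zero` : (H1) on both components from it.
All proofs complete.
-/

set_option autoImplicit false
set_option linter.style.haveILetI false
set_option linter.unusedSectionVars false
set_option linter.unusedVariables false
set_option synthInstance.maxHeartbeats 400000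
set_option maxHeartbeats 1000000

noncomputable section

namespace Fermat.Agent.S40lib

open ModularCurve AlgebraicCurve HahnSeries Fermat.Agent.GoodRed Fermat.Agent.GM
  Fermat.Agent.S24lib Fermat.Agent.HeckeBar Fermat.Agent.S34lib Fermat.Agent.S36lib
  Fermat.Agent.RRlib Fermat.Agent.S33lib Fermat.Agent.LatE Fermat.Agent.S37lib
  Fermat.Agent.S35lib Fermat.Agent.FFlib
open IntermediateField

/-! ### 1. `β̄` as an algebra map; integrality -/

section BetaK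

variable (k : Type) [Field k] (M ℓ : ℕ) [NeZero M] [NeZero ℓ]

/-- `β̄ : F_{M,k} → F_{Mℓ,k}` as a `k`-algebra map -/
def ehwBetaK : Fk k M →ₐ[k] Fk k (M * ℓ) where
  __ := hkrBetaK k M ℓ
  commutes' c := by
    apply Subtype.ext
    show qExpand k ℓ (algebraMap k (LaurentSeries k) c) = algebraMap k (LaurentSeries k) c
    exact (qExpandAlgHomC (K := k) ℓ).commutes c

@[simp] theorem ehwBetaK_apply (x : Fk k M) : ehwBetaK k M ℓ x = hkrBetaK k M ℓ x := rfl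

/-- `β̄` is integral -/
theorem ehw_isIntegral_beta [IsAlgClosed k] : (ehwBetaK k M ℓ).toRingHom.IsIntegral := by
  haveI h1 := gmw_ffSep k M
  haveI h2 := gmw_ffSep k (M * ℓ)
  have ht : Transcendental k (ehwBetaK k M ℓ (jk k M)) :=
    gen_transcendental_map (ehwBetaK k M ℓ) h1.trans
  haveI : FiniteDimensional k⟮jk k (M * ℓ)⟯ (Fk k (M * ℓ)) := h2.fin
  haveI hfd : FiniteDimensional k⟮ehwBetaK k M ℓ (jk k M)⟯ (Fk k (M * ℓ)) :=
    ffFiniteDimensional_of_transcendental (x := jk k (M * ℓ)) ht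
  have e := gen_finrank_adjoin_mul_finrankAlong (ehwBetaK k M ℓ) (jk k M)
  have hpos : 0 < Module.finrank k⟮ehwBetaK k M ℓ (jk k M)⟯ (Fk k (M * ℓ)) :=
    Module.finrank_pos
  rw [← e] at hpos
  have h3 : 0 < finrankAlong k (ehwBetaK k M ℓ) := Nat.pos_of_mul_pos_left hpos
  letI := algebraAlong (ehwBetaK k M ℓ)
  haveI : Module.Finite (Fk k M) (Fk k (M * ℓ)) := Module.finite_of_finrank_pos h3
  exact fun x => Algebra.IsIntegral.isIntegral (R := Fk k M) x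

end BetaK

/-! ### 2. regular functions at a generic level -/

section Generic

variable (A : ValuationSubring Kbar)

set_option maxHeartbeats 4000000 in
/-- **regular functions reduce to regular functions** (generic level `N = M' q`): `z ∈ F0 (N)`
regular off the cusps and integral on both components; then `0 ≤ ord_Q (red_∞ z)` at every
non-cuspidal place `Q`. -/
theorem ehw_ord_nonneg (N M' q : ℕ) [NeZero N] [NeZero M'] [NeZero q] (hN : N = M' * q)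
    (hq : q.Prime) (hqM : ¬ q ∣ M') (hA : A.LiesOverPrime q)
    (R : ConstRed A (IsLocalRing.residue A) (Fk (IsLocalRing.ResidueField A) M') (FF N))
    (hR : IsSeriesRed R) (h1 : q ∣ N) (h2 : ¬ q ^ 2 ∣ N)
    (z : FF N) (hzF : z ∈ f0Field A N) (hzC : z ∈ cuspRegular N)
    (hz : z ∈ R.O) (hz0 : z ∈ (inredZero N q hq h1 h2 R).O)
    (Q : Place (IsLocalRing.ResidueField A) (Fk (IsLocalRing.ResidueField A) M'))
    (hQ : 0 ≤ Q.ord (jk (IsLocalRing.ResidueField A) M')) :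
    0 ≤ Q.ord (R.red ⟨z, hz⟩) := by
  subst hN
  have hSUM : RgnSum A M' q hq hqM R := fun z h1 h3 => w2j_rgnSum A M' q hq hqM hA R hR z h1 h3
  haveI : IsAlgClosed (IsLocalRing.ResidueField A) := isAlgClosed_residueField A
  haveI : FFSep (IsLocalRing.ResidueField A) (jk (IsLocalRing.ResidueField A) M') :=
    gmw_ffSep (IsLocalRing.ResidueField A) M'
  have hB : (⟨z, hzF⟩ : f0Field A (M' * q)) ∈ (nodeSetupNj A M' q hq hqM hA R hR).B := by
    refine (uqr_mem_B_iff A M' q hq hqM hA R hR _).2 ⟨?_, hz, hz, hz0⟩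
    rw [offRegular_cuspSet]
    exact hzC
  have h3 := rgn_hiInf A M' q hq hqM hA R hR hSUM ⟨_, hB⟩
  exact ffOrd_nonneg_of_mem Q (fsS_le Q hQ _ h3)

/-- **units regular off the cusps reduce to units off the cusps** (generic level `N = M' q`). -/
theorem ehw_ord_zero (N M' q : ℕ) [NeZero N] [NeZero M'] [NeZero q] (hN : N = M' * q)
    (hq : q.Prime) (hqM : ¬ q ∣ M') (hA : A.LiesOverPrime q)
    (R : ConstRed A (IsLocalRing.residue A) (Fk (IsLocalRing.ResidueField A) M') (FF N))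
    (hR : IsSeriesRed R) (h1 : q ∣ N) (h2 : ¬ q ^ 2 ∣ N)
    (w : FF N) (hwF : w ∈ f0Field A N) (hwC : w ∈ cuspRegular N) (hwC' : w⁻¹ ∈ cuspRegular N)
    (hw : EisUnit R w) (hw0 : EisUnit (inredZero N q hq h1 h2 R) w)
    (Q : Place (IsLocalRing.ResidueField A) (Fk (IsLocalRing.ResidueField A) M'))
    (hQ : 0 ≤ Q.ord (jk (IsLocalRing.ResidueField A) M')) :
    Q.ord (R.red ⟨w, hw.2.1⟩) = 0 := by
  have a1 := ehw_ord_nonneg A N M' q hN hq hqM hA R hR h1 h2 w hwF hwC hw.2.1 hw0.2.1 Q hQ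
  have a2 := ehw_ord_nonneg A N M' q hN hq hqM hA R hR h1 h2 w⁻¹ (inv_mem hwF) hwC' hw.2.2
    hw0.2.2 Q hQ
  have e : R.red ⟨w, hw.2.1⟩ * R.red ⟨w⁻¹, hw.2.2⟩ = 1 := by
    rw [← map_mul]
    have : (⟨w, hw.2.1⟩ : R.O) * ⟨w⁻¹, hw.2.2⟩ = 1 := Subtype.ext (mul_inv_cancel₀ hw.1)
    rw [this, map_one]
  have e2 := congrArg Q.ord e
  rw [Q.ord_mul hw.red_ne_zero hw.inv.red_ne_zero, Q.ord_one] at e2
  omega

end Generic

/-! ### 3. the modular unit `g = Δ(pz)/Δ(z)` and the maps `α`, `β` -/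

section Wild

variable (M p ℓ : ℕ) [NeZero M] [NeZero p] [NeZero ℓ] [NeZero (M * p)] [NeZero (M * ℓ)]
  [NeZero (M * p * ℓ)]
variable (A : ValuationSubring Kbar)
variable {R : ConstRed A (IsLocalRing.residue A) (Fk (IsLocalRing.ResidueField A) M) (FF (M * p))}
  {Rl : ConstRed A (IsLocalRing.residue A) (Fk (IsLocalRing.ResidueField A) (M * ℓ))
    (FF (M * p * ℓ))}
variable (hp : p.Prime) (hℓ : ℓ.Prime) (hℓp : ℓ ≠ p)
  (h1 : p ∣ M * p) (h2 : ¬ p ^ 2 ∣ M * p) (h1' : p ∣ M * p * ℓ) (h2' : ¬ p ^ 2 ∣ M * p * ℓ)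

/-- `g` is a unit of `O_R` -/
theorem ehw_g_unit (hR : IsSeriesRed R) : EisUnit R (unitQ (M * p) p h1) :=
  ⟨unitQ_ne_zero _ _ _, uqr_mem_O h1 hR, uqr_inv_mem_O h1 hR⟩

/-- `p ^ 12 g` is a unit of `O_{R₀}` -/
theorem ehw_g_unit_zero (hR : IsSeriesRed R) :
    EisUnit (inredZero (M * p) p hp h1 h2 R)
      (algebraMap Kbar (FF (M * p)) ((p : Kbar) ^ 12) * unitQ (M * p) p h1) := by
  have hp12 : ((p : Kbar) ^ 12) ≠ 0 := pow_ne_zero _ (Nat.cast_ne_zero.2 hp.ne_zero)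
  have e : atkinLehnerFF (M * p) p hp h1 h2
      (algebraMap Kbar (FF (M * p)) ((p : Kbar) ^ 12) * unitQ (M * p) p h1)
      = (unitQ (M * p) p h1)⁻¹ := by
    rw [map_mul, AlgEquiv.commutes, atkinLehnerFF_unitQ (M * p) p hp h1 h2, ← mul_assoc,
      ← map_mul, mul_inv_cancel₀ hp12, map_one, one_mul]
  refine ⟨mul_ne_zero ((map_ne_zero _).mpr hp12) (unitQ_ne_zero _ _ _), ?_, ?_⟩
  · show atkinLehnerFF (M * p) p hp h1 h2 _ ∈ R.O
    rw [e]
    exact uqr_inv_mem_O h1 hR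
  · show atkinLehnerFF (M * p) p hp h1 h2 _ ∈ R.O
    rw [map_inv₀, e, inv_inv]
    exact uqr_mem_O h1 hR

include hℓ hℓp in
/-- `β u / α u` is a unit on both components of level `M p ℓ` -/
theorem ehw_quot_unit (hA : A ≠ ⊤) (hR : IsSeriesRed R) (hRl : IsSeriesRed Rl)
    {u : FF (M * p)} (hu : EisUnit R u) {c : Kbar}
    (hu0 : EisUnit (inredZero (M * p) p hp h1 h2 R) (algebraMap Kbar (FF (M * p)) c * u)) :
    EisUnit Rl (heckeBetaBar Kbar (M * p) ℓ u * (heckeAlphaBar Kbar (M * p) ℓ u)⁻¹) ∧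
    EisUnit (inredZero (M * p * ℓ) p hp h1' h2' Rl)
      (heckeBetaBar Kbar (M * p) ℓ u * (heckeAlphaBar Kbar (M * p) ℓ u)⁻¹) := by
  have Ha := eiu_alpha_inf M p ℓ A hA hR hRl hu
  have Hb := eiu_beta_inf M p ℓ A hA hR hRl hu
  have Ha0 := eiu_alpha_zero M p ℓ A hp hℓ hℓp h1 h2 h1' h2' hA hR hRl hu0
  have Hb0 := eiu_beta_zero M p ℓ A hp hℓ hℓp h1 h2 h1' h2' hA hR hRl hu0
  have hc : algebraMap Kbar (FF (M * p * ℓ)) c ≠ 0 := by
    intro h0
    have h3 : c = 0 := (map_eq_zero _).mp h0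
    apply hu0.1
    rw [h3, map_zero, zero_mul]
  refine ⟨Hb.mul Ha.inv, ?_⟩
  have h3 := Hb0.mul Ha0.inv
  have e : heckeBetaBar Kbar (M * p) ℓ (algebraMap Kbar (FF (M * p)) c * u) *
      (heckeAlphaBar Kbar (M * p) ℓ (algebraMap Kbar (FF (M * p)) c * u))⁻¹
      = heckeBetaBar Kbar (M * p) ℓ u * (heckeAlphaBar Kbar (M * p) ℓ u)⁻¹ := by
    rw [map_mul, map_mul, AlgHom.commutes, AlgHom.commutes, mul_inv]
    have := Ha.1
    field_simp
  rw [e] at h3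
  exact h3

/-- `p ∤ M ℓ`, `p ∣ M p ℓ`, `p² ∤ M p ℓ` -/
theorem ehw_levels (hp : p.Prime) (hpM : ¬ p ∣ M) (hℓ : ℓ.Prime) (hℓp : ℓ ≠ p) :
    ¬ p ∣ M * ℓ ∧ p ∣ M * p * ℓ ∧ ¬ p ^ 2 ∣ M * p * ℓ := by
  have hpMl : ¬ p ∣ M * ℓ := hkr_not_dvd_mul M p ℓ hp hpM hℓ hℓp
  refine ⟨hpMl, Dvd.dvd.mul_right (dvd_mul_left p M) ℓ, ?_⟩
  intro h
  apply hpMl
  have e : M * p * ℓ = p * (M * ℓ) := by ring
  rw [e, pow_two] at h
  exact (Nat.mul_dvd_mul_iff_left hp.pos).mp h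

include hp hℓ hℓp h1 h2 in
/-- **the reductions of `β g` and `α g` have the same divisor off the cusps** -/
theorem ehw_unit_eq (hpM : ¬ p ∣ M) (hA : A.LiesOverPrime p)
    (hR : IsSeriesRed R) (hRl : IsSeriesRed Rl)
    (hαg : heckeAlphaBar Kbar (M * p) ℓ (unitQ (M * p) p h1) ∈ Rl.O)
    (hβg : heckeBetaBar Kbar (M * p) ℓ (unitQ (M * p) p h1) ∈ Rl.O)
    (Q' : Place (IsLocalRing.ResidueField A) (Fk (IsLocalRing.ResidueField A) (M * ℓ)))
    (hQ' : 0 ≤ Q'.ord (jk (IsLocalRing.ResidueField A) (M * ℓ))) :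
    Q'.ord (Rl.red ⟨_, hβg⟩) = Q'.ord (Rl.red ⟨_, hαg⟩) := by
  have hne : A ≠ ⊤ := cri_ne_top p A hA hp.ne_zero
  obtain ⟨hpMl, h1', h2'⟩ := ehw_levels M p ℓ hp hpM hℓ hℓp
  have hg := ehw_g_unit M p A h1 hR
  have hg0 := ehw_g_unit_zero M p A hp h1 h2 hR
  obtain ⟨hw, hw0⟩ := ehw_quot_unit M p ℓ A hp hℓ hℓp h1 h2 h1' h2' hne hR hRl hg hg0
  have Ha := eiu_alpha_inf M p ℓ A hne hR hRl hg
  have hgF := unitQ_mem_f0Field (M * p) p h1 A
  have hwF : heckeBetaBar Kbar (M * p) ℓ (unitQ (M * p) p h1) *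
      (heckeAlphaBar Kbar (M * p) ℓ (unitQ (M * p) p h1))⁻¹ ∈ f0Field A (M * p * ℓ) :=
    mul_mem (f0_heckeBetaBar_mem A ℓ hgF) (inv_mem (f0_heckeAlphaBar_mem A ℓ hgF))
  have cα : ∀ x ∈ cuspRegular (M * p), heckeAlphaBar Kbar (M * p) ℓ x ∈ cuspRegular (M * p * ℓ) := by
    intro x hx
    rw [heckeAlphaBar_eq_inclBar]
    exact r2m_inclBar_mem_cuspRegular (dvd_mul_right (M * p) ℓ) x hx
  have cβ : ∀ x ∈ cuspRegular (M * p), heckeBetaBar Kbar (M * p) ℓ x ∈ cuspRegular (M * p * ℓ) := by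
    intro x hx
    rw [heckeBetaBar_eq_qpowBar]
    exact r2m_qpowBar_mem_cuspRegular ℓ dvd_rfl x hx
  have hwC : heckeBetaBar Kbar (M * p) ℓ (unitQ (M * p) p h1) *
      (heckeAlphaBar Kbar (M * p) ℓ (unitQ (M * p) p h1))⁻¹ ∈ cuspRegular (M * p * ℓ) := by
    rw [← map_inv₀]
    exact mul_mem (cβ _ (unitQ_mem_cuspRegular (M * p) p h1))
      (cα _ (unitQ_inv_mem_cuspRegular (M * p) p h1))
  have hwC' : (heckeBetaBar Kbar (M * p) ℓ (unitQ (M * p) p h1) *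
      (heckeAlphaBar Kbar (M * p) ℓ (unitQ (M * p) p h1))⁻¹)⁻¹ ∈ cuspRegular (M * p * ℓ) := by
    rw [mul_inv, inv_inv, ← map_inv₀]
    exact mul_mem (cβ _ (unitQ_inv_mem_cuspRegular (M * p) p h1))
      (cα _ (unitQ_mem_cuspRegular (M * p) p h1))
  have key := ehw_ord_zero A (M * p * ℓ) (M * ℓ) p (by ring) hp hpMl hA Rl hRl h1' h2' _ hwF hwC
    hwC' hw hw0 Q' hQ'
  have hred : Rl.red ⟨_, hβg⟩ = Rl.red ⟨_, hw.2.1⟩ * Rl.red ⟨_, hαg⟩ := by
    rw [← map_mul]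
    congr 1
    apply Subtype.ext
    show heckeBetaBar Kbar (M * p) ℓ (unitQ (M * p) p h1)
      = heckeBetaBar Kbar (M * p) ℓ (unitQ (M * p) p h1) *
          (heckeAlphaBar Kbar (M * p) ℓ (unitQ (M * p) p h1))⁻¹ *
        heckeAlphaBar Kbar (M * p) ℓ (unitQ (M * p) p h1)
    rw [inv_mul_cancel_right₀ Ha.1]
  rw [hred, Q'.ord_mul hw.red_ne_zero Ha.red_ne_zero, key, zero_add]

include hp hℓ hℓp in
/-- **`β̄` maps non-cusps to non-cusps**: `0 ≤ ord_{Q'} (β̄ j)` at the non-cuspidal `Q'` -/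
theorem ehw_beta_j (hpM : ¬ p ∣ M) (hA : A.LiesOverPrime p)
    (hR : IsSeriesRed R) (hRl : IsSeriesRed Rl)
    (Q' : Place (IsLocalRing.ResidueField A) (Fk (IsLocalRing.ResidueField A) (M * ℓ)))
    (hQ' : 0 ≤ Q'.ord (jk (IsLocalRing.ResidueField A) (M * ℓ))) :
    0 ≤ Q'.ord (hkrBetaK (IsLocalRing.ResidueField A) M ℓ (jk (IsLocalRing.ResidueField A) M)) := by
  have hne : A ≠ ⊤ := cri_ne_top p A hA hp.ne_zero
  obtain ⟨hpMl, h1', h2'⟩ := ehw_levels M p ℓ hp hpM hℓ hℓp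
  obtain ⟨hj, hjred⟩ := rgn_red_jF A M p R hR
  obtain ⟨hb, hbred⟩ := hkr_beta M p ℓ A hne hR hRl (jF (M * p)) hj
  rw [hjred] at hbred
  rw [← hbred]
  have e : heckeBetaBar Kbar (M * p) ℓ (jF (M * p)) = jdF (M * p * ℓ) ℓ (dvd_mul_left ℓ (M * p)) := by
    rw [heckeBetaBar_eq_qpowBar, qpowBar_jF]
  have hC : heckeBetaBar Kbar (M * p) ℓ (jF (M * p)) ∈ cuspRegular (M * p * ℓ) := by
    rw [heckeBetaBar_eq_qpowBar]
    exact r2m_qpowBar_mem_cuspRegular ℓ dvd_rfl _ ((mem_cuspRegular_iff _ _).2 fun P h => h)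
  have hpl : ¬ p ∣ ℓ := fun h => hℓp ((Nat.prime_dvd_prime_iff_eq hp hℓ).mp h).symm
  haveI : NeZero (ℓ * p) := ⟨Nat.mul_ne_zero (NeZero.ne ℓ) (NeZero.ne p)⟩
  have hdq : ℓ * p ∣ M * p * ℓ := ⟨M, by ring⟩
  have hb0 : heckeBetaBar Kbar (M * p) ℓ (jF (M * p)) ∈
      (inredZero (M * p * ℓ) p hp h1' h2' Rl).O := by
    show atkinLehnerFF (M * p * ℓ) p hp h1' h2' _ ∈ Rl.O
    rw [e, atkinLehnerFF_jdF_of_not_dvd (M * p * ℓ) p hp h1' h2' ℓ (dvd_mul_left ℓ (M * p)) hpl hdq]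
    exact (sconc_red_jdF A (M * ℓ) Rl hRl (ℓ * p) hdq).1
  exact ehw_ord_nonneg A (M * p * ℓ) (M * ℓ) p (by ring) hp hpMl hA Rl hRl h1' h2' _
    (f0_heckeBetaBar_mem A ℓ (sumi_jF_mem A (M * p))) hC hb hb0 Q' hQ'

/-! ### 4. `heq` from WINDC at the lower level (comparison with `g`) -/

include hp hℓ hℓp h2 in
set_option maxHeartbeats 4000000 in
/-- **`heq` from WINDC at the LOWER level only.**  `u` ANY unit of `O_R` (not necessarily
`K0`-rational) with `div (red u) ≡ lam · div (red g)` modulo `m` off the cusps of level `M`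
(`g = Δ(pz)/Δ(z)`).  Then the divisors of the reductions of `β u` and `α u` agree modulo `m` at
every non-cuspidal place of level `M ℓ`. -/
theorem ehw_heq_inf (hpM : ¬ p ∣ M) (hA : A.LiesOverPrime p)
    (hR : IsSeriesRed R) (hRl : IsSeriesRed Rl) (m : ℕ)
    {u : FF (M * p)} (hu : EisUnit R u) (lam : ℤ)
    (hw : ∀ Q : Place (IsLocalRing.ResidueField A) (Fk (IsLocalRing.ResidueField A) M),
      0 ≤ Q.ord (jk (IsLocalRing.ResidueField A) M) →
      (m : ℤ) ∣ Q.ord (R.red ⟨u, hu.2.1⟩)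
        - lam * Q.ord (R.red ⟨unitQ (M * p) p h1, uqr_mem_O h1 hR⟩))
    (hα : heckeAlphaBar Kbar (M * p) ℓ u ∈ Rl.O) (hβ : heckeBetaBar Kbar (M * p) ℓ u ∈ Rl.O)
    (Q' : Place (IsLocalRing.ResidueField A) (Fk (IsLocalRing.ResidueField A) (M * ℓ)))
    (hQ' : 0 ≤ Q'.ord (jk (IsLocalRing.ResidueField A) (M * ℓ))) :
    (m : ℤ) ∣ Q'.ord (Rl.red ⟨_, hβ⟩) - Q'.ord (Rl.red ⟨_, hα⟩) := by
  haveI : IsAlgClosed (IsLocalRing.ResidueField A) := isAlgClosed_residueField A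
  haveI : Fact p.Prime := ⟨hp⟩
  have hne : A ≠ ⊤ := cri_ne_top p A hA hp.ne_zero
  obtain ⟨hpMl, h1', h2'⟩ := ehw_levels M p ℓ hp hpM hℓ hℓp
  have hg := ehw_g_unit M p A h1 hR
  have hαg := (eiu_alpha_inf M p ℓ A hne hR hRl hg).2.1
  -- the reductions
  obtain ⟨hβu, eβu⟩ := hkr_beta M p ℓ A hne hR hRl u hu.2.1
  obtain ⟨hβg, eβg⟩ := hkr_beta M p ℓ A hne hR hRl (unitQ (M * p) p h1) hg.2.1
  have eαu : Rl.red ⟨heckeAlphaBar Kbar (M * p) ℓ u, hα⟩
      = inclK (IsLocalRing.ResidueField A) (dvd_mul_right M ℓ) (R.red ⟨u, hu.2.1⟩) := by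
    letI := algebraAlong (heckeAlphaBar Kbar (M * p) ℓ)
    letI := algebraAlong (inclK (IsLocalRing.ResidueField A) (dvd_mul_right M ℓ))
    exact (hkr_isTower M p ℓ A hne hR hRl).red_map u hu.2.1
  have eαg : Rl.red ⟨heckeAlphaBar Kbar (M * p) ℓ (unitQ (M * p) p h1), hαg⟩
      = inclK (IsLocalRing.ResidueField A) (dvd_mul_right M ℓ)
          (R.red ⟨unitQ (M * p) p h1, hg.2.1⟩) := by
    letI := algebraAlong (heckeAlphaBar Kbar (M * p) ℓ)
    letI := algebraAlong (inclK (IsLocalRing.ResidueField A) (dvd_mul_right M ℓ))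
    exact (hkr_isTower M p ℓ A hne hR hRl).red_map _ hg.2.1
  have eβu' : Rl.red ⟨heckeBetaBar Kbar (M * p) ℓ u, hβ⟩
      = ehwBetaK (IsLocalRing.ResidueField A) M ℓ (R.red ⟨u, hu.2.1⟩) := eβu
  have eβg' : Rl.red ⟨heckeBetaBar Kbar (M * p) ℓ (unitQ (M * p) p h1), hβg⟩
      = ehwBetaK (IsLocalRing.ResidueField A) M ℓ (R.red ⟨unitQ (M * p) p h1, hg.2.1⟩) := eβg
  -- the places below `Q'`
  have hintα := isIntegral_inclK (IsLocalRing.ResidueField A) (dvd_mul_right M ℓ)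
    (finrank_Fk_modL M hpM A hA) (finrank_Fk_modL (M * ℓ) hpMl A hA)
  have hintβ := ehw_isIntegral_beta (IsLocalRing.ResidueField A) M ℓ
  have oα := Place.ord_restrictAlong (inclK (IsLocalRing.ResidueField A) (dvd_mul_right M ℓ))
    hintα Q'
  have oβ := Place.ord_restrictAlong (ehwBetaK (IsLocalRing.ResidueField A) M ℓ) hintβ Q'
  have eposα : 0 < Place.ramificationIndexAlong
      (inclK (IsLocalRing.ResidueField A) (dvd_mul_right M ℓ)) Q' := by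
    letI := algebraAlong (inclK (IsLocalRing.ResidueField A) (dvd_mul_right M ℓ))
    haveI := isScalarTower_along (inclK (IsLocalRing.ResidueField A) (dvd_mul_right M ℓ))
    haveI := isIntegral_along (inclK (IsLocalRing.ResidueField A) (dvd_mul_right M ℓ)) hintα
    exact Q'.ramificationIndex_pos (F := Fk (IsLocalRing.ResidueField A) M)
  have eposβ : 0 < Place.ramificationIndexAlong
      (ehwBetaK (IsLocalRing.ResidueField A) M ℓ) Q' := by
    letI := algebraAlong (ehwBetaK (IsLocalRing.ResidueField A) M ℓ)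
    haveI := isScalarTower_along (ehwBetaK (IsLocalRing.ResidueField A) M ℓ)
    haveI := isIntegral_along (ehwBetaK (IsLocalRing.ResidueField A) M ℓ) hintβ
    exact Q'.ramificationIndex_pos (F := Fk (IsLocalRing.ResidueField A) M)
  -- non-cuspidality below
  have hQα : 0 ≤ (Q'.restrictAlong (inclK (IsLocalRing.ResidueField A) (dvd_mul_right M ℓ))
      hintα).ord (jk (IsLocalRing.ResidueField A) M) := by
    have h3 := oα (jk (IsLocalRing.ResidueField A) M)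
    rw [inclK_jk] at h3
    rw [h3] at hQ'
    exact nonneg_of_mul_nonneg_right hQ' (by exact_mod_cast eposα)
  have hQβ : 0 ≤ (Q'.restrictAlong (ehwBetaK (IsLocalRing.ResidueField A) M ℓ)
      hintβ).ord (jk (IsLocalRing.ResidueField A) M) := by
    have h3 := oβ (jk (IsLocalRing.ResidueField A) M)
    have h4 := ehw_beta_j M p ℓ A hp hℓ hℓp hpM hA hR hRl Q' hQ'
    rw [← ehwBetaK_apply, h3] at h4
    exact nonneg_of_mul_nonneg_right h4 (by exact_mod_cast eposβ)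
  obtain ⟨ka, hka⟩ := hw _ hQα
  obtain ⟨kb, hkb⟩ := hw _ hQβ
  have hC := ehw_unit_eq M p ℓ A hp hℓ hℓp h1 h2 hpM hA hR hRl hαg hβg Q' hQ'
  rw [eβg', eαg, oβ, oα] at hC
  rw [eβu', eαu, oβ, oα]
  refine ⟨Place.ramificationIndexAlong (ehwBetaK (IsLocalRing.ResidueField A) M ℓ) Q' * kb
    - Place.ramificationIndexAlong
        (inclK (IsLocalRing.ResidueField A) (dvd_mul_right M ℓ)) Q' * ka, ?_⟩
  linear_combination
    (Place.ramificationIndexAlong (ehwBetaK (IsLocalRing.ResidueField A) M ℓ) Q' : ℤ) * hkb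
    - (Place.ramificationIndexAlong
        (inclK (IsLocalRing.ResidueField A) (dvd_mul_right M ℓ)) Q' : ℤ) * hka
    + lam * hC

/-! ### 5. (H1) from WINDC at the lower level, both components -/

include hp hℓ hℓp h2 in
/-- **the core, `∞`-component, WILD form**: `u` ANY unit of `O_R` with
`N_α (β u) = c' u ^ a h ^ p`, `p ∤ a - (ℓ + 1)`, and WINDC in the comparison form
`div (red u) ≡ lam · div (red g)` mod `p` off the cusps.  Then `p ∣ ord_Q (red u)` at every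
non-cuspidal `Q`. -/
theorem ehw_core_inf (hpM : ¬ p ∣ M) (hℓN : ¬ ℓ ∣ M * p) (hA : A.LiesOverPrime p)
    (hR : IsSeriesRed R) (hRl : IsSeriesRed Rl) (a : ℤ)
    (hcop : ¬ (p : ℤ) ∣ a - ((ℓ : ℤ) + 1))
    {u h : FF (M * p)} {c' : Kbar}
    (hN : normBeta (M * p) ℓ u = algebraMap Kbar (FF (M * p)) c' * u ^ a * h ^ p)
    (hu : EisUnit R u) (lam : ℤ)
    (hw : ∀ Q : Place (IsLocalRing.ResidueField A) (Fk (IsLocalRing.ResidueField A) M),
      0 ≤ Q.ord (jk (IsLocalRing.ResidueField A) M) →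
      (p : ℤ) ∣ Q.ord (R.red ⟨u, hu.2.1⟩)
        - lam * Q.ord (R.red ⟨unitQ (M * p) p h1, uqr_mem_O h1 hR⟩))
    (Q : Place (IsLocalRing.ResidueField A) (Fk (IsLocalRing.ResidueField A) M))
    (hQ : 0 ≤ Q.ord (jk (IsLocalRing.ResidueField A) M)) :
    (p : ℤ) ∣ Q.ord (R.red ⟨u, hu.2.1⟩) := by
  have hne : A ≠ ⊤ := cri_ne_top p A hA hp.ne_zero
  have hα := (eiu_alpha_inf M p ℓ A hne hR hRl hu).2.1
  have hβ := (eiu_beta_inf M p ℓ A hne hR hRl hu).2.1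
  have hcop' : IsCoprime (p : ℤ)
      (a - (finrankAlong Kbar (heckeAlphaBar Kbar (M * p) ℓ) : ℤ)) := by
    rw [eic_finrank M p ℓ hℓ hℓN]
    push_cast
    exact (Nat.prime_iff_prime_int.mp hp).coprime_iff_not_dvd.mpr hcop
  exact ehq_wind_inf M p ℓ A hp hℓ hℓp hpM hA hR hRl a hcop' hu hN hα hβ
    (fun Q' hQ' => ehw_heq_inf M p ℓ A hp hℓ hℓp h1 h2 hpM hA hR hRl p hu lam hw hα hβ Q' hQ')
    Q hQ

include hp hℓp h2 in
/-- **(H1), `∞`-component, WILD form** (WINDC at the lower level only; `u` arbitrary). -/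
theorem ehw_h1_inf [RRBase Kbar (FF (M * p))] (hpM : ¬ p ∣ M) (hℓN : ¬ ℓ ∣ M * p)
    (hA : A.LiesOverPrime p) (hR : IsSeriesRed R) (hRl : IsSeriesRed Rl) (a : ℤ)
    (hcop : ¬ (p : ℤ) ∣ a - ((ℓ : ℤ) + 1))
    {x : JZero (M * p)} {u : FF (M * p)} (hx : gdfIsKummer (K := Kbar) p x u)
    (heig : heckeOperatorBar (M * p) ⟨ℓ, hℓ⟩ x = a • x)
    (hu : EisUnit R u) (lam : ℤ)
    (hw : ∀ Q : Place (IsLocalRing.ResidueField A) (Fk (IsLocalRing.ResidueField A) M),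
      0 ≤ Q.ord (jk (IsLocalRing.ResidueField A) M) →
      (p : ℤ) ∣ Q.ord (R.red ⟨u, hu.2.1⟩)
        - lam * Q.ord (R.red ⟨unitQ (M * p) p h1, uqr_mem_O h1 hR⟩))
    (Q : Place (IsLocalRing.ResidueField A) (Fk (IsLocalRing.ResidueField A) M))
    (hQ : 0 ≤ Q.ord (jk (IsLocalRing.ResidueField A) M)) :
    (p : ℤ) ∣ Q.ord (R.red ⟨u, hu.2.1⟩) := by
  obtain ⟨c', h, -, -, hN⟩ := eic_kummer_rel (M * p) ⟨ℓ, hℓ⟩ hx a heig
  exact ehw_core_inf M p ℓ A hp hℓ hℓp h1 h2 hpM hℓN hA hR hRl a hcop hN hu lam hw Q hQ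

include hℓ hℓp in
/-- **the core, `0`-component, WILD form**: the comparison is with `red_∞ g` as well. -/
theorem ehw_core_zero (hpM : ¬ p ∣ M) (hℓN : ¬ ℓ ∣ M * p) (hA : A.LiesOverPrime p)
    (hR : IsSeriesRed R) (hRl : IsSeriesRed Rl) (a : ℤ)
    (hcop : ¬ (p : ℤ) ∣ a - ((ℓ : ℤ) + 1))
    {u h : FF (M * p)} {c' : Kbar}
    (hN : normBeta (M * p) ℓ u = algebraMap Kbar (FF (M * p)) c' * u ^ a * h ^ p)
    (hu : EisUnit (inredZero (M * p) p hp h1 h2 R) u) (lam : ℤ)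
    (hw : ∀ Q : Place (IsLocalRing.ResidueField A) (Fk (IsLocalRing.ResidueField A) M),
      0 ≤ Q.ord (jk (IsLocalRing.ResidueField A) M) →
      (p : ℤ) ∣ Q.ord ((inredZero (M * p) p hp h1 h2 R).red ⟨u, hu.2.1⟩)
        - lam * Q.ord (R.red ⟨unitQ (M * p) p h1, uqr_mem_O h1 hR⟩))
    (Q : Place (IsLocalRing.ResidueField A) (Fk (IsLocalRing.ResidueField A) M))
    (hQ : 0 ≤ Q.ord (jk (IsLocalRing.ResidueField A) M)) :
    (p : ℤ) ∣ Q.ord ((inredZero (M * p) p hp h1 h2 R).red ⟨u, hu.2.1⟩) := by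
  have hu' : EisUnit R (atkinLehnerFF (M * p) p hp h1 h2 u) :=
    ⟨(map_ne_zero _).mpr hu.1, hu.2.1, by rw [← map_inv₀]; exact hu.2.2⟩
  have hN' : normBeta (M * p) ℓ (atkinLehnerFF (M * p) p hp h1 h2 u)
      = algebraMap Kbar (FF (M * p)) c' * (atkinLehnerFF (M * p) p hp h1 h2 u) ^ a
        * (atkinLehnerFF (M * p) p hp h1 h2 h) ^ p := by
    rw [eiz_normBeta_al (M * p) hp h1 h2 hℓ hℓp, hN, map_mul, map_mul, map_pow, map_zpow₀,
      AlgEquiv.commutes]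
  exact ehw_core_inf M p ℓ A hp hℓ hℓp h1 h2 hpM hℓN hA hR hRl a hcop hN' hu' lam
    (fun Q hQ => hw Q hQ) Q hQ

include hℓp in
/-- **(H1), `0`-component, WILD form**. -/
theorem ehw_h1_zero [RRBase Kbar (FF (M * p))] (hpM : ¬ p ∣ M) (hℓN : ¬ ℓ ∣ M * p)
    (hA : A.LiesOverPrime p) (hR : IsSeriesRed R) (hRl : IsSeriesRed Rl) (a : ℤ)
    (hcop : ¬ (p : ℤ) ∣ a - ((ℓ : ℤ) + 1))
    {x : JZero (M * p)} {u : FF (M * p)} (hx : gdfIsKummer (K := Kbar) p x u)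
    (heig : heckeOperatorBar (M * p) ⟨ℓ, hℓ⟩ x = a • x)
    (hu : EisUnit (inredZero (M * p) p hp h1 h2 R) u) (lam : ℤ)
    (hw : ∀ Q : Place (IsLocalRing.ResidueField A) (Fk (IsLocalRing.ResidueField A) M),
      0 ≤ Q.ord (jk (IsLocalRing.ResidueField A) M) →
      (p : ℤ) ∣ Q.ord ((inredZero (M * p) p hp h1 h2 R).red ⟨u, hu.2.1⟩)
        - lam * Q.ord (R.red ⟨unitQ (M * p) p h1, uqr_mem_O h1 hR⟩))
    (Q : Place (IsLocalRing.ResidueField A) (Fk (IsLocalRing.ResidueField A) M))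
    (hQ : 0 ≤ Q.ord (jk (IsLocalRing.ResidueField A) M)) :
    (p : ℤ) ∣ Q.ord ((inredZero (M * p) p hp h1 h2 R).red ⟨u, hu.2.1⟩) := by
  obtain ⟨c', h, -, -, hN⟩ := eic_kummer_rel (M * p) ⟨ℓ, hℓ⟩ hx a heig
  exact ehw_core_zero M p ℓ A hp hℓ hℓp h1 h2 hpM hℓN hA hR hRl a hcop hN hu lam hw Q hQ

end Wild

end Fermat.Agent.S40lib

end
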