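import Mathlib
import Fermat.Agent.S40lib.EisWild
import Fermat.Agent.S40lib.EdgeZero

/-!
# Item 88 (S44), piece H1 (helper28): from WINDC in `[SS]`-form to the comparison form

The divisor of `red_∞ h` (`h = g⁻¹ = uqrH`, `g = Δ(pz)/Δ(z)`) off the cusps is `12 · [SS]`:

* `ecm_ordh_abs`  : abstract over the node setup: `ord_Q (red_∞ h) = 12` at the supersingular
                    places, `= 0` at the other non-cuspidal places;
* `ecm_ordh_inf`, `ecm_ordh_zero` : concrete, level `M' q`, components `∞` and `0`;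
* `ecm_cmp`       : (arithmetic) `n ≡ δ [SS]`, `E = -12 [SS]`, `p ∤ 12`  ⇒  `n ≡ lam · E`;
* `ecm_h1_inf`, `ecm_h1_zero` : **(H1) from WINDC in `[SS]`-form at the LOWER level only**, for
                    ANY Kummer unit `u` of an eigenclass (`M` auxiliary, `p ∤ 12`).
All proofs complete.
-/

set_option autoImplicit false
set_option linter.style.haveILetI false
set_option linter.unusedSectionVars false
set_option linter.unusedVariables false
set_option synthInstance.maxHeartbeats 400000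
set_option maxHeartbeats 1000000

noncomputable section

namespace Fermat.Agent.S40lib

open Fermat.Agent.FFlib Fermat.Agent.S24lib Fermat.Agent.GM Fermat.Agent.GoodRed
  Fermat.Agent.S34lib Fermat.Agent.RRlib Fermat.Agent.S16lib Fermat.Agent.S36lib
open AlgebraicCurve IsLocalRing IntermediateField IsDedekindDomain ModularCurve

section Abs

universe u

variable {K : Type*} [Field K] {k : Type*} [Field k]
  {A : ValuationSubring K} {π : A →+* k} {κ : Type*} [Field κ] [Algebra k κ]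
  {F : Type u} [Field F] [Algebra K F]

set_option maxHeartbeats 4000000 in
/-- **the divisor of `red_∞ h` off the cusps is `12 [SS]`** (abstract over the setup). -/
theorem ecm_ordh_abs (S : NodeSetup A π κ F) [IsNoetherianRing S.B]
    [IsIntegrallyClosed S.B] [IsDedekindDomain (S.B ⧸ S.pInf)]
    (hfrac : ∀ z : F, ∃ a b : S.B, b ≠ 0 ∧ z * (b : F) = (a : F))
    (j : κ) [FFSep k j]
    (hiInf : ∀ z : S.B, S.redInf z ∈ fsS k j)
    (hoInf : ∀ c ∈ fsS k j, ∃ z : S.B, S.redInf z = c)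
    (ϖ : A) (hϖ0 : ϖ ≠ 0)
    (h h' : S.B) (hh : h * h' = S.constB ϖ ^ 12)
    (hreg1 : ∀ s, S.IsNode s → ∃ y ε : S.B, y ∈ S.pZero ∧ y ^ 12 = ε * h ∧ ε ∉ s ∧
        (∀ z ∈ S.pZero, y ∣ ε * z) ∧
        ∀ z ∈ s, ∃ w c : S.B, w ∉ s ∧ w * z - c * y ∈ S.pInf)
    (hreg1' : ∀ s, S.IsNode s → ∃ x ε : S.B, x ∈ S.pInf ∧ x ^ 12 = ε * h' ∧ ε ∉ s ∧
        (∀ z ∈ S.pInf, x ∣ ε * z) ∧
        ∀ z ∈ s, ∃ w c : S.B, w ∉ s ∧ w * z - c * x ∈ S.pZero)
    (hdiv0 : S.pZero ^ 12 ≤ Ideal.span {h})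
    (Q : Place k κ) (hQ : 0 ≤ Q.ord j) :
    ((∀ z ∈ S.pZero, S.redInf z = 0 ∨ 0 < Q.ord (S.redInf z)) →
      S.redInf h ≠ 0 ∧ Q.ord (S.redInf h) = 12) ∧
    (¬ (∀ z ∈ S.pZero, S.redInf z = 0 ∨ 0 < Q.ord (S.redInf z)) →
      S.redInf h ≠ 0 ∧ Q.ord (S.redInf h) = 0) := by
  have hord0 : ∀ c : S.B, 0 ≤ Q.ord (S.redInf c) := fun c =>
    ffOrd_nonneg_of_mem Q (fsS_le Q hQ _ (hiInf c))
  refine ⟨fun hSS => ?_, fun hnSS => ?_⟩
  · obtain ⟨s, hs, x, y, εx, εy, t, hsInf, hsZero, -, -, -, -, hy, -, -, -, -, hmem, -, hws, hy0,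
      hy1, -, -⟩ := edc_place_node S hfrac j hiInf hoInf ϖ hϖ0 h h' hh hreg1 hreg1' Q hQ hSS
    have hnode : S.IsNode s := ⟨hs, sup_le hsInf hsZero⟩
    obtain ⟨y₁, ε₁, hy₁, hy12, hε₁, hy₁g, -⟩ := hreg1 s hnode
    have hε0 : S.redInf ε₁ ≠ 0 := fun h0 => hε₁ ((hmem ε₁).2 (Or.inl h0))
    have hεord : Q.ord (S.redInf ε₁) = 0 := hws ε₁ hε₁
    obtain ⟨c, hc⟩ := hy₁g y hy
    have e1 : S.redInf ε₁ * S.redInf y = S.redInf y₁ * S.redInf c := by
      rw [← map_mul, ← map_mul, hc]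
    have hne1 : S.redInf y₁ * S.redInf c ≠ 0 := e1 ▸ mul_ne_zero hε0 hy0
    have hy₁0 : S.redInf y₁ ≠ 0 := left_ne_zero_of_mul hne1
    have hc0 : S.redInf c ≠ 0 := right_ne_zero_of_mul hne1
    have o1 := congrArg Q.ord e1
    rw [Q.ord_mul hε0 hy0, Q.ord_mul hy₁0 hc0, hεord, hy1] at o1
    have hcn := hord0 c
    have hy₁pos : 0 < Q.ord (S.redInf y₁) := by
      rcases (hmem y₁).1 (hsZero hy₁) with h0 | h0
      · exact absurd h0 hy₁0
      · exact h0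
    have hy₁ord : Q.ord (S.redInf y₁) = 1 := by omega
    have e2 : S.redInf y₁ ^ 12 = S.redInf ε₁ * S.redInf h := by
      rw [← map_pow, ← map_mul, hy12]
    have hne2 : S.redInf ε₁ * S.redInf h ≠ 0 := e2 ▸ pow_ne_zero 12 hy₁0
    have hh0 : S.redInf h ≠ 0 := right_ne_zero_of_mul hne2
    have o2 := congrArg Q.ord e2
    rw [Q.ord_mul hε0 hh0, hεord] at o2
    have o3 : Q.ord (S.redInf y₁ ^ 12) = 12 * Q.ord (S.redInf y₁) := by
      have := Q.ord_zpow (S.redInf y₁) 12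
      rw [← this]
      norm_cast
    rw [o3, hy₁ord] at o2
    exact ⟨hh0, by omega⟩
  · rw [not_forall] at hnSS
    obtain ⟨z, hz⟩ := hnSS
    rw [Classical.not_imp] at hz
    obtain ⟨hzp, hzn⟩ := hz
    rw [not_or] at hzn
    have hz0 : Q.ord (S.redInf z) = 0 := by
      have := hord0 z
      have := hzn.2
      omega
    have hmem12 : z ^ 12 ∈ Ideal.span {h} := hdiv0 (Ideal.pow_mem_pow hzp 12)
    obtain ⟨c, hc⟩ := Ideal.mem_span_singleton'.1 hmem12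
    have e1 : S.redInf c * S.redInf h = S.redInf z ^ 12 := by
      rw [← map_mul, hc, map_pow]
    have hne1 : S.redInf c * S.redInf h ≠ 0 := e1 ▸ pow_ne_zero 12 hzn.1
    have hc0 : S.redInf c ≠ 0 := left_ne_zero_of_mul hne1
    have hh0 : S.redInf h ≠ 0 := right_ne_zero_of_mul hne1
    have o1 := congrArg Q.ord e1
    have o3 : Q.ord (S.redInf z ^ 12) = 12 * Q.ord (S.redInf z) := by
      have := Q.ord_zpow (S.redInf z) 12
      rw [← this]
      norm_cast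
    rw [Q.ord_mul hc0 hh0, o3, hz0] at o1
    have := hord0 c
    have := hord0 h
    exact ⟨hh0, by omega⟩

end Abs

/-- the arithmetic of the comparison: `p ∤ 12`, `E = -12` or `0`, `n ≡ δ` or `0`. -/
theorem ecm_cmp {p : ℕ} (hp : p.Prime) (h12 : ¬ p ∣ 12) (δ : ℤ) :
    ∃ lam : ℤ, ∀ n : ℤ, ((p : ℤ) ∣ n - δ → (p : ℤ) ∣ n - lam * (-12)) ∧
      ((p : ℤ) ∣ n → (p : ℤ) ∣ n - lam * 0) := by
  have hcop : IsCoprime (12 : ℤ) (p : ℤ) := by
    have h3 : Nat.Coprime 12 p := ((Nat.Prime.coprime_iff_not_dvd hp).2 h12).symm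
    have := Nat.isCoprime_iff_coprime.2 h3
    exact_mod_cast this
  obtain ⟨s, t, hst⟩ := hcop
  refine ⟨-(δ * s), fun n => ⟨fun ⟨c, hc⟩ => ⟨c + δ * t, ?_⟩, fun hn => by simpa using hn⟩⟩
  linear_combination hc - δ * hst

/-! ### the concrete divisor of `red h`, level `M' q` -/

section Conc

variable (A : ValuationSubring Kbar) (M' q : ℕ) [NeZero M'] [NeZero q] (hq : q.Prime)
  (hqM : ¬ q ∣ M') (hA : A.LiesOverPrime q)
  (R : ConstRed A (IsLocalRing.residue A)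
      (↥(modularFunctionFieldFullC (IsLocalRing.ResidueField A) M')) (FF (M' * q)))
  (hR : IsSeriesRed R)

set_option maxHeartbeats 4000000 in
/-- **`div (red_∞ g⁻¹) = 12 [SS]` off the cusps**, component `∞`, level `M' q`. -/
theorem ecm_ordh_inf (haux : IsAuxLevel q M')
    (Q : Place (IsLocalRing.ResidueField A) (Fk (IsLocalRing.ResidueField A) M'))
    (hQ : 0 ≤ Q.ord (jk (IsLocalRing.ResidueField A) M')) :
    ((∀ z ∈ (nodeSetupNj A M' q hq hqM hA R hR).pZero,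
        (nodeSetupNj A M' q hq hqM hA R hR).redInf z = 0 ∨
          0 < Q.ord ((nodeSetupNj A M' q hq hqM hA R hR).redInf z)) →
      Q.ord (R.red ⟨(unitQ (M' * q) q (dvd_mul_left q M'))⁻¹,
        uqr_inv_mem_O (dvd_mul_left q M') hR⟩) = 12) ∧
    (¬ (∀ z ∈ (nodeSetupNj A M' q hq hqM hA R hR).pZero,
        (nodeSetupNj A M' q hq hqM hA R hR).redInf z = 0 ∨
          0 < Q.ord ((nodeSetupNj A M' q hq hqM hA R hR).redInf z)) →
      Q.ord (R.red ⟨(unitQ (M' * q) q (dvd_mul_left q M'))⁻¹,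
        uqr_inv_mem_O (dvd_mul_left q M') hR⟩) = 0) := by
  have hSUM : RgnSum A M' q hq hqM R := fun z h1 h3 => w2j_rgnSum A M' q hq hqM hA R hR z h1 h3
  haveI : IsAlgClosed (IsLocalRing.ResidueField A) := isAlgClosed_residueField A
  haveI : FFSep (IsLocalRing.ResidueField A) (jk (IsLocalRing.ResidueField A) M') :=
    gmw_ffSep (IsLocalRing.ResidueField A) M'
  haveI : IsIntegrallyClosed (nodeSetupNj A M' q hq hqM hA R hR).B :=
    r1c_isIntegrallyClosed A M' q hq hqM hA R hR hSUM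
  haveI : IsNoetherianRing (nodeSetupNj A M' q hq hqM hA R hR).B :=
    (r1c_noeth_frac A M' q hq hqM hA R hR hSUM).1
  haveI : IsDedekindDomain (nodeSetupNj A M' q hq hqM hA R hR).redInf.range :=
    rgn_isDedekindDomain_inf A M' q hq hqM hA R hR haux hSUM
  haveI : IsDedekindDomain ((nodeSetupNj A M' q hq hqM hA R hR).B ⧸
      (nodeSetupNj A M' q hq hqM hA R hR).pInf) :=
    (nodeSetupNj A M' q hq hqM hA R hR).isDedekindDomain_quot_pInf
  have hreg := edc_hreg1 A M' q hq hqM hA R hR haux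
  have key := ecm_ordh_abs (nodeSetupNj A M' q hq hqM hA R hR)
    (r1c_noeth_frac A M' q hq hqM hA R hR hSUM).2
    (jk (IsLocalRing.ResidueField A) M')
    (rgn_hiInf A M' q hq hqM hA R hR hSUM) (rgn_hoInf A M' q hq hqM hA R hR haux)
    (q : k0Val A) (a2i_q_ne_zero A q hq)
    (uqrHB A M' q hq hqM hA R hR) (uqrHB' A M' q hq hqM hA R hR)
    (edc_hh' A M' q hq hqM hA R hR) hreg.1 hreg.2 (uqr_hdiv0 A M' q hq hqM hA R hR) Q hQ
  exact ⟨fun h => (key.1 h).2, fun h => (key.2 h).2⟩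

set_option maxHeartbeats 4000000 in
/-- **`div (red_∞ g⁻¹) = 12 [SS]` off the cusps**, component `0` (the supersingular places
being detected on the component `0`), level `M' q`. -/
theorem ecm_ordh_zero (haux : IsAuxLevel q M')
    (Q : Place (IsLocalRing.ResidueField A) (Fk (IsLocalRing.ResidueField A) M'))
    (hQ : 0 ≤ Q.ord (jk (IsLocalRing.ResidueField A) M')) :
    ((∀ z ∈ (nodeSetupNj A M' q hq hqM hA R hR).pInf,
        (nodeSetupNj A M' q hq hqM hA R hR).redZero z = 0 ∨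
          0 < Q.ord ((nodeSetupNj A M' q hq hqM hA R hR).redZero z)) →
      Q.ord (R.red ⟨(unitQ (M' * q) q (dvd_mul_left q M'))⁻¹,
        uqr_inv_mem_O (dvd_mul_left q M') hR⟩) = 12) ∧
    (¬ (∀ z ∈ (nodeSetupNj A M' q hq hqM hA R hR).pInf,
        (nodeSetupNj A M' q hq hqM hA R hR).redZero z = 0 ∨
          0 < Q.ord ((nodeSetupNj A M' q hq hqM hA R hR).redZero z)) →
      Q.ord (R.red ⟨(unitQ (M' * q) q (dvd_mul_left q M'))⁻¹,
        uqr_inv_mem_O (dvd_mul_left q M') hR⟩) = 0) := by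
  have hSUM : RgnSum A M' q hq hqM R := fun z h1 h3 => w2j_rgnSum A M' q hq hqM hA R hR z h1 h3
  haveI : IsAlgClosed (IsLocalRing.ResidueField A) := isAlgClosed_residueField A
  haveI : FFSep (IsLocalRing.ResidueField A) (jk (IsLocalRing.ResidueField A) M') :=
    gmw_ffSep (IsLocalRing.ResidueField A) M'
  haveI hIC : IsIntegrallyClosed (nodeSetupNj A M' q hq hqM hA R hR).B :=
    r1c_isIntegrallyClosed A M' q hq hqM hA R hR hSUM
  haveI hN : IsNoetherianRing (nodeSetupNj A M' q hq hqM hA R hR).B :=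
    (r1c_noeth_frac A M' q hq hqM hA R hR hSUM).1
  haveI : IsDedekindDomain (nodeSetupNj A M' q hq hqM hA R hR).redZero.range :=
    rgn_isDedekindDomain_zero A M' q hq hqM hA R hR haux hSUM
  haveI hD : IsDedekindDomain ((nodeSetupNj A M' q hq hqM hA R hR).B ⧸
      (nodeSetupNj A M' q hq hqM hA R hR).pZero) :=
    (nodeSetupNj A M' q hq hqM hA R hR).isDedekindDomain_quot_pZero
  have hreg := edc_hreg1 A M' q hq hqM hA R hR haux
  have hnode : ∀ s, (edc_swap (nodeSetupNj A M' q hq hqM hA R hR)).IsNode s →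
      (nodeSetupNj A M' q hq hqM hA R hR).IsNode s := by
    rintro s ⟨h1, h2⟩
    exact ⟨h1, sup_le (le_trans le_sup_right h2) (le_trans le_sup_left h2)⟩
  haveI : IsIntegrallyClosed (edc_swap (nodeSetupNj A M' q hq hqM hA R hR)).B := hIC
  haveI : IsNoetherianRing (edc_swap (nodeSetupNj A M' q hq hqM hA R hR)).B := hN
  haveI : IsDedekindDomain ((edc_swap (nodeSetupNj A M' q hq hqM hA R hR)).B ⧸
      (edc_swap (nodeSetupNj A M' q hq hqM hA R hR)).pInf) := hD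
  have key := ecm_ordh_abs (edc_swap (nodeSetupNj A M' q hq hqM hA R hR))
    (r1c_noeth_frac A M' q hq hqM hA R hR hSUM).2
    (jk (IsLocalRing.ResidueField A) M')
    (rgn_hiZero A M' q hq hqM hA R hR hSUM) (rgn_hoZero A M' q hq hqM hA R hR haux)
    (q : k0Val A) (a2i_q_ne_zero A q hq)
    (uqrHB' A M' q hq hqM hA R hR) (uqrHB A M' q hq hqM hA R hR)
    ((mul_comm _ _).trans (edc_hh' A M' q hq hqM hA R hR))
    (fun s hs => hreg.2 s (hnode s hs)) (fun s hs => hreg.1 s (hnode s hs))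
    (uqr_hdivInf A M' q hq hqM hA R hR) Q hQ
  have e : (edc_swap (nodeSetupNj A M' q hq hqM hA R hR)).redInf
      (uqrHB' A M' q hq hqM hA R hR)
      = R.red ⟨(unitQ (M' * q) q (dvd_mul_left q M'))⁻¹,
        uqr_inv_mem_O (dvd_mul_left q M') hR⟩ := by
    show R.red ⟨alW1 M' hq hqM ((uqrH' A M' q : f0Field A (M' * q)) : FF (M' * q)), _⟩ = _
    congr 1
    exact Subtype.ext (uqr_alW1_h' M' q hq hqM)
  rw [e] at key
  exact ⟨fun h => (key.1 h).2, fun h => (key.2 h).2⟩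

end Conc

/-! ### (H1) from WINDC in `[SS]`-form at the lower level, both components -/

section Final

open Fermat.Agent.HeckeBar Fermat.Agent.S33lib Fermat.Agent.LatE Fermat.Agent.S37lib
  Fermat.Agent.S35lib

variable (M p ℓ : ℕ) [NeZero M] [NeZero p] [NeZero ℓ] [NeZero (M * p)] [NeZero (M * ℓ)]
  [NeZero (M * p * ℓ)]
variable (A : ValuationSubring Kbar)
variable {R : ConstRed A (IsLocalRing.residue A) (Fk (IsLocalRing.ResidueField A) M) (FF (M * p))}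
  {Rl : ConstRed A (IsLocalRing.residue A) (Fk (IsLocalRing.ResidueField A) (M * ℓ))
    (FF (M * p * ℓ))}
variable (hp : p.Prime) (hℓ : ℓ.Prime) (hℓp : ℓ ≠ p)
  (h1 : p ∣ M * p) (h2 : ¬ p ^ 2 ∣ M * p)

/-- `ord_Q (red g) = - ord_Q (red g⁻¹)` -/
theorem ecm_ord_g (hR : IsSeriesRed R)
    (Q : Place (IsLocalRing.ResidueField A) (Fk (IsLocalRing.ResidueField A) M)) :
    Q.ord (R.red ⟨unitQ (M * p) p h1, uqr_mem_O h1 hR⟩)
      = - Q.ord (R.red ⟨(unitQ (M * p) p h1)⁻¹, uqr_inv_mem_O h1 hR⟩) := by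
  have hg := ehw_g_unit M p A h1 hR
  have e : R.red ⟨unitQ (M * p) p h1, uqr_mem_O h1 hR⟩ *
      R.red ⟨(unitQ (M * p) p h1)⁻¹, uqr_inv_mem_O h1 hR⟩ = 1 := by
    rw [← map_mul]
    have : (⟨unitQ (M * p) p h1, uqr_mem_O h1 hR⟩ : R.O) *
        ⟨(unitQ (M * p) p h1)⁻¹, uqr_inv_mem_O h1 hR⟩ = 1 :=
      Subtype.ext (mul_inv_cancel₀ hg.1)
    rw [this, map_one]
  have e2 := congrArg Q.ord e
  rw [Q.ord_mul hg.red_ne_zero hg.inv.red_ne_zero, Q.ord_one] at e2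
  omega

include hp hℓp h1 h2 in
/-- **(H1), `∞`-component, from WINDC in `[SS]`-form at the LOWER level only**; `u` ANY Kummer
unit (not necessarily `K0`-rational), `M` auxiliary, `p ∤ 12`. -/
theorem ecm_h1_inf [RRBase Kbar (FF (M * p))] (hpM : ¬ p ∣ M) (hℓN : ¬ ℓ ∣ M * p)
    (hA : A.LiesOverPrime p) (haux : IsAuxLevel p M) (h12 : ¬ p ∣ 12)
    (hR : IsSeriesRed R) (hRl : IsSeriesRed Rl) (a : ℤ)
    (hcop : ¬ (p : ℤ) ∣ a - ((ℓ : ℤ) + 1))
    {x : JZero (M * p)} {u : FF (M * p)} (hx : gdfIsKummer (K := Kbar) p x u)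
    (heig : heckeOperatorBar (M * p) ⟨ℓ, hℓ⟩ x = a • x)
    (hu : EisUnit R u) (δ : ℤ)
    (hwind : ∀ Q : Place (IsLocalRing.ResidueField A) (Fk (IsLocalRing.ResidueField A) M),
      0 ≤ Q.ord (jk (IsLocalRing.ResidueField A) M) →
      ((∀ z ∈ (nodeSetupNj A M p hp hpM hA R hR).pZero,
          (nodeSetupNj A M p hp hpM hA R hR).redInf z = 0 ∨
            0 < Q.ord ((nodeSetupNj A M p hp hpM hA R hR).redInf z)) →
        (p : ℤ) ∣ Q.ord (R.red ⟨u, hu.2.1⟩) - δ) ∧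
      (¬ (∀ z ∈ (nodeSetupNj A M p hp hpM hA R hR).pZero,
          (nodeSetupNj A M p hp hpM hA R hR).redInf z = 0 ∨
            0 < Q.ord ((nodeSetupNj A M p hp hpM hA R hR).redInf z)) →
        (p : ℤ) ∣ Q.ord (R.red ⟨u, hu.2.1⟩)))
    (Q : Place (IsLocalRing.ResidueField A) (Fk (IsLocalRing.ResidueField A) M))
    (hQ : 0 ≤ Q.ord (jk (IsLocalRing.ResidueField A) M)) :
    (p : ℤ) ∣ Q.ord (R.red ⟨u, hu.2.1⟩) := by
  obtain ⟨lam, hlam⟩ := ecm_cmp hp h12 δ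
  refine ehw_h1_inf M p ℓ A hp hℓ hℓp h1 h2 hpM hℓN hA hR hRl a hcop hx heig hu lam ?_ Q hQ
  intro Q₁ hQ₁
  have hh := ecm_ordh_inf A M p hp hpM hA R hR haux Q₁ hQ₁
  have hg := ecm_ord_g M p A h1 hR Q₁
  by_cases hSS : ∀ z ∈ (nodeSetupNj A M p hp hpM hA R hR).pZero,
      (nodeSetupNj A M p hp hpM hA R hR).redInf z = 0 ∨
        0 < Q₁.ord ((nodeSetupNj A M p hp hpM hA R hR).redInf z)
  · have e : Q₁.ord (R.red ⟨unitQ (M * p) p h1, uqr_mem_O h1 hR⟩) = -12 := by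
      rw [hg, hh.1 hSS]
    rw [e]
    exact (hlam _).1 ((hwind Q₁ hQ₁).1 hSS)
  · have e : Q₁.ord (R.red ⟨unitQ (M * p) p h1, uqr_mem_O h1 hR⟩) = 0 := by
      rw [hg, hh.2 hSS, neg_zero]
    rw [e]
    exact (hlam _).2 ((hwind Q₁ hQ₁).2 hSS)

include hℓp in
/-- **(H1), `0`-component, from WINDC in `[SS]`-form at the LOWER level only.** -/
theorem ecm_h1_zero [RRBase Kbar (FF (M * p))] (hpM : ¬ p ∣ M) (hℓN : ¬ ℓ ∣ M * p)
    (hA : A.LiesOverPrime p) (haux : IsAuxLevel p M) (h12 : ¬ p ∣ 12)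
    (hR : IsSeriesRed R) (hRl : IsSeriesRed Rl) (a : ℤ)
    (hcop : ¬ (p : ℤ) ∣ a - ((ℓ : ℤ) + 1))
    {x : JZero (M * p)} {u : FF (M * p)} (hx : gdfIsKummer (K := Kbar) p x u)
    (heig : heckeOperatorBar (M * p) ⟨ℓ, hℓ⟩ x = a • x)
    (hu : EisUnit (inredZero (M * p) p hp h1 h2 R) u) (δ : ℤ)
    (hwind : ∀ Q : Place (IsLocalRing.ResidueField A) (Fk (IsLocalRing.ResidueField A) M),
      0 ≤ Q.ord (jk (IsLocalRing.ResidueField A) M) →
      ((∀ z ∈ (nodeSetupNj A M p hp hpM hA R hR).pInf,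
          (nodeSetupNj A M p hp hpM hA R hR).redZero z = 0 ∨
            0 < Q.ord ((nodeSetupNj A M p hp hpM hA R hR).redZero z)) →
        (p : ℤ) ∣ Q.ord ((inredZero (M * p) p hp h1 h2 R).red ⟨u, hu.2.1⟩) - δ) ∧
      (¬ (∀ z ∈ (nodeSetupNj A M p hp hpM hA R hR).pInf,
          (nodeSetupNj A M p hp hpM hA R hR).redZero z = 0 ∨
            0 < Q.ord ((nodeSetupNj A M p hp hpM hA R hR).redZero z)) →
        (p : ℤ) ∣ Q.ord ((inredZero (M * p) p hp h1 h2 R).red ⟨u, hu.2.1⟩)))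
    (Q : Place (IsLocalRing.ResidueField A) (Fk (IsLocalRing.ResidueField A) M))
    (hQ : 0 ≤ Q.ord (jk (IsLocalRing.ResidueField A) M)) :
    (p : ℤ) ∣ Q.ord ((inredZero (M * p) p hp h1 h2 R).red ⟨u, hu.2.1⟩) := by
  obtain ⟨lam, hlam⟩ := ecm_cmp hp h12 δ
  refine ehw_h1_zero M p ℓ A hp hℓ hℓp h1 h2 hpM hℓN hA hR hRl a hcop hx heig hu lam ?_ Q hQ
  intro Q₁ hQ₁
  have hh := ecm_ordh_zero A M p hp hpM hA R hR haux Q₁ hQ₁
  have hg := ecm_ord_g M p A h1 hR Q₁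
  by_cases hSS : ∀ z ∈ (nodeSetupNj A M p hp hpM hA R hR).pInf,
      (nodeSetupNj A M p hp hpM hA R hR).redZero z = 0 ∨
        0 < Q₁.ord ((nodeSetupNj A M p hp hpM hA R hR).redZero z)
  · have e : Q₁.ord (R.red ⟨unitQ (M * p) p h1, uqr_mem_O h1 hR⟩) = -12 := by
      rw [hg, hh.1 hSS]
    rw [e]
    exact (hlam _).1 ((hwind Q₁ hQ₁).1 hSS)
  · have e : Q₁.ord (R.red ⟨unitQ (M * p) p h1, uqr_mem_O h1 hR⟩) = 0 := by
      rw [hg, hh.2 hSS, neg_zero]
    rw [e]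
    exact (hlam _).2 ((hwind Q₁ hQ₁).2 hSS)

end Final

end Fermat.Agent.S40lib

end
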