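import Mathlib
import Fermat.Agent.S36lib.Speed
import Fermat.Agent.S40lib.EisStep
import Fermat.Prelude.Def_AlgebraicCurve_Correspondence

/-!
# Item 88 (S40), piece H1 (helper28): the Eisenstein step from WINDC at the LOWER level only

Route (II) (for the wild case): the winding divisor `n = div (red u)` of `x` satisfies
`n ≡ λ E` modulo `p` off the cusps, `E = div (red g)` the divisor of the reduction of a fixed
`K₀`-rational function `g` with `δ(g) ≢ 0` (e.g. the modular unit `Δ(pz)/Δ(z)`, `δ = ∓12`,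
`p ≥ 5`); `E` is Eisenstein (`T̄_ℓ E ≡ (ℓ+1) E`: edge rule at the lower level for
`N_α (β g) / g ^ (ℓ+1)`, whose `δ` is `0` by `eis_gauss_norm`); `T̄_ℓ n ≡ a n` (HECKE-RED).

* `eis_abs2`            : the step in an abstract group `G ⊇ P` (`P` = "`≡ 0` mod `p` off `C`");
* `eisOff p C`          : the subgroup of the divisors which are `≡ 0` modulo `p` off `C`;
* `eis_corr_preserves`  : a correspondence `ψ_* φ^*` preserves `eisOff p C` if the places over
                          `C` for `ψ` and `φ` are the same (cusps go to cusps);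
* `eis_corr`            : the Eisenstein step for divisors and a correspondence.
No sorry in this file.
-/

set_option autoImplicit false
set_option linter.style.haveILetI false

noncomputable section

namespace Fermat.Agent.S40lib

open AlgebraicCurve

/-- **Eisenstein step, second abstract form**: `T` an endomorphism of `G` preserving the subgroup
`P ⊇ p G`; `n ≡ lam • E`, `T E ≡ m • E`, `T n ≡ a • n` modulo `P`, `p` prime to `a - m`
⇒ `n ∈ P`. -/
theorem eis_abs2 {G : Type*} [AddCommGroup G] (T : G →+ G) (P : AddSubgroup G)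
    (hT : ∀ g ∈ P, T g ∈ P) (p : ℕ) (hp : ∀ g : G, p • g ∈ P) (n E : G) (lam m a : ℤ)
    (ha : n - lam • E ∈ P) (hb : T E - m • E ∈ P) (hc : T n - a • n ∈ P)
    (hcop : IsCoprime (p : ℤ) (a - m)) : n ∈ P := by
  have h1 : T n - lam • T E ∈ P := by
    have := hT _ ha
    rwa [map_sub, map_zsmul] at this
  have h2 : lam • (T E - m • E) ∈ P := P.zsmul_mem hb lam
  have h3 : m • (n - lam • E) ∈ P := P.zsmul_mem ha m
  have h4 : (a - m) • n ∈ P := by
    have e : (a - m) • n = (T n - lam • T E) + lam • (T E - m • E) - m • (n - lam • E)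
        - (T n - a • n) := by
      simp only [sub_smul, smul_sub, smul_smul]
      rw [mul_comm m lam]
      abel
    rw [e]
    exact P.sub_mem (P.sub_mem (P.add_mem h1 h2) h3) hc
  obtain ⟨u, v, huv⟩ := hcop
  have h5 : n = u • (p • n) + v • ((a - m) • n) := by
    rw [← natCast_zsmul, smul_smul, smul_smul, ← add_smul, huv, one_smul]
  rw [h5]
  exact P.add_mem (P.zsmul_mem (hp n) u) (P.zsmul_mem h4 v)

section Divisors

variable {K F : Type*} [Field K] [Field F] [Algebra K F]

/-- the divisors which are `≡ 0` modulo `p` off the set `C` of places -/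
def eisOff (p : ℕ) (C : Set (Place K F)) : AddSubgroup (Divisor K F) where
  carrier := {D | ∀ v : Place K F, v ∉ C → (p : ℤ) ∣ D v}
  zero_mem' := fun v _ => by simp
  add_mem' := fun {D E} hD hE v hv => by
    rw [Finsupp.add_apply]
    exact dvd_add (hD v hv) (hE v hv)
  neg_mem' := fun {D} hD v hv => by
    rw [Finsupp.neg_apply]
    exact (dvd_neg).mpr (hD v hv)

theorem mem_eisOff {p : ℕ} {C : Set (Place K F)} {D : Divisor K F} :
    D ∈ eisOff p C ↔ ∀ v : Place K F, v ∉ C → (p : ℤ) ∣ D v := Iff.rfl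

theorem eis_nsmul_mem_eisOff (p : ℕ) (C : Set (Place K F)) (D : Divisor K F) :
    p • D ∈ eisOff p C := fun v _ => by
  rw [Finsupp.smul_apply, nsmul_eq_mul]
  exact dvd_mul_right _ _

variable {F' : Type*} [Field F'] [Algebra K F'] [HasPrincipalDivisors K F']

/-- a correspondence `ψ_* φ^*` preserves "`≡ 0` modulo `p` off `C`" as soon as every place of
`F'` whose `ψ`-restriction is not in `C` has its `φ`-restriction not in `C`. -/
theorem eis_corr_preserves (φ ψ : F →ₐ[K] F') (hφ : φ.toRingHom.IsIntegral)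
    (hψ : ψ.toRingHom.IsIntegral) (p : ℕ) (C : Set (Place K F))
    (hC : ∀ w : Place K F', w.restrictAlong ψ hψ ∉ C → w.restrictAlong φ hφ ∉ C)
    (D : Divisor K F) (hD : D ∈ eisOff p C) :
    Divisor.correspondence φ ψ hφ hψ D ∈ eisOff p C := by
  intro v hv
  rw [Divisor.correspondence_apply]
  letI := algebraAlong ψ
  haveI := isScalarTower_along ψ
  haveI := isIntegral_along ψ hψ
  show (p : ℤ) ∣ Divisor.pushforward F (Divisor.pullbackAlong φ hφ D) v
  refine eis_push_dvd (p : ℤ) _ v fun w hw => ?_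
  have hw' : w.restrictAlong ψ hψ ∉ C := by
    have e : w.restrictAlong ψ hψ = v := hw
    rw [e]
    exact hv
  have h1 := hC w hw'
  letI := algebraAlong φ
  haveI := isScalarTower_along φ
  haveI := isIntegral_along φ hφ
  show (p : ℤ) ∣ Divisor.pullback F' D w
  rw [Divisor.pullback_apply]
  exact Dvd.dvd.mul_left (hD _ h1) _

/-- **Eisenstein step for a correspondence, from the lower level only**: `n ≡ lam • E`,
`T E ≡ m • E`, `T n ≡ a • n` modulo `p` off `C` (`T = ψ_* φ^*`, cusps go to cusps), `p` prime to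
`a - m`  ⇒  `n ≡ 0` modulo `p` off `C`. -/
theorem eis_corr (φ ψ : F →ₐ[K] F') (hφ : φ.toRingHom.IsIntegral)
    (hψ : ψ.toRingHom.IsIntegral) (p : ℕ) (C : Set (Place K F))
    (hC : ∀ w : Place K F', w.restrictAlong ψ hψ ∉ C → w.restrictAlong φ hφ ∉ C)
    (n E : Divisor K F) (lam m a : ℤ)
    (ha : ∀ v : Place K F, v ∉ C → (p : ℤ) ∣ n v - lam * E v)
    (hb : ∀ v : Place K F, v ∉ C →
      (p : ℤ) ∣ Divisor.correspondence φ ψ hφ hψ E v - m * E v)
    (hc : ∀ v : Place K F, v ∉ C →
      (p : ℤ) ∣ Divisor.correspondence φ ψ hφ hψ n v - a * n v)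
    (hcop : IsCoprime (p : ℤ) (a - m)) (v : Place K F) (hv : v ∉ C) : (p : ℤ) ∣ n v := by
  have key := eis_abs2 (Divisor.correspondence φ ψ hφ hψ) (eisOff p C)
    (eis_corr_preserves φ ψ hφ hψ p C hC) p (eis_nsmul_mem_eisOff p C) n E lam m a
    (fun v hv => by
      rw [Finsupp.sub_apply, Finsupp.smul_apply, smul_eq_mul]; exact ha v hv)
    (fun v hv => by
      rw [Finsupp.sub_apply, Finsupp.smul_apply, smul_eq_mul]; exact hb v hv)
    (fun v hv => by
      rw [Finsupp.sub_apply, Finsupp.smul_apply, smul_eq_mul]; exact hc v hv)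
    hcop
  exact key v hv

end Divisors

end Fermat.Agent.S40lib

end
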