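import Mathlib
import Fermat.Agent.S36lib.Speed

/-!
# Item 88 (S40), block (J-WILD), piece (G2e), algebraic core: Eisenstein normal forms

(helper24.)  The comparison `Y → X` of (G2) is WILD: the Kummer function `u_x` of `x` is only
rational over `K1 = K0(π1)`, `π1 ^ p = ϖ θ` (`ϖ = p`, `θ` a unit: an Eisenstein equation).  This
file contains the elementary algebra which replaces the theory of the (totally ramified)
extension of the branch valuation from `E0` to `E1 = E0(π1)`: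

everything happens inside one field `E`; `S ⊆ E` is a subring containing `π1`, `θ`, `θ⁻¹`
(a valuation ring of `E` dominating the branch ring, or the ring `R.O` on the `X`-side),
`U ⊆ S` a set of units of the base ring (`E0`-, `F0`- or `K0`-rational), and every non-zero
coefficient is `ϖ ^ n · b`, `b ∈ U` (the base ring is a discrete valuation ring with
uniformiser `ϖ`).

* `g2e_normal_form` : `h = ∑_{i < p} a_i π1 ^ i ≠ 0`  ⇒  `h = π1 ^ d θ ^ j (b + π1 m)`,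
  `b ∈ U`, `m ∈ S`   (the terms `a_i π1 ^ i` have pairwise distinct orders `p n_i + i`);
* `g2e_cong_mul`, `g2e_cong_pow`, `g2e_cong_zpow_theta` : calculus of `x ≡ b  (mod π1 S)`;
* `g2e_main` : `ũ = e · u · h ^ p`, `ũ` a unit of the base ring, `e`, `u`, `h` in normal form,
  `ρ : S → T` a ring homomorphism with `ρ π1 = 0`, `T ≠ 0`:
  then the orders cancel and `ũ = c₀ · b_u · b_h ^ p + π1 M`, `c₀` a constant unit: the
  residue of `ũ` is the residue of `u`'s leading unit `b_u` up to a constant and a `p`-th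
  power — all residues being those of BASE elements (`K0`-rational).

Mathlib only.
-/

set_option autoImplicit false
set_option linter.unusedVariables false

namespace Fermat.Agent.S40lib

section EisExt

variable {E : Type*} [Field E]

/-- integral powers of a unit of a subring -/
theorem g2e_zpow_mem (S : Subring E) {θ : E} (hθ : θ ∈ S) (hθ' : θ⁻¹ ∈ S) (k : ℤ) :
    θ ^ k ∈ S := by
  rcases Int.eq_nat_or_neg k with ⟨n, rfl | rfl⟩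
  · rw [zpow_natCast]
    exact S.pow_mem hθ n
  · rw [zpow_neg, zpow_natCast, ← inv_pow]
    exact S.pow_mem hθ' n

/-- `ϖ ^ n = π1 ^ (p n) θ ^ (-n)` -/
theorem g2e_pi_zpow (π1 θ ϖ : E) (p : ℕ) (hθ0 : θ ≠ 0) (hϖ : π1 ^ p = ϖ * θ) (n : ℤ) :
    ϖ ^ n = π1 ^ ((p : ℤ) * n) * θ ^ (-n) := by
  have h1 : ϖ = π1 ^ p * θ⁻¹ := by
    rw [hϖ, mul_assoc, mul_inv_cancel₀ hθ0, mul_one]
  rw [h1, mul_zpow, ← zpow_natCast π1 p, ← zpow_mul, inv_zpow, zpow_neg]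

/-- **the normal form** of `∑_{i < p} a_i π1 ^ i`. -/
theorem g2e_normal_form (S : Subring E) (π1 θ ϖ : E) (p : ℕ)
    (hπ : π1 ∈ S) (hθ : θ ∈ S) (hθ' : θ⁻¹ ∈ S) (hθ0 : θ ≠ 0) (hϖ0 : ϖ ≠ 0)
    (hϖ : π1 ^ p = ϖ * θ)
    (U : Set E) (hUS : ∀ b ∈ U, b ∈ S)
    (a : Fin p → E) (ha : ∀ i, a i = 0 ∨ ∃ n : ℤ, ∃ b ∈ U, a i = ϖ ^ n * b)
    (hne : ∃ i, a i ≠ 0) :
    ∃ (d j : ℤ) (b m : E), b ∈ U ∧ m ∈ S ∧
      ∑ i, a i * π1 ^ (i : ℕ) = π1 ^ d * θ ^ j * (b + π1 * m) := by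
  classical
  have hπ0 : π1 ≠ 0 := by
    intro h0
    obtain ⟨i, -⟩ := hne
    have hp : p ≠ 0 := fun hp0 => by subst hp0; exact i.elim0
    rw [h0, zero_pow hp] at hϖ
    exact mul_ne_zero hϖ0 hθ0 hϖ.symm
  -- the data `n_i`, `b_i`
  have hch : ∀ i, ∃ nb : ℤ × E, a i ≠ 0 → nb.2 ∈ U ∧ a i = ϖ ^ nb.1 * nb.2 := by
    intro i
    rcases ha i with h0 | ⟨n, b, hb, hab⟩
    · exact ⟨(0, 0), fun h => absurd h0 h⟩
    · exact ⟨(n, b), fun _ => ⟨hb, hab⟩⟩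
  choose nb hnb using hch
  set I : Finset (Fin p) := Finset.univ.filter (fun i => a i ≠ 0) with hI
  have hIne : I.Nonempty := by
    obtain ⟨i, hi⟩ := hne
    exact ⟨i, by simp [hI, hi]⟩
  set φ : Fin p → ℤ := fun i => (p : ℤ) * (nb i).1 + (i : ℕ) with hφ
  obtain ⟨i0, hi0I, hmin⟩ := Finset.exists_min_image I φ hIne
  have hi0 : a i0 ≠ 0 := by
    have := hi0I
    simp only [hI, Finset.mem_filter, Finset.mem_univ, true_and] at this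
    exact this
  -- the orders are pairwise distinct
  have hinj : ∀ i, φ i = φ i0 → i = i0 := by
    intro i h
    simp only [hφ] at h
    have hi := i.isLt
    have hi0' := i0.isLt
    have hk : (nb i).1 = (nb i0).1 := by
      by_contra hne'
      rcases lt_or_gt_of_ne hne' with hlt | hgt
      · have : (p : ℤ) * ((nb i0).1 - (nb i).1) ≥ p := by nlinarith
        have h2 : ((i : ℕ) : ℤ) - (i0 : ℕ) = (p : ℤ) * ((nb i0).1 - (nb i).1) := by linarith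
        have h3 : ((i : ℕ) : ℤ) < p := by exact_mod_cast hi
        have h4 : (0 : ℤ) ≤ ((i0 : ℕ) : ℤ) := by positivity
        linarith
      · have : (p : ℤ) * ((nb i).1 - (nb i0).1) ≥ p := by nlinarith
        have h2 : ((i0 : ℕ) : ℤ) - (i : ℕ) = (p : ℤ) * ((nb i).1 - (nb i0).1) := by linarith
        have h3 : ((i0 : ℕ) : ℤ) < p := by exact_mod_cast hi0'
        have h4 : (0 : ℤ) ≤ ((i : ℕ) : ℤ) := by positivity
        linarith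
    rw [hk] at h
    have h5 : ((i : ℕ) : ℤ) = (i0 : ℕ) := by linarith
    exact Fin.ext (by exact_mod_cast h5)
  -- the terms
  have hterm : ∀ i ∈ I, a i * π1 ^ (i : ℕ) = π1 ^ (φ i) * θ ^ (-(nb i).1) * (nb i).2 := by
    intro i hi
    have hai : a i ≠ 0 := by
      simp only [hI, Finset.mem_filter, Finset.mem_univ, true_and] at hi
      exact hi
    obtain ⟨-, hab⟩ := hnb i hai
    conv_lhs => rw [hab]
    rw [g2e_pi_zpow π1 θ ϖ p hθ0 hϖ, hφ]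
    simp only
    rw [zpow_add₀ hπ0, zpow_natCast]
    ring
  have hsum : ∑ i, a i * π1 ^ (i : ℕ) = ∑ i ∈ I, a i * π1 ^ (i : ℕ) := by
    rw [hI, Finset.sum_filter]
    refine Finset.sum_congr rfl fun i _ => ?_
    by_cases h : a i = 0
    · simp [h]
    · simp [h]
  refine ⟨φ i0, -(nb i0).1, (nb i0).2,
    ∑ i ∈ I.erase i0, π1 ^ ((φ i - φ i0 - 1).toNat) * θ ^ ((nb i0).1 - (nb i).1) * (nb i).2,
    (hnb i0 hi0).1, ?_, ?_⟩
  · refine S.sum_mem fun i hi => ?_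
    have hiI : i ∈ I := Finset.mem_of_mem_erase hi
    have hai : a i ≠ 0 := by
      simp only [hI, Finset.mem_filter, Finset.mem_univ, true_and] at hiI
      exact hiI
    exact S.mul_mem (S.mul_mem (S.pow_mem hπ _) (g2e_zpow_mem S hθ hθ' _))
      (hUS _ (hnb i hai).1)
  · rw [hsum, ← Finset.add_sum_erase I _ hi0I, hterm i0 hi0I, mul_add, Finset.mul_sum,
      Finset.mul_sum]
    congr 1
    refine Finset.sum_congr rfl fun i hi => ?_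
    have hiI : i ∈ I := Finset.mem_of_mem_erase hi
    have hne' : i ≠ i0 := Finset.ne_of_mem_erase hi
    have hlt : φ i0 < φ i := lt_of_le_of_ne (hmin i hiI) (fun h => hne' (hinj i h.symm))
    have hnat : ((φ i - φ i0 - 1).toNat : ℤ) = φ i - φ i0 - 1 := Int.toNat_of_nonneg (by omega)
    rw [hterm i hiI, ← zpow_natCast π1 (φ i - φ i0 - 1).toNat, hnat]
    have e1 : π1 ^ (φ i) = π1 ^ (φ i0) * (π1 * π1 ^ (φ i - φ i0 - 1)) := by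
      rw [← zpow_one_add₀ hπ0, ← zpow_add₀ hπ0]
      congr 1
      ring
    have e2 : θ ^ (-(nb i).1) = θ ^ (-(nb i0).1) * θ ^ ((nb i0).1 - (nb i).1) := by
      rw [← zpow_add₀ hθ0]
      congr 1
      ring
    rw [e1, e2]
    ring

/-! ### the calculus of `x ≡ b  (mod π1 S)` -/

theorem g2e_cong_mul (S : Subring E) (π1 : E) (hπ : π1 ∈ S) {x x' b b' : E}
    (hb : b ∈ S) (hb' : b' ∈ S)
    (h : ∃ m ∈ S, x = b + π1 * m) (h' : ∃ m ∈ S, x' = b' + π1 * m) :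
    ∃ m ∈ S, x * x' = b * b' + π1 * m := by
  obtain ⟨m, hm, rfl⟩ := h
  obtain ⟨m', hm', rfl⟩ := h'
  refine ⟨b * m' + m * b' + π1 * m * m', ?_, by ring⟩
  exact S.add_mem (S.add_mem (S.mul_mem hb hm') (S.mul_mem hm hb'))
    (S.mul_mem (S.mul_mem hπ hm) hm')

theorem g2e_cong_pow (S : Subring E) (π1 : E) (hπ : π1 ∈ S) {x b : E} (hb : b ∈ S)
    (h : ∃ m ∈ S, x = b + π1 * m) (n : ℕ) : ∃ m ∈ S, x ^ n = b ^ n + π1 * m := by
  induction n with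
  | zero => exact ⟨0, S.zero_mem, by simp⟩
  | succ k ih =>
    rw [pow_succ, pow_succ]
    exact g2e_cong_mul S π1 hπ (S.pow_mem hb k) hb ih h

theorem g2e_cong_inv (S : Subring E) (π1 : E) {x b : E} (hx' : x⁻¹ ∈ S) (hb' : b⁻¹ ∈ S)
    (hx0 : x ≠ 0) (hb0 : b ≠ 0) (h : ∃ m ∈ S, x = b + π1 * m) :
    ∃ m ∈ S, x⁻¹ = b⁻¹ + π1 * m := by
  obtain ⟨m, hm, hxm⟩ := h
  refine ⟨-(m * b⁻¹ * x⁻¹), S.neg_mem (S.mul_mem (S.mul_mem hm hb') hx'), ?_⟩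
  have h1 : b = x - π1 * m := by rw [hxm]; ring
  field_simp
  rw [h1]
  ring

theorem g2e_cong_zpow (S : Subring E) (π1 : E) (hπ : π1 ∈ S) {x b : E}
    (hx' : x⁻¹ ∈ S) (hb : b ∈ S) (hb' : b⁻¹ ∈ S)
    (hx0 : x ≠ 0) (hb0 : b ≠ 0) (h : ∃ m ∈ S, x = b + π1 * m) (k : ℤ) :
    ∃ m ∈ S, x ^ k = b ^ k + π1 * m := by
  rcases Int.eq_nat_or_neg k with ⟨n, rfl | rfl⟩
  · simp only [zpow_natCast]
    exact g2e_cong_pow S π1 hπ hb h n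
  · simp only [zpow_neg, zpow_natCast, ← inv_pow]
    exact g2e_cong_pow S π1 hπ hb' (g2e_cong_inv S π1 hx' hb' hx0 hb0 h) n

/-! ### the main congruence -/

/-- the image of a unit of `S` is not zero -/
theorem g2e_rho_unit_ne_zero (S : Subring E) {T : Type*} [CommRing T] [Nontrivial T]
    (ρ : S →+* T) {x : E} (hx : x ∈ S) (hx' : x⁻¹ ∈ S) (hx0 : x ≠ 0) : ρ ⟨x, hx⟩ ≠ 0 := by
  intro h0
  have h1 : (⟨x, hx⟩ : S) * ⟨x⁻¹, hx'⟩ = 1 := Subtype.ext (mul_inv_cancel₀ hx0)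
  have h2 := congrArg ρ h1
  rw [map_mul, h0, zero_mul, map_one] at h2
  exact zero_ne_one h2

/-- the image of a multiple of `π1` is zero -/
theorem g2e_rho_mul_eq_zero (S : Subring E) {T : Type*} [CommRing T]
    (ρ : S →+* T) {π1 : E} (hπ : π1 ∈ S) (hρπ : ρ ⟨π1, hπ⟩ = 0) {y x : E} (hy : y ∈ S)
    (hx : x ∈ S) (hxy : x = π1 * y) : ρ ⟨x, hx⟩ = 0 := by
  have h1 : (⟨x, hx⟩ : S) = ⟨π1, hπ⟩ * ⟨y, hy⟩ := Subtype.ext hxy
  rw [h1, map_mul, hρπ, zero_mul]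

/-- **the main congruence.**  `ũ = e · u · h ^ p` with `ũ` a unit of `S`, and `e`, `u`, `h` in
normal form `π1 ^ d θ ^ j (b + π1 m)` (`b` a unit of `S`, `m ∈ S`), `θ ≡ a (mod π1 S)`,
`ρ : S → T` with `ρ π1 = 0`, `T ≠ 0`.  Then the orders cancel, `d_e + d_u + p d_h = 0`, and
`ũ = a ^ J · b_e · b_u · b_h ^ p + π1 M`, `M ∈ S`. -/
theorem g2e_main (S : Subring E) {T : Type*} [CommRing T] [Nontrivial T] (ρ : S →+* T)
    (π1 θ a : E) (hπ : π1 ∈ S) (hρπ : ρ ⟨π1, hπ⟩ = 0) (hπ0 : π1 ≠ 0)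
    (hθ : θ ∈ S) (hθ' : θ⁻¹ ∈ S) (hθ0 : θ ≠ 0)
    (ha : a ∈ S) (ha' : a⁻¹ ∈ S) (ha0 : a ≠ 0) (hθa : ∃ m ∈ S, θ = a + π1 * m)
    (p : ℕ) (ut e u h : E) (hut : ut ∈ S) (hut' : ut⁻¹ ∈ S) (hut0 : ut ≠ 0)
    (hrel : ut = e * u * h ^ p)
    (de je du ju dh jh : ℤ) (be bu bh me mu mh : E)
    (hbe : be ∈ S) (hbe' : be⁻¹ ∈ S) (hbe0 : be ≠ 0)
    (hbu : bu ∈ S) (hbu' : bu⁻¹ ∈ S) (hbu0 : bu ≠ 0)
    (hbh : bh ∈ S) (hbh' : bh⁻¹ ∈ S) (hbh0 : bh ≠ 0)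
    (hme : me ∈ S) (hmu : mu ∈ S) (hmh : mh ∈ S)
    (hE : e = π1 ^ de * θ ^ je * (be + π1 * me))
    (hU : u = π1 ^ du * θ ^ ju * (bu + π1 * mu))
    (hH : h = π1 ^ dh * θ ^ jh * (bh + π1 * mh)) :
    de + du + p * dh = 0 ∧
      ∃ M ∈ S, ut = a ^ (je + ju + p * jh) * (be * bu * bh ^ p) + π1 * M := by
  set D : ℤ := de + du + p * dh with hD
  set J : ℤ := je + ju + p * jh with hJ
  -- the unit part
  obtain ⟨M0, hM0, hW⟩ : ∃ m ∈ S, (be + π1 * me) * (bu + π1 * mu) * (bh + π1 * mh) ^ p =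
      be * bu * bh ^ p + π1 * m :=
    g2e_cong_mul S π1 hπ (S.mul_mem hbe hbu) (S.pow_mem hbh p)
      (g2e_cong_mul S π1 hπ hbe hbu ⟨me, hme, rfl⟩ ⟨mu, hmu, rfl⟩)
      (g2e_cong_pow S π1 hπ hbh ⟨mh, hmh, rfl⟩ p)
  obtain ⟨Mθ, hMθ, hΘ⟩ := g2e_cong_zpow S π1 hπ hθ' ha ha' hθ0 ha0 hθa J
  have haJ : a ^ J ∈ S := g2e_zpow_mem S ha ha' J
  have haJ' : (a ^ J)⁻¹ ∈ S := by rw [← zpow_neg]; exact g2e_zpow_mem S ha ha' _
  have hB : be * bu * bh ^ p ∈ S := S.mul_mem (S.mul_mem hbe hbu) (S.pow_mem hbh p)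
  have hB' : (be * bu * bh ^ p)⁻¹ ∈ S := by
    rw [mul_inv, mul_inv, ← inv_pow]
    exact S.mul_mem (S.mul_mem hbe' hbu') (S.pow_mem hbh' p)
  have hB0 : be * bu * bh ^ p ≠ 0 := mul_ne_zero (mul_ne_zero hbe0 hbu0) (pow_ne_zero _ hbh0)
  obtain ⟨Y, hYdef⟩ : ∃ Y : E, Y = θ ^ J * ((be + π1 * me) * (bu + π1 * mu) *
      (bh + π1 * mh) ^ p) := ⟨_, rfl⟩
  obtain ⟨M1, hM1, hY⟩ : ∃ m ∈ S, Y = a ^ J * (be * bu * bh ^ p) + π1 * m := by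
    rw [hYdef]
    exact g2e_cong_mul S π1 hπ haJ hB ⟨Mθ, hMθ, hΘ⟩ ⟨M0, hM0, hW⟩
  have hYS : Y ∈ S := by
    rw [hY]
    exact S.add_mem (S.mul_mem haJ hB) (S.mul_mem hπ hM1)
  have e1 : π1 ^ D = π1 ^ de * π1 ^ du * (π1 ^ dh) ^ p := by
    rw [hD, zpow_add₀ hπ0, zpow_add₀ hπ0, mul_comm (p : ℤ) dh, zpow_mul, zpow_natCast]
  have e2 : θ ^ J = θ ^ je * θ ^ ju * (θ ^ jh) ^ p := by
    rw [hJ, zpow_add₀ hθ0, zpow_add₀ hθ0, mul_comm (p : ℤ) jh, zpow_mul, zpow_natCast]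
  have hut_eq : ut = π1 ^ D * Y := by
    rw [hrel, hE, hU, hH, hYdef, e1, e2]
    generalize π1 ^ de = a1
    generalize π1 ^ du = a2
    generalize π1 ^ dh = a3
    generalize θ ^ je = t1
    generalize θ ^ ju = t2
    generalize θ ^ jh = t3
    generalize be + π1 * me = X1
    generalize bu + π1 * mu = X2
    generalize bh + π1 * mh = X3
    rw [mul_pow, mul_pow]
    ring
  -- `ρ Y ≠ 0`
  have hρY : ρ ⟨Y, hYS⟩ ≠ 0 := by
    have hu : a ^ J * (be * bu * bh ^ p) ∈ S := S.mul_mem haJ hB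
    have h1 : (⟨Y, hYS⟩ : S) = ⟨a ^ J * (be * bu * bh ^ p), hu⟩ +
        ⟨π1 * M1, S.mul_mem hπ hM1⟩ := Subtype.ext hY
    rw [h1, map_add, g2e_rho_mul_eq_zero S ρ hπ hρπ hM1 (S.mul_mem hπ hM1) rfl, add_zero]
    exact g2e_rho_unit_ne_zero S ρ hu (by rw [mul_inv]; exact S.mul_mem haJ' hB')
      (mul_ne_zero (zpow_ne_zero _ ha0) hB0)
  have hρu : ρ ⟨ut, hut⟩ ≠ 0 := g2e_rho_unit_ne_zero S ρ hut hut' hut0
  have hD0 : D = 0 := by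
    rcases lt_trichotomy D 0 with hneg | h0 | hpos
    · exfalso
      -- `Y = π1 * (π1 ^ (-D-1) * ut)`
      apply hρY
      have hn : ((-D - 1).toNat : ℤ) = -D - 1 := Int.toNat_of_nonneg (by omega)
      refine g2e_rho_mul_eq_zero S ρ hπ hρπ
        (S.mul_mem (S.pow_mem hπ (-D - 1).toNat) hut) hYS ?_
      have h1 : π1 * π1 ^ (-D - 1).toNat * π1 ^ D = 1 := by
        rw [← zpow_natCast π1 (-D - 1).toNat, hn, ← zpow_one_add₀ hπ0, ← zpow_add₀ hπ0]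
        have : 1 + (-D - 1) + D = 0 := by ring
        rw [this, zpow_zero]
      calc Y = (π1 * π1 ^ (-D - 1).toNat * π1 ^ D) * Y := by rw [h1, one_mul]
        _ = π1 * (π1 ^ (-D - 1).toNat * (π1 ^ D * Y)) := by ring
        _ = π1 * (π1 ^ (-D - 1).toNat * ut) := by rw [← hut_eq]
    · exact h0
    · exfalso
      apply hρu
      have hn : ((D - 1).toNat : ℤ) = D - 1 := Int.toNat_of_nonneg (by omega)
      refine g2e_rho_mul_eq_zero S ρ hπ hρπ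
        (S.mul_mem (S.pow_mem hπ (D - 1).toNat) hYS) hut ?_
      have h1 : π1 ^ D = π1 * π1 ^ (D - 1).toNat := by
        rw [← zpow_natCast π1 (D - 1).toNat, hn, ← zpow_one_add₀ hπ0]
        congr 1
        ring
      rw [hut_eq, h1, mul_assoc]
  refine ⟨hD0, M1, hM1, ?_⟩
  rw [hut_eq, hD0, zpow_zero, one_mul, hY]

/-- integral powers in a set closed under products and inverses -/
theorem g2e_zpow_mem_set (U : Set E) (hU0 : ∀ b ∈ U, b ≠ 0)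
    (hUmul : ∀ b ∈ U, ∀ b' ∈ U, b * b' ∈ U) (hUinv : ∀ b ∈ U, b⁻¹ ∈ U) {a : E} (ha : a ∈ U)
    (k : ℤ) : a ^ k ∈ U := by
  have h1 : (1 : E) ∈ U := by
    have := hUmul a ha a⁻¹ (hUinv a ha)
    rwa [mul_inv_cancel₀ (hU0 a ha)] at this
  have hpow : ∀ (x : E), x ∈ U → ∀ n : ℕ, x ^ n ∈ U := by
    intro x hx n
    induction n with
    | zero => rw [pow_zero]; exact h1
    | succ m ih => rw [pow_succ]; exact hUmul _ ih _ hx
  rcases Int.eq_nat_or_neg k with ⟨n, rfl | rfl⟩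
  · rw [zpow_natCast]
    exact hpow a ha n
  · rw [zpow_neg, zpow_natCast, ← inv_pow]
    exact hpow _ (hUinv a ha) n

/-- **(G2e), algebraic core.**  `S` a subring of `E` with a ring homomorphism `ρ : S → T ≠ 0`
killing `π1`; `S_F ⊆ S` a subring containing `π1`, `θ ^ ± 1`; `π1 ^ p = ϖ θ`, `θ ≡ a (mod π1)`;
`U_K ⊆ U_F ⊆ S_F^×` and `U_E ⊆ S^×` the units of the base rings over `K0`, `F0`, `E0`.
If `ũ ∈ U_E` is `e · u · h ^ p` with `e = ∑ ae_i π1 ^ i` (`ae_i ∈ K0`), `u = ∑ au_i π1 ^ i`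
(`au_i ∈ F0`), `h = ∑ ah_i π1 ^ i` (`ah_i ∈ E0`), then
`u = π1 ^ d θ ^ j (b_u + π1 m_u)` with `b_u ∈ U_F`, `m_u ∈ S_F`, and
`ũ = c₀ · (b_u · b_h ^ p) + π1 M` with `c₀ ∈ U_K`, `b_h ∈ U_E`, `M ∈ S`. -/
theorem g2e_transfer (S SF : Subring E) (hSF : SF ≤ S) {T : Type*} [CommRing T] [Nontrivial T]
    (ρ : S →+* T) (π1 θ ϖ a : E) (p : ℕ) (hπ : π1 ∈ SF) (hρπ : ρ ⟨π1, hSF hπ⟩ = 0)
    (hθ : θ ∈ SF) (hθ' : θ⁻¹ ∈ SF) (hθ0 : θ ≠ 0) (hϖ0 : ϖ ≠ 0) (hϖ : π1 ^ p = ϖ * θ)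
    (UE UF UK : Set E)
    (hUE : ∀ b ∈ UE, b ∈ S ∧ b⁻¹ ∈ S ∧ b ≠ 0)
    (hUF : ∀ b ∈ UF, b ∈ SF ∧ b⁻¹ ∈ SF ∧ b ≠ 0)
    (hUK : ∀ b ∈ UK, b ∈ SF ∧ b⁻¹ ∈ SF ∧ b ≠ 0)
    (hUKmul : ∀ b ∈ UK, ∀ b' ∈ UK, b * b' ∈ UK) (hUKinv : ∀ b ∈ UK, b⁻¹ ∈ UK)
    (haK : a ∈ UK) (hθa : ∃ m ∈ SF, θ = a + π1 * m)
    (ae au ah : Fin p → E)
    (hae : ∀ i, ae i = 0 ∨ ∃ n : ℤ, ∃ b ∈ UK, ae i = ϖ ^ n * b)
    (hau : ∀ i, au i = 0 ∨ ∃ n : ℤ, ∃ b ∈ UF, au i = ϖ ^ n * b)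
    (hah : ∀ i, ah i = 0 ∨ ∃ n : ℤ, ∃ b ∈ UE, ah i = ϖ ^ n * b)
    (ut : E) (hut : ut ∈ UE)
    (hrel : ut = (∑ i, ae i * π1 ^ (i : ℕ)) * (∑ i, au i * π1 ^ (i : ℕ)) *
      (∑ i, ah i * π1 ^ (i : ℕ)) ^ p) :
    ∃ (d j : ℤ) (bu mu c₀ bh M : E), bu ∈ UF ∧ mu ∈ SF ∧ c₀ ∈ UK ∧ bh ∈ UE ∧ M ∈ S ∧
      (∑ i, au i * π1 ^ (i : ℕ)) = π1 ^ d * θ ^ j * (bu + π1 * mu) ∧
      ut = c₀ * (bu * bh ^ p) + π1 * M := by
  obtain ⟨hutS, hutS', hut0⟩ := hUE ut hut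
  -- the three sums are not zero
  have hprod := hut0
  rw [hrel] at hprod
  have hh0' : (∑ i, ah i * π1 ^ (i : ℕ)) ^ p ≠ 0 := right_ne_zero_of_mul hprod
  have heu0 := left_ne_zero_of_mul hprod
  have he0 : (∑ i, ae i * π1 ^ (i : ℕ)) ≠ 0 := left_ne_zero_of_mul heu0
  have hu0 : (∑ i, au i * π1 ^ (i : ℕ)) ≠ 0 := right_ne_zero_of_mul heu0
  have hex : ∀ c : Fin p → E, (∑ i, c i * π1 ^ (i : ℕ)) ≠ 0 → ∃ i, c i ≠ 0 := by
    intro c hc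
    by_contra hcon
    simp only [not_exists, not_not] at hcon
    exact hc (Finset.sum_eq_zero fun i _ => by rw [hcon i, zero_mul])
  have hp0 : p ≠ 0 := by
    obtain ⟨i, -⟩ := hex ae he0
    exact fun h => by subst h; exact i.elim0
  have hh0 : (∑ i, ah i * π1 ^ (i : ℕ)) ≠ 0 := fun h => hh0' (by rw [h, zero_pow hp0])
  have hπ0 : π1 ≠ 0 := by
    intro h0
    rw [h0, zero_pow hp0] at hϖ
    exact mul_ne_zero hϖ0 hθ0 hϖ.symm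
  -- normal forms
  obtain ⟨de, je, be, me, hbe, hme, hE⟩ := g2e_normal_form SF π1 θ ϖ p hπ hθ hθ' hθ0 hϖ0 hϖ
    UK (fun b hb => (hUK b hb).1) ae hae (hex ae he0)
  obtain ⟨du, ju, bu, mu, hbu, hmu, hU⟩ := g2e_normal_form SF π1 θ ϖ p hπ hθ hθ' hθ0 hϖ0 hϖ
    UF (fun b hb => (hUF b hb).1) au hau (hex au hu0)
  obtain ⟨dh, jh, bh, mh, hbh, hmh, hH⟩ := g2e_normal_form S π1 θ ϖ p (hSF hπ) (hSF hθ)
    (hSF hθ') hθ0 hϖ0 hϖ UE (fun b hb => (hUE b hb).1) ah hah (hex ah hh0)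
  obtain ⟨mθ, hmθ, hθm⟩ := hθa
  obtain ⟨-, M, hM, hfin⟩ := g2e_main S ρ π1 θ a (hSF hπ) hρπ hπ0 (hSF hθ) (hSF hθ') hθ0
    (hSF (hUK a haK).1) (hSF (hUK a haK).2.1) (hUK a haK).2.2 ⟨mθ, hSF hmθ, hθm⟩ p ut _ _ _
    hutS hutS' hut0 hrel de je du ju dh jh be bu bh me mu mh
    (hSF (hUK be hbe).1) (hSF (hUK be hbe).2.1) (hUK be hbe).2.2
    (hSF (hUF bu hbu).1) (hSF (hUF bu hbu).2.1) (hUF bu hbu).2.2
    (hUE bh hbh).1 (hUE bh hbh).2.1 (hUE bh hbh).2.2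
    (hSF hme) (hSF hmu) hmh hE hU hH
  refine ⟨du, ju, bu, mu, a ^ (je + ju + p * jh) * be, bh, M, hbu, hmu, ?_, hbh, hM, hU, ?_⟩
  · exact hUKmul _ (g2e_zpow_mem_set UK (fun b hb => (hUK b hb).2.2) hUKmul hUKinv haK _) _ hbe
  · rw [hfin]
    ring

end EisExt



end Fermat.Agent.S40lib
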