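import Mathlib
import Fermat.Agent.S36lib.Speed
import Fermat.Agent.S40lib.EisExt

/-!
# Item 88 (S40), block (J-WILD), piece (G2e), second file: the Chevalley step and the final
congruence in the residue field of the branch ring

(helper24.)  `D ⊆ E` is the branch ring of the `K0`-form (`O_0 = L_(x)`, a local subring of the
field `E = EY`), `ϖ ∈ 𝔪_D`, `π1 ^ p = ϖ θ`, `θ = a + π1 mθ`, `a ∈ D^×`, `π1`, `mθ` integral
over `D`.

* `g2e_exists_rho` : (Chevalley, `LocalSubring.exists_le_valuationSubring`) there is a subring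
  `S ⊇ D` of `E` (a valuation ring dominating `D`) with a ring homomorphism `ρ` to a field,
  `ρ π1 = 0`, `θ ^ ± 1 ∈ S`, containing every element integral over `D`, and such that every
  element of `D` killed by `ρ` is in `𝔪_D`;
* `g2e_congr` : with `red0 : D → κ` killing `𝔪_D` and an order function `w` on `κ`, trivial on
  the constants `U_K`:  `ũ = e · u · h ^ p` (coordinates in the basis `π1 ^ i` over `K0`, `F0`,
  `E0`) ⇒ `u = π1 ^ d θ ^ j (b_u + π1 m_u)`, `b_u ∈ U_F`, and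
  `w (red0 ũ) ≡ w (red0 b_u)  (mod p)`.

Mathlib + `EisExt.lean` only.
-/

set_option autoImplicit false
set_option linter.unusedVariables false
set_option linter.style.haveILetI false

namespace Fermat.Agent.S40lib

open IsLocalRing

section Chevalley

universe u

variable {E : Type u} [Field E]

/-- **the Chevalley step**: a valuation ring of `E` dominating the local subring `D`, with its
residue map. -/
theorem g2e_exists_rho (D : Subring E) [IsLocalRing D] (π1 θ ϖ a mθ : E) (p : ℕ)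
    (hϖD : ϖ ∈ D) (hϖm : (⟨ϖ, hϖD⟩ : D) ∈ maximalIdeal D)
    (hϖθ : π1 ^ p = ϖ * θ) (ha : a ∈ D) (ha' : a⁻¹ ∈ D) (ha0 : a ≠ 0)
    (hθ : θ = a + π1 * mθ) (hπint : IsIntegral D π1) (hmint : IsIntegral D mθ) :
    ∃ (S : Subring E) (T : Type u) (_ : Field T) (ρ : S →+* T) (hπ : π1 ∈ S),
      D ≤ S ∧ ρ ⟨π1, hπ⟩ = 0 ∧ θ ∈ S ∧ θ⁻¹ ∈ S ∧ (∀ z : E, IsIntegral D z → z ∈ S) ∧
      (∀ z (hz : z ∈ D) (hzS : z ∈ S), ρ ⟨z, hzS⟩ = 0 → (⟨z, hz⟩ : D) ∈ maximalIdeal D) := by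
  classical
  obtain ⟨V, hle, hloc⟩ := (LocalSubring.mk D).exists_le_valuationSubring
  set S : Subring E := V.toLocalSubring.toSubring with hS
  have hDS : D ≤ S := hle
  haveI : IsIntegrallyClosedIn V.toSubring E := inferInstanceAs (IsIntegrallyClosedIn V E)
  have hint : ∀ z : E, IsIntegral D z → z ∈ S := by
    intro z hz
    have h1 : (integralClosure D E).toSubring ≤ V.toSubring :=
      Subring.integralClosure_subring_le_iff.mpr hle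
    exact h1 hz
  have hπ : π1 ∈ S := hint π1 hπint
  have hm : mθ ∈ S := hint mθ hmint
  have haS : a ∈ S := hDS ha
  have haS' : a⁻¹ ∈ S := hDS ha'
  have hθS : θ ∈ S := by
    rw [hθ]
    exact S.add_mem haS (S.mul_mem hπ hm)
  -- units of `S` among elements of `D`
  have hunit : ∀ z (hz : z ∈ D), IsUnit (⟨z, hDS hz⟩ : S) → IsUnit (⟨z, hz⟩ : D) := by
    intro z hz hu
    exact hloc.map_nonunit ⟨z, hz⟩ hu
  -- `π1` is not a unit of `S`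
  have hπnu : ¬ IsUnit (⟨π1, hπ⟩ : S) := by
    intro hu
    have h1 : IsUnit ((⟨π1, hπ⟩ : S) ^ p) := hu.pow p
    have h2 : (⟨π1, hπ⟩ : S) ^ p = ⟨ϖ, hDS hϖD⟩ * ⟨θ, hθS⟩ := Subtype.ext hϖθ
    rw [h2] at h1
    have h3 : IsUnit (⟨ϖ, hDS hϖD⟩ : S) := isUnit_of_mul_isUnit_left h1
    exact (mem_maximalIdeal _).1 hϖm (hunit ϖ hϖD h3)
  have hπm : (⟨π1, hπ⟩ : S) ∈ maximalIdeal S := (mem_maximalIdeal _).2 hπnu
  -- `θ` is a unit of `S`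
  have hθu : IsUnit (⟨θ, hθS⟩ : S) := by
    by_contra hnu
    have hθm : (⟨θ, hθS⟩ : S) ∈ maximalIdeal S := (mem_maximalIdeal _).2 hnu
    have h1 : (⟨a, haS⟩ : S) = ⟨θ, hθS⟩ - ⟨π1, hπ⟩ * ⟨mθ, hm⟩ := by
      apply Subtype.ext
      show a = θ - π1 * mθ
      rw [hθ]; ring
    have h2 : (⟨a, haS⟩ : S) ∈ maximalIdeal S := by
      rw [h1]
      exact Ideal.sub_mem _ hθm (Ideal.mul_mem_right _ _ hπm)
    have h3 : IsUnit (⟨a, haS⟩ : S) :=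
      IsUnit.of_mul_eq_one (⟨a⁻¹, haS'⟩ : S) (Subtype.ext (mul_inv_cancel₀ ha0))
    exact (mem_maximalIdeal _).1 h2 h3
  have hθS' : θ⁻¹ ∈ S := by
    obtain ⟨v, hv⟩ := hθu
    have h1 : θ * ((v⁻¹ : Sˣ) : S) = 1 := by
      have := congrArg (fun t : S => (t : E)) v.mul_inv
      simp only [Subring.coe_mul, Subring.coe_one] at this
      rw [hv] at this
      exact this
    have h2 : θ⁻¹ = (((v⁻¹ : Sˣ) : S) : E) := inv_eq_of_mul_eq_one_right h1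
    rw [h2]
    exact ((v⁻¹ : Sˣ) : S).2
  refine ⟨S, ResidueField S, inferInstance, residue S, hπ, hDS, ?_, hθS, hθS', hint, ?_⟩
  · exact (residue_eq_zero_iff _).2 hπm
  · intro z hz hzS h0
    rw [mem_maximalIdeal, mem_nonunits_iff]
    intro hu
    have h1 : IsUnit (⟨z, hzS⟩ : S) := by
      obtain ⟨v, hv⟩ := hu
      refine IsUnit.of_mul_eq_one (⟨((v⁻¹ : Dˣ) : D), hDS ((v⁻¹ : Dˣ) : D).2⟩ : S) ?_
      apply Subtype.ext
      have := congrArg (fun t : D => (t : E)) v.mul_inv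
      simp only [Subring.coe_mul, Subring.coe_one] at this
      rw [hv] at this
      exact this
    exact (mem_maximalIdeal _).1 ((residue_eq_zero_iff _).1 h0) h1

end Chevalley

section Congr

universe u

variable {E : Type u} [Field E]

theorem g2e_w_pow {κ : Type*} [Field κ] (w : κ → ℤ)
    (hw : ∀ x y : κ, x ≠ 0 → y ≠ 0 → w (x * y) = w x + w y) {x : κ} (hx : x ≠ 0) (n : ℕ) :
    w (x ^ n) = n * w x := by
  have h1 : w 1 = 0 := by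
    have h := hw 1 1 one_ne_zero one_ne_zero
    rw [mul_one] at h
    linarith
  induction n with
  | zero => simp [h1]
  | succ k ih =>
    rw [pow_succ, hw _ _ (pow_ne_zero _ hx) hx, ih]
    push_cast
    ring

/-- **(G2e), the final congruence.**  `D` the branch ring (local subring of `E`), `D_F ⊆ D` the
`X`-side branch ring, `red0 : D → κ` killing `𝔪_D`, `w` an order function on `κ` trivial on the
constant units `U_K`; `π1 ^ p = ϖ θ`, `θ = a + π1 mθ`.  If `ũ ∈ D^×` is `e · u · h ^ p` with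
`e`, `u`, `h` given by coordinates in the basis `π1 ^ i` (coefficients `0` or `ϖ ^ n · unit`,
units in `U_K`, `U_F`, `D^×`), then `u = π1 ^ d θ ^ j (b_u + π1 m_u)` with `b_u ∈ U_F`,
`m_u ∈ D_F[π1, θ ^ ± 1, mθ]`, and `w (red0 ũ) ≡ w (red0 b_u)  (mod p)`. -/
theorem g2e_congr (D DF : Subring E) [IsLocalRing D] (hDF : DF ≤ D)
    {κ : Type*} [Field κ] (red0 : D →+* κ) (hred0 : ∀ z ∈ maximalIdeal D, red0 z = 0)
    (w : κ → ℤ) (hw : ∀ x y : κ, x ≠ 0 → y ≠ 0 → w (x * y) = w x + w y)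
    (π1 θ ϖ a mθ : E) (p : ℕ)
    (hϖD : ϖ ∈ D) (hϖm : (⟨ϖ, hϖD⟩ : D) ∈ maximalIdeal D) (hϖ0 : ϖ ≠ 0)
    (hϖθ : π1 ^ p = ϖ * θ) (hθ0 : θ ≠ 0) (hθ : θ = a + π1 * mθ)
    (hπint : IsIntegral D π1) (hmint : IsIntegral D mθ)
    (UF UK : Set E)
    (hUF : ∀ b ∈ UF, b ∈ DF ∧ b⁻¹ ∈ DF ∧ b ≠ 0)
    (hUK : ∀ b ∈ UK, b ∈ DF ∧ b⁻¹ ∈ DF ∧ b ≠ 0)
    (hUKmul : ∀ b ∈ UK, ∀ b' ∈ UK, b * b' ∈ UK) (hUKinv : ∀ b ∈ UK, b⁻¹ ∈ UK)
    (haK : a ∈ UK)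
    (hwK : ∀ c (hc : c ∈ UK), w (red0 ⟨c, hDF (hUK c hc).1⟩) = 0)
    (ae au ah : Fin p → E)
    (hae : ∀ i, ae i = 0 ∨ ∃ n : ℤ, ∃ b ∈ UK, ae i = ϖ ^ n * b)
    (hau : ∀ i, au i = 0 ∨ ∃ n : ℤ, ∃ b ∈ UF, au i = ϖ ^ n * b)
    (hah : ∀ i, ah i = 0 ∨
      ∃ n : ℤ, ∃ b ∈ {b : E | b ∈ D ∧ b⁻¹ ∈ D ∧ b ≠ 0}, ah i = ϖ ^ n * b)
    (ut : E) (hut : ut ∈ D) (hut' : ut⁻¹ ∈ D) (hut0 : ut ≠ 0)
    (hrel : ut = (∑ i, ae i * π1 ^ (i : ℕ)) * (∑ i, au i * π1 ^ (i : ℕ)) *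
      (∑ i, ah i * π1 ^ (i : ℕ)) ^ p) :
    ∃ (d j : ℤ) (bu mu : E) (hbu : bu ∈ UF),
      mu ∈ Subring.closure ((DF : Set E) ∪ {π1, θ, θ⁻¹, mθ}) ∧
      (∑ i, au i * π1 ^ (i : ℕ)) = π1 ^ d * θ ^ j * (bu + π1 * mu) ∧
      (p : ℤ) ∣ w (red0 ⟨ut, hut⟩) - w (red0 ⟨bu, hDF (hUF bu hbu).1⟩) := by
  classical
  obtain ⟨haDF, haDF', ha0⟩ := hUK a haK
  obtain ⟨S, T, _, ρ, hπ, hDS, hρπ, hθS, hθS', hint, hker⟩ :=
    g2e_exists_rho D π1 θ ϖ a mθ p hϖD hϖm hϖθ (hDF haDF) (hDF haDF') ha0 hθ hπint hmint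
  set SF : Subring E := Subring.closure ((DF : Set E) ∪ {π1, θ, θ⁻¹, mθ}) with hSFdef
  have hSF : SF ≤ S := by
    refine Subring.closure_le.2 ?_
    rintro z (hz | hz | hz | hz | hz)
    · exact hDS (hDF hz)
    · rw [hz]; exact hπ
    · rw [hz]; exact hθS
    · rw [hz]; exact hθS'
    · rw [Set.mem_singleton_iff] at hz
      rw [hz]; exact hint mθ hmint
  have hDFSF : ∀ z ∈ DF, z ∈ SF := fun z hz => Subring.subset_closure (Or.inl hz)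
  have hπF : π1 ∈ SF := Subring.subset_closure (Or.inr (by simp))
  have hθF : θ ∈ SF := Subring.subset_closure (Or.inr (by simp))
  have hθF' : θ⁻¹ ∈ SF := Subring.subset_closure (Or.inr (by simp))
  have hmF : mθ ∈ SF := Subring.subset_closure (Or.inr (by simp))
  obtain ⟨d, j, bu, mu, c₀, bh, M, hbu, hmu, hc₀, hbh, hM, hU, hfin⟩ :=
    g2e_transfer S SF hSF ρ π1 θ ϖ a p hπF hρπ hθF hθF' hθ0 hϖ0 hϖθ
      {b : E | b ∈ D ∧ b⁻¹ ∈ D ∧ b ≠ 0} UF UK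
      (fun b hb => ⟨hDS hb.1, hDS hb.2.1, hb.2.2⟩)
      (fun b hb => ⟨hDFSF b (hUF b hb).1, hDFSF _ (hUF b hb).2.1, (hUF b hb).2.2⟩)
      (fun b hb => ⟨hDFSF b (hUK b hb).1, hDFSF _ (hUK b hb).2.1, (hUK b hb).2.2⟩)
      hUKmul hUKinv haK ⟨mθ, hmF, hθ⟩ ae au ah hae hau hah ut ⟨hut, hut', hut0⟩ hrel
  refine ⟨d, j, bu, mu, hbu, hmu, hU, ?_⟩
  -- the residues
  obtain ⟨hcD, hcD', hc0⟩ := hUK c₀ hc₀
  obtain ⟨hbD, hbD', hb0⟩ := hUF bu hbu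
  obtain ⟨hhD, hhD', hh0⟩ := hbh
  have hprodD : c₀ * (bu * bh ^ p) ∈ D :=
    D.mul_mem (hDF hcD) (D.mul_mem (hDF hbD) (D.pow_mem hhD p))
  have hzD : ut - c₀ * (bu * bh ^ p) ∈ D := D.sub_mem hut hprodD
  have hzeq : ut - c₀ * (bu * bh ^ p) = π1 * M := by rw [hfin]; ring
  have hzS : ut - c₀ * (bu * bh ^ p) ∈ S := hDS hzD
  have hρz : ρ ⟨_, hzS⟩ = 0 := g2e_rho_mul_eq_zero S ρ hπ hρπ hM hzS hzeq
  have hzm := hker _ hzD hzS hρz
  have hred := hred0 _ hzm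
  have hsplit : (⟨ut, hut⟩ : D) = ⟨ut - c₀ * (bu * bh ^ p), hzD⟩ +
      ⟨c₀, hDF hcD⟩ * (⟨bu, hDF hbD⟩ * ⟨bh, hhD⟩ ^ p) := by
    apply Subtype.ext
    show ut = ut - c₀ * (bu * bh ^ p) + c₀ * (bu * bh ^ p)
    ring
  have hunit : ∀ (b : E) (hb : b ∈ D), b⁻¹ ∈ D → b ≠ 0 → red0 ⟨b, hb⟩ ≠ 0 := by
    intro b hb hb' hb0 h0
    have h1 : (⟨b, hb⟩ : D) * ⟨b⁻¹, hb'⟩ = 1 := Subtype.ext (mul_inv_cancel₀ hb0)
    have h2 := congrArg red0 h1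
    rw [map_mul, h0, zero_mul, map_one] at h2
    exact zero_ne_one h2
  have hrc := hunit c₀ (hDF hcD) (hDF hcD') hc0
  have hrb := hunit bu (hDF hbD) (hDF hbD') hb0
  have hrh := hunit bh hhD hhD' hh0
  rw [hsplit, map_add, hred, zero_add, map_mul, map_mul, map_pow,
    hw _ _ hrc (mul_ne_zero hrb (pow_ne_zero _ hrh)), hw _ _ hrb (pow_ne_zero _ hrh),
    g2e_w_pow w hw hrh, hwK c₀ hc₀]
  exact ⟨w (red0 ⟨bh, hhD⟩), by ring⟩

end Congr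

end Fermat.Agent.S40lib
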