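import Mathlib
import Fermat.Agent.S36lib.Speed
import Fermat.Agent.HeckeBar.ModDeg
import Fermat.Agent.HeckeBar.NormCompat
import Fermat.Agent.LatE.Defs

/-!
# Item 88 (row 38), gap (iii) of the J-TAME / J-WILD assembly (helper4): the Hecke norm commutes
# with the level inclusion

For `N ∣ N₁` and a prime `ℓ ∤ N₁`:

* `hpl_pair_injective` : the expansions at the cusps of the PAIR `(j(q^a), j(q^b))`, `a`, `b`
  coprime, `M ∣ a b`, are pairwise distinct;
* `hpl_adjoin_pair`    : `F_M = ℚ̄(j, j(q^a) + c j(q^b))` for a suitable constant `c`;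
* `hpl_adjoin_range`   : `F_{N₁ ℓ}` is generated over `F_{N₁}` by `F_{N ℓ}` (compositum);
* `hpl_normCompat`     : `N_{F_{N₁ℓ}/F_{N₁}} (y) = N_{F_{Nℓ}/F_N} (y)` for `y ∈ F_{Nℓ}`;
* `hpl_normBeta_incl`  : `normBeta N₁ ℓ (incl u) = incl (normBeta N ℓ u)`.
-/

set_option autoImplicit false
set_option linter.style.haveILetI false
set_option linter.unusedSectionVars false
set_option linter.unusedVariables false

noncomputable section

namespace Fermat.Agent.S40lib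

open scoped MatrixGroups
open AlgebraicCurve IntermediateField CongruenceSubgroup ModularCurve UpperHalfPlane Polynomial
open Fermat.Agent.S24lib Fermat.Agent.HeckeBar Fermat.Agent.LatE

section Generic

/-- a generic linear combination of two families with pairwise distinct pairs is injective -/
theorem hpl_exists_injective {I K L : Type*} [Finite I] [Field K] [Infinite K] [Field L]
    (φ : K →+* L) (A B : I → L)
    (hAB : ∀ i i', A i = A i' → B i = B i' → i = i') :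
    ∃ c : K, Function.Injective (fun i => A i + φ c * B i) := by
  classical
  by_contra hcon
  push_neg at hcon
  have h1 : ∀ c : K, ∃ p : I × I, p.1 ≠ p.2 ∧ A p.1 + φ c * B p.1 = A p.2 + φ c * B p.2 := by
    intro c
    have := hcon c
    rw [Function.Injective] at this
    push_neg at this
    obtain ⟨i, i', h, hne⟩ := this
    exact ⟨(i, i'), hne, h⟩
  choose f hf using h1
  have hinj : Function.Injective f := by
    intro c₁ c₂ h12
    by_contra hc
    obtain ⟨hne, e₁⟩ := hf c₁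
    obtain ⟨-, e₂⟩ := hf c₂
    rw [← h12] at e₂
    have hφ : φ c₁ - φ c₂ ≠ 0 := by
      rw [sub_ne_zero]
      exact fun h => hc (φ.injective h)
    have e₃ : (φ c₁ - φ c₂) * (B (f c₁).1 - B (f c₁).2) = 0 := by
      linear_combination e₁ - e₂
    have hB : B (f c₁).1 = B (f c₁).2 := by
      rcases mul_eq_zero.mp e₃ with h | h
      · exact absurd h hφ
      · exact sub_eq_zero.mp h
    have hA : A (f c₁).1 = A (f c₁).2 := by
      rw [hB] at e₁
      exact add_right_cancel e₁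
    exact hne (hAB _ _ hA hB)
  exact not_injective_infinite_finite f hinj

end Generic

section Pairs

variable (M : ℕ) [NeZero M]

/-- equal expansions of `j(q^d)` at two cusps: the cosets agree modulo `Γ₀(d)` -/
theorem hpl_mem_gamma0 (d : ℕ) [NeZero d] (hd : d ∣ M) (q q' : SL(2, ℤ) ⧸ Gamma0 M)
    (h : σInf M q (jdF M d hd) = σInf M q' (jdF M d hd)) :
    q.out⁻¹ * q'.out ∈ Gamma0 d := by
  simp only [σInf, embF_jdF, twist_apply] at h
  have h2 : q.out • jdWH M d hd = q'.out • jdWH M d hd := expInf_injective M h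
  apply jN_comp_inv_injective
  intro z
  have h3 := congrArg (fun φ : WH M => (φ : ℍ → ℂ) z) h2
  simp only [wh_smul_apply] at h3
  have e1 : ((jdWH M d hd : WH M) : ℍ → ℂ) = jdH d := rfl
  rw [e1, jdH_eq_jFun, jdH_eq_jFun] at h3
  exact h3

/-- the expansions of the pair `(j(q^a), j(q^b))` are pairwise distinct -/
theorem hpl_pair_injective (a b : ℕ) [NeZero a] [NeZero b] (hab : Nat.Coprime a b)
    (ha : a ∣ M) (hb : b ∣ M) (hM : M ∣ a * b) (q q' : SL(2, ℤ) ⧸ Gamma0 M)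
    (h1 : σInf M q (jdF M a ha) = σInf M q' (jdF M a ha))
    (h2 : σInf M q (jdF M b hb) = σInf M q' (jdF M b hb)) : q = q' := by
  have g1 := hpl_mem_gamma0 M a ha q q' h1
  have g2 := hpl_mem_gamma0 M b hb q q' h2
  have g3 : q.out⁻¹ * q'.out ∈ Gamma0 M := by
    rw [Gamma0_mem] at g1 g2 ⊢
    rw [ZMod.intCast_zmod_eq_zero_iff_dvd] at g1 g2 ⊢
    have h3 : ((a : ℤ) * (b : ℤ)) ∣ (q.out⁻¹ * q'.out : SL(2, ℤ)) 1 0 :=
      IsCoprime.mul_dvd (Nat.isCoprime_iff_coprime.mpr hab) g1 g2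
    have h4 : ((M : ℕ) : ℤ) ∣ (a : ℤ) * (b : ℤ) := by
      exact_mod_cast hM
    exact h4.trans h3
  rw [← QuotientGroup.eq, QuotientGroup.out_eq', QuotientGroup.out_eq'] at g3
  exact g3

/-- `F_M = ℚ̄(j⁻¹, j(q^a) + c j(q^b))` for a suitable constant `c` -/
theorem hpl_adjoin_pair (a b : ℕ) [NeZero a] [NeZero b] (hab : Nat.Coprime a b)
    (ha : a ∣ M) (hb : b ∣ M) (hM : M ∣ a * b) :
    ∃ c : Kbar, IntermediateField.adjoin Kbar
      {(jF M)⁻¹, jdF M a ha + algebraMap Kbar (FF M) c * jdF M b hb} = ⊤ := by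
  letI : Algebra Kbar ℂ := ιC.toAlgebra
  let φ : Kbar →+* LaurentSeries ℂ := (HahnSeries.C : ℂ →+* LaurentSeries ℂ).comp ιC
  obtain ⟨c, hc⟩ := hpl_exists_injective (I := SL(2, ℤ) ⧸ Gamma0 M) φ
    (fun q => σInf M q (jdF M a ha)) (fun q => σInf M q (jdF M b hb))
    (fun q q' h1 h2 => hpl_pair_injective M a b hab ha hb hM q q' h1 h2)
  refine ⟨c, ?_⟩
  have e : ∀ q : SL(2, ℤ) ⧸ Gamma0 M,
      (fiberInf M).σ q (jdF M a ha + algebraMap Kbar (FF M) c * jdF M b hb)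
        = σInf M q (jdF M a ha) + φ c * σInf M q (jdF M b hb) := by
    intro q
    rw [map_add, map_mul, (fiberInf M).map_const]
    rfl
  apply fiberData_adjoin_eq_top (fiberInf M) _ ?_
  intro q q' h
  apply hc
  simp only at h ⊢
  rw [e, e] at h
  exact h

end Pairs

section Square

variable (N N₁ ℓ : ℕ) [NeZero N] [NeZero N₁] [NeZero ℓ] [NeZero (N * ℓ)] [NeZero (N₁ * ℓ)]

/-- `F_{N₁ ℓ}` is generated over `F_{N₁}` by `F_{N ℓ}`, for `N ∣ N₁` and `ℓ` prime to `N₁` -/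
theorem hpl_adjoin_range (h : N ∣ N₁) (hcop : Nat.Coprime N₁ ℓ) :
    letI := algebraAlong (inclBar N₁ (N₁ * ℓ) (dvd_mul_right N₁ ℓ))
    Algebra.adjoin (FF N₁)
      (Set.range (inclBar (N * ℓ) (N₁ * ℓ) (Nat.mul_dvd_mul_right h ℓ))) = ⊤ := by
  letI := algebraAlong (inclBar N₁ (N₁ * ℓ) (dvd_mul_right N₁ ℓ))
  haveI : IsScalarTower Kbar (FF N₁) (FF (N₁ * ℓ)) :=
    isScalarTower_along (inclBar N₁ (N₁ * ℓ) (dvd_mul_right N₁ ℓ))
  haveI : Module.Finite (FF N₁) (FF (N₁ * ℓ)) :=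
    finiteAlong_inclBar N₁ (N₁ * ℓ) (dvd_mul_right N₁ ℓ)
  obtain ⟨c, hc⟩ := hpl_adjoin_pair (N₁ * ℓ) N₁ ℓ hcop (dvd_mul_right N₁ ℓ)
    (dvd_mul_left ℓ N₁) dvd_rfl
  rw [← IntermediateField.adjoin_toSubalgebra, ← IntermediateField.top_toSubalgebra]
  congr 1
  rw [← IntermediateField.restrictScalars_eq_top_iff (K := Kbar), eq_top_iff, ← hc,
    IntermediateField.adjoin_le_iff]
  rintro y (rfl | rfl)
  · rw [SetLike.mem_coe, IntermediateField.mem_restrictScalars,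
      ← inclBar_jF N₁ (N₁ * ℓ) (dvd_mul_right N₁ ℓ)]
    exact inv_mem (IntermediateField.algebraMap_mem _ (jF N₁))
  · rw [SetLike.mem_coe, IntermediateField.mem_restrictScalars]
    apply add_mem
    · rw [← inclBar_jdF N₁ (N₁ * ℓ) N₁ (dvd_mul_right N₁ ℓ) dvd_rfl]
      exact IntermediateField.algebraMap_mem _ (jdF N₁ N₁ dvd_rfl)
    · apply mul_mem
      · rw [IsScalarTower.algebraMap_apply Kbar (FF N₁) (FF (N₁ * ℓ))]
        exact IntermediateField.algebraMap_mem _ _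
      · apply IntermediateField.subset_adjoin
        refine ⟨jdF (N * ℓ) ℓ (dvd_mul_left ℓ N), ?_⟩
        rw [inclBar_jdF]

/-- **norm compatibility for the inclusion square** `F_N ⊂ F_{N₁}`, `F_{Nℓ} ⊂ F_{N₁ℓ}`:
`N_{F_{N₁ℓ}/F_{N₁}} (y) = N_{F_{Nℓ}/F_N} (y)` for `y ∈ F_{Nℓ}`. -/
theorem hpl_normCompat (h : N ∣ N₁) (hℓ : ℓ.Prime) (hℓN₁ : ¬ ℓ ∣ N₁) :
    NormCompat (inclBar N N₁ h) (inclBar N (N * ℓ) (dvd_mul_right N ℓ))
      (inclBar N₁ (N₁ * ℓ) (dvd_mul_right N₁ ℓ))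
      (inclBar (N * ℓ) (N₁ * ℓ) (Nat.mul_dvd_mul_right h ℓ)) := by
  have hcop : Nat.Coprime N₁ ℓ :=
    (Nat.coprime_comm.mp ((Nat.Prime.coprime_iff_not_dvd hℓ).mpr hℓN₁))
  refine normCompat_of_adjoin _ _ _ _ ?_ (finiteAlong_inclBar _ _ _)
    (hpl_adjoin_range N N₁ ℓ h hcop) ?_
  · rw [inclBar_comp_inclBar, inclBar_comp_inclBar]
  · rw [finrankAlong_inclBar_prime N₁ hℓ (N₁ * ℓ) rfl, finrankAlong_inclBar_prime N hℓ (N * ℓ) rfl,
      if_neg hℓN₁, if_neg (fun hd => hℓN₁ (hd.trans h))]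

/-- **the Hecke norm commutes with the level inclusion**:
`normBeta N₁ ℓ (incl u) = incl (normBeta N ℓ u)` for `N ∣ N₁`, `ℓ ∤ N₁`. -/
theorem hpl_normBeta_incl (h : N ∣ N₁) (hℓ : ℓ.Prime) (hℓN₁ : ¬ ℓ ∣ N₁) (u : FF N) :
    normBeta N₁ ℓ (inclBar N N₁ h u) = inclBar N N₁ h (normBeta N ℓ u) := by
  have hNC := hpl_normCompat N N₁ ℓ h hℓ hℓN₁ (heckeBetaBar Kbar N ℓ u)
  have e : inclBar (N * ℓ) (N₁ * ℓ) (Nat.mul_dvd_mul_right h ℓ) (heckeBetaBar Kbar N ℓ u)
      = heckeBetaBar Kbar N₁ ℓ (inclBar N N₁ h u) := by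
    apply Subtype.ext
    rw [coe_inclBar, coe_heckeBetaBar, coe_heckeBetaBar, coe_inclBar]
  rw [e] at hNC
  exact hNC

end Square

end Fermat.Agent.S40lib

end
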