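import Mathlib
import Fermat.Agent.S36lib.Speed
import Fermat.Agent.S40lib.HeckePull
import Fermat.Agent.S40lib.EisConc
import Fermat.Agent.S33lib.TorAux
import Fermat.Agent.S33lib.GeoWrap

/-!
# Item 88 (row 38), gap (iii) of the J-TAME / J-WILD assembly, part 2 (helper4): the eigen-relation
# of a torsion class passes to the pulled-back class at a higher level

* `hpl_kummer_class_unique` : a Kummer function determines its class;
* `hpl_pull_kummer`         : `incl u` is a Kummer function of `auxLevelPull x`;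
* `hpl_kummer_rel`          : `T_ℓ x = a • x` at level `N`, `u` a Kummer function of `x`
                              ⇒ `normBeta N₁ ℓ (incl u) = c (incl u) ^ a h ^ p` at level `N₁`
                              (the input `hN` of `eic_wind_inf` / `eis_wind` for the pulled-back class);
* `hpl_heig`                : **gap (iii)**: `T_ℓ x = a • x` at level `N`
                              ⇒ `T_ℓ (auxLevelPull x) = a • auxLevelPull x` at level `N₁`
                              (`N ∣ N₁`, `ℓ ∤ N₁`, `x` with a Kummer function, `p ≠ 0`).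
-/

set_option autoImplicit false
set_option linter.style.haveILetI false
set_option linter.unusedSectionVars false
set_option linter.unusedVariables false

noncomputable section

namespace Fermat.Agent.S40lib

open ModularCurve AlgebraicCurve HahnSeries Fermat.Agent.GoodRed Fermat.Agent.GM
  Fermat.Agent.S24lib Fermat.Agent.HeckeBar Fermat.Agent.S34lib Fermat.Agent.S36lib
  Fermat.Agent.RRlib Fermat.Agent.S33lib Fermat.Agent.LatE Fermat.Agent.S37lib

section Abs

variable {K F : Type*} [Field K] [Field F] [Algebra K F] [RRBase K F]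

/-- a Kummer function determines its class -/
theorem hpl_kummer_class_unique {p : ℕ} (hp : p ≠ 0) {x x' : Pic0 K F} {f : F}
    (h : gdfIsKummer p x f) (h' : gdfIsKummer p x' f) : x = x' := by
  obtain ⟨-, D, hD, hpD⟩ := h
  obtain ⟨-, D', hD', hpD'⟩ := h'
  have e : (D : Divisor K F) = D' := by
    have h1 : p • (D : Divisor K F) = p • (D' : Divisor K F) := by rw [hpD, hpD']
    ext v
    have h2 := congrArg (fun E : Divisor K F => E v) h1
    simp only [Finsupp.smul_apply, nsmul_eq_mul] at h2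
    have hp' : (p : ℤ) ≠ 0 := by exact_mod_cast hp
    exact mul_left_cancel₀ hp' h2
  rw [← hD, ← hD', Subtype.ext e]

end Abs

section Level

variable (N N₁ : ℕ) [NeZero N] [NeZero N₁] [RRBase Kbar (FF N)] [RRBase Kbar (FF N₁)]

/-- the pull-back of a Kummer function is a Kummer function of the pulled-back class -/
theorem hpl_pull_kummer (h : N ∣ N₁) {p : ℕ} {x : JZero N} {u : FF N}
    (hx : gdfIsKummer (K := Kbar) p x u) :
    gdfIsKummer (K := Kbar) p (auxLevelPull N N₁ h x) (inclBar N N₁ h u) := by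
  haveI : HasPrincipalDivisors Kbar (FF N₁) := wir_hasPrincipalDivisors N₁
  obtain ⟨D, hD, hord⟩ := gdf_isKummer_ord hx
  have hιu : inclBar N N₁ h u ≠ 0 := (map_ne_zero _).2 hx.1
  rw [← hD]
  exact gdf_isKummer_of_ord hιu
      (auxPullDegZero (inclBar N N₁ h) (isIntegral_inclBar N N₁ h) (aux_fundId_incl N N₁ h) D)
      (tax_pull_mk N N₁ h D).symm
      (tax_pull_ord N N₁ h p D u hord)

/-- **gap (iii)**: the eigen-relation passes to the pulled-back class. -/
theorem hpl_heig (h : N ∣ N₁) (ℓ : Nat.Primes) (hℓN₁ : ¬ (ℓ : ℕ) ∣ N₁)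
    {p : ℕ} (hp : p ≠ 0) {x : JZero N} {u : FF N} (hx : gdfIsKummer (K := Kbar) p x u) (a : ℤ)
    (heig : heckeOperatorBar N ℓ x = a • x) :
    heckeOperatorBar N₁ ℓ (auxLevelPull N N₁ h x) = a • auxLevelPull N N₁ h x := by
  haveI : NeZero (ℓ : ℕ) := ⟨ℓ.2.ne_zero⟩
  haveI : NeZero (N * (ℓ : ℕ)) := ⟨Nat.mul_ne_zero (NeZero.ne N) (NeZero.ne (ℓ : ℕ))⟩
  haveI : NeZero (N₁ * (ℓ : ℕ)) := ⟨Nat.mul_ne_zero (NeZero.ne N₁) (NeZero.ne (ℓ : ℕ))⟩
  have K1 := hpl_pull_kummer N N₁ h hx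
  have K2 := eic_kummer_hecke N₁ (ℓ : ℕ) K1
  have K3 := eic_kummer_hecke N (ℓ : ℕ) hx
  rw [← heckeOperatorBar_apply, heig] at K3
  have K4 := hpl_pull_kummer N N₁ h K3
  rw [map_zsmul, ← hpl_normBeta_incl N N₁ (ℓ : ℕ) h ℓ.2 hℓN₁ u] at K4
  rw [heckeOperatorBar_apply]
  exact hpl_kummer_class_unique hp K2 K4

/-- the Kummer form of the eigen-relation for the pulled-back class:
`normBeta N₁ ℓ (incl u) = c (incl u) ^ a (incl h) ^ p`. -/
theorem hpl_kummer_rel (h : N ∣ N₁) (ℓ : Nat.Primes) (hℓN₁ : ¬ (ℓ : ℕ) ∣ N₁)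
    {p : ℕ} {x : JZero N} {u : FF N} (hx : gdfIsKummer (K := Kbar) p x u) (a : ℤ)
    (heig : heckeOperatorBar N ℓ x = a • x) :
    haveI : NeZero (ℓ : ℕ) := ⟨ℓ.2.ne_zero⟩
    ∃ (c : Kbar) (w : FF N), c ≠ 0 ∧ w ≠ 0 ∧
      normBeta N₁ ℓ (inclBar N N₁ h u)
        = algebraMap Kbar (FF N₁) c * inclBar N N₁ h u ^ a * inclBar N N₁ h w ^ p := by
  haveI : NeZero (ℓ : ℕ) := ⟨ℓ.2.ne_zero⟩
  haveI : NeZero (N * (ℓ : ℕ)) := ⟨Nat.mul_ne_zero (NeZero.ne N) (NeZero.ne (ℓ : ℕ))⟩
  haveI : NeZero (N₁ * (ℓ : ℕ)) := ⟨Nat.mul_ne_zero (NeZero.ne N₁) (NeZero.ne (ℓ : ℕ))⟩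
  obtain ⟨c, w, hc, hw, hN⟩ := eic_kummer_rel N ℓ hx a heig
  refine ⟨c, w, hc, hw, ?_⟩
  rw [hpl_normBeta_incl N N₁ (ℓ : ℕ) h ℓ.2 hℓN₁ u, hN, map_mul, map_mul, map_zpow₀, map_pow,
    AlgHom.commutes]

end Level

end Fermat.Agent.S40lib

end
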