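import Mathlib
import Fermat.Agent.S36lib.Speed
import Fermat.Agent.S40lib.EisCmp
import Fermat.Agent.S40lib.HeckePull2
import Fermat.Agent.S40lib.Hub
import Fermat.Agent.S33lib.RayCan
import Fermat.Agent.S33lib.GeoWrap

/-!
# Item 88 (S44), piece H1 (helper28): the EISENSTEIN TAIL in hub shape

`etl_wind` : the conclusion of `S44jWildWindNC` / `S44tmwWindNC` (WIND0 off the cusps on both
components at the auxiliary level `M = lcm(M', 4)`) for normalisations `c₁ ũ`, `c₂ ũ` of ANY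
Kummer function `ũ` of the pulled-back class, from

* the eigen-relations at the level `M' p` (`hEig`), the non-Eisenstein prime (`hnE`), guard `2 ∈ S`;
* WINDC in `[SS]`-form for `c₁ ũ` on the component `∞` and `c₂ ũ` on the component `0`
  (the shape of the conclusions of `edc_windc`, `edc_windc_zero`; any `δ₁`, `δ₂`).
All proofs complete.
-/

set_option autoImplicit false
set_option linter.style.haveILetI false
set_option linter.unusedSectionVars false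
set_option linter.unusedVariables false
set_option synthInstance.maxHeartbeats 400000
set_option maxHeartbeats 1000000

noncomputable section

namespace Fermat.Agent.S40lib

open Fermat.Agent.GalRep ModularCurve AlgebraicCurve Fermat.Agent.S31lib Fermat.Agent.S35lib
  Fermat.Agent.S33lib Fermat.Agent.S36lib Fermat.Agent.S24lib Fermat.Agent.S34lib
  Fermat.Agent.RRlib Fermat.Agent.GoodRed Fermat.Agent.S18lib Fermat.Agent.GM
  Fermat.Agent.HeckeBar HahnSeries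

section Tail

variable (M' p : ℕ) [NeZero M'] [NeZero p] [NeZero (M' * p)]

/-- a prime `ℓ ≠ 2` not dividing `M'` does not divide `lcm(M', 4)` -/
theorem etl_not_dvd_lcm {ℓ : ℕ} (hℓ : ℓ.Prime) (hℓ2 : ℓ ≠ 2) (hℓM' : ¬ ℓ ∣ M') :
    ¬ ℓ ∣ Nat.lcm M' 4 := by
  intro h
  have h1 : ℓ ∣ M' * 4 := h.trans (Nat.lcm_dvd_mul M' 4)
  rcases (Nat.Prime.dvd_mul hℓ).mp h1 with h2 | h2
  · exact hℓM' h2
  · have h4 : (4 : ℕ) = 2 ^ 2 := by norm_num
    rw [h4] at h2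
    have h3 := hℓ.dvd_of_dvd_pow h2
    exact hℓ2 ((Nat.prime_dvd_prime_iff_eq hℓ Nat.prime_two).mp h3)

/-- a nonzero constant multiple of a Kummer function is a Kummer function -/
theorem etl_kummer_const {N : ℕ} [NeZero N] [RRBase Kbar (FF N)] {p : ℕ} {x : JZero N}
    {u : FF N} (hx : gdfIsKummer (K := Kbar) p x u) {c : Kbar} (hc : c ≠ 0) :
    gdfIsKummer (K := Kbar) p x (algebraMap Kbar (FF N) c * u) := by
  obtain ⟨D, hD, hord⟩ := gdf_isKummer_ord hx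
  have hcF : algebraMap Kbar (FF N) c ≠ 0 := (map_ne_zero _).2 hc
  refine gdf_isKummer_of_ord (mul_ne_zero hcF hx.1) D hD (fun v => ?_)
  rw [v.ord_mul hcF hx.1, rcn_ord_const v hc, zero_add]
  exact hord v

set_option maxHeartbeats 4000000 in
/-- **THE EISENSTEIN TAIL** (both components, hub shape): WINDC in `[SS]`-form for `c₁ ũ`,
`c₂ ũ` at the auxiliary level  ⇒  WIND0 off the cusps.  `ũ` is ANY Kummer function of the
pulled-back class (no rationality assumption); `p ≥ 5`. -/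
theorem etl_wind (hp : p.Prime) (hp5 : 5 ≤ p)
    (B : ValuationSubring (AlgebraicClosure ℚ)) (hB : B.LiesOverPrime p)
    (S : Finset ℕ) (a : ℕ → ℤ)
    (hS : ∀ ℓ : ℕ, ℓ.Prime → ℓ ∣ M' * p → ℓ ∈ S) (h2S : 2 ∈ S)
    (hnE : ∃ ℓ : Nat.Primes, (ℓ : ℕ) ∉ S ∧ ¬ (p : ℤ) ∣ a ℓ - (1 + (ℓ : ℕ)))
    (x : JZero (M' * p)) (hxp : p • x = 0)
    (hEig : ∀ ℓ : Nat.Primes, (ℓ : ℕ) ∉ S → heckeOperatorBar (M' * p) ℓ x = a ℓ • x)
    (M : ℕ) [NeZero M] [NeZero (M * p)] [RRBase Kbar (FF (M * p))]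
    (haux : IsAuxLevel p M) (hdvd : M' ∣ M)
    (hM : M = Nat.lcm M' (baseLevel p))
    (ux : FF (M * p))
    (hux : gdfIsKummer (K := Kbar) p
      (auxLevelPull (M' * p) (M * p) (Nat.mul_dvd_mul_right hdvd p) x) ux)
    (R : ConstRed B (IsLocalRing.residue B)
      (↥(modularFunctionFieldFullC (IsLocalRing.ResidueField B) M)) (FF (M * p)))
    (hR : IsSeriesRed R) (c₁ c₂ : Kbar)
    (h₁ : EisUnit R (algebraMap Kbar (FF (M * p)) c₁ * ux))
    (h₂ : EisUnit (glmZero M p hp haux.1 R) (algebraMap Kbar (FF (M * p)) c₂ * ux))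
    (δ₁ δ₂ : ℤ)
    (hw₁ : ∀ Q : Place (IsLocalRing.ResidueField B) (Fk (IsLocalRing.ResidueField B) M),
      0 ≤ Q.ord (jk (IsLocalRing.ResidueField B) M) →
      ((∀ z ∈ (nodeSetupNj B M p hp haux.1 hB R hR).pZero,
          (nodeSetupNj B M p hp haux.1 hB R hR).redInf z = 0 ∨
            0 < Q.ord ((nodeSetupNj B M p hp haux.1 hB R hR).redInf z)) →
        (p : ℤ) ∣ Q.ord (R.red ⟨_, h₁.2.1⟩) - δ₁) ∧
      (¬ (∀ z ∈ (nodeSetupNj B M p hp haux.1 hB R hR).pZero,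
          (nodeSetupNj B M p hp haux.1 hB R hR).redInf z = 0 ∨
            0 < Q.ord ((nodeSetupNj B M p hp haux.1 hB R hR).redInf z)) →
        (p : ℤ) ∣ Q.ord (R.red ⟨_, h₁.2.1⟩)))
    (hw₂ : ∀ Q : Place (IsLocalRing.ResidueField B) (Fk (IsLocalRing.ResidueField B) M),
      0 ≤ Q.ord (jk (IsLocalRing.ResidueField B) M) →
      ((∀ z ∈ (nodeSetupNj B M p hp haux.1 hB R hR).pInf,
          (nodeSetupNj B M p hp haux.1 hB R hR).redZero z = 0 ∨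
            0 < Q.ord ((nodeSetupNj B M p hp haux.1 hB R hR).redZero z)) →
        (p : ℤ) ∣ Q.ord ((glmZero M p hp haux.1 R).red ⟨_, h₂.2.1⟩) - δ₂) ∧
      (¬ (∀ z ∈ (nodeSetupNj B M p hp haux.1 hB R hR).pInf,
          (nodeSetupNj B M p hp haux.1 hB R hR).redZero z = 0 ∨
            0 < Q.ord ((nodeSetupNj B M p hp haux.1 hB R hR).redZero z)) →
        (p : ℤ) ∣ Q.ord ((glmZero M p hp haux.1 R).red ⟨_, h₂.2.1⟩))) :
    (∀ Q : Place (IsLocalRing.ResidueField B) (Fk (IsLocalRing.ResidueField B) M),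
      0 ≤ Q.ord (jk (IsLocalRing.ResidueField B) M) →
        (p : ℤ) ∣ Q.ord (R.red ⟨_, h₁.2.1⟩)) ∧
    (∀ Q : Place (IsLocalRing.ResidueField B) (Fk (IsLocalRing.ResidueField B) M),
      0 ≤ Q.ord (jk (IsLocalRing.ResidueField B) M) →
        (p : ℤ) ∣ Q.ord ((glmZero M p hp haux.1 R).red ⟨_, h₂.2.1⟩)) := by
  obtain ⟨ℓ, hℓS, hcop⟩ := hnE
  have hℓ : (ℓ : ℕ).Prime := ℓ.2
  have hpM : ¬ p ∣ M := haux.1
  have hp2 : p ≠ 2 := by omega
  have hNM : M' * p ∣ M * p := Nat.mul_dvd_mul_right hdvd p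
  have hℓ2 : (ℓ : ℕ) ≠ 2 := fun h => hℓS (by rw [h]; exact h2S)
  have hℓp : (ℓ : ℕ) ≠ p := fun h => hℓS (hS _ hℓ (by rw [h]; exact dvd_mul_left p M'))
  have hℓM' : ¬ (ℓ : ℕ) ∣ M' := fun h => hℓS (hS _ hℓ (h.trans (dvd_mul_right M' p)))
  have hb4 : baseLevel p = 4 := by
    unfold baseLevel
    rw [if_neg hp2]
  have hℓM : ¬ (ℓ : ℕ) ∣ M := by
    rw [hM, hb4]
    exact etl_not_dvd_lcm M' hℓ hℓ2 hℓM'
  have hℓN : ¬ (ℓ : ℕ) ∣ M * p := by
    intro h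
    rcases (Nat.Prime.dvd_mul hℓ).mp h with h1 | h1
    · exact hℓM h1
    · exact hℓp ((Nat.prime_dvd_prime_iff_eq hℓ hp).mp h1)
  have h12 : ¬ p ∣ 12 := by
    intro h
    have h3 : p ∣ 2 ^ 2 * 3 := by norm_num; exact h
    rcases (Nat.Prime.dvd_mul hp).mp h3 with h4 | h4
    · have := (Nat.prime_dvd_prime_iff_eq hp Nat.prime_two).mp (hp.dvd_of_dvd_pow h4)
      omega
    · have := (Nat.prime_dvd_prime_iff_eq hp Nat.prime_three).mp h4
      omega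
  haveI : NeZero (ℓ : ℕ) := ⟨hℓ.ne_zero⟩
  haveI : NeZero (M * (ℓ : ℕ)) := ⟨Nat.mul_ne_zero (NeZero.ne M) hℓ.ne_zero⟩
  haveI : NeZero (M * p * (ℓ : ℕ)) := ⟨Nat.mul_ne_zero (NeZero.ne (M * p)) hℓ.ne_zero⟩
  haveI : RRBase Kbar (FF (M' * p)) := (mod_rrHyp (M' * p)).toRRBase
  obtain ⟨Rl, hRl⟩ := hkr_exists_red M p (ℓ : ℕ) B hp hpM hℓ hℓp hB
  have h1 : p ∣ M * p := dvd_mul_left p M
  have h2 : ¬ p ^ 2 ∣ M * p := inf_not_sq_dvd M p hp hpM
  have hc₁ : c₁ ≠ 0 := by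
    intro h0
    apply h₁.1
    rw [h0, map_zero, zero_mul]
  have hc₂ : c₂ ≠ 0 := by
    intro h0
    apply h₂.1
    rw [h0, map_zero, zero_mul]
  have hk₁ := etl_kummer_const hux hc₁
  have hk₂ := etl_kummer_const hux hc₂
  obtain ⟨u0, hx0⟩ := gdf_exists_isKummer (K := Kbar) (F := FF (M' * p)) hxp
  have heig : heckeOperatorBar (M * p) ⟨(ℓ : ℕ), hℓ⟩
      (auxLevelPull (M' * p) (M * p) hNM x) = a ℓ • auxLevelPull (M' * p) (M * p) hNM x :=
    hpl_heig (M' * p) (M * p) hNM ℓ hℓN hp.ne_zero hx0 (a ℓ) (hEig ℓ hℓS)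
  have hcop' : ¬ (p : ℤ) ∣ a ℓ - (((ℓ : ℕ) : ℤ) + 1) := by
    rw [add_comm]
    exact hcop
  refine ⟨fun Q hQ => ?_, fun Q hQ => ?_⟩
  · exact ecm_h1_inf M p (ℓ : ℕ) B hp hℓ hℓp h1 h2 hpM hℓN hB haux h12 hR hRl (a ℓ) hcop' hk₁
      heig h₁ δ₁ hw₁ Q hQ
  · exact ecm_h1_zero M p (ℓ : ℕ) B hp hℓ hℓp h1 h2 hpM hℓN hB haux h12 hR hRl (a ℓ) hcop' hk₂
      heig h₂ δ₂ hw₂ Q hQ

end Tail

end Fermat.Agent.S40lib

end
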