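import Mathlib
import Fermat.Agent.S36lib.Speed
import Fermat.Agent.S40lib.Hub

/-!
# Item 88 (S40): the final wiring (architect helper6)

`s40h_main`: the statement S40 from
* the dictionary `S40hDich` (OLD / NEW dichotomy),
* (W1): `S40hSS ∨ S40hOrd` at one place over `p`,
* the non-Eisenstein property of `W` (away from every finite set of primes),
* the two geometric statements `S40hGeomOmega`, `S40hGeomPeu` at the levels prime to `p`.
-/

set_option autoImplicit false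
set_option linter.style.haveILetI false

noncomputable section

namespace Fermat.Agent.S40lib

open Fermat.Agent.GalRep ModularCurve Fermat.Agent.S31lib Fermat.Agent.S35lib
  Fermat.Agent.S33lib WeierstrassCurve WeierstrassCurve.Affine WeierstrassCurve.Affine.Point

/-- the NEW case is contradictory -/
theorem s40h_new_false (W : WeierstrassCurve ℤ) (p M' : ℕ) [NeZero M'] [NeZero (M' * p)]
    [Fact p.Prime]
    (hGω : S40hGeomOmega M' p) (hGp : S40hGeomPeu M' p)
    (B : ValuationSubring (AlgebraicClosure ℚ)) (hB : B.LiesOverPrime p)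
    (hW1 : S40hSS W p B ∨ S40hOrd W p B)
    (S : Finset ℕ) (V : AddSubgroup (JZero (M' * p)))
    (hnE : ∃ ℓ : Nat.Primes, (ℓ : ℕ) ∉ S ∧ ¬ (p : ℤ) ∣ W.apOfModel ℓ - (1 + (ℓ : ℕ)))
    (hNew : S40hNew W p M' S V) : False := by
  obtain ⟨hVp, ⟨e, he⟩, hEig, hNot⟩ := hNew
  -- `V` is Galois-stable
  have hstab : ∀ (σ : AlgebraicClosure ℚ ≃ₐ[ℚ] AlgebraicClosure ℚ), ∀ x ∈ V, σ • x ∈ V := by
    intro σ x hx
    have h1 := he σ (e.symm ⟨x, hx⟩)
    rw [AddEquiv.apply_symm_apply] at h1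
    rw [← h1]
    exact (e (σ • e.symm ⟨x, hx⟩)).2
  -- transfer of fixed points
  have hfix : ∀ (σ : AlgebraicClosure ℚ ≃ₐ[ℚ] AlgebraicClosure ℚ) (P : S40hWp W p),
      σ • P = P ↔ σ • ((e P : V) : JZero (M' * p)) = ((e P : V) : JZero (M' * p)) := by
    intro σ P
    rw [← he σ P]
    constructor
    · intro h
      rw [h]
    · intro h
      exact e.injective (Subtype.ext h)
  rcases hW1 with hSS | hOrd
  · -- supersingular shape
    obtain ⟨⟨τ, hτ, P, hP⟩, hno⟩ := hSS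
    rcases hGω B hB S W.apOfModel V hVp (fun τ _ x hx => hstab τ x hx) hEig hNot with h | h
    · exact hP ((hfix τ P).mpr (h τ hτ _ (e P).2))
    · obtain ⟨x, hx, hx0, hω⟩ := h
      have hP0 : e.symm ⟨x, hx⟩ = 0 := by
        apply hno
        intro τ hτ
        apply e.injective
        apply Subtype.ext
        rw [he τ, AddEquiv.apply_symm_apply, map_nsmul, AddEquiv.apply_symm_apply]
        exact hω τ hτ
      apply hx0
      have h2 := congrArg (fun z => ((e z : V) : JZero (M' * p))) hP0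
      simp only [AddEquiv.apply_symm_apply] at h2
      rw [h2, _root_.map_zero]
      rfl
  · -- ordinary peu ramifié shape
    obtain ⟨hpeu, τ₀, hτ₀, hmv, P, hP0, hPfix⟩ := hOrd
    have hVpeu : ∀ τ ∈ S40hPeu p B, ∀ x ∈ V, τ • x = x := by
      intro τ hτ x hx
      have h1 := (hfix τ (e.symm ⟨x, hx⟩)).mp (hpeu τ hτ _)
      rw [AddEquiv.apply_symm_apply] at h1
      exact h1
    have hx0 := hGp B hB S W.apOfModel V hVp (fun τ _ x hx => hstab τ x hx) hEig hNot hnE hVpeu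
      τ₀ hτ₀ hmv _ (e P).2 ((hfix τ₀ P).mp hPfix)
    apply hP0
    apply e.injective
    apply Subtype.ext
    rw [hx0, _root_.map_zero]
    rfl

/-- **S40** from the blocks. -/
theorem s40h_main (W : WeierstrassCurve ℤ) {p : ℕ} (hp : p.Prime)
    {M : ℕ} (hM : 0 < M) (hpM : p ∣ M) (hp2M : ¬ p ^ 2 ∣ M)
    (hmod : W.IsResiduallyModularOfLevel p M)
    (hDich : ∀ (M' : ℕ) [NeZero M'] [NeZero (M' * p)], ¬ p ∣ M' → S40hDich W p M')
    (hW1 : haveI : Fact p.Prime := ⟨hp⟩;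
      ∃ B : ValuationSubring (AlgebraicClosure ℚ), B.LiesOverPrime p ∧
        (S40hSS W p B ∨ S40hOrd W p B))
    (hnE : ∀ S : Finset ℕ, ∃ ℓ : Nat.Primes, (ℓ : ℕ) ∉ S ∧
      ¬ (p : ℤ) ∣ W.apOfModel ℓ - (1 + (ℓ : ℕ)))
    (hGω : haveI : Fact p.Prime := ⟨hp⟩;
      ∀ (M' : ℕ) [NeZero M'] [NeZero (M' * p)], ¬ p ∣ M' → S40hGeomOmega M' p)
    (hGp : ∀ (M' : ℕ) [NeZero M'] [NeZero (M' * p)], ¬ p ∣ M' → S40hGeomPeu M' p) :
    W.IsResiduallyModularOfLevel p (M / p) := by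
  haveI : Fact p.Prime := ⟨hp⟩
  obtain ⟨M', rfl⟩ := hpM
  have hM'0 : M' ≠ 0 := by
    rintro rfl
    simp at hM
  have hpM' : ¬ p ∣ M' := by
    rintro ⟨c, rfl⟩
    exact hp2M ⟨c, by ring⟩
  haveI : NeZero M' := ⟨hM'0⟩
  haveI : NeZero (M' * p) := ⟨Nat.mul_ne_zero hM'0 hp.ne_zero⟩
  have hdiv : p * M' / p = M' := Nat.mul_div_cancel_left M' hp.pos
  rw [hdiv]
  rw [mul_comm] at hmod
  rcases hDich M' hpM' hmod with h | ⟨S, V, -, hNew⟩
  · exact h
  · obtain ⟨B, hB, hW⟩ := hW1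
    exact (s40h_new_false W p M' (hGω M' hpM') (hGp M' hpM') B hB hW S V (hnE S) hNew).elim

end Fermat.Agent.S40lib

end
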