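import Mathlib
import Fermat.Agent.S36lib.Speed
import Fermat.Agent.S16lib.UERFinal
import Fermat.Agent.RRlib.Modular
import Fermat.Agent.S23
import Fermat.Agent.S49_Modular

/-!
# Item 88 (S40), layer (LIFT), piece (FLIP) (helper27): the characteristic-0 dimension count

`FlcFwd N` is the FORWARD dictionary at level `N` (shape of `S16lib.uer_exists_phi`, with
regularity at ALL places): a cusp form `f ∈ S₂(Γ₀(N))` with integer `q`-expansion `∑ a_n q^n` is
`φ · θ(j)` for a `φ ∈ FF N` (`θ(j) = -E₄²E₆/Δ`) with `φ • D j` regular at every place.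

`flc_flip` : under `FlcFwd N`, EVERY `w ∈ FF N` with `w • D j` regular at every place is of the form
`f / θ(j)` for a cusp form `f ∈ S₂(Γ₀(N))` whose `q`-coefficients are the images under `ιC` of the
coefficients `c_n ∈ ℚ̄` of `w · θ(j)`.

Proof: dimension count.  `L(div D j)` has dimension `g = genusFF = dim S₂(Γ₀(N))`
(`ell_canonical`, `mod_genusFF_eq_finrank`); the `φ_f` for `f` in a `ℂ`-basis of `S₂` made of forms
with integer coefficients (`S23`) are `g` elements of `L(div D j)`, linearly independent over `ℚ̄`.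
-/

set_option autoImplicit false

noncomputable section

namespace Fermat.Agent.S40lib

open AlgebraicCurve Fermat.Agent.S24lib Fermat.Agent.RRlib Fermat.Agent.S16lib
  KaehlerDifferential ModularFormClass CongruenceSubgroup ModularCurve

/-- the FORWARD dictionary at level `N` (cusp forms with integer `q`-expansion) -/
def FlcFwd (N : ℕ) [NeZero N] : Prop :=
  ∀ (f : CuspForm (Gamma0 N) 2) (a : ℕ → ℤ), (∀ n : ℕ, qCoeff f n = (a n : ℂ)) →
    ∃ (φ : FF N) (y : PowerSeries ℤ),
      (φ : LaurentSeries Kbar) = HahnSeries.ofPowerSeries ℤ Kbar (y.map (Int.castRingHom Kbar)) ∧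
      y * (sdE4 ^ 2 * sdE6) = -(PowerSeries.mk a * sdDelta) ∧
      ∀ P : Place Kbar (FF N), 0 ≤ P.ordDifferential (φ • D Kbar (FF N) (jF N))

/-- the space of `w` with `w • D j` regular -/
def flcReg (N : ℕ) [NeZero N] : Set (FF N) :=
  {w | ∀ P : Place Kbar (FF N), 0 ≤ P.ordDifferential (w • D Kbar (FF N) (jF N))}

/-- the divisor of `D j` -/
def flcDiv (N : ℕ) [NeZero N] : Divisor Kbar (FF N) :=
  have := mod_hasCanonicalDivisor N
  canonicalDivisorOf (uer_D_jF_ne_zero N)

theorem flc_div_apply (N : ℕ) [NeZero N] (v : Place Kbar (FF N)) :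
    flcDiv N v = v.ordDifferential (D Kbar (FF N) (jF N)) := by
  have := mod_hasCanonicalDivisor N
  exact canonicalDivisorOf_apply (uer_D_jF_ne_zero N) v

theorem flc_ell (N : ℕ) [NeZero N] :
    Module.finrank Kbar (riemannRochSpace (flcDiv N)) =
      Module.finrank ℂ (CuspForm (Gamma0 N) 2) := by
  have := mod_rrHyp N
  have := mod_nontrivial_kaehler N
  have hcan : IsCanonicalDivisor (flcDiv N) :=
    isCanonicalDivisor_of_kaehler (mod_dCoordGenerates N) (uer_D_jF_ne_zero N) (flcDiv N)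
      (flc_div_apply N)
  have := ell_canonical hcan
  rw [← mod_genusFF_eq_finrank N, ← this]
  rfl

theorem flc_mem_iff (N : ℕ) [NeZero N] (w : FF N) :
    w ∈ riemannRochSpace (flcDiv N) ↔ w = 0 ∨ w ∈ flcReg N := by
  have := mod_nontrivial_kaehler N
  rw [mem_riemannRochSpace_iff]
  by_cases hw : w = 0
  · simp [hw]
  · simp only [hw, false_or, flcReg, Set.mem_ofPred_eq]
    refine forall_congr' fun v => ?_
    have := mod_dCoordGenerates N v
    rw [kl_ordDifferential_smul v (uer_D_jF_ne_zero N) hw, flc_div_apply]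
    constructor <;> intro h <;> omega

/-! ### an integral basis of `S₂(Γ₀(N))` -/

theorem flc_span_int (N : ℕ) [NeZero N] :
    Submodule.span ℂ {f : CuspForm (Gamma0 N) 2 | ∀ n : ℕ, ∃ m : ℤ, qCoeff f n = (m : ℂ)} = ⊤ := by
  have h := Fermat.Agent.S23.result N
  unfold CuspForm.HasIntegralStructure CuspForm.intLattice at h
  rwa [Submodule.span_span_of_tower] at h

theorem flc_exists_basis (N : ℕ) [NeZero N] :
    ∃ (ι : Type) (_ : Fintype ι) (b : ι → CuspForm (Gamma0 N) 2) (a : ι → ℕ → ℤ),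
      Fintype.card ι = Module.finrank ℂ (CuspForm (Gamma0 N) 2) ∧ LinearIndependent ℂ b ∧
      ∀ i k, qCoeff (b i) k = (a i k : ℂ) := by
  classical
  have : FiniteDimensional ℂ (CuspForm (Gamma0 N) 2) :=
    Fermat.Agent.S23lib.finiteDimensional_cuspForm N 2
  obtain ⟨s, hsS, hspan, hli⟩ := exists_linearIndependent ℂ
    {f : CuspForm (Gamma0 N) 2 | ∀ n : ℕ, ∃ m : ℤ, qCoeff f n = (m : ℂ)}
  rw [flc_span_int N] at hspan
  have hfin : s.Finite := hli.setFinite
  let _ : Fintype ↥s := hfin.fintype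
  have hint : ∀ i : ↥s, ∀ n : ℕ, ∃ m : ℤ, qCoeff ((i : CuspForm (Gamma0 N) 2)) n = (m : ℂ) :=
    fun i => hsS i.2
  choose a ha using hint
  refine ⟨↥s, inferInstance, fun i => (i : CuspForm (Gamma0 N) 2), a, ?_, hli, ha⟩
  have hb : Module.Basis ↥s ℂ (CuspForm (Gamma0 N) 2) :=
    Module.Basis.mk hli (by rw [Subtype.range_coe_subtype]; simpa using hspan.ge)
  exact (Module.finrank_eq_card_basis hb).symm

/-! ### the computation with linear combinations -/

section comb

variable (N : ℕ) [NeZero N] {ι : Type} [Fintype ι]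
  (b : ι → CuspForm (Gamma0 N) 2) (a : ι → ℕ → ℤ) (φ : ι → FF N) (y : ι → PowerSeries ℤ)

/-- the series `∑ g_i Y_i` -/
def flcY (g : ι → Kbar) : PowerSeries Kbar :=
  ∑ i, PowerSeries.C (g i) * (y i).map (Int.castRingHom Kbar)

/-- the series `∑ g_i A_i` -/
def flcC (g : ι → Kbar) : PowerSeries Kbar :=
  ∑ i, PowerSeries.C (g i) * (PowerSeries.mk (a i)).map (Int.castRingHom Kbar)

/-- the form `∑ ι(g_i) b_i` -/
def flcF (g : ι → Kbar) : CuspForm (Gamma0 N) 2 :=
  ∑ i, ιC (g i) • b i

omit [NeZero N] in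
theorem flc_coe_smul (c : Kbar) (x : FF N) :
    ((c • x : FF N) : LaurentSeries Kbar) = HahnSeries.C c * (x : LaurentSeries Kbar) := by
  rw [Algebra.smul_def, MulMemClass.coe_mul]
  congr 1
  show algebraMap Kbar (LaurentSeries Kbar) c = _
  rw [HahnSeries.algebraMap_apply', PowerSeries.algebraMap_apply, HahnSeries.ofPowerSeries_C]
  rfl

omit [NeZero N] in
theorem flc_comb_coe
    (hφ : ∀ i, (φ i : LaurentSeries Kbar) =
      HahnSeries.ofPowerSeries ℤ Kbar ((y i).map (Int.castRingHom Kbar))) (g : ι → Kbar) :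
    ((∑ i, g i • φ i : FF N) : LaurentSeries Kbar) =
      HahnSeries.ofPowerSeries ℤ Kbar (flcY y g) := by
  rw [IntermediateField.coe_sum, flcY, map_sum]
  refine Finset.sum_congr rfl fun i _ => ?_
  rw [flc_coe_smul, map_mul, HahnSeries.ofPowerSeries_C, hφ i]

theorem flc_comb_rel
    (hy : ∀ i, y i * (sdE4 ^ 2 * sdE6) = -(PowerSeries.mk (a i) * sdDelta)) (g : ι → Kbar) :
    flcY y g * (sdE4 ^ 2 * sdE6).map (Int.castRingHom Kbar) =
      -(flcC a g * sdDelta.map (Int.castRingHom Kbar)) := by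
  rw [flcY, flcC, Finset.sum_mul, Finset.sum_mul, ← Finset.sum_neg_distrib]
  refine Finset.sum_congr rfl fun i _ => ?_
  rw [mul_assoc, ← map_mul, hy i, map_neg, map_mul, mul_neg, mul_assoc]

omit [NeZero N] in
theorem flc_comb_qCoeff (hba : ∀ i k, qCoeff (b i) k = (a i k : ℂ)) (g : ι → Kbar) (n : ℕ) :
    qCoeff (flcF N b g) n = ιC (PowerSeries.coeff n (flcC a g)) := by
  have h1 : qCoeff (flcF N b g) n = ∑ i, ιC (g i) * qCoeff (b i) n := by
    have := map_sum (Fermat.Agent.S49lib.qCoeffLin N 2 n) (fun i => ιC (g i) • b i) Finset.univ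
    simp only [Fermat.Agent.S49lib.qCoeffLin_apply, map_smul, smul_eq_mul] at this
    exact this
  rw [h1, flcC, map_sum, map_sum]
  refine Finset.sum_congr rfl fun i _ => ?_
  rw [PowerSeries.coeff_C_mul, PowerSeries.coeff_map, PowerSeries.coeff_mk, map_mul, hba i n]
  simp

end comb

/-! ### the flip -/

theorem flc_sdDelta_map_ne_zero : sdDelta.map (Int.castRingHom Kbar) ≠ 0 := by
  intro h
  have h1 := congrArg (PowerSeries.coeff 1) h
  rw [PowerSeries.coeff_map, sdDelta] at h1
  simp [ModularCurve.constantCoeff_dedekindEtaUnit] at h1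

/-- **(FLIP).**  Under the forward dictionary, every `w ∈ FF N` with `w • D j` regular at every
place is `f / θ(j)` for a cusp form `f ∈ S₂(Γ₀(N))`: `w = ∑ y_n q^n`, `y · E₄²E₆ = - c · Δ`, and the
`q`-expansion of `f` is `∑ ιC(c_n) q^n`. -/
theorem flc_flip (N : ℕ) [NeZero N] (hfwd : FlcFwd N) (w : FF N)
    (hw : ∀ P : Place Kbar (FF N), 0 ≤ P.ordDifferential (w • D Kbar (FF N) (jF N))) :
    ∃ (f : CuspForm (Gamma0 N) 2) (c y : PowerSeries Kbar),
      (w : LaurentSeries Kbar) = HahnSeries.ofPowerSeries ℤ Kbar y ∧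
      y * (sdE4 ^ 2 * sdE6).map (Int.castRingHom Kbar) =
        -(c * sdDelta.map (Int.castRingHom Kbar)) ∧
      ∀ n : ℕ, qCoeff f n = ιC (PowerSeries.coeff n c) := by
  classical
  have := mod_rrHyp N
  obtain ⟨ι, hι, b, a, hcard, hli, hba⟩ := flc_exists_basis N
  -- the functions of the basis
  have hex := fun i => hfwd (b i) (a i) (hba i)
  choose φ y hφ hy hreg using hex
  -- they lie in `L(div D j)`
  have hmem : ∀ i, φ i ∈ riemannRochSpace (flcDiv N) := fun i =>
    (flc_mem_iff N (φ i)).mpr (Or.inr (hreg i))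
  -- they are linearly independent over `ℚ̄`
  have hliφ : LinearIndependent Kbar φ := by
    rw [Fintype.linearIndependent_iff]
    intro g hg
    have h1 := flc_comb_coe N φ y hφ g
    rw [hg] at h1
    have hY : flcY y g = 0 := by
      have h2 : HahnSeries.ofPowerSeries ℤ Kbar (flcY y g) = HahnSeries.ofPowerSeries ℤ Kbar 0 := by
        rw [← h1, map_zero]
        rfl
      exact HahnSeries.ofPowerSeries_injective h2
    have h3 := flc_comb_rel a y hy g
    rw [hY, zero_mul, eq_comm, neg_eq_zero, mul_eq_zero] at h3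
    have hC : flcC a g = 0 := h3.resolve_right flc_sdDelta_map_ne_zero
    have hF : flcF N b g = 0 := by
      apply Fermat.Agent.S49lib.eq_zero_of_forall_qCoeff
      intro n
      rw [flc_comb_qCoeff N b a hba g n, hC, map_zero, map_zero]
    have h4 := (Fintype.linearIndependent_iff.mp hli) (fun i => ιC (g i)) hF
    intro i
    exact ιC_injective (by rw [h4 i, map_zero])
  -- the dimension count
  have hle : Submodule.span Kbar (Set.range φ) ≤ riemannRochSpace (flcDiv N) := by
    rw [Submodule.span_le]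
    rintro _ ⟨i, rfl⟩
    exact hmem i
  have hfin := finite_riemannRochSpace (K := Kbar) (flcDiv N)
  have heq : Submodule.span Kbar (Set.range φ) = riemannRochSpace (flcDiv N) := by
    apply Submodule.eq_of_le_of_finrank_eq hle
    rw [finrank_span_eq_card hliφ, flc_ell N, hcard]
  -- conclusion
  have hwm : w ∈ Submodule.span Kbar (Set.range φ) := by
    rw [heq]
    exact (flc_mem_iff N w).mpr (Or.inr hw)
  obtain ⟨g, rfl⟩ := (Submodule.mem_span_range_iff_exists_fun Kbar).mp hwm
  exact ⟨flcF N b g, flcC a g, flcY y g, flc_comb_coe N φ y hφ g, flc_comb_rel a y hy g,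
    flc_comb_qCoeff N b a hba g⟩

end Fermat.Agent.S40lib

end
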