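import Mathlib
import Fermat.Agent.S36lib.Speed
import Fermat.Agent.S28lib.UnitInt
import Fermat.Agent.S28lib.Sig

/-!
# Item 88 (S40), block (LIFT), piece L5, CUSP half (helper7)

`a ∈ WH N` a `Γ₀(N)`-invariant `ℚ̄`-rational weakly holomorphic function with the `q`-expansion
of `x ∈ F_N`, such that every conjugate `g • a` has `q_N`-order `> -N` (i.e. `q`-order `> -1`:
"`a / j` vanishes at every cusp").  Then at every place `P` of `F_N` over `j = ∞`:
`ord_P j < ord_P x`.

* `fdc_val_lt`   : the abstract valuation lemma (`X ^ n + Σ c_k X ^ k = 0`, `v(c_k) ≤ v(j)^(n-k-1)`,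
                   `1 < v(j)` ⇒ `v(X) < v(j)`);
* `fdc_ord_lt`   : the same for a place and polynomials `c_k = r_k(j)` with `deg r_k < n - k`;
* `fdcGe`        : `s = 0 ∨ m ≤ order s` for Laurent series, and its calculus;
* `fdc_coeff_prod` : the coefficients of `∏ (X - b_q)`;
* `fdc_natDegree_lt` : the degree bound for the `j`-polynomials of the symmetric functions;
* `fdc_cusp`     : the statement.
-/

set_option autoImplicit false
set_option linter.unusedSectionVars false
set_option linter.unusedVariables false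
set_option linter.style.haveILetI false

noncomputable section

namespace Fermat.Agent.S40lib

open Polynomial AlgebraicCurve ModularCurve CongruenceSubgroup
open Fermat.Agent.S24lib Fermat.Agent.S28lib
open scoped MatrixGroups

/-! ### the abstract valuation lemma -/

section Val

variable {F : Type*} [Field F] {Γ₀ : Type*} [LinearOrderedCommGroupWithZero Γ₀]

theorem fdc_val_lt (w : Valuation F Γ₀) (j X : F) (n : ℕ) (c : ℕ → F)
    (hj : 1 < w j) (hc : ∀ k < n, w (c k) ≤ w j ^ (n - k - 1))
    (hrel : X ^ n + ∑ k ∈ Finset.range n, c k * X ^ k = 0) : w X < w j := by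
  by_contra hlt
  rw [not_lt] at hlt
  have hX1 : 1 < w X := lt_of_lt_of_le hj hlt
  have hX0 : w X ≠ 0 := (lt_trans zero_lt_one hX1).ne'
  have hj1 : (1 : Γ₀) ≤ w j := hj.le
  have hsum : w (∑ k ∈ Finset.range n, c k * X ^ k) < w X ^ n := by
    apply Valuation.map_sum_lt _ (pow_ne_zero _ hX0)
    intro k hk
    have hkn : k < n := Finset.mem_range.mp hk
    rw [map_mul, map_pow]
    calc w (c k) * w X ^ k ≤ w j ^ (n - k - 1) * w X ^ k := by
          gcongr
          exact hc k hkn
      _ ≤ w X ^ (n - k - 1) * w X ^ k := by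
          gcongr
      _ = w X ^ (n - 1) := by
          rw [← pow_add]
          congr 1
          omega
      _ < w X ^ n := by
          apply pow_lt_pow_right₀ hX1
          omega
  have h1 : X ^ n = -∑ k ∈ Finset.range n, c k * X ^ k := eq_neg_of_add_eq_zero_left hrel
  have h2 : w (X ^ n) = w (∑ k ∈ Finset.range n, c k * X ^ k) := by
    rw [h1, Valuation.map_neg]
  rw [map_pow] at h2
  rw [h2] at hsum
  exact lt_irrefl _ hsum

end Val

/-! ### the lemma for a place -/

section PlaceLemma

variable {K F : Type*} [Field K] [Field F] [Algebra K F]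

theorem fdc_adic_const_le (P : Place K F) (c : K) : P.adicValuation (algebraMap K F c) ≤ 1 := by
  have h := P.adicValuation_coe ⟨algebraMap K F c, P.algebraMap_mem' c⟩
  rw [h]
  exact IsDedekindDomain.HeightOneSpectrum.intValuation_le_one _ _

theorem fdc_one_lt_adic (P : Place K F) (j : F) (hj : P.ord j < 0) : 1 < P.adicValuation j := by
  have hj0 : j ≠ 0 := by
    rintro rfl
    rw [Place.ord_zero] at hj
    exact lt_irrefl _ hj
  have h0 : P.adicValuation j ≠ 0 := P.adicValuation_ne_zero hj0
  unfold Place.ord at hj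
  have h1 : (0 : ℤ) < WithZero.log (P.adicValuation j) := by omega
  have h2 : WithZero.log (1 : WithZero (Multiplicative ℤ)) < WithZero.log (P.adicValuation j) := by
    rw [WithZero.log_one]
    exact h1
  exact (WithZero.log_lt_log one_ne_zero h0).mp h2

theorem fdc_adic_eval₂_le (P : Place K F) (j : F) (hj : 1 < P.adicValuation j)
    (r : Polynomial K) (d : ℕ) (hd : r.natDegree ≤ d) :
    P.adicValuation (r.eval₂ (algebraMap K F) j) ≤ P.adicValuation j ^ d := by
  rw [Polynomial.eval₂_eq_sum_range]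
  apply Valuation.map_sum_le
  intro i hi
  have hid : i ≤ d := (Nat.lt_succ_iff.mp (Finset.mem_range.mp hi)).trans hd
  rw [map_mul, map_pow]
  calc P.adicValuation (algebraMap K F (r.coeff i)) * P.adicValuation j ^ i
      ≤ 1 * P.adicValuation j ^ i := by
        gcongr
        exact fdc_adic_const_le P _
    _ = P.adicValuation j ^ i := one_mul _
    _ ≤ P.adicValuation j ^ d := pow_le_pow_right₀ hj.le hid

theorem fdc_ord_lt (P : Place K F) (j X : F) (n : ℕ) (r : ℕ → Polynomial K)
    (hj : P.ord j < 0) (hdeg : ∀ k < n, (r k).natDegree + k + 1 ≤ n)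
    (hrel : X ^ n + ∑ k ∈ Finset.range n, (r k).eval₂ (algebraMap K F) j * X ^ k = 0) :
    P.ord j < P.ord X := by
  have hj1 := fdc_one_lt_adic P j hj
  have hlt : P.adicValuation X < P.adicValuation j := by
    apply fdc_val_lt P.adicValuation j X n (fun k => (r k).eval₂ (algebraMap K F) j) hj1 _ hrel
    intro k hk
    apply fdc_adic_eval₂_le P j hj1
    have := hdeg k hk
    omega
  rcases eq_or_ne X 0 with rfl | hX
  · rw [Place.ord_zero]
    exact hj
  · have hj0 : j ≠ 0 := by
      rintro rfl
      rw [Place.ord_zero] at hj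
      exact lt_irrefl _ hj
    have h1 := (WithZero.log_lt_log (P.adicValuation_ne_zero hX)
      (P.adicValuation_ne_zero hj0)).mpr hlt
    unfold Place.ord
    omega

end PlaceLemma

/-! ### orders of Laurent series -/

section Ord

/-- `s = 0` or `m ≤ order s` -/
def fdcGe (m : ℤ) (s : LaurentSeries ℂ) : Prop := s = 0 ∨ m ≤ s.order

theorem fdcGe_zero (m : ℤ) : fdcGe m 0 := Or.inl rfl

theorem fdcGe_one {m : ℤ} (hm : m ≤ 0) : fdcGe m 1 := by
  right
  rw [HahnSeries.order_one]
  exact hm

theorem fdcGe_mono {m m' : ℤ} (h : m' ≤ m) {s : LaurentSeries ℂ} (hs : fdcGe m s) :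
    fdcGe m' s := by
  rcases hs with hs | hs
  · exact Or.inl hs
  · exact Or.inr (h.trans hs)

theorem fdcGe_neg {m : ℤ} {s : LaurentSeries ℂ} (hs : fdcGe m s) : fdcGe m (-s) := by
  rcases hs with hs | hs
  · left
    rw [hs, neg_zero]
  · right
    rw [HahnSeries.order_neg]
    exact hs

theorem fdcGe_mul {m m' : ℤ} {s s' : LaurentSeries ℂ} (hs : fdcGe m s) (hs' : fdcGe m' s') :
    fdcGe (m + m') (s * s') := by
  rcases hs with hs | hs
  · left
    rw [hs, zero_mul]
  rcases hs' with hs' | hs'
  · left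
    rw [hs', mul_zero]
  by_cases h0 : s = 0
  · left
    rw [h0, zero_mul]
  by_cases h0' : s' = 0
  · left
    rw [h0', mul_zero]
  right
  rw [HahnSeries.order_mul h0 h0']
  exact add_le_add hs hs'

theorem fdcGe_add {m : ℤ} {s s' : LaurentSeries ℂ} (hs : fdcGe m s) (hs' : fdcGe m s') :
    fdcGe m (s + s') := by
  by_cases h0 : s = 0
  · rw [h0, zero_add]
    exact hs'
  by_cases h0' : s' = 0
  · rw [h0', add_zero]
    exact hs
  by_cases h : s + s' = 0
  · exact Or.inl h
  right
  have hs1 : m ≤ s.order := hs.resolve_left h0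
  have hs2 : m ≤ s'.order := hs'.resolve_left h0'
  exact (le_min hs1 hs2).trans (HahnSeries.min_order_le_order_add h)

theorem fdcGe_sub {m : ℤ} {s s' : LaurentSeries ℂ} (hs : fdcGe m s) (hs' : fdcGe m s') :
    fdcGe m (s - s') := by
  rw [sub_eq_add_neg]
  exact fdcGe_add hs (fdcGe_neg hs')

/-- the coefficients of `∏ (X - b_q)`, abstract form: `G m` a family of predicates with the
calculus of "order `≥ m`" -/
theorem fdc_coeff_prod_abs {R : Type*} [CommRing R] (G : ℤ → R → Prop)
    (h0 : ∀ m, G m 0) (h1 : G 0 1)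
    (hsub : ∀ m s s', G m s → G m s' → G m (s - s'))
    (hmul : ∀ m m' s s', G m s → G m' s' → G (m + m') (s * s'))
    {ι : Type*} [DecidableEq ι] (b : ι → R) (m : ℤ)
    (S : Finset ι) (hb : ∀ q ∈ S, G m (b q)) (k : ℕ) :
    G (m * ((S.card : ℤ) - k)) ((∏ q ∈ S, (X - C (b q))).coeff k) := by
  induction S using Finset.induction_on generalizing k with
  | empty =>
    rw [Finset.prod_empty, Finset.card_empty, Polynomial.coeff_one]
    by_cases hk : k = 0
    · rw [if_pos hk, hk]
      have e : m * (((0 : ℕ) : ℤ) - ((0 : ℕ) : ℤ)) = 0 := by simp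
      rw [e]
      exact h1
    · rw [if_neg hk]
      exact h0 _
  | insert q S hq ih =>
    have hbS : ∀ q' ∈ S, G m (b q') := fun q' hq' => hb q' (Finset.mem_insert_of_mem hq')
    have hbq : G m (b q) := hb q (Finset.mem_insert_self q S)
    have e0 : (X - C (b q)) * ∏ x ∈ S, (X - C (b x))
        = X * ∏ x ∈ S, (X - C (b x)) - C (b q) * ∏ x ∈ S, (X - C (b x)) := sub_mul _ _ _
    rw [Finset.prod_insert hq, Finset.card_insert_of_notMem hq, e0, Polynomial.coeff_sub,
      Polynomial.coeff_C_mul]
    apply hsub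
    · rcases Nat.eq_zero_or_pos k with rfl | hk
      · rw [Polynomial.coeff_X_mul_zero]
        exact h0 _
      · obtain ⟨k', rfl⟩ : ∃ k', k = k' + 1 := ⟨k - 1, by omega⟩
        rw [Polynomial.coeff_X_mul]
        have := ih hbS k'
        have e : m * (((S.card + 1 : ℕ) : ℤ) - ((k' + 1 : ℕ) : ℤ)) = m * ((S.card : ℤ) - k') := by
          push_cast
          ring
        rw [e]
        exact this
    · have := hmul _ _ _ _ hbq (ih hbS k)
      have e : m * (((S.card + 1 : ℕ) : ℤ) - (k : ℤ)) = m + m * ((S.card : ℤ) - k) := by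
        push_cast
        ring
      rw [e]
      exact this

/-- the coefficients of `∏ (X - b_q)` -/
theorem fdc_coeff_prod {ι : Type*} [DecidableEq ι] (b : ι → LaurentSeries ℂ) (m : ℤ)
    (S : Finset ι) (hb : ∀ q ∈ S, fdcGe m (b q)) (k : ℕ) :
    fdcGe (m * ((S.card : ℤ) - k)) ((∏ q ∈ S, (X - C (b q))).coeff k) :=
  fdc_coeff_prod_abs fdcGe fdcGe_zero (fdcGe_one le_rfl) (fun _ _ _ => fdcGe_sub)
    (fun _ _ _ _ => fdcGe_mul) b m S hb k

end Ord

/-! ### the degree bound -/

section Deg

variable (N : ℕ) [NeZero N]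

/-- the coefficient of `r(J)` at `-N deg r` is the leading coefficient of `r` -/
theorem fdc_uiPsi_coeff (r : Polynomial Kbar) :
    (uiPsi N r).coeff (-((N : ℤ) * r.natDegree)) = ιC r.leadingCoeff := by
  unfold uiPsi
  rw [Polynomial.coe_eval₂RingHom, Polynomial.eval₂_eq_sum_range, HahnSeries.coeff_sum]
  rw [Finset.sum_eq_single r.natDegree]
  · rw [RingHom.comp_apply, HahnSeries.C_mul_eq_smul, HahnSeries.coeff_smul]
    unfold uiJ
    rw [lop_J_lead, smul_eq_mul, mul_one]
    rfl
  · intro i hi hne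
    have hlt : i < r.natDegree := by
      have := Finset.mem_range.mp hi
      omega
    rw [RingHom.comp_apply, HahnSeries.C_mul_eq_smul, HahnSeries.coeff_smul]
    unfold uiJ
    rw [lop_J_low N i _ (by
      have hN : (0 : ℤ) < N := by exact_mod_cast Nat.pos_of_ne_zero (NeZero.ne N)
      have : (i : ℤ) < r.natDegree := by exact_mod_cast hlt
      nlinarith), smul_zero]
  · intro h
    exact absurd (Finset.mem_range.mpr (Nat.lt_succ_self _)) h

theorem fdc_uiPsi_order_le (r : Polynomial Kbar) (hr : r ≠ 0) :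
    uiPsi N r ≠ 0 ∧ (uiPsi N r).order ≤ -((N : ℤ) * r.natDegree) := by
  have h1 : (uiPsi N r).coeff (-((N : ℤ) * r.natDegree)) ≠ 0 := by
    rw [fdc_uiPsi_coeff]
    intro h
    have h2 : r.leadingCoeff = 0 := ιC_injective (by rw [h, map_zero])
    exact hr (Polynomial.leadingCoeff_eq_zero.mp h2)
  exact ⟨HahnSeries.ne_zero_of_coeff_ne_zero h1, HahnSeries.order_le_of_coeff_ne_zero h1⟩

/-- the degree bound: if `r(J)` has order `≥ (1 - N) m` with `m ≥ 1` then `deg r < m` -/
theorem fdc_natDegree_lt (r : Polynomial Kbar) (m : ℕ) (hm : 1 ≤ m)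
    (h : fdcGe ((1 - (N : ℤ)) * m) (uiPsi N r)) : r.natDegree + 1 ≤ m := by
  rcases eq_or_ne r 0 with rfl | hr
  · rw [Polynomial.natDegree_zero]
    omega
  obtain ⟨h0, hle⟩ := fdc_uiPsi_order_le N r hr
  have h1 := h.resolve_left h0
  have hN : (0 : ℤ) < N := by exact_mod_cast Nat.pos_of_ne_zero (NeZero.ne N)
  have h2 : (1 - (N : ℤ)) * m ≤ -((N : ℤ) * r.natDegree) := h1.trans hle
  have hm' : (1 : ℤ) ≤ m := by exact_mod_cast hm
  have h3 : (N : ℤ) * r.natDegree < (N : ℤ) * m := by nlinarith
  have h4 : (r.natDegree : ℤ) < m := lt_of_mul_lt_mul_left h3 hN.le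
  omega

end Deg

/-! ### the statement -/

section Main

variable (N : ℕ) [NeZero N]

set_option synthInstance.maxHeartbeats 400000 in
set_option maxHeartbeats 1000000 in
/-- **L5, cusp half.** -/
theorem fdc_cusp (x : ↥(modularFunctionFieldFull N)) (a : WH N) (ha : a ∈ KRat N)
    (hinv : ∀ γ ∈ Gamma0 N, γ • a = a)
    (h : expInf N a = qExpand ℂ N (coeffMap (algebraMap ℚ ℂ) (x : LaurentSeries ℚ)))
    (hcusp : ∀ g : SL(2, ℤ), -(N : ℤ) < (expInf N (g • a)).order) :
    ∀ P : Place Kbar (FF N), P.ord (jF N) < 0 → P.ord (jF N) < P.ord (toFF N x) := by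
  classical
  intro P hP
  -- the coefficients of `symPoly`
  choose Pk hPk using fun k => exists_jpoly_eq N (symPoly_coeff_mem N ha k)
    (symPoly_coeff_smul N hinv k)
  set n := Fintype.card (SL(2, ℤ) ⧸ Gamma0 N) with hn
  have hroot : (symPoly N a).eval a = 0 := by
    unfold symPoly
    rw [Polynomial.eval_prod]
    refine Finset.prod_eq_zero (Finset.mem_univ (QuotientGroup.mk 1 : SL(2, ℤ) ⧸ Gamma0 N)) ?_
    rw [Polynomial.eval_sub, Polynomial.eval_X, Polynomial.eval_C, sym_smul_out N hinv, one_smul,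
      sub_self]
  have hmonic : (symPoly N a).Monic := by
    unfold symPoly
    exact Polynomial.monic_prod_of_monic _ _ fun q _ => Polynomial.monic_X_sub_C _
  set M : Polynomial (LaurentSeries ℂ) := (symPoly N a).map (expInf N) with hM
  have hMmonic : M.Monic := hmonic.map _
  have hMdeg : M.natDegree = n := by
    rw [hM, hmonic.natDegree_map, symPoly_natDegree]
  have hMroot : M.eval (expInf N a) = 0 := by
    rw [hM, Polynomial.eval_map, Polynomial.eval₂_hom, hroot, map_zero]
  have hMcoeff : ∀ k, M.coeff k = uiPsi N (Pk k) := by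
    intro k
    rw [hM, Polynomial.coeff_map, hPk k, expInf_jpoly]
  -- the product form of `M`
  have hMprod : M = ∏ q ∈ (Finset.univ : Finset (SL(2, ℤ) ⧸ Gamma0 N)),
      (X - C (expInf N (q.out • a))) := by
    rw [hM]
    unfold symPoly
    rw [Polynomial.map_prod]
    refine Finset.prod_congr rfl fun q _ => ?_
    rw [Polynomial.map_sub, Polynomial.map_X, Polynomial.map_C]
  -- the orders of the coefficients
  have hord : ∀ k : ℕ, fdcGe ((1 - (N : ℤ)) * ((n : ℤ) - (k : ℤ))) (M.coeff k) := by
    intro k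
    have := fdc_coeff_prod (fun q : SL(2, ℤ) ⧸ Gamma0 N => expInf N (q.out • a))
      (1 - (N : ℤ)) Finset.univ (fun q _ => Or.inr (by
        have := hcusp q.out
        omega)) k
    rw [← hMprod, Finset.card_univ] at this
    exact this
  -- the degree bound
  have hdeg : ∀ k < n, (Pk k).natDegree + k + 1 ≤ n := by
    intro k hk
    have h1 := hord k
    rw [hMcoeff] at h1
    have e : ((n : ℤ) - k) = ((n - k : ℕ) : ℤ) := by
      rw [Nat.cast_sub hk.le]
    rw [e] at h1
    have := fdc_natDegree_lt N (Pk k) (n - k) (by omega) h1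
    omega
  -- the relation in `FF N`
  have hemb : embF N (expInf N) (expInf_injective N) (toFF N x) = expInf N a := by
    rw [h]
    unfold embF
    rw [RingHom.comp_apply, liftMF_ιF, coe_toFF, inclL_coeffEmb]
  have hcoe : ∀ k, embF N (expInf N) (expInf_injective N)
      ((Pk k).eval₂ (algebraMap Kbar (FF N)) (jF N)) = M.coeff k := by
    intro k
    have := embF_jpolyF N (expInf N) (expInf_injective N) (Pk k)
    unfold jpolyF at this
    rw [this, hMcoeff, expInf_jpoly]
  have hsum := hMmonic.as_sum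
  rw [hMdeg] at hsum
  have hev : (expInf N a) ^ n + ∑ k ∈ Finset.range n, M.coeff k * (expInf N a) ^ k = 0 := by
    have := hMroot
    rw [hsum, Polynomial.eval_add, Polynomial.eval_pow, Polynomial.eval_X,
      Polynomial.eval_finsetSum] at this
    simp only [Polynomial.eval_mul, Polynomial.eval_C, Polynomial.eval_pow, Polynomial.eval_X]
      at this
    exact this
  have hrel : (toFF N x) ^ n + ∑ k ∈ Finset.range n,
      (Pk k).eval₂ (algebraMap Kbar (FF N)) (jF N) * (toFF N x) ^ k = 0 := by
    apply (embF N (expInf N) (expInf_injective N)).injective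
    rw [map_zero, ← hev, map_add, map_pow, hemb, map_sum]
    congr 1
    refine Finset.sum_congr rfl fun k _ => ?_
    rw [map_mul, map_pow, hemb, hcoe]
  exact fdc_ord_lt P (jF N) (toFF N x) n Pk hP hdeg hrel

end Main

end Fermat.Agent.S40lib

end
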