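import Mathlib
import Fermat.Agent.S36lib.Speed
import Fermat.Agent.S40lib.Asm
import Fermat.Agent.S41lib.NonEisTrans
import Fermat.Agent.DivPoly.TorsionOut
import Fermat.Prelude.Def_FreyPackage_IsConductorLevel

/-!
# Item 88, RETARGET: row 38 through S44 (Frey form, `p ≥ 5`)  (architect helper6)

S44 is the statement of S40 for an integral model `W` of the Frey curve of a Frey package at a
prime `p ∣ a b c` (multiplicative reduction, `p ≥ 5`).  Everything on the J-side is shared with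
S40; the only new block is (W1) for `W` (`hW1` below).

* `s44h_Δ_ne_zero` : an integral model of a curve with `Δ ≠ 0` has `Δ ≠ 0`;
* `s44h_irr`       : irreducibility of the mod `p` representation passes to an integral model;
* `s44h_asm4`      : S44 from (W1) and the J-side block `S40hGeom4`;
* `s44h_asm`       : S44 from (W1) and (J-TAME), (J-WILD) of `AJHub`.
-/

set_option autoImplicit false
set_option linter.style.haveILetI false

noncomputable section

namespace Fermat.Agent.S40lib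

open Fermat.Agent.GalRep ModularCurve Fermat.Agent.S31lib Fermat.Agent.S35lib
  Fermat.Agent.S33lib WeierstrassCurve WeierstrassCurve.Affine WeierstrassCurve.Affine.Point

/-- an integral model of a curve with `Δ ≠ 0` has `Δ ≠ 0` -/
theorem s44h_Δ_ne_zero {E : WeierstrassCurve ℚ} {W : WeierstrassCurve ℤ}
    (hW : W.IsIntegralModelOf E) (hE : E.Δ ≠ 0) : W.Δ ≠ 0 := by
  obtain ⟨C, hC⟩ := hW
  intro h0
  have h1 : (W.map (Int.castRingHom ℚ)).Δ = 0 := by
    rw [WeierstrassCurve.map_Δ, h0, _root_.map_zero]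
  rw [← hC, WeierstrassCurve.variableChange_Δ] at h1
  rcases mul_eq_zero.mp h1 with h2 | h2
  · exact (pow_ne_zero 12 (Units.ne_zero _)) h2
  · exact hE h2

/-- irreducibility of the mod `p` representation passes to an integral model -/
theorem s44h_irr {E : WeierstrassCurve ℚ} {W : WeierstrassCurve ℤ}
    (hW : W.IsIntegralModelOf E) {p : ℕ}
    (hirr : GaloisRepIsIrreducible (K := AlgebraicClosure ℚ) ℚ E p) :
    W.ModRepIsIrreducible p := by
  obtain ⟨C, hC⟩ := hW
  obtain ⟨φ, hφ⟩ := Fermat.Agent.S41lib.ne_exists_equiv_of_variableChange E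
    (W.map (Int.castRingHom ℚ)) C hC
  -- the induced map on the torsion
  have hmem : ∀ x : (E.toAffine⁄(AlgebraicClosure ℚ)).Point,
      x ∈ Submodule.torsionBy ℤ (E.toAffine⁄(AlgebraicClosure ℚ)).Point p →
      φ x ∈ Submodule.torsionBy ℤ
        ((W.map (Int.castRingHom ℚ)).toAffine⁄(AlgebraicClosure ℚ)).Point p := by
    intro x hx
    rw [Submodule.mem_torsionBy_iff] at hx ⊢
    rw [← map_zsmul, hx, _root_.map_zero]
  have hmem' : ∀ y : ((W.map (Int.castRingHom ℚ)).toAffine⁄(AlgebraicClosure ℚ)).Point,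
      y ∈ Submodule.torsionBy ℤ
        ((W.map (Int.castRingHom ℚ)).toAffine⁄(AlgebraicClosure ℚ)).Point p →
      φ.symm y ∈ Submodule.torsionBy ℤ (E.toAffine⁄(AlgebraicClosure ℚ)).Point p := by
    intro y hy
    rw [Submodule.mem_torsionBy_iff] at hy ⊢
    rw [← map_zsmul, hy, _root_.map_zero]
  obtain ⟨hnt, hN⟩ := hirr
  refine ⟨?_, ?_⟩
  · obtain ⟨a, b, hab⟩ := hnt
    refine ⟨⟨⟨φ a, hmem a a.2⟩, ⟨φ b, hmem b b.2⟩, ?_⟩⟩
    intro h
    apply hab
    apply Subtype.ext
    exact φ.injective (congrArg Subtype.val h)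
  · intro N' hN'
    -- the pull-back of `N'`
    let N₀ : AddSubgroup (Submodule.torsionBy ℤ (E.toAffine⁄(AlgebraicClosure ℚ)).Point p) :=
      { carrier := {x | (⟨φ x, hmem x x.2⟩ : Submodule.torsionBy ℤ
          ((W.map (Int.castRingHom ℚ)).toAffine⁄(AlgebraicClosure ℚ)).Point p) ∈ N'}
        zero_mem' := by
          show (⟨φ ((0 : Submodule.torsionBy ℤ (E.toAffine⁄(AlgebraicClosure ℚ)).Point p) :
            (E.toAffine⁄(AlgebraicClosure ℚ)).Point), _⟩ : Submodule.torsionBy ℤ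
            ((W.map (Int.castRingHom ℚ)).toAffine⁄(AlgebraicClosure ℚ)).Point p) ∈ N'
          have e : (⟨φ ((0 : Submodule.torsionBy ℤ (E.toAffine⁄(AlgebraicClosure ℚ)).Point p) :
            (E.toAffine⁄(AlgebraicClosure ℚ)).Point), hmem _ (Submodule.zero_mem _)⟩ :
            Submodule.torsionBy ℤ
            ((W.map (Int.castRingHom ℚ)).toAffine⁄(AlgebraicClosure ℚ)).Point p) = 0 := by
            apply Subtype.ext
            show φ 0 = 0
            exact _root_.map_zero φ
          rw [e]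
          exact N'.zero_mem
        add_mem' := by
          intro x y hx hy
          have e : (⟨φ ((x + y : Submodule.torsionBy ℤ
              (E.toAffine⁄(AlgebraicClosure ℚ)).Point p) :
              (E.toAffine⁄(AlgebraicClosure ℚ)).Point), hmem _ (x + y).2⟩ :
              Submodule.torsionBy ℤ
              ((W.map (Int.castRingHom ℚ)).toAffine⁄(AlgebraicClosure ℚ)).Point p)
              = ⟨φ x, hmem x x.2⟩ + ⟨φ y, hmem y y.2⟩ := by
            apply Subtype.ext
            show φ ((x : (E.toAffine⁄(AlgebraicClosure ℚ)).Point) + y) = φ x + φ y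
            exact map_add φ _ _
          show (⟨φ ((x + y : Submodule.torsionBy ℤ
              (E.toAffine⁄(AlgebraicClosure ℚ)).Point p) :
              (E.toAffine⁄(AlgebraicClosure ℚ)).Point), _⟩ : Submodule.torsionBy ℤ
              ((W.map (Int.castRingHom ℚ)).toAffine⁄(AlgebraicClosure ℚ)).Point p) ∈ N'
          rw [e]
          exact N'.add_mem hx hy
        neg_mem' := by
          intro x hx
          have e : (⟨φ ((-x : Submodule.torsionBy ℤ
              (E.toAffine⁄(AlgebraicClosure ℚ)).Point p) :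
              (E.toAffine⁄(AlgebraicClosure ℚ)).Point), hmem _ (-x).2⟩ :
              Submodule.torsionBy ℤ
              ((W.map (Int.castRingHom ℚ)).toAffine⁄(AlgebraicClosure ℚ)).Point p)
              = -⟨φ x, hmem x x.2⟩ := by
            apply Subtype.ext
            show φ (-(x : (E.toAffine⁄(AlgebraicClosure ℚ)).Point)) = -φ x
            exact map_neg φ _
          show (⟨φ ((-x : Submodule.torsionBy ℤ
              (E.toAffine⁄(AlgebraicClosure ℚ)).Point p) :
              (E.toAffine⁄(AlgebraicClosure ℚ)).Point), _⟩ : Submodule.torsionBy ℤ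
              ((W.map (Int.castRingHom ℚ)).toAffine⁄(AlgebraicClosure ℚ)).Point p) ∈ N'
          rw [e]
          exact N'.neg_mem hx }
    have hstab : IsGaloisStable ℚ (AddSubgroup.toZModSubmodule p N₀) := by
      intro σ x hx
      show (⟨φ ((σ • x : Submodule.torsionBy ℤ (E.toAffine⁄(AlgebraicClosure ℚ)).Point p) :
        (E.toAffine⁄(AlgebraicClosure ℚ)).Point), _⟩ : Submodule.torsionBy ℤ
        ((W.map (Int.castRingHom ℚ)).toAffine⁄(AlgebraicClosure ℚ)).Point p) ∈ N'
      have e : (⟨φ ((σ • x : Submodule.torsionBy ℤ (E.toAffine⁄(AlgebraicClosure ℚ)).Point p) :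
          (E.toAffine⁄(AlgebraicClosure ℚ)).Point), hmem _ (σ • x).2⟩ : Submodule.torsionBy ℤ
          ((W.map (Int.castRingHom ℚ)).toAffine⁄(AlgebraicClosure ℚ)).Point p)
          = σ • ⟨φ x, hmem x x.2⟩ := by
        apply Subtype.ext
        show φ (σ • (x : (E.toAffine⁄(AlgebraicClosure ℚ)).Point)) = σ • φ x
        exact hφ σ _
      rw [e]
      exact hN' σ _ hx
    rcases hN _ hstab with h | h
    · left
      rw [eq_bot_iff]
      intro y hy
      have h1 : (⟨φ.symm y, hmem' y y.2⟩ :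
          Submodule.torsionBy ℤ (E.toAffine⁄(AlgebraicClosure ℚ)).Point p)
          ∈ AddSubgroup.toZModSubmodule p N₀ := by
        show (⟨φ (φ.symm (y : ((W.map (Int.castRingHom ℚ)).toAffine⁄(AlgebraicClosure ℚ)).Point)),
          _⟩ : Submodule.torsionBy ℤ
          ((W.map (Int.castRingHom ℚ)).toAffine⁄(AlgebraicClosure ℚ)).Point p) ∈ N'
        have e : (⟨φ (φ.symm (y : ((W.map (Int.castRingHom ℚ)).toAffine⁄(AlgebraicClosure
            ℚ)).Point)), hmem _ (hmem' y y.2)⟩ : Submodule.torsionBy ℤ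
            ((W.map (Int.castRingHom ℚ)).toAffine⁄(AlgebraicClosure ℚ)).Point p) = y := by
          apply Subtype.ext
          exact φ.apply_symm_apply _
        rw [e]
        exact hy
      rw [h] at h1
      have h2 : (⟨φ.symm y, hmem' y y.2⟩ :
          Submodule.torsionBy ℤ (E.toAffine⁄(AlgebraicClosure ℚ)).Point p) = 0 :=
        (Submodule.mem_bot _).mp h1
      have h3 : φ.symm (y : ((W.map (Int.castRingHom ℚ)).toAffine⁄(AlgebraicClosure ℚ)).Point)
          = 0 := congrArg Subtype.val h2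
      rw [Submodule.mem_bot]
      apply Subtype.ext
      have h4 := congrArg φ h3
      rw [φ.apply_symm_apply, _root_.map_zero] at h4
      exact h4
    · right
      rw [eq_top_iff]
      intro y _
      have h1 : (⟨φ.symm y, hmem' y y.2⟩ :
          Submodule.torsionBy ℤ (E.toAffine⁄(AlgebraicClosure ℚ)).Point p)
          ∈ AddSubgroup.toZModSubmodule p N₀ := by
        rw [h]
        exact Submodule.mem_top
      have h2 : (⟨φ (φ.symm (y : ((W.map (Int.castRingHom ℚ)).toAffine⁄(AlgebraicClosure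
          ℚ)).Point)), hmem _ (hmem' y y.2)⟩ : Submodule.torsionBy ℤ
          ((W.map (Int.castRingHom ℚ)).toAffine⁄(AlgebraicClosure ℚ)).Point p) ∈ N' := h1
      have e : (⟨φ (φ.symm (y : ((W.map (Int.castRingHom ℚ)).toAffine⁄(AlgebraicClosure
          ℚ)).Point)), hmem _ (hmem' y y.2)⟩ : Submodule.torsionBy ℤ
          ((W.map (Int.castRingHom ℚ)).toAffine⁄(AlgebraicClosure ℚ)).Point p) = y := by
        apply Subtype.ext
        exact φ.apply_symm_apply _
      rw [e] at h2
      exact h2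

/-- **S44 from (W1) and the J-side block** `S40hGeom4` (LIFT form). -/
theorem s44h_asm4 (P : FreyPackage) {N : ℕ} (hcond : P.IsConductorLevel N) (hpN : P.p ∣ N)
    (hirr : GaloisRepIsIrreducible (K := AlgebraicClosure ℚ) ℚ P.freyCurve P.p)
    (hmod : P.ModularRepOfLevel N)
    (hW1 : ∀ W : WeierstrassCurve ℤ, W.IsIntegralModelOf P.freyCurve →
      (P.p : ℤ) ∣ P.a * P.b * P.c →
      ∀ B : ValuationSubring (AlgebraicClosure ℚ), B.LiesOverPrime P.p →
        S40hW1 W P.p B (S40hPeuB P.p B))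
    (hG : ∀ W : WeierstrassCurve ℤ, W.IsIntegralModelOf P.freyCurve →
      ∀ (B : ValuationSubring (AlgebraicClosure ℚ)), B.LiesOverPrime P.p →
      ∀ (M' : ℕ) [NeZero M'] [NeZero (M' * P.p)], ¬ P.p ∣ M' →
        S40hGeom4 W M' P.p B (S40hPeuB P.p B)) :
    ∃ M : ℕ, M ∣ N ∧ ¬ P.p ∣ M ∧ P.ModularRepOfLevel M := by
  obtain ⟨f, W, 𝔪, hf, hWint, h𝔪, hp𝔪, hcong⟩ := hmod
  have hp : P.p.Prime := P.pp
  have hp2 : P.p ≠ 2 := by
    have := P.hp5
    omega
  have hΔ : W.Δ ≠ 0 := s44h_Δ_ne_zero hWint (Fermat.Agent.DivPoly.freyCurve_Δ_ne_zero P)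
  have hirrW : W.ModRepIsIrreducible P.p := s44h_irr hWint hirr
  have hmodW : W.IsResiduallyModularOfLevel P.p N := ⟨f, 𝔪, hf, h𝔪, hp𝔪, hcong⟩
  have hp2N : ¬ P.p ^ 2 ∣ N := hcond.sq_not_dvd hp
  obtain ⟨B, -, hB, -⟩ := Fermat.Agent.FrobLib.exists_isFrobeniusAt P.p hp
  have hres : W.IsResiduallyModularOfLevel P.p (N / P.p) :=
    s40h_main4 W hp hcond.pos hpN hp2N hmodW (dich_final_all W hΔ hp hp2 hirrW)
      (s40h_cardW W hΔ hp hp2) (new_hnE W hΔ hp hp2 hirrW) B (S40hPeuB P.p B)
      (hW1 W hWint (hcond.p_dvd_abc hpN) B hB) (hG W hWint B hB)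
  refine ⟨N / P.p, Nat.div_dvd_of_dvd hpN, ?_, ?_⟩
  · intro h
    apply hp2N
    obtain ⟨c, hc⟩ := h
    obtain ⟨d, hd⟩ := hpN
    have h1 : N / P.p = d := by
      rw [hd]
      exact Nat.mul_div_cancel_left d hp.pos
    rw [h1] at hc
    exact ⟨c, by rw [hd, hc]; ring⟩
  · obtain ⟨g, 𝔪', hg, h𝔪', hp𝔪', hcong'⟩ := hres
    exact ⟨g, W, 𝔪', hg, hWint, h𝔪', hp𝔪', hcong'⟩

/-- **S44 from (W1), (J-TAME) and (J-WILD)**. -/
theorem s44h_asm (P : FreyPackage) {N : ℕ} (hcond : P.IsConductorLevel N) (hpN : P.p ∣ N)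
    (hirr : GaloisRepIsIrreducible (K := AlgebraicClosure ℚ) ℚ P.freyCurve P.p)
    (hmod : P.ModularRepOfLevel N)
    (hW1 : ∀ W : WeierstrassCurve ℤ, W.IsIntegralModelOf P.freyCurve →
      (P.p : ℤ) ∣ P.a * P.b * P.c →
      ∀ B : ValuationSubring (AlgebraicClosure ℚ), B.LiesOverPrime P.p →
        S40hW1 W P.p B (S40hPeuB P.p B))
    (hJ : ∀ (B : ValuationSubring (AlgebraicClosure ℚ)), B.LiesOverPrime P.p →
      ∀ (M' : ℕ) [NeZero M'] [NeZero (M' * P.p)], ¬ P.p ∣ M' →
        S40jTame M' P.p B ∧ S40jWild M' P.p B) :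
    ∃ M : ℕ, M ∣ N ∧ ¬ P.p ∣ M ∧ P.ModularRepOfLevel M := by
  have hp : P.p.Prime := P.pp
  have hp2 : P.p ≠ 2 := by
    have := P.hp5
    omega
  haveI : NeZero P.p := ⟨hp.ne_zero⟩
  refine s44h_asm4 P hcond hpN hirr hmod hW1 ?_
  intro W _ B hB M' _ _ hpM'
  refine s40h_geom4_of_geom3 W hp (s40j_geom3 M' P.p hp hp2 hpM' B hB ?_ (hJ B hB M' hpM').1
    (hJ B hB M' hpM').2)
  intro S a V hS hcard hVp hstab hEig hNot _
  exact s40h_omega3 M' P.p hp hp2 hpM' B hB S a V hS hcard hVp hstab hEig hNot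

end Fermat.Agent.S40lib

end
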