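import Mathlib
import Fermat.Agent.S36lib.Speed
import Fermat.Agent.S40lib.SSNewton
import Fermat.Agent.S40lib.SSShape

/-!
# Item 88 (S44/S40), block (W1-mult), piece (M4) (helper3): the ladder polynomials at `X = 0`

On a curve with `b₄ = 2 c`, `b₆ = 0`, `b₈ = - c²` (for instance the shape curve
`Y² = X³ + B₀ X² + C₀ X`, `c = C₀`), the point `X = 0` is a point of order `2`, so the ladder
polynomials `(F_n, G_n)` satisfy `F_n(0) = 0` for odd `n` and `G_n(0) = 0` for even `n`; moreover
`c ∣ F_n(0)` for even `n ≥ 2`.  Hence `c` divides the constant coefficient of the torsion polynomial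
`torsPoly W m` (`m ≥ 1`).

Consequence (multiplicative reduction at `p`, `p ∣ C₀`): the torsion polynomial has leading
coefficient `-p` and constant coefficient divisible by `p`, so not all of its roots are
non-integral (`ssn_factor`): some nonzero `p`-torsion point has an integral `x`-coordinate, i.e.
`W[p]` is not contained in the kernel of reduction.

* `ldz_ladder`       : the values at `0` of the ladder polynomials;
* `ldz_torsPoly`     : `c ∣ (torsPoly W m).eval 0`;
* `ldz_exists_root`  : an integral root of the torsion polynomial;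
* `ldz_exists_point` : **(M4)** a nonzero `p`-torsion point with integral `x`-coordinate.
-/

set_option autoImplicit false
set_option linter.style.longLine false
set_option linter.unusedSectionVars false
set_option linter.unusedVariables false
set_option linter.style.haveILetI false

noncomputable section

namespace Fermat.Agent.S40lib

open Polynomial WeierstrassCurve WeierstrassCurve.Affine Fermat.Agent.Ladder
open Fermat.Agent.S24lib Fermat.Agent.S36lib Fermat.Agent.S33lib

section Abstract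

variable {R : Type*} [CommRing R] (W : WeierstrassCurve R)

theorem ldz_dblG_eval (F G : R[X]) (h6 : W.b₆ = 0) (hfg : F.eval 0 * G.eval 0 = 0) :
    (dblG W F G).eval 0 = 0 := by
  unfold dblG
  simp only [eval_add, eval_mul, eval_pow, eval_C, eval_ofNat, h6]
  linear_combination (4 * F.eval 0 ^ 2 + W.b₂ * F.eval 0 * G.eval 0
    + 2 * W.b₄ * G.eval 0 ^ 2) * hfg

theorem ldz_dblF_eval (F G : R[X]) (c : R) (h4 : W.b₄ = 2 * c) (h6 : W.b₆ = 0)
    (h8 : W.b₈ = -c ^ 2) :
    (dblF W F G).eval 0 = (F.eval 0 ^ 2 - c * G.eval 0 ^ 2) ^ 2 := by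
  unfold dblF
  simp only [eval_sub, eval_mul, eval_pow, eval_C, h4, h6, h8]
  ring

theorem ldz_oddF_eval (F G F' G' : R[X]) (hff : F'.eval 0 * F.eval 0 = 0)
    (hgg : G'.eval 0 * G.eval 0 = 0) :
    (oddF W F G F' G').eval 0 = 0 := by
  unfold oddF oddT oddS
  simp only [eval_sub, eval_add, eval_mul, eval_pow, eval_C, eval_X, eval_ofNat]
  linear_combination (2 * (F'.eval 0 * G.eval 0 + F.eval 0 * G'.eval 0)
    + W.b₂ * (G'.eval 0 * G.eval 0)) * hff
    + (W.b₄ * (F'.eval 0 * G.eval 0 + F.eval 0 * G'.eval 0)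
    + W.b₆ * (G'.eval 0 * G.eval 0)) * hgg

/-- **the ladder at `X = 0`**: `G_n(0) = 0` and `c ∣ F_n(0)` (`n ≥ 2`) for even `n`,
`F_n(0) = 0` for odd `n`. -/
theorem ldz_ladder (c : R) (h4 : W.b₄ = 2 * c) (h6 : W.b₆ = 0) (h8 : W.b₈ = -c ^ 2) :
    ∀ n : ℕ, (Even n → (LG W n).eval 0 = 0 ∧ (2 ≤ n → c ∣ (LF W n).eval 0)) ∧
      (Odd n → (LF W n).eval 0 = 0) := by
  intro n
  induction n using Nat.strong_induction_on with
  | _ n ih =>
    -- the product `F_k(0) G_k(0)` vanishes for `k < n`
    have hfg : ∀ k, k < n → (LF W k).eval 0 * (LG W k).eval 0 = 0 := by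
      intro k hk
      rcases Nat.even_or_odd k with he | ho
      · rw [((ih k hk).1 he).1, mul_zero]
      · rw [(ih k hk).2 ho, zero_mul]
    rcases Nat.lt_or_ge n 2 with hn | hn
    · interval_cases n
      · refine ⟨fun _ => ⟨by simp, fun h => absurd h (by norm_num)⟩, fun h => ?_⟩
        exact absurd h (by decide)
      · refine ⟨fun h => absurd h (by decide), fun _ => by simp⟩
    · rcases Nat.even_or_odd' n with ⟨k, rfl | rfl⟩
      · -- `n = 2 k`
        have hk1 : 1 ≤ k := by omega
        have hk : k < 2 * k := by omega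
        refine ⟨fun _ => ⟨?_, fun _ => ?_⟩, fun ho => ?_⟩
        · rw [LG_even W k hk1]
          exact ldz_dblG_eval W _ _ h6 (hfg k hk)
        · rw [LF_even W k hk1, ldz_dblF_eval W _ _ c h4 h6 h8]
          rcases Nat.even_or_odd k with he | ho
          · have hk2 : 2 ≤ k := by
              rcases he with ⟨j, hj⟩
              omega
            obtain ⟨d, hd⟩ := ((ih k hk).1 he).2 hk2
            refine ⟨(c * d ^ 2 - (LG W k).eval 0 ^ 2) ^ 2 * c, ?_⟩
            rw [hd]
            ring
          · rw [(ih k hk).2 ho]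
            refine ⟨c * (LG W k).eval 0 ^ 4, ?_⟩
            ring
        · exact absurd ho (by
            rw [Nat.not_odd_iff_even]
            exact even_two_mul k)
      · -- `n = 2 k + 1`
        have hk1 : 1 ≤ k := by omega
        have hk : k < 2 * k + 1 := by omega
        have hk' : k + 1 < 2 * k + 1 := by omega
        refine ⟨fun he => ?_, fun _ => ?_⟩
        · exact absurd he (by
            rw [Nat.not_even_iff_odd]
            exact odd_two_mul_add_one k)
        · rw [LF_odd W k hk1]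
          apply ldz_oddF_eval
          · rcases Nat.even_or_odd k with he | ho
            · rw [(ih (k + 1) hk').2 (Even.add_one he), zero_mul]
            · rw [(ih k hk).2 ho, mul_zero]
          · rcases Nat.even_or_odd k with he | ho
            · rw [((ih k hk).1 he).1, mul_zero]
            · rw [((ih (k + 1) hk').1 (Odd.add_one ho)).1, zero_mul]

/-- `c` divides the constant coefficient of the torsion polynomial -/
theorem ldz_torsPoly (c : R) (h4 : W.b₄ = 2 * c) (h6 : W.b₆ = 0) (h8 : W.b₈ = -c ^ 2)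
    (m : ℕ) (hm : 1 ≤ m) : c ∣ (torsPoly W m).eval 0 := by
  have hL := ldz_ladder W c h4 h6 h8
  unfold torsPoly oddS
  simp only [eval_sub, eval_mul]
  rcases Nat.even_or_odd m with he | ho
  · have hm2 : 2 ≤ m := by
      rcases he with ⟨j, hj⟩
      omega
    rw [(hL (m + 1)).2 (Even.add_one he), zero_mul, zero_sub]
    exact (dvd_neg).mpr (Dvd.dvd.mul_right (((hL m).1 he).2 hm2) _)
  · rw [(hL m).2 ho, zero_mul, sub_zero]
    exact Dvd.dvd.mul_right (((hL (m + 1)).1 (Odd.add_one ho)).2 (by omega)) _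

end Abstract

section Concrete

/-- the `b`-invariants of a shape curve -/
theorem ldz_shape_b {R : Type*} [CommRing R] (W : WeierstrassCurve R) (h1 : W.a₁ = 0)
    (h3 : W.a₃ = 0) (h6 : W.a₆ = 0) : W.b₄ = 2 * W.a₄ ∧ W.b₆ = 0 ∧ W.b₈ = -W.a₄ ^ 2 := by
  refine ⟨?_, ?_, ?_⟩
  · rw [WeierstrassCurve.b₄, h1, h3]
    ring
  · rw [WeierstrassCurve.b₆, h3, h6]
    ring
  · rw [WeierstrassCurve.b₈, h1, h3, h6]
    ring

/-- **an integral root of the torsion polynomial**: a polynomial over `ℤ` of degree `≤ d`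
(`d ≥ 1`) whose coefficient of `X ^ d` is `± p`-like (`v (lead) = v p ≠ 0`) and whose constant
coefficient is divisible by `p` has a root in every valuation subring of `ℚ̄`. -/
theorem ldz_exists_root (B : ValuationSubring Kbar) (S : ℤ[X]) (d : ℕ) (hd : 1 ≤ d)
    (p : ℕ) (hp0 : p ≠ 0) (hlead : S.coeff d = -(p : ℤ)) (h0 : (p : ℤ) ∣ S.coeff 0) :
    ∃ x : Kbar, (S.map (algebraMap ℤ Kbar)).eval x = 0 ∧ x ∈ B := by
  by_contra hcon
  push Not at hcon
  have hpK : (p : Kbar) ≠ 0 := Nat.cast_ne_zero.mpr hp0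
  have hcd : (S.map (algebraMap ℤ Kbar)).coeff d = -(p : Kbar) := by
    rw [coeff_map, hlead]
    simp
  have hS : S.map (algebraMap ℤ Kbar) ≠ 0 := by
    intro h
    rw [h, coeff_zero] at hcd
    exact hpK (neg_eq_zero.mp hcd.symm)
  obtain ⟨Q, hQ, hSQ⟩ := ssn_factor B (S.map (algebraMap ℤ Kbar)) hS hcon
  obtain ⟨c₁, hc₁⟩ := h0
  have hc0 : (S.map (algebraMap ℤ Kbar)).coeff 0 = (p : Kbar) * (c₁ : Kbar) := by
    rw [coeff_map, hc₁]
    simp
  have hcoef : (S.map (algebraMap ℤ Kbar)).coeff d
      = (S.map (algebraMap ℤ Kbar)).coeff 0 * Q.coeff d := by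
    conv_lhs => rw [hSQ]
    rw [coeff_C_mul]
  have hv1 : B.valuation (c₁ : Kbar) ≤ 1 := (B.valuation_le_one_iff _).mpr (intCast_mem B c₁)
  have hv2 : B.valuation (Q.coeff d) < 1 := hQ.2 d hd
  have hvp : 0 < B.valuation (p : Kbar) := by
    rw [zero_lt_iff]
    exact (B.valuation.ne_zero_iff).mpr hpK
  have hval : B.valuation (p : Kbar)
      = B.valuation (p : Kbar) * B.valuation (c₁ : Kbar) * B.valuation (Q.coeff d) := by
    have := congrArg B.valuation hcoef
    rw [hcd, hc0, Valuation.map_neg, map_mul, map_mul] at this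
    exact this
  have hlt : B.valuation (p : Kbar) * B.valuation (c₁ : Kbar) * B.valuation (Q.coeff d)
      < B.valuation (p : Kbar) := by
    calc B.valuation (p : Kbar) * B.valuation (c₁ : Kbar) * B.valuation (Q.coeff d)
        ≤ B.valuation (p : Kbar) * 1 * B.valuation (Q.coeff d) := by
          gcongr
      _ < B.valuation (p : Kbar) * 1 * 1 := by
          apply mul_lt_mul_of_pos_left hv2
          rw [mul_one]
          exact hvp
      _ = B.valuation (p : Kbar) := by rw [mul_one, mul_one]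
  rw [← hval] at hlt
  exact lt_irrefl _ hlt

/-- **(M4)**: on an integral shape curve `Y² = X³ + B₀ X² + C₀ X` with `p ∣ C₀` (`p` odd), some
nonzero `p`-torsion point has an `x`-coordinate which is integral at `B`. -/
theorem ldz_exists_point (W : WeierstrassCurve ℤ) (h1 : W.a₁ = 0) (h3 : W.a₃ = 0)
    (h6 : W.a₆ = 0) (hΔ : W.Δ ≠ 0) (p : ℕ) (hp : p.Prime) (hp2 : p ≠ 2)
    (hpC : (p : ℤ) ∣ W.a₄) (B : ValuationSubring (AlgebraicClosure ℚ)) :
    ∃ (x y : AlgebraicClosure ℚ) (h : (ssnE W).Nonsingular x y),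
      p • (Point.some x y h : (ssnE W).Point) = 0 ∧ x ∈ B := by
  obtain ⟨m, hm, hpm⟩ : ∃ m, 1 ≤ m ∧ p = 2 * m + 1 := by
    rcases hp.eq_two_or_odd' with e | ⟨m, hm⟩
    · exact absurd e hp2
    · refine ⟨m, ?_, hm⟩
      have := hp.two_le
      omega
  obtain ⟨hb4, hb6, hb8⟩ := ldz_shape_b W h1 h3 h6
  have hdvd : (p : ℤ) ∣ (torsPoly W m).coeff 0 := by
    rw [coeff_zero_eq_eval_zero]
    exact hpC.trans (ldz_torsPoly W W.a₄ hb4 hb6 hb8 m hm)
  have htop := top_torsPoly W m hm
  have hlead : (torsPoly W m).coeff (2 * m ^ 2 + 2 * m) = -(p : ℤ) := by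
    rw [htop.co, hpm]
    push_cast
    ring
  have hd : 1 ≤ 2 * m ^ 2 + 2 * m := by
    have : 1 ≤ m ^ 2 := Nat.one_le_pow _ _ hm
    omega
  obtain ⟨x, hx, hxB⟩ := ldz_exists_root B (torsPoly W m) _ hd p hp.ne_zero hlead hdvd
  exact ssn_ord_point W p hΔ B m hm hpm (fun hall => hall x hx hxB)

end Concrete

end Fermat.Agent.S40lib

end
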