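import Mathlib
import Fermat.Agent.S36lib.Speed
import Fermat.Agent.S05_Main

/-!
# Item 88 (S44 / W1-mult), piece (M2) (helper21): inertia moves `p`-torsion inside `E₁`

Abstract shape curve `y² = x³ + B x² + C x` over an algebraically closed valued field `(K, v)`
with `v 2 = 1`; the prime `p` may be a NON-unit for `v`.  Good reduction, or multiplicative
reduction (node at the origin) with `v(C)² = v(ϖ)^p` for a `σ`-fixed `ϖ`.  Then for every inertial
`σ` (acting on points by `φ`) and every `P` with `p • P = 0`: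

  `φ P - P ∈ E₁`   (`wme_sub_mem_E1`).

This is the proof of `Fermat.Agent.S05lib.unramified_of_shape` without its last step
(`E1_torsion_free`, the only place where `v p = 1` is used there).

* `wme_key` : if `R` is `φ`-fixed and `P - R` has nonsingular reduction then `φ P - P ∈ E₁`;
* `wme_exists_fixed` : (multiplicative case) a `φ`-fixed point `R` with `P - R ∈ E₀`;
* `wme_sub_mem_E1` : the statement above.
-/

set_option autoImplicit false
set_option linter.unusedSectionVars false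

namespace Fermat.Agent.S40lib

open WeierstrassCurve WeierstrassCurve.Affine Fermat.Agent.S05lib

variable {K : Type*} [Field K] [DecidableEq K]
  {Γ₀ : Type*} [LinearOrderedCommGroupWithZero Γ₀]

/-- if `R` is `φ`-fixed and `P - R` has nonsingular reduction, then `φ P - P ∈ E₁` -/
theorem wme_key (v : Valuation K Γ₀) {W : WeierstrassCurve K} (hW : Shape W)
    (hB : v W.a₂ ≤ 1) (hC : v W.a₄ ≤ 1) (h2 : v (2 : K) = 1)
    (σ : K →+* K) (hσ : IsInertial v σ) (hσB : σ W.a₂ = W.a₂) (hσC : σ W.a₄ = W.a₄)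
    (φ : W.toAffine.Point →+ W.toAffine.Point)
    (hφ : ∀ (x y : K) (h : W.toAffine.Nonsingular x y),
      ∃ h' : W.toAffine.Nonsingular (σ x) (σ y), φ (Point.some x y h) = Point.some (σ x) (σ y) h')
    (P R : W.toAffine.Point) (hR : φ R = R) (hns : NonsingRed v (P - R)) :
    InE1 v (φ P - P) := by
  have h1 := inertial_sub_mem_E1 v hW hB hC h2 σ hσ hσB hσC φ hφ (P - R) hns
  have e : φ (P - R) - (P - R) = φ P - P := by rw [map_sub, hR]; abel
  rwa [e] at h1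

/-- (multiplicative case) every `p`-torsion point differs from a `φ`-fixed point by an element
of `E₀` -/
theorem wme_exists_fixed [IsAlgClosed K] (v : Valuation K Γ₀)
    {W : WeierstrassCurve K} (hW : Shape W) (hB1 : v W.a₂ = 1) (hC1 : v W.a₄ < 1)
    (hC0 : W.a₄ ≠ 0) (h2 : v (2 : K) = 1) {p : ℕ} (hp : p.Prime)
    (σ : K →+* K) (hσ : IsInertial v σ) (hσB : σ W.a₂ = W.a₂) (hσC : σ W.a₄ = W.a₄)
    (φ : W.toAffine.Point →+ W.toAffine.Point)
    (hφ : ∀ (x y : K) (h : W.toAffine.Nonsingular x y),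
      ∃ h' : W.toAffine.Nonsingular (σ x) (σ y), φ (Point.some x y h) = Point.some (σ x) (σ y) h')
    (ϖ : K) (hσϖ : σ ϖ = ϖ) (hϖ : v ϖ ^ p = v W.a₄ ^ 2)
    (P : W.toAffine.Point) (hP : p • P = 0) :
    ∃ R : W.toAffine.Point, φ R = R ∧ InE0 v (P - R) := by
  rcases P with _ | ⟨x, y, h⟩
  · exact ⟨0, map_zero φ, by rw [sub_zero]; exact trivial⟩
  by_cases hx1 : 1 ≤ v x
  · exact ⟨0, map_zero φ, by rw [sub_zero]; exact hx1⟩
  rw [not_le] at hx1
  by_cases hxC : v x ≤ v W.a₄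
  · obtain ⟨h0, hE0⟩ := sub_T0_mem_E0 v hW hC0 h hxC
    refine ⟨Point.some 0 0 h0, ?_, hE0⟩
    obtain ⟨h', e⟩ := hφ 0 0 h0
    rw [e]
    exact point_some_congr (map_zero σ) (map_zero σ) _ _
  rw [not_le] at hxC
  have hx0 : x ≠ 0 := by
    rintro rfl; rw [map_zero] at hxC; exact not_lt_zero hxC
  have hvx0 : v x ≠ 0 := (v.ne_zero_iff).mpr hx0
  have e := (hW.equation_iff x y).mp h.1
  obtain ⟨β, hβ⟩ : ∃ β, β ^ 2 = W.a₂ := IsAlgClosed.exists_pow_nat_eq W.a₂ (by norm_num)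
  have hprod : v ((y / x - β) * (y / x + β)) < 1 := by
    have : (y / x - β) * (y / x + β) = x + W.a₄ / x := by
      field_simp
      linear_combination e - x ^ 2 * hβ
    rw [this]
    apply v.map_add_lt hx1
    rw [map_div₀]
    exact (div_lt_one₀ (zero_lt_iff.mpr hvx0)).mpr hxC
  obtain ⟨β', hβ', hs⟩ : ∃ β' : K, β' ^ 2 = W.a₂ ∧ v (y / x - β') < 1 := by
    by_cases h1 : v (y / x - β) < 1
    · exact ⟨β, hβ, h1⟩
    · refine ⟨-β, by rw [neg_sq, hβ], ?_⟩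
      rw [sub_neg_eq_add]
      by_contra h2c
      rw [not_lt] at h1 h2c
      rw [map_mul] at hprod
      exact absurd hprod (not_lt.mpr (one_le_mul_of_one_le_of_one_le h1 h2c))
  obtain ⟨k, hk⟩ := comp_torsion v hW hB1 hC1 hC0 h2 hβ' h hxC hx1 hs hP
  have hρ : v (ϖ ^ k) = v x := by
    apply pow_left_inj_of_ne_zero hp.ne_zero
    rw [hk, map_zpow₀, ← zpow_natCast (v ϖ ^ k) p, ← zpow_mul, mul_comm k (p : ℤ), zpow_mul,
      zpow_natCast, hϖ, ← zpow_natCast (v W.a₄) 2, ← zpow_mul]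
    norm_num
  obtain ⟨y', h', hσy', hE0⟩ := exists_fixed_same_comp v hW hB1 hC1 hC0 h2 σ hσ hσB hσC h
    hxC hx1 hρ (by rw [map_zpow₀, hσϖ])
  refine ⟨Point.some _ _ h', ?_, hE0⟩
  obtain ⟨h'', e'⟩ := hφ _ _ h'
  rw [e']
  exact point_some_congr (by rw [map_zpow₀, hσϖ]) hσy' _ _

/-- **(M2)**: an inertial `σ` moves every `p`-torsion point inside `E₁` (good reduction, or
multiplicative reduction with `v(C)² = v(ϖ)^p`); `p` need not be a unit. -/
theorem wme_sub_mem_E1 [IsAlgClosed K] (v : Valuation K Γ₀)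
    {W : WeierstrassCurve K} (hW : Shape W)
    (hB : v W.a₂ ≤ 1) (hC : v W.a₄ ≤ 1)
    (h2 : v (2 : K) = 1) {p : ℕ} (hp : p.Prime)
    (σ : K →+* K) (hσ : IsInertial v σ) (hσB : σ W.a₂ = W.a₂) (hσC : σ W.a₄ = W.a₄)
    (φ : W.toAffine.Point →+ W.toAffine.Point)
    (hφ : ∀ (x y : K) (h : W.toAffine.Nonsingular x y),
      ∃ h' : W.toAffine.Nonsingular (σ x) (σ y), φ (Point.some x y h) = Point.some (σ x) (σ y) h')
    (hred : (v W.a₄ = 1 ∧ v (W.a₂ ^ 2 - 4 * W.a₄) = 1) ∨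
      (v W.a₂ = 1 ∧ v W.a₄ < 1 ∧ W.a₄ ≠ 0 ∧ ∃ ϖ : K, σ ϖ = ϖ ∧ v ϖ ^ p = v W.a₄ ^ 2))
    (P : W.toAffine.Point) (hP : p • P = 0) : InE1 v (φ P - P) := by
  rcases hred with ⟨hC1, hD⟩ | ⟨hB1, hC1, hC0, ϖ, hσϖ, hϖ⟩
  · exact wme_key v hW hB hC h2 σ hσ hσB hσC φ hφ P 0 (map_zero φ)
      (by rw [sub_zero]; exact nonsingRed_of_good v hW hB hC1 hD h2 P)
  · obtain ⟨R, hR, hE0⟩ := wme_exists_fixed v hW hB1 hC1 hC0 h2 hp σ hσ hσB hσC φ hφ ϖ hσϖ hϖ
      P hP
    exact wme_key v hW hB hC h2 σ hσ hσB hσC φ hφ P R hR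
      (nonsingRed_of_mult v hW hB1 hC1 h2 _ hE0)

end Fermat.Agent.S40lib
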