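import Mathlib
import Fermat.Agent.S36lib.Speed
import Fermat.Agent.S40lib.W1Ord
import Fermat.Agent.S40lib.W1MultE1
import Fermat.Agent.S05_Val

/-!
# Item 88 (S44 / W1-mult), pieces (M2c) + (M5) + the core glue (helper21)

`W : WeierstrassCurve ℤ` an integral SHAPE curve `Y² = X³ + n₂ X² + n₄ X`
(`a₁ = a₃ = a₆ = 0`) with multiplicative reduction at the odd prime `p`, node at the origin:
`p ∤ n₂`, `p ∣ n₄ ≠ 0`, and `n₄² = w ^ p` (peu ramifié).  `B` a valuation subring of `ℚ̄` over `p`.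

* `w1mc_inE1_iff`     : `InE1 B.valuation P ↔ ¬ w1oInt W B P`;
* `w1mc_inertia_sub`  : **(M2c)** for `σ` in the inertia group of `B` and `P ∈ W[p]`:
  `σ • P - P ∈ w1oE1 W B p` (the kernel of reduction in `W[p]`), from `wme_sub_mem_E1`;
* `w1mc_fixed`        : **(M5)** if some point of `W[p]` is integral, some integral point of
  `W[p]` is fixed by an inertia element moving `μ_p`;
* `w1mc_core`         : **the core** `S40hW1 W p B (S40hPeuB p B)` from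
  (M4) `∃ P ∈ W[p]`, `P ∉ w1oE1 W B p` and
  (M6) `∀ P ∈ W[p]` integral, `S40hPeuB p B (S40hStab P)`.
-/

set_option autoImplicit false
set_option linter.unusedSectionVars false
set_option linter.unusedVariables false
set_option linter.style.haveILetI false

open WeierstrassCurve WeierstrassCurve.Affine WeierstrassCurve.Affine.Point

namespace Fermat.Agent.S40lib

open Fermat.Agent.S33lib Fermat.Agent.S58lib Fermat.Agent.S41lib Fermat.Agent Fermat.Agent.S05lib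
  Fermat.Agent.S05wire IsLocalRing

variable (W : WeierstrassCurve ℤ) {p : ℕ} (hp : p.Prime) (hp2 : p ≠ 2)
  (B : ValuationSubring (AlgebraicClosure ℚ)) (hB : B.LiesOverPrime p)

/-- the kernel of reduction, in the two languages -/
theorem w1mc_inE1_iff (P : (ssnE W).Point) : InE1 B.valuation P ↔ ¬ w1oInt W B P := by
  rcases P with _ | ⟨x, y, h⟩
  · exact ⟨fun _ => w1oInt_zero W B, fun _ => trivial⟩
  · show 1 < B.valuation x ↔ ¬ x ∈ B
    rw [← B.valuation_le_one_iff, not_le]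

include hp hp2 hB in
/-- **(M2c)** inertia acts trivially on `W[p]` modulo the kernel of reduction (multiplicative
reduction, node at the origin, `n₄² = w ^ p`) -/
theorem w1mc_inertia_sub (h1 : W.a₁ = 0) (h3 : W.a₃ = 0) (h6 : W.a₆ = 0)
    (hn2 : ¬ (p : ℤ) ∣ W.a₂) (hn4 : (p : ℤ) ∣ W.a₄) (hn40 : W.a₄ ≠ 0)
    (w : ℤ) (hw : w ^ p = W.a₄ ^ 2)
    (σ : AlgebraicClosure ℚ ≃ₐ[ℚ] AlgebraicClosure ℚ)
    (hσ : σ ∈ B.inertiaSubgroupIn ℚ) (P : S40hWp W p) : σ • P - P ∈ w1oE1 W B p := by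
  rw [mem_w1oE1]
  have e0 : ((σ • P - P : S40hWp W p) : (ssnE W).Point)
      = σ • (P : (ssnE W).Point) - (P : (ssnE W).Point) := rfl
  rw [e0, ← w1mc_inE1_iff]
  have hσI : IsInertial B.valuation
      ((σ : AlgebraicClosure ℚ ≃ₐ[ℚ] AlgebraicClosure ℚ) :
        AlgebraicClosure ℚ →+* AlgebraicClosure ℚ) :=
    isInertial_of_mem_inertiaSubgroupIn B hσ
  have hPt := rh_nsmul_of_mem W P
  -- the coefficients
  have ea1 : ((W.map (Int.castRingHom ℚ)).baseChange (AlgebraicClosure ℚ)).a₁ = 0 := by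
    rw [ner_baseChange_eq, map_a₁, h1, _root_.map_zero]
  have ea3 : ((W.map (Int.castRingHom ℚ)).baseChange (AlgebraicClosure ℚ)).a₃ = 0 := by
    rw [ner_baseChange_eq, map_a₃, h3, _root_.map_zero]
  have ea6 : ((W.map (Int.castRingHom ℚ)).baseChange (AlgebraicClosure ℚ)).a₆ = 0 := by
    rw [ner_baseChange_eq, map_a₆, h6, _root_.map_zero]
  have ea2 : ((W.map (Int.castRingHom ℚ)).baseChange (AlgebraicClosure ℚ)).a₂
      = ((W.a₂ : ℤ) : AlgebraicClosure ℚ) := by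
    rw [ner_baseChange_eq, map_a₂, eq_intCast]
  have ea4 : ((W.map (Int.castRingHom ℚ)).baseChange (AlgebraicClosure ℚ)).a₄
      = ((W.a₄ : ℤ) : AlgebraicClosure ℚ) := by
    rw [ner_baseChange_eq, map_a₄, eq_intCast]
  have hW : Shape ((W.map (Int.castRingHom ℚ)).baseChange (AlgebraicClosure ℚ)) :=
    ⟨ea1, ea3, ea6⟩
  have hp2' : ¬ (p : ℤ) ∣ 2 := by
    intro h
    have h' : p ∣ 2 := by exact_mod_cast h
    exact hp2 ((Nat.prime_dvd_prime_iff_eq hp Nat.prime_two).mp h')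
  have v2 : B.valuation (2 : AlgebraicClosure ℚ) = 1 := by
    have := val_intCast_eq_one B hp hB hp2'
    simpa using this
  have hB1 : B.valuation ((W.map (Int.castRingHom ℚ)).baseChange (AlgebraicClosure ℚ)).a₂ = 1 := by
    rw [ea2]
    exact val_intCast_eq_one B hp hB hn2
  have hC1 : B.valuation ((W.map (Int.castRingHom ℚ)).baseChange (AlgebraicClosure ℚ)).a₄ < 1 := by
    rw [ea4]
    exact val_intCast_lt_one B hB hn4
  have hC0 : ((W.map (Int.castRingHom ℚ)).baseChange (AlgebraicClosure ℚ)).a₄ ≠ 0 := by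
    rw [ea4]
    exact_mod_cast hn40
  have hσB : ((σ : AlgebraicClosure ℚ ≃ₐ[ℚ] AlgebraicClosure ℚ) :
      AlgebraicClosure ℚ →+* AlgebraicClosure ℚ)
      ((W.map (Int.castRingHom ℚ)).baseChange (AlgebraicClosure ℚ)).a₂
      = ((W.map (Int.castRingHom ℚ)).baseChange (AlgebraicClosure ℚ)).a₂ := by
    rw [ea2]
    exact map_intCast _ _
  have hσC : ((σ : AlgebraicClosure ℚ ≃ₐ[ℚ] AlgebraicClosure ℚ) :
      AlgebraicClosure ℚ →+* AlgebraicClosure ℚ)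
      ((W.map (Int.castRingHom ℚ)).baseChange (AlgebraicClosure ℚ)).a₄
      = ((W.map (Int.castRingHom ℚ)).baseChange (AlgebraicClosure ℚ)).a₄ := by
    rw [ea4]
    exact map_intCast _ _
  have hφ : ∀ (x y : AlgebraicClosure ℚ)
      (h : ((W.map (Int.castRingHom ℚ)).baseChange (AlgebraicClosure ℚ)).toAffine.Nonsingular x y),
      ∃ h' : ((W.map (Int.castRingHom ℚ)).baseChange (AlgebraicClosure ℚ)).toAffine.Nonsingular
        (((σ : AlgebraicClosure ℚ ≃ₐ[ℚ] AlgebraicClosure ℚ) :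
          AlgebraicClosure ℚ →+* AlgebraicClosure ℚ) x)
        (((σ : AlgebraicClosure ℚ ≃ₐ[ℚ] AlgebraicClosure ℚ) :
          AlgebraicClosure ℚ →+* AlgebraicClosure ℚ) y),
        Point.map (W' := (W.map (Int.castRingHom ℚ)).toAffine) σ.toAlgHom (Point.some x y h) =
          Point.some _ _ h' := by
    intro x y h
    exact ⟨_, Point.map_some (W' := (W.map (Int.castRingHom ℚ)).toAffine) σ.toAlgHom h⟩
  have hred : (B.valuation ((W.map (Int.castRingHom ℚ)).baseChange (AlgebraicClosure ℚ)).a₄ = 1 ∧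
        B.valuation (((W.map (Int.castRingHom ℚ)).baseChange (AlgebraicClosure ℚ)).a₂ ^ 2
          - 4 * ((W.map (Int.castRingHom ℚ)).baseChange (AlgebraicClosure ℚ)).a₄) = 1) ∨
      (B.valuation ((W.map (Int.castRingHom ℚ)).baseChange (AlgebraicClosure ℚ)).a₂ = 1 ∧
        B.valuation ((W.map (Int.castRingHom ℚ)).baseChange (AlgebraicClosure ℚ)).a₄ < 1 ∧
        ((W.map (Int.castRingHom ℚ)).baseChange (AlgebraicClosure ℚ)).a₄ ≠ 0 ∧
        ∃ ϖ : AlgebraicClosure ℚ, ((σ : AlgebraicClosure ℚ ≃ₐ[ℚ] AlgebraicClosure ℚ) :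
          AlgebraicClosure ℚ →+* AlgebraicClosure ℚ) ϖ = ϖ ∧
          B.valuation ϖ ^ p
            = B.valuation ((W.map (Int.castRingHom ℚ)).baseChange (AlgebraicClosure ℚ)).a₄ ^ 2) := by
    right
    refine ⟨hB1, hC1, hC0, ((w : ℤ) : AlgebraicClosure ℚ), map_intCast _ w, ?_⟩
    rw [ea4, ← map_pow, ← map_pow]
    congr 1
    exact_mod_cast congrArg (Int.cast : ℤ → AlgebraicClosure ℚ) hw
  exact wme_sub_mem_E1 B.valuation hW hB1.le hC1.le v2 hp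
    ((σ : AlgebraicClosure ℚ ≃ₐ[ℚ] AlgebraicClosure ℚ) :
      AlgebraicClosure ℚ →+* AlgebraicClosure ℚ) hσI hσB hσC
    (Point.map (W' := (W.map (Int.castRingHom ℚ)).toAffine) σ.toAlgHom) hφ hred
    (P : (ssnE W).Point) hPt

include hp hp2 hB in
/-- **(M5)** counting: if some point of `W[p]` lies outside the kernel of reduction then some
point of `W[p]` outside the kernel of reduction is fixed by an inertia element moving `μ_p`. -/
theorem w1mc_fixed (hΔ : W.Δ ≠ 0) (h1 : W.a₁ = 0) (h3 : W.a₃ = 0) (h6 : W.a₆ = 0)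
    (hn2 : ¬ (p : ℤ) ∣ W.a₂) (hn4 : (p : ℤ) ∣ W.a₄) (hn40 : W.a₄ ≠ 0)
    (w : ℤ) (hw : w ^ p = W.a₄ ^ 2)
    (hM4 : ∃ P : S40hWp W p, P ∉ w1oE1 W B p) :
    ∃ P : S40hWp W p, P ∉ w1oE1 W B p ∧
      ∃ τ₀ ∈ B.inertiaSubgroupIn ℚ, S33hMoves p τ₀ ∧ τ₀ • P = P := by
  haveI : Fact p.Prime := ⟨hp⟩
  obtain ⟨m, hm, hpm⟩ : ∃ m, 1 ≤ m ∧ p = 2 * m + 1 := by
    rcases hp.eq_two_or_odd' with e | ⟨m, hm⟩
    · exact absurd e hp2
    · refine ⟨m, ?_, hm⟩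
      have := hp.two_le
      omega
  obtain ⟨P₀, hP₀⟩ := hM4
  have hcard : Nat.card (S40hWp W p) = p ^ 2 := by
    haveI := h2_isElliptic W hΔ
    have := ne_card_torsionBy ((W.map (Int.castRingHom ℚ)).baseChange (AlgebraicClosure ℚ)) m hm
    rw [← hpm] at this
    exact this
  have hV : ∀ v : S40hWp W p, p • v = 0 := fun v => Subtype.ext (rh_nsmul_of_mem W v)
  obtain ⟨τ₀, hτ₀, hmv, hsq⟩ := cysp_exists_moves p hp2 B hB
  obtain ⟨P, hPE, hfix⟩ := w1o_abs hp hcard hV (w1oE1 W B p) τ₀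
    (fun v => w1mc_inertia_sub W hp hp2 B hB h1 h3 h6 hn2 hn4 hn40 w hw τ₀ hτ₀ v) P₀ hP₀
  refine ⟨P, hPE, ?_⟩
  rcases hfix with h | h
  · exact ⟨τ₀, hτ₀, hmv, h⟩
  · exact ⟨τ₀ ^ p, pow_mem hτ₀ p, w1o_moves_pow hp τ₀ hsq, h⟩

include hp hp2 hB in
/-- **the core of (W1-mult)**: `S40hW1 W p B (S40hPeuB p B)` for the integral shape curve `W`
with multiplicative reduction at `p`, from (M4) and (M6). -/
theorem w1mc_core (hΔ : W.Δ ≠ 0) (h1 : W.a₁ = 0) (h3 : W.a₃ = 0) (h6 : W.a₆ = 0)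
    (hn2 : ¬ (p : ℤ) ∣ W.a₂) (hn4 : (p : ℤ) ∣ W.a₄) (hn40 : W.a₄ ≠ 0)
    (w : ℤ) (hw : w ^ p = W.a₄ ^ 2)
    (hM4 : ∃ P : S40hWp W p, P ∉ w1oE1 W B p)
    (hM6 : ∀ P : S40hWp W p, w1oInt W B (P : (ssnE W).Point) → S40hPeuB p B (S40hStab P)) :
    S40hW1 W p B (S40hPeuB p B) := by
  obtain ⟨P, hPE, hfix⟩ := w1mc_fixed W hp hp2 B hB hΔ h1 h3 h6 hn2 hn4 hn40 w hw hM4
  have hPint : w1oInt W B (P : (ssnE W).Point) := by
    rw [mem_w1oE1] at hPE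
    exact not_not.mp hPE
  have hP0 : P ≠ 0 := by
    rintro rfl
    exact hPE (w1oE1 W B p).zero_mem
  exact Or.inr ⟨P, hP0, hfix, hM6 P hPint⟩

include hp hp2 hB in
/-- the core, with (M4) in the form of `ssn_ord_point` (a non-zero point of `W[p]` with integral
`x`-coordinate) -/
theorem w1mc_core' (hΔ : W.Δ ≠ 0) (h1 : W.a₁ = 0) (h3 : W.a₃ = 0) (h6 : W.a₆ = 0)
    (hn2 : ¬ (p : ℤ) ∣ W.a₂) (hn4 : (p : ℤ) ∣ W.a₄) (hn40 : W.a₄ ≠ 0)
    (w : ℤ) (hw : w ^ p = W.a₄ ^ 2)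
    (hM4 : ∃ (x y : AlgebraicClosure ℚ) (h : (ssnE W).Nonsingular x y),
      p • (Point.some x y h : (ssnE W).Point) = 0 ∧ x ∈ B)
    (hM6 : ∀ P : S40hWp W p, w1oInt W B (P : (ssnE W).Point) → S40hPeuB p B (S40hStab P)) :
    S40hW1 W p B (S40hPeuB p B) := by
  obtain ⟨x, y, h, hP, hx⟩ := hM4
  have hmem : (Point.some x y h : (ssnE W).Point) ∈ Submodule.torsionBy ℤ
      ((W.map (Int.castRingHom ℚ)).toAffine⁄(AlgebraicClosure ℚ)).Point ((p : ℕ) : ℤ) := by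
    rw [Submodule.mem_torsionBy_iff, natCast_zsmul]
    exact hP
  have hP₀ : (⟨Point.some x y h, hmem⟩ : S40hWp W p) ∉ w1oE1 W B p := by
    rw [mem_w1oE1]
    exact not_not.mpr hx
  exact w1mc_core W hp hp2 B hB hΔ h1 h3 h6 hn2 hn4 hn40 w hw ⟨_, hP₀⟩ hM6

/-- the core for the literal curve `⟨0, n₂, 0, n₄, 0⟩` -/
theorem w1mc_core_lit (hp : p.Prime) (hp2 : p ≠ 2)
    (B : ValuationSubring (AlgebraicClosure ℚ)) (hB : B.LiesOverPrime p)
    (n₂ n₄ w : ℤ) (hΔ : (⟨0, n₂, 0, n₄, 0⟩ : WeierstrassCurve ℤ).Δ ≠ 0)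
    (hn2 : ¬ (p : ℤ) ∣ n₂) (hn4 : (p : ℤ) ∣ n₄) (hn40 : n₄ ≠ 0) (hw : w ^ p = n₄ ^ 2)
    (hM4 : ∃ (x y : AlgebraicClosure ℚ)
      (h : (ssnE (⟨0, n₂, 0, n₄, 0⟩ : WeierstrassCurve ℤ)).Nonsingular x y),
      p • (Point.some x y h : (ssnE (⟨0, n₂, 0, n₄, 0⟩ : WeierstrassCurve ℤ)).Point) = 0 ∧ x ∈ B)
    (hM6 : ∀ P : S40hWp (⟨0, n₂, 0, n₄, 0⟩ : WeierstrassCurve ℤ) p,
      w1oInt (⟨0, n₂, 0, n₄, 0⟩ : WeierstrassCurve ℤ) B
        (P : (ssnE (⟨0, n₂, 0, n₄, 0⟩ : WeierstrassCurve ℤ)).Point) →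
      S40hPeuB p B (S40hStab P)) :
    S40hW1 (⟨0, n₂, 0, n₄, 0⟩ : WeierstrassCurve ℤ) p B (S40hPeuB p B) :=
  w1mc_core' (⟨0, n₂, 0, n₄, 0⟩ : WeierstrassCurve ℤ) hp hp2 B hB hΔ rfl rfl rfl hn2 hn4 hn40 w hw
    hM4 hM6

end Fermat.Agent.S40lib
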