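/-
Item 88 / S44, block (W1-mult), piece (M1) (helper16): the WIRING.

* `S44W1G E p B PP`      : the statement (W1) for an arbitrary curve `E` over `ℚ`
                           (`S40hW1 W p B PP` is `S44W1G (W.map _) p B PP`, by `Iff.rfl`);
* `w1mw_transfer_equiv`  : (W1) passes along a Galois-equivariant additive bijection of points;
* `w1mw_transfer`        : (W1) for ONE integral model of `E` gives (W1) for EVERY integral model;
* `w1mwShape n₂ n₄`      : the integral curve `Y² = X³ + n₂ X² + n₄ X`;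
* `w1mw_isIntegralModelOf` : `w1mwShape n₂ n₄` is an integral model of `E : y² + xy = x³ + a₂x² + a₄x`
                           (data as in `S05wire.fixed_of_data`);
* `w1mw_model`           : for a Frey package and `p ∣ a b c`: integers `n₂ n₄ w` with `p ∤ n₂`,
                           `p ∣ n₄`, `n₄ ≠ 0`, `w ^ p = n₄ ^ 2` and `w1mwShape n₂ n₄` an integral model
                           of the Frey curve;
* `S44W1Core`            : (W1) for the curves `w1mwShape n₂ n₄` (what is left to prove);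
* `w1mw_main`            : `S44W1Core` gives the hypothesis `hW1` of `s44h_asm`.
-/
import Mathlib
import Fermat.Agent.S36lib.Speed
import Fermat.Agent.S40lib.Final2
import Fermat.Agent.S41lib.NonEisTrans
import Fermat.Agent.S05_Frey
import Fermat.Agent.DivPoly.TorsionOut

set_option autoImplicit false
set_option linter.unusedSectionVars false
set_option linter.unusedVariables false
set_option linter.style.haveILetI false

noncomputable section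

namespace Fermat.Agent.S40lib

open Fermat.Agent.S33lib WeierstrassCurve WeierstrassCurve.Affine WeierstrassCurve.Affine.Point

/-- the statement (W1) for a curve over `ℚ` -/
def S44W1G (E : WeierstrassCurve ℚ) (p : ℕ) (B : ValuationSubring (AlgebraicClosure ℚ))
    (PP : Set (AlgebraicClosure ℚ ≃ₐ[ℚ] AlgebraicClosure ℚ) → Prop) : Prop :=
  (∀ P : Submodule.torsionBy ℤ (E.toAffine⁄(AlgebraicClosure ℚ)).Point ((p : ℕ) : ℤ),
      P ≠ 0 → ∃ τ ∈ S40hI1 p B, τ • P ≠ P) ∨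
  ∃ P : Submodule.torsionBy ℤ (E.toAffine⁄(AlgebraicClosure ℚ)).Point ((p : ℕ) : ℤ),
    P ≠ 0 ∧ (∃ τ₀ ∈ B.inertiaSubgroupIn ℚ, S33hMoves p τ₀ ∧ τ₀ • P = P) ∧
    PP (S40hStab P)

theorem w1mw_iff (W : WeierstrassCurve ℤ) (p : ℕ) (B : ValuationSubring (AlgebraicClosure ℚ))
    (PP : Set (AlgebraicClosure ℚ ≃ₐ[ℚ] AlgebraicClosure ℚ) → Prop) :
    S40hW1 W p B PP ↔ S44W1G (W.map (Int.castRingHom ℚ)) p B PP := Iff.rfl

/-- (W1) passes along a Galois-equivariant additive bijection of the groups of points -/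
theorem w1mw_transfer_equiv {E₁ E₂ : WeierstrassCurve ℚ}
    (φ : (E₁.toAffine⁄(AlgebraicClosure ℚ)).Point ≃+ (E₂.toAffine⁄(AlgebraicClosure ℚ)).Point)
    (hφ : ∀ (σ : AlgebraicClosure ℚ ≃ₐ[ℚ] AlgebraicClosure ℚ)
      (P : (E₁.toAffine⁄(AlgebraicClosure ℚ)).Point), φ (σ • P) = σ • φ P)
    (p : ℕ) (B : ValuationSubring (AlgebraicClosure ℚ))
    (PP : Set (AlgebraicClosure ℚ ≃ₐ[ℚ] AlgebraicClosure ℚ) → Prop)
    (h : S44W1G E₁ p B PP) : S44W1G E₂ p B PP := by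
  have hmem : ∀ x : (E₁.toAffine⁄(AlgebraicClosure ℚ)).Point,
      x ∈ Submodule.torsionBy ℤ (E₁.toAffine⁄(AlgebraicClosure ℚ)).Point ((p : ℕ) : ℤ) →
      φ x ∈ Submodule.torsionBy ℤ (E₂.toAffine⁄(AlgebraicClosure ℚ)).Point ((p : ℕ) : ℤ) := by
    intro x hx
    rw [Submodule.mem_torsionBy_iff] at hx ⊢
    rw [← map_zsmul, hx, _root_.map_zero]
  have hmem' : ∀ y : (E₂.toAffine⁄(AlgebraicClosure ℚ)).Point,
      y ∈ Submodule.torsionBy ℤ (E₂.toAffine⁄(AlgebraicClosure ℚ)).Point ((p : ℕ) : ℤ) →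
      φ.symm y ∈ Submodule.torsionBy ℤ (E₁.toAffine⁄(AlgebraicClosure ℚ)).Point ((p : ℕ) : ℤ) := by
    intro y hy
    rw [Submodule.mem_torsionBy_iff] at hy ⊢
    rw [← map_zsmul, hy, _root_.map_zero]
  have hφ' : ∀ (σ : AlgebraicClosure ℚ ≃ₐ[ℚ] AlgebraicClosure ℚ)
      (Q : (E₂.toAffine⁄(AlgebraicClosure ℚ)).Point), φ.symm (σ • Q) = σ • φ.symm Q := by
    intro σ Q
    apply φ.injective
    rw [φ.apply_symm_apply, hφ, φ.apply_symm_apply]
  -- the action on the torsion, on the underlying points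
  have hval₁ : ∀ (σ : AlgebraicClosure ℚ ≃ₐ[ℚ] AlgebraicClosure ℚ)
      (P : Submodule.torsionBy ℤ (E₁.toAffine⁄(AlgebraicClosure ℚ)).Point ((p : ℕ) : ℤ)),
      ((σ • P : Submodule.torsionBy ℤ (E₁.toAffine⁄(AlgebraicClosure ℚ)).Point ((p : ℕ) : ℤ)) :
        (E₁.toAffine⁄(AlgebraicClosure ℚ)).Point) = σ • (P : (E₁.toAffine⁄(AlgebraicClosure ℚ)).Point) :=
    fun _ _ => rfl
  have hval₂ : ∀ (σ : AlgebraicClosure ℚ ≃ₐ[ℚ] AlgebraicClosure ℚ)
      (P : Submodule.torsionBy ℤ (E₂.toAffine⁄(AlgebraicClosure ℚ)).Point ((p : ℕ) : ℤ)),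
      ((σ • P : Submodule.torsionBy ℤ (E₂.toAffine⁄(AlgebraicClosure ℚ)).Point ((p : ℕ) : ℤ)) :
        (E₂.toAffine⁄(AlgebraicClosure ℚ)).Point) = σ • (P : (E₂.toAffine⁄(AlgebraicClosure ℚ)).Point) :=
    fun _ _ => rfl
  rcases h with h | ⟨P, hP0, ⟨τ₀, hτ₀, hmv, hfix⟩, hPP⟩
  · left
    intro Q hQ0
    have hP0 : (⟨φ.symm Q, hmem' Q Q.2⟩ :
        Submodule.torsionBy ℤ (E₁.toAffine⁄(AlgebraicClosure ℚ)).Point ((p : ℕ) : ℤ)) ≠ 0 := by
      intro h0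
      apply hQ0
      have h1 : φ.symm (Q : (E₂.toAffine⁄(AlgebraicClosure ℚ)).Point) = 0 :=
        congrArg Subtype.val h0
      apply Subtype.ext
      have h2 := congrArg φ h1
      rw [φ.apply_symm_apply, _root_.map_zero] at h2
      exact h2
    obtain ⟨τ, hτ, hne⟩ := h _ hP0
    refine ⟨τ, hτ, ?_⟩
    intro hfix
    apply hne
    apply Subtype.ext
    rw [hval₁]
    show τ • φ.symm (Q : (E₂.toAffine⁄(AlgebraicClosure ℚ)).Point) = φ.symm Q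
    rw [← hφ', ← hval₂, hfix]
  · right
    have hQ0 : (⟨φ P, hmem P P.2⟩ :
        Submodule.torsionBy ℤ (E₂.toAffine⁄(AlgebraicClosure ℚ)).Point ((p : ℕ) : ℤ)) ≠ 0 := by
      intro h0
      apply hP0
      have h1 : φ (P : (E₁.toAffine⁄(AlgebraicClosure ℚ)).Point) = 0 := congrArg Subtype.val h0
      apply Subtype.ext
      have h2 := congrArg φ.symm h1
      rw [φ.symm_apply_apply, _root_.map_zero] at h2
      exact h2
    have hstab : ∀ σ : AlgebraicClosure ℚ ≃ₐ[ℚ] AlgebraicClosure ℚ,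
        σ • (⟨φ P, hmem P P.2⟩ :
          Submodule.torsionBy ℤ (E₂.toAffine⁄(AlgebraicClosure ℚ)).Point ((p : ℕ) : ℤ))
          = ⟨φ P, hmem P P.2⟩ ↔ σ • P = P := by
      intro σ
      constructor
      · intro h1
        have h2 : σ • φ (P : (E₁.toAffine⁄(AlgebraicClosure ℚ)).Point) = φ P :=
          congrArg Subtype.val h1
        rw [← hφ] at h2
        apply Subtype.ext
        rw [hval₁]
        exact φ.injective h2
      · intro h1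
        apply Subtype.ext
        rw [hval₂]
        show σ • φ (P : (E₁.toAffine⁄(AlgebraicClosure ℚ)).Point) = φ P
        rw [← hφ, ← hval₁, h1]
    refine ⟨⟨φ P, hmem P P.2⟩, hQ0, ⟨τ₀, hτ₀, hmv, (hstab τ₀).mpr hfix⟩, ?_⟩
    have hset : S40hStab (⟨φ P, hmem P P.2⟩ :
        Submodule.torsionBy ℤ (E₂.toAffine⁄(AlgebraicClosure ℚ)).Point ((p : ℕ) : ℤ))
        = S40hStab P := by
      ext σ
      exact hstab σ
    rw [hset]
    exact hPP

/-- (W1) for one integral model of `E` gives (W1) for every integral model of `E` -/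
theorem w1mw_transfer {E : WeierstrassCurve ℚ} {W₁ W₂ : WeierstrassCurve ℤ}
    (h₁ : W₁.IsIntegralModelOf E) (h₂ : W₂.IsIntegralModelOf E)
    (p : ℕ) (B : ValuationSubring (AlgebraicClosure ℚ))
    (PP : Set (AlgebraicClosure ℚ ≃ₐ[ℚ] AlgebraicClosure ℚ) → Prop)
    (h : S40hW1 W₁ p B PP) : S40hW1 W₂ p B PP := by
  obtain ⟨C₁, hC₁⟩ := h₁
  obtain ⟨C₂, hC₂⟩ := h₂
  obtain ⟨φ₁, hφ₁⟩ := Fermat.Agent.S41lib.ne_exists_equiv_of_variableChange E
    (W₁.map (Int.castRingHom ℚ)) C₁ hC₁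
  obtain ⟨φ₂, hφ₂⟩ := Fermat.Agent.S41lib.ne_exists_equiv_of_variableChange E
    (W₂.map (Int.castRingHom ℚ)) C₂ hC₂
  rw [w1mw_iff] at h ⊢
  refine w1mw_transfer_equiv (φ₁.symm.trans φ₂) ?_ p B PP h
  intro σ Q
  show φ₂ (φ₁.symm (σ • Q)) = σ • φ₂ (φ₁.symm Q)
  rw [← hφ₂]
  congr 1
  apply φ₁.injective
  rw [φ₁.apply_symm_apply, hφ₁, φ₁.apply_symm_apply]

/-- the integral curve `Y² = X³ + n₂ X² + n₄ X` -/
def w1mwShape (n₂ n₄ : ℤ) : WeierstrassCurve ℤ := ⟨0, n₂, 0, n₄, 0⟩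

@[simp] theorem w1mwShape_a₁ (n₂ n₄ : ℤ) : (w1mwShape n₂ n₄).a₁ = 0 := rfl
@[simp] theorem w1mwShape_a₂ (n₂ n₄ : ℤ) : (w1mwShape n₂ n₄).a₂ = n₂ := rfl
@[simp] theorem w1mwShape_a₃ (n₂ n₄ : ℤ) : (w1mwShape n₂ n₄).a₃ = 0 := rfl
@[simp] theorem w1mwShape_a₄ (n₂ n₄ : ℤ) : (w1mwShape n₂ n₄).a₄ = n₄ := rfl
@[simp] theorem w1mwShape_a₆ (n₂ n₄ : ℤ) : (w1mwShape n₂ n₄).a₆ = 0 := rfl

/-- `Y² = X³ + n₂ X² + n₄ X` is an integral model of `E : y² + xy = x³ + a₂ x² + a₄ x`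
(`X = 4 (x - e)`, `Y = 8 (y + x / 2)`, `e` a root of `x³ + (a₂ + 1/4) x² + a₄ x`). -/
theorem w1mw_isIntegralModelOf (E : WeierstrassCurve ℚ) (h₁ : E.a₁ = 1) (h₃ : E.a₃ = 0)
    (h₆ : E.a₆ = 0) (e : ℚ) (he : e ^ 3 + (E.a₂ + 1 / 4) * e ^ 2 + E.a₄ * e = 0)
    (n₂ n₄ : ℤ) (hn₂ : (E.a₂ + 1 / 4 + 3 * e) * 4 = (n₂ : ℚ))
    (hn₄ : (E.a₄ + 2 * e * E.a₂ + 3 * e ^ 2 + e / 2) * 16 = (n₄ : ℚ)) :
    (w1mwShape n₂ n₄).IsIntegralModelOf E := by
  have h2 : (2 : ℚ) ≠ 0 := by norm_num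
  refine ⟨⟨(Units.mk0 (2 : ℚ) h2)⁻¹, e, -1 / 2, -e / 2⟩, ?_⟩
  ext
  · simp only [WeierstrassCurve.variableChange_a₁, inv_inv, Units.val_mk0, h₁,
      WeierstrassCurve.map_a₁, w1mwShape_a₁, _root_.map_zero]
    ring
  · simp only [WeierstrassCurve.variableChange_a₂, inv_inv, Units.val_mk0, h₁,
      WeierstrassCurve.map_a₂, w1mwShape_a₂, eq_intCast]
    rw [← hn₂]
    ring
  · simp only [WeierstrassCurve.variableChange_a₃, inv_inv, Units.val_mk0, h₁, h₃,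
      WeierstrassCurve.map_a₃, w1mwShape_a₃, _root_.map_zero]
    ring
  · simp only [WeierstrassCurve.variableChange_a₄, inv_inv, Units.val_mk0, h₁, h₃,
      WeierstrassCurve.map_a₄, w1mwShape_a₄, eq_intCast]
    rw [← hn₄]
    ring
  · simp only [WeierstrassCurve.variableChange_a₆, inv_inv, Units.val_mk0, h₁, h₃, h₆,
      WeierstrassCurve.map_a₆, w1mwShape_a₆, _root_.map_zero]
    linear_combination 64 * he

/-- the integral shape model of the Frey curve at a prime `q ∣ a b c` -/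
theorem w1mw_model (P : FreyPackage) {q : ℕ} (hq : q.Prime)
    (hdvd : (q : ℤ) ∣ P.a * P.b * P.c) :
    ∃ n₂ n₄ w : ℤ, ¬ (q : ℤ) ∣ n₂ ∧ (q : ℤ) ∣ n₄ ∧ n₄ ≠ 0 ∧ w ^ P.p = n₄ ^ 2 ∧
      (w1mwShape n₂ n₄).IsIntegralModelOf P.freyCurve := by
  have hqi := Nat.prime_iff_prime_int.mp hq
  have hFLT : ((P.a : ℚ)) ^ P.p + (P.b : ℚ) ^ P.p = (P.c : ℚ) ^ P.p := by
    exact_mod_cast congrArg (Int.cast : ℤ → ℚ) P.hFLT
  have ha₂ : P.freyCurve.a₂ = ((P.b : ℚ) ^ P.p - 1 - (P.a : ℚ) ^ P.p) / 4 := rfl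
  have ha₄ : P.freyCurve.a₄ = -((P.a : ℚ) ^ P.p) * ((P.b : ℚ) ^ P.p) / 16 := rfl
  by_cases hc : (q : ℤ) ∣ P.c
  · refine ⟨P.a ^ P.p + P.c ^ P.p, P.a ^ P.p * P.c ^ P.p, (P.a * P.c) ^ 2,
      Fermat.Agent.S05wire.frey_mult_c_n2 P hq hc, dvd_mul_of_dvd_right (dvd_pow hc P.hp0) _,
      mul_ne_zero (pow_ne_zero _ P.ha0) (pow_ne_zero _ P.hc0), by ring, ?_⟩
    refine w1mw_isIntegralModelOf P.freyCurve rfl rfl rfl ((P.a : ℚ) ^ P.p / 4) ?_ _ _ ?_ ?_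
    · rw [ha₂, ha₄]; ring
    · rw [ha₂]
      push_cast
      linear_combination hFLT
    · rw [ha₂, ha₄]
      push_cast
      linear_combination ((P.a : ℚ) ^ P.p) * hFLT
  · have hab : (q : ℤ) ∣ P.a * P.b := by
      rcases hqi.dvd_or_dvd hdvd with h | h
      · exact h
      · exact absurd h hc
    refine ⟨P.b ^ P.p - P.a ^ P.p, -(P.a ^ P.p * P.b ^ P.p), (P.a * P.b) ^ 2,
      Fermat.Agent.S05wire.frey_mult_ab_n2 P hq hab, ?_,
      neg_ne_zero.mpr (mul_ne_zero (pow_ne_zero _ P.ha0) (pow_ne_zero _ P.hb0)), by ring, ?_⟩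
    · rw [dvd_neg]
      rcases hqi.dvd_or_dvd hab with h | h
      · exact dvd_mul_of_dvd_left (dvd_pow h P.hp0) _
      · exact dvd_mul_of_dvd_right (dvd_pow h P.hp0) _
    refine w1mw_isIntegralModelOf P.freyCurve rfl rfl rfl 0 (by ring) _ _ ?_ ?_
    · rw [ha₂]
      push_cast
      ring
    · rw [ha₂, ha₄]
      push_cast
      ring

/-- **the core of (W1-mult)**: (W1) for the integral curves `Y² = X³ + n₂ X² + n₄ X` with
`p ∤ n₂`, `p ∣ n₄`, `n₄² = w ^ p`, `Δ ≠ 0`, `p ≥ 5` (multiplicative reduction at `p`, node at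
the origin, peu ramifié). -/
def S44W1Core : Prop :=
  ∀ (n₂ n₄ w : ℤ) (p : ℕ), p.Prime → 5 ≤ p → ¬ (p : ℤ) ∣ n₂ → (p : ℤ) ∣ n₄ → n₄ ≠ 0 →
    w ^ p = n₄ ^ 2 → (w1mwShape n₂ n₄).Δ ≠ 0 →
    ∀ B : ValuationSubring (AlgebraicClosure ℚ), B.LiesOverPrime p →
      S40hW1 (w1mwShape n₂ n₄) p B (S40hPeuB p B)

/-- an integral model of a curve with `Δ ≠ 0` has `Δ ≠ 0` -/
theorem w1mw_Δ_ne_zero {E : WeierstrassCurve ℚ} {W : WeierstrassCurve ℤ}
    (hW : W.IsIntegralModelOf E) (hE : E.Δ ≠ 0) : W.Δ ≠ 0 := by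
  obtain ⟨C, hC⟩ := hW
  intro h0
  have h1 : (W.map (Int.castRingHom ℚ)).Δ = 0 := by
    rw [WeierstrassCurve.map_Δ, h0, _root_.map_zero]
  rw [← hC, WeierstrassCurve.variableChange_Δ] at h1
  rcases mul_eq_zero.mp h1 with h2 | h2
  · exact (pow_ne_zero 12 (Units.ne_zero _)) h2
  · exact hE h2

/-- **(M1)**: the core gives the hypothesis `hW1` of `s44h_asm`, provided `Δ(Frey) ≠ 0` -/
theorem w1mw_main (hcore : S44W1Core) (P : FreyPackage) (hΔ : P.freyCurve.Δ ≠ 0)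
    (W : WeierstrassCurve ℤ) (hW : W.IsIntegralModelOf P.freyCurve)
    (hdvd : (P.p : ℤ) ∣ P.a * P.b * P.c)
    (B : ValuationSubring (AlgebraicClosure ℚ)) (hB : B.LiesOverPrime P.p) :
    S40hW1 W P.p B (S40hPeuB P.p B) := by
  obtain ⟨n₂, n₄, w, h2, h4, h40, hw, hmodel⟩ := w1mw_model P P.pp hdvd
  exact w1mw_transfer hmodel hW P.p B _
    (hcore n₂ n₄ w P.p P.pp P.hp5 h2 h4 h40 hw (w1mw_Δ_ne_zero hmodel hΔ) B hB)

/-- **(M1), final form**: the core gives EXACTLY the hypothesis `hW1` of `s44h_asm` -/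
theorem w1mw_hW1 (hcore : S44W1Core) (P : FreyPackage) :
    ∀ W : WeierstrassCurve ℤ, W.IsIntegralModelOf P.freyCurve →
      (P.p : ℤ) ∣ P.a * P.b * P.c →
      ∀ B : ValuationSubring (AlgebraicClosure ℚ), B.LiesOverPrime P.p →
        S40hW1 W P.p B (S40hPeuB P.p B) :=
  fun W hW hdvd B hB =>
    w1mw_main hcore P (Fermat.Agent.DivPoly.freyCurve_Δ_ne_zero P) W hW hdvd B hB

end Fermat.Agent.S40lib

end
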