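/-
Item 88 / S44, block (W1-mult): the ASSEMBLY of the W-side (helper16).

* `S44W1Depth` : (M6) = (DEPTH) on the integral shape curves `w1mwShape n₂ n₄`
                 (a `p`-torsion point with integral `x`-coordinate has a peu ramifié stabiliser);
* `w1mf_core`  : `S44W1Depth → S44W1Core`   (with (M2c), (M5) = `w1mc_core'` of helper21 and
                 (M4) = `ldz_exists_point` of helper3);
* `w1mf_hW1`   : `S44W1Depth` gives EXACTLY the hypothesis `hW1` of `s44h_asm`;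
* `w1mf_S44`   : the statement of S44 from `S44W1Depth` and the J-side (`S40jTame ∧ S40jWild`).
-/
import Mathlib
import Fermat.Agent.S36lib.Speed
import Fermat.Agent.S40lib.W1MultWire
import Fermat.Agent.S40lib.W1MultCore
import Fermat.Agent.S40lib.LadderZero
import Fermat.Agent.S40lib.FreyAsm

set_option autoImplicit false
set_option linter.unusedSectionVars false
set_option linter.unusedVariables false
set_option linter.style.haveILetI false

noncomputable section

namespace Fermat.Agent.S40lib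

open Fermat.Agent.S33lib WeierstrassCurve WeierstrassCurve.Affine WeierstrassCurve.Affine.Point

/-- **(M6) = (DEPTH)** on the integral shape curves: the stabiliser of a `p`-torsion point with
integral `x`-coordinate is peu ramifié (depth form). -/
def S44W1Depth : Prop :=
  ∀ (n₂ n₄ w : ℤ) (p : ℕ), p.Prime → 5 ≤ p → ¬ (p : ℤ) ∣ n₂ → (p : ℤ) ∣ n₄ → n₄ ≠ 0 →
    w ^ p = n₄ ^ 2 → (w1mwShape n₂ n₄).Δ ≠ 0 →
    ∀ B : ValuationSubring (AlgebraicClosure ℚ), B.LiesOverPrime p →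
      ∀ P : S40hWp (w1mwShape n₂ n₄) p,
        w1oInt (w1mwShape n₂ n₄) B (P : (ssnE (w1mwShape n₂ n₄)).Point) →
        S40hPeuB p B (S40hStab P)

/-- (DEPTH) ⇒ the core of (W1-mult) -/
theorem w1mf_core (h : S44W1Depth) : S44W1Core := by
  intro n₂ n₄ w p hp h5 h2 h4 h40 hw hΔ B hB
  have hp2 : p ≠ 2 := by omega
  exact w1mc_core' (w1mwShape n₂ n₄) hp hp2 B hB hΔ rfl rfl rfl h2 h4 h40 w hw
    (ldz_exists_point (w1mwShape n₂ n₄) rfl rfl rfl hΔ p hp hp2 h4 B)
    (h n₂ n₄ w p hp h5 h2 h4 h40 hw hΔ B hB)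

/-- (DEPTH) ⇒ the hypothesis `hW1` of `s44h_asm` -/
theorem w1mf_hW1 (h : S44W1Depth) (P : FreyPackage) :
    ∀ W : WeierstrassCurve ℤ, W.IsIntegralModelOf P.freyCurve →
      (P.p : ℤ) ∣ P.a * P.b * P.c →
      ∀ B : ValuationSubring (AlgebraicClosure ℚ), B.LiesOverPrime P.p →
        S40hW1 W P.p B (S40hPeuB P.p B) :=
  w1mw_hW1 (w1mf_core h) P

/-- **S44 from (DEPTH), (J-TAME) and (J-WILD)**. -/
theorem w1mf_S44 (h : S44W1Depth) (P : FreyPackage) {N : ℕ} (hcond : P.IsConductorLevel N)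
    (hpN : P.p ∣ N)
    (hirr : GaloisRepIsIrreducible (K := AlgebraicClosure ℚ) ℚ P.freyCurve P.p)
    (hmod : P.ModularRepOfLevel N)
    (hJ : ∀ (B : ValuationSubring (AlgebraicClosure ℚ)), B.LiesOverPrime P.p →
      ∀ (M' : ℕ) [NeZero M'] [NeZero (M' * P.p)], ¬ P.p ∣ M' →
        S40jTame M' P.p B ∧ S40jWild M' P.p B) :
    ∃ M : ℕ, M ∣ N ∧ ¬ P.p ∣ M ∧ P.ModularRepOfLevel M :=
  s44h_asm P hcond hpN hirr hmod (w1mf_hW1 h P) hJ

end Fermat.Agent.S40lib

end
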