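/-
Item 88 / S44, block (W1-mult): (DEPTH) = `S44W1Depth` of `W1MultFinal.lean` is a theorem
(helper20), from `w1m6_peuB` of `W1MultPeu.lean`.

* `w1m6_depth`   : `S44W1Depth`;
* `w1m6_core`    : `S44W1Core`;
* `w1m6_hW1`     : the hypothesis `hW1` of `s44h_asm`, unconditionally;
* `w1m6_S44`     : the statement of S44 from the J-side alone (`S40jTame ∧ S40jWild`).
-/
import Mathlib
import Fermat.Agent.S36lib.Speed
import Fermat.Agent.S40lib.W1MultFinal
import Fermat.Agent.S40lib.W1MultPeu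

set_option autoImplicit false
set_option linter.unusedSectionVars false
set_option linter.unusedVariables false

namespace Fermat.Agent.S40lib

open Fermat.Agent.S33lib WeierstrassCurve WeierstrassCurve.Affine WeierstrassCurve.Affine.Point

/-- **(DEPTH)** holds. -/
theorem w1m6_depth : S44W1Depth := by
  intro n₂ n₄ w p hp h5 h2 h4 h40 hw hΔ B hB P hP
  have hp2 : p ≠ 2 := by omega
  exact w1m6_peuB (w1mwShape n₂ n₄) hp hp2 B hB hΔ rfl rfl rfl h2 h4 h40 w hw P hP

/-- the core of (W1-mult), unconditionally -/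
theorem w1m6_core : S44W1Core := w1mf_core w1m6_depth

/-- the hypothesis `hW1` of `s44h_asm`, unconditionally -/
theorem w1m6_hW1 (P : FreyPackage) :
    ∀ W : WeierstrassCurve ℤ, W.IsIntegralModelOf P.freyCurve →
      (P.p : ℤ) ∣ P.a * P.b * P.c →
      ∀ B : ValuationSubring (AlgebraicClosure ℚ), B.LiesOverPrime P.p →
        S40hW1 W P.p B (S40hPeuB P.p B) :=
  w1mf_hW1 w1m6_depth P

/-- **S44 from the J-side alone** ((J-TAME) and (J-WILD)). -/
theorem w1m6_S44 (P : FreyPackage) {N : ℕ} (hcond : P.IsConductorLevel N)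
    (hpN : P.p ∣ N)
    (hirr : GaloisRepIsIrreducible (K := AlgebraicClosure ℚ) ℚ P.freyCurve P.p)
    (hmod : P.ModularRepOfLevel N)
    (hJ : ∀ (B : ValuationSubring (AlgebraicClosure ℚ)), B.LiesOverPrime P.p →
      ∀ (M' : ℕ) [NeZero M'] [NeZero (M' * P.p)], ¬ P.p ∣ M' →
        S40jTame M' P.p B ∧ S40jWild M' P.p B) :
    ∃ M : ℕ, M ∣ N ∧ ¬ P.p ∣ M ∧ P.ModularRepOfLevel M :=
  w1mf_S44 w1m6_depth P hcond hpN hirr hmod hJ

end Fermat.Agent.S40lib
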