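import Mathlib
import Fermat.Agent.S36lib.Speed
import Fermat.Agent.S40lib.FreyAsm
import Fermat.Agent.S40lib.AJHub
import Fermat.Agent.S40lib.W1MultDepth
import Fermat.Agent.S13lib.UnipTwo

/-!
# Item 88 (S44): the GUARDED final assembly (chief architect helper6)

The J-side providers may use three extra guards which hold in the situation of S44:

* `Squarefree M'` (the level `N = M' p` is a conductor level, hence squarefree): all cusps of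
  `X₀(M')` are Atkin–Lehner images of `∞`;
* `2 ∈ S` (every integral model of the Frey curve has an even discriminant, `s44g_two_dvd`):
  the non-Eisenstein prime `ℓ ∉ S` is odd, so `ℓ ∤ lcm(M', 4) p`;
* `5 ≤ p`.

`S44jTame`, `S44jWild`: the blocks (J-TAME), (J-WILD) of `AJHub` with the guard `2 ∈ S`.
`s44g_asm`: the statement S44 from the guarded blocks at squarefree levels.
-/

set_option autoImplicit false
set_option linter.style.haveILetI false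

noncomputable section

namespace Fermat.Agent.S40lib

open Fermat.Agent.GalRep ModularCurve Fermat.Agent.S31lib Fermat.Agent.S35lib
  Fermat.Agent.S33lib WeierstrassCurve WeierstrassCurve.Affine WeierstrassCurve.Affine.Point

/-- `c₄` of the Frey curve -/
theorem s44g_c4 (P : FreyPackage) :
    P.freyCurve.c₄ = (P.a : ℚ) ^ (2 * P.p) + (P.a : ℚ) ^ P.p * (P.b : ℚ) ^ P.p
      + (P.b : ℚ) ^ (2 * P.p) := by
  simp only [WeierstrassCurve.c₄, WeierstrassCurve.b₂, WeierstrassCurve.b₄,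
    FreyPackage.freyCurve]
  ring

/-- the integer `a^(2p) + a^p b^p + b^(2p)` is odd -/
theorem s44g_c4_odd (P : FreyPackage) :
    ¬ (2 : ℤ) ∣ P.a ^ (2 * P.p) + P.a ^ P.p * P.b ^ P.p + P.b ^ (2 * P.p) := by
  intro hn
  have hb : (2 : ℤ) ∣ P.b := (ZMod.intCast_zmod_eq_zero_iff_dvd P.b 2).1 P.hb2
  have hp0 : P.p ≠ 0 := P.hp0
  have h2p0 : 2 * P.p ≠ 0 := by omega
  have hb' : (2 : ℤ) ∣ P.a ^ P.p * P.b ^ P.p + P.b ^ (2 * P.p) :=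
    dvd_add (dvd_mul_of_dvd_right (dvd_pow hb hp0) _) (dvd_pow hb h2p0)
  rw [add_assoc] at hn
  have ha : (2 : ℤ) ∣ P.a ^ (2 * P.p) := (dvd_add_left hb').mp hn
  exact Fermat.Agent.S13lib.frey2_a_odd P (Int.prime_two.dvd_of_dvd_pow ha)

/-- every integral model of the Frey curve has an even discriminant -/
theorem s44g_two_dvd (P : FreyPackage) {W : WeierstrassCurve ℤ}
    (hW : W.IsIntegralModelOf P.freyCurve) : (2 : ℤ) ∣ W.Δ := by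
  obtain ⟨C, hC⟩ := hW
  have hc4 : ((W.c₄ : ℤ) : ℚ) = ((C.u⁻¹ : ℚˣ) : ℚ) ^ 4 * P.freyCurve.c₄ := by
    rw [← WeierstrassCurve.variableChange_c₄, hC, WeierstrassCurve.map_c₄]
    simp
  have hΔ : ((W.Δ : ℤ) : ℚ) = ((C.u⁻¹ : ℚˣ) : ℚ) ^ 12 * P.freyCurve.Δ := by
    rw [← WeierstrassCurve.variableChange_Δ, hC, WeierstrassCurve.map_Δ]
    simp
  rw [s44g_c4] at hc4
  rw [Fermat.Agent.DivPoly.freyCurve_Δ] at hΔ
  have key : W.Δ * (P.a ^ (2 * P.p) + P.a ^ P.p * P.b ^ P.p + P.b ^ (2 * P.p)) ^ 3 * 256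
      = W.c₄ ^ 3 * (P.a * P.b * P.c) ^ (2 * P.p) := by
    have hq : ((W.Δ : ℤ) : ℚ) * ((P.a : ℚ) ^ (2 * P.p) + (P.a : ℚ) ^ P.p * (P.b : ℚ) ^ P.p
        + (P.b : ℚ) ^ (2 * P.p)) ^ 3 * 256
        = ((W.c₄ : ℤ) : ℚ) ^ 3 * ((P.a : ℚ) * P.b * P.c) ^ (2 * P.p) := by
      rw [hc4, hΔ]
      ring
    exact_mod_cast hq
  have h1 : (2 : ℤ) ^ (2 * P.p) ∣ (P.a * P.b * P.c) ^ (2 * P.p) :=
    pow_dvd_pow_of_dvd P.two_dvd_abc _
  have h2 : (2 : ℤ) ^ 10 ∣ (2 : ℤ) ^ (2 * P.p) :=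
    pow_dvd_pow 2 (by have := P.hp5; omega)
  have h3 : (4 * 256 : ℤ) ∣ W.Δ * (P.a ^ (2 * P.p) + P.a ^ P.p * P.b ^ P.p
      + P.b ^ (2 * P.p)) ^ 3 * 256 := by
    rw [key]
    have h10 : (4 * 256 : ℤ) = 2 ^ 10 := by norm_num
    rw [h10]
    exact Dvd.dvd.mul_left (h2.trans h1) _
  have h4 : (4 : ℤ) ∣ W.Δ * (P.a ^ (2 * P.p) + P.a ^ P.p * P.b ^ P.p
      + P.b ^ (2 * P.p)) ^ 3 :=
    (mul_dvd_mul_iff_right (by norm_num : (256 : ℤ) ≠ 0)).mp h3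
  have h5 : (2 : ℤ) ∣ W.Δ * (P.a ^ (2 * P.p) + P.a ^ P.p * P.b ^ P.p
      + P.b ^ (2 * P.p)) ^ 3 := dvd_trans (by norm_num) h4
  rcases Int.prime_two.dvd_or_dvd h5 with h | h
  · exact h
  · exact absurd (Int.prime_two.dvd_of_dvd_pow h) (s44g_c4_odd P)

/-- **(J-TAME), guarded**: `S40jTame` with the extra guard `2 ∈ S`. -/
def S44jTame (M' p : ℕ) [NeZero M'] [NeZero (M' * p)]
    (B : ValuationSubring (AlgebraicClosure ℚ)) : Prop :=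
  ∀ (S : Finset ℕ) (a : ℕ → ℤ) (V : AddSubgroup (JZero (M' * p))),
    (∀ ℓ : ℕ, ℓ.Prime → ℓ ∣ M' * p → ℓ ∈ S) → 2 ∈ S →
    Nat.card V = p ^ 2 → (∀ x ∈ V, p • x = 0) →
    (∀ (σ : AlgebraicClosure ℚ ≃ₐ[ℚ] AlgebraicClosure ℚ), ∀ x ∈ V, σ • x ∈ V) →
    S40hEig (M' * p) S a V → S40hNotAt M' p S a →
    (∃ ℓ : Nat.Primes, (ℓ : ℕ) ∉ S ∧ ¬ (p : ℤ) ∣ a ℓ - (1 + (ℓ : ℕ))) →
    ∀ x ∈ V, (∀ σ ∈ B.inertiaSubgroupIn ℚ, σ • x = x) → x = 0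

/-- **(J-WILD), guarded**: `S40jWild` with the extra guard `2 ∈ S`. -/
def S44jWild (M' p : ℕ) [NeZero M'] [NeZero (M' * p)]
    (B : ValuationSubring (AlgebraicClosure ℚ)) : Prop :=
  ∀ (S : Finset ℕ) (a : ℕ → ℤ) (V : AddSubgroup (JZero (M' * p))),
    (∀ ℓ : ℕ, ℓ.Prime → ℓ ∣ M' * p → ℓ ∈ S) → 2 ∈ S →
    Nat.card V = p ^ 2 → (∀ x ∈ V, p • x = 0) →
    (∀ (σ : AlgebraicClosure ℚ ≃ₐ[ℚ] AlgebraicClosure ℚ), ∀ x ∈ V, σ • x ∈ V) →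
    S40hEig (M' * p) S a V → S40hNotAt M' p S a →
    (∃ ℓ : Nat.Primes, (ℓ : ℕ) ∉ S ∧ ¬ (p : ℤ) ∣ a ℓ - (1 + (ℓ : ℕ))) →
    ∀ x ∈ V, x ≠ 0 → (∃ τ₀ ∈ B.inertiaSubgroupIn ℚ, S33hMoves p τ₀ ∧ τ₀ • x = x) →
      (∃ σ ∈ S40hI1 p B, σ • x ≠ x) →
      ∃ rt κ : AlgebraicClosure ℚ, κ ≠ 0 ∧ rt ^ p = κ ∧
        (∀ τ ∈ B.inertiaSubgroupIn ℚ, τ κ = κ) ∧
        (∀ n : ℤ, B.valuation κ ≠ B.valuation (p : AlgebraicClosure ℚ) ^ ((p : ℤ) * n)) ∧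
        ∀ τ ∈ S40hI1 p B, (τ • x = x ↔ τ rt = rt)

theorem s44g_tame_of (M' p : ℕ) [NeZero M'] [NeZero (M' * p)]
    (B : ValuationSubring (AlgebraicClosure ℚ)) (h : S40jTame M' p B) : S44jTame M' p B :=
  fun S a V hS _ => h S a V hS

theorem s44g_wild_of (M' p : ℕ) [NeZero M'] [NeZero (M' * p)]
    (B : ValuationSubring (AlgebraicClosure ℚ)) (h : S40jWild M' p B) : S44jWild M' p B :=
  fun S a V hS _ => h S a V hS

/-- the J-side block `S40hGeom4` from the guarded blocks, for a model with even discriminant -/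
theorem s44g_geom4 (W : WeierstrassCurve ℤ) (M' p : ℕ) [NeZero M'] [NeZero p]
    [NeZero (M' * p)] (hp : p.Prime) (hp2 : p ≠ 2) (hpM : ¬ p ∣ M')
    (B : ValuationSubring (AlgebraicClosure ℚ)) (hB : B.LiesOverPrime p)
    (h2 : (2 : ℤ) ∣ W.Δ)
    (hT : S44jTame M' p B) (hW : S44jWild M' p B) :
    S40hGeom4 W M' p B (S40hPeuB p B) := by
  intro S V hS hcard hVp hstab hEig hNot hnE
  have hS' : ∀ ℓ : ℕ, ℓ.Prime → ℓ ∣ M' * p → ℓ ∈ S := by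
    intro ℓ hℓ hdvd
    refine hS ℓ hℓ ?_
    rcases (Nat.Prime.dvd_mul hℓ).mp hdvd with h1 | h1
    · exact Or.inr (Or.inl h1)
    · exact Or.inl ((Nat.prime_dvd_prime_iff_eq hℓ hp).mp h1)
  have h2S : 2 ∈ S := hS 2 Nat.prime_two (Or.inr (Or.inr (by exact_mod_cast h2)))
  refine ⟨s40h_omega3 M' p hp hp2 hpM B hB S W.apOfModel V hS' hcard hVp hstab hEig hNot, ?_⟩
  intro x hx hx0 hfix hPP
  exfalso
  by_cases h1 : S40hI1 p B ⊆ S40hStab x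
  · obtain ⟨τ₀, hτ₀, hmv, hτ₀x⟩ := hfix
    have hI : ∀ σ ∈ B.inertiaSubgroupIn ℚ, σ • x = x :=
      tmf_fixed M' p hp hp2 hpM B hB S W.apOfModel V hS' hVp hstab hEig hNot x hx
        (fun τ hτ => h1 hτ) τ₀ hτ₀ hmv hτ₀x
    exact hx0 (hT S W.apOfModel V hS' h2S hcard hVp hstab hEig hNot hnE x hx hI)
  · have h2' : ∃ σ ∈ S40hI1 p B, σ • x ≠ x := by
      by_contra hcon
      apply h1
      intro σ hσ
      by_contra hσx
      exact hcon ⟨σ, hσ, hσx⟩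
    obtain ⟨rt, κ, hκ0, hpow, hκI, hnd, hSt⟩ :=
      hW S W.apOfModel V hS' h2S hcard hVp hstab hEig hNot hnE x hx hx0 hfix h2'
    exact tri_not_peuB_kappa hp B hB (S40hStab x) hκ0 hpow hκI hnd
      (fun τ hτ => hSt τ hτ) hPP

/-- **S40, LIFT form, at a squarefree level**: the J-side block is needed only at the
squarefree level `M / p`. -/
theorem s44g_main (W : WeierstrassCurve ℤ) {p : ℕ} (hp : p.Prime)
    {M : ℕ} (hM : 0 < M) (hpM : p ∣ M) (hsq : Squarefree M)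
    (hmod : W.IsResiduallyModularOfLevel p M)
    (hDich : ∀ (M' : ℕ) [NeZero M'] [NeZero (M' * p)], ¬ p ∣ M' → S40hDich W p M')
    (hcardW : Nat.card (S40hWp W p) = p ^ 2)
    (hnE : ∀ S : Finset ℕ, ∃ ℓ : Nat.Primes, (ℓ : ℕ) ∉ S ∧
      ¬ (p : ℤ) ∣ W.apOfModel ℓ - (1 + (ℓ : ℕ)))
    (B : ValuationSubring (AlgebraicClosure ℚ))
    (PP : Set (AlgebraicClosure ℚ ≃ₐ[ℚ] AlgebraicClosure ℚ) → Prop)
    (hW1 : S40hW1 W p B PP)
    (hG : ∀ (M' : ℕ) [NeZero M'] [NeZero (M' * p)], ¬ p ∣ M' → Squarefree M' →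
      S40hGeom4 W M' p B PP) :
    W.IsResiduallyModularOfLevel p (M / p) := by
  have hp2M : ¬ p ^ 2 ∣ M := by
    intro hsqd
    exact Nat.squarefree_iff_prime_squarefree.mp hsq p hp (by rwa [← pow_two])
  obtain ⟨M', rfl⟩ := hpM
  have hM'0 : M' ≠ 0 := by
    rintro rfl
    simp at hM
  have hpM' : ¬ p ∣ M' := by
    rintro ⟨c, rfl⟩
    exact hp2M ⟨c, by ring⟩
  have hsqM' : Squarefree M' := hsq.squarefree_of_dvd (Dvd.intro_left p rfl)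
  haveI : NeZero M' := ⟨hM'0⟩
  haveI : NeZero (M' * p) := ⟨Nat.mul_ne_zero hM'0 hp.ne_zero⟩
  have hdiv : p * M' / p = M' := Nat.mul_div_cancel_left M' hp.pos
  rw [hdiv]
  rw [mul_comm] at hmod
  rcases hDich M' hpM' hmod with h | ⟨S, V, hS, hNew⟩
  · exact h
  · exact s40h_new_old4 W p M' B PP (hG M' hpM' hsqM') hW1 hcardW S V
      (fun ℓ hℓ h => hS ℓ h hℓ) (hnE S) hNew

/-- **S44 from the guarded blocks (J-TAME), (J-WILD) at squarefree levels** (the W-side is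
`w1m6_hW1`). -/
theorem s44g_asm (P : FreyPackage) {N : ℕ} (hcond : P.IsConductorLevel N) (hpN : P.p ∣ N)
    (hirr : GaloisRepIsIrreducible (K := AlgebraicClosure ℚ) ℚ P.freyCurve P.p)
    (hmod : P.ModularRepOfLevel N)
    (hJ : ∀ (B : ValuationSubring (AlgebraicClosure ℚ)), B.LiesOverPrime P.p →
      ∀ (M' : ℕ) [NeZero M'] [NeZero (M' * P.p)], ¬ P.p ∣ M' → Squarefree M' →
        S44jTame M' P.p B ∧ S44jWild M' P.p B) :
    ∃ M : ℕ, M ∣ N ∧ ¬ P.p ∣ M ∧ P.ModularRepOfLevel M := by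
  obtain ⟨f, W, 𝔪, hf, hWint, h𝔪, hp𝔪, hcong⟩ := hmod
  have hp : P.p.Prime := P.pp
  have hp2 : P.p ≠ 2 := by
    have := P.hp5
    omega
  haveI : NeZero P.p := ⟨hp.ne_zero⟩
  have hΔ : W.Δ ≠ 0 := s44h_Δ_ne_zero hWint (Fermat.Agent.DivPoly.freyCurve_Δ_ne_zero P)
  have hirrW : W.ModRepIsIrreducible P.p := s44h_irr hWint hirr
  have hmodW : W.IsResiduallyModularOfLevel P.p N := ⟨f, 𝔪, hf, h𝔪, hp𝔪, hcong⟩
  have hp2N : ¬ P.p ^ 2 ∣ N := hcond.sq_not_dvd hp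
  have h2Δ : (2 : ℤ) ∣ W.Δ := s44g_two_dvd P hWint
  obtain ⟨B, -, hB, -⟩ := Fermat.Agent.FrobLib.exists_isFrobeniusAt P.p hp
  have hres : W.IsResiduallyModularOfLevel P.p (N / P.p) :=
    s44g_main W hp hcond.pos hpN hcond.squarefree hmodW (dich_final_all W hΔ hp hp2 hirrW)
      (s40h_cardW W hΔ hp hp2) (new_hnE W hΔ hp hp2 hirrW) B (S40hPeuB P.p B)
      (w1m6_hW1 P W hWint (hcond.p_dvd_abc hpN) B hB)
      (fun M' _ _ hpM' hsqM' =>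
        s44g_geom4 W M' P.p hp hp2 hpM' B hB h2Δ (hJ B hB M' hpM' hsqM').1
          (hJ B hB M' hpM' hsqM').2)
  refine ⟨N / P.p, Nat.div_dvd_of_dvd hpN, ?_, ?_⟩
  · intro h
    apply hp2N
    obtain ⟨c, hc⟩ := h
    obtain ⟨d, hd⟩ := hpN
    have h1 : N / P.p = d := by
      rw [hd]
      exact Nat.mul_div_cancel_left d hp.pos
    rw [h1] at hc
    exact ⟨c, by rw [hd, hc]; ring⟩
  · obtain ⟨g, 𝔪', hg, h𝔪', hp𝔪', hcong'⟩ := hres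
    exact ⟨g, W, 𝔪', hg, hWint, h𝔪', hp𝔪', hcong'⟩

end Fermat.Agent.S40lib

end
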