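import Mathlib
import Fermat.Agent.S36lib.Speed
import Fermat.Agent.S40lib.AJHub
import Fermat.Agent.S40lib.WildCore
import Fermat.Agent.S40lib.CoverWild
import Fermat.Agent.S40lib.TorPlusI1
import Fermat.Agent.S40lib.GeomOmega
import Fermat.Agent.AJlib.LaurentRoot

/-!
# Item 88 (S40), block (J-WILD): the ASSEMBLY (helper22)

`S40jWild M' p B` (AJHub) from the algebraic core `wlc_main` (helper19), applied at an AUXILIARY
level `M p` to the pull-backs `x̃`, `t̃` of `x` and of `t = σ₁ x - x`, and from the two blocks which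
are still open:

* `S40jCover N p B` (**C1**, helper1/helper5): the cover field `EY = F_N(U)`, `U ^ p = u_t`, inside
  `ℚ̄((q))`, stable under the coefficientwise action of inertia, with the deck map `σY`
  (`σY U = ζ U`) commuting with inertia  — the exact inputs of `wlc_main`;
* `S40jG2 M' p B` (**G2**): for the outputs `κ, u'', g` of `wlc_main` at the auxiliary level:
  `v(κ) ∉ p · v(p) ℤ`  (edge rule on the cover + Eisenstein step + (LIFT) + `tpp_fixed_descent`).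

Proved here:
* `s40j_mem_zmultiples` : in a group `V` with `p²` elements, a proper subgroup containing `t ≠ 0`
  of order `p` is `ℤ t`;
* `s40j_pull_inj` : the pull-back to the auxiliary level is injective on `J₀(M' p)[p]`;
* `s40j_wild_data` : `t = σ₁ x - x` has the properties needed (`(I - 1) x ⊆ ℤ t`, inertia acts on
  `t` through the mod `p` cyclotomic character);
* `s40j_wild_of_g2` : `S40jCover` (at the auxiliary levels) + `S40jG2` ⇒ `S40jWild`.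
-/

set_option autoImplicit false
set_option linter.style.haveILetI false
set_option linter.unusedSectionVars false
set_option linter.unusedVariables false

noncomputable section

namespace Fermat.Agent.S40lib

open AlgebraicCurve Fermat.Agent.GoodRed ModularCurve HahnSeries Fermat.Agent.S24lib
  Fermat.Agent.RRlib Fermat.Agent.GM Fermat.Agent.S34lib Fermat.Agent.S35lib Fermat.Agent.S36lib
  Fermat.Agent.S33lib Fermat.Agent.GalRep Fermat.Agent.HeckeBar Fermat.Agent.S31lib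

/-- in a group `V` with `p²` elements, a proper subgroup `H1` containing an element `t ≠ 0` of
order `p` is `ℤ t` -/
theorem s40j_mem_zmultiples {G : Type*} [AddCommGroup G] (V H1 : AddSubgroup G) (hH : H1 ≤ V)
    {p : ℕ} (hp : p.Prime) (hcard : Nat.card V = p ^ 2) {x t y : G} (hx : x ∈ V) (hxH : x ∉ H1)
    (ht : t ∈ H1) (ht0 : t ≠ 0) (hpt : p • t = 0) (hy : y ∈ H1) :
    y ∈ AddSubgroup.zmultiples t := by
  classical
  haveI : Fact p.Prime := ⟨hp⟩
  haveI : Finite V := Nat.finite_of_card_ne_zero (by rw [hcard]; exact pow_ne_zero 2 hp.ne_zero)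
  haveI : Finite H1 := Finite.of_injective (AddSubgroup.inclusion hH)
    (AddSubgroup.inclusion_injective hH)
  have hZ : AddSubgroup.zmultiples t ≤ H1 := (AddSubgroup.zmultiples_le).mpr ht
  have hcZ : Nat.card (AddSubgroup.zmultiples t) = p := by
    rw [Nat.card_zmultiples]
    exact addOrderOf_eq_prime hpt ht0
  have h1 : Nat.card H1 ∣ p ^ 2 := by
    rw [← hcard]
    exact AddSubgroup.card_dvd_of_le hH
  have h2 : p ∣ Nat.card H1 := by
    rw [← hcZ]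
    exact AddSubgroup.card_dvd_of_le hZ
  obtain ⟨k, hk, hk'⟩ := (Nat.dvd_prime_pow hp).1 h1
  have hk2 : k ≠ 2 := by
    rintro rfl
    apply hxH
    have : H1 = V := AddSubgroup.eq_of_le_of_card_ge hH (by rw [hk', hcard])
    rw [this]
    exact hx
  have hk0 : k ≠ 0 := by
    rintro rfl
    rw [hk', pow_zero] at h2
    exact hp.one_lt.ne' (Nat.dvd_one.mp h2)
  have hk1 : k = 1 := by omega
  have hZH : AddSubgroup.zmultiples t = H1 :=
    AddSubgroup.eq_of_le_of_card_ge hZ (by rw [hk', hk1, pow_one, hcZ])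
  rw [hZH]
  exact hy

/-- the pull-back to the auxiliary level is injective on the classes killed by `p` -/
theorem s40j_pull_inj (M' M p e : ℕ) [NeZero M'] [NeZero M] [NeZero p] [NeZero (M' * p)]
    [NeZero (M * p)] (hp : p.Prime) (hdvd : M' ∣ M) (hM : M * p = M' * p * e)
    (hdeg : dedekindPsi (M * p) < 2 * e * dedekindPsi (M' * p))
    (y : JZero (M' * p)) (hpy : p • y = 0)
    (h0 : auxLevelPull (M' * p) (M * p) (Nat.mul_dvd_mul_right hdvd p) y = 0) : y = 0 := by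
  haveI : RRHyp Kbar (FF (M * p)) := mod_rrHyp (M * p)
  obtain ⟨D, rfl⟩ := Pic0.mk_surjective y
  obtain ⟨u, hu0, hDu⟩ := tax_exists_kummer (M' * p) p D hpy
  have hdiv : ∀ P : Place Kbar (FF (M' * p)), (p : ℤ) ∣ P.ord u := fun P => ⟨_, (hDu P).symm⟩
  have hNM : M' * p ∣ M * p := Nat.mul_dvd_mul_right hdvd p
  have hιu : inclBar (M' * p) (M * p) hNM u ≠ 0 := (map_ne_zero _).2 hu0
  haveI : HasPrincipalDivisors Kbar (FF (M * p)) := wir_hasPrincipalDivisors (M * p)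
  have hk : gdfIsKummer (K := Kbar) p (auxLevelPull (M' * p) (M * p) hNM (Pic0.mk D))
      (inclBar (M' * p) (M * p) hNM u) :=
    gdf_isKummer_of_ord hιu
      (auxPullDegZero (inclBar (M' * p) (M * p) hNM) (isIntegral_inclBar (M' * p) (M * p) hNM)
        (aux_fundId_incl (M' * p) (M * p) hNM) D)
      (tax_pull_mk (M' * p) (M * p) hNM D).symm
      (tax_pull_ord (M' * p) (M * p) hNM p D u hDu)
  obtain ⟨c, s, -, -, hcs⟩ := (gdf_isKummer_zero_iff hp.ne_zero hk).mp h0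
  obtain ⟨g₀, c₀, h1⟩ := Fermat.Agent.S18lib.exists_root_of_inclBar (M' * p) (M * p) e hM hdeg
    p hp.pos u hu0 hdiv s c hcs
  exact tax_mk_eq_zero (M' * p) p hp.ne_zero D u hu0 hDu c₀ g₀ h1

/-- the pull-back of a class killed by `p` has a Kummer function -/
theorem s40j_pull_kummer (N M p : ℕ) [NeZero N] [NeZero M]
    [RRBase Kbar (modularFunctionFieldBar M)] (h : N ∣ M)
    (y : JZero N) (hpy : p • y = 0) :
    ∃ u : FF M, gdfIsKummer (K := Kbar) p (auxLevelPull N M h y) u := by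
  haveI : HasPrincipalDivisors Kbar (FF M) := wir_hasPrincipalDivisors M
  obtain ⟨D, rfl⟩ := Pic0.mk_surjective y
  obtain ⟨u, hu0, hDu⟩ := tax_exists_kummer N p D hpy
  have hιu : inclBar N M h u ≠ 0 := (map_ne_zero _).2 hu0
  exact ⟨inclBar N M h u, gdf_isKummer_of_ord hιu
    (auxPullDegZero (inclBar N M h) (isIntegral_inclBar N M h) (aux_fundId_incl N M h) D)
    (tax_pull_mk N M h D).symm (tax_pull_ord N M h p D u hDu)⟩

/-- a Kummer function has a `p`-th root in the field of Laurent series -/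
theorem s40j_exists_root (N p : ℕ) [NeZero N] [RRBase Kbar (modularFunctionFieldBar N)]
    (hp : 0 < p) {t : JZero N}
    {ut : modularFunctionFieldBar N} (ht : gdfIsKummer (K := Kbar) p t ut) :
    ∃ U : LaurentSeries Kbar, U ^ p = (ut : LaurentSeries Kbar) := by
  obtain ⟨D, -, hord⟩ := gdf_isKummer_ord ht
  have h0 : (ut : LaurentSeries Kbar) ≠ 0 := fun h => gdf_isKummer_ne_zero ht (Subtype.ext h)
  refine Fermat.Agent.AJlib.laurent_exists_root Kbar p hp _ h0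
    ⟨(D : Divisor Kbar (modularFunctionFieldBar N)) (infPlaceBar N), ?_⟩
  rw [← infPlaceBar_ord, ← hord (infPlaceBar N)]

/-- **(G2)**: in the situation of (J-WILD), for the pull-backs `x̃`, `t̃` to an auxiliary level
`M p`, the cover field `EY = F(U)`, `U ^ p = u_t`, with its deck map `σY`, and functions
`u''`, `g ∈ EY` fixed by inertia with `σY u'' = κ g ^ p u''`, `u'' = c u_x h ^ p`
(the outputs of `cvw_wild`): the valuation of `κ` is not divisible by `p`. -/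
def S40jG2 (M' p : ℕ) [NeZero M'] [NeZero (M' * p)]
    (B : ValuationSubring (AlgebraicClosure ℚ)) : Prop :=
  ∀ (S : Finset ℕ) (a : ℕ → ℤ) (V : AddSubgroup (JZero (M' * p))),
    (∀ ℓ : ℕ, ℓ.Prime → ℓ ∣ M' * p → ℓ ∈ S) →
    Nat.card V = p ^ 2 → (∀ x ∈ V, p • x = 0) →
    (∀ (σ : AlgebraicClosure ℚ ≃ₐ[ℚ] AlgebraicClosure ℚ), ∀ x ∈ V, σ • x ∈ V) →
    S40hEig (M' * p) S a V → S40hNotAt M' p S a →
    (∃ ℓ : Nat.Primes, (ℓ : ℕ) ∉ S ∧ ¬ (p : ℤ) ∣ a ℓ - (1 + (ℓ : ℕ))) →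
    ∀ x ∈ V, x ≠ 0 → (∃ τ₀ ∈ B.inertiaSubgroupIn ℚ, S33hMoves p τ₀ ∧ τ₀ • x = x) →
    ∀ t ∈ V, t ≠ 0 →
    (∀ σ ∈ B.inertiaSubgroupIn ℚ, σ • x - x ∈ AddSubgroup.zmultiples t) →
    (∀ τ ∈ B.inertiaSubgroupIn ℚ, ∃ w : ℕ, τ • t = w • t ∧
      ∀ ξ : Kbar, ξ ^ p = 1 → τ ξ = ξ ^ w) →
    ∀ (M e : ℕ) (_ : NeZero M) (_ : NeZero (M * p)) (hdvd : M' ∣ M), IsAuxLevel p M →
    M * p = M' * p * e → dedekindPsi (M * p) < 2 * e * dedekindPsi (M' * p) →
    ∀ (ζ : Kbar), IsPrimitiveRoot ζ p →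
    letI : RRBase Kbar (modularFunctionFieldBar (M * p)) := (mod_rrHyp (M * p)).toRRBase
    ∀ (ux ut : modularFunctionFieldBar (M * p)),
    gdfIsKummer (K := Kbar) p
      (auxLevelPull (M' * p) (M * p) (Nat.mul_dvd_mul_right hdvd p) x) ux →
    gdfIsKummer (K := Kbar) p
      (auxLevelPull (M' * p) (M * p) (Nat.mul_dvd_mul_right hdvd p) t) ut →
    ∀ (U : LaurentSeries Kbar), U ^ p = (ut : LaurentSeries Kbar) →
    ∀ (σY : ↥(cvcAdj (modularFunctionFieldBar (M * p)) U) →+*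
        ↥(cvcAdj (modularFunctionFieldBar (M * p)) U)),
      ((∀ c : Kbar, σY (algebraMap Kbar ↥(cvcAdj (modularFunctionFieldBar (M * p)) U) c) =
        algebraMap Kbar ↥(cvcAdj (modularFunctionFieldBar (M * p)) U) c) ∧
      (∀ f : modularFunctionFieldBar (M * p),
        σY ⟨(f : LaurentSeries Kbar), cvc_le_adj (modularFunctionFieldBar (M * p)) U f.2⟩ =
          ⟨(f : LaurentSeries Kbar), cvc_le_adj (modularFunctionFieldBar (M * p)) U f.2⟩) ∧
      σY ⟨U, cvc_mem_adj (modularFunctionFieldBar (M * p)) U⟩ =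
        algebraMap Kbar ↥(cvcAdj (modularFunctionFieldBar (M * p)) U) ζ *
          ⟨U, cvc_mem_adj (modularFunctionFieldBar (M * p)) U⟩ ∧
      (∀ (σ : Kbar ≃ₐ[ℚ] Kbar), σ ∈ B.inertiaSubgroupIn ℚ →
        ∀ (z : ↥(cvcAdj (modularFunctionFieldBar (M * p)) U)),
        ∃ hz : coeffMap ((σ : Kbar ≃ₐ[ℚ] Kbar) : Kbar →+* Kbar) (z : LaurentSeries Kbar) ∈
            cvcAdj (modularFunctionFieldBar (M * p)) U,
          ∃ hz' : coeffMap ((σ : Kbar ≃ₐ[ℚ] Kbar) : Kbar →+* Kbar)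
              ((σY z : ↥(cvcAdj (modularFunctionFieldBar (M * p)) U)) : LaurentSeries Kbar) ∈
              cvcAdj (modularFunctionFieldBar (M * p)) U,
            σY ⟨_, hz⟩ = ⟨_, hz'⟩) ∧
      (∀ y : ↥(cvcAdj (modularFunctionFieldBar (M * p)) U), σY y = y →
        (y : LaurentSeries Kbar) ∈ modularFunctionFieldBar (M * p)) ∧
      (∀ y : ↥(cvcAdj (modularFunctionFieldBar (M * p)) U), σY^[p] y = y)) →
    ∀ (rt κ : Kbar) (u g : ↥(cvcAdj (modularFunctionFieldBar (M * p)) U)),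
      κ ≠ 0 → rt ≠ 0 → rt ^ p = κ →
      (∀ τ ∈ B.inertiaSubgroupIn ℚ, τ κ = κ) →
      (∀ τ ∈ B.inertiaSubgroupIn ℚ, (τ • x = x ↔ τ rt = rt)) →
      u ≠ 0 → g ≠ 0 →
      (∀ τ ∈ B.inertiaSubgroupIn ℚ,
        coeffMap ((τ : Kbar ≃ₐ[ℚ] Kbar) : Kbar →+* Kbar) (u : LaurentSeries Kbar) =
          (u : LaurentSeries Kbar)) →
      (∀ τ ∈ B.inertiaSubgroupIn ℚ,
        coeffMap ((τ : Kbar ≃ₐ[ℚ] Kbar) : Kbar →+* Kbar) (g : LaurentSeries Kbar) =
          (g : LaurentSeries Kbar)) →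
      σY u = algebraMap Kbar ↥(cvcAdj (modularFunctionFieldBar (M * p)) U) κ * g ^ p * u →
      (∃ (c : Kbar) (h : ↥(cvcAdj (modularFunctionFieldBar (M * p)) U)), c ≠ 0 ∧ h ≠ 0 ∧
        (u : LaurentSeries Kbar) = algebraMap Kbar (LaurentSeries Kbar) c *
          (ux : LaurentSeries Kbar) * (h : LaurentSeries Kbar) ^ p) →
      ∀ n : ℤ, B.valuation κ ≠ B.valuation (p : AlgebraicClosure ℚ) ^ ((p : ℤ) * n)

/-- **(J-WILD) from (G2)**: `cvw_wild` (helper1/helper5/helper19) at an auxiliary level. -/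
theorem s40j_wild_of_g2 (M' p : ℕ) [NeZero M'] [NeZero p] [NeZero (M' * p)]
    (hp : p.Prime) (hp2 : p ≠ 2) (hpM : ¬ p ∣ M')
    (B : ValuationSubring (AlgebraicClosure ℚ)) (hB : B.LiesOverPrime p)
    (hG : S40jG2 M' p B) : S40jWild M' p B := by
  haveI : Fact p.Prime := ⟨hp⟩
  intro S a V hS hcard hVp hstab hEig hNot hnE x hx hx0 hfix hmoved
  obtain ⟨σ₁, hσ₁, hne⟩ := hmoved
  have htV : σ₁ • x - x ∈ V := V.sub_mem (hstab σ₁ x hx) hx
  have ht0 : σ₁ • x - x ≠ 0 := sub_ne_zero.mpr hne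
  have hpt : p • (σ₁ • x - x) = 0 := hVp _ htV
  have hKI : ∀ σ ∈ B.inertiaSubgroupIn ℚ, σ • x - x ∈ s33hKI (M' * p) p B := fun σ hσ =>
    AddSubgroup.subset_closure ⟨σ, hσ, x, ⟨1, by rw [pow_one]; exact hVp x hx⟩, rfl⟩
  have hnew : ∀ y ∈ V, degJAlpha M' p y = 0 ∧ degJBeta M' p y = 0 := fun y hy =>
    s40h_new_of_notAt M' p hp hpM S a V hS hVp hEig hNot y hy
  -- the subgroup of the classes of `V` fixed by `I₁`
  let H1 : AddSubgroup (JZero (M' * p)) :=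
    { carrier := {y | y ∈ V ∧ ∀ τ ∈ S40hI1 p B, τ • y = y}
      zero_mem' := ⟨V.zero_mem, fun τ _ => smul_zero τ⟩
      add_mem' := fun {y z} hy hz => ⟨V.add_mem hy.1 hz.1, fun τ hτ => by
        rw [smul_add, hy.2 τ hτ, hz.2 τ hτ]⟩
      neg_mem' := fun {y} hy => ⟨V.neg_mem hy.1, fun τ hτ => by rw [smul_neg, hy.2 τ hτ]⟩ }
  have hH1 : ∀ σ ∈ B.inertiaSubgroupIn ℚ, σ • x - x ∈ H1 := fun σ hσ =>
    ⟨V.sub_mem (hstab σ x hx) hx, fun τ hτ =>
      tpp_I1 M' p hp hp2 hpM hB _ (hVp _ (V.sub_mem (hstab σ x hx) hx)) (hKI σ hσ)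
        (hnew _ (V.sub_mem (hstab σ x hx) hx)).1 (hnew _ (V.sub_mem (hstab σ x hx) hx)).2 τ hτ⟩
  have hxH : x ∉ H1 := fun h => hne (h.2 σ₁ hσ₁)
  have hHx : ∀ σ ∈ B.inertiaSubgroupIn ℚ, σ • x - x ∈ AddSubgroup.zmultiples (σ₁ • x - x) :=
    fun σ hσ => s40j_mem_zmultiples V H1 (fun y hy => hy.1) hp hcard hx hxH (hH1 σ₁ hσ₁.1) ht0 hpt
      (hH1 σ hσ)
  have hω : ∀ τ ∈ B.inertiaSubgroupIn ℚ, ∃ w : ℕ, τ • (σ₁ • x - x) = w • (σ₁ • x - x) ∧
      ∀ ξ : Kbar, ξ ^ p = 1 → τ ξ = ξ ^ w := fun τ hτ =>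
    ⟨_, gom_omega_of_mem M' p hp hp2 hpM hB _ hpt (hKI σ₁ hσ₁.1) (hnew _ htV).1 (hnew _ htV).2 τ hτ,
      fun ξ hξ => cysp_spec p 1 τ ξ (by rwa [pow_one])⟩
  -- the auxiliary level
  obtain ⟨M, e, hM0, hMp0, hdvd, haux, hM, hdeg⟩ := gom_aux_data M' p hp hpM
  have hNM : M' * p ∣ M * p := Nat.mul_dvd_mul_right hdvd p
  letI : RRBase Kbar (modularFunctionFieldBar (M * p)) := (mod_rrHyp (M * p)).toRRBase
  obtain ⟨ux, hux⟩ := s40j_pull_kummer (M' * p) (M * p) p hNM x (hVp x hx)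
  obtain ⟨ut, hut⟩ := s40j_pull_kummer (M' * p) (M * p) p hNM (σ₁ • x - x) hpt
  obtain ⟨ζ, hζ⟩ := HasEnoughRootsOfUnity.exists_primitiveRoot Kbar p
  obtain ⟨U, hU⟩ := s40j_exists_root (M * p) p hp.pos hut
  have ht0' : auxLevelPull (M' * p) (M * p) hNM (σ₁ • x - x) ≠ 0 := fun h0 =>
    ht0 (s40j_pull_inj M' M p e hp hdvd hM hdeg _ hpt h0)
  have hpt' : p • auxLevelPull (M' * p) (M * p) hNM (σ₁ • x - x) = 0 := by
    rw [← map_nsmul, hpt, map_zero]
  have hHx' : ∀ σ ∈ B.inertiaSubgroupIn ℚ,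
      σ • auxLevelPull (M' * p) (M * p) hNM x - auxLevelPull (M' * p) (M * p) hNM x ∈
        AddSubgroup.zmultiples (auxLevelPull (M' * p) (M * p) hNM (σ₁ • x - x)) := by
    intro σ hσ
    obtain ⟨k, hk⟩ := AddSubgroup.mem_zmultiples_iff.mp (hHx σ hσ)
    refine AddSubgroup.mem_zmultiples_iff.mpr ⟨k, ?_⟩
    rw [← auxLevelPull_smul, ← map_sub, ← hk, map_zsmul]
  have hω' : ∀ σ ∈ B.inertiaSubgroupIn ℚ, ∃ w : ℕ,
      σ • auxLevelPull (M' * p) (M * p) hNM (σ₁ • x - x) =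
        w • auxLevelPull (M' * p) (M * p) hNM (σ₁ • x - x) ∧ σ ζ = ζ ^ w := by
    intro σ hσ
    obtain ⟨w, hw, hwζ⟩ := hω σ hσ
    refine ⟨w, ?_, hwζ ζ (hζ.pow_eq_one)⟩
    rw [← auxLevelPull_smul, hw, map_nsmul]
  obtain ⟨σY, hσ, rt, κ, u, g, hκ0, hrt0, hpow, hκI, hSt, hu0, hg0, huI, hgI, hσu, hch⟩ :=
    cvw_wild (M * p) hp hζ (B.inertiaSubgroupIn ℚ) hux hut hpt' ht0' hHx' hω' hU
  have hSt' : ∀ τ ∈ B.inertiaSubgroupIn ℚ, (τ • x = x ↔ τ rt = rt) := by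
    intro τ hτ
    rw [← hSt τ hτ]
    constructor
    · intro h
      rw [← auxLevelPull_smul, h]
    · intro h
      have h1 : auxLevelPull (M' * p) (M * p) hNM (τ • x - x) = 0 := by
        rw [map_sub, auxLevelPull_smul, h, sub_self]
      exact sub_eq_zero.mp (s40j_pull_inj M' M p e hp hdvd hM hdeg _
        (hVp _ (V.sub_mem (hstab τ x hx) hx)) h1)
  refine ⟨rt, κ, hκ0, hpow, hκI, ?_, fun τ hτ => hSt' τ hτ.1⟩
  exact hG S a V hS hcard hVp hstab hEig hNot hnE x hx hx0 hfix (σ₁ • x - x) htV ht0 hHx hω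
    M e hM0 hMp0 hdvd haux hM hdeg ζ hζ ux ut hux hut U hU σY hσ rt κ u g hκ0 hrt0 hpow hκI hSt'
    hu0 hg0 huI hgI hσu hch

end Fermat.Agent.S40lib

end
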