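import Mathlib
import Fermat.Agent.S36lib.Speed
import Fermat.Agent.S40lib.WildAsm
import Fermat.Agent.S40lib.TameAsm

/-!
# Item 88 (S40/S44), block (J-WILD): (G2) from (WILD-POW) (helper22)

`S40jG2 M' p B` (WildAsm) from the statement **(WILD-POW)**, the exact analogue of helper14's
(TAME-POW) `S40tmaPow`: in the situation of (G2), if `v(κ) = v(p) ^ (p n)`, then at the auxiliary
level both Gauss reductions of `c_i · u_x` are `p`-th powers and `c₁ / c₂ = d ^ p` with `d` the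
Gauss difference of some `g₀` (the hypotheses of `tma_ker2_gen`).  Then `tma_ker2_gen` gives
(KER2) for the pull-back of `x`, and `tpp_fixed_descent` gives `x = 0`, a contradiction.

* `S40jWildPow M' p hp B` : (WILD-POW);
* `s40j_g2_of_pow`        : (WILD-POW) ⇒ (G2);
* `s40j_wild_of_pow`      : (WILD-POW) ⇒ (J-WILD) `S40jWild M' p B`.
-/

set_option autoImplicit false
set_option linter.style.haveILetI false
set_option linter.unusedSectionVars false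
set_option linter.unusedVariables false

noncomputable section

namespace Fermat.Agent.S40lib

open AlgebraicCurve Fermat.Agent.GoodRed ModularCurve HahnSeries Fermat.Agent.S24lib
  Fermat.Agent.RRlib Fermat.Agent.GM Fermat.Agent.S34lib Fermat.Agent.S35lib Fermat.Agent.S36lib
  Fermat.Agent.S33lib Fermat.Agent.GalRep Fermat.Agent.HeckeBar Fermat.Agent.S31lib
  Fermat.Agent.S18lib

/-- **(WILD-POW)**: in the situation of (G2) with `v(κ) = v(p) ^ (p n)`, the hypotheses of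
`tma_ker2_gen` hold for the pull-back of `x` and its Kummer function `u_x`. -/
def S40jWildPow (M' p : ℕ) [NeZero M'] [NeZero (M' * p)] (hp : p.Prime)
    (B : ValuationSubring (AlgebraicClosure ℚ)) : Prop :=
  ∀ (S : Finset ℕ) (a : ℕ → ℤ) (V : AddSubgroup (JZero (M' * p))),
    (∀ ℓ : ℕ, ℓ.Prime → ℓ ∣ M' * p → ℓ ∈ S) →
    Nat.card V = p ^ 2 → (∀ x ∈ V, p • x = 0) →
    (∀ (σ : AlgebraicClosure ℚ ≃ₐ[ℚ] AlgebraicClosure ℚ), ∀ x ∈ V, σ • x ∈ V) →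
    S40hEig (M' * p) S a V → S40hNotAt M' p S a →
    (∃ ℓ : Nat.Primes, (ℓ : ℕ) ∉ S ∧ ¬ (p : ℤ) ∣ a ℓ - (1 + (ℓ : ℕ))) →
    ∀ x ∈ V, x ≠ 0 → (∃ τ₀ ∈ B.inertiaSubgroupIn ℚ, S33hMoves p τ₀ ∧ τ₀ • x = x) →
    ∀ t ∈ V, t ≠ 0 →
    (∀ σ ∈ B.inertiaSubgroupIn ℚ, σ • x - x ∈ AddSubgroup.zmultiples t) →
    (∀ τ ∈ B.inertiaSubgroupIn ℚ, ∃ w : ℕ, τ • t = w • t ∧
      ∀ ξ : Kbar, ξ ^ p = 1 → τ ξ = ξ ^ w) →
    ∀ (M e : ℕ) (_ : NeZero M) (_ : NeZero (M * p)) (hdvd : M' ∣ M) (haux : IsAuxLevel p M),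
    M * p = M' * p * e → dedekindPsi (M * p) < 2 * e * dedekindPsi (M' * p) →
    ∀ (ζ : Kbar), IsPrimitiveRoot ζ p →
    letI : RRBase Kbar (modularFunctionFieldBar (M * p)) := (mod_rrHyp (M * p)).toRRBase
    ∀ (ux ut : modularFunctionFieldBar (M * p)),
    gdfIsKummer (K := Kbar) p
      (auxLevelPull (M' * p) (M * p) (Nat.mul_dvd_mul_right hdvd p) x) ux →
    gdfIsKummer (K := Kbar) p
      (auxLevelPull (M' * p) (M * p) (Nat.mul_dvd_mul_right hdvd p) t) ut →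
    ∀ (U : LaurentSeries Kbar), U ^ p = (ut : LaurentSeries Kbar) →
    ∀ (σY : ↥(cvcAdj (modularFunctionFieldBar (M * p)) U) →+*
        ↥(cvcAdj (modularFunctionFieldBar (M * p)) U)),
      ((∀ c : Kbar, σY (algebraMap Kbar ↥(cvcAdj (modularFunctionFieldBar (M * p)) U) c) =
        algebraMap Kbar ↥(cvcAdj (modularFunctionFieldBar (M * p)) U) c) ∧
      (∀ f : modularFunctionFieldBar (M * p),
        σY ⟨(f : LaurentSeries Kbar), cvc_le_adj (modularFunctionFieldBar (M * p)) U f.2⟩ =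
          ⟨(f : LaurentSeries Kbar), cvc_le_adj (modularFunctionFieldBar (M * p)) U f.2⟩) ∧
      σY ⟨U, cvc_mem_adj (modularFunctionFieldBar (M * p)) U⟩ =
        algebraMap Kbar ↥(cvcAdj (modularFunctionFieldBar (M * p)) U) ζ *
          ⟨U, cvc_mem_adj (modularFunctionFieldBar (M * p)) U⟩ ∧
      (∀ (σ : Kbar ≃ₐ[ℚ] Kbar), σ ∈ B.inertiaSubgroupIn ℚ →
        ∀ (z : ↥(cvcAdj (modularFunctionFieldBar (M * p)) U)),
        ∃ hz : coeffMap ((σ : Kbar ≃ₐ[ℚ] Kbar) : Kbar →+* Kbar) (z : LaurentSeries Kbar) ∈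
            cvcAdj (modularFunctionFieldBar (M * p)) U,
          ∃ hz' : coeffMap ((σ : Kbar ≃ₐ[ℚ] Kbar) : Kbar →+* Kbar)
              ((σY z : ↥(cvcAdj (modularFunctionFieldBar (M * p)) U)) : LaurentSeries Kbar) ∈
              cvcAdj (modularFunctionFieldBar (M * p)) U,
            σY ⟨_, hz⟩ = ⟨_, hz'⟩) ∧
      (∀ y : ↥(cvcAdj (modularFunctionFieldBar (M * p)) U), σY y = y →
        (y : LaurentSeries Kbar) ∈ modularFunctionFieldBar (M * p)) ∧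
      (∀ y : ↥(cvcAdj (modularFunctionFieldBar (M * p)) U), σY^[p] y = y)) →
    ∀ (rt κ : Kbar) (u g : ↥(cvcAdj (modularFunctionFieldBar (M * p)) U)),
      κ ≠ 0 → rt ≠ 0 → rt ^ p = κ →
      (∀ τ ∈ B.inertiaSubgroupIn ℚ, τ κ = κ) →
      (∀ τ ∈ B.inertiaSubgroupIn ℚ, (τ • x = x ↔ τ rt = rt)) →
      u ≠ 0 → g ≠ 0 →
      (∀ τ ∈ B.inertiaSubgroupIn ℚ,
        coeffMap ((τ : Kbar ≃ₐ[ℚ] Kbar) : Kbar →+* Kbar) (u : LaurentSeries Kbar) =
          (u : LaurentSeries Kbar)) →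
      (∀ τ ∈ B.inertiaSubgroupIn ℚ,
        coeffMap ((τ : Kbar ≃ₐ[ℚ] Kbar) : Kbar →+* Kbar) (g : LaurentSeries Kbar) =
          (g : LaurentSeries Kbar)) →
      σY u = algebraMap Kbar ↥(cvcAdj (modularFunctionFieldBar (M * p)) U) κ * g ^ p * u →
      (∃ (c : Kbar) (h : ↥(cvcAdj (modularFunctionFieldBar (M * p)) U)), c ≠ 0 ∧ h ≠ 0 ∧
        (u : LaurentSeries Kbar) = algebraMap Kbar (LaurentSeries Kbar) c *
          (ux : LaurentSeries Kbar) * (h : LaurentSeries Kbar) ^ p) →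
      ∀ n : ℤ, B.valuation κ = B.valuation (p : AlgebraicClosure ℚ) ^ ((p : ℤ) * n) →
      ∀ (R : ConstRed B (IsLocalRing.residue B)
        (↥(modularFunctionFieldFullC (IsLocalRing.ResidueField B) M)) (FF (M * p))),
      IsSeriesRed R →
      ∃ (c₁ c₂ d : Kbar)
        (w₁ w₂ a₁ a₂ : ↥(modularFunctionFieldFullC (IsLocalRing.ResidueField B) M))
        (g₀ : FF (M * p)),
        c₁ ≠ 0 ∧ d ^ p * c₂ = c₁ ∧ w₁ ≠ 0 ∧ w₂ ≠ 0 ∧ a₁ ≠ 0 ∧ a₂ ≠ 0 ∧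
        KspRed R (algebraMap Kbar (FF (M * p)) c₁ * ux) (w₁ ^ p) ∧
        KspRed (glmZero M p hp haux.1 R) (algebraMap Kbar (FF (M * p)) c₂ * ux) (w₂ ^ p) ∧
        KspRed R g₀ a₁ ∧
        KspRed (glmZero M p hp haux.1 R) (algebraMap Kbar (FF (M * p)) d * g₀) a₂

/-- **(WILD-POW) ⇒ (G2)** -/
theorem s40j_g2_of_pow (M' p : ℕ) [NeZero M'] [NeZero p] [NeZero (M' * p)]
    (hp : p.Prime) (hp2 : p ≠ 2) (hpM : ¬ p ∣ M')
    (B : ValuationSubring (AlgebraicClosure ℚ)) (hB : B.LiesOverPrime p)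
    (hP : S40jWildPow M' p hp B) : S40jG2 M' p B := by
  intro S a V hS hcard hVp hstab hEig hNot hnE x hx hx0 hfix t htV ht0 hHx hω
    M e hM0 hMp0 hdvd haux hM hdeg ζ hζ ux ut hux hut U hU σY hσ rt κ u g hκ0 hrt0 hpow hκI hSt
    hu0 hg0 huI hgI hσu hch n hn
  apply hx0
  obtain ⟨R, hR⟩ := exists_constRedInf_aux M p hp haux.1 B hB
  obtain ⟨c₁, c₂, d, w₁, w₂, a₁, a₂, g₀, hc₁, hd, hw₁, hw₂, ha₁, ha₂, h₁, h₂, hg₁, hg₂⟩ :=
    hP S a V hS hcard hVp hstab hEig hNot hnE x hx hx0 hfix t htV ht0 hHx hω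
      M e hM0 hMp0 hdvd haux hM hdeg ζ hζ ux ut hux hut U hU σY hσ rt κ u g hκ0 hrt0 hpow hκI hSt
      hu0 hg0 huI hgI hσu hch n hn R hR
  letI : RRBase Kbar (FF (M * p)) := (mod_rrHyp (M * p)).toRRBase
  have hker : TppKer2 M p hp haux.1 R
      (auxLevelPull (M' * p) (M * p) (Nat.mul_dvd_mul_right hdvd p) x) :=
    tma_ker2_gen p M hp haux.1 hB R hR _ ux hux c₁ c₂ d w₁ w₂ a₁ a₂ g₀ hc₁ hd hw₁ hw₂ ha₁ ha₂
      h₁ h₂ hg₁ hg₂
  obtain ⟨hα, hβ⟩ := s40h_new_of_notAt M' p hp hpM S a V hS hVp hEig hNot x hx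
  obtain ⟨τ₀, hτ₀, hmv, hτx⟩ := hfix
  exact tpp_fixed_descent M' M p e hp hp2 haux hdvd hM hdeg hB R hR x (hVp x hx) hker hα hβ
    τ₀ hτ₀ hmv hτx

/-- **(WILD-POW) ⇒ (J-WILD)** -/
theorem s40j_wild_of_pow (M' p : ℕ) [NeZero M'] [NeZero p] [NeZero (M' * p)]
    (hp : p.Prime) (hp2 : p ≠ 2) (hpM : ¬ p ∣ M')
    (B : ValuationSubring (AlgebraicClosure ℚ)) (hB : B.LiesOverPrime p)
    (hP : S40jWildPow M' p hp B) : S40jWild M' p B :=
  s40j_wild_of_g2 M' p hp hp2 hpM B hB (s40j_g2_of_pow M' p hp hp2 hpM B hB hP)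

end Fermat.Agent.S40lib

end
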