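import Mathlib
import Fermat.Agent.S36lib.Speed
import Fermat.Agent.S40lib.W1MultFinal
import Fermat.Agent.S40lib.TameAsm
import Fermat.Agent.S40lib.WildPow

/-!
# Item 88 (S44): the final conditional assembly (chief architect helper6)

`s44h_final`: the statement S44 (level lowering at `p` for a Frey package, `5 ≤ p`) from the three
remaining blocks, in the exact shapes of the hubs:

* `S44W1Depth` (W-side, `W1MultFinal.lean`): the depth estimate on the integral shape curve;
* `S40tmaPow` (J-TAME, `TameAsm.lean`): both Gauss reductions of the inertia-fixed Kummer function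
  are `p`-th powers;
* `S40jWildPow` (J-WILD, `WildPow.lean`): the same for the Kummer function of a class moved by the
  wild inertia, when `p ∣ v(κ)`.
-/

set_option autoImplicit false
set_option linter.style.haveILetI false

noncomputable section

namespace Fermat.Agent.S40lib

open Fermat.Agent.GalRep ModularCurve Fermat.Agent.S31lib Fermat.Agent.S35lib
  Fermat.Agent.S33lib WeierstrassCurve WeierstrassCurve.Affine WeierstrassCurve.Affine.Point

/-- **S44 from (DEPTH), (TAME-POW) and (WILD-POW)**. -/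
theorem s44h_final
    (hDepth : S44W1Depth)
    (hT : ∀ (p : ℕ) (hp : p.Prime), 5 ≤ p → ∀ (B : ValuationSubring (AlgebraicClosure ℚ)),
      B.LiesOverPrime p → ∀ (M' : ℕ) [NeZero M'] [NeZero p] [NeZero (M' * p)], ¬ p ∣ M' →
        S40tmaPow M' p hp B)
    (hW : ∀ (p : ℕ) (hp : p.Prime), 5 ≤ p → ∀ (B : ValuationSubring (AlgebraicClosure ℚ)),
      B.LiesOverPrime p → ∀ (M' : ℕ) [NeZero M'] [NeZero p] [NeZero (M' * p)], ¬ p ∣ M' →
        S40jWildPow M' p hp B)
    (P : FreyPackage) {N : ℕ} (hcond : P.IsConductorLevel N)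
    (hpN : P.p ∣ N)
    (hirr : GaloisRepIsIrreducible (K := AlgebraicClosure ℚ) ℚ P.freyCurve P.p)
    (hmod : P.ModularRepOfLevel N) :
    ∃ M : ℕ, M ∣ N ∧ ¬ P.p ∣ M ∧ P.ModularRepOfLevel M := by
  have hp : P.p.Prime := P.pp
  have hp5 : 5 ≤ P.p := P.hp5
  have hp2 : P.p ≠ 2 := by omega
  haveI : NeZero P.p := ⟨hp.ne_zero⟩
  refine w1mf_S44 hDepth P hcond hpN hirr hmod ?_
  intro B hB M' _ _ hpM'
  exact ⟨tma_tame_of_pow M' P.p hp hp2 hpM' B hB (hT P.p hp hp5 B hB M' hpM'),
    s40j_wild_of_pow M' P.p hp hp2 hpM' B hB (hW P.p hp hp5 B hB M' hpM')⟩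

end Fermat.Agent.S40lib

end
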