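import Mathlib
import Fermat.Agent.S36lib.Speed
import Fermat.Agent.S40lib.DiffRedAbs
import Fermat.Agent.S40lib.DiffLift
import Fermat.Agent.S40lib.DerTheta3
import Fermat.Agent.S40lib.DiffRed
import Fermat.Agent.GoodRed.DescWiring
import Fermat.Agent.GM.MainFinal

/-!
# Item 88 (S40), layer (LIFT), the open piece (G) in ALL residue characteristics (helper9)

`gla_main`: for EVERY prime `ℓ` (`ℓ = 3` and `ℓ = 2` included), every level `N` prime to `ℓ` and
every valuation ring `A` of `ℚ̄` over `ℓ` with residue field `k`: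
`genusFF ℚ̄ (FF N) ≤ genusFF k F_{N,k}`.  (`GenusLe.gle_main` of helper4 is the case `ℓ ≥ 5`, by
Hurwitz; the library had the auxiliary levels only.)

No tameness, no count of fibres.  Proof: at the auxiliary level `M = lcm N (baseLevel ℓ)` the
lifting property (F3) holds; the norm of a lift of a suitable function of `F_{M,k}` is an integral
function of level `N` without poles on a given residue disc whose reduction is a uniformiser
(`DiffLift.dfl_hlift`); hence regular differentials of `FF N` reduce to regular differentials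
of `F_{N,k}` (`DiffRedAbs.dfr_regular`), and an orthonormal basis of `L(div dj)` gives
`g` linearly independent regular differentials of `F_{N,k}` (`gla_abstract`).

* `gla_abstract`     : the abstract statement (`ConstRed`, `IsPlaceRed`, `hlift`, `hder`);
* `gla_exists_hlift` : the place reduction at level `N ∣ M` with the lifts of uniformisers;
* `gla_hlift`        : the same for ANY place reduction `r` of ANY series reduction, level `N`;
* `gla_main`         : the genus inequality.
-/

set_option autoImplicit false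
set_option synthInstance.maxHeartbeats 400000
set_option linter.unusedSectionVars false
set_option linter.unusedVariables false
set_option linter.style.haveILetI false

noncomputable section

namespace Fermat.Agent.S40lib

open AlgebraicCurve ModularCurve KaehlerDifferential HahnSeries
open Fermat.Agent.RRlib Fermat.Agent.GoodRed Fermat.Agent.S24lib Fermat.Agent.GM
  Fermat.Agent.FFlib Fermat.Agent.S16lib Fermat.Agent.HeckeBar CongruenceSubgroup
open scoped MatrixGroups

section Abstract

variable {K F k Fk : Type*} [Field K] [Field F] [Algebra K F] [Field k] [Field Fk] [Algebra k Fk]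
variable {A : ValuationSubring K} {π : A →+* k}

/-- **the genus does not drop**, from the lifts of uniformisers and (DER) -/
theorem gla_abstract (R : ConstRed A π Fk F) [RRHyp K F] [RRHyp k Fk]
    [Nontrivial Ω[F⁄K]] [Nontrivial Ω[Fk⁄k]]
    (hgenF : ∀ v : Place K F, v.DCoordGenerates) (hgenk : ∀ v : Place k Fk, v.DCoordGenerates)
    {r : Place K F → Place k Fk} (hr : R.IsPlaceRed r)
    (hlift : ∀ Q : Place k Fk, ∃ t : R.O, Q.ord (R.red t) = 1 ∧
      ∀ P, r P = Q → 0 ≤ P.ord ((t : R.O) : F))
    (x : R.O) (hx : D K F ((x : R.O) : F) ≠ 0) (hxb : D k Fk (R.red x) ≠ 0)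
    (hder : ∀ f : R.O, ∃ f' : R.O,
      D K F ((f : R.O) : F) = ((f' : R.O) : F) • D K F ((x : R.O) : F) ∧
        D k Fk (R.red f) = R.red f' • D k Fk (R.red x)) :
    genusFF K F ≤ genusFF k Fk := by
  have hcK := hasCanonicalDivisor_of_rrHyp (K := K) (F := F) hgenF
  have hck := hasCanonicalDivisor_of_rrHyp (K := k) (F := Fk) hgenk
  have hDER := dth_hDER_of_hder x hder
  have hle : R.W (canonicalDivisorOf hx) ≤ riemannRochSpace (K := k) (canonicalDivisorOf hxb) := by
    intro wb hwb
    rw [R.mem_W_iff] at hwb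
    obtain ⟨y, hyL, rfl⟩ := hwb
    rw [mem_riemannRochSpace_iff] at hyL ⊢
    intro Q
    by_cases hy0 : R.red y = 0
    · exact Or.inl hy0
    right
    have hhol : ∀ P : Place K F,
        0 ≤ P.ordDifferential (((y : R.O) : F) • D K F ((x : R.O) : F)) := by
      intro P
      haveI := hgenF P
      by_cases hyF : ((y : R.O) : F) = 0
      · rw [hyF, zero_smul, Place.ordDifferential, P.differentialCoeff_zero, P.ord_zero]
      · rw [P.ordDifferential_smul hyF (rdf_coeff_ne_zero P hx)]
        have h1 := (hyL P).resolve_left hyF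
        rw [canonicalDivisorOf_apply] at h1
        omega
    have hreg := dfr_regular hgenF hgenk hr hlift hDER x y hhol Q
    haveI := hgenk Q
    rw [Q.ordDifferential_smul hy0 (rdf_coeff_ne_zero Q hxb)] at hreg
    rw [canonicalDivisorOf_apply]
    omega
  have hfin := finite_riemannRochSpace (K := k) (canonicalDivisorOf hxb)
  have h1 := Submodule.finrank_mono hle
  rw [(R.finrank_W (canonicalDivisorOf hx)).2,
    ell_canonical (isCanonicalDivisor_of_kaehler hgenF hx _ (canonicalDivisorOf_apply hx))] at h1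
  have h2 := ell_canonical
    (isCanonicalDivisor_of_kaehler hgenk hxb _ (canonicalDivisorOf_apply hxb))
  rw [ell] at h2
  rw [h2] at h1
  exact h1

end Abstract

section Generic

variable {N M : ℕ} [NeZero N] [NeZero M] {A : ValuationSubring Kbar}
variable {k : Type} [Field k] [IsAlgClosed k] {π : A →+* k}
variable {R_N : ConstRed A π (Fk k N) (FF N)} {R_M : ConstRed A π (Fk k M) (FF M)}

set_option maxHeartbeats 4000000 in
/-- **the descent for the modular tower, with the lifts of uniformisers**: the place reduction at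
level `N ∣ M` and, for every place `Q` of `F_{N,k}`, an integral function without poles on the
residue disc of `Q` whose reduction is a uniformiser at `Q`.  Genus inequality at level `M` only. -/
theorem gla_exists_hlift (h : N ∣ M)
    (htower : letI := algebraAlong (inclBar N M h)
      letI := algebraAlong (inclK k h)
      R_N.IsTower R_M)
    (hj : jF N ∈ R_N.O) (hredj : R_N.red ⟨jF N, hj⟩ = jk k N)
    (hDN : Nonempty (FiberData k (Fk k N) k ((jk k N)⁻¹) (SL(2, ℤ) ⧸ Gamma0 N) ModularGroup.T))
    (hDM : Nonempty (FiberData k (Fk k M) k ((jk k M)⁻¹) (SL(2, ℤ) ⧸ Gamma0 M) ModularGroup.T))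
    (hg : genusFF Kbar (FF M) ≤ genusFF k (Fk k M)) :
    haveI : RRHyp Kbar (FF N) := mod_rrHyp N
    ∃ r : Place Kbar (FF N) → Place k (Fk k N), R_N.IsPlaceRed r ∧
      ∀ Q : Place k (Fk k N), ∃ t : R_N.O, Q.ord (R_N.red t) = 1 ∧
        ∀ P, r P = Q → 0 ≤ P.ord ((t : R_N.O) : FF N) := by
  classical
  haveI : Infinite k := IsAlgClosed.instInfinite
  letI := algebraAlong (inclBar N M h)
  letI := algebraAlong (inclK k h)
  haveI := isScalarTower_along (inclBar N M h)
  haveI := isScalarTower_along (inclK k h)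
  haveI : RRHyp Kbar (FF N) := mod_rrHyp N
  haveI : RRHyp Kbar (FF M) := mod_rrHyp M
  haveI : RRHyp k (Fk k M) := mr_rrHyp k M
  haveI : RRHyp k (Fk k N) := mr_rrHyp k N
  haveI : Module.Finite (FF N) (FF M) := finiteAlong_inclBar N M h
  have hfink : FiniteAlong k (inclK k h) := dd_finite_algK N M h hDN hDM
  haveI : Module.Finite (Fk k N) (Fk k M) := hfink
  haveI : Algebra.IsIntegral (FF N) (FF M) := isIntegral_along _ (isIntegral_inclBar N M h)
  haveI : Algebra.IsIntegral (Fk k N) (Fk k M) := dw_isIntegral_inclK h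
  haveI := fin_ffData M
  obtain ⟨r', hr', hW⟩ := R_M.exists_isPlaceRed hg
  have hxK : algebraMap (FF N) (FF M) (jF N) = jF M := inclBar_jF N M h
  have hxk : algebraMap (Fk k N) (Fk k M) (jk k N) = jk k M := inclK_jk k h
  have hdd : ConstRed.DescentData R_N R_M r' ⟨jF N, hj⟩ :=
    { tower := htower
      finrank_eq := dd_finrank_eq N M h hDN hDM
      isPlaceRed := hr'
      W_eq := hW
      norm_K := gen_normFormula (inclBar N M h) (x' := jF M) (finiteAlong_inclBar N M h)
      norm_k := normFormulaAlong_inclK k h hfink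
      deg_K := fun P => deg_eq_one P
      deg_k := fun Q => deg_eq_one Q
      x_nonconst := by
        rw [hredj]
        exact dd_jk_nonconst N
      x_deg := by
        intro D X hD hX
        rw [hredj, hxk] at hX
        rw [hxK] at hD
        rw [dd_degree_poles_jF M D hD, dd_degree_poles_jk M hDM X hX] }
  obtain ⟨r, hr, hcompat⟩ := hdd.exists_isPlaceRed
  exact ⟨r, hr, fun Q => dfl_hlift hdd hcompat Q⟩

end Generic

section Final

variable (N ℓ : ℕ) [NeZero N]

set_option maxHeartbeats 4000000 in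
/-- **(G)**: the genus inequality at EVERY level prime to `ℓ`, for EVERY prime `ℓ`. -/
theorem gla_main (hℓ : ℓ.Prime) (hN : ¬ ℓ ∣ N)
    (A : ValuationSubring (AlgebraicClosure ℚ)) (hA : A.LiesOverPrime ℓ) :
    genusFF Kbar (FF N)
      ≤ genusFF (IsLocalRing.ResidueField A) (Fk (IsLocalRing.ResidueField A) N) := by
  haveI : Fact ℓ.Prime := ⟨hℓ⟩
  have : IsAlgClosed (IsLocalRing.ResidueField A) := isAlgClosed_residueField A
  have hDN := exists_fiberData_modL' N hN A hA
  have hA' : A ≠ ⊤ := dw_ne_top hℓ hA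
  have hredN := hred_modL_of_fiberData N A hDN
  obtain ⟨R, hR⟩ := exists_modConstRed N A hA' hredN
  haveI : RRHyp Kbar (FF N) := mod_rrHyp N
  haveI : RRHyp (IsLocalRing.ResidueField A) (Fk (IsLocalRing.ResidueField A) N) :=
    mr_rrHyp (IsLocalRing.ResidueField A) N
  have hred := reductionInputsModL_of_not_dvd N ℓ hℓ hN A hA
  have hsepk : FFSep (IsLocalRing.ResidueField A) (jbarC (IsLocalRing.ResidueField A) N) :=
    mr_ffSep (IsLocalRing.ResidueField A) N
  have hgenk : ∀ v : Place (IsLocalRing.ResidueField A)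
      (Fk (IsLocalRing.ResidueField A) N), v.DCoordGenerates :=
    fun v => fsDCoordGenerates (x := jbarC (IsLocalRing.ResidueField A) N) v
  have : Nontrivial Ω[Fk (IsLocalRing.ResidueField A) N⁄IsLocalRing.ResidueField A] :=
    fsNontrivial_kaehler (K := IsLocalRing.ResidueField A)
      (x := jbarC (IsLocalRing.ResidueField A) N)
  have : Nontrivial Ω[FF N⁄Kbar] := mod_nontrivial_kaehler N
  have hgenK : ∀ v : Place Kbar (FF N), v.DCoordGenerates := fun v => mod_dCoordGenerates N v
  -- a place reduction of `R`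
  haveI : NeZero (Nat.lcm N (baseLevel ℓ)) :=
    ⟨Nat.lcm_ne_zero (NeZero.ne N) (NeZero.ne (baseLevel ℓ))⟩
  have haux := dw_isAuxLevel hℓ hN
  have hDM := exists_fiberData_modL' (Nat.lcm N (baseLevel ℓ)) haux.1 A hA
  have hD₀ := exists_fiberData_modL' (baseLevel ℓ) (dw_not_dvd_baseLevel hℓ) A hA
  have hg := genusFF_le_modL_of_fiberData (Nat.lcm N (baseLevel ℓ)) haux hD₀ hDM
  have hredM := hred_modL_of_fiberData (Nat.lcm N (baseLevel ℓ)) A hDM
  obtain ⟨R_M, hRM⟩ := exists_modConstRed (Nat.lcm N (baseLevel ℓ)) A hA' hredM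
  obtain ⟨r, hr, hlift⟩ := gla_exists_hlift (R_N := R) (R_M := R_M)
    (Nat.dvd_lcm_left N (baseLevel ℓ))
    (dw_isTower (Nat.dvd_lcm_left N (baseLevel ℓ)) hA' hR hRM) (dw_jF_mem hR) (dw_red_jF hR)
    hDN hDM hg
  refine gla_abstract R hgenK hgenk hr hlift ⟨jF N, dw_jF_mem hR⟩ (dfr_D_jF_ne_zero N) ?_
    (dfr_der N A hA' R hR)
  rw [dw_red_jF hR]
  exact dfr_D_jk_ne_zero _ N

set_option maxHeartbeats 4000000 in
/-- **lifts of uniformisers at every level prime to `ℓ`**, for ANY series reduction and ANY place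
reduction. -/
theorem gla_hlift (hℓ : ℓ.Prime) (hN : ¬ ℓ ∣ N)
    (A : ValuationSubring (AlgebraicClosure ℚ)) (hA : A.LiesOverPrime ℓ)
    (R : ConstRed A (IsLocalRing.residue A) (Fk (IsLocalRing.ResidueField A) N) (FF N))
    (hR : IsSeriesRed R)
    (r : Place Kbar (FF N) → Place (IsLocalRing.ResidueField A)
      (Fk (IsLocalRing.ResidueField A) N))
    (hr : haveI : RRHyp Kbar (FF N) := mod_rrHyp N; R.IsPlaceRed r)
    (Q : Place (IsLocalRing.ResidueField A) (Fk (IsLocalRing.ResidueField A) N)) :
    ∃ t : R.O, Q.ord (R.red t) = 1 ∧ ∀ P, r P = Q → 0 ≤ P.ord ((t : R.O) : FF N) := by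
  haveI : Fact ℓ.Prime := ⟨hℓ⟩
  haveI : NeZero (Nat.lcm N (baseLevel ℓ)) :=
    ⟨Nat.lcm_ne_zero (NeZero.ne N) (NeZero.ne (baseLevel ℓ))⟩
  have haux := dw_isAuxLevel hℓ hN
  have : IsAlgClosed (IsLocalRing.ResidueField A) := isAlgClosed_residueField A
  have hDN := exists_fiberData_modL' N hN A hA
  have hDM := exists_fiberData_modL' (Nat.lcm N (baseLevel ℓ)) haux.1 A hA
  have hD₀ := exists_fiberData_modL' (baseLevel ℓ) (dw_not_dvd_baseLevel hℓ) A hA
  have hA' : A ≠ ⊤ := dw_ne_top hℓ hA
  have hg := genusFF_le_modL_of_fiberData (Nat.lcm N (baseLevel ℓ)) haux hD₀ hDM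
  have hredM := hred_modL_of_fiberData (Nat.lcm N (baseLevel ℓ)) A hDM
  obtain ⟨R_M, hRM⟩ := exists_modConstRed (Nat.lcm N (baseLevel ℓ)) A hA' hredM
  haveI : RRHyp Kbar (FF N) := mod_rrHyp N
  haveI : RRHyp (IsLocalRing.ResidueField A) (Fk (IsLocalRing.ResidueField A) N) :=
    mr_rrHyp (IsLocalRing.ResidueField A) N
  obtain ⟨r₀, hr₀, hlift⟩ := gla_exists_hlift (R_N := R) (R_M := R_M)
    (Nat.dvd_lcm_left N (baseLevel ℓ))
    (dw_isTower (Nat.dvd_lcm_left N (baseLevel ℓ)) hA' hR hRM) (dw_jF_mem hR) (dw_red_jF hR)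
    hDN hDM hg
  have heq : r = r₀ := ConstRed.IsPlaceRed.unique hr hr₀ (gla_main N ℓ hℓ hN A hA)
  rw [heq]
  exact hlift Q

end Final

end Fermat.Agent.S40lib

end
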