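import Mathlib
import Fermat.Agent.S36lib.Speed
import Fermat.Agent.GM.MainFinal
import Fermat.Agent.GoodRed.DescWiring
import Fermat.Agent.S24lib.Final

/-!
# Item 88 (S40), (LIFT) piece (G-a) (helper4): the genus inequality at EVERY level prime to `p`,
# `p ≥ 5`

`gle_main`: for a prime `p ≥ 5`, a level `N` prime to `p` and a valuation ring `A` of `ℚ̄` over
`p` with residue field `k`:   `genusFF ℚ̄ (FF N) ≤ genusFF k F_{N,k}`.
(The library had it at auxiliary levels only, `genusFF_le_modL`.)

Proof: the place reduction `r` at level `N` (`dw_exists_isPlaceRed_gen`, from the auxiliary level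
`lcm N 4`) maps the fibre of `j` over `c ∈ {0, 1728}` ONTO the fibre of `j̄` over `c̄`
(`r_* div (j - c) = div (j̄ - c̄)`), so `#j̄⁻¹(c̄) ≤ #j⁻¹(c)` (`gle_card_le`); the cusps and the
degree are those of characteristic `0` (`FiberData` at `∞`); the Hurwitz bound in characteristic `p`
(`mr_hurwitz_genus_le`, `C = {0, 1728}`, `0 ≠ 1728` in `k`) and the fibre counts in characteristic
`0` (`fin_card_I_fibre`, `fin_card_rho_fibre`) give `2 g_K - 2 ≤ 2 g_k - 2`.
-/

set_option autoImplicit false
set_option linter.style.haveILetI false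
set_option synthInstance.maxHeartbeats 400000

noncomputable section

namespace Fermat.Agent.S40lib

open AlgebraicCurve ModularCurve IntermediateField CongruenceSubgroup
open Fermat.Agent.S24lib Fermat.Agent.FFlib Fermat.Agent.RRlib Fermat.Agent.GoodRed
  Fermat.Agent.GM
open scoped MatrixGroups

section Abstract

variable {K F k Fk : Type*} [Field K] [Field F] [Algebra K F]
  [Field k] [Field Fk] [Algebra k Fk]
variable {A : ValuationSubring K} {π : A →+* k}

/-- **a place reduction maps the zeros of a unit `y` of `O` onto the zeros of `red y`**: hence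
`red y` has at most as many zeros as `y`. -/
theorem gle_card_le (R : ConstRed A π Fk F) [RRBase K F]
    {r : Place K F → Place k Fk} (hr : R.IsPlaceRed r) (y : R.O) (hy : R.red y ≠ 0) :
    Nat.card {Q : Place k Fk // 0 < Q.ord (R.red y)}
      ≤ Nat.card {P : Place K F // 0 < P.ord ((y : R.O) : F)} := by
  classical
  have hfin : Finite {P : Place K F // 0 < P.ord ((y : R.O) : F)} := by
    have hinj : Function.Injective
        (fun P : {P : Place K F // 0 < P.ord ((y : R.O) : F)} =>
          (⟨P.1, by
            rw [Finsupp.mem_support_iff, divOf_apply']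
            exact P.2.ne'⟩ : {P : Place K F // P ∈ (divOf (K := K) ((y : R.O) : F)).support})) := by
      intro P P' h
      apply Subtype.ext
      exact congrArg (fun z : {P : Place K F // P ∈ (divOf (K := K) ((y : R.O) : F)).support} =>
        (z : Place K F)) h
    exact Finite.of_injective _ hinj
  have key : ∀ Q : {Q : Place k Fk // 0 < Q.ord (R.red y)},
      ∃ P : {P : Place K F // 0 < P.ord ((y : R.O) : F)}, r P.1 = Q.1 := by
    intro Q
    have h1 := hr.2 y hy Q.1
    have h2 : 0 < Finsupp.mapDomain r (divOf (K := K) ((y : R.O) : F)) Q.1 := by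
      rw [h1]
      exact Q.2
    by_contra hcon
    push_neg at hcon
    have h3 : Finsupp.mapDomain r (divOf (K := K) ((y : R.O) : F)) Q.1 ≤ 0 := by
      rw [Finsupp.mapDomain, Finsupp.sum_apply]
      apply Finset.sum_nonpos
      intro P _
      beta_reduce
      rw [Finsupp.single_apply]
      split_ifs with hP
      · by_contra hpos
        push_neg at hpos
        rw [divOf_apply'] at hpos
        exact hcon ⟨P, hpos⟩ hP
      · exact le_rfl
    omega
  choose g hg using key
  apply Nat.card_le_card_of_injective g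
  intro Q Q' h
  apply Subtype.ext
  rw [← hg Q, ← hg Q', h]

end Abstract

section Concrete

variable (N p : ℕ) [NeZero N] (A : ValuationSubring Kbar)

omit [NeZero N] in
/-- the fibre of `j̄` over the reduction of `a ∈ A` has at most as many places as the fibre of `j`
over `a`. -/
theorem gle_fibre_le
    {R : ConstRed A (IsLocalRing.residue A) (Fk (IsLocalRing.ResidueField A) N) (FF N)}
    (hR : IsSeriesRed R) [RRBase Kbar (FF N)]
    {r : Place Kbar (FF N) → Place (IsLocalRing.ResidueField A) (Fk (IsLocalRing.ResidueField A) N)}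
    (hr : R.IsPlaceRed r) (a : A) :
    Nat.card {Q : Place (IsLocalRing.ResidueField A) (Fk (IsLocalRing.ResidueField A) N) //
        0 < Q.ord (jk (IsLocalRing.ResidueField A) N
          - algebraMap (IsLocalRing.ResidueField A) (Fk (IsLocalRing.ResidueField A) N)
              (IsLocalRing.residue A a))}
      ≤ Nat.card {P : Place Kbar (FF N) //
          0 < P.ord (jF N - algebraMap Kbar (FF N) (a : Kbar))} := by
  have hj := dw_jF_mem hR
  have ha := R.algebraMap_mem a
  have hy : jF N - algebraMap Kbar (FF N) (a : Kbar) ∈ R.O := sub_mem hj ha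
  have hred : R.red ⟨_, hy⟩ = jk (IsLocalRing.ResidueField A) N
      - algebraMap (IsLocalRing.ResidueField A) (Fk (IsLocalRing.ResidueField A) N)
          (IsLocalRing.residue A a) := by
    have e : (⟨_, hy⟩ : R.O) = ⟨jF N, hj⟩ - ⟨algebraMap Kbar (FF N) (a : Kbar), ha⟩ := rfl
    rw [e, map_sub, dw_red_jF hR, R.red_algebraMap]
  have hne : R.red ⟨_, hy⟩ ≠ 0 := by
    rw [hred]
    intro h0
    have h1 : jbarC (IsLocalRing.ResidueField A) N
        = algebraMap (IsLocalRing.ResidueField A) (Fk (IsLocalRing.ResidueField A) N)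
          (IsLocalRing.residue A a) := sub_eq_zero.mp h0
    have h2 := mr_transcendental_jbarC (IsLocalRing.ResidueField A) N
    rw [h1] at h2
    exact h2 (isAlgebraic_algebraMap _)
  have h := gle_card_le R hr ⟨_, hy⟩ hne
  rw [hred] at h
  exact h

/-- **(G-a)**: the genus inequality at every level `N` prime to `p`, for `p ≥ 5`. -/
theorem gle_main (hp : p.Prime) (hp5 : 5 ≤ p) (hN : ¬ p ∣ N) (hA : A.LiesOverPrime p) :
    genusFF Kbar (FF N)
      ≤ genusFF (IsLocalRing.ResidueField A) (Fk (IsLocalRing.ResidueField A) N) := by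
  classical
  haveI : Fact p.Prime := ⟨hp⟩
  haveI : IsAlgClosed (IsLocalRing.ResidueField A) := isAlgClosed_residueField A
  haveI : NeZero (Nat.lcm N (baseLevel p)) :=
    ⟨Nat.lcm_ne_zero (NeZero.ne N) (NeZero.ne (baseLevel p))⟩
  haveI : CharP (IsLocalRing.ResidueField A) p := charP_residueField hA
  have haux := dw_isAuxLevel hp hN
  have hDN := exists_fiberData_modL' N hN A hA
  have hDM := exists_fiberData_modL' (Nat.lcm N (baseLevel p)) haux.1 A hA
  have hD₀ := exists_fiberData_modL' (baseLevel p) (dw_not_dvd_baseLevel hp) A hA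
  have hgM := genusFF_le_modL_of_fiberData (Nat.lcm N (baseLevel p)) haux hD₀ hDM
  have hne := dw_ne_top hp hA
  obtain ⟨R_N, hRN⟩ := exists_modConstRed N A hne (hred_modL_of_fiberData N A hDN)
  obtain ⟨R_M, hRM⟩ := exists_modConstRed (Nat.lcm N (baseLevel p)) A hne
    (hred_modL_of_fiberData (Nat.lcm N (baseLevel p)) A hDM)
  haveI : RRHyp Kbar (FF N) := mod_rrHyp N
  obtain ⟨r, -, hr, -, -⟩ := dw_exists_isPlaceRed_gen (R_N := R_N) (R_M := R_M)
    (Nat.dvd_lcm_left N (baseLevel p))
    (dw_isTower (Nat.dvd_lcm_left N (baseLevel p)) hne hRN hRM) (dw_jF_mem hRN) (dw_red_jF hRN)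
    hDN hDM hgM
  -- the fibres over `0` and `1728`
  have h0 := gle_fibre_le N A hRN hr (0 : A)
  have h1 := gle_fibre_le N A hRN hr (1728 : A)
  rw [map_zero] at h0
  have e1728 : IsLocalRing.residue A (1728 : A) = (1728 : IsLocalRing.ResidueField A) :=
    map_ofNat _ 1728
  rw [e1728] at h1
  have eA0 : (((0 : A) : A) : Kbar) = 0 := rfl
  have eA1 : (((1728 : A) : A) : Kbar) = 1728 := rfl
  rw [eA0] at h0
  rw [eA1] at h1
  -- the Hurwitz bound in characteristic `p`
  have hne01 : (0 : IsLocalRing.ResidueField A) ≠ 1728 := by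
    intro h
    have h2 : ((1728 : ℕ) : IsLocalRing.ResidueField A) = 0 := by
      rw [Nat.cast_ofNat]
      exact h.symm
    rw [CharP.cast_eq_zero_iff (IsLocalRing.ResidueField A) p] at h2
    have h3 : p ∣ 2 ^ 6 * 3 ^ 3 := by
      norm_num
      exact h2
    rcases (Nat.Prime.dvd_mul hp).mp h3 with h | h
    · have := (Nat.prime_dvd_prime_iff_eq hp Nat.prime_two).mp (hp.dvd_of_dvd_pow h)
      omega
    · have := (Nat.prime_dvd_prime_iff_eq hp Nat.prime_three).mp (hp.dvd_of_dvd_pow h)
      omega
  have hH := mr_hurwitz_genus_le (IsLocalRing.ResidueField A) N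
    ({0, 1728} : Finset (IsLocalRing.ResidueField A))
  rw [Finset.sum_pair hne01] at hH
  have hdeg : Module.finrank (IsLocalRing.ResidueField A)⟮jbarC (IsLocalRing.ResidueField A) N⟯
      (Fk (IsLocalRing.ResidueField A) N) = dedekindPsi N := by
    rw [← finrank_Fk_of_fiberData N hDN]
    exact (ffFinrank_of_adjoin_eq (ffAdjoin_inv (jk (IsLocalRing.ResidueField A) N))).symm
  have hcusp := card_cusps_Fk_of_fiberData N hDN
  have hcusp' : Nat.card {v : Place (IsLocalRing.ResidueField A)
      ↥(modularFunctionFieldFullC (IsLocalRing.ResidueField A) N) //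
        0 < v.ord (jbarC (IsLocalRing.ResidueField A) N)⁻¹} = cuspCount N := hcusp
  rw [hdeg, hcusp'] at hH
  -- characteristic `0`
  have hI := fin_card_I_fibre N
  have hρ := fin_card_rho_fibre N
  have hg := mod_genusFF N
  have h12 : (12 : ℚ) * genusFormula N = 12 + (dedekindPsi N : ℚ) - 3 * nuTwo N - 4 * nuThree N
      - 6 * cuspCount N := by
    unfold genusFormula
    ring
  rw [← hg] at h12
  have h12' : (12 : ℤ) * (genusFF Kbar (FF N) : ℤ) = 12 + (dedekindPsi N : ℤ) - 3 * nuTwo N
      - 4 * nuThree N - 6 * cuspCount N := by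
    exact_mod_cast h12
  have h0' : (Nat.card {Q : Place (IsLocalRing.ResidueField A)
      ↥(modularFunctionFieldFullC (IsLocalRing.ResidueField A) N) //
        0 < Q.ord (jbarC (IsLocalRing.ResidueField A) N
          - algebraMap (IsLocalRing.ResidueField A)
            ↥(modularFunctionFieldFullC (IsLocalRing.ResidueField A) N) 0)} : ℤ)
      ≤ (Nat.card {P : Place Kbar (FF N) // 0 < P.ord (jF N - algebraMap Kbar (FF N) 0)} : ℤ) := by
    exact_mod_cast h0
  have h1' : (Nat.card {Q : Place (IsLocalRing.ResidueField A)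
      ↥(modularFunctionFieldFullC (IsLocalRing.ResidueField A) N) //
        0 < Q.ord (jbarC (IsLocalRing.ResidueField A) N
          - algebraMap (IsLocalRing.ResidueField A)
            ↥(modularFunctionFieldFullC (IsLocalRing.ResidueField A) N) 1728)} : ℤ)
      ≤ (Nat.card {P : Place Kbar (FF N) // 0 < P.ord (jF N - algebraMap Kbar (FF N) 1728)} : ℤ) := by
    exact_mod_cast h1
  have hI' : (2 : ℤ) * (Nat.card {P : Place Kbar (FF N) //
      0 < P.ord (jF N - algebraMap Kbar (FF N) 1728)} : ℤ)
      = (dedekindPsi N : ℤ) + (nuTwo N : ℤ) := by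
    exact_mod_cast hI
  have hρ' : (3 : ℤ) * (Nat.card {P : Place Kbar (FF N) //
      0 < P.ord (jF N - algebraMap Kbar (FF N) 0)} : ℤ)
      = (dedekindPsi N : ℤ) + 2 * (nuThree N : ℤ) := by
    exact_mod_cast hρ
  have hfinal : (genusFF Kbar (FF N) : ℤ)
      ≤ (genusFF (IsLocalRing.ResidueField A) (Fk (IsLocalRing.ResidueField A) N) : ℤ) := by
    linarith
  exact_mod_cast hfinal

end Concrete

end Fermat.Agent.S40lib

end
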