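import Mathlib
import Fermat.Agent.S36lib.Speed
import Fermat.Agent.S40lib.Hub
import Fermat.Agent.S40lib.OldCase

/-!
# Item 88 (S40), chain step 1: the OLD case in the language of the hub

* `olc_evalJac_eigen`: on a common eigenvector `y` of the `T_ℓ` with integer eigenvalues `a ℓ`
  a Hecke polynomial `P` acts by the integer `P(a)`.
* `olc_of_occurs`: if the eigensystem `a_ℓ(W)` (away from `S`) occurs in `J₀(M')[p]`, then `W` is
  residually modular of level `M'`.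
* `olc_of_not_notAt`: `¬ S40hNotAt M' p S a_W → W.IsResiduallyModularOfLevel p M'`
  (the OLD branch of `S40hDich`).
* `olc_notAt_or`: the dichotomy `W.IsResiduallyModularOfLevel p M' ∨ S40hNotAt M' p S a_W`.
* `olc_new_of_notAt`: `S40hNotAt` kills `α_*` and `β_*` on every eigenspace of level `M' p`.
-/

set_option autoImplicit false

open CongruenceSubgroup ModularFormClass

namespace Fermat.Agent.S40lib

open Fermat.Agent.S31lib Fermat.Agent.GalRep Fermat.Agent.S35lib ModularCurve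

section Eigen

variable {M : ℕ} {S : Finset ℕ} {M' : ℕ} [NeZero M']

/-- on a common eigenvector of the `T_ℓ` with integer eigenvalues a Hecke polynomial acts by its
value at the eigenvalues. -/
theorem olc_evalJac_eigen (a : GoodPrime M S → ℤ) (y : JZero M')
    (hy : ∀ ℓ : GoodPrime M S, heckeOperatorBar M' ℓ.1 y = a ℓ • y) (P : HPoly M S) :
    evalJac M S M' P y = (FreeAlgebra.lift ℤ a P) • y := by
  induction P using FreeAlgebra.induction with
  | grade0 r =>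
    rw [AlgHom.commutes, AlgHom.commutes, Module.algebraMap_end_apply]
    rfl
  | grade1 ℓ =>
    rw [evalJac_ι, FreeAlgebra.lift_ι_apply]
    exact hy ℓ
  | mul P Q hP hQ =>
    rw [map_mul, map_mul, Module.End.mul_apply, hQ, map_zsmul, hP, ← mul_zsmul, mul_comm]
  | add P Q hP hQ =>
    rw [map_add, map_add, LinearMap.add_apply, hP, hQ, add_zsmul]

end Eigen

section Occurs

variable {M' p : ℕ} [NeZero M'] {S : Finset ℕ}

/-- **OLD case (hub form)**: if the eigensystem `a_ℓ(W)` away from `S` occurs in `J₀(M')[p]`,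
then `W` is residually modular of level `M'`. -/
theorem olc_of_occurs (W : WeierstrassCurve ℤ) (hp : p.Prime)
    (hS : ∀ ℓ ∈ S, ℓ.Prime → W.IsGoodPrimeFor ℓ → ¬ ℓ ∣ M' → ℓ = p)
    (y : JZero M') (hy0 : y ≠ 0) (hpy : p • y = 0)
    (hy : ∀ ℓ : Nat.Primes, (ℓ : ℕ) ∉ S → heckeOperatorBar M' ℓ y = W.apOfModel ℓ • y) :
    W.IsResiduallyModularOfLevel p M' := by
  have : Fact p.Prime := ⟨hp⟩
  refine olc_residuallyModular (S := S) W hp hS ?_
  set a : GoodPrime (M' * p) S → ℤ := fun ℓ => W.apOfModel ((ℓ.1 : Nat.Primes) : ℕ) with ha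
  set θ' : HPoly (M' * p) S →+* ZMod p :=
    (Int.castRingHom (ZMod p)).comp (FreeAlgebra.lift ℤ a).toRingHom with hθ'
  have hθ : ∀ ℓ : GoodPrime (M' * p) S, θ' (FreeAlgebra.ι ℤ ℓ) = ((a ℓ : ℤ) : ZMod p) := by
    intro ℓ
    show (Int.castRingHom (ZMod p)) (FreeAlgebra.lift ℤ a (FreeAlgebra.ι ℤ ℓ)) = _
    rw [FreeAlgebra.lift_ι_apply]
    rfl
  have hyG : ∀ ℓ : GoodPrime (M' * p) S, heckeOperatorBar M' ℓ.1 y = a ℓ • y :=
    fun ℓ => hy ℓ.1 ℓ.2.2
  have hker : ∀ P : HPoly (M' * p) S, θ' P = 0 → evalJac (M' * p) S M' P y = 0 := by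
    intro P hP
    rw [olc_evalJac_eigen a y hyG P]
    have h1 : ((FreeAlgebra.lift ℤ a P : ℤ) : ZMod p) = 0 := hP
    obtain ⟨c, hc⟩ := (ZMod.intCast_zmod_eq_zero_iff_dvd _ p).1 h1
    rw [hc, mul_zsmul', natCast_zsmul, hpy, zsmul_zero]
  exact olc_main hp θ' a hθ y hy0 hpy hker

/-- the OLD branch of the dictionary: if the eigensystem of `W` occurs at level `M'`, then `W` is
residually modular of level `M'`. -/
theorem olc_of_not_notAt (W : WeierstrassCurve ℤ) (hp : p.Prime)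
    (hS : ∀ ℓ ∈ S, ℓ.Prime → W.IsGoodPrimeFor ℓ → ¬ ℓ ∣ M' → ℓ = p)
    (h : ¬ S40hNotAt M' p S W.apOfModel) : W.IsResiduallyModularOfLevel p M' := by
  unfold S40hNotAt at h
  by_contra hcon
  apply h
  intro y hpy hy
  by_contra hy0
  exact hcon (olc_of_occurs W hp hS y hy0 hpy hy)

/-- **the OLD / NEW dichotomy at level `M'`**. -/
theorem olc_notAt_or (W : WeierstrassCurve ℤ) (hp : p.Prime)
    (hS : ∀ ℓ ∈ S, ℓ.Prime → W.IsGoodPrimeFor ℓ → ¬ ℓ ∣ M' → ℓ = p) :
    W.IsResiduallyModularOfLevel p M' ∨ S40hNotAt M' p S W.apOfModel := by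
  by_cases h : S40hNotAt M' p S W.apOfModel
  · exact Or.inr h
  · exact Or.inl (olc_of_not_notAt W hp hS h)

omit [NeZero M'] in
/-- the set `S` of the primes dividing `M' p Δ` satisfies the hypothesis `hS`. -/
theorem olc_hS_of_bad (W : WeierstrassCurve ℤ)
    (hSb : ∀ ℓ ∈ S, ℓ ∈ s40hBad W p M') :
    ∀ ℓ ∈ S, ℓ.Prime → W.IsGoodPrimeFor ℓ → ¬ ℓ ∣ M' → ℓ = p := by
  intro ℓ hℓS _ hgood hℓM
  rcases hSb ℓ hℓS with h | h | h
  · exact h
  · exact absurd h hℓM
  · exact absurd h hgood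

end Occurs

section New

variable {M' p : ℕ} [NeZero M'] [NeZero p] [NeZero (M' * p)] {S : Finset ℕ}

/-- if the eigensystem `a` does not occur at level `M'`, then `α_*` and `β_*` kill every
eigenvector of level `M' p` in `J₀(M' p)[p]` (for `p ∈ S`): the eigenspace is `p`-new. -/
theorem olc_new_of_notAt (hp : p.Prime) (hpM : ¬ p ∣ M') (hpS : p ∈ S) (a : ℕ → ℤ)
    (hnot : S40hNotAt M' p S a) (x : JZero (M' * p)) (hpx : p • x = 0)
    (hx : ∀ ℓ : Nat.Primes, (ℓ : ℕ) ∉ S → heckeOperatorBar (M' * p) ℓ x = a ℓ • x) :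
    degJAlpha M' p x = 0 ∧ degJBeta M' p x = 0 := by
  have hne : ∀ ℓ : Nat.Primes, (ℓ : ℕ) ∉ S → (ℓ : ℕ) ≠ p := by
    intro ℓ hℓ h
    exact hℓ (h ▸ hpS)
  constructor
  · apply hnot _ (by rw [← map_nsmul, hpx, map_zero])
    intro ℓ hℓ
    rw [← degJAlpha_heckeOperatorBar M' hp ℓ (hne ℓ hℓ) x, hx ℓ hℓ, map_zsmul]
  · apply hnot _ (by rw [← map_nsmul, hpx, map_zero])
    intro ℓ hℓ
    rw [← degJBeta_heckeOperatorBar M' hp hpM ℓ (hne ℓ hℓ) x, hx ℓ hℓ, map_zsmul]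

end New

end Fermat.Agent.S40lib
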