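import Mathlib
import Fermat.Agent.S36lib.Speed
import Fermat.Agent.S40lib.OldCase
import Fermat.Agent.S40lib.OldCaseHub
import Fermat.Agent.S35lib.ConvFaith
import Fermat.Agent.S49_Modular

/-!
# Item 88 (S40), layer (LIFT), piece L6: the **Deligne–Serre tail** (helper17).  Complete proofs.

The layer (LIFT) produces, from a nonzero `p`-torsion class `ȳ` of the reduced function field of
level `M'` which is an eigenvector of the `T̄_ℓ`, a formal `q`-series `x₀ = θ(ū)/ū` with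
coefficients in the residue field `k`, which is
* nonzero,
* an eigenvector of the formal Hecke operators `T_ℓ^{(2)}` (`ℓ ∉ S`, `ℓ ∤ M' p`) with the
  eigenvalues `a_ℓ(W)`,
* the reduction of the `q`-expansion of a cusp form `F₀ ∈ S₂(Γ₀(M'))` with integral coefficients
  (pieces (RD), (DLOG), (DICT) + dimension count).

This file is the tail: these three facts imply `W.IsResiduallyModularOfLevel p M'`.

* `ldsT` : the formal Hecke operator `T_ℓ^{(2)}` on `ℕ → k`;
* `lds_rel_poly` : a relation "`F` reduces to `x`" which is compatible with `+`, `ℤ`-multiples and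
  the Hecke operators is compatible with the Hecke polynomials;
* `lds_eval_eigen` : a Hecke polynomial acts on an eigenvector by its value at the eigenvalues;
* `lds_kills` : the abstract core (`p ∣ P(a)` for every Hecke polynomial `P` which vanishes on
  `S₂(Γ₀(M'))`);
* `lds_main_abs` : the abstract form of the tail;
* `lds_main` : the tail for `q`-expansions: `A₀` any ring with an injection `ι : A₀ → ℂ` and a
  reduction `res : A₀ → k`, `p = 0` in `k`.
-/

set_option autoImplicit false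
set_option linter.unusedSectionVars false
set_option linter.unusedVariables false

open CongruenceSubgroup ModularFormClass

namespace Fermat.Agent.S40lib

open Fermat.Agent.S31lib Fermat.Agent.GalRep Fermat.Agent.S35lib ModularCurve

section Abstract

variable {M : ℕ} {S : Finset ℕ} {M' : ℕ} [NeZero M']

/-- a relation "`F` reduces to `x`" which is compatible with `+`, `ℤ`-multiples and the Hecke
operators is compatible with the Hecke polynomials. -/
theorem lds_rel_poly {X : Type*} [AddCommGroup X] (Tb : GoodPrime M S → Module.End ℤ X)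
    (Rel : CuspForm (Gamma0 M') 2 → X → Prop)
    (hadd : ∀ F G x y, Rel F x → Rel G y → Rel (F + G) (x + y))
    (hsmul : ∀ (r : ℤ) F x, Rel F x → Rel (r • F) (r • x))
    (hT : ∀ (ℓ : GoodPrime M S) F x, Rel F x →
      Rel (cfForms M S M' (FreeAlgebra.ι ℤ ℓ) F) (Tb ℓ x))
    (P : HPoly M S) : ∀ F x, Rel F x →
      Rel (cfForms M S M' P F) (FreeAlgebra.lift ℤ Tb P x) := by
  induction P using FreeAlgebra.induction with
  | grade0 r =>
    intro F x h
    rw [cfForms_algebraMap, AlgHom.commutes, Module.algebraMap_end_apply]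
    have h1 : ((r : ℤ) • (1 : Module.End ℂ (CuspForm (Gamma0 M') 2))) F = r • F := rfl
    rw [h1]
    exact hsmul r F x h
  | grade1 ℓ =>
    intro F x h
    rw [FreeAlgebra.lift_ι_apply]
    exact hT ℓ F x h
  | mul P Q hP hQ =>
    intro F x h
    rw [cfForms_mul, map_mul]
    exact hP _ _ (hQ F x h)
  | add P Q hP hQ =>
    intro F x h
    rw [cfForms_add, map_add]
    exact hadd _ _ _ _ (hP F x h) (hQ F x h)

omit [NeZero M'] in
/-- a Hecke polynomial acts on a common eigenvector by its value at the eigenvalues. -/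
theorem lds_eval_eigen {X : Type*} [AddCommGroup X] (Tb : GoodPrime M S → Module.End ℤ X)
    (a : GoodPrime M S → ℤ) (x : X) (hx : ∀ ℓ : GoodPrime M S, Tb ℓ x = a ℓ • x)
    (P : HPoly M S) : FreeAlgebra.lift ℤ Tb P x = (FreeAlgebra.lift ℤ a P) • x := by
  induction P using FreeAlgebra.induction with
  | grade0 r =>
    rw [AlgHom.commutes, AlgHom.commutes, Module.algebraMap_end_apply]
    rfl
  | grade1 ℓ =>
    rw [FreeAlgebra.lift_ι_apply, FreeAlgebra.lift_ι_apply]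
    exact hx ℓ
  | mul P Q hP hQ =>
    rw [map_mul, map_mul, Module.End.mul_apply, hQ, map_zsmul, hP, ← mul_zsmul, mul_comm]
  | add P Q hP hQ =>
    rw [map_add, map_add, LinearMap.add_apply, hP, hQ, add_zsmul]

/-- **the abstract core**: if a nonzero `p`-torsion eigenvector `x₀` is the reduction of a cusp
form, then `p ∣ P(a)` for every Hecke polynomial `P` which vanishes on `S₂(Γ₀(M'))`. -/
theorem lds_kills {p : ℕ} (hp : p.Prime) {X : Type*} [AddCommGroup X]
    (Tb : GoodPrime M S → Module.End ℤ X)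
    (Rel : CuspForm (Gamma0 M') 2 → X → Prop)
    (hadd : ∀ F G x y, Rel F x → Rel G y → Rel (F + G) (x + y))
    (hsmul : ∀ (r : ℤ) F x, Rel F x → Rel (r • F) (r • x))
    (hT : ∀ (ℓ : GoodPrime M S) F x, Rel F x →
      Rel (cfForms M S M' (FreeAlgebra.ι ℤ ℓ) F) (Tb ℓ x))
    (hfun : ∀ x, Rel 0 x → x = 0)
    (a : GoodPrime M S → ℤ) (F₀ : CuspForm (Gamma0 M') 2) (x₀ : X) (hrel : Rel F₀ x₀)
    (hne : x₀ ≠ 0) (hpx : p • x₀ = 0) (heig : ∀ ℓ : GoodPrime M S, Tb ℓ x₀ = a ℓ • x₀)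
    (P : HPoly M S) (hP : evalFormsAt M S M' P = 0) :
    (p : ℤ) ∣ FreeAlgebra.lift ℤ a P := by
  have h1 := lds_rel_poly Tb Rel hadd hsmul hT P F₀ x₀ hrel
  have h2 : cfForms M S M' P = 0 := by
    rw [cfForms, hP]
    rfl
  rw [h2, LinearMap.zero_apply, lds_eval_eigen Tb a x₀ heig P] at h1
  have h3 := hfun _ h1
  by_contra hdvd
  have hcop : IsCoprime (p : ℤ) (FreeAlgebra.lift ℤ a P) :=
    (Nat.prime_iff_prime_int.1 hp).coprime_iff_not_dvd.2 hdvd
  obtain ⟨u, v, huv⟩ := hcop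
  apply hne
  have h4 : ((u * (p : ℤ) + v * FreeAlgebra.lift ℤ a P : ℤ)) • x₀ = 0 := by
    rw [add_zsmul, mul_zsmul, mul_zsmul, h3, natCast_zsmul, hpx, zsmul_zero, zsmul_zero,
      add_zero]
  rwa [huv, one_zsmul] at h4

end Abstract

section Tail

variable {M' p : ℕ} [NeZero M'] {S : Finset ℕ}

/-- **the Deligne–Serre tail, abstract form**: a nonzero `p`-torsion eigenvector (eigenvalues
`a_ℓ(W)`) of operators `Tb ℓ` on a group `X`, which is the "reduction" of a cusp form of level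
`M'` for a relation compatible with `+`, `ℤ`-multiples and the Hecke operators, makes `W`
residually modular of level `M'`. -/
theorem lds_main_abs (W : WeierstrassCurve ℤ) (hp : p.Prime)
    (hS : ∀ ℓ ∈ S, ℓ.Prime → W.IsGoodPrimeFor ℓ → ¬ ℓ ∣ M' → ℓ = p)
    {X : Type*} [AddCommGroup X] (Tb : GoodPrime (M' * p) S → Module.End ℤ X)
    (Rel : CuspForm (Gamma0 M') 2 → X → Prop)
    (hadd : ∀ F G x y, Rel F x → Rel G y → Rel (F + G) (x + y))
    (hsmul : ∀ (r : ℤ) F x, Rel F x → Rel (r • F) (r • x))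
    (hT : ∀ (ℓ : GoodPrime (M' * p) S) F x, Rel F x →
      Rel (cfForms (M' * p) S M' (FreeAlgebra.ι ℤ ℓ) F) (Tb ℓ x))
    (hfun : ∀ x, Rel 0 x → x = 0)
    (F₀ : CuspForm (Gamma0 M') 2) (x₀ : X) (hrel : Rel F₀ x₀)
    (hne : x₀ ≠ 0) (hpx : p • x₀ = 0)
    (heig : ∀ ℓ : GoodPrime (M' * p) S,
      Tb ℓ x₀ = W.apOfModel ((ℓ.1 : Nat.Primes) : ℕ) • x₀) :
    W.IsResiduallyModularOfLevel p M' := by
  have : Fact p.Prime := ⟨hp⟩
  refine olc_residuallyModular (S := S) W hp hS ?_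
  set a : GoodPrime (M' * p) S → ℤ := fun ℓ => W.apOfModel ((ℓ.1 : Nat.Primes) : ℕ) with ha
  set θ' : HPoly (M' * p) S →+* ZMod p :=
    (Int.castRingHom (ZMod p)).comp (FreeAlgebra.lift ℤ a).toRingHom with hθ'
  have hθ : ∀ ℓ : GoodPrime (M' * p) S, θ' (FreeAlgebra.ι ℤ ℓ) = ((a ℓ : ℤ) : ZMod p) := by
    intro ℓ
    show (Int.castRingHom (ZMod p)) (FreeAlgebra.lift ℤ a (FreeAlgebra.ι ℤ ℓ)) = _
    rw [FreeAlgebra.lift_ι_apply]
    rfl
  refine olc_lift hp θ' a hθ ?_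
  intro P hP
  have hdvd := lds_kills hp Tb Rel hadd hsmul hT hfun a F₀ x₀ hrel hne hpx heig P hP
  show (Int.castRingHom (ZMod p)) (FreeAlgebra.lift ℤ a P) = 0
  exact (ZMod.intCast_zmod_eq_zero_iff_dvd _ p).2 hdvd

end Tail

section Series

/-- the formal Hecke operator `T_ℓ^{(2)}` of weight `2` on sequences `ℕ → k`:
`(T_ℓ x)_n = x_{nℓ} + ℓ x_{n/ℓ}` (the second term only if `ℓ ∣ n`). -/
def ldsT (k : Type*) [CommRing k] (ℓ : ℕ) : Module.End ℤ (ℕ → k) where
  toFun x := fun n => x (n * ℓ) + if ℓ ∣ n then (ℓ : k) * x (n / ℓ) else 0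
  map_add' x y := by
    funext n
    simp only [Pi.add_apply]
    split_ifs <;> ring
  map_smul' r x := by
    funext n
    simp only [Pi.smul_apply, RingHom.id_apply, zsmul_eq_mul]
    split_ifs <;> ring

@[simp] theorem ldsT_apply (k : Type*) [CommRing k] (ℓ : ℕ) (x : ℕ → k) (n : ℕ) :
    ldsT k ℓ x n = x (n * ℓ) + if ℓ ∣ n then (ℓ : k) * x (n / ℓ) else 0 := rfl

variable {M' p : ℕ} [NeZero M'] {S : Finset ℕ}

/-- **the Deligne–Serre tail for `q`-expansions**: let `A₀` be a ring with an injection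
`ι : A₀ → ℂ` and a reduction `res : A₀ → k`, `p = 0` in `k`.  If a cusp form `F₀` of level `M'`
has its `q`-expansion in `ι A₀`, with reduction `x₀ ≠ 0`, and `x₀` is an eigenvector of the formal
Hecke operators `T_ℓ^{(2)}` (`ℓ ∤ M' p`, `ℓ ∉ S`) with the eigenvalues `a_ℓ(W)`, then `W` is
residually modular of level `M'`. -/
theorem lds_main (W : WeierstrassCurve ℤ) (hp : p.Prime)
    (hS : ∀ ℓ ∈ S, ℓ.Prime → W.IsGoodPrimeFor ℓ → ¬ ℓ ∣ M' → ℓ = p)
    {A₀ k : Type*} [CommRing A₀] [CommRing k] (ι : A₀ →+* ℂ) (hι : Function.Injective ι)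
    (res : A₀ →+* k) (hpk : (p : k) = 0)
    (F₀ : CuspForm (Gamma0 M') 2) (x₀ : ℕ → k)
    (hrel : ∀ n, ∃ c : A₀, ι c = qCoeff F₀ n ∧ res c = x₀ n)
    (hne : x₀ ≠ 0)
    (heig : ∀ ℓ : Nat.Primes, ¬ (ℓ : ℕ) ∣ M' * p → (ℓ : ℕ) ∉ S → ∀ n,
      x₀ (n * ℓ) + (if (ℓ : ℕ) ∣ n then ((ℓ : ℕ) : k) * x₀ (n / ℓ) else 0) =
        ((W.apOfModel ((ℓ : ℕ)) : ℤ) : k) * x₀ n) :
    W.IsResiduallyModularOfLevel p M' := by
  classical
  set Rel : CuspForm (Gamma0 M') 2 → (ℕ → k) → Prop :=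
    fun F x => ∀ n, ∃ c : A₀, ι c = qCoeff F n ∧ res c = x n with hRel
  refine lds_main_abs W hp hS (fun ℓ => ldsT k ((ℓ.1 : Nat.Primes) : ℕ)) Rel ?_ ?_ ?_ ?_
    F₀ x₀ hrel hne ?_ ?_
  · -- additivity
    intro F G x y hF hG n
    obtain ⟨c, hc, hc'⟩ := hF n
    obtain ⟨d, hd, hd'⟩ := hG n
    refine ⟨c + d, ?_, ?_⟩
    · have := (Fermat.Agent.S49lib.qCoeffLin M' 2 n).map_add F G
      simp only [Fermat.Agent.S49lib.qCoeffLin_apply] at this
      rw [map_add, hc, hd, this]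
    · rw [map_add, hc', hd']
      rfl
  · -- multiples
    intro r F x hF n
    obtain ⟨c, hc, hc'⟩ := hF n
    refine ⟨r * c, ?_, ?_⟩
    · have := (Fermat.Agent.S49lib.qCoeffLin M' 2 n).map_smul (r : ℂ) F
      simp only [Fermat.Agent.S49lib.qCoeffLin_apply, smul_eq_mul] at this
      rw [← Int.cast_smul_eq_zsmul ℂ r F, this, map_mul, hc, map_intCast]
    · rw [map_mul, hc', map_intCast]
      simp only [Pi.smul_apply, zsmul_eq_mul]
  · -- Hecke
    intro ℓ F x hF n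
    have hℓM : ¬ ((ℓ.1 : Nat.Primes) : ℕ) ∣ M' := fun h => ℓ.2.1 (dvd_mul_of_dvd_left h p)
    have hcoe : cfForms (M' * p) S M' (FreeAlgebra.ι ℤ ℓ) =
        CuspForm.heckeTLin 2 ℓ.1.2 hℓM := by
      rw [cfForms]
      exact evalFormsAt_ι_coe (M' * p) S M' (dvd_mul_right M' p) ℓ
    have hq : qCoeff (cfForms (M' * p) S M' (FreeAlgebra.ι ℤ ℓ) F) n =
        qCoeff F (n * ((ℓ.1 : Nat.Primes) : ℕ)) +
          if ((ℓ.1 : Nat.Primes) : ℕ) ∣ n then
            (((ℓ.1 : Nat.Primes) : ℕ) : ℂ) * qCoeff F (n / ((ℓ.1 : Nat.Primes) : ℕ)) else 0 := by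
      rw [hcoe, CuspForm.coe_heckeTLin_apply,
        ModularFormClass.qCoeff_heckeT F (Fermat.Agent.S49lib.one_mem_strictPeriods M')
          ℓ.1.2.ne_zero n, ModularForm.coeffHeckeT_apply]
      norm_num
    obtain ⟨c, hc, hc'⟩ := hF (n * ((ℓ.1 : Nat.Primes) : ℕ))
    by_cases hdvd : ((ℓ.1 : Nat.Primes) : ℕ) ∣ n
    · obtain ⟨d, hd, hd'⟩ := hF (n / ((ℓ.1 : Nat.Primes) : ℕ))
      refine ⟨c + (((ℓ.1 : Nat.Primes) : ℕ) : A₀) * d, ?_, ?_⟩
      · rw [hq, if_pos hdvd, map_add, map_mul, hc, hd, map_natCast]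
      · rw [map_add, map_mul, hc', hd', map_natCast, ldsT_apply, if_pos hdvd]
    · refine ⟨c, ?_, ?_⟩
      · rw [hq, if_neg hdvd, add_zero, hc]
      · rw [hc', ldsT_apply, if_neg hdvd, add_zero]
  · -- functionality
    intro x hx
    funext n
    obtain ⟨c, hc, hc'⟩ := hx n
    have h0 : qCoeff (0 : CuspForm (Gamma0 M') 2) n = 0 := by
      have := (Fermat.Agent.S49lib.qCoeffLin M' 2 n).map_zero
      simpa only [Fermat.Agent.S49lib.qCoeffLin_apply] using this
    rw [h0, ← map_zero ι] at hc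
    rw [← hc', hι hc, map_zero]
    rfl
  · -- `p`-torsion
    funext n
    simp only [Pi.smul_apply, nsmul_eq_mul, hpk, zero_mul, Pi.zero_apply]
  · -- eigenvector
    intro ℓ
    funext n
    rw [ldsT_apply, heig ℓ.1 ℓ.2.1 ℓ.2.2 n]
    simp only [Pi.smul_apply, zsmul_eq_mul]

end Series

end Fermat.Agent.S40lib
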