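import Mathlib
import Fermat.Agent.S36lib.Speed
import Fermat.Agent.S40lib.LiftDS
import Fermat.Agent.S40lib.LiftHub2
import Fermat.Agent.S40lib.ModTheta
import Fermat.Agent.GM.RedInstDefs

/-!
# Item 88 (S40), layer (LIFT), **BLOCK C** in the form of the hub (helper17).  Complete proofs.

`lds_blockC : LfhBlockC M p S a A` (`LiftHub2.lean`, architect helper8): a cusp form `F` of level
`M` with `A`-integral `q`-expansion whose reduction `d ≠ 0` is a formal eigenvector of the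
`T_ℓ^{(2)}`, `ℓ ∉ S`, with the eigenvalues `a_ℓ` (ANY integers), makes the eigensystem `a` occur in
`J₀(M)[p]`: `¬ S40hNotAt M p S a`.

* `lds_kills_series` : `p ∣ P(a)` for every Hecke polynomial `P` vanishing on `S₂(Γ₀(M'))`
  (`lds_kills` for the relation "`q`-expansion in `ι A₀`, reduction `x`");
* `lds_eigenform` : the eigenform `g` of level `M'` congruent to `a` (`olc_lift`);
* `lds_eigenclass` : an eigenform congruent to `a` gives a nonzero class of `J₀(M)[p]` on which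
  `T_ℓ` acts by `a_ℓ` (`mth_eigenclass` for general `a`: `ef_exists_lattice_eigen` + Layer E);
* `lds_occurs` : the three together;
* `lds_blockC` : BLOCK C.
-/

set_option autoImplicit false
set_option linter.style.haveILetI false
set_option linter.unusedSectionVars false
set_option linter.unusedVariables false

open scoped MatrixGroups TensorProduct
open CongruenceSubgroup ModularCurve ModularCurve.Period ModularFormClass
open Fermat.Agent.GalRep Fermat.Agent.S31lib Fermat.Agent.LatE Fermat.Agent.S35lib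
open Fermat.Agent.S41lib

namespace Fermat.Agent.S40lib

noncomputable section

section Series

variable {N : ℕ} {S : Finset ℕ} {M' : ℕ} [NeZero M']

/-- **`lds_kills` for `q`-expansions**: let `A₀` be a ring with an injection `ι : A₀ → ℂ` and a
reduction `res : A₀ → k`, `p = 0` in `k`.  If a cusp form `F₀` of level `M' ∣ N` has its
`q`-expansion in `ι A₀`, with reduction `x₀ ≠ 0`, and `x₀` is an eigenvector of the formal Hecke
operators `T_ℓ^{(2)}` (`ℓ ∤ N`, `ℓ ∉ S`) with integer eigenvalues `a_ℓ`, then `p ∣ P(a)` for every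
Hecke polynomial `P` which vanishes on `S₂(Γ₀(M'))`. -/
theorem lds_kills_series {p : ℕ} (hp : p.Prime) (hM' : M' ∣ N)
    {A₀ k : Type*} [CommRing A₀] [CommRing k] (ι : A₀ →+* ℂ) (hι : Function.Injective ι)
    (res : A₀ →+* k) (hpk : (p : k) = 0)
    (F₀ : CuspForm (Gamma0 M') 2) (x₀ : ℕ → k)
    (hrel : ∀ n, ∃ c : A₀, ι c = qCoeff F₀ n ∧ res c = x₀ n)
    (hne : x₀ ≠ 0) (a : GoodPrime N S → ℤ)
    (heig : ∀ ℓ : GoodPrime N S, ∀ n,
      x₀ (n * ((ℓ.1 : Nat.Primes) : ℕ)) +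
        (if ((ℓ.1 : Nat.Primes) : ℕ) ∣ n then
          ((((ℓ.1 : Nat.Primes) : ℕ)) : k) * x₀ (n / ((ℓ.1 : Nat.Primes) : ℕ)) else 0) =
        ((a ℓ : ℤ) : k) * x₀ n)
    (P : HPoly N S) (hP : evalFormsAt N S M' P = 0) :
    (p : ℤ) ∣ FreeAlgebra.lift ℤ a P := by
  classical
  set Rel : CuspForm (Gamma0 M') 2 → (ℕ → k) → Prop :=
    fun F x => ∀ n, ∃ c : A₀, ι c = qCoeff F n ∧ res c = x n with hRel
  refine lds_kills hp (fun ℓ => ldsT k ((ℓ.1 : Nat.Primes) : ℕ)) Rel ?_ ?_ ?_ ?_ a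
    F₀ x₀ hrel hne ?_ ?_ P hP
  · -- additivity
    intro F G x y hF hG n
    obtain ⟨c, hc, hc'⟩ := hF n
    obtain ⟨d, hd, hd'⟩ := hG n
    refine ⟨c + d, ?_, ?_⟩
    · have := (Fermat.Agent.S49lib.qCoeffLin M' 2 n).map_add F G
      simp only [Fermat.Agent.S49lib.qCoeffLin_apply] at this
      rw [map_add, hc, hd, this]
    · rw [map_add, hc', hd']
      rfl
  · -- multiples
    intro r F x hF n
    obtain ⟨c, hc, hc'⟩ := hF n
    refine ⟨r * c, ?_, ?_⟩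
    · have := (Fermat.Agent.S49lib.qCoeffLin M' 2 n).map_smul (r : ℂ) F
      simp only [Fermat.Agent.S49lib.qCoeffLin_apply, smul_eq_mul] at this
      rw [← Int.cast_smul_eq_zsmul ℂ r F, this, map_mul, hc, map_intCast]
    · rw [map_mul, hc', map_intCast]
      simp only [Pi.smul_apply, zsmul_eq_mul]
  · -- Hecke
    intro ℓ F x hF n
    have hℓM : ¬ ((ℓ.1 : Nat.Primes) : ℕ) ∣ M' := fun h => ℓ.2.1 (dvd_trans h hM')
    have hcoe : cfForms N S M' (FreeAlgebra.ι ℤ ℓ) =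
        CuspForm.heckeTLin 2 ℓ.1.2 hℓM := by
      rw [cfForms]
      exact evalFormsAt_ι_coe N S M' hM' ℓ
    have hq : qCoeff (cfForms N S M' (FreeAlgebra.ι ℤ ℓ) F) n =
        qCoeff F (n * ((ℓ.1 : Nat.Primes) : ℕ)) +
          if ((ℓ.1 : Nat.Primes) : ℕ) ∣ n then
            (((ℓ.1 : Nat.Primes) : ℕ) : ℂ) * qCoeff F (n / ((ℓ.1 : Nat.Primes) : ℕ)) else 0 := by
      rw [hcoe, CuspForm.coe_heckeTLin_apply,
        ModularFormClass.qCoeff_heckeT F (Fermat.Agent.S49lib.one_mem_strictPeriods M')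
          ℓ.1.2.ne_zero n, ModularForm.coeffHeckeT_apply]
      norm_num
    obtain ⟨c, hc, hc'⟩ := hF (n * ((ℓ.1 : Nat.Primes) : ℕ))
    by_cases hdvd : ((ℓ.1 : Nat.Primes) : ℕ) ∣ n
    · obtain ⟨d, hd, hd'⟩ := hF (n / ((ℓ.1 : Nat.Primes) : ℕ))
      refine ⟨c + (((ℓ.1 : Nat.Primes) : ℕ) : A₀) * d, ?_, ?_⟩
      · rw [hq, if_pos hdvd, map_add, map_mul, hc, hd, map_natCast]
      · rw [map_add, map_mul, hc', hd', map_natCast, ldsT_apply, if_pos hdvd]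
    · refine ⟨c, ?_, ?_⟩
      · rw [hq, if_neg hdvd, add_zero, hc]
      · rw [hc', ldsT_apply, if_neg hdvd, add_zero]
  · -- functionality
    intro x hx
    funext n
    obtain ⟨c, hc, hc'⟩ := hx n
    have h0 : qCoeff (0 : CuspForm (Gamma0 M') 2) n = 0 := by
      have := (Fermat.Agent.S49lib.qCoeffLin M' 2 n).map_zero
      simpa only [Fermat.Agent.S49lib.qCoeffLin_apply] using this
    rw [h0, ← map_zero ι] at hc
    rw [← hc', hι hc, map_zero]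
    rfl
  · -- `p`-torsion
    funext n
    simp only [Pi.smul_apply, nsmul_eq_mul, hpk, zero_mul, Pi.zero_apply]
  · -- eigenvector
    intro ℓ
    funext n
    rw [ldsT_apply, heig ℓ n]
    simp only [Pi.smul_apply, zsmul_eq_mul]

/-- **the eigenform**: under the hypotheses of `lds_kills_series` there is a normalised eigenform
of level `M'` congruent to the `a_ℓ` modulo a maximal ideal over `p`. -/
theorem lds_eigenform {p : ℕ} (hp : p.Prime) (hM' : M' ∣ N)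
    {A₀ k : Type*} [CommRing A₀] [CommRing k] (ι : A₀ →+* ℂ) (hι : Function.Injective ι)
    (res : A₀ →+* k) (hpk : (p : k) = 0)
    (F₀ : CuspForm (Gamma0 M') 2) (x₀ : ℕ → k)
    (hrel : ∀ n, ∃ c : A₀, ι c = qCoeff F₀ n ∧ res c = x₀ n)
    (hne : x₀ ≠ 0) (a : GoodPrime N S → ℤ)
    (heig : ∀ ℓ : GoodPrime N S, ∀ n,
      x₀ (n * ((ℓ.1 : Nat.Primes) : ℕ)) +
        (if ((ℓ.1 : Nat.Primes) : ℕ) ∣ n then
          ((((ℓ.1 : Nat.Primes) : ℕ)) : k) * x₀ (n / ((ℓ.1 : Nat.Primes) : ℕ)) else 0) =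
        ((a ℓ : ℤ) : k) * x₀ n) :
    ∃ (g : CuspForm (Gamma0 M') 2) (𝔪' : Ideal (integralClosure ℤ ℂ)),
      g.IsNormalizedEigenform ∧ 𝔪'.IsMaximal ∧ ((p : ℕ) : integralClosure ℤ ℂ) ∈ 𝔪' ∧
      ∀ ℓ : GoodPrime N S, ∃ c : integralClosure ℤ ℂ,
        (c : ℂ) = qCoeff g ((ℓ.1 : Nat.Primes) : ℕ) ∧ c - (a ℓ : integralClosure ℤ ℂ) ∈ 𝔪' := by
  have : Fact p.Prime := ⟨hp⟩
  set θ' : HPoly N S →+* ZMod p :=
    (Int.castRingHom (ZMod p)).comp (FreeAlgebra.lift ℤ a).toRingHom with hθ'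
  have hθ : ∀ ℓ : GoodPrime N S, θ' (FreeAlgebra.ι ℤ ℓ) = ((a ℓ : ℤ) : ZMod p) := by
    intro ℓ
    show (Int.castRingHom (ZMod p)) (FreeAlgebra.lift ℤ a (FreeAlgebra.ι ℤ ℓ)) = _
    rw [FreeAlgebra.lift_ι_apply]
    rfl
  refine olc_lift hp θ' a hθ ?_
  intro P hP
  have hdvd := lds_kills_series hp hM' ι hι res hpk F₀ x₀ hrel hne a heig P hP
  show (Int.castRingHom (ZMod p)) (FreeAlgebra.lift ℤ a P) = 0
  exact (ZMod.intCast_zmod_eq_zero_iff_dvd _ p).2 hdvd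

end Series

section Class

/-- **the eigenclass** (`mth_eigenclass` for general eigenvalues): a normalised eigenform of level
`M` congruent to integers `a_ℓ` (`ℓ ∈ I`) modulo a maximal ideal over `p` gives a nonzero class of
`J₀(M)[p]` on which `T_ℓ` acts by `a_ℓ` for `ℓ ∈ I`. -/
theorem lds_eigenclass {p : ℕ} (hp : p.Prime) {M : ℕ} [NeZero M]
    (f : CuspForm (Gamma0 M) 2) (hf : f.IsNormalizedEigenform)
    (𝔪 : Ideal (integralClosure ℤ ℂ)) (hmax : 𝔪.IsMaximal)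
    (hpm : ((p : ℕ) : integralClosure ℤ ℂ) ∈ 𝔪)
    (a : Nat.Primes → ℤ) (I : Set Nat.Primes)
    (ha : ∀ ℓ ∈ I, ∃ c : integralClosure ℤ ℂ, (c : ℂ) = qCoeff f (ℓ : ℕ) ∧
      c - (a ℓ : integralClosure ℤ ℂ) ∈ 𝔪) :
    ∃ z : JZero M, z ≠ 0 ∧ p • z = 0 ∧
      ∀ ℓ ∈ I, heckeOperatorBar M ℓ z = (a ℓ) • z := by
  classical
  obtain ⟨x, hxpar, hxp, hxa⟩ := ef_exists_lattice_eigen M p hp f hf 𝔪 hmax hpm a I ha
  let x' : HLat M := ⟨x, hxpar⟩
  have hF := formL_of_pieces M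
  have hker : ∀ ψ : HLat M, hF.e p hp.pos ((p : ℤ) • ψ) = 0 := by
    intro ψ
    refine (hF.e_ker p hp.pos _).2 ⟨ψ, ?_⟩
    rw [natCast_zsmul]
  refine ⟨hF.e p hp.pos (frickeLat M x'), ?_, ?_, ?_⟩
  · intro h
    obtain ⟨ψ, hψ⟩ := (hF.e_ker p hp.pos _).1 h
    apply hxp
    have h1 : x' = p • frickeLat M ψ := by
      rw [← map_nsmul, ← hψ, frickeLat_frickeLat]
    refine ⟨(frickeLat M ψ).1, ?_⟩
    have h2 : x = ((p • frickeLat M ψ : HLat M) : Additive (Gamma0 M) →+ ℤ) :=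
      congrArg (fun y : HLat M => (y : Additive (Gamma0 M) →+ ℤ)) h1
    rw [natCast_zsmul]
    exact h2
  · rw [← map_nsmul]
    refine (hF.e_ker p hp.pos _).2 ⟨frickeLat M x', rfl⟩
  · intro ℓ hℓ
    obtain ⟨y, hy⟩ := hxa ℓ hℓ
    have hypar : IsParabolicHom (Gamma0 M) y := by
      refine efm_isParabolicHom_of_smul M hp.ne_zero ?_
      rw [← hy]
      exact (heckeLat M ℓ x' - (a ℓ) • x').2
    let y' : HLat M := ⟨y, hypar⟩
    have h1 : heckeLat M ℓ x' = (a ℓ) • x' + (p : ℤ) • y' := by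
      apply Subtype.ext
      have : heckeHom M ℓ ℤ x = (a ℓ) • x + (p : ℤ) • y := by
        rw [← hy]; abel
      exact this
    rw [cf_e_hecke, heckeLatT_apply, frickeLat_frickeLat, h1, map_add, map_zsmul, map_zsmul,
      map_add, map_zsmul, hker, add_zero]

end Class

section BlockC

variable {M p : ℕ} [NeZero M] {S : Finset ℕ}

/-- **the eigensystem occurs**: a cusp form of level `M` with `q`-expansion in `ι A₀` whose
reduction `x₀ ≠ 0` is a formal eigenvector of the `T_ℓ^{(2)}` (`ℓ ∉ S`, `ℓ ∤ M`) with the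
eigenvalues `a_ℓ` gives a nonzero class of `J₀(M)[p]` with `T_ℓ z = a_ℓ z` (`ℓ ∉ S`, `ℓ ∤ M`). -/
theorem lds_occurs (hp : p.Prime)
    {A₀ k : Type*} [CommRing A₀] [CommRing k] (ι : A₀ →+* ℂ) (hι : Function.Injective ι)
    (res : A₀ →+* k) (hpk : (p : k) = 0)
    (F₀ : CuspForm (Gamma0 M) 2) (x₀ : ℕ → k)
    (hrel : ∀ n, ∃ c : A₀, ι c = qCoeff F₀ n ∧ res c = x₀ n)
    (hne : x₀ ≠ 0) (a : ℕ → ℤ)
    (heig : ∀ ℓ : ℕ, ℓ.Prime → ¬ ℓ ∣ M → ℓ ∉ S → ∀ n,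
      x₀ (n * ℓ) + (if ℓ ∣ n then (ℓ : k) * x₀ (n / ℓ) else 0) = ((a ℓ : ℤ) : k) * x₀ n) :
    ∃ z : JZero M, z ≠ 0 ∧ p • z = 0 ∧
      ∀ ℓ : Nat.Primes, ¬ (ℓ : ℕ) ∣ M → (ℓ : ℕ) ∉ S →
        heckeOperatorBar M ℓ z = (a (ℓ : ℕ)) • z := by
  obtain ⟨g, 𝔪', hg, hmax, hpm, hc⟩ :=
    lds_eigenform (N := M) (S := S) hp (dvd_refl M) ι hι res hpk F₀ x₀ hrel hne
      (fun ℓ => a ((ℓ.1 : Nat.Primes) : ℕ)) (fun ℓ n => heig _ ℓ.1.2 ℓ.2.1 ℓ.2.2 n)
  obtain ⟨z, hz0, hpz, hz⟩ := lds_eigenclass hp g hg 𝔪' hmax hpm (fun ℓ => a (ℓ : ℕ))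
    {ℓ : Nat.Primes | ¬ (ℓ : ℕ) ∣ M ∧ (ℓ : ℕ) ∉ S} (fun ℓ hℓ => hc ⟨ℓ, hℓ.1, hℓ.2⟩)
  exact ⟨z, hz0, hpz, fun ℓ h1 h2 => hz ℓ ⟨h1, h2⟩⟩

/-- **BLOCK C** of the (LIFT) hub. -/
theorem lds_blockC (hp : p.Prime) (a : ℕ → ℤ) (A : ValuationSubring Fermat.Agent.S24lib.Kbar)
    (hA : A.LiesOverPrime p) (hS : ∀ ℓ : ℕ, ℓ.Prime → ℓ ∣ M → ℓ ∈ S) :
    LfhBlockC M p S a A := by
  intro F c d hF hc hd0 heig hNot
  haveI : Fact p.Prime := ⟨hp⟩
  haveI : CharP (IsLocalRing.ResidueField A) p := Fermat.Agent.GM.charP_residueField hA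
  have hpk : ((p : ℕ) : IsLocalRing.ResidueField A) = 0 := CharP.cast_eq_zero _ p
  obtain ⟨z, hz0, hpz, hz⟩ :=
    lds_occurs (M := M) (S := S) hp (Fermat.Agent.S24lib.ιC.comp A.subtype)
      ((Fermat.Agent.S24lib.ιC).injective.comp Subtype.val_injective)
      (IsLocalRing.residue A) hpk F d
      (fun n => ⟨c n, (hF n).symm, hc n⟩) hd0 a
      (fun ℓ hℓ _ hℓS n => heig ℓ hℓ hℓS n)
  exact hz0 (hNot z hpz (fun ℓ hℓS => hz ℓ (fun h => hℓS (hS ℓ ℓ.2 h)) hℓS))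

end BlockC

end

end Fermat.Agent.S40lib
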