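/-
Item 88 (S40/S44), layer (LIFT), piece (RAM) (helper23): the formal identity
`θ(j) · Δ = -E₄² E₆`, `θ = q d/dq`, over `ℤ`.

With `j = q⁻¹ J` (`J = jNum = E₄³ η⁻¹`), `Δ = q η` (`η = dedekindEtaUnit`):
* `rmj_main`  : `(X · J' - J) · η = -(E₄² E₆)` in `ℤ⟦X⟧`;
* `rmj_mk`    : `PowerSeries.mk (fun n => ((n:ℤ) - 1) * coeff n J) · η = -(E₄² E₆)` (consumer form);
(the Laurent form `q · dj/dq · Δ = -E₄² E₆` in `ℤ((q))` is `RamJL.rmj_laurent`.)
Analytic input: `S16lib.ue_base_identity` (from `S24lib.deriv_jFun`), the constant is `-1` by the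
leading coefficients.   No sorry.
-/
import Mathlib
import Fermat.Agent.S16lib.UELevelOne
import Fermat.Agent.S16lib.SwDInt
import Fermat.Agent.S16lib.UEDb

set_option autoImplicit false

noncomputable section

namespace Fermat.Agent.S40lib

open ModularCurve ModularFormClass UpperHalfPlane ModularForm EisensteinSeries
open Fermat.Agent.S24lib Fermat.Agent.S28lib Fermat.Agent.S16lib
open scoped MatrixGroups ModularForm Manifold

/-- `PowerSeries.map` commutes with the derivative -/
theorem rmj_map_derivative {R S : Type*} [CommRing R] [CommRing S] (f : R →+* S)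
    (p : PowerSeries R) :
    PowerSeries.map f (PowerSeries.derivative R p) = PowerSeries.derivative S (PowerSeries.map f p) := by
  ext n
  rw [PowerSeries.coeff_map, PowerSeries.coeff_derivative, PowerSeries.coeff_derivative,
    PowerSeries.coeff_map, map_mul, map_add, map_natCast, map_one]

/-- the identity over `ℂ` with the constant `c`, after cancelling `X` -/
theorem rmj_base_C : ∃ c : ℂ,
    PowerSeries.X * PowerSeries.derivative ℂ (qExpansion 1 E₄ ^ 3) * ueD
        - qExpansion 1 E₄ ^ 3 * ueD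
        - PowerSeries.X * qExpansion 1 E₄ ^ 3 * PowerSeries.derivative ℂ ueD
      = PowerSeries.C c * (qExpansion 1 E₄ ^ 2 * qExpansion 1 E₆ * ueD) := by
  obtain ⟨c, _, h⟩ := ue_base_identity
  refine ⟨c, ?_⟩
  rw [qExpansion_discriminant_eq_X_mul] at h
  have hdX : PowerSeries.derivative ℂ (PowerSeries.X * ueD)
      = ueD + PowerSeries.X * PowerSeries.derivative ℂ ueD := by
    rw [Derivation.leibniz, PowerSeries.derivative_X]
    simp only [smul_eq_mul]
    ring
  rw [hdX] at h
  have hX : (PowerSeries.X : PowerSeries ℂ) ≠ 0 := PowerSeries.X_ne_zero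
  apply mul_left_cancel₀ hX
  linear_combination h

theorem rmj_constantCoeff_ueD : PowerSeries.constantCoeff ueD = 1 := by
  rw [← PowerSeries.coeff_zero_eq_constantCoeff_apply, ueD, PowerSeries.coeff_map,
    PowerSeries.coeff_zero_eq_constantCoeff_apply, constantCoeff_dedekindEtaUnit]
  simp

/-- the constant is `-1` -/
theorem rmj_base_C' :
    PowerSeries.X * PowerSeries.derivative ℂ (qExpansion 1 E₄ ^ 3) * ueD
        - qExpansion 1 E₄ ^ 3 * ueD
        - PowerSeries.X * qExpansion 1 E₄ ^ 3 * PowerSeries.derivative ℂ ueD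
      = -(qExpansion 1 E₄ ^ 2 * qExpansion 1 E₆ * ueD) := by
  obtain ⟨c, h⟩ := rmj_base_C
  have h4 : PowerSeries.constantCoeff (qExpansion 1 E₄) = 1 := by
    rw [← PowerSeries.coeff_zero_eq_constantCoeff_apply]
    exact ue_coeff_zero_E₄
  have h6 : PowerSeries.constantCoeff (qExpansion 1 E₆) = 1 := by
    rw [← PowerSeries.coeff_zero_eq_constantCoeff_apply]
    exact ue_coeff_zero_E₆
  have hc := congrArg (PowerSeries.constantCoeff (R := ℂ)) h
  simp only [map_sub, map_mul, map_pow, PowerSeries.constantCoeff_X, PowerSeries.constantCoeff_C,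
    h4, h6, rmj_constantCoeff_ueD, zero_mul, one_pow, mul_one, zero_sub] at hc
  have hc' : c = -1 := by
    rw [← hc]
    ring
  rw [h, hc', map_neg, map_one]
  ring

/-- the identity over `ℤ`, after cancelling `X` -/
theorem rmj_base_Z :
    PowerSeries.X * PowerSeries.derivative ℤ (sdE4 ^ 3) * dedekindEtaUnit
        - sdE4 ^ 3 * dedekindEtaUnit
        - PowerSeries.X * sdE4 ^ 3 * PowerSeries.derivative ℤ dedekindEtaUnit
      = -(sdE4 ^ 2 * sdE6 * dedekindEtaUnit) := by
  apply sdι_injective
  have h := rmj_base_C'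
  rw [sd_qExpansion_E4, sd_qExpansion_E6, ueD] at h
  simpa only [map_sub, map_mul, map_pow, map_neg, PowerSeries.map_X, rmj_map_derivative] using h

/-- **(RAM)**, power series form: `(X J' - J) η = -E₄² E₆`. -/
theorem rmj_main :
    (PowerSeries.X * PowerSeries.derivative ℤ jNum - jNum) * dedekindEtaUnit
      = -(sdE4 ^ 2 * sdE6) := by
  have hu := dedekindEtaUnit_mul_inv
  set u := dedekindEtaUnit with hudef
  set v := dedekindEtaUnitInv with hvdef
  set d := PowerSeries.derivative ℤ with hd
  have hdv : d v * u = -(v * d u) := by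
    have e := congrArg d hu
    rw [Derivation.leibniz, Derivation.map_one_eq_zero] at e
    simp only [smul_eq_mul] at e
    linear_combination e
  have hJ : jNum = sdE4 ^ 3 * v := rfl
  have hdJ : d jNum = d (sdE4 ^ 3) * v + sdE4 ^ 3 * d v := by
    rw [hJ, Derivation.leibniz]
    simp only [smul_eq_mul]
    ring
  have hb := rmj_base_Z
  rw [← hudef, ← hd] at hb
  rw [hdJ, hJ]
  linear_combination v * hb + (PowerSeries.X * sdE4 ^ 3) * hdv - (sdE4 ^ 2 * sdE6) * hu

/-- the coefficients of `X J' - J` -/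
theorem rmj_mk_eq (J : PowerSeries ℤ) :
    PowerSeries.mk (fun n => ((n : ℤ) - 1) * PowerSeries.coeff n J)
      = PowerSeries.X * PowerSeries.derivative ℤ J - J := by
  ext n
  rw [PowerSeries.coeff_mk, map_sub]
  rcases n with _ | m
  · rw [PowerSeries.coeff_zero_X_mul]
    simp
  · rw [PowerSeries.coeff_succ_X_mul, PowerSeries.coeff_derivative]
    push_cast
    ring

/-- **(RAM)**, consumer form. -/
theorem rmj_mk :
    PowerSeries.mk (fun n => ((n : ℤ) - 1) * PowerSeries.coeff n jNum) * dedekindEtaUnit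
      = -(sdE4 ^ 2 * sdE6) := by
  rw [rmj_mk_eq]
  exact rmj_main

end Fermat.Agent.S40lib

end
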