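import Mathlib
import Fermat.Agent.S36lib.Speed
import Fermat.Agent.S40lib.DiffLat
import Fermat.Agent.S40lib.BlockB
import Fermat.Agent.S40lib.LiftBlockA
import Fermat.Agent.S40lib.LiftDS2
import Fermat.Agent.S40lib.GenusLe
import Fermat.Agent.S40lib.RamJ

/-!
# Item 88 (row 38), layer (LIFT): the wiring (helper25).  Complete proofs.

For a prime `p ≥ 5`, a level `M` prime to `p` and a valuation ring `A` of `ℚ̄` over `p`:

* `lfm_lat` : `DltRam → BkbLat M A` (the lattice input of Block B: `dlt_main` with the place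
  reduction of `R.exists_isPlaceRed` and the genus inequality `gle_main` of helper4);
* `lfm_blockB` : `DltRam → LfhBlockB M A`;
* `lfm_lift` : `DltRam → LfhLift M p S a A` = **(LIFT-EIG)** of the hub, from the blocks A
  (helper15), B (helper10) and C (helper17).

`DltRam` = Ramanujan's identity `θ(j) Δ = - E₄² E₆` for the integral `q`-expansions is
`rmj_mk` of helper23 (`lfm_ram`), so everything is UNCONDITIONAL:

* `lfm_lat'`, `lfm_blockB'`, `lfm_lift'` : the same without the hypothesis `DltRam`.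
-/

set_option autoImplicit false
set_option linter.style.haveILetI false
set_option linter.unusedSectionVars false
set_option linter.unusedVariables false
set_option synthInstance.maxHeartbeats 400000

noncomputable section

namespace Fermat.Agent.S40lib

open AlgebraicCurve KaehlerDifferential Fermat.Agent.RRlib Fermat.Agent.GoodRed ModularCurve
  Fermat.Agent.S24lib Fermat.Agent.GM CongruenceSubgroup Fermat.Agent.S16lib Fermat.Agent.FFlib
  ModularFormClass

/-- **the lattice input of Block B**, for `p ≥ 5`, from (RAM) -/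
theorem lfm_lat (M : ℕ) [NeZero M] {p : ℕ} (hp : p.Prime) (hp5 : 5 ≤ p) (hpM : ¬ p ∣ M)
    (A : ValuationSubring Kbar) (hA : A.LiesOverPrime p) (hram : DltRam) : BkbLat M A := by
  haveI : Fact p.Prime := ⟨hp⟩
  haveI : IsAlgClosed (IsLocalRing.ResidueField A) := isAlgClosed_residueField A
  haveI : RRHyp Kbar (FF M) := mod_rrHyp M
  haveI : RRHyp (IsLocalRing.ResidueField A) (Fk (IsLocalRing.ResidueField A) M) :=
    mr_rrHyp (IsLocalRing.ResidueField A) M
  have hne : A ≠ ⊤ := dw_ne_top hp hA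
  obtain ⟨R, hR⟩ := exists_modConstRed M A hne (Fermat.Agent.GoodRed.hred_modL M hpM A hA)
  have hRs : IsSeriesRed R := hR
  have hg := gle_main M p A hp hp5 hpM hA
  obtain ⟨r, hr, -⟩ := R.exists_isPlaceRed hg
  intro f a hf
  exact dlt_main hRs hram (dlt_reg_of_genus hne hRs hr hg) f a hf

/-- **Block B**, for `p ≥ 5`, from (RAM) -/
theorem lfm_blockB (M : ℕ) [NeZero M] {p : ℕ} (hp : p.Prime) (hp5 : 5 ≤ p) (hpM : ¬ p ∣ M)
    (A : ValuationSubring Kbar) (hA : A.LiesOverPrime p) (hram : DltRam) : LfhBlockB M A :=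
  bkb_main M hp hpM A hA (lfm_lat M hp hp5 hpM A hA hram)

/-- **(LIFT-EIG)**, for `p ≥ 5`, from (RAM) -/
theorem lfm_lift (M p : ℕ) [NeZero M] (S : Finset ℕ) (a : ℕ → ℤ) (A : ValuationSubring Kbar)
    (hp : p.Prime) (hp5 : 5 ≤ p) (hpM : ¬ p ∣ M) (hA : A.LiesOverPrime p)
    (hS : ∀ ℓ : ℕ, ℓ.Prime → ℓ ∣ M * p → ℓ ∈ S) (hram : DltRam) : LfhLift M p S a A :=
  lfh_lift M p S a A (lba_blockA (M := M) (p := p) (A := A) S a hp hpM hA hS)
    (lfm_blockB M hp hp5 hpM A hA hram)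
    (lds_blockC (M := M) (p := p) (S := S) hp a A hA
      (fun ℓ hℓ hd => hS ℓ hℓ (hd.mul_right p)))

/-- **(RAM)** (helper23, `RamJ.lean`) -/
theorem lfm_ram : DltRam := rmj_mk

/-- **the lattice input of Block B**, `p ≥ 5`, UNCONDITIONAL -/
theorem lfm_lat' (M : ℕ) [NeZero M] {p : ℕ} (hp : p.Prime) (hp5 : 5 ≤ p) (hpM : ¬ p ∣ M)
    (A : ValuationSubring Kbar) (hA : A.LiesOverPrime p) : BkbLat M A :=
  lfm_lat M hp hp5 hpM A hA lfm_ram

/-- **Block B**, `p ≥ 5`, UNCONDITIONAL -/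
theorem lfm_blockB' (M : ℕ) [NeZero M] {p : ℕ} (hp : p.Prime) (hp5 : 5 ≤ p) (hpM : ¬ p ∣ M)
    (A : ValuationSubring Kbar) (hA : A.LiesOverPrime p) : LfhBlockB M A :=
  lfm_blockB M hp hp5 hpM A hA lfm_ram

/-- **(LIFT-EIG)**, `p ≥ 5`, UNCONDITIONAL: if the eigensystem `a` does not occur in `J₀(M)[p]`,
every `p`-torsion eigenfunction of `F_{M,k}` with the eigenvalues `a_ℓ` (`ℓ ∉ S`) is trivial. -/
theorem lfm_lift' (M p : ℕ) [NeZero M] (S : Finset ℕ) (a : ℕ → ℤ) (A : ValuationSubring Kbar)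
    (hp : p.Prime) (hp5 : 5 ≤ p) (hpM : ¬ p ∣ M) (hA : A.LiesOverPrime p)
    (hS : ∀ ℓ : ℕ, ℓ.Prime → ℓ ∣ M * p → ℓ ∈ S) : LfhLift M p S a A :=
  lfm_lift M p S a A hp hp5 hpM hA hS lfm_ram

end Fermat.Agent.S40lib

end
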