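import Mathlib
import Fermat.Agent.S36lib.Speed
import Fermat.Agent.S40lib.LiftMain
import Fermat.Agent.S40lib.GenusLeAll

/-!
# Item 88 (row 38), layer (LIFT): the wiring for EVERY prime `p` (helper9)

`LiftMain.lean` (helper25) with the genus inequality `gla_main` (every residue characteristic,
`GenusLeAll.lean`) instead of `gle_main` (`p ≥ 5`): the hypothesis `5 ≤ p` disappears.

* `lma_lat`    : `BkbLat M A`;
* `lma_blockB` : `LfhBlockB M A`;
* `lma_lift`   : `LfhLift M p S a A` = **(LIFT-EIG)** of the hub, UNCONDITIONAL, for every prime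
  `p ∤ M` (`p = 3` included).
-/

set_option autoImplicit false
set_option linter.style.haveILetI false
set_option linter.unusedSectionVars false
set_option linter.unusedVariables false
set_option synthInstance.maxHeartbeats 400000

noncomputable section

namespace Fermat.Agent.S40lib

open AlgebraicCurve KaehlerDifferential Fermat.Agent.RRlib Fermat.Agent.GoodRed ModularCurve
  Fermat.Agent.S24lib Fermat.Agent.GM CongruenceSubgroup Fermat.Agent.S16lib Fermat.Agent.FFlib
  ModularFormClass

/-- **the lattice input of Block B**, for every prime `p ∤ M` -/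
theorem lma_lat (M : ℕ) [NeZero M] {p : ℕ} (hp : p.Prime) (hpM : ¬ p ∣ M)
    (A : ValuationSubring Kbar) (hA : A.LiesOverPrime p) : BkbLat M A := by
  haveI : Fact p.Prime := ⟨hp⟩
  haveI : IsAlgClosed (IsLocalRing.ResidueField A) := isAlgClosed_residueField A
  haveI : RRHyp Kbar (FF M) := mod_rrHyp M
  haveI : RRHyp (IsLocalRing.ResidueField A) (Fk (IsLocalRing.ResidueField A) M) :=
    mr_rrHyp (IsLocalRing.ResidueField A) M
  have hne : A ≠ ⊤ := dw_ne_top hp hA
  obtain ⟨R, hR⟩ := exists_modConstRed M A hne (Fermat.Agent.GoodRed.hred_modL M hpM A hA)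
  have hRs : IsSeriesRed R := hR
  have hg := gla_main M p hp hpM A hA
  obtain ⟨r, hr, -⟩ := R.exists_isPlaceRed hg
  intro f a hf
  exact dlt_main hRs lfm_ram (dlt_reg_of_genus hne hRs hr hg) f a hf

/-- **Block B**, for every prime `p ∤ M` -/
theorem lma_blockB (M : ℕ) [NeZero M] {p : ℕ} (hp : p.Prime) (hpM : ¬ p ∣ M)
    (A : ValuationSubring Kbar) (hA : A.LiesOverPrime p) : LfhBlockB M A :=
  bkb_main M hp hpM A hA (lma_lat M hp hpM A hA)

/-- **(LIFT-EIG)**, for EVERY prime `p ∤ M`, UNCONDITIONAL: if the eigensystem `a` does not occur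
in `J₀(M)[p]`, every `p`-torsion eigenfunction of `F_{M,k}` with the eigenvalues `a_ℓ` (`ℓ ∉ S`)
is trivial. -/
theorem lma_lift (M p : ℕ) [NeZero M] (S : Finset ℕ) (a : ℕ → ℤ) (A : ValuationSubring Kbar)
    (hp : p.Prime) (hpM : ¬ p ∣ M) (hA : A.LiesOverPrime p)
    (hS : ∀ ℓ : ℕ, ℓ.Prime → ℓ ∣ M * p → ℓ ∈ S) : LfhLift M p S a A :=
  lfh_lift M p S a A (lba_blockA (M := M) (p := p) (A := A) S a hp hpM hA hS)
    (lma_blockB M hp hpM A hA)
    (lds_blockC (M := M) (p := p) (S := S) hp a A hA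
      (fun ℓ hℓ hd => hS ℓ hℓ (hd.mul_right p)))

end Fermat.Agent.S40lib

end
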