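import Mathlib
import Fermat.Agent.S36lib.Speed
import Fermat.Agent.S40lib.TameWind2
import Fermat.Agent.S40lib.LiftMainAll
import Fermat.Agent.S40lib.FreyAsm2

/-!
# Item 88 (S44): the GUARDED (J-TAME) assembly (helper6; the proof is helper14's `tmw2_tame`)

`S44tmwWindNC` = `S40tmwWindNC` with the guard `2 ∈ S` (the prime `ℓ ∉ S` of `hnE` is odd);
`s44g_tame` : `S44jTame M' p B` from `S44tmwWindNC`, the guarded cusp step, and (LIFT) = `lma_lift`.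
-/

set_option autoImplicit false
set_option linter.style.haveILetI false
set_option linter.unusedSectionVars false
set_option linter.unusedVariables false
set_option synthInstance.maxHeartbeats 400000

noncomputable section

namespace Fermat.Agent.S40lib

open Fermat.Agent.GalRep ModularCurve AlgebraicCurve Fermat.Agent.S31lib Fermat.Agent.S35lib
  Fermat.Agent.S33lib Fermat.Agent.S36lib Fermat.Agent.S24lib Fermat.Agent.S34lib
  Fermat.Agent.RRlib Fermat.Agent.GoodRed Fermat.Agent.S18lib Fermat.Agent.GM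
  Fermat.Agent.HeckeBar HahnSeries

section Tame

variable (M' p : ℕ) [NeZero M'] [NeZero p] [NeZero (M' * p)]

/-- **(TAME-WIND-NC), guarded**: `S40tmwWindNC` with the extra guard `2 ∈ S`. -/
def S44tmwWindNC (hp : p.Prime) (B : ValuationSubring (AlgebraicClosure ℚ)) : Prop :=
  ∀ (S : Finset ℕ) (a : ℕ → ℤ) (V : AddSubgroup (JZero (M' * p))),
    (∀ ℓ : ℕ, ℓ.Prime → ℓ ∣ M' * p → ℓ ∈ S) → 2 ∈ S →
    Nat.card V = p ^ 2 → (∀ x ∈ V, p • x = 0) →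
    (∀ (σ : AlgebraicClosure ℚ ≃ₐ[ℚ] AlgebraicClosure ℚ), ∀ x ∈ V, σ • x ∈ V) →
    S40hEig (M' * p) S a V → S40hNotAt M' p S a →
    (∃ ℓ : Nat.Primes, (ℓ : ℕ) ∉ S ∧ ¬ (p : ℤ) ∣ a ℓ - (1 + (ℓ : ℕ))) →
    ∀ x ∈ V, x ≠ 0 → (∀ σ ∈ B.inertiaSubgroupIn ℚ, σ • x = x) →
    ∀ (D : Divisor.degZero (K := Kbar) (F := FF (M' * p))) (u : FF (M' * p)),
      Pic0.mk D = x → u ≠ 0 → u ∈ f0Field B (M' * p) →
      (∀ σ ∈ B.inertiaSubgroupIn ℚ,
        galFF (M' * p) σ • (D : Divisor Kbar (FF (M' * p))) = D) →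
      (∀ v : Place Kbar (FF (M' * p)),
        (p : ℤ) * (D : Divisor Kbar (FF (M' * p))) v = v.ord u) →
    ∀ (M : ℕ) [NeZero M] [NeZero (M * p)] (haux : IsAuxLevel p M) (hdvd : M' ∣ M),
      M = Nat.lcm M' (baseLevel p) →
      ∀ (R : ConstRed B (IsLocalRing.residue B)
        (↥(modularFunctionFieldFullC (IsLocalRing.ResidueField B) M)) (FF (M * p))),
      IsSeriesRed R →
      ∃ (c₁ c₂ : Kbar)
        (h₁ : EisUnit R (algebraMap Kbar (FF (M * p)) c₁ *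
          inclBar (M' * p) (M * p) (Nat.mul_dvd_mul_right hdvd p) u))
        (h₂ : EisUnit (glmZero M p hp haux.1 R) (algebraMap Kbar (FF (M * p)) c₂ *
          inclBar (M' * p) (M * p) (Nat.mul_dvd_mul_right hdvd p) u)),
        (∀ Q : Place (IsLocalRing.ResidueField B) (Fk (IsLocalRing.ResidueField B) M),
          0 ≤ Q.ord (jk (IsLocalRing.ResidueField B) M) →
            (p : ℤ) ∣ Q.ord (R.red ⟨_, h₁.2.1⟩)) ∧
        (∀ Q : Place (IsLocalRing.ResidueField B) (Fk (IsLocalRing.ResidueField B) M),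
          0 ≤ Q.ord (jk (IsLocalRing.ResidueField B) M) →
            (p : ℤ) ∣ Q.ord ((glmZero M p hp haux.1 R).red ⟨_, h₂.2.1⟩))

/-- **(J-TAME), guarded, from (TAME-WIND-NC) and the cusp step**; (LIFT) is `lma_lift`. -/
theorem s44g_tame (hp : p.Prime) (hp2 : p ≠ 2) (h3 : p ≠ 3 ∨ 2 ∣ M') (hpM' : ¬ p ∣ M')
    (B : ValuationSubring (AlgebraicClosure ℚ)) (hB : B.LiesOverPrime p)
    (hW : S44tmwWindNC M' p hp B)
    (hC : ∀ (S : Finset ℕ) (a : ℕ → ℤ),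
      (∀ ℓ : ℕ, ℓ.Prime → ℓ ∣ M' * p → ℓ ∈ S) → 2 ∈ S →
      (∃ ℓ : Nat.Primes, (ℓ : ℕ) ∉ S ∧ ¬ (p : ℤ) ∣ a ℓ - (1 + (ℓ : ℕ))) →
      S40tmwCusp M' p S a (IsLocalRing.ResidueField B)) : S44jTame M' p B := by
  haveI : Fact p.Prime := ⟨hp⟩
  intro S a V hS h2S hcard hVp hstab hEig hNot hnE x hx hI
  by_contra hx0
  obtain ⟨D, u, hD, hu0, huF, hDI, hDu⟩ := tmf_kummer (M' * p) p B x (hVp x hx) hI
  obtain ⟨e, hM0, hMp0, hdvd, haux, hM, hdegψ⟩ := tmw_aux_data M' p hp hpM'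
  obtain ⟨R, hR⟩ := exists_constRedInf_aux (Nat.lcm M' (baseLevel p)) p hp haux.1 B hB
  obtain ⟨R', hR'⟩ := hkq_exists_red M' p B hp hpM' hB
  obtain ⟨c₁, c₂, h₁, h₂, hord₁, hord₂⟩ :=
    hW S a V hS h2S hcard hVp hstab hEig hNot hnE x hx hx0 hI D u hD hu0 huF hDI hDu
      (Nat.lcm M' (baseLevel p)) haux hdvd rfl R hR
  have hb4 : baseLevel p = 4 := by
    unfold baseLevel
    rw [if_neg hp2]
  have hdeg := lvb_hdeg_aux (A := B) (M := Nat.lcm M' (baseLevel p)) (by rw [hb4]) hdvd hp hp2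
    h3 haux.1 hB
  haveI : RRBase Kbar (FF (Nat.lcm M' (baseLevel p) * p)) :=
    (mod_rrHyp (Nat.lcm M' (baseLevel p) * p)).toRRBase
  have hk := tma_pull_kummer M' p (Nat.lcm M' (baseLevel p)) hdvd D u hu0 hDu
  have hker := tmw2_ker2_of_wind M' (Nat.lcm M' (baseLevel p)) p hp hpM' haux.1 hdvd hB hdeg hR' hR
    S hS a (lma_lift M' p S a B hp hpM' hB hS) hNot (hC S a hS h2S hnE) (Pic0.mk D) (by rw [hD]; exact hVp x hx)
    (fun ℓ hℓS => by rw [hD]; exact hEig ℓ hℓS x hx) _ hk c₁ c₂ h₁ h₂ hord₁ hord₂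
  rw [hD] at hker
  obtain ⟨hα, hβ⟩ := s40h_new_of_notAt M' p hp hpM' S a V hS hVp hEig hNot x hx
  obtain ⟨τ₀, hτ₀, hmv, -⟩ := cysp_exists_moves p hp2 B hB
  exact hx0 (tpp_fixed_descent M' (Nat.lcm M' (baseLevel p)) p e hp hp2 haux hdvd hM hdegψ hB R hR
    x (hVp x hx) hker hα hβ τ₀ hτ₀ hmv (hI τ₀ hτ₀))

end Tame

end Fermat.Agent.S40lib

end
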