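import Mathlib
import Fermat.Agent.S36lib.Speed
import Fermat.Agent.S40lib.WildAsm
import Fermat.Agent.S40lib.TameWind

/-!
# Item 88 (S40/S44), block (J-WILD): (J-WILD) from **(WILD-WIND) + (LIFT)** (helper10)

The exact analogue of helper14's `tmw_tame_of_wind` (TameWind.lean) for the wild case, with NO
auxiliary function `g₀` and NO `p`-th powers in the hypothesis.

* `S40jWildWind M' p hp B` : **(WILD-WIND)**: in the situation of (G2) (the outputs of `cvw_wild`)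
  at the auxiliary level `M = lcm(M', baseLevel p)`, if `v(κ) = v(p) ^ (p n)` then for suitable
  normalisations `c₁ u_x`, `c₂ u_x` (units at `R`, `R₀ = glmZero R`) of the Kummer function `u_x`
  of the pull-back of `x`, all orders of the two reductions are divisible by `p` (WIND0 on both
  components);
* `wwd_wild_of_wind` : (WILD-WIND) + (LIFT) at the level `M'` ⇒ (J-WILD) `S40jWild M' p B`
  (`cvw_wild` at the auxiliary level, then the tail `tmw_ker2_of_wind` of helper14 gives (KER2)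
  for the pull-back of `x`, and `tpp_fixed_descent` gives `x = 0`).
-/

set_option autoImplicit false
set_option linter.style.haveILetI false
set_option linter.unusedSectionVars false
set_option linter.unusedVariables false
set_option synthInstance.maxHeartbeats 400000

noncomputable section

namespace Fermat.Agent.S40lib

open AlgebraicCurve Fermat.Agent.GoodRed ModularCurve HahnSeries Fermat.Agent.S24lib
  Fermat.Agent.RRlib Fermat.Agent.GM Fermat.Agent.S34lib Fermat.Agent.S35lib Fermat.Agent.S36lib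
  Fermat.Agent.S33lib Fermat.Agent.GalRep Fermat.Agent.HeckeBar Fermat.Agent.S31lib
  Fermat.Agent.S18lib

/-- **(WILD-WIND)**: in the situation of (G2) at the auxiliary level `M = lcm(M', baseLevel p)`
with `v(κ) = v(p) ^ (p n)`: WIND0 on both components for suitable normalisations of the Kummer
function `u_x` of the pull-back of `x`. -/
def S40jWildWind (M' p : ℕ) [NeZero M'] [NeZero (M' * p)] (hp : p.Prime)
    (B : ValuationSubring (AlgebraicClosure ℚ)) : Prop :=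
  ∀ (S : Finset ℕ) (a : ℕ → ℤ) (V : AddSubgroup (JZero (M' * p))),
    (∀ ℓ : ℕ, ℓ.Prime → ℓ ∣ M' * p → ℓ ∈ S) →
    Nat.card V = p ^ 2 → (∀ x ∈ V, p • x = 0) →
    (∀ (σ : AlgebraicClosure ℚ ≃ₐ[ℚ] AlgebraicClosure ℚ), ∀ x ∈ V, σ • x ∈ V) →
    S40hEig (M' * p) S a V → S40hNotAt M' p S a →
    (∃ ℓ : Nat.Primes, (ℓ : ℕ) ∉ S ∧ ¬ (p : ℤ) ∣ a ℓ - (1 + (ℓ : ℕ))) →
    ∀ x ∈ V, x ≠ 0 → (∃ τ₀ ∈ B.inertiaSubgroupIn ℚ, S33hMoves p τ₀ ∧ τ₀ • x = x) →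
    ∀ t ∈ V, t ≠ 0 →
    (∀ σ ∈ B.inertiaSubgroupIn ℚ, σ • x - x ∈ AddSubgroup.zmultiples t) →
    (∀ τ ∈ B.inertiaSubgroupIn ℚ, ∃ w : ℕ, τ • t = w • t ∧
      ∀ ξ : Kbar, ξ ^ p = 1 → τ ξ = ξ ^ w) →
    ∀ (M e : ℕ) (_ : NeZero M) (_ : NeZero (M * p)) (hdvd : M' ∣ M) (haux : IsAuxLevel p M),
    M = Nat.lcm M' (baseLevel p) →
    M * p = M' * p * e → dedekindPsi (M * p) < 2 * e * dedekindPsi (M' * p) →
    ∀ (ζ : Kbar), IsPrimitiveRoot ζ p →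
    letI : RRBase Kbar (modularFunctionFieldBar (M * p)) := (mod_rrHyp (M * p)).toRRBase
    ∀ (ux ut : modularFunctionFieldBar (M * p)),
    gdfIsKummer (K := Kbar) p
      (auxLevelPull (M' * p) (M * p) (Nat.mul_dvd_mul_right hdvd p) x) ux →
    gdfIsKummer (K := Kbar) p
      (auxLevelPull (M' * p) (M * p) (Nat.mul_dvd_mul_right hdvd p) t) ut →
    ∀ (U : LaurentSeries Kbar), U ^ p = (ut : LaurentSeries Kbar) →
    ∀ (σY : ↥(cvcAdj (modularFunctionFieldBar (M * p)) U) →+*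
        ↥(cvcAdj (modularFunctionFieldBar (M * p)) U)),
      ((∀ c : Kbar, σY (algebraMap Kbar ↥(cvcAdj (modularFunctionFieldBar (M * p)) U) c) =
        algebraMap Kbar ↥(cvcAdj (modularFunctionFieldBar (M * p)) U) c) ∧
      (∀ f : modularFunctionFieldBar (M * p),
        σY ⟨(f : LaurentSeries Kbar), cvc_le_adj (modularFunctionFieldBar (M * p)) U f.2⟩ =
          ⟨(f : LaurentSeries Kbar), cvc_le_adj (modularFunctionFieldBar (M * p)) U f.2⟩) ∧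
      σY ⟨U, cvc_mem_adj (modularFunctionFieldBar (M * p)) U⟩ =
        algebraMap Kbar ↥(cvcAdj (modularFunctionFieldBar (M * p)) U) ζ *
          ⟨U, cvc_mem_adj (modularFunctionFieldBar (M * p)) U⟩ ∧
      (∀ (σ : Kbar ≃ₐ[ℚ] Kbar), σ ∈ B.inertiaSubgroupIn ℚ →
        ∀ (z : ↥(cvcAdj (modularFunctionFieldBar (M * p)) U)),
        ∃ hz : coeffMap ((σ : Kbar ≃ₐ[ℚ] Kbar) : Kbar →+* Kbar) (z : LaurentSeries Kbar) ∈
            cvcAdj (modularFunctionFieldBar (M * p)) U,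
          ∃ hz' : coeffMap ((σ : Kbar ≃ₐ[ℚ] Kbar) : Kbar →+* Kbar)
              ((σY z : ↥(cvcAdj (modularFunctionFieldBar (M * p)) U)) : LaurentSeries Kbar) ∈
              cvcAdj (modularFunctionFieldBar (M * p)) U,
            σY ⟨_, hz⟩ = ⟨_, hz'⟩) ∧
      (∀ y : ↥(cvcAdj (modularFunctionFieldBar (M * p)) U), σY y = y →
        (y : LaurentSeries Kbar) ∈ modularFunctionFieldBar (M * p)) ∧
      (∀ y : ↥(cvcAdj (modularFunctionFieldBar (M * p)) U), σY^[p] y = y)) →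
    ∀ (rt κ : Kbar) (u g : ↥(cvcAdj (modularFunctionFieldBar (M * p)) U)),
      κ ≠ 0 → rt ≠ 0 → rt ^ p = κ →
      (∀ τ ∈ B.inertiaSubgroupIn ℚ, τ κ = κ) →
      (∀ τ ∈ B.inertiaSubgroupIn ℚ, (τ • x = x ↔ τ rt = rt)) →
      u ≠ 0 → g ≠ 0 →
      (∀ τ ∈ B.inertiaSubgroupIn ℚ,
        coeffMap ((τ : Kbar ≃ₐ[ℚ] Kbar) : Kbar →+* Kbar) (u : LaurentSeries Kbar) =
          (u : LaurentSeries Kbar)) →
      (∀ τ ∈ B.inertiaSubgroupIn ℚ,
        coeffMap ((τ : Kbar ≃ₐ[ℚ] Kbar) : Kbar →+* Kbar) (g : LaurentSeries Kbar) =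
          (g : LaurentSeries Kbar)) →
      σY u = algebraMap Kbar ↥(cvcAdj (modularFunctionFieldBar (M * p)) U) κ * g ^ p * u →
      (∃ (c : Kbar) (h : ↥(cvcAdj (modularFunctionFieldBar (M * p)) U)), c ≠ 0 ∧ h ≠ 0 ∧
        (u : LaurentSeries Kbar) = algebraMap Kbar (LaurentSeries Kbar) c *
          (ux : LaurentSeries Kbar) * (h : LaurentSeries Kbar) ^ p) →
      ∀ n : ℤ, B.valuation κ = B.valuation (p : AlgebraicClosure ℚ) ^ ((p : ℤ) * n) →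
      ∀ (R : ConstRed B (IsLocalRing.residue B)
        (↥(modularFunctionFieldFullC (IsLocalRing.ResidueField B) M)) (FF (M * p))),
      IsSeriesRed R →
      ∃ (c₁ c₂ : Kbar)
        (h₁ : EisUnit R (algebraMap Kbar (FF (M * p)) c₁ * ux))
        (h₂ : EisUnit (glmZero M p hp haux.1 R) (algebraMap Kbar (FF (M * p)) c₂ * ux)),
        (∀ Q : Place (IsLocalRing.ResidueField B) (Fk (IsLocalRing.ResidueField B) M),
          (p : ℤ) ∣ Q.ord (R.red ⟨_, h₁.2.1⟩)) ∧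
        (∀ Q : Place (IsLocalRing.ResidueField B) (Fk (IsLocalRing.ResidueField B) M),
          (p : ℤ) ∣ Q.ord ((glmZero M p hp haux.1 R).red ⟨_, h₂.2.1⟩))

/-- **(J-WILD) from (WILD-WIND) and (LIFT)** (`p ≥ 5`, or `p = 3` and `M'` even). -/
theorem wwd_wild_of_wind (M' p : ℕ) [NeZero M'] [NeZero p] [NeZero (M' * p)]
    (hp : p.Prime) (hp2 : p ≠ 2) (h3 : p ≠ 3 ∨ 2 ∣ M') (hpM : ¬ p ∣ M')
    (B : ValuationSubring (AlgebraicClosure ℚ)) (hB : B.LiesOverPrime p)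
    (hW : S40jWildWind M' p hp B)
    (hL : ∀ (S : Finset ℕ) (a : ℕ → ℤ), (∀ ℓ : ℕ, ℓ.Prime → ℓ ∣ M' * p → ℓ ∈ S) →
      LfhLift M' p S a B) : S40jWild M' p B := by
  haveI : Fact p.Prime := ⟨hp⟩
  intro S a V hS hcard hVp hstab hEig hNot hnE x hx hx0 hfix hmoved
  obtain ⟨σ₁, hσ₁, hne⟩ := hmoved
  have htV : σ₁ • x - x ∈ V := V.sub_mem (hstab σ₁ x hx) hx
  have ht0 : σ₁ • x - x ≠ 0 := sub_ne_zero.mpr hne
  have hpt : p • (σ₁ • x - x) = 0 := hVp _ htV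
  have hKI : ∀ σ ∈ B.inertiaSubgroupIn ℚ, σ • x - x ∈ s33hKI (M' * p) p B := fun σ hσ =>
    AddSubgroup.subset_closure ⟨σ, hσ, x, ⟨1, by rw [pow_one]; exact hVp x hx⟩, rfl⟩
  have hnew : ∀ y ∈ V, degJAlpha M' p y = 0 ∧ degJBeta M' p y = 0 := fun y hy =>
    s40h_new_of_notAt M' p hp hpM S a V hS hVp hEig hNot y hy
  -- the subgroup of the classes of `V` fixed by `I₁`
  let H1 : AddSubgroup (JZero (M' * p)) :=
    { carrier := {y | y ∈ V ∧ ∀ τ ∈ S40hI1 p B, τ • y = y}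
      zero_mem' := ⟨V.zero_mem, fun τ _ => smul_zero τ⟩
      add_mem' := fun {y z} hy hz => ⟨V.add_mem hy.1 hz.1, fun τ hτ => by
        rw [smul_add, hy.2 τ hτ, hz.2 τ hτ]⟩
      neg_mem' := fun {y} hy => ⟨V.neg_mem hy.1, fun τ hτ => by rw [smul_neg, hy.2 τ hτ]⟩ }
  have hH1 : ∀ σ ∈ B.inertiaSubgroupIn ℚ, σ • x - x ∈ H1 := fun σ hσ =>
    ⟨V.sub_mem (hstab σ x hx) hx, fun τ hτ =>
      tpp_I1 M' p hp hp2 hpM hB _ (hVp _ (V.sub_mem (hstab σ x hx) hx)) (hKI σ hσ)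
        (hnew _ (V.sub_mem (hstab σ x hx) hx)).1 (hnew _ (V.sub_mem (hstab σ x hx) hx)).2 τ hτ⟩
  have hxH : x ∉ H1 := fun h => hne (h.2 σ₁ hσ₁)
  have hHx : ∀ σ ∈ B.inertiaSubgroupIn ℚ, σ • x - x ∈ AddSubgroup.zmultiples (σ₁ • x - x) :=
    fun σ hσ => s40j_mem_zmultiples V H1 (fun y hy => hy.1) hp hcard hx hxH (hH1 σ₁ hσ₁.1) ht0 hpt
      (hH1 σ hσ)
  have hω : ∀ τ ∈ B.inertiaSubgroupIn ℚ, ∃ w : ℕ, τ • (σ₁ • x - x) = w • (σ₁ • x - x) ∧
      ∀ ξ : Kbar, ξ ^ p = 1 → τ ξ = ξ ^ w := fun τ hτ =>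
    ⟨_, gom_omega_of_mem M' p hp hp2 hpM hB _ hpt (hKI σ₁ hσ₁.1) (hnew _ htV).1 (hnew _ htV).2 τ hτ,
      fun ξ hξ => cysp_spec p 1 τ ξ (by rwa [pow_one])⟩
  -- the auxiliary level `M = lcm(M', baseLevel p)`
  obtain ⟨e, hM0, hMp0, hdvd, haux, hM, hdeg⟩ := tmw_aux_data M' p hp hpM
  have hNM : M' * p ∣ Nat.lcm M' (baseLevel p) * p := Nat.mul_dvd_mul_right hdvd p
  letI : RRBase Kbar (modularFunctionFieldBar (Nat.lcm M' (baseLevel p) * p)) :=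
    (mod_rrHyp (Nat.lcm M' (baseLevel p) * p)).toRRBase
  obtain ⟨ux, hux⟩ := s40j_pull_kummer (M' * p) (Nat.lcm M' (baseLevel p) * p) p hNM x (hVp x hx)
  obtain ⟨ut, hut⟩ :=
    s40j_pull_kummer (M' * p) (Nat.lcm M' (baseLevel p) * p) p hNM (σ₁ • x - x) hpt
  obtain ⟨ζ, hζ⟩ := HasEnoughRootsOfUnity.exists_primitiveRoot Kbar p
  obtain ⟨U, hU⟩ := s40j_exists_root (Nat.lcm M' (baseLevel p) * p) p hp.pos hut
  have ht0' : auxLevelPull (M' * p) (Nat.lcm M' (baseLevel p) * p) hNM (σ₁ • x - x) ≠ 0 :=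
    fun h0 => ht0 (s40j_pull_inj M' (Nat.lcm M' (baseLevel p)) p e hp hdvd hM hdeg _ hpt h0)
  have hpt' : p • auxLevelPull (M' * p) (Nat.lcm M' (baseLevel p) * p) hNM (σ₁ • x - x) = 0 := by
    rw [← map_nsmul, hpt, map_zero]
  have hHx' : ∀ σ ∈ B.inertiaSubgroupIn ℚ,
      σ • auxLevelPull (M' * p) (Nat.lcm M' (baseLevel p) * p) hNM x
          - auxLevelPull (M' * p) (Nat.lcm M' (baseLevel p) * p) hNM x ∈
        AddSubgroup.zmultiples
          (auxLevelPull (M' * p) (Nat.lcm M' (baseLevel p) * p) hNM (σ₁ • x - x)) := by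
    intro σ hσ
    obtain ⟨k, hk⟩ := AddSubgroup.mem_zmultiples_iff.mp (hHx σ hσ)
    refine AddSubgroup.mem_zmultiples_iff.mpr ⟨k, ?_⟩
    rw [← auxLevelPull_smul, ← map_sub, ← hk, map_zsmul]
  have hω' : ∀ σ ∈ B.inertiaSubgroupIn ℚ, ∃ w : ℕ,
      σ • auxLevelPull (M' * p) (Nat.lcm M' (baseLevel p) * p) hNM (σ₁ • x - x) =
        w • auxLevelPull (M' * p) (Nat.lcm M' (baseLevel p) * p) hNM (σ₁ • x - x) ∧
        σ ζ = ζ ^ w := by
    intro σ hσ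
    obtain ⟨w, hw, hwζ⟩ := hω σ hσ
    refine ⟨w, ?_, hwζ ζ (hζ.pow_eq_one)⟩
    rw [← auxLevelPull_smul, hw, map_nsmul]
  obtain ⟨σY, hσ, rt, κ, u, g, hκ0, hrt0, hpow, hκI, hSt, hu0, hg0, huI, hgI, hσu, hch⟩ :=
    cvw_wild (Nat.lcm M' (baseLevel p) * p) hp hζ (B.inertiaSubgroupIn ℚ) hux hut hpt' ht0' hHx'
      hω' hU
  have hSt' : ∀ τ ∈ B.inertiaSubgroupIn ℚ, (τ • x = x ↔ τ rt = rt) := by
    intro τ hτ
    rw [← hSt τ hτ]
    constructor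
    · intro h
      rw [← auxLevelPull_smul, h]
    · intro h
      have h1 : auxLevelPull (M' * p) (Nat.lcm M' (baseLevel p) * p) hNM (τ • x - x) = 0 := by
        rw [map_sub, auxLevelPull_smul, h, sub_self]
      exact sub_eq_zero.mp (s40j_pull_inj M' (Nat.lcm M' (baseLevel p)) p e hp hdvd hM hdeg _
        (hVp _ (V.sub_mem (hstab τ x hx) hx)) h1)
  refine ⟨rt, κ, hκ0, hpow, hκI, ?_, fun τ hτ => hSt' τ hτ.1⟩
  -- the valuation of `κ`: WIND0 + (LIFT) ⇒ (KER2) ⇒ `x = 0`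
  intro n hn
  apply hx0
  obtain ⟨R, hR⟩ := exists_constRedInf_aux (Nat.lcm M' (baseLevel p)) p hp haux.1 B hB
  obtain ⟨R', hR'⟩ := hkq_exists_red M' p B hp hpM hB
  obtain ⟨c₁, c₂, h₁, h₂, hord₁, hord₂⟩ :=
    hW S a V hS hcard hVp hstab hEig hNot hnE x hx hx0 hfix (σ₁ • x - x) htV ht0 hHx hω
      (Nat.lcm M' (baseLevel p)) e hM0 hMp0 hdvd haux rfl hM hdeg ζ hζ ux ut hux hut U hU σY hσ
      rt κ u g hκ0 hrt0 hpow hκI hSt' hu0 hg0 huI hgI hσu hch n hn R hR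
  have hb4 : baseLevel p = 4 := by
    unfold baseLevel
    rw [if_neg hp2]
  have hdegF := lvb_hdeg_aux (A := B) (M := Nat.lcm M' (baseLevel p)) (by rw [hb4]) hdvd hp hp2
    h3 haux.1 hB
  have hker := tmw_ker2_of_wind M' (Nat.lcm M' (baseLevel p)) p hp hpM haux.1 hdvd hB hdegF hR' hR
    S hS a (hL S a hS) hNot x (hVp x hx) (fun ℓ hℓS => hEig ℓ hℓS x hx) ux hux c₁ c₂ h₁ h₂
    hord₁ hord₂
  obtain ⟨hα, hβ⟩ := hnew x hx
  obtain ⟨τ₀, hτ₀, hmv, hτx⟩ := hfix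
  exact tpp_fixed_descent M' (Nat.lcm M' (baseLevel p)) p e hp hp2 haux hdvd hM hdeg hB R hR
    x (hVp x hx) hker hα hβ τ₀ hτ₀ hmv hτx

end Fermat.Agent.S40lib

end
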