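import Mathlib
import Fermat.Agent.S36lib.Speed
import Fermat.Agent.S40lib.FreyAsm2
import Fermat.Agent.S40lib.FreyTame
import Fermat.Agent.S40lib.FreyWild

/-!
# Item 88 (S44): the final conditional assembly, guarded form (chief architect helper6)

`s44g_final`: the statement S44 from the THREE remaining providers, each at a squarefree level
`M'` prime to `p ≥ 5`, with the guard `2 ∈ S`:

* `hTW` : `S44tmwWindNC M' p hp B`   (tame WIND0 off the cusps, aux level `lcm(M', 4)`);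
* `hC`  : `S40tmwCusp M' p S a k`     (the cusp step at the level `M'`);
* `hWW` : `S44jWildWindNC M' p hp B` (wild WIND0 off the cusps when `v(κ) = v(p) ^ (p n)`).

The W-side (`w1m6_hW1`), (LIFT) (`lma_lift`), Dich, hnE, the tails are inside.
-/

set_option autoImplicit false
set_option linter.style.haveILetI false

noncomputable section

namespace Fermat.Agent.S40lib

open Fermat.Agent.GalRep ModularCurve Fermat.Agent.S31lib Fermat.Agent.S35lib
  Fermat.Agent.S33lib WeierstrassCurve WeierstrassCurve.Affine WeierstrassCurve.Affine.Point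

/-- **S44 from (TAME-WIND-NC), the cusp step and (WILD-WIND-NC)**. -/
theorem s44g_final
    (hTW : ∀ (p : ℕ) (hp : p.Prime), 5 ≤ p → ∀ (B : ValuationSubring (AlgebraicClosure ℚ)),
      B.LiesOverPrime p → ∀ (M' : ℕ) [NeZero M'] [NeZero p] [NeZero (M' * p)], ¬ p ∣ M' →
        Squarefree M' → S44tmwWindNC M' p hp B)
    (hC : ∀ (p : ℕ), p.Prime → 5 ≤ p → ∀ (B : ValuationSubring (AlgebraicClosure ℚ)),
      B.LiesOverPrime p → ∀ (M' : ℕ) [NeZero M'] [NeZero p] [NeZero (M' * p)], ¬ p ∣ M' →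
        Squarefree M' → ∀ (S : Finset ℕ) (a : ℕ → ℤ),
        (∀ ℓ : ℕ, ℓ.Prime → ℓ ∣ M' * p → ℓ ∈ S) → 2 ∈ S →
        (∃ ℓ : Nat.Primes, (ℓ : ℕ) ∉ S ∧ ¬ (p : ℤ) ∣ a ℓ - (1 + (ℓ : ℕ))) →
        S40tmwCusp M' p S a (IsLocalRing.ResidueField B))
    (hWW : ∀ (p : ℕ) (hp : p.Prime), 5 ≤ p → ∀ (B : ValuationSubring (AlgebraicClosure ℚ)),
      B.LiesOverPrime p → ∀ (M' : ℕ) [NeZero M'] [NeZero p] [NeZero (M' * p)], ¬ p ∣ M' →
        Squarefree M' → S44jWildWindNC M' p hp B)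
    (P : FreyPackage) {N : ℕ} (hcond : P.IsConductorLevel N)
    (hpN : P.p ∣ N)
    (hirr : GaloisRepIsIrreducible (K := AlgebraicClosure ℚ) ℚ P.freyCurve P.p)
    (hmod : P.ModularRepOfLevel N) :
    ∃ M : ℕ, M ∣ N ∧ ¬ P.p ∣ M ∧ P.ModularRepOfLevel M := by
  have hp : P.p.Prime := P.pp
  have hp5 : 5 ≤ P.p := P.hp5
  have hp2 : P.p ≠ 2 := by omega
  have hp3 : P.p ≠ 3 := by omega
  haveI : NeZero P.p := ⟨hp.ne_zero⟩
  refine s44g_asm P hcond hpN hirr hmod ?_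
  intro B hB M' _ _ hpM' hsq
  exact ⟨s44g_tame M' P.p hp hp2 (Or.inl hp3) hpM' B hB (hTW P.p hp hp5 B hB M' hpM' hsq)
      (hC P.p hp hp5 B hB M' hpM' hsq),
    s44g_wild M' P.p hp hp2 (Or.inl hp3) hpM' B hB (hWW P.p hp hp5 B hB M' hpM' hsq)
      (hC P.p hp hp5 B hB M' hpM' hsq)⟩

end Fermat.Agent.S40lib

end
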