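import Mathlib
import Fermat.Agent.S36lib.Speed
import Fermat.Agent.S40lib.TameWind2
import Fermat.Agent.S40lib.EisHeq
import Fermat.Agent.S40lib.HeckePull2
import Fermat.Agent.S40lib.HeckeRed
import Fermat.Agent.S40lib.FreyAsm2
import Fermat.Agent.S40lib.FreyTame
import Fermat.Agent.S36lib.VDisc
import Fermat.Agent.S36lib.ALF0
import Fermat.Agent.S36lib.Reg2Maps

/-!
# Item 88 (S44), block (J-TAME): (TAME-WIND-NC) assembled, and the guarded (J-TAME) (helper4)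

* `twa_kummer_const` : a constant multiple of a Kummer function is a Kummer function;
* `twa_wind` : **(TAME-WIND-NC)** for one class, under the guard `2 ∈ S`: the pull-back `ũ` of an
  inertia-fixed Kummer function to the auxiliary level `M = lcm(M', 4)` has normalisations
  `p ^ n₁ ũ`, `p ^ n₂ ũ` (units at `R`, `R₀`; discreteness `vdisc_inf`, `vdisc_zero`) whose
  reductions have all orders OFF THE CUSPS divisible by `p` (Eisenstein step `ehq_h1_inf`,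
  `ehq_h1_zero`, with the Hecke pull-back `hpl_heig`);
* `twa_windNC` : **`S44tmwWindNC M' p hp B`** (the guarded (TAME-WIND-NC) of `FreyTame.lean`);
* `twa_tame` : the guarded **(J-TAME)** `S44jTame M' p B` from the guarded cusp step at the
  level `M'` alone (via `s44g_tame`).
All proofs complete.
-/

set_option autoImplicit false
set_option linter.style.haveILetI false
set_option linter.unusedSectionVars false
set_option linter.unusedVariables false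
set_option synthInstance.maxHeartbeats 400000
set_option maxHeartbeats 1000000

noncomputable section

namespace Fermat.Agent.S40lib

open Fermat.Agent.GalRep ModularCurve AlgebraicCurve Fermat.Agent.S31lib Fermat.Agent.S35lib
  Fermat.Agent.S33lib Fermat.Agent.S36lib Fermat.Agent.S24lib Fermat.Agent.S34lib
  Fermat.Agent.RRlib Fermat.Agent.GoodRed Fermat.Agent.S18lib Fermat.Agent.GM
  Fermat.Agent.HeckeBar HahnSeries

/-- a nonzero constant multiple of a Kummer function is a Kummer function -/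
theorem twa_kummer_const {N : ℕ} [NeZero N] [RRBase Kbar (FF N)] {p : ℕ} {x : JZero N}
    {u : FF N} (hx : gdfIsKummer (K := Kbar) p x u) {c : Kbar} (hc : c ≠ 0) :
    gdfIsKummer (K := Kbar) p x (algebraMap Kbar (FF N) c * u) := by
  obtain ⟨D, hD, hord⟩ := gdf_isKummer_ord hx
  have hcF : algebraMap Kbar (FF N) c ≠ 0 := (map_ne_zero _).2 hc
  refine gdf_isKummer_of_ord (mul_ne_zero hcF hx.1) D hD (fun v => ?_)
  rw [v.ord_mul hcF hx.1, rcn_ord_const v hc, zero_add]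
  exact hord v

section Tame

variable (M' p : ℕ) [NeZero M'] [NeZero p] [NeZero (M' * p)]

/-- a prime `ℓ ≠ 2` not dividing `M'` does not divide `lcm(M', 4)` -/
theorem twa_not_dvd_lcm {ℓ : ℕ} (hℓ : ℓ.Prime) (hℓ2 : ℓ ≠ 2) (hℓM' : ¬ ℓ ∣ M') :
    ¬ ℓ ∣ Nat.lcm M' 4 := by
  intro h
  have h1 : ℓ ∣ M' * 4 := h.trans (Nat.lcm_dvd_mul M' 4)
  rcases (Nat.Prime.dvd_mul hℓ).mp h1 with h2 | h2
  · exact hℓM' h2
  · have h4 : (4 : ℕ) = 2 ^ 2 := by norm_num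
    rw [h4] at h2
    have h3 := hℓ.dvd_of_dvd_pow h2
    exact hℓ2 ((Nat.prime_dvd_prime_iff_eq hℓ Nat.prime_two).mp h3)

/-- **(TAME-WIND-NC) for one class, guard `2 ∈ S`**. -/
theorem twa_wind (hp : p.Prime) (hp2 : p ≠ 2)
    (B : ValuationSubring (AlgebraicClosure ℚ)) (hB : B.LiesOverPrime p)
    (S : Finset ℕ) (a : ℕ → ℤ)
    (hS : ∀ ℓ : ℕ, ℓ.Prime → ℓ ∣ M' * p → ℓ ∈ S) (h2S : 2 ∈ S)
    (hnE : ∃ ℓ : Nat.Primes, (ℓ : ℕ) ∉ S ∧ ¬ (p : ℤ) ∣ a ℓ - (1 + (ℓ : ℕ)))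
    (x : JZero (M' * p))
    (hEig : ∀ ℓ : Nat.Primes, (ℓ : ℕ) ∉ S → heckeOperatorBar (M' * p) ℓ x = a ℓ • x)
    (D : Divisor.degZero (K := Kbar) (F := FF (M' * p))) (u : FF (M' * p))
    (hD : Pic0.mk D = x) (hu0 : u ≠ 0) (huF : u ∈ f0Field B (M' * p))
    (hDu : ∀ v : Place Kbar (FF (M' * p)),
      (p : ℤ) * (D : Divisor Kbar (FF (M' * p))) v = v.ord u)
    (M : ℕ) [NeZero M] [NeZero (M * p)] (haux : IsAuxLevel p M) (hdvd : M' ∣ M)
    (hM : M = Nat.lcm M' (baseLevel p))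
    (R : ConstRed B (IsLocalRing.residue B)
      (↥(modularFunctionFieldFullC (IsLocalRing.ResidueField B) M)) (FF (M * p)))
    (hR : IsSeriesRed R) :
    ∃ (c₁ c₂ : Kbar)
      (h₁ : EisUnit R (algebraMap Kbar (FF (M * p)) c₁ *
        inclBar (M' * p) (M * p) (Nat.mul_dvd_mul_right hdvd p) u))
      (h₂ : EisUnit (glmZero M p hp haux.1 R) (algebraMap Kbar (FF (M * p)) c₂ *
        inclBar (M' * p) (M * p) (Nat.mul_dvd_mul_right hdvd p) u)),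
      (∀ Q : Place (IsLocalRing.ResidueField B) (Fk (IsLocalRing.ResidueField B) M),
        0 ≤ Q.ord (jk (IsLocalRing.ResidueField B) M) →
          (p : ℤ) ∣ Q.ord (R.red ⟨_, h₁.2.1⟩)) ∧
      (∀ Q : Place (IsLocalRing.ResidueField B) (Fk (IsLocalRing.ResidueField B) M),
        0 ≤ Q.ord (jk (IsLocalRing.ResidueField B) M) →
          (p : ℤ) ∣ Q.ord ((glmZero M p hp haux.1 R).red ⟨_, h₂.2.1⟩)) := by
  obtain ⟨ℓ, hℓS, hcop⟩ := hnE
  have hℓ : (ℓ : ℕ).Prime := ℓ.2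
  have hpM : ¬ p ∣ M := haux.1
  have hNM : M' * p ∣ M * p := Nat.mul_dvd_mul_right hdvd p
  -- `ℓ ≠ 2`, `ℓ ≠ p`, `ℓ ∤ M'`
  have hℓ2 : (ℓ : ℕ) ≠ 2 := fun h => hℓS (by rw [h]; exact h2S)
  have hℓp : (ℓ : ℕ) ≠ p := fun h => hℓS (hS _ hℓ (by rw [h]; exact dvd_mul_left p M'))
  have hℓM' : ¬ (ℓ : ℕ) ∣ M' := fun h => hℓS (hS _ hℓ (h.trans (dvd_mul_right M' p)))
  have hb4 : baseLevel p = 4 := by
    unfold baseLevel
    rw [if_neg hp2]
  have hℓM : ¬ (ℓ : ℕ) ∣ M := by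
    rw [hM, hb4]
    exact twa_not_dvd_lcm M' hℓ hℓ2 hℓM'
  have hℓN : ¬ (ℓ : ℕ) ∣ M * p := by
    intro h
    rcases (Nat.Prime.dvd_mul hℓ).mp h with h1 | h1
    · exact hℓM h1
    · exact hℓp ((Nat.prime_dvd_prime_iff_eq hℓ hp).mp h1)
  haveI : NeZero (ℓ : ℕ) := ⟨hℓ.ne_zero⟩
  haveI : NeZero (M * (ℓ : ℕ)) := ⟨Nat.mul_ne_zero (NeZero.ne M) hℓ.ne_zero⟩
  haveI : NeZero (M * p * (ℓ : ℕ)) := ⟨Nat.mul_ne_zero (NeZero.ne (M * p)) hℓ.ne_zero⟩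
  haveI : RRBase Kbar (FF (M' * p)) := (mod_rrHyp (M' * p)).toRRBase
  haveI : RRBase Kbar (FF (M * p)) := (mod_rrHyp (M * p)).toRRBase
  obtain ⟨Rl, hRl⟩ := hkr_exists_red M p (ℓ : ℕ) B hp hpM hℓ hℓp hB
  have hauxl : IsAuxLevel p (M * (ℓ : ℕ)) := ehq_aux_mul hp hℓ hℓp haux
  -- the pulled-back function
  have hũ0 : inclBar (M' * p) (M * p) hNM u ≠ 0 := (map_ne_zero _).2 hu0
  have hũF : inclBar (M' * p) (M * p) hNM u ∈ f0Field B (M * p) :=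
    r2m_inclBar_mem_f0Field B hNM u huF
  have h1 : p ∣ M * p := dvd_mul_left p M
  have h2 : ¬ p ^ 2 ∣ M * p := inf_not_sq_dvd M p hp hpM
  obtain ⟨n₁, hn₁, hn₁'⟩ := vdisc_inf hp hB hR hũF hũ0
  obtain ⟨n₂, hn₂, hn₂'⟩ := vdisc_zero hp hB hR
    (atkinLehnerFF (M * p) p hp h1 h2)
    (fun y hy => atkinLehnerFF_mem_f0Field B (M * p) hp h1 h2 hy) hũF hũ0
  have hp0 : (p : Kbar) ≠ 0 := Nat.cast_ne_zero.2 hp.ne_zero
  have hc₁ : ((p : Kbar) ^ n₁) ≠ 0 := zpow_ne_zero _ hp0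
  have hc₂ : ((p : Kbar) ^ n₂) ≠ 0 := zpow_ne_zero _ hp0
  have hcF₁ : algebraMap Kbar (FF (M * p)) ((p : Kbar) ^ n₁) ≠ 0 := (map_ne_zero _).2 hc₁
  have hcF₂ : algebraMap Kbar (FF (M * p)) ((p : Kbar) ^ n₂) ≠ 0 := (map_ne_zero _).2 hc₂
  have hE₁ : EisUnit R (algebraMap Kbar (FF (M * p)) ((p : Kbar) ^ n₁) *
      inclBar (M' * p) (M * p) hNM u) := ⟨mul_ne_zero hcF₁ hũ0, hn₁, hn₁'⟩
  have hE₂ : EisUnit (glmZero M p hp haux.1 R) (algebraMap Kbar (FF (M * p)) ((p : Kbar) ^ n₂) *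
      inclBar (M' * p) (M * p) hNM u) := ⟨mul_ne_zero hcF₂ hũ0, hn₂, hn₂'⟩
  -- `K0`-rationality of the normalised functions
  have hpK0 : ∀ n : ℤ, algebraMap Kbar (FF (M * p)) ((p : Kbar) ^ n) ∈ f0Field B (M * p) := by
    intro n
    have hmem : ((p : Kbar) ^ n) ∈ k0Field B := zpow_mem (natCast_mem _ p) n
    exact const_mem_f0Field B (M * p) ⟨_, hmem⟩
  have hF₁ : algebraMap Kbar (FF (M * p)) ((p : Kbar) ^ n₁) * inclBar (M' * p) (M * p) hNM u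
      ∈ f0Field B (M * p) := mul_mem (hpK0 n₁) hũF
  have hF₂ : algebraMap Kbar (FF (M * p)) ((p : Kbar) ^ n₂) * inclBar (M' * p) (M * p) hNM u
      ∈ f0Field B (M * p) := mul_mem (hpK0 n₂) hũF
  -- the Kummer functions and the eigen-relation at the level `M p`
  have hk := tma_pull_kummer M' p M hdvd D u hu0 hDu
  have hk₁ := twa_kummer_const hk hc₁
  have hk₂ := twa_kummer_const hk hc₂
  have hx : gdfIsKummer (K := Kbar) p x u := gdf_isKummer_of_ord hu0 D hD hDu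
  have heig : heckeOperatorBar (M * p) ⟨(ℓ : ℕ), hℓ⟩
      (auxLevelPull (M' * p) (M * p) hNM (Pic0.mk D)) =
        a ℓ • auxLevelPull (M' * p) (M * p) hNM (Pic0.mk D) := by
    rw [hD]
    exact hpl_heig (M' * p) (M * p) hNM ℓ hℓN hp.ne_zero hx (a ℓ) (hEig ℓ hℓS)
  have hcop' : ¬ (p : ℤ) ∣ a ℓ - (((ℓ : ℕ) : ℤ) + 1) := by
    rw [add_comm]
    exact hcop
  -- the cross normalisations
  have e₁ : algebraMap Kbar (FF (M * p)) ((p : Kbar) ^ n₂ * ((p : Kbar) ^ n₁)⁻¹) *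
      (algebraMap Kbar (FF (M * p)) ((p : Kbar) ^ n₁) * inclBar (M' * p) (M * p) hNM u) =
      algebraMap Kbar (FF (M * p)) ((p : Kbar) ^ n₂) * inclBar (M' * p) (M * p) hNM u := by
    rw [← mul_assoc, ← map_mul, mul_assoc, inv_mul_cancel₀ hc₁, mul_one]
  have e₂ : algebraMap Kbar (FF (M * p)) ((p : Kbar) ^ n₁ * ((p : Kbar) ^ n₂)⁻¹) *
      (algebraMap Kbar (FF (M * p)) ((p : Kbar) ^ n₂) * inclBar (M' * p) (M * p) hNM u) =
      algebraMap Kbar (FF (M * p)) ((p : Kbar) ^ n₁) * inclBar (M' * p) (M * p) hNM u := by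
    rw [← mul_assoc, ← map_mul, mul_assoc, inv_mul_cancel₀ hc₂, mul_one]
  refine ⟨(p : Kbar) ^ n₁, (p : Kbar) ^ n₂, hE₁, hE₂, ?_, ?_⟩
  · intro Q hQ
    exact ehq_h1_inf M p (ℓ : ℕ) B hp hℓ hℓp h1 h2 hpM hℓN hB hauxl hR hRl (a ℓ) hcop' hk₁ heig
      hF₁ hE₁ (c := (p : Kbar) ^ n₂ * ((p : Kbar) ^ n₁)⁻¹) (by rw [e₁]; exact hE₂) Q hQ
  · intro Q hQ
    exact ehq_h1_zero M p (ℓ : ℕ) B hp hℓ hℓp h1 h2 hpM hℓN hB hauxl hR hRl (a ℓ) hcop' hk₂ heig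
      hF₂ hE₂ (c := (p : Kbar) ^ n₁ * ((p : Kbar) ^ n₂)⁻¹) (by rw [e₂]; exact hE₁) Q hQ

/-- **the guarded (TAME-WIND-NC)** (`p ≠ 2`). -/
theorem twa_windNC (hp : p.Prime) (hp2 : p ≠ 2)
    (B : ValuationSubring (AlgebraicClosure ℚ)) (hB : B.LiesOverPrime p) :
    S44tmwWindNC M' p hp B := by
  intro S a V hS h2S hcard hVp hstab hEig hNot hnE x hx hx0 hI D u hD hu0 huF hDI hDu M _ _ haux
    hdvd hM R hR
  exact twa_wind M' p hp hp2 B hB S a hS h2S hnE x (fun ℓ hℓS => hEig ℓ hℓS x hx) D u hD hu0 huF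
    hDu M haux hdvd hM R hR

/-- **the guarded (J-TAME) from the guarded cusp step at the level `M'`**. -/
theorem twa_tame (hp : p.Prime) (hp2 : p ≠ 2) (h3 : p ≠ 3 ∨ 2 ∣ M') (hpM' : ¬ p ∣ M')
    (B : ValuationSubring (AlgebraicClosure ℚ)) (hB : B.LiesOverPrime p)
    (hC : ∀ (S : Finset ℕ) (a : ℕ → ℤ),
      (∀ ℓ : ℕ, ℓ.Prime → ℓ ∣ M' * p → ℓ ∈ S) → 2 ∈ S →
      (∃ ℓ : Nat.Primes, (ℓ : ℕ) ∉ S ∧ ¬ (p : ℤ) ∣ a ℓ - (1 + (ℓ : ℕ))) →
      S40tmwCusp M' p S a (IsLocalRing.ResidueField B)) : S44jTame M' p B :=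
  s44g_tame M' p hp hp2 h3 hpM' B hB (twa_windNC M' p hp hp2 B hB) hC

end Tame

end Fermat.Agent.S40lib

end
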