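import Mathlib
import Fermat.Agent.S36lib.Speed
import Fermat.Agent.S40lib.FreyWild
import Fermat.Agent.S40lib.TameWindAsm
import Fermat.Agent.S40lib.EisCmp

/-!
# Item 88 (S44), block (J-WILD), piece (A1): (WILD-WIND-NC) from (WILD-WINDC) (helper10)

The wild twin of helper4's `twa_wind` (TameWindAsm.lean), with helper28's `ecm_h1_inf` /
`ecm_h1_zero` (EisCmp.lean: (H1) for ANY Kummer unit from WINDC in `[SS]`-form) instead of
`ehq_h1_inf` / `ehq_h1_zero`.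

* `S44jWildWindC M' p hp B hB` : **(WILD-WINDC)**: the binders of `S44jWildWindNC` (FreyWild.lean),
  with the conclusion: for suitable normalisations `c₁ u_x`, `c₂ u_x` (units at `R`, `R₀`) and
  integers `δ₁`, `δ₂`: at every non-cuspidal place `Q` the order of the reduction is `≡ δᵢ` mod
  `p` at the supersingular places and `≡ 0` at the others (LITERALLY the hypothesis `hwind` of
  `ecm_h1_inf` / `ecm_h1_zero`, node setup `nodeSetupNj B M p hp haux.1 hB R hR`);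
* `wwa_windNC` : (WILD-WINDC) ⇒ `S44jWildWindNC M' p hp B` (`5 ≤ p`);
* `wwa_wild`   : (WILD-WINDC) + the guarded cusp step ⇒ `S44jWild M' p B`.
All proofs complete.
-/

set_option autoImplicit false
set_option linter.style.haveILetI false
set_option linter.unusedSectionVars false
set_option linter.unusedVariables false
set_option synthInstance.maxHeartbeats 400000
set_option maxHeartbeats 1000000

noncomputable section

namespace Fermat.Agent.S40lib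

open Fermat.Agent.GalRep ModularCurve AlgebraicCurve Fermat.Agent.S31lib Fermat.Agent.S35lib
  Fermat.Agent.S33lib Fermat.Agent.S36lib Fermat.Agent.S24lib Fermat.Agent.S34lib
  Fermat.Agent.RRlib Fermat.Agent.GoodRed Fermat.Agent.S18lib Fermat.Agent.GM
  Fermat.Agent.HeckeBar HahnSeries

/-- a prime `p ≥ 5` does not divide `12` -/
theorem wwa_not_dvd_twelve {p : ℕ} (hp : p.Prime) (hp5 : 5 ≤ p) : ¬ p ∣ 12 := by
  intro h
  have h1 : p ∣ 2 * (2 * 3) := h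
  rcases (Nat.Prime.dvd_mul hp).mp h1 with h2 | h2
  · have := Nat.le_of_dvd (by norm_num) h2
    omega
  · rcases (Nat.Prime.dvd_mul hp).mp h2 with h3 | h3
    · have := Nat.le_of_dvd (by norm_num) h3
      omega
    · have := Nat.le_of_dvd (by norm_num) h3
      omega

/-- **(WILD-WINDC)**: in the situation of (G2) at the auxiliary level `M = lcm(M', baseLevel p)`
with the guard `2 ∈ S` and `v(κ) = v(p) ^ (p n)`: WINDC in `[SS]`-form (the hypothesis `hwind` of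
`ecm_h1_inf`, `ecm_h1_zero`) for suitable normalisations of the Kummer function `u_x` of the
pull-back of `x`, on both components. -/
def S44jWildWindC (M' p : ℕ) [NeZero M'] [NeZero p] [NeZero (M' * p)] (hp : p.Prime)
    (B : ValuationSubring (AlgebraicClosure ℚ)) (hB : B.LiesOverPrime p) : Prop :=
  ∀ (S : Finset ℕ) (a : ℕ → ℤ) (V : AddSubgroup (JZero (M' * p))),
    (∀ ℓ : ℕ, ℓ.Prime → ℓ ∣ M' * p → ℓ ∈ S) → 2 ∈ S →
    Nat.card V = p ^ 2 → (∀ x ∈ V, p • x = 0) →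
    (∀ (σ : AlgebraicClosure ℚ ≃ₐ[ℚ] AlgebraicClosure ℚ), ∀ x ∈ V, σ • x ∈ V) →
    S40hEig (M' * p) S a V → S40hNotAt M' p S a →
    (∃ ℓ : Nat.Primes, (ℓ : ℕ) ∉ S ∧ ¬ (p : ℤ) ∣ a ℓ - (1 + (ℓ : ℕ))) →
    ∀ x ∈ V, x ≠ 0 → (∃ τ₀ ∈ B.inertiaSubgroupIn ℚ, S33hMoves p τ₀ ∧ τ₀ • x = x) →
    ∀ t ∈ V, t ≠ 0 →
    (∀ σ ∈ B.inertiaSubgroupIn ℚ, σ • x - x ∈ AddSubgroup.zmultiples t) →
    (∀ τ ∈ B.inertiaSubgroupIn ℚ, ∃ w : ℕ, τ • t = w • t ∧
      ∀ ξ : Kbar, ξ ^ p = 1 → τ ξ = ξ ^ w) →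
    ∀ (M e : ℕ) (_ : NeZero M) (_ : NeZero (M * p)) (hdvd : M' ∣ M) (haux : IsAuxLevel p M),
    M = Nat.lcm M' (baseLevel p) →
    M * p = M' * p * e → dedekindPsi (M * p) < 2 * e * dedekindPsi (M' * p) →
    ∀ (ζ : Kbar), IsPrimitiveRoot ζ p →
    letI : RRBase Kbar (modularFunctionFieldBar (M * p)) := (mod_rrHyp (M * p)).toRRBase
    ∀ (ux ut : modularFunctionFieldBar (M * p)),
    gdfIsKummer (K := Kbar) p
      (auxLevelPull (M' * p) (M * p) (Nat.mul_dvd_mul_right hdvd p) x) ux →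
    gdfIsKummer (K := Kbar) p
      (auxLevelPull (M' * p) (M * p) (Nat.mul_dvd_mul_right hdvd p) t) ut →
    ∀ (U : LaurentSeries Kbar), U ^ p = (ut : LaurentSeries Kbar) →
    ∀ (σY : ↥(cvcAdj (modularFunctionFieldBar (M * p)) U) →+*
        ↥(cvcAdj (modularFunctionFieldBar (M * p)) U)),
      ((∀ c : Kbar, σY (algebraMap Kbar ↥(cvcAdj (modularFunctionFieldBar (M * p)) U) c) =
        algebraMap Kbar ↥(cvcAdj (modularFunctionFieldBar (M * p)) U) c) ∧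
      (∀ f : modularFunctionFieldBar (M * p),
        σY ⟨(f : LaurentSeries Kbar), cvc_le_adj (modularFunctionFieldBar (M * p)) U f.2⟩ =
          ⟨(f : LaurentSeries Kbar), cvc_le_adj (modularFunctionFieldBar (M * p)) U f.2⟩) ∧
      σY ⟨U, cvc_mem_adj (modularFunctionFieldBar (M * p)) U⟩ =
        algebraMap Kbar ↥(cvcAdj (modularFunctionFieldBar (M * p)) U) ζ *
          ⟨U, cvc_mem_adj (modularFunctionFieldBar (M * p)) U⟩ ∧
      (∀ (σ : Kbar ≃ₐ[ℚ] Kbar), σ ∈ B.inertiaSubgroupIn ℚ →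
        ∀ (z : ↥(cvcAdj (modularFunctionFieldBar (M * p)) U)),
        ∃ hz : coeffMap ((σ : Kbar ≃ₐ[ℚ] Kbar) : Kbar →+* Kbar) (z : LaurentSeries Kbar) ∈
            cvcAdj (modularFunctionFieldBar (M * p)) U,
          ∃ hz' : coeffMap ((σ : Kbar ≃ₐ[ℚ] Kbar) : Kbar →+* Kbar)
              ((σY z : ↥(cvcAdj (modularFunctionFieldBar (M * p)) U)) : LaurentSeries Kbar) ∈
              cvcAdj (modularFunctionFieldBar (M * p)) U,
            σY ⟨_, hz⟩ = ⟨_, hz'⟩) ∧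
      (∀ y : ↥(cvcAdj (modularFunctionFieldBar (M * p)) U), σY y = y →
        (y : LaurentSeries Kbar) ∈ modularFunctionFieldBar (M * p)) ∧
      (∀ y : ↥(cvcAdj (modularFunctionFieldBar (M * p)) U), σY^[p] y = y)) →
    ∀ (rt κ : Kbar) (u g : ↥(cvcAdj (modularFunctionFieldBar (M * p)) U)),
      κ ≠ 0 → rt ≠ 0 → rt ^ p = κ →
      (∀ τ ∈ B.inertiaSubgroupIn ℚ, τ κ = κ) →
      (∀ τ ∈ B.inertiaSubgroupIn ℚ, (τ • x = x ↔ τ rt = rt)) →
      u ≠ 0 → g ≠ 0 →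
      (∀ τ ∈ B.inertiaSubgroupIn ℚ,
        coeffMap ((τ : Kbar ≃ₐ[ℚ] Kbar) : Kbar →+* Kbar) (u : LaurentSeries Kbar) =
          (u : LaurentSeries Kbar)) →
      (∀ τ ∈ B.inertiaSubgroupIn ℚ,
        coeffMap ((τ : Kbar ≃ₐ[ℚ] Kbar) : Kbar →+* Kbar) (g : LaurentSeries Kbar) =
          (g : LaurentSeries Kbar)) →
      σY u = algebraMap Kbar ↥(cvcAdj (modularFunctionFieldBar (M * p)) U) κ * g ^ p * u →
      (∃ (c : Kbar) (h : ↥(cvcAdj (modularFunctionFieldBar (M * p)) U)), c ≠ 0 ∧ h ≠ 0 ∧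
        (u : LaurentSeries Kbar) = algebraMap Kbar (LaurentSeries Kbar) c *
          (ux : LaurentSeries Kbar) * (h : LaurentSeries Kbar) ^ p) →
      ∀ n : ℤ, B.valuation κ = B.valuation (p : AlgebraicClosure ℚ) ^ ((p : ℤ) * n) →
      ∀ (R : ConstRed B (IsLocalRing.residue B)
        (↥(modularFunctionFieldFullC (IsLocalRing.ResidueField B) M)) (FF (M * p))),
      ∀ (hR : IsSeriesRed R),
      ∃ (c₁ c₂ : Kbar)
        (h₁ : EisUnit R (algebraMap Kbar (FF (M * p)) c₁ * ux))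
        (h₂ : EisUnit (glmZero M p hp haux.1 R) (algebraMap Kbar (FF (M * p)) c₂ * ux))
        (δ₁ δ₂ : ℤ),
        (∀ Q : Place (IsLocalRing.ResidueField B) (Fk (IsLocalRing.ResidueField B) M),
          0 ≤ Q.ord (jk (IsLocalRing.ResidueField B) M) →
          ((∀ z ∈ (nodeSetupNj B M p hp haux.1 hB R hR).pZero,
              (nodeSetupNj B M p hp haux.1 hB R hR).redInf z = 0 ∨
                0 < Q.ord ((nodeSetupNj B M p hp haux.1 hB R hR).redInf z)) →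
            (p : ℤ) ∣ Q.ord (R.red ⟨_, h₁.2.1⟩) - δ₁) ∧
          (¬ (∀ z ∈ (nodeSetupNj B M p hp haux.1 hB R hR).pZero,
              (nodeSetupNj B M p hp haux.1 hB R hR).redInf z = 0 ∨
                0 < Q.ord ((nodeSetupNj B M p hp haux.1 hB R hR).redInf z)) →
            (p : ℤ) ∣ Q.ord (R.red ⟨_, h₁.2.1⟩))) ∧
        (∀ Q : Place (IsLocalRing.ResidueField B) (Fk (IsLocalRing.ResidueField B) M),
          0 ≤ Q.ord (jk (IsLocalRing.ResidueField B) M) →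
          ((∀ z ∈ (nodeSetupNj B M p hp haux.1 hB R hR).pInf,
              (nodeSetupNj B M p hp haux.1 hB R hR).redZero z = 0 ∨
                0 < Q.ord ((nodeSetupNj B M p hp haux.1 hB R hR).redZero z)) →
            (p : ℤ) ∣ Q.ord ((glmZero M p hp haux.1 R).red ⟨_, h₂.2.1⟩) - δ₂) ∧
          (¬ (∀ z ∈ (nodeSetupNj B M p hp haux.1 hB R hR).pInf,
              (nodeSetupNj B M p hp haux.1 hB R hR).redZero z = 0 ∨
                0 < Q.ord ((nodeSetupNj B M p hp haux.1 hB R hR).redZero z)) →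
            (p : ℤ) ∣ Q.ord ((glmZero M p hp haux.1 R).red ⟨_, h₂.2.1⟩)))

/-- **(WILD-WINDC) ⇒ (WILD-WIND-NC)** (`5 ≤ p`): the Eisenstein step (H1) of helper28. -/
theorem wwa_windNC (M' p : ℕ) [NeZero M'] [NeZero p] [NeZero (M' * p)]
    (hp : p.Prime) (hp5 : 5 ≤ p)
    (B : ValuationSubring (AlgebraicClosure ℚ)) (hB : B.LiesOverPrime p)
    (hC : S44jWildWindC M' p hp B hB) : S44jWildWindNC M' p hp B := by
  have hp2 : p ≠ 2 := by omega
  have h12 : ¬ p ∣ 12 := wwa_not_dvd_twelve hp hp5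
  intro S a V hS h2S hcard hVp hstab hEig hNot hnE x hx hx0 hfix t htV ht0 hHx hω
    M e hM0 hMp0 hdvd haux hM hMe hdeg ζ hζ ux ut hux hut U hU σY hσ rt κ u g hκ0 hrt0 hpow hκI
    hSt hu0 hg0 huI hgI hσu hch n hn R hR
  obtain ⟨c₁, c₂, h₁, h₂, δ₁, δ₂, hw₁, hw₂⟩ :=
    hC S a V hS h2S hcard hVp hstab hEig hNot hnE x hx hx0 hfix t htV ht0 hHx hω
      M e hM0 hMp0 hdvd haux hM hMe hdeg ζ hζ ux ut hux hut U hU σY hσ rt κ u g hκ0 hrt0 hpow hκI
      hSt hu0 hg0 huI hgI hσu hch n hn R hR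
  obtain ⟨ℓ, hℓS, hcop⟩ := hnE
  have hℓ : (ℓ : ℕ).Prime := ℓ.2
  have hpM : ¬ p ∣ M := haux.1
  have hNM : M' * p ∣ M * p := Nat.mul_dvd_mul_right hdvd p
  -- `ℓ ≠ 2`, `ℓ ≠ p`, `ℓ ∤ M'`
  have hℓ2 : (ℓ : ℕ) ≠ 2 := fun h => hℓS (by rw [h]; exact h2S)
  have hℓp : (ℓ : ℕ) ≠ p := fun h => hℓS (hS _ hℓ (by rw [h]; exact dvd_mul_left p M'))
  have hℓM' : ¬ (ℓ : ℕ) ∣ M' := fun h => hℓS (hS _ hℓ (h.trans (dvd_mul_right M' p)))
  have hb4 : baseLevel p = 4 := by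
    unfold baseLevel
    rw [if_neg hp2]
  have hℓM : ¬ (ℓ : ℕ) ∣ M := by
    rw [hM, hb4]
    exact twa_not_dvd_lcm M' hℓ hℓ2 hℓM'
  have hℓN : ¬ (ℓ : ℕ) ∣ M * p := by
    intro h
    rcases (Nat.Prime.dvd_mul hℓ).mp h with h1 | h1
    · exact hℓM h1
    · exact hℓp ((Nat.prime_dvd_prime_iff_eq hℓ hp).mp h1)
  haveI : NeZero (ℓ : ℕ) := ⟨hℓ.ne_zero⟩
  haveI : NeZero (M * (ℓ : ℕ)) := ⟨Nat.mul_ne_zero (NeZero.ne M) hℓ.ne_zero⟩
  haveI : NeZero (M * p * (ℓ : ℕ)) := ⟨Nat.mul_ne_zero (NeZero.ne (M * p)) hℓ.ne_zero⟩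
  haveI : RRBase Kbar (FF (M' * p)) := (mod_rrHyp (M' * p)).toRRBase
  letI : RRBase Kbar (FF (M * p)) := (mod_rrHyp (M * p)).toRRBase
  haveI : HasPrincipalDivisors Kbar (FF (M' * p)) := wir_hasPrincipalDivisors (M' * p)
  obtain ⟨Rl, hRl⟩ := hkr_exists_red M p (ℓ : ℕ) B hp hpM hℓ hℓp hB
  have h1 : p ∣ M * p := dvd_mul_left p M
  have h2 : ¬ p ^ 2 ∣ M * p := inf_not_sq_dvd M p hp hpM
  -- the constants are nonzero
  have hc₁ : c₁ ≠ 0 := by
    intro h0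
    apply h₁.1
    rw [h0, map_zero, zero_mul]
  have hc₂ : c₂ ≠ 0 := by
    intro h0
    apply h₂.1
    rw [h0, map_zero, zero_mul]
  -- the Kummer functions and the eigen-relation at the level `M p`
  have hk₁ := twa_kummer_const hux hc₁
  have hk₂ := twa_kummer_const hux hc₂
  obtain ⟨D, hD⟩ := Pic0.mk_surjective x
  obtain ⟨u', hu'0, hDu'⟩ := tax_exists_kummer (M' * p) p D (by rw [hD]; exact hVp x hx)
  have hxK : gdfIsKummer (K := Kbar) p x u' := gdf_isKummer_of_ord hu'0 D hD hDu'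
  have heig : heckeOperatorBar (M * p) ⟨(ℓ : ℕ), hℓ⟩
      (auxLevelPull (M' * p) (M * p) hNM x) =
        a ℓ • auxLevelPull (M' * p) (M * p) hNM x :=
    hpl_heig (M' * p) (M * p) hNM ℓ hℓN hp.ne_zero hxK (a ℓ) (hEig ℓ hℓS x hx)
  have hcop' : ¬ (p : ℤ) ∣ a ℓ - (((ℓ : ℕ) : ℤ) + 1) := by
    rw [add_comm]
    exact hcop
  refine ⟨c₁, c₂, h₁, h₂, ?_, ?_⟩
  · intro Q hQ
    exact ecm_h1_inf M p (ℓ : ℕ) B hp hℓ hℓp h1 h2 hpM hℓN hB haux h12 hR hRl (a ℓ) hcop' hk₁ heig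
      h₁ δ₁ hw₁ Q hQ
  · intro Q hQ
    exact ecm_h1_zero M p (ℓ : ℕ) B hp hℓ hℓp h1 h2 hpM hℓN hB haux h12 hR hRl (a ℓ) hcop' hk₂ heig
      h₂ δ₂ hw₂ Q hQ

/-- **the guarded (J-WILD) from (WILD-WINDC) and the guarded cusp step at the level `M'`**. -/
theorem wwa_wild (M' p : ℕ) [NeZero M'] [NeZero p] [NeZero (M' * p)]
    (hp : p.Prime) (hp5 : 5 ≤ p) (hpM' : ¬ p ∣ M')
    (B : ValuationSubring (AlgebraicClosure ℚ)) (hB : B.LiesOverPrime p)
    (hW : S44jWildWindC M' p hp B hB)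
    (hC : ∀ (S : Finset ℕ) (a : ℕ → ℤ),
      (∀ ℓ : ℕ, ℓ.Prime → ℓ ∣ M' * p → ℓ ∈ S) → 2 ∈ S →
      (∃ ℓ : Nat.Primes, (ℓ : ℕ) ∉ S ∧ ¬ (p : ℤ) ∣ a ℓ - (1 + (ℓ : ℕ))) →
      S40tmwCusp M' p S a (IsLocalRing.ResidueField B)) : S44jWild M' p B :=
  s44g_wild M' p hp (by omega) (Or.inl (by omega)) hpM' B hB (wwa_windNC M' p hp hp5 B hB hW) hC

end Fermat.Agent.S40lib

end
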