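import Mathlib
import Fermat.Agent.S36lib.Speed
import Fermat.Agent.S40lib.FreyFinal3
import Fermat.Agent.S40lib.TameWindAsm
import Fermat.Agent.S40lib.CuspJFinal
import Fermat.Agent.S40lib.WildWindAsm2

/-!
# Item 88 (S44): S44 from (WILD-WINDC) ALONE (chief architect helper6)

`s44g_final_windC2`: the statement S44 from ONE provider, the per-point statement
`S44jWildWindC2 M' p hp B hB` (helper10, WildWindAsm2.lean: the SS-form WINDC of `c₁ u_x`,
`c₂ u_x`, with the hypothesis `hmove`) at every squarefree level `M'` prime to `p ≥ 5`.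
Wired inside: (T) = `twa_windNC` (helper4), (C) = `cpj_hC` (helper23), (A1) = `wwa2_windNC`
(helper10, Eisenstein tail of helper28), `s44g_final2` (W-side, (LIFT), tails).
`s44g_final_windC`: the same from `S44jWildWindC` (the form without `hmove`).
-/

set_option autoImplicit false
set_option linter.style.haveILetI false

noncomputable section

namespace Fermat.Agent.S40lib

open Fermat.Agent.GalRep ModularCurve Fermat.Agent.S31lib Fermat.Agent.S35lib
  Fermat.Agent.S33lib WeierstrassCurve WeierstrassCurve.Affine WeierstrassCurve.Affine.Point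

/-- **S44 from (WILD-WINDC) with `hmove` ALONE**. -/
theorem s44g_final_windC2
    (hWC : ∀ (p : ℕ) (hp : p.Prime), 5 ≤ p → ∀ (B : ValuationSubring (AlgebraicClosure ℚ))
      (hB : B.LiesOverPrime p) (M' : ℕ) [NeZero M'] [NeZero p] [NeZero (M' * p)], ¬ p ∣ M' →
        Squarefree M' → S44jWildWindC2 M' p hp B hB)
    (P : FreyPackage) {N : ℕ} (hcond : P.IsConductorLevel N)
    (hpN : P.p ∣ N)
    (hirr : GaloisRepIsIrreducible (K := AlgebraicClosure ℚ) ℚ P.freyCurve P.p)
    (hmod : P.ModularRepOfLevel N) :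
    ∃ M : ℕ, M ∣ N ∧ ¬ P.p ∣ M ∧ P.ModularRepOfLevel M :=
  s44g_final2
    (fun p hp h5 B hB M' _ _ _ _ _ => twa_windNC M' p hp (by omega) B hB)
    cpj_hC
    (fun p hp h5 B hB M' _ _ _ hpM' hsq =>
      wwa2_windNC M' p hp h5 B hB (hWC p hp h5 B hB M' hpM' hsq))
    P hcond hpN hirr hmod

/-- **S44 from (WILD-WINDC) (form without `hmove`) ALONE**. -/
theorem s44g_final_windC
    (hWC : ∀ (p : ℕ) (hp : p.Prime), 5 ≤ p → ∀ (B : ValuationSubring (AlgebraicClosure ℚ))
      (hB : B.LiesOverPrime p) (M' : ℕ) [NeZero M'] [NeZero p] [NeZero (M' * p)], ¬ p ∣ M' →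
        Squarefree M' → S44jWildWindC M' p hp B hB)
    (P : FreyPackage) {N : ℕ} (hcond : P.IsConductorLevel N)
    (hpN : P.p ∣ N)
    (hirr : GaloisRepIsIrreducible (K := AlgebraicClosure ℚ) ℚ P.freyCurve P.p)
    (hmod : P.ModularRepOfLevel N) :
    ∃ M : ℕ, M ∣ N ∧ ¬ P.p ∣ M ∧ P.ModularRepOfLevel M :=
  s44g_final_windC2
    (fun p hp h5 B hB M' _ _ _ hpM' hsq =>
      wwa2_of_C M' p hp B hB (hWC p hp h5 B hB M' hpM' hsq))
    P hcond hpN hirr hmod

end Fermat.Agent.S40lib

end
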