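import Mathlib
import Fermat.Agent.S36lib.Speed
import Fermat.Agent.S40lib.WildWindAsm2

/-!
# Item 88 (S44), block (J-WILD), piece (TOP) (helper10)

The TOP glue of the final assembler: `S44jWildWindC2` from the conclusions of the per-point
theorems `g2w_point_node` / `g2w_point_smooth` (WindcPoint.lean), VERBATIM.

* `S44jWildPt M' p hp B hB` : the binders of `S44jWildWindC2` (with `hmove`); conclusion: there are
  `δ₁ δ₂ : ℤ` such that at every non-cuspidal place `Q`, for EVERY constant `c` with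
  `c u_x ∈ O` of non-zero reduction, `p ∣ ord_Q (red (c u_x)) - δ` at the supersingular places
  and `p ∣ ord_Q (red (c u_x))` at the others; for `R` (with `δ₁`) and for `glmZero R` (with `δ₂`);
* `wwa3_of_pt` : `S44jWildPt → S44jWildWindC2` (the constants `c₁`, `c₂` are
  `ConstRed.exists_unit_smul`).
All proofs complete.
-/

set_option autoImplicit false
set_option linter.style.haveILetI false
set_option linter.unusedSectionVars false
set_option linter.unusedVariables false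
set_option synthInstance.maxHeartbeats 400000
set_option maxHeartbeats 1000000

noncomputable section

namespace Fermat.Agent.S40lib

open Fermat.Agent.GalRep ModularCurve AlgebraicCurve Fermat.Agent.S31lib Fermat.Agent.S35lib
  Fermat.Agent.S33lib Fermat.Agent.S36lib Fermat.Agent.S24lib Fermat.Agent.S34lib
  Fermat.Agent.RRlib Fermat.Agent.GoodRed Fermat.Agent.S18lib Fermat.Agent.GM
  Fermat.Agent.HeckeBar HahnSeries

/-- **(WILD-PT)**: the conclusions of the per-point theorems at all non-cuspidal places, in the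
situation of (G2) with `hmove`. -/
def S44jWildPt (M' p : ℕ) [NeZero M'] [NeZero p] [NeZero (M' * p)] (hp : p.Prime)
    (B : ValuationSubring (AlgebraicClosure ℚ)) (hB : B.LiesOverPrime p) : Prop :=
  ∀ (S : Finset ℕ) (a : ℕ → ℤ) (V : AddSubgroup (JZero (M' * p))),
    (∀ ℓ : ℕ, ℓ.Prime → ℓ ∣ M' * p → ℓ ∈ S) → 2 ∈ S →
    Nat.card V = p ^ 2 → (∀ x ∈ V, p • x = 0) →
    (∀ (σ : AlgebraicClosure ℚ ≃ₐ[ℚ] AlgebraicClosure ℚ), ∀ x ∈ V, σ • x ∈ V) →
    S40hEig (M' * p) S a V → S40hNotAt M' p S a →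
    (∃ ℓ : Nat.Primes, (ℓ : ℕ) ∉ S ∧ ¬ (p : ℤ) ∣ a ℓ - (1 + (ℓ : ℕ))) →
    ∀ x ∈ V, x ≠ 0 → (∃ τ₀ ∈ B.inertiaSubgroupIn ℚ, S33hMoves p τ₀ ∧ τ₀ • x = x) →
    ∀ t ∈ V, t ≠ 0 →
    (∀ σ ∈ B.inertiaSubgroupIn ℚ, σ • x - x ∈ AddSubgroup.zmultiples t) →
    (∀ τ ∈ B.inertiaSubgroupIn ℚ, ∃ w : ℕ, τ • t = w • t ∧
      ∀ ξ : Kbar, ξ ^ p = 1 → τ ξ = ξ ^ w) →
    ∀ (M e : ℕ) (_ : NeZero M) (_ : NeZero (M * p)) (hdvd : M' ∣ M) (haux : IsAuxLevel p M),
    M = Nat.lcm M' (baseLevel p) →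
    M * p = M' * p * e → dedekindPsi (M * p) < 2 * e * dedekindPsi (M' * p) →
    ∀ (ζ : Kbar), IsPrimitiveRoot ζ p →
    letI : RRBase Kbar (modularFunctionFieldBar (M * p)) := (mod_rrHyp (M * p)).toRRBase
    ∀ (ux ut : modularFunctionFieldBar (M * p)),
    gdfIsKummer (K := Kbar) p
      (auxLevelPull (M' * p) (M * p) (Nat.mul_dvd_mul_right hdvd p) x) ux →
    gdfIsKummer (K := Kbar) p
      (auxLevelPull (M' * p) (M * p) (Nat.mul_dvd_mul_right hdvd p) t) ut →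
    ∀ (U : LaurentSeries Kbar), U ^ p = (ut : LaurentSeries Kbar) →
    ∀ (σY : ↥(cvcAdj (modularFunctionFieldBar (M * p)) U) →+*
        ↥(cvcAdj (modularFunctionFieldBar (M * p)) U)),
      ((∀ c : Kbar, σY (algebraMap Kbar ↥(cvcAdj (modularFunctionFieldBar (M * p)) U) c) =
        algebraMap Kbar ↥(cvcAdj (modularFunctionFieldBar (M * p)) U) c) ∧
      (∀ f : modularFunctionFieldBar (M * p),
        σY ⟨(f : LaurentSeries Kbar), cvc_le_adj (modularFunctionFieldBar (M * p)) U f.2⟩ =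
          ⟨(f : LaurentSeries Kbar), cvc_le_adj (modularFunctionFieldBar (M * p)) U f.2⟩) ∧
      σY ⟨U, cvc_mem_adj (modularFunctionFieldBar (M * p)) U⟩ =
        algebraMap Kbar ↥(cvcAdj (modularFunctionFieldBar (M * p)) U) ζ *
          ⟨U, cvc_mem_adj (modularFunctionFieldBar (M * p)) U⟩ ∧
      (∀ (σ : Kbar ≃ₐ[ℚ] Kbar), σ ∈ B.inertiaSubgroupIn ℚ →
        ∀ (z : ↥(cvcAdj (modularFunctionFieldBar (M * p)) U)),
        ∃ hz : coeffMap ((σ : Kbar ≃ₐ[ℚ] Kbar) : Kbar →+* Kbar) (z : LaurentSeries Kbar) ∈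
            cvcAdj (modularFunctionFieldBar (M * p)) U,
          ∃ hz' : coeffMap ((σ : Kbar ≃ₐ[ℚ] Kbar) : Kbar →+* Kbar)
              ((σY z : ↥(cvcAdj (modularFunctionFieldBar (M * p)) U)) : LaurentSeries Kbar) ∈
              cvcAdj (modularFunctionFieldBar (M * p)) U,
            σY ⟨_, hz⟩ = ⟨_, hz'⟩) ∧
      (∀ y : ↥(cvcAdj (modularFunctionFieldBar (M * p)) U), σY y = y →
        (y : LaurentSeries Kbar) ∈ modularFunctionFieldBar (M * p)) ∧
      (∀ y : ↥(cvcAdj (modularFunctionFieldBar (M * p)) U), σY^[p] y = y)) →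
    ∀ (rt κ : Kbar) (u g : ↥(cvcAdj (modularFunctionFieldBar (M * p)) U)),
      κ ≠ 0 → rt ≠ 0 → rt ^ p = κ →
      (∀ τ ∈ B.inertiaSubgroupIn ℚ, τ κ = κ) →
      (∀ τ ∈ B.inertiaSubgroupIn ℚ, (τ • x = x ↔ τ rt = rt)) →
      u ≠ 0 → g ≠ 0 →
      (∀ τ ∈ B.inertiaSubgroupIn ℚ,
        coeffMap ((τ : Kbar ≃ₐ[ℚ] Kbar) : Kbar →+* Kbar) (u : LaurentSeries Kbar) =
          (u : LaurentSeries Kbar)) →
      (∀ τ ∈ B.inertiaSubgroupIn ℚ,
        coeffMap ((τ : Kbar ≃ₐ[ℚ] Kbar) : Kbar →+* Kbar) (g : LaurentSeries Kbar) =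
          (g : LaurentSeries Kbar)) →
      σY u = algebraMap Kbar ↥(cvcAdj (modularFunctionFieldBar (M * p)) U) κ * g ^ p * u →
      (∃ (c : Kbar) (h : ↥(cvcAdj (modularFunctionFieldBar (M * p)) U)), c ≠ 0 ∧ h ≠ 0 ∧
        (u : LaurentSeries Kbar) = algebraMap Kbar (LaurentSeries Kbar) c *
          (ux : LaurentSeries Kbar) * (h : LaurentSeries Kbar) ^ p) →
      ∀ n : ℤ, B.valuation κ = B.valuation (p : AlgebraicClosure ℚ) ^ ((p : ℤ) * n) →
      ∀ (R : ConstRed B (IsLocalRing.residue B)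
        (↥(modularFunctionFieldFullC (IsLocalRing.ResidueField B) M)) (FF (M * p))),
      ∀ (hR : IsSeriesRed R),
      (∃ σ₁ ∈ S40hI1 p B, σ₁ • x ≠ x ∧ t = σ₁ • x - x) →
      ∃ (δ₁ δ₂ : ℤ),
        (∀ Q : Place (IsLocalRing.ResidueField B) (Fk (IsLocalRing.ResidueField B) M),
          0 ≤ Q.ord (jk (IsLocalRing.ResidueField B) M) →
          ((∀ z ∈ (nodeSetupNj B M p hp haux.1 hB R hR).pZero,
              (nodeSetupNj B M p hp haux.1 hB R hR).redInf z = 0 ∨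
                0 < Q.ord ((nodeSetupNj B M p hp haux.1 hB R hR).redInf z)) →
            ∀ (c : Kbar) (h2 : algebraMap Kbar (FF (M * p)) c * ux ∈ R.O),
              R.red ⟨algebraMap Kbar (FF (M * p)) c * ux, h2⟩ ≠ 0 →
              (p : ℤ) ∣ Q.ord (R.red ⟨algebraMap Kbar (FF (M * p)) c * ux, h2⟩) - δ₁) ∧
          (¬ (∀ z ∈ (nodeSetupNj B M p hp haux.1 hB R hR).pZero,
              (nodeSetupNj B M p hp haux.1 hB R hR).redInf z = 0 ∨
                0 < Q.ord ((nodeSetupNj B M p hp haux.1 hB R hR).redInf z)) →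
            ∀ (c : Kbar) (h2 : algebraMap Kbar (FF (M * p)) c * ux ∈ R.O),
              R.red ⟨algebraMap Kbar (FF (M * p)) c * ux, h2⟩ ≠ 0 →
              (p : ℤ) ∣ Q.ord (R.red ⟨algebraMap Kbar (FF (M * p)) c * ux, h2⟩))) ∧
        (∀ Q : Place (IsLocalRing.ResidueField B) (Fk (IsLocalRing.ResidueField B) M),
          0 ≤ Q.ord (jk (IsLocalRing.ResidueField B) M) →
          ((∀ z ∈ (nodeSetupNj B M p hp haux.1 hB R hR).pInf,
              (nodeSetupNj B M p hp haux.1 hB R hR).redZero z = 0 ∨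
                0 < Q.ord ((nodeSetupNj B M p hp haux.1 hB R hR).redZero z)) →
            ∀ (c : Kbar) (h2 : algebraMap Kbar (FF (M * p)) c * ux ∈ (glmZero M p hp haux.1 R).O),
              (glmZero M p hp haux.1 R).red ⟨algebraMap Kbar (FF (M * p)) c * ux, h2⟩ ≠ 0 →
              (p : ℤ) ∣ Q.ord ((glmZero M p hp haux.1 R).red
                ⟨algebraMap Kbar (FF (M * p)) c * ux, h2⟩) - δ₂) ∧
          (¬ (∀ z ∈ (nodeSetupNj B M p hp haux.1 hB R hR).pInf,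
              (nodeSetupNj B M p hp haux.1 hB R hR).redZero z = 0 ∨
                0 < Q.ord ((nodeSetupNj B M p hp haux.1 hB R hR).redZero z)) →
            ∀ (c : Kbar) (h2 : algebraMap Kbar (FF (M * p)) c * ux ∈ (glmZero M p hp haux.1 R).O),
              (glmZero M p hp haux.1 R).red ⟨algebraMap Kbar (FF (M * p)) c * ux, h2⟩ ≠ 0 →
              (p : ℤ) ∣ Q.ord ((glmZero M p hp haux.1 R).red
                ⟨algebraMap Kbar (FF (M * p)) c * ux, h2⟩)))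

/-- **(WILD-PT) ⇒ (WILD-WINDC)** with `hmove`: the normalising constants exist. -/
theorem wwa3_of_pt (M' p : ℕ) [NeZero M'] [NeZero p] [NeZero (M' * p)]
    (hp : p.Prime) (B : ValuationSubring (AlgebraicClosure ℚ)) (hB : B.LiesOverPrime p)
    (hPt : S44jWildPt M' p hp B hB) : S44jWildWindC2 M' p hp B hB := by
  intro S a V hS h2S hcard hVp hstab hEig hNot hnE x hx hx0 hfix t htV ht0 hHx hω
    M e hM0 hMp0 hdvd haux hM hMe hdeg ζ hζ ux ut hux hut U hU σY hσ rt κ u g hκ0 hrt0 hpow hκI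
    hSt hu0 hg0 huI hgI hσu hch n hn R hR hmv
  obtain ⟨δ₁, δ₂, hw₁, hw₂⟩ :=
    hPt S a V hS h2S hcard hVp hstab hEig hNot hnE x hx hx0 hfix t htV ht0 hHx hω
      M e hM0 hMp0 hdvd haux hM hMe hdeg ζ hζ ux ut hux hut U hU σY hσ rt κ u g hκ0 hrt0 hpow hκI
      hSt hu0 hg0 huI hgI hσu hch n hn R hR hmv
  letI : RRBase Kbar (modularFunctionFieldBar (M * p)) := (mod_rrHyp (M * p)).toRRBase
  have hux0 : ux ≠ 0 := gdf_isKummer_ne_zero hux
  obtain ⟨c₁, hc₁, hm₁, hi₁⟩ := R.exists_unit_smul ux hux0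
  obtain ⟨c₂, hc₂, hm₂, hi₂⟩ := (glmZero M p hp haux.1 R).exists_unit_smul ux hux0
  have hcF₁ : algebraMap Kbar (FF (M * p)) c₁ ≠ 0 := (map_ne_zero _).2 hc₁
  have hcF₂ : algebraMap Kbar (FF (M * p)) c₂ ≠ 0 := (map_ne_zero _).2 hc₂
  have h₁ : EisUnit R (algebraMap Kbar (FF (M * p)) c₁ * ux) :=
    ⟨mul_ne_zero hcF₁ hux0, hm₁, hi₁⟩
  have h₂ : EisUnit (glmZero M p hp haux.1 R) (algebraMap Kbar (FF (M * p)) c₂ * ux) :=
    ⟨mul_ne_zero hcF₂ hux0, hm₂, hi₂⟩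
  refine ⟨c₁, c₂, h₁, h₂, δ₁, δ₂, ?_, ?_⟩
  · intro Q hQ
    exact ⟨fun hSS => (hw₁ Q hQ).1 hSS c₁ h₁.2.1 h₁.red_ne_zero,
      fun hNS => (hw₁ Q hQ).2 hNS c₁ h₁.2.1 h₁.red_ne_zero⟩
  · intro Q hQ
    exact ⟨fun hSS => (hw₂ Q hQ).1 hSS c₂ h₂.2.1 h₂.red_ne_zero,
      fun hNS => (hw₂ Q hQ).2 hNS c₂ h₂.2.1 h₂.red_ne_zero⟩

end Fermat.Agent.S40lib

end
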