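import Mathlib
import Fermat.Agent.S36lib.Speed
import Fermat.Agent.S40lib.FreyFinal4
import Fermat.Agent.S40lib.WildWindAsm3

/-!
# Item 88 (S44): S44 from the per-point statement (WILD-PT) ALONE (chief architect helper6)

`s44g_final_pt`: the statement S44 from ONE provider, the per-point statement
`S44jWildPt M' p hp B hB` (helper10, WildWindAsm3.lean: the conclusions of the per-point theorems
`g2w_point_node` / `g2w_point_smooth` for every normalisation `c u_x`, on both components, with
global `δ₁`, `δ₂`) at every squarefree level `M'` prime to `p ≥ 5`.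
Wired inside: `wwa3_of_pt` (helper10) and `s44g_final_windC2` (FreyFinal4).
-/

set_option autoImplicit false
set_option linter.style.haveILetI false

noncomputable section

namespace Fermat.Agent.S40lib

open Fermat.Agent.GalRep ModularCurve Fermat.Agent.S31lib Fermat.Agent.S35lib
  Fermat.Agent.S33lib WeierstrassCurve WeierstrassCurve.Affine WeierstrassCurve.Affine.Point

/-- **S44 from (WILD-PT) ALONE**. -/
theorem s44g_final_pt
    (hPt : ∀ (p : ℕ) (hp : p.Prime), 5 ≤ p → ∀ (B : ValuationSubring (AlgebraicClosure ℚ))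
      (hB : B.LiesOverPrime p) (M' : ℕ) [NeZero M'] [NeZero p] [NeZero (M' * p)], ¬ p ∣ M' →
        Squarefree M' → S44jWildPt M' p hp B hB)
    (P : FreyPackage) {N : ℕ} (hcond : P.IsConductorLevel N)
    (hpN : P.p ∣ N)
    (hirr : GaloisRepIsIrreducible (K := AlgebraicClosure ℚ) ℚ P.freyCurve P.p)
    (hmod : P.ModularRepOfLevel N) :
    ∃ M : ℕ, M ∣ N ∧ ¬ P.p ∣ M ∧ P.ModularRepOfLevel M :=
  s44g_final_windC2
    (fun p hp h5 B hB M' _ _ _ hpM' hsq =>
      wwa3_of_pt M' p hp B hB (hPt p hp h5 B hB M' hpM' hsq))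
    P hcond hpN hirr hmod

end Fermat.Agent.S40lib

end
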