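import Mathlib
import Fermat.Agent.S36lib.Speed
import Fermat.Agent.S40lib.WildWindAsm3

/-!
# Item 88 (S44), block (J-WILD), FINAL ASSEMBLER, layer B interface (helper22)

`S44jWildPt` (helper10, `WildWindAsm3.lean`) split into its FOUR independent parts, each with
the binders of `S44jWildPt` VERBATIM:

* `S44jPtNodeInf`  : `∃ δ₁`, at every supersingular non-cuspidal place, component `∞`;
* `S44jPtSmInf`    : at every ordinary non-cuspidal place, component `∞`;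
* `S44jPtNodeZero` : `∃ δ₂`, supersingular places, component `0`;
* `S44jPtSmZero`   : ordinary places, component `0`;
* `s40j_pt_split`  : the four parts give `S44jWildPt`.
(complete proofs, standard axioms only)
-/

set_option autoImplicit false
set_option linter.style.haveILetI false
set_option linter.unusedSectionVars false
set_option linter.unusedVariables false
set_option synthInstance.maxHeartbeats 400000
set_option maxHeartbeats 1000000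

noncomputable section

namespace Fermat.Agent.S40lib

open Fermat.Agent.GalRep ModularCurve AlgebraicCurve Fermat.Agent.S31lib Fermat.Agent.S35lib
  Fermat.Agent.S33lib Fermat.Agent.S36lib Fermat.Agent.S24lib Fermat.Agent.S34lib
  Fermat.Agent.RRlib Fermat.Agent.GoodRed Fermat.Agent.S18lib Fermat.Agent.GM
  Fermat.Agent.HeckeBar HahnSeries

/-- **(WILD-PT), supersingular places, component `∞`.** -/
def S44jPtNodeInf (M' p : ℕ) [NeZero M'] [NeZero p] [NeZero (M' * p)] (hp : p.Prime)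
    (B : ValuationSubring (AlgebraicClosure ℚ)) (hB : B.LiesOverPrime p) : Prop :=
  ∀ (S : Finset ℕ) (a : ℕ → ℤ) (V : AddSubgroup (JZero (M' * p))),
    (∀ ℓ : ℕ, ℓ.Prime → ℓ ∣ M' * p → ℓ ∈ S) → 2 ∈ S →
    Nat.card V = p ^ 2 → (∀ x ∈ V, p • x = 0) →
    (∀ (σ : AlgebraicClosure ℚ ≃ₐ[ℚ] AlgebraicClosure ℚ), ∀ x ∈ V, σ • x ∈ V) →
    S40hEig (M' * p) S a V → S40hNotAt M' p S a →
    (∃ ℓ : Nat.Primes, (ℓ : ℕ) ∉ S ∧ ¬ (p : ℤ) ∣ a ℓ - (1 + (ℓ : ℕ))) →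
    ∀ x ∈ V, x ≠ 0 → (∃ τ₀ ∈ B.inertiaSubgroupIn ℚ, S33hMoves p τ₀ ∧ τ₀ • x = x) →
    ∀ t ∈ V, t ≠ 0 →
    (∀ σ ∈ B.inertiaSubgroupIn ℚ, σ • x - x ∈ AddSubgroup.zmultiples t) →
    (∀ τ ∈ B.inertiaSubgroupIn ℚ, ∃ w : ℕ, τ • t = w • t ∧
      ∀ ξ : Kbar, ξ ^ p = 1 → τ ξ = ξ ^ w) →
    ∀ (M e : ℕ) (_ : NeZero M) (_ : NeZero (M * p)) (hdvd : M' ∣ M) (haux : IsAuxLevel p M),
    M = Nat.lcm M' (baseLevel p) →
    M * p = M' * p * e → dedekindPsi (M * p) < 2 * e * dedekindPsi (M' * p) →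
    ∀ (ζ : Kbar), IsPrimitiveRoot ζ p →
    letI : RRBase Kbar (modularFunctionFieldBar (M * p)) := (mod_rrHyp (M * p)).toRRBase
    ∀ (ux ut : modularFunctionFieldBar (M * p)),
    gdfIsKummer (K := Kbar) p
      (auxLevelPull (M' * p) (M * p) (Nat.mul_dvd_mul_right hdvd p) x) ux →
    gdfIsKummer (K := Kbar) p
      (auxLevelPull (M' * p) (M * p) (Nat.mul_dvd_mul_right hdvd p) t) ut →
    ∀ (U : LaurentSeries Kbar), U ^ p = (ut : LaurentSeries Kbar) →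
    ∀ (σY : ↥(cvcAdj (modularFunctionFieldBar (M * p)) U) →+*
        ↥(cvcAdj (modularFunctionFieldBar (M * p)) U)),
      ((∀ c : Kbar, σY (algebraMap Kbar ↥(cvcAdj (modularFunctionFieldBar (M * p)) U) c) =
        algebraMap Kbar ↥(cvcAdj (modularFunctionFieldBar (M * p)) U) c) ∧
      (∀ f : modularFunctionFieldBar (M * p),
        σY ⟨(f : LaurentSeries Kbar), cvc_le_adj (modularFunctionFieldBar (M * p)) U f.2⟩ =
          ⟨(f : LaurentSeries Kbar), cvc_le_adj (modularFunctionFieldBar (M * p)) U f.2⟩) ∧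
      σY ⟨U, cvc_mem_adj (modularFunctionFieldBar (M * p)) U⟩ =
        algebraMap Kbar ↥(cvcAdj (modularFunctionFieldBar (M * p)) U) ζ *
          ⟨U, cvc_mem_adj (modularFunctionFieldBar (M * p)) U⟩ ∧
      (∀ (σ : Kbar ≃ₐ[ℚ] Kbar), σ ∈ B.inertiaSubgroupIn ℚ →
        ∀ (z : ↥(cvcAdj (modularFunctionFieldBar (M * p)) U)),
        ∃ hz : coeffMap ((σ : Kbar ≃ₐ[ℚ] Kbar) : Kbar →+* Kbar) (z : LaurentSeries Kbar) ∈
            cvcAdj (modularFunctionFieldBar (M * p)) U,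
          ∃ hz' : coeffMap ((σ : Kbar ≃ₐ[ℚ] Kbar) : Kbar →+* Kbar)
              ((σY z : ↥(cvcAdj (modularFunctionFieldBar (M * p)) U)) : LaurentSeries Kbar) ∈
              cvcAdj (modularFunctionFieldBar (M * p)) U,
            σY ⟨_, hz⟩ = ⟨_, hz'⟩) ∧
      (∀ y : ↥(cvcAdj (modularFunctionFieldBar (M * p)) U), σY y = y →
        (y : LaurentSeries Kbar) ∈ modularFunctionFieldBar (M * p)) ∧
      (∀ y : ↥(cvcAdj (modularFunctionFieldBar (M * p)) U), σY^[p] y = y)) →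
    ∀ (rt κ : Kbar) (u g : ↥(cvcAdj (modularFunctionFieldBar (M * p)) U)),
      κ ≠ 0 → rt ≠ 0 → rt ^ p = κ →
      (∀ τ ∈ B.inertiaSubgroupIn ℚ, τ κ = κ) →
      (∀ τ ∈ B.inertiaSubgroupIn ℚ, (τ • x = x ↔ τ rt = rt)) →
      u ≠ 0 → g ≠ 0 →
      (∀ τ ∈ B.inertiaSubgroupIn ℚ,
        coeffMap ((τ : Kbar ≃ₐ[ℚ] Kbar) : Kbar →+* Kbar) (u : LaurentSeries Kbar) =
          (u : LaurentSeries Kbar)) →
      (∀ τ ∈ B.inertiaSubgroupIn ℚ,
        coeffMap ((τ : Kbar ≃ₐ[ℚ] Kbar) : Kbar →+* Kbar) (g : LaurentSeries Kbar) =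
          (g : LaurentSeries Kbar)) →
      σY u = algebraMap Kbar ↥(cvcAdj (modularFunctionFieldBar (M * p)) U) κ * g ^ p * u →
      (∃ (c : Kbar) (h : ↥(cvcAdj (modularFunctionFieldBar (M * p)) U)), c ≠ 0 ∧ h ≠ 0 ∧
        (u : LaurentSeries Kbar) = algebraMap Kbar (LaurentSeries Kbar) c *
          (ux : LaurentSeries Kbar) * (h : LaurentSeries Kbar) ^ p) →
      ∀ n : ℤ, B.valuation κ = B.valuation (p : AlgebraicClosure ℚ) ^ ((p : ℤ) * n) →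
      ∀ (R : ConstRed B (IsLocalRing.residue B)
        (↥(modularFunctionFieldFullC (IsLocalRing.ResidueField B) M)) (FF (M * p))),
      ∀ (hR : IsSeriesRed R),
      (∃ σ₁ ∈ S40hI1 p B, σ₁ • x ≠ x ∧ t = σ₁ • x - x) →
      ∃ δ₁ : ℤ,
        ∀ Q : Place (IsLocalRing.ResidueField B) (Fk (IsLocalRing.ResidueField B) M),
          0 ≤ Q.ord (jk (IsLocalRing.ResidueField B) M) →
          (∀ z ∈ (nodeSetupNj B M p hp haux.1 hB R hR).pZero,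
              (nodeSetupNj B M p hp haux.1 hB R hR).redInf z = 0 ∨
                0 < Q.ord ((nodeSetupNj B M p hp haux.1 hB R hR).redInf z)) →
            ∀ (c : Kbar) (h2 : algebraMap Kbar (FF (M * p)) c * ux ∈ (R).O),
              (R).red ⟨algebraMap Kbar (FF (M * p)) c * ux, h2⟩ ≠ 0 →
              (p : ℤ) ∣ Q.ord ((R).red ⟨algebraMap Kbar (FF (M * p)) c * ux, h2⟩) - δ₁

/-- **(WILD-PT), ordinary places, component `∞`.** -/
def S44jPtSmInf (M' p : ℕ) [NeZero M'] [NeZero p] [NeZero (M' * p)] (hp : p.Prime)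
    (B : ValuationSubring (AlgebraicClosure ℚ)) (hB : B.LiesOverPrime p) : Prop :=
  ∀ (S : Finset ℕ) (a : ℕ → ℤ) (V : AddSubgroup (JZero (M' * p))),
    (∀ ℓ : ℕ, ℓ.Prime → ℓ ∣ M' * p → ℓ ∈ S) → 2 ∈ S →
    Nat.card V = p ^ 2 → (∀ x ∈ V, p • x = 0) →
    (∀ (σ : AlgebraicClosure ℚ ≃ₐ[ℚ] AlgebraicClosure ℚ), ∀ x ∈ V, σ • x ∈ V) →
    S40hEig (M' * p) S a V → S40hNotAt M' p S a →
    (∃ ℓ : Nat.Primes, (ℓ : ℕ) ∉ S ∧ ¬ (p : ℤ) ∣ a ℓ - (1 + (ℓ : ℕ))) →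
    ∀ x ∈ V, x ≠ 0 → (∃ τ₀ ∈ B.inertiaSubgroupIn ℚ, S33hMoves p τ₀ ∧ τ₀ • x = x) →
    ∀ t ∈ V, t ≠ 0 →
    (∀ σ ∈ B.inertiaSubgroupIn ℚ, σ • x - x ∈ AddSubgroup.zmultiples t) →
    (∀ τ ∈ B.inertiaSubgroupIn ℚ, ∃ w : ℕ, τ • t = w • t ∧
      ∀ ξ : Kbar, ξ ^ p = 1 → τ ξ = ξ ^ w) →
    ∀ (M e : ℕ) (_ : NeZero M) (_ : NeZero (M * p)) (hdvd : M' ∣ M) (haux : IsAuxLevel p M),
    M = Nat.lcm M' (baseLevel p) →
    M * p = M' * p * e → dedekindPsi (M * p) < 2 * e * dedekindPsi (M' * p) →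
    ∀ (ζ : Kbar), IsPrimitiveRoot ζ p →
    letI : RRBase Kbar (modularFunctionFieldBar (M * p)) := (mod_rrHyp (M * p)).toRRBase
    ∀ (ux ut : modularFunctionFieldBar (M * p)),
    gdfIsKummer (K := Kbar) p
      (auxLevelPull (M' * p) (M * p) (Nat.mul_dvd_mul_right hdvd p) x) ux →
    gdfIsKummer (K := Kbar) p
      (auxLevelPull (M' * p) (M * p) (Nat.mul_dvd_mul_right hdvd p) t) ut →
    ∀ (U : LaurentSeries Kbar), U ^ p = (ut : LaurentSeries Kbar) →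
    ∀ (σY : ↥(cvcAdj (modularFunctionFieldBar (M * p)) U) →+*
        ↥(cvcAdj (modularFunctionFieldBar (M * p)) U)),
      ((∀ c : Kbar, σY (algebraMap Kbar ↥(cvcAdj (modularFunctionFieldBar (M * p)) U) c) =
        algebraMap Kbar ↥(cvcAdj (modularFunctionFieldBar (M * p)) U) c) ∧
      (∀ f : modularFunctionFieldBar (M * p),
        σY ⟨(f : LaurentSeries Kbar), cvc_le_adj (modularFunctionFieldBar (M * p)) U f.2⟩ =
          ⟨(f : LaurentSeries Kbar), cvc_le_adj (modularFunctionFieldBar (M * p)) U f.2⟩) ∧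
      σY ⟨U, cvc_mem_adj (modularFunctionFieldBar (M * p)) U⟩ =
        algebraMap Kbar ↥(cvcAdj (modularFunctionFieldBar (M * p)) U) ζ *
          ⟨U, cvc_mem_adj (modularFunctionFieldBar (M * p)) U⟩ ∧
      (∀ (σ : Kbar ≃ₐ[ℚ] Kbar), σ ∈ B.inertiaSubgroupIn ℚ →
        ∀ (z : ↥(cvcAdj (modularFunctionFieldBar (M * p)) U)),
        ∃ hz : coeffMap ((σ : Kbar ≃ₐ[ℚ] Kbar) : Kbar →+* Kbar) (z : LaurentSeries Kbar) ∈
            cvcAdj (modularFunctionFieldBar (M * p)) U,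
          ∃ hz' : coeffMap ((σ : Kbar ≃ₐ[ℚ] Kbar) : Kbar →+* Kbar)
              ((σY z : ↥(cvcAdj (modularFunctionFieldBar (M * p)) U)) : LaurentSeries Kbar) ∈
              cvcAdj (modularFunctionFieldBar (M * p)) U,
            σY ⟨_, hz⟩ = ⟨_, hz'⟩) ∧
      (∀ y : ↥(cvcAdj (modularFunctionFieldBar (M * p)) U), σY y = y →
        (y : LaurentSeries Kbar) ∈ modularFunctionFieldBar (M * p)) ∧
      (∀ y : ↥(cvcAdj (modularFunctionFieldBar (M * p)) U), σY^[p] y = y)) →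
    ∀ (rt κ : Kbar) (u g : ↥(cvcAdj (modularFunctionFieldBar (M * p)) U)),
      κ ≠ 0 → rt ≠ 0 → rt ^ p = κ →
      (∀ τ ∈ B.inertiaSubgroupIn ℚ, τ κ = κ) →
      (∀ τ ∈ B.inertiaSubgroupIn ℚ, (τ • x = x ↔ τ rt = rt)) →
      u ≠ 0 → g ≠ 0 →
      (∀ τ ∈ B.inertiaSubgroupIn ℚ,
        coeffMap ((τ : Kbar ≃ₐ[ℚ] Kbar) : Kbar →+* Kbar) (u : LaurentSeries Kbar) =
          (u : LaurentSeries Kbar)) →
      (∀ τ ∈ B.inertiaSubgroupIn ℚ,
        coeffMap ((τ : Kbar ≃ₐ[ℚ] Kbar) : Kbar →+* Kbar) (g : LaurentSeries Kbar) =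
          (g : LaurentSeries Kbar)) →
      σY u = algebraMap Kbar ↥(cvcAdj (modularFunctionFieldBar (M * p)) U) κ * g ^ p * u →
      (∃ (c : Kbar) (h : ↥(cvcAdj (modularFunctionFieldBar (M * p)) U)), c ≠ 0 ∧ h ≠ 0 ∧
        (u : LaurentSeries Kbar) = algebraMap Kbar (LaurentSeries Kbar) c *
          (ux : LaurentSeries Kbar) * (h : LaurentSeries Kbar) ^ p) →
      ∀ n : ℤ, B.valuation κ = B.valuation (p : AlgebraicClosure ℚ) ^ ((p : ℤ) * n) →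
      ∀ (R : ConstRed B (IsLocalRing.residue B)
        (↥(modularFunctionFieldFullC (IsLocalRing.ResidueField B) M)) (FF (M * p))),
      ∀ (hR : IsSeriesRed R),
      (∃ σ₁ ∈ S40hI1 p B, σ₁ • x ≠ x ∧ t = σ₁ • x - x) →
      ∀ Q : Place (IsLocalRing.ResidueField B) (Fk (IsLocalRing.ResidueField B) M),
          0 ≤ Q.ord (jk (IsLocalRing.ResidueField B) M) →
          ¬ (∀ z ∈ (nodeSetupNj B M p hp haux.1 hB R hR).pZero,
              (nodeSetupNj B M p hp haux.1 hB R hR).redInf z = 0 ∨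
                0 < Q.ord ((nodeSetupNj B M p hp haux.1 hB R hR).redInf z)) →
            ∀ (c : Kbar) (h2 : algebraMap Kbar (FF (M * p)) c * ux ∈ (R).O),
              (R).red ⟨algebraMap Kbar (FF (M * p)) c * ux, h2⟩ ≠ 0 →
              (p : ℤ) ∣ Q.ord ((R).red ⟨algebraMap Kbar (FF (M * p)) c * ux, h2⟩)

/-- **(WILD-PT), supersingular places, component `0`.** -/
def S44jPtNodeZero (M' p : ℕ) [NeZero M'] [NeZero p] [NeZero (M' * p)] (hp : p.Prime)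
    (B : ValuationSubring (AlgebraicClosure ℚ)) (hB : B.LiesOverPrime p) : Prop :=
  ∀ (S : Finset ℕ) (a : ℕ → ℤ) (V : AddSubgroup (JZero (M' * p))),
    (∀ ℓ : ℕ, ℓ.Prime → ℓ ∣ M' * p → ℓ ∈ S) → 2 ∈ S →
    Nat.card V = p ^ 2 → (∀ x ∈ V, p • x = 0) →
    (∀ (σ : AlgebraicClosure ℚ ≃ₐ[ℚ] AlgebraicClosure ℚ), ∀ x ∈ V, σ • x ∈ V) →
    S40hEig (M' * p) S a V → S40hNotAt M' p S a →
    (∃ ℓ : Nat.Primes, (ℓ : ℕ) ∉ S ∧ ¬ (p : ℤ) ∣ a ℓ - (1 + (ℓ : ℕ))) →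
    ∀ x ∈ V, x ≠ 0 → (∃ τ₀ ∈ B.inertiaSubgroupIn ℚ, S33hMoves p τ₀ ∧ τ₀ • x = x) →
    ∀ t ∈ V, t ≠ 0 →
    (∀ σ ∈ B.inertiaSubgroupIn ℚ, σ • x - x ∈ AddSubgroup.zmultiples t) →
    (∀ τ ∈ B.inertiaSubgroupIn ℚ, ∃ w : ℕ, τ • t = w • t ∧
      ∀ ξ : Kbar, ξ ^ p = 1 → τ ξ = ξ ^ w) →
    ∀ (M e : ℕ) (_ : NeZero M) (_ : NeZero (M * p)) (hdvd : M' ∣ M) (haux : IsAuxLevel p M),
    M = Nat.lcm M' (baseLevel p) →
    M * p = M' * p * e → dedekindPsi (M * p) < 2 * e * dedekindPsi (M' * p) →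
    ∀ (ζ : Kbar), IsPrimitiveRoot ζ p →
    letI : RRBase Kbar (modularFunctionFieldBar (M * p)) := (mod_rrHyp (M * p)).toRRBase
    ∀ (ux ut : modularFunctionFieldBar (M * p)),
    gdfIsKummer (K := Kbar) p
      (auxLevelPull (M' * p) (M * p) (Nat.mul_dvd_mul_right hdvd p) x) ux →
    gdfIsKummer (K := Kbar) p
      (auxLevelPull (M' * p) (M * p) (Nat.mul_dvd_mul_right hdvd p) t) ut →
    ∀ (U : LaurentSeries Kbar), U ^ p = (ut : LaurentSeries Kbar) →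
    ∀ (σY : ↥(cvcAdj (modularFunctionFieldBar (M * p)) U) →+*
        ↥(cvcAdj (modularFunctionFieldBar (M * p)) U)),
      ((∀ c : Kbar, σY (algebraMap Kbar ↥(cvcAdj (modularFunctionFieldBar (M * p)) U) c) =
        algebraMap Kbar ↥(cvcAdj (modularFunctionFieldBar (M * p)) U) c) ∧
      (∀ f : modularFunctionFieldBar (M * p),
        σY ⟨(f : LaurentSeries Kbar), cvc_le_adj (modularFunctionFieldBar (M * p)) U f.2⟩ =
          ⟨(f : LaurentSeries Kbar), cvc_le_adj (modularFunctionFieldBar (M * p)) U f.2⟩) ∧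
      σY ⟨U, cvc_mem_adj (modularFunctionFieldBar (M * p)) U⟩ =
        algebraMap Kbar ↥(cvcAdj (modularFunctionFieldBar (M * p)) U) ζ *
          ⟨U, cvc_mem_adj (modularFunctionFieldBar (M * p)) U⟩ ∧
      (∀ (σ : Kbar ≃ₐ[ℚ] Kbar), σ ∈ B.inertiaSubgroupIn ℚ →
        ∀ (z : ↥(cvcAdj (modularFunctionFieldBar (M * p)) U)),
        ∃ hz : coeffMap ((σ : Kbar ≃ₐ[ℚ] Kbar) : Kbar →+* Kbar) (z : LaurentSeries Kbar) ∈
            cvcAdj (modularFunctionFieldBar (M * p)) U,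
          ∃ hz' : coeffMap ((σ : Kbar ≃ₐ[ℚ] Kbar) : Kbar →+* Kbar)
              ((σY z : ↥(cvcAdj (modularFunctionFieldBar (M * p)) U)) : LaurentSeries Kbar) ∈
              cvcAdj (modularFunctionFieldBar (M * p)) U,
            σY ⟨_, hz⟩ = ⟨_, hz'⟩) ∧
      (∀ y : ↥(cvcAdj (modularFunctionFieldBar (M * p)) U), σY y = y →
        (y : LaurentSeries Kbar) ∈ modularFunctionFieldBar (M * p)) ∧
      (∀ y : ↥(cvcAdj (modularFunctionFieldBar (M * p)) U), σY^[p] y = y)) →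
    ∀ (rt κ : Kbar) (u g : ↥(cvcAdj (modularFunctionFieldBar (M * p)) U)),
      κ ≠ 0 → rt ≠ 0 → rt ^ p = κ →
      (∀ τ ∈ B.inertiaSubgroupIn ℚ, τ κ = κ) →
      (∀ τ ∈ B.inertiaSubgroupIn ℚ, (τ • x = x ↔ τ rt = rt)) →
      u ≠ 0 → g ≠ 0 →
      (∀ τ ∈ B.inertiaSubgroupIn ℚ,
        coeffMap ((τ : Kbar ≃ₐ[ℚ] Kbar) : Kbar →+* Kbar) (u : LaurentSeries Kbar) =
          (u : LaurentSeries Kbar)) →
      (∀ τ ∈ B.inertiaSubgroupIn ℚ,
        coeffMap ((τ : Kbar ≃ₐ[ℚ] Kbar) : Kbar →+* Kbar) (g : LaurentSeries Kbar) =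
          (g : LaurentSeries Kbar)) →
      σY u = algebraMap Kbar ↥(cvcAdj (modularFunctionFieldBar (M * p)) U) κ * g ^ p * u →
      (∃ (c : Kbar) (h : ↥(cvcAdj (modularFunctionFieldBar (M * p)) U)), c ≠ 0 ∧ h ≠ 0 ∧
        (u : LaurentSeries Kbar) = algebraMap Kbar (LaurentSeries Kbar) c *
          (ux : LaurentSeries Kbar) * (h : LaurentSeries Kbar) ^ p) →
      ∀ n : ℤ, B.valuation κ = B.valuation (p : AlgebraicClosure ℚ) ^ ((p : ℤ) * n) →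
      ∀ (R : ConstRed B (IsLocalRing.residue B)
        (↥(modularFunctionFieldFullC (IsLocalRing.ResidueField B) M)) (FF (M * p))),
      ∀ (hR : IsSeriesRed R),
      (∃ σ₁ ∈ S40hI1 p B, σ₁ • x ≠ x ∧ t = σ₁ • x - x) →
      ∃ δ₂ : ℤ,
        ∀ Q : Place (IsLocalRing.ResidueField B) (Fk (IsLocalRing.ResidueField B) M),
          0 ≤ Q.ord (jk (IsLocalRing.ResidueField B) M) →
          (∀ z ∈ (nodeSetupNj B M p hp haux.1 hB R hR).pInf,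
              (nodeSetupNj B M p hp haux.1 hB R hR).redZero z = 0 ∨
                0 < Q.ord ((nodeSetupNj B M p hp haux.1 hB R hR).redZero z)) →
            ∀ (c : Kbar) (h2 : algebraMap Kbar (FF (M * p)) c * ux ∈ (glmZero M p hp haux.1 R).O),
              (glmZero M p hp haux.1 R).red ⟨algebraMap Kbar (FF (M * p)) c * ux, h2⟩ ≠ 0 →
              (p : ℤ) ∣ Q.ord ((glmZero M p hp haux.1 R).red ⟨algebraMap Kbar (FF (M * p)) c * ux, h2⟩) - δ₂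

/-- **(WILD-PT), ordinary places, component `0`.** -/
def S44jPtSmZero (M' p : ℕ) [NeZero M'] [NeZero p] [NeZero (M' * p)] (hp : p.Prime)
    (B : ValuationSubring (AlgebraicClosure ℚ)) (hB : B.LiesOverPrime p) : Prop :=
  ∀ (S : Finset ℕ) (a : ℕ → ℤ) (V : AddSubgroup (JZero (M' * p))),
    (∀ ℓ : ℕ, ℓ.Prime → ℓ ∣ M' * p → ℓ ∈ S) → 2 ∈ S →
    Nat.card V = p ^ 2 → (∀ x ∈ V, p • x = 0) →
    (∀ (σ : AlgebraicClosure ℚ ≃ₐ[ℚ] AlgebraicClosure ℚ), ∀ x ∈ V, σ • x ∈ V) →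
    S40hEig (M' * p) S a V → S40hNotAt M' p S a →
    (∃ ℓ : Nat.Primes, (ℓ : ℕ) ∉ S ∧ ¬ (p : ℤ) ∣ a ℓ - (1 + (ℓ : ℕ))) →
    ∀ x ∈ V, x ≠ 0 → (∃ τ₀ ∈ B.inertiaSubgroupIn ℚ, S33hMoves p τ₀ ∧ τ₀ • x = x) →
    ∀ t ∈ V, t ≠ 0 →
    (∀ σ ∈ B.inertiaSubgroupIn ℚ, σ • x - x ∈ AddSubgroup.zmultiples t) →
    (∀ τ ∈ B.inertiaSubgroupIn ℚ, ∃ w : ℕ, τ • t = w • t ∧
      ∀ ξ : Kbar, ξ ^ p = 1 → τ ξ = ξ ^ w) →
    ∀ (M e : ℕ) (_ : NeZero M) (_ : NeZero (M * p)) (hdvd : M' ∣ M) (haux : IsAuxLevel p M),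
    M = Nat.lcm M' (baseLevel p) →
    M * p = M' * p * e → dedekindPsi (M * p) < 2 * e * dedekindPsi (M' * p) →
    ∀ (ζ : Kbar), IsPrimitiveRoot ζ p →
    letI : RRBase Kbar (modularFunctionFieldBar (M * p)) := (mod_rrHyp (M * p)).toRRBase
    ∀ (ux ut : modularFunctionFieldBar (M * p)),
    gdfIsKummer (K := Kbar) p
      (auxLevelPull (M' * p) (M * p) (Nat.mul_dvd_mul_right hdvd p) x) ux →
    gdfIsKummer (K := Kbar) p
      (auxLevelPull (M' * p) (M * p) (Nat.mul_dvd_mul_right hdvd p) t) ut →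
    ∀ (U : LaurentSeries Kbar), U ^ p = (ut : LaurentSeries Kbar) →
    ∀ (σY : ↥(cvcAdj (modularFunctionFieldBar (M * p)) U) →+*
        ↥(cvcAdj (modularFunctionFieldBar (M * p)) U)),
      ((∀ c : Kbar, σY (algebraMap Kbar ↥(cvcAdj (modularFunctionFieldBar (M * p)) U) c) =
        algebraMap Kbar ↥(cvcAdj (modularFunctionFieldBar (M * p)) U) c) ∧
      (∀ f : modularFunctionFieldBar (M * p),
        σY ⟨(f : LaurentSeries Kbar), cvc_le_adj (modularFunctionFieldBar (M * p)) U f.2⟩ =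
          ⟨(f : LaurentSeries Kbar), cvc_le_adj (modularFunctionFieldBar (M * p)) U f.2⟩) ∧
      σY ⟨U, cvc_mem_adj (modularFunctionFieldBar (M * p)) U⟩ =
        algebraMap Kbar ↥(cvcAdj (modularFunctionFieldBar (M * p)) U) ζ *
          ⟨U, cvc_mem_adj (modularFunctionFieldBar (M * p)) U⟩ ∧
      (∀ (σ : Kbar ≃ₐ[ℚ] Kbar), σ ∈ B.inertiaSubgroupIn ℚ →
        ∀ (z : ↥(cvcAdj (modularFunctionFieldBar (M * p)) U)),
        ∃ hz : coeffMap ((σ : Kbar ≃ₐ[ℚ] Kbar) : Kbar →+* Kbar) (z : LaurentSeries Kbar) ∈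
            cvcAdj (modularFunctionFieldBar (M * p)) U,
          ∃ hz' : coeffMap ((σ : Kbar ≃ₐ[ℚ] Kbar) : Kbar →+* Kbar)
              ((σY z : ↥(cvcAdj (modularFunctionFieldBar (M * p)) U)) : LaurentSeries Kbar) ∈
              cvcAdj (modularFunctionFieldBar (M * p)) U,
            σY ⟨_, hz⟩ = ⟨_, hz'⟩) ∧
      (∀ y : ↥(cvcAdj (modularFunctionFieldBar (M * p)) U), σY y = y →
        (y : LaurentSeries Kbar) ∈ modularFunctionFieldBar (M * p)) ∧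
      (∀ y : ↥(cvcAdj (modularFunctionFieldBar (M * p)) U), σY^[p] y = y)) →
    ∀ (rt κ : Kbar) (u g : ↥(cvcAdj (modularFunctionFieldBar (M * p)) U)),
      κ ≠ 0 → rt ≠ 0 → rt ^ p = κ →
      (∀ τ ∈ B.inertiaSubgroupIn ℚ, τ κ = κ) →
      (∀ τ ∈ B.inertiaSubgroupIn ℚ, (τ • x = x ↔ τ rt = rt)) →
      u ≠ 0 → g ≠ 0 →
      (∀ τ ∈ B.inertiaSubgroupIn ℚ,
        coeffMap ((τ : Kbar ≃ₐ[ℚ] Kbar) : Kbar →+* Kbar) (u : LaurentSeries Kbar) =
          (u : LaurentSeries Kbar)) →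
      (∀ τ ∈ B.inertiaSubgroupIn ℚ,
        coeffMap ((τ : Kbar ≃ₐ[ℚ] Kbar) : Kbar →+* Kbar) (g : LaurentSeries Kbar) =
          (g : LaurentSeries Kbar)) →
      σY u = algebraMap Kbar ↥(cvcAdj (modularFunctionFieldBar (M * p)) U) κ * g ^ p * u →
      (∃ (c : Kbar) (h : ↥(cvcAdj (modularFunctionFieldBar (M * p)) U)), c ≠ 0 ∧ h ≠ 0 ∧
        (u : LaurentSeries Kbar) = algebraMap Kbar (LaurentSeries Kbar) c *
          (ux : LaurentSeries Kbar) * (h : LaurentSeries Kbar) ^ p) →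
      ∀ n : ℤ, B.valuation κ = B.valuation (p : AlgebraicClosure ℚ) ^ ((p : ℤ) * n) →
      ∀ (R : ConstRed B (IsLocalRing.residue B)
        (↥(modularFunctionFieldFullC (IsLocalRing.ResidueField B) M)) (FF (M * p))),
      ∀ (hR : IsSeriesRed R),
      (∃ σ₁ ∈ S40hI1 p B, σ₁ • x ≠ x ∧ t = σ₁ • x - x) →
      ∀ Q : Place (IsLocalRing.ResidueField B) (Fk (IsLocalRing.ResidueField B) M),
          0 ≤ Q.ord (jk (IsLocalRing.ResidueField B) M) →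
          ¬ (∀ z ∈ (nodeSetupNj B M p hp haux.1 hB R hR).pInf,
              (nodeSetupNj B M p hp haux.1 hB R hR).redZero z = 0 ∨
                0 < Q.ord ((nodeSetupNj B M p hp haux.1 hB R hR).redZero z)) →
            ∀ (c : Kbar) (h2 : algebraMap Kbar (FF (M * p)) c * ux ∈ (glmZero M p hp haux.1 R).O),
              (glmZero M p hp haux.1 R).red ⟨algebraMap Kbar (FF (M * p)) c * ux, h2⟩ ≠ 0 →
              (p : ℤ) ∣ Q.ord ((glmZero M p hp haux.1 R).red ⟨algebraMap Kbar (FF (M * p)) c * ux, h2⟩)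

/-- **the four parts give (WILD-PT).** -/
theorem s40j_pt_split (M' p : ℕ) [NeZero M'] [NeZero p] [NeZero (M' * p)]
    (hp : p.Prime) (B : ValuationSubring (AlgebraicClosure ℚ)) (hB : B.LiesOverPrime p)
    (h1 : S44jPtNodeInf M' p hp B hB) (h2 : S44jPtSmInf M' p hp B hB)
    (h3 : S44jPtNodeZero M' p hp B hB) (h4 : S44jPtSmZero M' p hp B hB) :
    S44jWildPt M' p hp B hB := by
  intro S a V hS h2S hcard hVp hstab hEig hNot hnE x hx hx0 hfix t htV ht0 hHx hω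
    M e hM0 hMp0 hdvd haux hM hMe hdeg ζ hζ ux ut hux hut U hU σY hσ rt κ u g hκ0 hrt0 hpow hκI
    hSt hu0 hg0 huI hgI hσu hch n hn R hR hmv
  obtain ⟨δ₁, hA⟩ := h1 S a V hS h2S hcard hVp hstab hEig hNot hnE x hx hx0 hfix t htV ht0 hHx hω
    M e hM0 hMp0 hdvd haux hM hMe hdeg ζ hζ ux ut hux hut U hU σY hσ rt κ u g hκ0 hrt0 hpow hκI
    hSt hu0 hg0 huI hgI hσu hch n hn R hR hmv
  have hB' := h2 S a V hS h2S hcard hVp hstab hEig hNot hnE x hx hx0 hfix t htV ht0 hHx hω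
    M e hM0 hMp0 hdvd haux hM hMe hdeg ζ hζ ux ut hux hut U hU σY hσ rt κ u g hκ0 hrt0 hpow hκI
    hSt hu0 hg0 huI hgI hσu hch n hn R hR hmv
  obtain ⟨δ₂, hC⟩ := h3 S a V hS h2S hcard hVp hstab hEig hNot hnE x hx hx0 hfix t htV ht0 hHx hω
    M e hM0 hMp0 hdvd haux hM hMe hdeg ζ hζ ux ut hux hut U hU σY hσ rt κ u g hκ0 hrt0 hpow hκI
    hSt hu0 hg0 huI hgI hσu hch n hn R hR hmv
  have hD := h4 S a V hS h2S hcard hVp hstab hEig hNot hnE x hx hx0 hfix t htV ht0 hHx hω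
    M e hM0 hMp0 hdvd haux hM hMe hdeg ζ hζ ux ut hux hut U hU σY hσ rt κ u g hκ0 hrt0 hpow hκI
    hSt hu0 hg0 huI hgI hσu hch n hn R hR hmv
  exact ⟨δ₁, δ₂, fun Q hQ => ⟨hA Q hQ, hB' Q hQ⟩, fun Q hQ => ⟨hC Q hQ, hD Q hQ⟩⟩

end Fermat.Agent.S40lib

end
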