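import Mathlib
import Fermat.Agent.S36lib.Speed
import Fermat.Agent.S40lib.FreyFinal5
import Fermat.Agent.S40lib.WildPtSplit

/-!
# Item 88 (S44): S44 from the FOUR per-point parts (chief architect helper6)

`s44g_final_split`: the statement S44 from the four per-point statements of helper22's
`WildPtSplit.lean` (`S44jPtNodeInf`, `S44jPtSmInf`, `S44jPtNodeZero`, `S44jPtSmZero`), each at
every squarefree level `M'` prime to `p ≥ 5`.  Wired inside: `s40j_pt_split` (helper22),
`s44g_final_pt` (FreyFinal5).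
-/

set_option autoImplicit false
set_option linter.style.haveILetI false

noncomputable section

namespace Fermat.Agent.S40lib

open Fermat.Agent.GalRep ModularCurve Fermat.Agent.S31lib Fermat.Agent.S35lib
  Fermat.Agent.S33lib WeierstrassCurve WeierstrassCurve.Affine WeierstrassCurve.Affine.Point

/-- **S44 from the four per-point parts**. -/
theorem s44g_final_split
    (hNI : ∀ (p : ℕ) (hp : p.Prime), 5 ≤ p → ∀ (B : ValuationSubring (AlgebraicClosure ℚ))
      (hB : B.LiesOverPrime p) (M' : ℕ) [NeZero M'] [NeZero p] [NeZero (M' * p)], ¬ p ∣ M' →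
        Squarefree M' → S44jPtNodeInf M' p hp B hB)
    (hSI : ∀ (p : ℕ) (hp : p.Prime), 5 ≤ p → ∀ (B : ValuationSubring (AlgebraicClosure ℚ))
      (hB : B.LiesOverPrime p) (M' : ℕ) [NeZero M'] [NeZero p] [NeZero (M' * p)], ¬ p ∣ M' →
        Squarefree M' → S44jPtSmInf M' p hp B hB)
    (hNZ : ∀ (p : ℕ) (hp : p.Prime), 5 ≤ p → ∀ (B : ValuationSubring (AlgebraicClosure ℚ))
      (hB : B.LiesOverPrime p) (M' : ℕ) [NeZero M'] [NeZero p] [NeZero (M' * p)], ¬ p ∣ M' →
        Squarefree M' → S44jPtNodeZero M' p hp B hB)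
    (hSZ : ∀ (p : ℕ) (hp : p.Prime), 5 ≤ p → ∀ (B : ValuationSubring (AlgebraicClosure ℚ))
      (hB : B.LiesOverPrime p) (M' : ℕ) [NeZero M'] [NeZero p] [NeZero (M' * p)], ¬ p ∣ M' →
        Squarefree M' → S44jPtSmZero M' p hp B hB)
    (P : FreyPackage) {N : ℕ} (hcond : P.IsConductorLevel N)
    (hpN : P.p ∣ N)
    (hirr : GaloisRepIsIrreducible (K := AlgebraicClosure ℚ) ℚ P.freyCurve P.p)
    (hmod : P.ModularRepOfLevel N) :
    ∃ M : ℕ, M ∣ N ∧ ¬ P.p ∣ M ∧ P.ModularRepOfLevel M :=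
  s44g_final_pt
    (fun p hp h5 B hB M' _ _ _ hpM' hsq =>
      s40j_pt_split M' p hp B hB (hNI p hp h5 B hB M' hpM' hsq) (hSI p hp h5 B hB M' hpM' hsq)
        (hNZ p hp h5 B hB M' hpM' hsq) (hSZ p hp h5 B hB M' hpM' hsq))
    P hcond hpN hirr hmod

end Fermat.Agent.S40lib

end
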