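/-
Item 88 (S40/S44), input (G-INT) of the final assembler (helper1), ABSTRACT part.

The function `g` of the normal form `u₂ = 1 + λ^p g` is only fixed by `I₁`, so it does not lie in
`Frac (B_s)`; but it is integral over `B_s`:

* `gia_integral` : `𝒪 ⊂ E` a subring, `T` a set of ring endomorphisms of the field `E`, every
  `T`-fixed element of `𝒪` in the image of `R`; `Z ⊂ 𝒪` a finite `T`-stable set.  Then every
  `g ∈ Z` is integral over `R` (root of `∏_{y ∈ Z} (X - y) ∈ R[X]`).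
* `gia_orbit`    : concrete orbit: for a subgroup `H` of `Aut(K/ℚ)` acting coefficientwise on
  `K((q))`, `ζ` a primitive `p`-th root of unity and `g` fixed by `H₁ = {τ ∈ H | τ ζ = ζ}`, the
  finite set `Z = {ρ g | ρ ∈ s}` (`s` the representatives of `tav_main`) contains `g` and is
  stable under `H`.
-/
import Mathlib
import Fermat.Agent.S40lib.TameAvg

set_option autoImplicit false
set_option linter.unusedSectionVars false
set_option linter.unusedVariables false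
set_option linter.style.haveILetI false

noncomputable section

open Polynomial ModularCurve

namespace Fermat.Agent.S40lib

section Abs

variable {R : Type*} [CommRing R] {E : Type*} [Field E] [Algebra R E]

/-- the orbit polynomial -/
def giaPoly (Z : Finset E) : E[X] := ∏ y ∈ Z, (X - C y)

theorem gia_poly_monic (Z : Finset E) : (giaPoly Z).Monic :=
  monic_prod_of_monic _ _ fun y _ => monic_X_sub_C y

theorem gia_poly_eval (Z : Finset E) {g : E} (hg : g ∈ Z) : (giaPoly Z).eval g = 0 := by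
  rw [giaPoly, eval_prod]
  exact Finset.prod_eq_zero hg (by simp)

theorem gia_poly_map (Z : Finset E) (τ : E →+* E) (hτ : ∀ y ∈ Z, τ y ∈ Z) :
    (giaPoly Z).map τ = giaPoly Z := by
  classical
  have himg : Z.image τ = Z := by
    apply Finset.eq_of_subset_of_card_le
    · intro y hy
      obtain ⟨x, hx, rfl⟩ := Finset.mem_image.mp hy
      exact hτ x hx
    · rw [Finset.card_image_of_injective _ τ.injective]
  rw [giaPoly, Polynomial.map_prod]
  have h1 : ∀ y ∈ Z, (X - C y).map τ = X - C (τ y) := by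
    intro y _
    rw [Polynomial.map_sub, map_X, map_C]
  rw [Finset.prod_congr rfl h1]
  conv_rhs => rw [← himg]
  rw [Finset.prod_image (fun a _ b _ h => τ.injective h)]

theorem gia_poly_coeff_mem (𝒪 : Subring E) (Z : Finset E) (hZ : ∀ y ∈ Z, y ∈ 𝒪) (n : ℕ) :
    (giaPoly Z).coeff n ∈ 𝒪 := by
  classical
  have h1 : (∏ y ∈ Z.attach, (X - C (⟨y.1, hZ y.1 y.2⟩ : 𝒪))).map 𝒪.subtype = giaPoly Z := by
    rw [Polynomial.map_prod, giaPoly, ← Finset.prod_attach Z]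
    refine Finset.prod_congr rfl fun y _ => ?_
    rw [Polynomial.map_sub, map_X, map_C]
    rfl
  rw [← h1, coeff_map]
  exact (((∏ y ∈ Z.attach, (X - C (⟨y.1, hZ y.1 y.2⟩ : 𝒪))).coeff n : 𝒪)).2

/-- **(G-INT), abstract**: an element of a finite `T`-stable subset of `𝒪` is integral over
`R` as soon as the `T`-fixed elements of `𝒪` come from `R`. -/
theorem gia_integral (𝒪 : Subring E) (T : Set (E →+* E))
    (hB : ∀ x ∈ 𝒪, (∀ τ ∈ T, τ x = x) → x ∈ Set.range (algebraMap R E))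
    (Z : Finset E) (hZ𝒪 : ∀ y ∈ Z, y ∈ 𝒪) (hZT : ∀ τ ∈ T, ∀ y ∈ Z, τ y ∈ Z)
    {g : E} (hg : g ∈ Z) : IsIntegral R g := by
  have hlifts : giaPoly Z ∈ Polynomial.lifts (algebraMap R E) := by
    rw [Polynomial.lifts_iff_coeff_lifts]
    intro n
    refine hB _ (gia_poly_coeff_mem 𝒪 Z hZ𝒪 n) fun τ hτ => ?_
    rw [← coeff_map, gia_poly_map Z τ (hZT τ hτ)]
  obtain ⟨Q, hQmap, -, hQmonic⟩ :=
    Polynomial.lifts_and_natDegree_eq_and_monic hlifts (gia_poly_monic Z)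
  refine ⟨Q, hQmonic, ?_⟩
  rw [eval₂_eq_eval_map, hQmap, gia_poly_eval Z hg]

end Abs

section Orbit

variable {K : Type*} [Field K] [Algebra ℚ K]

/-- **the orbit of an `H₁`-fixed series under `H`**: finite, contains `g`, `H`-stable -/
theorem gia_orbit {p : ℕ} (hp : p.Prime) {ζ : K} (hζ : IsPrimitiveRoot ζ p)
    (H : Subgroup (K ≃ₐ[ℚ] K)) (g : LaurentSeries K)
    (hg : ∀ τ ∈ H, τ ζ = ζ → coeffMap ((τ : K ≃ₐ[ℚ] K) : K →+* K) g = g) :
    ∃ Z : Finset (LaurentSeries K), g ∈ Z ∧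
      (∀ y ∈ Z, ∃ ρ ∈ H, y = coeffMap ((ρ : K ≃ₐ[ℚ] K) : K →+* K) g) ∧
      ∀ τ ∈ H, ∀ y ∈ Z, coeffMap ((τ : K ≃ₐ[ℚ] K) : K →+* K) y ∈ Z := by
  classical
  obtain ⟨s, -, -, -, hall, -⟩ := tav_main hp hζ H g hg
  -- `coeffMap τ g` depends only on `τ ζ`
  have hdep : ∀ τ ∈ H, ∀ ρ ∈ H, τ ζ = ρ ζ →
      coeffMap ((τ : K ≃ₐ[ℚ] K) : K →+* K) g = coeffMap ((ρ : K ≃ₐ[ℚ] K) : K →+* K) g := by
    intro τ hτ ρ hρ h
    have h1 : (ρ⁻¹ * τ) ζ = ζ := by
      rw [AlgEquiv.mul_apply, h]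
      exact ρ.symm_apply_apply ζ
    have h2 := hg (ρ⁻¹ * τ) (H.mul_mem (H.inv_mem hρ) hτ) h1
    have h3 : coeffMap ((τ : K ≃ₐ[ℚ] K) : K →+* K) g =
        coeffMap ((ρ : K ≃ₐ[ℚ] K) : K →+* K)
          (coeffMap (((ρ⁻¹ * τ : K ≃ₐ[ℚ] K)) : K →+* K) g) := by
      ext n
      simp only [coeffMap_coeff]
      show τ (g.coeff n) = ρ ((ρ⁻¹ * τ) (g.coeff n))
      rw [AlgEquiv.mul_apply]
      exact (ρ.apply_symm_apply _).symm
    rw [h3, h2]
  refine ⟨s.image (fun ρ : ↥H => coeffMap (((ρ : ↥H) : K ≃ₐ[ℚ] K) : K →+* K) g), ?_, ?_, ?_⟩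
  · obtain ⟨ρ, hρ, hρζ⟩ := hall 1 H.one_mem
    refine Finset.mem_image.mpr ⟨ρ, hρ, ?_⟩
    rw [hdep ρ ρ.2 1 H.one_mem hρζ]
    ext n
    rfl
  · intro y hy
    obtain ⟨ρ, -, rfl⟩ := Finset.mem_image.mp hy
    exact ⟨ρ, ρ.2, rfl⟩
  · intro τ hτ y hy
    obtain ⟨ρ, -, rfl⟩ := Finset.mem_image.mp hy
    obtain ⟨ρ', hρ', hρ'ζ⟩ := hall (τ * ρ) (H.mul_mem hτ ρ.2)
    refine Finset.mem_image.mpr ⟨ρ', hρ', ?_⟩
    rw [hdep ρ' ρ'.2 (τ * ρ) (H.mul_mem hτ ρ.2) hρ'ζ]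
    ext n
    rfl

end Orbit


end Fermat.Agent.S40lib

end
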