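import Mathlib
import Fermat.Agent.S36lib.Speed
import Fermat.Agent.S36lib.TheSetup
import Fermat.Agent.S36lib.FixedF0
import Fermat.Agent.S36lib.VNoethK0
import Fermat.Agent.S34lib.InertiaRedAL
import Fermat.Agent.S34lib.VRedInto
import Fermat.Agent.S34lib.GlueMod
import Fermat.Agent.S40lib.Hub
import Fermat.Agent.S40lib.GIntAbs
import Fermat.Agent.S40lib.CoverRInst

/-!
# Item 88 (S44), block (J-WILD), input (G-INT) of the final assembler, CONCRETE (helper29)

The function `g` of the normal form (`rkn_normal` / `wzn_normal`) is only fixed by `I₁`; it lies in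
`O_R ∩ O_{R₀}` and is regular off the cusps.  `gint_main`: such a `g` is integral over the affine
ring `S.B` of the node setup `S = nodeSetupNj A M p hp hpM hA R hR`, and (`gint_EY`) over every
localisation `B_s` inside any cover field `EY ⊇ FF (M p)` (the algebra `criAlg` of helper8).

Proof: `gia_integral` + `gia_orbit` (helper1) with `𝒪 = cuspRegular ∩ O_R ∩ O_{R₀}` (stable under
the inertia group `I`), and `𝒪^I ⊂ S.B` (`F^I = F0`, `mem_nodeSetupConc_B`).
-/

set_option autoImplicit false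
set_option linter.style.haveILetI false
set_option linter.unusedSectionVars false
set_option linter.unusedVariables false
set_option synthInstance.maxHeartbeats 400000

noncomputable section

namespace Fermat.Agent.S40lib

open ModularCurve HahnSeries AlgebraicCurve Fermat.Agent.S24lib Fermat.Agent.S33lib
  Fermat.Agent.S34lib Fermat.Agent.RRlib Fermat.Agent.S36lib Fermat.Agent.GoodRed

variable (M p : ℕ) [NeZero M] [NeZero p] [NeZero (M * p)] (hp : p.Prime) (hpM : ¬ p ∣ M)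
variable {A : ValuationSubring Kbar}

/-- the ring `𝒪 = cuspRegular ∩ O_R ∩ O_{R₀}` -/
def gintO (R : ConstRed A (IsLocalRing.residue A)
      (↥(modularFunctionFieldFullC (IsLocalRing.ResidueField A) M)) (FF (M * p))) :
    Subring (FF (M * p)) :=
  cuspRegular (M * p) ⊓ R.O.toSubring ⊓ (glmZero M p hp hpM R).O.toSubring

theorem gint_mem_O (R : ConstRed A (IsLocalRing.residue A)
      (↥(modularFunctionFieldFullC (IsLocalRing.ResidueField A) M)) (FF (M * p)))
    (x : FF (M * p)) :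
    x ∈ gintO M p hp hpM R ↔
      x ∈ cuspRegular (M * p) ∧ x ∈ R.O ∧ x ∈ (glmZero M p hp hpM R).O := by
  unfold gintO
  rw [Subring.mem_inf, Subring.mem_inf]
  exact ⟨fun h => ⟨h.1.1, h.1.2, h.2⟩, fun h => ⟨⟨h.1, h.2.1⟩, h.2.2⟩⟩

/-- the functions regular off the cusps are stable under the inertia group -/
theorem gint_cusp_stable (A : ValuationSubring Kbar) (σ : Kbar ≃ₐ[ℚ] Kbar)
    (hσ : σ ∈ A.inertiaSubgroupIn ℚ) (x : FF (M * p)) (hx : x ∈ cuspRegular (M * p)) :
    galFF (M * p) σ • x ∈ cuspRegular (M * p) := by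
  have hj : galFF (M * p) σ • jF (M * p) = jF (M * p) :=
    (mem_f0Field_iff_isIFixed A (M * p) (jF (M * p))).mp (vnk_jF_mem A (M * p)) σ hσ
  rw [mem_cuspRegular_iff] at hx ⊢
  intro P hP
  have h1 : jF (M * p) ∈ ((galFF (M * p) σ)⁻¹ • P).toValuationSubring := by
    rw [Fermat.Agent.HeckeBar.gal_mem_smul_iff, inv_inv, hj]
    exact hP
  have h2 := hx _ h1
  rw [Fermat.Agent.HeckeBar.gal_mem_smul_iff, inv_inv] at h2
  exact h2

/-- `𝒪` is stable under the inertia group -/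
theorem gint_stable (hA : A.LiesOverPrime p)
    (R : ConstRed A (IsLocalRing.residue A)
      (↥(modularFunctionFieldFullC (IsLocalRing.ResidueField A) M)) (FF (M * p)))
    (hR : IsSeriesRed R) (σ : Kbar ≃ₐ[ℚ] Kbar)
    (hσ : σ ∈ A.inertiaSubgroupIn ℚ) (x : FF (M * p)) (hx : x ∈ gintO M p hp hpM R) :
    galFF (M * p) σ • x ∈ gintO M p hp hpM R := by
  rw [gint_mem_O] at hx ⊢
  have hfrac : HasPrimFrac A (modularFunctionFieldBar (M * p)) := vri_hfrac (M * p) p hp A hA
  refine ⟨gint_cusp_stable M p A σ hσ x hx.1, ?_, ?_⟩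
  · exact (inred_isInertial_inf (M * p) hR hfrac σ hσ).smul_mem hx.2.1
  · exact (inred_isInertial_zero (M * p) p hp (dvd_mul_left p M) (inf_not_sq_dvd M p hp hpM)
      hR hfrac σ hσ).smul_mem hx.2.2

/-- the inclusion `S.B ⊂ F0 ⊂ FF ⊂ ℚ̄((q))` -/
def gintIncl (hA : A.LiesOverPrime p)
    (R : ConstRed A (IsLocalRing.residue A)
      (↥(modularFunctionFieldFullC (IsLocalRing.ResidueField A) M)) (FF (M * p)))
    (hR : IsSeriesRed R) :
    ↥(nodeSetupNj A M p hp hpM hA R hR).B →+* LaurentSeries Kbar where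
  toFun b := (((b : ↥(f0Field A (M * p))) : FF (M * p)) : LaurentSeries Kbar)
  map_one' := rfl
  map_mul' _ _ := rfl
  map_zero' := rfl
  map_add' _ _ := rfl

/-- the inertia-fixed elements of `𝒪` lie in `S.B` -/
theorem gint_fixed_mem (hA : A.LiesOverPrime p)
    (R : ConstRed A (IsLocalRing.residue A)
      (↥(modularFunctionFieldFullC (IsLocalRing.ResidueField A) M)) (FF (M * p)))
    (hR : IsSeriesRed R) (y : FF (M * p)) (hy : y ∈ gintO M p hp hpM R)
    (hfix : ∀ σ ∈ A.inertiaSubgroupIn ℚ,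
      coeffMap ((σ : Kbar ≃ₐ[ℚ] Kbar) : Kbar →+* Kbar) (y : LaurentSeries Kbar) =
        (y : LaurentSeries Kbar)) :
    ∃ b : ↥(nodeSetupNj A M p hp hpM hA R hR).B,
      gintIncl M p hp hpM hA R hR b = (y : LaurentSeries Kbar) := by
  rw [gint_mem_O] at hy
  have hyF0 : y ∈ f0Field A (M * p) := by
    rw [mem_f0Field_iff_coeff]
    intro n
    rw [mem_k0Field_iff]
    intro σ hσ
    have h3 := congrArg (fun x : LaurentSeries Kbar => x.coeff n) (hfix σ hσ)
    simp only [coeffMap_coeff] at h3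
    exact h3
  have hB : (⟨y, hyF0⟩ : ↥(f0Field A (M * p))) ∈ (nodeSetupNj A M p hp hpM hA R hR).B := by
    unfold nodeSetupNj nodeSetupND
    rw [mem_nodeSetupConc_B, offRegular_cuspSet]
    exact ⟨hy.1, hy.2.1, hy.2.1, hy.2.2⟩
  exact ⟨⟨⟨y, hyF0⟩, hB⟩, rfl⟩

set_option maxHeartbeats 1000000 in
/-- **(G-INT)**: an `I₁`-fixed function of `cuspRegular ∩ O_R ∩ O_{R₀}` is integral over the
affine ring `S.B` of the node setup. -/
theorem gint_main (hA : A.LiesOverPrime p)
    (R : ConstRed A (IsLocalRing.residue A)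
      (↥(modularFunctionFieldFullC (IsLocalRing.ResidueField A) M)) (FF (M * p)))
    (hR : IsSeriesRed R) {ζ : Kbar} (hζ : IsPrimitiveRoot ζ p) (g : FF (M * p))
    (hg1 : ∀ σ ∈ S40hI1 p A, galFF (M * p) σ • g = g)
    (hgc : g ∈ cuspRegular (M * p)) (hgR : g ∈ R.O) (hg0 : g ∈ (glmZero M p hp hpM R).O) :
    (gintIncl M p hp hpM hA R hR).IsIntegralElem (g : LaurentSeries Kbar) := by
  classical
  letI : Algebra ↥(nodeSetupNj A M p hp hpM hA R hR).B (LaurentSeries Kbar) :=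
    (gintIncl M p hp hpM hA R hR).toAlgebra
  -- `g` is fixed coefficientwise by the elements of `I` fixing `ζ`
  have hgfix : ∀ τ ∈ A.inertiaSubgroupIn ℚ, τ ζ = ζ →
      coeffMap ((τ : Kbar ≃ₐ[ℚ] Kbar) : Kbar →+* Kbar) (g : LaurentSeries Kbar) =
        (g : LaurentSeries Kbar) := by
    intro τ hτ hτζ
    have hmem : τ ∈ S40hI1 p A := by
      refine ⟨hτ, fun ξ hξ => ?_⟩
      obtain ⟨m, -, hm⟩ := hζ.eq_pow_of_pow_eq_one hξ
      rw [← hm, map_pow, hτζ]
    have h := hg1 τ hmem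
    exact congrArg (fun x : FF (M * p) => (x : LaurentSeries Kbar)) h
  obtain ⟨Z, hgZ, hZrep, hZst⟩ := gia_orbit hp hζ (A.inertiaSubgroupIn ℚ)
    (g : LaurentSeries Kbar) hgfix
  -- the ring `𝒪` inside the Laurent series
  let 𝒪 : Subring (LaurentSeries Kbar) :=
    (gintO M p hp hpM R).map ((modularFunctionFieldBar (M * p)).val : FF (M * p) →+* _)
  let T : Set (LaurentSeries Kbar →+* LaurentSeries Kbar) :=
    {f | ∃ σ ∈ A.inertiaSubgroupIn ℚ, f = coeffMap ((σ : Kbar ≃ₐ[ℚ] Kbar) : Kbar →+* Kbar)}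
  have hgO : g ∈ gintO M p hp hpM R := (gint_mem_O M p hp hpM R g).2 ⟨hgc, hgR, hg0⟩
  refine gia_integral (R := ↥(nodeSetupNj A M p hp hpM hA R hR).B) 𝒪 T ?_ Z ?_ ?_ hgZ
  · rintro x ⟨y, hy, rfl⟩ hfix
    obtain ⟨b, hb⟩ := gint_fixed_mem M p hp hpM hA R hR y hy
      (fun σ hσ => hfix _ ⟨σ, hσ, rfl⟩)
    exact ⟨b, hb⟩
  · intro y hy
    obtain ⟨ρ, hρ, rfl⟩ := hZrep y hy
    exact ⟨galFF (M * p) ρ • g, gint_stable M p hp hpM hA R hR ρ hρ g hgO, rfl⟩
  · rintro τ ⟨σ, hσ, rfl⟩ y hy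
    exact hZst σ hσ y hy

variable (EY : IntermediateField Kbar (LaurentSeries Kbar))
  (hle : modularFunctionFieldBar (M * p) ≤ EY)

set_option maxHeartbeats 1000000 in
/-- **(G-INT) in the cover field**: `g` is integral over every localisation `B_s` of `S.B`,
inside any cover field `EY ⊇ FF (M p)` (the algebra structure `criAlg` of helper8). -/
theorem gint_EY (hA : A.LiesOverPrime p)
    (R : ConstRed A (IsLocalRing.residue A)
      (↥(modularFunctionFieldFullC (IsLocalRing.ResidueField A) M)) (FF (M * p)))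
    (hR : IsSeriesRed R) {ζ : Kbar} (hζ : IsPrimitiveRoot ζ p) (g : FF (M * p))
    (hg1 : ∀ σ ∈ S40hI1 p A, galFF (M * p) σ • g = g)
    (hgc : g ∈ cuspRegular (M * p)) (hgR : g ∈ R.O) (hg0 : g ∈ (glmZero M p hp hpM R).O)
    (s : Ideal ↥(nodeSetupNj A M p hp hpM hA R hR).B) [hs : s.IsPrime] :
    (criHom A (M * p) EY hle (nodeSetupNj A M p hp hpM hA R hR).B s).IsIntegralElem
      (⟨(g : LaurentSeries Kbar), hle g.2⟩ : ↥EY) := by
  obtain ⟨Q, hQm, hQ0⟩ := gint_main M p hp hpM hA R hR hζ g hg1 hgc hgR hg0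
  refine ⟨Q.map (algebraMap _ (Localization.AtPrime s)), hQm.map _, ?_⟩
  rw [Polynomial.eval₂_map]
  have hcomp : (criHom A (M * p) EY hle (nodeSetupNj A M p hp hpM hA R hR).B s).comp
      (algebraMap _ (Localization.AtPrime s)) =
      criIncl A (M * p) EY hle (nodeSetupNj A M p hp hpM hA R hR).B :=
    RingHom.ext fun b => cri_hom_algebraMap A (M * p) EY hle _ s b
  rw [hcomp]
  apply Subtype.ext
  have h1 := Polynomial.hom_eval₂ Q
    (criIncl A (M * p) EY hle (nodeSetupNj A M p hp hpM hA R hR).B)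
    (EY.val : ↥EY →+* LaurentSeries Kbar) (⟨(g : LaurentSeries Kbar), hle g.2⟩ : ↥EY)
  have h2 : ((EY.val : ↥EY →+* LaurentSeries Kbar)).comp
      (criIncl A (M * p) EY hle (nodeSetupNj A M p hp hpM hA R hR).B) =
      gintIncl M p hp hpM hA R hR := RingHom.ext fun b => rfl
  rw [h2] at h1
  show (EY.val : ↥EY →+* LaurentSeries Kbar) _ = _
  rw [h1]
  exact hQ0

/-- **(G-INT)**, `IsIntegral` form for the algebra `criAlg`. -/
theorem gint_EY_isIntegral (hA : A.LiesOverPrime p)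
    (R : ConstRed A (IsLocalRing.residue A)
      (↥(modularFunctionFieldFullC (IsLocalRing.ResidueField A) M)) (FF (M * p)))
    (hR : IsSeriesRed R) {ζ : Kbar} (hζ : IsPrimitiveRoot ζ p) (g : FF (M * p))
    (hg1 : ∀ σ ∈ S40hI1 p A, galFF (M * p) σ • g = g)
    (hgc : g ∈ cuspRegular (M * p)) (hgR : g ∈ R.O) (hg0 : g ∈ (glmZero M p hp hpM R).O)
    (s : Ideal ↥(nodeSetupNj A M p hp hpM hA R hR).B) [hs : s.IsPrime] :
    letI := criAlg A (M * p) EY hle (nodeSetupNj A M p hp hpM hA R hR).B s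
    IsIntegral (Localization.AtPrime s) (⟨(g : LaurentSeries Kbar), hle g.2⟩ : ↥EY) :=
  gint_EY M p hp hpM EY hle hA R hR hζ g hg1 hgc hgR hg0 s

end Fermat.Agent.S40lib

end
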