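import Mathlib
import Fermat.Agent.S36lib.Speed
import Fermat.Agent.S36lib.Reg1Conc
import Fermat.Agent.S33lib.CruxPInst
import Fermat.Agent.S40lib.GInt

/-!
# Item 88 (S44), (G-INT), the bridge to the normal form (helper29)

`rkn_normal` / `wzn_normal` produce `g ∈ cxiB ∞ 0` (regular off the two cusps `∞`, `0`);
`gint2_cxiB_le`: such a `g` is regular off the cusps.  `gint2_EY_isIntegral` = `gint_EY_isIntegral`
with the hypotheses EXACTLY in the form of the conclusion of `rkn_normal`.
-/

set_option autoImplicit false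
set_option linter.style.haveILetI false
set_option linter.unusedSectionVars false
set_option linter.unusedVariables false
set_option synthInstance.maxHeartbeats 400000

noncomputable section

namespace Fermat.Agent.S40lib

open ModularCurve HahnSeries AlgebraicCurve Fermat.Agent.S24lib Fermat.Agent.S33lib
  Fermat.Agent.S34lib Fermat.Agent.RRlib Fermat.Agent.S36lib Fermat.Agent.GoodRed

variable (M p : ℕ) [NeZero M] [NeZero p] [NeZero (M * p)] (hp : p.Prime) (hpM : ¬ p ∣ M)
variable {A : ValuationSubring Kbar}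

/-- regular off `∞` and `0` ⇒ regular off the cusps -/
theorem gint2_cxiB_le [RRHyp Kbar (FF (M * p))] (x : FF (M * p))
    (hx : x ∈ cxiB (infPlaceBar (M * p))
      (cuspZero (M * p) p hp (dvd_mul_left p M) (inf_not_sq_dvd M p hp hpM))) :
    x ∈ cuspRegular (M * p) := by
  rw [mem_cuspRegular_iff]
  intro P hP
  have h1 : P ≠ infPlaceBar (M * p) := by
    rintro rfl
    exact r1c_inf_mem_cuspSet M p hP
  have h2 : P ≠ cuspZero (M * p) p hp (dvd_mul_left p M) (inf_not_sq_dvd M p hp hpM) := by
    rintro rfl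
    exact r1c_zero_mem_cuspSet M p hp hpM hP
  rcases (mem_cxiB_iff_ord (K := Kbar) _ _ x).1 hx P h1 h2 with h | h
  · rw [h]
    exact P.toValuationSubring.zero_mem
  · exact (ffMem_iff_ord_nonneg P).2 h

variable (EY : IntermediateField Kbar (LaurentSeries Kbar))
  (hle : modularFunctionFieldBar (M * p) ≤ EY)

/-- **(G-INT)** with the hypotheses in the form of the conclusion of `rkn_normal`. -/
theorem gint2_EY_isIntegral [RRHyp Kbar (FF (M * p))] (hA : A.LiesOverPrime p)
    (R : ConstRed A (IsLocalRing.residue A)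
      (↥(modularFunctionFieldFullC (IsLocalRing.ResidueField A) M)) (FF (M * p)))
    (hR : IsSeriesRed R) {ζ : Kbar} (hζ : IsPrimitiveRoot ζ p) (g : FF (M * p))
    (hg1 : ∀ σ ∈ S40hI1 p A, galFF (M * p) σ • g = g)
    (hgc : g ∈ cxiB (infPlaceBar (M * p))
      (cuspZero (M * p) p hp (dvd_mul_left p M) (inf_not_sq_dvd M p hp hpM)))
    (hgR : g ∈ R.O) (hg0 : g ∈ (glmZero M p hp hpM R).O)
    (s : Ideal ↥(nodeSetupNj A M p hp hpM hA R hR).B) [hs : s.IsPrime] :
    letI := criAlg A (M * p) EY hle (nodeSetupNj A M p hp hpM hA R hR).B s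
    IsIntegral (Localization.AtPrime s) (⟨(g : LaurentSeries Kbar), hle g.2⟩ : ↥EY) :=
  gint_EY_isIntegral M p hp hpM EY hle hA R hR hζ g hg1
    (gint2_cxiB_le M p hp hpM g hgc) hgR hg0 s

end Fermat.Agent.S40lib

end
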