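/-
Item 88 (S40), (J-WILD), piece G2c (helper29): transitivity of the Galois group on the primes
(nodes / branches) of the cover above a prime of the base.

`R` an integrally closed domain with fraction field `F0`, `E0/F0` a field extension, `G` a finite
group acting on `E0` with fixed field `F0`, `C ⊆ E0` a `G`-stable `R`-subalgebra, integral over
`R`.  Then `G` acts transitively on the primes of `C` above a given prime of `R`.
-/
import Mathlib

set_option autoImplicit false

noncomputable section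

namespace Fermat.Agent.S40lib

open Pointwise

variable {R F0 E0 : Type*} [CommRing R] [IsDomain R] [IsIntegrallyClosed R] [Field F0] [Field E0]
  [Algebra R F0] [IsFractionRing R F0] [Algebra F0 E0] [Algebra R E0] [IsScalarTower R F0 E0]
  {G : Type*} [Group G] [MulSemiringAction G E0]

/-- the action of `G` on a `G`-stable subalgebra -/
def g2cAction (C : Subalgebra R E0) (hC : ∀ (g : G) (c : E0), c ∈ C → g • c ∈ C) :
    MulSemiringAction G ↥C where
  smul g c := ⟨g • (c : E0), hC g c c.2⟩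
  one_smul c := Subtype.ext (one_smul G (c : E0))
  mul_smul g h c := Subtype.ext (mul_smul g h (c : E0))
  smul_zero g := Subtype.ext (smul_zero g)
  smul_add g a b := Subtype.ext (smul_add g (a : E0) (b : E0))
  smul_one g := Subtype.ext (smul_one g)
  smul_mul g a b := Subtype.ext (smul_mul' g (a : E0) (b : E0))

theorem g2c_smul_coe (C : Subalgebra R E0) (hC : ∀ (g : G) (c : E0), c ∈ C → g • c ∈ C)
    (g : G) (c : ↥C) :
    (((g2cAction C hC).smul g c : ↥C) : E0) = g • (c : E0) := rfl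

/-- **G2c**: `G` is transitive on the primes of `C` above a prime of `R`. -/
theorem g2c_transitive [Finite G]
    (hGF : ∀ (g : G) (a : F0), g • algebraMap F0 E0 a = algebraMap F0 E0 a)
    (hfix : ∀ e : E0, (∀ g : G, g • e = e) → ∃ a : F0, algebraMap F0 E0 a = e)
    (C : Subalgebra R E0) (hC : ∀ (g : G) (c : E0), c ∈ C → g • c ∈ C)
    (hint : ∀ c ∈ C, IsIntegral R c)
    (P Q : Ideal ↥C) [P.IsPrime] [Q.IsPrime]
    (hPQ : P.comap (algebraMap R ↥C) = Q.comap (algebraMap R ↥C)) :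
    ∃ g : G, ∀ c : ↥C, c ∈ Q ↔ (⟨g⁻¹ • (c : E0), hC g⁻¹ c c.2⟩ : ↥C) ∈ P := by
  letI : MulSemiringAction G ↥C := g2cAction C hC
  have hsm : ∀ (g : G) (c : ↥C), ((g • c : ↥C) : E0) = g • (c : E0) := fun g c => rfl
  have hGR : ∀ (g : G) (r : R), g • algebraMap R E0 r = algebraMap R E0 r := by
    intro g r
    rw [IsScalarTower.algebraMap_apply R F0 E0, hGF]
  haveI : SMulCommClass G R ↥C := ⟨fun g r c => by
    apply Subtype.ext
    rw [hsm]
    show g • ((r • c : ↥C) : E0) = ((r • (g • c) : ↥C) : E0)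
    rw [Subalgebra.coe_smul, Subalgebra.coe_smul, hsm, Algebra.smul_def, Algebra.smul_def,
      smul_mul', hGR]⟩
  haveI : Algebra.IsInvariant R ↥C G := ⟨fun c hc => by
    have hcE : ∀ g : G, g • (c : E0) = (c : E0) := fun g => by
      rw [← hsm, hc g]
    obtain ⟨a, ha⟩ := hfix (c : E0) hcE
    have hca : IsIntegral R (algebraMap F0 E0 a) := by
      rw [ha]
      exact hint _ c.2
    have hinj : Function.Injective (algebraMap F0 E0) := (algebraMap F0 E0).injective
    have hai : IsIntegral R a := (isIntegral_algebraMap_iff hinj).1 hca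
    obtain ⟨r, hr⟩ := IsIntegrallyClosed.isIntegral_iff.1 hai
    refine ⟨r, Subtype.ext ?_⟩
    show algebraMap R E0 r = (c : E0)
    rw [IsScalarTower.algebraMap_apply R F0 E0, hr, ha]⟩
  obtain ⟨g, hg⟩ := Algebra.IsInvariant.exists_smul_of_under_eq R ↥C G P Q hPQ
  refine ⟨g, fun c => ?_⟩
  rw [hg, Ideal.mem_pointwise_smul_iff_inv_smul_mem]
  rfl

/-- **G2c, cyclic form**: for ONE automorphism `σ` of finite order of `E0` with fixed field `F0`:
two primes of `C` above the same prime of `R` are conjugate under a power of `σ`. -/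
theorem g2c_transitive_cyclic (σ : E0 ≃+* E0) (hσ : IsOfFinOrder σ)
    (hσF : ∀ a : F0, σ (algebraMap F0 E0 a) = algebraMap F0 E0 a)
    (hfix : ∀ e : E0, σ e = e → ∃ a : F0, algebraMap F0 E0 a = e)
    (C : Subalgebra R E0) (hC : ∀ c : E0, c ∈ C → σ c ∈ C ∧ σ.symm c ∈ C)
    (hint : ∀ c ∈ C, IsIntegral R c)
    (P Q : Ideal ↥C) [P.IsPrime] [Q.IsPrime]
    (hPQ : P.comap (algebraMap R ↥C) = Q.comap (algebraMap R ↥C)) :
    ∃ (k : ℤ) (hk : ∀ c : E0, c ∈ C → (σ ^ k) c ∈ C),
      ∀ c : ↥C, c ∈ Q ↔ (⟨(σ ^ k) (c : E0), hk c c.2⟩ : ↥C) ∈ P := by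
  have hfin : Finite (Subgroup.zpowers σ) := hσ.finite_zpowers
  have hpow : ∀ (k : ℤ) (c : E0), c ∈ C → (σ ^ k) c ∈ C := by
    intro k
    refine zpow_induction_left (g := σ) (P := fun a : E0 ≃+* E0 => ∀ c : E0, c ∈ C → a c ∈ C)
      (fun c hc => hc) (fun a ha c hc => (hC _ (ha c hc)).1)
      (fun a ha c hc => (hC _ (ha c hc)).2) k
  have hstab : ∀ (g : Subgroup.zpowers σ) (c : E0), c ∈ C → g • c ∈ C := by
    rintro ⟨g, hg⟩ c hc
    obtain ⟨k, rfl⟩ := Subgroup.mem_zpowers_iff.1 hg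
    exact hpow k c hc
  have hpowF : ∀ (k : ℤ) (a : F0), (σ ^ k) (algebraMap F0 E0 a) = algebraMap F0 E0 a := by
    intro k
    refine zpow_induction_left (g := σ)
      (P := fun b : E0 ≃+* E0 => ∀ a : F0, b (algebraMap F0 E0 a) = algebraMap F0 E0 a)
      (fun a => rfl) (fun b hb a => ?_) (fun b hb a => ?_) k
    · show σ (b (algebraMap F0 E0 a)) = algebraMap F0 E0 a
      rw [hb, hσF]
    · show σ.symm (b (algebraMap F0 E0 a)) = algebraMap F0 E0 a
      rw [hb, RingEquiv.symm_apply_eq, hσF]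
  have hGF : ∀ (g : Subgroup.zpowers σ) (a : F0),
      g • algebraMap F0 E0 a = algebraMap F0 E0 a := by
    rintro ⟨g, hg⟩ a
    obtain ⟨k, rfl⟩ := Subgroup.mem_zpowers_iff.1 hg
    exact hpowF k a
  have hfix' : ∀ e : E0, (∀ g : Subgroup.zpowers σ, g • e = e) →
      ∃ a : F0, algebraMap F0 E0 a = e := by
    intro e he
    exact hfix e (he ⟨σ, Subgroup.mem_zpowers σ⟩)
  obtain ⟨⟨g, hg⟩, hgQ⟩ := g2c_transitive (G := Subgroup.zpowers σ) hGF hfix' C hstab hint P Q hPQ
  obtain ⟨k, rfl⟩ := Subgroup.mem_zpowers_iff.1 hg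
  refine ⟨-k, hpow (-k), fun c => ?_⟩
  rw [hgQ c]
  have e : ((⟨σ ^ k, hg⟩ : Subgroup.zpowers σ)⁻¹ • (c : E0)) = (σ ^ (-k)) (c : E0) := by
    rw [zpow_neg]
    rfl
  constructor
  · intro h
    convert h using 2
    exact e.symm
  · intro h
    convert h using 2

end Fermat.Agent.S40lib

end
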