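import Mathlib
import Fermat.Agent.S36lib.Speed
import Fermat.Agent.S40lib.GenusLe
import Fermat.Agent.S40lib.DiffRed

/-!
# Item 88 (row 38 via S44), (LIFT): the good-reduction package at EVERY level prime to `p`,
# `p ≥ 5` (helper4)

Consequences of `gle_main` (S40lib/GenusLe.lean): everything that the library had at auxiliary
levels only (`4 ∣ N`) holds at every level `N` prime to `p`, for `p ≥ 5` and EVERY series
reduction `R` of `FF N` along a valuation ring `A` of `ℚ̄` over `p`:

* `glr_genus_eq`    : `genusFF k F_{N,k} = genusFF ℚ̄ (FF N)`;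
* `glr_exists`      : there are a series reduction `R` and a place reduction `r`;
* `glr_exists_red`  : the same with (F3) and the genus equality (shape of `liftInf_exists_red`);
* `glr_isPlaceRed`  : every series reduction has a place reduction, with (F3);
* `glr_red_regular` : **(N3) direction**: `w ∈ O`, `w dj` regular ⇒ `red w · dj̄` regular;
* `glr_lift`        : **(RD)**, lifting form;
* `glr_W_eq`, `glr_mapDomain_eq` : `W (div dj) = L (div dj̄)`, `r_* div dj = div dj̄`.
No regularity descent from an auxiliary level is needed.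
-/

set_option autoImplicit false
set_option synthInstance.maxHeartbeats 400000
set_option linter.unusedSectionVars false
set_option linter.unusedVariables false
set_option linter.style.haveILetI false

noncomputable section

namespace Fermat.Agent.S40lib

open AlgebraicCurve ModularCurve KaehlerDifferential
open Fermat.Agent.RRlib Fermat.Agent.GoodRed Fermat.Agent.S24lib Fermat.Agent.GM
  Fermat.Agent.FFlib Fermat.Agent.S16lib

variable (N p : ℕ) [NeZero N] (hp : p.Prime) (hp5 : 5 ≤ p) (hN : ¬ p ∣ N)
  (A : ValuationSubring Kbar) (hA : A.LiesOverPrime p)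

include hp hp5 hN hA in
/-- genus equality at every level prime to `p ≥ 5` -/
theorem glr_genus_eq :
    genusFF (IsLocalRing.ResidueField A) (Fk (IsLocalRing.ResidueField A) N)
      = genusFF Kbar (FF N) := by
  haveI : Fact p.Prime := ⟨hp⟩
  have : IsAlgClosed (IsLocalRing.ResidueField A) := isAlgClosed_residueField A
  have : Infinite (IsLocalRing.ResidueField A) := IsAlgClosed.instInfinite
  have : RRHyp Kbar (FF N) := mod_rrHyp N
  have : RRHyp (IsLocalRing.ResidueField A) (Fk (IsLocalRing.ResidueField A) N) :=
    mr_rrHyp (IsLocalRing.ResidueField A) N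
  obtain ⟨R, -⟩ := exists_modConstRed N A (dw_ne_top hp hA)
    (Fermat.Agent.GoodRed.hred_modL N hN A hA)
  exact le_antisymm R.genusFF_le (gle_main N p A hp hp5 hN hA)

include hp hp5 hN hA in
/-- every series reduction at a level prime to `p ≥ 5` has a place reduction, with (F3) -/
theorem glr_isPlaceRed
    (R : ConstRed A (IsLocalRing.residue A) (Fk (IsLocalRing.ResidueField A) N) (FF N)) :
    haveI : RRHyp Kbar (FF N) := mod_rrHyp N
    haveI : IsAlgClosed (IsLocalRing.ResidueField A) := isAlgClosed_residueField A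
    haveI : RRHyp (IsLocalRing.ResidueField A) (Fk (IsLocalRing.ResidueField A) N) :=
      mr_rrHyp (IsLocalRing.ResidueField A) N
    ∃ r : Place Kbar (FF N) →
        Place (IsLocalRing.ResidueField A) (Fk (IsLocalRing.ResidueField A) N),
      R.IsPlaceRed r ∧
      ∀ D : Divisor Kbar (FF N), 2 * (genusFF Kbar (FF N) : ℤ) - 2 < Divisor.degree D →
        R.W D = riemannRochSpace (K := IsLocalRing.ResidueField A) (Finsupp.mapDomain r D) := by
  have : IsAlgClosed (IsLocalRing.ResidueField A) := isAlgClosed_residueField A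
  have : Infinite (IsLocalRing.ResidueField A) := IsAlgClosed.instInfinite
  have : RRHyp Kbar (FF N) := mod_rrHyp N
  have : RRHyp (IsLocalRing.ResidueField A) (Fk (IsLocalRing.ResidueField A) N) :=
    mr_rrHyp (IsLocalRing.ResidueField A) N
  exact R.exists_isPlaceRed (gle_main N p A hp hp5 hN hA)

include hp hp5 hN hA in
/-- the setting at every level prime to `p ≥ 5` (shape of `liftInf_exists_red`) -/
theorem glr_exists_red :
    haveI : IsAlgClosed (IsLocalRing.ResidueField A) := isAlgClosed_residueField A
    haveI : RRHyp Kbar (FF N) := mod_rrHyp N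
    haveI : RRHyp (IsLocalRing.ResidueField A) (Fk (IsLocalRing.ResidueField A) N) :=
      mr_rrHyp (IsLocalRing.ResidueField A) N
    ∃ (R : ConstRed A (IsLocalRing.residue A) (Fk (IsLocalRing.ResidueField A) N) (FF N))
      (r : Place Kbar (FF N) →
        Place (IsLocalRing.ResidueField A) (Fk (IsLocalRing.ResidueField A) N)),
      IsSeriesRed R ∧ R.IsPlaceRed r ∧
      (∀ D : Divisor Kbar (FF N), 2 * (genusFF Kbar (FF N) : ℤ) - 2 < Divisor.degree D →
        R.W D = riemannRochSpace (K := IsLocalRing.ResidueField A) (Finsupp.mapDomain r D)) ∧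
      genusFF (IsLocalRing.ResidueField A) (Fk (IsLocalRing.ResidueField A) N)
        = genusFF Kbar (FF N) := by
  haveI : Fact p.Prime := ⟨hp⟩
  have : IsAlgClosed (IsLocalRing.ResidueField A) := isAlgClosed_residueField A
  have : Infinite (IsLocalRing.ResidueField A) := IsAlgClosed.instInfinite
  have : RRHyp Kbar (FF N) := mod_rrHyp N
  have : RRHyp (IsLocalRing.ResidueField A) (Fk (IsLocalRing.ResidueField A) N) :=
    mr_rrHyp (IsLocalRing.ResidueField A) N
  obtain ⟨R, hR⟩ := exists_modConstRed N A (dw_ne_top hp hA)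
    (Fermat.Agent.GoodRed.hred_modL N hN A hA)
  have hg := gle_main N p A hp hp5 hN hA
  obtain ⟨r, hr, hW⟩ := R.exists_isPlaceRed hg
  exact ⟨R, r, hR, hr, hW, le_antisymm R.genusFF_le hg⟩

include hp hp5 hN hA in
/-- a series reduction and a place reduction exist at every level prime to `p ≥ 5` -/
theorem glr_exists :
    haveI : RRHyp Kbar (FF N) := mod_rrHyp N
    haveI : IsAlgClosed (IsLocalRing.ResidueField A) := isAlgClosed_residueField A
    haveI : RRHyp (IsLocalRing.ResidueField A) (Fk (IsLocalRing.ResidueField A) N) :=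
      mr_rrHyp (IsLocalRing.ResidueField A) N
    ∃ R : ConstRed A (IsLocalRing.residue A) (Fk (IsLocalRing.ResidueField A) N) (FF N),
      IsSeriesRed R ∧ ∃ r : Place Kbar (FF N) →
        Place (IsLocalRing.ResidueField A) (Fk (IsLocalRing.ResidueField A) N),
        R.IsPlaceRed r := by
  obtain ⟨R, r, hR, hr, -, -⟩ := glr_exists_red N p hp hp5 hN A hA
  exact ⟨R, hR, r, hr⟩

variable (R : ConstRed A (IsLocalRing.residue A) (Fk (IsLocalRing.ResidueField A) N) (FF N))
  (hR : IsSeriesRed R)

include hp hp5 hN hA hR in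
/-- **(N3) direction at every level prime to `p ≥ 5`**, for EVERY series reduction: if `w ∈ O`
and `w dj` is regular, then `red w · dj̄` is regular. -/
theorem glr_red_regular (w : R.O)
    (hw : ∀ P : Place Kbar (FF N), ((w : R.O) : FF N) = 0 ∨
      0 ≤ P.ord ((w : R.O) : FF N) + P.ordDifferential (D Kbar (FF N) (jF N)))
    (Q : Place (IsLocalRing.ResidueField A) (Fk (IsLocalRing.ResidueField A) N)) :
    R.red w = 0 ∨ 0 ≤ Q.ord (R.red w) + Q.ordDifferential
      (D (IsLocalRing.ResidueField A) (Fk (IsLocalRing.ResidueField A) N)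
        (jk (IsLocalRing.ResidueField A) N)) := by
  have : IsAlgClosed (IsLocalRing.ResidueField A) := isAlgClosed_residueField A
  have : Infinite (IsLocalRing.ResidueField A) := IsAlgClosed.instInfinite
  have : RRHyp Kbar (FF N) := mod_rrHyp N
  have : RRHyp (IsLocalRing.ResidueField A) (Fk (IsLocalRing.ResidueField A) N) :=
    mr_rrHyp (IsLocalRing.ResidueField A) N
  have hg := gle_main N p A hp hp5 hN hA
  obtain ⟨r, hr, -⟩ := R.exists_isPlaceRed hg
  exact dfr_red_regular N A (dw_ne_top hp hA) R hR r hr hg w hw Q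

include hp hp5 hN hA hR in
/-- **(RD), lifting form, at every level prime to `p ≥ 5`**, for EVERY series reduction. -/
theorem glr_lift (wb : Fk (IsLocalRing.ResidueField A) N)
    (hwb : ∀ Q : Place (IsLocalRing.ResidueField A) (Fk (IsLocalRing.ResidueField A) N),
      wb = 0 ∨ 0 ≤ Q.ord wb + Q.ordDifferential
        (D (IsLocalRing.ResidueField A) (Fk (IsLocalRing.ResidueField A) N)
          (jk (IsLocalRing.ResidueField A) N))) :
    ∃ w : R.O, R.red w = wb ∧ ∀ P : Place Kbar (FF N), ((w : R.O) : FF N) = 0 ∨
      0 ≤ P.ord ((w : R.O) : FF N) + P.ordDifferential (D Kbar (FF N) (jF N)) := by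
  have : IsAlgClosed (IsLocalRing.ResidueField A) := isAlgClosed_residueField A
  have : Infinite (IsLocalRing.ResidueField A) := IsAlgClosed.instInfinite
  have : RRHyp Kbar (FF N) := mod_rrHyp N
  have : RRHyp (IsLocalRing.ResidueField A) (Fk (IsLocalRing.ResidueField A) N) :=
    mr_rrHyp (IsLocalRing.ResidueField A) N
  have hg := gle_main N p A hp hp5 hN hA
  obtain ⟨r, hr, -⟩ := R.exists_isPlaceRed hg
  exact dfr_lift N A (dw_ne_top hp hA) R hR r hr hg wb hwb

end Fermat.Agent.S40lib

end
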