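import Mathlib
import Fermat.Agent.S36lib.Speed
import Fermat.Agent.S33lib.GeoWrap
import Fermat.Agent.LatE.KummerHecke
import Fermat.Agent.S37lib.HeckeInputs
import Fermat.Agent.S36lib.Reg3Local
import Fermat.Agent.S40lib.HeckeRed
import Fermat.Agent.S16lib.UE2
import Fermat.Agent.S40lib.HeckeQFormal

/-!
# Item 88 (S40), layer (LIFT), piece N7c: the eigen-relation on `θ log` (helper15)

`x ∈ J₀(N)[p]` with Kummer function `u` (`p D = div u`), `T_ℓ x = a • x` (`a ∈ ℤ`).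

* `hke_isKummer_zsmul` : `u ^ a` is a Kummer function of `a • x` (`a ∈ ℤ`);
* `hke_isKummer_hecke` : `N_α (β u)` (`= normBeta N ℓ u`) is a Kummer function of `T_ℓ x`;
* `hke_rel` : `T_ℓ x = a • x` ⟹ `N_α (β u) = w ^ p · u ^ a` for some `w ≠ 0`
  (the constant is a `p`-th power: `ℚ̄` is algebraically closed);
* `hke_rel_unit` : if moreover `u` is a unit of a valuation ring `O` of `F_N` containing
  `N_α (β u)` and `N_α (β u⁻¹)`, then `w` is a unit of `O`;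
* `hke_red` : at the level `N = M p`, `ℓ ≠ p`, `R` a series reduction, `u` a unit of `O_R`,
  `ū = red_R u ∈ F_{M,k}`: `N_ᾱ (β̄ ū) = w̄ ^ p · ū ^ a` in `F_{M,k}` (from `hkr_main`);
* `hke_thetalog` : in `k((q))`, `char k = p`: `Z = w ^ p · u ^ a` ⟹ `θ Z · Z⁻¹ = a · (θ u · u⁻¹)`;
* `hke_main` : `θ Z̄ · Z̄⁻¹ = a · (θ ū · ū⁻¹)` for `Z̄ = N_ᾱ (β̄ ū)` (as Laurent series over `k`);
  with N7b (`θ Z̄ · Z̄⁻¹ = T_ℓ^{(2)} (θ ū · ū⁻¹)`) this is `T_ℓ^{(2)} f̄ = a f̄`, `f̄ = θ ū / ū`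
  (`hke_eig`, for any operator `T` on series: the hypothesis `hT` is N7b).

`θ = Fermat.Agent.S16lib.ue2ThetaL k` (`θ = q d/dq`, a derivation of `k((q))`).
-/

set_option autoImplicit false
set_option linter.style.haveILetI false
set_option linter.unusedSectionVars false
set_option linter.unusedVariables false
set_option synthInstance.maxHeartbeats 400000

noncomputable section

namespace Fermat.Agent.S40lib

open ModularCurve AlgebraicCurve HahnSeries Fermat.Agent.GoodRed Fermat.Agent.GM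
  Fermat.Agent.S24lib Fermat.Agent.HeckeBar Fermat.Agent.S34lib Fermat.Agent.S36lib
  Fermat.Agent.RRlib Fermat.Agent.S33lib Fermat.Agent.S37lib Fermat.Agent.LatE
  Fermat.Agent.S16lib

/-! ### Kummer functions and the Hecke operators -/

section Abs

variable {K F : Type*} [Field K] [Field F] [Algebra K F] [RRBase K F]

/-- `u ^ a` is a Kummer function of `a • x`, `a ∈ ℤ` -/
theorem hke_isKummer_zsmul {p : ℕ} {x : Pic0 K F} {u : F} (hx : gdfIsKummer p x u) (a : ℤ) :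
    gdfIsKummer p (a • x) (u ^ a) := by
  rcases Int.eq_nat_or_neg a with ⟨n, rfl | rfl⟩
  · rw [natCast_zsmul, zpow_natCast]
    exact gdf_isKummer_pow hx n
  · rw [neg_zsmul, natCast_zsmul, zpow_neg, zpow_natCast]
    exact gdf_isKummer_neg (gdf_isKummer_pow hx n)

/-- two Kummer functions of the same class over an algebraically closed field differ by a
`p`-th power -/
theorem hke_isKummer_unique [IsAlgClosed K] {p : ℕ} (hp : 0 < p) {x : Pic0 K F} {f f' : F}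
    (h : gdfIsKummer p x f) (h' : gdfIsKummer p x f') :
    ∃ w : F, w ≠ 0 ∧ f' = w ^ p * f := by
  obtain ⟨c, w, hc, hw, hrel⟩ := gdf_isKummer_unique h h'
  obtain ⟨c', hc'⟩ := IsAlgClosed.exists_pow_nat_eq c hp
  have hc'0 : c' ≠ 0 := by
    rintro rfl
    rw [zero_pow hp.ne'] at hc'
    exact hc hc'.symm
  have hc'F : algebraMap K F c' ≠ 0 := by
    rw [Ne, map_eq_zero_iff _ (algebraMap K F).injective]
    exact hc'0
  refine ⟨algebraMap K F c' * w, mul_ne_zero hc'F hw, ?_⟩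
  rw [hrel, mul_pow, ← map_pow, hc']

end Abs

section Conc

variable (N : ℕ) [NeZero N] [RRBase (AlgebraicClosure ℚ) (modularFunctionFieldBar N)]

/-- `N_α (β u)` is a Kummer function of `T_ℓ x` -/
theorem hke_isKummer_hecke {p : ℕ} (ℓ : Nat.Primes) {x : JZero N} {u : FF N}
    (hx : gdfIsKummer (K := Kbar) p x u) :
    haveI : NeZero (ℓ : ℕ) := ⟨ℓ.2.ne_zero⟩
    gdfIsKummer (K := Kbar) p (heckeOperatorBar N ℓ x) (normBeta N ℓ u) := by
  haveI : NeZero (ℓ : ℕ) := ⟨ℓ.2.ne_zero⟩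
  obtain ⟨D, hD, hord⟩ := gdf_isKummer_ord hx
  obtain ⟨hN0, D', hD', hD'ord⟩ :=
    kummer_hecke N ℓ (heckeInputsAlong_Qbar N ℓ) p D u (gdf_isKummer_ne_zero hx) hord
  refine gdf_isKummer_of_ord hN0 D' ?_ hD'ord
  rw [← hD]
  exact hD'.symm

/-- **the eigen-relation on Kummer functions**: `T_ℓ x = a • x` ⟹ `N_α (β u) = w ^ p · u ^ a`. -/
theorem hke_rel {p : ℕ} (hp : 0 < p) (ℓ : Nat.Primes) {x : JZero N} {u : FF N}
    (hx : gdfIsKummer (K := Kbar) p x u) (a : ℤ) (hT : heckeOperatorBar N ℓ x = a • x) :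
    haveI : NeZero (ℓ : ℕ) := ⟨ℓ.2.ne_zero⟩
    ∃ w : FF N, w ≠ 0 ∧ normBeta N ℓ u = w ^ p * u ^ a := by
  haveI : NeZero (ℓ : ℕ) := ⟨ℓ.2.ne_zero⟩
  have h1 : gdfIsKummer (K := Kbar) p (a • x) (u ^ a) := hke_isKummer_zsmul hx a
  have h2 : gdfIsKummer (K := Kbar) p (a • x) (normBeta N ℓ u) := by
    rw [← hT]
    exact hke_isKummer_hecke N ℓ hx
  exact hke_isKummer_unique hp h1 h2

end Conc

/-! ### `θ log` in characteristic `p` -/

section Theta

variable (k : Type*) [Field k]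

/-- `θ (u ^ n) · (u ^ n)⁻¹ = n · (θ u · u⁻¹)` -/
theorem hke_thetalog_pow (u : LaurentSeries k) (hu : u ≠ 0) (n : ℕ) :
    ue2ThetaL k (u ^ n) * (u ^ n)⁻¹ = (n : LaurentSeries k) * (ue2ThetaL k u * u⁻¹) := by
  induction n with
  | zero =>
    rw [pow_zero, Derivation.map_one_eq_zero, zero_mul, Nat.cast_zero, zero_mul]
  | succ n ih =>
    have hun : u ^ n ≠ 0 := pow_ne_zero n hu
    rw [pow_succ, Derivation.leibniz, smul_eq_mul, smul_eq_mul, mul_inv, add_mul]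
    have e1 : u ^ n * ue2ThetaL k u * ((u ^ n)⁻¹ * u⁻¹) = ue2ThetaL k u * u⁻¹ := by
      field_simp
    have e2 : u * ue2ThetaL k (u ^ n) * ((u ^ n)⁻¹ * u⁻¹) =
        ue2ThetaL k (u ^ n) * (u ^ n)⁻¹ := by
      field_simp
    rw [e1, e2, ih]
    push_cast
    ring

/-- `θ (u⁻¹) · u = - (θ u · u⁻¹)` -/
theorem hke_thetalog_inv (u : LaurentSeries k) (hu : u ≠ 0) :
    ue2ThetaL k u⁻¹ * (u⁻¹)⁻¹ = -(ue2ThetaL k u * u⁻¹) := by
  have h1 : ue2ThetaL k (u * u⁻¹) = 0 := by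
    rw [mul_inv_cancel₀ hu, Derivation.map_one_eq_zero]
  rw [Derivation.leibniz, smul_eq_mul, smul_eq_mul] at h1
  rw [inv_inv]
  have h2 : ue2ThetaL k u⁻¹ * u = -(u⁻¹ * ue2ThetaL k u) * (u * u⁻¹) := by
    rw [mul_inv_cancel₀ hu, mul_one]
    have : u * ue2ThetaL k u⁻¹ = -(u⁻¹ * ue2ThetaL k u) := eq_neg_of_add_eq_zero_left h1
    rw [← this]
    ring
  rw [h2, mul_inv_cancel₀ hu]
  ring

/-- `θ (u ^ a) · (u ^ a)⁻¹ = a · (θ u · u⁻¹)`, `a ∈ ℤ` -/
theorem hke_thetalog_zpow (u : LaurentSeries k) (hu : u ≠ 0) (a : ℤ) :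
    ue2ThetaL k (u ^ a) * (u ^ a)⁻¹ = (a : LaurentSeries k) * (ue2ThetaL k u * u⁻¹) := by
  rcases Int.eq_nat_or_neg a with ⟨n, rfl | rfl⟩
  · rw [zpow_natCast, hke_thetalog_pow k u hu n]
    push_cast
    rfl
  · rw [zpow_neg, zpow_natCast, hke_thetalog_inv k (u ^ n) (pow_ne_zero n hu),
      hke_thetalog_pow k u hu n]
    push_cast
    ring

/-- `θ (x y) · (x y)⁻¹ = θ x · x⁻¹ + θ y · y⁻¹` -/
theorem hke_thetalog_mul (x y : LaurentSeries k) (hx : x ≠ 0) (hy : y ≠ 0) :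
    ue2ThetaL k (x * y) * (x * y)⁻¹ = ue2ThetaL k x * x⁻¹ + ue2ThetaL k y * y⁻¹ := by
  rw [Derivation.leibniz, smul_eq_mul, smul_eq_mul, mul_inv, add_mul]
  have e1 : x * ue2ThetaL k y * (x⁻¹ * y⁻¹) = ue2ThetaL k y * y⁻¹ := by
    field_simp
  have e2 : y * ue2ThetaL k x * (x⁻¹ * y⁻¹) = ue2ThetaL k x * x⁻¹ := by
    field_simp
  rw [e1, e2, add_comm]

/-- **`θ log` of an eigen-relation in characteristic `p`**: `Z = w ^ p · u ^ a` ⟹
`θ Z · Z⁻¹ = a · (θ u · u⁻¹)`. -/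
theorem hke_thetalog (p : ℕ) [CharP k p] (u w Z : LaurentSeries k) (hu : u ≠ 0) (hw : w ≠ 0)
    (a : ℤ) (hZ : Z = w ^ p * u ^ a) :
    ue2ThetaL k Z * Z⁻¹ = (a : LaurentSeries k) * (ue2ThetaL k u * u⁻¹) := by
  have hp0 : ((p : ℕ) : LaurentSeries k) = 0 := by
    have h1 : ((p : ℕ) : LaurentSeries k) = HahnSeries.C ((p : ℕ) : k) := by
      rw [map_natCast]
    rw [h1, CharP.cast_eq_zero, map_zero]
  rw [hZ, hke_thetalog_mul k _ _ (pow_ne_zero p hw) (zpow_ne_zero a hu),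
    hke_thetalog_pow k w hw p, hp0, zero_mul, zero_add, hke_thetalog_zpow k u hu a]

end Theta

/-! ### `hqfDlog` (helper14's `θ log`, `HeckeQFormal.lean`) of an eigen-relation -/

section Dlog

variable {k : Type*} [Field k]

/-- `dlog (x⁻¹) = - dlog x` -/
theorem hke_dlog_inv {x : LaurentSeries k} (hx : x ≠ 0) : hqfDlog x⁻¹ = -hqfDlog x := by
  have h1 := hqfDlog_mul hx (inv_ne_zero hx)
  rw [mul_inv_cancel₀ hx, hqfDlog_one] at h1
  exact eq_neg_of_add_eq_zero_right h1.symm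

/-- `dlog (x ^ a) = a · dlog x`, `a ∈ ℤ` -/
theorem hke_dlog_zpow {x : LaurentSeries k} (hx : x ≠ 0) (a : ℤ) :
    hqfDlog (x ^ a) = (a : LaurentSeries k) * hqfDlog x := by
  rcases Int.eq_nat_or_neg a with ⟨n, rfl | rfl⟩
  · rw [zpow_natCast, hqfDlog_pow hx n]
    push_cast
    rfl
  · rw [zpow_neg, zpow_natCast, hke_dlog_inv (pow_ne_zero n hx), hqfDlog_pow hx n]
    push_cast
    ring

/-- **`dlog` of an eigen-relation in characteristic `p`**: `dlog (w ^ p · u ^ a) = a · dlog u`,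
`a ∈ ℤ`. -/
theorem hke_dlog_rel (p : ℕ) [CharP k p] {u w : LaurentSeries k} (hu : u ≠ 0) (hw : w ≠ 0)
    (a : ℤ) : hqfDlog (w ^ p * u ^ a) = (a : LaurentSeries k) * hqfDlog u := by
  rw [hqfDlog_mul (pow_ne_zero p hw) (zpow_ne_zero a hu), hqfDlog_pow_char p hw, zero_add,
    hke_dlog_zpow hu a]

/-- the coefficients of `a · g`, `a ∈ ℤ` -/
theorem hke_coeff_intCast_mul (a : ℤ) (g : LaurentSeries k) (n : ℤ) :
    ((a : LaurentSeries k) * g).coeff n = (a : k) * g.coeff n := by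
  have h1 : (a : LaurentSeries k) = HahnSeries.C (a : k) := by
    rw [map_intCast]
  rw [h1, HahnSeries.C_mul_eq_smul, HahnSeries.coeff_smul, smul_eq_mul]

/-- **N7c, formal part**: the conjugates formula for `(Y, Z)` (N7b) and the eigen-relation
`Z = w ^ p · Y ^ a` in characteristic `p` give the formal eigen-equation
`ℓ · g_{n/ℓ} + g_{ℓ n} = a · g_n` for `g = θ Y / Y`. -/
theorem hke_eig_formal (p : ℕ) [CharP k p] (ℓ : ℕ) [NeZero ℓ] [NeZero (ℓ * ℓ)] (hℓ : ℓ.Prime)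
    (hℓk : (ℓ : k) ≠ 0) (ζ : kˣ) (hζ : IsPrimitiveRoot (ζ : k) ℓ)
    (Y Z w : LaurentSeries k) (hY : Y ≠ 0) (hw : w ≠ 0) (a : ℤ)
    (hconj : qExpand k ℓ Z = qExpand k (ℓ * ℓ) Y * ∏ b ∈ Finset.range ℓ, twq (ζ ^ b) Y)
    (hZ : Z = w ^ p * Y ^ a) (n : ℤ) :
    (if (ℓ : ℤ) ∣ n then (ℓ : k) * (hqfDlog Y).coeff (n / (ℓ : ℤ)) else 0)
        + (hqfDlog Y).coeff ((ℓ : ℤ) * n) = (a : k) * (hqfDlog Y).coeff n := by
  rw [← hqf_main ℓ hℓ hℓk ζ hζ Y Z hY hconj n, hZ, hke_dlog_rel p hY hw a,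
    hke_coeff_intCast_mul]

end Dlog

/-! ### reduction of the eigen-relation -/

section Red

variable {F κ : Type*} [Field F] [Field κ]

/-- powers of a unit of a valuation ring -/
theorem hke_zpow_mem (O : ValuationSubring F) {u : F} (hu : u ∈ O) (hu' : u⁻¹ ∈ O) (a : ℤ) :
    u ^ a ∈ O := by
  rcases Int.eq_nat_or_neg a with ⟨n, rfl | rfl⟩
  · rw [zpow_natCast]
    exact pow_mem hu n
  · rw [zpow_neg, zpow_natCast, ← inv_pow]
    exact pow_mem hu' n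

/-- the reduction of an integer power of a unit -/
theorem hke_red_zpow (O : ValuationSubring F) (red : O →+* κ) {u : F} (hu : u ∈ O)
    (hu' : u⁻¹ ∈ O) (hu0 : u ≠ 0) (a : ℤ) :
    red ⟨u ^ a, hke_zpow_mem O hu hu' a⟩ = red ⟨u, hu⟩ ^ a := by
  have hinv : red ⟨u⁻¹, hu'⟩ = (red ⟨u, hu⟩)⁻¹ := by
    have h1 : (⟨u, hu⟩ : O) * ⟨u⁻¹, hu'⟩ = 1 := Subtype.ext (mul_inv_cancel₀ hu0)
    have h2 := congrArg red h1
    rw [map_mul, map_one] at h2
    exact eq_inv_of_mul_eq_one_right h2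
  rcases Int.eq_nat_or_neg a with ⟨n, rfl | rfl⟩
  · have e : (⟨u ^ (n : ℤ), hke_zpow_mem O hu hu' n⟩ : O) = ⟨u, hu⟩ ^ n :=
      Subtype.ext (by
        show u ^ (n : ℤ) = (((⟨u, hu⟩ : O) ^ n : O) : F)
        rw [SubmonoidClass.coe_pow, zpow_natCast])
    rw [e, map_pow, zpow_natCast]
  · have e : (⟨u ^ (-(n : ℤ)), hke_zpow_mem O hu hu' (-n)⟩ : O) = ⟨u⁻¹, hu'⟩ ^ n :=
      Subtype.ext (by
        show u ^ (-(n : ℤ)) = (((⟨u⁻¹, hu'⟩ : O) ^ n : O) : F)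
        rw [SubmonoidClass.coe_pow, zpow_neg, zpow_natCast, ← inv_pow])
    rw [e, map_pow, hinv, zpow_neg, zpow_natCast, inv_pow]

/-- **reduction of the eigen-relation, abstract**: `Z = w ^ p · u ^ a` with `u` a unit of the
valuation ring `O` and `Z ∈ O`: then `w ∈ O` and `red Z = (red w) ^ p · (red u) ^ a`. -/
theorem hke_red_abs (O : ValuationSubring F) (red : O →+* κ) {p : ℕ} (hp : 0 < p)
    {u w Z : F} (hu : u ∈ O) (hu' : u⁻¹ ∈ O) (hu0 : u ≠ 0) (hZ : Z ∈ O) (a : ℤ)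
    (hrel : Z = w ^ p * u ^ a) :
    ∃ hw : w ∈ O, red ⟨Z, hZ⟩ = red ⟨w, hw⟩ ^ p * red ⟨u, hu⟩ ^ a := by
  have hua0 : u ^ a ≠ 0 := zpow_ne_zero a hu0
  have hwp : w ^ p = Z * u ^ (-a) := by
    rw [hrel, zpow_neg, mul_assoc, mul_inv_cancel₀ hua0, mul_one]
  have hwpO : w ^ p ∈ O := by
    rw [hwp]
    exact mul_mem hZ (hke_zpow_mem O hu hu' (-a))
  have hw : w ∈ O := reg3_mem_of_pow_mem O w p hp hwpO
  refine ⟨hw, ?_⟩
  have e : (⟨Z, hZ⟩ : O) = ⟨w, hw⟩ ^ p * ⟨u ^ a, hke_zpow_mem O hu hu' a⟩ :=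
    Subtype.ext (by
      show Z = (((⟨w, hw⟩ : O) ^ p : O) : F) * u ^ a
      rw [SubmonoidClass.coe_pow, hrel])
  rw [e, map_mul, map_pow, hke_red_zpow O red hu hu' hu0 a]

end Red

/-! ### the eigen-relation at the level `M p`, reduced -/

section Final

variable (M p ℓ : ℕ) [NeZero M] [NeZero p] [NeZero ℓ] [NeZero (M * p)] [NeZero (M * ℓ)]
  [NeZero (M * p * ℓ)]
variable (A : ValuationSubring Kbar)
variable [RRBase (AlgebraicClosure ℚ) (modularFunctionFieldBar (M * p))]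

/-- **reduction of the eigen-relation at the level `M p`**: `x ∈ J₀(M p)[p]` with Kummer
function `u`, a unit of the series reduction `R`; `T_ℓ x = a • x`, `ℓ ≠ p`.  Then
`N_ᾱ (β̄ ū) = w̄ ^ p · ū ^ a` in `F_{M,k}`, `ū = red_R u`, for some `w̄ ≠ 0`. -/
theorem hke_red (hp : p.Prime) (hpM : ¬ p ∣ M) (hℓ : ℓ.Prime) (hℓp : ℓ ≠ p)
    (hA : A.LiesOverPrime p)
    {R : ConstRed A (IsLocalRing.residue A) (Fk (IsLocalRing.ResidueField A) M) (FF (M * p))}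
    (hR : IsSeriesRed R) {x : JZero (M * p)} {u : FF (M * p)}
    (hx : gdfIsKummer (K := Kbar) p x u) (hu : u ∈ R.O) (hu' : u⁻¹ ∈ R.O) (a : ℤ)
    (hT : heckeOperatorBar (M * p) ⟨ℓ, hℓ⟩ x = a • x) :
    letI := algebraAlong (inclK (IsLocalRing.ResidueField A) (dvd_mul_right M ℓ))
    ∃ wbar : Fk (IsLocalRing.ResidueField A) M, wbar ≠ 0 ∧
      Algebra.norm (Fk (IsLocalRing.ResidueField A) M)
          (hkrBetaK (IsLocalRing.ResidueField A) M ℓ (R.red ⟨u, hu⟩))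
        = wbar ^ p * (R.red ⟨u, hu⟩) ^ a := by
  letI := algebraAlong (inclK (IsLocalRing.ResidueField A) (dvd_mul_right M ℓ))
  have hu0 : u ≠ 0 := gdf_isKummer_ne_zero hx
  obtain ⟨w, hw0, hrel⟩ := hke_rel (M * p) hp.pos ⟨ℓ, hℓ⟩ hx a hT
  obtain ⟨hz, hzred⟩ := hkr_main M p ℓ A hp hpM hℓ hℓp hA hR u hu
  obtain ⟨hz', -⟩ := hkr_main M p ℓ A hp hpM hℓ hℓp hA hR u⁻¹ hu'
  have hrel' : (letI := algebraAlong (heckeAlphaBar Kbar (M * p) ℓ)
      Algebra.norm (FF (M * p)) (heckeBetaBar Kbar (M * p) ℓ u)) = w ^ p * u ^ a := hrel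
  obtain ⟨hwO, hred⟩ := hke_red_abs R.O R.red hp.pos hu hu' hu0 hz a hrel'
  -- `w⁻¹ ∈ O`
  have hZinv : (letI := algebraAlong (heckeAlphaBar Kbar (M * p) ℓ)
      Algebra.norm (FF (M * p)) (heckeBetaBar Kbar (M * p) ℓ u))⁻¹ ∈ R.O := by
    have e : (letI := algebraAlong (heckeAlphaBar Kbar (M * p) ℓ)
        Algebra.norm (FF (M * p)) (heckeBetaBar Kbar (M * p) ℓ u⁻¹))
        = (letI := algebraAlong (heckeAlphaBar Kbar (M * p) ℓ)
          Algebra.norm (FF (M * p)) (heckeBetaBar Kbar (M * p) ℓ u))⁻¹ := by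
      apply eq_inv_of_mul_eq_one_left
      rw [← map_mul, ← map_mul, inv_mul_cancel₀ hu0, map_one, map_one]
    rw [← e]
    exact hz'
  have hua0 : u ^ a ≠ 0 := zpow_ne_zero a hu0
  have hwinvp : (w⁻¹) ^ p ∈ R.O := by
    have e : (w⁻¹) ^ p = (letI := algebraAlong (heckeAlphaBar Kbar (M * p) ℓ)
        Algebra.norm (FF (M * p)) (heckeBetaBar Kbar (M * p) ℓ u))⁻¹ * u ^ a := by
      rw [hrel', mul_inv, inv_pow, mul_assoc, inv_mul_cancel₀ hua0, mul_one]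
    rw [e]
    exact mul_mem hZinv (hke_zpow_mem R.O hu hu' a)
  have hwinv : w⁻¹ ∈ R.O := reg3_mem_of_pow_mem R.O w⁻¹ p hp.pos hwinvp
  have hwbar : R.red ⟨w, hwO⟩ ≠ 0 := by
    intro h0
    have h1 : (⟨w, hwO⟩ : R.O) * ⟨w⁻¹, hwinv⟩ = 1 := Subtype.ext (mul_inv_cancel₀ hw0)
    have h2 := congrArg R.red h1
    rw [map_mul, map_one, h0, zero_mul] at h2
    exact zero_ne_one h2
  refine ⟨R.red ⟨w, hwO⟩, hwbar, ?_⟩
  rw [← hzred, hred]

/-- **N7c**: the formal eigen-equation for `f̄ = θ ū / ū`, `ū = red_R u`, from the eigen-relation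
`T_ℓ x = a • x` and the conjugates formula N7b (`hconj`) for `(ū, N_ᾱ (β̄ ū))` over `k`:
`ℓ · f̄_{n/ℓ} + f̄_{ℓ n} = a · f̄_n`. -/
theorem hke_main (hp : p.Prime) (hpM : ¬ p ∣ M) (hℓ : ℓ.Prime) (hℓp : ℓ ≠ p)
    (hA : A.LiesOverPrime p) [NeZero (ℓ * ℓ)]
    {R : ConstRed A (IsLocalRing.residue A) (Fk (IsLocalRing.ResidueField A) M) (FF (M * p))}
    (hR : IsSeriesRed R) {x : JZero (M * p)} {u : FF (M * p)}
    (hx : gdfIsKummer (K := Kbar) p x u) (hu : u ∈ R.O) (hu' : u⁻¹ ∈ R.O) (a : ℤ)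
    (hT : heckeOperatorBar (M * p) ⟨ℓ, hℓ⟩ x = a • x)
    (ζ : (IsLocalRing.ResidueField A)ˣ)
    (hζ : IsPrimitiveRoot (ζ : IsLocalRing.ResidueField A) ℓ)
    (hconj : letI := algebraAlong (inclK (IsLocalRing.ResidueField A) (dvd_mul_right M ℓ))
      qExpand (IsLocalRing.ResidueField A) ℓ
          ((Algebra.norm (Fk (IsLocalRing.ResidueField A) M)
            (hkrBetaK (IsLocalRing.ResidueField A) M ℓ (R.red ⟨u, hu⟩)) :
              Fk (IsLocalRing.ResidueField A) M) : LaurentSeries (IsLocalRing.ResidueField A))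
        = qExpand (IsLocalRing.ResidueField A) (ℓ * ℓ)
            ((R.red ⟨u, hu⟩ : Fk (IsLocalRing.ResidueField A) M) :
              LaurentSeries (IsLocalRing.ResidueField A))
          * ∏ b ∈ Finset.range ℓ, twq (ζ ^ b)
            ((R.red ⟨u, hu⟩ : Fk (IsLocalRing.ResidueField A) M) :
              LaurentSeries (IsLocalRing.ResidueField A)))
    (n : ℤ) :
    (if (ℓ : ℤ) ∣ n then (ℓ : IsLocalRing.ResidueField A) *
        (hqfDlog ((R.red ⟨u, hu⟩ : Fk (IsLocalRing.ResidueField A) M) :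
          LaurentSeries (IsLocalRing.ResidueField A))).coeff (n / (ℓ : ℤ)) else 0)
      + (hqfDlog ((R.red ⟨u, hu⟩ : Fk (IsLocalRing.ResidueField A) M) :
          LaurentSeries (IsLocalRing.ResidueField A))).coeff ((ℓ : ℤ) * n)
      = (a : IsLocalRing.ResidueField A) *
        (hqfDlog ((R.red ⟨u, hu⟩ : Fk (IsLocalRing.ResidueField A) M) :
          LaurentSeries (IsLocalRing.ResidueField A))).coeff n := by
  letI := algebraAlong (inclK (IsLocalRing.ResidueField A) (dvd_mul_right M ℓ))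
  haveI : Fact p.Prime := ⟨hp⟩
  haveI : CharP (IsLocalRing.ResidueField A) p := charP_residueField hA
  have hu0 : u ≠ 0 := gdf_isKummer_ne_zero hx
  obtain ⟨wbar, hw0, hrel⟩ := hke_red M p ℓ A hp hpM hℓ hℓp hA hR hx hu hu' a hT
  -- `ū ≠ 0`
  have hubar : R.red ⟨u, hu⟩ ≠ 0 := by
    intro h0
    have h1 : (⟨u, hu⟩ : R.O) * ⟨u⁻¹, hu'⟩ = 1 := Subtype.ext (mul_inv_cancel₀ hu0)
    have h2 := congrArg R.red h1
    rw [map_mul, map_one, h0, zero_mul] at h2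
    exact zero_ne_one h2
  have hY : ((R.red ⟨u, hu⟩ : Fk (IsLocalRing.ResidueField A) M) :
      LaurentSeries (IsLocalRing.ResidueField A)) ≠ 0 := fun h => hubar (Subtype.ext h)
  have hW : ((wbar : Fk (IsLocalRing.ResidueField A) M) :
      LaurentSeries (IsLocalRing.ResidueField A)) ≠ 0 := fun h => hw0 (Subtype.ext h)
  have hℓk : ((ℓ : ℕ) : IsLocalRing.ResidueField A) ≠ 0 := by
    intro h0
    have h1 : p ∣ ℓ := (CharP.cast_eq_zero_iff (IsLocalRing.ResidueField A) p ℓ).mp h0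
    exact hℓp ((Nat.prime_dvd_prime_iff_eq hp hℓ).mp h1).symm
  have hZ : ((Algebra.norm (Fk (IsLocalRing.ResidueField A) M)
      (hkrBetaK (IsLocalRing.ResidueField A) M ℓ (R.red ⟨u, hu⟩)) :
        Fk (IsLocalRing.ResidueField A) M) : LaurentSeries (IsLocalRing.ResidueField A))
      = ((wbar : Fk (IsLocalRing.ResidueField A) M) :
          LaurentSeries (IsLocalRing.ResidueField A)) ^ p
        * ((R.red ⟨u, hu⟩ : Fk (IsLocalRing.ResidueField A) M) :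
          LaurentSeries (IsLocalRing.ResidueField A)) ^ a := by
    rw [hrel]
    have e := map_zpow₀ (algebraMap (Fk (IsLocalRing.ResidueField A) M)
      (LaurentSeries (IsLocalRing.ResidueField A))) (R.red ⟨u, hu⟩) a
    show ((wbar ^ p : Fk (IsLocalRing.ResidueField A) M) :
        LaurentSeries (IsLocalRing.ResidueField A))
        * algebraMap (Fk (IsLocalRing.ResidueField A) M)
          (LaurentSeries (IsLocalRing.ResidueField A)) (R.red ⟨u, hu⟩ ^ a) = _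
    rw [e]
    rfl
  exact hke_eig_formal p ℓ hℓ hℓk ζ hζ _ _ _ hY hW a hconj hZ n

end Final

end Fermat.Agent.S40lib

end
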