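import Mathlib
import Fermat.Agent.S36lib.Speed
import Fermat.Agent.S37lib.NormConj
import Fermat.Agent.LatE.Defs

/-!
# Item 88 (S40/S44), block (J-WILD), piece (Z2)-(H5) (helper13): the leading coefficient of the
Hecke norm in characteristic `0`.  Complete proofs.

For `u ∈ F_N = ℚ̄(X₀(N))`, `u ≠ 0`, `ℓ ∤ N` a prime, the Hecke norm `Z = N_α (β u)`
(`= normBeta N ℓ u`) has the sheets formula `Z(s^ℓ) = u(s^{ℓ²}) · ∏_{b<ℓ} u(ζ^b s)`
(`S37lib.normConj`).  Comparing orders and leading coefficients at the cusp `∞`: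

* `hlc_order`   : `ord_q Z = (ℓ + 1) · ord_q u`;
* `hlc_main`    : `lc Z = ε · (lc u) ^ (ℓ + 1)`, `ε = (∏_{b<ℓ} ζ^b) ^ (ord_q u)`;
* `hlc_eps_sq`  : `ε ^ 2 = 1`;  `hlc_eps_odd` : `ε = 1` for `ℓ ≠ 2`;
* `hlc_pm`      : `lc Z = (lc u) ^ (ℓ + 1)  ∨  lc Z = - (lc u) ^ (ℓ + 1)`;
* `hlc_odd`     : `lc Z = (lc u) ^ (ℓ + 1)` for `ℓ ≠ 2`;
* `hlc_pow`     : for `p` odd, `lc Z = e ^ p · (lc u) ^ (ℓ + 1)` with `e = 1 ∨ e = -1`;
* `hlc_normBeta_*` : the same for `normBeta N ℓ u` (`LatE/Defs`).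

Abstract part (any field `K`): `hlc_order_qExpand`, `hlc_lc_qExpand`, `hlc_order_twq`,
`hlc_lc_twq`, `hlc_order_prod`, `hlc_lc_prod`.
-/

set_option autoImplicit false
set_option linter.style.haveILetI false
set_option linter.unusedSectionVars false
set_option linter.unusedVariables false
set_option synthInstance.maxHeartbeats 400000

noncomputable section

namespace Fermat.Agent.S40lib

open ModularCurve AlgebraicCurve HahnSeries Fermat.Agent.S37lib Fermat.Agent.HeckeBar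
  Fermat.Agent.S24lib

/-! ### orders and leading coefficients of `qExpand`, `twq`, products -/

section Abstract

variable {K : Type*} [Field K]

/-- characterisation of the order -/
theorem hlc_order_eq {x : LaurentSeries K} {n : ℤ} (h1 : x.coeff n ≠ 0)
    (h2 : ∀ m : ℤ, m < n → x.coeff m = 0) : x.order = n := by
  have hx : x ≠ 0 := by
    rintro rfl
    exact h1 (HahnSeries.coeff_zero)
  refine le_antisymm (HahnSeries.order_le_of_coeff_ne_zero h1) ?_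
  by_contra hlt
  rw [not_le] at hlt
  exact hx (HahnSeries.coeff_order_eq_zero.mp (h2 _ hlt))

theorem hlc_order_qExpand (n : ℕ) [NeZero n] {x : LaurentSeries K} (hx : x ≠ 0) :
    (qExpand K n x).order = (n : ℤ) * x.order := by
  apply hlc_order_eq
  · rw [qExpand_coeff_mul]
    exact fun h => hx (HahnSeries.coeff_order_eq_zero.mp h)
  · intro m hm
    by_cases hd : (n : ℤ) ∣ m
    · obtain ⟨k, rfl⟩ := hd
      rw [qExpand_coeff_mul]
      apply HahnSeries.coeff_eq_zero_of_lt_order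
      have hn : (0 : ℤ) < n := by exact_mod_cast Nat.pos_of_ne_zero (NeZero.ne n)
      exact lt_of_mul_lt_mul_left hm hn.le
    · exact qExpand_coeff_of_not_dvd n x hd

theorem hlc_lc_qExpand (n : ℕ) [NeZero n] {x : LaurentSeries K} (hx : x ≠ 0) :
    (qExpand K n x).leadingCoeff = x.leadingCoeff := by
  rw [HahnSeries.leadingCoeff_eq, HahnSeries.leadingCoeff_eq, hlc_order_qExpand n hx,
    qExpand_coeff_mul]

theorem hlc_order_twq (u : Kˣ) {x : LaurentSeries K} (hx : x ≠ 0) :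
    (twq u x).order = x.order := by
  apply hlc_order_eq
  · rw [twq_coeff]
    exact mul_ne_zero (Units.ne_zero _) (fun h => hx (HahnSeries.coeff_order_eq_zero.mp h))
  · intro m hm
    rw [twq_coeff, HahnSeries.coeff_eq_zero_of_lt_order hm, mul_zero]

theorem hlc_lc_twq (u : Kˣ) {x : LaurentSeries K} (hx : x ≠ 0) :
    (twq u x).leadingCoeff = ((u ^ x.order : Kˣ) : K) * x.leadingCoeff := by
  rw [HahnSeries.leadingCoeff_eq, HahnSeries.leadingCoeff_eq, hlc_order_twq u hx, twq_coeff]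

theorem hlc_order_mul {x y : LaurentSeries K} (hx : x ≠ 0) (hy : y ≠ 0) :
    (x * y).order = x.order + y.order := by
  apply HahnSeries.order_mul_of_ne_zero
  exact mul_ne_zero (HahnSeries.leadingCoeff_ne_zero.mpr hx)
    (HahnSeries.leadingCoeff_ne_zero.mpr hy)

theorem hlc_order_prod (n : ℕ) (f : ℕ → LaurentSeries K) (hf : ∀ b, f b ≠ 0) :
    (∏ b ∈ Finset.range n, f b).order = ∑ b ∈ Finset.range n, (f b).order := by
  induction n with
  | zero => simp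
  | succ n ih =>
      rw [Finset.prod_range_succ, Finset.sum_range_succ,
        hlc_order_mul (Finset.prod_ne_zero_iff.mpr fun b _ => hf b) (hf n), ih]

theorem hlc_lc_prod (n : ℕ) (f : ℕ → LaurentSeries K) :
    (∏ b ∈ Finset.range n, f b).leadingCoeff = ∏ b ∈ Finset.range n, (f b).leadingCoeff := by
  induction n with
  | zero =>
      simp only [Finset.range_zero, Finset.prod_empty]
      rw [HahnSeries.leadingCoeff_eq, HahnSeries.order_one, HahnSeries.coeff_one, if_pos rfl]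
  | succ n ih =>
      rw [Finset.prod_range_succ, Finset.prod_range_succ, HahnSeries.leadingCoeff_mul, ih]

/-- the sign `ε₀ = ∏_{b<ℓ} ζ^b` -/
def hlcEps (ℓ : ℕ) (ζ : Kˣ) : Kˣ := ∏ b ∈ Finset.range ℓ, ζ ^ b

theorem hlcEps_eq (ℓ : ℕ) (ζ : Kˣ) : hlcEps ℓ ζ = ζ ^ (∑ b ∈ Finset.range ℓ, b) := by
  unfold hlcEps
  rw [Finset.prod_pow_eq_pow_sum]

theorem hlcEps_sq (ℓ : ℕ) (ζ : Kˣ) (hζ : ζ ^ ℓ = 1) : hlcEps ℓ ζ ^ 2 = 1 := by
  rw [hlcEps_eq, ← pow_mul, Finset.sum_range_id_mul_two, pow_mul, hζ, one_pow]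

theorem hlcEps_odd (ℓ : ℕ) (ζ : Kˣ) (hζ : ζ ^ ℓ = 1) (hodd : ¬ 2 ∣ ℓ) : hlcEps ℓ ζ = 1 := by
  rw [hlcEps_eq]
  have h2 : 2 ∣ ℓ - 1 := by omega
  obtain ⟨c, hc⟩ := h2
  have hsum : (∑ b ∈ Finset.range ℓ, b) = ℓ * c := by
    have h := Finset.sum_range_id_mul_two ℓ
    rw [hc] at h
    have : (∑ b ∈ Finset.range ℓ, b) * 2 = (ℓ * c) * 2 := by rw [h]; ring
    exact Nat.eq_of_mul_eq_mul_right (by norm_num) this
  rw [hsum, pow_mul, hζ, one_pow]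

/-- **the abstract computation**: if `Z(s^ℓ) = u(s^{ℓ²}) · ∏_{b<ℓ} u(ζ^b s)` then
`ord Z = (ℓ + 1) ord u` and `lc Z = ε₀ ^ (ord u) · (lc u) ^ (ℓ + 1)`. -/
theorem hlc_abs (ℓ : ℕ) [NeZero ℓ] (ζ : Kˣ) (u Z : LaurentSeries K) (hu : u ≠ 0)
    (hZ : haveI : NeZero (ℓ * ℓ) := ⟨Nat.mul_ne_zero (NeZero.ne ℓ) (NeZero.ne ℓ)⟩
      qExpand K ℓ Z = qExpand K (ℓ * ℓ) u * ∏ b ∈ Finset.range ℓ, twq (ζ ^ b) u) :
    Z ≠ 0 ∧ Z.order = ((ℓ : ℤ) + 1) * u.order ∧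
      Z.leadingCoeff = ((hlcEps ℓ ζ ^ u.order : Kˣ) : K) * u.leadingCoeff ^ (ℓ + 1) := by
  haveI : NeZero (ℓ * ℓ) := ⟨Nat.mul_ne_zero (NeZero.ne ℓ) (NeZero.ne ℓ)⟩
  have hℓ0 : (ℓ : ℤ) ≠ 0 := by exact_mod_cast NeZero.ne ℓ
  have h1 : qExpand K (ℓ * ℓ) u ≠ 0 := (map_ne_zero_iff _ (qExpand_injective (ℓ * ℓ))).mpr hu
  have h2 : ∀ b : ℕ, twq (ζ ^ b) u ≠ 0 := fun b h0 => by
    have := hlc_lc_twq (ζ ^ b) hu
    rw [h0] at this
    have hz : (0 : LaurentSeries K).leadingCoeff = 0 := HahnSeries.leadingCoeff_eq_zero.mpr rfl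
    rw [hz] at this
    exact (mul_ne_zero (Units.ne_zero _) (HahnSeries.leadingCoeff_ne_zero.mpr hu)) this.symm
  have h3 : (∏ b ∈ Finset.range ℓ, twq (ζ ^ b) u) ≠ 0 :=
    Finset.prod_ne_zero_iff.mpr fun b _ => h2 b
  have hZ0 : Z ≠ 0 := by
    rintro rfl
    rw [map_zero] at hZ
    exact (mul_ne_zero h1 h3) hZ.symm
  refine ⟨hZ0, ?_, ?_⟩
  · have ho := congrArg HahnSeries.order hZ
    rw [hlc_order_qExpand ℓ hZ0, hlc_order_mul h1 h3, hlc_order_qExpand (ℓ * ℓ) hu,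
      hlc_order_prod ℓ _ h2] at ho
    simp only [hlc_order_twq _ hu, Finset.sum_const, Finset.card_range, nsmul_eq_mul] at ho
    have : (ℓ : ℤ) * Z.order = (ℓ : ℤ) * (((ℓ : ℤ) + 1) * u.order) := by
      rw [ho]; push_cast; ring
    exact mul_left_cancel₀ hℓ0 this
  · have hl := congrArg HahnSeries.leadingCoeff hZ
    rw [hlc_lc_qExpand ℓ hZ0, HahnSeries.leadingCoeff_mul, hlc_lc_qExpand (ℓ * ℓ) hu,
      hlc_lc_prod] at hl
    rw [hl]
    have e : ∀ b ∈ Finset.range ℓ, (twq (ζ ^ b) u).leadingCoeff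
        = (((ζ ^ b) ^ u.order : Kˣ) : K) * u.leadingCoeff := fun b _ => hlc_lc_twq (ζ ^ b) hu
    rw [Finset.prod_congr rfl e, Finset.prod_mul_distrib, Finset.prod_const, Finset.card_range]
    have e2 : (∏ b ∈ Finset.range ℓ, (((ζ ^ b) ^ u.order : Kˣ) : K))
        = ((hlcEps ℓ ζ ^ u.order : Kˣ) : K) := by
      unfold hlcEps
      rw [← Units.coe_prod, Finset.prod_zpow]
    rw [e2, pow_succ]
    ring

end Abstract

/-! ### the Hecke norm -/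

section Concrete

variable (N ℓ : ℕ) [NeZero N] [NeZero ℓ]

/-- **(H5), order**: `ord_q (N_α β u) = (ℓ + 1) ord_q u`. -/
theorem hlc_order (hℓ : ℓ.Prime) (hℓN : ¬ ℓ ∣ N) (u : modularFunctionFieldBar N) (hu : u ≠ 0) :
    letI := algebraAlong (heckeAlphaBar (AlgebraicClosure ℚ) N ℓ)
    (((Algebra.norm (modularFunctionFieldBar N)
      (heckeBetaBar (AlgebraicClosure ℚ) N ℓ u) : modularFunctionFieldBar N) :
        LaurentSeries (AlgebraicClosure ℚ))).order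
      = ((ℓ : ℤ) + 1) * (u : LaurentSeries (AlgebraicClosure ℚ)).order := by
  letI := algebraAlong (heckeAlphaBar (AlgebraicClosure ℚ) N ℓ)
  obtain ⟨ζ0, hζ0⟩ := HasEnoughRootsOfUnity.exists_primitiveRoot (AlgebraicClosure ℚ) ℓ
  have hu' : (u : LaurentSeries (AlgebraicClosure ℚ)) ≠ 0 := fun h => hu (Subtype.ext h)
  exact (hlc_abs ℓ (hζ0.isUnit (NeZero.ne ℓ)).unit _ _ hu'
    (normConj N ℓ hℓ hℓN (hζ0.isUnit (NeZero.ne ℓ)).unit (by simpa using hζ0) u)).2.1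

/-- **(H5), leading coefficient**: `lc (N_α β u) = ε · (lc u) ^ (ℓ + 1)`,
`ε = (∏_{b<ℓ} ζ^b) ^ (ord_q u)`, for every primitive `ℓ`-th root of unity `ζ`. -/
theorem hlc_main (hℓ : ℓ.Prime) (hℓN : ¬ ℓ ∣ N) (ζ : (AlgebraicClosure ℚ)ˣ)
    (hζ : IsPrimitiveRoot (ζ : AlgebraicClosure ℚ) ℓ)
    (u : modularFunctionFieldBar N) (hu : u ≠ 0) :
    letI := algebraAlong (heckeAlphaBar (AlgebraicClosure ℚ) N ℓ)
    (((Algebra.norm (modularFunctionFieldBar N)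
      (heckeBetaBar (AlgebraicClosure ℚ) N ℓ u) : modularFunctionFieldBar N) :
        LaurentSeries (AlgebraicClosure ℚ))).leadingCoeff
      = ((hlcEps ℓ ζ ^ (u : LaurentSeries (AlgebraicClosure ℚ)).order :
          (AlgebraicClosure ℚ)ˣ) : AlgebraicClosure ℚ)
        * (u : LaurentSeries (AlgebraicClosure ℚ)).leadingCoeff ^ (ℓ + 1) := by
  letI := algebraAlong (heckeAlphaBar (AlgebraicClosure ℚ) N ℓ)
  have hu' : (u : LaurentSeries (AlgebraicClosure ℚ)) ≠ 0 := fun h => hu (Subtype.ext h)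
  exact (hlc_abs ℓ ζ _ _ hu' (normConj N ℓ hℓ hℓN ζ hζ u)).2.2

/-- `ε ^ 2 = 1` -/
theorem hlc_eps_sq (ζ : (AlgebraicClosure ℚ)ˣ)
    (hζ : IsPrimitiveRoot (ζ : AlgebraicClosure ℚ) ℓ) (m : ℤ) :
    (((hlcEps ℓ ζ ^ m : (AlgebraicClosure ℚ)ˣ) : AlgebraicClosure ℚ)) ^ 2 = 1 := by
  have hζ' : ζ ^ ℓ = 1 := Units.ext (by simpa using hζ.pow_eq_one)
  have h := hlcEps_sq ℓ ζ hζ'
  have h2 : (hlcEps ℓ ζ ^ m) ^ 2 = 1 := by
    rw [← zpow_natCast, ← zpow_mul, mul_comm, zpow_mul, zpow_natCast, h, one_zpow]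
  have := congrArg (fun t : (AlgebraicClosure ℚ)ˣ => (t : AlgebraicClosure ℚ)) h2
  simpa using this

/-- `ε = 1` for odd `ℓ` -/
theorem hlc_eps_odd (hℓ : ℓ.Prime) (hℓ2 : ℓ ≠ 2) (ζ : (AlgebraicClosure ℚ)ˣ)
    (hζ : IsPrimitiveRoot (ζ : AlgebraicClosure ℚ) ℓ) (m : ℤ) :
    (((hlcEps ℓ ζ ^ m : (AlgebraicClosure ℚ)ˣ) : AlgebraicClosure ℚ)) = 1 := by
  have hζ' : ζ ^ ℓ = 1 := Units.ext (by simpa using hζ.pow_eq_one)
  have hodd : ¬ 2 ∣ ℓ := fun h => hℓ2 ((Nat.prime_dvd_prime_iff_eq Nat.prime_two hℓ).mp h).symm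
  rw [hlcEps_odd ℓ ζ hζ' hodd, one_zpow, Units.val_one]

/-- **(H5)**: `lc (N_α β u) = ± (lc u) ^ (ℓ + 1)`. -/
theorem hlc_pm (hℓ : ℓ.Prime) (hℓN : ¬ ℓ ∣ N) (u : modularFunctionFieldBar N) (hu : u ≠ 0) :
    letI := algebraAlong (heckeAlphaBar (AlgebraicClosure ℚ) N ℓ)
    (((Algebra.norm (modularFunctionFieldBar N)
      (heckeBetaBar (AlgebraicClosure ℚ) N ℓ u) : modularFunctionFieldBar N) :
        LaurentSeries (AlgebraicClosure ℚ))).leadingCoeff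
        = (u : LaurentSeries (AlgebraicClosure ℚ)).leadingCoeff ^ (ℓ + 1) ∨
    (((Algebra.norm (modularFunctionFieldBar N)
      (heckeBetaBar (AlgebraicClosure ℚ) N ℓ u) : modularFunctionFieldBar N) :
        LaurentSeries (AlgebraicClosure ℚ))).leadingCoeff
        = - (u : LaurentSeries (AlgebraicClosure ℚ)).leadingCoeff ^ (ℓ + 1) := by
  letI := algebraAlong (heckeAlphaBar (AlgebraicClosure ℚ) N ℓ)
  obtain ⟨ζ0, hζ0⟩ := HasEnoughRootsOfUnity.exists_primitiveRoot (AlgebraicClosure ℚ) ℓ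
  have hζ : IsPrimitiveRoot (((hζ0.isUnit (NeZero.ne ℓ)).unit : (AlgebraicClosure ℚ)ˣ) :
      AlgebraicClosure ℚ) ℓ := by simpa using hζ0
  have hm := hlc_main N ℓ hℓ hℓN _ hζ u hu
  have hsq := hlc_eps_sq ℓ _ hζ (u : LaurentSeries (AlgebraicClosure ℚ)).order
  rcases sq_eq_one_iff.mp hsq with h1 | h1
  · left
    rw [hm, h1, one_mul]
  · right
    rw [hm, h1, neg_one_mul]

/-- **(H5), `ℓ` odd**: `lc (N_α β u) = (lc u) ^ (ℓ + 1)`. -/
theorem hlc_odd (hℓ : ℓ.Prime) (hℓ2 : ℓ ≠ 2) (hℓN : ¬ ℓ ∣ N) (u : modularFunctionFieldBar N)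
    (hu : u ≠ 0) :
    letI := algebraAlong (heckeAlphaBar (AlgebraicClosure ℚ) N ℓ)
    (((Algebra.norm (modularFunctionFieldBar N)
      (heckeBetaBar (AlgebraicClosure ℚ) N ℓ u) : modularFunctionFieldBar N) :
        LaurentSeries (AlgebraicClosure ℚ))).leadingCoeff
        = (u : LaurentSeries (AlgebraicClosure ℚ)).leadingCoeff ^ (ℓ + 1) := by
  letI := algebraAlong (heckeAlphaBar (AlgebraicClosure ℚ) N ℓ)
  obtain ⟨ζ0, hζ0⟩ := HasEnoughRootsOfUnity.exists_primitiveRoot (AlgebraicClosure ℚ) ℓ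
  have hζ : IsPrimitiveRoot (((hζ0.isUnit (NeZero.ne ℓ)).unit : (AlgebraicClosure ℚ)ˣ) :
      AlgebraicClosure ℚ) ℓ := by simpa using hζ0
  have hm := hlc_main N ℓ hℓ hℓN _ hζ u hu
  rw [hm, hlc_eps_odd ℓ hℓ hℓ2 _ hζ, one_mul]

/-- **(H5), `p`-th power form**: for `p` odd, `lc (N_α β u) = e ^ p · (lc u) ^ (ℓ + 1)` with
`e = 1` or `e = -1`. -/
theorem hlc_pow (hℓ : ℓ.Prime) (hℓN : ¬ ℓ ∣ N) (p : ℕ) (hp : ¬ 2 ∣ p)
    (u : modularFunctionFieldBar N) (hu : u ≠ 0) :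
    letI := algebraAlong (heckeAlphaBar (AlgebraicClosure ℚ) N ℓ)
    ∃ e : AlgebraicClosure ℚ, (e = 1 ∨ e = -1) ∧
      (((Algebra.norm (modularFunctionFieldBar N)
        (heckeBetaBar (AlgebraicClosure ℚ) N ℓ u) : modularFunctionFieldBar N) :
          LaurentSeries (AlgebraicClosure ℚ))).leadingCoeff
        = e ^ p * (u : LaurentSeries (AlgebraicClosure ℚ)).leadingCoeff ^ (ℓ + 1) := by
  letI := algebraAlong (heckeAlphaBar (AlgebraicClosure ℚ) N ℓ)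
  rcases hlc_pm N ℓ hℓ hℓN u hu with h | h
  · exact ⟨1, Or.inl rfl, by rw [h, one_pow, one_mul]⟩
  · refine ⟨-1, Or.inr rfl, ?_⟩
    have hodd : Odd p := Nat.odd_iff.mpr (by omega)
    rw [h, hodd.neg_one_pow, neg_one_mul]

/-- `hlc_order` for `normBeta` -/
theorem hlc_normBeta_order (hℓ : ℓ.Prime) (hℓN : ¬ ℓ ∣ N) (u : modularFunctionFieldBar N)
    (hu : u ≠ 0) :
    ((Fermat.Agent.LatE.normBeta N ℓ u : modularFunctionFieldBar N) :
        LaurentSeries (AlgebraicClosure ℚ)).order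
      = ((ℓ : ℤ) + 1) * (u : LaurentSeries (AlgebraicClosure ℚ)).order :=
  hlc_order N ℓ hℓ hℓN u hu

/-- `hlc_pm` for `normBeta` -/
theorem hlc_normBeta_pm (hℓ : ℓ.Prime) (hℓN : ¬ ℓ ∣ N) (u : modularFunctionFieldBar N)
    (hu : u ≠ 0) :
    ((Fermat.Agent.LatE.normBeta N ℓ u : modularFunctionFieldBar N) :
        LaurentSeries (AlgebraicClosure ℚ)).leadingCoeff
        = (u : LaurentSeries (AlgebraicClosure ℚ)).leadingCoeff ^ (ℓ + 1) ∨
    ((Fermat.Agent.LatE.normBeta N ℓ u : modularFunctionFieldBar N) :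
        LaurentSeries (AlgebraicClosure ℚ)).leadingCoeff
        = - (u : LaurentSeries (AlgebraicClosure ℚ)).leadingCoeff ^ (ℓ + 1) :=
  hlc_pm N ℓ hℓ hℓN u hu

/-- `hlc_odd` for `normBeta` -/
theorem hlc_normBeta_odd (hℓ : ℓ.Prime) (hℓ2 : ℓ ≠ 2) (hℓN : ¬ ℓ ∣ N)
    (u : modularFunctionFieldBar N) (hu : u ≠ 0) :
    ((Fermat.Agent.LatE.normBeta N ℓ u : modularFunctionFieldBar N) :
        LaurentSeries (AlgebraicClosure ℚ)).leadingCoeff
        = (u : LaurentSeries (AlgebraicClosure ℚ)).leadingCoeff ^ (ℓ + 1) :=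
  hlc_odd N ℓ hℓ hℓ2 hℓN u hu

/-- `hlc_pow` for `normBeta` -/
theorem hlc_normBeta_pow (hℓ : ℓ.Prime) (hℓN : ¬ ℓ ∣ N) (p : ℕ) (hp : ¬ 2 ∣ p)
    (u : modularFunctionFieldBar N) (hu : u ≠ 0) :
    ∃ e : AlgebraicClosure ℚ, (e = 1 ∨ e = -1) ∧
      ((Fermat.Agent.LatE.normBeta N ℓ u : modularFunctionFieldBar N) :
          LaurentSeries (AlgebraicClosure ℚ)).leadingCoeff
        = e ^ p * (u : LaurentSeries (AlgebraicClosure ℚ)).leadingCoeff ^ (ℓ + 1) :=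
  hlc_pow N ℓ hℓ hℓN p hp u hu

end Concrete

end Fermat.Agent.S40lib

end
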