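/-
Item 88 (S40), piece (B4), part 3 (helper12): `ζ − 1` is a uniformiser of the fixed field of
`I1 = S40hI1 p B`, and the `ζ − 1`-form of "(TRES) excludes (PEU)".

* `tri_index_eq`        : the index of `I1` in the inertia group is `p − 1`;
* `tri_hdisc_zeta`      : `ζ − 1 ≠ 0`, `v(ζ − 1) < 1`, every nonzero element of the fixed field of
  `I1` has valuation `v(ζ − 1)^n`, and `v(p) = v(ζ − 1)^(p − 1)`;
* **`tri_not_peuB_zeta`** : `v(rt)^p = v(ζ − 1)^j`, `p ∤ j`, `rt^p` fixed by `I1`,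
  `St ∩ I1 = Stab_{I1}(rt)`  ⇒  `¬ S40hPeuB p B St`.
-/
import Mathlib
import Fermat.Agent.S36lib.Speed
import Fermat.Agent.S33lib.RayPow
import Fermat.Agent.S33lib.TorGlue
import Fermat.Agent.S33lib.RayDiscLift
import Fermat.Agent.S40lib.TresDisc

set_option autoImplicit false
set_option linter.unusedSectionVars false
set_option linter.unusedVariables false
set_option linter.style.haveILetI false

noncomputable section

namespace Fermat.Agent.S40lib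

open Fermat.Agent.S24lib Fermat.Agent.S36lib Fermat.Agent.S33lib

section Zeta

variable {p : ℕ} (hp : p.Prime) (B : ValuationSubring (AlgebraicClosure ℚ))

include hp

/-- `v(p) = v(ζ − 1)^(p − 1)` -/
theorem tri_val_p (hB : B.LiesOverPrime p) {ζ : AlgebraicClosure ℚ}
    (hζ : IsPrimitiveRoot ζ p) :
    B.valuation ((p : ℕ) : AlgebraicClosure ℚ) = B.valuation (ζ - 1) ^ (p - 1) :=
  tas_val_p B (rdl_hlamA hp hB hζ) (rpw_p_eq hp hζ B (tri_zeta_mem hp B hζ))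

/-- **the index of `I1` in the inertia group is `p − 1`** -/
theorem tri_index_eq (hB : B.LiesOverPrime p) :
    ((triI1 p B).subgroupOf (B.inertiaSubgroupIn ℚ)).index = p - 1 := by
  haveI : NeZero p := ⟨hp.ne_zero⟩
  obtain ⟨ζ, hζ⟩ := HasEnoughRootsOfUnity.exists_primitiveRoot (AlgebraicClosure ℚ) p
  obtain ⟨hfin, hlt⟩ := tri_index hp B
  have hlam0 : ζ - 1 ≠ 0 := rdl_hlam0 hp hζ
  have hlamlt : B.valuation (ζ - 1) < 1 := B.mem_nonunits_iff.mp (rdl_hlamA hp hB hζ)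
  have hfix : ∀ σ ∈ triI1 p B, σ ∈ B.inertiaSubgroupIn ℚ → σ (ζ - 1) = ζ - 1 := by
    intro σ hσ _
    rw [map_sub, map_one, hσ.2 ζ hζ.pow_eq_one]
  obtain ⟨n, hn⟩ := lvv_val_pow B hp hB (triI1 p B) hfin (ζ - 1) hlam0 hfix
  rw [tri_val_p hp B hB hζ, ← zpow_natCast (B.valuation (ζ - 1)) (p - 1), ← zpow_mul,
    ← zpow_natCast] at hn
  have h1 := tri_zpow_inj B hlam0 hlamlt hn
  have hdvd : (p - 1) ∣ ((triI1 p B).subgroupOf (B.inertiaSubgroupIn ℚ)).index :=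
    Int.natCast_dvd_natCast.mp ⟨n, h1⟩
  have hd0 : 0 < ((triI1 p B).subgroupOf (B.inertiaSubgroupIn ℚ)).index :=
    Nat.pos_of_ne_zero hfin.index_ne_zero
  have hle := Nat.le_of_dvd hd0 hdvd
  omega

/-- **`ζ − 1` is a uniformiser of the fixed field of `I1`** -/
theorem tri_hdisc_zeta (hB : B.LiesOverPrime p) {ζ : AlgebraicClosure ℚ}
    (hζ : IsPrimitiveRoot ζ p) :
    ζ - 1 ≠ 0 ∧ B.valuation (ζ - 1) < 1 ∧
      (∀ x : AlgebraicClosure ℚ, (∀ τ ∈ S40hI1 p B, τ x = x) → x ≠ 0 →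
        ∃ n : ℤ, B.valuation x = B.valuation (ζ - 1) ^ n) ∧
      B.valuation ((p : ℕ) : AlgebraicClosure ℚ) = B.valuation (ζ - 1) ^ (p - 1) := by
  obtain ⟨hfin, -⟩ := tri_index hp B
  have hlam0 : ζ - 1 ≠ 0 := rdl_hlam0 hp hζ
  have hlamlt : B.valuation (ζ - 1) < 1 := B.mem_nonunits_iff.mp (rdl_hlamA hp hB hζ)
  have hvp := tri_val_p hp B hB hζ
  refine ⟨hlam0, hlamlt, fun x hx hx0 => ?_, hvp⟩
  obtain ⟨m, hm⟩ := lvv_val_pow B hp hB (triI1 p B) hfin x hx0 (fun σ hσ _ => hx σ hσ)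
  rw [tri_index_eq hp B hB, hvp, ← zpow_natCast (B.valuation (ζ - 1)) (p - 1), ← zpow_mul,
    mul_comm, zpow_mul, zpow_natCast] at hm
  have hp1 : p - 1 ≠ 0 := Nat.sub_ne_zero_of_lt hp.one_lt
  exact ⟨m, (pow_left_inj₀ zero_le zero_le hp1).mp hm⟩

/-- **(TRES) excludes (PEU)**, `ζ − 1`-form. -/
theorem tri_not_peuB_zeta (hB : B.LiesOverPrime p)
    (St : Set (AlgebraicClosure ℚ ≃ₐ[ℚ] AlgebraicClosure ℚ))
    {ζ rt : AlgebraicClosure ℚ} (hζ : IsPrimitiveRoot ζ p) {j : ℤ} (hj : ¬ (p : ℤ) ∣ j)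
    (hrt : B.valuation rt ^ p = B.valuation (ζ - 1) ^ j)
    (hκ : ∀ τ ∈ S40hI1 p B, τ (rt ^ p) = rt ^ p)
    (hSt : ∀ τ ∈ S40hI1 p B, (τ ∈ St ↔ τ rt = rt)) :
    ¬ S40hPeuB p B St := by
  obtain ⟨hlam0, hlamlt, hdisc, -⟩ := tri_hdisc_zeta hp B hB hζ
  exact tri_not_peuB hp B St hlam0 hlamlt hdisc hj hrt hκ hSt

end Zeta

end Fermat.Agent.S40lib

end
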