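import Mathlib
import Fermat.Agent.S36lib.Speed
import Fermat.Agent.S05_Inertia
import Fermat.Agent.S40lib.ConstPow
import Fermat.Agent.S40lib.TresZeta

/-!
# Item 88 (S44), block (J-WILD), piece (Z2): the input (HENS) of `lpa_const_pow` for `K1`

`K1` = the field of invariants of `I1 = S40hI1 p B` (inertia elements at `B` fixing `μ_p`) in
`ℚ̄`.  An element `y` of `K1` with `y ≡ 1 mod (ζ - 1) ^ p` is a `p`-th power in `K1`:
every `p`-th root `r` of `y` in `ℚ̄` is fixed by `I1` (`cpw_fixed`: `τ r = ζ ^ i r`,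
`(r - 1) / (ζ - 1)` is integral and `τ` is trivial on the residue field).

* `hk1_root_fixed` : every `p`-th root of `y` is fixed by `I1`;
* `hk1_hens`       : `∃ x` fixed by `I1` with `x ^ p = y`  (= (HENS) for `K1`);
* `hk1_hens_unit`  : the same for `y ≡ e ^ p mod (ζ - 1) ^ p`, `e` an `I1`-fixed unit.
-/

set_option autoImplicit false
set_option linter.unusedSectionVars false
set_option linter.unusedVariables false

noncomputable section

namespace Fermat.Agent.S40lib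

open Fermat.Agent.S24lib Fermat.Agent.S36lib Fermat.Agent.S33lib

section HensK1

variable {p : ℕ} (B : ValuationSubring (AlgebraicClosure ℚ))

/-- every element of `I1` is trivial on the residue field of `B` -/
theorem hk1_inertial {τ : AlgebraicClosure ℚ ≃ₐ[ℚ] AlgebraicClosure ℚ}
    (hτ : τ ∈ S40hI1 p B) :
    ∀ f ∈ B, ((τ : AlgebraicClosure ℚ ≃ₐ[ℚ] AlgebraicClosure ℚ) :
      AlgebraicClosure ℚ →+* AlgebraicClosure ℚ) f - f ∈ B.nonunits := by
  intro f hf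
  have h := Fermat.Agent.S05wire.isInertial_of_mem_inertiaSubgroupIn B hτ.1
  rw [ValuationSubring.mem_nonunits_iff]
  exact h.sub_lt f ((B.valuation_le_one_iff f).mpr hf)

/-- **every `p`-th root of `y ≡ 1 mod (ζ - 1) ^ p` (`y` fixed by `I1`) is fixed by `I1`** -/
theorem hk1_root_fixed (hp : p.Prime) (hB : B.LiesOverPrime p) {ζ : AlgebraicClosure ℚ}
    (hζ : IsPrimitiveRoot ζ p) (y r : AlgebraicClosure ℚ) (hr : r ^ p = y)
    (hy : ∀ τ ∈ S40hI1 p B, τ y = y)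
    (hval : B.valuation (y - 1) ≤ B.valuation (ζ - 1) ^ p) :
    ∀ τ ∈ S40hI1 p B, τ r = r := by
  intro τ hτ
  have : NeZero p := ⟨hp.ne_zero⟩
  have hlam0 : ζ - 1 ≠ 0 := rdl_hlam0 hp hζ
  have hlamA : ζ - 1 ∈ B.nonunits := rdl_hlamA hp hB hζ
  have hpO : ((p : ℕ) : AlgebraicClosure ℚ) ∈ B.nonunits := hB
  -- `G = (y - 1) / (ζ - 1) ^ p ∈ B`
  have hlp0 : (ζ - 1) ^ p ≠ 0 := pow_ne_zero p hlam0
  have hG : (y - 1) / (ζ - 1) ^ p ∈ B := by
    rw [← B.valuation_le_one_iff, map_div₀, map_pow]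
    exact div_le_one_of_le₀ hval zero_le
  have hyG : r ^ p = 1 + (ζ - 1) ^ p * ((y - 1) / (ζ - 1) ^ p) := by
    rw [hr, mul_div_cancel₀ _ hlp0]
    ring
  -- `y ≠ 0`, hence `r ≠ 0`
  have hy0 : y ≠ 0 := by
    rintro rfl
    rw [zero_sub, Valuation.map_neg, Valuation.map_one] at hval
    have h1 : B.valuation (ζ - 1) ^ p < 1 :=
      pow_lt_one₀ zero_le (B.mem_nonunits_iff.mp hlamA) hp.ne_zero
    exact absurd hval (not_le.mpr h1)
  have hr0 : r ≠ 0 := by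
    rintro rfl
    rw [zero_pow hp.ne_zero] at hr
    exact hy0 hr.symm
  -- `τ r = ζ ^ i r`
  have hτζ : τ ζ = ζ := hτ.2 ζ hζ.pow_eq_one
  have hpow : (τ r / r) ^ p = 1 := by
    rw [div_pow, ← map_pow, hr, hy τ hτ, div_self hy0]
  obtain ⟨i, -, hi⟩ := hζ.eq_pow_of_pow_eq_one hpow
  have hτr : τ r = ζ ^ i * r := by
    rw [hi, div_mul_cancel₀ _ hr0]
  exact cpw_fixed B hp hζ hlamA hpO
    ((τ : AlgebraicClosure ℚ ≃ₐ[ℚ] AlgebraicClosure ℚ) :
      AlgebraicClosure ℚ →+* AlgebraicClosure ℚ) hτζ (hk1_inertial B hτ) r _ hG hyG i hτr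

/-- **(HENS) for `K1`**: an `I1`-fixed `y ≡ 1 mod (ζ - 1) ^ p` is the `p`-th power of an
`I1`-fixed element. -/
theorem hk1_hens (hp : p.Prime) (hB : B.LiesOverPrime p) {ζ : AlgebraicClosure ℚ}
    (hζ : IsPrimitiveRoot ζ p) (y : AlgebraicClosure ℚ)
    (hy : ∀ τ ∈ S40hI1 p B, τ y = y)
    (hval : B.valuation (y - 1) ≤ B.valuation (ζ - 1) ^ p) :
    ∃ x : AlgebraicClosure ℚ, (∀ τ ∈ S40hI1 p B, τ x = x) ∧ x ^ p = y := by
  obtain ⟨r, hr⟩ := IsAlgClosed.exists_pow_nat_eq y hp.pos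
  exact ⟨r, hk1_root_fixed B hp hB hζ y r hr hy hval, hr⟩

/-- **(HENS) with a unit**: an `I1`-fixed `y` with `y ≡ e ^ p mod (ζ - 1) ^ p`, `e` an `I1`-fixed
unit of `B`, is the `p`-th power of an `I1`-fixed element. -/
theorem hk1_hens_unit (hp : p.Prime) (hB : B.LiesOverPrime p) {ζ : AlgebraicClosure ℚ}
    (hζ : IsPrimitiveRoot ζ p) (y e : AlgebraicClosure ℚ)
    (hy : ∀ τ ∈ S40hI1 p B, τ y = y) (he : ∀ τ ∈ S40hI1 p B, τ e = e)
    (heu : B.valuation e = 1)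
    (hval : B.valuation (y - e ^ p) ≤ B.valuation (ζ - 1) ^ p) :
    ∃ x : AlgebraicClosure ℚ, (∀ τ ∈ S40hI1 p B, τ x = x) ∧ x ^ p = y := by
  have he0 : e ≠ 0 := by
    rintro rfl
    rw [Valuation.map_zero] at heu
    exact zero_ne_one heu
  have hep0 : e ^ p ≠ 0 := pow_ne_zero p he0
  have h1 : y / e ^ p - 1 = (y - e ^ p) / e ^ p := by
    field_simp
  obtain ⟨x, hx, hxp⟩ := hk1_hens B hp hB hζ (y / e ^ p)
    (fun τ hτ => by rw [map_div₀, map_pow, hy τ hτ, he τ hτ])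
    (by rw [h1, map_div₀, map_pow, heu, one_pow, div_one]; exact hval)
  refine ⟨x * e, fun τ hτ => by rw [map_mul, hx τ hτ, he τ hτ], ?_⟩
  rw [mul_pow, hxp, div_mul_cancel₀ _ hep0]

end HensK1

end Fermat.Agent.S40lib

end
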