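/-
Item 88 (S44), (J-WILD), LAYER B (helper1): the hypothesis `hgen₀` of `s40j_pt_node` /
`s40j_pt_smooth` / `s40j_ref` (helper22, `WildPtAsm*.lean`, `WildPtRef.lean`) in the CONTEXT of
`WildPtCtx` (helper8):

  `hgc_hgen : Algebra.adjoin F₀ {z₀} = ⊤`   (`F₀ = f0Field A N`, `E₀ = wpbE0`, `Algebra F₀ E₀ =
  wpbAlgF0E0`)

for the generator `z₀` of `cve0c_main` / `zsg_main` / `zsg_full`: from the congruence
`σ₀ z₀ - z₀ = 1 + λ c₁` (the case `i = 1` of `hcong`), `p ∈ 𝔪_{B_s}` and the descent `hdescE`.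
Also `hgc_hinj` (`B_s → EY` injective), `hgc_hσF`, `hgc_hσ` (`σ₀^[p] = id` on `E₀`).
-/
import Mathlib
import Fermat.Agent.S36lib.Speed
import Fermat.Agent.S40lib.WildPtCtx
import Fermat.Agent.S40lib.CoverInstF

set_option autoImplicit false
set_option linter.style.haveILetI false
set_option linter.unusedSectionVars false
set_option linter.unusedVariables false
set_option synthInstance.maxHeartbeats 400000
set_option maxHeartbeats 1000000

noncomputable section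

namespace Fermat.Agent.S40lib

open ModularCurve HahnSeries AlgebraicCurve Fermat.Agent.S24lib Fermat.Agent.S33lib
  Fermat.Agent.S34lib Fermat.Agent.RRlib Fermat.Agent.S36lib IsLocalRing

section

variable (A : ValuationSubring Kbar) (N : ℕ) [NeZero N]
  (EY : IntermediateField Kbar (LaurentSeries Kbar))
  (hle : modularFunctionFieldBar N ≤ EY)
  (hst : ∀ σ ∈ A.inertiaSubgroupIn ℚ, ∀ x ∈ EY,
    coeffMap ((σ : Kbar ≃ₐ[ℚ] Kbar) : Kbar →+* Kbar) x ∈ EY)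
  (B0 : Subring ↥(f0Field A N)) (s : Ideal ↥B0) [hs : s.IsPrime]
  (σY : ↥EY →+* ↥EY)
  (hcomm : ∀ (σ : Kbar ≃ₐ[ℚ] Kbar) (hσ : σ ∈ A.inertiaSubgroupIn ℚ) (z : ↥EY),
    σY (wlcTau (A.inertiaSubgroupIn ℚ) EY hst σ hσ z) =
      wlcTau (A.inertiaSubgroupIn ℚ) EY hst σ hσ (σY z))

/-- `B_s → EY` is injective (`hinj` for `criAlg`) -/
theorem hgc_hinj
    (hfrac : ∀ z : ↥(f0Field A N), ∃ a b : ↥B0, b ≠ 0 ∧
      z * (b : ↥(f0Field A N)) = (a : ↥(f0Field A N))) :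
    letI := criAlg A N EY hle B0 s
    Function.Injective (algebraMap (Localization.AtPrime s) ↥EY) :=
  cif_hom_injective A N EY hle B0 s hfrac

/-- `σ₀^[p] = id` on `E₀` -/
theorem hgc_hσ {p : ℕ} (hσp : ∀ y : ↥EY, σY^[p] y = y) (y : ↥(wpbE0 A EY hst)) :
    (cve0Sigma (cve0cT (A.inertiaSubgroupIn ℚ) EY hst) σY
      (cve0c_hcomm (A.inertiaSubgroupIn ℚ) EY hst σY hcomm))^[p] y = y :=
  cve0_sigma_iterate_all _ σY _ hσp y

/-- the deck map of `E₀` fixes `F₀` -/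
theorem hgc_hσF
    (hσF : ∀ f : FF N, σY ⟨(f : LaurentSeries Kbar), hle f.2⟩ =
      ⟨(f : LaurentSeries Kbar), hle f.2⟩) :
    letI := wpbAlgF0E0 A N EY hle hst
    ∀ a : ↥(f0Field A N),
      cve0Sigma (cve0cT (A.inertiaSubgroupIn ℚ) EY hst) σY
        (cve0c_hcomm (A.inertiaSubgroupIn ℚ) EY hst σY hcomm)
        (algebraMap ↥(f0Field A N) ↥(wpbE0 A EY hst) a) =
      algebraMap ↥(f0Field A N) ↥(wpbE0 A EY hst) a := by
  letI := wpbAlgF0E0 A N EY hle hst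
  intro a
  apply Subtype.ext
  rw [cve0_coe_sigma]
  exact hσF (a : FF N)

/-- **`hgen₀`** in the context of `WildPtCtx` -/
theorem hgc_hgen
    (hfrac : ∀ z : ↥(f0Field A N), ∃ a b : ↥B0, b ≠ 0 ∧
      z * (b : ↥(f0Field A N)) = (a : ↥(f0Field A N)))
    {p : ℕ} (hp : p.Prime)
    (hpR : (p : Localization.AtPrime s) ∈ maximalIdeal (Localization.AtPrime s))
    {ζ : Kbar} (hζ : IsPrimitiveRoot ζ p)
    (hσp : ∀ y : ↥EY, σY^[p] y = y)
    (hσF : ∀ f : FF N, σY ⟨(f : LaurentSeries Kbar), hle f.2⟩ =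
      ⟨(f : LaurentSeries Kbar), hle f.2⟩)
    (hfix : ∀ y : ↥EY, σY y = y → (y : LaurentSeries Kbar) ∈ modularFunctionFieldBar N)
    (hdescE :
      letI := criAlg A N EY hle B0 s
      ∀ t : ↥EY, σY t = t → (∀ τ ∈ cve0cT (A.inertiaSubgroupIn ℚ) EY hst, τ t = t) →
        IsIntegral (Localization.AtPrime s) t →
        t ∈ Set.range (algebraMap (Localization.AtPrime s) ↥EY))
    (z₀ : ↥(wpbE0 A EY hst)) (c₁ : ↥EY)
    (hc₁ : letI := criAlg A N EY hle B0 s; IsIntegral (Localization.AtPrime s) c₁)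
    (hcong : ((cve0Sigma (cve0cT (A.inertiaSubgroupIn ℚ) EY hst) σY
        (cve0c_hcomm (A.inertiaSubgroupIn ℚ) EY hst σY hcomm) z₀ : ↥(wpbE0 A EY hst)) : ↥EY)
      - (z₀ : ↥EY) = 1 + (algebraMap Kbar ↥EY ζ - 1) * c₁) :
    letI := wpbAlgF0E0 A N EY hle hst
    Algebra.adjoin ↥(f0Field A N) ({z₀} : Set ↥(wpbE0 A EY hst)) = ⊤ :=
  cif_hgen A N EY hle B0 s (A.inertiaSubgroupIn ℚ) hst (fun _ h => h) (fun _ h => h) hfrac hp
    hpR hζ σY (cve0c_hcomm (A.inertiaSubgroupIn ℚ) EY hst σY hcomm) hσp hσF hfix hdescE z₀ c₁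
    hc₁ hcong

/-- **`σY z₀ ≠ z₀`** (the hypothesis `hz` of `wph_hgenE`) -/
theorem hgc_sigma_ne
    (hfrac : ∀ z : ↥(f0Field A N), ∃ a b : ↥B0, b ≠ 0 ∧
      z * (b : ↥(f0Field A N)) = (a : ↥(f0Field A N)))
    {p : ℕ} (hp : p.Prime)
    (hpR : (p : Localization.AtPrime s) ∈ maximalIdeal (Localization.AtPrime s))
    {ζ : Kbar} (hζ : IsPrimitiveRoot ζ p)
    (hdescE :
      letI := criAlg A N EY hle B0 s
      ∀ t : ↥EY, σY t = t → (∀ τ ∈ cve0cT (A.inertiaSubgroupIn ℚ) EY hst, τ t = t) →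
        IsIntegral (Localization.AtPrime s) t →
        t ∈ Set.range (algebraMap (Localization.AtPrime s) ↥EY))
    (z₀ : ↥(wpbE0 A EY hst)) (c₁ : ↥EY)
    (hc₁ : letI := criAlg A N EY hle B0 s; IsIntegral (Localization.AtPrime s) c₁)
    (hcong : ((cve0Sigma (cve0cT (A.inertiaSubgroupIn ℚ) EY hst) σY
        (cve0c_hcomm (A.inertiaSubgroupIn ℚ) EY hst σY hcomm) z₀ : ↥(wpbE0 A EY hst)) : ↥EY)
      - (z₀ : ↥EY) = 1 + (algebraMap Kbar ↥EY ζ - 1) * c₁) :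
    σY (z₀ : ↥EY) ≠ (z₀ : ↥EY) := by
  letI := criAlg A N EY hle B0 s
  have hζ' : IsPrimitiveRoot (algebraMap Kbar ↥EY ζ) p :=
    hζ.map_of_injective (algebraMap Kbar ↥EY).injective
  have h := cvg_sigma0_ne (R := Localization.AtPrime s) (E := ↥EY)
    (wpbE0 A EY hst).subtype (cif_hom_injective A N EY hle B0 s hfrac) hp hpR hζ' σY
    (cve0cT (A.inertiaSubgroupIn ℚ) EY hst) hdescE
    (cve0Sigma (cve0cT (A.inertiaSubgroupIn ℚ) EY hst) σY
      (cve0c_hcomm (A.inertiaSubgroupIn ℚ) EY hst σY hcomm)) z₀ c₁ hc₁ hcong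
  intro heq
  apply h
  apply Subtype.ext
  rw [cve0_coe_sigma]
  exact heq

end

end Fermat.Agent.S40lib

end
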