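import Mathlib
import Fermat.Agent.S36lib.Speed
import Fermat.Agent.S40lib.FreyAsm
import Fermat.Agent.S40lib.W1MultDepth

/-!
# Item 88 (S44): the hub with an ODD non-Eisenstein prime (helper27)

The blocks (J-TAME) `S40jTame` and (J-WILD) `S40jWild` of `AJHub` hand ONE non-Eisenstein prime
`ℓ ∉ S` to their providers.  The providers work at the auxiliary level `lcm(M', 4) · p` and need
`ℓ ∤ lcm(M', 4) · p`, i.e. `ℓ ≠ 2`; but a conductor level `N` of a Frey package may be odd, and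
then `S` need not contain `2`.  The hub itself knows a non-Eisenstein prime outside EVERY finite
set (`new_hnE`), so it can hand over a prime `ℓ ∉ S`, `ℓ ≠ 2`.

* `S40jTame2`, `S40jWild2` : (J-TAME), (J-WILD) with the extra information `ℓ ≠ 2` (WEAKER
  statements: `hod_tame_of`, `hod_wild_of`);
* `hod_exists_odd`        : `ℓ ∉ insert 2 S` gives `ℓ ∉ S ∧ ℓ ≠ 2`;
* `hod_geom_peu`          : the second half of the J-side block from `S40jTame2`, `S40jWild2`;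
* `hod_geom4`             : `S40hGeom4 W …` from `S40jTame2`, `S40jWild2` and `∀ S, hnE`;
* `hod_S44`               : the statement of S44 from `S40jTame2 ∧ S40jWild2` alone.
-/

set_option autoImplicit false
set_option linter.style.haveILetI false

noncomputable section

namespace Fermat.Agent.S40lib

open Fermat.Agent.GalRep ModularCurve Fermat.Agent.S31lib Fermat.Agent.S35lib
  Fermat.Agent.S33lib WeierstrassCurve WeierstrassCurve.Affine WeierstrassCurve.Affine.Point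

/-- **(J-TAME)** with a non-Eisenstein prime `ℓ ≠ 2`. -/
def S40jTame2 (M' p : ℕ) [NeZero M'] [NeZero (M' * p)]
    (B : ValuationSubring (AlgebraicClosure ℚ)) : Prop :=
  ∀ (S : Finset ℕ) (a : ℕ → ℤ) (V : AddSubgroup (JZero (M' * p))),
    (∀ ℓ : ℕ, ℓ.Prime → ℓ ∣ M' * p → ℓ ∈ S) →
    Nat.card V = p ^ 2 → (∀ x ∈ V, p • x = 0) →
    (∀ (σ : AlgebraicClosure ℚ ≃ₐ[ℚ] AlgebraicClosure ℚ), ∀ x ∈ V, σ • x ∈ V) →
    S40hEig (M' * p) S a V → S40hNotAt M' p S a →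
    (∃ ℓ : Nat.Primes, (ℓ : ℕ) ∉ S ∧ (ℓ : ℕ) ≠ 2 ∧ ¬ (p : ℤ) ∣ a ℓ - (1 + (ℓ : ℕ))) →
    ∀ x ∈ V, (∀ σ ∈ B.inertiaSubgroupIn ℚ, σ • x = x) → x = 0

/-- **(J-WILD)** with a non-Eisenstein prime `ℓ ≠ 2`. -/
def S40jWild2 (M' p : ℕ) [NeZero M'] [NeZero (M' * p)]
    (B : ValuationSubring (AlgebraicClosure ℚ)) : Prop :=
  ∀ (S : Finset ℕ) (a : ℕ → ℤ) (V : AddSubgroup (JZero (M' * p))),
    (∀ ℓ : ℕ, ℓ.Prime → ℓ ∣ M' * p → ℓ ∈ S) →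
    Nat.card V = p ^ 2 → (∀ x ∈ V, p • x = 0) →
    (∀ (σ : AlgebraicClosure ℚ ≃ₐ[ℚ] AlgebraicClosure ℚ), ∀ x ∈ V, σ • x ∈ V) →
    S40hEig (M' * p) S a V → S40hNotAt M' p S a →
    (∃ ℓ : Nat.Primes, (ℓ : ℕ) ∉ S ∧ (ℓ : ℕ) ≠ 2 ∧ ¬ (p : ℤ) ∣ a ℓ - (1 + (ℓ : ℕ))) →
    ∀ x ∈ V, x ≠ 0 → (∃ τ₀ ∈ B.inertiaSubgroupIn ℚ, S33hMoves p τ₀ ∧ τ₀ • x = x) →
      (∃ σ ∈ S40hI1 p B, σ • x ≠ x) →
      ∃ rt κ : AlgebraicClosure ℚ, κ ≠ 0 ∧ rt ^ p = κ ∧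
        (∀ τ ∈ B.inertiaSubgroupIn ℚ, τ κ = κ) ∧
        (∀ n : ℤ, B.valuation κ ≠ B.valuation (p : AlgebraicClosure ℚ) ^ ((p : ℤ) * n)) ∧
        ∀ τ ∈ S40hI1 p B, (τ • x = x ↔ τ rt = rt)

/-- forget `ℓ ≠ 2` -/
theorem hod_forget {p : ℕ} {S : Finset ℕ} {a : ℕ → ℤ}
    (h : ∃ ℓ : Nat.Primes, (ℓ : ℕ) ∉ S ∧ (ℓ : ℕ) ≠ 2 ∧ ¬ (p : ℤ) ∣ a ℓ - (1 + (ℓ : ℕ))) :
    ∃ ℓ : Nat.Primes, (ℓ : ℕ) ∉ S ∧ ¬ (p : ℤ) ∣ a ℓ - (1 + (ℓ : ℕ)) := by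
  obtain ⟨ℓ, h1, -, h3⟩ := h
  exact ⟨ℓ, h1, h3⟩

/-- the old block implies the new one -/
theorem hod_tame_of {M' p : ℕ} [NeZero M'] [NeZero (M' * p)]
    {B : ValuationSubring (AlgebraicClosure ℚ)} (h : S40jTame M' p B) : S40jTame2 M' p B :=
  fun S a V hS hcard hVp hstab hEig hNot hnE =>
    h S a V hS hcard hVp hstab hEig hNot (hod_forget hnE)

/-- the old block implies the new one -/
theorem hod_wild_of {M' p : ℕ} [NeZero M'] [NeZero (M' * p)]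
    {B : ValuationSubring (AlgebraicClosure ℚ)} (h : S40jWild M' p B) : S40jWild2 M' p B :=
  fun S a V hS hcard hVp hstab hEig hNot hnE =>
    h S a V hS hcard hVp hstab hEig hNot (hod_forget hnE)

/-- a non-Eisenstein prime outside `insert 2 S` is a non-Eisenstein prime `≠ 2` outside `S` -/
theorem hod_exists_odd {p : ℕ} {a : ℕ → ℤ}
    (hnE : ∀ S : Finset ℕ, ∃ ℓ : Nat.Primes, (ℓ : ℕ) ∉ S ∧
      ¬ (p : ℤ) ∣ a ℓ - (1 + (ℓ : ℕ))) (S : Finset ℕ) :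
    ∃ ℓ : Nat.Primes, (ℓ : ℕ) ∉ S ∧ (ℓ : ℕ) ≠ 2 ∧ ¬ (p : ℤ) ∣ a ℓ - (1 + (ℓ : ℕ)) := by
  obtain ⟨ℓ, hℓ, hnd⟩ := hnE (insert 2 S)
  refine ⟨ℓ, ?_, ?_, hnd⟩
  · intro h
    exact hℓ (Finset.mem_insert_of_mem h)
  · intro h
    exact hℓ (by rw [h]; exact Finset.mem_insert_self 2 S)

/-- **the second half of the J-side block** (Mazur's principle at `p`) from `S40jTame2` and
`S40jWild2`. -/
theorem hod_geom_peu (M' p : ℕ) [NeZero M'] [NeZero p] [NeZero (M' * p)]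
    (hp : p.Prime) (hp2 : p ≠ 2) (hpM : ¬ p ∣ M')
    (B : ValuationSubring (AlgebraicClosure ℚ)) (hB : B.LiesOverPrime p)
    (hT : S40jTame2 M' p B) (hW : S40jWild2 M' p B)
    (S : Finset ℕ) (a : ℕ → ℤ) (V : AddSubgroup (JZero (M' * p)))
    (hS : ∀ ℓ : ℕ, ℓ.Prime → ℓ ∣ M' * p → ℓ ∈ S)
    (hcard : Nat.card V = p ^ 2) (hVp : ∀ x ∈ V, p • x = 0)
    (hstab : ∀ (σ : AlgebraicClosure ℚ ≃ₐ[ℚ] AlgebraicClosure ℚ), ∀ x ∈ V, σ • x ∈ V)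
    (hEig : S40hEig (M' * p) S a V) (hNot : S40hNotAt M' p S a)
    (hnE : ∃ ℓ : Nat.Primes, (ℓ : ℕ) ∉ S ∧ (ℓ : ℕ) ≠ 2 ∧ ¬ (p : ℤ) ∣ a ℓ - (1 + (ℓ : ℕ)))
    (x : JZero (M' * p)) (hx : x ∈ V) (hx0 : x ≠ 0)
    (hfix : ∃ τ₀ ∈ B.inertiaSubgroupIn ℚ, S33hMoves p τ₀ ∧ τ₀ • x = x) :
    ¬ S40hPeuB p B (S40hStab x) := by
  by_cases h1 : S40hI1 p B ⊆ S40hStab x
  · obtain ⟨τ₀, hτ₀, hmv, hτ₀x⟩ := hfix
    have hI : ∀ σ ∈ B.inertiaSubgroupIn ℚ, σ • x = x :=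
      tmf_fixed M' p hp hp2 hpM B hB S a V hS hVp hstab hEig hNot x hx
        (fun τ hτ => h1 hτ) τ₀ hτ₀ hmv hτ₀x
    exact absurd (hT S a V hS hcard hVp hstab hEig hNot hnE x hx hI) hx0
  · have h2 : ∃ σ ∈ S40hI1 p B, σ • x ≠ x := by
      by_contra hcon
      apply h1
      intro σ hσ
      by_contra hσx
      exact hcon ⟨σ, hσ, hσx⟩
    obtain ⟨rt, κ, hκ0, hpow, hκI, hnd, hSt⟩ :=
      hW S a V hS hcard hVp hstab hEig hNot hnE x hx hx0 hfix h2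
    exact tri_not_peuB_kappa hp B hB (S40hStab x) hκ0 hpow hκI hnd
      (fun τ hτ => hSt τ hτ)

/-- **the J-side block `S40hGeom4` of the hub** for a curve `W` with a non-Eisenstein prime
outside every finite set, from `S40jTame2` and `S40jWild2`. -/
theorem hod_geom4 (W : WeierstrassCurve ℤ) (M' p : ℕ) [NeZero M'] [NeZero p] [NeZero (M' * p)]
    (hp : p.Prime) (hp2 : p ≠ 2) (hpM : ¬ p ∣ M')
    (B : ValuationSubring (AlgebraicClosure ℚ)) (hB : B.LiesOverPrime p)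
    (hnE : ∀ S : Finset ℕ, ∃ ℓ : Nat.Primes, (ℓ : ℕ) ∉ S ∧
      ¬ (p : ℤ) ∣ W.apOfModel ℓ - (1 + (ℓ : ℕ)))
    (hT : S40jTame2 M' p B) (hW : S40jWild2 M' p B) :
    S40hGeom4 W M' p B (S40hPeuB p B) := by
  intro S V hS hcard hVp hstab hEig hNot _
  have hS' : ∀ ℓ : ℕ, ℓ.Prime → ℓ ∣ M' * p → ℓ ∈ S := by
    intro ℓ hℓ hdvd
    refine hS ℓ hℓ ?_
    rcases (Nat.Prime.dvd_mul hℓ).mp hdvd with h1 | h1
    · exact Or.inr (Or.inl h1)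
    · exact Or.inl ((Nat.prime_dvd_prime_iff_eq hℓ hp).mp h1)
  refine ⟨s40h_omega3 M' p hp hp2 hpM B hB S W.apOfModel V hS' hcard hVp hstab hEig hNot, ?_⟩
  intro x hx hx0 hfix hPP
  exact absurd hPP (hod_geom_peu M' p hp hp2 hpM B hB hT hW S W.apOfModel V hS' hcard hVp
    hstab hEig hNot (hod_exists_odd hnE S) x hx hx0 hfix)

/-- **S44 from the J-side alone**, in the form with an odd non-Eisenstein prime
(`S40jTame2 ∧ S40jWild2`). -/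
theorem hod_S44 (P : FreyPackage) {N : ℕ} (hcond : P.IsConductorLevel N)
    (hpN : P.p ∣ N)
    (hirr : GaloisRepIsIrreducible (K := AlgebraicClosure ℚ) ℚ P.freyCurve P.p)
    (hmod : P.ModularRepOfLevel N)
    (hJ : ∀ (B : ValuationSubring (AlgebraicClosure ℚ)), B.LiesOverPrime P.p →
      ∀ (M' : ℕ) [NeZero M'] [NeZero (M' * P.p)], ¬ P.p ∣ M' →
        S40jTame2 M' P.p B ∧ S40jWild2 M' P.p B) :
    ∃ M : ℕ, M ∣ N ∧ ¬ P.p ∣ M ∧ P.ModularRepOfLevel M := by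
  have hp : P.p.Prime := P.pp
  have hp2 : P.p ≠ 2 := by
    have := P.hp5
    omega
  haveI : NeZero P.p := ⟨hp.ne_zero⟩
  refine s44h_asm4 P hcond hpN hirr hmod (w1m6_hW1 P) ?_
  intro W hWint B hB M' _ _ hpM'
  have hΔ : W.Δ ≠ 0 := s44h_Δ_ne_zero hWint (Fermat.Agent.DivPoly.freyCurve_Δ_ne_zero P)
  have hirrW : W.ModRepIsIrreducible P.p := s44h_irr hWint hirr
  exact hod_geom4 W M' P.p hp hp2 hpM' B hB (new_hnE W hΔ hp hp2 hirrW)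
    (hJ B hB M' hpM').1 (hJ B hB M' hpM').2

end Fermat.Agent.S40lib

end
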