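import Mathlib
import Fermat.Agent.S36lib.Speed
import Fermat.Agent.S34lib.InertiaRedAL
import Fermat.Agent.S34lib.VRedInto
import Fermat.Agent.S40lib.Hub

/-!
# Item 88 (S44), block (J-WILD), piece (Z2): the inertia action on `FF N` as ring homomorphisms

For `σ : ℚ̄ ≃ₐ[ℚ] ℚ̄` the coefficientwise action on `q`-expansions is a ring homomorphism
`itfHom N σ : FF N →+* FF N`.  For `σ` in the inertia group at `A` (over `p`) and a series
reduction `R` of `FF N` it is trivial on the residue field: `σ f - f ∈ 𝔪_R` for `f ∈ O_R`.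
These are the two hypotheses `hτF`, `hτR` of the (Z2) assembly.

* `itfHom`, `itf_coe`, `itf_smul`, `itf_algebraMap`;
* `itf_sub_mem`  : `σ ∈ I` ⇒ `itfHom N σ f - f ∈ R.O.nonunits` for `f ∈ R.O`;
* `itf_mem`      : `σ ∈ I` ⇒ `itfHom N σ f ∈ R.O` for `f ∈ R.O`;
* `itf_exists`, `itf_exists_I1` : the existential forms.
-/

set_option autoImplicit false
set_option linter.unusedSectionVars false
set_option linter.unusedVariables false

noncomputable section

namespace Fermat.Agent.S40lib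

open AlgebraicCurve Fermat.Agent.GoodRed ModularCurve HahnSeries Fermat.Agent.S24lib
  Fermat.Agent.S34lib

section InertiaFF

variable (N : ℕ) [NeZero N]

/-- the coefficientwise action of `σ` on `FF N`, as a ring homomorphism -/
def itfHom (σ : Kbar ≃ₐ[ℚ] Kbar) : FF N →+* FF N :=
  ((arithmeticRingAut (modularFunctionFieldFull N) σ : FF N ≃+* FF N) : FF N →+* FF N)

theorem itf_coe (σ : Kbar ≃ₐ[ℚ] Kbar) (f : FF N) :
    ((itfHom N σ f : FF N) : LaurentSeries Kbar)
      = coeffMap ((σ : Kbar ≃ₐ[ℚ] Kbar) : Kbar →+* Kbar) (f : LaurentSeries Kbar) :=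
  rfl

theorem itf_smul (σ : Kbar ≃ₐ[ℚ] Kbar) (f : FF N) :
    itfHom N σ f = arithmeticGalois (modularFunctionFieldFull N) σ • f :=
  rfl

theorem itf_algebraMap (σ : Kbar ≃ₐ[ℚ] Kbar) (c : Kbar) :
    itfHom N σ (algebraMap Kbar (FF N) c) = algebraMap Kbar (FF N) (σ c) :=
  arithmeticRingAut_algebraMap (modularFunctionFieldFull N) σ c

theorem itf_injective (σ : Kbar ≃ₐ[ℚ] Kbar) : Function.Injective (itfHom N σ) :=
  (arithmeticRingAut (modularFunctionFieldFull N) σ).injective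

variable {N} {p : ℕ} {A : ValuationSubring Kbar}
variable {Fk : IntermediateField (IsLocalRing.ResidueField A)
  (LaurentSeries (IsLocalRing.ResidueField A))}
variable {R : ConstRed A (IsLocalRing.residue A) (↥Fk) (FF N)}

/-- inertia preserves the unit ball -/
theorem itf_mem (hp : p.Prime) (hA : A.LiesOverPrime p) (hR : IsSeriesRed R)
    (σ : Kbar ≃ₐ[ℚ] Kbar) (hσ : σ ∈ A.inertiaSubgroupIn ℚ) (f : FF N) (hf : f ∈ R.O) :
    itfHom N σ f ∈ R.O := by
  have hfrac : HasPrimFrac A (modularFunctionFieldBar N) := vri_hfrac N p hp A hA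
  have hI := inred_isInertial_inf N hR hfrac σ hσ
  exact hI.smul_mem hf

/-- **inertia is trivial on the residue field of a series reduction** -/
theorem itf_sub_mem (hp : p.Prime) (hA : A.LiesOverPrime p) (hR : IsSeriesRed R)
    (σ : Kbar ≃ₐ[ℚ] Kbar) (hσ : σ ∈ A.inertiaSubgroupIn ℚ) (f : FF N) (hf : f ∈ R.O) :
    itfHom N σ f - f ∈ R.O.nonunits := by
  have hfrac : HasPrimFrac A (modularFunctionFieldBar N) := vri_hfrac N p hp A hA
  have hI := inred_isInertial_inf N hR hfrac σ hσ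
  have hm : arithmeticGalois (modularFunctionFieldFull N) σ • f ∈ R.O := hI.smul_mem hf
  have hred := hI.red_smul hf
  have h0 : R.red ⟨arithmeticGalois (modularFunctionFieldFull N) σ • f - f, sub_mem hm hf⟩
      = 0 := by
    have h1 : (⟨arithmeticGalois (modularFunctionFieldFull N) σ • f - f, sub_mem hm hf⟩ : R.O)
        = ⟨arithmeticGalois (modularFunctionFieldFull N) σ • f, hm⟩ - ⟨f, hf⟩ := rfl
    rw [h1, map_sub, hred, sub_self]
  have h2 := (R.red_eq_zero_iff _).mp h0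
  exact h2

/-- the existential form (the hypotheses `hτF`, `hτR` of the (Z2) assembly) -/
theorem itf_exists (hp : p.Prime) (hA : A.LiesOverPrime p) (hR : IsSeriesRed R)
    (τ : Kbar ≃ₐ[ℚ] Kbar) (hτ : τ ∈ A.inertiaSubgroupIn ℚ) :
    ∃ τF : FF N →+* FF N,
      (∀ f : FF N, ((τF f : FF N) : LaurentSeries Kbar)
        = coeffMap ((τ : Kbar ≃ₐ[ℚ] Kbar) : Kbar →+* Kbar) (f : LaurentSeries Kbar)) ∧
      (∀ f ∈ R.O, τF f - f ∈ R.O.nonunits) ∧
      (∀ c : Kbar, τF (algebraMap Kbar (FF N) c) = algebraMap Kbar (FF N) (τ c)) :=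
  ⟨itfHom N τ, fun f => itf_coe N τ f, fun f hf => itf_sub_mem hp hA hR τ hτ f hf,
    fun c => itf_algebraMap N τ c⟩

/-- the same for `τ ∈ I1` -/
theorem itf_exists_I1 (hp : p.Prime) (hA : A.LiesOverPrime p) (hR : IsSeriesRed R)
    (τ : Kbar ≃ₐ[ℚ] Kbar) (hτ : τ ∈ S40hI1 p A) :
    ∃ τF : FF N →+* FF N,
      (∀ f : FF N, ((τF f : FF N) : LaurentSeries Kbar)
        = coeffMap ((τ : Kbar ≃ₐ[ℚ] Kbar) : Kbar →+* Kbar) (f : LaurentSeries Kbar)) ∧
      (∀ f ∈ R.O, τF f - f ∈ R.O.nonunits) ∧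
      (∀ c : Kbar, τF (algebraMap Kbar (FF N) c) = algebraMap Kbar (FF N) (τ c)) :=
  itf_exists hp hA hR τ hτ.1

end InertiaFF

end Fermat.Agent.S40lib

end
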