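/-
Item 88 (S44), block (J-WILD), piece (Z1) (helper26): **`H`-FIXED KSAT-PAIR**, abstract form.
Complete proofs.

Setting of `S33lib/KSatPair.lean`: a function field `F/K`, TWO constant reductions `R₁`, `R₂`
over the same valuation ring `A` of `K`.  `S` is a subfield of `F` (in the application the
subfield `fixedLBC H` of the functions fixed by `H = I1`).

* `k2f_idem`    : an `S`-rational separating element gives an `S`-rational idempotent
                  (`red₁ t = 1`, `red₂ t = 0`);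
* `k2f_exists_red` : `S`-rational weak approximation for `S`-rational constants;
* `k2f_abs`     : `g` inertial for `R₁` and `R₂`, `f` a Kummer function of `y = [D_y]`
                  (`div f = p D_y`) with `g • f / f ∈ S` (e.g. `f ∈ S` and `g` normalises `H`),
                  residues lift to `S`-rational constants, `k` closed under `p`-th roots, an
                  `S`-rational separating element  ⟹  the class `g • y - y` has a Kummer function
                  `u ∈ S` with `u - 1 ∈ m₁` AND `u - 1 ∈ m₂`.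
  (No twist argument is needed: `g • f / f` is a unit with CONSTANT reduction at both
  valuations, `ksatU_smul_div`.)
* `k2f_div_fixed` : a divisor `D` with `div u = p D` is fixed by every semilinear automorphism
                  fixing `u` (divisors have no torsion): gives `hEH` of `tcc_deep`.
-/
import Mathlib
import Fermat.Agent.S33lib.KSatPair

set_option autoImplicit false
set_option linter.style.haveILetI false
set_option linter.unusedSectionVars false
set_option linter.unusedVariables false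

noncomputable section

namespace Fermat.Agent.S40lib

open AlgebraicCurve Fermat.Agent.RRlib Fermat.Agent.GoodRed Fermat.Agent.S34lib
  Fermat.Agent.S33lib

section Pair

variable {K F k Fk₁ Fk₂ : Type*} [Field K] [Field F] [Algebra K F] [Field k]
variable [Field Fk₁] [Algebra k Fk₁] [Field Fk₂] [Algebra k Fk₂]
variable {A : ValuationSubring K} {π : A →+* k}
variable (R₁ : ConstRed A π Fk₁ F) (R₂ : ConstRed A π Fk₂ F)

/-- **the `S`-rational idempotent**: `t ∈ S ∩ O₁ ∩ O₂` with `red₁ t = 1`, `red₂ t = 0`. -/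
theorem k2f_idem (S : Subfield F)
    (hsep : ∃ z : F, z ∈ S ∧ z ≠ 0 ∧ z ∈ R₁.O.nonunits ∧ z⁻¹ ∈ R₂.O.nonunits) :
    ∃ t : F, t ∈ S ∧ KspRed R₁ t 1 ∧ KspRed R₂ t 0 := by
  obtain ⟨z, hzS, hz0, hz₁, hz₂⟩ := hsep
  have h1 : KspRed R₁ (1 + z) 1 := by
    have := kspRed_add R₁ (kspRed_one R₁) ((kspRed_zero_iff R₁).2 hz₁)
    rwa [add_zero] at this
  have h2 : KspRed R₂ (1 + z⁻¹) 1 := by
    have := kspRed_add R₂ (kspRed_one R₂) ((kspRed_zero_iff R₂).2 hz₂)
    rwa [add_zero] at this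
  refine ⟨(1 + z)⁻¹, S.inv_mem (S.add_mem S.one_mem hzS), ?_, ?_⟩
  · have := kspRed_inv R₁ h1 one_ne_zero
    rwa [inv_one] at this
  · have h3 := kspRed_mul R₂ ((kspRed_zero_iff R₂).2 hz₂) (kspRed_inv R₂ h2 one_ne_zero)
    rw [zero_mul] at h3
    have e : (1 + z)⁻¹ = z⁻¹ * (1 + z⁻¹)⁻¹ := by
      have h4 : 1 + z = z * (1 + z⁻¹) := by
        rw [mul_add, mul_one, mul_inv_cancel₀ hz0, add_comm]
      rw [h4, mul_inv]
    rwa [e]

/-- **`S`-rational weak approximation** for `S`-rational constants. -/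
theorem k2f_exists_red (S : Subfield F)
    (hsep : ∃ z : F, z ∈ S ∧ z ≠ 0 ∧ z ∈ R₁.O.nonunits ∧ z⁻¹ ∈ R₂.O.nonunits) (a₁ a₂ : A)
    (ha₁ : algebraMap K F (a₁ : K) ∈ S) (ha₂ : algebraMap K F (a₂ : K) ∈ S) :
    ∃ h : F, h ∈ S ∧ KspRed R₁ h (algebraMap k Fk₁ (π a₁)) ∧
      KspRed R₂ h (algebraMap k Fk₂ (π a₂)) := by
  obtain ⟨t, htS, ht₁, ht₂⟩ := k2f_idem R₁ R₂ S hsep
  refine ⟨algebraMap K F (a₁ : K) * t + algebraMap K F (a₂ : K) * (1 - t),
    S.add_mem (S.mul_mem ha₁ htS) (S.mul_mem ha₂ (S.sub_mem S.one_mem htS)), ?_, ?_⟩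
  · have := kspRed_add R₁ (kspRed_mul R₁ (kspRed_const R₁ a₁) ht₁)
      (kspRed_mul R₁ (kspRed_const R₁ a₂) (kspRed_sub R₁ (kspRed_one R₁) ht₁))
    rwa [mul_one, sub_self, mul_zero, add_zero] at this
  · have := kspRed_add R₂ (kspRed_mul R₂ (kspRed_const R₂ a₁) ht₂)
      (kspRed_mul R₂ (kspRed_const R₂ a₂) (kspRed_sub R₂ (kspRed_one R₂) ht₂))
    rwa [mul_zero, sub_zero, mul_one, zero_add] at this

/-- **(Z1), abstract form: `H`-fixed KSAT-PAIR for one generator.** -/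
theorem k2f_abs [RRBase K F] (p : ℕ) (hp : p ≠ 0)
    (hroot : ∀ c : k, ∃ d : k, d ^ p = c)
    (S : Subfield F)
    (hSres : ∀ γ : k, ∃ a : A, algebraMap K F (a : K) ∈ S ∧ π a = γ)
    (hsep : ∃ z : F, z ∈ S ∧ z ≠ 0 ∧ z ∈ R₁.O.nonunits ∧ z⁻¹ ∈ R₂.O.nonunits)
    (g : SemilinearAut K F) (hg₁ : IsInertial R₁ g) (hg₂ : IsInertial R₂ g)
    (Dy : Divisor.degZero (K := K) (F := F)) (f : F) (hf0 : f ≠ 0)
    (hfD : ∀ v : Place K F, (p : ℤ) * (Dy : Divisor K F) v = v.ord f)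
    (hU : g • f / f ∈ S) :
    ∃ (D : Divisor.degZero (K := K) (F := F)) (u : F),
      Pic0.mk D = g • Pic0.mk Dy - Pic0.mk Dy ∧ u ≠ 0 ∧ u ∈ S ∧
      (∀ v : Place K F, (p : ℤ) * (D : Divisor K F) v = v.ord u) ∧ u - 1 ∈ R₁.O.nonunits ∧
      u - 1 ∈ R₂.O.nonunits := by
  have hgf0 : g • f ≠ 0 := by simpa using hf0
  have hU0 : g • f / f ≠ 0 := div_ne_zero hgf0 hf0
  obtain ⟨hUO₁, a₁, ha₁, hred₁⟩ := ksatU_smul_div R₁ hg₁ hf0
  obtain ⟨hUO₂, a₂, ha₂, hred₂⟩ := ksatU_smul_div R₂ hg₂ hf0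
  have hU₁ : KspRed R₁ (g • f / f) (algebraMap k Fk₁ (π a₁)) := ⟨hUO₁, hred₁⟩
  have hU₂ : KspRed R₂ (g • f / f) (algebraMap k Fk₂ (π a₂)) := ⟨hUO₂, hred₂⟩
  -- the normalising constant at `R₁`
  obtain ⟨c₁, hc₁S, hc₁⟩ := hSres (π a₁)⁻¹
  have hc₁0 : (c₁ : K) ≠ 0 := by
    intro h0
    have : c₁ = 0 := Subtype.ext h0
    rw [this, map_zero] at hc₁
    exact inv_ne_zero ha₁ hc₁.symm
  have hc₁F : algebraMap K F (c₁ : K) ≠ 0 := by
    rw [Ne, map_eq_zero_iff _ (algebraMap K F).injective]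
    exact hc₁0
  have hV₁ : KspRed R₁ (algebraMap K F (c₁ : K) * (g • f / f)) 1 := by
    have := kspRed_mul R₁ (kspRed_const R₁ c₁) hU₁
    rwa [← map_mul, hc₁, inv_mul_cancel₀ ha₁, map_one] at this
  have hV₂ : KspRed R₂ (algebraMap K F (c₁ : K) * (g • f / f))
      (algebraMap k Fk₂ ((π a₁)⁻¹ * π a₂)) := by
    have := kspRed_mul R₂ (kspRed_const R₂ c₁) hU₂
    rwa [← map_mul, hc₁] at this
  have hγ0 : (π a₁)⁻¹ * π a₂ ≠ 0 := mul_ne_zero (inv_ne_zero ha₁) ha₂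
  -- a `p`-th root of the inverse constant, lifted to an `S`-rational constant
  obtain ⟨d, hd⟩ := hroot ((π a₁)⁻¹ * π a₂)⁻¹
  obtain ⟨s, hsS, hs⟩ := hSres d
  obtain ⟨h, hhS, hh₁, hh₂⟩ := k2f_exists_red R₁ R₂ S hsep 1 s
    (by rw [show ((1 : A) : K) = 1 from rfl, map_one]; exact S.one_mem) hsS
  rw [map_one, map_one] at hh₁
  have hh0 : h ≠ 0 := kspRed_ne_zero R₁ hh₁ one_ne_zero
  refine ⟨SemilinearAut.degZeroSMulHom g Dy - Dy + gdfDiv (K := K) h,
    algebraMap K F (c₁ : K) * (g • f / f) * h ^ p, ?_,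
    mul_ne_zero (mul_ne_zero hc₁F hU0) (pow_ne_zero _ hh0),
    S.mul_mem (S.mul_mem hc₁S hU) (S.pow_mem hhS p), ?_, ?_, ?_⟩
  · rw [Pic0.mk_add, gdf_mk_div hh0, add_zero]
    rfl
  · intro v
    rw [v.ord_mul (mul_ne_zero hc₁F hU0) (pow_ne_zero _ hh0), v.ord_mul hc₁F hU0,
      Fermat.Agent.S18lib.ord_pow_nat, uk_ord_const v (c₁ : K), zero_add,
      uk_ord_div v hgf0 hf0, uk_ord_smul' g v, ← hfD, ← hfD, AddSubgroup.coe_add,
      AddSubgroup.coe_sub, Finsupp.add_apply, Finsupp.sub_apply,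
      SemilinearAut.coe_degZeroSMulHom, SemilinearAut.divisor_smul_apply, gdf_coe_div,
      divOf_apply' h v]
    ring
  · rw [← kspRed_one_iff]
    have := kspRed_mul R₁ hV₁ (kspRed_pow R₁ hh₁ p)
    rwa [one_pow, mul_one] at this
  · rw [← kspRed_one_iff]
    have := kspRed_mul R₂ hV₂ (kspRed_pow R₂ hh₂ p)
    rw [← map_pow, ← map_mul, hs, hd, mul_inv_cancel₀ hγ0, map_one] at this
    exact this

/-- **the divisor of an `H`-fixed Kummer function is `H`-fixed** (divisors have no torsion). -/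
theorem k2f_div_fixed (p : ℕ) (hp : p ≠ 0) (σ : SemilinearAut K F) (D : Divisor K F) (u : F)
    (hdiv : ∀ v : Place K F, (p : ℤ) * D v = v.ord u) (hσ : σ • u = u) : σ • D = D := by
  ext v
  have h1 : (p : ℤ) * (σ • D) v = (p : ℤ) * D v := by
    rw [SemilinearAut.divisor_smul_apply, hdiv, hdiv v, ← uk_ord_smul' σ v u, hσ]
  exact mul_left_cancel₀ (Int.natCast_ne_zero.mpr hp) h1

end Pair

end Fermat.Agent.S40lib

end
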