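/-
Item 88 (S40), block (J-WILD), piece G2e-(1) (helper19): RATIONALITY over `K1 = Fix(G)`,
`G ≤ Stab(x)` (in the application `G = Stab_I(x) = Stab_I(rt)`, `K1 = K0(κ^{1/p})`).

* `wrt_fixed_kummer` : a class `x` fixed by `G` has a Kummer function `u_x ∈ F_N` fixed by `G`
                       (coefficientwise)  [C3 descent in `F_N`, `cvc_descent`];
* `wrt_normalise`    : `u = c · v · h ^ p` in `ℚ̄((q))` with `u`, `v` fixed by `G` ⇒
                       `h = b · h1`, `h1` fixed by `G` with leading coefficient `1`,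
                       `c · b ^ p` fixed by `G`, `u = (c b ^ p) · v · h1 ^ p`
                       (leading-coefficient normalisation; no Hilbert 90 needed);
* `wrt_main`         : for the output `u'' = c · u_x · h ^ p` of `wlc_main` / `cvw_wild`:
                       there are a `G`-fixed Kummer function `u1` of `x`, a `G`-fixed constant
                       `c1` and a `G`-fixed `h1 ∈ EY` with `u'' = c1 · u1 · h1 ^ p`.
-/
import Mathlib
import Fermat.Agent.S36lib.Speed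
import Fermat.Agent.S40lib.CovMain

set_option autoImplicit false
set_option linter.style.haveILetI false
set_option linter.unusedSectionVars false
set_option linter.unusedVariables false

noncomputable section

namespace Fermat.Agent.S40lib

open ModularCurve HahnSeries AlgebraicCurve Fermat.Agent.S24lib Fermat.Agent.S33lib
  Fermat.Agent.S34lib Fermat.Agent.RRlib

section Normalise

/-- **leading-coefficient normalisation**: `u = c · v · h ^ p` with `u`, `v` fixed by `G`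
(coefficientwise) ⇒ `h / lc h` and `c · (lc h) ^ p` are fixed by `G`. -/
theorem wrt_normalise {p : ℕ} (hp : 0 < p) {ζ : Kbar} (hζ : IsPrimitiveRoot ζ p)
    (G : Set (Kbar ≃ₐ[ℚ] Kbar)) {u v h : LaurentSeries Kbar} {c : Kbar}
    (hc : c ≠ 0) (hv : v ≠ 0) (hh : h ≠ 0)
    (hrel : u = algebraMap Kbar (LaurentSeries Kbar) c * v * h ^ p)
    (hu : ∀ τ ∈ G, coeffMap ((τ : Kbar ≃ₐ[ℚ] Kbar) : Kbar →+* Kbar) u = u)
    (hvG : ∀ τ ∈ G, coeffMap ((τ : Kbar ≃ₐ[ℚ] Kbar) : Kbar →+* Kbar) v = v) :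
    ∃ (b : Kbar) (h1 : LaurentSeries Kbar), b ≠ 0 ∧ h1 ≠ 0 ∧
      h = algebraMap Kbar (LaurentSeries Kbar) b * h1 ∧ cvcLc h1 = 1 ∧
      (∀ τ ∈ G, coeffMap ((τ : Kbar ≃ₐ[ℚ] Kbar) : Kbar →+* Kbar) h1 = h1) ∧
      (∀ τ ∈ G, τ (c * b ^ p) = c * b ^ p) ∧
      u = algebraMap Kbar (LaurentSeries Kbar) (c * b ^ p) * v * h1 ^ p := by
  set b : Kbar := cvcLc h with hb
  have hb0 : b ≠ 0 := cvc_lc_ne_zero hh
  have hbL : algebraMap Kbar (LaurentSeries Kbar) b ≠ 0 := (map_ne_zero _).mpr hb0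
  set h1 : LaurentSeries Kbar := h / algebraMap Kbar (LaurentSeries Kbar) b with hh1
  have hh10 : h1 ≠ 0 := div_ne_zero hh hbL
  have hhb : h = algebraMap Kbar (LaurentSeries Kbar) b * h1 := by
    rw [hh1, mul_div_cancel₀ _ hbL]
  have hlc1 : cvcLc h1 = 1 := by
    rw [hh1, div_eq_mul_inv, cvc_lc_mul, ← map_inv₀, cvc_lc_algebraMap]
    exact mul_inv_cancel₀ hb0
  have hrel' : u = algebraMap Kbar (LaurentSeries Kbar) (c * b ^ p) * v * h1 ^ p := by
    rw [hrel, hhb, mul_pow, map_mul, map_pow]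
    ring
  have hlcu : cvcLc u = c * b ^ p * cvcLc v := by
    rw [hrel', cvc_lc_mul, cvc_lc_mul, cvc_lc_algebraMap, cvc_lc_pow, hlc1, one_pow, mul_one]
  have hlcv0 : cvcLc v ≠ 0 := cvc_lc_ne_zero hv
  have hcb : ∀ τ ∈ G, τ (c * b ^ p) = c * b ^ p := by
    intro τ hτ
    have h1' : cvcLc (coeffMap ((τ : Kbar ≃ₐ[ℚ] Kbar) : Kbar →+* Kbar) u) = τ (cvcLc u) := by
      rw [cvc_lc_coeffMap]; rfl
    have h2' : cvcLc (coeffMap ((τ : Kbar ≃ₐ[ℚ] Kbar) : Kbar →+* Kbar) v) = τ (cvcLc v) := by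
      rw [cvc_lc_coeffMap]; rfl
    rw [hu τ hτ] at h1'
    rw [hvG τ hτ] at h2'
    have h3 : τ (c * b ^ p) * cvcLc v = c * b ^ p * cvcLc v := by
      have h4 : τ (c * b ^ p * cvcLc v) = c * b ^ p * cvcLc v := by
        rw [← hlcu]
        exact h1'.symm
      rw [map_mul τ (c * b ^ p) (cvcLc v), ← h2'] at h4
      exact h4
    exact mul_right_cancel₀ hlcv0 h3
  have hcb0 : c * b ^ p ≠ 0 := mul_ne_zero hc (pow_ne_zero _ hb0)
  have hcbL : algebraMap Kbar (LaurentSeries Kbar) (c * b ^ p) ≠ 0 := (map_ne_zero _).mpr hcb0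
  have hh1p : h1 ^ p = u / (algebraMap Kbar (LaurentSeries Kbar) (c * b ^ p) * v) := by
    rw [hrel', mul_div_cancel_left₀ _ (mul_ne_zero hcbL hv)]
  refine ⟨b, h1, hb0, hh10, hhb, hlc1, ?_, hcb, hrel'⟩
  intro τ hτ
  apply wlc_eq_of_pow_eq hp hζ hh10
  · rw [← map_pow, hh1p, map_div₀, map_mul, hu τ hτ, hvG τ hτ, coeffMap_algebraMap]
    congr 3
    exact hcb τ hτ
  · rw [cvc_lc_coeffMap, hlc1]
    exact map_one _

end Normalise

section Kummer

variable (N : ℕ) [NeZero N] [RRBase Kbar (modularFunctionFieldBar N)]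

/-- **a class fixed by `G` has a `G`-fixed Kummer function** -/
theorem wrt_fixed_kummer {p : ℕ} (hp : 0 < p) {ζ : Kbar} (hζ : IsPrimitiveRoot ζ p)
    (G : Subgroup (Kbar ≃ₐ[ℚ] Kbar)) {x : JZero N} {ux : modularFunctionFieldBar N}
    (hx : gdfIsKummer (K := Kbar) p x ux) (hGx : ∀ τ ∈ G, τ • x = x) :
    ∃ (c : Kbar) (s u1 : modularFunctionFieldBar N), c ≠ 0 ∧ s ≠ 0 ∧
      u1 = algebraMap Kbar (modularFunctionFieldBar N) c * s ^ p * ux ∧
      gdfIsKummer (K := Kbar) p x u1 ∧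
      ∀ τ ∈ G, coeffMap ((τ : Kbar ≃ₐ[ℚ] Kbar) : Kbar →+* Kbar) (u1 : LaurentSeries Kbar) =
        (u1 : LaurentSeries Kbar) := by
  have hux0 : (ux : LaurentSeries Kbar) ≠ 0 := fun h0 =>
    gdf_isKummer_ne_zero hx (Subtype.ext h0)
  have hst : ∀ σ ∈ G, ∀ z ∈ modularFunctionFieldBar N,
      coeffMap ((σ : Kbar ≃ₐ[ℚ] Kbar) : Kbar →+* Kbar) z ∈ modularFunctionFieldBar N :=
    fun σ _ z hz => cvm_ff_stable N σ z hz
  obtain ⟨c, h, hc, hhF, hh0, hfix⟩ := cvc_descent G (modularFunctionFieldBar N) hp hζ hst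
    ux.2 hux0 (cvc_fin_baseChange (modularFunctionFieldFull N) ux.2) (by
      intro σ hσ
      obtain ⟨c, w, hc, hw, hrel⟩ := rhr_fix_abs hx (galFF N σ) (hGx σ hσ)
      refine ⟨c, (w : LaurentSeries Kbar), w.2, fun h0 => hw (Subtype.ext h0), ?_⟩
      have h1 := congrArg (fun z : modularFunctionFieldBar N => (z : LaurentSeries Kbar)) hrel
      have h2 : coeffMap ((σ : Kbar ≃ₐ[ℚ] Kbar) : Kbar →+* Kbar) (ux : LaurentSeries Kbar) =
          algebraMap Kbar (LaurentSeries Kbar) c * (w : LaurentSeries Kbar) ^ p *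
            (ux : LaurentSeries Kbar) := h1
      rw [h2]
      ring)
  set s : modularFunctionFieldBar N := ⟨h, hhF⟩ with hs
  have hs0 : s ≠ 0 := fun h0 => hh0 (congrArg Subtype.val h0)
  refine ⟨c, s, algebraMap Kbar (modularFunctionFieldBar N) c * s ^ p * ux, hc, hs0, rfl,
    gdf_isKummer_mul_pow hx hc hs0, ?_⟩
  intro τ hτ
  have h1 : ((algebraMap Kbar (modularFunctionFieldBar N) c * s ^ p * ux :
      modularFunctionFieldBar N) : LaurentSeries Kbar) =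
      algebraMap Kbar (LaurentSeries Kbar) c * (ux : LaurentSeries Kbar) * h ^ p := by
    show algebraMap Kbar (LaurentSeries Kbar) c * h ^ p * (ux : LaurentSeries Kbar) = _
    ring
  rw [h1]
  exact hfix τ hτ

/-- **(G2e-(1)) rationality of the relation `u'' = c · u_x · h ^ p`** over the fixed field of
`G ≤ Stab(x)`: `u'' = c1 · u1 · h1 ^ p` with `u1` a `G`-fixed Kummer function of `x`, `c1` a
`G`-fixed constant, `h1 ∈ EY` fixed by `G` with leading coefficient `1`. -/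
theorem wrt_main {p : ℕ} (hp : 0 < p) {ζ : Kbar} (hζ : IsPrimitiveRoot ζ p)
    (G : Subgroup (Kbar ≃ₐ[ℚ] Kbar)) {x : JZero N} {ux : modularFunctionFieldBar N}
    (hx : gdfIsKummer (K := Kbar) p x ux) (hGx : ∀ τ ∈ G, τ • x = x)
    (EY : IntermediateField Kbar (LaurentSeries Kbar)) (hFE : modularFunctionFieldBar N ≤ EY)
    {u h : LaurentSeries Kbar} {c : Kbar} (hc : c ≠ 0) (hhE : h ∈ EY) (hh : h ≠ 0)
    (hrel : u = algebraMap Kbar (LaurentSeries Kbar) c * (ux : LaurentSeries Kbar) * h ^ p)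
    (hu : ∀ τ ∈ G, coeffMap ((τ : Kbar ≃ₐ[ℚ] Kbar) : Kbar →+* Kbar) u = u) :
    ∃ (u1 : modularFunctionFieldBar N) (c1 : Kbar) (h1 : LaurentSeries Kbar),
      gdfIsKummer (K := Kbar) p x u1 ∧
      (∀ τ ∈ G, coeffMap ((τ : Kbar ≃ₐ[ℚ] Kbar) : Kbar →+* Kbar) (u1 : LaurentSeries Kbar) =
        (u1 : LaurentSeries Kbar)) ∧
      c1 ≠ 0 ∧ (∀ τ ∈ G, τ c1 = c1) ∧
      h1 ∈ EY ∧ h1 ≠ 0 ∧ cvcLc h1 = 1 ∧
      (∀ τ ∈ G, coeffMap ((τ : Kbar ≃ₐ[ℚ] Kbar) : Kbar →+* Kbar) h1 = h1) ∧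
      u = algebraMap Kbar (LaurentSeries Kbar) c1 * (u1 : LaurentSeries Kbar) * h1 ^ p := by
  obtain ⟨c', s, u1, hc', hs, hu1, hk1, hfix1⟩ := wrt_fixed_kummer N hp hζ G hx hGx
  have hsL : (s : LaurentSeries Kbar) ≠ 0 := fun h0 => hs (Subtype.ext h0)
  have hc'L : algebraMap Kbar (LaurentSeries Kbar) c' ≠ 0 := (map_ne_zero _).mpr hc'
  have hu1L : (u1 : LaurentSeries Kbar) =
      algebraMap Kbar (LaurentSeries Kbar) c' * (s : LaurentSeries Kbar) ^ p *
        (ux : LaurentSeries Kbar) := by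
    rw [hu1]; rfl
  have hu10 : (u1 : LaurentSeries Kbar) ≠ 0 := fun h0 =>
    gdf_isKummer_ne_zero hk1 (Subtype.ext h0)
  have hrel2 : u = algebraMap Kbar (LaurentSeries Kbar) (c * c'⁻¹) *
      (u1 : LaurentSeries Kbar) * (h / (s : LaurentSeries Kbar)) ^ p := by
    rw [hrel, hu1L, map_mul, map_inv₀, div_pow]
    field_simp
  obtain ⟨b, h1, hb0, hh10, hhb, hlc1, hh1G, hcb, hrel3⟩ :=
    wrt_normalise hp hζ (G : Set (Kbar ≃ₐ[ℚ] Kbar)) (mul_ne_zero hc (inv_ne_zero hc')) hu10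
      (div_ne_zero hh hsL) hrel2 hu hfix1
  have hbL : algebraMap Kbar (LaurentSeries Kbar) b ≠ 0 := (map_ne_zero _).mpr hb0
  have hh1E : h1 ∈ EY := by
    have h1eq : h1 = h / (s : LaurentSeries Kbar) / algebraMap Kbar (LaurentSeries Kbar) b := by
      rw [hhb, mul_div_cancel_left₀ _ hbL]
    rw [h1eq]
    exact div_mem (div_mem hhE (hFE s.2)) (EY.algebraMap_mem b)
  exact ⟨u1, c * c'⁻¹ * b ^ p, h1, hk1, hfix1,
    mul_ne_zero (mul_ne_zero hc (inv_ne_zero hc')) (pow_ne_zero _ hb0), hcb, hh1E, hh10, hlc1,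
    hh1G, hrel3⟩

end Kummer

end Fermat.Agent.S40lib

end
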