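/-
Item 88 (S44), block (J-WILD), piece (Z1), CONCRETE form (helper26).  Complete proofs.

Level `M' p`, `p ∤ M'`, `A ∣ p`, `R` a series reduction of `F_{M'p}`, `R₀ = vkZero R = glmZero R`
the second Gauss valuation, `H ≤ I` a subgroup of the inertia group, `τ₀ ∈ I` normalising `H`
(e.g. `H = I1 = triI1 p A`, normal in `I`).

* `k2c_sep`  : the `ℚ`-rational separating function `z = (j_p − j^p) / (j − j_p^p)`:
               `z ∈ F^H`, `z ∈ m_R`, `z⁻¹ ∈ m_{R₀}`;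
* `k2c_ker2` : **(Z1)** a class `y` fixed by `H` with `p • y = 0`: the class `τ₀ • y − y` has a
               Kummer function `u ∈ F^H` with `u − 1 ∈ m_R`, `u − 1 ∈ m_{R₀}`, `div u = p D`,
               `D` fixed by `H`  (= the inputs `E`, `hEH`, `u`, `huH`, `hu₁`, `hu₂`, `hdiv` of
               `tcc_deep` with `H := I1`);
* `k2c_norm_I1` : `I1 = triI1 p A` is normalised by every inertia element;
* `k2c_ker2_I1` : the case `H = I1`.
-/
import Mathlib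
import Fermat.Agent.S40lib.Ker2Fixed
import Fermat.Agent.S40lib.WildRat
import Fermat.Agent.S40lib.TresDisc
import Fermat.Agent.S33lib.KSatPairConc
import Fermat.Agent.S33lib.LevDisc
import Fermat.Agent.S36lib.VNoethK0
import Fermat.Agent.S36lib.FixedF0

set_option autoImplicit false
set_option linter.style.haveILetI false
set_option linter.unusedSectionVars false
set_option linter.unusedVariables false
set_option synthInstance.maxHeartbeats 400000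

noncomputable section

namespace Fermat.Agent.S40lib

open AlgebraicCurve ModularCurve HahnSeries
open Fermat.Agent.RRlib Fermat.Agent.GoodRed Fermat.Agent.S34lib Fermat.Agent.S24lib
  Fermat.Agent.GM Fermat.Agent.S35lib Fermat.Agent.S33lib Fermat.Agent.S36lib

section Conc

variable (M' p : ℕ) [NeZero M'] [NeZero p] [NeZero (M' * p)] (hp : p.Prime) (hpM : ¬ p ∣ M')
variable {A : ValuationSubring Kbar} (hA : A.LiesOverPrime p)
variable {Fk : IntermediateField (IsLocalRing.ResidueField A)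
  (LaurentSeries (IsLocalRing.ResidueField A))}
variable (R : ConstRed A (IsLocalRing.residue A) (↥Fk) (FF (M' * p))) (hR : IsSeriesRed R)

include hA hR in
/-- **the rational separating function** `z = (j_p − j^p) / (j − j_p^p)` -/
theorem k2c_sep (H : Set (Kbar ≃ₐ[ℚ] Kbar)) (hHI : ∀ σ ∈ H, σ ∈ A.inertiaSubgroupIn ℚ) :
    ∃ z : FF (M' * p), z ∈ fixedLBC H (modularFunctionFieldFull (M' * p)) ∧ z ≠ 0 ∧
      z ∈ R.O.nonunits ∧ z⁻¹ ∈ (vkZero M' p hp hpM R).O.nonunits := by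
  set T : FF (M' * p) := ⟨coeffMap A.subtype (vkT p A), vkT_mem M' p A⟩ with hT
  set T' : FF (M' * p) := ⟨coeffMap A.subtype (vkT' p A), vkT'_mem M' p A⟩ with hT'
  have hwt : atkinLehnerFF (M' * p) p hp (dvd_mul_left p M') (inf_not_sq_dvd M' p hp hpM) T = T' :=
    vk_atkinLehner_T M' p A hp hpM
  have hwt' : atkinLehnerFF (M' * p) p hp (dvd_mul_left p M') (inf_not_sq_dvd M' p hp hpM) T'
      = T := by
    rw [← hwt, atkinLehnerFF_involutive]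
  have htO : T ∈ R.O := hR.mem _ (vkT_mem M' p A)
  have htred : R.red ⟨T, htO⟩ = 0 := by
    apply Subtype.ext
    refine (hR.red _ (vkT_mem M' p A)).trans ?_
    rw [vk_red_T p hp hA]
    rfl
  have ht'i : T'⁻¹ ∈ R.O := hR.inv_mem _ (vkT'_mem M' p A) (vk_red_T' p hp hA)
  have ht'0 : T' ≠ 0 := by
    intro h0
    have h1 : coeffMap A.subtype (vkT' p A) = 0 := congrArg Subtype.val h0
    have h2 : vkT' p A = 0 := coeffMap_valSubtype_injective A (by rw [h1, map_zero])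
    exact vk_red_T' p hp hA (by rw [h2, map_zero])
  have ht0 : T ≠ 0 := by
    intro h0
    rw [h0, map_zero] at hwt
    exact ht'0 hwt.symm
  -- fixedness
  have hjF : jF (M' * p) ∈ fixedLBC H (modularFunctionFieldFull (M' * p)) :=
    lvd_fixed_of_isIFixed (M' * p) A hHI
      ((mem_f0Field_iff_isIFixed A (M' * p) (jF (M' * p))).mp (vnk_jF_mem A (M' * p)))
  have hjd : jdF (M' * p) p (dvd_mul_left p M') ∈ fixedLBC H (modularFunctionFieldFull (M' * p)) :=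
    fun σ _ => inred_smul_jdF (M' * p) σ p (dvd_mul_left p M')
  have hTS : T ∈ fixedLBC H (modularFunctionFieldFull (M' * p)) := by
    rw [hT, vkT_eq]
    exact Subfield.sub_mem _ hjd (Subfield.pow_mem _ hjF p)
  have hT'S : T' ∈ fixedLBC H (modularFunctionFieldFull (M' * p)) := by
    rw [hT', vkT'_eq]
    exact Subfield.sub_mem _ hjF (Subfield.pow_mem _ hjd p)
  have hz : KspRed R (T * T'⁻¹) 0 := by
    have := kspRed_mul R (⟨htO, htred⟩ : KspRed R T 0) (⟨ht'i, rfl⟩ : KspRed R T'⁻¹ _)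
    rwa [zero_mul] at this
  refine ⟨T * T'⁻¹, Subfield.mul_mem _ hTS (Subfield.inv_mem _ hT'S),
    mul_ne_zero ht0 (inv_ne_zero ht'0), (kspRed_zero_iff R).1 hz, ?_⟩
  have hw : atkinLehnerFF (M' * p) p hp (dvd_mul_left p M') (inf_not_sq_dvd M' p hp hpM)
      (T * T'⁻¹)⁻¹ = T * T'⁻¹ := by
    rw [mul_inv, inv_inv, map_mul, map_inv₀, hwt, hwt']
    exact mul_comm _ _
  have hx : (T * T'⁻¹)⁻¹ ∈ (vkZero M' p hp hpM R).O := by
    show atkinLehnerFF (M' * p) p hp (dvd_mul_left p M') (inf_not_sq_dvd M' p hp hpM)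
      (T * T'⁻¹)⁻¹ ∈ R.O
    rw [hw]
    exact hz.1
  refine ((vkZero M' p hp hpM R).red_eq_zero_iff ⟨_, hx⟩).1 ?_
  show R.red ⟨atkinLehnerFF (M' * p) p hp (dvd_mul_left p M') (inf_not_sq_dvd M' p hp hpM)
      (T * T'⁻¹)⁻¹, hx⟩ = 0
  obtain ⟨hm, hred⟩ := hz
  rw [← hred]
  congr 1
  exact Subtype.ext hw

set_option maxHeartbeats 1600000 in
include hA hR in
/-- **(Z1)**: for a class `y` fixed by `H ≤ I` with `p • y = 0` and `τ₀ ∈ I` normalising `H`, the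
class `τ₀ • y − y` has an `H`-FIXED Kummer function `u ≡ 1` modulo the maximal ideals of both
Gauss valuations; its divisor `p D` has `D` fixed by `H`. -/
theorem k2c_ker2 [RRBase (IsLocalRing.ResidueField A) (↥Fk)]
    (H : Subgroup (Kbar ≃ₐ[ℚ] Kbar)) (hHI : H ≤ A.inertiaSubgroupIn ℚ)
    (τ₀ : Kbar ≃ₐ[ℚ] Kbar) (hτ₀ : τ₀ ∈ A.inertiaSubgroupIn ℚ)
    (hnorm : ∀ σ ∈ H, τ₀⁻¹ * σ * τ₀ ∈ H)
    {ζ : Kbar} (hζ : IsPrimitiveRoot ζ p)
    (y : JZero (M' * p)) (hpy : p • y = 0) (hyH : ∀ τ ∈ H, τ • y = y) :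
    ∃ (D : Divisor.degZero (K := Kbar) (F := FF (M' * p))) (u : FF (M' * p)),
      Pic0.mk D = τ₀ • y - y ∧ u ≠ 0 ∧
      u ∈ fixedLBC (H : Set (Kbar ≃ₐ[ℚ] Kbar)) (modularFunctionFieldFull (M' * p)) ∧
      (∀ v : Place Kbar (FF (M' * p)), (p : ℤ) * (D : Divisor Kbar (FF (M' * p))) v = v.ord u) ∧
      u - 1 ∈ R.O.nonunits ∧ u - 1 ∈ (vkZero M' p hp hpM R).O.nonunits ∧
      ∀ σ ∈ H, galFF (M' * p) σ • (D : Divisor Kbar (FF (M' * p)))
        = (D : Divisor Kbar (FF (M' * p))) := by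
  haveI : RRBase Kbar (FF (M' * p)) := (mod_rrHyp (M' * p)).toRRBase
  haveI : IsAlgClosed (IsLocalRing.ResidueField A) := isAlgClosed_residueField A
  have hfrac : HasPrimFrac A (modularFunctionFieldBar (M' * p)) := vri_hfrac (M' * p) p hp A hA
  have hHI' : ∀ σ ∈ (H : Set (Kbar ≃ₐ[ℚ] Kbar)), σ ∈ A.inertiaSubgroupIn ℚ :=
    fun σ hσ => hHI hσ
  -- an `H`-fixed Kummer function of `y`
  obtain ⟨ux, hux⟩ := gdf_exists_isKummer (K := Kbar) (F := FF (M' * p)) (p := p) (x := y) hpy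
  obtain ⟨c, s, u1, hc, hs, hu1, hk1, hfix⟩ :=
    wrt_fixed_kummer (M' * p) hp.pos hζ H hux hyH
  have hu10 : u1 ≠ 0 := gdf_isKummer_ne_zero hk1
  have hu1S : u1 ∈ fixedLBC (H : Set (Kbar ≃ₐ[ℚ] Kbar)) (modularFunctionFieldFull (M' * p)) :=
    fun σ hσ => Subtype.ext (hfix σ hσ)
  obtain ⟨-, Dy, hDy, hpD⟩ := hk1
  have hord : ∀ v : Place Kbar (FF (M' * p)),
      (p : ℤ) * (Dy : Divisor Kbar (FF (M' * p))) v = v.ord u1 := by
    intro v
    rw [← divOf_apply hu10 v, ← hpD, Finsupp.smul_apply, nsmul_eq_mul]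
  -- `τ₀ • u1` is `H`-fixed (`τ₀` normalises `H`)
  have hgS : galFF (M' * p) τ₀ • u1
      ∈ fixedLBC (H : Set (Kbar ≃ₐ[ℚ] Kbar)) (modularFunctionFieldFull (M' * p)) := by
    intro σ hσ
    have h1 : σ * τ₀ = τ₀ * (τ₀⁻¹ * σ * τ₀) := by group
    have h2 : galFF (M' * p) (τ₀⁻¹ * σ * τ₀) • u1 = u1 := hu1S _ (hnorm σ hσ)
    show galFF (M' * p) σ • (galFF (M' * p) τ₀ • u1) = galFF (M' * p) τ₀ • u1
    rw [← mul_smul, ← map_mul, h1, map_mul, mul_smul, h2]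
  have hU : galFF (M' * p) τ₀ • u1 / u1
      ∈ fixedLBC (H : Set (Kbar ≃ₐ[ℚ] Kbar)) (modularFunctionFieldFull (M' * p)) :=
    Subfield.div_mem _ hgS hu1S
  have hSres : ∀ γ : IsLocalRing.ResidueField A, ∃ a : A,
      algebraMap Kbar (FF (M' * p)) (a : Kbar)
        ∈ fixedLBC (H : Set (Kbar ≃ₐ[ℚ] Kbar)) (modularFunctionFieldFull (M' * p)) ∧
      IsLocalRing.residue A a = γ := by
    intro γ
    obtain ⟨a, ha, -, haS⟩ := lvd_res (L := M' * p) (H := (H : Set (Kbar ≃ₐ[ℚ] Kbar))) hp hA hHI' γ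
    exact ⟨a, haS, ha⟩
  obtain ⟨D, u, hD, hu0, huS, hdiv, h1, h2⟩ :=
    k2f_abs R (vkZero M' p hp hpM R) p hp.ne_zero
      (fun c => IsAlgClosed.exists_pow_nat_eq c hp.pos)
      (fixedLBC (H : Set (Kbar ≃ₐ[ℚ] Kbar)) (modularFunctionFieldFull (M' * p))) hSres
      (k2c_sep M' p hp hpM hA R hR (H : Set (Kbar ≃ₐ[ℚ] Kbar)) hHI')
      (galFF (M' * p) τ₀)
      (inred_isInertial_inf (M' * p) hR hfrac τ₀ hτ₀)
      (inred_isInertial_zero (M' * p) p hp (dvd_mul_left p M') (inf_not_sq_dvd M' p hp hpM)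
        hR hfrac τ₀ hτ₀)
      Dy u1 hu10 hord hU
  refine ⟨D, u, ?_, hu0, huS, hdiv, h1, h2, fun σ hσ => ?_⟩
  · rw [hD, hDy]
    rfl
  · exact k2f_div_fixed p hp.ne_zero (galFF (M' * p) σ) _ u hdiv (huS σ hσ)

/-- `I1` is normalised by the inertia group -/
theorem k2c_norm_I1 (τ₀ : Kbar ≃ₐ[ℚ] Kbar) (hτ₀ : τ₀ ∈ A.inertiaSubgroupIn ℚ) :
    ∀ σ ∈ triI1 p A, τ₀⁻¹ * σ * τ₀ ∈ triI1 p A := by
  intro σ hσ
  refine ⟨Subgroup.mul_mem _ (Subgroup.mul_mem _ (Subgroup.inv_mem _ hτ₀) hσ.1) hτ₀, ?_⟩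
  intro ζ hζ
  have h1 : (τ₀ ζ) ^ p = 1 := by rw [← map_pow, hζ, map_one]
  have h2 : σ (τ₀ ζ) = τ₀ ζ := hσ.2 _ h1
  show τ₀⁻¹ (σ (τ₀ ζ)) = ζ
  rw [h2]
  exact τ₀.symm_apply_apply ζ

set_option maxHeartbeats 1600000 in
include hA hR in
/-- **(Z1)** for `H = I1`: for an `I1`-fixed class `y` with `p • y = 0` and `τ₀ ∈ I`, the class
`τ₀ • y − y` has an `I1`-fixed (KER2) Kummer function. -/
theorem k2c_ker2_I1 [RRBase (IsLocalRing.ResidueField A) (↥Fk)]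
    (τ₀ : Kbar ≃ₐ[ℚ] Kbar) (hτ₀ : τ₀ ∈ A.inertiaSubgroupIn ℚ)
    {ζ : Kbar} (hζ : IsPrimitiveRoot ζ p)
    (y : JZero (M' * p)) (hpy : p • y = 0) (hyH : ∀ τ ∈ S40hI1 p A, τ • y = y) :
    ∃ (D : Divisor.degZero (K := Kbar) (F := FF (M' * p))) (u : FF (M' * p)),
      Pic0.mk D = τ₀ • y - y ∧ u ≠ 0 ∧
      u ∈ fixedLBC (S40hI1 p A) (modularFunctionFieldFull (M' * p)) ∧
      (∀ v : Place Kbar (FF (M' * p)), (p : ℤ) * (D : Divisor Kbar (FF (M' * p))) v = v.ord u) ∧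
      u - 1 ∈ R.O.nonunits ∧ u - 1 ∈ (vkZero M' p hp hpM R).O.nonunits ∧
      ∀ σ ∈ S40hI1 p A, galFF (M' * p) σ • (D : Divisor Kbar (FF (M' * p)))
        = (D : Divisor Kbar (FF (M' * p))) :=
  k2c_ker2 M' p hp hpM hA R hR (triI1 p A) (triI1_le p A) τ₀ hτ₀ (k2c_norm_I1 p τ₀ hτ₀) hζ y hpy
    hyH

end Conc

end Fermat.Agent.S40lib

end
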