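/-
Item 88 (S44), block (J-WILD), piece (Z1), EIGEN form (helper26).  Complete proofs.

`k2c_ker2_eig` : a class `x` of level `M' p` with `p • x = 0`, fixed by `I1`, on which ONE inertia
element `τ₀` acts by a scalar `w` with `w − 1` prime to `p` (`τ₀ • x = w • x`; in the application
`w = ω(τ₀) ≢ 1 mod p`) has an `I1`-FIXED Kummer function `u` with `u − 1 ∈ m_R`, `u − 1 ∈ m_{R₀}`:
`x = τ₀ • y − y` with `y = a • x`, `a (w − 1) ≡ 1 mod p`, and `k2c_ker2_I1`.
-/
import Mathlib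
import Fermat.Agent.S40lib.Ker2FixedConc

set_option autoImplicit false
set_option linter.style.haveILetI false
set_option linter.unusedSectionVars false
set_option linter.unusedVariables false
set_option synthInstance.maxHeartbeats 400000

noncomputable section

namespace Fermat.Agent.S40lib

open AlgebraicCurve ModularCurve HahnSeries
open Fermat.Agent.RRlib Fermat.Agent.GoodRed Fermat.Agent.S34lib Fermat.Agent.S24lib
  Fermat.Agent.GM Fermat.Agent.S35lib Fermat.Agent.S33lib Fermat.Agent.S36lib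

section Eig

variable (M' p : ℕ) [NeZero M'] [NeZero p] [NeZero (M' * p)] (hp : p.Prime) (hpM : ¬ p ∣ M')
variable {A : ValuationSubring Kbar} (hA : A.LiesOverPrime p)
variable {Fk : IntermediateField (IsLocalRing.ResidueField A)
  (LaurentSeries (IsLocalRing.ResidueField A))}
variable (R : ConstRed A (IsLocalRing.residue A) (↥Fk) (FF (M' * p))) (hR : IsSeriesRed R)

set_option maxHeartbeats 1600000 in
include hA hR in
/-- **(Z1), eigen form**: an `I1`-fixed class of order `p` on which an inertia element acts by a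
scalar `w ≢ 1 mod p` has an `I1`-fixed (KER2) Kummer function. -/
theorem k2c_ker2_eig [RRBase (IsLocalRing.ResidueField A) (↥Fk)]
    (τ₀ : Kbar ≃ₐ[ℚ] Kbar) (hτ₀ : τ₀ ∈ A.inertiaSubgroupIn ℚ)
    {ζ : Kbar} (hζ : IsPrimitiveRoot ζ p)
    (x : JZero (M' * p)) (hpx : p • x = 0) (hxH : ∀ τ ∈ S40hI1 p A, τ • x = x)
    (w : ℤ) (hw : τ₀ • x = w • x) (hcop : IsCoprime (w - 1) (p : ℤ)) :
    ∃ (D : Divisor.degZero (K := Kbar) (F := FF (M' * p))) (u : FF (M' * p)),
      Pic0.mk D = x ∧ u ≠ 0 ∧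
      u ∈ fixedLBC (S40hI1 p A) (modularFunctionFieldFull (M' * p)) ∧
      (∀ v : Place Kbar (FF (M' * p)), (p : ℤ) * (D : Divisor Kbar (FF (M' * p))) v = v.ord u) ∧
      u - 1 ∈ R.O.nonunits ∧ u - 1 ∈ (vkZero M' p hp hpM R).O.nonunits ∧
      ∀ σ ∈ S40hI1 p A, galFF (M' * p) σ • (D : Divisor Kbar (FF (M' * p)))
        = (D : Divisor Kbar (FF (M' * p))) := by
  obtain ⟨a, b, hab⟩ := hcop
  have hsm : ∀ (τ : Kbar ≃ₐ[ℚ] Kbar) (n : ℤ) (z : JZero (M' * p)), τ • (n • z) = n • (τ • z) :=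
    fun τ n z => map_zsmul (DistribSMul.toAddMonoidHom (JZero (M' * p)) τ) n z
  have hpx' : (p : ℤ) • x = 0 := by rw [natCast_zsmul]; exact hpx
  have hpy : p • (a • x) = 0 := by
    rw [← natCast_zsmul, smul_smul, mul_comm (p : ℤ) a, ← smul_smul, hpx', smul_zero]
  have hyH : ∀ τ ∈ S40hI1 p A, τ • (a • x) = a • x := by
    intro τ hτ
    rw [hsm, hxH τ hτ]
  obtain ⟨D, u, hD, hrest⟩ := k2c_ker2_I1 M' p hp hpM hA R hR τ₀ hτ₀ hζ (a • x) hpy hyH
  refine ⟨D, u, ?_, hrest⟩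
  rw [hD, hsm, hw, smul_smul, ← sub_smul]
  have h1 : a * w - a = 1 - b * (p : ℤ) := by linear_combination hab
  rw [h1, sub_smul, one_smul, ← smul_smul, hpx', smul_zero, sub_zero]

end Eig

end Fermat.Agent.S40lib

end
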