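import Mathlib
import Fermat.Agent.S36lib.Speed
import Fermat.Agent.S40lib.HeckeQ
import Fermat.Agent.LatE.Defs

/-!
# Item 88 (S44), block (J-WILD), piece (Z2), glue (helper7): the Hecke norm of `1 + π g`

`A` a valuation subring of `K`, `π ∈ A`.  If `Y = 1 + π g` with `g` a Laurent series with
coefficients in `A`, and `Z(s^ℓ) = Y(s^{ℓ²}) · ∏_{b<ℓ} Y(ζ^b s)` (the sheets formula of the Hecke
norm), then `Z = 1 + π G` with `G` a Laurent series with coefficients in `A`.

* `lnc_prod`      : a product of elements `≡ 1` modulo `π` is `≡ 1` modulo `π` (any commutative ring);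
* `lnc_sheets`    : `hkqSheets ℓ ζ (1 + π g) = 1 + π W` over any commutative ring;
* `lnc_core`      : the statement for Laurent series over a valuation ring;
* `lnc_normBeta`  : the statement for `normBeta N ℓ u`, `u ∈ F_N` (characteristic `0`, `ℓ ∤ N`).
-/

set_option autoImplicit false
set_option linter.unusedSectionVars false
set_option linter.unusedVariables false
set_option linter.style.haveILetI false

noncomputable section

namespace Fermat.Agent.S40lib

open ModularCurve AlgebraicCurve HahnSeries Fermat.Agent.GoodRed Fermat.Agent.GM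
  Fermat.Agent.S24lib Fermat.Agent.HeckeBar Fermat.Agent.S34lib Fermat.Agent.S36lib
  Fermat.Agent.S37lib Fermat.Agent.LatE

/-! ### congruences modulo `π` in a commutative ring -/

section Ring

variable {S : Type*} [CommRing S]

/-- `x ≡ 1` modulo `π` -/
def lncOne (π x : S) : Prop := ∃ g : S, x = 1 + π * g

theorem lncOne_one (π : S) : lncOne π (1 : S) := ⟨0, by ring⟩

theorem lncOne_mul {π x y : S} (hx : lncOne π x) (hy : lncOne π y) : lncOne π (x * y) := by
  obtain ⟨a, rfl⟩ := hx
  obtain ⟨b, rfl⟩ := hy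
  exact ⟨a + b + π * a * b, by ring⟩

theorem lncOne_pow {π x : S} (hx : lncOne π x) (n : ℕ) : lncOne π (x ^ n) := by
  induction n with
  | zero => rw [pow_zero]; exact lncOne_one π
  | succ n ih => rw [pow_succ]; exact lncOne_mul ih hx

/-- a product of elements `≡ 1` modulo `π` is `≡ 1` modulo `π` -/
theorem lnc_prod {ι : Type*} (π : S) (s : Finset ι) (f : ι → S)
    (h : ∀ i ∈ s, lncOne π (f i)) : lncOne π (∏ i ∈ s, f i) := by
  classical
  induction s using Finset.induction_on with
  | empty => rw [Finset.prod_empty]; exact lncOne_one π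
  | insert a s ha ih =>
    rw [Finset.prod_insert ha]
    exact lncOne_mul (h a (Finset.mem_insert_self a s))
      (ih fun i hi => h i (Finset.mem_insert_of_mem hi))

/-- ring homomorphisms fixing `π` preserve `≡ 1` modulo `π` -/
theorem lncOne_map {T : Type*} [CommRing T] (φ : S →+* T) {π x : S} (hx : lncOne π x) :
    lncOne (φ π) (φ x) := by
  obtain ⟨g, rfl⟩ := hx
  exact ⟨φ g, by rw [map_add, map_one, map_mul]⟩

end Ring

/-! ### the sheets product -/

section Sheets

variable {R : Type*} [CommRing R]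

theorem lnc_twq_C (u : Rˣ) (r : R) :
    twq u (HahnSeries.C r : LaurentSeries R) = HahnSeries.C r := by
  ext n
  rw [twq_coeff]
  by_cases hn : n = 0
  · subst hn
    simp
  · have : (HahnSeries.C r : LaurentSeries R).coeff n = 0 := by
      rw [HahnSeries.C_apply, HahnSeries.coeff_single_of_ne hn]
    rw [this, mul_zero]

/-- the sheets product of a series `≡ 1` modulo the constant `π` is `≡ 1` modulo `π` -/
theorem lnc_sheets (ℓ : ℕ) [NeZero ℓ] (u : Rˣ) (π : R) {y : LaurentSeries R}
    (hy : lncOne (HahnSeries.C π : LaurentSeries R) y) :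
    lncOne (HahnSeries.C π : LaurentSeries R) (hkqSheets ℓ u y) := by
  haveI : NeZero (ℓ * ℓ) := ⟨Nat.mul_ne_zero (NeZero.ne ℓ) (NeZero.ne ℓ)⟩
  unfold hkqSheets
  refine lncOne_mul ?_ (lnc_prod _ _ _ fun b _ => ?_)
  · have := lncOne_map (qExpand R (ℓ * ℓ)) hy
    rwa [qExpand_C] at this
  · have := lncOne_map (twq (u ^ b)) hy
    rwa [lnc_twq_C] at this

end Sheets

/-! ### the core -/

section Core

variable {K : Type*} [Field K] (A : ValuationSubring K)

/-- **core**: if `Z(s^ℓ) = Y(s^{ℓ²}) · ∏_{b<ℓ} Y(ζ^b s)` over `K` with `Y = 1 + π g`, `g` with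
coefficients in the valuation ring `A`, `π ≠ 0`, then `Z = 1 + π G`, `G` with coefficients in
`A`. -/
theorem lnc_core (ℓ : ℕ) [NeZero ℓ] (ζA : Aˣ) (π : A) (hπ : π ≠ 0) (g : LaurentSeries A)
    (Z : LaurentSeries K)
    (hZ : qExpand K ℓ Z = hkqSheets ℓ (Units.map (A.subtype : A →* K) ζA)
      (coeffMap A.subtype (1 + HahnSeries.C π * g))) :
    ∃ G : LaurentSeries A, Z = coeffMap A.subtype (1 + HahnSeries.C π * G) := by
  classical
  obtain ⟨W, hW⟩ := lnc_sheets ℓ ζA π (y := 1 + HahnSeries.C π * g) ⟨g, rfl⟩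
  have hwK : coeffMap A.subtype (hkqSheets ℓ ζA (1 + HahnSeries.C π * g)) = qExpand K ℓ Z := by
    rw [hZ, hkq_coeffMap_sheets]
  -- `W` is supported on the multiples of `ℓ`
  have hW0 : ∀ n : ℤ, ¬ (ℓ : ℤ) ∣ n → W.coeff n = 0 := by
    intro n hn
    have h1 := congrArg (fun t => t.coeff n) hwK
    simp only [coeffMap_coeff] at h1
    rw [qExpand_coeff_of_not_dvd ℓ _ hn] at h1
    have h2 : (hkqSheets ℓ ζA (1 + HahnSeries.C π * g)).coeff n = 0 :=
      A.subtype_injective (by rw [h1, map_zero])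
    rw [hW] at h2
    have hn0 : n ≠ 0 := by
      rintro rfl
      exact hn (dvd_zero _)
    have h3 : ((1 : LaurentSeries A) + HahnSeries.C π * W).coeff n = π * W.coeff n := by
      rw [HahnSeries.coeff_add, HahnSeries.coeff_one, if_neg hn0, zero_add,
        HahnSeries.C_mul_eq_smul, HahnSeries.coeff_smul, smul_eq_mul]
    rw [h3] at h2
    exact (mul_eq_zero.mp h2).resolve_left hπ
  refine ⟨Kron.qContract ℓ W, ?_⟩
  apply qExpand_injective (R := K) ℓ
  rw [← hwK, hW, ← Kron.coeffMap_qExpand]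
  congr 1
  rw [map_add, map_one, map_mul, qExpand_C, Kron.qExpand_qContract ℓ hW0]

end Core

/-! ### the Hecke norm -/

section Concrete

variable (N ℓ : ℕ) [NeZero N] [NeZero ℓ]
variable (A : ValuationSubring Kbar)

/-- **(H3), `q`-expansion form**: if `u ∈ F_N` has the `q`-expansion `1 + π g`, `g` with
coefficients in `A`, then the Hecke norm `N_α (β u)` has the `q`-expansion `1 + π G`, `G` with
coefficients in `A` (`ℓ ∤ N`, characteristic `0`). -/
theorem lnc_normBeta (hℓ : ℓ.Prime) (hℓN : ¬ ℓ ∣ N) (ζA : Aˣ)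
    (hζ : IsPrimitiveRoot ((Units.map (A.subtype : A →* Kbar) ζA : Kbarˣ) : Kbar) ℓ)
    (π : A) (hπ : π ≠ 0) (g : LaurentSeries A) (u : FF N)
    (hu : (u : LaurentSeries Kbar) = coeffMap A.subtype (1 + HahnSeries.C π * g)) :
    ∃ G : LaurentSeries A,
      ((normBeta N ℓ u : FF N) : LaurentSeries Kbar)
        = coeffMap A.subtype (1 + HahnSeries.C π * G) := by
  have hconj := normConj N ℓ hℓ hℓN (Units.map (A.subtype : A →* Kbar) ζA) hζ u
  refine lnc_core A ℓ ζA π hπ g _ ?_
  rw [← hu]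
  exact hconj

/-- the same with the root of unity chosen inside -/
theorem lnc_normBeta' {p : ℕ} (hp : p.Prime) (hA : A.LiesOverPrime p) (hℓ : ℓ.Prime)
    (hℓp : ℓ ≠ p) (hℓN : ¬ ℓ ∣ N)
    (π : A) (hπ : π ≠ 0) (g : LaurentSeries A) (u : FF N)
    (hu : (u : LaurentSeries Kbar) = coeffMap A.subtype (1 + HahnSeries.C π * g)) :
    ∃ G : LaurentSeries A,
      ((normBeta N ℓ u : FF N) : LaurentSeries Kbar)
        = coeffMap A.subtype (1 + HahnSeries.C π * G) := by
  obtain ⟨ζA, hζ, -⟩ := hkq_exists_zeta A hp hℓ hℓp hA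
  exact lnc_normBeta N ℓ A hℓ hℓN ζA hζ π hπ g u hu

end Concrete

/-! ### the Gauss form -/

section Gauss

variable (N M ℓ : ℕ) [NeZero N] [NeZero M] [NeZero ℓ]
variable (A : ValuationSubring Kbar)

/-- **(H3), Gauss form**: if `u ∈ F_N` has the `q`-expansion `1 + π g`, `g` with coefficients in
`A`, and `R` is a series reduction of `F_N`, then `N_α (β u) = 1 + π G'` with `G' ∈ R.O`. -/
theorem lnc_normBeta_mem {p : ℕ} (hp : p.Prime) (hA : A.LiesOverPrime p) (hℓ : ℓ.Prime)
    (hℓp : ℓ ≠ p) (hℓN : ¬ ℓ ∣ N)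
    {R : ConstRed A (IsLocalRing.residue A) (Fk (IsLocalRing.ResidueField A) M) (FF N)}
    (hR : IsSeriesRed R)
    (π : A) (hπ : π ≠ 0) (g : LaurentSeries A) (u : FF N)
    (hu : (u : LaurentSeries Kbar) = coeffMap A.subtype (1 + HahnSeries.C π * g)) :
    ∃ G' : FF N, G' ∈ R.O ∧
      normBeta N ℓ u = 1 + algebraMap Kbar (FF N) ((π : A) : Kbar) * G' := by
  obtain ⟨G, hG⟩ := lnc_normBeta' N ℓ A hp hA hℓ hℓp hℓN π hπ g u hu
  have hπK : ((π : A) : Kbar) ≠ 0 := fun h => hπ (Subtype.ext h)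
  have hπF : algebraMap Kbar (FF N) ((π : A) : Kbar) ≠ 0 :=
    (map_ne_zero (algebraMap Kbar (FF N))).mpr hπK
  set G' : FF N := (normBeta N ℓ u - 1) * (algebraMap Kbar (FF N) ((π : A) : Kbar))⁻¹ with hG'
  have hrel : normBeta N ℓ u = 1 + algebraMap Kbar (FF N) ((π : A) : Kbar) * G' := by
    rw [hG']
    field_simp
    ring
  have hcoe : ((G' : FF N) : LaurentSeries Kbar) = coeffMap A.subtype G := by
    have h1 : ((normBeta N ℓ u : FF N) : LaurentSeries Kbar)
        = 1 + ((algebraMap Kbar (FF N) ((π : A) : Kbar) : FF N) : LaurentSeries Kbar)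
          * ((G' : FF N) : LaurentSeries Kbar) := by
      conv_lhs => rw [hrel]
      rfl
    rw [hG, map_add, map_one, map_mul] at h1
    have h2 : coeffMap A.subtype (HahnSeries.C π : LaurentSeries A)
        = ((algebraMap Kbar (FF N) ((π : A) : Kbar) : FF N) : LaurentSeries Kbar) := by
      rw [nc_coe_algebraMap, algebraMap_laurentSeries_eq_single]
      exact coeffMap_single A.subtype 0 π
    rw [h2] at h1
    have h3 := add_left_cancel h1
    have hne : ((algebraMap Kbar (FF N) ((π : A) : Kbar) : FF N) : LaurentSeries Kbar) ≠ 0 := by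
      intro h0
      apply hπF
      exact Subtype.ext h0
    exact (mul_left_cancel₀ hne h3).symm
  have hy : coeffMap A.subtype G ∈ modularFunctionFieldBar N := by
    rw [← hcoe]
    exact G'.2
  refine ⟨G', ?_, hrel⟩
  have := hR.mem G hy
  have e : (⟨coeffMap A.subtype G, hy⟩ : FF N) = G' := Subtype.ext hcoe.symm
  rwa [e] at this

end Gauss

end Fermat.Agent.S40lib
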