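import Mathlib
import Fermat.Agent.S36lib.Speed
import Fermat.Agent.S33lib.RayDiscLift
import Fermat.Agent.S40lib.HeckeQ
import Fermat.Agent.LatE.Defs
import Fermat.Agent.S40lib.LcNormCong
import Fermat.Agent.S40lib.HeckeLc
import Fermat.Agent.S40lib.ConstPow

/-!
# Item 88 (S44), block (J-WILD), piece (Z2), ASSEMBLY (helper7): the Kummer root is inertia-fixed

`u ∈ F_N` a Kummer function with `q`-expansion `1 + λ^p g` (`λ = ζ_p - 1`, `g` integral), subject
to the Hecke relation `N_α (β u) = c · u ^ a · h ^ p` (`kme_norm_rel`) at a prime `ℓ ∤ N p` with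
`p ∤ ℓ + 1 - a`, and `τ` an automorphism of `ℚ̄` fixing `ζ_p`, acting on `F_N` through the
coefficients of `q`-expansions, trivially on the residue field of the Gauss valuation ring `R.O`
(an element of `I1`) and fixing `u`.  Then **`τ` fixes every `p`-th root `U ∈ ℚ̄((q))` of `u`**.

No boundedness of `U` is used (it is false in general): the proof goes through the leading
coefficient (Hecke-lc route):
* `lca_norm_fixed`  : `τ` fixes `N_α (β u)` (sheets formula for `ζ_ℓ` and `τ ζ_ℓ`);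
* `lcaOne_*`        : `1 + π O` is a group (`π` a nonunit of the valuation ring `O`);
* `lca_Y_fixed`     : `Y = c^{1/p} h` (a `p`-th root of `N_α (β u) · u^{-a} ∈ 1 + λ^p O`) is
                      `τ`-fixed (`cpw_fixed`, helper2);
* `lca_lc_rel`      : `lc(u)^{ℓ+1-a} = (lc(Y)/ε)^p`, `ε = ±1` (`hlc_normBeta_pow`, helper13);
* `lca_main`        : the assembly (`cpw_root_fixed`, helper2).
(complete proofs, standard axioms only)
-/

set_option autoImplicit false
set_option linter.unusedSectionVars false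
set_option linter.unusedVariables false
set_option linter.style.haveILetI false
set_option maxHeartbeats 1000000
set_option synthInstance.maxHeartbeats 400000

noncomputable section

namespace Fermat.Agent.S40lib

open ModularCurve AlgebraicCurve HahnSeries Fermat.Agent.GoodRed Fermat.Agent.GM
  Fermat.Agent.S24lib Fermat.Agent.HeckeBar Fermat.Agent.S34lib Fermat.Agent.S36lib
  Fermat.Agent.S37lib Fermat.Agent.LatE

/-! ### `1 + π O` is a group -/

section Val

variable {F : Type*} [Field F] (O : ValuationSubring F)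

/-- `x ∈ 1 + π O` -/
def lcaOne (π x : F) : Prop := ∃ G : F, G ∈ O ∧ x = 1 + π * G

theorem lcaOne_one (π : F) : lcaOne O π 1 := ⟨0, zero_mem _, by ring⟩

theorem lcaOne_mul {π x y : F} (hπ : π ∈ O) (hx : lcaOne O π x) (hy : lcaOne O π y) :
    lcaOne O π (x * y) := by
  obtain ⟨G, hG, rfl⟩ := hx
  obtain ⟨H, hH, rfl⟩ := hy
  exact ⟨G + H + π * G * H, add_mem (add_mem hG hH) (mul_mem (mul_mem hπ hG) hH), by ring⟩

theorem lcaOne_pow {π x : F} (hπ : π ∈ O) (hx : lcaOne O π x) (n : ℕ) : lcaOne O π (x ^ n) := by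
  induction n with
  | zero => rw [pow_zero]; exact lcaOne_one O π
  | succ n ih => rw [pow_succ]; exact lcaOne_mul O hπ ih hx

theorem lcaOne_inv {π x : F} (hπ : π ∈ O.nonunits) (hx : lcaOne O π x) : lcaOne O π x⁻¹ := by
  obtain ⟨G, hG, rfl⟩ := hx
  have hv1 : O.valuation (π * G) < 1 := by
    rw [map_mul]
    have h1 : O.valuation π < 1 := (O.mem_nonunits_iff).1 hπ
    have h2 : O.valuation G ≤ 1 := (O.valuation_le_one_iff _).2 hG
    calc O.valuation π * O.valuation G ≤ O.valuation π * 1 := by gcongr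
      _ = O.valuation π := mul_one _
      _ < 1 := h1
  have hv : O.valuation (1 + π * G) = 1 := O.valuation.map_one_add_of_lt hv1
  have hx0 : (1 + π * G) ≠ 0 := by
    intro h0
    rw [h0, map_zero] at hv
    exact zero_ne_one hv
  have hinv : (1 + π * G)⁻¹ ∈ O := by
    rw [← O.valuation_le_one_iff, map_inv₀, hv, inv_one]
  refine ⟨-(G * (1 + π * G)⁻¹), neg_mem (mul_mem hG hinv), ?_⟩
  field_simp
  ring

theorem lcaOne_zpow {π x : F} (hπ : π ∈ O.nonunits) (hx : lcaOne O π x) (n : ℤ) :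
    lcaOne O π (x ^ n) := by
  have hπO : π ∈ O := (O.valuation_le_one_iff _).1 ((O.mem_nonunits_iff).1 hπ).le
  obtain ⟨m, rfl | rfl⟩ := Int.eq_nat_or_neg n
  · rw [zpow_natCast]; exact lcaOne_pow O hπO hx m
  · rw [zpow_neg, zpow_natCast]; exact lcaOne_inv O hπ (lcaOne_pow O hπO hx m)

theorem lcaOne_ne_zero {π x : F} (hπ : π ∈ O.nonunits) (hx : lcaOne O π x) : x ≠ 0 := by
  obtain ⟨G, hG, rfl⟩ := hx
  have hv1 : O.valuation (π * G) < 1 := by
    rw [map_mul]
    have h1 : O.valuation π < 1 := (O.mem_nonunits_iff).1 hπ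
    have h2 : O.valuation G ≤ 1 := (O.valuation_le_one_iff _).2 hG
    calc O.valuation π * O.valuation G ≤ O.valuation π * 1 := by gcongr
      _ = O.valuation π := mul_one _
      _ < 1 := h1
  have hv : O.valuation (1 + π * G) = 1 := O.valuation.map_one_add_of_lt hv1
  intro h0
  rw [h0, map_zero] at hv
  exact zero_ne_one hv

end Val

/-! ### the leading coefficient -/

section Lc

variable {K : Type*} [Field K]

/-- the leading coefficient, as a morphism of monoids with zero -/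
def lcaLc : LaurentSeries K →*₀ K where
  toFun x := x.leadingCoeff
  map_zero' := HahnSeries.leadingCoeff_zero
  map_one' := HahnSeries.leadingCoeff_one
  map_mul' x y := HahnSeries.leadingCoeff_mul x y

theorem lcaLc_apply (x : LaurentSeries K) : lcaLc x = x.leadingCoeff := rfl

theorem lcaLc_algebraMap (c : K) : lcaLc (algebraMap K (LaurentSeries K) c) = c := by
  rw [lcaLc_apply, algebraMap_laurentSeries_eq_single]
  exact HahnSeries.leadingCoeff_of_single

theorem lcaLc_coeffMap (τ : K →+* K) (x : LaurentSeries K) :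
    lcaLc (coeffMap τ x) = τ (lcaLc x) := by
  by_cases hx : x = 0
  · subst hx
    rw [map_zero, map_zero, map_zero]
  · have hord : (coeffMap τ x).order = x.order := by
      refine hlc_order_eq ?_ ?_
      · rw [coeffMap_coeff]
        exact (map_ne_zero τ).mpr (fun h => hx (HahnSeries.coeff_order_eq_zero.mp h))
      · intro m hm
        rw [coeffMap_coeff, HahnSeries.coeff_eq_zero_of_lt_order hm, map_zero]
    rw [lcaLc_apply, lcaLc_apply, HahnSeries.leadingCoeff_eq, HahnSeries.leadingCoeff_eq, hord,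
      coeffMap_coeff]

/-- a `p`-th root of a `τ`-fixed series is multiplied by a `p`-th root of unity -/
theorem lca_root_twist {p : ℕ} (hp : p.Prime) {ζ : K} (hζ : IsPrimitiveRoot ζ p)
    (τ : K →+* K) (U : LaurentSeries K) (hU : U ≠ 0) (hτ : coeffMap τ (U ^ p) = U ^ p) :
    ∃ j : ℕ, coeffMap τ U = algebraMap K (LaurentSeries K) (ζ ^ j) * U := by
  haveI : NeZero p := ⟨hp.ne_zero⟩
  have hζ' : IsPrimitiveRoot (algebraMap K (LaurentSeries K) ζ) p :=
    hζ.map_of_injective (algebraMap K (LaurentSeries K)).injective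
  have h1 : (coeffMap τ U / U) ^ p = 1 := by
    rw [div_pow, ← map_pow, hτ, div_self (pow_ne_zero _ hU)]
  obtain ⟨j, -, hj⟩ := hζ'.eq_pow_of_pow_eq_one h1
  refine ⟨j, ?_⟩
  rw [map_pow, hj, div_mul_cancel₀ _ hU]

end Lc

/-! ### the modular function field -/

section Concrete

variable (N M ℓ : ℕ) [NeZero N] [NeZero M] [NeZero ℓ]
variable (A : ValuationSubring Kbar)

/-- the coercion `F_N → ℚ̄((q))` as a ring homomorphism -/
def lcaVal : FF N →+* LaurentSeries Kbar := (modularFunctionFieldBar N).val.toRingHom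

theorem lcaVal_apply (f : FF N) : lcaVal N f = (f : LaurentSeries Kbar) := rfl

/-- **`τ` fixes the Hecke norm of a `τ`-fixed function** (sheets formula for `ζ_ℓ` and `τ ζ_ℓ`) -/
theorem lca_norm_fixed (hℓ : ℓ.Prime) (hℓN : ¬ ℓ ∣ N) (τ : Kbar →+* Kbar) (u : FF N)
    (hτu : coeffMap τ (u : LaurentSeries Kbar) = (u : LaurentSeries Kbar)) :
    coeffMap τ ((normBeta N ℓ u : FF N) : LaurentSeries Kbar)
      = ((normBeta N ℓ u : FF N) : LaurentSeries Kbar) := by
  haveI : NeZero ((ℓ : ℕ) : ℚ) := ⟨by exact_mod_cast NeZero.ne ℓ⟩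
  obtain ⟨ζ0, hζ0⟩ := HasEnoughRootsOfUnity.exists_primitiveRoot Kbar ℓ
  have hζ0u : IsUnit ζ0 := hζ0.isUnit (NeZero.ne ℓ)
  obtain ⟨ζu, hζu⟩ := hζ0u
  have hprim : IsPrimitiveRoot ((ζu : Kbarˣ) : Kbar) ℓ := by rw [hζu]; exact hζ0
  have hprim' : IsPrimitiveRoot ((Units.map (τ : Kbar →* Kbar) ζu : Kbarˣ) : Kbar) ℓ := by
    have h0 : ((Units.map (τ : Kbar →* Kbar) ζu : Kbarˣ) : Kbar) = τ (ζu : Kbar) := rfl
    rw [h0]
    exact hprim.map_of_injective τ.injective
  have h1 : qExpand Kbar ℓ ((normBeta N ℓ u : FF N) : LaurentSeries Kbar)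
      = hkqSheets ℓ ζu (u : LaurentSeries Kbar) := normConj N ℓ hℓ hℓN ζu hprim u
  have h2 : qExpand Kbar ℓ ((normBeta N ℓ u : FF N) : LaurentSeries Kbar)
      = hkqSheets ℓ (Units.map (τ : Kbar →* Kbar) ζu) (u : LaurentSeries Kbar) :=
    normConj N ℓ hℓ hℓN (Units.map (τ : Kbar →* Kbar) ζu) hprim' u
  apply qExpand_injective (R := Kbar) (N := ℓ)
  rw [← Kron.coeffMap_qExpand, h1, hkq_coeffMap_sheets, hτu, ← h2]
  exact h1

/-- from the `q`-expansion `1 + π g`, `g` integral, to `u ∈ 1 + π O` -/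
theorem lca_mem_one
    {R : ConstRed A (IsLocalRing.residue A) (Fk (IsLocalRing.ResidueField A) M) (FF N)}
    (hR : IsSeriesRed R)
    (π : A) (hπ : π ≠ 0) (g : LaurentSeries A) (u : FF N)
    (hu : (u : LaurentSeries Kbar) = coeffMap A.subtype (1 + HahnSeries.C π * g)) :
    lcaOne R.O (algebraMap Kbar (FF N) ((π : A) : Kbar)) u := by
  have hπK : ((π : A) : Kbar) ≠ 0 := fun h => hπ (Subtype.ext h)
  have hπF : algebraMap Kbar (FF N) ((π : A) : Kbar) ≠ 0 :=
    (map_ne_zero (algebraMap Kbar (FF N))).mpr hπK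
  set G' : FF N := (u - 1) * (algebraMap Kbar (FF N) ((π : A) : Kbar))⁻¹ with hG'
  have hrel : u = 1 + algebraMap Kbar (FF N) ((π : A) : Kbar) * G' := by
    rw [hG']
    field_simp
    ring
  have hcoe : ((G' : FF N) : LaurentSeries Kbar) = coeffMap A.subtype g := by
    have h1 : ((u : FF N) : LaurentSeries Kbar)
        = 1 + ((algebraMap Kbar (FF N) ((π : A) : Kbar) : FF N) : LaurentSeries Kbar)
          * ((G' : FF N) : LaurentSeries Kbar) := by
      conv_lhs => rw [hrel]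
      rfl
    rw [hu, map_add, map_one, map_mul] at h1
    have h2 : coeffMap A.subtype (HahnSeries.C π : LaurentSeries A)
        = ((algebraMap Kbar (FF N) ((π : A) : Kbar) : FF N) : LaurentSeries Kbar) := by
      rw [nc_coe_algebraMap, algebraMap_laurentSeries_eq_single]
      exact coeffMap_single A.subtype 0 π
    rw [h2] at h1
    have h3 := add_left_cancel h1
    have hne : ((algebraMap Kbar (FF N) ((π : A) : Kbar) : FF N) : LaurentSeries Kbar) ≠ 0 := by
      intro h0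
      apply hπF
      exact Subtype.ext h0
    exact (mul_left_cancel₀ hne h3).symm
  have hy : coeffMap A.subtype g ∈ modularFunctionFieldBar N := by
    rw [← hcoe]
    exact G'.2
  refine ⟨G', ?_, hrel⟩
  have := hR.mem g hy
  have e : (⟨coeffMap A.subtype g, hy⟩ : FF N) = G' := Subtype.ext hcoe.symm
  rwa [e] at this

/-- **`Y = c^{1/p} h` is `τ`-fixed** and `N_α (β u) = Y ^ p · u ^ a`. -/
theorem lca_Y_fixed {p : ℕ} (hp : p.Prime) (hA : A.LiesOverPrime p) (hℓ : ℓ.Prime)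
    (hℓp : ℓ ≠ p) (hℓN : ¬ ℓ ∣ N)
    {R : ConstRed A (IsLocalRing.residue A) (Fk (IsLocalRing.ResidueField A) M) (FF N)}
    (hR : IsSeriesRed R)
    {ζ : Kbar} (hζ : IsPrimitiveRoot ζ p)
    (π : A) (hπ : ((π : A) : Kbar) = (ζ - 1) ^ p)
    (g : LaurentSeries A) (u : FF N)
    (hu : (u : LaurentSeries Kbar) = coeffMap A.subtype (1 + HahnSeries.C π * g))
    (a : ℤ) (c : Kbar) (h : FF N) (hc : c ≠ 0) (hh : h ≠ 0)
    (hrel : normBeta N ℓ u = algebraMap Kbar (FF N) c * u ^ a * h ^ p)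
    (τ : Kbar →+* Kbar) (hτζ : τ ζ = ζ)
    (τF : FF N →+* FF N)
    (hτF : ∀ f : FF N, ((τF f : FF N) : LaurentSeries Kbar) = coeffMap τ (f : LaurentSeries Kbar))
    (hτR : ∀ f ∈ R.O, τF f - f ∈ R.O.nonunits)
    (hτu : τF u = u) :
    u ≠ 0 ∧ ∃ Y : FF N, Y ≠ 0 ∧ τF Y = Y ∧ normBeta N ℓ u = Y ^ p * u ^ a := by
  haveI : NeZero p := ⟨hp.ne_zero⟩
  have hlamA : ζ - 1 ∈ A.nonunits := Fermat.Agent.S33lib.rdl_hlamA hp hA hζ
  have hlam0 : ζ - 1 ≠ 0 := sub_ne_zero.2 (hζ.ne_one hp.one_lt)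
  have hπ0 : π ≠ 0 := by
    intro h0
    rw [h0] at hπ
    exact pow_ne_zero p hlam0 hπ.symm
  set ζF : FF N := algebraMap Kbar (FF N) ζ with hζF
  have hζFprim : IsPrimitiveRoot ζF p :=
    hζ.map_of_injective (algebraMap Kbar (FF N)).injective
  have hπF : algebraMap Kbar (FF N) ((π : A) : Kbar) = (ζF - 1) ^ p := by
    rw [hπ, map_pow, map_sub, map_one]
  -- constants of the maximal ideal of `A` are nonunits of `R.O`
  have hmemnu : ∀ x : A, (x : Kbar) ∈ A.nonunits →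
      algebraMap Kbar (FF N) (x : Kbar) ∈ R.O.nonunits := by
    intro x hx
    have h1 : R.red ⟨algebraMap Kbar (FF N) (x : Kbar), R.algebraMap_mem x⟩ = 0 := by
      rw [R.red_algebraMap]
      have h2 : IsLocalRing.residue A x = 0 := by
        rw [IsLocalRing.residue_eq_zero_iff]
        exact ValuationSubring.coe_mem_nonunits_iff.mp hx
      rw [h2, map_zero]
    exact (R.red_eq_zero_iff _).1 h1
  have hmemA : ∀ x : Kbar, x ∈ A.nonunits → x ∈ A := fun x hx =>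
    (A.valuation_le_one_iff _).1 ((A.mem_nonunits_iff).1 hx).le
  have hlamF : ζF - 1 ∈ R.O.nonunits := by
    have h1 := hmemnu ⟨ζ - 1, hmemA _ hlamA⟩ hlamA
    rw [map_sub, map_one] at h1
    exact h1
  have hpF : ((p : ℕ) : FF N) ∈ R.O.nonunits := by
    have hpA : ((p : ℕ) : Kbar) ∈ A.nonunits := hA
    have h1 := hmemnu ⟨((p : ℕ) : Kbar), hmemA _ hpA⟩ hpA
    rw [map_natCast] at h1
    exact h1
  have hπnu : algebraMap Kbar (FF N) ((π : A) : Kbar) ∈ R.O.nonunits := by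
    have h1 := hmemnu π (by
      rw [hπ, ValuationSubring.mem_nonunits_iff, map_pow]
      exact pow_lt_one₀ zero_le ((A.mem_nonunits_iff).1 hlamA) hp.ne_zero)
    exact h1
  have hπO : algebraMap Kbar (FF N) ((π : A) : Kbar) ∈ R.O := R.algebraMap_mem π
  -- congruences
  have hu1 : lcaOne R.O (algebraMap Kbar (FF N) ((π : A) : Kbar)) u :=
    lca_mem_one N M A hR π hπ0 g u hu
  have hN1 : lcaOne R.O (algebraMap Kbar (FF N) ((π : A) : Kbar)) (normBeta N ℓ u) := by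
    obtain ⟨G', hG', hG⟩ := lnc_normBeta_mem N M ℓ A hp hA hℓ hℓp hℓN hR π hπ0 g u hu
    exact ⟨G', hG', hG⟩
  have hu0 : u ≠ 0 := lcaOne_ne_zero R.O hπnu hu1
  have hua0 : u ^ a ≠ 0 := zpow_ne_zero a hu0
  have hy1 : lcaOne R.O (algebraMap Kbar (FF N) ((π : A) : Kbar))
      (normBeta N ℓ u * (u ^ a)⁻¹) :=
    lcaOne_mul R.O hπO hN1 (lcaOne_inv R.O hπnu (lcaOne_zpow R.O hπnu hu1 a))
  -- the root `Y`
  obtain ⟨d, hd⟩ : ∃ d : Kbar, d ^ p = c := IsAlgClosed.exists_pow_nat_eq c hp.pos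
  have hd0 : d ≠ 0 := by
    rintro rfl
    rw [zero_pow hp.ne_zero] at hd
    exact hc hd.symm
  set Y : FF N := algebraMap Kbar (FF N) d * h with hY
  have hY0 : Y ≠ 0 := mul_ne_zero ((map_ne_zero _).2 hd0) hh
  have hYp : Y ^ p = normBeta N ℓ u * (u ^ a)⁻¹ := by
    rw [hrel, hY, mul_pow, ← map_pow, hd]
    field_simp
  obtain ⟨G, hG, hyG⟩ := hy1
  have hYG : Y ^ p = 1 + (ζF - 1) ^ p * G := by rw [hYp, hyG, hπF]
  have hcoe_inj : ∀ x y : FF N, (x : LaurentSeries Kbar) = (y : LaurentSeries Kbar) → x = y :=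
    fun x y h => Subtype.ext h
  have hτζF : τF ζF = ζF := by
    apply hcoe_inj
    rw [hτF, hζF, nc_coe_algebraMap, coeffMap_algebraMap, hτζ]
  have hτN : τF (normBeta N ℓ u) = normBeta N ℓ u := by
    apply hcoe_inj
    rw [hτF]
    exact lca_norm_fixed N ℓ hℓ hℓN τ u (by rw [← hτF, hτu])
  have hτYp : τF (Y ^ p) = Y ^ p := by
    rw [hYp, map_mul, map_inv₀, map_zpow₀, hτN, hτu]
  obtain ⟨i, hi⟩ : ∃ i : ℕ, τF Y = ζF ^ i * Y := by
    have h1 : (τF Y / Y) ^ p = 1 := by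
      rw [div_pow, ← map_pow, hτYp, div_self (pow_ne_zero _ hY0)]
    obtain ⟨i, -, hi⟩ := hζFprim.eq_pow_of_pow_eq_one h1
    exact ⟨i, by rw [hi, div_mul_cancel₀ _ hY0]⟩
  have hτY : τF Y = Y := cpw_fixed R.O hp hζFprim hlamF hpF τF hτζF hτR Y G hG hYG i hi
  refine ⟨hu0, Y, hY0, hτY, ?_⟩
  rw [hYp, mul_assoc, inv_mul_cancel₀ hua0, mul_one]

/-- **(Z2), Hecke-lc form**: `τ` fixes every `p`-th root `U ∈ ℚ̄((q))` of the Kummer function
`u = 1 + λ^p g`. -/
theorem lca_main {p : ℕ} (hp : p.Prime) (hp2 : p ≠ 2) (hA : A.LiesOverPrime p) (hℓ : ℓ.Prime)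
    (hℓp : ℓ ≠ p) (hℓN : ¬ ℓ ∣ N)
    {R : ConstRed A (IsLocalRing.residue A) (Fk (IsLocalRing.ResidueField A) M) (FF N)}
    (hR : IsSeriesRed R)
    {ζ : Kbar} (hζ : IsPrimitiveRoot ζ p)
    (π : A) (hπ : ((π : A) : Kbar) = (ζ - 1) ^ p)
    (g : LaurentSeries A) (u : FF N)
    (hu : (u : LaurentSeries Kbar) = coeffMap A.subtype (1 + HahnSeries.C π * g))
    (a : ℤ) (c : Kbar) (h : FF N) (hc : c ≠ 0) (hh : h ≠ 0)
    (hrel : normBeta N ℓ u = algebraMap Kbar (FF N) c * u ^ a * h ^ p)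
    (hcop : ¬ (p : ℤ) ∣ ((ℓ : ℤ) + 1 - a))
    (τ : Kbar →+* Kbar) (hτζ : τ ζ = ζ)
    (τF : FF N →+* FF N)
    (hτF : ∀ f : FF N, ((τF f : FF N) : LaurentSeries Kbar) = coeffMap τ (f : LaurentSeries Kbar))
    (hτR : ∀ f ∈ R.O, τF f - f ∈ R.O.nonunits)
    (hτu : τF u = u)
    (U : LaurentSeries Kbar) (hU : U ^ p = (u : LaurentSeries Kbar)) :
    coeffMap τ U = U := by
  obtain ⟨hu0, Y, hY0, hτY, hNY⟩ := lca_Y_fixed N M ℓ A hp hA hℓ hℓp hℓN hR hζ π hπ g u hu
    a c h hc hh hrel τ hτζ τF hτF hτR hτu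
  have hodd : ¬ 2 ∣ p := fun h2 =>
    hp2 ((Nat.prime_dvd_prime_iff_eq Nat.prime_two hp).1 h2).symm
  obtain ⟨ε, hε, hlcN⟩ := hlc_normBeta_pow N ℓ hℓ hℓN p hodd u hu0
  have hucoe0 : (u : LaurentSeries Kbar) ≠ 0 := fun h0 => hu0 (Subtype.ext h0)
  have hYcoe0 : (Y : LaurentSeries Kbar) ≠ 0 := fun h0 => hY0 (Subtype.ext h0)
  obtain ⟨L, hL⟩ : ∃ L : Kbar, L = lcaLc (u : LaurentSeries Kbar) := ⟨_, rfl⟩
  obtain ⟨e, he⟩ : ∃ e : Kbar, e = lcaLc (Y : LaurentSeries Kbar) := ⟨_, rfl⟩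
  have hL0 : L ≠ 0 := by rw [hL]; exact (map_ne_zero lcaLc).2 hucoe0
  have he0 : e ≠ 0 := by rw [he]; exact (map_ne_zero lcaLc).2 hYcoe0
  have hτe : τ e = e := by rw [he, ← lcaLc_coeffMap, ← hτF, hτY]
  have hε0 : ε ≠ 0 := by rcases hε with rfl | rfl <;> simp
  have hτε : τ ε = ε := by rcases hε with rfl | rfl <;> simp
  -- the relation between the leading coefficients
  have hlc : ε ^ p * L ^ (ℓ + 1) = e ^ p * L ^ a := by
    have h1 : lcaLc (lcaVal N (normBeta N ℓ u)) = lcaLc (lcaVal N (Y ^ p * u ^ a)) := by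
      rw [hNY]
    rw [map_mul, map_mul, map_pow, map_pow, map_zpow₀, map_zpow₀] at h1
    rw [hL, he]
    exact hlcN.symm.trans h1
  obtain ⟨k, hkdef⟩ : ∃ k : ℤ, k = (ℓ : ℤ) + 1 - a := ⟨_, rfl⟩
  have hk : L ^ k = (e / ε) ^ p := by
    have h1 : L ^ ((ℓ : ℤ) + 1) = L ^ (ℓ + 1) := by
      rw [← zpow_natCast]
      push_cast
      rfl
    rw [hkdef, zpow_sub₀ hL0, h1, div_pow, div_eq_div_iff (zpow_ne_zero _ hL0) (pow_ne_zero _ hε0),
      mul_comm, hlc]
  -- the root `U`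
  have hU0 : U ≠ 0 := by
    rintro rfl
    rw [zero_pow hp.ne_zero] at hU
    exact hucoe0 hU.symm
  obtain ⟨r, hr⟩ : ∃ r : Kbar, r = lcaLc U := ⟨_, rfl⟩
  have hr0 : r ≠ 0 := by rw [hr]; exact (map_ne_zero lcaLc).2 hU0
  have hrp : r ^ p = L := by rw [hr, hL, ← map_pow, hU]
  have hτUp : coeffMap τ (U ^ p) = U ^ p := by rw [hU, ← hτF, hτu]
  obtain ⟨j, hj⟩ := lca_root_twist hp hζ τ U hU0 hτUp
  have hτr : τ r = ζ ^ j * r := by
    rw [hr, ← lcaLc_coeffMap, hj, map_mul, lcaLc_algebraMap]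
  have hm : ¬ p ∣ k.natAbs := fun hd => hcop (by rw [← hkdef]; exact Int.natCast_dvd.2 hd)
  have hfix : τ r = r := by
    rcases le_total 0 k with hk0 | hk0
    · have hkn : ((k.natAbs : ℕ) : ℤ) = k := Int.natAbs_of_nonneg hk0
      refine cpw_root_fixed hp hζ τ hτζ r (e / ε) hr0 k.natAbs hm ?_
        (by rw [map_div₀, hτe, hτε]) j hτr
      rw [← pow_mul, mul_comm, pow_mul, hrp, ← zpow_natCast L k.natAbs, hkn]
      exact hk
    · have hkn : ((k.natAbs : ℕ) : ℤ) = -k := Int.ofNat_natAbs_of_nonpos hk0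
      refine cpw_root_fixed hp hζ τ hτζ r (e / ε)⁻¹ hr0 k.natAbs hm ?_
        (by rw [map_inv₀, map_div₀, hτe, hτε]) j hτr
      rw [← pow_mul, mul_comm, pow_mul, hrp, ← zpow_natCast L k.natAbs, hkn, zpow_neg, hk,
        inv_pow]
  have hζj : ζ ^ j = 1 := by
    rw [hfix] at hτr
    have h1 : (1 : Kbar) * r = ζ ^ j * r := by rw [one_mul]; exact hτr
    exact (mul_right_cancel₀ hr0 h1).symm
  rw [hj, hζj, map_one, one_mul]

end Concrete

end Fermat.Agent.S40lib

end
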