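import Mathlib
import Fermat.Agent.S36lib.Speed
import Fermat.Agent.S40lib.LcAsm
import Fermat.Agent.S40lib.InertiaFF

/-!
# Item 88 (S44), block (J-WILD), piece (Z2), final form (helper7)

The (Z2) assembly `lca_main` (LcAsm.lean) with the hypotheses in the shape produced by the
Kummer normal form (`rck_kummer`): `u = 1 + (ζ - 1)^p g` with `g ∈ R.O` (the Gauss valuation
ring; NOT necessarily an integral `q`-series) and `τ ∈ S40hI1 p A`.

* `lci_sheets`, `lci_core` : the sheets product of `b + π a` is `≡` the sheets product of `b`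
                             modulo `π` (integral series);
* `lci_const_mem`          : the constants of `R.O` are `A`;
* `lci_frac`               : every `g ∈ R.O` is `a / b`, `a`, `b` integral series, `b` primitive;
* `lci_normBeta_one`       : `u ∈ 1 + π O ⇒ N_α (β u) ∈ 1 + π O`;
* `lci_main_abs`           : (Z2) for `τ`, `τF` abstract;
* `lci_main`               : (Z2) for `τ ∈ S40hI1 p A`.
(complete proofs, standard axioms only)
-/

set_option autoImplicit false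
set_option linter.unusedSectionVars false
set_option linter.unusedVariables false
set_option linter.style.haveILetI false
set_option maxHeartbeats 1000000
set_option synthInstance.maxHeartbeats 400000

noncomputable section

namespace Fermat.Agent.S40lib

open ModularCurve AlgebraicCurve HahnSeries Fermat.Agent.GoodRed Fermat.Agent.GM
  Fermat.Agent.S24lib Fermat.Agent.HeckeBar Fermat.Agent.S34lib Fermat.Agent.S36lib
  Fermat.Agent.S37lib Fermat.Agent.LatE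

/-! ### congruences modulo `π` -/

section Ring

variable {S : Type*} [CommRing S]

/-- `x ≡ y` modulo `π` -/
def lciCong (π x y : S) : Prop := ∃ w : S, x = y + π * w

theorem lciCong_mul {π x y x' y' : S} (h : lciCong π x y) (h' : lciCong π x' y') :
    lciCong π (x * x') (y * y') := by
  obtain ⟨w, rfl⟩ := h
  obtain ⟨w', rfl⟩ := h'
  exact ⟨y * w' + w * y' + π * w * w', by ring⟩

theorem lciCong_prod {ι : Type*} (π : S) (s : Finset ι) (f g : ι → S)
    (h : ∀ i ∈ s, lciCong π (f i) (g i)) : lciCong π (∏ i ∈ s, f i) (∏ i ∈ s, g i) := by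
  classical
  induction s using Finset.induction_on with
  | empty => exact ⟨0, by simp⟩
  | insert a s ha ih =>
    rw [Finset.prod_insert ha, Finset.prod_insert ha]
    exact lciCong_mul (h a (Finset.mem_insert_self a s))
      (ih fun i hi => h i (Finset.mem_insert_of_mem hi))

theorem lciCong_map {T : Type*} [CommRing T] (φ : S →+* T) {π x y : S} (h : lciCong π x y) :
    lciCong (φ π) (φ x) (φ y) := by
  obtain ⟨w, rfl⟩ := h
  exact ⟨φ w, by rw [map_add, map_mul]⟩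

end Ring

section Sheets

variable {R : Type*} [CommRing R]

theorem lci_sheets (ℓ : ℕ) [NeZero ℓ] (u : Rˣ) (π : R) {x y : LaurentSeries R}
    (h : lciCong (HahnSeries.C π : LaurentSeries R) x y) :
    lciCong (HahnSeries.C π : LaurentSeries R) (hkqSheets ℓ u x) (hkqSheets ℓ u y) := by
  haveI : NeZero (ℓ * ℓ) := ⟨Nat.mul_ne_zero (NeZero.ne ℓ) (NeZero.ne ℓ)⟩
  unfold hkqSheets
  refine lciCong_mul ?_ (lciCong_prod _ _ _ _ fun b _ => ?_)
  · have := lciCong_map (qExpand R (ℓ * ℓ)) h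
    rwa [qExpand_C] at this
  · have := lciCong_map (twq (u ^ b)) h
    rwa [lnc_twq_C] at this

end Sheets

section Core

variable {K : Type*} [Field K] (A : ValuationSubring K)

/-- **core**: the sheets formula for `b + π a` and for `b` (integral series) gives
`Z₁ = Z₀ + π W`, `W` integral. -/
theorem lci_core (ℓ : ℕ) [NeZero ℓ] (ζA : Aˣ) (π : A) (hπ : π ≠ 0) (a b : LaurentSeries A)
    (Z₁ Z₀ : LaurentSeries K)
    (hZ₁ : qExpand K ℓ Z₁ = hkqSheets ℓ (Units.map (A.subtype : A →* K) ζA)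
      (coeffMap A.subtype (b + HahnSeries.C π * a)))
    (hZ₀ : qExpand K ℓ Z₀ = hkqSheets ℓ (Units.map (A.subtype : A →* K) ζA)
      (coeffMap A.subtype b)) :
    ∃ W : LaurentSeries A, Z₁ = Z₀ + coeffMap A.subtype (HahnSeries.C π * W) := by
  classical
  obtain ⟨W, hW⟩ := lci_sheets ℓ ζA π (x := b + HahnSeries.C π * a) (y := b) ⟨a, rfl⟩
  have h1K : coeffMap A.subtype (hkqSheets ℓ ζA (b + HahnSeries.C π * a)) = qExpand K ℓ Z₁ := by
    rw [hZ₁, hkq_coeffMap_sheets]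
  have h0K : coeffMap A.subtype (hkqSheets ℓ ζA b) = qExpand K ℓ Z₀ := by
    rw [hZ₀, hkq_coeffMap_sheets]
  have hW0 : ∀ n : ℤ, ¬ (ℓ : ℤ) ∣ n → W.coeff n = 0 := by
    intro n hn
    have e1 := congrArg (fun t => t.coeff n) h1K
    have e0 := congrArg (fun t => t.coeff n) h0K
    simp only [coeffMap_coeff] at e1 e0
    rw [qExpand_coeff_of_not_dvd ℓ _ hn] at e1 e0
    have c1 : (hkqSheets ℓ ζA (b + HahnSeries.C π * a)).coeff n = 0 :=
      A.subtype_injective (by rw [e1, map_zero])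
    have c0 : (hkqSheets ℓ ζA b).coeff n = 0 :=
      A.subtype_injective (by rw [e0, map_zero])
    rw [hW, HahnSeries.coeff_add, c0, zero_add, HahnSeries.C_mul_eq_smul,
      HahnSeries.coeff_smul, smul_eq_mul] at c1
    exact (mul_eq_zero.mp c1).resolve_left hπ
  refine ⟨Kron.qContract ℓ W, ?_⟩
  apply qExpand_injective (R := K) ℓ
  have hq : qExpand A ℓ (HahnSeries.C π * Kron.qContract ℓ W) = HahnSeries.C π * W := by
    rw [map_mul, qExpand_C, Kron.qExpand_qContract ℓ hW0]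
  rw [map_add, ← h1K, ← h0K, hW, ← Kron.coeffMap_qExpand, hq, map_add]

end Core

/-! ### fractions of integral series -/

section Frac

variable (N M : ℕ) [NeZero N] [NeZero M] (A : ValuationSubring Kbar)

/-- the constants of the Gauss valuation ring are `A` -/
theorem lci_const_mem
    {R : ConstRed A (IsLocalRing.residue A) (Fk (IsLocalRing.ResidueField A) M) (FF N)}
    (c : Kbar) (hc : algebraMap Kbar (FF N) c ∈ R.O) : c ∈ A := by
  by_contra hcA
  have hc0 : c ≠ 0 := by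
    rintro rfl
    exact hcA (zero_mem _)
  have hinv : c⁻¹ ∈ A.nonunits := by
    rw [ValuationSubring.mem_nonunits_iff_or]
    right
    rwa [inv_inv]
  have hinvA : c⁻¹ ∈ A := (A.valuation_le_one_iff _).1 ((A.mem_nonunits_iff).1 hinv).le
  have h1 : R.red ⟨algebraMap Kbar (FF N) ((⟨c⁻¹, hinvA⟩ : A) : Kbar),
      R.algebraMap_mem ⟨c⁻¹, hinvA⟩⟩ = 0 := by
    rw [R.red_algebraMap]
    have h2 : IsLocalRing.residue A ⟨c⁻¹, hinvA⟩ = 0 := by
      rw [IsLocalRing.residue_eq_zero_iff]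
      exact ValuationSubring.coe_mem_nonunits_iff.mp hinv
    rw [h2, map_zero]
  have h3 := (R.red_eq_zero_iff _).1 h1
  rw [ValuationSubring.mem_nonunits_iff_or] at h3
  rcases h3 with h3 | h3
  · have h4 : algebraMap Kbar (FF N) c⁻¹ = 0 := h3
    exact hc0 (inv_eq_zero.mp ((map_eq_zero _).1 h4))
  · apply h3
    have h4 : (algebraMap Kbar (FF N) c⁻¹)⁻¹ = algebraMap Kbar (FF N) c := by
      rw [map_inv₀, inv_inv]
    exact h4 ▸ hc

theorem lci_coeffMap_ne_zero {a : LaurentSeries A}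
    (ha : coeffMap (IsLocalRing.residue A) a ≠ 0) : coeffMap A.subtype a ≠ 0 := by
  intro h0
  apply ha
  have h1 : a = 0 := by
    ext n
    have h2 := congrArg (fun t => t.coeff n) h0
    simp only [coeffMap_coeff, HahnSeries.coeff_zero] at h2
    rw [HahnSeries.coeff_zero]
    exact congrArg Subtype.val (A.subtype_injective (h2.trans (map_zero A.subtype).symm))
  rw [h1, map_zero]

theorem lci_coeffMap_C (c : A) :
    coeffMap A.subtype (HahnSeries.C c : LaurentSeries A)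
      = ((algebraMap Kbar (FF N) ((c : A) : Kbar) : FF N) : LaurentSeries Kbar) := by
  rw [nc_coe_algebraMap, algebraMap_laurentSeries_eq_single]
  exact coeffMap_single A.subtype 0 c

/-- **every element of the Gauss valuation ring is a fraction `a / b` of integral series with
`b` primitive** -/
theorem lci_frac {p : ℕ} (hp : p.Prime) (hA : A.LiesOverPrime p)
    {R : ConstRed A (IsLocalRing.residue A) (Fk (IsLocalRing.ResidueField A) M) (FF N)}
    (hR : IsSeriesRed R) (g : FF N) (hg : g ∈ R.O) :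
    ∃ a b : LaurentSeries A, coeffMap A.subtype a ∈ modularFunctionFieldBar N ∧
      coeffMap A.subtype b ∈ modularFunctionFieldBar N ∧
      coeffMap (IsLocalRing.residue A) b ≠ 0 ∧
      (g : LaurentSeries Kbar) * coeffMap A.subtype b = coeffMap A.subtype a := by
  by_cases hg0 : g = 0
  · refine ⟨0, 1, ?_, ?_, ?_, ?_⟩
    · rw [map_zero]; exact zero_mem _
    · rw [map_one]; exact one_mem _
    · rw [map_one]; exact one_ne_zero
    · rw [hg0, map_zero, map_one, mul_one]; rfl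
  · have hAtop : A ≠ ⊤ := cri_ne_top p A (A.mem_nonunits_iff.mp hA) hp.ne_zero
    have hgc0 : (g : LaurentSeries Kbar) ≠ 0 := fun h => hg0 (Subtype.ext h)
    obtain ⟨a₀, b₀, ha₀, hb₀, hpa, hpb, c, hc0, hrel⟩ :=
      exists_primitive_smul N A hAtop (g : LaurentSeries Kbar) g.2 hgc0
    have hBO : (⟨coeffMap A.subtype b₀, hb₀⟩ : FF N) ∈ R.O := hR.mem b₀ hb₀
    have hAinv : (⟨coeffMap A.subtype a₀, ha₀⟩ : FF N)⁻¹ ∈ R.O := hR.inv_mem a₀ ha₀ hpa
    have hAa0 : (⟨coeffMap A.subtype a₀, ha₀⟩ : FF N) ≠ 0 := fun h =>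
      lci_coeffMap_ne_zero A hpa (congrArg Subtype.val h)
    have hrelF : g * (⟨coeffMap A.subtype b₀, hb₀⟩ : FF N)
        = algebraMap Kbar (FF N) c * (⟨coeffMap A.subtype a₀, ha₀⟩ : FF N) := by
      apply Subtype.ext
      show (g : LaurentSeries Kbar) * coeffMap A.subtype b₀
        = ((algebraMap Kbar (FF N) c : FF N) : LaurentSeries Kbar) * coeffMap A.subtype a₀
      rw [hrel, nc_coe_algebraMap, algebraMap_laurentSeries_eq_single]
      rfl
    have hcO : algebraMap Kbar (FF N) c ∈ R.O := by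
      have h1 : algebraMap Kbar (FF N) c
          = g * (⟨coeffMap A.subtype b₀, hb₀⟩ : FF N)
            * (⟨coeffMap A.subtype a₀, ha₀⟩ : FF N)⁻¹ := by
        rw [hrelF, mul_assoc, mul_inv_cancel₀ hAa0, mul_one]
      rw [h1]
      exact mul_mem (mul_mem hg hBO) hAinv
    have hcA : c ∈ A := lci_const_mem N M A c hcO
    have hCc : coeffMap A.subtype (HahnSeries.C (⟨c, hcA⟩ : A) * a₀)
        = HahnSeries.C c * coeffMap A.subtype a₀ := by
      rw [map_mul]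
      congr 1
      exact coeffMap_single A.subtype 0 (⟨c, hcA⟩ : A)
    refine ⟨HahnSeries.C (⟨c, hcA⟩ : A) * a₀, b₀, ?_, hb₀, hpb, ?_⟩
    · rw [hCc]
      have h2 : (HahnSeries.C c : LaurentSeries Kbar)
          = ((algebraMap Kbar (FF N) c : FF N) : LaurentSeries Kbar) := by
        rw [nc_coe_algebraMap, algebraMap_laurentSeries_eq_single]
        rfl
      rw [h2]
      exact mul_mem (algebraMap Kbar (FF N) c).2 ha₀
    · rw [hrel, hCc]

end Frac

/-! ### the Hecke norm of `u ∈ 1 + π O` -/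

section Norm

variable (N M ℓ : ℕ) [NeZero N] [NeZero M] [NeZero ℓ]
variable (A : ValuationSubring Kbar)

theorem lci_normBeta_mul (u v : FF N) :
    normBeta N ℓ (u * v) = normBeta N ℓ u * normBeta N ℓ v := by
  show normAlong (heckeAlphaBar Kbar N ℓ) (heckeBetaBar Kbar N ℓ (u * v))
    = normAlong (heckeAlphaBar Kbar N ℓ) (heckeBetaBar Kbar N ℓ u)
      * normAlong (heckeAlphaBar Kbar N ℓ) (heckeBetaBar Kbar N ℓ v)
  rw [map_mul, map_mul]

/-- **(H3), abstract form**: `u ∈ 1 + π O ⇒ N_α (β u) ∈ 1 + π O` (`O` the Gauss valuation ring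
of a series reduction, `π ∈ A`). -/
theorem lci_normBeta_one {p : ℕ} (hp : p.Prime) (hA : A.LiesOverPrime p) (hℓ : ℓ.Prime)
    (hℓp : ℓ ≠ p) (hℓN : ¬ ℓ ∣ N)
    {R : ConstRed A (IsLocalRing.residue A) (Fk (IsLocalRing.ResidueField A) M) (FF N)}
    (hR : IsSeriesRed R) (π : A) (hπ : π ≠ 0) (u : FF N)
    (hu : lcaOne R.O (algebraMap Kbar (FF N) ((π : A) : Kbar)) u) :
    lcaOne R.O (algebraMap Kbar (FF N) ((π : A) : Kbar)) (normBeta N ℓ u) := by
  obtain ⟨g, hg, rfl⟩ := hu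
  obtain ⟨a, b, ha, hb, hpb, hrel⟩ := lci_frac N M A hp hA hR g hg
  obtain ⟨ζA, hζ, -⟩ := hkq_exists_zeta A hp hℓ hℓp hA
  have hπK : ((π : A) : Kbar) ≠ 0 := fun h => hπ (Subtype.ext h)
  have hπF : algebraMap Kbar (FF N) ((π : A) : Kbar) ≠ 0 :=
    (map_ne_zero (algebraMap Kbar (FF N))).mpr hπK
  obtain ⟨Bb, hBb⟩ : ∃ Bb : FF N, Bb = ⟨coeffMap A.subtype b, hb⟩ := ⟨_, rfl⟩
  obtain ⟨Aa, hAa⟩ : ∃ Aa : FF N, Aa = ⟨coeffMap A.subtype a, ha⟩ := ⟨_, rfl⟩
  have hBcoe : (Bb : LaurentSeries Kbar) = coeffMap A.subtype b := by rw [hBb]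
  have hAcoe : (Aa : LaurentSeries Kbar) = coeffMap A.subtype a := by rw [hAa]
  have hgB : g * Bb = Aa := by
    apply Subtype.ext
    show (g : LaurentSeries Kbar) * (Bb : LaurentSeries Kbar) = (Aa : LaurentSeries Kbar)
    rw [hBcoe, hAcoe, hrel]
  obtain ⟨V, hV⟩ : ∃ V : FF N, V = Bb + algebraMap Kbar (FF N) ((π : A) : Kbar) * Aa :=
    ⟨_, rfl⟩
  have huV : (1 + algebraMap Kbar (FF N) ((π : A) : Kbar) * g) * Bb = V := by
    rw [hV, ← hgB]; ring
  have hmul : normBeta N ℓ (1 + algebraMap Kbar (FF N) ((π : A) : Kbar) * g) * normBeta N ℓ Bb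
      = normBeta N ℓ V := by
    rw [← lci_normBeta_mul, huV]
  have hVcoe : (V : LaurentSeries Kbar) = coeffMap A.subtype (b + HahnSeries.C π * a) := by
    rw [map_add, map_mul, lci_coeffMap_C N A π, ← hBcoe, ← hAcoe, hV]
    rfl
  have hZ₁ : qExpand Kbar ℓ ((normBeta N ℓ V : FF N) : LaurentSeries Kbar)
      = hkqSheets ℓ (Units.map (A.subtype : A →* Kbar) ζA)
        (coeffMap A.subtype (b + HahnSeries.C π * a)) := by
    rw [← hVcoe]
    exact normConj N ℓ hℓ hℓN (Units.map (A.subtype : A →* Kbar) ζA) hζ V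
  have hZ₀ : qExpand Kbar ℓ ((normBeta N ℓ Bb : FF N) : LaurentSeries Kbar)
      = hkqSheets ℓ (Units.map (A.subtype : A →* Kbar) ζA) (coeffMap A.subtype b) := by
    rw [← hBcoe]
    exact normConj N ℓ hℓ hℓN (Units.map (A.subtype : A →* Kbar) ζA) hζ Bb
  obtain ⟨W, hW⟩ := lci_core A ℓ ζA π hπ a b _ _ hZ₁ hZ₀
  -- the norm of `b` is a unit of `O`
  obtain ⟨z₀, hz₀, hz₀red⟩ := hkq_core A ℓ ζA b _ hZ₀
  have hz₀mem : coeffMap A.subtype z₀ ∈ modularFunctionFieldBar N := by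
    rw [hz₀]
    exact (normBeta N ℓ Bb).2
  have hz₀ne : coeffMap (IsLocalRing.residue A) z₀ ≠ 0 := by
    intro h0
    rw [h0, map_zero] at hz₀red
    exact hkqSheets_ne_zero ℓ _ hpb hz₀red.symm
  have hNBinv : (normBeta N ℓ Bb)⁻¹ ∈ R.O := by
    have h1 := hR.inv_mem z₀ hz₀mem hz₀ne
    have e : (⟨coeffMap A.subtype z₀, hz₀mem⟩ : FF N) = normBeta N ℓ Bb := Subtype.ext hz₀
    rwa [e] at h1
  have hNB0 : normBeta N ℓ Bb ≠ 0 := by
    intro h0
    apply lci_coeffMap_ne_zero A hz₀ne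
    rw [hz₀, h0]
    rfl
  -- the difference of the norms
  obtain ⟨W', hW'⟩ : ∃ W' : FF N, W' = (normBeta N ℓ V - normBeta N ℓ Bb)
      * (algebraMap Kbar (FF N) ((π : A) : Kbar))⁻¹ := ⟨_, rfl⟩
  have hdiff : normBeta N ℓ V = normBeta N ℓ Bb
      + algebraMap Kbar (FF N) ((π : A) : Kbar) * W' := by
    rw [hW']
    field_simp
    ring
  have hW'coe : ((W' : FF N) : LaurentSeries Kbar) = coeffMap A.subtype W := by
    have h1 : ((normBeta N ℓ V : FF N) : LaurentSeries Kbar)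
        = ((normBeta N ℓ Bb : FF N) : LaurentSeries Kbar)
          + ((algebraMap Kbar (FF N) ((π : A) : Kbar) : FF N) : LaurentSeries Kbar)
            * ((W' : FF N) : LaurentSeries Kbar) := by
      conv_lhs => rw [hdiff]
      rfl
    rw [hW, map_mul, lci_coeffMap_C N A π] at h1
    have h3 := add_left_cancel h1
    have hne : ((algebraMap Kbar (FF N) ((π : A) : Kbar) : FF N) : LaurentSeries Kbar) ≠ 0 := by
      intro h0
      apply hπF
      exact Subtype.ext h0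
    exact (mul_left_cancel₀ hne h3).symm
  have hWmem : coeffMap A.subtype W ∈ modularFunctionFieldBar N := by
    rw [← hW'coe]
    exact W'.2
  have hW'O : W' ∈ R.O := by
    have h1 := hR.mem W hWmem
    have e : (⟨coeffMap A.subtype W, hWmem⟩ : FF N) = W' := Subtype.ext hW'coe.symm
    rwa [e] at h1
  refine ⟨W' * (normBeta N ℓ Bb)⁻¹, mul_mem hW'O hNBinv, ?_⟩
  have h5 : normBeta N ℓ (1 + algebraMap Kbar (FF N) ((π : A) : Kbar) * g)
      = normBeta N ℓ V * (normBeta N ℓ Bb)⁻¹ := by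
    rw [← hmul, mul_assoc, mul_inv_cancel₀ hNB0, mul_one]
  rw [h5, hdiff]
  field_simp

end Norm

/-! ### the assembly -/

section Asm

variable (N M ℓ : ℕ) [NeZero N] [NeZero M] [NeZero ℓ]
variable (A : ValuationSubring Kbar)

/-- **`Y = c^{1/p} h` is `τ`-fixed** and `N_α (β u) = Y ^ p · u ^ a`. -/
theorem lci_Y_fixed {p : ℕ} (hp : p.Prime) (hA : A.LiesOverPrime p) (hℓ : ℓ.Prime)
    (hℓp : ℓ ≠ p) (hℓN : ¬ ℓ ∣ N)
    {R : ConstRed A (IsLocalRing.residue A) (Fk (IsLocalRing.ResidueField A) M) (FF N)}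
    (hR : IsSeriesRed R)
    {ζ : Kbar} (hζ : IsPrimitiveRoot ζ p)
    (π : A) (hπ : ((π : A) : Kbar) = (ζ - 1) ^ p)
    (u : FF N)
    (hu : lcaOne R.O (algebraMap Kbar (FF N) ((π : A) : Kbar)) u)
    (a : ℤ) (c : Kbar) (h : FF N) (hc : c ≠ 0) (hh : h ≠ 0)
    (hrel : normBeta N ℓ u = algebraMap Kbar (FF N) c * u ^ a * h ^ p)
    (τ : Kbar →+* Kbar) (hτζ : τ ζ = ζ)
    (τF : FF N →+* FF N)
    (hτF : ∀ f : FF N, ((τF f : FF N) : LaurentSeries Kbar) = coeffMap τ (f : LaurentSeries Kbar))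
    (hτR : ∀ f ∈ R.O, τF f - f ∈ R.O.nonunits)
    (hτu : τF u = u) :
    u ≠ 0 ∧ ∃ Y : FF N, Y ≠ 0 ∧ τF Y = Y ∧ normBeta N ℓ u = Y ^ p * u ^ a := by
  haveI : NeZero p := ⟨hp.ne_zero⟩
  have hlamA : ζ - 1 ∈ A.nonunits := Fermat.Agent.S33lib.rdl_hlamA hp hA hζ
  have hlam0 : ζ - 1 ≠ 0 := sub_ne_zero.2 (hζ.ne_one hp.one_lt)
  have hπ0 : π ≠ 0 := by
    intro h0
    rw [h0] at hπ
    exact pow_ne_zero p hlam0 hπ.symm
  set ζF : FF N := algebraMap Kbar (FF N) ζ with hζF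
  have hζFprim : IsPrimitiveRoot ζF p :=
    hζ.map_of_injective (algebraMap Kbar (FF N)).injective
  have hπF : algebraMap Kbar (FF N) ((π : A) : Kbar) = (ζF - 1) ^ p := by
    rw [hπ, map_pow, map_sub, map_one]
  -- constants of the maximal ideal of `A` are nonunits of `R.O`
  have hmemnu : ∀ x : A, (x : Kbar) ∈ A.nonunits →
      algebraMap Kbar (FF N) (x : Kbar) ∈ R.O.nonunits := by
    intro x hx
    have h1 : R.red ⟨algebraMap Kbar (FF N) (x : Kbar), R.algebraMap_mem x⟩ = 0 := by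
      rw [R.red_algebraMap]
      have h2 : IsLocalRing.residue A x = 0 := by
        rw [IsLocalRing.residue_eq_zero_iff]
        exact ValuationSubring.coe_mem_nonunits_iff.mp hx
      rw [h2, map_zero]
    exact (R.red_eq_zero_iff _).1 h1
  have hmemA : ∀ x : Kbar, x ∈ A.nonunits → x ∈ A := fun x hx =>
    (A.valuation_le_one_iff _).1 ((A.mem_nonunits_iff).1 hx).le
  have hlamF : ζF - 1 ∈ R.O.nonunits := by
    have h1 := hmemnu ⟨ζ - 1, hmemA _ hlamA⟩ hlamA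
    rw [map_sub, map_one] at h1
    exact h1
  have hpF : ((p : ℕ) : FF N) ∈ R.O.nonunits := by
    have hpA : ((p : ℕ) : Kbar) ∈ A.nonunits := hA
    have h1 := hmemnu ⟨((p : ℕ) : Kbar), hmemA _ hpA⟩ hpA
    rw [map_natCast] at h1
    exact h1
  have hπnu : algebraMap Kbar (FF N) ((π : A) : Kbar) ∈ R.O.nonunits := by
    have h1 := hmemnu π (by
      rw [hπ, ValuationSubring.mem_nonunits_iff, map_pow]
      exact pow_lt_one₀ zero_le ((A.mem_nonunits_iff).1 hlamA) hp.ne_zero)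
    exact h1
  have hπO : algebraMap Kbar (FF N) ((π : A) : Kbar) ∈ R.O := R.algebraMap_mem π
  -- congruences
  have hu1 : lcaOne R.O (algebraMap Kbar (FF N) ((π : A) : Kbar)) u := hu
  have hN1 : lcaOne R.O (algebraMap Kbar (FF N) ((π : A) : Kbar)) (normBeta N ℓ u) :=
    lci_normBeta_one N M ℓ A hp hA hℓ hℓp hℓN hR π hπ0 u hu
  have hu0 : u ≠ 0 := lcaOne_ne_zero R.O hπnu hu1
  have hua0 : u ^ a ≠ 0 := zpow_ne_zero a hu0
  have hy1 : lcaOne R.O (algebraMap Kbar (FF N) ((π : A) : Kbar))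
      (normBeta N ℓ u * (u ^ a)⁻¹) :=
    lcaOne_mul R.O hπO hN1 (lcaOne_inv R.O hπnu (lcaOne_zpow R.O hπnu hu1 a))
  -- the root `Y`
  obtain ⟨d, hd⟩ : ∃ d : Kbar, d ^ p = c := IsAlgClosed.exists_pow_nat_eq c hp.pos
  have hd0 : d ≠ 0 := by
    rintro rfl
    rw [zero_pow hp.ne_zero] at hd
    exact hc hd.symm
  set Y : FF N := algebraMap Kbar (FF N) d * h with hY
  have hY0 : Y ≠ 0 := mul_ne_zero ((map_ne_zero _).2 hd0) hh
  have hYp : Y ^ p = normBeta N ℓ u * (u ^ a)⁻¹ := by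
    rw [hrel, hY, mul_pow, ← map_pow, hd]
    field_simp
  obtain ⟨G, hG, hyG⟩ := hy1
  have hYG : Y ^ p = 1 + (ζF - 1) ^ p * G := by rw [hYp, hyG, hπF]
  have hcoe_inj : ∀ x y : FF N, (x : LaurentSeries Kbar) = (y : LaurentSeries Kbar) → x = y :=
    fun x y h => Subtype.ext h
  have hτζF : τF ζF = ζF := by
    apply hcoe_inj
    rw [hτF, hζF, nc_coe_algebraMap, coeffMap_algebraMap, hτζ]
  have hτN : τF (normBeta N ℓ u) = normBeta N ℓ u := by
    apply hcoe_inj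
    rw [hτF]
    exact lca_norm_fixed N ℓ hℓ hℓN τ u (by rw [← hτF, hτu])
  have hτYp : τF (Y ^ p) = Y ^ p := by
    rw [hYp, map_mul, map_inv₀, map_zpow₀, hτN, hτu]
  obtain ⟨i, hi⟩ : ∃ i : ℕ, τF Y = ζF ^ i * Y := by
    have h1 : (τF Y / Y) ^ p = 1 := by
      rw [div_pow, ← map_pow, hτYp, div_self (pow_ne_zero _ hY0)]
    obtain ⟨i, -, hi⟩ := hζFprim.eq_pow_of_pow_eq_one h1
    exact ⟨i, by rw [hi, div_mul_cancel₀ _ hY0]⟩
  have hτY : τF Y = Y := cpw_fixed R.O hp hζFprim hlamF hpF τF hτζF hτR Y G hG hYG i hi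
  refine ⟨hu0, Y, hY0, hτY, ?_⟩
  rw [hYp, mul_assoc, inv_mul_cancel₀ hua0, mul_one]

/-- **(Z2), Hecke-lc form, `u ∈ 1 + λ^p O`**: `τ` fixes every `p`-th root `U ∈ ℚ̄((q))` of the
Kummer function `u`. -/
theorem lci_main_abs {p : ℕ} (hp : p.Prime) (hp2 : p ≠ 2) (hA : A.LiesOverPrime p) (hℓ : ℓ.Prime)
    (hℓp : ℓ ≠ p) (hℓN : ¬ ℓ ∣ N)
    {R : ConstRed A (IsLocalRing.residue A) (Fk (IsLocalRing.ResidueField A) M) (FF N)}
    (hR : IsSeriesRed R)
    {ζ : Kbar} (hζ : IsPrimitiveRoot ζ p)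
    (π : A) (hπ : ((π : A) : Kbar) = (ζ - 1) ^ p)
    (u : FF N)
    (hu : lcaOne R.O (algebraMap Kbar (FF N) ((π : A) : Kbar)) u)
    (a : ℤ) (c : Kbar) (h : FF N) (hc : c ≠ 0) (hh : h ≠ 0)
    (hrel : normBeta N ℓ u = algebraMap Kbar (FF N) c * u ^ a * h ^ p)
    (hcop : ¬ (p : ℤ) ∣ ((ℓ : ℤ) + 1 - a))
    (τ : Kbar →+* Kbar) (hτζ : τ ζ = ζ)
    (τF : FF N →+* FF N)
    (hτF : ∀ f : FF N, ((τF f : FF N) : LaurentSeries Kbar) = coeffMap τ (f : LaurentSeries Kbar))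
    (hτR : ∀ f ∈ R.O, τF f - f ∈ R.O.nonunits)
    (hτu : τF u = u)
    (U : LaurentSeries Kbar) (hU : U ^ p = (u : LaurentSeries Kbar)) :
    coeffMap τ U = U := by
  obtain ⟨hu0, Y, hY0, hτY, hNY⟩ := lci_Y_fixed N M ℓ A hp hA hℓ hℓp hℓN hR hζ π hπ u hu
    a c h hc hh hrel τ hτζ τF hτF hτR hτu
  have hodd : ¬ 2 ∣ p := fun h2 =>
    hp2 ((Nat.prime_dvd_prime_iff_eq Nat.prime_two hp).1 h2).symm
  obtain ⟨ε, hε, hlcN⟩ := hlc_normBeta_pow N ℓ hℓ hℓN p hodd u hu0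
  have hucoe0 : (u : LaurentSeries Kbar) ≠ 0 := fun h0 => hu0 (Subtype.ext h0)
  have hYcoe0 : (Y : LaurentSeries Kbar) ≠ 0 := fun h0 => hY0 (Subtype.ext h0)
  obtain ⟨L, hL⟩ : ∃ L : Kbar, L = lcaLc (u : LaurentSeries Kbar) := ⟨_, rfl⟩
  obtain ⟨e, he⟩ : ∃ e : Kbar, e = lcaLc (Y : LaurentSeries Kbar) := ⟨_, rfl⟩
  have hL0 : L ≠ 0 := by rw [hL]; exact (map_ne_zero lcaLc).2 hucoe0
  have he0 : e ≠ 0 := by rw [he]; exact (map_ne_zero lcaLc).2 hYcoe0
  have hτe : τ e = e := by rw [he, ← lcaLc_coeffMap, ← hτF, hτY]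
  have hε0 : ε ≠ 0 := by rcases hε with rfl | rfl <;> simp
  have hτε : τ ε = ε := by rcases hε with rfl | rfl <;> simp
  -- the relation between the leading coefficients
  have hlc : ε ^ p * L ^ (ℓ + 1) = e ^ p * L ^ a := by
    have h1 : lcaLc (lcaVal N (normBeta N ℓ u)) = lcaLc (lcaVal N (Y ^ p * u ^ a)) := by
      rw [hNY]
    rw [map_mul, map_mul, map_pow, map_pow, map_zpow₀, map_zpow₀] at h1
    rw [hL, he]
    exact hlcN.symm.trans h1
  obtain ⟨k, hkdef⟩ : ∃ k : ℤ, k = (ℓ : ℤ) + 1 - a := ⟨_, rfl⟩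
  have hk : L ^ k = (e / ε) ^ p := by
    have h1 : L ^ ((ℓ : ℤ) + 1) = L ^ (ℓ + 1) := by
      rw [← zpow_natCast]
      push_cast
      rfl
    rw [hkdef, zpow_sub₀ hL0, h1, div_pow, div_eq_div_iff (zpow_ne_zero _ hL0) (pow_ne_zero _ hε0),
      mul_comm, hlc]
  -- the root `U`
  have hU0 : U ≠ 0 := by
    rintro rfl
    rw [zero_pow hp.ne_zero] at hU
    exact hucoe0 hU.symm
  obtain ⟨r, hr⟩ : ∃ r : Kbar, r = lcaLc U := ⟨_, rfl⟩
  have hr0 : r ≠ 0 := by rw [hr]; exact (map_ne_zero lcaLc).2 hU0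
  have hrp : r ^ p = L := by rw [hr, hL, ← map_pow, hU]
  have hτUp : coeffMap τ (U ^ p) = U ^ p := by rw [hU, ← hτF, hτu]
  obtain ⟨j, hj⟩ := lca_root_twist hp hζ τ U hU0 hτUp
  have hτr : τ r = ζ ^ j * r := by
    rw [hr, ← lcaLc_coeffMap, hj, map_mul, lcaLc_algebraMap]
  have hm : ¬ p ∣ k.natAbs := fun hd => hcop (by rw [← hkdef]; exact Int.natCast_dvd.2 hd)
  have hfix : τ r = r := by
    rcases le_total 0 k with hk0 | hk0
    · have hkn : ((k.natAbs : ℕ) : ℤ) = k := Int.natAbs_of_nonneg hk0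
      refine cpw_root_fixed hp hζ τ hτζ r (e / ε) hr0 k.natAbs hm ?_
        (by rw [map_div₀, hτe, hτε]) j hτr
      rw [← pow_mul, mul_comm, pow_mul, hrp, ← zpow_natCast L k.natAbs, hkn]
      exact hk
    · have hkn : ((k.natAbs : ℕ) : ℤ) = -k := Int.ofNat_natAbs_of_nonpos hk0
      refine cpw_root_fixed hp hζ τ hτζ r (e / ε)⁻¹ hr0 k.natAbs hm ?_
        (by rw [map_inv₀, map_div₀, hτe, hτε]) j hτr
      rw [← pow_mul, mul_comm, pow_mul, hrp, ← zpow_natCast L k.natAbs, hkn, zpow_neg, hk,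
        inv_pow]
  have hζj : ζ ^ j = 1 := by
    rw [hfix] at hτr
    have h1 : (1 : Kbar) * r = ζ ^ j * r := by rw [one_mul]; exact hτr
    exact (mul_right_cancel₀ hr0 h1).symm
  rw [hj, hζj, map_one, one_mul]

/-- **(Z2), final form**: `u = 1 + (ζ - 1)^p g` with `g ∈ R.O`, fixed by `τ ∈ S40hI1 p A`, subject
to the Hecke relation at one prime `ℓ ∤ N p` with `p ∤ ℓ + 1 - a`: every `p`-th root
`U ∈ ℚ̄((q))` of `u` is fixed by `τ`. -/
theorem lci_main {p : ℕ} (hp : p.Prime) (hp2 : p ≠ 2) (hA : A.LiesOverPrime p) (hℓ : ℓ.Prime)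
    (hℓp : ℓ ≠ p) (hℓN : ¬ ℓ ∣ N)
    {R : ConstRed A (IsLocalRing.residue A) (Fk (IsLocalRing.ResidueField A) M) (FF N)}
    (hR : IsSeriesRed R)
    {ζ : Kbar} (hζ : IsPrimitiveRoot ζ p)
    (g : FF N) (hg : g ∈ R.O)
    (a : ℤ) (c : Kbar) (h : FF N) (hc : c ≠ 0) (hh : h ≠ 0)
    (hrel : normBeta N ℓ (1 + algebraMap Kbar (FF N) ((ζ - 1) ^ p) * g)
      = algebraMap Kbar (FF N) c * (1 + algebraMap Kbar (FF N) ((ζ - 1) ^ p) * g) ^ a * h ^ p)
    (hcop : ¬ (p : ℤ) ∣ ((ℓ : ℤ) + 1 - a))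
    (τ : Kbar ≃ₐ[ℚ] Kbar) (hτ : τ ∈ S40hI1 p A)
    (hτu : itfHom N τ (1 + algebraMap Kbar (FF N) ((ζ - 1) ^ p) * g)
      = 1 + algebraMap Kbar (FF N) ((ζ - 1) ^ p) * g)
    (U : LaurentSeries Kbar)
    (hU : U ^ p = ((1 + algebraMap Kbar (FF N) ((ζ - 1) ^ p) * g : FF N) : LaurentSeries Kbar)) :
    coeffMap ((τ : Kbar ≃ₐ[ℚ] Kbar) : Kbar →+* Kbar) U = U := by
  have hlamA : ζ - 1 ∈ A.nonunits := Fermat.Agent.S33lib.rdl_hlamA hp hA hζ
  have hlamO : ζ - 1 ∈ A := (A.valuation_le_one_iff _).1 ((A.mem_nonunits_iff).1 hlamA).le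
  have hπA : (ζ - 1) ^ p ∈ A := pow_mem hlamO p
  exact lci_main_abs N M ℓ A hp hp2 hA hℓ hℓp hℓN hR hζ ⟨(ζ - 1) ^ p, hπA⟩ rfl
    (1 + algebraMap Kbar (FF N) ((ζ - 1) ^ p) * g) ⟨g, hg, rfl⟩ a c h hc hh hrel hcop
    ((τ : Kbar ≃ₐ[ℚ] Kbar) : Kbar →+* Kbar) (hτ.2 ζ hζ.pow_eq_one)
    (itfHom N τ) (fun f => itf_coe N τ f)
    (fun f hf => itf_sub_mem hp hA hR τ hτ.1 f hf) hτu U hU

/-- `lci_main` with the fixedness of `u` in the `galFF` form (the output shape of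
`rck_kummer` / `wzn_normal`). -/
theorem lci_main_gal {p : ℕ} (hp : p.Prime) (hp2 : p ≠ 2) (hA : A.LiesOverPrime p) (hℓ : ℓ.Prime)
    (hℓp : ℓ ≠ p) (hℓN : ¬ ℓ ∣ N)
    {R : ConstRed A (IsLocalRing.residue A) (Fk (IsLocalRing.ResidueField A) M) (FF N)}
    (hR : IsSeriesRed R)
    {ζ : Kbar} (hζ : IsPrimitiveRoot ζ p)
    (g : FF N) (hg : g ∈ R.O)
    (hgal : ∀ σ ∈ S40hI1 p A, galFF N σ • (1 + algebraMap Kbar (FF N) ((ζ - 1) ^ p) * g)
      = 1 + algebraMap Kbar (FF N) ((ζ - 1) ^ p) * g)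
    (a : ℤ) (c : Kbar) (h : FF N) (hc : c ≠ 0) (hh : h ≠ 0)
    (hrel : normBeta N ℓ (1 + algebraMap Kbar (FF N) ((ζ - 1) ^ p) * g)
      = algebraMap Kbar (FF N) c * (1 + algebraMap Kbar (FF N) ((ζ - 1) ^ p) * g) ^ a * h ^ p)
    (hcop : ¬ (p : ℤ) ∣ ((ℓ : ℤ) + 1 - a))
    (U : LaurentSeries Kbar)
    (hU : U ^ p = ((1 + algebraMap Kbar (FF N) ((ζ - 1) ^ p) * g : FF N) : LaurentSeries Kbar)) :
    ∀ τ ∈ S40hI1 p A, coeffMap ((τ : Kbar ≃ₐ[ℚ] Kbar) : Kbar →+* Kbar) U = U :=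
  fun τ hτ => lci_main N M ℓ A hp hp2 hA hℓ hℓp hℓN hR hζ g hg a c h hc hh hrel hcop τ hτ
    (hgal τ hτ) U hU

end Asm

end Fermat.Agent.S40lib

end
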