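import Mathlib
import Fermat.Agent.S36lib.Speed
import Fermat.Agent.S33lib.GeoWrap
import Fermat.Agent.RRlib.Modular
import Fermat.Agent.S40lib.KumEig
import Fermat.Agent.S40lib.LcAsmI1

/-!
# Item 88 (S44), block (J-WILD), piece (Z2), Kummer form (helper7)

`lci_main_gal` (LcAsmI1.lean) with the Hecke relation supplied by `kme_norm_rel`: for a class
`y ∈ J₀(N)` which is an eigenvector of `T_ℓ` with eigenvalue `a`, `p ∤ a - (1 + ℓ)`, and a Kummer
function `u₂ = 1 + (ζ - 1)^p g` of `y` with `g ∈ R.O`, fixed by `I₁ = S40hI1 p A`: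
every `p`-th root `U ∈ ℚ̄((q))` of `u₂` is fixed by `I₁`.

* `lck_fixed` : the statement.
(complete proof, standard axioms only)
-/

set_option autoImplicit false
set_option linter.unusedSectionVars false
set_option linter.unusedVariables false
set_option linter.style.haveILetI false
set_option maxHeartbeats 1000000
set_option synthInstance.maxHeartbeats 400000

noncomputable section

namespace Fermat.Agent.S40lib

open ModularCurve AlgebraicCurve HahnSeries Fermat.Agent.GoodRed Fermat.Agent.GM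
  Fermat.Agent.S24lib Fermat.Agent.HeckeBar Fermat.Agent.S34lib Fermat.Agent.S36lib
  Fermat.Agent.S37lib Fermat.Agent.LatE Fermat.Agent.S33lib

section Kum

variable (N M ℓ : ℕ) [NeZero N] [NeZero M] [NeZero ℓ]
variable (A : ValuationSubring Kbar)

/-- **(Z2), Kummer form** -/
theorem lck_fixed {p : ℕ} (hp : p.Prime) (hp2 : p ≠ 2) (hA : A.LiesOverPrime p) (hℓ : ℓ.Prime)
    (hℓp : ℓ ≠ p) (hℓN : ¬ ℓ ∣ N)
    {R : ConstRed A (IsLocalRing.residue A) (Fk (IsLocalRing.ResidueField A) M) (FF N)}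
    (hR : IsSeriesRed R) {ζ : Kbar} (hζ : IsPrimitiveRoot ζ p)
    (g : FF N) (hg : g ∈ R.O)
    (hgal : ∀ σ ∈ S40hI1 p A, galFF N σ • (1 + algebraMap Kbar (FF N) ((ζ - 1) ^ p) * g)
      = 1 + algebraMap Kbar (FF N) ((ζ - 1) ^ p) * g)
    (y : JZero N) (a : ℤ) (hy : heckeOperatorBar N ⟨ℓ, hℓ⟩ y = a • y)
    (hcop : ¬ (p : ℤ) ∣ a - (1 + (ℓ : ℕ)))
    (hk : letI : Fermat.Agent.RRlib.RRBase Kbar (FF N) := (Fermat.Agent.RRlib.mod_rrHyp N).toRRBase
      gdfIsKummer (K := Kbar) p y (1 + algebraMap Kbar (FF N) ((ζ - 1) ^ p) * g))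
    (U : LaurentSeries Kbar)
    (hU : U ^ p = ((1 + algebraMap Kbar (FF N) ((ζ - 1) ^ p) * g : FF N) : LaurentSeries Kbar)) :
    ∀ τ ∈ S40hI1 p A, coeffMap ((τ : Kbar ≃ₐ[ℚ] Kbar) : Kbar →+* Kbar) U = U := by
  letI : Fermat.Agent.RRlib.RRBase Kbar (FF N) := (Fermat.Agent.RRlib.mod_rrHyp N).toRRBase
  obtain ⟨D, hD, hord⟩ := gdf_isKummer_ord hk
  obtain ⟨c, h, hc, hh, hrel⟩ := kme_norm_rel N ℓ hℓ p a y hy D hD _ hk.1 hord
  have hcop' : ¬ (p : ℤ) ∣ ((ℓ : ℤ) + 1 - a) := by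
    intro hd
    apply hcop
    have h1 : a - (1 + ((ℓ : ℕ) : ℤ)) = -((ℓ : ℤ) + 1 - a) := by ring
    rw [h1]
    exact (dvd_neg).mpr hd
  exact lci_main_gal N M ℓ A hp hp2 hA hℓ hℓp hℓN hR hζ g hg hgal a c h hc hh hrel hcop' U hU

end Kum

end Fermat.Agent.S40lib

end
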