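import Mathlib
import Fermat.Agent.S36lib.Speed

/-!
# Item 88 (S44), J-WILD, point (Z2): the leading coefficient of a non-Eisenstein Kummer function
# is a `p`-th power (helper21) — the two ABSTRACT steps (H4) and (H6)

Situation of (Z2): `K` = the fixed field of the wild inertia (discretely valued, uniformiser
`lam = ζ - 1`), `F ⊇ K` the `K`-rational function field with its Gauss valuation `V`,
`u = 1 + lam ^ p * g` the normal form of the Kummer function of the class.  The Hecke relation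
`N_β u = c * u ^ a * w ^ p` (with `c ∈ K`, `w ∈ F`, `lc w = 1`) gives on leading coefficients
`lc u ^ (ℓ + 1) = ± c * lc u ^ a`, and the Gauss congruence `N_β u ≡ 1 mod lam ^ p` gives
`c ∈ (K ^ ×) ^ p` (`lpa_const_pow`, (H4)); since `p ∤ a - (1 + ℓ)` the leading coefficient is a
`p`-th power (`lpa_pow_of_rel`, (H6)).

* `lpa_binom`        : `V (y - 1) ≤ V lam` ⇒ `V (y ^ p - 1) ≤ V lam ^ p`  (`V p ≤ V lam ^ (p - 1)`);
* `lpa_const_pow`    : **(H4)** `c * w ^ p ≡ 1 mod lam ^ p` ⇒ `c` is a `p`-th power in `K`;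
* `lpa_pow_of_coprime`, `lpa_pow_of_rel` : **(H6)**.
-/

set_option autoImplicit false

namespace Fermat.Agent.S40lib

section H6

variable {K : Type*} [Field K]

/-- if `x ^ n` is a `p`-th power and `n` is prime to `p`, then `x` is a `p`-th power -/
theorem lpa_pow_of_coprime {p : ℕ} (n : ℤ) (hn : IsCoprime n (p : ℤ)) {x d : K} (hx : x ≠ 0)
    (h : x ^ n = d ^ p) : ∃ e : K, e ^ p = x := by
  obtain ⟨a, b, hab⟩ := hn
  refine ⟨d ^ a * x ^ b, ?_⟩
  have h1 : x = x ^ (a * n + b * (p : ℤ)) := by rw [hab, zpow_one]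
  calc (d ^ a * x ^ b) ^ p = (d ^ p) ^ a * (x ^ b) ^ p := by
        rw [mul_pow, ← zpow_natCast (d ^ a) p, ← zpow_mul, mul_comm a (p : ℤ), zpow_mul,
          zpow_natCast]
    _ = (x ^ n) ^ a * x ^ (b * (p : ℤ)) := by
        rw [h, ← zpow_natCast (x ^ b) p, ← zpow_mul]
    _ = x ^ (a * n + b * (p : ℤ)) := by
        rw [← zpow_mul, zpow_add₀ hx, mul_comm n a]
    _ = x := h1.symm

/-- **(H6)**: from the relation of the leading coefficients `lc ^ (ℓ + 1) = s * c * lc ^ a`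
(`s = ± 1`, `c` a `p`-th power, `p` odd, `p ∤ a - (1 + ℓ)`) the leading coefficient is a `p`-th
power. -/
theorem lpa_pow_of_rel {p : ℕ} (hp : p.Prime) (hp2 : p ≠ 2) (ℓ : ℕ) (a : ℤ)
    (hcop : ¬ (p : ℤ) ∣ a - (1 + (ℓ : ℤ))) {lc c s d : K} (hlc : lc ≠ 0)
    (hs : s = 1 ∨ s = -1) (hc : c = d ^ p)
    (hrel : lc ^ (ℓ + 1) = s * c * lc ^ a) : ∃ e : K, e ^ p = lc := by
  have hodd : Odd p := hp.odd_of_ne_two hp2
  have hs' : s = s ^ p := by
    rcases hs with rfl | rfl
    · rw [one_pow]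
    · rw [hodd.neg_one_pow]
  have hcopr : IsCoprime ((ℓ : ℤ) + 1 - a) (p : ℤ) := by
    rw [isCoprime_comm]
    apply (Nat.prime_iff_prime_int.mp hp).coprime_iff_not_dvd.mpr
    intro h
    apply hcop
    have e : a - (1 + (ℓ : ℤ)) = -((ℓ : ℤ) + 1 - a) := by ring
    rw [e]
    exact (dvd_neg).mpr h
  refine lpa_pow_of_coprime (d := s * d) ((ℓ : ℤ) + 1 - a) hcopr hlc ?_
  have h1 : lc ^ ((ℓ : ℤ) + 1 - a) = lc ^ (ℓ + 1) / lc ^ a := by
    rw [zpow_sub₀ hlc]
    congr 1
    exact_mod_cast zpow_natCast lc (ℓ + 1)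
  rw [h1, hrel, mul_div_assoc, div_self (zpow_ne_zero a hlc), mul_one, mul_pow,
    ← hs', hc]

end H6

section H4

variable {K F : Type*} [Field K] [Field F] [Algebra K F]
  {Γ₀ : Type*} [LinearOrderedCommGroupWithZero Γ₀]

/-- the valuation of a natural number is at most `1` -/
theorem lpa_val_natCast_le (V : Valuation F Γ₀) (n : ℕ) : V (n : F) ≤ 1 := by
  induction n with
  | zero => simp
  | succ n ih =>
    rw [Nat.cast_succ]
    exact (V.map_add _ _).trans (max_le ih (by rw [V.map_one]))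

/-- binomial estimate: `y ≡ 1 mod lam` ⇒ `y ^ p ≡ 1 mod lam ^ p`, when `V p ≤ V lam ^ (p - 1)`
and `V lam ≤ 1`. -/
theorem lpa_binom (V : Valuation F Γ₀) {p : ℕ} (hp : p.Prime) {lam : F} (hlam : V lam ≤ 1)
    (hpl : V (p : F) ≤ V lam ^ (p - 1)) {y : F} (hy : V (y - 1) ≤ V lam) :
    V (y ^ p - 1) ≤ V lam ^ p := by
  set t : F := y - 1 with ht
  have hy' : y = t + 1 := by rw [ht]; ring
  have e : y ^ p - 1 = ∑ m ∈ Finset.range p, t ^ (m + 1) * ((p.choose (m + 1) : ℕ) : F) := by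
    rw [hy', add_pow, Finset.sum_range_succ']
    simp
  rw [e]
  apply Valuation.map_sum_le
  intro m hm
  have hm' : m < p := Finset.mem_range.mp hm
  rw [map_mul, map_pow]
  by_cases hmp : m + 1 = p
  · rw [hmp, Nat.choose_self, Nat.cast_one, V.map_one, mul_one]
    exact pow_le_pow_left₀ zero_le hy p
  · have hlt : m + 1 < p := lt_of_le_of_ne hm' hmp
    obtain ⟨c, hc⟩ := hp.dvd_choose_self (Nat.succ_ne_zero m) hlt
    have h1 : V ((p.choose (m + 1) : ℕ) : F) ≤ V (p : F) := by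
      rw [hc, Nat.cast_mul, map_mul]
      calc V (p : F) * V (c : F) ≤ V (p : F) * 1 := by
            gcongr
            exact lpa_val_natCast_le V c
        _ = V (p : F) := mul_one _
    calc V t ^ (m + 1) * V ((p.choose (m + 1) : ℕ) : F)
        ≤ V lam ^ (m + 1) * V lam ^ (p - 1) := by
          gcongr
          · exact h1.trans hpl
      _ = V lam ^ (m + 1 + (p - 1)) := (pow_add _ _ _).symm
      _ ≤ V lam ^ p := by
          apply pow_le_pow_right_of_le_one' hlam
          omega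

/-- an algebraic identity -/
theorem lpa_alg (p : ℕ) (a b u : F) (hu : u ≠ 0) (hb : b ≠ 0) :
    a * b ^ p - 1 = ((a * u ^ p - 1) - ((u / b) ^ p - 1)) / (u / b) ^ p := by
  have h1 : u ^ p ≠ 0 := pow_ne_zero p hu
  have h2 : b ^ p ≠ 0 := pow_ne_zero p hb
  rw [div_pow, sub_sub_sub_cancel_right, eq_div_iff (div_ne_zero h1 h2)]
  field_simp

/-- **(H4)**: `K ⊆ F` valued fields, `lam ∈ K` with `V lam < 1`, `V p ≤ V lam ^ (p - 1)`;
* (VAL) the values of `F` are powers of `V lam` (Gauss valuation, discrete);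
* (RES) a unit `w` of `F` whose `p`-th power is congruent to a constant modulo the maximal ideal
  is congruent to a constant `e ∈ K` modulo `lam`;
* (HENS) the elements of `K` congruent to `1` modulo `lam ^ p` are `p`-th powers in `K`.
If `c ∈ K`, `w ∈ F` and `c * w ^ p ≡ 1 mod lam ^ p` then `c` is a `p`-th power in `K`. -/
theorem lpa_const_pow (V : Valuation F Γ₀) {p : ℕ} (hp : p.Prime) (lam : K)
    (hlam0 : lam ≠ 0) (hlam : V (algebraMap K F lam) < 1)
    (hpl : V (p : F) ≤ V (algebraMap K F lam) ^ (p - 1))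
    (hval : ∀ y : F, y ≠ 0 → ∃ n : ℤ, V y = V (algebraMap K F lam) ^ n)
    (hres : ∀ (w : F) (c : K), V w = 1 → V (algebraMap K F c * w ^ p - 1) < 1 →
      ∃ e : K, V (w - algebraMap K F e) ≤ V (algebraMap K F lam))
    (hhens : ∀ y : K, V (algebraMap K F y - 1) ≤ V (algebraMap K F lam) ^ p →
      ∃ x : K, x ^ p = y)
    (c : K) (w : F)
    (h : V (algebraMap K F c * w ^ p - 1) ≤ V (algebraMap K F lam) ^ p) :
    ∃ d : K, d ^ p = c := by
  set L : F := algebraMap K F lam with hL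
  have hL0 : L ≠ 0 := by
    rw [hL]
    exact (map_ne_zero (algebraMap K F)).mpr hlam0
  have hLp : V L ^ p < 1 := pow_lt_one₀ zero_le hlam hp.ne_zero
  have hVy : V (algebraMap K F c * w ^ p) = 1 := by
    have h1 : V (algebraMap K F c * w ^ p - 1) < V (1 : F) := by
      rw [V.map_one]
      exact lt_of_le_of_lt h hLp
    have h2 := Valuation.map_add_eq_of_lt_right V h1
    rw [sub_add_cancel, V.map_one] at h2
    exact h2
  have hc0 : c ≠ 0 := by
    rintro rfl
    rw [map_zero, zero_mul, V.map_zero] at hVy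
    exact zero_ne_one hVy
  have hw0 : w ≠ 0 := by
    rintro rfl
    rw [zero_pow hp.ne_zero, mul_zero, V.map_zero] at hVy
    exact zero_ne_one hVy
  obtain ⟨n, hn⟩ := hval w hw0
  -- scale
  set w₂ : F := w / L ^ n with hw₂
  set c₂ : K := c * lam ^ ((p : ℤ) * n) with hc₂
  have hLn0 : L ^ n ≠ 0 := zpow_ne_zero n hL0
  have hVw₂ : V w₂ = 1 := by
    rw [hw₂, map_div₀, map_zpow₀, hn]
    exact div_self (zpow_ne_zero n (by rw [V.ne_zero_iff]; exact hL0))
  have hprod : algebraMap K F c₂ * w₂ ^ p = algebraMap K F c * w ^ p := by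
    rw [hc₂, hw₂, map_mul, map_zpow₀, ← hL, div_pow, ← zpow_natCast (L ^ n) p, ← zpow_mul,
      mul_comm n (p : ℤ)]
    field_simp
  obtain ⟨e, he⟩ := hres w₂ c₂ hVw₂ (by rw [hprod]; exact lt_of_le_of_lt h hLp)
  have hVe : V (algebraMap K F e) = 1 := by
    have h1 : V (w₂ - algebraMap K F e) < V w₂ := by
      rw [hVw₂]
      exact lt_of_le_of_lt he hlam
    have h2 := Valuation.map_sub_eq_of_lt_left V h1
    rw [sub_sub_cancel, hVw₂] at h2
    exact h2
  have he0 : algebraMap K F e ≠ 0 := by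
    intro h0
    rw [h0, V.map_zero] at hVe
    exact zero_ne_one hVe
  have he0' : e ≠ 0 := fun h0 => he0 (by rw [h0, map_zero])
  -- `y' = w₂ / e ≡ 1 mod lam`
  have hy' : V (w₂ / algebraMap K F e - 1) ≤ V L := by
    have e1 : w₂ / algebraMap K F e - 1 = (w₂ - algebraMap K F e) / algebraMap K F e := by
      field_simp
    rw [e1, map_div₀, hVe, div_one]
    exact he
  have hbin := lpa_binom V hp hlam.le hpl hy'
  have hVy' : V ((w₂ / algebraMap K F e) ^ p) = 1 := by
    rw [map_pow, map_div₀, hVw₂, hVe, div_one, one_pow]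
  -- `c₂ e ^ p ≡ 1 mod lam ^ p`
  have hce : V (algebraMap K F (c₂ * e ^ p) - 1) ≤ V L ^ p := by
    have e2 : algebraMap K F (c₂ * e ^ p) - 1
        = ((algebraMap K F c₂ * w₂ ^ p - 1) - ((w₂ / algebraMap K F e) ^ p - 1))
          / (w₂ / algebraMap K F e) ^ p := by
      rw [map_mul, map_pow]
      have hw₂0 : w₂ ≠ 0 := by
        intro h0
        rw [h0, V.map_zero] at hVw₂
        exact zero_ne_one hVw₂
      exact lpa_alg p _ _ _ hw₂0 he0
    rw [e2, map_div₀, hVy', div_one]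
    refine (Valuation.map_sub V _ _).trans (max_le ?_ hbin)
    rw [hprod]
    exact h
  obtain ⟨x, hx⟩ := hhens (c₂ * e ^ p) hce
  refine ⟨x / (e * lam ^ n), ?_⟩
  rw [div_pow, hx, mul_pow, hc₂, ← zpow_natCast (lam ^ n) p, ← zpow_mul, mul_comm n (p : ℤ)]
  have hl0 : lam ^ ((p : ℤ) * n) ≠ 0 := zpow_ne_zero _ hlam0
  field_simp

end H4

end Fermat.Agent.S40lib
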