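import Mathlib
import Fermat.Agent.S36lib.Speed
import Fermat.Agent.S37lib.NormConj
import Fermat.Agent.GM.RedGenBase
import Fermat.Agent.LatE.Defs

/-!
# Item 88 (S40/S44), (Z2) step (H5): leading coefficient of the Hecke norm (helper15)

`Z = N_α (β u)` (`normBeta N ℓ u`, characteristic `0`, `ℓ ∤ N` prime): from the sheets formula
`Z(q^ℓ) = u(q^{ℓ²}) · ∏_{b < ℓ} u(ζ^b q)` (`S37lib.normConj`):

* `lcs_main` (formal, any field): `ord Z = (ℓ + 1) · ord u` and `lc Z = ε · (lc u) ^ (ℓ + 1)` with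
  `ε ^ 2 = 1` (`ε = ζ ^ (m ℓ (ℓ - 1) / 2)`, `m = ord u`);
* `lcs_normBeta` : the same for `normBeta N ℓ u`, `u ∈ F_N`, `u ≠ 0`.
-/

set_option autoImplicit false
set_option linter.style.haveILetI false
set_option linter.unusedSectionVars false
set_option linter.unusedVariables false
set_option synthInstance.maxHeartbeats 400000

noncomputable section

namespace Fermat.Agent.S40lib

open ModularCurve AlgebraicCurve HahnSeries Fermat.Agent.GM Fermat.Agent.S24lib
  Fermat.Agent.HeckeBar Fermat.Agent.S37lib Fermat.Agent.LatE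

section Formal

variable {K : Type*} [Field K]

/-- `x(uX)` has the order of `x` -/
theorem lcs_order_twq (u : Kˣ) (x : LaurentSeries K) : (twq u x).order = x.order := by
  by_cases hx : x = 0
  · rw [hx, map_zero]
  have hx' : twq u x ≠ 0 := (map_ne_zero (twq u)).2 hx
  apply le_antisymm
  · apply HahnSeries.order_le_of_coeff_ne_zero
    rw [twq_coeff]
    exact mul_ne_zero (Units.ne_zero _) (HahnSeries.coeff_order_eq_zero.not.mpr hx)
  · apply HahnSeries.order_le_of_coeff_ne_zero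
    intro h
    have h1 := HahnSeries.coeff_order_eq_zero.not.mpr hx'
    rw [twq_coeff] at h1
    exact h1 (by rw [h, mul_zero])

/-- the leading coefficient of `x(uX)` -/
theorem lcs_lc_twq (u : Kˣ) (x : LaurentSeries K) :
    (twq u x).leadingCoeff = ((u ^ x.order : Kˣ) : K) * x.leadingCoeff := by
  rw [HahnSeries.leadingCoeff_eq, HahnSeries.leadingCoeff_eq, lcs_order_twq, twq_coeff]

/-- the leading coefficient of `x(X^n)` -/
theorem lcs_lc_qExpand (n : ℕ) [NeZero n] (x : LaurentSeries K) :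
    (qExpand K n x).leadingCoeff = x.leadingCoeff := by
  rw [HahnSeries.leadingCoeff_eq, HahnSeries.leadingCoeff_eq, rg_order_qExpand,
    qExpand_coeff_mul]

/-- the leading coefficient of a finite product -/
theorem lcs_lc_prod {ι : Type*} (s : Finset ι) (f : ι → LaurentSeries K) :
    (∏ i ∈ s, f i).leadingCoeff = ∏ i ∈ s, (f i).leadingCoeff := by
  classical
  induction s using Finset.induction_on with
  | empty => simp
  | insert a s ha ih =>
    rw [Finset.prod_insert ha, Finset.prod_insert ha, HahnSeries.leadingCoeff_mul, ih]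

/-- the order of a finite product of nonzero series -/
theorem lcs_order_prod {ι : Type*} (s : Finset ι) (f : ι → LaurentSeries K)
    (hf : ∀ i ∈ s, f i ≠ 0) : (∏ i ∈ s, f i).order = ∑ i ∈ s, (f i).order := by
  classical
  induction s using Finset.induction_on with
  | empty => simp
  | insert a s ha ih =>
    have h1 : f a ≠ 0 := hf a (Finset.mem_insert_self a s)
    have h2 : ∀ i ∈ s, f i ≠ 0 := fun i hi => hf i (Finset.mem_insert_of_mem hi)
    have h3 : ∏ i ∈ s, f i ≠ 0 := Finset.prod_ne_zero_iff.mpr h2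
    rw [Finset.prod_insert ha, Finset.sum_insert ha, HahnSeries.order_mul h1 h3, ih h2]

/-- the sign `ε = ∏_{b < ℓ} (ζ ^ b) ^ m` has square `1` -/
theorem lcs_sign_sq (ℓ : ℕ) (ζ : Kˣ) (hζ : ζ ^ ℓ = 1) (m : ℤ) :
    (∏ b ∈ Finset.range ℓ, (ζ ^ b) ^ m) ^ 2 = 1 := by
  have h1 : ∏ b ∈ Finset.range ℓ, (ζ ^ b) ^ m = (∏ b ∈ Finset.range ℓ, ζ ^ b) ^ m := by
    rw [Finset.prod_zpow]
  have h2 : (∏ b ∈ Finset.range ℓ, ζ ^ b) ^ 2 = 1 := by
    rw [Finset.prod_pow_eq_pow_sum, ← pow_mul, Finset.sum_range_id_mul_two, pow_mul, hζ, one_pow]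
  rw [h1, ← zpow_natCast, ← zpow_mul, mul_comm, zpow_mul, zpow_natCast, h2, one_zpow]

/-- **(H5), formal**: order and leading coefficient of `Z` from the sheets formula. -/
theorem lcs_main (ℓ : ℕ) [NeZero ℓ] [NeZero (ℓ * ℓ)] (ζ : Kˣ) (hζ : ζ ^ ℓ = 1)
    (Y Z : LaurentSeries K) (hY : Y ≠ 0)
    (hconj : qExpand K ℓ Z = qExpand K (ℓ * ℓ) Y * ∏ b ∈ Finset.range ℓ, twq (ζ ^ b) Y) :
    Z.order = ((ℓ : ℤ) + 1) * Y.order ∧
      ∃ ε : K, ε ^ 2 = 1 ∧ Z.leadingCoeff = ε * Y.leadingCoeff ^ (ℓ + 1) := by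
  have hℓ0 : (ℓ : ℤ) ≠ 0 := by exact_mod_cast NeZero.ne ℓ
  have hq : qExpand K (ℓ * ℓ) Y ≠ 0 := (map_ne_zero (qExpand K (ℓ * ℓ))).mpr hY
  have ht : ∀ b ∈ Finset.range ℓ, twq (ζ ^ b) Y ≠ 0 :=
    fun b _ => (map_ne_zero (twq (ζ ^ b))).mpr hY
  have hp : ∏ b ∈ Finset.range ℓ, twq (ζ ^ b) Y ≠ 0 := Finset.prod_ne_zero_iff.mpr ht
  constructor
  · have h1 := congrArg HahnSeries.order hconj
    rw [rg_order_qExpand, HahnSeries.order_mul hq hp, rg_order_qExpand, lcs_order_prod _ _ ht,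
      Finset.sum_congr rfl (fun b _ => lcs_order_twq (ζ ^ b) Y), Finset.sum_const,
      Finset.card_range, nsmul_eq_mul] at h1
    have h2 : (ℓ : ℤ) * Z.order = (ℓ : ℤ) * (((ℓ : ℤ) + 1) * Y.order) := by
      rw [h1]
      push_cast
      ring
    exact mul_left_cancel₀ hℓ0 h2
  · refine ⟨((∏ b ∈ Finset.range ℓ, (ζ ^ b) ^ Y.order : Kˣ) : K), ?_, ?_⟩
    · rw [← Units.val_pow_eq_pow_val, lcs_sign_sq ℓ ζ hζ Y.order, Units.val_one]
    · have h1 := congrArg HahnSeries.leadingCoeff hconj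
      rw [lcs_lc_qExpand, HahnSeries.leadingCoeff_mul, lcs_lc_qExpand, lcs_lc_prod,
        Finset.prod_congr rfl (fun b _ => lcs_lc_twq (ζ ^ b) Y), Finset.prod_mul_distrib,
        Finset.prod_const, Finset.card_range] at h1
      rw [h1, Units.coe_prod, pow_succ]
      ring

end Formal

section Conc

variable (N ℓ : ℕ) [NeZero N] [NeZero ℓ]

/-- **(H5)**: order and leading coefficient at `∞` of the Hecke norm `N_α (β u)`. -/
theorem lcs_normBeta (hℓ : ℓ.Prime) (hℓN : ¬ ℓ ∣ N) (u : FF N) (hu : u ≠ 0) :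
    ((normBeta N ℓ u : FF N) : LaurentSeries Kbar).order
        = ((ℓ : ℤ) + 1) * (u : LaurentSeries Kbar).order ∧
      ∃ ε : Kbar, ε ^ 2 = 1 ∧
        ((normBeta N ℓ u : FF N) : LaurentSeries Kbar).leadingCoeff
          = ε * (u : LaurentSeries Kbar).leadingCoeff ^ (ℓ + 1) := by
  haveI : NeZero (ℓ * ℓ) := ⟨Nat.mul_ne_zero (NeZero.ne ℓ) (NeZero.ne ℓ)⟩
  obtain ⟨ζ0, hζ0⟩ := HasEnoughRootsOfUnity.exists_primitiveRoot Kbar ℓ
  have hζne : ζ0 ≠ 0 := hζ0.ne_zero (NeZero.ne ℓ)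
  set ζ : Kbarˣ := Units.mk0 ζ0 hζne with hζdef
  have hζ : IsPrimitiveRoot (ζ : Kbar) ℓ := by
    rw [hζdef, Units.val_mk0]
    exact hζ0
  have hζℓ : ζ ^ ℓ = 1 := by
    apply Units.ext
    rw [Units.val_pow_eq_pow_val, hζ.pow_eq_one, Units.val_one]
  have hY : ((u : FF N) : LaurentSeries Kbar) ≠ 0 := fun h => hu (Subtype.ext h)
  have hconj := normConj N ℓ hℓ hℓN ζ hζ u
  exact lcs_main ℓ ζ hζℓ _ _ hY hconj

end Conc

end Fermat.Agent.S40lib

end
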