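import Mathlib
import Fermat.Agent.S36lib.Speed
import Fermat.Agent.S40lib.LiftHub2
import Fermat.Agent.S40lib.LiftDS
import Fermat.Agent.S40lib.ModTheta
import Fermat.Agent.S40lib.LiftBlockA

/-!
# Item 88 (S40/S44), layer (LIFT): **block C** of the hub `LiftHub2.lean` (helper8)

`lbc_blockC : LfhBlockC M p S a A`: a cusp form of level `M` with `A`-integral `q`-expansion
whose reduction is a nonzero formal eigenvector of the `T_ℓ` (`ℓ ∉ S`) with the eigenvalues `a_ℓ`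
makes the eigensystem `a` occur in `J₀(M)[p]` (GENERAL `a`, conclusion `¬ S40hNotAt M p S a`).

* `lbc_kills` : the Hecke polynomials which vanish on `S₂(Γ₀(M))` are killed by
  `T_ℓ ↦ a_ℓ mod p` (`lds_kills` of helper17 for the relation "`F` reduces to `x`");
* `lbc_eigenclass` : a normalised eigenform of level `M` congruent to the `a_ℓ` (`ℓ ∈ I`) gives
  a nonzero eigenclass of `J₀(M)[p]` (the proof of `mth_eigenclass` of helper25 for general `a`);
* `lbc_blockC` : block C;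
* `lfh_lift_of_blockB` : `LfhLift` from block B alone (blocks A, C are `lba_blockA`,
  `lbc_blockC`).
-/

set_option autoImplicit false
set_option linter.style.haveILetI false
set_option linter.unusedSectionVars false
set_option linter.unusedVariables false

open scoped MatrixGroups TensorProduct
open CongruenceSubgroup ModularCurve ModularCurve.Period ModularFormClass
open Fermat.Agent.GalRep Fermat.Agent.S31lib Fermat.Agent.LatE Fermat.Agent.S35lib
open Fermat.Agent.S41lib Fermat.Agent.S24lib Fermat.Agent.GoodRed Fermat.Agent.GM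

namespace Fermat.Agent.S40lib

noncomputable section

/-- **general eigenclass**: a normalised eigenform of level `M` congruent modulo `𝔪 ∋ p` to the
integers `a_ℓ` for the primes `ℓ ∈ I` gives a nonzero class of `J₀(M)[p]` on which `T_ℓ` acts by
`a_ℓ` for all `ℓ ∈ I`. -/
theorem lbc_eigenclass {p : ℕ} (hp : p.Prime) {M : ℕ} [NeZero M] (a : Nat.Primes → ℤ)
    (I : Set Nat.Primes) (f : CuspForm (Gamma0 M) 2) (hf : f.IsNormalizedEigenform)
    (𝔪 : Ideal (integralClosure ℤ ℂ)) (hmax : 𝔪.IsMaximal)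
    (hpm : ((p : ℕ) : integralClosure ℤ ℂ) ∈ 𝔪)
    (hcong : ∀ ℓ ∈ I, ∃ c : integralClosure ℤ ℂ, (c : ℂ) = qCoeff f (ℓ : ℕ) ∧
      c - (a ℓ : integralClosure ℤ ℂ) ∈ 𝔪) :
    ∃ z : JZero M, z ≠ 0 ∧ p • z = 0 ∧ ∀ ℓ ∈ I, heckeOperatorBar M ℓ z = a ℓ • z := by
  classical
  obtain ⟨x, hxpar, hxp, hxa⟩ := ef_exists_lattice_eigen M p hp f hf 𝔪 hmax hpm a I hcong
  let x' : HLat M := ⟨x, hxpar⟩
  have hF := formL_of_pieces M
  have hker : ∀ ψ : HLat M, hF.e p hp.pos ((p : ℤ) • ψ) = 0 := by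
    intro ψ
    refine (hF.e_ker p hp.pos _).2 ⟨ψ, ?_⟩
    rw [natCast_zsmul]
  refine ⟨hF.e p hp.pos (frickeLat M x'), ?_, ?_, ?_⟩
  · intro h
    obtain ⟨ψ, hψ⟩ := (hF.e_ker p hp.pos _).1 h
    apply hxp
    have h1 : x' = p • frickeLat M ψ := by
      rw [← map_nsmul, ← hψ, frickeLat_frickeLat]
    refine ⟨(frickeLat M ψ).1, ?_⟩
    have h2 : x = ((p • frickeLat M ψ : HLat M) : Additive (Gamma0 M) →+ ℤ) :=
      congrArg (fun y : HLat M => (y : Additive (Gamma0 M) →+ ℤ)) h1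
    rw [natCast_zsmul]
    exact h2
  · rw [← map_nsmul]
    refine (hF.e_ker p hp.pos _).2 ⟨frickeLat M x', rfl⟩
  · intro ℓ hℓ
    obtain ⟨y, hy⟩ := hxa ℓ hℓ
    have hypar : IsParabolicHom (Gamma0 M) y := by
      refine efm_isParabolicHom_of_smul M hp.ne_zero ?_
      rw [← hy]
      exact (heckeLat M ℓ x' - (a ℓ) • x').2
    let y' : HLat M := ⟨y, hypar⟩
    have h1 : heckeLat M ℓ x' = (a ℓ) • x' + (p : ℤ) • y' := by
      apply Subtype.ext
      have : heckeHom M ℓ ℤ x = (a ℓ) • x + (p : ℤ) • y := by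
        rw [← hy]; abel
      exact this
    rw [cf_e_hecke, heckeLatT_apply, frickeLat_frickeLat, h1, map_add, map_zsmul, map_zsmul,
      map_add, map_zsmul, hker, add_zero]

section Kills

variable {M p : ℕ} [NeZero M] {S : Finset ℕ}

/-- **the kernel of `evalFormsAt` is killed by the eigenvalues mod `p`**: if a cusp form `F₀` of
level `M` has its `q`-expansion in `ι A₀`, with reduction `x₀ ≠ 0`, and `x₀` is an eigenvector of
the formal Hecke operators with the eigenvalues `a_ℓ`, then `p ∣ P(a)` for every Hecke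
polynomial `P` vanishing on `S₂(Γ₀(M))`. -/
theorem lbc_kills (hp : p.Prime) (a : ℕ → ℤ)
    {A₀ k : Type*} [CommRing A₀] [CommRing k] (ι : A₀ →+* ℂ) (hι : Function.Injective ι)
    (res : A₀ →+* k) (hpk : (p : k) = 0)
    (F₀ : CuspForm (Gamma0 M) 2) (x₀ : ℕ → k)
    (hrel : ∀ n, ∃ c : A₀, ι c = qCoeff F₀ n ∧ res c = x₀ n)
    (hne : x₀ ≠ 0)
    (heig : ∀ ℓ : Nat.Primes, ¬ (ℓ : ℕ) ∣ M * p → (ℓ : ℕ) ∉ S → ∀ n,
      x₀ (n * ℓ) + (if (ℓ : ℕ) ∣ n then ((ℓ : ℕ) : k) * x₀ (n / ℓ) else 0) =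
        ((a (ℓ : ℕ) : ℤ) : k) * x₀ n)
    (P : HPoly (M * p) S) (hP : evalFormsAt (M * p) S M P = 0) :
    (p : ℤ) ∣ FreeAlgebra.lift ℤ (fun ℓ : GoodPrime (M * p) S => a ((ℓ.1 : Nat.Primes) : ℕ)) P := by
  classical
  set Rel : CuspForm (Gamma0 M) 2 → (ℕ → k) → Prop :=
    fun F x => ∀ n, ∃ c : A₀, ι c = qCoeff F n ∧ res c = x n with hRel
  refine lds_kills hp (fun ℓ => ldsT k ((ℓ.1 : Nat.Primes) : ℕ)) Rel ?_ ?_ ?_ ?_
    (fun ℓ : GoodPrime (M * p) S => a ((ℓ.1 : Nat.Primes) : ℕ)) F₀ x₀ hrel hne ?_ ?_ P hP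
  · -- additivity
    intro F G x y hF hG n
    obtain ⟨c, hc, hc'⟩ := hF n
    obtain ⟨d, hd, hd'⟩ := hG n
    refine ⟨c + d, ?_, ?_⟩
    · have := (Fermat.Agent.S49lib.qCoeffLin M 2 n).map_add F G
      simp only [Fermat.Agent.S49lib.qCoeffLin_apply] at this
      rw [map_add, hc, hd, this]
    · rw [map_add, hc', hd']
      rfl
  · -- multiples
    intro r F x hF n
    obtain ⟨c, hc, hc'⟩ := hF n
    refine ⟨r * c, ?_, ?_⟩
    · have := (Fermat.Agent.S49lib.qCoeffLin M 2 n).map_smul (r : ℂ) F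
      simp only [Fermat.Agent.S49lib.qCoeffLin_apply, smul_eq_mul] at this
      rw [← Int.cast_smul_eq_zsmul ℂ r F, this, map_mul, hc, map_intCast]
    · rw [map_mul, hc', map_intCast]
      simp only [Pi.smul_apply, zsmul_eq_mul]
  · -- Hecke
    intro ℓ F x hF n
    have hℓM : ¬ ((ℓ.1 : Nat.Primes) : ℕ) ∣ M := fun h => ℓ.2.1 (dvd_mul_of_dvd_left h p)
    have hcoe : cfForms (M * p) S M (FreeAlgebra.ι ℤ ℓ) =
        CuspForm.heckeTLin 2 ℓ.1.2 hℓM := by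
      rw [cfForms]
      exact evalFormsAt_ι_coe (M * p) S M (dvd_mul_right M p) ℓ
    have hq : qCoeff (cfForms (M * p) S M (FreeAlgebra.ι ℤ ℓ) F) n =
        qCoeff F (n * ((ℓ.1 : Nat.Primes) : ℕ)) +
          if ((ℓ.1 : Nat.Primes) : ℕ) ∣ n then
            (((ℓ.1 : Nat.Primes) : ℕ) : ℂ) * qCoeff F (n / ((ℓ.1 : Nat.Primes) : ℕ)) else 0 := by
      rw [hcoe, CuspForm.coe_heckeTLin_apply,
        ModularFormClass.qCoeff_heckeT F (Fermat.Agent.S49lib.one_mem_strictPeriods M)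
          ℓ.1.2.ne_zero n, ModularForm.coeffHeckeT_apply]
      norm_num
    obtain ⟨c, hc, hc'⟩ := hF (n * ((ℓ.1 : Nat.Primes) : ℕ))
    by_cases hdvd : ((ℓ.1 : Nat.Primes) : ℕ) ∣ n
    · obtain ⟨d, hd, hd'⟩ := hF (n / ((ℓ.1 : Nat.Primes) : ℕ))
      refine ⟨c + (((ℓ.1 : Nat.Primes) : ℕ) : A₀) * d, ?_, ?_⟩
      · rw [hq, if_pos hdvd, map_add, map_mul, hc, hd, map_natCast]
      · rw [map_add, map_mul, hc', hd', map_natCast, ldsT_apply, if_pos hdvd]
    · refine ⟨c, ?_, ?_⟩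
      · rw [hq, if_neg hdvd, add_zero, hc]
      · rw [hc', ldsT_apply, if_neg hdvd, add_zero]
  · -- functionality
    intro x hx
    funext n
    obtain ⟨c, hc, hc'⟩ := hx n
    have h0 : qCoeff (0 : CuspForm (Gamma0 M) 2) n = 0 := by
      have := (Fermat.Agent.S49lib.qCoeffLin M 2 n).map_zero
      simpa only [Fermat.Agent.S49lib.qCoeffLin_apply] using this
    rw [h0, ← map_zero ι] at hc
    rw [← hc', hι hc, map_zero]
    rfl
  · -- `p`-torsion
    funext n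
    simp only [Pi.smul_apply, nsmul_eq_mul, hpk, zero_mul, Pi.zero_apply]
  · -- eigenvector
    intro ℓ
    funext n
    rw [ldsT_apply, heig ℓ.1 ℓ.2.1 ℓ.2.2 n]
    simp only [Pi.smul_apply, zsmul_eq_mul]

end Kills

/-- **BLOCK C** of the hub `LiftHub2.lean`. -/
theorem lbc_blockC (M p : ℕ) [NeZero M] (S : Finset ℕ) (a : ℕ → ℤ)
    (A : ValuationSubring Kbar) (hp : p.Prime) (hA : A.LiesOverPrime p)
    (hS : ∀ ℓ : ℕ, ℓ.Prime → ℓ ∣ M * p → ℓ ∈ S) :
    LfhBlockC M p S a A := by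
  intro F c d hF hc hd0 heig hNot
  haveI : Fact p.Prime := ⟨hp⟩
  haveI : CharP (IsLocalRing.ResidueField A) p := charP_residueField hA
  set a' : GoodPrime (M * p) S → ℤ := fun ℓ => a ((ℓ.1 : Nat.Primes) : ℕ) with ha'
  set θ' : HPoly (M * p) S →+* ZMod p :=
    (Int.castRingHom (ZMod p)).comp (FreeAlgebra.lift ℤ a').toRingHom with hθ'
  have hθ : ∀ ℓ : GoodPrime (M * p) S, θ' (FreeAlgebra.ι ℤ ℓ) = ((a' ℓ : ℤ) : ZMod p) := by
    intro ℓ
    show (Int.castRingHom (ZMod p)) (FreeAlgebra.lift ℤ a' (FreeAlgebra.ι ℤ ℓ)) = _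
    rw [FreeAlgebra.lift_ι_apply]
    rfl
  have hι : Function.Injective ((ιC).comp A.subtype) := by
    intro x y hxy
    exact Subtype.ext (ιC.injective hxy)
  have hH : ∀ P : HPoly (M * p) S, evalFormsAt (M * p) S M P = 0 → θ' P = 0 := by
    intro P hP
    have hdvd := lbc_kills (S := S) hp a ((ιC).comp A.subtype) hι (IsLocalRing.residue A)
      (CharP.cast_eq_zero _ p) F d
      (fun n => ⟨c n, (hF n).symm, hc n⟩) hd0
      (fun ℓ hℓ hℓS n => heig ℓ ℓ.2 hℓS n) P hP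
    show (Int.castRingHom (ZMod p)) (FreeAlgebra.lift ℤ a' P) = 0
    exact (ZMod.intCast_zmod_eq_zero_iff_dvd _ p).2 hdvd
  obtain ⟨g, 𝔪', hg, hmax, hpm, hcg⟩ := olc_lift hp θ' a' hθ hH
  obtain ⟨z, hz0, hpz, hz⟩ := lbc_eigenclass hp (fun ℓ : Nat.Primes => a (ℓ : ℕ))
    {ℓ : Nat.Primes | (ℓ : ℕ) ∉ S} g hg 𝔪' hmax hpm (by
      intro ℓ hℓ
      have hℓMp : ¬ (ℓ : ℕ) ∣ M * p := fun hd => hℓ (hS ℓ ℓ.2 hd)
      exact hcg ⟨ℓ, hℓMp, hℓ⟩)
  exact hz0 (hNot z hpz (fun ℓ hℓ => hz ℓ hℓ))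

/-- **(LIFT-EIG) from block B alone.** -/
theorem lfh_lift_of_blockB (M p : ℕ) [NeZero M] (S : Finset ℕ) (a : ℕ → ℤ)
    (A : ValuationSubring Kbar) (hp : p.Prime) (hpM : ¬ p ∣ M) (hA : A.LiesOverPrime p)
    (hS : ∀ ℓ : ℕ, ℓ.Prime → ℓ ∣ M * p → ℓ ∈ S) (hB : LfhBlockB M A) :
    LfhLift M p S a A :=
  lfh_lift M p S a A (lba_blockA M p A S a hp hpM hA hS) hB (lbc_blockC M p S a A hp hA hS)

end

end Fermat.Agent.S40lib
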