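import Mathlib
import Fermat.Agent.S36lib.Speed
import Fermat.Agent.S40lib.LiftHub
import Fermat.Agent.S40lib.LiftEigRed
import Fermat.Agent.S40lib.LiftEigRedZero
import Fermat.Agent.S40lib.LevelBridge
import Fermat.Agent.S33lib.KSatPair
import Fermat.Agent.S34lib.GlueMod
import Fermat.Agent.S34lib.ConstRedInf
import Fermat.Agent.S40lib.LiftMain

/-!
# Item 88 (S44/S40), layer (P2'): the LEVEL-0 STEP from (LIFT) (helper8)

`M' ∣ M`, `p ∤ M`, `A` a valuation ring of `ℚ̄` over `p` with residue field `k`; `R'`, `R` the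
series reductions of `F_{M'p}`, `F_{Mp}`.  `x` a Hecke eigenclass of the level `M' p` with the
eigenvalues `a_ℓ` (`ℓ ∉ S`), `(D, u)` a Kummer pair of `x` (`div u = p D`), `c ≠ 0` a constant.

* `lfp_unit_desc` : if `c · incl u` reduces (for `R`) to `r ≠ 0`, then `c · u` is a unit of
  `O_{R'}` and `r = incl_k (red_{R'} (c u))`;
* `lfp_pow_inf` : **(P2') at the `∞`-component**: if moreover `p ∣ ord_Q r` for all places `Q` of
  `F_{M,k}`, `p ∤ [F_{M,k} : F_{M',k}]`, and `LfhLift M' p S a A`, `S40hNotAt M' p S a`, then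
  `r = w ^ p` with `w ≠ 0`;
* `lfp_al_incl` : `w_p ∘ incl = incl ∘ w_p` (levels `M' p ∣ M p`);
* `lfp_pow_zero` : **(P2') at the `0`-component** (`glmZero R`);
* `lfp_p2_inf`, `lfp_p2_zero` : **(P2'), UNCONDITIONAL for `p ≥ 5`** (`lfm_lift'` of helper25, the
  series reduction of the level `M' p` from `exists_constRedInf_aux`), in the shape
  `∃ w ≠ 0, KspRed R (c · incl u) (w ^ p)` of the hypotheses of `kgl_ker2_two` / `tma_ker2_gen`.
-/

set_option autoImplicit false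
set_option linter.style.haveILetI false
set_option linter.unusedSectionVars false
set_option linter.unusedVariables false
set_option synthInstance.maxHeartbeats 400000

noncomputable section

namespace Fermat.Agent.S40lib

open ModularCurve AlgebraicCurve HahnSeries Fermat.Agent.GoodRed Fermat.Agent.GM
  Fermat.Agent.S24lib Fermat.Agent.HeckeBar Fermat.Agent.S34lib Fermat.Agent.S36lib
  Fermat.Agent.S33lib Fermat.Agent.RRlib

section Desc

variable {M' M p : ℕ} [NeZero M'] [NeZero M] [NeZero p] [NeZero (M' * p)] [NeZero (M * p)]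
  {A : ValuationSubring Kbar}

/-- **unit descent along the level bridge**: if `incl v` reduces (for `R`) to `r ≠ 0`, then `v`
is a unit of `O_{R'}` and `r = incl_k (red_{R'} v)`. -/
theorem lfp_unit_desc (hdvd : M' ∣ M) (hA : A ≠ ⊤)
    {R' : ConstRed A (IsLocalRing.residue A) (Fk (IsLocalRing.ResidueField A) M') (FF (M' * p))}
    {R : ConstRed A (IsLocalRing.residue A) (Fk (IsLocalRing.ResidueField A) M) (FF (M * p))}
    (hR' : IsSeriesRed R') (hR : IsSeriesRed R) (v : FF (M' * p))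
    (r : Fk (IsLocalRing.ResidueField A) M) (hr : r ≠ 0)
    (hred : KspRed R (inclBar (M' * p) (M * p) (Nat.mul_dvd_mul_right hdvd p) v) r) :
    ∃ hv : EisUnit R' v,
      inclK (IsLocalRing.ResidueField A) hdvd (R'.red ⟨v, hv.2.1⟩) = r := by
  have hv0 : v ≠ 0 := by
    rintro rfl
    rw [map_zero] at hred
    exact hr (kspRed_unique R hred (kspRed_zero R))
  -- `v ∈ O_{R'}`
  have key : ∀ (z : FF (M' * p)) (s : Fk (IsLocalRing.ResidueField A) M), s ≠ 0 →
      KspRed R (inclBar (M' * p) (M * p) (Nat.mul_dvd_mul_right hdvd p) z) s → z ∈ R'.O →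
      ∃ hz : z ∈ R'.O, inclK (IsLocalRing.ResidueField A) hdvd (R'.red ⟨z, hz⟩) = s ∧
        z⁻¹ ∈ R'.O := by
    intro z s hs hzs hz
    obtain ⟨h1, h2⟩ := lvb_red_incl (p := p) hdvd hA hR' hR z hz
    have h3 : inclK (IsLocalRing.ResidueField A) hdvd (R'.red ⟨z, hz⟩) = s := by
      rw [← h2]
      exact kspRed_unique R ⟨h1, rfl⟩ hzs
    have h4 : R'.red ⟨z, hz⟩ ≠ 0 := by
      intro h0
      rw [h0, map_zero] at h3
      exact hs h3.symm
    exact ⟨hz, h3, kspRed_inv_mem R' ⟨hz, rfl⟩ h4⟩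
  rcases R'.O.mem_or_inv_mem v with hv | hv
  · obtain ⟨hz, h3, h4⟩ := key v r hr hred hv
    exact ⟨⟨hv0, hz, h4⟩, h3⟩
  · have hinv : KspRed R (inclBar (M' * p) (M * p) (Nat.mul_dvd_mul_right hdvd p) v⁻¹) r⁻¹ := by
      rw [map_inv₀]
      exact kspRed_inv R hred hr
    obtain ⟨hz, h3, h4⟩ := key v⁻¹ r⁻¹ (inv_ne_zero hr) hinv hv
    rw [inv_inv] at h4
    obtain ⟨hz', h3', h4'⟩ := key v r hr hred h4
    exact ⟨⟨hv0, hz', h4'⟩, h3'⟩

end Desc

section Inf

variable (M' M p : ℕ) [NeZero M'] [NeZero M] [NeZero p] [NeZero (M' * p)] [NeZero (M * p)]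
  (A : ValuationSubring Kbar)

/-- **(P2') at the `∞`-component, from (LIFT)**: `x` a Hecke eigenclass of the level `M' p` with
Kummer pair `(D, u)`, `c` a constant such that `c · incl u` reduces (series reduction `R` of the
level `M p`) to `r ≠ 0` with `p ∣ ord_Q r` for all places `Q` of `F_{M,k}`.  If the eigensystem
does not occur at the level `M'` and `p ∤ [F_{M,k} : F_{M',k}]`, then `r` is a `p`-th power. -/
theorem lfp_pow_inf (hdvd : M' ∣ M) (hp : p.Prime) (hpM' : ¬ p ∣ M') (hA : A.LiesOverPrime p)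
    {R' : ConstRed A (IsLocalRing.residue A) (Fk (IsLocalRing.ResidueField A) M') (FF (M' * p))}
    {R : ConstRed A (IsLocalRing.residue A) (Fk (IsLocalRing.ResidueField A) M) (FF (M * p))}
    (hR' : IsSeriesRed R') (hR : IsSeriesRed R)
    (hdeg : ¬ p ∣ finrankAlong (IsLocalRing.ResidueField A)
      (inclK (IsLocalRing.ResidueField A) hdvd))
    (S : Finset ℕ) (hpS : p ∈ S) (a : ℕ → ℤ)
    (hLift : LfhLift M' p S a A) (hNot : S40hNotAt M' p S a)
    (x : JZero (M' * p))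
    (hx : ∀ ℓ : Nat.Primes, (ℓ : ℕ) ∉ S → heckeOperatorBar (M' * p) ℓ x = a ℓ • x)
    (D : Divisor.degZero (K := Kbar) (F := FF (M' * p))) (hD : Pic0.mk D = x)
    (u : FF (M' * p))
    (hdiv : ∀ v : Place Kbar (FF (M' * p)),
      (p : ℤ) * (D : Divisor Kbar (FF (M' * p))) v = v.ord u)
    (c : Kbar) (hc : c ≠ 0)
    (r : Fk (IsLocalRing.ResidueField A) M) (hr : r ≠ 0)
    (hred : KspRed R (algebraMap Kbar (FF (M * p)) c *
      inclBar (M' * p) (M * p) (Nat.mul_dvd_mul_right hdvd p) u) r)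
    (hord : ∀ Q : Place (IsLocalRing.ResidueField A) (Fk (IsLocalRing.ResidueField A) M),
      (p : ℤ) ∣ Q.ord r) :
    ∃ w : Fk (IsLocalRing.ResidueField A) M, w ≠ 0 ∧ r = w ^ p := by
  haveI : IsAlgClosed (IsLocalRing.ResidueField A) := isAlgClosed_residueField A
  have hAtop : A ≠ ⊤ := cri_ne_top p A (A.mem_nonunits_iff.mp hA) hp.ne_zero
  have hcF : algebraMap Kbar (FF (M' * p)) c ≠ 0 := by
    rw [Ne, map_eq_zero_iff _ (algebraMap Kbar (FF (M' * p))).injective]
    exact hc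
  -- the function `c u` of the level `M' p`
  have hincl : inclBar (M' * p) (M * p) (Nat.mul_dvd_mul_right hdvd p)
      (algebraMap Kbar (FF (M' * p)) c * u) =
      algebraMap Kbar (FF (M * p)) c *
        inclBar (M' * p) (M * p) (Nat.mul_dvd_mul_right hdvd p) u := by
    rw [map_mul, AlgHom.commutes]
  rw [← hincl] at hred
  obtain ⟨hv, hvr⟩ := lfp_unit_desc (p := p) hdvd hAtop hR' hR _ r hr hred
  have hu0 : u ≠ 0 := fun h0 => hv.1 (by rw [h0, mul_zero])
  -- the divisor of `c u`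
  have hdiv' : ∀ v : Place Kbar (FF (M' * p)),
      (p : ℤ) * (D : Divisor Kbar (FF (M' * p))) v =
        v.ord (algebraMap Kbar (FF (M' * p)) c * u) := by
    intro v
    rw [v.ord_mul hcF hu0, dz_ord_const, zero_add]
    exact hdiv v
  -- the orders at the level `M'`
  have hord' : ∀ Q : Place (IsLocalRing.ResidueField A) (Fk (IsLocalRing.ResidueField A) M'),
      (p : ℤ) ∣ Q.ord (R'.red ⟨algebraMap Kbar (FF (M' * p)) c * u, hv.2.1⟩) := by
    intro Q
    refine lvb_bridge hdvd hp hA hR' hR hdeg _ hv.2.1 hred.1 (fun w => ?_) Q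
    rw [hred.2]
    exact hord w
  -- (LIFT)
  have hEig := ler_main M' p A hp hpM' hA hR' S hpS a x hx D hD _ hv hdiv' hord'
  obtain ⟨c₀, s, hcs⟩ := hLift hNot _ hEig
  obtain ⟨c₁, hc₁⟩ := IsAlgClosed.exists_pow_nat_eq c₀ hp.pos
  have hne := hv.red_ne_zero
  rw [hcs] at hne
  have hs0 : s ≠ 0 := fun h0 => hne (by rw [h0, zero_pow hp.ne_zero, mul_zero])
  have hc₀ : c₀ ≠ 0 := fun h0 => hne (by rw [h0, map_zero, zero_mul])
  have hc₁0 : c₁ ≠ 0 := fun h0 => hc₀ (by rw [← hc₁, h0, zero_pow hp.ne_zero])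
  refine ⟨algebraMap (IsLocalRing.ResidueField A) (Fk (IsLocalRing.ResidueField A) M) c₁ *
    inclK (IsLocalRing.ResidueField A) hdvd s, ?_, ?_⟩
  · refine mul_ne_zero ?_ ?_
    · rw [Ne, map_eq_zero_iff _
        (algebraMap (IsLocalRing.ResidueField A) (Fk (IsLocalRing.ResidueField A) M)).injective]
      exact hc₁0
    · intro h0
      exact hs0 ((map_eq_zero_iff _
        (inclK (IsLocalRing.ResidueField A) hdvd).toRingHom.injective).1 h0)
  · rw [← hvr, hcs, map_mul, AlgHom.commutes, mul_pow, ← map_pow _ c₁, hc₁, map_pow]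

end Inf

section AL

variable (M' M p : ℕ) [NeZero M'] [NeZero M] [NeZero p] [NeZero (M' * p)] [NeZero (M * p)]

/-- `w_p` at the level `M p` restricts to `w_p` at the level `M' p` along the inclusion -/
theorem lfp_al_incl (hdvd : M' ∣ M) (hp : p.Prime) (hpM : ¬ p ∣ M) (hpM' : ¬ p ∣ M')
    (v : FF (M' * p)) :
    atkinLehnerFF (M * p) p hp (dvd_mul_left p M) (inf_not_sq_dvd M p hp hpM)
        (inclBar (M' * p) (M * p) (Nat.mul_dvd_mul_right hdvd p) v) =
      inclBar (M' * p) (M * p) (Nat.mul_dvd_mul_right hdvd p)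
        (atkinLehnerFF (M' * p) p hp (dvd_mul_left p M') (inf_not_sq_dvd M' p hp hpM') v) := by
  have h : ((atkinLehnerFF (M * p) p hp (dvd_mul_left p M) (inf_not_sq_dvd M p hp hpM) :
        FF (M * p) →ₐ[Kbar] FF (M * p)).comp
          (inclBar (M' * p) (M * p) (Nat.mul_dvd_mul_right hdvd p))).toRingHom =
      ((inclBar (M' * p) (M * p) (Nat.mul_dvd_mul_right hdvd p)).comp
        (atkinLehnerFF (M' * p) p hp (dvd_mul_left p M') (inf_not_sq_dvd M' p hp hpM') :
          FF (M' * p) →ₐ[Kbar] FF (M' * p))).toRingHom := by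
    apply FF_ringHom_ext
    · intro c
      show ((atkinLehnerFF (M * p) p hp (dvd_mul_left p M) (inf_not_sq_dvd M p hp hpM) :
        FF (M * p) →ₐ[Kbar] FF (M * p)).comp
          (inclBar (M' * p) (M * p) (Nat.mul_dvd_mul_right hdvd p)))
            (algebraMap Kbar (FF (M' * p)) c) =
        ((inclBar (M' * p) (M * p) (Nat.mul_dvd_mul_right hdvd p)).comp
          (atkinLehnerFF (M' * p) p hp (dvd_mul_left p M') (inf_not_sq_dvd M' p hp hpM') :
            FF (M' * p) →ₐ[Kbar] FF (M' * p))) (algebraMap Kbar (FF (M' * p)) c)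
      rw [AlgHom.commutes, AlgHom.commutes]
    · intro d _ hd
      haveI : NeZero (alSwap p d) := ⟨alSwap_ne_zero hp (NeZero.ne d)⟩
      show atkinLehnerFF (M * p) p hp (dvd_mul_left p M) (inf_not_sq_dvd M p hp hpM)
          (inclBar (M' * p) (M * p) (Nat.mul_dvd_mul_right hdvd p) (jdF (M' * p) d hd)) =
        inclBar (M' * p) (M * p) (Nat.mul_dvd_mul_right hdvd p)
          (atkinLehnerFF (M' * p) p hp (dvd_mul_left p M') (inf_not_sq_dvd M' p hp hpM')
            (jdF (M' * p) d hd))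
      rw [inclBar_jdF, atkinLehnerFF_jdF, atkinLehnerFF_jdF, inclBar_jdF]
  exact congrArg (fun φ : FF (M' * p) →+* FF (M * p) => φ v) h

end AL

section Zero

variable (M' M p : ℕ) [NeZero M'] [NeZero M] [NeZero p] [NeZero (M' * p)] [NeZero (M * p)]
  (A : ValuationSubring Kbar)

/-- the core of (P2'): a function `v` of the level `M' p` such that `incl v` reduces to `r ≠ 0`
with `p ∣ ord_Q r` everywhere, and whose reduction at the level `M'` is a `p`-torsion
eigenfunction as soon as its divisor is in `p · Div`. -/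
theorem lfp_core (hdvd : M' ∣ M) (hp : p.Prime) (hA : A.LiesOverPrime p)
    {R' : ConstRed A (IsLocalRing.residue A) (Fk (IsLocalRing.ResidueField A) M') (FF (M' * p))}
    {R : ConstRed A (IsLocalRing.residue A) (Fk (IsLocalRing.ResidueField A) M) (FF (M * p))}
    (hR' : IsSeriesRed R') (hR : IsSeriesRed R)
    (hdeg : ¬ p ∣ finrankAlong (IsLocalRing.ResidueField A)
      (inclK (IsLocalRing.ResidueField A) hdvd))
    (S : Finset ℕ) (a : ℕ → ℤ)
    (hLift : LfhLift M' p S a A) (hNot : S40hNotAt M' p S a)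
    (v : FF (M' * p))
    (hE : ∀ hv : EisUnit R' v,
      (∀ Q : Place (IsLocalRing.ResidueField A) (Fk (IsLocalRing.ResidueField A) M'),
        (p : ℤ) ∣ Q.ord (R'.red ⟨v, hv.2.1⟩)) →
      LfhEigFun (IsLocalRing.ResidueField A) M' p S a (R'.red ⟨v, hv.2.1⟩))
    (r : Fk (IsLocalRing.ResidueField A) M) (hr : r ≠ 0)
    (hred : KspRed R (inclBar (M' * p) (M * p) (Nat.mul_dvd_mul_right hdvd p) v) r)
    (hord : ∀ Q : Place (IsLocalRing.ResidueField A) (Fk (IsLocalRing.ResidueField A) M),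
      (p : ℤ) ∣ Q.ord r) :
    ∃ w : Fk (IsLocalRing.ResidueField A) M, w ≠ 0 ∧ r = w ^ p := by
  haveI : IsAlgClosed (IsLocalRing.ResidueField A) := isAlgClosed_residueField A
  have hAtop : A ≠ ⊤ := cri_ne_top p A (A.mem_nonunits_iff.mp hA) hp.ne_zero
  obtain ⟨hv, hvr⟩ := lfp_unit_desc (p := p) hdvd hAtop hR' hR _ r hr hred
  have hord' : ∀ Q : Place (IsLocalRing.ResidueField A) (Fk (IsLocalRing.ResidueField A) M'),
      (p : ℤ) ∣ Q.ord (R'.red ⟨v, hv.2.1⟩) := by
    intro Q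
    refine lvb_bridge hdvd hp hA hR' hR hdeg _ hv.2.1 hred.1 (fun w => ?_) Q
    rw [hred.2]
    exact hord w
  obtain ⟨c₀, s, hcs⟩ := hLift hNot _ (hE hv hord')
  obtain ⟨c₁, hc₁⟩ := IsAlgClosed.exists_pow_nat_eq c₀ hp.pos
  have hne := hv.red_ne_zero
  rw [hcs] at hne
  have hs0 : s ≠ 0 := fun h0 => hne (by rw [h0, zero_pow hp.ne_zero, mul_zero])
  have hc₀ : c₀ ≠ 0 := fun h0 => hne (by rw [h0, map_zero, zero_mul])
  have hc₁0 : c₁ ≠ 0 := fun h0 => hc₀ (by rw [← hc₁, h0, zero_pow hp.ne_zero])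
  refine ⟨algebraMap (IsLocalRing.ResidueField A) (Fk (IsLocalRing.ResidueField A) M) c₁ *
    inclK (IsLocalRing.ResidueField A) hdvd s, ?_, ?_⟩
  · refine mul_ne_zero ?_ ?_
    · rw [Ne, map_eq_zero_iff _
        (algebraMap (IsLocalRing.ResidueField A) (Fk (IsLocalRing.ResidueField A) M)).injective]
      exact hc₁0
    · intro h0
      exact hs0 ((map_eq_zero_iff _
        (inclK (IsLocalRing.ResidueField A) hdvd).toRingHom.injective).1 h0)
  · rw [← hvr, hcs, map_mul, AlgHom.commutes, mul_pow, ← map_pow _ c₁, hc₁, map_pow]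

/-- **(P2') at the `0`-component, from (LIFT)**: the statement of `lfp_pow_inf` for the reduction
`glmZero R` (the series reduction at the cusp `0`, `= R ∘ w_p`). -/
theorem lfp_pow_zero (hdvd : M' ∣ M) (hp : p.Prime) (hpM : ¬ p ∣ M) (hpM' : ¬ p ∣ M')
    (hA : A.LiesOverPrime p)
    {R' : ConstRed A (IsLocalRing.residue A) (Fk (IsLocalRing.ResidueField A) M') (FF (M' * p))}
    {R : ConstRed A (IsLocalRing.residue A) (Fk (IsLocalRing.ResidueField A) M) (FF (M * p))}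
    (hR' : IsSeriesRed R') (hR : IsSeriesRed R)
    (hdeg : ¬ p ∣ finrankAlong (IsLocalRing.ResidueField A)
      (inclK (IsLocalRing.ResidueField A) hdvd))
    (S : Finset ℕ) (hpS : p ∈ S) (a : ℕ → ℤ)
    (hLift : LfhLift M' p S a A) (hNot : S40hNotAt M' p S a)
    (x : JZero (M' * p))
    (hx : ∀ ℓ : Nat.Primes, (ℓ : ℕ) ∉ S → heckeOperatorBar (M' * p) ℓ x = a ℓ • x)
    (D : Divisor.degZero (K := Kbar) (F := FF (M' * p))) (hD : Pic0.mk D = x)
    (u : FF (M' * p)) (hu0 : u ≠ 0)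
    (hdiv : ∀ v : Place Kbar (FF (M' * p)),
      (p : ℤ) * (D : Divisor Kbar (FF (M' * p))) v = v.ord u)
    (c : Kbar) (hc : c ≠ 0)
    (r : Fk (IsLocalRing.ResidueField A) M) (hr : r ≠ 0)
    (hred : KspRed (glmZero M p hp hpM R) (algebraMap Kbar (FF (M * p)) c *
      inclBar (M' * p) (M * p) (Nat.mul_dvd_mul_right hdvd p) u) r)
    (hord : ∀ Q : Place (IsLocalRing.ResidueField A) (Fk (IsLocalRing.ResidueField A) M),
      (p : ℤ) ∣ Q.ord r) :
    ∃ w : Fk (IsLocalRing.ResidueField A) M, w ≠ 0 ∧ r = w ^ p := by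
  have hcF : algebraMap Kbar (FF (M' * p)) c ≠ 0 := by
    rw [Ne, map_eq_zero_iff _ (algebraMap Kbar (FF (M' * p))).injective]
    exact hc
  have hdiv' : ∀ v : Place Kbar (FF (M' * p)),
      (p : ℤ) * (D : Divisor Kbar (FF (M' * p))) v =
        v.ord (algebraMap Kbar (FF (M' * p)) c * u) := by
    intro v
    rw [v.ord_mul hcF hu0, dz_ord_const, zero_add]
    exact hdiv v
  -- `w_p (c · incl u) = incl (w_p (c u))`
  have hal : atkinLehnerFF (M * p) p hp (dvd_mul_left p M) (inf_not_sq_dvd M p hp hpM)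
      (algebraMap Kbar (FF (M * p)) c *
        inclBar (M' * p) (M * p) (Nat.mul_dvd_mul_right hdvd p) u) =
      inclBar (M' * p) (M * p) (Nat.mul_dvd_mul_right hdvd p)
        (atkinLehnerFF (M' * p) p hp (dvd_mul_left p M') (inf_not_sq_dvd M' p hp hpM')
          (algebraMap Kbar (FF (M' * p)) c * u)) := by
    rw [← lfp_al_incl M' M p hdvd hp hpM hpM', map_mul (inclBar (M' * p) (M * p) _),
      AlgHom.commutes]
  have hred' : KspRed R (inclBar (M' * p) (M * p) (Nat.mul_dvd_mul_right hdvd p)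
      (atkinLehnerFF (M' * p) p hp (dvd_mul_left p M') (inf_not_sq_dvd M' p hp hpM')
        (algebraMap Kbar (FF (M' * p)) c * u))) r := by
    rw [← hal]
    obtain ⟨h1, h2⟩ := hred
    exact ⟨h1, h2⟩
  refine lfp_core M' M p A hdvd hp hA hR' hR hdeg S a hLift hNot _ ?_ r hr hred' hord
  intro hv hQ
  have hv0 : EisUnit (inredZero (M' * p) p hp (dvd_mul_left p M')
      (inf_not_sq_dvd M' p hp hpM') R') (algebraMap Kbar (FF (M' * p)) c * u) := by
    refine ⟨mul_ne_zero hcF hu0, hv.2.1, ?_⟩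
    show atkinLehnerFF (M' * p) p hp (dvd_mul_left p M') (inf_not_sq_dvd M' p hp hpM')
      (algebraMap Kbar (FF (M' * p)) c * u)⁻¹ ∈ R'.O
    rw [map_inv₀]
    exact hv.2.2
  exact lez_main M' p A hp hpM' hA (dvd_mul_left p M') (inf_not_sq_dvd M' p hp hpM') hR' S hpS a
    x hx D hD _ hv0 hdiv' hQ

end Zero

section Main

variable (M' M p : ℕ) [NeZero M'] [NeZero M] [NeZero p] [NeZero (M' * p)] [NeZero (M * p)]
  (A : ValuationSubring Kbar)

/-- **(P2') at the `∞`-component, `p ≥ 5`, UNCONDITIONAL**. -/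
theorem lfp_p2_inf (hdvd : M' ∣ M) (hp : p.Prime) (hp5 : 5 ≤ p) (hpM' : ¬ p ∣ M')
    (hA : A.LiesOverPrime p)
    {R : ConstRed A (IsLocalRing.residue A) (Fk (IsLocalRing.ResidueField A) M) (FF (M * p))}
    (hR : IsSeriesRed R)
    (hdeg : ¬ p ∣ finrankAlong (IsLocalRing.ResidueField A)
      (inclK (IsLocalRing.ResidueField A) hdvd))
    (S : Finset ℕ) (hS : ∀ ℓ : ℕ, ℓ.Prime → ℓ ∣ M' * p → ℓ ∈ S) (a : ℕ → ℤ)
    (hNot : S40hNotAt M' p S a)
    (x : JZero (M' * p))
    (hx : ∀ ℓ : Nat.Primes, (ℓ : ℕ) ∉ S → heckeOperatorBar (M' * p) ℓ x = a ℓ • x)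
    (D : Divisor.degZero (K := Kbar) (F := FF (M' * p))) (hD : Pic0.mk D = x)
    (u : FF (M' * p))
    (hdiv : ∀ v : Place Kbar (FF (M' * p)),
      (p : ℤ) * (D : Divisor Kbar (FF (M' * p))) v = v.ord u)
    (c : Kbar) (hc : c ≠ 0)
    (r : Fk (IsLocalRing.ResidueField A) M) (hr : r ≠ 0)
    (hred : KspRed R (algebraMap Kbar (FF (M * p)) c *
      inclBar (M' * p) (M * p) (Nat.mul_dvd_mul_right hdvd p) u) r)
    (hord : ∀ Q : Place (IsLocalRing.ResidueField A) (Fk (IsLocalRing.ResidueField A) M),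
      (p : ℤ) ∣ Q.ord r) :
    ∃ w : Fk (IsLocalRing.ResidueField A) M, w ≠ 0 ∧
      KspRed R (algebraMap Kbar (FF (M * p)) c *
        inclBar (M' * p) (M * p) (Nat.mul_dvd_mul_right hdvd p) u) (w ^ p) := by
  obtain ⟨R', hR'⟩ := exists_constRedInf_aux M' p hp hpM' A hA
  obtain ⟨w, hw, hrw⟩ := lfp_pow_inf M' M p A hdvd hp hpM' hA hR' hR hdeg S
    (hS p hp (dvd_mul_left p M')) a (lfm_lift' M' p S a A hp hp5 hpM' hA hS) hNot x hx D hD u
    hdiv c hc r hr hred hord
  exact ⟨w, hw, hrw ▸ hred⟩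

/-- **(P2') at the `0`-component, `p ≥ 5`, UNCONDITIONAL**. -/
theorem lfp_p2_zero (hdvd : M' ∣ M) (hp : p.Prime) (hp5 : 5 ≤ p) (hpM : ¬ p ∣ M)
    (hA : A.LiesOverPrime p)
    {R : ConstRed A (IsLocalRing.residue A) (Fk (IsLocalRing.ResidueField A) M) (FF (M * p))}
    (hR : IsSeriesRed R)
    (hdeg : ¬ p ∣ finrankAlong (IsLocalRing.ResidueField A)
      (inclK (IsLocalRing.ResidueField A) hdvd))
    (S : Finset ℕ) (hS : ∀ ℓ : ℕ, ℓ.Prime → ℓ ∣ M' * p → ℓ ∈ S) (a : ℕ → ℤ)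
    (hNot : S40hNotAt M' p S a)
    (x : JZero (M' * p))
    (hx : ∀ ℓ : Nat.Primes, (ℓ : ℕ) ∉ S → heckeOperatorBar (M' * p) ℓ x = a ℓ • x)
    (D : Divisor.degZero (K := Kbar) (F := FF (M' * p))) (hD : Pic0.mk D = x)
    (u : FF (M' * p)) (hu0 : u ≠ 0)
    (hdiv : ∀ v : Place Kbar (FF (M' * p)),
      (p : ℤ) * (D : Divisor Kbar (FF (M' * p))) v = v.ord u)
    (c : Kbar) (hc : c ≠ 0)
    (r : Fk (IsLocalRing.ResidueField A) M) (hr : r ≠ 0)
    (hred : KspRed (glmZero M p hp hpM R) (algebraMap Kbar (FF (M * p)) c *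
      inclBar (M' * p) (M * p) (Nat.mul_dvd_mul_right hdvd p) u) r)
    (hord : ∀ Q : Place (IsLocalRing.ResidueField A) (Fk (IsLocalRing.ResidueField A) M),
      (p : ℤ) ∣ Q.ord r) :
    ∃ w : Fk (IsLocalRing.ResidueField A) M, w ≠ 0 ∧
      KspRed (glmZero M p hp hpM R) (algebraMap Kbar (FF (M * p)) c *
        inclBar (M' * p) (M * p) (Nat.mul_dvd_mul_right hdvd p) u) (w ^ p) := by
  have hpM' : ¬ p ∣ M' := fun h => hpM (h.trans hdvd)
  obtain ⟨R', hR'⟩ := exists_constRedInf_aux M' p hp hpM' A hA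
  obtain ⟨w, hw, hrw⟩ := lfp_pow_zero M' M p A hdvd hp hpM hpM' hA hR' hR hdeg S
    (hS p hp (dvd_mul_left p M')) a (lfm_lift' M' p S a A hp hp5 hpM' hA hS) hNot x hx D hD u hu0
    hdiv c hc r hr hred hord
  exact ⟨w, hw, hrw ▸ hred⟩

end Main





end Fermat.Agent.S40lib

end
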