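/-
Item 88 (S40), block (NE) (helper21): **non-Eisenstein**.

For an integral Weierstrass curve `W` with `Δ ≠ 0` and an odd prime `p` with `W(ℚ̄)[p]`
irreducible: for every finite set `S` there is a prime `ℓ ∉ S` with `a_ℓ(W) ≢ 1 + ℓ mod p`
(the hypothesis `hnE` of `s40h_main`).

* `nes_fixed_of_root`, `nes_root_of_fixed` : `1` is a root of the characteristic polynomial iff
  there is a nonzero fixed vector;
* `nes_reducible` : a group acting on a plane over a field, every element of which has a nonzero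
  fixed vector, has a stable line (Kolchin on the kernel of the determinant);
* `nes_main` : (NE).
Route: Hasse package (`upw_chlFrob_tors`) + weak Chebotarev: if `a_ℓ ≡ 1 + ℓ` outside `S`, every
element of `G_ℚ` has a nonzero fixed vector in `W(ℚ̄)[p]`.
-/
import Mathlib
import Fermat.Agent.S36lib.Speed
import Fermat.Agent.S36lib.AlgKolchin
import Fermat.Agent.S58lib.Cond
import Fermat.Agent.S58lib.HResW
import Fermat.Agent.Cheb.WeakQbar

set_option autoImplicit false
set_option linter.style.longLine false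
set_option linter.style.haveILetI false
set_option linter.unusedSectionVars false
set_option linter.unusedVariables false

noncomputable section

open Polynomial
open WeierstrassCurve WeierstrassCurve.Affine WeierstrassCurve.Affine.Point
open Fermat.Agent.GalRep Fermat.Agent.S58lib Fermat.Agent.S36lib

namespace Fermat.Agent.S40lib

section Abstract

variable {k : Type*} [Field k] {V : Type*} [AddCommGroup V] [Module k V]
  [Module.Free k V] [Module.Finite k V] {G : Type*} [Group G]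

/-- a root `1` of the characteristic polynomial gives a nonzero fixed vector -/
theorem nes_fixed_of_root (f : Module.End k V) (h : (LinearMap.charpoly f).IsRoot 1) :
    ∃ v : V, v ≠ 0 ∧ f v = v := by
  have h1 := (Module.End.hasEigenvalue_iff_isRoot_charpoly f 1).mpr h
  obtain ⟨v, hv⟩ := h1.exists_hasEigenvector
  refine ⟨v, hv.2, ?_⟩
  have := hv.apply_eq_smul
  rwa [one_smul] at this

/-- a nonzero fixed vector gives the root `1` of the characteristic polynomial -/
theorem nes_root_of_fixed (f : Module.End k V) {v : V} (hv : v ≠ 0) (hf : f v = v) :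
    (LinearMap.charpoly f).IsRoot 1 := by
  rw [← Module.End.hasEigenvalue_iff_isRoot_charpoly]
  refine Module.End.hasEigenvalue_of_hasEigenvector (x := v) ⟨?_, hv⟩
  rw [Module.End.mem_eigenspace_iff, hf, one_smul]

/-- **reducibility**: a group acting on a plane, every element of which has a nonzero fixed
vector, has a stable line -/
theorem nes_reducible (hV : Module.finrank k V = 2) (ρ : G →* Module.End k V)
    (hfix : ∀ σ : G, ∃ v : V, v ≠ 0 ∧ ρ σ v = v) :
    ∃ N : Submodule k V, N ≠ ⊥ ∧ N ≠ ⊤ ∧ ∀ σ : G, ∀ x ∈ N, ρ σ x ∈ N := by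
  classical
  -- the kernel of the determinant
  let d : G →* k := (LinearMap.det : Module.End k V →* k).comp ρ
  have hd : ∀ σ, d σ = LinearMap.det (ρ σ) := fun σ => rfl
  let H : Subgroup G := d.ker
  have hHmem : ∀ σ, σ ∈ H ↔ LinearMap.det (ρ σ) = 1 := fun σ => MonoidHom.mem_ker
  have hHnormal : H.Normal := MonoidHom.normal_ker d
  -- the elements of `H` are unipotent
  have hH : ∀ σ ∈ H, LinearMap.charpoly (ρ σ) = (X - 1) ^ 2 := by
    intro σ hσ
    have hdet : LinearMap.det (ρ σ) = 1 := (hHmem σ).mp hσ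
    obtain ⟨v, hv, hfv⟩ := hfix σ
    have hroot := nes_root_of_fixed (ρ σ) hv hfv
    have hcp := chl_charpoly_rank_two hV (ρ σ)
    rw [hdet] at hcp
    rw [hcp, Polynomial.IsRoot.def] at hroot
    simp only [eval_add, eval_sub, eval_pow, eval_X, eval_mul, eval_C, one_pow, mul_one]
      at hroot
    have htr : LinearMap.trace k V (ρ σ) = 2 := by linear_combination -hroot
    rw [hcp, htr]
    have h2 : (C (2 : k) : k[X]) = 1 + 1 := by
      rw [show (2 : k) = 1 + 1 by norm_num, C_add, C_1]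
    rw [h2, C_1]
    ring
  obtain ⟨v₀, hv₀, hv₀fix⟩ := s36alg_exists_fixed hV ρ H hH
  -- the submodule fixed by `H`
  let N : Submodule k V :=
    { carrier := {x | ∀ σ ∈ H, ρ σ x = x}
      add_mem' := fun {x y} hx hy σ hσ => by rw [map_add, hx σ hσ, hy σ hσ]
      zero_mem' := fun σ _ => map_zero _
      smul_mem' := fun c x hx σ hσ => by rw [map_smul, hx σ hσ] }
  have hNmem : ∀ x, x ∈ N ↔ ∀ σ ∈ H, ρ σ x = x := fun x => Iff.rfl
  have hNstab : ∀ τ : G, ∀ x ∈ N, ρ τ x ∈ N := by
    intro τ x hx σ hσ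
    have h1 : τ⁻¹ * σ * τ ∈ H := by
      have := hHnormal.conj_mem σ hσ τ⁻¹
      rwa [inv_inv] at this
    have h2 : σ * τ = τ * (τ⁻¹ * σ * τ) := by group
    have h3 : ρ σ (ρ τ x) = ρ (σ * τ) x := by rw [map_mul]; rfl
    rw [h3, h2, map_mul]
    show ρ τ (ρ (τ⁻¹ * σ * τ) x) = ρ τ x
    rw [hx _ h1]
  have hN0 : N ≠ ⊥ := by
    intro h
    have : v₀ ∈ N := hv₀fix
    rw [h, Submodule.mem_bot] at this
    exact hv₀ this
  by_cases hN : N = ⊤
  · -- `H` acts trivially: the image is commutative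
    have hHtriv : ∀ σ ∈ H, ρ σ = 1 := by
      intro σ hσ
      refine LinearMap.ext fun x => ?_
      have hx : x ∈ N := by rw [hN]; exact Submodule.mem_top
      exact hx σ hσ
    have hcomm : ∀ σ τ : G, ρ σ * ρ τ = ρ τ * ρ σ := by
      intro σ τ
      have hc : σ * τ * σ⁻¹ * τ⁻¹ ∈ H := by
        rw [hHmem, ← hd, map_mul, map_mul, map_mul]
        have e1 : d σ * d σ⁻¹ = 1 := by rw [← map_mul, mul_inv_cancel, map_one]
        have e2 : d τ * d τ⁻¹ = 1 := by rw [← map_mul, mul_inv_cancel, map_one]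
        calc d σ * d τ * d σ⁻¹ * d τ⁻¹ = (d σ * d σ⁻¹) * (d τ * d τ⁻¹) := by ring
          _ = 1 := by rw [e1, e2, mul_one]
      have h1 := hHtriv _ hc
      have h2 : σ * τ = (σ * τ * σ⁻¹ * τ⁻¹) * (τ * σ) := by group
      rw [← map_mul, h2, map_mul, h1, one_mul, map_mul]
    by_cases hall : ∀ σ : G, ρ σ = 1
    · let b : Module.Basis (Fin 2) k V := Module.finBasisOfFinrankEq k V hV
      obtain ⟨h0, h1⟩ := hrs_span_basis_ne hV b 0
      refine ⟨Submodule.span k {b 0}, h0, h1, fun σ x hx => ?_⟩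
      rw [hall σ]
      exact hx
    · simp only [not_forall] at hall
      obtain ⟨σ₀, hσ₀⟩ := hall
      refine ⟨LinearMap.ker (ρ σ₀ - 1), ?_, ?_, ?_⟩
      · obtain ⟨v, hv, hfv⟩ := hfix σ₀
        intro h
        have hmem : v ∈ LinearMap.ker (ρ σ₀ - 1) := by
          rw [LinearMap.mem_ker, LinearMap.sub_apply, hfv]
          exact sub_self _
        rw [h, Submodule.mem_bot] at hmem
        exact hv hmem
      · intro h
        apply hσ₀
        refine LinearMap.ext fun x => ?_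
        have hx : x ∈ LinearMap.ker (ρ σ₀ - 1) := by rw [h]; exact Submodule.mem_top
        rw [LinearMap.mem_ker, LinearMap.sub_apply, sub_eq_zero] at hx
        exact hx
      · intro τ x hx
        rw [LinearMap.mem_ker, LinearMap.sub_apply, sub_eq_zero] at hx ⊢
        have h1 : ρ σ₀ (ρ τ x) = (ρ σ₀ * ρ τ) x := rfl
        rw [h1, hcomm σ₀ τ]
        show ρ τ (ρ σ₀ x) = (1 : Module.End k V) (ρ τ x)
        rw [hx]
        rfl
  · exact ⟨N, hN0, hN, hNstab⟩

end Abstract

section Main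

set_option maxHeartbeats 1600000 in
/-- **(NE)**: an irreducible `W(ℚ̄)[p]` is not Eisenstein -/
theorem nes_main (W : WeierstrassCurve ℤ) (hΔ : W.Δ ≠ 0) {p : ℕ} (hp : p.Prime) (hp2 : p ≠ 2)
    (hirr : W.ModRepIsIrreducible p) (S : Finset ℕ) :
    ∃ ℓ : Nat.Primes, (ℓ : ℕ) ∉ S ∧ ¬ (p : ℤ) ∣ W.apOfModel ℓ - (1 + (ℓ : ℕ)) := by
  classical
  by_contra hcon0
  have hcon : ∀ ℓ : Nat.Primes, (ℓ : ℕ) ∉ S →
      (p : ℤ) ∣ W.apOfModel ℓ - (1 + (ℓ : ℕ)) := by
    intro ℓ hℓ
    by_contra h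
    exact hcon0 ⟨ℓ, hℓ, h⟩
  haveI : Fact p.Prime := ⟨hp⟩
  haveI hfree := h2_free W hΔ hp hp2 1
  haveI hfin := h2_finite W hΔ hp hp2 1
  obtain ⟨hfree', hfin', hT', hr'⟩ := hrs_transport (W.map (Int.castRingHom ℚ)) p (p ^ 1)
    (pow_one p) hfree hfin (h2_finrank W hΔ hp hp2 1 one_pos) (insert p (upwBad W))
    W.apOfModel (upw_chlFrob_tors W hΔ (s58_hassePkg_all W) hp hp2 1)
  haveI := hfree'
  haveI := hfin'
  have hlev := chl_level_tors' (W.map (Int.castRingHom ℚ)) p hp.ne_zero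
  have hfix : ∀ σ : GQ, ∃ v : Submodule.torsionBy ℤ
      ((W.map (Int.castRingHom ℚ)).toAffine⁄(AlgebraicClosure ℚ)).Point ((p : ℕ) : ℤ),
      v ≠ 0 ∧ galoisRepModuleEnd ℚ (K := AlgebraicClosure ℚ)
        (W.map (Int.castRingHom ℚ)).toAffine p σ v = v := by
    intro σ
    obtain ⟨L, hL, kL⟩ := hlev
    haveI := hL
    obtain ⟨ℓ, A, τ, k, k', hℓ, hℓS, hA, hτ, hτg, hgτ⟩ :=
      weakCheb L hL (S ∪ insert p (upwBad W)) σ
    have hfixL : ∀ x ∈ L, ((τ ^ k')⁻¹ * σ) x = x := by
      intro x hx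
      rw [AlgEquiv.mul_apply, hgτ x hx]
      exact (τ ^ k').symm_apply_apply x
    have hσ : σ = τ ^ k' * ((τ ^ k')⁻¹ * σ) := (mul_inv_cancel_left _ _).symm
    have e₁ : galoisRepModuleEnd ℚ (K := AlgebraicClosure ℚ)
        (W.map (Int.castRingHom ℚ)).toAffine p σ
        = galoisRepModuleEnd ℚ (K := AlgebraicClosure ℚ)
          (W.map (Int.castRingHom ℚ)).toAffine p τ ^ k' := by
      have h := kL ((τ ^ k')⁻¹ * σ) hfixL
      conv_lhs => rw [hσ]
      rw [map_mul, h, mul_one, map_pow]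
    have hℓS1 : ℓ ∉ S := fun h => hℓS (Finset.mem_union_left _ h)
    have hℓS2 : ℓ ∉ insert p (upwBad W) := fun h => hℓS (Finset.mem_union_right _ h)
    have c := hr' ℓ hℓ hℓS2 A hA τ hτ
    have hdiv := hcon ⟨ℓ, hℓ⟩ hℓS1
    have hroot : (LinearMap.charpoly (galoisRepModuleEnd ℚ (K := AlgebraicClosure ℚ)
        (W.map (Int.castRingHom ℚ)).toAffine p τ)).IsRoot 1 := by
      rw [c, Polynomial.IsRoot.def]
      simp only [eval_add, eval_sub, eval_pow, eval_X, eval_mul, eval_C, one_pow, mul_one]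
      have h0 := (ZMod.intCast_zmod_eq_zero_iff_dvd (W.apOfModel ℓ - (1 + ((ℓ : ℕ) : ℤ))) p).mpr
        hdiv
      push_cast at h0
      linear_combination -h0
    obtain ⟨v, hv, hfv⟩ := nes_fixed_of_root _ hroot
    refine ⟨v, hv, ?_⟩
    rw [e₁]
    clear e₁ hσ hfixL hgτ hτg
    induction k' with
    | zero => rw [pow_zero]; rfl
    | succ j ih =>
      rw [pow_succ]
      show (galoisRepModuleEnd ℚ (K := AlgebraicClosure ℚ)
        (W.map (Int.castRingHom ℚ)).toAffine p τ ^ j)
          (galoisRepModuleEnd ℚ (K := AlgebraicClosure ℚ)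
            (W.map (Int.castRingHom ℚ)).toAffine p τ v) = v
      rw [hfv, ih]
  obtain ⟨N, hN0, hN1, hNst⟩ := nes_reducible hT' (galoisRepModuleEnd ℚ
    (K := AlgebraicClosure ℚ) (W.map (Int.castRingHom ℚ)).toAffine p) hfix
  rcases hirr.2 N (fun σ x hx => hNst σ x hx) with h | h
  · exact hN0 h
  · exact hN1 h

end Main

end Fermat.Agent.S40lib

end
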