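/-
Item 88 / S44, (J-WILD), step (Z2)-(H3) of helper21's Hecke trick (helper16): the ABSTRACT
Gauss congruence for norms.

* `ncg_coeff_mem`    : a polynomial of degree `< #s` whose values at the nodes `v i` (`i ∈ s`) lie in
                       a subring `O`, the nodes being in `O` with differences invertible in `O`,
                       has all its coefficients in `O` (Lagrange interpolation);
* `ncg_charpoly_mem` : `E / F` finite, `O ⊆ F`, `O' ⊆ E` subrings with `N(O') ⊆ O`: the
                       characteristic polynomial of `g ∈ O'` has coefficients in `O`, as soon as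
                       there are `[E : F] + 1` constants in `O` with unit differences;
* `ncg_norm_one_add` : under the same hypotheses `N(1 + c g) ∈ 1 + c O` for `c ∈ O`;
* `ncg_exists_nodes` : a valuation ring with infinite residue field contains `n` elements with
                       pairwise unit differences.
-/
import Mathlib
import Fermat.Agent.S36lib.Speed

set_option autoImplicit false
set_option linter.unusedSectionVars false
set_option linter.unusedVariables false
set_option linter.style.haveILetI false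

noncomputable section

namespace Fermat.Agent.S40lib

open Polynomial

section Interp

variable {F : Type*} [Field F] {ι : Type*} [DecidableEq ι]

/-- **Lagrange**: values in `O` at nodes of `O` with unit differences ⇒ coefficients in `O`. -/
theorem ncg_coeff_mem (O : Subring F) (χ : F[X]) (s : Finset ι) (v : ι → F)
    (hdeg : χ.degree < s.card)
    (hv : ∀ i ∈ s, v i ∈ O)
    (hdiff : ∀ i ∈ s, ∀ j ∈ s, i ≠ j → ∃ w ∈ O, (v i - v j) * w = 1)
    (hval : ∀ i ∈ s, χ.eval (v i) ∈ O) : ∀ k, χ.coeff k ∈ O := by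
  have hvs : Set.InjOn v s := by
    intro i hi j hj hij
    by_contra hne
    obtain ⟨w, -, hw⟩ := hdiff i hi j hj hne
    rw [hij, sub_self, zero_mul] at hw
    exact zero_ne_one hw
  have hχ := Lagrange.eq_interpolate hvs hdeg
  -- membership in the polynomials with coefficients in `O`
  have hmemC : ∀ a : F, a ∈ O → (C a : F[X]) ∈ Polynomial.lifts O.subtype := by
    intro a ha
    rw [Polynomial.lifts_iff_coeff_lifts]
    intro n
    rw [Polynomial.coeff_C]
    split_ifs
    · exact ⟨⟨a, ha⟩, rfl⟩
    · exact ⟨0, map_zero _⟩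
  have hmemX : (X : F[X]) ∈ Polynomial.lifts O.subtype := by
    rw [Polynomial.lifts_iff_coeff_lifts]
    intro n
    rw [Polynomial.coeff_X]
    split_ifs
    · exact ⟨1, map_one _⟩
    · exact ⟨0, map_zero _⟩
  have hbd : ∀ i ∈ s, ∀ j ∈ s, i ≠ j →
      Lagrange.basisDivisor (v i) (v j) ∈ Polynomial.lifts O.subtype := by
    intro i hi j hj hij
    obtain ⟨w, hw, hw1⟩ := hdiff i hi j hj hij
    have hinv : (v i - v j)⁻¹ = w := (eq_inv_of_mul_eq_one_right hw1).symm
    rw [Lagrange.basisDivisor, hinv]
    exact Subsemiring.mul_mem _ (hmemC w hw)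
      (by
        have h1 : (X : F[X]) - C (v j) = X + C (-(v j)) := by
          rw [map_neg, sub_eq_add_neg]
        rw [h1]
        exact Subsemiring.add_mem _ hmemX (hmemC _ (O.neg_mem (hv j hj))))
  have hbasis : ∀ i ∈ s, Lagrange.basis s v i ∈ Polynomial.lifts O.subtype := by
    intro i hi
    rw [Lagrange.basis]
    refine Subsemiring.prod_mem _ ?_
    intro j hj
    rw [Finset.mem_erase] at hj
    exact hbd i hi j hj.2 (fun h => hj.1 h.symm)
  have hmem : χ ∈ Polynomial.lifts O.subtype := by
    rw [hχ, Lagrange.interpolate_apply]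
    refine Subsemiring.sum_mem _ ?_
    intro i hi
    exact Subsemiring.mul_mem _ (hmemC _ (hval i hi)) (hbasis i hi)
  intro k
  obtain ⟨a, ha⟩ := (Polynomial.lifts_iff_coeff_lifts χ).mp hmem k
  rw [← ha]
  exact a.2

end Interp

section Norm

variable {F E : Type*} [Field F] [Field E] [Algebra F E] [FiniteDimensional F E]

/-- `N(t - g) = χ_g(t)` -/
theorem ncg_norm_sub (g : E) (t : F) :
    Algebra.norm F (algebraMap F E t - g)
      = (LinearMap.charpoly (Algebra.lmul F E g)).eval t := by
  rw [LinearMap.eval_charpoly, Algebra.norm_apply]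
  congr 1
  rw [map_sub, AlgHom.commutes]

/-- the characteristic polynomial of `g ∈ O'` has coefficients in `O` -/
theorem ncg_charpoly_mem (O : Subring F) (O' : Subring E)
    (hN : ∀ y ∈ O', Algebra.norm F y ∈ O) (hmap : ∀ a ∈ O, algebraMap F E a ∈ O')
    (g : E) (hg : g ∈ O')
    (v : Fin (Module.finrank F E + 1) → F) (hv : ∀ i, v i ∈ O)
    (hdiff : ∀ i j, i ≠ j → ∃ w ∈ O, (v i - v j) * w = 1) :
    ∀ k, (LinearMap.charpoly (Algebra.lmul F E g)).coeff k ∈ O := by
  classical
  refine ncg_coeff_mem O _ Finset.univ v ?_ (fun i _ => hv i) (fun i _ j _ h => hdiff i j h) ?_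
  · rw [Finset.card_univ, Fintype.card_fin]
    have h1 := LinearMap.charpoly_natDegree (Algebra.lmul F E g)
    have h2 : (LinearMap.charpoly (Algebra.lmul F E g)).degree
        = ((Module.finrank F E : ℕ) : WithBot ℕ) := by
      rw [Polynomial.degree_eq_natDegree (LinearMap.charpoly_monic _).ne_zero, h1]
    rw [h2]
    exact_mod_cast Nat.lt_succ_self _
  · intro i _
    rw [← ncg_norm_sub]
    exact hN _ (O'.sub_mem (hmap _ (hv i)) hg)

/-- **the Gauss congruence for norms**: `N(1 + c g) ∈ 1 + c O`. -/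
theorem ncg_norm_one_add (O : Subring F) (O' : Subring E)
    (hN : ∀ y ∈ O', Algebra.norm F y ∈ O) (hmap : ∀ a ∈ O, algebraMap F E a ∈ O')
    (g : E) (hg : g ∈ O')
    (v : Fin (Module.finrank F E + 1) → F) (hv : ∀ i, v i ∈ O)
    (hdiff : ∀ i j, i ≠ j → ∃ w ∈ O, (v i - v j) * w = 1)
    (c : F) (hc : c ∈ O) :
    ∃ r ∈ O, Algebra.norm F (1 + algebraMap F E c * g) = 1 + c * r := by
  classical
  by_cases hc0 : c = 0
  · refine ⟨0, O.zero_mem, ?_⟩
    rw [hc0, map_zero, zero_mul, add_zero, map_one, zero_mul, add_zero]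
  have hcoef := ncg_charpoly_mem O O' hN hmap g hg v hv hdiff
  clear hdiff hv v
  set χ := LinearMap.charpoly (Algebra.lmul F E g) with hχ
  set d := Module.finrank F E with hd
  have hmonic : χ.Monic := LinearMap.charpoly_monic _
  have hnat : χ.natDegree = d := LinearMap.charpoly_natDegree _
  -- `1 + c g = (-c) (-(1/c) - g)`
  have e1 : (1 : E) + algebraMap F E c * g
      = algebraMap F E (-c) * (algebraMap F E (-c⁻¹) - g) := by
    rw [map_neg, map_neg, map_inv₀]
    have hcE : algebraMap F E c ≠ 0 := by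
      rw [Ne, map_eq_zero_iff _ (algebraMap F E).injective]
      exact hc0
    field_simp
    ring
  have e2 : Algebra.norm F ((1 : E) + algebraMap F E c * g) = (-c) ^ d * χ.eval (-c⁻¹) := by
    rw [e1, map_mul, Algebra.norm_algebraMap, ncg_norm_sub]
  -- expand the evaluation
  have e3 : χ.eval (-c⁻¹) = ∑ k ∈ Finset.range (d + 1), χ.coeff k * (-c⁻¹) ^ k := by
    rw [Polynomial.eval_eq_sum_range, hnat]
  have e4 : (-c) ^ d * χ.eval (-c⁻¹)
      = ∑ k ∈ Finset.range (d + 1), χ.coeff k * (-c) ^ (d - k) := by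
    rw [e3, Finset.mul_sum]
    refine Finset.sum_congr rfl ?_
    intro k hk
    rw [Finset.mem_range] at hk
    have hkd : k ≤ d := Nat.lt_succ_iff.mp hk
    have hc' : (-c) ≠ 0 := neg_ne_zero.mpr hc0
    have h5 : (-c⁻¹ : F) = (-c)⁻¹ := by rw [inv_neg]
    rw [h5, inv_pow]
    have h6 : (-c) ^ d = (-c) ^ (d - k) * (-c) ^ k := by
      rw [← pow_add, Nat.sub_add_cancel hkd]
    rw [h6]
    field_simp
  have e5 : ∑ k ∈ Finset.range (d + 1), χ.coeff k * (-c) ^ (d - k)
      = (∑ k ∈ Finset.range d, χ.coeff k * (-c) ^ (d - k)) + 1 := by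
    rw [Finset.sum_range_succ, Nat.sub_self, pow_zero, mul_one]
    have : χ.coeff d = 1 := by
      rw [← hnat]
      exact hmonic.coeff_natDegree
    rw [this]
  refine ⟨∑ k ∈ Finset.range d, χ.coeff k * (-1) ^ (d - k) * c ^ (d - k - 1), ?_, ?_⟩
  · refine O.sum_mem ?_
    intro k _
    exact O.mul_mem (O.mul_mem (hcoef k) (O.pow_mem (O.neg_mem O.one_mem) _)) (O.pow_mem hc _)
  · rw [e2, e4, e5, add_comm, Finset.mul_sum]
    congr 1
    refine Finset.sum_congr rfl ?_
    intro k hk
    rw [Finset.mem_range] at hk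
    have h7 : d - k = (d - k - 1) + 1 := by omega
    have h8 : (-c) ^ (d - k) = (-1) ^ (d - k) * c ^ (d - k) := by
      rw [neg_pow]
    rw [h8]
    conv_lhs => rw [show c ^ (d - k) = c ^ (d - k - 1) * c from by
      rw [← pow_succ]; congr 1]
    ring

end Norm

section Nodes

variable {K : Type*} [Field K]

/-- a valuation ring with infinite residue field contains `n` elements with pairwise unit
differences -/
theorem ncg_exists_nodes (A : ValuationSubring K) [Infinite (IsLocalRing.ResidueField A)]
    (n : ℕ) :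
    ∃ v : Fin n → K, (∀ i, v i ∈ A) ∧ ∀ i j, i ≠ j → ∃ w ∈ A, (v i - v j) * w = 1 := by
  classical
  obtain ⟨e⟩ : Nonempty (Fin n ↪ IsLocalRing.ResidueField A) :=
    ⟨(Fin.valEmbedding).trans (Infinite.natEmbedding _)⟩
  have hsurj := IsLocalRing.residue_surjective (R := A)
  choose f hf using fun i : Fin n => hsurj (e i)
  refine ⟨fun i => (f i : K), fun i => (f i).2, ?_⟩
  intro i j hij
  have hne : IsLocalRing.residue A (f i - f j) ≠ 0 := by
    rw [map_sub, hf, hf, sub_ne_zero]
    exact fun h => hij (e.injective h)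
  have hunit : IsUnit (f i - f j) := by
    by_contra hnu
    exact hne ((IsLocalRing.residue_eq_zero_iff _).mpr
      ((IsLocalRing.mem_maximalIdeal _).mpr hnu))
  obtain ⟨u, hu⟩ := hunit
  refine ⟨((u⁻¹ : Aˣ) : A), (u⁻¹ : Aˣ).1.2, ?_⟩
  have h0 : (f i - f j) * ((u⁻¹ : Aˣ) : A) = 1 := by
    rw [← hu]
    exact Units.mul_inv u
  have h1 : (((f i - f j) * ((u⁻¹ : Aˣ) : A) : A) : K) = ((1 : A) : K) := congrArg Subtype.val h0
  show ((f i : K) - (f j : K)) * (((u⁻¹ : Aˣ) : A) : K) = 1
  exact h1

end Nodes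

end Fermat.Agent.S40lib

end
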