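import Mathlib
import Fermat.Agent.S36lib.Speed
import Fermat.Agent.S33lib.RayLift
import Fermat.Agent.S33lib.GlueBConc
import Fermat.Agent.S33lib.TorCoreConc

/-!
# Item 88 (S44), block (J-WILD), input (a) of the `I₁`-rational normal form (helper29)

`tcc_deep` (S33lib/TorCoreConc) gives the normal form `u⁻¹ s ^ p = c₀ (1 + lam ^ p g)` with
`g` fixed by `H` for every set `H` of inertia elements with discretely valued fixed field,
PROVIDED the divisor `D₂` of the gluing function is `H`-stable.  Here `H = I₁ = rlfI1 A ζ`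
(the inertia elements fixing `ζ`), and the gluing function is chosen `I₁`-fixed.

* `rcx_latDescData2`, `rcx_descent2` : the TWO-component `I₁`-rational lift (`ld_descent` for the
  pair of valuation rings `R.O`, `R₀.O`);
* `rcx_twistCrux` : `cxi_twistCrux` with the gluing function in a prescribed set `F1`
  (given the rational lifting property) and `D₂ = div f + n₂ (P₁ + P₂)`;
* `rcx_glbc_exists` : `glbc_exists_cusp` with `f` fixed by `I₁` and `D₂` stable under `I₁`;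
* `rcx_tcc_I1` : the `I₁`-rational normal form (`tcc_deep` with `H := I₁`).
Complete proofs.
-/

set_option autoImplicit false
set_option linter.style.haveILetI false
set_option linter.unusedVariables false
set_option linter.unusedSectionVars false
set_option synthInstance.maxHeartbeats 400000

noncomputable section

namespace Fermat.Agent.S40lib

open AlgebraicCurve Fermat.Agent.GoodRed ModularCurve HahnSeries Fermat.Agent.S24lib
  Fermat.Agent.RRlib Fermat.Agent.GM Fermat.Agent.S34lib Fermat.Agent.S35lib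
  Fermat.Agent.S36lib Fermat.Agent.S33lib

section Lift2

variable {A : ValuationSubring Kbar} {ζ : Kbar} {L : ℕ} [NeZero L]
variable {k : Type*} [Field k] {π : A →+* k} {Fk : Type*} [Field Fk] [Algebra k Fk]

/-- the lattice-descent data of `L(D) ∩ F1` for the PAIR of valuation rings `R.O`, `R₀.O` -/
theorem rcx_latDescData2 [RRBase Kbar (FF L)] {p : ℕ} (hp : p.Prime) (hA : A.LiesOverPrime p)
    (hζ : IsPrimitiveRoot ζ p) (R R₀ : ConstRed A π Fk (FF L))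
    (hdisc : ∀ f ∈ rlfF1 A ζ L, f ≠ 0 → ∃ n : ℤ,
      algebraMap Kbar (FF L) ((ζ - 1) ^ n) * f ∈ R.O ∧
        (algebraMap Kbar (FF L) ((ζ - 1) ^ n) * f)⁻¹ ∈ R.O)
    (hdisc₀ : ∀ f ∈ rlfF1 A ζ L, f ≠ 0 → ∃ n : ℤ,
      algebraMap Kbar (FF L) ((ζ - 1) ^ n) * f ∈ R₀.O ∧
        (algebraMap Kbar (FF L) ((ζ - 1) ^ n) * f)⁻¹ ∈ R₀.O)
    (D : Divisor Kbar (FF L)) :
    LatDescData A (rlfA1 A ζ) (⟨ζ - 1, sub_mem (zeta_mem_rlfK1 A ζ) (one_mem _)⟩ : rlfK1 A ζ)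
      (fun b : Bool => cond b R.O R₀.O) (rlfV1 A ζ L D) := by
  have H1 := rlf_latDescData hp hA hζ R hdisc D
  have H2 := rlf_latDescData hp hA hζ R₀ hdisc₀ D
  refine
    { mem_A0 := H1.mem_A0
      res := H1.res
      q_ne := H1.q_ne
      q_mem := H1.q_mem
      mem_O := ?_
      mem_m := ?_
      bounded := ?_
      span := ?_
      disc := ?_ }
  · intro b a ha
    cases b
    · exact H2.mem_O () a ha
    · exact H1.mem_O () a ha
  · intro b a ha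
    cases b
    · exact H2.mem_m () a ha
    · exact H1.mem_m () a ha
  · obtain ⟨m, ℓ, hℓ, hℓA⟩ := H1.bounded
    exact ⟨m, ℓ, hℓ, fun z hz => hℓA z (fun _ => hz true)⟩
  · intro x hx
    obtain ⟨N1, hN1⟩ := H1.span x hx
    obtain ⟨N2, hN2⟩ := H2.span x hx
    refine ⟨N1 + N2, fun b => ?_⟩
    cases b
    · have e : algebraMap (rlfK1 A ζ) (FF L)
          ((⟨ζ - 1, sub_mem (zeta_mem_rlfK1 A ζ) (one_mem _)⟩ : rlfK1 A ζ) ^ (N1 + N2)) * x
          = algebraMap (rlfK1 A ζ) (FF L)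
              ((⟨ζ - 1, sub_mem (zeta_mem_rlfK1 A ζ) (one_mem _)⟩ : rlfK1 A ζ) ^ N1) *
            (algebraMap (rlfK1 A ζ) (FF L)
              ((⟨ζ - 1, sub_mem (zeta_mem_rlfK1 A ζ) (one_mem _)⟩ : rlfK1 A ζ) ^ N2) * x) := by
        rw [_root_.pow_add, map_mul, mul_assoc]
      rw [e]
      exact R₀.O.mul_mem _ _ (H2.algebraMap_mem () (pow_mem H2.q_mem_A0 N1)) (hN2 ())
    · have e : algebraMap (rlfK1 A ζ) (FF L)
          ((⟨ζ - 1, sub_mem (zeta_mem_rlfK1 A ζ) (one_mem _)⟩ : rlfK1 A ζ) ^ (N1 + N2)) * x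
          = algebraMap (rlfK1 A ζ) (FF L)
              ((⟨ζ - 1, sub_mem (zeta_mem_rlfK1 A ζ) (one_mem _)⟩ : rlfK1 A ζ) ^ N2) *
            (algebraMap (rlfK1 A ζ) (FF L)
              ((⟨ζ - 1, sub_mem (zeta_mem_rlfK1 A ζ) (one_mem _)⟩ : rlfK1 A ζ) ^ N1) * x) := by
        rw [_root_.pow_add, map_mul]
        ring
      rw [e]
      exact R.O.mul_mem _ _ (H1.algebraMap_mem () (pow_mem H1.q_mem_A0 N2)) (hN1 ())
  · intro z hz hzm b
    cases b
    · exact H2.disc z hz (fun _ => hzm false) ()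
    · exact H1.disc z hz (fun _ => hzm true) ()

/-- **the two-component `I₁`-rational lift**: for an `I₁`-stable divisor `D`, an element of
`L(D) ∩ O_R ∩ O_{R₀}` has the same two reductions as an `I₁`-fixed element of
`L(D) ∩ O_R ∩ O_{R₀}`. -/
theorem rcx_descent2 [RRBase Kbar (FF L)] {p : ℕ} (hp : p.Prime) (hA : A.LiesOverPrime p)
    (hζ : IsPrimitiveRoot ζ p) (R R₀ : ConstRed A π Fk (FF L))
    (hdisc : ∀ f ∈ rlfF1 A ζ L, f ≠ 0 → ∃ n : ℤ,
      algebraMap Kbar (FF L) ((ζ - 1) ^ n) * f ∈ R.O ∧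
        (algebraMap Kbar (FF L) ((ζ - 1) ^ n) * f)⁻¹ ∈ R.O)
    (hdisc₀ : ∀ f ∈ rlfF1 A ζ L, f ≠ 0 → ∃ n : ℤ,
      algebraMap Kbar (FF L) ((ζ - 1) ^ n) * f ∈ R₀.O ∧
        (algebraMap Kbar (FF L) ((ζ - 1) ^ n) * f)⁻¹ ∈ R₀.O)
    (D : Divisor Kbar (FF L)) (hD : ∀ σ ∈ rlfI1 A ζ, galFF L σ • D = D)
    (z : FF L) (hz1 : z ∈ R.O) (hz2 : z ∈ R₀.O)
    (hz : z ∈ riemannRochSpace (K := Kbar) D) :
    ∃ s : FF L, s ∈ rlfF1 A ζ L ∧ s ∈ riemannRochSpace (K := Kbar) D ∧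
      ∃ (h1 : s ∈ R.O) (h2 : s ∈ R₀.O),
        R.red ⟨s, h1⟩ = R.red ⟨z, hz1⟩ ∧ R₀.red ⟨s, h2⟩ = R₀.red ⟨z, hz2⟩ := by
  haveI : IsDiscreteValuationRing (rlfA1 A ζ) := rlfA1_isDiscreteValuationRing A ζ hp hA hζ
  have H := rcx_latDescData2 hp hA hζ R R₀ hdisc hdisc₀ D
  obtain ⟨z₀, hz₀V, hz₀O, hcong⟩ := ld_descent H z (rlf_le_span D hD hz)
    (fun b => by cases b; exact hz2; exact hz1)
  refine ⟨z₀, hz₀V.2, hz₀V.1, hz₀O true, hz₀O false, ?_, ?_⟩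
  · have h1 : R.red (⟨z, hz1⟩ - ⟨z₀, hz₀O true⟩) = 0 :=
      (R.red_eq_zero_iff _).mpr (hcong true)
    rw [map_sub, sub_eq_zero] at h1
    exact h1.symm
  · have h1 : R₀.red (⟨z, hz2⟩ - ⟨z₀, hz₀O false⟩) = 0 :=
      (R₀.red_eq_zero_iff _).mpr (hcong false)
    rw [map_sub, sub_eq_zero] at h1
    exact h1.symm

end Lift2

section Crux

variable {K F k Fk : Type*} [Field K] [Field F] [Algebra K F] [Field k] [Field Fk] [Algebra k Fk]
variable {A : ValuationSubring K} {π : A →+* k}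
variable [RRHyp K F] [RRHyp k Fk]
variable {R₁ R₂ : ConstRed A π Fk F} {P₁ P₂ : Place K F} {Q : Place k Fk}

/-- **`cxi_twistCrux` with a RATIONAL gluing function**: if every element of
`L(n (P₁ + P₂)) ∩ O₁ ∩ O₂` has the same reductions as an element of `F1`, the gluing function `f`
of `TwistCrux` can be chosen in `F1`; `D₂ = div f + n₂ (P₁ + P₂)`. -/
theorem rcx_twistCrux [Infinite k] (X : GlueData R₁ R₂ P₁ P₂ Q) {a₀ a₁ m : ℕ}
    (H : F3dEX R₁ R₂ P₁ P₂ Q Q a₀) (ha : a₀ ≤ a₁)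
    (hyp : TwistHyp (SSRed.ofPair R₁ R₂) X.gluing m (f3dDiv P₁ P₂ 1 1) a₁)
    (hP : P₁ ≠ P₂) (hn : 0 < X.n) (F1 : Set F)
    (hrat : ∀ (n : ℕ) (z : (SSRed.ofPair R₁ R₂).O),
      (z : F) ∈ riemannRochSpace (K := K) (n • f3dDiv P₁ P₂ 1 1) →
      ∃ s : (SSRed.ofPair R₁ R₂).O, (s : F) ∈ F1 ∧
        (s : F) ∈ riemannRochSpace (K := K) (n • f3dDiv P₁ P₂ 1 1) ∧
        (SSRed.ofPair R₁ R₂).red s = (SSRed.ofPair R₁ R₂).red z) :
    ∃ (D₂ : Divisor K F) (n₂ : ℕ) (f finv : (SSRed.ofPair R₁ R₂).O),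
      TwistCrux (SSRed.ofPair R₁ R₂) X.gluing 1 (f3dDiv P₁ P₂ 1 1) D₂ n₂ f finv ∧
      (f : F) ∈ F1 ∧ D₂ = divOf (K := K) (f : F) + n₂ • f3dDiv P₁ P₂ 1 1 := by
  classical
  obtain ⟨c, hc, hcg⟩ : ∃ c : ℕ, a₁ ≤ c ∧ 2 * genusFF k Fk ≤ c + 1 :=
    ⟨a₁ + 2 * genusFF k Fk, by omega, by omega⟩
  obtain ⟨φ, hφg, hφe, hφ1, hφ2⟩ := X.exists_phi hyp hc hcg
  -- the lift
  have hφg' := hφg
  rw [← hyp.f3 (c + 1) (by omega)] at hφg'
  obtain ⟨f₀, hf₀, hfr₀⟩ := hφg'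
  obtain ⟨f, hfF1, hf, hfr'⟩ := hrat (c + 1) f₀ hf₀
  have hfr := hfr'.trans hfr₀
  have hfr1 : R₁.red ⟨(f : F), f.2.1⟩ = φ.1 := congrArg Prod.fst hfr
  have hfr2 : R₂.red ⟨(f : F), f.2.2⟩ = φ.2 := congrArg Prod.snd hfr
  have hf0 : (f : F) ≠ 0 := by
    intro h0
    have : f = 0 := Subtype.ext h0
    rw [this, map_zero] at hfr
    exact hφ1.ne_zero (congrArg Prod.fst hfr).symm
  have hfL := (tw_mem_L_iff hf0).mp hf
  -- exactness at `P₁`
  have hex1 : P₁.ord (f : F) = -((c + 1 : ℕ) : ℤ) := by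
    have h1 := hfL P₁
    rw [GlueData.nsmul_f3dDiv, ci_f3dDiv_apply_fst hP] at h1
    by_contra hne
    have hlt : -(c : ℤ) ≤ P₁.ord (f : F) := by
      push_cast at h1 hne
      omega
    have hmem : (f : F) ∈ riemannRochSpace (K := K) (f3dDiv P₁ P₂ c (c + 1)) := by
      rw [tw_mem_L_iff hf0]
      intro v
      by_cases hv : v = P₁
      · rw [hv, ci_f3dDiv_apply_fst hP]
        exact hlt
      · have h2 := hfL v
        rw [GlueData.nsmul_f3dDiv] at h2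
        have e : f3dDiv P₁ P₂ c (c + 1) v = f3dDiv P₁ P₂ (c + 1) (c + 1) v := by
          rw [f3dDiv, f3dDiv, Finsupp.add_apply, Finsupp.add_apply,
            Finsupp.single_eq_of_ne hv, Finsupp.single_eq_of_ne hv]
        rw [e]
        exact h2
    have hM : φ ∈ f3dM R₁ R₂ (f3dDiv P₁ P₂ c (c + 1)) :=
      (mem_f3dM R₁ R₂ _ _).mpr ⟨f, hmem, hfr⟩
    have hbox := H.le_box (ha.trans hc) ((ha.trans hc).trans (Nat.le_succ c)) (by omega)
      (by omega) hM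
    exact GlueData.not_mem_of_ciExact hφ1 hbox.1
  -- exactness at `P₂`
  have hex2 : P₂.ord (f : F) = -((c + 1 : ℕ) : ℤ) := by
    have h1 := hfL P₂
    rw [GlueData.nsmul_f3dDiv, ci_f3dDiv_apply_snd hP] at h1
    by_contra hne
    have hlt : -(c : ℤ) ≤ P₂.ord (f : F) := by
      push_cast at h1 hne
      omega
    have hmem : (f : F) ∈ riemannRochSpace (K := K) (f3dDiv P₁ P₂ (c + 1) c) := by
      rw [tw_mem_L_iff hf0]
      intro v
      by_cases hv : v = P₂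
      · rw [hv, ci_f3dDiv_apply_snd hP]
        exact hlt
      · have h2 := hfL v
        rw [GlueData.nsmul_f3dDiv] at h2
        have e : f3dDiv P₁ P₂ (c + 1) c v = f3dDiv P₁ P₂ (c + 1) (c + 1) v := by
          rw [f3dDiv, f3dDiv, Finsupp.add_apply, Finsupp.add_apply,
            Finsupp.single_eq_of_ne hv, Finsupp.single_eq_of_ne hv]
        rw [e]
        exact h2
    have hM : φ ∈ f3dM R₁ R₂ (f3dDiv P₁ P₂ (c + 1) c) :=
      (mem_f3dM R₁ R₂ _ _).mpr ⟨f, hmem, hfr⟩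
    have hbox := H.le_box ((ha.trans hc).trans (Nat.le_succ c)) (ha.trans hc) (by omega)
      (by omega) hM
    exact GlueData.not_mem_of_ciExact hφ2 hbox.2
  -- the inverse
  have hinv : ((f : F))⁻¹ ∈ (SSRed.ofPair R₁ R₂).O :=
    ⟨ci_inv_mem R₁ ⟨(f : F), f.2.1⟩ (by rw [hfr1]; exact hφ1.ne_zero),
      ci_inv_mem R₂ ⟨(f : F), f.2.2⟩ (by rw [hfr2]; exact hφ2.ne_zero)⟩
  -- the divisor of zeros
  have hD₂ : ∀ v : Place K F, (divOf (K := K) (f : F) + (c + 1) • f3dDiv P₁ P₂ 1 1) v =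
      v.ord (f : F) + ((c + 1 : ℕ) : ℤ) * f3dDiv P₁ P₂ 1 1 v := by
    intro v
    rw [Finsupp.add_apply, divOf_apply hf0, Finsupp.smul_apply, nsmul_eq_mul]
  have hD₁ : ∀ v : Place K F, 0 ≤ f3dDiv P₁ P₂ 1 1 v := fun v =>
    Finsupp.le_def.mp (f3dDiv_nonneg P₁ P₂ 1 1) v
  have hmk : (((1 : ℕ) : ℕ) : k) ≠ 0 := by
    rw [Nat.cast_one]
    exact one_ne_zero
  refine ⟨divOf (K := K) (f : F) + (c + 1) • f3dDiv P₁ P₂ 1 1, c + 1, f, ⟨((f : F))⁻¹, hinv⟩,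
    ⟨Nat.succ_pos c, hmk, Subtype.ext (mul_inv_cancel₀ hf0), hD₁, ?_, ?_, ?_, ?_, ?_, ?_, ?_⟩,
    hfF1, rfl⟩
  · -- `D₂ ≥ 0`
    intro v
    rw [hD₂]
    have := hfL v
    rw [Finsupp.smul_apply, nsmul_eq_mul] at this
    linarith
  · -- disjoint
    intro v
    by_cases h1 : v = P₁
    · right
      rw [hD₂, h1, hex1, ci_f3dDiv_apply_fst hP]
      push_cast
      ring
    by_cases h2 : v = P₂
    · right
      rw [hD₂, h2, hex2, ci_f3dDiv_apply_snd hP]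
      push_cast
      ring
    · left
      exact ci_f3dDiv_apply_of_ne 1 1 h1 h2
  · -- `ord f`
    intro v
    rw [hD₂]
    ring
  · -- `red f` glued
    rw [hfr]
    exact hφg
  · -- `e₁ (red f) ≠ 0`
    intro i
    rw [hfr, hφe]
    exact one_ne_zero
  · -- cst
    intro a c' r _ hr hrφ heq
    rw [hfr] at hrφ
    obtain ⟨c₁, hc₁⟩ := ci_const hφ1 hr.1 hrφ.1
    obtain ⟨c₂, hc₂⟩ := ci_const hφ2 hr.2 hrφ.2
    have hr' : r = (algebraMap k Fk c₁, algebraMap k Fk c₂) := Prod.ext hc₁.symm hc₂.symm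
    have hn' : 0 < X.gluing.n := hn
    have h12 : c₁ = c₂ := by
      have h := congrFun heq ⟨0, hn'⟩
      rw [hr', X.gluing_e₁_const, X.gluing_e₂_const] at h
      exact h
    refine ⟨c₁, ?_⟩
    rw [hr', Prod.algebraMap_apply, h12]
  · -- pol
    intro a c' g₁ g₂ h1 h2 h3
    rw [hfr] at h2 h3 ⊢
    obtain ⟨p1, p2⟩ := ci_pol hφ1 h1.1 h2.1 h3.1
    obtain ⟨q1, q2⟩ := ci_pol hφ2 h1.2 h2.2 h3.2
    exact ⟨⟨p1, q1⟩, ⟨p2, q2⟩⟩

end Crux

section Conc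

theorem rcx_divOf_smul {K F : Type*} [Field K] [Field F] [Algebra K F] [RRBase K F]
    (g : SemilinearAut K F) (f : F) :
    divOf (K := K) (g • f) = g • divOf (K := K) f := by
  ext v
  rw [SemilinearAut.divisor_smul_apply, divOf_apply', divOf_apply']
  have h := SemilinearAut.ord_smul g (g⁻¹ • v) f
  rw [smul_inv_smul] at h
  exact h

theorem rcx_smul_nsmul {K F : Type*} [Field K] [Field F] [Algebra K F]
    (g : SemilinearAut K F) (n : ℕ) (D : Divisor K F) :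
    g • (n • D) = n • (g • D) := by
  ext v
  rw [SemilinearAut.divisor_smul_apply, Finsupp.smul_apply, Finsupp.smul_apply,
    SemilinearAut.divisor_smul_apply]

/-- `K1 = ℚ̄^{I₁}` is discretely valued with uniformiser `ζ - 1` -/
theorem rcx_vdDisc {A : ValuationSubring Kbar} {p : ℕ} (hp : p.Prime) (hA : A.LiesOverPrime p)
    {ζ : Kbar} (hζ : IsPrimitiveRoot ζ p) :
    VdDisc A (rlfK1 A ζ).toSubfield (ζ - 1) := by
  haveI : NeZero p := ⟨hp.ne_zero⟩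
  obtain ⟨h1, h0, hlt, hd⟩ := vdisc_k0_zeta A hp hA hζ
  exact ⟨h1, h0, hlt, fun x hx hx0 => hd x hx hx0⟩

variable (M' p : ℕ) [NeZero M'] [NeZero p] [NeZero (M' * p)] (hp : p.Prime) (hpM : ¬ p ∣ M')
variable {A : ValuationSubring Kbar}

set_option maxHeartbeats 2000000 in
/-- **the gluing data at the level `M' p` with an `I₁`-FIXED gluing function**: `glbc_exists_cusp`
with `f ∈ F^{I₁}` and `D₂` stable under `I₁`. -/
theorem rcx_glbc_exists [RRHyp Kbar (FF (M' * p))] (haux : IsAuxLevel p M')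
    (hA : A.LiesOverPrime p) {ζ : Kbar} (hζ : IsPrimitiveRoot ζ p)
    {R : ConstRed A (IsLocalRing.residue A)
      (↥(modularFunctionFieldFullC (IsLocalRing.ResidueField A) M')) (FF (M' * p))}
    (hR : IsSeriesRed R) :
    ∃ (G : Gluing (IsLocalRing.ResidueField A)
        (↥(modularFunctionFieldFullC (IsLocalRing.ResidueField A) M') ×
          ↥(modularFunctionFieldFullC (IsLocalRing.ResidueField A) M')))
      (a₁ n₂ : ℕ) (D₂ : Divisor Kbar (FF (M' * p)))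
      (f finv : (SSRed.ofPair R (glmZero M' p hp hpM R)).O),
      0 < G.n ∧
      TwistHyp (SSRed.ofPair R (glmZero M' p hp hpM R)) G p
        (cuspDiv (M' * p) p hp (dvd_mul_left p M') (inf_not_sq_dvd M' p hp hpM) 1 1) a₁ ∧
      TwistCrux (SSRed.ofPair R (glmZero M' p hp hpM R)) G 1
        (cuspDiv (M' * p) p hp (dvd_mul_left p M') (inf_not_sq_dvd M' p hp hpM) 1 1)
        D₂ n₂ f finv ∧
      (f : FF (M' * p)) ∈ rlfF1 A ζ (M' * p) ∧
      ∀ σ ∈ rlfI1 A ζ, galFF (M' * p) σ • D₂ = D₂ := by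
  haveI : Fact p.Prime := ⟨hp⟩
  haveI : CharP (IsLocalRing.ResidueField A) p := charP_residueField hA
  haveI : IsAlgClosed (IsLocalRing.ResidueField A) := isAlgClosed_residueField A
  haveI : Infinite (IsLocalRing.ResidueField A) := IsAlgClosed.instInfinite
  haveI : RRHyp Kbar (FF M') := mod_rrHyp M'
  haveI : RRHyp (IsLocalRing.ResidueField A)
      (↥(modularFunctionFieldFullC (IsLocalRing.ResidueField A) M')) :=
    mr_rrHyp (IsLocalRing.ResidueField A) M'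
  have hfrac' : HasPrimFrac A (modularFunctionFieldBar M') := vri_hfrac M' p hp A hA
  obtain ⟨R', r, hR', -, -, hgen⟩ := liftInf_exists_red M' A p haux hA
  have Hex := am_exInput M' p hp hpM haux hA hR' hR hfrac'
  have hO := vk_O_ne M' p hp hpM hR hA
  have hlift : ∀ a : affRing (infPlaceC (IsLocalRing.ResidueField A) M'),
      ∃ (g : FF M') (hg : g ∈ R'.O),
        (∀ v' : Place Kbar (FF M'), v' ≠ infPlaceBar M' → 0 ≤ v'.ord g) ∧
          R'.red ⟨g, hg⟩ =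
            (a : ↥(modularFunctionFieldFullC (IsLocalRing.ResidueField A) M')) := by
    intro a
    obtain ⟨c, hc⟩ := (glm_hB M' _).mp a.2
    obtain ⟨x, hx, hred⟩ := liftInf_lift p haux hA hR' (c : ℤ) _ hc
    exact ⟨x, x.2, mem_affRing_iff.mp (affRing_of_mem_rr hx), hred⟩
  obtain ⟨X, a₀, a₁', -, H, -, -, hn, -⟩ := glueMod M' p hp hpM hA
    (φ := (affFrobFk (IsLocalRing.ResidueField A) p M').toRingHom) (fun x => rfl) Hex hO
    (affRing_residue_surjective _) hlift hgen.le Nat.one_pos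
  have hP := ac_infPlaceBar_ne_cuspZero hp (dvd_mul_left p M') (inf_not_sq_dvd M' p hp hpM)
  obtain ⟨a₁, ha₁, hyp⟩ := X.twistHyp H hp.pos
  -- the rational lift
  have hd := rcx_vdDisc hp hA hζ
  have hK0 : k0Field A ≤ rlfK1 A ζ := fun c hc => k0_le_rlfK1 A ζ hc
  have hdisc : ∀ f ∈ rlfF1 A ζ (M' * p), f ≠ 0 → ∃ n : ℤ,
      algebraMap Kbar (FF (M' * p)) ((ζ - 1) ^ n) * f ∈ R.O ∧
        (algebraMap Kbar (FF (M' * p)) ((ζ - 1) ^ n) * f)⁻¹ ∈ R.O :=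
    fun f hf hf0 => lvd_disc (rlf_hK1 A ζ) hK0 hd hR hf hf0
  have hdisc₀ : ∀ f ∈ rlfF1 A ζ (M' * p), f ≠ 0 → ∃ n : ℤ,
      algebraMap Kbar (FF (M' * p)) ((ζ - 1) ^ n) * f ∈ (glmZero M' p hp hpM R).O ∧
        (algebraMap Kbar (FF (M' * p)) ((ζ - 1) ^ n) * f)⁻¹ ∈ (glmZero M' p hp hpM R).O :=
    stk_disc_zero (M' * p) p hp (dvd_mul_left p M') (inf_not_sq_dvd M' p hp hpM)
      (rlf_hK1 A ζ) hK0 hd hR
  have hD₁ : ∀ σ : Kbar ≃ₐ[ℚ] Kbar, galFF (M' * p) σ •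
      f3dDiv (infPlaceBar (M' * p))
        (cuspZero (M' * p) p hp (dvd_mul_left p M') (inf_not_sq_dvd M' p hp hpM)) 1 1
      = f3dDiv (infPlaceBar (M' * p))
        (cuspZero (M' * p) p hp (dvd_mul_left p M') (inf_not_sq_dvd M' p hp hpM)) 1 1 := by
    intro σ
    rw [← cuspDiv_one_one]
    exact galFF_smul_cuspDiv (M' * p) p hp (dvd_mul_left p M') (inf_not_sq_dvd M' p hp hpM) σ 1 1
  obtain ⟨D₂, n₂, f, finv, hc, hfF1, hD₂⟩ := rcx_twistCrux X H ha₁ hyp hP hn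
    (rlfF1 A ζ (M' * p) : Set (FF (M' * p))) (fun n z hz => by
      obtain ⟨s, hs1, hsL, h1, h2, e1, e2⟩ := rcx_descent2 hp hA hζ R (glmZero M' p hp hpM R)
        hdisc hdisc₀ _ (fun σ _ => by rw [rcx_smul_nsmul, hD₁ σ]) (z : FF (M' * p)) z.2.1 z.2.2 hz
      exact ⟨⟨s, h1, h2⟩, hs1, hsL, Prod.ext e1 e2⟩)
  refine ⟨X.gluing, a₁, n₂, D₂, f, finv, hn, ?_, ?_, hfF1, ?_⟩
  · rw [cuspDiv_one_one]
    exact hyp
  · rw [cuspDiv_one_one]
    exact hc
  · intro σ hσ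
    rw [hD₂, smul_add, ← rcx_divOf_smul, rcx_smul_nsmul, hD₁ σ]
    congr 2
    exact hfF1 σ hσ

end Conc

section Normal

variable (M' p : ℕ) [NeZero M'] [NeZero p] [NeZero (M' * p)] (hp : p.Prime)
variable {A : ValuationSubring Kbar}

/-- the divisor `E` of an `I₁`-fixed Kummer function (`div u = p E`) is `I₁`-stable -/
theorem rcx_stable_of_fixed {L : ℕ} [NeZero L] [RRBase Kbar (FF L)] {ζ : Kbar} {p : ℕ}
    (hp0 : p ≠ 0) {u : FF L} (hu1 : u ∈ rlfF1 A ζ L) {E : Divisor Kbar (FF L)}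
    (hdiv : ∀ v : Place Kbar (FF L), v.ord u = p * E v) :
    ∀ σ ∈ rlfI1 A ζ, galFF L σ • E = E := by
  intro σ hσ
  ext v
  rw [SemilinearAut.divisor_smul_apply]
  have h := SemilinearAut.ord_smul (galFF L σ) ((galFF L σ)⁻¹ • v) u
  rw [smul_inv_smul, hu1 σ hσ, hdiv, hdiv] at h
  exact (mul_left_cancel₀ (Nat.cast_ne_zero.mpr hp0) h).symm

set_option maxHeartbeats 2000000 in
/-- **the `I₁`-RATIONAL normal form** (`tcc_deep` with `H := I₁`, `K' = K0(ζ)`, `ϖ = lam = ζ - 1`):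
an `I₁`-fixed Kummer-new function `u ≡ 1` (both Gauss valuations), `div u = p E`, satisfies
`u⁻¹ s ^ p = c₀ (1 + (ζ - 1) ^ p g)` with `g` FIXED BY `I₁`, `g ∈ O_R ∩ O_{R₀}`, regular outside
the two cusps. -/
theorem rcx_tcc_I1 [RRHyp Kbar (FF (M' * p))] (hp2 : p ≠ 2) (haux : IsAuxLevel p M')
    (hA : A.LiesOverPrime p) {ζ : Kbar} (hζ : IsPrimitiveRoot ζ p)
    (R : ConstRed A (IsLocalRing.residue A)
      (↥(modularFunctionFieldFullC (IsLocalRing.ResidueField A) M')) (FF (M' * p)))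
    (hR : IsSeriesRed R)
    (E : Divisor Kbar (FF (M' * p))) (hE : Divisor.degree E = 0)
    (u : FF (M' * p)) (hu1 : u ∈ rlfF1 A ζ (M' * p))
    (hu₁ : u - 1 ∈ R.O.nonunits) (hu₂ : u - 1 ∈ (glmZero M' p hp haux.1 R).O.nonunits)
    (hdiv : ∀ v : Place Kbar (FF (M' * p)), v.ord u = p * E v)
    (hnew : IsKummerNew M' p p u) :
    ∃ (s : FF (M' * p)) (c₀ : Kbar) (g : FF (M' * p)), s ≠ 0 ∧ c₀ ≠ 0 ∧
      g ∈ rlfF1 A ζ (M' * p) ∧
      g ∈ cxiB (infPlaceBar (M' * p))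
        (cuspZero (M' * p) p hp (dvd_mul_left p M') (inf_not_sq_dvd M' p hp haux.1)) ∧
      g ∈ R.O ∧ g ∈ (glmZero M' p hp haux.1 R).O ∧
      u⁻¹ * s ^ p = algebraMap Kbar (FF (M' * p)) c₀
        * (1 + algebraMap Kbar (FF (M' * p)) ((ζ - 1) ^ p) * g) := by
  have hpM : ¬ p ∣ M' := haux.1
  haveI : Fact p.Prime := ⟨hp⟩
  haveI : CharP (IsLocalRing.ResidueField A) p := charP_residueField hA
  haveI : IsAlgClosed (IsLocalRing.ResidueField A) := isAlgClosed_residueField A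
  haveI : RRHyp (IsLocalRing.ResidueField A)
      (↥(modularFunctionFieldFullC (IsLocalRing.ResidueField A) M')) :=
    mr_rrHyp (IsLocalRing.ResidueField A) M'
  obtain ⟨G, a₁, n₂, D₂, f, finv, hGn, hyp, hc, -, hD₂⟩ :=
    rcx_glbc_exists M' p hp hpM haux hA hζ hR
  have hd := rcx_vdDisc hp hA hζ
  have hK0 : k0Field A ≤ rlfK1 A ζ := fun c hc => k0_le_rlfK1 A ζ hc
  have hHI : ∀ σ ∈ rlfI1 A ζ, σ ∈ A.inertiaSubgroupIn ℚ := fun σ hσ => hσ.1
  obtain ⟨R', r, hR', -, -, hgen⟩ := liftInf_exists_red M' A p haux hA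
  have hkroot : ∀ c : IsLocalRing.ResidueField A, ∃ d : IsLocalRing.ResidueField A, d ^ p = c :=
    fun c => IsAlgClosed.exists_pow_nat_eq c hp.pos
  -- `lam = ζ - 1`
  have hvq : A.valuation (p : Kbar) < 1 := k0_val_q_lt_one A p hA
  have hlam0 : ζ - 1 ≠ 0 := zi_zeta_sub_one_ne_zero hp hζ
  have hlamlt : A.valuation (ζ - 1) < 1 := zi_val_zeta_sub_one_lt_one A.valuation hp hvq hζ
  have hlam : ζ - 1 ∈ A.nonunits := (A.mem_nonunits_iff).mpr hlamlt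
  have hζA : ζ ∈ A := by
    have h1 : ζ - 1 ∈ A := A.nonunits_subset hlam
    have := A.add_mem _ _ h1 A.one_mem
    rwa [sub_add_cancel] at this
  have hlamv : A.valuation ((p : ℕ) : Kbar) = A.valuation (ζ - 1) ^ (p - 1) :=
    tas_val_p A hlam (rpw_p_eq hp hζ A hζA)
  have hlam1 : ζ - 1 ∈ rlfK1 A ζ := sub_mem (zeta_mem_rlfK1 A ζ) (one_mem _)
  have hEH := rcx_stable_of_fixed (A := A) hp.ne_zero hu1 hdiv
  obtain ⟨s, c₀, g, hs, hc₀, hgH, ⟨b, hgL⟩, hg₁, hg₂, hrel⟩ :=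
    tcc_deep M' p hp hpM hp2 hA hkroot R' hR' R hR hyp hc hHI (rlf_hK1 A ζ) hK0 hd hD₂
      (le_refl a₁) (Nat.le_mul_of_pos_right a₁ hc.n₂_pos) E hE hEH
      u hu1 hu₁ hu₂ hdiv hnew hlam1 hlam0 hlam hlamv
  have hP : infPlaceBar (M' * p) ≠
      cuspZero (M' * p) p hp (dvd_mul_left p M') (inf_not_sq_dvd M' p hp hpM) :=
    ac_infPlaceBar_ne_cuspZero _ _ _
  have hgB : g ∈ cxiB (infPlaceBar (M' * p))
      (cuspZero (M' * p) p hp (dvd_mul_left p M') (inf_not_sq_dvd M' p hp hpM)) := by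
    rw [cuspDiv_one_one] at hgL
    exact (glb_mem_B0_iff_cxiB hP g).mp ⟨b, hgL⟩
  exact ⟨s, c₀, g, hs, hc₀, hgH, hgB, hg₁, hg₂, hrel⟩

end Normal

end Fermat.Agent.S40lib

end
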