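/-
Item 88 (S40), block (J-WILD), (Z'): the `K1`-RATIONAL deep normal form (helper19).

`tcc_deep` (S33lib/TorCoreConc.lean) is parametric in a set `H` of inertia elements whose fixed
field is discretely valued; its output `g` is fixed by `H`.  Here it is run with `H := I₁`
(`S40hI1 p A`, the inertia elements fixing `μ_p`; as a subgroup `sfnH A ζ ⊤`, of finite index in
the inertia group):

`wtr_core`: an `I₁`-fixed (KER2)-function `u` (`u ≡ 1` modulo both Gauss valuations,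
`div u = p E`, `E` stable under `I₁`) which is Kummer-new, together with an `I₁`-stable
divisor `D₂` of a `TwistCrux`, has the normal form
`u⁻¹ s ^ p = c₀ (1 + (ζ - 1) ^ p g)` with `g` FIXED BY `I₁`, `g ∈ O_R ∩ O_{R₀}`, regular off the
two cusps.

The two inputs (`hD₂`: helper29, RatCrux.lean; `u`, `E`: helper5, WildKer2.lean) are hypotheses.
-/
import Mathlib
import Fermat.Agent.S36lib.Speed
import Fermat.Agent.S40lib.TorPlus
import Fermat.Agent.S40lib.Hub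

set_option autoImplicit false
set_option linter.style.haveILetI false
set_option linter.unusedSectionVars false
set_option linter.unusedVariables false
set_option synthInstance.maxHeartbeats 400000

noncomputable section

namespace Fermat.Agent.S40lib

open AlgebraicCurve Fermat.Agent.GoodRed ModularCurve HahnSeries Fermat.Agent.S24lib
  Fermat.Agent.RRlib Fermat.Agent.GM Fermat.Agent.S34lib Fermat.Agent.S35lib Fermat.Agent.S36lib
  Fermat.Agent.S33lib Fermat.Agent.GalRep Fermat.Agent.HeckeBar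

section I1

/-- `I₁ = sfnH A ζ ⊤` -/
theorem wtr_mem_I1_iff {p : ℕ} (hp : p.Prime) (A : ValuationSubring Kbar) {ζ : Kbar}
    (hζ : IsPrimitiveRoot ζ p) (σ : Kbar ≃ₐ[ℚ] Kbar) :
    σ ∈ S40hI1 p A ↔ σ ∈ sfnH A ζ (⊤ : Subgroup (Kbar ≃ₐ[ℚ] Kbar)) := by
  haveI : NeZero p := ⟨hp.ne_zero⟩
  rw [mem_sfnH_iff]
  constructor
  · rintro ⟨h1, h2⟩
    exact ⟨Subgroup.mem_top σ, h1, h2 ζ hζ.pow_eq_one⟩
  · rintro ⟨-, h1, h2⟩
    refine ⟨h1, fun ξ hξ => ?_⟩
    obtain ⟨k, -, rfl⟩ := hζ.eq_pow_of_pow_eq_one hξ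
    rw [map_pow, h2]

end I1

section Main

variable (M p : ℕ) [NeZero M] [NeZero p] [NeZero (M * p)] (hp : p.Prime)

set_option maxHeartbeats 1600000 in
/-- **the `K1`-rational deep normal form** -/
theorem wtr_core [RRHyp Kbar (FF (M * p))] (hp2 : p ≠ 2) (haux : IsAuxLevel p M)
    {A : ValuationSubring Kbar} (hA : A.LiesOverPrime p)
    (R : ConstRed A (IsLocalRing.residue A)
      (↥(modularFunctionFieldFullC (IsLocalRing.ResidueField A) M)) (FF (M * p)))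
    (hR : IsSeriesRed R) {ζ : Kbar} (hζ : IsPrimitiveRoot ζ p)
    {G : Gluing (IsLocalRing.ResidueField A)
      ((↥(modularFunctionFieldFullC (IsLocalRing.ResidueField A) M)) ×
        (↥(modularFunctionFieldFullC (IsLocalRing.ResidueField A) M)))}
    {a₁ n₂ : ℕ} {D₂ : Divisor Kbar (FF (M * p))}
    {f finv : (SSRed.ofPair R (glmZero M p hp haux.1 R)).O}
    (hyp : TwistHyp (SSRed.ofPair R (glmZero M p hp haux.1 R)) G p
      (cuspDiv (M * p) p hp (dvd_mul_left p M) (inf_not_sq_dvd M p hp haux.1) 1 1) a₁)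
    (hc : TwistCrux (SSRed.ofPair R (glmZero M p hp haux.1 R)) G 1
      (cuspDiv (M * p) p hp (dvd_mul_left p M) (inf_not_sq_dvd M p hp haux.1) 1 1) D₂ n₂
      f finv)
    (hD₂ : ∀ σ ∈ S40hI1 p A, galFF (M * p) σ • D₂ = D₂)
    (E : Divisor Kbar (FF (M * p))) (hE : Divisor.degree E = 0)
    (hEH : ∀ σ ∈ S40hI1 p A, galFF (M * p) σ • E = E)
    (u : FF (M * p)) (huH : ∀ σ ∈ S40hI1 p A, galFF (M * p) σ • u = u)
    (hu₁ : u - 1 ∈ R.O.nonunits) (hu₂ : u - 1 ∈ (glmZero M p hp haux.1 R).O.nonunits)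
    (hdiv : ∀ v : Place Kbar (FF (M * p)), v.ord u = p * E v)
    (hnew : IsKummerNew M p p u) :
    ∃ (s : FF (M * p)) (c₀ : Kbar) (g : FF (M * p)), s ≠ 0 ∧ c₀ ≠ 0 ∧
      (∀ σ ∈ S40hI1 p A, galFF (M * p) σ • g = g) ∧
      g ∈ cxiB (infPlaceBar (M * p))
        (cuspZero (M * p) p hp (dvd_mul_left p M) (inf_not_sq_dvd M p hp haux.1)) ∧
      g ∈ R.O ∧ g ∈ (glmZero M p hp haux.1 R).O ∧
      u⁻¹ * s ^ p = algebraMap Kbar (FF (M * p)) c₀ *
        (1 + algebraMap Kbar (FF (M * p)) ((ζ - 1) ^ p) * g) := by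
  have hpM : ¬ p ∣ M := haux.1
  haveI : Fact p.Prime := ⟨hp⟩
  haveI : CharP (IsLocalRing.ResidueField A) p := charP_residueField hA
  haveI : IsAlgClosed (IsLocalRing.ResidueField A) := isAlgClosed_residueField A
  haveI : RRHyp (IsLocalRing.ResidueField A)
      (↥(modularFunctionFieldFullC (IsLocalRing.ResidueField A) M)) :=
    mr_rrHyp (IsLocalRing.ResidueField A) M
  classical
  -- the subgroup `I₁`
  set H : Subgroup (Kbar ≃ₐ[ℚ] Kbar) := sfnH A ζ (⊤ : Subgroup (Kbar ≃ₐ[ℚ] Kbar)) with hH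
  have hHI : H ≤ A.inertiaSubgroupIn ℚ := sfnH_le_inertia A ζ ⊤
  have hHfin : (H.subgroupOf (A.inertiaSubgroupIn ℚ)).FiniteIndex := sfnH_finiteIndex A ζ ⊤
  have hHmem : ∀ σ, σ ∈ (H : Set (Kbar ≃ₐ[ℚ] Kbar)) → σ ∈ S40hI1 p A :=
    fun σ hσ => (wtr_mem_I1_iff hp A hζ σ).mpr hσ
  have hHζ : ∀ σ ∈ H, σ ζ = ζ := fun σ hσ => ((mem_sfnH_iff A ζ ⊤ σ).mp hσ).2.2
  obtain ⟨ϖ, hd, e, he0, he⟩ := lvv_vdDisc_fixedField A hp hA H hHfin
  have hK' : ∀ c : Kbar, c ∈ IntermediateField.fixedField H ↔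
      ∀ σ ∈ (H : Set (Kbar ≃ₐ[ℚ] Kbar)), σ c = c :=
    fun c => IntermediateField.mem_fixedField_iff H c
  have hK0 : k0Field A ≤ IntermediateField.fixedField H := lvv_k0Field_le A H hHI
  have hHI' : ∀ σ ∈ (H : Set (Kbar ≃ₐ[ℚ] Kbar)), σ ∈ A.inertiaSubgroupIn ℚ := fun σ hσ => hHI hσ
  obtain ⟨R', r, hR', -, -, hgen⟩ := liftInf_exists_red M A p haux hA
  have hkroot : ∀ c : IsLocalRing.ResidueField A, ∃ d : IsLocalRing.ResidueField A, d ^ p = c :=
    fun c => IsAlgClosed.exists_pow_nat_eq c hp.pos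
  have hζA : ζ ∈ A := rin_zeta_mem' A hp.ne_zero hζ.pow_eq_one
  have hlam0 : ζ - 1 ≠ 0 := rdl_hlam0 hp hζ
  have hlam : ζ - 1 ∈ A.nonunits := rdl_hlamA hp hA hζ
  have hlamv : A.valuation ((p : ℕ) : Kbar) = A.valuation (ζ - 1) ^ (p - 1) :=
    tas_val_p A hlam (rpw_p_eq hp hζ A hζA)
  have hlam1 : ζ - 1 ∈ IntermediateField.fixedField H := by
    rw [hK']
    intro σ hσ
    rw [map_sub, map_one, hHζ σ hσ]
  have hD₂' : ∀ σ ∈ (H : Set (Kbar ≃ₐ[ℚ] Kbar)), galFF (M * p) σ • D₂ = D₂ :=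
    fun σ hσ => hD₂ σ (hHmem σ hσ)
  have hEH' : ∀ σ ∈ (H : Set (Kbar ≃ₐ[ℚ] Kbar)), galFF (M * p) σ • E = E :=
    fun σ hσ => hEH σ (hHmem σ hσ)
  have huH' : u ∈ fixedLBC (H : Set (Kbar ≃ₐ[ℚ] Kbar)) (modularFunctionFieldFull (M * p)) :=
    fun σ hσ => huH σ (hHmem σ hσ)
  obtain ⟨s, c₀, g, hs, hc₀, hgH, ⟨b, hgL⟩, hg₁, hg₂, hrel⟩ :=
    tcc_deep M p hp hpM hp2 hA hkroot R' hR' R hR hyp hc hHI' hK' hK0 hd hD₂'
      (le_refl a₁) (Nat.le_mul_of_pos_right a₁ hc.n₂_pos) E hE hEH'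
      u huH' hu₁ hu₂ hdiv hnew hlam1 hlam0 hlam hlamv
  have hP : infPlaceBar (M * p) ≠
      cuspZero (M * p) p hp (dvd_mul_left p M) (inf_not_sq_dvd M p hp hpM) :=
    ac_infPlaceBar_ne_cuspZero _ _ _
  have hgB : g ∈ cxiB (infPlaceBar (M * p))
      (cuspZero (M * p) p hp (dvd_mul_left p M) (inf_not_sq_dvd M p hp hpM)) := by
    rw [cuspDiv_one_one] at hgL
    exact (glb_mem_B0_iff_cxiB hP g).mp ⟨b, hgL⟩
  refine ⟨s, c₀, g, hs, hc₀, ?_, hgB, hg₁, hg₂, hrel⟩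
  intro σ hσ
  exact hgH σ ((wtr_mem_I1_iff hp A hζ σ).mp hσ)

set_option maxHeartbeats 1600000 in
/-- **the `K1`-rational normal form of a Kummer function**: in the situation of `wtr_core`, if
`u` is a Kummer function of `x` then `1 + (ζ - 1) ^ p g` is a Kummer function of `-x`, with `g`
fixed by `I₁`, integral at both Gauss valuations and regular off the two cusps. -/
theorem wtr_kummer [RRHyp Kbar (FF (M * p))] (hp2 : p ≠ 2) (haux : IsAuxLevel p M)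
    {A : ValuationSubring Kbar} (hA : A.LiesOverPrime p)
    (R : ConstRed A (IsLocalRing.residue A)
      (↥(modularFunctionFieldFullC (IsLocalRing.ResidueField A) M)) (FF (M * p)))
    (hR : IsSeriesRed R) {ζ : Kbar} (hζ : IsPrimitiveRoot ζ p)
    {G : Gluing (IsLocalRing.ResidueField A)
      ((↥(modularFunctionFieldFullC (IsLocalRing.ResidueField A) M)) ×
        (↥(modularFunctionFieldFullC (IsLocalRing.ResidueField A) M)))}
    {a₁ n₂ : ℕ} {D₂ : Divisor Kbar (FF (M * p))}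
    {f finv : (SSRed.ofPair R (glmZero M p hp haux.1 R)).O}
    (hyp : TwistHyp (SSRed.ofPair R (glmZero M p hp haux.1 R)) G p
      (cuspDiv (M * p) p hp (dvd_mul_left p M) (inf_not_sq_dvd M p hp haux.1) 1 1) a₁)
    (hc : TwistCrux (SSRed.ofPair R (glmZero M p hp haux.1 R)) G 1
      (cuspDiv (M * p) p hp (dvd_mul_left p M) (inf_not_sq_dvd M p hp haux.1) 1 1) D₂ n₂
      f finv)
    (hD₂ : ∀ σ ∈ S40hI1 p A, galFF (M * p) σ • D₂ = D₂)
    (E : Divisor Kbar (FF (M * p))) (hE : Divisor.degree E = 0)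
    (hEH : ∀ σ ∈ S40hI1 p A, galFF (M * p) σ • E = E)
    (x : JZero (M * p)) (u : FF (M * p)) (hk : gdfIsKummer (K := Kbar) p x u)
    (huH : ∀ σ ∈ S40hI1 p A, galFF (M * p) σ • u = u)
    (hu₁ : u - 1 ∈ R.O.nonunits) (hu₂ : u - 1 ∈ (glmZero M p hp haux.1 R).O.nonunits)
    (hdiv : ∀ v : Place Kbar (FF (M * p)), v.ord u = p * E v)
    (hnew : IsKummerNew M p p u) :
    ∃ g : FF (M * p), (∀ σ ∈ S40hI1 p A, galFF (M * p) σ • g = g) ∧
      g ∈ cxiB (infPlaceBar (M * p))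
        (cuspZero (M * p) p hp (dvd_mul_left p M) (inf_not_sq_dvd M p hp haux.1)) ∧
      g ∈ R.O ∧ g ∈ (glmZero M p hp haux.1 R).O ∧
      gdfIsKummer (K := Kbar) p (-x) (1 + algebraMap Kbar (FF (M * p)) ((ζ - 1) ^ p) * g) ∧
      ∀ σ ∈ S40hI1 p A, galFF (M * p) σ •
        (1 + algebraMap Kbar (FF (M * p)) ((ζ - 1) ^ p) * g) =
          1 + algebraMap Kbar (FF (M * p)) ((ζ - 1) ^ p) * g := by
  obtain ⟨s, c₀, g, hs, hc₀, hgH, hgB, hg₁, hg₂, hrel⟩ :=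
    wtr_core M p hp hp2 haux hA R hR hζ hyp hc hD₂ E hE hEH u huH hu₁ hu₂ hdiv hnew
  refine ⟨g, hgH, hgB, hg₁, hg₂, ?_, ?_⟩
  · have h1 := gdf_isKummer_mul_pow (gdf_isKummer_neg hk) (c := c₀⁻¹) (inv_ne_zero hc₀) hs
    have hc₀' : algebraMap Kbar (FF (M * p)) c₀ ≠ 0 := (map_ne_zero _).mpr hc₀
    have h2 : algebraMap Kbar (FF (M * p)) c₀⁻¹ * s ^ p * u⁻¹ =
        1 + algebraMap Kbar (FF (M * p)) ((ζ - 1) ^ p) * g := by
      have h3 : s ^ p * u⁻¹ = algebraMap Kbar (FF (M * p)) c₀ *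
          (1 + algebraMap Kbar (FF (M * p)) ((ζ - 1) ^ p) * g) :=
        (mul_comm (s ^ p) u⁻¹).trans hrel
      rw [mul_assoc, h3, ← mul_assoc, map_inv₀, inv_mul_cancel₀ hc₀', one_mul]
    rw [h2] at h1
    exact h1
  · intro σ hσ
    have hσζ : σ ζ = ζ := hσ.2 ζ hζ.pow_eq_one
    have hconst : galFF (M * p) σ • algebraMap Kbar (FF (M * p)) ((ζ - 1) ^ p) =
        algebraMap Kbar (FF (M * p)) ((ζ - 1) ^ p) := by
      apply Subtype.ext
      show coeffMap ((σ : Kbar ≃ₐ[ℚ] Kbar) : Kbar →+* Kbar)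
        (algebraMap Kbar (LaurentSeries Kbar) ((ζ - 1) ^ p)) =
          algebraMap Kbar (LaurentSeries Kbar) ((ζ - 1) ^ p)
      rw [coeffMap_algebraMap]
      congr 1
      show σ ((ζ - 1) ^ p) = (ζ - 1) ^ p
      rw [map_pow, map_sub, map_one, hσζ]
    rw [smul_add, smul_one, smul_mul', hconst, hgH σ hσ]

end Main

end Fermat.Agent.S40lib

end
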