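import Mathlib
import Fermat.Agent.S36lib.Speed
import Fermat.Agent.S40lib.WildTorRat
import Fermat.Agent.S40lib.RatCrux

/-!
# Item 88 (S44), block (J-WILD), (Z'): the `I₁`-rational normal form WITHOUT the gluing hypotheses
(helper29)

`wtr_core` / `wtr_kummer` (helper19, WildTorRat.lean) with the gluing package `hyp`, `hc` and the
`I₁`-stable divisor `D₂` PROVIDED by `rcx_glbc_exists` (RatCrux.lean): the only inputs left are
the `I₁`-fixed (KER2)-function `u` and its divisor `E`.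
Complete proofs.
-/

set_option autoImplicit false
set_option linter.style.haveILetI false
set_option linter.unusedVariables false
set_option linter.unusedSectionVars false
set_option synthInstance.maxHeartbeats 400000

noncomputable section

namespace Fermat.Agent.S40lib

open AlgebraicCurve Fermat.Agent.GoodRed ModularCurve HahnSeries Fermat.Agent.S24lib
  Fermat.Agent.RRlib Fermat.Agent.GM Fermat.Agent.S34lib Fermat.Agent.S35lib
  Fermat.Agent.S36lib Fermat.Agent.S33lib Fermat.Agent.GalRep Fermat.Agent.HeckeBar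

variable (M p : ℕ) [NeZero M] [NeZero p] [NeZero (M * p)] (hp : p.Prime)

/-- `S40hI1 p A ⊆ rlfI1 A ζ` -/
theorem rck_mem_rlfI1 {p : ℕ} {A : ValuationSubring Kbar} {ζ : Kbar} (hζ : IsPrimitiveRoot ζ p)
    {σ : Kbar ≃ₐ[ℚ] Kbar} (hσ : σ ∈ S40hI1 p A) : σ ∈ rlfI1 A ζ :=
  ⟨hσ.1, hσ.2 ζ hζ.pow_eq_one⟩

set_option maxHeartbeats 2000000 in
/-- **the `K1`-rational normal form of a Kummer function, no gluing hypotheses**: an `I₁`-fixed
Kummer-new Kummer function `u ≡ 1` (both Gauss valuations) of `x`, `div u = p E`, gives the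
Kummer function `1 + (ζ - 1) ^ p g` of `-x` with `g` fixed by `I₁`, `g ∈ O_R ∩ O_{R₀}` regular
off the two cusps. -/
theorem rck_kummer [RRHyp Kbar (FF (M * p))] (hp2 : p ≠ 2) (haux : IsAuxLevel p M)
    {A : ValuationSubring Kbar} (hA : A.LiesOverPrime p)
    (R : ConstRed A (IsLocalRing.residue A)
      (↥(modularFunctionFieldFullC (IsLocalRing.ResidueField A) M)) (FF (M * p)))
    (hR : IsSeriesRed R) {ζ : Kbar} (hζ : IsPrimitiveRoot ζ p)
    (E : Divisor Kbar (FF (M * p))) (hE : Divisor.degree E = 0)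
    (hEH : ∀ σ ∈ S40hI1 p A, galFF (M * p) σ • E = E)
    (x : JZero (M * p)) (u : FF (M * p)) (hk : gdfIsKummer (K := Kbar) p x u)
    (huH : ∀ σ ∈ S40hI1 p A, galFF (M * p) σ • u = u)
    (hu₁ : u - 1 ∈ R.O.nonunits) (hu₂ : u - 1 ∈ (glmZero M p hp haux.1 R).O.nonunits)
    (hdiv : ∀ v : Place Kbar (FF (M * p)), v.ord u = p * E v)
    (hnew : IsKummerNew M p p u) :
    ∃ g : FF (M * p), (∀ σ ∈ S40hI1 p A, galFF (M * p) σ • g = g) ∧
      g ∈ cxiB (infPlaceBar (M * p))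
        (cuspZero (M * p) p hp (dvd_mul_left p M) (inf_not_sq_dvd M p hp haux.1)) ∧
      g ∈ R.O ∧ g ∈ (glmZero M p hp haux.1 R).O ∧
      gdfIsKummer (K := Kbar) p (-x) (1 + algebraMap Kbar (FF (M * p)) ((ζ - 1) ^ p) * g) ∧
      ∀ σ ∈ S40hI1 p A, galFF (M * p) σ •
        (1 + algebraMap Kbar (FF (M * p)) ((ζ - 1) ^ p) * g) =
          1 + algebraMap Kbar (FF (M * p)) ((ζ - 1) ^ p) * g := by
  obtain ⟨G, a₁, n₂, D₂, f, finv, hGn, hyp, hc, -, hD₂⟩ :=
    rcx_glbc_exists M p hp haux.1 haux hA hζ hR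
  exact wtr_kummer M p hp hp2 haux hA R hR hζ hyp hc
    (fun σ hσ => hD₂ σ (rck_mem_rlfI1 hζ hσ)) E hE hEH x u hk huH hu₁ hu₂ hdiv hnew

end Fermat.Agent.S40lib

end
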