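/-
Item 88 (S44), block (J-WILD), piece (Z1) (helper5): an `H`-RATIONAL (KER2) Kummer function.

Abstract part (any function field `F/K` with TWO constant reductions `R₁`, `R₂` over the same
valuation ring `A` of `K`, a subfield `FH ⊆ F` of "rational" functions):

* `wk2_idem` : a rational idempotent `t ∈ FH`, `red₁ t = 1`, `red₂ t = 0`, from a rational
  separating function `z`;
* `wk2_abs`  : `y = [D]`, `div f = p D` with `f ∈ FH`, `g` inertial for both reductions and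
  preserving `FH`: the class `g • y - y` is the class of a divisor `E` with a Kummer function
  `u ∈ FH` (`div u = p E`) such that `u ≡ 1` modulo BOTH maximal ideals.
  (`u = b · (g • f / f) · h ^ p`: `b` a rational unit constant, `h` a rational function with
  prescribed constant reductions.)  This is `ksp_diag` for one generator, with rationality.
-/
import Mathlib
import Fermat.Agent.S36lib.Speed
import Fermat.Agent.S33lib.KSatPair
import Fermat.Agent.S33lib.KSatPairConc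
import Fermat.Agent.S33lib.LevDisc
import Fermat.Agent.S34lib.VKronNe
import Fermat.Agent.S36lib.FixedF0
import Fermat.Agent.S36lib.VNoethK0
import Fermat.Agent.S40lib.WildRat
import Fermat.Agent.S40lib.WildTorRat

set_option autoImplicit false
set_option linter.style.haveILetI false
set_option linter.unusedSectionVars false
set_option linter.unusedVariables false

noncomputable section

namespace Fermat.Agent.S40lib

open AlgebraicCurve Fermat.Agent.RRlib Fermat.Agent.GoodRed Fermat.Agent.S34lib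
  Fermat.Agent.S33lib

section Abs

variable {K F k Fk₁ Fk₂ : Type*} [Field K] [Field F] [Algebra K F] [Field k]
variable [Field Fk₁] [Algebra k Fk₁] [Field Fk₂] [Algebra k Fk₂]
variable {A : ValuationSubring K} {π : A →+* k}
variable (R₁ : ConstRed A π Fk₁ F) (R₂ : ConstRed A π Fk₂ F)

/-- **the rational idempotent**: `t ∈ FH` with `red₁ t = 1`, `red₂ t = 0`. -/
theorem wk2_idem (FH : Subfield F)
    (hsep : ∃ z : F, z ∈ FH ∧ z ≠ 0 ∧ z ∈ R₁.O.nonunits ∧ z⁻¹ ∈ R₂.O.nonunits) :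
    ∃ t : F, t ∈ FH ∧ KspRed R₁ t 1 ∧ KspRed R₂ t 0 := by
  obtain ⟨z, hzH, hz0, hz₁, hz₂⟩ := hsep
  have h1 : KspRed R₁ (1 + z) 1 := by
    have := kspRed_add R₁ (kspRed_one R₁) ((kspRed_zero_iff R₁).2 hz₁)
    rwa [add_zero] at this
  have h2 : KspRed R₂ (1 + z⁻¹) 1 := by
    have := kspRed_add R₂ (kspRed_one R₂) ((kspRed_zero_iff R₂).2 hz₂)
    rwa [add_zero] at this
  refine ⟨(1 + z)⁻¹, FH.inv_mem (FH.add_mem FH.one_mem hzH), ?_, ?_⟩
  · have := kspRed_inv R₁ h1 one_ne_zero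
    rwa [inv_one] at this
  · have h3 := kspRed_mul R₂ ((kspRed_zero_iff R₂).2 hz₂) (kspRed_inv R₂ h2 one_ne_zero)
    rw [zero_mul] at h3
    have e : (1 + z)⁻¹ = z⁻¹ * (1 + z⁻¹)⁻¹ := by
      have h4 : 1 + z = z * (1 + z⁻¹) := by
        rw [mul_add, mul_one, mul_inv_cancel₀ hz0, add_comm]
      rw [h4, mul_inv]
    rwa [e]

/-- **(Z1), abstract form**: a rational Kummer function of `g • y - y` congruent to `1` modulo
both maximal ideals. -/
theorem wk2_abs [RRBase K F] (p : ℕ) (hp : p ≠ 0)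
    (hroot : ∀ c : k, ∃ d : k, d ^ p = c)
    (FH : Subfield F)
    (hconst : ∀ c : k, c ≠ 0 → ∃ a : A, π a = c ∧ algebraMap K F (a : K) ∈ FH)
    (hsep : ∃ z : F, z ∈ FH ∧ z ≠ 0 ∧ z ∈ R₁.O.nonunits ∧ z⁻¹ ∈ R₂.O.nonunits)
    {g : SemilinearAut K F} (hg₁ : IsInertial R₁ g) (hg₂ : IsInertial R₂ g)
    (hgH : ∀ f ∈ FH, g • f ∈ FH)
    (D : Divisor.degZero (K := K) (F := F)) {f : F} (hf0 : f ≠ 0) (hfH : f ∈ FH)
    (hdiv : ∀ v : Place K F, (p : ℤ) * (D : Divisor K F) v = v.ord f) :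
    ∃ (E : Divisor.degZero (K := K) (F := F)) (u : F),
      Pic0.mk E = g • Pic0.mk D - Pic0.mk D ∧ u ≠ 0 ∧ u ∈ FH ∧
      (∀ v : Place K F, (p : ℤ) * (E : Divisor K F) v = v.ord u) ∧
      u - 1 ∈ R₁.O.nonunits ∧ u - 1 ∈ R₂.O.nonunits := by
  have hgf0 : g • f ≠ 0 := by simpa using hf0
  obtain ⟨a₁, ha₁, hm₁, hred₁⟩ := hg₁.exists_const hf0
  obtain ⟨a₂, ha₂, hm₂, hred₂⟩ := hg₂.exists_const hf0
  have hU0 : g • f / f ≠ 0 := div_ne_zero hgf0 hf0
  have hUH : g • f / f ∈ FH := FH.div_mem (hgH f hfH) hfH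
  have hU₁ : KspRed R₁ (g • f / f) (algebraMap k Fk₁ (π a₁)) := ⟨hm₁, hred₁⟩
  have hU₂ : KspRed R₂ (g • f / f) (algebraMap k Fk₂ (π a₂)) := ⟨hm₂, hred₂⟩
  -- the normalising constant at `R₁`
  obtain ⟨b₁, hb₁, hb₁H⟩ := hconst (π a₁)⁻¹ (inv_ne_zero ha₁)
  have hb₁0 : π b₁ ≠ 0 := by rw [hb₁]; exact inv_ne_zero ha₁
  have hb₁K : (b₁ : K) ≠ 0 := by
    intro h0
    apply hb₁0
    have : b₁ = 0 := Subtype.ext h0
    rw [this, map_zero]
  have hb₁F : algebraMap K F (b₁ : K) ≠ 0 := by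
    rw [Ne, map_eq_zero_iff _ (algebraMap K F).injective]
    exact hb₁K
  -- the `p`-th root of the constant at `R₂`
  have hc0 : π b₁ * π a₂ ≠ 0 := mul_ne_zero hb₁0 ha₂
  obtain ⟨d, hd⟩ := hroot (π b₁ * π a₂)⁻¹
  have hd0 : d ≠ 0 := by
    rintro rfl
    rw [zero_pow hp] at hd
    exact inv_ne_zero hc0 hd.symm
  obtain ⟨s, hs, hsH⟩ := hconst d hd0
  obtain ⟨t, htH, ht₁, ht₂⟩ := wk2_idem R₁ R₂ FH hsep
  -- the rational function with reductions `1` and `d`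
  have hh₁ : KspRed R₁ (t + algebraMap K F (s : K) * (1 - t)) 1 := by
    have := kspRed_add R₁ ht₁
      (kspRed_mul R₁ (kspRed_const R₁ s) (kspRed_sub R₁ (kspRed_one R₁) ht₁))
    rwa [sub_self, mul_zero, add_zero] at this
  have hh₂ : KspRed R₂ (t + algebraMap K F (s : K) * (1 - t)) (algebraMap k Fk₂ (π s)) := by
    have := kspRed_add R₂ ht₂
      (kspRed_mul R₂ (kspRed_const R₂ s) (kspRed_sub R₂ (kspRed_one R₂) ht₂))
    rwa [sub_zero, mul_one, zero_add] at this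
  have hhH : t + algebraMap K F (s : K) * (1 - t) ∈ FH :=
    FH.add_mem htH (FH.mul_mem hsH (FH.sub_mem FH.one_mem htH))
  have hh0 : t + algebraMap K F (s : K) * (1 - t) ≠ 0 := kspRed_ne_zero R₁ hh₁ one_ne_zero
  refine ⟨SemilinearAut.degZeroSMulHom g D - D + gdfDiv (K := K)
      (t + algebraMap K F (s : K) * (1 - t)),
    algebraMap K F (b₁ : K) * (g • f / f) * (t + algebraMap K F (s : K) * (1 - t)) ^ p,
    ?_, mul_ne_zero (mul_ne_zero hb₁F hU0) (pow_ne_zero _ hh0),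
    FH.mul_mem (FH.mul_mem hb₁H hUH) (FH.pow_mem hhH p), fun v => ?_, ?_, ?_⟩
  · rw [Pic0.mk_add, gdf_mk_div hh0, add_zero]
    rfl
  · rw [v.ord_mul (mul_ne_zero hb₁F hU0) (pow_ne_zero _ hh0), v.ord_mul hb₁F hU0,
      uk_ord_const, zero_add, Fermat.Agent.S18lib.ord_pow_nat, uk_ord_div v hgf0 hf0,
      uk_ord_smul' g v, ← hdiv, ← hdiv, AddSubgroup.coe_add, Finsupp.add_apply,
      AddSubgroup.coe_sub, Finsupp.sub_apply, SemilinearAut.coe_degZeroSMulHom,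
      SemilinearAut.divisor_smul_apply, gdf_coe_div]
    rw [divOf_apply' _ v]
    ring
  · rw [← kspRed_one_iff]
    have := kspRed_mul R₁ (kspRed_mul R₁ (kspRed_const R₁ b₁) hU₁) (kspRed_pow R₁ hh₁ p)
    rw [one_pow, mul_one, ← map_mul, hb₁, inv_mul_cancel₀ ha₁, map_one] at this
    exact this
  · rw [← kspRed_one_iff]
    have := kspRed_mul R₂ (kspRed_mul R₂ (kspRed_const R₂ b₁) hU₂) (kspRed_pow R₂ hh₂ p)
    rw [← map_pow, ← map_mul, ← map_mul, hs, hd, mul_inv_cancel₀ hc0, map_one] at this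
    exact this

end Abs

section Conc

open ModularCurve HahnSeries Fermat.Agent.S24lib Fermat.Agent.GM Fermat.Agent.S35lib
  Fermat.Agent.S36lib

variable (M p : ℕ) [NeZero M] [NeZero p] [NeZero (M * p)] (hp : p.Prime) (hpM : ¬ p ∣ M)
variable (A : ValuationSubring Kbar) (hA : A.LiesOverPrime p)
variable {Fk : IntermediateField (IsLocalRing.ResidueField A)
  (LaurentSeries (IsLocalRing.ResidueField A))}
variable (R : ConstRed A (IsLocalRing.residue A) (↥Fk) (FF (M * p))) (hR : IsSeriesRed R)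

/-- reductions along `inredComap` -/
theorem wk2_comap_red {K F F' k Fk : Type*} [Field K] [Field F] [Algebra K F] [Field F']
    [Algebra K F'] [Field k] [Field Fk] [Algebra k Fk]
    {A : ValuationSubring K} {π : A →+* k} (R : ConstRed A π Fk F) (w : F' ≃ₐ[K] F)
    {x : F'} {c : Fk} (h : KspRed R (w x) c) : KspRed (inredComap R w) x c := by
  obtain ⟨hm, hred⟩ := h
  exact ⟨hm, hred⟩

include hA hR in
/-- **the rational separating function** `z = (j_p − j^p) / (j − j_p^p)`: fixed by inertia,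
`z ∈ 𝔪_∞`, `z⁻¹ ∈ 𝔪_0`. -/
theorem wk2_sep (H : Set (Kbar ≃ₐ[ℚ] Kbar)) (hHI : ∀ σ ∈ H, σ ∈ A.inertiaSubgroupIn ℚ) :
    ∃ z : FF (M * p), z ∈ fixedLBC H (modularFunctionFieldFull (M * p)) ∧ z ≠ 0 ∧
      z ∈ R.O.nonunits ∧ z⁻¹ ∈ (vkZero M p hp hpM R).O.nonunits := by
  have hwt := vk_atkinLehner_T M p A hp hpM
  have hT' : atkinLehnerFF (M * p) p hp (dvd_mul_left p M) (inf_not_sq_dvd M p hp hpM)
      (⟨coeffMap A.subtype (vkT' p A), vkT'_mem M p A⟩ : FF (M * p)) =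
      ⟨coeffMap A.subtype (vkT p A), vkT_mem M p A⟩ := by
    rw [← hwt, atkinLehnerFF_involutive]
  have hT : KspRed R (⟨coeffMap A.subtype (vkT p A), vkT_mem M p A⟩ : FF (M * p)) 0 := by
    refine ⟨hR.mem _ (vkT_mem M p A), ?_⟩
    apply Subtype.ext
    refine (hR.red _ (vkT_mem M p A)).trans ?_
    rw [vk_red_T p hp hA]
    rfl
  have hT'i : (⟨coeffMap A.subtype (vkT' p A), vkT'_mem M p A⟩ : FF (M * p))⁻¹ ∈ R.O :=
    hR.inv_mem _ (vkT'_mem M p A) (vk_red_T' p hp hA)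
  have hT'0 : (⟨coeffMap A.subtype (vkT' p A), vkT'_mem M p A⟩ : FF (M * p)) ≠ 0 := by
    intro h0
    have h1 : coeffMap A.subtype (vkT' p A) = 0 := congrArg Subtype.val h0
    have h2 : vkT' p A = 0 := coeffMap_valSubtype_injective A (by rw [h1, map_zero])
    exact vk_red_T' p hp hA (by rw [h2, map_zero])
  have hT0 : (⟨coeffMap A.subtype (vkT p A), vkT_mem M p A⟩ : FF (M * p)) ≠ 0 := by
    intro h0
    apply hT'0
    rw [← hwt, h0, map_zero]
  -- fixedness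
  have hfT : (⟨coeffMap A.subtype (vkT p A), vkT_mem M p A⟩ : FF (M * p)) ∈ f0Field A (M * p) := by
    rw [vkT_eq]
    exact sub_mem ((mem_f0Field_iff_isIFixed A (M * p) _).2
      (isIFixed_jdF A (M * p) p (dvd_mul_left p M))) (pow_mem (vnk_jF_mem A (M * p)) p)
  have hfT' : (⟨coeffMap A.subtype (vkT' p A), vkT'_mem M p A⟩ : FF (M * p)) ∈
      f0Field A (M * p) := by
    rw [vkT'_eq]
    exact sub_mem (vnk_jF_mem A (M * p)) (pow_mem ((mem_f0Field_iff_isIFixed A (M * p) _).2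
      (isIFixed_jdF A (M * p) p (dvd_mul_left p M))) p)
  have hz : KspRed R ((⟨coeffMap A.subtype (vkT p A), vkT_mem M p A⟩ : FF (M * p)) *
      (⟨coeffMap A.subtype (vkT' p A), vkT'_mem M p A⟩ : FF (M * p))⁻¹) 0 := by
    have := kspRed_mul R hT (⟨hT'i, rfl⟩ : KspRed R _ (R.red ⟨_, hT'i⟩))
    rwa [zero_mul] at this
  refine ⟨(⟨coeffMap A.subtype (vkT p A), vkT_mem M p A⟩ : FF (M * p)) *
      (⟨coeffMap A.subtype (vkT' p A), vkT'_mem M p A⟩ : FF (M * p))⁻¹, ?_,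
    mul_ne_zero hT0 (inv_ne_zero hT'0), (kspRed_zero_iff R).1 hz, ?_⟩
  · exact lvd_fixed_of_isIFixed (M * p) A hHI
      ((mem_f0Field_iff_isIFixed A (M * p) _).1 (mul_mem hfT (inv_mem hfT')))
  · rw [← kspRed_zero_iff]
    apply wk2_comap_red
    have e : atkinLehnerFF (M * p) p hp (dvd_mul_left p M) (inf_not_sq_dvd M p hp hpM)
        ((⟨coeffMap A.subtype (vkT p A), vkT_mem M p A⟩ : FF (M * p)) *
          (⟨coeffMap A.subtype (vkT' p A), vkT'_mem M p A⟩ : FF (M * p))⁻¹)⁻¹ =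
        (⟨coeffMap A.subtype (vkT p A), vkT_mem M p A⟩ : FF (M * p)) *
          (⟨coeffMap A.subtype (vkT' p A), vkT'_mem M p A⟩ : FF (M * p))⁻¹ := by
      rw [mul_inv, inv_inv, map_mul, map_inv₀, hwt, hT']
      exact mul_comm _ _
    rw [e]
    exact hz

include hA hR in
/-- **(Z1), concrete form**: `y` a class with an `H`-fixed Kummer function `f` (`div f = p D`),
`τ₀` in the inertia group normalising `H ⊆ I`: the class `τ₀ y − y` is the class of an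
`H`-stable divisor `E` with an `H`-FIXED Kummer function `u` (`div u = p E`), `u ≡ 1` modulo the
maximal ideals of BOTH Gauss valuations  (= the inputs `E, hEH, u, huH, hu₁, hu₂, hdiv` of
`tcc_deep` with `H := I₁`). -/
theorem wk2_main [RRBase Kbar (FF (M * p))]
    (H : Set (Kbar ≃ₐ[ℚ] Kbar)) (hHI : ∀ σ ∈ H, σ ∈ A.inertiaSubgroupIn ℚ)
    (τ₀ : Kbar ≃ₐ[ℚ] Kbar) (hτ₀ : τ₀ ∈ A.inertiaSubgroupIn ℚ)
    (hnorm : ∀ σ ∈ H, τ₀⁻¹ * σ * τ₀ ∈ H)
    (D : Divisor.degZero (K := Kbar) (F := FF (M * p))) {f : FF (M * p)} (hf0 : f ≠ 0)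
    (hfH : f ∈ fixedLBC H (modularFunctionFieldFull (M * p)))
    (hdiv : ∀ v : Place Kbar (FF (M * p)), (p : ℤ) * (D : Divisor Kbar (FF (M * p))) v = v.ord f) :
    ∃ (E : Divisor.degZero (K := Kbar) (F := FF (M * p))) (u : FF (M * p)),
      Pic0.mk E = galFF (M * p) τ₀ • Pic0.mk D - Pic0.mk D ∧ u ≠ 0 ∧
      u ∈ fixedLBC H (modularFunctionFieldFull (M * p)) ∧
      (∀ σ ∈ H, galFF (M * p) σ • (E : Divisor Kbar (FF (M * p))) = E) ∧
      (∀ v : Place Kbar (FF (M * p)), v.ord u = (p : ℤ) * (E : Divisor Kbar (FF (M * p))) v) ∧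
      u - 1 ∈ R.O.nonunits ∧ u - 1 ∈ (vkZero M p hp hpM R).O.nonunits := by
  haveI : IsAlgClosed (IsLocalRing.ResidueField A) := isAlgClosed_residueField A
  have hfrac : HasPrimFrac A (modularFunctionFieldBar (M * p)) := vri_hfrac (M * p) p hp A hA
  obtain ⟨E, u, hE, hu0, huH, hdivu, hu₁, hu₂⟩ :=
    wk2_abs R (vkZero M p hp hpM R) p hp.ne_zero
      (fun c => IsAlgClosed.exists_pow_nat_eq c hp.pos)
      (fixedLBC H (modularFunctionFieldFull (M * p)))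
      (fun c _ => by
        obtain ⟨a, ha, -, haH⟩ := lvd_res (L := M * p) (A := A) (H := H) hp hA hHI c
        exact ⟨a, ha, haH⟩)
      (wk2_sep M p hp hpM A hA R hR H hHI)
      (inred_isInertial_inf (M * p) hR hfrac τ₀ hτ₀)
      (inred_isInertial_zero (M * p) p hp (dvd_mul_left p M) (inf_not_sq_dvd M p hp hpM)
        hR hfrac τ₀ hτ₀)
      (fun x hx σ hσ => by
        have h1 := hx _ (hnorm σ hσ)
        have h2 : galFF (M * p) σ • (galFF (M * p) τ₀ • x) =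
            galFF (M * p) τ₀ • (galFF (M * p) (τ₀⁻¹ * σ * τ₀) • x) := by
          rw [← mul_smul, ← mul_smul, ← map_mul, ← map_mul]
          congr 2
          group
        show galFF (M * p) σ • (galFF (M * p) τ₀ • x) = galFF (M * p) τ₀ • x
        rw [h2]
        congr 1)
      D hf0 hfH hdiv
  refine ⟨E, u, hE, hu0, huH, fun σ hσ => ?_, fun v => (hdivu v).symm, hu₁, hu₂⟩
  -- `E` is `H`-stable, because `u` is `H`-fixed
  have hpz : (p : ℤ) ≠ 0 := by exact_mod_cast hp.ne_zero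
  ext v
  apply mul_left_cancel₀ hpz
  rw [SemilinearAut.divisor_smul_apply, hdivu, hdivu, ← uk_ord_smul' (galFF (M * p) σ) v u]
  congr 1
  exact huH σ hσ

/-- a distributive action commutes with multiples -/
theorem wk2_smul_nsmul {G V : Type*} [Monoid G] [AddMonoid V] [DistribMulAction G V]
    (g : G) (a : ℕ) (t : V) : g • (a • t) = a • (g • t) :=
  map_nsmul (DistribSMul.toAddMonoidHom V g) a t

/-- `I₁` is normalised by the inertia group -/
theorem wk2_norm (A : ValuationSubring Kbar) (p : ℕ) (τ₀ : Kbar ≃ₐ[ℚ] Kbar)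
    (hτ₀ : τ₀ ∈ A.inertiaSubgroupIn ℚ) (σ : Kbar ≃ₐ[ℚ] Kbar) (hσ : σ ∈ S40hI1 p A) :
    τ₀⁻¹ * σ * τ₀ ∈ S40hI1 p A := by
  refine ⟨mul_mem (mul_mem (inv_mem hτ₀) hσ.1) hτ₀, fun ξ hξ => ?_⟩
  have h1 : (τ₀ ξ) ^ p = 1 := by rw [← map_pow, hξ, map_one]
  have h2 : σ (τ₀ ξ) = τ₀ ξ := hσ.2 _ h1
  show τ₀⁻¹ (σ (τ₀ ξ)) = ξ
  rw [h2]
  exact τ₀.symm_apply_apply ξ

include hA hR in
/-- **(Z1)**: the `I₁`-FIXED (KER2) input of `wtr_kummer` / `tcc_deep` for a class `t` killed by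
`p`, fixed by `I₁`, on which some `τ₀` of the inertia group acts by `w ≢ 1 mod p`. -/
theorem wk2_input [RRBase Kbar (FF (M * p))] {ζ : Kbar} (hζ : IsPrimitiveRoot ζ p)
    (t : JZero (M * p)) (ut : FF (M * p)) (ht : gdfIsKummer (K := Kbar) p t ut)
    (hpt : p • t = 0)
    (hI1 : ∀ σ ∈ S40hI1 p A, galFF (M * p) σ • t = t)
    (τ₀ : Kbar ≃ₐ[ℚ] Kbar) (hτ₀ : τ₀ ∈ A.inertiaSubgroupIn ℚ) (w : ℕ)
    (hτt : galFF (M * p) τ₀ • t = w • t) (hw : ¬ (p : ℤ) ∣ (w : ℤ) - 1) :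
    ∃ (E : Divisor Kbar (FF (M * p))) (u : FF (M * p)), Divisor.degree E = 0 ∧
      (∀ σ ∈ S40hI1 p A, galFF (M * p) σ • E = E) ∧ gdfIsKummer (K := Kbar) p t u ∧
      (∀ σ ∈ S40hI1 p A, galFF (M * p) σ • u = u) ∧
      u - 1 ∈ R.O.nonunits ∧ u - 1 ∈ (vkZero M p hp hpM R).O.nonunits ∧
      ∀ v : Place Kbar (FF (M * p)), v.ord u = p * E v := by
  -- the inverse `a` of `w - 1` modulo `p`
  have hcop : IsCoprime ((w : ℤ) - 1) (p : ℤ) := by
    rw [isCoprime_comm]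
    exact (Nat.prime_iff_prime_int.mp hp).coprime_iff_not_dvd.mpr hw
  obtain ⟨a₀, b₀, hab⟩ := hcop
  obtain ⟨a, ha⟩ : ∃ a : ℕ, (p : ℤ) ∣ (a : ℤ) * ((w : ℤ) - 1) - 1 := by
    refine ⟨(a₀ % p).toNat, ?_⟩
    have hpos : (0 : ℤ) < p := by exact_mod_cast hp.pos
    have h1 : ((a₀ % p).toNat : ℤ) = a₀ % p := Int.toNat_of_nonneg (Int.emod_nonneg _ hpos.ne')
    rw [h1]
    have h2 : a₀ % (p : ℤ) = a₀ - p * (a₀ / p) := by
      have := Int.emod_add_mul_ediv a₀ p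
      linarith
    rw [h2]
    refine ⟨-(a₀ / p) * ((w : ℤ) - 1) - b₀, ?_⟩
    linear_combination hab
  -- the class `y = a t`
  have hy := gdf_isKummer_pow ht a
  have hyfix : ∀ τ ∈ sfnH A ζ (⊤ : Subgroup (Kbar ≃ₐ[ℚ] Kbar)), τ • (a • t) = a • t := by
    intro τ hτ
    have h1 := hI1 τ ((wtr_mem_I1_iff hp A hζ τ).2 hτ)
    show galFF (M * p) τ • (a • t) = a • t
    rw [wk2_smul_nsmul, h1]
  obtain ⟨c, s, u1, -, -, -, hu1, hfix⟩ :=
    wrt_fixed_kummer (M * p) hp.pos hζ (sfnH A ζ (⊤ : Subgroup (Kbar ≃ₐ[ℚ] Kbar))) hy hyfix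
  obtain ⟨D, hD, hord⟩ := gdf_isKummer_ord hu1
  have hu1H : u1 ∈ fixedLBC (S40hI1 p A) (modularFunctionFieldFull (M * p)) := by
    intro σ hσ
    apply Subtype.ext
    exact hfix σ ((wtr_mem_I1_iff hp A hζ σ).1 hσ)
  obtain ⟨E, u, hE, hu0, huH, hEH, hdiv, hu₁, hu₂⟩ :=
    wk2_main M p hp hpM A hA R hR (S40hI1 p A) (fun σ hσ => hσ.1) τ₀ hτ₀
      (wk2_norm A p τ₀ hτ₀) D (gdf_isKummer_ne_zero hu1) hu1H hord
  -- the class of `E` is `t`
  have hEt : Pic0.mk E = t := by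
    rw [hE, hD, wk2_smul_nsmul, hτt]
    have h3 : a • (w • t) - a • t - t = ((a : ℤ) * ((w : ℤ) - 1) - 1) • t := by
      rw [sub_smul, one_smul, mul_sub, sub_smul, mul_one, mul_smul]
      simp only [natCast_zsmul]
    obtain ⟨m, hm⟩ := ha
    have h4 : a • (w • t) - a • t - t = 0 := by
      rw [h3, hm, mul_comm (p : ℤ) m, mul_smul, natCast_zsmul, hpt, smul_zero]
    exact sub_eq_zero.mp h4
  refine ⟨E, u, E.2, hEH, gdf_isKummer_of_ord hu0 E hEt (fun v => (hdiv v).symm), huH, hu₁,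
    hu₂, hdiv⟩

end Conc

end Fermat.Agent.S40lib
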