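import Mathlib
import Fermat.Agent.S36lib.Speed
import Fermat.Agent.S40lib.WildKer2
import Fermat.Agent.S40lib.RatKummer

/-!
# Item 88 (S44), block (J-WILD), (Z') = (Z1) + normal form, WIRED (helper29)

`rkn_normal`: for a class `t` of the auxiliary level `M p`, killed by `p`, fixed by `I₁`, on which
some inertia element acts by `w ≢ 1 mod p`, with a Kummer-new Kummer function `ut`:
there is `g`, FIXED BY `I₁`, `g ∈ O_R ∩ O_{R₀}`, regular off the two cusps, such that
`1 + (ζ - 1) ^ p g` is a Kummer function of `-t`.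

= `wk2_input` (helper5, (Z1)) + `rck_kummer` (`wtr_kummer` of helper19 with the gluing package of
`rcx_glbc_exists`).  No hypothesis left except the class data.  Complete proof.
-/

set_option autoImplicit false
set_option linter.style.haveILetI false
set_option linter.unusedVariables false
set_option linter.unusedSectionVars false
set_option synthInstance.maxHeartbeats 400000

noncomputable section

namespace Fermat.Agent.S40lib

open AlgebraicCurve Fermat.Agent.GoodRed ModularCurve HahnSeries Fermat.Agent.S24lib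
  Fermat.Agent.RRlib Fermat.Agent.GM Fermat.Agent.S34lib Fermat.Agent.S35lib
  Fermat.Agent.S36lib Fermat.Agent.S33lib Fermat.Agent.GalRep Fermat.Agent.HeckeBar

variable (M p : ℕ) [NeZero M] [NeZero p] [NeZero (M * p)] (hp : p.Prime)

set_option maxHeartbeats 2000000 in
/-- **(Z') normal form, all inputs discharged.** -/
theorem rkn_normal [RRHyp Kbar (FF (M * p))] (hp2 : p ≠ 2) (haux : IsAuxLevel p M)
    {A : ValuationSubring Kbar} (hA : A.LiesOverPrime p)
    (R : ConstRed A (IsLocalRing.residue A)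
      (↥(modularFunctionFieldFullC (IsLocalRing.ResidueField A) M)) (FF (M * p)))
    (hR : IsSeriesRed R) {ζ : Kbar} (hζ : IsPrimitiveRoot ζ p)
    (t : JZero (M * p)) (ut : FF (M * p)) (ht : gdfIsKummer (K := Kbar) p t ut)
    (hnew : IsKummerNew M p p ut) (hpt : p • t = 0)
    (hI1 : ∀ σ ∈ S40hI1 p A, galFF (M * p) σ • t = t)
    (τ₀ : Kbar ≃ₐ[ℚ] Kbar) (hτ₀ : τ₀ ∈ A.inertiaSubgroupIn ℚ) (w : ℕ)
    (hτt : galFF (M * p) τ₀ • t = w • t) (hw : ¬ (p : ℤ) ∣ (w : ℤ) - 1) :
    ∃ g : FF (M * p), (∀ σ ∈ S40hI1 p A, galFF (M * p) σ • g = g) ∧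
      g ∈ cxiB (infPlaceBar (M * p))
        (cuspZero (M * p) p hp (dvd_mul_left p M) (inf_not_sq_dvd M p hp haux.1)) ∧
      g ∈ R.O ∧ g ∈ (glmZero M p hp haux.1 R).O ∧
      gdfIsKummer (K := Kbar) p (-t) (1 + algebraMap Kbar (FF (M * p)) ((ζ - 1) ^ p) * g) ∧
      ∀ σ ∈ S40hI1 p A, galFF (M * p) σ •
        (1 + algebraMap Kbar (FF (M * p)) ((ζ - 1) ^ p) * g) =
          1 + algebraMap Kbar (FF (M * p)) ((ζ - 1) ^ p) * g := by
  obtain ⟨E, u, hE, hEH, hk, huH, hu₁, hu₂, hdiv⟩ :=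
    wk2_input M p hp haux.1 A hA R hR hζ t ut ht hpt hI1 τ₀ hτ₀ w hτt hw
  have hnew' : IsKummerNew M p p u := by
    obtain ⟨c, s, -, -, hcs⟩ := gdf_isKummer_unique ht hk
    rw [hcs]
    exact tas_isKummerNew_mul_pow hnew c s
  exact rck_kummer M p hp hp2 haux hA R hR hζ E hE hEH t u hk huH hu₁ hu₂ hdiv hnew'

end Fermat.Agent.S40lib

end
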