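import Mathlib
import Fermat.Agent.S36lib.Speed
import Fermat.Agent.S36lib.InvertOrd

/-!
# Item 88 (S44), block (J-WILD), input (SAME) of the final assembler, abstract form (helper21)

`hsame` of `cva_hcx_ref` (CoverAsm4.lean): the vertical primes `x₀ ∈ B_{s₀}`, `x ∈ B_s` at two
centres `s₀`, `s` of places on the SAME component `P` of the special fibre define the same
valuation ring of the function field `F = Frac B`, namely `B_P`.

* `scaInP P f`      : `f ∈ B_P` (as a predicate on `F`);
* `sca_nonneg_iff`  : `0 ≤ ord_x f ↔ f ∈ B_P`, for `R` a localization of `B` at a prime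
                      `s ⊇ P` and `x` with the `(X)`-package of `g2w_point_node`
                      (`x ∈ P`, `∀ z ∈ P, x ∣ εx * z`, `εx ∉ s`);
* `sca_hsame`       : `hsame` of `cva_hcx_ref` for two such centres;
* `sca_hsame_ker`   : the same with `P = ker r₁` (the shape of the `(X)`-package).
(complete proofs, Mathlib + `s36_ordAt` only)
-/

set_option autoImplicit false
set_option linter.unusedSectionVars false
set_option linter.unusedVariables false

namespace Fermat.Agent.S40lib

open Fermat.Agent.S36lib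

section Same

variable {B F : Type*} [CommRing B] [IsDomain B] [Field F] [Algebra B F] [IsFractionRing B F]

/-- `f ∈ B_P`, as a predicate on the fraction field. -/
def scaInP (P : Ideal B) (f : F) : Prop :=
  ∃ a b : B, b ∉ P ∧ f * algebraMap B F b = algebraMap B F a

variable {R : Type*} [CommRing R] [IsDomain R] [UniqueFactorizationMonoid R] [Algebra B R]
  [Algebra R F] [IsFractionRing R F] [IsScalarTower B R F]

/-- elements outside `s` are units of the localization at `s`, so a prime does not divide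
them. -/
theorem sca_not_dvd_unit (s : Ideal B) [hs : s.IsPrime] [IsLocalization.AtPrime R s]
    (π : R) (hπ : Prime π) (t : B) (ht : t ∉ s) : ¬ π ∣ algebraMap B R t := by
  intro h
  have hu : IsUnit (algebraMap B R t) :=
    IsLocalization.map_units (M := s.primeCompl) R ⟨t, ht⟩
  exact hπ.not_isUnit (isUnit_of_dvd_unit h hu)

/-- **the vertical order is non-negative exactly on `B_P`**. -/
theorem sca_nonneg_iff (s : Ideal B) [hs : s.IsPrime] [IsLocalization.AtPrime R s]
    (P : Ideal B) (hP : P.IsPrime) (hPs : P ≤ s)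
    (x εx : B) (hx : x ∈ P) (hxg : ∀ z ∈ P, x ∣ εx * z) (hεx : εx ∉ s)
    (hxR : Prime (algebraMap B R x)) (f : F) (hf : f ≠ 0) :
    0 ≤ s36_ordAt (algebraMap B R x) hxR f ↔ scaInP (F := F) P f := by
  have hinjR : Function.Injective (algebraMap R F) := IsFractionRing.injective R F
  have hinjB : Function.Injective (algebraMap B F) := IsFractionRing.injective B F
  have htow : ∀ b : B, algebraMap R F (algebraMap B R b) = algebraMap B F b := fun b =>
    (IsScalarTower.algebraMap_apply B R F b).symm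
  constructor
  · intro h0
    obtain ⟨a, b, ha, hb, h⟩ := s36_ordAt_spec (F := F) (algebraMap B R x) hxR hf
    obtain ⟨m, hm⟩ := Int.eq_ofNat_of_zero_le h0
    rw [hm, zpow_natCast] at h
    obtain ⟨⟨a', ta⟩, hta⟩ := IsLocalization.surj (M := s.primeCompl) a
    obtain ⟨⟨b', tb⟩, htb⟩ := IsLocalization.surj (M := s.primeCompl) b
    simp only at hta htb
    have hta' : ((ta : B)) ∉ s := ta.2
    have htb' : ((tb : B)) ∉ s := tb.2
    refine ⟨a' * x ^ m * (tb : B), b' * (ta : B), ?_, ?_⟩
    · intro hmem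
      rcases hP.mem_or_mem hmem with h1 | h1
      · -- `b' ∈ P` forces `π ∣ b`
        obtain ⟨c, hc⟩ := hxg b' h1
        have h2 : algebraMap B R x ∣ algebraMap B R εx * (b * algebraMap B R (tb : B)) := by
          refine ⟨algebraMap B R c, ?_⟩
          rw [htb, ← map_mul, ← map_mul, hc]
        rcases hxR.dvd_or_dvd h2 with h3 | h3
        · exact sca_not_dvd_unit s _ hxR εx hεx h3
        · rcases hxR.dvd_or_dvd h3 with h4 | h4
          · exact hb h4
          · exact sca_not_dvd_unit s _ hxR _ htb' h4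
      · exact hta' (hPs h1)
    · have e1 : algebraMap B F b' = algebraMap R F b * algebraMap B F (tb : B) := by
        rw [← htow b', ← htb, map_mul, htow]
      have e2 : algebraMap B F a' = algebraMap R F a * algebraMap B F (ta : B) := by
        rw [← htow a', ← hta, map_mul, htow]
      rw [htow] at h
      rw [map_mul, map_mul, map_mul, map_pow, e1, e2]
      linear_combination (algebraMap B F (tb : B) * algebraMap B F (ta : B)) * h
  · rintro ⟨a, b, hb, h⟩
    have hb0 : b ≠ 0 := fun h0 => hb (h0 ▸ P.zero_mem)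
    have hbF : algebraMap B F b ≠ 0 := fun h0 => hb0 (hinjB (by rw [h0, map_zero]))
    have haF : algebraMap B F a ≠ 0 := by
      rw [← h]
      exact mul_ne_zero hf hbF
    have haR : algebraMap B R a ≠ 0 := by
      intro h0
      apply haF
      rw [← htow, h0, map_zero]
    obtain ⟨m, a', ha', hma⟩ := WfDvdMonoid.max_power_factor haR hxR.irreducible
    have hbR : ¬ algebraMap B R x ∣ algebraMap B R b := by
      intro hd
      apply hb
      -- `algebraMap b ∈ (π) ⊆ P R`, and the contraction of `P R` is `P`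
      have h1 : algebraMap B R b ∈ Ideal.map (algebraMap B R) P := by
        obtain ⟨c, hc⟩ := hd
        rw [hc]
        exact Ideal.mul_mem_right _ _ (Ideal.mem_map_of_mem _ hx)
      have hdisj : Disjoint (s.primeCompl : Set B) (P : Set B) := by
        rw [Set.disjoint_left]
        intro t ht htP
        exact ht (hPs htP)
      have h2 := IsLocalization.under_map_of_isPrime_disjoint s.primeCompl R hP hdisj
      have h3 : b ∈ Ideal.comap (algebraMap B R) (Ideal.map (algebraMap B R) P) :=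
        Ideal.mem_comap.mpr h1
      exact h2 ▸ h3
    have key : s36_ordAt (algebraMap B R x) hxR f = (m : ℤ) := by
      refine s36_ordAt_eq (F := F) (algebraMap B R x) hxR (a := a') (b := algebraMap B R b)
        ha' hbR ?_
      rw [htow, h, ← htow a, hma, map_mul, map_pow, zpow_natCast]
      ring
    rw [key]
    exact Int.natCast_nonneg m

end Same

section Two

variable {B F : Type*} [CommRing B] [IsDomain B] [Field F] [Algebra B F] [IsFractionRing B F]
variable {R₀ : Type*} [CommRing R₀] [IsDomain R₀] [UniqueFactorizationMonoid R₀] [Algebra B R₀]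
  [Algebra R₀ F] [IsFractionRing R₀ F] [IsScalarTower B R₀ F]
variable {R : Type*} [CommRing R] [IsDomain R] [UniqueFactorizationMonoid R] [Algebra B R]
  [Algebra R F] [IsFractionRing R F] [IsScalarTower B R F]

/-- **(SAME)**: `hsame` of `cva_hcx_ref` for two centres `s₀`, `s` on the same component `P`. -/
theorem sca_hsame (s₀ : Ideal B) [hs₀ : s₀.IsPrime] [IsLocalization.AtPrime R₀ s₀]
    (s : Ideal B) [hs : s.IsPrime] [IsLocalization.AtPrime R s]
    (P : Ideal B) (hP : P.IsPrime) (hPs₀ : P ≤ s₀) (hPs : P ≤ s)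
    (x₀ εx₀ : B) (hx₀ : x₀ ∈ P) (hxg₀ : ∀ z ∈ P, x₀ ∣ εx₀ * z) (hεx₀ : εx₀ ∉ s₀)
    (hxR₀ : Prime (algebraMap B R₀ x₀))
    (x εx : B) (hx : x ∈ P) (hxg : ∀ z ∈ P, x ∣ εx * z) (hεx : εx ∉ s)
    (hxR : Prime (algebraMap B R x)) :
    ∀ f : F, f ≠ 0 →
      (0 ≤ s36_ordAt (algebraMap B R₀ x₀) hxR₀ f ↔ 0 ≤ s36_ordAt (algebraMap B R x) hxR f) := by
  intro f hf
  rw [sca_nonneg_iff (F := F) s₀ P hP hPs₀ x₀ εx₀ hx₀ hxg₀ hεx₀ hxR₀ f hf,
    sca_nonneg_iff (F := F) s P hP hPs x εx hx hxg hεx hxR f hf]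

/-- **(SAME)** in the shape of the `(X)`-package of `g2w_point_node`: `P = ker r₁`. -/
theorem sca_hsame_ker {κ₁ : Type*} [Field κ₁] (r₁ : B →+* κ₁)
    (s₀ : Ideal B) [hs₀ : s₀.IsPrime] [IsLocalization.AtPrime R₀ s₀]
    (s : Ideal B) [hs : s.IsPrime] [IsLocalization.AtPrime R s]
    (h₁₀ : RingHom.ker r₁ ≤ s₀) (h₁ : RingHom.ker r₁ ≤ s)
    (x₀ εx₀ : B) (hx₀ : x₀ ∈ RingHom.ker r₁) (hxg₀ : ∀ z ∈ RingHom.ker r₁, x₀ ∣ εx₀ * z)
    (hεx₀ : εx₀ ∉ s₀) (hxR₀ : Prime (algebraMap B R₀ x₀))
    (x εx : B) (hx : x ∈ RingHom.ker r₁) (hxg : ∀ z ∈ RingHom.ker r₁, x ∣ εx * z)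
    (hεx : εx ∉ s) (hxR : Prime (algebraMap B R x)) :
    ∀ f : F, f ≠ 0 →
      (0 ≤ s36_ordAt (algebraMap B R₀ x₀) hxR₀ f ↔ 0 ≤ s36_ordAt (algebraMap B R x) hxR f) :=
  sca_hsame (F := F) s₀ s (RingHom.ker r₁) (RingHom.ker_isPrime r₁) h₁₀ h₁
    x₀ εx₀ hx₀ hxg₀ hεx₀ hxR₀ x εx hx hxg hεx hxR

end Two

end Fermat.Agent.S40lib
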