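import Mathlib
import Fermat.Agent.S36lib.Speed
import Fermat.Agent.S40lib.CoverAsm4
import Fermat.Agent.S40lib.SameCompAbs

/-!
# Item 88 (S44), block (J-WILD), final assembler, input `(V)` of `s40j_pt_node` (helper21)

The GLOBAL reference orders `vInf`, `vZero` of `s40j_pt_node` / `s40j_pt_smooth`
(`WildPtAsm.lean`, `WildPtAsmS.lean`), in the exact shape of their hypotheses
`hvInf hvInf1 hvInfF` (resp. `hvZero hvZero1 hvZeroF`):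

* `rovRef`   : `vRef := ord_{x₀}` of the node ring `L₀ = C₀_𝔫₀` over `R₀ = B_{s₀}` at ONE
               reference centre `s₀`;
* `rov_ord`  : `G2cOrd vRef`;
* `rov_one`  : `∃ z ≠ 0, vRef z = 1`;
* `rov_hvF`  : at EVERY centre `s` on the same component (`(X)`-package `x εx hx hxg hεx` with
               the same `r₁`): `0 ≤ vRef (algebraMap F E₀ f) ↔ 0 ≤ ord_{x_s} f`;
* `rov_V`    : the three statements together.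
For the `0`-branch use the same statements with `(y₀, εy₀)`, `(y, εy)` and `r₁ := redZero`.
(complete proofs, standard axioms only)
-/

set_option autoImplicit false
set_option linter.style.haveILetI false
set_option linter.unusedSectionVars false
set_option linter.unusedVariables false

namespace Fermat.Agent.S40lib

open IsLocalRing Fermat.Agent.S36lib

section RefV

variable {B κ₁ F E₀ : Type*} [CommRing B] [IsDomain B] [Field κ₁] [Field F] [Algebra B F]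
  [IsFractionRing B F]
  {R₀ : Type*} [CommRing R₀] [IsDomain R₀] [UniqueFactorizationMonoid R₀]
  [IsIntegrallyClosed R₀] [Algebra B R₀]
  [Algebra R₀ F] [IsFractionRing R₀ F] [IsScalarTower B R₀ F]
  [Field E₀] [Algebra R₀ E₀] [Algebra F E₀] [IsScalarTower R₀ F E₀]

/-- **the reference order** `vRef = ord_{x₀}` of the node ring `L₀ = C₀_𝔫₀`. -/
noncomputable def rovRef (x₀ : R₀) (z₁ : E₀)
    (hgen₁ : Algebra.adjoin F ({z₁} : Set E₀) = ⊤)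
    (𝔫₀ : Ideal (Algebra.adjoin R₀ ({z₁} : Set E₀))) [h𝔫₀ : 𝔫₀.IsPrime]
    (hdom₀ : IsDomain (Localization.AtPrime 𝔫₀))
    (hufm₀ : UniqueFactorizationMonoid (Localization.AtPrime 𝔫₀))
    (hxL₀ : Prime (algebraMap _ (Localization.AtPrime 𝔫₀)
      (algebraMap R₀ (Algebra.adjoin R₀ ({z₁} : Set E₀)) x₀))) : E₀ → ℤ :=
  @s36_ordAt (Localization.AtPrime 𝔫₀) E₀ _ hdom₀ hufm₀ _ (cvn_alg z₁ 𝔫₀)
    (cvn_frac z₁ hgen₁ 𝔫₀)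
    (algebraMap _ (Localization.AtPrime 𝔫₀)
      (algebraMap R₀ (Algebra.adjoin R₀ ({z₁} : Set E₀)) x₀)) hxL₀

/-- `G2cOrd vRef`. -/
theorem rov_ord (x₀ : R₀) (hx₀ : Prime x₀) (z₁ : E₀) (hz₁ : IsIntegral R₀ z₁)
    (hgen₁ : Algebra.adjoin F ({z₁} : Set E₀) = ⊤)
    (𝔫₀ : Ideal (Algebra.adjoin R₀ ({z₁} : Set E₀))) [h𝔫₀ : 𝔫₀.IsPrime]
    (hx𝔫₀ : algebraMap R₀ (Algebra.adjoin R₀ ({z₁} : Set E₀)) x₀ ∈ 𝔫₀)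
    (hdom₀ : IsDomain (Localization.AtPrime 𝔫₀))
    (hufm₀ : UniqueFactorizationMonoid (Localization.AtPrime 𝔫₀))
    (hxL₀ : Prime (algebraMap _ (Localization.AtPrime 𝔫₀)
      (algebraMap R₀ (Algebra.adjoin R₀ ({z₁} : Set E₀)) x₀))) :
    G2cOrd (rovRef (F := F) x₀ z₁ hgen₁ 𝔫₀ hdom₀ hufm₀ hxL₀) :=
  (cva_ref_ord (F := F) x₀ hx₀ z₁ hz₁ hgen₁ 𝔫₀ hx𝔫₀ hdom₀ hufm₀ hxL₀).1

/-- `vRef` is normalised. -/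
theorem rov_one (x₀ : R₀) (hx₀ : Prime x₀) (z₁ : E₀) (hz₁ : IsIntegral R₀ z₁)
    (hgen₁ : Algebra.adjoin F ({z₁} : Set E₀) = ⊤)
    (𝔫₀ : Ideal (Algebra.adjoin R₀ ({z₁} : Set E₀))) [h𝔫₀ : 𝔫₀.IsPrime]
    (hx𝔫₀ : algebraMap R₀ (Algebra.adjoin R₀ ({z₁} : Set E₀)) x₀ ∈ 𝔫₀)
    (hdom₀ : IsDomain (Localization.AtPrime 𝔫₀))
    (hufm₀ : UniqueFactorizationMonoid (Localization.AtPrime 𝔫₀))
    (hxL₀ : Prime (algebraMap _ (Localization.AtPrime 𝔫₀)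
      (algebraMap R₀ (Algebra.adjoin R₀ ({z₁} : Set E₀)) x₀))) :
    ∃ z : E₀, z ≠ 0 ∧ rovRef (F := F) x₀ z₁ hgen₁ 𝔫₀ hdom₀ hufm₀ hxL₀ z = 1 :=
  (cva_ref_ord (F := F) x₀ hx₀ z₁ hz₁ hgen₁ 𝔫₀ hx𝔫₀ hdom₀ hufm₀ hxL₀).2.1

/-- `vRef` restricts to `ord_{x₀}` on `F`. -/
theorem rov_restrict (x₀ : R₀) (hx₀ : Prime x₀) (z₁ : E₀) (hz₁ : IsIntegral R₀ z₁)
    (hgen₁ : Algebra.adjoin F ({z₁} : Set E₀) = ⊤)
    (𝔫₀ : Ideal (Algebra.adjoin R₀ ({z₁} : Set E₀))) [h𝔫₀ : 𝔫₀.IsPrime]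
    (hx𝔫₀ : algebraMap R₀ (Algebra.adjoin R₀ ({z₁} : Set E₀)) x₀ ∈ 𝔫₀)
    (hdom₀ : IsDomain (Localization.AtPrime 𝔫₀))
    (hufm₀ : UniqueFactorizationMonoid (Localization.AtPrime 𝔫₀))
    (hxL₀ : Prime (algebraMap _ (Localization.AtPrime 𝔫₀)
      (algebraMap R₀ (Algebra.adjoin R₀ ({z₁} : Set E₀)) x₀))) (f : F) :
    rovRef (F := F) x₀ z₁ hgen₁ 𝔫₀ hdom₀ hufm₀ hxL₀ (algebraMap F E₀ f) =
      s36_ordAt x₀ hx₀ f :=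
  (cva_ref_ord (F := F) x₀ hx₀ z₁ hz₁ hgen₁ 𝔫₀ hx𝔫₀ hdom₀ hufm₀ hxL₀).2.2 f

variable {R : Type*} [CommRing R] [IsDomain R] [UniqueFactorizationMonoid R] [Algebra B R]
  [Algebra R F] [IsFractionRing R F] [IsScalarTower B R F]

/-- **`hvInfF` / `hvZeroF` of `s40j_pt_node`** at ANY centre `s` on the same component as the
reference centre `s₀`. -/
theorem rov_hvF (s₀ : Ideal B) [hs₀ : s₀.IsPrime] [IsLocalization.AtPrime R₀ s₀]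
    (s : Ideal B) [hs : s.IsPrime] [IsLocalization.AtPrime R s]
    (r₁ : B →+* κ₁) (h₁₀ : RingHom.ker r₁ ≤ s₀) (h₁ : RingHom.ker r₁ ≤ s)
    (x₀ εx₀ : B) (hx₀ : x₀ ∈ RingHom.ker r₁) (hxg₀ : ∀ z ∈ RingHom.ker r₁, x₀ ∣ εx₀ * z)
    (hεx₀ : εx₀ ∉ s₀) (hxR₀ : Prime (algebraMap B R₀ x₀))
    (x εx : B) (hx : x ∈ RingHom.ker r₁) (hxg : ∀ z ∈ RingHom.ker r₁, x ∣ εx * z)
    (hεx : εx ∉ s) (hxR : Prime (algebraMap B R x))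
    (z₁ : E₀) (hz₁ : IsIntegral R₀ z₁)
    (hgen₁ : Algebra.adjoin F ({z₁} : Set E₀) = ⊤)
    (𝔫₀ : Ideal (Algebra.adjoin R₀ ({z₁} : Set E₀))) [h𝔫₀ : 𝔫₀.IsPrime]
    (hx𝔫₀ : algebraMap R₀ (Algebra.adjoin R₀ ({z₁} : Set E₀)) (algebraMap B R₀ x₀) ∈ 𝔫₀)
    (hdom₀ : IsDomain (Localization.AtPrime 𝔫₀))
    (hufm₀ : UniqueFactorizationMonoid (Localization.AtPrime 𝔫₀))
    (hxL₀ : Prime (algebraMap _ (Localization.AtPrime 𝔫₀)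
      (algebraMap R₀ (Algebra.adjoin R₀ ({z₁} : Set E₀)) (algebraMap B R₀ x₀)))) :
    ∀ f : F, f ≠ 0 →
      (0 ≤ rovRef (F := F) (algebraMap B R₀ x₀) z₁ hgen₁ 𝔫₀ hdom₀ hufm₀ hxL₀
          (algebraMap F E₀ f) ↔
        0 ≤ s36_ordAt (algebraMap B R x) hxR f) := by
  intro f hf
  rw [rov_restrict (F := F) (algebraMap B R₀ x₀) hxR₀ z₁ hz₁ hgen₁ 𝔫₀ hx𝔫₀ hdom₀ hufm₀ hxL₀ f]
  exact sca_hsame_ker (F := F) r₁ s₀ s h₁₀ h₁ x₀ εx₀ hx₀ hxg₀ hεx₀ hxR₀ x εx hx hxg hεx hxR f hf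

/-- **the package `(V)`** (one branch) of `s40j_pt_node` / `s40j_pt_smooth`. -/
theorem rov_V (s₀ : Ideal B) [hs₀ : s₀.IsPrime] [IsLocalization.AtPrime R₀ s₀]
    (s : Ideal B) [hs : s.IsPrime] [IsLocalization.AtPrime R s]
    (r₁ : B →+* κ₁) (h₁₀ : RingHom.ker r₁ ≤ s₀) (h₁ : RingHom.ker r₁ ≤ s)
    (x₀ εx₀ : B) (hx₀ : x₀ ∈ RingHom.ker r₁) (hxg₀ : ∀ z ∈ RingHom.ker r₁, x₀ ∣ εx₀ * z)
    (hεx₀ : εx₀ ∉ s₀) (hxR₀ : Prime (algebraMap B R₀ x₀))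
    (x εx : B) (hx : x ∈ RingHom.ker r₁) (hxg : ∀ z ∈ RingHom.ker r₁, x ∣ εx * z)
    (hεx : εx ∉ s) (hxR : Prime (algebraMap B R x))
    (z₁ : E₀) (hz₁ : IsIntegral R₀ z₁)
    (hgen₁ : Algebra.adjoin F ({z₁} : Set E₀) = ⊤)
    (𝔫₀ : Ideal (Algebra.adjoin R₀ ({z₁} : Set E₀))) [h𝔫₀ : 𝔫₀.IsPrime]
    (hx𝔫₀ : algebraMap R₀ (Algebra.adjoin R₀ ({z₁} : Set E₀)) (algebraMap B R₀ x₀) ∈ 𝔫₀)
    (hdom₀ : IsDomain (Localization.AtPrime 𝔫₀))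
    (hufm₀ : UniqueFactorizationMonoid (Localization.AtPrime 𝔫₀))
    (hxL₀ : Prime (algebraMap _ (Localization.AtPrime 𝔫₀)
      (algebraMap R₀ (Algebra.adjoin R₀ ({z₁} : Set E₀)) (algebraMap B R₀ x₀)))) :
    G2cOrd (rovRef (F := F) (algebraMap B R₀ x₀) z₁ hgen₁ 𝔫₀ hdom₀ hufm₀ hxL₀) ∧
    (∃ z : E₀, z ≠ 0 ∧
      rovRef (F := F) (algebraMap B R₀ x₀) z₁ hgen₁ 𝔫₀ hdom₀ hufm₀ hxL₀ z = 1) ∧
    ∀ f : F, f ≠ 0 →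
      (0 ≤ rovRef (F := F) (algebraMap B R₀ x₀) z₁ hgen₁ 𝔫₀ hdom₀ hufm₀ hxL₀
          (algebraMap F E₀ f) ↔
        0 ≤ s36_ordAt (algebraMap B R x) hxR f) :=
  ⟨rov_ord (F := F) _ hxR₀ z₁ hz₁ hgen₁ 𝔫₀ hx𝔫₀ hdom₀ hufm₀ hxL₀,
    rov_one (F := F) _ hxR₀ z₁ hz₁ hgen₁ 𝔫₀ hx𝔫₀ hdom₀ hufm₀ hxL₀,
    rov_hvF (F := F) s₀ s r₁ h₁₀ h₁ x₀ εx₀ hx₀ hxg₀ hεx₀ hxR₀ x εx hx hxg hεx hxR z₁ hz₁ hgen₁
      𝔫₀ hx𝔫₀ hdom₀ hufm₀ hxL₀⟩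

end RefV

end Fermat.Agent.S40lib
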