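import Mathlib
import Fermat.Agent.S36lib.Speed

/-!
# Item 88 (S40), piece (W1) ordinary case, step (4) (helper7): the abstract counting lemma

`V` an abelian group killed by `p` with `p ^ 2` elements, on which a group `G` acts; `E ≠ ⊤` a
subgroup and `τ ∈ G` with `(τ - 1) V ⊂ E`.  Then some `P ∉ E` is fixed by `τ` or by `τ ^ p`.

(`V = W[p]`, `E` = the kernel of reduction, `τ` an inertia element moving `μ_p`: `τ ^ p` moves
`μ_p` as well.)
-/

set_option autoImplicit false
set_option linter.style.haveILetI false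

namespace Fermat.Agent.S40lib

section Abs

variable {V : Type*} [AddCommGroup V] {G : Type*} [Group G] [DistribMulAction G V]

/-- `τ ^ n • P = P + n • (τ • P - P)` if `τ` fixes `τ • P - P` -/
theorem ssn_abs_pow (τ : G) (P : V) (hfix : τ • (τ • P - P) = τ • P - P) (n : ℕ) :
    τ ^ n • P = P + n • (τ • P - P) := by
  induction n with
  | zero => simp
  | succ n ih =>
    rw [pow_succ', mul_smul, ih, smul_add,
      ← DistribMulAction.toAddMonoidHom_apply (A := V) τ (n • (τ • P - P)), map_nsmul,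
      DistribMulAction.toAddMonoidHom_apply, hfix, succ_nsmul]
    abel

/-- **the abstract counting lemma** -/
theorem ssn_abs (p : ℕ) (hp : p.Prime) (hV : ∀ v : V, p • v = 0) (hcard : Nat.card V = p ^ 2)
    (E : AddSubgroup V) (hE : E ≠ ⊤) (τ : G) (hτ : ∀ v : V, τ • v - v ∈ E) :
    ∃ P : V, P ∉ E ∧ (τ • P = P ∨ τ ^ p • P = P) := by
  classical
  haveI : Finite V := Nat.finite_of_card_ne_zero (by rw [hcard]; exact pow_ne_zero _ hp.ne_zero)
  -- the map `τ - 1`
  set f : V →+ V := DistribSMul.toAddMonoidHom V τ - AddMonoidHom.id V with hf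
  have hfv : ∀ v : V, f v = τ • v - v := fun v => rfl
  -- `#E ≤ p`
  have hEle : Nat.card E ≤ p := by
    have h1 : Nat.card E ∣ p ^ 2 := hcard ▸ AddSubgroup.card_addSubgroup_dvd_card E
    obtain ⟨k, hk, hk'⟩ := (Nat.dvd_prime_pow hp).mp h1
    have hk2 : k ≠ 2 := by
      rintro rfl
      apply hE
      rw [← AddSubgroup.card_eq_iff_eq_top, hk', hcard]
    have hk1 : k ≤ 1 := by omega
    rw [hk']
    calc p ^ k ≤ p ^ 1 := Nat.pow_le_pow_right hp.pos hk1
      _ = p := pow_one p
  -- `p ≤ #ker`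
  have hrange : f.range ≤ E := by
    rintro _ ⟨v, rfl⟩
    rw [hfv]
    exact hτ v
  have hrle : Nat.card f.range ≤ p := (AddSubgroup.card_le_of_le hrange).trans hEle
  have hmul : Nat.card f.ker * Nat.card f.range = p ^ 2 := by
    rw [← AddSubgroup.index_ker, AddSubgroup.card_mul_index, hcard]
  have hker : p ≤ Nat.card f.ker := by
    by_contra hlt
    rw [not_le] at hlt
    have h1 : Nat.card f.ker * Nat.card f.range < p * p := by
      calc Nat.card f.ker * Nat.card f.range ≤ Nat.card f.ker * p := Nat.mul_le_mul_left _ hrle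
        _ < p * p := Nat.mul_lt_mul_of_pos_right hlt hp.pos
    rw [hmul, sq] at h1
    exact lt_irrefl _ h1
  by_cases hKE : f.ker ≤ E
  · -- `ker = E`, so `τ` is trivial on `E`
    have hEK : E ≤ f.ker := by
      have h1 : f.ker = E :=
        AddSubgroup.eq_of_le_of_card_ge hKE (hEle.trans hker)
      rw [h1]
    obtain ⟨P, -, hP⟩ := SetLike.exists_of_lt (lt_top_iff_ne_top.mpr hE)
    refine ⟨P, hP, Or.inr ?_⟩
    have hfix : τ • (τ • P - P) = τ • P - P := by
      have h1 := hEK (hτ P)
      rw [AddMonoidHom.mem_ker, hfv, sub_eq_zero] at h1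
      exact h1
    rw [ssn_abs_pow τ P hfix p, hV, add_zero]
  · -- a fixed point outside `E`
    obtain ⟨P, hPK, hPE⟩ := SetLike.not_le_iff_exists.mp hKE
    refine ⟨P, hPE, Or.inl ?_⟩
    rw [AddMonoidHom.mem_ker, hfv, sub_eq_zero] at hPK
    exact hPK

end Abs

end Fermat.Agent.S40lib
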