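import Mathlib
import Fermat.Agent.S36lib.Speed
import Fermat.Agent.S33lib.CycSpec

/-!
# Item 88 (S40), piece (W1) ordinary case, step (5) (helper7): `τ ^ p` moves `μ_p`

* `ssn_moves_pow`        : if `τ` moves a `p`-th root of unity then so does `τ ^ p`
                           (`χ(τ) ^ p = χ(τ)` in `(ℤ/p)ˣ`);
* `ssn_exists_moves_pow` : for every `B` over an odd prime `p` there is `τ₀` in the inertia
                           group of `B` such that `τ₀` and `τ₀ ^ p` (also in the inertia group)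
                           move `μ_p`;
* `ssn_moves_or`         : the form used with the counting lemma: a point fixed by `τ₀` or by
                           `τ₀ ^ p` is fixed by an inertia element moving `μ_p`.
-/

set_option autoImplicit false
set_option linter.style.haveILetI false

namespace Fermat.Agent.S40lib

open Fermat.Agent.GalRep Fermat.Agent.S31lib Fermat.Agent.S33lib

/-- in `(ℤ/p)ˣ` (written `(ZMod (p ^ 1))ˣ`) an element with `u ^ p = 1` is `1` -/
theorem ssn_unit_pow_p (p : ℕ) [Fact p.Prime] (u : (ZMod (p ^ 1))ˣ) (h : u ^ p = 1) : u = 1 := by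
  have hp : p.Prime := Fact.out
  haveI : NeZero (p ^ 1) := ⟨pow_ne_zero _ hp.ne_zero⟩
  have hcard : Nat.card (ZMod (p ^ 1))ˣ = p - 1 := by
    rw [Nat.card_eq_fintype_card, ZMod.card_units_eq_totient, Nat.totient_prime_pow hp one_pos]
    simp
  have h1 : u ^ (p - 1) = 1 := by
    rw [← hcard]
    exact pow_card_eq_one'
  have h2 : u ^ Nat.gcd p (p - 1) = 1 := pow_gcd_eq_one.mpr ⟨h, h1⟩
  have hcop : Nat.gcd p (p - 1) = 1 := by
    have : Nat.Coprime p (p - 1) := by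
      rw [hp.coprime_iff_not_dvd]
      have := hp.two_le
      exact Nat.not_dvd_of_pos_of_lt (by omega) (by omega)
    exact this
  rw [hcop] at h2
  exact (pow_one u).symm.trans h2

/-- if `τ` moves a `p`-th root of unity then so does `τ ^ p` -/
theorem ssn_moves_pow (p : ℕ) [Fact p.Prime] (τ : GQ) (h : S33hMoves p τ) :
    S33hMoves p (τ ^ p) := by
  rw [cysp_moves_iff] at h ⊢
  intro h1
  apply h
  rw [map_pow] at h1
  exact ssn_unit_pow_p p _ h1

/-- for every `B` over an odd prime `p` there is `τ₀` in the inertia group of `B` such that `τ₀`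
and `τ₀ ^ p` are inertia elements moving `μ_p` -/
theorem ssn_exists_moves_pow (p : ℕ) [Fact p.Prime] (hp2 : p ≠ 2)
    (B : ValuationSubring (AlgebraicClosure ℚ)) (hB : B.LiesOverPrime p) :
    ∃ τ₀ : AlgebraicClosure ℚ ≃ₐ[ℚ] AlgebraicClosure ℚ,
      (τ₀ ∈ B.inertiaSubgroupIn ℚ ∧ S33hMoves p τ₀) ∧
      (τ₀ ^ p ∈ B.inertiaSubgroupIn ℚ ∧ S33hMoves p (τ₀ ^ p)) := by
  obtain ⟨τ₀, hτ₀, hmv, -⟩ := cysp_exists_moves p hp2 B hB
  exact ⟨τ₀, ⟨hτ₀, hmv⟩, ⟨Subgroup.pow_mem _ hτ₀ p, ssn_moves_pow p τ₀ hmv⟩⟩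

/-- the form used with the counting lemma: there is `τ₀` in the inertia group such that every
point (of any Galois set) fixed by `τ₀` or by `τ₀ ^ p` is fixed by an inertia element moving
`μ_p`. -/
theorem ssn_moves_or (p : ℕ) [Fact p.Prime] (hp2 : p ≠ 2)
    (B : ValuationSubring (AlgebraicClosure ℚ)) (hB : B.LiesOverPrime p) :
    ∃ τ₀ : AlgebraicClosure ℚ ≃ₐ[ℚ] AlgebraicClosure ℚ, τ₀ ∈ B.inertiaSubgroupIn ℚ ∧
      ∀ {X : Type} [SMul (AlgebraicClosure ℚ ≃ₐ[ℚ] AlgebraicClosure ℚ) X] (P : X),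
        (τ₀ • P = P ∨ τ₀ ^ p • P = P) →
        ∃ τ ∈ B.inertiaSubgroupIn ℚ, S33hMoves p τ ∧ τ • P = P := by
  obtain ⟨τ₀, ⟨h1, h2⟩, ⟨h3, h4⟩⟩ := ssn_exists_moves_pow p hp2 B hB
  refine ⟨τ₀, h1, fun {X} _ P hP => ?_⟩
  rcases hP with h | h
  · exact ⟨τ₀, h1, h2, h⟩
  · exact ⟨τ₀ ^ p, h3, h4, h⟩

end Fermat.Agent.S40lib
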