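/-
Item 88 (S44), block (J-WILD), per-point assembly, piece **`hval` at `L`** (helper26).
Complete proofs.

The hypothesis `hval` of `g2w_point_node` / `g2w_point_smooth` (`WindcPoint.lean`) from
`g2b_hval_node` / `g2b_hval_smooth` (`CoverHval.lean`), with `hux` and `hinv` DISCHARGED at the
concrete constants `K0 = k0Field A`, `K = ℚ̄`, `F = F_N`:

* `wch_arch`  : for `ϖ ∈ 𝔪_A ∩ K0` and `c ∈ K0` there is `n` with `c ϖ ^ n ∈ A0 = k0Val A`
                (`A` is archimedean, `vri_arch`);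
* `wch_hinv`  : `hinv` of `g2b_hval_node`: `ιA : A0 → L` compatible with the constants
                (`algebraMap L E0 (ιA a) = algebraMap K0 E0 a`), `ϖ = e · ιA ϖA`, `e` a unit of `L`
                ⟹ every constant of `K0` has a multiple by a power of `ϖ` in `L`;
* `wch_hval_node`, `wch_hval_smooth` : `hval` at a node / smooth point of the cover, for
                `u = c · φ u_x · h ^ p` with `u_x` a Kummer function (`gdfIsKummer p x u_x`).
-/
import Mathlib
import Fermat.Agent.S36lib.Speed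
import Fermat.Agent.S36lib.TheSetup
import Fermat.Agent.S40lib.CoverHval

set_option autoImplicit false
set_option linter.unusedSectionVars false
set_option linter.unusedVariables false
set_option linter.style.haveILetI false

noncomputable section

namespace Fermat.Agent.S40lib

open AlgebraicCurve ModularCurve Fermat.Agent.RRlib Fermat.Agent.S33lib Fermat.Agent.S34lib
  Fermat.Agent.S36lib Fermat.Agent.S24lib

section Arch

variable (A : ValuationSubring Kbar) (p : ℕ) (hp : p.Prime) (hA : A.LiesOverPrime p)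

include hp hA in
/-- **`K0 = A0[1/ϖ]`**: every constant of `K0` has a multiple by a power of `ϖ` in `A0`. -/
theorem wch_arch (ϖA : k0Val A) (hϖA : ((ϖA : k0Field A) : Kbar) ∈ A.nonunits)
    (c : k0Field A) :
    ∃ (n : ℕ) (a : k0Val A), c * (ϖA : k0Field A) ^ n = (a : k0Field A) := by
  have harch : VArch A := vri_arch p hp A hA
  obtain ⟨n, hn⟩ := harch ((ϖA : k0Field A) : Kbar) (c : Kbar) ((A.mem_nonunits_iff).1 hϖA)
  have hmem : c * (ϖA : k0Field A) ^ n ∈ k0Val A := by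
    rw [mem_k0Val_iff]
    have h1 : ((c * (ϖA : k0Field A) ^ n : k0Field A) : Kbar)
        = ((ϖA : k0Field A) : Kbar) ^ n * (c : Kbar) := by
      push_cast
      ring
    rw [h1]
    exact (A.valuation_le_one_iff _).1 hn.le
  exact ⟨n, ⟨_, hmem⟩, rfl⟩

end Arch

section Hinv

variable (A : ValuationSubring Kbar) (p : ℕ) (hp : p.Prime) (hA : A.LiesOverPrime p)
variable {L E0 : Type*} [CommRing L] [Field E0] [Algebra L E0] [Algebra (k0Field A) E0]

include hp hA in
/-- **`hinv`** of `g2b_hval_node` / `g2b_hval_smooth`. -/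
theorem wch_hinv (ιA : k0Val A →+* L)
    (hcompat : ∀ a : k0Val A,
      algebraMap L E0 (ιA a) = algebraMap (k0Field A) E0 (a : k0Field A))
    (ϖA : k0Val A) (hϖA : ((ϖA : k0Field A) : Kbar) ∈ A.nonunits)
    (ϖ : L) (e : Lˣ) (hϖ : ϖ = e * ιA ϖA) :
    ∀ c : k0Field A, ∃ (a : L) (n : ℕ),
      algebraMap (k0Field A) E0 c * algebraMap L E0 ϖ ^ n = algebraMap L E0 a := by
  intro c
  obtain ⟨n, a, h⟩ := wch_arch A p hp hA ϖA hϖA c
  refine ⟨(e : L) ^ n * ιA a, n, ?_⟩
  rw [hϖ, map_mul, map_mul, mul_pow, hcompat, hcompat, map_pow, ← h, map_mul, map_pow]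
  ring

end Hinv

section Hval

variable (A : ValuationSubring Kbar) (p : ℕ) (hp : p.Prime) (hA : A.LiesOverPrime p)
variable (N : ℕ) [NeZero N] [RRBase Kbar (FF N)]
variable {E0 E L : Type*} [Field E0] [Field E]
  [CommRing L] [IsDomain L] [UniqueFactorizationMonoid L]
  [Algebra (k0Field A) E0] [Algebra Kbar E] [Algebra E0 E] [Algebra (k0Field A) E]
  [@IsScalarTower (k0Field A) Kbar E Algebra.toSMul Algebra.toSMul Algebra.toSMul]
  [@IsScalarTower (k0Field A) E0 E Algebra.toSMul Algebra.toSMul Algebra.toSMul]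
  [CharZero (k0Field A)] [Algebra.IsAlgebraic (k0Field A) Kbar]
  [Algebra L E0] [IsFractionRing L E0]

include hp hA in
/-- **`hval` at a node of the cover**, `hux` and `hinv` discharged. -/
theorem wch_hval_node (hgen : Algebra.adjoin E0 (Set.range (algebraMap Kbar E)) = ⊤)
    (φ : FF N →ₐ[Kbar] E) (hφ : φ.toRingHom.IsIntegral)
    {x₀ : JZero N} {ux : FF N} (hux : gdfIsKummer (K := Kbar) p x₀ ux)
    (u : E0) (h : E) (c : Kbar)
    (hrel : algebraMap E0 E u = algebraMap Kbar E c * φ ux * h ^ p)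
    (x y : L) (hx : Prime x) (hy : Prime y) (ϖ : L) (ε : Lˣ) (hϖ : ϖ = ε * x * y)
    (ιA : k0Val A →+* L)
    (hcompat : ∀ a : k0Val A,
      algebraMap L E0 (ιA a) = algebraMap (k0Field A) E0 (a : k0Field A))
    (ϖA : k0Val A) (hϖA : ((ϖA : k0Field A) : Kbar) ∈ A.nonunits)
    (e : Lˣ) (hϖe : ϖ = e * ιA ϖA) :
    ∀ π : L, Prime π → ¬ Associated π x → ¬ Associated π y →
      ∃ v : E0 → ℤ, (∀ a b : E0, a ≠ 0 → b ≠ 0 → v (a * b) = v a + v b) ∧
        v (algebraMap L E0 π) = 1 ∧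
        (∀ c : L, c ≠ 0 → ¬ π ∣ c → v (algebraMap L E0 c) = 0) ∧ (p : ℤ) ∣ v u :=
  g2b_hval_node (K0 := k0Field A) hgen φ hφ p ux (fun P' => g2b_kummer_ord hux P') u h c hrel
    x y hx hy ϖ ε hϖ (wch_hinv A p hp hA ιA hcompat ϖA hϖA ϖ e hϖe)

include hp hA in
/-- **`hval` at a smooth point of the cover**, `hux` and `hinv` discharged. -/
theorem wch_hval_smooth (hgen : Algebra.adjoin E0 (Set.range (algebraMap Kbar E)) = ⊤)
    (φ : FF N →ₐ[Kbar] E) (hφ : φ.toRingHom.IsIntegral)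
    {x₀ : JZero N} {ux : FF N} (hux : gdfIsKummer (K := Kbar) p x₀ ux)
    (u : E0) (h : E) (c : Kbar)
    (hrel : algebraMap E0 E u = algebraMap Kbar E c * φ ux * h ^ p)
    (x : L) (hx : Prime x) (ϖ : L) (ε : Lˣ) (hϖ : ϖ = ε * x)
    (ιA : k0Val A →+* L)
    (hcompat : ∀ a : k0Val A,
      algebraMap L E0 (ιA a) = algebraMap (k0Field A) E0 (a : k0Field A))
    (ϖA : k0Val A) (hϖA : ((ϖA : k0Field A) : Kbar) ∈ A.nonunits)
    (e : Lˣ) (hϖe : ϖ = e * ιA ϖA) :
    ∀ π : L, Prime π → ¬ Associated π x →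
      ∃ v : E0 → ℤ, (∀ a b : E0, a ≠ 0 → b ≠ 0 → v (a * b) = v a + v b) ∧
        v (algebraMap L E0 π) = 1 ∧
        (∀ c : L, c ≠ 0 → ¬ π ∣ c → v (algebraMap L E0 c) = 0) ∧ (p : ℤ) ∣ v u :=
  g2b_hval_smooth (K0 := k0Field A) hgen φ hφ p ux (fun P' => g2b_kummer_ord hux P') u h c hrel
    x hx ϖ ε hϖ (wch_hinv A p hp hA ιA hcompat ϖA hϖA ϖ e hϖe)

end Hval

end Fermat.Agent.S40lib

end
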