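import Mathlib
import Fermat.Agent.S36lib.Speed
import Fermat.Agent.S40lib.EdgeCover
import Fermat.Agent.S40lib.EisExt2
import Fermat.Agent.S40lib.BranchRing

/-!
# Item 88 (S40/S44), block (J-WILD), piece (G2e): WINDC for `u_x` at a point of `X`, route `K1`

(helper24.)  The wrapper `g2y_node` / `dvr_one_branch_pi` (edge rule on the cover `Y`, field
`E0 = Frac L`) + `brr_*` (branch ring `D = L_(x) ⊆ E`, `red0`) + `g2e_congr` (Eisenstein step in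
`E ⊇ E0`, Chevalley) + the comparison with `X`.  NO valuation ring and NO order function on the
big field `E` are needed: only the `K0`-rational unit `b_u` of the branch ring of `X` is reduced.

* `g2w_core`   : a decomposition `u d = ϖ ^ k n` (`x ∤ n d`) with
                 `w (red n) - w (red d) ≡ δ  (mod p)`, the Eisenstein data `π1 ^ p = ϖ θ`,
                 `θ = a + π1 mθ` and the coordinates of `e`, `u_x`, `h` in the basis `π1 ^ i`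
                 (`u = e · u_x · h ^ p` in `E`)  ⇒  `u_x = π1 ^ d' θ ^ j (b_u + π1 m_u)`,
                 `b_u ∈ U_F` and `w (red0 b_u) ≡ δ  (mod p)`;
* `g2w_node`   : at a node of the cover, `δ = v0 u - v∞ u` (the global winding number);
* `g2w_smooth` : at a smooth point of the special fibre of the cover, `δ = 0`;
* `g2w_X_red`  : the passage to `X`: `c₁ u_x ∈ O_F` and `red_F (c₁ u_x) = red_F b_F` for
                 `c₁ = (π1 ^ d' θ ^ j)⁻¹` (`π1 ↦ 0` under `red_F`);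
* `g2w_windc_node`, `g2w_windc_smooth` : WINDC for `c₁ u_x` on `X`:
                 `ord_Q (red_F (c₁ u_x)) ≡ v0 u - v∞ u` resp. `≡ 0  (mod p)`.
-/

set_option autoImplicit false
set_option linter.unusedVariables false
set_option linter.unusedSectionVars false
set_option linter.style.haveILetI false

noncomputable section

namespace Fermat.Agent.S40lib

open Fermat.Agent.S36lib IsLocalRing

section Core

variable {L E0 E κ : Type*} [CommRing L] [IsDomain L]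
  [Field E0] [Algebra L E0] [Field E] [Algebra L E] [Algebra E0 E]
  [IsScalarTower L E0 E] [Field κ]

/-- **the Eisenstein congruence at a branch, from a decomposition on the cover.** -/
theorem g2w_core (x : L) (hx : Prime x) (hinj : Function.Injective (algebraMap L E))
    (red : L →+* κ) (hred : ∀ c, red c = 0 ↔ x ∣ c)
    (w : κ → ℤ) (hw : ∀ a b : κ, a ≠ 0 → b ≠ 0 → w (a * b) = w a + w b)
    (ϖ : L) (hϖx : x ∣ ϖ) (hϖ0 : ϖ ≠ 0)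
    (p : ℕ) (u : E0) (k : ℤ) (n d : L) (hn : ¬ x ∣ n) (hd : ¬ x ∣ d)
    (hfx : u * algebraMap L E0 d = algebraMap L E0 ϖ ^ k * algebraMap L E0 n)
    (δ : ℤ) (hnode : (p : ℤ) ∣ (w (red n) - w (red d)) - δ)
    (π1 θ a mθ : E) (hϖθ : π1 ^ p = algebraMap L E ϖ * θ) (hθ0 : θ ≠ 0)
    (hθ : θ = a + π1 * mθ)
    (hπint : IsIntegral (pdPrimeLoc E x hx) π1) (hmint : IsIntegral (pdPrimeLoc E x hx) mθ)
    (DF : Subring E) (hDF : DF ≤ pdPrimeLoc E x hx)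
    (UF UK : Set E)
    (hUF : ∀ b ∈ UF, b ∈ DF ∧ b⁻¹ ∈ DF ∧ b ≠ 0)
    (hUK : ∀ b ∈ UK, b ∈ DF ∧ b⁻¹ ∈ DF ∧ b ≠ 0)
    (hUKmul : ∀ b ∈ UK, ∀ b' ∈ UK, b * b' ∈ UK) (hUKinv : ∀ b ∈ UK, b⁻¹ ∈ UK)
    (haK : a ∈ UK)
    (hwK : ∀ c (hc : c ∈ UK), w (brrRed hinj x hx red hred ⟨c, hDF (hUK c hc).1⟩) = 0)
    (ae au ah : Fin p → E)
    (hae : ∀ i, ae i = 0 ∨ ∃ m : ℤ, ∃ b ∈ UK, ae i = algebraMap L E ϖ ^ m * b)
    (hau : ∀ i, au i = 0 ∨ ∃ m : ℤ, ∃ b ∈ UF, au i = algebraMap L E ϖ ^ m * b)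
    (hah : ∀ i, ah i = 0 ∨ ∃ m : ℤ,
      ∃ b ∈ {b : E | b ∈ pdPrimeLoc E x hx ∧ b⁻¹ ∈ pdPrimeLoc E x hx ∧ b ≠ 0},
        ah i = algebraMap L E ϖ ^ m * b)
    (hrel : algebraMap E0 E u = (∑ i, ae i * π1 ^ (i : ℕ)) * (∑ i, au i * π1 ^ (i : ℕ)) *
      (∑ i, ah i * π1 ^ (i : ℕ)) ^ p) :
    ∃ (d' j : ℤ) (bu mu : E) (hbu : bu ∈ UF),
      mu ∈ Subring.closure ((DF : Set E) ∪ {π1, θ, θ⁻¹, mθ}) ∧
      (∑ i, au i * π1 ^ (i : ℕ)) = π1 ^ d' * θ ^ j * (bu + π1 * mu) ∧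
      (p : ℤ) ∣ w (brrRed hinj x hx red hred ⟨bu, hDF (hUF bu hbu).1⟩) - δ := by
  classical
  haveI : IsLocalRing (pdPrimeLoc E x hx) := brr_isLocalRing (E := E) hinj x hx
  have hϖE0 : algebraMap L E ϖ ≠ 0 := by
    rw [Ne, ← map_zero (algebraMap L E)]
    exact fun h => hϖ0 (hinj h)
  have hn0 : algebraMap L E n ≠ 0 := brr_ne_zero hinj x hn
  have hd0 : algebraMap L E d ≠ 0 := brr_ne_zero hinj x hd
  -- the unit `ut = u / ϖ ^ k = n / d`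
  obtain ⟨ut, hutdef⟩ : ∃ ut : E, ut = (algebraMap L E ϖ ^ k)⁻¹ * algebraMap E0 E u := ⟨_, rfl⟩
  have hfxE : algebraMap E0 E u * algebraMap L E d =
      algebraMap L E ϖ ^ k * algebraMap L E n := by
    have h := congrArg (algebraMap E0 E) hfx
    rw [map_mul, map_mul, map_zpow₀, ← IsScalarTower.algebraMap_apply,
      ← IsScalarTower.algebraMap_apply, ← IsScalarTower.algebraMap_apply] at h
    exact h
  have hutd : ut * algebraMap L E d = algebraMap L E n := by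
    rw [hutdef, mul_assoc, hfxE, ← mul_assoc, inv_mul_cancel₀ (zpow_ne_zero k hϖE0), one_mul]
  have hut : ut ∈ pdPrimeLoc E x hx := ⟨n, d, hd, hutd⟩
  have hut0 : ut ≠ 0 := by
    intro h
    rw [h, zero_mul] at hutd
    exact hn0 hutd.symm
  have hut' : ut⁻¹ ∈ pdPrimeLoc E x hx := by
    refine ⟨d, n, hn, ?_⟩
    rw [← hutd, ← mul_assoc, inv_mul_cancel₀ hut0, one_mul]
  -- the coordinates of `e / ϖ ^ k`
  have hae' : ∀ i, (algebraMap L E ϖ ^ k)⁻¹ * ae i = 0 ∨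
      ∃ m : ℤ, ∃ b ∈ UK, (algebraMap L E ϖ ^ k)⁻¹ * ae i = algebraMap L E ϖ ^ m * b := by
    intro i
    rcases hae i with h | ⟨m, b, hb, h⟩
    · left; rw [h, mul_zero]
    · right
      refine ⟨m - k, b, hb, ?_⟩
      rw [h, zpow_sub₀ hϖE0]
      field_simp
  have hrel' : ut = (∑ i, ((algebraMap L E ϖ ^ k)⁻¹ * ae i) * π1 ^ (i : ℕ)) *
      (∑ i, au i * π1 ^ (i : ℕ)) * (∑ i, ah i * π1 ^ (i : ℕ)) ^ p := by
    have hs : (∑ i, ((algebraMap L E ϖ ^ k)⁻¹ * ae i) * π1 ^ (i : ℕ)) =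
        (algebraMap L E ϖ ^ k)⁻¹ * ∑ i, ae i * π1 ^ (i : ℕ) := by
      rw [Finset.mul_sum]
      exact Finset.sum_congr rfl (fun i _ => by rw [mul_assoc])
    rw [hs, hutdef, hrel, mul_assoc, mul_assoc, mul_assoc]
  obtain ⟨d', j, bu, mu, hbu, hmu, hU, hdiv⟩ :=
    g2e_congr (pdPrimeLoc E x hx) DF hDF (brrRed hinj x hx red hred)
      (brrRed_maximalIdeal hinj x hx red hred) w hw π1 θ (algebraMap L E ϖ) a mθ p
      (brr_algebraMap_mem x hx ϖ) (brr_mem_maximalIdeal hinj x hx ϖ hϖx) hϖE0 hϖθ hθ0 hθ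
      hπint hmint UF UK hUF hUK hUKmul hUKinv haK hwK
      (fun i => (algebraMap L E ϖ ^ k)⁻¹ * ae i) au ah hae' hau hah ut hut hut' hut0 hrel'
  refine ⟨d', j, bu, mu, hbu, hmu, hU, ?_⟩
  have hwut := brr_w_red hinj x hx red hred w hw ⟨ut, hut⟩ n d hn hd hutd
  rw [hwut] at hdiv
  have h3 : w (brrRed hinj x hx red hred ⟨bu, hDF (hUF bu hbu).1⟩) - δ =
      ((w (red n) - w (red d)) - δ) -
        ((w (red n) - w (red d)) -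
          w (brrRed hinj x hx red hred ⟨bu, hDF (hUF bu hbu).1⟩)) := by ring
  rw [h3]
  exact dvd_sub hnode hdiv

end Core

section Points

variable {L E0 E κ : Type*} [CommRing L] [IsDomain L] [UniqueFactorizationMonoid L]
  [Field E0] [Algebra L E0] [IsFractionRing L E0] [Field E] [Algebra L E] [Algebra E0 E]
  [IsScalarTower L E0 E] [Field κ]

/-- **the Eisenstein congruence at a node of the cover**: `w (red0 b_u) ≡ v0 u - v∞ u`. -/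
theorem g2w_node (x y : L) (hx : Prime x) (hy : Prime y) (hxy : ¬ Associated x y)
    (ϖ : L) (ε : Lˣ) (hϖ : ϖ = ε * x * y)
    (hinj : Function.Injective (algebraMap L E))
    (red : L →+* κ) (hred : ∀ c, red c = 0 ↔ x ∣ c)
    (w : κ → ℤ) (hw : ∀ a b : κ, a ≠ 0 → b ≠ 0 → w (a * b) = w a + w b)
    (hw0 : ∀ c : L, red c ≠ 0 → 0 ≤ w (red c)) (hwy : w (red y) = 1)
    (p : ℕ) (σ : E0 →+* E0) (u g κ' : E0) (hu : u ≠ 0) (hg : g ≠ 0) (hκ0 : κ' ≠ 0)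
    (hσκ : σ κ' = κ') (hσu : σ u = κ' * g ^ p * u)
    (hval : ∀ π : L, Prime π → ¬ Associated π x → ¬ Associated π y →
      ∃ v : E0 → ℤ, (∀ a b : E0, a ≠ 0 → b ≠ 0 → v (a * b) = v a + v b) ∧
        v (algebraMap L E0 π) = 1 ∧
        (∀ c : L, c ≠ 0 → ¬ π ∣ c → v (algebraMap L E0 c) = 0) ∧ (p : ℤ) ∣ v u)
    (vInf vZero : E0 → ℤ)
    (hvInf : ∀ a b : E0, a ≠ 0 → b ≠ 0 → vInf (a * b) = vInf a + vInf b)
    (hvZero : ∀ a b : E0, a ≠ 0 → b ≠ 0 → vZero (a * b) = vZero a + vZero b)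
    (hκInf : (p : ℤ) ∣ vInf κ') (hκZero : (p : ℤ) ∣ vZero κ')
    (hcx : ∃ i : ℕ, ∀ f : E0, f ≠ 0 → s36_ordAt x hx f = vInf ((⇑σ)^[i] f))
    (hcy : ∃ i : ℕ, ∀ f : E0, f ≠ 0 → s36_ordAt y hy f = vZero ((⇑σ)^[i] f))
    (π1 θ a mθ : E) (hϖθ : π1 ^ p = algebraMap L E ϖ * θ) (hθ0 : θ ≠ 0)
    (hθ : θ = a + π1 * mθ)
    (hπint : IsIntegral (pdPrimeLoc E x hx) π1) (hmint : IsIntegral (pdPrimeLoc E x hx) mθ)
    (DF : Subring E) (hDF : DF ≤ pdPrimeLoc E x hx)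
    (UF UK : Set E)
    (hUF : ∀ b ∈ UF, b ∈ DF ∧ b⁻¹ ∈ DF ∧ b ≠ 0)
    (hUK : ∀ b ∈ UK, b ∈ DF ∧ b⁻¹ ∈ DF ∧ b ≠ 0)
    (hUKmul : ∀ b ∈ UK, ∀ b' ∈ UK, b * b' ∈ UK) (hUKinv : ∀ b ∈ UK, b⁻¹ ∈ UK)
    (haK : a ∈ UK)
    (hwK : ∀ c (hc : c ∈ UK), w (brrRed hinj x hx red hred ⟨c, hDF (hUK c hc).1⟩) = 0)
    (ae au ah : Fin p → E)
    (hae : ∀ i, ae i = 0 ∨ ∃ m : ℤ, ∃ b ∈ UK, ae i = algebraMap L E ϖ ^ m * b)
    (hau : ∀ i, au i = 0 ∨ ∃ m : ℤ, ∃ b ∈ UF, au i = algebraMap L E ϖ ^ m * b)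
    (hah : ∀ i, ah i = 0 ∨ ∃ m : ℤ,
      ∃ b ∈ {b : E | b ∈ pdPrimeLoc E x hx ∧ b⁻¹ ∈ pdPrimeLoc E x hx ∧ b ≠ 0},
        ah i = algebraMap L E ϖ ^ m * b)
    (hrel : algebraMap E0 E u = (∑ i, ae i * π1 ^ (i : ℕ)) * (∑ i, au i * π1 ^ (i : ℕ)) *
      (∑ i, ah i * π1 ^ (i : ℕ)) ^ p) :
    ∃ (d' j : ℤ) (bu mu : E) (hbu : bu ∈ UF),
      mu ∈ Subring.closure ((DF : Set E) ∪ {π1, θ, θ⁻¹, mθ}) ∧
      (∑ i, au i * π1 ^ (i : ℕ)) = π1 ^ d' * θ ^ j * (bu + π1 * mu) ∧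
      (p : ℤ) ∣ w (brrRed hinj x hx red hred ⟨bu, hDF (hUF bu hbu).1⟩) -
        (vZero u - vInf u) := by
  have hϖ0 : ϖ ≠ 0 := by
    rw [hϖ]
    exact mul_ne_zero (mul_ne_zero ε.ne_zero hx.ne_zero) hy.ne_zero
  have hϖx : x ∣ ϖ := ⟨ε * y, by rw [hϖ]; ring⟩
  obtain ⟨n, d, hn, hd, hfx⟩ := edr_exists_decomp x y hx hy hxy ϖ ε hϖ u hu
  have hnode := g2y_node x y hx hy hxy ϖ ε hϖ red hred w hw hw0 hwy p σ u g κ' hu hg hκ0
    hσκ hσu hval vInf vZero hvInf hvZero hκInf hκZero hcx hcy _ n d hn hd hfx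
  exact g2w_core x hx hinj red hred w hw ϖ hϖx hϖ0 p u _ n d hn hd hfx _ hnode π1 θ a mθ
    hϖθ hθ0 hθ hπint hmint DF hDF UF UK hUF hUK hUKmul hUKinv haK hwK ae au ah hae hau hah hrel

/-- **the Eisenstein congruence at a smooth point of the special fibre of the cover**:
`w (red0 b_u) ≡ 0`. -/
theorem g2w_smooth (x : L) (hx : Prime x) (ϖ : L) (ε : Lˣ) (hϖ : ϖ = ε * x)
    (hinj : Function.Injective (algebraMap L E))
    (red : L →+* κ) (hred : ∀ c, red c = 0 ↔ x ∣ c)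
    (w : κ → ℤ) (hw : ∀ a b : κ, a ≠ 0 → b ≠ 0 → w (a * b) = w a + w b)
    (hw0 : ∀ c : L, red c ≠ 0 → 0 ≤ w (red c))
    (p : ℕ) (u : E0) (hu : u ≠ 0)
    (hval : ∀ π : L, Prime π → ¬ Associated π x →
      ∃ v : E0 → ℤ, (∀ a b : E0, a ≠ 0 → b ≠ 0 → v (a * b) = v a + v b) ∧
        v (algebraMap L E0 π) = 1 ∧
        (∀ c : L, c ≠ 0 → ¬ π ∣ c → v (algebraMap L E0 c) = 0) ∧ (p : ℤ) ∣ v u)
    (π1 θ a mθ : E) (hϖθ : π1 ^ p = algebraMap L E ϖ * θ) (hθ0 : θ ≠ 0)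
    (hθ : θ = a + π1 * mθ)
    (hπint : IsIntegral (pdPrimeLoc E x hx) π1) (hmint : IsIntegral (pdPrimeLoc E x hx) mθ)
    (DF : Subring E) (hDF : DF ≤ pdPrimeLoc E x hx)
    (UF UK : Set E)
    (hUF : ∀ b ∈ UF, b ∈ DF ∧ b⁻¹ ∈ DF ∧ b ≠ 0)
    (hUK : ∀ b ∈ UK, b ∈ DF ∧ b⁻¹ ∈ DF ∧ b ≠ 0)
    (hUKmul : ∀ b ∈ UK, ∀ b' ∈ UK, b * b' ∈ UK) (hUKinv : ∀ b ∈ UK, b⁻¹ ∈ UK)
    (haK : a ∈ UK)
    (hwK : ∀ c (hc : c ∈ UK), w (brrRed hinj x hx red hred ⟨c, hDF (hUK c hc).1⟩) = 0)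
    (ae au ah : Fin p → E)
    (hae : ∀ i, ae i = 0 ∨ ∃ m : ℤ, ∃ b ∈ UK, ae i = algebraMap L E ϖ ^ m * b)
    (hau : ∀ i, au i = 0 ∨ ∃ m : ℤ, ∃ b ∈ UF, au i = algebraMap L E ϖ ^ m * b)
    (hah : ∀ i, ah i = 0 ∨ ∃ m : ℤ,
      ∃ b ∈ {b : E | b ∈ pdPrimeLoc E x hx ∧ b⁻¹ ∈ pdPrimeLoc E x hx ∧ b ≠ 0},
        ah i = algebraMap L E ϖ ^ m * b)
    (hrel : algebraMap E0 E u = (∑ i, ae i * π1 ^ (i : ℕ)) * (∑ i, au i * π1 ^ (i : ℕ)) *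
      (∑ i, ah i * π1 ^ (i : ℕ)) ^ p) :
    ∃ (d' j : ℤ) (bu mu : E) (hbu : bu ∈ UF),
      mu ∈ Subring.closure ((DF : Set E) ∪ {π1, θ, θ⁻¹, mθ}) ∧
      (∑ i, au i * π1 ^ (i : ℕ)) = π1 ^ d' * θ ^ j * (bu + π1 * mu) ∧
      (p : ℤ) ∣ w (brrRed hinj x hx red hred ⟨bu, hDF (hUF bu hbu).1⟩) := by
  have hϖ0 : ϖ ≠ 0 := by
    rw [hϖ]
    exact mul_ne_zero ε.ne_zero hx.ne_zero
  have hϖx : x ∣ ϖ := ⟨ε, by rw [hϖ]; ring⟩
  have hxε : ∀ v : Lˣ, ¬ x ∣ (v : L) := fun v h =>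
    hx.not_isUnit (isUnit_of_dvd_unit h v.isUnit)
  obtain ⟨n, d, hn, hd, hfx⟩ := dvr_exists_decomp x hx u hu
  obtain ⟨k, hk⟩ : ∃ k : ℤ, k = s36_ordAt x hx u := ⟨_, rfl⟩
  rw [← hk] at hfx
  have hn' : ¬ x ∣ ((ε ^ (-k) : Lˣ) : L) * n := fun h =>
    (hx.dvd_or_dvd h).elim (hxε _) hn
  have hinj0 : Function.Injective (algebraMap L E0) := IsFractionRing.injective L E0
  have hεE : algebraMap L E0 (ε : L) ≠ 0 := by
    rw [Ne, ← map_zero (algebraMap L E0)]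
    exact fun h => ε.ne_zero (hinj0 h)
  have hfx' : u * algebraMap L E0 d =
      algebraMap L E0 ϖ ^ k * algebraMap L E0 (((ε ^ (-k) : Lˣ) : L) * n) := by
    rw [hfx, hϖ, map_mul, map_mul, mul_zpow, s36_algebraMap_units_zpow, zpow_neg]
    field_simp
  have hone := dvr_one_branch_pi x hx ϖ ε hϖ red hred w hw hw0 p u hu hval k _ d hn' hd hfx'
  have hone' : (p : ℤ) ∣ (w (red (((ε ^ (-k) : Lˣ) : L) * n)) - w (red d)) - 0 := by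
    rw [sub_zero]; exact hone
  have h := g2w_core x hx hinj red hred w hw ϖ hϖx hϖ0 p u k _ d hn' hd hfx' 0 hone'
    π1 θ a mθ hϖθ hθ0 hθ hπint hmint DF hDF UF UK hUF hUK hUKmul hUKinv haK hwK ae au ah
    hae hau hah hrel
  obtain ⟨d', j, bu, mu, hbu, hmu, hU, hdiv⟩ := h
  exact ⟨d', j, bu, mu, hbu, hmu, hU, by rw [sub_zero] at hdiv; exact hdiv⟩

end Points

section XSide

variable {E F Fk : Type*} [Field E] [Field F] [Field Fk]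

/-- **the passage to `X`**: `u_x = π1 ^ d' θ ^ j (b_u + π1 m_u)` with `b_u = φ f`, `f ∈ O_F`,
`m_u` in the ring generated by `D_F`, `π1`, `θ ^ ± 1`, `mθ` (all in `φ (O_F)`), `red_F π1 = 0`:
then `c₁ u_x ∈ O_F` and `red_F (c₁ u_x) = red_F f` for `c₁ = (π1 ^ d' θ ^ j)⁻¹`. -/
theorem g2w_X_red (φ : F →+* E) (OF : Subring F) (redF : OF →+* Fk)
    (DF : Subring E) (π1 θ mθ : E) (hπ10 : π1 ≠ 0) (hθ0 : θ ≠ 0)
    (hDFO : ∀ z ∈ DF, ∃ f ∈ OF, φ f = z)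
    (π1F θF θF' mθF : F) (hπ1F : π1F ∈ OF) (hπ1red : redF ⟨π1F, hπ1F⟩ = 0)
    (hπ1φ : φ π1F = π1)
    (hθF : θF ∈ OF) (hθφ : φ θF = θ) (hθF' : θF' ∈ OF) (hθφ' : φ θF' = θ⁻¹)
    (hmF : mθF ∈ OF) (hmφ : φ mθF = mθ)
    (d' j : ℤ) (bu mu : E)
    (hmu : mu ∈ Subring.closure ((DF : Set E) ∪ {π1, θ, θ⁻¹, mθ}))
    (ux : F) (hsum : φ ux = π1 ^ d' * θ ^ j * (bu + π1 * mu))
    (f : F) (hf : f ∈ OF) (hfb : φ f = bu) :
    ∃ h1 : (π1F ^ d' * θF ^ j)⁻¹ * ux ∈ OF,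
      redF ⟨(π1F ^ d' * θF ^ j)⁻¹ * ux, h1⟩ = redF ⟨f, hf⟩ := by
  have hcl : Subring.closure ((DF : Set E) ∪ {π1, θ, θ⁻¹, mθ}) ≤ OF.map φ := by
    refine Subring.closure_le.2 ?_
    rintro z (hz | hz | hz | hz | hz)
    · obtain ⟨f', hf', h⟩ := hDFO z hz
      exact ⟨f', hf', h⟩
    · rw [hz]; exact ⟨π1F, hπ1F, hπ1φ⟩
    · rw [hz]; exact ⟨θF, hθF, hθφ⟩
    · rw [hz]; exact ⟨θF', hθF', hθφ'⟩
    · rw [Set.mem_singleton_iff] at hz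
      rw [hz]; exact ⟨mθF, hmF, hmφ⟩
  obtain ⟨mF, hmFO, hmFφ⟩ := hcl hmu
  have h0 : π1 ^ d' * θ ^ j ≠ 0 := mul_ne_zero (zpow_ne_zero _ hπ10) (zpow_ne_zero _ hθ0)
  have heq : (π1F ^ d' * θF ^ j)⁻¹ * ux = f + π1F * mF := by
    apply φ.injective
    rw [map_mul, map_inv₀, map_mul, map_zpow₀, map_zpow₀, hπ1φ, hθφ, hsum, map_add, map_mul,
      hfb, hπ1φ, hmFφ, ← mul_assoc, inv_mul_cancel₀ h0, one_mul]
  have h1 : (π1F ^ d' * θF ^ j)⁻¹ * ux ∈ OF := by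
    rw [heq]
    exact OF.add_mem hf (OF.mul_mem hπ1F hmFO)
  refine ⟨h1, ?_⟩
  have h2 : (⟨(π1F ^ d' * θF ^ j)⁻¹ * ux, h1⟩ : OF) =
      ⟨f, hf⟩ + ⟨π1F, hπ1F⟩ * ⟨mF, hmFO⟩ := Subtype.ext heq
  rw [h2, map_add, map_mul, hπ1red, zero_mul, add_zero]

/-- **WINDC for `c₁ u_x` on `X`** from the output `hcore` of `g2w_node` (`δ = v0 u - v∞ u`) or
of `g2w_smooth` (`δ = 0`), with `ω b = w (red0 b)` and the comparison `hcmp` of the two branch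
rings (`g2e_cmp_B`, `g2e_cmp_B_frac`): `ord_Q (red_F (c₁ u_x)) ≡ δ  (mod p)`,
`c₁ = (π1 ^ d' θ ^ j)⁻¹`. -/
theorem g2w_windc (φ : F →+* E) (OF : Subring F) (redF : OF →+* Fk) (wQ : Fk → ℤ)
    (DF : Subring E) (UF : Set E) (π1 θ mθ : E) (hπ10 : π1 ≠ 0) (hθ0 : θ ≠ 0)
    (hDFO : ∀ z ∈ DF, ∃ f ∈ OF, φ f = z)
    (π1F θF θF' mθF : F) (hπ1F : π1F ∈ OF) (hπ1red : redF ⟨π1F, hπ1F⟩ = 0)
    (hπ1φ : φ π1F = π1)
    (hθF : θF ∈ OF) (hθφ : φ θF = θ) (hθF' : θF' ∈ OF) (hθφ' : φ θF' = θ⁻¹)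
    (hmF : mθF ∈ OF) (hmφ : φ mθF = mθ)
    (ω : ∀ b, b ∈ UF → ℤ)
    (hcmp : ∀ b (hb : b ∈ UF), ∃ f : F, ∃ hf : f ∈ OF, φ f = b ∧ redF ⟨f, hf⟩ ≠ 0 ∧
      wQ (redF ⟨f, hf⟩) = ω b hb)
    (p : ℕ) (δ : ℤ) (S : E)
    (hcore : ∃ (d' j : ℤ) (bu mu : E) (hbu : bu ∈ UF),
      mu ∈ Subring.closure ((DF : Set E) ∪ {π1, θ, θ⁻¹, mθ}) ∧
      S = π1 ^ d' * θ ^ j * (bu + π1 * mu) ∧ (p : ℤ) ∣ ω bu hbu - δ)
    (ux : F) (hux : φ ux = S) :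
    ∃ (d' j : ℤ) (h1 : (π1F ^ d' * θF ^ j)⁻¹ * ux ∈ OF),
      redF ⟨(π1F ^ d' * θF ^ j)⁻¹ * ux, h1⟩ ≠ 0 ∧
      (p : ℤ) ∣ wQ (redF ⟨(π1F ^ d' * θF ^ j)⁻¹ * ux, h1⟩) - δ := by
  obtain ⟨d', j, bu, mu, hbu, hmu, hS, hdiv⟩ := hcore
  obtain ⟨f, hf, hfb, hf0, hfw⟩ := hcmp bu hbu
  obtain ⟨h1, hred⟩ := g2w_X_red φ OF redF DF π1 θ mθ hπ10 hθ0 hDFO π1F θF θF' mθF hπ1F
    hπ1red hπ1φ hθF hθφ hθF' hθφ' hmF hmφ d' j bu mu hmu ux (hux.trans hS) f hf hfb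
  refine ⟨d', j, h1, ?_, ?_⟩
  · rw [hred]; exact hf0
  · rw [hred, hfw]; exact hdiv

end XSide

section EisData

variable {E : Type*} [Field E]

/-- **the Eisenstein data** of `η ^ p = 1 + p a`: for `π1 = η - 1`,
`π1 ^ p = p · θ`, `θ = a + π1 · mθ`, `mθ = - ∑_{0 < i < p} (C(p, i) / p) π1 ^ (i - 1)`. -/
theorem g2w_eis_data (p : ℕ) (hp : p.Prime) (η a : E) (hη : η ^ p = 1 + (p : E) * a)
    (hpE : (p : E) ≠ 0) :
    ∃ mθ : E, mθ ∈ Subring.closure ({η - 1} : Set E) ∧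
      (η - 1) ^ p = (p : E) * (a + (η - 1) * mθ) := by
  obtain ⟨π1, hπ1⟩ : ∃ π1 : E, π1 = η - 1 := ⟨_, rfl⟩
  have hη' : η = π1 + 1 := by rw [hπ1]; ring
  rw [← hπ1]
  -- the binomial expansion
  have hexp : (π1 + 1) ^ p = π1 ^ p + 1 +
      ∑ i ∈ Finset.Ioo 0 p, π1 ^ i * (p.choose i : E) := by
    rw [add_pow]
    simp only [one_pow, mul_one]
    rw [Finset.range_eq_Ico, Finset.sum_eq_sum_Ico_succ_bot (Nat.succ_pos p),
      Finset.sum_Ico_succ_top hp.pos]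
    simp only [pow_zero, Nat.choose_zero_right, Nat.cast_one, mul_one, Nat.choose_self]
    have hI : Finset.Ico (0 + 1) p = Finset.Ioo 0 p := by
      ext i
      simp only [Finset.mem_Ico, Finset.mem_Ioo]
      omega
    rw [hI]
    ring
  -- the middle binomial coefficients are divisible by `p`
  have hmid : ∀ i ∈ Finset.Ioo 0 p, π1 ^ i * (p.choose i : E) =
      (p : E) * (π1 * (π1 ^ (i - 1) * ((p.choose i / p : ℕ) : E))) := by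
    intro i hi
    rw [Finset.mem_Ioo] at hi
    have hd : p ∣ p.choose i := hp.dvd_choose_self (by omega) hi.2
    have h1 : (p.choose i : E) = (p : E) * ((p.choose i / p : ℕ) : E) := by
      rw [← Nat.cast_mul, Nat.mul_div_cancel' hd]
    have h2 : π1 ^ i = π1 * π1 ^ (i - 1) := by
      rw [← pow_succ', Nat.sub_add_cancel hi.1]
    rw [h1, h2]
    ring
  refine ⟨- ∑ i ∈ Finset.Ioo 0 p, π1 ^ (i - 1) * ((p.choose i / p : ℕ) : E), ?_, ?_⟩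
  · refine Subring.neg_mem _ (Subring.sum_mem _ (fun i _ => ?_))
    refine Subring.mul_mem _ (Subring.pow_mem _ (Subring.subset_closure ?_) _)
      (natCast_mem _ _)
    rw [hπ1]
    exact Set.mem_singleton _
  · rw [hη', hexp, Finset.sum_congr rfl hmid, ← Finset.mul_sum, ← Finset.mul_sum] at hη
    have h3 : π1 ^ p = (p : E) * a -
        (p : E) * (π1 * ∑ i ∈ Finset.Ioo 0 p, π1 ^ (i - 1) * ((p.choose i / p : ℕ) : E)) := by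
      have := hη
      linear_combination this
    rw [h3]
    ring

/-- `π1 = η - 1` and `mθ` are integral over a subring `D` containing `1 + p a`. -/
theorem g2w_eis_integral (D : Subring E) (p : ℕ) (hp : 0 < p) (η a : E)
    (hη : η ^ p = 1 + (p : E) * a) (ha : a ∈ D) (mθ : E)
    (hmθ : mθ ∈ Subring.closure ({η - 1} : Set E)) :
    IsIntegral D (η - 1) ∧ IsIntegral D mθ := by
  have hc : 1 + (p : E) * a ∈ D := D.add_mem D.one_mem (D.mul_mem (natCast_mem D p) ha)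
  have hηint : IsIntegral D η := by
    refine ⟨Polynomial.X ^ p - Polynomial.C (⟨1 + (p : E) * a, hc⟩ : D),
      Polynomial.monic_X_pow_sub_C _ hp.ne', ?_⟩
    rw [Polynomial.eval₂_sub, Polynomial.eval₂_pow, Polynomial.eval₂_X, Polynomial.eval₂_C, hη]
    exact sub_self _
  have hπ : IsIntegral D (η - 1) := hηint.sub isIntegral_one
  refine ⟨hπ, ?_⟩
  have hle : Subring.closure ({η - 1} : Set E) ≤
      (integralClosure D E).toSubring := by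
    refine Subring.closure_le.2 ?_
    intro z hz
    rw [Set.mem_singleton_iff] at hz
    rw [hz]
    exact hπ
  exact hle hmθ

end EisData

end Fermat.Agent.S40lib
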