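import Mathlib
import Fermat.Agent.S36lib.Speed
import Fermat.Agent.S40lib.WindcEis
import Fermat.Agent.S40lib.CoverCmp2

/-!
# Item 88 (S40/S44), block (J-WILD), piece (G2e): the `X`-side inputs of `g2w_node` / `g2w_windc`

(helper24.)  `B` the affine ring of the model of `X`, `r₁ = red_∞ : B → κ₁`, `ιB : B → E` the
map to the big field.

* `g2wDF ιB r₁`  : the branch ring `{n / d : r₁ d ≠ 0} ⊆ E` of `X` (a subring of `E`);
* `g2wUF ιB r₁`  : its units `{n / d : r₁ n ≠ 0, r₁ d ≠ 0}`;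
* `g2w_hUF`      : `b ∈ U_F → b ∈ D_F ∧ b⁻¹ ∈ D_F ∧ b ≠ 0`           (`hUF` of `g2w_node`);
* `g2w_hDF`      : `D_F ≤ pdPrimeLoc E x`                            (`hDF` of `g2w_node`);
* `g2w_w_red0`   : `w₂ (red0 (n / d)) = ord_Q (r₁ n) - ord_Q (r₁ d)`  (from `g2e_cmp_B`);
* `g2w_hcmp`     : `hcmp` of `g2w_windc`;
* `g2w_hDFO`     : `hDFO` of `g2w_windc`;
* `g2w_windc_unit` : the transfer of WINDC from `c₁ u_x` to any constant multiple `c u_x` which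
                   is a unit of the valuation ring `O_F`.
-/

set_option autoImplicit false
set_option linter.unusedVariables false
set_option linter.unusedSectionVars false
set_option linter.style.haveILetI false

noncomputable section

namespace Fermat.Agent.S40lib

open Fermat.Agent.S36lib IsLocalRing

section Sets

variable {B E κ₁ : Type*} [CommRing B] [Field E] [Field κ₁]

/-- the branch ring of `X` inside `E`: the fractions `n / d`, `r₁ d ≠ 0` -/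
def g2wDF (ιB : B →+* E) (r₁ : B →+* κ₁) : Subring E where
  carrier := {b | ∃ n d : B, r₁ d ≠ 0 ∧ b * ιB d = ιB n}
  mul_mem' := by
    rintro a b ⟨n, d, hd, ha⟩ ⟨n', d', hd', hb⟩
    refine ⟨n * n', d * d', by rw [map_mul]; exact mul_ne_zero hd hd', ?_⟩
    rw [map_mul, map_mul, ← ha, ← hb]; ring
  one_mem' := ⟨1, 1, by rw [map_one]; exact one_ne_zero, by simp⟩
  add_mem' := by
    rintro a b ⟨n, d, hd, ha⟩ ⟨n', d', hd', hb⟩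
    refine ⟨n * d' + n' * d, d * d', by rw [map_mul]; exact mul_ne_zero hd hd', ?_⟩
    rw [map_add, map_mul, map_mul, map_mul, ← ha, ← hb]; ring
  zero_mem' := ⟨0, 1, by rw [map_one]; exact one_ne_zero, by simp⟩
  neg_mem' := by
    rintro a ⟨n, d, hd, ha⟩
    exact ⟨-n, d, hd, by rw [map_neg, ← ha]; ring⟩

/-- the units of the branch ring of `X` inside `E` -/
def g2wUF (ιB : B →+* E) (r₁ : B →+* κ₁) : Set E :=
  {b | ∃ n d : B, r₁ n ≠ 0 ∧ r₁ d ≠ 0 ∧ b * ιB d = ιB n}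

theorem g2w_mem_DF (ιB : B →+* E) (r₁ : B →+* κ₁) (b : E) :
    b ∈ g2wDF ιB r₁ ↔ ∃ n d : B, r₁ d ≠ 0 ∧ b * ιB d = ιB n := Iff.rfl

/-- `hUF` of `g2w_node` -/
theorem g2w_hUF (ιB : B →+* E) (r₁ : B →+* κ₁) (h0 : ∀ d, r₁ d ≠ 0 → ιB d ≠ 0) :
    ∀ b ∈ g2wUF ιB r₁, b ∈ g2wDF ιB r₁ ∧ b⁻¹ ∈ g2wDF ιB r₁ ∧ b ≠ 0 := by
  rintro b ⟨n, d, hn, hd, hb⟩
  have hb0 : b ≠ 0 := by
    intro h
    rw [h, zero_mul] at hb
    exact h0 n hn hb.symm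
  refine ⟨⟨n, d, hd, hb⟩, ⟨d, n, hn, ?_⟩, hb0⟩
  rw [← hb, ← mul_assoc, inv_mul_cancel₀ hb0, one_mul]

/-- `U_F` is closed under multiplication -/
theorem g2w_UF_mul (ιB : B →+* E) (r₁ : B →+* κ₁) :
    ∀ b ∈ g2wUF ιB r₁, ∀ b' ∈ g2wUF ιB r₁, b * b' ∈ g2wUF ιB r₁ := by
  rintro b ⟨n, d, hn, hd, hb⟩ b' ⟨n', d', hn', hd', hb'⟩
  refine ⟨n * n', d * d', by rw [map_mul]; exact mul_ne_zero hn hn',
    by rw [map_mul]; exact mul_ne_zero hd hd', ?_⟩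
  rw [map_mul, map_mul, ← hb, ← hb']; ring

/-- `U_F` is closed under inverses -/
theorem g2w_UF_inv (ιB : B →+* E) (r₁ : B →+* κ₁) (h0 : ∀ d, r₁ d ≠ 0 → ιB d ≠ 0) :
    ∀ b ∈ g2wUF ιB r₁, b⁻¹ ∈ g2wUF ιB r₁ := by
  rintro b ⟨n, d, hn, hd, hb⟩
  have hb0 : b ≠ 0 := by
    intro h
    rw [h, zero_mul] at hb
    exact h0 n hn hb.symm
  refine ⟨d, n, hd, hn, ?_⟩
  rw [← hb, ← mul_assoc, inv_mul_cancel₀ hb0, one_mul]

end Sets

section Cmp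

variable {B : Type*} [CommRing B] [IsNoetherianRing B] (s : Ideal B) [hs : s.IsPrime]
  {κ₁ : Type*} [Field κ₁] {L : Type*} [CommRing L] [IsDomain L] {κ₂ : Type*} [Field κ₂]
  {E : Type*} [Field E] [Algebra L E]

/-- the map `B → B_s → L → E` -/
def g2wIota (f : Localization.AtPrime s →+* L) : B →+* E :=
  (algebraMap L E).comp (f.comp (algebraMap B (Localization.AtPrime s)))

theorem g2wIota_apply (f : Localization.AtPrime s →+* L) (b : B) :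
    g2wIota (E := E) s f b = algebraMap L E (f (algebraMap B (Localization.AtPrime s) b)) :=
  rfl

/-- `r₁ b ≠ 0 ⇒ x ∤ f b` -/
theorem g2w_not_dvd (r₁ : B →+* κ₁) (h₁ : RingHom.ker r₁ ≤ s)
    (x εx y : B) (hx : x ∈ RingHom.ker r₁) (hxg : ∀ z ∈ RingHom.ker r₁, x ∣ εx * z)
    (hεx : εx ∉ s)
    (hm : maximalIdeal (Localization.AtPrime s) =
      Ideal.span {algebraMap B (Localization.AtPrime s) x,
        algebraMap B (Localization.AtPrime s) y})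
    (wQ : κ₁ → ℤ) (hwQ : ∀ a b : κ₁, a ≠ 0 → b ≠ 0 → wQ (a * b) = wQ a + wQ b)
    (hord0 : ∀ c : B, r₁ c ≠ 0 → 0 ≤ wQ (r₁ c))
    (hws : ∀ c : B, c ∉ s → wQ (r₁ c) = 0)
    (hy0 : r₁ y ≠ 0) (hwy : wQ (r₁ y) = 1)
    (f : Localization.AtPrime s →+* L) (red₂ : L →+* κ₂)
    (hred₂ : ∀ c, red₂ c = 0 ↔ f (algebraMap B (Localization.AtPrime s) x) ∣ c)
    (w₂ : κ₂ → ℤ) (hw₂ : ∀ a b : κ₂, a ≠ 0 → b ≠ 0 → w₂ (a * b) = w₂ a + w₂ b)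
    (hw0₂ : ∀ c : L, red₂ c ≠ 0 → 0 ≤ w₂ (red₂ c))
    (hwy₂ : w₂ (red₂ (f (algebraMap B (Localization.AtPrime s) y))) = 1)
    (hxy₂ : ¬ f (algebraMap B (Localization.AtPrime s) x) ∣
      f (algebraMap B (Localization.AtPrime s) y))
    (b : B) (hb : r₁ b ≠ 0) :
    ¬ f (algebraMap B (Localization.AtPrime s) x) ∣
      f (algebraMap B (Localization.AtPrime s) b) := by
  intro h
  exact (g2e_cmp_B s r₁ h₁ x εx y hx hxg hεx hm wQ hwQ hord0 hws hy0 hwy f red₂ hred₂ w₂ hw₂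
    hw0₂ hwy₂ hxy₂ b hb).1 ((hred₂ _).2 h)

/-- `hDF` of `g2w_node`: the branch ring of `X` lies in the branch ring of the cover -/
theorem g2w_hDF (r₁ : B →+* κ₁) (h₁ : RingHom.ker r₁ ≤ s)
    (x εx y : B) (hx : x ∈ RingHom.ker r₁) (hxg : ∀ z ∈ RingHom.ker r₁, x ∣ εx * z)
    (hεx : εx ∉ s)
    (hm : maximalIdeal (Localization.AtPrime s) =
      Ideal.span {algebraMap B (Localization.AtPrime s) x,
        algebraMap B (Localization.AtPrime s) y})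
    (wQ : κ₁ → ℤ) (hwQ : ∀ a b : κ₁, a ≠ 0 → b ≠ 0 → wQ (a * b) = wQ a + wQ b)
    (hord0 : ∀ c : B, r₁ c ≠ 0 → 0 ≤ wQ (r₁ c))
    (hws : ∀ c : B, c ∉ s → wQ (r₁ c) = 0)
    (hy0 : r₁ y ≠ 0) (hwy : wQ (r₁ y) = 1)
    (f : Localization.AtPrime s →+* L) (red₂ : L →+* κ₂)
    (hred₂ : ∀ c, red₂ c = 0 ↔ f (algebraMap B (Localization.AtPrime s) x) ∣ c)
    (w₂ : κ₂ → ℤ) (hw₂ : ∀ a b : κ₂, a ≠ 0 → b ≠ 0 → w₂ (a * b) = w₂ a + w₂ b)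
    (hw0₂ : ∀ c : L, red₂ c ≠ 0 → 0 ≤ w₂ (red₂ c))
    (hwy₂ : w₂ (red₂ (f (algebraMap B (Localization.AtPrime s) y))) = 1)
    (hxy₂ : ¬ f (algebraMap B (Localization.AtPrime s) x) ∣
      f (algebraMap B (Localization.AtPrime s) y))
    (hxL : Prime (f (algebraMap B (Localization.AtPrime s) x))) :
    g2wDF (g2wIota (E := E) s f) r₁ ≤
      pdPrimeLoc E (f (algebraMap B (Localization.AtPrime s) x)) hxL := by
  rintro b ⟨n, d, hd, hb⟩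
  exact ⟨_, _, g2w_not_dvd s r₁ h₁ x εx y hx hxg hεx hm wQ hwQ hord0 hws hy0 hwy f red₂ hred₂
    w₂ hw₂ hw0₂ hwy₂ hxy₂ d hd, hb⟩

/-- `ιB d ≠ 0` for `r₁ d ≠ 0` -/
theorem g2w_iota_ne_zero (hinj : Function.Injective (algebraMap L E))
    (r₁ : B →+* κ₁) (h₁ : RingHom.ker r₁ ≤ s)
    (x εx y : B) (hx : x ∈ RingHom.ker r₁) (hxg : ∀ z ∈ RingHom.ker r₁, x ∣ εx * z)
    (hεx : εx ∉ s)
    (hm : maximalIdeal (Localization.AtPrime s) =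
      Ideal.span {algebraMap B (Localization.AtPrime s) x,
        algebraMap B (Localization.AtPrime s) y})
    (wQ : κ₁ → ℤ) (hwQ : ∀ a b : κ₁, a ≠ 0 → b ≠ 0 → wQ (a * b) = wQ a + wQ b)
    (hord0 : ∀ c : B, r₁ c ≠ 0 → 0 ≤ wQ (r₁ c))
    (hws : ∀ c : B, c ∉ s → wQ (r₁ c) = 0)
    (hy0 : r₁ y ≠ 0) (hwy : wQ (r₁ y) = 1)
    (f : Localization.AtPrime s →+* L) (red₂ : L →+* κ₂)
    (hred₂ : ∀ c, red₂ c = 0 ↔ f (algebraMap B (Localization.AtPrime s) x) ∣ c)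
    (w₂ : κ₂ → ℤ) (hw₂ : ∀ a b : κ₂, a ≠ 0 → b ≠ 0 → w₂ (a * b) = w₂ a + w₂ b)
    (hw0₂ : ∀ c : L, red₂ c ≠ 0 → 0 ≤ w₂ (red₂ c))
    (hwy₂ : w₂ (red₂ (f (algebraMap B (Localization.AtPrime s) y))) = 1)
    (hxy₂ : ¬ f (algebraMap B (Localization.AtPrime s) x) ∣
      f (algebraMap B (Localization.AtPrime s) y)) :
    ∀ d, r₁ d ≠ 0 → g2wIota (E := E) s f d ≠ 0 := by
  intro d hd
  exact brr_ne_zero hinj _ (g2w_not_dvd s r₁ h₁ x εx y hx hxg hεx hm wQ hwQ hord0 hws hy0 hwy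
    f red₂ hred₂ w₂ hw₂ hw0₂ hwy₂ hxy₂ d hd)

/-- **the reduction order of a unit of the branch ring of `X`**, computed on the cover:
`w₂ (red0 (n / d)) = ord_Q (r₁ n) - ord_Q (r₁ d)`. -/
theorem g2w_w_red0 (hinj : Function.Injective (algebraMap L E))
    (r₁ : B →+* κ₁) (h₁ : RingHom.ker r₁ ≤ s)
    (x εx y : B) (hx : x ∈ RingHom.ker r₁) (hxg : ∀ z ∈ RingHom.ker r₁, x ∣ εx * z)
    (hεx : εx ∉ s)
    (hm : maximalIdeal (Localization.AtPrime s) =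
      Ideal.span {algebraMap B (Localization.AtPrime s) x,
        algebraMap B (Localization.AtPrime s) y})
    (wQ : κ₁ → ℤ) (hwQ : ∀ a b : κ₁, a ≠ 0 → b ≠ 0 → wQ (a * b) = wQ a + wQ b)
    (hord0 : ∀ c : B, r₁ c ≠ 0 → 0 ≤ wQ (r₁ c))
    (hws : ∀ c : B, c ∉ s → wQ (r₁ c) = 0)
    (hy0 : r₁ y ≠ 0) (hwy : wQ (r₁ y) = 1)
    (f : Localization.AtPrime s →+* L) (red₂ : L →+* κ₂)
    (hred₂ : ∀ c, red₂ c = 0 ↔ f (algebraMap B (Localization.AtPrime s) x) ∣ c)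
    (w₂ : κ₂ → ℤ) (hw₂ : ∀ a b : κ₂, a ≠ 0 → b ≠ 0 → w₂ (a * b) = w₂ a + w₂ b)
    (hw0₂ : ∀ c : L, red₂ c ≠ 0 → 0 ≤ w₂ (red₂ c))
    (hwy₂ : w₂ (red₂ (f (algebraMap B (Localization.AtPrime s) y))) = 1)
    (hxy₂ : ¬ f (algebraMap B (Localization.AtPrime s) x) ∣
      f (algebraMap B (Localization.AtPrime s) y))
    (hxL : Prime (f (algebraMap B (Localization.AtPrime s) x)))
    (b : pdPrimeLoc E (f (algebraMap B (Localization.AtPrime s) x)) hxL)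
    (n d : B) (hn : r₁ n ≠ 0) (hd : r₁ d ≠ 0)
    (hb : (b : E) * g2wIota (E := E) s f d = g2wIota (E := E) s f n) :
    w₂ (brrRed hinj _ hxL red₂ hred₂ b) = wQ (r₁ n) - wQ (r₁ d) := by
  have hnd := g2w_not_dvd s r₁ h₁ x εx y hx hxg hεx hm wQ hwQ hord0 hws hy0 hwy f red₂ hred₂
    w₂ hw₂ hw0₂ hwy₂ hxy₂
  rw [brr_w_red hinj _ hxL red₂ hred₂ w₂ hw₂ b _ _ (hnd n hn) (hnd d hd) hb]
  exact g2e_cmp_B_frac s r₁ h₁ x εx y hx hxg hεx hm wQ hwQ hord0 hws hy0 hwy f red₂ hred₂ w₂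
    hw₂ hw0₂ hwy₂ hxy₂ n d hn hd

end Cmp

section HCmp

variable {B E F κ₁ : Type*} [CommRing B] [Field E] [Field F] [Field κ₁]

/-- `hDFO` of `g2w_windc`: the branch ring of `X` comes from `O_F`. -/
theorem g2w_hDFO (ιB : B →+* E) (r₁ : B →+* κ₁) (h0 : ∀ d, r₁ d ≠ 0 → ιB d ≠ 0)
    (φ : F →+* E) (jB : B →+* F) (hφj : ∀ b, φ (jB b) = ιB b)
    (OF : Subring F) (redF : OF →+* κ₁) (hjO : ∀ b, jB b ∈ OF)
    (hjred : ∀ b, redF ⟨jB b, hjO b⟩ = r₁ b)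
    (hOFinv : ∀ z : OF, redF z ≠ 0 → ((z : F))⁻¹ ∈ OF) :
    ∀ z ∈ g2wDF ιB r₁, ∃ f ∈ OF, φ f = z := by
  rintro z ⟨n, d, hd, hz⟩
  have hdO : (jB d)⁻¹ ∈ OF := hOFinv ⟨jB d, hjO d⟩ (by rw [hjred]; exact hd)
  refine ⟨jB n * (jB d)⁻¹, OF.mul_mem (hjO n) hdO, ?_⟩
  rw [map_mul, map_inv₀, hφj, hφj, ← hz, mul_assoc, mul_inv_cancel₀ (h0 d hd), mul_one]

/-- `hcmp` of `g2w_windc`, from the value `ω (n / d) = ord_Q (r₁ n) - ord_Q (r₁ d)`. -/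
theorem g2w_hcmp (ιB : B →+* E) (r₁ : B →+* κ₁) (h0 : ∀ d, r₁ d ≠ 0 → ιB d ≠ 0)
    (φ : F →+* E) (jB : B →+* F) (hφj : ∀ b, φ (jB b) = ιB b)
    (OF : Subring F) (redF : OF →+* κ₁) (hjO : ∀ b, jB b ∈ OF)
    (hjred : ∀ b, redF ⟨jB b, hjO b⟩ = r₁ b)
    (hOFinv : ∀ z : OF, redF z ≠ 0 → ((z : F))⁻¹ ∈ OF)
    (wQ : κ₁ → ℤ) (hwQ : ∀ a b : κ₁, a ≠ 0 → b ≠ 0 → wQ (a * b) = wQ a + wQ b)
    (ω : ∀ b, b ∈ g2wUF ιB r₁ → ℤ)
    (hω : ∀ b (hb : b ∈ g2wUF ιB r₁) (n d : B), r₁ n ≠ 0 → r₁ d ≠ 0 → b * ιB d = ιB n →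
      ω b hb = wQ (r₁ n) - wQ (r₁ d)) :
    ∀ b (hb : b ∈ g2wUF ιB r₁), ∃ f : F, ∃ hf : f ∈ OF, φ f = b ∧ redF ⟨f, hf⟩ ≠ 0 ∧
      wQ (redF ⟨f, hf⟩) = ω b hb := by
  intro b hb
  obtain ⟨n, d, hn, hd, hbd⟩ := hb
  have hdO : (jB d)⁻¹ ∈ OF := hOFinv ⟨jB d, hjO d⟩ (by rw [hjred]; exact hd)
  have hfO : jB n * (jB d)⁻¹ ∈ OF := OF.mul_mem (hjO n) hdO
  have hjd0 : jB d ≠ 0 := by
    intro h
    have := h0 d hd
    rw [← hφj, h, map_zero] at this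
    exact this rfl
  have hmul : (⟨jB n * (jB d)⁻¹, hfO⟩ : OF) * ⟨jB d, hjO d⟩ = ⟨jB n, hjO n⟩ := by
    apply Subtype.ext
    show jB n * (jB d)⁻¹ * jB d = jB n
    rw [mul_assoc, inv_mul_cancel₀ hjd0, mul_one]
  have hredmul : redF ⟨jB n * (jB d)⁻¹, hfO⟩ * r₁ d = r₁ n := by
    rw [← hjred d, ← hjred n, ← map_mul, hmul]
  have hred0 : redF ⟨jB n * (jB d)⁻¹, hfO⟩ ≠ 0 := by
    intro h
    rw [h, zero_mul] at hredmul
    exact hn hredmul.symm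
  refine ⟨jB n * (jB d)⁻¹, hfO, ?_, hred0, ?_⟩
  · rw [map_mul, map_inv₀, hφj, hφj, ← hbd, mul_assoc, mul_inv_cancel₀ (h0 d hd), mul_one]
  · rw [hω b ⟨n, d, hn, hd, hbd⟩ n d hn hd hbd]
    have h1 := hwQ _ _ hred0 hd
    rw [hredmul] at h1
    rw [h1]
    ring

end HCmp

section Unit

variable {K F Fk : Type*} [Field K] [Field F] [Algebra K F] [Field Fk]

/-- **the transfer of WINDC to another constant multiple**: `c₁ u_x ∈ O_F` with non-zero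
reduction and `ord_Q (red (c₁ u_x)) ≡ δ`; then the same holds for every `c u_x` which is in
`O_F` with non-zero reduction (`c₁ = algebraMap c₁'`, constants have reduction of order `0`). -/
theorem g2w_windc_unit (OF : ValuationSubring F) (redF : OF →+* Fk) (wQ : Fk → ℤ)
    (hwQ : ∀ a b : Fk, a ≠ 0 → b ≠ 0 → wQ (a * b) = wQ a + wQ b)
    (hconst : ∀ (c : K) (h : algebraMap K F c ∈ OF), redF ⟨algebraMap K F c, h⟩ ≠ 0 →
      wQ (redF ⟨algebraMap K F c, h⟩) = 0)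
    (p : ℕ) (δ : ℤ) (ux : F) (c₁ : K) (h1 : algebraMap K F c₁ * ux ∈ OF)
    (h10 : redF ⟨algebraMap K F c₁ * ux, h1⟩ ≠ 0)
    (hdiv : (p : ℤ) ∣ wQ (redF ⟨algebraMap K F c₁ * ux, h1⟩) - δ)
    (c : K) (h2 : algebraMap K F c * ux ∈ OF)
    (h20 : redF ⟨algebraMap K F c * ux, h2⟩ ≠ 0) :
    (p : ℤ) ∣ wQ (redF ⟨algebraMap K F c * ux, h2⟩) - δ := by
  have hc1 : c₁ ≠ 0 := by
    rintro rfl
    apply h10
    have : (⟨algebraMap K F 0 * ux, h1⟩ : OF) = 0 := Subtype.ext (by simp)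
    rw [this, map_zero]
  have hc : c ≠ 0 := by
    rintro rfl
    apply h20
    have : (⟨algebraMap K F 0 * ux, h2⟩ : OF) = 0 := Subtype.ext (by simp)
    rw [this, map_zero]
  have hc1F : algebraMap K F c₁ ≠ 0 := (map_ne_zero _).2 hc1
  have hcF : algebraMap K F c ≠ 0 := (map_ne_zero _).2 hc
  suffices h : wQ (redF ⟨algebraMap K F c * ux, h2⟩) =
      wQ (redF ⟨algebraMap K F c₁ * ux, h1⟩) by rw [h]; exact hdiv
  rcases OF.mem_or_inv_mem (algebraMap K F (c * c₁⁻¹)) with hm | hm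
  · -- `c u_x = (c / c₁) (c₁ u_x)`
    have hmul : (⟨algebraMap K F c * ux, h2⟩ : OF) =
        ⟨algebraMap K F (c * c₁⁻¹), hm⟩ * ⟨algebraMap K F c₁ * ux, h1⟩ := by
      apply Subtype.ext
      show algebraMap K F c * ux = algebraMap K F (c * c₁⁻¹) * (algebraMap K F c₁ * ux)
      rw [map_mul, map_inv₀]
      field_simp
    have hr : redF ⟨algebraMap K F (c * c₁⁻¹), hm⟩ ≠ 0 := by
      intro h
      apply h20
      rw [hmul, map_mul, h, zero_mul]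
    rw [hmul, map_mul, hwQ _ _ hr h10, hconst _ hm hr, zero_add]
  · -- `c₁ u_x = (c₁ / c) (c u_x)`
    have hm' : algebraMap K F (c₁ * c⁻¹) ∈ OF := by
      have : (algebraMap K F (c * c₁⁻¹))⁻¹ = algebraMap K F (c₁ * c⁻¹) := by
        rw [← map_inv₀, mul_inv, inv_inv, mul_comm]
      rw [← this]
      exact hm
    have hmul : (⟨algebraMap K F c₁ * ux, h1⟩ : OF) =
        ⟨algebraMap K F (c₁ * c⁻¹), hm'⟩ * ⟨algebraMap K F c * ux, h2⟩ := by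
      apply Subtype.ext
      show algebraMap K F c₁ * ux = algebraMap K F (c₁ * c⁻¹) * (algebraMap K F c * ux)
      rw [map_mul, map_inv₀]
      field_simp
    have hr : redF ⟨algebraMap K F (c₁ * c⁻¹), hm'⟩ ≠ 0 := by
      intro h
      apply h10
      rw [hmul, map_mul, h, zero_mul]
    rw [hmul, map_mul, hwQ _ _ hr h20, hconst _ hm' hr, zero_add]

end Unit

end Fermat.Agent.S40lib
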