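import Mathlib
import Fermat.Agent.S36lib.Speed
import Fermat.Agent.S40lib.WindcEis2

/-!
# Item 88 (S40/S44), block (J-WILD), piece (G2e): the PER-POINT theorem (abstract, complete)

(helper24.)  `g2w_node` / `g2w_smooth` + `g2w_windc` + `g2w_hcmp` + `g2w_w_red0` +
`g2w_windc_unit` in ONE statement per type of point.  The hypotheses are the outputs of
* the `X`-side package at the place `Q` (`edc_place_node` / `cvs_place_smooth`; shape of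
  `g2e_cmp_B`): `B`, `s`, `r₁`, `x`, `εx`, `y`, `wQ`;
* the cover package (`cva_node`, `cva_node_hm`, `cva_hcx`): `L`, `f : B_s → L`, `red₂`, `w₂`, the
  deck map `σ`, the reference orders `v∞`, `v0`, `hval` (`g2b_hval_node`);
* the Eisenstein data (`g2w_eis_data`) and the coordinates of `e`, `u_x`, `h` (WildCoordAsm);
* the reduction `(O_F, red_F)` of the function field `F` of `X` (over `Kbar`), `jB : B → F`.

Conclusion: for EVERY constant `c` such that `c u_x ∈ O_F` has non-zero reduction,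
`ord_Q (red_F (c u_x)) ≡ v0 u - v∞ u  (mod p)` at a node (`g2w_point_node`) and `≡ 0` at a
smooth point (`g2w_point_smooth`).
-/

set_option autoImplicit false
set_option linter.unusedVariables false
set_option linter.unusedSectionVars false
set_option linter.style.haveILetI false

noncomputable section

namespace Fermat.Agent.S40lib

open Fermat.Agent.S36lib IsLocalRing

section Consts

variable {B E : Type*} [CommRing B] [Field E]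

/-- the constants of the branch ring of `X` inside `E`: quotients of two elements of `B`
satisfying `isC` -/
def g2wUK (ιB : B →+* E) (isC : B → Prop) : Set E :=
  {b | ∃ n d : B, isC n ∧ isC d ∧ b * ιB d = ιB n}

theorem g2w_UK_mul (ιB : B →+* E) (isC : B → Prop)
    (hCmul : ∀ n n', isC n → isC n' → isC (n * n')) :
    ∀ b ∈ g2wUK ιB isC, ∀ b' ∈ g2wUK ιB isC, b * b' ∈ g2wUK ιB isC := by
  rintro b ⟨n, d, hn, hd, hb⟩ b' ⟨n', d', hn', hd', hb'⟩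
  refine ⟨n * n', d * d', hCmul _ _ hn hn', hCmul _ _ hd hd', ?_⟩
  rw [map_mul, map_mul, ← hb, ← hb']; ring

theorem g2w_UK_inv (ιB : B →+* E) (isC : B → Prop) (h0 : ∀ d, isC d → ιB d ≠ 0) :
    ∀ b ∈ g2wUK ιB isC, b⁻¹ ∈ g2wUK ιB isC := by
  rintro b ⟨n, d, hn, hd, hb⟩
  have hb0 : b ≠ 0 := by
    intro h
    rw [h, zero_mul] at hb
    exact h0 n hn hb.symm
  refine ⟨d, n, hd, hn, ?_⟩
  rw [← hb, ← mul_assoc, inv_mul_cancel₀ hb0, one_mul]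

end Consts

section Point

variable {B : Type*} [CommRing B] [IsNoetherianRing B] (s : Ideal B) [hs : s.IsPrime]
  {κ₁ : Type*} [Field κ₁] {L : Type*} [CommRing L] [IsDomain L] [UniqueFactorizationMonoid L]
  {κ₂ : Type*} [Field κ₂]
  {E0 : Type*} [Field E0] [Algebra L E0] [IsFractionRing L E0]
  {E : Type*} [Field E] [Algebra L E] [Algebra E0 E] [IsScalarTower L E0 E]
  {K F : Type*} [Field K] [Field F] [Algebra K F]

set_option maxHeartbeats 1600000 in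
/-- **the per-point theorem at a node** (supersingular point). -/
theorem g2w_point_node
    -- the `X`-side package
    (r₁ : B →+* κ₁) (h₁ : RingHom.ker r₁ ≤ s)
    (x εx y : B) (hx : x ∈ RingHom.ker r₁) (hxg : ∀ z ∈ RingHom.ker r₁, x ∣ εx * z)
    (hεx : εx ∉ s)
    (hm : maximalIdeal (Localization.AtPrime s) =
      Ideal.span {algebraMap B (Localization.AtPrime s) x,
        algebraMap B (Localization.AtPrime s) y})
    (wQ : κ₁ → ℤ) (hwQ : ∀ a b : κ₁, a ≠ 0 → b ≠ 0 → wQ (a * b) = wQ a + wQ b)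
    (hord0 : ∀ c : B, r₁ c ≠ 0 → 0 ≤ wQ (r₁ c))
    (hws : ∀ c : B, c ∉ s → wQ (r₁ c) = 0)
    (hy0 : r₁ y ≠ 0) (hwy : wQ (r₁ y) = 1)
    -- the cover package
    (f : Localization.AtPrime s →+* L) (hinj : Function.Injective (algebraMap L E))
    (yL : L) (hxL : Prime (f (algebraMap B (Localization.AtPrime s) x))) (hyL : Prime yL)
    (hxyL : ¬ Associated (f (algebraMap B (Localization.AtPrime s) x)) yL)
    (ϖ : L) (ε : Lˣ) (hϖ : ϖ = ε * f (algebraMap B (Localization.AtPrime s) x) * yL)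
    (red₂ : L →+* κ₂)
    (hred₂ : ∀ c, red₂ c = 0 ↔ f (algebraMap B (Localization.AtPrime s) x) ∣ c)
    (w₂ : κ₂ → ℤ) (hw₂ : ∀ a b : κ₂, a ≠ 0 → b ≠ 0 → w₂ (a * b) = w₂ a + w₂ b)
    (hw0₂ : ∀ c : L, red₂ c ≠ 0 → 0 ≤ w₂ (red₂ c))
    (hwy₂ : w₂ (red₂ (f (algebraMap B (Localization.AtPrime s) y))) = 1)
    (hxy₂ : ¬ f (algebraMap B (Localization.AtPrime s) x) ∣
      f (algebraMap B (Localization.AtPrime s) y))
    (hwyL : w₂ (red₂ yL) = 1)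
    (p : ℕ) (hp : 0 < p) (σ : E0 →+* E0) (u g κ' : E0) (hu : u ≠ 0) (hg : g ≠ 0)
    (hκ0 : κ' ≠ 0) (hσκ : σ κ' = κ') (hσu : σ u = κ' * g ^ p * u)
    (hval : ∀ π : L, Prime π →
      ¬ Associated π (f (algebraMap B (Localization.AtPrime s) x)) → ¬ Associated π yL →
      ∃ v : E0 → ℤ, (∀ a b : E0, a ≠ 0 → b ≠ 0 → v (a * b) = v a + v b) ∧
        v (algebraMap L E0 π) = 1 ∧
        (∀ c : L, c ≠ 0 → ¬ π ∣ c → v (algebraMap L E0 c) = 0) ∧ (p : ℤ) ∣ v u)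
    (vInf vZero : E0 → ℤ)
    (hvInf : ∀ a b : E0, a ≠ 0 → b ≠ 0 → vInf (a * b) = vInf a + vInf b)
    (hvZero : ∀ a b : E0, a ≠ 0 → b ≠ 0 → vZero (a * b) = vZero a + vZero b)
    (hκInf : (p : ℤ) ∣ vInf κ') (hκZero : (p : ℤ) ∣ vZero κ')
    (hcx : ∃ i : ℕ, ∀ z : E0, z ≠ 0 → s36_ordAt _ hxL z = vInf ((⇑σ)^[i] z))
    (hcy : ∃ i : ℕ, ∀ z : E0, z ≠ 0 → s36_ordAt yL hyL z = vZero ((⇑σ)^[i] z))
    -- the Eisenstein data
    (π1 θ a mθ : E) (hϖθ : π1 ^ p = algebraMap L E ϖ * θ) (hθ0 : θ ≠ 0)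
    (hθ : θ = a + π1 * mθ)
    (hπint : IsIntegral (pdPrimeLoc E _ hxL) π1) (hmint : IsIntegral (pdPrimeLoc E _ hxL) mθ)
    -- the constants
    (isC : B → Prop) (hCmul : ∀ n n', isC n → isC n' → isC (n * n'))
    (hC : ∀ n, isC n → r₁ n ≠ 0 ∧ wQ (r₁ n) = 0)
    (haK : a ∈ g2wUK (g2wIota (E := E) s f) isC)
    -- the coordinates
    (ae au ah : Fin p → E)
    (hae : ∀ i, ae i = 0 ∨ ∃ m : ℤ, ∃ b ∈ g2wUK (g2wIota (E := E) s f) isC,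
      ae i = algebraMap L E ϖ ^ m * b)
    (hau : ∀ i, au i = 0 ∨ ∃ m : ℤ, ∃ b ∈ g2wUF (g2wIota (E := E) s f) r₁,
      au i = algebraMap L E ϖ ^ m * b)
    (hah : ∀ i, ah i = 0 ∨ ∃ m : ℤ,
      ∃ b ∈ {b : E | b ∈ pdPrimeLoc E _ hxL ∧ b⁻¹ ∈ pdPrimeLoc E _ hxL ∧ b ≠ 0},
        ah i = algebraMap L E ϖ ^ m * b)
    (hrel : algebraMap E0 E u = (∑ i, ae i * π1 ^ (i : ℕ)) * (∑ i, au i * π1 ^ (i : ℕ)) *
      (∑ i, ah i * π1 ^ (i : ℕ)) ^ p)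
    -- the reduction of the function field of `X`
    (φ : F →+* E) (jB : B →+* F) (hφj : ∀ b, φ (jB b) = g2wIota (E := E) s f b)
    (OF : ValuationSubring F) (redF : OF →+* κ₁) (hjO : ∀ b, jB b ∈ OF)
    (hjred : ∀ b, redF ⟨jB b, hjO b⟩ = r₁ b)
    (hOFinv : ∀ z : OF, redF z ≠ 0 → ((z : F))⁻¹ ∈ OF)
    (hconst : ∀ (c : K) (h : algebraMap K F c ∈ OF), redF ⟨algebraMap K F c, h⟩ ≠ 0 →
      wQ (redF ⟨algebraMap K F c, h⟩) = 0)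
    (π1K θK mθK : K) (hπ1F : algebraMap K F π1K ∈ OF)
    (hπ1red : redF ⟨algebraMap K F π1K, hπ1F⟩ = 0) (hπ1φ : φ (algebraMap K F π1K) = π1)
    (hθF : algebraMap K F θK ∈ OF) (hθφ : φ (algebraMap K F θK) = θ)
    (hθF' : algebraMap K F θK⁻¹ ∈ OF)
    (hmF : algebraMap K F mθK ∈ OF) (hmφ : φ (algebraMap K F mθK) = mθ)
    (ux : F) (hux : φ ux = ∑ i, au i * π1 ^ (i : ℕ))
    (c : K) (h2 : algebraMap K F c * ux ∈ OF)
    (h20 : redF ⟨algebraMap K F c * ux, h2⟩ ≠ 0) :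
    (p : ℤ) ∣ wQ (redF ⟨algebraMap K F c * ux, h2⟩) - (vZero u - vInf u) := by
  classical
  have h0 := g2w_iota_ne_zero (E := E) s hinj r₁ h₁ x εx y hx hxg hεx hm wQ hwQ hord0 hws hy0
    hwy f red₂ hred₂ w₂ hw₂ hw0₂ hwy₂ hxy₂
  have hDF := g2w_hDF (E := E) s r₁ h₁ x εx y hx hxg hεx hm wQ hwQ hord0 hws hy0 hwy f red₂
    hred₂ w₂ hw₂ hw0₂ hwy₂ hxy₂ hxL
  have hUF := g2w_hUF (g2wIota (E := E) s f) r₁ h0
  have hKF : ∀ b ∈ g2wUK (g2wIota (E := E) s f) isC, b ∈ g2wUF (g2wIota (E := E) s f) r₁ := by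
    rintro b ⟨n, d, hn, hd, hb⟩
    exact ⟨n, d, (hC n hn).1, (hC d hd).1, hb⟩
  have hUK : ∀ b ∈ g2wUK (g2wIota (E := E) s f) isC,
      b ∈ g2wDF (g2wIota (E := E) s f) r₁ ∧ b⁻¹ ∈ g2wDF (g2wIota (E := E) s f) r₁ ∧ b ≠ 0 :=
    fun b hb => hUF b (hKF b hb)
  have hwred := g2w_w_red0 (E := E) s hinj r₁ h₁ x εx y hx hxg hεx hm wQ hwQ hord0 hws hy0 hwy
    f red₂ hred₂ w₂ hw₂ hw0₂ hwy₂ hxy₂ hxL
  have hwK : ∀ c (hc : c ∈ g2wUK (g2wIota (E := E) s f) isC),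
      w₂ (brrRed hinj _ hxL red₂ hred₂ ⟨c, hDF (hUK c hc).1⟩) = 0 := by
    rintro c ⟨n, d, hn, hd, hb⟩
    rw [hwred ⟨c, _⟩ n d (hC n hn).1 (hC d hd).1 hb, (hC n hn).2, (hC d hd).2, sub_zero]
  have hcore := g2w_node _ yL hxL hyL hxyL ϖ ε hϖ hinj red₂ hred₂ w₂ hw₂ hw0₂ hwyL p σ u g κ'
    hu hg hκ0 hσκ hσu hval vInf vZero hvInf hvZero hκInf hκZero hcx hcy π1 θ a mθ hϖθ hθ0 hθ
    hπint hmint (g2wDF (g2wIota (E := E) s f) r₁) hDF (g2wUF (g2wIota (E := E) s f) r₁)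
    (g2wUK (g2wIota (E := E) s f) isC) hUF hUK
    (g2w_UK_mul _ isC hCmul) (g2w_UK_inv _ isC (fun d hd => h0 d (hC d hd).1)) haK hwK
    ae au ah hae hau hah hrel
  have hϖ0 : ϖ ≠ 0 := by
    rw [hϖ]
    exact mul_ne_zero (mul_ne_zero ε.ne_zero hxL.ne_zero) hyL.ne_zero
  have hϖE0 : algebraMap L E ϖ ≠ 0 := by
    rw [Ne, ← map_zero (algebraMap L E)]
    exact fun h => hϖ0 (hinj h)
  have hπ10 : π1 ≠ 0 := by
    intro h
    rw [h, zero_pow hp.ne'] at hϖθ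
    exact mul_ne_zero hϖE0 hθ0 hϖθ.symm
  have hθφ' : φ (algebraMap K F θK⁻¹) = θ⁻¹ := by
    rw [map_inv₀, map_inv₀, hθφ]
  have hcmp := g2w_hcmp (g2wIota (E := E) s f) r₁ h0 φ jB hφj OF.toSubring redF hjO hjred
    hOFinv wQ hwQ
    (fun b hb => w₂ (brrRed hinj _ hxL red₂ hred₂ ⟨b, hDF (hUF b hb).1⟩))
    (fun b hb n d hn hd hbd => hwred ⟨b, _⟩ n d hn hd hbd)
  have hDFO := g2w_hDFO (g2wIota (E := E) s f) r₁ h0 φ jB hφj OF.toSubring redF hjO hjred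
    hOFinv
  obtain ⟨d', j, h1, h10, hdiv⟩ := g2w_windc φ OF.toSubring redF wQ
    (g2wDF (g2wIota (E := E) s f) r₁) (g2wUF (g2wIota (E := E) s f) r₁) π1 θ mθ hπ10 hθ0 hDFO
    (algebraMap K F π1K) (algebraMap K F θK) (algebraMap K F θK⁻¹) (algebraMap K F mθK)
    hπ1F hπ1red hπ1φ hθF hθφ hθF' hθφ' hmF hmφ
    (fun b hb => w₂ (brrRed hinj _ hxL red₂ hred₂ ⟨b, hDF (hUF b hb).1⟩)) hcmp p
    (vZero u - vInf u) (∑ i, au i * π1 ^ (i : ℕ)) hcore ux hux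
  -- the constant `c₁ = (π1 ^ d' θ ^ j)⁻¹`
  have hc1 : (algebraMap K F π1K ^ d' * algebraMap K F θK ^ j)⁻¹ =
      algebraMap K F (π1K ^ d' * θK ^ j)⁻¹ := by
    rw [map_inv₀, map_mul, map_zpow₀, map_zpow₀]
  have h1' : algebraMap K F (π1K ^ d' * θK ^ j)⁻¹ * ux ∈ OF := by
    rw [← hc1]; exact h1
  have hsub : (⟨algebraMap K F (π1K ^ d' * θK ^ j)⁻¹ * ux, h1'⟩ : OF) =
      ⟨(algebraMap K F π1K ^ d' * algebraMap K F θK ^ j)⁻¹ * ux, h1⟩ :=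
    Subtype.ext (show algebraMap K F (π1K ^ d' * θK ^ j)⁻¹ * ux =
      (algebraMap K F π1K ^ d' * algebraMap K F θK ^ j)⁻¹ * ux from by rw [hc1])
  refine g2w_windc_unit OF redF wQ hwQ hconst p _ ux (π1K ^ d' * θK ^ j)⁻¹ h1' ?_ ?_ c h2 h20
  · rw [hsub]; exact h10
  · rw [hsub]; exact hdiv

set_option maxHeartbeats 1600000 in
/-- **the per-point theorem at a smooth point** of the special fibre. -/
theorem g2w_point_smooth
    -- the `X`-side package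
    (r₁ : B →+* κ₁) (h₁ : RingHom.ker r₁ ≤ s)
    (x εx y : B) (hx : x ∈ RingHom.ker r₁) (hxg : ∀ z ∈ RingHom.ker r₁, x ∣ εx * z)
    (hεx : εx ∉ s)
    (hm : maximalIdeal (Localization.AtPrime s) =
      Ideal.span {algebraMap B (Localization.AtPrime s) x,
        algebraMap B (Localization.AtPrime s) y})
    (wQ : κ₁ → ℤ) (hwQ : ∀ a b : κ₁, a ≠ 0 → b ≠ 0 → wQ (a * b) = wQ a + wQ b)
    (hord0 : ∀ c : B, r₁ c ≠ 0 → 0 ≤ wQ (r₁ c))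
    (hws : ∀ c : B, c ∉ s → wQ (r₁ c) = 0)
    (hy0 : r₁ y ≠ 0) (hwy : wQ (r₁ y) = 1)
    -- the cover package
    (f : Localization.AtPrime s →+* L) (hinj : Function.Injective (algebraMap L E))
    (hxL : Prime (f (algebraMap B (Localization.AtPrime s) x)))
    (ϖ : L) (ε : Lˣ) (hϖ : ϖ = ε * f (algebraMap B (Localization.AtPrime s) x))
    (red₂ : L →+* κ₂)
    (hred₂ : ∀ c, red₂ c = 0 ↔ f (algebraMap B (Localization.AtPrime s) x) ∣ c)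
    (w₂ : κ₂ → ℤ) (hw₂ : ∀ a b : κ₂, a ≠ 0 → b ≠ 0 → w₂ (a * b) = w₂ a + w₂ b)
    (hw0₂ : ∀ c : L, red₂ c ≠ 0 → 0 ≤ w₂ (red₂ c))
    (hwy₂ : w₂ (red₂ (f (algebraMap B (Localization.AtPrime s) y))) = 1)
    (hxy₂ : ¬ f (algebraMap B (Localization.AtPrime s) x) ∣
      f (algebraMap B (Localization.AtPrime s) y))
    (p : ℕ) (hp : 0 < p) (u : E0) (hu : u ≠ 0)
    (hval : ∀ π : L, Prime π →
      ¬ Associated π (f (algebraMap B (Localization.AtPrime s) x)) →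
      ∃ v : E0 → ℤ, (∀ a b : E0, a ≠ 0 → b ≠ 0 → v (a * b) = v a + v b) ∧
        v (algebraMap L E0 π) = 1 ∧
        (∀ c : L, c ≠ 0 → ¬ π ∣ c → v (algebraMap L E0 c) = 0) ∧ (p : ℤ) ∣ v u)
    -- the Eisenstein data
    (π1 θ a mθ : E) (hϖθ : π1 ^ p = algebraMap L E ϖ * θ) (hθ0 : θ ≠ 0)
    (hθ : θ = a + π1 * mθ)
    (hπint : IsIntegral (pdPrimeLoc E _ hxL) π1) (hmint : IsIntegral (pdPrimeLoc E _ hxL) mθ)
    -- the constants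
    (isC : B → Prop) (hCmul : ∀ n n', isC n → isC n' → isC (n * n'))
    (hC : ∀ n, isC n → r₁ n ≠ 0 ∧ wQ (r₁ n) = 0)
    (haK : a ∈ g2wUK (g2wIota (E := E) s f) isC)
    -- the coordinates
    (ae au ah : Fin p → E)
    (hae : ∀ i, ae i = 0 ∨ ∃ m : ℤ, ∃ b ∈ g2wUK (g2wIota (E := E) s f) isC,
      ae i = algebraMap L E ϖ ^ m * b)
    (hau : ∀ i, au i = 0 ∨ ∃ m : ℤ, ∃ b ∈ g2wUF (g2wIota (E := E) s f) r₁,
      au i = algebraMap L E ϖ ^ m * b)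
    (hah : ∀ i, ah i = 0 ∨ ∃ m : ℤ,
      ∃ b ∈ {b : E | b ∈ pdPrimeLoc E _ hxL ∧ b⁻¹ ∈ pdPrimeLoc E _ hxL ∧ b ≠ 0},
        ah i = algebraMap L E ϖ ^ m * b)
    (hrel : algebraMap E0 E u = (∑ i, ae i * π1 ^ (i : ℕ)) * (∑ i, au i * π1 ^ (i : ℕ)) *
      (∑ i, ah i * π1 ^ (i : ℕ)) ^ p)
    -- the reduction of the function field of `X`
    (φ : F →+* E) (jB : B →+* F) (hφj : ∀ b, φ (jB b) = g2wIota (E := E) s f b)
    (OF : ValuationSubring F) (redF : OF →+* κ₁) (hjO : ∀ b, jB b ∈ OF)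
    (hjred : ∀ b, redF ⟨jB b, hjO b⟩ = r₁ b)
    (hOFinv : ∀ z : OF, redF z ≠ 0 → ((z : F))⁻¹ ∈ OF)
    (hconst : ∀ (c : K) (h : algebraMap K F c ∈ OF), redF ⟨algebraMap K F c, h⟩ ≠ 0 →
      wQ (redF ⟨algebraMap K F c, h⟩) = 0)
    (π1K θK mθK : K) (hπ1F : algebraMap K F π1K ∈ OF)
    (hπ1red : redF ⟨algebraMap K F π1K, hπ1F⟩ = 0) (hπ1φ : φ (algebraMap K F π1K) = π1)
    (hθF : algebraMap K F θK ∈ OF) (hθφ : φ (algebraMap K F θK) = θ)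
    (hθF' : algebraMap K F θK⁻¹ ∈ OF)
    (hmF : algebraMap K F mθK ∈ OF) (hmφ : φ (algebraMap K F mθK) = mθ)
    (ux : F) (hux : φ ux = ∑ i, au i * π1 ^ (i : ℕ))
    (c : K) (h2 : algebraMap K F c * ux ∈ OF)
    (h20 : redF ⟨algebraMap K F c * ux, h2⟩ ≠ 0) :
    (p : ℤ) ∣ wQ (redF ⟨algebraMap K F c * ux, h2⟩) := by
  classical
  have h0 := g2w_iota_ne_zero (E := E) s hinj r₁ h₁ x εx y hx hxg hεx hm wQ hwQ hord0 hws hy0
    hwy f red₂ hred₂ w₂ hw₂ hw0₂ hwy₂ hxy₂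
  have hDF := g2w_hDF (E := E) s r₁ h₁ x εx y hx hxg hεx hm wQ hwQ hord0 hws hy0 hwy f red₂
    hred₂ w₂ hw₂ hw0₂ hwy₂ hxy₂ hxL
  have hUF := g2w_hUF (g2wIota (E := E) s f) r₁ h0
  have hKF : ∀ b ∈ g2wUK (g2wIota (E := E) s f) isC, b ∈ g2wUF (g2wIota (E := E) s f) r₁ := by
    rintro b ⟨n, d, hn, hd, hb⟩
    exact ⟨n, d, (hC n hn).1, (hC d hd).1, hb⟩
  have hUK : ∀ b ∈ g2wUK (g2wIota (E := E) s f) isC,
      b ∈ g2wDF (g2wIota (E := E) s f) r₁ ∧ b⁻¹ ∈ g2wDF (g2wIota (E := E) s f) r₁ ∧ b ≠ 0 :=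
    fun b hb => hUF b (hKF b hb)
  have hwred := g2w_w_red0 (E := E) s hinj r₁ h₁ x εx y hx hxg hεx hm wQ hwQ hord0 hws hy0 hwy
    f red₂ hred₂ w₂ hw₂ hw0₂ hwy₂ hxy₂ hxL
  have hwK : ∀ c (hc : c ∈ g2wUK (g2wIota (E := E) s f) isC),
      w₂ (brrRed hinj _ hxL red₂ hred₂ ⟨c, hDF (hUK c hc).1⟩) = 0 := by
    rintro c ⟨n, d, hn, hd, hb⟩
    rw [hwred ⟨c, _⟩ n d (hC n hn).1 (hC d hd).1 hb, (hC n hn).2, (hC d hd).2, sub_zero]
  have hcore := g2w_smooth _ hxL ϖ ε hϖ hinj red₂ hred₂ w₂ hw₂ hw0₂ p u hu hval π1 θ a mθ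
    hϖθ hθ0 hθ hπint hmint (g2wDF (g2wIota (E := E) s f) r₁) hDF
    (g2wUF (g2wIota (E := E) s f) r₁) (g2wUK (g2wIota (E := E) s f) isC) hUF hUK
    (g2w_UK_mul _ isC hCmul) (g2w_UK_inv _ isC (fun d hd => h0 d (hC d hd).1)) haK hwK
    ae au ah hae hau hah hrel
  have hcore' : ∃ (d' j : ℤ) (bu mu : E) (hbu : bu ∈ g2wUF (g2wIota (E := E) s f) r₁),
      mu ∈ Subring.closure (((g2wDF (g2wIota (E := E) s f) r₁ : Subring E) : Set E) ∪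
        {π1, θ, θ⁻¹, mθ}) ∧
      (∑ i, au i * π1 ^ (i : ℕ)) = π1 ^ d' * θ ^ j * (bu + π1 * mu) ∧
      (p : ℤ) ∣ w₂ (brrRed hinj _ hxL red₂ hred₂ ⟨bu, hDF (hUF bu hbu).1⟩) - 0 := by
    obtain ⟨d', j, bu, mu, hbu, hmu, hS, hdiv⟩ := hcore
    exact ⟨d', j, bu, mu, hbu, hmu, hS, by rw [sub_zero]; exact hdiv⟩
  have hϖ0 : ϖ ≠ 0 := by
    rw [hϖ]
    exact mul_ne_zero ε.ne_zero hxL.ne_zero
  have hϖE0 : algebraMap L E ϖ ≠ 0 := by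
    rw [Ne, ← map_zero (algebraMap L E)]
    exact fun h => hϖ0 (hinj h)
  have hπ10 : π1 ≠ 0 := by
    intro h
    rw [h, zero_pow hp.ne'] at hϖθ
    exact mul_ne_zero hϖE0 hθ0 hϖθ.symm
  have hθφ' : φ (algebraMap K F θK⁻¹) = θ⁻¹ := by
    rw [map_inv₀, map_inv₀, hθφ]
  have hcmp := g2w_hcmp (g2wIota (E := E) s f) r₁ h0 φ jB hφj OF.toSubring redF hjO hjred
    hOFinv wQ hwQ
    (fun b hb => w₂ (brrRed hinj _ hxL red₂ hred₂ ⟨b, hDF (hUF b hb).1⟩))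
    (fun b hb n d hn hd hbd => hwred ⟨b, _⟩ n d hn hd hbd)
  have hDFO := g2w_hDFO (g2wIota (E := E) s f) r₁ h0 φ jB hφj OF.toSubring redF hjO hjred
    hOFinv
  obtain ⟨d', j, h1, h10, hdiv⟩ := g2w_windc φ OF.toSubring redF wQ
    (g2wDF (g2wIota (E := E) s f) r₁) (g2wUF (g2wIota (E := E) s f) r₁) π1 θ mθ hπ10 hθ0 hDFO
    (algebraMap K F π1K) (algebraMap K F θK) (algebraMap K F θK⁻¹) (algebraMap K F mθK)
    hπ1F hπ1red hπ1φ hθF hθφ hθF' hθφ' hmF hmφ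
    (fun b hb => w₂ (brrRed hinj _ hxL red₂ hred₂ ⟨b, hDF (hUF b hb).1⟩)) hcmp p
    0 (∑ i, au i * π1 ^ (i : ℕ)) hcore' ux hux
  have hc1 : (algebraMap K F π1K ^ d' * algebraMap K F θK ^ j)⁻¹ =
      algebraMap K F (π1K ^ d' * θK ^ j)⁻¹ := by
    rw [map_inv₀, map_mul, map_zpow₀, map_zpow₀]
  have h1' : algebraMap K F (π1K ^ d' * θK ^ j)⁻¹ * ux ∈ OF := by
    rw [← hc1]; exact h1
  have hsub : (⟨algebraMap K F (π1K ^ d' * θK ^ j)⁻¹ * ux, h1'⟩ : OF) =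
      ⟨(algebraMap K F π1K ^ d' * algebraMap K F θK ^ j)⁻¹ * ux, h1⟩ :=
    Subtype.ext (show algebraMap K F (π1K ^ d' * θK ^ j)⁻¹ * ux =
      (algebraMap K F π1K ^ d' * algebraMap K F θK ^ j)⁻¹ * ux from by rw [hc1])
  have hfin := g2w_windc_unit OF redF wQ hwQ hconst p 0 ux (π1K ^ d' * θK ^ j)⁻¹ h1'
    (by rw [hsub]; exact h10) (by rw [hsub]; exact hdiv) c h2 h20
  rw [sub_zero] at hfin
  exact hfin

end Point

end Fermat.Agent.S40lib
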