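import Mathlib
import Fermat.Agent.S36lib.Speed
import Fermat.Agent.S40lib.BranchRing

/-!
# Item 88 (S40/S44), block (J-WILD), piece (G2f)-(P1) (helper13): the unit sets of `g2w_node`

Providers of the inputs `DF`, `hDF`, `UF`, `hUF`, `hau`, `hah` of `g2w_node` / `g2w_smooth`
(`WindcEis.lean`, helper24).  Abstract, complete proofs.

`B` the node ring of `X` (a UFD), `xB` its vertical prime, `L` the node ring of the cover (a UFD),
`x` its vertical prime, `f : B →+* L` with `xB ∤ z → x ∤ f z` (`cvn_not_dvd`), `E` a field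
containing `L` (`algebraMap L E` injective).  `ι = algebraMap L E ∘ f : B → E`.

* `wcuDF f xB hxB`  : `DF = {ι a / ι b : xB ∤ b} ⊆ E`, the image of the branch ring of `X`
                      (`= pdPrimeLoc E xB hxB` for the algebra structure `ι`; `wcu_mem_DF`);
* `wcu_DF_le`       : `DF ≤ pdPrimeLoc E x hx`  (`hDF`);
* `wcuUF f xB hxB`  : `UF = {b | b ∈ DF ∧ b⁻¹ ∈ DF ∧ b ≠ 0}`, `wcu_hUF`, `wcu_UF_mul`,
                      `wcu_UF_inv`, `wcu_one_mem_UF`;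
* `wcu_frac_B`      : `ι n / ι d = ϖ ^ m · b`, `b ∈ UF`  (`n, d ≠ 0` in `B`, `ϖ = f ϖB`,
                      `ϖB = cB xB`, `xB ∤ cB`);
* `wcu_hau`         : a family `au i` of quotients `ι n / ι d` is `0` or `ϖ ^ m · b`, `b ∈ UF`
                      (= `hau`);  `wcu_hau_frac` : the same for the images of `Frac B`;
* `wcu_frac_L`, `wcu_hah`, `wcu_hah_frac` : the same for `L` and the units of
                      `D = pdPrimeLoc E x hx` (= `hah`);
* `wcu_node_c`, `wcu_smooth_c` : `ϖ = ε x y = (ε y) x`, `x ∤ ε y`;  `ϖ = ε x`, `x ∤ ε`.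
-/

set_option autoImplicit false
set_option linter.unusedVariables false
set_option linter.unusedSectionVars false
set_option linter.style.haveILetI false

noncomputable section

namespace Fermat.Agent.S40lib

open Fermat.Agent.S36lib

section Units

variable {B L E : Type*} [CommRing B] [IsDomain B] [CommRing L] [IsDomain L]
  [Field E] [Algebra L E]

/-- the algebra structure `ι = algebraMap L E ∘ f` of `E` over `B` -/
@[reducible] def wcuAlg (f : B →+* L) : Algebra B E := ((algebraMap L E).comp f).toAlgebra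

theorem wcu_algebraMap (f : B →+* L) (z : B) :
    letI := wcuAlg (E := E) f
    algebraMap B E z = algebraMap L E (f z) := rfl

/-- `DF`: the image in `E` of the branch ring `B_(xB)` of `X` -/
def wcuDF (f : B →+* L) (xB : B) (hxB : Prime xB) : Subring E :=
  letI := wcuAlg (E := E) f
  pdPrimeLoc E xB hxB

theorem wcu_mem_DF (f : B →+* L) (xB : B) (hxB : Prime xB) (e : E) :
    e ∈ wcuDF (E := E) f xB hxB ↔
      ∃ a b : B, ¬ xB ∣ b ∧ e * algebraMap L E (f b) = algebraMap L E (f a) := Iff.rfl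

/-- **`hDF`**: the image of the branch ring of `X` lies in the branch ring of the cover. -/
theorem wcu_DF_le (f : B →+* L) (xB : B) (hxB : Prime xB) (x : L) (hx : Prime x)
    (hf : ∀ z : B, ¬ xB ∣ z → ¬ x ∣ f z) :
    wcuDF (E := E) f xB hxB ≤ pdPrimeLoc E x hx := by
  intro e he
  obtain ⟨a, b, hb, hab⟩ := (wcu_mem_DF f xB hxB e).1 he
  exact ⟨f a, f b, hf b hb, hab⟩

/-- `UF`: the units of `DF` -/
def wcuUF (f : B →+* L) (xB : B) (hxB : Prime xB) : Set E :=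
  {b | b ∈ wcuDF (E := E) f xB hxB ∧ b⁻¹ ∈ wcuDF (E := E) f xB hxB ∧ b ≠ 0}

/-- **`hUF`** -/
theorem wcu_hUF (f : B →+* L) (xB : B) (hxB : Prime xB) :
    ∀ b ∈ wcuUF (E := E) f xB hxB,
      b ∈ wcuDF (E := E) f xB hxB ∧ b⁻¹ ∈ wcuDF (E := E) f xB hxB ∧ b ≠ 0 :=
  fun _ hb => hb

theorem wcu_one_mem_UF (f : B →+* L) (xB : B) (hxB : Prime xB) :
    (1 : E) ∈ wcuUF (E := E) f xB hxB :=
  ⟨Subring.one_mem _, by rw [inv_one]; exact Subring.one_mem _, one_ne_zero⟩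

theorem wcu_UF_mul (f : B →+* L) (xB : B) (hxB : Prime xB) :
    ∀ b ∈ wcuUF (E := E) f xB hxB, ∀ b' ∈ wcuUF (E := E) f xB hxB,
      b * b' ∈ wcuUF (E := E) f xB hxB := by
  intro b hb b' hb'
  refine ⟨Subring.mul_mem _ hb.1 hb'.1, ?_, mul_ne_zero hb.2.2 hb'.2.2⟩
  rw [mul_inv]
  exact Subring.mul_mem _ hb.2.1 hb'.2.1

theorem wcu_UF_inv (f : B →+* L) (xB : B) (hxB : Prime xB) :
    ∀ b ∈ wcuUF (E := E) f xB hxB, b⁻¹ ∈ wcuUF (E := E) f xB hxB := by
  intro b hb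
  exact ⟨hb.2.1, by rw [inv_inv]; exact hb.1, inv_ne_zero hb.2.2⟩

/-- the units of `DF` are units of `D = pdPrimeLoc E x hx` -/
theorem wcu_UF_sub (f : B →+* L) (xB : B) (hxB : Prime xB) (x : L) (hx : Prime x)
    (hf : ∀ z : B, ¬ xB ∣ z → ¬ x ∣ f z) :
    ∀ b ∈ wcuUF (E := E) f xB hxB,
      b ∈ {b : E | b ∈ pdPrimeLoc E x hx ∧ b⁻¹ ∈ pdPrimeLoc E x hx ∧ b ≠ 0} :=
  fun _ hb => ⟨wcu_DF_le f xB hxB x hx hf hb.1, wcu_DF_le f xB hxB x hx hf hb.2.1, hb.2.2⟩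

/-- the image of `z ∈ B` prime to `xB` is a unit of `DF` -/
theorem wcu_unit_of_not_dvd (hinj : Function.Injective (algebraMap L E)) (f : B →+* L)
    (hfinj : Function.Injective f) (xB : B) (hxB : Prime xB) (z : B) (hz : ¬ xB ∣ z) :
    algebraMap L E (f z) ∈ wcuUF (E := E) f xB hxB := by
  have hz0 : algebraMap L E (f z) ≠ 0 := by
    intro h
    have h1 : f z = 0 := hinj (by rw [h, map_zero])
    have h2 : z = 0 := hfinj (by rw [h1, map_zero])
    exact hz (h2 ▸ dvd_zero xB)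
  refine ⟨(wcu_mem_DF f xB hxB _).2 ⟨z, 1, hxB.not_dvd_one, by simp⟩, ?_, hz0⟩
  exact (wcu_mem_DF f xB hxB _).2 ⟨1, z, hz, by simp [inv_mul_cancel₀ hz0]⟩

/-- **quotients of `B`**: `ι n / ι d = ϖ ^ m · b` with `b ∈ UF` (`ϖ = f ϖB`, `ϖB = cB xB`,
`xB ∤ cB`). -/
theorem wcu_frac_B [UniqueFactorizationMonoid B]
    (hinj : Function.Injective (algebraMap L E)) (f : B →+* L)
    (hfinj : Function.Injective f) (xB : B) (hxB : Prime xB)
    (ϖB cB : B) (hϖB : ϖB = cB * xB) (hcB : ¬ xB ∣ cB)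
    (n d : B) (hn : n ≠ 0) (hd : d ≠ 0) :
    ∃ m : ℤ, ∃ b ∈ wcuUF (E := E) f xB hxB,
      algebraMap L E (f n) / algebraMap L E (f d) = algebraMap L E (f ϖB) ^ m * b := by
  letI := wcuAlg (E := E) f
  have hinjB : Function.Injective (algebraMap B E) := fun a b hab => hfinj (hinj hab)
  obtain ⟨k, b, hb1, hb2, hb0, hrel⟩ :=
    brr_exists_unit (L := B) (E := E) hinjB xB hxB ϖB cB hϖB hcB n d hn hd
  exact ⟨k, b, ⟨hb1, hb2, hb0⟩, hrel⟩

/-- **`hau`**: a family of quotients of `B` is `0` or `ϖ ^ m · b`, `b ∈ UF`. -/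
theorem wcu_hau [UniqueFactorizationMonoid B]
    (hinj : Function.Injective (algebraMap L E)) (f : B →+* L)
    (hfinj : Function.Injective f) (xB : B) (hxB : Prime xB)
    (ϖ : L) (ϖB cB : B) (hfϖ : f ϖB = ϖ) (hϖB : ϖB = cB * xB) (hcB : ¬ xB ∣ cB)
    {I : Type*} (au : I → E)
    (hau : ∀ i, ∃ n d : B, d ≠ 0 ∧ au i * algebraMap L E (f d) = algebraMap L E (f n)) :
    ∀ i, au i = 0 ∨ ∃ m : ℤ, ∃ b ∈ wcuUF (E := E) f xB hxB,
      au i = algebraMap L E ϖ ^ m * b := by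
  intro i
  obtain ⟨n, d, hd, hnd⟩ := hau i
  have hd0 : algebraMap L E (f d) ≠ 0 := by
    intro h
    have h1 : f d = 0 := hinj (by rw [h, map_zero])
    exact hd (hfinj (by rw [h1, map_zero]))
  have hq : au i = algebraMap L E (f n) / algebraMap L E (f d) := by
    rw [← hnd, mul_div_assoc, div_self hd0, mul_one]
  by_cases hn : n = 0
  · left
    rw [hq, hn, map_zero, map_zero, zero_div]
  · right
    obtain ⟨m, b, hb, hrel⟩ := wcu_frac_B hinj f hfinj xB hxB ϖB cB hϖB hcB n d hn hd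
    exact ⟨m, b, hb, by rw [hq, hrel, hfϖ]⟩

/-- **`hau` for the images of `Frac B`**: `F0 = Frac B`, `φ0 : F0 →+* E` extending `ι`. -/
theorem wcu_hau_frac [UniqueFactorizationMonoid B]
    (hinj : Function.Injective (algebraMap L E)) (f : B →+* L)
    (hfinj : Function.Injective f) (xB : B) (hxB : Prime xB)
    (ϖ : L) (ϖB cB : B) (hfϖ : f ϖB = ϖ) (hϖB : ϖB = cB * xB) (hcB : ¬ xB ∣ cB)
    {F0 : Type*} [Field F0] [Algebra B F0] [IsFractionRing B F0] (φ0 : F0 →+* E)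
    (hφ0 : ∀ z : B, φ0 (algebraMap B F0 z) = algebraMap L E (f z)) (g : F0) :
    φ0 g = 0 ∨ ∃ m : ℤ, ∃ b ∈ wcuUF (E := E) f xB hxB, φ0 g = algebraMap L E ϖ ^ m * b := by
  obtain ⟨n, d, hd, hnd⟩ := IsFractionRing.div_surjective (A := B) g
  have hd0 : d ≠ 0 := nonZeroDivisors.ne_zero hd
  have hdF : algebraMap B F0 d ≠ 0 := fun h =>
    hd0 (IsFractionRing.injective B F0 (by rw [h, map_zero]))
  refine wcu_hau hinj f hfinj xB hxB ϖ ϖB cB hfϖ hϖB hcB (I := Unit) (fun _ => φ0 g)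
    (fun _ => ⟨n, d, hd0, ?_⟩) ()
  rw [← hφ0, ← hφ0, ← map_mul, ← hnd, div_mul_cancel₀ _ hdF]

/-- **quotients of `L`**: `n / d = ϖ ^ m · b`, `b` a unit of `D` (`ϖ = c x`, `x ∤ c`). -/
theorem wcu_frac_L [UniqueFactorizationMonoid L]
    (hinj : Function.Injective (algebraMap L E)) (x : L) (hx : Prime x)
    (ϖ c : L) (hϖ : ϖ = c * x) (hc : ¬ x ∣ c) (n d : L) (hn : n ≠ 0) (hd : d ≠ 0) :
    ∃ m : ℤ, ∃ b ∈ {b : E | b ∈ pdPrimeLoc E x hx ∧ b⁻¹ ∈ pdPrimeLoc E x hx ∧ b ≠ 0},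
      algebraMap L E n / algebraMap L E d = algebraMap L E ϖ ^ m * b := by
  obtain ⟨k, b, hb1, hb2, hb0, hrel⟩ := brr_exists_unit hinj x hx ϖ c hϖ hc n d hn hd
  exact ⟨k, b, ⟨hb1, hb2, hb0⟩, hrel⟩

/-- **`hah`**: a family of quotients of `L` is `0` or `ϖ ^ m · b`, `b` a unit of `D`. -/
theorem wcu_hah [UniqueFactorizationMonoid L]
    (hinj : Function.Injective (algebraMap L E)) (x : L) (hx : Prime x)
    (ϖ c : L) (hϖ : ϖ = c * x) (hc : ¬ x ∣ c)
    {I : Type*} (ah : I → E)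
    (hah : ∀ i, ∃ n d : L, d ≠ 0 ∧ ah i * algebraMap L E d = algebraMap L E n) :
    ∀ i, ah i = 0 ∨ ∃ m : ℤ,
      ∃ b ∈ {b : E | b ∈ pdPrimeLoc E x hx ∧ b⁻¹ ∈ pdPrimeLoc E x hx ∧ b ≠ 0},
        ah i = algebraMap L E ϖ ^ m * b := by
  intro i
  obtain ⟨n, d, hd, hnd⟩ := hah i
  have hd0 : algebraMap L E d ≠ 0 := fun h => hd (hinj (by rw [h, map_zero]))
  have hq : ah i = algebraMap L E n / algebraMap L E d := by
    rw [← hnd, mul_div_assoc, div_self hd0, mul_one]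
  by_cases hn : n = 0
  · left
    rw [hq, hn, map_zero, zero_div]
  · right
    obtain ⟨m, b, hb, hrel⟩ := wcu_frac_L hinj x hx ϖ c hϖ hc n d hn hd
    exact ⟨m, b, hb, by rw [hq, hrel]⟩

/-- **`hah` for the images of `E0 = Frac L`** (the setting of `g2w_node`). -/
theorem wcu_hah_frac [UniqueFactorizationMonoid L]
    (hinj : Function.Injective (algebraMap L E)) (x : L) (hx : Prime x)
    (ϖ c : L) (hϖ : ϖ = c * x) (hc : ¬ x ∣ c)
    {E0 : Type*} [Field E0] [Algebra L E0] [IsFractionRing L E0] [Algebra E0 E]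
    [IsScalarTower L E0 E] (g : E0) :
    algebraMap E0 E g = 0 ∨ ∃ m : ℤ,
      ∃ b ∈ {b : E | b ∈ pdPrimeLoc E x hx ∧ b⁻¹ ∈ pdPrimeLoc E x hx ∧ b ≠ 0},
        algebraMap E0 E g = algebraMap L E ϖ ^ m * b := by
  obtain ⟨n, d, hd, hnd⟩ := IsFractionRing.div_surjective (A := L) g
  have hd0 : d ≠ 0 := nonZeroDivisors.ne_zero hd
  have hdF : algebraMap L E0 d ≠ 0 := fun h =>
    hd0 (IsFractionRing.injective L E0 (by rw [h, map_zero]))
  refine wcu_hah hinj x hx ϖ c hϖ hc (I := Unit) (fun _ => algebraMap E0 E g)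
    (fun _ => ⟨n, d, hd0, ?_⟩) ()
  rw [IsScalarTower.algebraMap_apply L E0 E d, IsScalarTower.algebraMap_apply L E0 E n,
    ← map_mul, ← hnd, div_mul_cancel₀ _ hdF]

/-- the constant `c = ε y` at a node: `ϖ = ε x y = (ε y) x`, `x ∤ ε y`. -/
theorem wcu_node_c (x y : L) (hx : Prime x) (hy : Prime y) (hxy : ¬ Associated x y)
    (ϖ : L) (ε : Lˣ) (hϖ : ϖ = ε * x * y) :
    ϖ = ((ε : L) * y) * x ∧ ¬ x ∣ (ε : L) * y := by
  refine ⟨by rw [hϖ]; ring, ?_⟩
  intro h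
  rcases hx.dvd_or_dvd h with h1 | h1
  · exact hx.not_isUnit (isUnit_of_dvd_unit h1 ε.isUnit)
  · exact hxy (hx.irreducible.associated_of_dvd hy.irreducible h1)

/-- the constant `c = ε` at a smooth point: `ϖ = ε x`, `x ∤ ε`. -/
theorem wcu_smooth_c (x : L) (hx : Prime x) (ϖ : L) (ε : Lˣ) (hϖ : ϖ = ε * x) :
    ϖ = (ε : L) * x ∧ ¬ x ∣ (ε : L) :=
  ⟨hϖ, fun h => hx.not_isUnit (isUnit_of_dvd_unit h ε.isUnit)⟩

end Units

end Fermat.Agent.S40lib

end
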