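import Mathlib
import Fermat.Agent.S36lib.Speed
import Fermat.Agent.S40lib.WindcUnits
import Fermat.Agent.S40lib.WindcEis2

/-!
# Item 88 (S40/S44), block (J-WILD), piece (G2f)-(P1), part 2 (helper13): `hau`, `hah` of
`g2w_node` with `UF := g2wUF` (helper24's `B`-form).  Complete proofs.

`B` the affine ring of the model of `X`, `s` the prime of the point, `B_s` its local ring (a UFD),
`r₁ = red_∞ : B → κ₁` with `ker r₁ ≤ s`, `x ∈ ker r₁` a local generator
(`hxg : ∀ z ∈ ker r₁, x ∣ εx * z`, `εx ∉ s`), `f : B_s →+* L` the map to the node ring of the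
cover, `ιB = g2wIota s f : B → E`.

* `wcu2_r1_ne_zero`  : `x_s ∤ a_s ⇒ r₁ a ≠ 0`  (`a ∈ B`);
* `wcu2_UF_le`       : `wcuUF f x_s ⊆ g2wUF ιB r₁` (the units of the image of `(B_s)_(x)` are
                       fractions `n / d` of elements of `B` with `r₁ n, r₁ d ≠ 0`);
* `wcu2_frac`        : `ιB n / ιB d = ϖ ^ m · b`, `b ∈ g2wUF ιB r₁`  (`ϖ = f ϖs`,
                       `ϖs = cs · x_s`, `x_s ∤ cs`);
* `wcu2_hau`         : **`hau` of `g2w_node` / `g2w_smooth` with `UF := g2wUF ιB r₁`**;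
* `wcu2_hau_frac`    : the same for the images of a field `F0 = Frac B`.
-/

set_option autoImplicit false
set_option linter.unusedVariables false
set_option linter.unusedSectionVars false
set_option linter.style.haveILetI false

noncomputable section

namespace Fermat.Agent.S40lib

open Fermat.Agent.S36lib IsLocalRing

section Units2

variable {B : Type*} [CommRing B] [IsNoetherianRing B] (s : Ideal B) [hs : s.IsPrime]
  {κ₁ : Type*} [Field κ₁] {L : Type*} [CommRing L] [IsDomain L]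
  {E : Type*} [Field E] [Algebra L E]

/-- an element of `B` outside `s` is a unit of `B_s` -/
theorem wcu2_isUnit (t : B) (ht : t ∉ s) :
    IsUnit (algebraMap B (Localization.AtPrime s) t) :=
  IsLocalization.map_units (Localization.AtPrime s) (⟨t, ht⟩ : s.primeCompl)

/-- `x_s ∤ a_s ⇒ r₁ a ≠ 0` -/
theorem wcu2_r1_ne_zero (r₁ : B →+* κ₁) (x εx : B)
    (hxg : ∀ z ∈ RingHom.ker r₁, x ∣ εx * z) (hεx : εx ∉ s) (a : B)
    (ha : ¬ algebraMap B (Localization.AtPrime s) x ∣ algebraMap B (Localization.AtPrime s) a) :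
    r₁ a ≠ 0 := by
  intro h0
  apply ha
  obtain ⟨c, hc⟩ := hxg a ((RingHom.mem_ker).2 h0)
  obtain ⟨u, hu⟩ := wcu2_isUnit s εx hεx
  have h1 : algebraMap B (Localization.AtPrime s) εx * algebraMap B (Localization.AtPrime s) a
      = algebraMap B (Localization.AtPrime s) x * algebraMap B (Localization.AtPrime s) c := by
    rw [← map_mul, ← map_mul, hc]
  refine ⟨(↑u⁻¹ : Localization.AtPrime s) * algebraMap B (Localization.AtPrime s) c, ?_⟩
  have h2 : algebraMap B (Localization.AtPrime s) a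
      = (↑u⁻¹ : Localization.AtPrime s) *
        (algebraMap B (Localization.AtPrime s) εx * algebraMap B (Localization.AtPrime s) a) := by
    rw [← hu, ← mul_assoc, Units.inv_mul, one_mul]
  rw [h2, h1]
  ring

variable [IsDomain (Localization.AtPrime s)]

/-- **the units of the image of `(B_s)_(x)` are in `g2wUF`** -/
theorem wcu2_UF_le (hinj : Function.Injective (algebraMap L E))
    (f : Localization.AtPrime s →+* L) (hfinj : Function.Injective f)
    (r₁ : B →+* κ₁) (h₁ : RingHom.ker r₁ ≤ s) (x εx : B)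
    (hxg : ∀ z ∈ RingHom.ker r₁, x ∣ εx * z) (hεx : εx ∉ s)
    (hxs : Prime (algebraMap B (Localization.AtPrime s) x)) :
    ∀ b ∈ wcuUF (E := E) f (algebraMap B (Localization.AtPrime s) x) hxs,
      b ∈ g2wUF (g2wIota (E := E) s f) r₁ := by
  rintro e ⟨he1, he2, he0⟩
  obtain ⟨a, b, hb, hab⟩ := (wcu_mem_DF f _ hxs e).1 he1
  obtain ⟨a₂, b₂, hb₂, hab₂⟩ := (wcu_mem_DF f _ hxs e⁻¹).1 he2
  -- `a a₂ = b b₂`
  have hprod : a * a₂ = b * b₂ := by
    apply hfinj
    apply hinj
    rw [map_mul, map_mul, map_mul, map_mul, ← hab, ← hab₂]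
    field_simp
  have ha : ¬ algebraMap B (Localization.AtPrime s) x ∣ a := by
    intro h
    have h1 : algebraMap B (Localization.AtPrime s) x ∣ b * b₂ := by
      rw [← hprod]
      exact Dvd.dvd.mul_right h a₂
    rcases hxs.dvd_or_dvd h1 with h2 | h2
    · exact hb h2
    · exact hb₂ h2
  -- write `a = a₀ / t₁`, `b = b₀ / t₂`
  obtain ⟨a₀, t₁, ha₀⟩ := IsLocalization.exists_mk'_eq s.primeCompl a
  obtain ⟨b₀, t₂, hb₀⟩ := IsLocalization.exists_mk'_eq s.primeCompl b
  have ha₀' : a * algebraMap B (Localization.AtPrime s) (t₁ : B)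
      = algebraMap B (Localization.AtPrime s) a₀ := by
    rw [← ha₀]
    exact IsLocalization.mk'_spec _ _ _
  have hb₀' : b * algebraMap B (Localization.AtPrime s) (t₂ : B)
      = algebraMap B (Localization.AtPrime s) b₀ := by
    rw [← hb₀]
    exact IsLocalization.mk'_spec _ _ _
  have hna₀ : ¬ algebraMap B (Localization.AtPrime s) x ∣
      algebraMap B (Localization.AtPrime s) a₀ := by
    rw [← ha₀']
    intro h
    rcases hxs.dvd_or_dvd h with h2 | h2
    · exact ha h2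
    · exact hxs.not_isUnit (isUnit_of_dvd_unit h2 (wcu2_isUnit s t₁ t₁.2))
  have hnb₀ : ¬ algebraMap B (Localization.AtPrime s) x ∣
      algebraMap B (Localization.AtPrime s) b₀ := by
    rw [← hb₀']
    intro h
    rcases hxs.dvd_or_dvd h with h2 | h2
    · exact hb h2
    · exact hxs.not_isUnit (isUnit_of_dvd_unit h2 (wcu2_isUnit s t₂ t₂.2))
  have hrt : ∀ t : s.primeCompl, r₁ (t : B) ≠ 0 := fun t h =>
    t.2 (h₁ ((RingHom.mem_ker).2 h))
  refine ⟨a₀ * t₂, b₀ * t₁, ?_, ?_, ?_⟩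
  · rw [map_mul]
    exact mul_ne_zero (wcu2_r1_ne_zero s r₁ x εx hxg hεx a₀ hna₀) (hrt t₂)
  · rw [map_mul]
    exact mul_ne_zero (wcu2_r1_ne_zero s r₁ x εx hxg hεx b₀ hnb₀) (hrt t₁)
  · have e1 : g2wIota (E := E) s f (b₀ * t₁)
        = algebraMap L E (f b) * algebraMap L E (f (algebraMap B _ (t₂ : B))) *
          algebraMap L E (f (algebraMap B _ (t₁ : B))) := by
      rw [g2wIota_apply, map_mul (algebraMap B (Localization.AtPrime s)), ← hb₀']
      simp only [map_mul]
    have e2 : g2wIota (E := E) s f (a₀ * t₂)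
        = algebraMap L E (f a) * algebraMap L E (f (algebraMap B _ (t₁ : B))) *
          algebraMap L E (f (algebraMap B _ (t₂ : B))) := by
      rw [g2wIota_apply, map_mul (algebraMap B (Localization.AtPrime s)), ← ha₀']
      simp only [map_mul]
    rw [e1, e2, ← hab]
    ring

variable [UniqueFactorizationMonoid (Localization.AtPrime s)]

/-- **quotients of `B`**: `ιB n / ιB d = ϖ ^ m · b`, `b ∈ g2wUF ιB r₁`. -/
theorem wcu2_frac (hinj : Function.Injective (algebraMap L E))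
    (f : Localization.AtPrime s →+* L) (hfinj : Function.Injective f)
    (r₁ : B →+* κ₁) (h₁ : RingHom.ker r₁ ≤ s) (x εx : B)
    (hxg : ∀ z ∈ RingHom.ker r₁, x ∣ εx * z) (hεx : εx ∉ s)
    (hxs : Prime (algebraMap B (Localization.AtPrime s) x))
    (ϖ : L) (ϖs cs : Localization.AtPrime s) (hfϖ : f ϖs = ϖ)
    (hϖs : ϖs = cs * algebraMap B (Localization.AtPrime s) x)
    (hcs : ¬ algebraMap B (Localization.AtPrime s) x ∣ cs)
    (n d : B) (hn : g2wIota (E := E) s f n ≠ 0) (hd : g2wIota (E := E) s f d ≠ 0) :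
    ∃ m : ℤ, ∃ b ∈ g2wUF (g2wIota (E := E) s f) r₁,
      g2wIota (E := E) s f n / g2wIota (E := E) s f d = algebraMap L E ϖ ^ m * b := by
  have hn' : algebraMap B (Localization.AtPrime s) n ≠ 0 := by
    intro h
    apply hn
    rw [g2wIota_apply, h, map_zero, map_zero]
  have hd' : algebraMap B (Localization.AtPrime s) d ≠ 0 := by
    intro h
    apply hd
    rw [g2wIota_apply, h, map_zero, map_zero]
  obtain ⟨m, b, hb, hrel⟩ := wcu_frac_B hinj f hfinj _ hxs ϖs cs hϖs hcs _ _ hn' hd'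
  refine ⟨m, b, wcu2_UF_le s hinj f hfinj r₁ h₁ x εx hxg hεx hxs b hb, ?_⟩
  rw [g2wIota_apply, g2wIota_apply, hrel, hfϖ]

/-- **`hau` of `g2w_node` with `UF := g2wUF ιB r₁`**: a family of quotients of `B` is `0` or
`ϖ ^ m · b`, `b ∈ g2wUF ιB r₁`. -/
theorem wcu2_hau (hinj : Function.Injective (algebraMap L E))
    (f : Localization.AtPrime s →+* L) (hfinj : Function.Injective f)
    (r₁ : B →+* κ₁) (h₁ : RingHom.ker r₁ ≤ s) (x εx : B)
    (hxg : ∀ z ∈ RingHom.ker r₁, x ∣ εx * z) (hεx : εx ∉ s)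
    (hxs : Prime (algebraMap B (Localization.AtPrime s) x))
    (ϖ : L) (ϖs cs : Localization.AtPrime s) (hfϖ : f ϖs = ϖ)
    (hϖs : ϖs = cs * algebraMap B (Localization.AtPrime s) x)
    (hcs : ¬ algebraMap B (Localization.AtPrime s) x ∣ cs)
    {I : Type*} (au : I → E)
    (hau : ∀ i, ∃ n d : B, g2wIota (E := E) s f d ≠ 0 ∧
      au i * g2wIota (E := E) s f d = g2wIota (E := E) s f n) :
    ∀ i, au i = 0 ∨ ∃ m : ℤ, ∃ b ∈ g2wUF (g2wIota (E := E) s f) r₁,
      au i = algebraMap L E ϖ ^ m * b := by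
  intro i
  obtain ⟨n, d, hd, hnd⟩ := hau i
  have hq : au i = g2wIota (E := E) s f n / g2wIota (E := E) s f d := by
    rw [← hnd, mul_div_assoc, div_self hd, mul_one]
  by_cases hn : g2wIota (E := E) s f n = 0
  · left
    rw [hq, hn, zero_div]
  · right
    obtain ⟨m, b, hb, hrel⟩ :=
      wcu2_frac s hinj f hfinj r₁ h₁ x εx hxg hεx hxs ϖ ϖs cs hfϖ hϖs hcs n d hn hd
    exact ⟨m, b, hb, by rw [hq, hrel]⟩

/-- **`hau` for the images of a fraction field `F0` of `B`**. -/
theorem wcu2_hau_frac (hinj : Function.Injective (algebraMap L E))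
    (f : Localization.AtPrime s →+* L) (hfinj : Function.Injective f)
    (r₁ : B →+* κ₁) (h₁ : RingHom.ker r₁ ≤ s) (x εx : B)
    (hxg : ∀ z ∈ RingHom.ker r₁, x ∣ εx * z) (hεx : εx ∉ s)
    (hxs : Prime (algebraMap B (Localization.AtPrime s) x))
    (ϖ : L) (ϖs cs : Localization.AtPrime s) (hfϖ : f ϖs = ϖ)
    (hϖs : ϖs = cs * algebraMap B (Localization.AtPrime s) x)
    (hcs : ¬ algebraMap B (Localization.AtPrime s) x ∣ cs)
    {F0 : Type*} [Field F0] [Algebra B F0] [IsDomain B] [IsFractionRing B F0] (φ0 : F0 →+* E)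
    (hφ0 : ∀ z : B, φ0 (algebraMap B F0 z) = g2wIota (E := E) s f z) (g : F0) :
    φ0 g = 0 ∨ ∃ m : ℤ, ∃ b ∈ g2wUF (g2wIota (E := E) s f) r₁,
      φ0 g = algebraMap L E ϖ ^ m * b := by
  obtain ⟨n, d, hd, hnd⟩ := IsFractionRing.div_surjective (A := B) g
  have hd0 : d ≠ 0 := nonZeroDivisors.ne_zero hd
  have hdF : algebraMap B F0 d ≠ 0 := fun h =>
    hd0 (IsFractionRing.injective B F0 (by rw [h, map_zero]))
  have hdE : g2wIota (E := E) s f d ≠ 0 := by
    rw [← hφ0]
    exact (map_ne_zero φ0).2 hdF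
  refine wcu2_hau s hinj f hfinj r₁ h₁ x εx hxg hεx hxs ϖ ϖs cs hfϖ hϖs hcs (I := Unit)
    (fun _ => φ0 g) (fun _ => ⟨n, d, hdE, ?_⟩) ()
  rw [← hφ0, ← hφ0, ← map_mul, ← hnd, div_mul_cancel₀ _ hdF]

end Units2

end Fermat.Agent.S40lib

end
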