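import Mathlib
import Fermat.Agent.S36lib.Speed
import Fermat.Agent.S40lib.WildPtAsm

/-!
# Item 88 (S44), block (J-WILD), FINAL ASSEMBLER, layer A, smooth points (helper22)

`s40j_pt_smooth`: the per-point theorem `g2w_point_smooth` (helper24) at the ring `L = C_𝔫` of
the cover over a smooth point (`R = B_s`, `𝔪 = (x, y)`, `p = unit · x`), with ALL the
`L`-dependent hypotheses discharged (`cva_node`, `wch_hval_smooth`, `wcu2_hau`, `wcu_hah_frac`,
`g2w_eis_integral`).  The hypotheses left are all `L`-free.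
-/

set_option autoImplicit false
set_option linter.unusedVariables false
set_option linter.unusedSectionVars false
set_option linter.style.haveILetI false
set_option synthInstance.maxHeartbeats 400000

noncomputable section

namespace Fermat.Agent.S40lib

open ModularCurve HahnSeries AlgebraicCurve Fermat.Agent.S24lib Fermat.Agent.S33lib
  Fermat.Agent.S34lib Fermat.Agent.RRlib Fermat.Agent.S36lib IsLocalRing

section PtSmooth

universe uE

variable {B : Type*} [CommRing B] [IsDomain B] [IsNoetherianRing B] (s : Ideal B)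
  [hs : s.IsPrime] [UniqueFactorizationMonoid (Localization.AtPrime s)]
  {κ₁ : Type*} [Field κ₁]
  {F₀ : Type*} [Field F₀] [Algebra (Localization.AtPrime s) F₀]
  [IsFractionRing (Localization.AtPrime s) F₀]
  {E₀ : Type uE} [Field E₀] [Algebra (Localization.AtPrime s) E₀] [Algebra F₀ E₀]
  [IsScalarTower (Localization.AtPrime s) F₀ E₀]
  {E : Type*} [Field E] [Algebra (Localization.AtPrime s) E] [Algebra E₀ E]
  (A : ValuationSubring Kbar) (p : ℕ) (hp : p.Prime) (hA : A.LiesOverPrime p)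
  (N : ℕ) [NeZero N] [RRBase Kbar (FF N)]
  [Algebra (k0Field A) E₀] [Algebra Kbar E] [Algebra (k0Field A) E]
  [@IsScalarTower (k0Field A) Kbar E Algebra.toSMul Algebra.toSMul Algebra.toSMul]
  [@IsScalarTower (k0Field A) E₀ E Algebra.toSMul Algebra.toSMul Algebra.toSMul]
  [CharZero (k0Field A)] [Algebra.IsAlgebraic (k0Field A) Kbar]

include hp hA in
set_option maxHeartbeats 4000000 in
/-- **the per-point theorem at a smooth point of the cover, `L`-free hypotheses.** -/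
theorem s40j_pt_smooth
    -- the `X`-side package
    (r₁ : B →+* κ₁) (h₁ : RingHom.ker r₁ ≤ s)
    (x εx y : B) (hx : x ∈ RingHom.ker r₁) (hxg : ∀ z ∈ RingHom.ker r₁, x ∣ εx * z)
    (hεx : εx ∉ s)
    (hm : maximalIdeal (Localization.AtPrime s) =
      Ideal.span {algebraMap B (Localization.AtPrime s) x,
        algebraMap B (Localization.AtPrime s) y})
    (wQ : κ₁ → ℤ) (hwQ : ∀ a b : κ₁, a ≠ 0 → b ≠ 0 → wQ (a * b) = wQ a + wQ b)
    (hord0 : ∀ c : B, r₁ c ≠ 0 → 0 ≤ wQ (r₁ c))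
    (hws : ∀ c : B, c ∉ s → wQ (r₁ c) = 0)
    (hy0 : r₁ y ≠ 0) (hwy : wQ (r₁ y) = 1)
    (hxs : Prime (algebraMap B (Localization.AtPrime s) x))
    (hyx : ¬ algebraMap B (Localization.AtPrime s) x ∣ algebraMap B (Localization.AtPrime s) y)
    (tU : (Localization.AtPrime s)ˣ)
    (hxp : (p : Localization.AtPrime s) = tU * algebraMap B (Localization.AtPrime s) x)
    -- the cover
    {k : Type*} [Field k] [IsAlgClosed k] (ρ : Localization.AtPrime s →+* k)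
    (hρ : Function.Surjective ρ)
    (hinjR : Function.Injective (algebraMap (Localization.AtPrime s) E₀))
    (hpR : (p : Localization.AtPrime s) ∈ maximalIdeal (Localization.AtPrime s))
    (ι : E₀ →ₐ[Localization.AtPrime s] E) (hι : ∀ e, ι e = algebraMap E₀ E e)
    (σ₀ : E₀ →+* E₀) (z₀ : E₀) (hz : IsIntegral (Localization.AtPrime s) z₀)
    (hσp : σ₀^[p] z₀ = z₀)
    (hσR : ∀ r : Localization.AtPrime s,
      σ₀ (algebraMap (Localization.AtPrime s) E₀ r) = algebraMap (Localization.AtPrime s) E₀ r)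
    (hdesc : ∀ t : E₀, σ₀ t = t → IsIntegral (Localization.AtPrime s) t →
      t ∈ Set.range (algebraMap (Localization.AtPrime s) E₀))
    {ζ : E} (hζ : IsPrimitiveRoot ζ p) (c : ℕ → E)
    (hc : ∀ i ∈ Finset.Ico 1 p, IsIntegral (Localization.AtPrime s) (c i))
    (hcong : ∀ i ∈ Finset.Ico 1 p,
      ι (σ₀^[i] z₀) - ι z₀ =
        algebraMap (Localization.AtPrime s) E (i : Localization.AtPrime s) + (ζ - 1) * c i)
    (hgen₀ : Algebra.adjoin F₀ ({z₀} : Set E₀) = ⊤)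
    (𝔫 : Ideal (Algebra.adjoin (Localization.AtPrime s) ({z₀} : Set E₀))) [h𝔫 : 𝔫.IsMaximal]
    -- the function
    (u : E₀) (hu : u ≠ 0)
    -- `hval`
    (hgenE : Algebra.adjoin E₀ (Set.range (algebraMap Kbar E)) = ⊤)
    (φ : FF N →ₐ[Kbar] E) (hφ : φ.toRingHom.IsIntegral)
    {x₀ : JZero N} {ux : FF N} (hux : gdfIsKummer (K := Kbar) p x₀ ux)
    (hE : E) (cK : Kbar)
    (hrelu : algebraMap E₀ E u = algebraMap Kbar E cK * φ ux * hE ^ p)
    (ιA : k0Val A →+* Localization.AtPrime s)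
    (hcompatA : ∀ a : k0Val A,
      algebraMap (Localization.AtPrime s) E₀ (ιA a) = algebraMap (k0Field A) E₀ (a : k0Field A))
    (ϖA : k0Val A) (hϖA : ((ϖA : k0Field A) : Kbar) ∈ A.nonunits)
    (eA : (Localization.AtPrime s)ˣ) (hpA : (p : Localization.AtPrime s) = eA * ιA ϖA)
    -- the Eisenstein data
    (η aE mθ : E) (hη : η ^ p = 1 + (p : E) * aE)
    (hmθ : mθ ∈ Subring.closure ({η - 1} : Set E))
    (hπθ : (η - 1) ^ p = (p : E) * (aE + (η - 1) * mθ))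
    (hθ0 : aE + (η - 1) * mθ ≠ 0)
    -- the constants
    (jE : B →+* E)
    (hjE : ∀ b : B, algebraMap (Localization.AtPrime s) E
      (algebraMap B (Localization.AtPrime s) b) = jE b)
    (isC : B → Prop) (hCmul : ∀ n n', isC n → isC n' → isC (n * n'))
    (hC : ∀ n, isC n → r₁ n ≠ 0 ∧ wQ (r₁ n) = 0)
    (haK : aE ∈ g2wUK jE isC)
    -- the coordinates
    (ae au ah : Fin p → E)
    (hae : ∀ i, ae i = 0 ∨ ∃ m : ℤ, ∃ b ∈ g2wUK jE isC, ae i = (p : E) ^ m * b)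
    (hau : ∀ i, ∃ n d : B, jE d ≠ 0 ∧ au i * jE d = jE n)
    (hah : ∀ i, ∃ g₀ : E₀, ah i = algebraMap E₀ E g₀)
    (hrel : algebraMap E₀ E u =
      (∑ i, ae i * (η - 1) ^ (i : ℕ)) * (∑ i, au i * (η - 1) ^ (i : ℕ)) *
        (∑ i, ah i * (η - 1) ^ (i : ℕ)) ^ p)
    -- the reduction of the function field of `X`
    (jB : B →+* FF N) (hφj : ∀ b, φ (jB b) = jE b)
    (OF : ValuationSubring (FF N)) (redF : OF →+* κ₁) (hjO : ∀ b, jB b ∈ OF)
    (hjred : ∀ b, redF ⟨jB b, hjO b⟩ = r₁ b)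
    (hOFinv : ∀ z : OF, redF z ≠ 0 → ((z : FF N))⁻¹ ∈ OF)
    (hconst : ∀ (c : Kbar) (h : algebraMap Kbar (FF N) c ∈ OF),
      redF ⟨algebraMap Kbar (FF N) c, h⟩ ≠ 0 → wQ (redF ⟨algebraMap Kbar (FF N) c, h⟩) = 0)
    (π1K θK mθK : Kbar) (hπ1F : algebraMap Kbar (FF N) π1K ∈ OF)
    (hπ1red : redF ⟨algebraMap Kbar (FF N) π1K, hπ1F⟩ = 0)
    (hπ1φ : φ (algebraMap Kbar (FF N) π1K) = η - 1)
    (hθF : algebraMap Kbar (FF N) θK ∈ OF)
    (hθφ : φ (algebraMap Kbar (FF N) θK) = aE + (η - 1) * mθ)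
    (hθF' : algebraMap Kbar (FF N) θK⁻¹ ∈ OF)
    (hmF : algebraMap Kbar (FF N) mθK ∈ OF) (hmφ : φ (algebraMap Kbar (FF N) mθK) = mθ)
    (u1 : FF N) (hu1 : φ u1 = ∑ i, au i * (η - 1) ^ (i : ℕ))
    (c₁ : Kbar) (h2 : algebraMap Kbar (FF N) c₁ * u1 ∈ OF)
    (h20 : redF ⟨algebraMap Kbar (FF N) c₁ * u1, h2⟩ ≠ 0) :
    (p : ℤ) ∣ wQ (redF ⟨algebraMap Kbar (FF N) c₁ * u1, h2⟩) := by
  classical
  haveI : 𝔫.IsPrime := h𝔫.isPrime
  -- the package of the cover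
  obtain ⟨hx𝔫, hy𝔫, hufm, hxL0, hyL0, hxyL0, ⟨κ₂, iκ₂, red₂, w₂, hred₂0, hw₂, hw0₂, hwy₂0⟩, -⟩ :=
    cva_node ρ hρ hinjR (algebraMap B (Localization.AtPrime s) x)
      (algebraMap B (Localization.AtPrime s) y) hxs hyx hm hp hpR ι σ₀ z₀ hz hσp hσR hdesc hζ c
      hc hcong 𝔫
  letI := iκ₂
  haveI := hufm
  have hxL : Prime (s40jF s z₀ 𝔫 (algebraMap B (Localization.AtPrime s) x)) := hxL0
  have hyL : Prime (s40jF s z₀ 𝔫 (algebraMap B (Localization.AtPrime s) y)) := hyL0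
  have hxyL : ¬ Associated (s40jF s z₀ 𝔫 (algebraMap B (Localization.AtPrime s) x))
      (s40jF s z₀ 𝔫 (algebraMap B (Localization.AtPrime s) y)) := hxyL0
  have hred₂ : ∀ c, red₂ c = 0 ↔
      s40jF s z₀ 𝔫 (algebraMap B (Localization.AtPrime s) x) ∣ c := hred₂0
  have hwy₂ : w₂ (red₂ (s40jF s z₀ 𝔫 (algebraMap B (Localization.AtPrime s) y))) = 1 := hwy₂0
  letI algL : Algebra (Localization.AtPrime 𝔫) E₀ := cvn_alg z₀ 𝔫
  haveI hfrL : IsFractionRing (Localization.AtPrime 𝔫) E₀ := cvn_frac z₀ hgen₀ 𝔫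
  letI algLE : Algebra (Localization.AtPrime 𝔫) E := cvaAlgE (Localization.AtPrime 𝔫) E₀ E
  haveI htow : IsScalarTower (Localization.AtPrime 𝔫) E₀ E := cva_tower (Localization.AtPrime 𝔫) E₀ E
  have hinj : Function.Injective (algebraMap (Localization.AtPrime 𝔫) E) :=
    cva_hinjE (Localization.AtPrime 𝔫) E₀ E
  have hfR : ∀ r, algebraMap (Localization.AtPrime 𝔫) E₀ (s40jF s z₀ 𝔫 r) =
      algebraMap (Localization.AtPrime s) E₀ r := s40j_F_apply s z₀ 𝔫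
  have hfE : ∀ r, algebraMap (Localization.AtPrime 𝔫) E (s40jF s z₀ 𝔫 r) =
      algebraMap (Localization.AtPrime s) E r := by
    intro r
    show algebraMap E₀ E (algebraMap (Localization.AtPrime 𝔫) E₀ (s40jF s z₀ 𝔫 r)) = _
    rw [hfR, ← hι, ι.commutes]
  have hιB : g2wIota (L := Localization.AtPrime 𝔫) (E := E) s (s40jF s z₀ 𝔫) = jE :=
    RingHom.ext fun b => by rw [g2wIota_apply, hfE, hjE]
  have hfinj : Function.Injective (s40jF s z₀ 𝔫) := by
    intro a b hab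
    apply hinjR
    rw [← hfR, ← hfR, hab]
  -- the uniformiser `ϖ = p`
  have hϖ : ((p : ℕ) : Localization.AtPrime 𝔫) =
      ((Units.map (s40jF s z₀ 𝔫).toMonoidHom tU : (Localization.AtPrime 𝔫)ˣ) :
        Localization.AtPrime 𝔫) * s40jF s z₀ 𝔫 (algebraMap B (Localization.AtPrime s) x) := by
    rw [← map_natCast (s40jF s z₀ 𝔫) p, hxp, map_mul]
    rfl
  have hϖE : algebraMap (Localization.AtPrime 𝔫) E ((p : ℕ) : Localization.AtPrime 𝔫) =
      (p : E) := map_natCast _ p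
  have hxy₂ : ¬ s40jF s z₀ 𝔫 (algebraMap B (Localization.AtPrime s) x) ∣
      s40jF s z₀ 𝔫 (algebraMap B (Localization.AtPrime s) y) := fun h =>
    hxyL (hxL.irreducible.associated_of_dvd hyL.irreducible h)
  -- `hval`
  have hϖe : ((p : ℕ) : Localization.AtPrime 𝔫) =
      ((Units.map (s40jF s z₀ 𝔫).toMonoidHom eA : (Localization.AtPrime 𝔫)ˣ) :
        Localization.AtPrime 𝔫) * ((s40jF s z₀ 𝔫).comp ιA) ϖA := by
    rw [← map_natCast (s40jF s z₀ 𝔫) p, hpA, map_mul]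
    rfl
  have hval := wch_hval_smooth A p hp hA N hgenE φ hφ hux u hE cK hrelu
    (s40jF s z₀ 𝔫 (algebraMap B (Localization.AtPrime s) x)) hxL
    ((p : ℕ) : Localization.AtPrime 𝔫) _ hϖ ((s40jF s z₀ 𝔫).comp ιA)
    (fun a => by rw [RingHom.comp_apply, hfR, hcompatA]) ϖA hϖA _ hϖe
  -- the hypotheses of `g2e_cmp_B`, for `hDF`
  have hDF := g2w_hDF (L := Localization.AtPrime 𝔫) (E := E) s r₁ h₁ x εx y hx hxg hεx hm wQ hwQ hord0 hws hy0 hwy
    (s40jF s z₀ 𝔫) red₂ hred₂ w₂ hw₂ hw0₂ hwy₂ hxy₂ hxL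
  have haD : aE ∈ pdPrimeLoc (R := Localization.AtPrime 𝔫) E
        (s40jF s z₀ 𝔫 (algebraMap B (Localization.AtPrime s) x)) hxL := by
    obtain ⟨n, d, hn, hd, hb⟩ := haK
    refine hDF ⟨n, d, (hC d hd).1, ?_⟩
    rw [hιB]
    exact hb
  obtain ⟨hπint, hmint⟩ := g2w_eis_integral (pdPrimeLoc (R := Localization.AtPrime 𝔫) E
        (s40jF s z₀ 𝔫 (algebraMap B (Localization.AtPrime s) x)) hxL) p hp.pos η aE hη haD mθ hmθ
  -- the coordinates
  obtain ⟨hc1, hc2⟩ := wcu_smooth_c (s40jF s z₀ 𝔫 (algebraMap B (Localization.AtPrime s) x))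
    hxL ((p : ℕ) : Localization.AtPrime 𝔫) _ hϖ
  have hae' : ∀ i, ae i = 0 ∨ ∃ m : ℤ, ∃ b ∈ g2wUK (g2wIota (L := Localization.AtPrime 𝔫) (E := E) s (s40jF s z₀ 𝔫)) isC,
      ae i = algebraMap (Localization.AtPrime 𝔫) E ((p : ℕ) : Localization.AtPrime 𝔫) ^ m * b := by
    rw [hιB, hϖE]
    exact hae
  have hcs : ¬ algebraMap B (Localization.AtPrime s) x ∣
      ((tU : (Localization.AtPrime s)ˣ) : Localization.AtPrime s) := fun h =>
    hxs.not_isUnit (isUnit_of_dvd_unit h tU.isUnit)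
  have hau' := wcu2_hau (L := Localization.AtPrime 𝔫) (E := E) s hinj (s40jF s z₀ 𝔫) hfinj r₁ h₁ x εx hxg hεx hxs
    ((p : ℕ) : Localization.AtPrime 𝔫) (p : Localization.AtPrime s)
    ((tU : (Localization.AtPrime s)ˣ) : Localization.AtPrime s) (map_natCast _ p)
    hxp hcs au (by rw [hιB]; exact hau)
  have hah' : ∀ i, ah i = 0 ∨ ∃ m : ℤ,
      ∃ b ∈ {b : E | b ∈ pdPrimeLoc (R := Localization.AtPrime 𝔫) E
        (s40jF s z₀ 𝔫 (algebraMap B (Localization.AtPrime s) x)) hxL ∧ b⁻¹ ∈ pdPrimeLoc (R := Localization.AtPrime 𝔫) E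
        (s40jF s z₀ 𝔫 (algebraMap B (Localization.AtPrime s) x)) hxL ∧ b ≠ 0},
        ah i = algebraMap (Localization.AtPrime 𝔫) E ((p : ℕ) : Localization.AtPrime 𝔫) ^ m * b := by
    intro i
    obtain ⟨g₀, hg₀⟩ := hah i
    rw [hg₀]
    exact wcu_hah_frac (L := Localization.AtPrime 𝔫) (E := E) hinj _ hxL _ _ hc1 hc2 g₀
  exact g2w_point_smooth (L := Localization.AtPrime 𝔫) (E0 := E₀) (E := E) (K := Kbar) (F := FF N) s r₁ h₁ x εx y hx hxg hεx hm wQ hwQ hord0 hws hy0 hwy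
    (s40jF s z₀ 𝔫) hinj hxL
    ((p : ℕ) : Localization.AtPrime 𝔫) _ hϖ red₂ hred₂ w₂ hw₂ hw0₂ hwy₂ hxy₂
    p hp.pos u hu hval
    (η - 1) (aE + (η - 1) * mθ) aE mθ (by rw [hϖE]; exact hπθ) hθ0 rfl hπint hmint
    isC hCmul hC (by rw [hιB]; exact haK) ae au ah hae' hau' hah' hrel
    (φ : FF N →+* E) jB (fun b => by rw [hιB]; exact hφj b) OF redF hjO hjred hOFinv hconst
    π1K θK mθK hπ1F hπ1red hπ1φ hθF hθφ hθF' hmF hmφ u1 hu1 c₁ h2 h20

end PtSmooth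

end Fermat.Agent.S40lib

end
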