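import Mathlib
import Fermat.Agent.S36lib.Speed
import Fermat.Agent.S36lib.TheSetup
import Fermat.Agent.S34lib.GlueMod
import Fermat.Agent.GoodRed.Wiring
import Fermat.Agent.GoodRed.Lattice

/-!
# Item 88 (S44), block (J-WILD), per-point theorem `g2w_point_*`: the `(F)`-side inputs

The cover-independent part of the package `(F)` of `g2w_point_node` / `g2w_point_smooth`
(`WindcPoint.lean`), for the node setup `S = nodeSetupNj A M' q hq hqM hA R hR`
(`B = S.B ⊆ F0(M' q) ⊆ FF (M' q)`), on both components: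

* `wcfJ`            : `jB : S.B →+* FF (M' q)`;
* `wcf_hjO`, `wcf_hjred`           : `jB b ∈ R.O`, `R.red (jB b) = S.redInf b`   (component `∞`);
* `wcf_hjO_zero`, `wcf_hjred_zero` : `jB b ∈ (glmZero R).O`,
                                     `(glmZero R).red (jB b) = S.redZero b`      (component `0`);
* `wcf_hOFinv`      : `red z ≠ 0 ⇒ z⁻¹ ∈ O`      (any constant reduction);
* `wcf_hconst`      : `ord_Q (red c) = 0` for a constant `c` with `red c ≠ 0`;
* `wcf_const_mem`, `wcf_const_red_zero` : constants of `A` lie in `O`, constants of the maximal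
  ideal of `A` reduce to `0` (for `π1K`, `θK`, `mθK`).
-/

set_option autoImplicit false
set_option linter.unusedSectionVars false
set_option linter.unusedVariables false

noncomputable section

namespace Fermat.Agent.S40lib

open Fermat.Agent.FFlib Fermat.Agent.S24lib Fermat.Agent.GM Fermat.Agent.GoodRed
  Fermat.Agent.S36lib Fermat.Agent.S34lib
open AlgebraicCurve IsLocalRing IntermediateField ModularCurve

section Abstract

variable {K F k Fk : Type*} [Field K] [Field F] [Algebra K F] [Field k] [Field Fk] [Algebra k Fk]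
variable {A : ValuationSubring K} {π : A →+* k} (R : ConstRed A π Fk F)

/-- `hOFinv`: an element of `O` with non-zero reduction is a unit of `O`. -/
theorem wcf_hOFinv (z : R.O) (hz : R.red z ≠ 0) : ((z : F))⁻¹ ∈ R.O := by
  have h1 : (z : F) ∉ R.O.nonunits := fun h => hz ((R.red_eq_zero_iff z).mpr h)
  rw [ValuationSubring.mem_nonunits_iff, not_lt] at h1
  have h2 : R.O.valuation (z : F) ≤ 1 := (R.O.valuation_le_one_iff _).mpr z.2
  have h3 : R.O.valuation (z : F) = 1 := le_antisymm h2 h1
  rw [← R.O.valuation_le_one_iff, map_inv₀, h3, inv_one]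

/-- `hconst`: the reduction of a constant, if non-zero, has order `0` at every place. -/
theorem wcf_hconst (Q : Place k Fk) (c : K) (h : algebraMap K F c ∈ R.O)
    (h0 : R.red ⟨algebraMap K F c, h⟩ ≠ 0) :
    Q.ord (R.red ⟨algebraMap K F c, h⟩) = 0 := by
  have hc : c ∈ A := (R.algebraMap_mem_iff c).mp h
  have hred := R.red_algebraMap ⟨c, hc⟩
  have hred' : R.red ⟨algebraMap K F c, h⟩ = algebraMap k Fk (π ⟨c, hc⟩) := hred
  rw [hred'] at h0 ⊢
  have hb : π ⟨c, hc⟩ ≠ 0 := fun hb => h0 (by rw [hb, map_zero])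
  exact wir_ord_algebraMap Q hb

/-- constants of `A` lie in `O` -/
theorem wcf_const_mem (c : K) (hc : c ∈ A) : algebraMap K F c ∈ R.O :=
  R.algebraMap_mem ⟨c, hc⟩

/-- constants of the maximal ideal of `A` reduce to `0` -/
theorem wcf_const_red_zero (c : K) (hc : c ∈ A.nonunits) :
    ∃ h : algebraMap K F c ∈ R.O, R.red ⟨algebraMap K F c, h⟩ = 0 := by
  have hcA : c ∈ A := A.nonunits_le hc
  refine ⟨R.algebraMap_mem ⟨c, hcA⟩, ?_⟩
  have hred := R.red_algebraMap ⟨c, hcA⟩
  have hπ : π ⟨c, hcA⟩ = 0 := (R.π_eq_zero_iff ⟨c, hcA⟩).mpr hc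
  rw [hπ, map_zero] at hred
  exact hred

end Abstract

section Conc

variable (A : ValuationSubring Kbar) (M' q : ℕ) [NeZero M'] [NeZero q] (hq : q.Prime)
  (hqM : ¬ q ∣ M') (hA : A.LiesOverPrime q)
  (R : ConstRed A (IsLocalRing.residue A)
      (↥(modularFunctionFieldFullC (IsLocalRing.ResidueField A) M')) (FF (M' * q)))
  (hR : IsSeriesRed R)

/-- `jB`: the inclusion of the affine ring `B_j` into `FF (M' q)` -/
def wcfJ : (nodeSetupNj A M' q hq hqM hA R hR).B →+* FF (M' * q) :=
  (algebraMap (f0Field A (M' * q)) (FF (M' * q))).comp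
    (nodeSetupNj A M' q hq hqM hA R hR).B.subtype

theorem wcfJ_apply (b : (nodeSetupNj A M' q hq hqM hA R hR).B) :
    wcfJ A M' q hq hqM hA R hR b = ((b : f0Field A (M' * q)) : FF (M' * q)) := rfl

theorem wcfJ_injective : Function.Injective (wcfJ A M' q hq hqM hA R hR) := by
  intro a b h
  rw [wcfJ_apply, wcfJ_apply] at h
  exact Subtype.ext (Subtype.ext h)

/-- `hjO` on the component `∞` -/
theorem wcf_hjO (b : (nodeSetupNj A M' q hq hqM hA R hR).B) :
    wcfJ A M' q hq hqM hA R hR b ∈ R.O :=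
  (nodeSetupNj A M' q hq hqM hA R hR).B_le_inf b.2

/-- `hjred` on the component `∞` -/
theorem wcf_hjred (b : (nodeSetupNj A M' q hq hqM hA R hR).B) :
    R.red ⟨wcfJ A M' q hq hqM hA R hR b, wcf_hjO A M' q hq hqM hA R hR b⟩
      = (nodeSetupNj A M' q hq hqM hA R hR).redInf b := rfl

/-- `hjO` on the component `0` -/
theorem wcf_hjO_zero (b : (nodeSetupNj A M' q hq hqM hA R hR).B) :
    wcfJ A M' q hq hqM hA R hR b ∈ (glmZero M' q hq hqM R).O :=
  (nodeSetupNj A M' q hq hqM hA R hR).B_le_zero b.2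

/-- `hjred` on the component `0` -/
theorem wcf_hjred_zero (b : (nodeSetupNj A M' q hq hqM hA R hR).B) :
    (glmZero M' q hq hqM R).red
        ⟨wcfJ A M' q hq hqM hA R hR b, wcf_hjO_zero A M' q hq hqM hA R hR b⟩
      = (nodeSetupNj A M' q hq hqM hA R hR).redZero b := rfl

end Conc

end Fermat.Agent.S40lib

end
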