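import Mathlib
import Fermat.Agent.S36lib.Speed
import Fermat.Agent.S36lib.K0Unram
import Fermat.Agent.S33lib.TorGlue
import Fermat.Agent.S33lib.RayPow
import Fermat.Agent.S40lib.ConstPow
import Fermat.Agent.S40lib.Hub

/-!
# Item 88 (S44), block (J-WILD), piece (G2e)-(P2)+(P3): the Eisenstein data of `κ` (helper29)

`B` a valuation ring of `ℚ̄` over `p`, `I` its inertia group, `K0 = ℚ̄^I`.

* `wkp_const` (P3): a non-zero element of `K0` is `p ^ m ·` (unit of `B` in `K0`);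
* `wkp_root_fixed` : `η ^ p = 1 + p a`, `a ∈ K0` a NON-unit of `B` ⇒ every `τ ∈ I₁`
  (`S40hI1 p B`) fixes `η`;
* `wkp_eis` (P2): `κ ≠ 0` fixed by `I`, `v(κ) = v(p) ^ (p n)`, `rt ^ p = κ`, some `τ ∈ I₁` moves
  `rt` ⇒ there are units `ε0`, `a` of `B` in `K0` with `(rt / (p ^ n ε0)) ^ p = 1 + p a`.
Complete proofs.
-/

set_option autoImplicit false
set_option linter.style.haveILetI false
set_option linter.unusedVariables false
set_option linter.unusedSectionVars false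

noncomputable section

namespace Fermat.Agent.S40lib

open Fermat.Agent.S36lib Fermat.Agent.S33lib

variable (B : ValuationSubring (AlgebraicClosure ℚ))

/-- a valuation-one element is a unit -/
theorem wkp_unit_of_val {x : AlgebraicClosure ℚ} (h : B.valuation x = 1) :
    x ∈ B ∧ x⁻¹ ∈ B ∧ x ≠ 0 := by
  refine ⟨(B.valuation_le_one_iff x).mp h.le, ?_, ?_⟩
  · rw [← B.valuation_le_one_iff, map_inv₀, h, inv_one]
  · intro h0
    rw [h0, map_zero] at h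
    exact zero_ne_one h

/-- **(P3)**: a non-zero element of `K0` is `p ^ m` times a unit of `B` lying in `K0`. -/
theorem wkp_const {p : ℕ} (hp : p.Prime) (hB : B.LiesOverPrime p) (x : AlgebraicClosure ℚ)
    (hfix : ∀ σ ∈ B.inertiaSubgroupIn ℚ, σ x = x) (hx : x ≠ 0) :
    ∃ (m : ℤ) (b : AlgebraicClosure ℚ), (∀ σ ∈ B.inertiaSubgroupIn ℚ, σ b = b) ∧
      b ∈ B ∧ b⁻¹ ∈ B ∧ b ≠ 0 ∧ x = (p : AlgebraicClosure ℚ) ^ m * b := by
  obtain ⟨m, hm⟩ := k0_val_eq_zpow B p hp hB x hfix hx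
  have hp0 : (p : AlgebraicClosure ℚ) ≠ 0 := Nat.cast_ne_zero.mpr hp.ne_zero
  have hpm0 : (p : AlgebraicClosure ℚ) ^ m ≠ 0 := zpow_ne_zero m hp0
  have hv : B.valuation (x * ((p : AlgebraicClosure ℚ) ^ m)⁻¹) = 1 := by
    rw [map_mul, map_inv₀, map_zpow₀, hm]
    exact mul_inv_cancel₀ (zpow_ne_zero m ((Valuation.ne_zero_iff _).mpr hp0))
  obtain ⟨h1, h2, h3⟩ := wkp_unit_of_val B hv
  refine ⟨m, x * ((p : AlgebraicClosure ℚ) ^ m)⁻¹, ?_, h1, h2, h3, ?_⟩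
  · intro σ hσ
    rw [map_mul, map_inv₀, map_zpow₀, map_natCast, hfix σ hσ]
  · field_simp

/-- `η ^ p = 1 + p a` with `a ∈ K0` a non-unit of `B`: every `τ ∈ I₁` fixes `η`. -/
theorem wkp_root_fixed {p : ℕ} (hp : p.Prime) (hB : B.LiesOverPrime p)
    (η a : AlgebraicClosure ℚ) (hη : η ^ p = 1 + (p : AlgebraicClosure ℚ) * a)
    (hafix : ∀ σ ∈ B.inertiaSubgroupIn ℚ, σ a = a) (ha : a ∈ B.nonunits)
    (τ : AlgebraicClosure ℚ ≃ₐ[ℚ] AlgebraicClosure ℚ) (hτ : τ ∈ S40hI1 p B) : τ η = η := by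
  haveI : NeZero p := ⟨hp.ne_zero⟩
  obtain ⟨ζ, hζ⟩ := HasEnoughRootsOfUnity.exists_primitiveRoot (AlgebraicClosure ℚ) p
  have hp0 : (p : AlgebraicClosure ℚ) ≠ 0 := Nat.cast_ne_zero.mpr hp.ne_zero
  have hvp : B.valuation (p : AlgebraicClosure ℚ) < 1 := k0_val_q_lt_one B p hB
  have hlam0 : ζ - 1 ≠ 0 := sub_ne_zero.2 (hζ.ne_one hp.one_lt)
  have hlamlt : B.valuation (ζ - 1) < 1 := zi_val_zeta_sub_one_lt_one B.valuation hp hvp hζ
  have hlam : ζ - 1 ∈ B.nonunits := (B.mem_nonunits_iff).mpr hlamlt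
  have hζB : ζ ∈ B := by
    have h1 : ζ - 1 ∈ B := B.nonunits_subset hlam
    have := B.add_mem _ _ h1 B.one_mem
    rwa [sub_add_cancel] at this
  have hpv : B.valuation ((p : ℕ) : AlgebraicClosure ℚ) = B.valuation (ζ - 1) ^ (p - 1) :=
    tas_val_p B hlam (rpw_p_eq hp hζ B hζB)
  -- `a = p a'`
  have ha' : a * ((p : AlgebraicClosure ℚ))⁻¹ ∈ B := k0_div_q B p hp hB a hafix ha
  -- `G = p ^ 2 a' / λ ^ p ∈ B`
  obtain ⟨G, hGdef⟩ : ∃ G : AlgebraicClosure ℚ,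
      G = (p : AlgebraicClosure ℚ) ^ 2 * (a * ((p : AlgebraicClosure ℚ))⁻¹) * ((ζ - 1) ^ p)⁻¹ :=
    ⟨_, rfl⟩
  have hvl0 : B.valuation (ζ - 1) ≠ 0 := (Valuation.ne_zero_iff _).mpr hlam0
  have hG : G ∈ B := by
    rw [← B.valuation_le_one_iff, hGdef, map_mul, map_mul, map_pow, map_inv₀, map_pow, hpv]
    have h1 : B.valuation (a * ((p : AlgebraicClosure ℚ))⁻¹) ≤ 1 :=
      (B.valuation_le_one_iff _).mpr ha'
    have h2 : (B.valuation (ζ - 1) ^ (p - 1)) ^ 2 * (B.valuation (ζ - 1) ^ p)⁻¹ ≤ 1 := by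
      have e : (B.valuation (ζ - 1) ^ (p - 1)) ^ 2
          = B.valuation (ζ - 1) ^ (p - 2) * B.valuation (ζ - 1) ^ p := by
        rw [← pow_mul, ← pow_add]
        congr 1
        have := hp.two_le
        omega
      rw [e, mul_assoc, mul_inv_cancel₀ (pow_ne_zero p hvl0), mul_one]
      exact pow_le_one₀ zero_le hlamlt.le
    calc (B.valuation (ζ - 1) ^ (p - 1)) ^ 2 * B.valuation (a * ((p : AlgebraicClosure ℚ))⁻¹)
          * (B.valuation (ζ - 1) ^ p)⁻¹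
        = ((B.valuation (ζ - 1) ^ (p - 1)) ^ 2 * (B.valuation (ζ - 1) ^ p)⁻¹)
          * B.valuation (a * ((p : AlgebraicClosure ℚ))⁻¹) := mul_right_comm _ _ _
      _ ≤ 1 * 1 := mul_le_mul' h2 h1
      _ = 1 := one_mul 1
  have hy : η ^ p = 1 + (ζ - 1) ^ p * G := by
    rw [hη, hGdef]
    have hl : (ζ - 1) ^ p ≠ 0 := pow_ne_zero p hlam0
    field_simp
  -- `τ η = ζ ^ i η`
  have hτζ : τ ζ = ζ := hτ.2 ζ hζ.pow_eq_one
  have hin := Fermat.Agent.S05wire.isInertial_of_mem_inertiaSubgroupIn B hτ.1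
  have hτsub : ∀ f ∈ B, (τ : AlgebraicClosure ℚ →+* AlgebraicClosure ℚ) f - f ∈ B.nonunits :=
    fun f hf => (B.mem_nonunits_iff).mpr (hin.sub_lt f ((B.valuation_le_one_iff f).mpr hf))
  have hη0 : η ≠ 0 := by
    intro h0
    rw [h0, zero_pow hp.ne_zero] at hη
    have h1 : B.valuation ((p : AlgebraicClosure ℚ) * a) < 1 := by
      rw [map_mul]
      exact mul_lt_one_of_nonneg_of_lt_one_left zero_le hvp
        ((B.valuation_le_one_iff a).mpr (B.nonunits_subset ha))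
    have h2 : (p : AlgebraicClosure ℚ) * a = -1 := by
      have := hη
      linear_combination -this
    rw [h2, Valuation.map_neg, map_one] at h1
    exact lt_irrefl _ h1
  have hpow : (τ η / η) ^ p = 1 := by
    rw [div_pow, ← map_pow, hη, map_add, map_one, map_mul, map_natCast, hafix τ hτ.1]
    exact div_self (by rw [← hη]; exact pow_ne_zero p hη0)
  obtain ⟨i, -, hi⟩ := hζ.eq_pow_of_pow_eq_one hpow
  have hτy : (τ : AlgebraicClosure ℚ →+* AlgebraicClosure ℚ) η = ζ ^ i * η := by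
    show τ η = ζ ^ i * η
    rw [hi]
    field_simp
  exact cpw_fixed (O := B) hp hζ hlam ((B.mem_nonunits_iff).mpr hvp)
    (τ : AlgebraicClosure ℚ →+* AlgebraicClosure ℚ) hτζ hτsub η G hG hy i hτy

/-- **(P2), the Eisenstein data of `κ`**: `κ ≠ 0` fixed by the inertia group, `v(κ) = v(p)^(p n)`,
`rt ^ p = κ`, and some `τ ∈ I₁` moves `rt`.  Then there are units `ε0`, `a` of `B`, fixed by the
inertia group, with `(rt / (p ^ n ε0)) ^ p = 1 + p a`. -/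
theorem wkp_eis {p : ℕ} (hp : p.Prime) (hB : B.LiesOverPrime p)
    (κ rt : AlgebraicClosure ℚ) (hκ0 : κ ≠ 0) (hrt : rt ^ p = κ)
    (hκ : ∀ τ ∈ B.inertiaSubgroupIn ℚ, τ κ = κ) (n : ℤ)
    (hv : B.valuation κ = B.valuation (p : AlgebraicClosure ℚ) ^ ((p : ℤ) * n))
    (hmove : ∃ τ ∈ S40hI1 p B, τ rt ≠ rt) :
    ∃ ε0 a : AlgebraicClosure ℚ,
      (∀ τ ∈ B.inertiaSubgroupIn ℚ, τ ε0 = ε0) ∧ (∀ τ ∈ B.inertiaSubgroupIn ℚ, τ a = a) ∧
      ε0 ∈ B ∧ ε0⁻¹ ∈ B ∧ ε0 ≠ 0 ∧ a ∈ B ∧ a⁻¹ ∈ B ∧ a ≠ 0 ∧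
      (rt / ((p : AlgebraicClosure ℚ) ^ n * ε0)) ^ p = 1 + (p : AlgebraicClosure ℚ) * a := by
  have hp0 : (p : AlgebraicClosure ℚ) ≠ 0 := Nat.cast_ne_zero.mpr hp.ne_zero
  have hvp0 : B.valuation (p : AlgebraicClosure ℚ) ≠ 0 := (Valuation.ne_zero_iff _).mpr hp0
  have hpn0 : (p : AlgebraicClosure ℚ) ^ n ≠ 0 := zpow_ne_zero n hp0
  -- `d = rt / p ^ n`
  obtain ⟨d, hd⟩ : ∃ d : AlgebraicClosure ℚ, d = rt / (p : AlgebraicClosure ℚ) ^ n := ⟨_, rfl⟩
  have hdp : d ^ p = κ / ((p : AlgebraicClosure ℚ) ^ n) ^ p := by rw [hd, div_pow, hrt]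
  have hvd : B.valuation d = 1 := by
    have h1 : B.valuation d ^ p = 1 := by
      rw [← map_pow, hdp, map_div₀, map_pow, map_zpow₀, hv,
        ← zpow_natCast (B.valuation (p : AlgebraicClosure ℚ) ^ n) p, ← zpow_mul, mul_comm n p]
      exact div_self (zpow_ne_zero _ hvp0)
    rcases lt_trichotomy (B.valuation d) 1 with h | h | h
    · exact absurd h1 (pow_lt_one₀ zero_le h hp.ne_zero).ne
    · exact h
    · exact absurd h1 (one_lt_pow₀ h hp.ne_zero).ne'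
  obtain ⟨hdB, hdiB, hd0⟩ := wkp_unit_of_val B hvd
  obtain ⟨ε0, hε0fix, hε0B, hdε⟩ := k0_residue_surj B p hp hB d hdB
  have hvε0 : B.valuation ε0 = 1 := by
    have h1 : B.valuation (d - ε0) < B.valuation d := by
      rw [hvd]; exact (B.mem_nonunits_iff).mp hdε
    have h2 := Valuation.map_sub_eq_of_lt_left B.valuation h1
    rw [sub_sub_cancel] at h2
    rw [h2, hvd]
  obtain ⟨-, hε0iB, hε00⟩ := wkp_unit_of_val B hvε0
  -- `η = rt / (p ^ n ε0) = d / ε0`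
  obtain ⟨η, hηdef⟩ : ∃ η : AlgebraicClosure ℚ,
      η = rt / ((p : AlgebraicClosure ℚ) ^ n * ε0) := ⟨_, rfl⟩
  have hηd : η = d * ε0⁻¹ := by rw [hηdef, hd]; field_simp
  have hvη : B.valuation η = 1 := by
    rw [hηd, map_mul, map_inv₀, hvd, hvε0, inv_one, mul_one]
  have hηB : η ∈ B := (B.valuation_le_one_iff η).mp hvη.le
  have hη1 : B.valuation (η - 1) < 1 := by
    have e : η - 1 = (d - ε0) * ε0⁻¹ := by rw [hηd]; field_simp
    rw [e, map_mul, map_inv₀, hvε0, inv_one, mul_one]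
    exact (B.mem_nonunits_iff).mp hdε
  -- `δ = η ^ p - 1` is a non-unit
  have hδ : B.valuation (η ^ p - 1) < 1 := by
    have hgeom : η ^ p - 1 = (∑ i ∈ Finset.range p, η ^ i) * (η - 1) := (geom_sum_mul η p).symm
    rw [hgeom, map_mul]
    have hs : B.valuation (∑ i ∈ Finset.range p, η ^ i) ≤ 1 := by
      rw [B.valuation_le_one_iff]
      exact sum_mem (fun i _ => pow_mem hηB i)
    exact mul_lt_one_of_nonneg_of_lt_one_right hs zero_le hη1
  have hηpfix : ∀ τ ∈ B.inertiaSubgroupIn ℚ, τ (η ^ p) = η ^ p := by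
    intro τ hτ
    have e : η ^ p = κ / (((p : AlgebraicClosure ℚ) ^ n) ^ p * ε0 ^ p) := by
      rw [hηdef, div_pow, hrt, mul_pow]
    rw [e, map_div₀, map_mul, map_pow, map_pow, map_zpow₀, map_natCast, hκ τ hτ, hε0fix τ hτ]
  have hδfix : ∀ τ ∈ B.inertiaSubgroupIn ℚ, τ (η ^ p - 1) = η ^ p - 1 := fun τ hτ => by
    rw [map_sub, map_one, hηpfix τ hτ]
  have haB : (η ^ p - 1) * ((p : AlgebraicClosure ℚ))⁻¹ ∈ B :=
    k0_div_q B p hp hB _ hδfix ((B.mem_nonunits_iff).mpr hδ)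
  obtain ⟨a, hadef⟩ : ∃ a : AlgebraicClosure ℚ,
      a = (η ^ p - 1) * ((p : AlgebraicClosure ℚ))⁻¹ := ⟨_, rfl⟩
  have hafix : ∀ τ ∈ B.inertiaSubgroupIn ℚ, τ a = a := by
    intro τ hτ
    rw [hadef, map_mul, map_inv₀, map_natCast, hδfix τ hτ]
  have hηa : η ^ p = 1 + (p : AlgebraicClosure ℚ) * a := by
    rw [hadef]; field_simp; ring
  -- `a` is a unit
  have hva : B.valuation a = 1 := by
    by_contra hne
    have halt : a ∈ B.nonunits := by
      rw [B.mem_nonunits_iff]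
      exact lt_of_le_of_ne ((B.valuation_le_one_iff a).mpr (hadef ▸ haB)) hne
    obtain ⟨τ, hτ, hτrt⟩ := hmove
    apply hτrt
    have h1 := wkp_root_fixed B hp hB η a hηa hafix halt τ hτ
    have e : rt = η * ((p : AlgebraicClosure ℚ) ^ n * ε0) := by
      rw [hηdef]; field_simp
    rw [e, map_mul, map_mul, map_zpow₀, map_natCast, hε0fix τ hτ.1, h1]
  obtain ⟨haB', haiB, ha0⟩ := wkp_unit_of_val B hva
  exact ⟨ε0, a, hε0fix, hafix, hε0B, hε0iB, hε00, haB', haiB, ha0, by rw [← hηdef]; exact hηa⟩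

end Fermat.Agent.S40lib

end
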