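import Mathlib
import Fermat.Agent.S36lib.Speed
import Fermat.Agent.S40lib.WindcKappa

/-!
# Item 88 (S44), block (J-WILD), piece (G2e)-(E): the Eisenstein CONSTANTS of `κ` (helper29)

`wkp_eis_pack`: in the situation of `wkp_eis` (`κ ≠ 0` fixed by the inertia group,
`v(κ) = v(p) ^ (p n)`, `rt ^ p = κ`, some `τ ∈ I₁` moves `rt`) there are constants
`ε0, a, π1, θ, mθ ∈ ℚ̄` with
`π1 = rt / (p ^ n ε0) - 1 ∈ 𝔪_B`, `π1 ^ p = p θ`, `θ = a + π1 mθ`, `a`, `θ`, `ε0` units of `B`,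
`ε0`, `a` fixed by the inertia group, `mθ ∈ ℤ[π1] ⊆ B`.
(`wkp_eis_data` is `g2w_eis_data` of helper24, copied to keep the imports light.)
Complete proofs.
-/

set_option autoImplicit false
set_option linter.style.haveILetI false
set_option linter.unusedVariables false
set_option linter.unusedSectionVars false

noncomputable section

namespace Fermat.Agent.S40lib

open Fermat.Agent.S36lib Fermat.Agent.S33lib

/-- the Eisenstein data of `η ^ p = 1 + p a` (copy of `g2w_eis_data`) -/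
theorem wkp_eis_data {E : Type*} [Field E] (p : ℕ) (hp : p.Prime) (η a : E) (hη : η ^ p = 1 + (p : E) * a)
    (hpE : (p : E) ≠ 0) :
    ∃ mθ : E, mθ ∈ Subring.closure ({η - 1} : Set E) ∧
      (η - 1) ^ p = (p : E) * (a + (η - 1) * mθ) := by
  obtain ⟨π1, hπ1⟩ : ∃ π1 : E, π1 = η - 1 := ⟨_, rfl⟩
  have hη' : η = π1 + 1 := by rw [hπ1]; ring
  rw [← hπ1]
  -- the binomial expansion
  have hexp : (π1 + 1) ^ p = π1 ^ p + 1 +
      ∑ i ∈ Finset.Ioo 0 p, π1 ^ i * (p.choose i : E) := by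
    rw [add_pow]
    simp only [one_pow, mul_one]
    rw [Finset.range_eq_Ico, Finset.sum_eq_sum_Ico_succ_bot (Nat.succ_pos p),
      Finset.sum_Ico_succ_top hp.pos]
    simp only [pow_zero, Nat.choose_zero_right, Nat.cast_one, mul_one, Nat.choose_self]
    have hI : Finset.Ico (0 + 1) p = Finset.Ioo 0 p := by
      ext i
      simp only [Finset.mem_Ico, Finset.mem_Ioo]
      omega
    rw [hI]
    ring
  -- the middle binomial coefficients are divisible by `p`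
  have hmid : ∀ i ∈ Finset.Ioo 0 p, π1 ^ i * (p.choose i : E) =
      (p : E) * (π1 * (π1 ^ (i - 1) * ((p.choose i / p : ℕ) : E))) := by
    intro i hi
    rw [Finset.mem_Ioo] at hi
    have hd : p ∣ p.choose i := hp.dvd_choose_self (by omega) hi.2
    have h1 : (p.choose i : E) = (p : E) * ((p.choose i / p : ℕ) : E) := by
      rw [← Nat.cast_mul, Nat.mul_div_cancel' hd]
    have h2 : π1 ^ i = π1 * π1 ^ (i - 1) := by
      rw [← pow_succ', Nat.sub_add_cancel hi.1]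
    rw [h1, h2]
    ring
  refine ⟨- ∑ i ∈ Finset.Ioo 0 p, π1 ^ (i - 1) * ((p.choose i / p : ℕ) : E), ?_, ?_⟩
  · refine Subring.neg_mem _ (Subring.sum_mem _ (fun i _ => ?_))
    refine Subring.mul_mem _ (Subring.pow_mem _ (Subring.subset_closure ?_) _)
      (natCast_mem _ _)
    rw [hπ1]
    exact Set.mem_singleton _
  · rw [hη', hexp, Finset.sum_congr rfl hmid, ← Finset.mul_sum, ← Finset.mul_sum] at hη
    have h3 : π1 ^ p = (p : E) * a -
        (p : E) * (π1 * ∑ i ∈ Finset.Ioo 0 p, π1 ^ (i - 1) * ((p.choose i / p : ℕ) : E)) := by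
      have := hη
      linear_combination this
    rw [h3]
    ring

variable (B : ValuationSubring (AlgebraicClosure ℚ))

/-- **the Eisenstein constants of `κ`** -/
theorem wkp_eis_pack {p : ℕ} (hp : p.Prime) (hB : B.LiesOverPrime p)
    (κ rt : AlgebraicClosure ℚ) (hκ0 : κ ≠ 0) (hrt : rt ^ p = κ)
    (hκ : ∀ τ ∈ B.inertiaSubgroupIn ℚ, τ κ = κ) (n : ℤ)
    (hv : B.valuation κ = B.valuation (p : AlgebraicClosure ℚ) ^ ((p : ℤ) * n))
    (hmove : ∃ τ ∈ S40hI1 p B, τ rt ≠ rt) :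
    ∃ ε0 a π1 θ mθ : AlgebraicClosure ℚ,
      (∀ τ ∈ B.inertiaSubgroupIn ℚ, τ ε0 = ε0) ∧ (∀ τ ∈ B.inertiaSubgroupIn ℚ, τ a = a) ∧
      ε0 ∈ B ∧ ε0⁻¹ ∈ B ∧ ε0 ≠ 0 ∧ a ∈ B ∧ a⁻¹ ∈ B ∧ a ≠ 0 ∧
      π1 = rt / ((p : AlgebraicClosure ℚ) ^ n * ε0) - 1 ∧ π1 ∈ B.nonunits ∧ π1 ≠ 0 ∧
      mθ ∈ Subring.closure ({π1} : Set (AlgebraicClosure ℚ)) ∧ mθ ∈ B ∧
      θ = a + π1 * mθ ∧ θ ∈ B ∧ θ⁻¹ ∈ B ∧ θ ≠ 0 ∧
      π1 ^ p = (p : AlgebraicClosure ℚ) * θ := by
  obtain ⟨ε0, a, hε0fix, hafix, hε0B, hε0iB, hε00, haB, haiB, ha0, hη⟩ :=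
    wkp_eis B hp hB κ rt hκ0 hrt hκ n hv hmove
  have hp0 : (p : AlgebraicClosure ℚ) ≠ 0 := Nat.cast_ne_zero.mpr hp.ne_zero
  have hvp : B.valuation (p : AlgebraicClosure ℚ) < 1 := k0_val_q_lt_one B p hB
  obtain ⟨η, hηdef⟩ : ∃ η : AlgebraicClosure ℚ,
      η = rt / ((p : AlgebraicClosure ℚ) ^ n * ε0) := ⟨_, rfl⟩
  rw [← hηdef] at hη
  obtain ⟨mθ, hmθ, hπ⟩ := wkp_eis_data p hp η a hη hp0
  -- `v(a) = 1`
  have hva : B.valuation a = 1 := by
    refine le_antisymm ((B.valuation_le_one_iff a).mpr haB) ?_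
    have h1 : B.valuation a⁻¹ ≤ 1 := (B.valuation_le_one_iff _).mpr haiB
    rw [map_inv₀] at h1
    have hva0 : B.valuation a ≠ 0 := (Valuation.ne_zero_iff _).mpr ha0
    exact (inv_le_one₀ (zero_lt_iff.mpr hva0)).mp h1
  -- `η` is a unit
  have hvpa : B.valuation ((p : AlgebraicClosure ℚ) * a) < 1 := by
    rw [map_mul, hva, mul_one]; exact hvp
  have hvη : B.valuation η = 1 := by
    have h1 : B.valuation η ^ p = 1 := by
      rw [← map_pow, hη]
      have h2 : B.valuation ((p : AlgebraicClosure ℚ) * a) < B.valuation (1 : AlgebraicClosure ℚ) := by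
        rw [map_one]; exact hvpa
      rw [Valuation.map_add_eq_of_lt_left _ h2, map_one]
    rcases lt_trichotomy (B.valuation η) 1 with h | h | h
    · exact absurd h1 (pow_lt_one₀ zero_le h hp.ne_zero).ne
    · exact h
    · exact absurd h1 (one_lt_pow₀ h hp.ne_zero).ne'
  have hηB : η ∈ B := (B.valuation_le_one_iff η).mp hvη.le
  have hπB : η - 1 ∈ B := sub_mem hηB B.one_mem
  have hmθB : mθ ∈ B := by
    have hle : Subring.closure ({η - 1} : Set (AlgebraicClosure ℚ)) ≤ B.toSubring := by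
      refine Subring.closure_le.2 ?_
      intro z hz
      rw [Set.mem_singleton_iff] at hz
      rw [hz]
      exact hπB
    exact hle hmθ
  have hθB : a + (η - 1) * mθ ∈ B := B.add_mem _ _ haB (B.mul_mem _ _ hπB hmθB)
  -- `π1 ∈ 𝔪`
  have hvπ : B.valuation (η - 1) < 1 := by
    by_contra hcon
    have h1 : B.valuation (η - 1) = 1 :=
      le_antisymm ((B.valuation_le_one_iff _).mpr hπB) (not_lt.mp hcon)
    have h2 : B.valuation ((η - 1) ^ p) = 1 := by rw [map_pow, h1, one_pow]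
    rw [hπ, map_mul] at h2
    have h3 : B.valuation (p : AlgebraicClosure ℚ) * B.valuation (a + (η - 1) * mθ) < 1 :=
      mul_lt_one_of_nonneg_of_lt_one_left zero_le hvp ((B.valuation_le_one_iff _).mpr hθB)
    rw [h2] at h3
    exact lt_irrefl _ h3
  have hvθ : B.valuation (a + (η - 1) * mθ) = 1 := by
    have h2 : B.valuation ((η - 1) * mθ) < B.valuation a := by
      rw [hva, map_mul]
      exact mul_lt_one_of_nonneg_of_lt_one_left zero_le hvπ ((B.valuation_le_one_iff _).mpr hmθB)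
    rw [Valuation.map_add_eq_of_lt_left _ h2, hva]
  obtain ⟨-, hθiB, hθ0⟩ := wkp_unit_of_val B hvθ
  have hπ0 : η - 1 ≠ 0 := by
    intro h0
    have h1 : (η - 1) ^ p = 0 := by rw [h0, zero_pow hp.ne_zero]
    rw [hπ] at h1
    exact (mul_ne_zero hp0 hθ0) h1
  exact ⟨ε0, a, η - 1, a + (η - 1) * mθ, mθ, hε0fix, hafix, hε0B, hε0iB, hε00, haB, haiB, ha0,
    by rw [hηdef], (B.mem_nonunits_iff).mpr hvπ, hπ0, hmθ, hmθB, rfl, hθB, hθiB, hθ0, hπ⟩

end Fermat.Agent.S40lib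

end
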