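import Mathlib
import Fermat.Agent.S36lib.Speed
import Fermat.Agent.S40lib.WindcKappa2
import Fermat.Agent.S40lib.WindcF

/-!
# Item 88 (S44), block (J-WILD), Layer B: the `(E)`-instantiation (Eisenstein data in `E`)

From `κ` (inertia-fixed, `v(κ) = v(p)^(p n)`, `rt ^ p = κ`, some `τ ∈ I₁` moves `rt`):

* `wpe_pack` : the constants `ε0 a π1 θ mθ` of `wkp_eis_pack` **together with**
  `(π1 + 1) ^ p = 1 + p a`;
* `wpe_inst` : for ANY field `E` over `ℚ̄` and any `φ : FF N →ₐ[ℚ̄] E`: the data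
  `η aE mθ : E`, `hη`, `hmθ`, `hπθ`, `hθ0` and the constants `π1K θK mθK : ℚ̄` with
  `hπ1φ`, `hθφ`, `hmφ` in the EXACT shape of `s40j_pt_node` / `s40j_pt_smooth`, plus the
  `A`-memberships (`π1K ∈ 𝔪_A`, `θK, θK⁻¹, mθK ∈ A`) and `aE = algebraMap a`, `a` an inertia-fixed
  unit of `A`;
* `wpe_red` : the reduction side for any constant reduction `Rc` of `FF N` over `A`
  (`hπ1F`, `hπ1red`, `hθF`, `hθF'`, `hmF`).
-/

set_option autoImplicit false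
set_option linter.unusedSectionVars false
set_option linter.unusedVariables false

noncomputable section

namespace Fermat.Agent.S40lib

open Fermat.Agent.S36lib Fermat.Agent.S33lib Fermat.Agent.GoodRed Fermat.Agent.S24lib
open ModularCurve AlgebraicCurve

section Pack

variable (A : ValuationSubring (AlgebraicClosure ℚ))

/-- **the Eisenstein constants of `κ`, with `(π1 + 1) ^ p = 1 + p a`** -/
theorem wpe_pack {p : ℕ} (hp : p.Prime) (hA : A.LiesOverPrime p)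
    (κ rt : AlgebraicClosure ℚ) (hκ0 : κ ≠ 0) (hrt : rt ^ p = κ)
    (hκ : ∀ τ ∈ A.inertiaSubgroupIn ℚ, τ κ = κ) (n : ℤ)
    (hv : A.valuation κ = A.valuation (p : AlgebraicClosure ℚ) ^ ((p : ℤ) * n))
    (hmove : ∃ τ ∈ S40hI1 p A, τ rt ≠ rt) :
    ∃ ε0 a π1 θ mθ : AlgebraicClosure ℚ,
      (∀ τ ∈ A.inertiaSubgroupIn ℚ, τ ε0 = ε0) ∧ (∀ τ ∈ A.inertiaSubgroupIn ℚ, τ a = a) ∧
      ε0 ∈ A ∧ ε0⁻¹ ∈ A ∧ ε0 ≠ 0 ∧ a ∈ A ∧ a⁻¹ ∈ A ∧ a ≠ 0 ∧
      π1 = rt / ((p : AlgebraicClosure ℚ) ^ n * ε0) - 1 ∧ π1 ∈ A.nonunits ∧ π1 ≠ 0 ∧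
      mθ ∈ Subring.closure ({π1} : Set (AlgebraicClosure ℚ)) ∧ mθ ∈ A ∧
      θ = a + π1 * mθ ∧ θ ∈ A ∧ θ⁻¹ ∈ A ∧ θ ≠ 0 ∧
      π1 ^ p = (p : AlgebraicClosure ℚ) * θ ∧
      (π1 + 1) ^ p = 1 + (p : AlgebraicClosure ℚ) * a := by
  obtain ⟨ε0, a, hε0fix, hafix, hε0B, hε0iB, hε00, haB, haiB, ha0, hη⟩ :=
    wkp_eis A hp hA κ rt hκ0 hrt hκ n hv hmove
  have hp0 : (p : AlgebraicClosure ℚ) ≠ 0 := Nat.cast_ne_zero.mpr hp.ne_zero
  have hvp : A.valuation (p : AlgebraicClosure ℚ) < 1 := k0_val_q_lt_one A p hA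
  obtain ⟨η, hηdef⟩ : ∃ η : AlgebraicClosure ℚ,
      η = rt / ((p : AlgebraicClosure ℚ) ^ n * ε0) := ⟨_, rfl⟩
  rw [← hηdef] at hη
  obtain ⟨mθ, hmθ, hπ⟩ := wkp_eis_data p hp η a hη hp0
  have hva : A.valuation a = 1 := by
    refine le_antisymm ((A.valuation_le_one_iff a).mpr haB) ?_
    have h1 : A.valuation a⁻¹ ≤ 1 := (A.valuation_le_one_iff _).mpr haiB
    rw [map_inv₀] at h1
    have hva0 : A.valuation a ≠ 0 := (Valuation.ne_zero_iff _).mpr ha0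
    exact (inv_le_one₀ (zero_lt_iff.mpr hva0)).mp h1
  have hvpa : A.valuation ((p : AlgebraicClosure ℚ) * a) < 1 := by
    rw [map_mul, hva, mul_one]; exact hvp
  have hvη : A.valuation η = 1 := by
    have h1 : A.valuation η ^ p = 1 := by
      rw [← map_pow, hη]
      have h2 : A.valuation ((p : AlgebraicClosure ℚ) * a)
          < A.valuation (1 : AlgebraicClosure ℚ) := by
        rw [map_one]; exact hvpa
      rw [Valuation.map_add_eq_of_lt_left _ h2, map_one]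
    rcases lt_trichotomy (A.valuation η) 1 with h | h | h
    · exact absurd h1 (pow_lt_one₀ zero_le h hp.ne_zero).ne
    · exact h
    · exact absurd h1 (one_lt_pow₀ h hp.ne_zero).ne'
  have hηB : η ∈ A := (A.valuation_le_one_iff η).mp hvη.le
  have hπB : η - 1 ∈ A := sub_mem hηB A.one_mem
  have hmθB : mθ ∈ A := by
    have hle : Subring.closure ({η - 1} : Set (AlgebraicClosure ℚ)) ≤ A.toSubring := by
      refine Subring.closure_le.2 ?_
      intro z hz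
      rw [Set.mem_singleton_iff] at hz
      rw [hz]
      exact hπB
    exact hle hmθ
  have hθB : a + (η - 1) * mθ ∈ A := A.add_mem _ _ haB (A.mul_mem _ _ hπB hmθB)
  have hvπ : A.valuation (η - 1) < 1 := by
    by_contra hcon
    have h1 : A.valuation (η - 1) = 1 :=
      le_antisymm ((A.valuation_le_one_iff _).mpr hπB) (not_lt.mp hcon)
    have h2 : A.valuation ((η - 1) ^ p) = 1 := by rw [map_pow, h1, one_pow]
    rw [hπ, map_mul] at h2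
    have h3 : A.valuation (p : AlgebraicClosure ℚ) * A.valuation (a + (η - 1) * mθ) < 1 :=
      mul_lt_one_of_nonneg_of_lt_one_left zero_le hvp ((A.valuation_le_one_iff _).mpr hθB)
    rw [h2] at h3
    exact lt_irrefl _ h3
  have hvθ : A.valuation (a + (η - 1) * mθ) = 1 := by
    have h2 : A.valuation ((η - 1) * mθ) < A.valuation a := by
      rw [hva, map_mul]
      exact mul_lt_one_of_nonneg_of_lt_one_left zero_le hvπ ((A.valuation_le_one_iff _).mpr hmθB)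
    rw [Valuation.map_add_eq_of_lt_left _ h2, hva]
  obtain ⟨-, hθiB, hθ0⟩ := wkp_unit_of_val A hvθ
  have hπ0 : η - 1 ≠ 0 := by
    intro h0
    have h1 : (η - 1) ^ p = 0 := by rw [h0, zero_pow hp.ne_zero]
    rw [hπ] at h1
    exact (mul_ne_zero hp0 hθ0) h1
  exact ⟨ε0, a, η - 1, a + (η - 1) * mθ, mθ, hε0fix, hafix, hε0B, hε0iB, hε00, haB, haiB, ha0,
    by rw [hηdef], (A.mem_nonunits_iff).mpr hvπ, hπ0, hmθ, hmθB, rfl, hθB, hθiB, hθ0, hπ,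
    by rw [sub_add_cancel]; exact hη⟩

end Pack

section Inst

variable (A : ValuationSubring Kbar) {E : Type*} [Field E] [Algebra Kbar E]
  (N : ℕ) [NeZero N]

/-- **the `(E)`-instantiation**: the Eisenstein data in `E` and the constants, in the shape of
`s40j_pt_node` / `s40j_pt_smooth`. -/
theorem wpe_inst {p : ℕ} (hp : p.Prime) (hA : A.LiesOverPrime p)
    (κ rt : Kbar) (hκ0 : κ ≠ 0) (hrt : rt ^ p = κ)
    (hκ : ∀ τ ∈ A.inertiaSubgroupIn ℚ, τ κ = κ) (n : ℤ)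
    (hv : A.valuation κ = A.valuation (p : Kbar) ^ ((p : ℤ) * n))
    (hmove : ∃ τ ∈ S40hI1 p A, τ rt ≠ rt)
    (φ : FF N →ₐ[Kbar] E) :
    ∃ (ε0 a : Kbar) (η aE mθ : E) (π1K θK mθK : Kbar),
      (∀ τ ∈ A.inertiaSubgroupIn ℚ, τ ε0 = ε0) ∧ (∀ τ ∈ A.inertiaSubgroupIn ℚ, τ a = a) ∧
      ε0 ∈ A ∧ ε0⁻¹ ∈ A ∧ ε0 ≠ 0 ∧ a ∈ A ∧ a⁻¹ ∈ A ∧ a ≠ 0 ∧
      η = algebraMap Kbar E (rt / ((p : Kbar) ^ n * ε0)) ∧ aE = algebraMap Kbar E a ∧
      η ^ p = 1 + (p : E) * aE ∧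
      mθ ∈ Subring.closure ({η - 1} : Set E) ∧
      (η - 1) ^ p = (p : E) * (aE + (η - 1) * mθ) ∧
      aE + (η - 1) * mθ ≠ 0 ∧
      π1K ∈ A.nonunits ∧ θK ∈ A ∧ θK⁻¹ ∈ A ∧ mθK ∈ A ∧
      φ (algebraMap Kbar (FF N) π1K) = η - 1 ∧
      φ (algebraMap Kbar (FF N) θK) = aE + (η - 1) * mθ ∧
      φ (algebraMap Kbar (FF N) mθK) = mθ := by
  obtain ⟨ε0, a, π1, θ, mθ, hε0fix, hafix, hε0A, hε0iA, hε00, haA, haiA, ha0, hπ1def, hπ1m, hπ10,
    hmθ, hmθA, hθdef, hθA, hθiA, hθ0, hπθ, hη⟩ :=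
    wpe_pack A hp hA κ rt hκ0 hrt hκ n hv hmove
  have hπ1E : algebraMap Kbar E π1 = algebraMap Kbar E (rt / ((p : Kbar) ^ n * ε0)) - 1 := by
    rw [hπ1def, map_sub, map_one]
  have hφc : ∀ c : Kbar, φ (algebraMap Kbar (FF N) c) = algebraMap Kbar E c := fun c =>
    φ.commutes c
  have hθE : algebraMap Kbar E θ
      = algebraMap Kbar E a + (algebraMap Kbar E (rt / ((p : Kbar) ^ n * ε0)) - 1)
          * algebraMap Kbar E mθ := by
    rw [hθdef, map_add, map_mul, hπ1E]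
  refine ⟨ε0, a, algebraMap Kbar E (rt / ((p : Kbar) ^ n * ε0)), algebraMap Kbar E a,
    algebraMap Kbar E mθ, π1, θ, mθ, hε0fix, hafix, hε0A, hε0iA, hε00, haA, haiA, ha0, rfl, rfl,
    ?_, ?_, ?_, ?_, hπ1m, hθA, hθiA, hmθA, ?_, ?_, ?_⟩
  · -- `η ^ p = 1 + p aE`
    have h1 := congrArg (algebraMap Kbar E) hη
    rw [map_pow, map_add, map_one, map_add, map_one, map_mul, map_natCast, hπ1E,
      sub_add_cancel] at h1
    exact h1
  · -- `mθ ∈ closure {η - 1}`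
    have h1 : algebraMap Kbar E mθ ∈ (Subring.closure ({π1} : Set Kbar)).map
        (algebraMap Kbar E) := Subring.mem_map.mpr ⟨mθ, hmθ, rfl⟩
    rw [RingHom.map_closure, Set.image_singleton, hπ1E] at h1
    exact h1
  · -- `(η - 1) ^ p = p (aE + (η - 1) mθ)`
    have h1 := congrArg (algebraMap Kbar E) hπθ
    rw [map_pow, map_mul, map_natCast, hπ1E, hθE] at h1
    exact h1
  · -- `θ ≠ 0`
    rw [← hθE]
    exact (map_ne_zero (algebraMap Kbar E)).mpr hθ0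
  · rw [hφc, hπ1E]
  · rw [hφc, hθE]
  · rw [hφc]

variable {A} {k Fk : Type*} [Field k] [Field Fk] [Algebra k Fk] {π : A →+* k}

/-- the reduction side of the constants, for any constant reduction `Rc` of `FF N` over `A` -/
theorem wpe_red (Rc : ConstRed A π Fk (FF N)) (π1K θK mθK : Kbar)
    (hπ1 : π1K ∈ A.nonunits) (hθ : θK ∈ A) (hθ' : θK⁻¹ ∈ A) (hm : mθK ∈ A) :
    (∃ hπ1F : algebraMap Kbar (FF N) π1K ∈ Rc.O,
      Rc.red ⟨algebraMap Kbar (FF N) π1K, hπ1F⟩ = 0) ∧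
    algebraMap Kbar (FF N) θK ∈ Rc.O ∧ algebraMap Kbar (FF N) θK⁻¹ ∈ Rc.O ∧
    algebraMap Kbar (FF N) mθK ∈ Rc.O :=
  ⟨wcf_const_red_zero Rc π1K hπ1, wcf_const_mem Rc θK hθ, wcf_const_mem Rc θK⁻¹ hθ',
    wcf_const_mem Rc mθK hm⟩

end Inst

end Fermat.Agent.S40lib

end
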