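/-
Item 88 (S44), (J-WILD), LAYER B, group (HV) (helper18): the generation hypothesis `hgenE` of
`s40j_pt_node` / `s40j_pt_smooth` / `wch_hval_node` and the inclusion `φ : FF N →ₐ[Kbar] EY`
with its integrality, at the concrete context of `WildPtCtx.lean`
(`E := EY`, `E₀ := wpbE0 A EY hst`).

* `wph_gen_abs`   : abstract: `FF = F₀[K]`, `F₀ ⊆ E₀`, `σ` of prime order `p` on `E` with fixed
  field `FF`, `z₀ ∈ E₀` moved by `σ`  ⇒  `Algebra.adjoin E₀ (range (algebraMap K E)) = ⊤`;
* `wph_int_abs`   : abstract: the inclusion `FF → E` is integral;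
* `wphPhi`, `wph_phi_apply`, `wph_phi_integral` : the inclusion `FF N →ₐ[Kbar] EY`;
* `wph_hgenE`     : `hgenE` at the context of `WildPtCtx.lean`.
All proofs complete.
-/
import Mathlib
import Fermat.Agent.S36lib.Speed
import Fermat.Agent.S36lib.FixedF0
import Fermat.Agent.S40lib.CoverGen
import Fermat.Agent.S40lib.WildPtCtx

set_option autoImplicit false
set_option linter.style.haveILetI false
set_option linter.unusedSectionVars false
set_option linter.unusedVariables false
set_option synthInstance.maxHeartbeats 400000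
set_option maxHeartbeats 1000000

noncomputable section

namespace Fermat.Agent.S40lib

open ModularCurve HahnSeries AlgebraicCurve Fermat.Agent.S24lib Fermat.Agent.S33lib
  Fermat.Agent.S34lib Fermat.Agent.RRlib Fermat.Agent.S36lib

section Abs

variable {K F₀ FFt E : Type*} [Field K] [Field F₀] [Field FFt] [Field E]
  [Algebra K FFt] [Algebra F₀ FFt] [Algebra K E]

/-- **`hgenE`, abstract form.** -/
theorem wph_gen_abs {p : ℕ} (hp : p.Prime) (E₀ : Subfield E) (j : FFt →+* E)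
    (hjK : ∀ c : K, j (algebraMap K FFt c) = algebraMap K E c)
    (hF : Algebra.adjoin F₀ (Set.range (algebraMap K FFt)) = ⊤)
    (hF0 : ∀ a : F₀, j (algebraMap F₀ FFt a) ∈ E₀)
    (σ : E →+* E) (hσp : ∀ y, σ^[p] y = y)
    (hσF : ∀ f : FFt, σ (j f) = j f)
    (hfix : ∀ y : E, σ y = y → y ∈ Set.range j)
    (z₀ : ↥E₀) (hz : σ (z₀ : E) ≠ (z₀ : E)) :
    Algebra.adjoin ↥E₀ (Set.range (algebraMap K E)) = ⊤ := by
  rw [eq_top_iff]
  -- step 1: the image of `FFt`
  have h1 : ∀ f : FFt, j f ∈ Algebra.adjoin ↥E₀ (Set.range (algebraMap K E)) := by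
    intro f
    have hf : f ∈ Algebra.adjoin F₀ (Set.range (algebraMap K FFt)) := by
      rw [hF]; exact Algebra.mem_top
    induction hf using Algebra.adjoin_induction with
    | mem x hx =>
      obtain ⟨c, rfl⟩ := hx
      rw [hjK]
      exact Algebra.subset_adjoin ⟨c, rfl⟩
    | algebraMap a =>
      have := (Algebra.adjoin ↥E₀ (Set.range (algebraMap K E))).algebraMap_mem
        ⟨j (algebraMap F₀ FFt a), hF0 a⟩
      exact this
    | add x y _ _ hx hy =>
      rw [map_add]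
      exact add_mem hx hy
    | mul x y _ _ hx hy =>
      rw [map_mul]
      exact mul_mem hx hy
  -- step 2: `E = FFt[z₀]`
  letI : Algebra FFt E := j.toAlgebra
  have h2 : Algebra.adjoin FFt ({(z₀ : E)} : Set E) = ⊤ :=
    cvg_adjoin_eq_top hp σ hσp hσF hfix (z₀ : E) hz
  have h3 : ∀ e : E, e ∈ Algebra.adjoin FFt ({(z₀ : E)} : Set E) →
      e ∈ Algebra.adjoin ↥E₀ (Set.range (algebraMap K E)) := by
    intro e he
    induction he using Algebra.adjoin_induction with
    | mem x hx =>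
      rw [Set.mem_singleton_iff] at hx
      rw [hx]
      exact (Algebra.adjoin ↥E₀ (Set.range (algebraMap K E))).algebraMap_mem z₀
    | algebraMap f => exact h1 f
    | add x y _ _ hx hy => exact add_mem hx hy
    | mul x y _ _ hx hy => exact mul_mem hx hy
  intro e _
  exact h3 e (by rw [h2]; exact Algebra.mem_top)

/-- the inclusion `FFt → E` is integral. -/
theorem wph_int_abs {p : ℕ} (hp : p.Prime) (j : FFt →+* E)
    (σ : E →+* E) (hσp : ∀ y, σ^[p] y = y)
    (hσF : ∀ f : FFt, σ (j f) = j f)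
    (hfix : ∀ y : E, σ y = y → y ∈ Set.range j)
    (z : E) (hz : σ z ≠ z) : j.IsIntegral := by
  letI : Algebra FFt E := j.toAlgebra
  have hfr : Module.finrank FFt E = p := cvg_finrank hp σ hσp hσF hfix z hz
  haveI : FiniteDimensional FFt E := Module.finite_of_finrank_pos (by rw [hfr]; exact hp.pos)
  intro e
  exact IsIntegral.of_finite FFt e

end Abs

section Conc

variable (A : ValuationSubring Kbar) (N : ℕ) [NeZero N]
  (EY : IntermediateField Kbar (LaurentSeries Kbar))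
  (hle : modularFunctionFieldBar N ≤ EY)
  (hst : ∀ σ ∈ A.inertiaSubgroupIn ℚ, ∀ x ∈ EY,
    coeffMap ((σ : Kbar ≃ₐ[ℚ] Kbar) : Kbar →+* Kbar) x ∈ EY)

/-- the inclusion `FF N → EY` -/
def wphPhi : FF N →ₐ[Kbar] ↥EY := IntermediateField.inclusion hle

theorem wph_phi_apply (f : FF N) :
    ((wphPhi N EY hle f : ↥EY) : LaurentSeries Kbar) = (f : LaurentSeries Kbar) := rfl

theorem wph_phi_eq (f : FF N) :
    wphPhi N EY hle f = ⟨(f : LaurentSeries Kbar), hle f.2⟩ := rfl

/-- the inclusion is integral -/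
theorem wph_phi_integral {p : ℕ} (hp : p.Prime) (σY : ↥EY →+* ↥EY)
    (hσF : ∀ f : modularFunctionFieldBar N,
      σY ⟨(f : LaurentSeries Kbar), hle f.2⟩ = ⟨(f : LaurentSeries Kbar), hle f.2⟩)
    (hσfix : ∀ y : ↥EY, σY y = y → (y : LaurentSeries Kbar) ∈ modularFunctionFieldBar N)
    (hσp : ∀ y : ↥EY, σY^[p] y = y)
    (z : ↥EY) (hz : σY z ≠ z) :
    (wphPhi N EY hle).toRingHom.IsIntegral :=
  wph_int_abs hp (wphPhi N EY hle).toRingHom σY hσp (fun f => hσF f)
    (fun y hy => ⟨⟨(y : LaurentSeries Kbar), hσfix y hy⟩, rfl⟩) z hz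

/-- **`hgenE`** at the context of `WildPtCtx.lean` -/
theorem wph_hgenE {p : ℕ} (hp : p.Prime) (σY : ↥EY →+* ↥EY)
    (hσF : ∀ f : modularFunctionFieldBar N,
      σY ⟨(f : LaurentSeries Kbar), hle f.2⟩ = ⟨(f : LaurentSeries Kbar), hle f.2⟩)
    (hσfix : ∀ y : ↥EY, σY y = y → (y : LaurentSeries Kbar) ∈ modularFunctionFieldBar N)
    (hσp : ∀ y : ↥EY, σY^[p] y = y)
    (z₀ : ↥(wpbE0 A EY hst)) (hz : σY (z₀ : ↥EY) ≠ (z₀ : ↥EY)) :
    Algebra.adjoin ↥(wpbE0 A EY hst) (Set.range (algebraMap Kbar ↥EY)) = ⊤ :=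
  wph_gen_abs (F₀ := ↥(f0Field A N)) hp (wpbE0 A EY hst) (wphPhi N EY hle).toRingHom
    (fun c => (wphPhi N EY hle).commutes c) (f0_adjoin A N)
    (fun a => wpb_F0_mem A N EY hle hst a) σY hσp (fun f => hσF f)
    (fun y hy => ⟨⟨(y : LaurentSeries Kbar), hσfix y hy⟩, rfl⟩) z₀ hz

end Conc

end Fermat.Agent.S40lib

end
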