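/-
Item 88 (S44), (W), LAYER B, group (HV) without `hgenE`, in the CONTEXT of `WildPtCtx.lean`
(helper4): `E := ↥EY`, `E₀ := wpbE0 A EY hst`, `R := B_s`.

* `wppPhi`     : `φ : FF N →ₐ[Kbar] ↥EY`, the inclusion;  `wpp_coe_phi`;
* `wpp_hphi`   : `hφ : φ.toRingHom.IsIntegral` for `EY = cvcAdj (FF N) U`, `U ^ p ∈ FF N`;
* `wpp_hrelu`  : `hrelu : algebraMap E₀ E u₀ = algebraMap Kbar E c * φ ux * h ^ p` from the binder
  `u = C c * ux * h ^ p` (Laurent series) of `S44jWildWindC2`;
* `wppIotaA`   : `ιA : k0Val A →+* B_s`;  `wpp_hcompatA` : `hcompatA` VERBATIM;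
  `wpp_hpA` : `(p : B_s) = 1 * ιA p`;  `wpp_hpiA` : `hϖA` for `ϖA := p`.
Complete proofs.
-/
import Mathlib
import Fermat.Agent.S36lib.Speed
import Fermat.Agent.S40lib.WildPtCtx
import Fermat.Agent.S40lib.CovConc

set_option autoImplicit false
set_option linter.style.haveILetI false
set_option linter.unusedSectionVars false
set_option linter.unusedVariables false
set_option synthInstance.maxHeartbeats 400000
set_option maxHeartbeats 1000000

noncomputable section

namespace Fermat.Agent.S40lib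

open ModularCurve HahnSeries AlgebraicCurve Fermat.Agent.S24lib Fermat.Agent.S33lib
  Fermat.Agent.S34lib Fermat.Agent.RRlib Fermat.Agent.S36lib

section Phi

variable (N : ℕ) [NeZero N]
  (EY : IntermediateField Kbar (LaurentSeries Kbar))
  (hle : modularFunctionFieldBar N ≤ EY)

/-- the inclusion `φ : FF N → EY` -/
def wppPhi : FF N →ₐ[Kbar] ↥EY := IntermediateField.inclusion hle

theorem wpp_coe_phi (f : FF N) :
    ((wppPhi N EY hle f : ↥EY) : LaurentSeries Kbar) = (f : LaurentSeries Kbar) :=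
  IntermediateField.coe_inclusion hle f

/-- `hφ`: the cover field `FF N (U)`, `U ^ p ∈ FF N`, is integral over `FF N` -/
theorem wpp_hphi (U : LaurentSeries Kbar) {p : ℕ} (hp : 0 < p)
    (hU : U ^ p ∈ modularFunctionFieldBar N) :
    (wppPhi N (cvcAdj (modularFunctionFieldBar N) U)
      (cvc_le_adj (modularFunctionFieldBar N) U)).toRingHom.IsIntegral := by
  set φ := wppPhi N (cvcAdj (modularFunctionFieldBar N) U)
    (cvc_le_adj (modularFunctionFieldBar N) U) with hφdef
  letI : Algebra (FF N) ↥(cvcAdj (modularFunctionFieldBar N) U) := φ.toRingHom.toAlgebra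
  have key : ∀ x (hx : x ∈ cvcAdj (modularFunctionFieldBar N) U),
      IsIntegral (FF N) (⟨x, hx⟩ : ↥(cvcAdj (modularFunctionFieldBar N) U)) := by
    intro x hx
    have hx' : x ∈ IntermediateField.adjoin Kbar
        (((modularFunctionFieldBar N : IntermediateField Kbar (LaurentSeries Kbar)) :
          Set (LaurentSeries Kbar)) ∪ {U}) := hx
    induction hx' using IntermediateField.adjoin_induction with
    | mem y hy =>
      rcases hy with hy | hy
      · have e : (⟨y, hx⟩ : ↥(cvcAdj (modularFunctionFieldBar N) U)) =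
            algebraMap (FF N) ↥(cvcAdj (modularFunctionFieldBar N) U) ⟨y, hy⟩ :=
          Subtype.ext rfl
        rw [e]
        exact isIntegral_algebraMap
      · have hyU : y = U := hy
        subst hyU
        refine ⟨Polynomial.X ^ p - Polynomial.C (⟨y ^ p, hU⟩ : FF N),
          Polynomial.monic_X_pow_sub_C _ hp.ne', ?_⟩
        rw [Polynomial.eval₂_sub, Polynomial.eval₂_pow, Polynomial.eval₂_X, Polynomial.eval₂_C]
        apply Subtype.ext
        show y ^ p - y ^ p = 0
        exact sub_self _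
    | algebraMap c =>
      have e : (⟨algebraMap Kbar (LaurentSeries Kbar) c, hx⟩ :
          ↥(cvcAdj (modularFunctionFieldBar N) U)) =
          algebraMap (FF N) ↥(cvcAdj (modularFunctionFieldBar N) U)
            (algebraMap Kbar (FF N) c) := Subtype.ext rfl
      rw [e]
      exact isIntegral_algebraMap
    | add y z hy hz ihy ihz =>
      have e : (⟨y + z, hx⟩ : ↥(cvcAdj (modularFunctionFieldBar N) U)) =
          ⟨y, hy⟩ + ⟨z, hz⟩ := Subtype.ext rfl
      rw [e]
      exact (ihy hy).add (ihz hz)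
    | inv y hy ihy =>
      have e : (⟨y⁻¹, hx⟩ : ↥(cvcAdj (modularFunctionFieldBar N) U)) =
          (⟨y, hy⟩ : ↥(cvcAdj (modularFunctionFieldBar N) U))⁻¹ := Subtype.ext rfl
      rw [e]
      exact (ihy hy).inv
    | mul y z hy hz ihy ihz =>
      have e : (⟨y * z, hx⟩ : ↥(cvcAdj (modularFunctionFieldBar N) U)) =
          ⟨y, hy⟩ * ⟨z, hz⟩ := Subtype.ext rfl
      rw [e]
      exact (ihy hy).mul (ihz hz)
  intro y
  exact key y.1 y.2

end Phi

section Rel

variable (A : ValuationSubring Kbar) (N : ℕ) [NeZero N]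
  (EY : IntermediateField Kbar (LaurentSeries Kbar))
  (hle : modularFunctionFieldBar N ≤ EY)
  (hst : ∀ σ ∈ A.inertiaSubgroupIn ℚ, ∀ x ∈ EY,
    coeffMap ((σ : Kbar ≃ₐ[ℚ] Kbar) : Kbar →+* Kbar) x ∈ EY)

/-- `hrelu` from the Laurent series relation -/
theorem wpp_hrelu (p : ℕ) (u₀ : ↥(wpbE0 A EY hst)) (ux : FF N) (h : ↥EY) (c : Kbar)
    (hrel : (((u₀ : ↥(wpbE0 A EY hst)) : ↥EY) : LaurentSeries Kbar) =
      algebraMap Kbar (LaurentSeries Kbar) c * (ux : LaurentSeries Kbar) *
        (h : LaurentSeries Kbar) ^ p) :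
    algebraMap ↥(wpbE0 A EY hst) ↥EY u₀ =
      algebraMap Kbar ↥EY c * wppPhi N EY hle ux * h ^ p := by
  apply Subtype.ext
  show (((u₀ : ↥(wpbE0 A EY hst)) : ↥EY) : LaurentSeries Kbar) = _
  rw [hrel]
  rfl

end Rel

section IotaA

variable (A : ValuationSubring Kbar) (N : ℕ) [NeZero N]
  (EY : IntermediateField Kbar (LaurentSeries Kbar))
  (hle : modularFunctionFieldBar N ≤ EY)
  (hst : ∀ σ ∈ A.inertiaSubgroupIn ℚ, ∀ x ∈ EY,
    coeffMap ((σ : Kbar ≃ₐ[ℚ] Kbar) : Kbar →+* Kbar) x ∈ EY)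
  (B0 : Subring ↥(f0Field A N)) (s : Ideal ↥B0) [hs : s.IsPrime]
  (cB : k0Val A →+* ↥B0)
  (hcB : ∀ a : k0Val A, ((cB a : ↥B0) : ↥(f0Field A N)) =
    algebraMap ↥(k0Field A) ↥(f0Field A N) (a : k0Field A))

/-- `ιA : A0 → B_s` -/
def wppIotaA : k0Val A →+* Localization.AtPrime s :=
  (algebraMap ↥B0 (Localization.AtPrime s)).comp cB

include hcB in
/-- **`hcompatA`** of `s40j_pt_node` / `s40j_pt_smooth`, VERBATIM in the context -/
theorem wpp_hcompatA :
    letI := wpbAlgE0 A N EY hle hst B0 s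
    letI := wpbAlgK0E0 A N EY hle hst
    ∀ a : k0Val A,
      algebraMap (Localization.AtPrime s) ↥(wpbE0 A EY hst) (wppIotaA A N B0 s cB a) =
        algebraMap ↥(k0Field A) ↥(wpbE0 A EY hst) (a : k0Field A) := by
  letI := wpbAlgE0 A N EY hle hst B0 s
  letI := wpbAlgK0E0 A N EY hle hst
  intro a
  apply Subtype.ext
  show criHom A N EY hle B0 s (algebraMap ↥B0 (Localization.AtPrime s) (cB a)) =
    criF0 A N EY hle (algebraMap ↥(k0Field A) ↥(f0Field A N) (a : k0Field A))
  rw [cri_hom_algebraMap]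
  apply Subtype.ext
  rw [cri_coe_incl, hcB]
  rfl

/-- `hpA` with `eA = 1`, `ϖA = p` -/
theorem wpp_hpA (p : ℕ) :
    ((p : ℕ) : Localization.AtPrime s) =
      ((1 : (Localization.AtPrime s)ˣ) : Localization.AtPrime s) *
        wppIotaA A N B0 s cB ((p : ℕ) : k0Val A) := by
  rw [Units.val_one, one_mul, map_natCast]

/-- `hϖA` for `ϖA = p` -/
theorem wpp_hpiA {p : ℕ} (hA : A.LiesOverPrime p) :
    ((((p : ℕ) : k0Val A) : k0Field A) : Kbar) ∈ A.nonunits := by
  rw [k0Val_coe_natCast]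
  exact hA

end IotaA

end Fermat.Agent.S40lib

end
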