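/-
Item 88 (S40), block (J-WILD), piece G2e "coordinates" (helper19).

`wcd_coord`: a group `Γ` acts on a field `E` by ring automorphisms; `η ∈ E` has a finite orbit
`{ρ_j η : j < n}` (pairwise distinct); `z ∈ E` is fixed by the stabiliser of `η`.  Then
`z = ∑_{i < n} a_i η ^ i` with coefficients `a_i` FIXED BY `Γ`.

(Lagrange interpolation of `ρ_j η ↦ ρ_j z` on the orbit; the interpolation polynomial is
`Γ`-invariant by uniqueness.)  In the application `Γ = I` (inertia) acting coefficientwise on
the cover field `EY ⊂ ℚ̄((q))`, `η = rt` (or `π₁`), `n = p`, the stabiliser of `η` is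
`G = Stab_I(x)`, and the `a_i` lie in `E0 = EY^I`: this is `E0 · K1 = ⊕ E0 π₁ ^ i` for the
elements `c`, `u_x`, `h` of `wrt_main` (input of `g2e_transfer`, helper24).

Mathlib only.
-/
import Mathlib

set_option autoImplicit false
set_option linter.unusedSectionVars false
set_option linter.unusedVariables false

noncomputable section

namespace Fermat.Agent.S40lib

open Polynomial

section Coord

variable {E : Type*} [Field E] {Γ : Type*} [Group Γ] [MulSemiringAction Γ E]

/-- evaluation commutes with the action -/
theorem wcd_smul_eval (γ : Γ) (P : E[X]) (x : E) :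
    γ • (P.eval x) = (P.map (MulSemiringAction.toRingHom Γ E γ)).eval (γ • x) := by
  rw [eval_map]
  show MulSemiringAction.toRingHom Γ E γ (eval₂ (RingHom.id E) x P) = _
  rw [Polynomial.hom_eval₂, RingHom.comp_id]
  rfl

/-- **coordinates with respect to the powers of `η`** -/
theorem wcd_coord (η z : E) (n : ℕ) (ρ : Fin n → Γ)
    (hinj : Function.Injective (fun j : Fin n => ρ j • η))
    (horb : ∀ γ : Γ, ∃ j : Fin n, γ • η = ρ j • η)
    (hz : ∀ γ : Γ, γ • η = η → γ • z = z) :
    ∃ a : ℕ → E, (∀ i, ∀ γ : Γ, γ • a i = a i) ∧ (∀ i, n ≤ i → a i = 0) ∧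
      z = ∑ i ∈ Finset.range n, a i * η ^ i := by
  classical
  -- the value attached to a node does not depend on the representative
  have hval : ∀ (γ γ' : Γ), γ • η = γ' • η → γ • z = γ' • z := by
    intro γ γ' h
    have h1 : (γ'⁻¹ * γ) • η = η := by
      rw [mul_smul, h, inv_smul_smul]
    have h2 := hz _ h1
    rw [mul_smul] at h2
    have h3 := congrArg (fun y => γ' • y) h2
    simpa using h3
  set v : Fin n → E := fun j => ρ j • η with hv
  set r : Fin n → E := fun j => ρ j • z with hr
  have hvs : Set.InjOn v (Finset.univ : Finset (Fin n)) := fun a _ b _ h => hinj h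
  set P : E[X] := Lagrange.interpolate Finset.univ v r with hP
  have hPdeg : P.degree < (Finset.univ : Finset (Fin n)).card :=
    Lagrange.degree_interpolate_lt r hvs
  have hPev : ∀ j : Fin n, P.eval (v j) = r j := fun j =>
    Lagrange.eval_interpolate_at_node r hvs (Finset.mem_univ j)
  -- `P` is invariant
  have hPinv : ∀ γ : Γ, P.map (MulSemiringAction.toRingHom Γ E γ) = P := by
    intro γ
    apply Polynomial.eq_of_degrees_lt_of_eval_index_eq Finset.univ hvs _ hPdeg
    · intro j _
      -- `v j = γ • v j'` for `j'` with `ρ j' • η = γ⁻¹ • ρ j • η`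
      obtain ⟨j', hj'⟩ := horb (γ⁻¹ * ρ j)
      have h1 : v j = γ • v j' := by
        show ρ j • η = γ • ρ j' • η
        rw [← hj', mul_smul, smul_inv_smul]
      have h2 : r j = γ • r j' := by
        show ρ j • z = γ • ρ j' • z
        have h3 : (γ⁻¹ * ρ j) • z = ρ j' • z := hval _ _ hj'
        rw [← h3, mul_smul, smul_inv_smul]
      rw [hPev j, h2, ← hPev j', h1, wcd_smul_eval]
    · exact lt_of_le_of_lt (Polynomial.degree_map_le) hPdeg
  have hcard : (Finset.univ : Finset (Fin n)).card = n := by simp
  rw [hcard] at hPdeg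
  refine ⟨fun i => P.coeff i, ?_, ?_, ?_⟩
  · intro i γ
    have h := congrArg (fun Q : E[X] => Q.coeff i) (hPinv γ)
    simp only [coeff_map] at h
    exact h
  · intro i hi
    exact Polynomial.coeff_eq_zero_of_degree_lt (lt_of_lt_of_le hPdeg (by exact_mod_cast hi))
  · -- `z = P(η)`
    obtain ⟨j₀, hj₀⟩ := horb 1
    rw [one_smul] at hj₀
    have h1 : P.eval η = z := by
      have h2 : P.eval (v j₀) = r j₀ := hPev j₀
      have h3 : v j₀ = η := hj₀.symm
      have h4 : r j₀ = z := by
        have := hval 1 (ρ j₀) (by rw [one_smul]; exact hj₀)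
        rw [one_smul] at this
        exact this.symm
      rw [h3, h4] at h2
      exact h2
    have hn0 : 0 < n := Fin.pos j₀
    have hnat : P.natDegree < n := by
      by_cases hP0 : P = 0
      · rw [hP0, natDegree_zero]
        exact hn0
      · exact (Polynomial.natDegree_lt_iff_degree_lt hP0).mpr hPdeg
    rw [← h1, Polynomial.eval_eq_sum_range' hnat]

end Coord

end Fermat.Agent.S40lib

end
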