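/-
Item 88 (S40), block (J-WILD), piece G2e "coordinates", concrete form (helper19).

`wcd_coord_conc`: `EY ⊂ ℚ̄((q))` stable under the coefficientwise action of `H` (inertia),
`rt ∈ ℚ̄`, `rt ≠ 0`, `rt ^ p` fixed by `H`, `σ₁ ∈ H` with `σ₁ ζ = ζ`, `σ₁ rt ≠ rt`;
`z ∈ EY` fixed by `{τ ∈ H : τ rt = rt}` (= `Stab_I(x)` by `wlc_main`).  Then
`z = ∑_{i < p} a_i rt ^ i` with `a_i ∈ EY` FIXED BY `H` (i.e. `a_i ∈ E0 = EY^I`).

This is `E0 · K0(rt) = ⊕_{i<p} E0 · rt ^ i` for the `G`-fixed elements `c1`, `u1`, `h1` of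
`wrt_main`: the coordinates needed by `g2e_transfer` (helper24, EisExt.lean).
-/
import Mathlib
import Fermat.Agent.S36lib.Speed
import Fermat.Agent.S40lib.CovConc
import Fermat.Agent.S40lib.WildCoord

set_option autoImplicit false
set_option linter.style.haveILetI false
set_option linter.unusedSectionVars false
set_option linter.unusedVariables false

noncomputable section

namespace Fermat.Agent.S40lib

open ModularCurve HahnSeries Fermat.Agent.S24lib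

section Orbit

/-- `ζ ^ a = ζ ^ b ↔ a ≡ b mod p` for a primitive `p`-th root of unity in a field -/
theorem wcd_pow_eq_iff {K : Type*} [Field K] {p : ℕ} {ζ : K} (hζ : IsPrimitiveRoot ζ p)
    (hp : 0 < p) (a b : ℕ) : ζ ^ a = ζ ^ b ↔ a ≡ b [MOD p] := by
  have hζ0 : ζ ≠ 0 := hζ.ne_zero hp.ne'
  rw [Nat.modEq_iff_dvd, ← hζ.zpow_eq_one_iff_dvd, zpow_sub₀ hζ0, zpow_natCast, zpow_natCast,
    div_eq_one_iff_eq (pow_ne_zero _ hζ0)]
  exact eq_comm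

/-- the orbit of a `p`-th root `rt` of an `H`-fixed number under `H` is `{ζ ^ j rt}`, and the
powers of one element `σ₁` (fixing `ζ`, moving `rt`) represent it -/
theorem wcd_orbit {p : ℕ} (hp : p.Prime) {ζ : Kbar} (hζ : IsPrimitiveRoot ζ p)
    (H : Subgroup (Kbar ≃ₐ[ℚ] Kbar)) {rt : Kbar} (hrt0 : rt ≠ 0)
    (hrtp : ∀ τ ∈ H, τ (rt ^ p) = rt ^ p)
    (σ₁ : Kbar ≃ₐ[ℚ] Kbar) (hσ₁ : σ₁ ∈ H) (hσζ : σ₁ ζ = ζ) (hσrt : σ₁ rt ≠ rt) :
    Function.Injective (fun j : Fin p => (σ₁ ^ (j : ℕ)) rt) ∧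
      ∀ τ ∈ H, ∃ j : Fin p, τ rt = (σ₁ ^ (j : ℕ)) rt := by
  haveI : NeZero p := ⟨hp.ne_zero⟩
  haveI : Fact p.Prime := ⟨hp⟩
  have hroot : ∀ τ ∈ H, ∃ m : ℕ, m < p ∧ τ rt = ζ ^ m * rt := by
    intro τ hτ
    have h1 : (τ rt / rt) ^ p = 1 := by
      rw [div_pow, ← map_pow, hrtp τ hτ, div_self (pow_ne_zero _ hrt0)]
    obtain ⟨m, hm, hm'⟩ := hζ.eq_pow_of_pow_eq_one h1
    exact ⟨m, hm, by rw [hm', div_mul_cancel₀ _ hrt0]⟩
  obtain ⟨c, hcp, hc⟩ := hroot σ₁ hσ₁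
  have hc0 : c ≠ 0 := by
    rintro rfl
    rw [pow_zero, one_mul] at hc
    exact hσrt hc
  have hpow : ∀ j : ℕ, (σ₁ ^ j) rt = ζ ^ (c * j) * rt := by
    intro j
    induction j with
    | zero => simp
    | succ j ih =>
      rw [pow_succ', AlgEquiv.mul_apply, ih, map_mul, map_pow, hσζ, hc, ← mul_assoc,
        ← _root_.pow_add, Nat.mul_succ]
  have hord : orderOf ζ = p := hζ.eq_orderOf.symm
  have hcop : Nat.Coprime c p := by
    rw [Nat.coprime_comm]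
    exact (Nat.Prime.coprime_iff_not_dvd hp).mpr (fun h => hc0 (Nat.eq_zero_of_dvd_of_lt h hcp))
  refine ⟨?_, ?_⟩
  · intro j j' hjj'
    have h1 : ζ ^ (c * (j : ℕ)) * rt = ζ ^ (c * (j' : ℕ)) * rt := by
      rw [← hpow, ← hpow]
      exact hjj'
    have h2 : ζ ^ (c * (j : ℕ)) = ζ ^ (c * (j' : ℕ)) := mul_right_cancel₀ hrt0 h1
    rw [wcd_pow_eq_iff hζ hp.pos] at h2
    have h3 : (j : ℕ) ≡ (j' : ℕ) [MOD p] := Nat.ModEq.cancel_left_of_coprime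
      (by rw [Nat.gcd_comm]; exact hcop) h2
    apply Fin.ext
    rw [Nat.ModEq, Nat.mod_eq_of_lt j.2, Nat.mod_eq_of_lt j'.2] at h3
    exact h3
  · intro τ hτ
    obtain ⟨m, hmp, hm⟩ := hroot τ hτ
    -- solve `c j ≡ m mod p`
    set jz : ZMod p := (m : ZMod p) * ((c : ZMod p))⁻¹ with hjz
    have hcz : (c : ZMod p) ≠ 0 := by
      intro h0
      rw [ZMod.natCast_eq_zero_iff] at h0
      exact hc0 (Nat.eq_zero_of_dvd_of_lt h0 hcp)
    refine ⟨⟨jz.val, ZMod.val_lt jz⟩, ?_⟩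
    show τ rt = (σ₁ ^ jz.val) rt
    rw [hpow, hm]
    congr 1
    rw [wcd_pow_eq_iff hζ hp.pos, ← ZMod.natCast_eq_natCast_iff]
    push_cast
    rw [ZMod.natCast_val, ZMod.cast_id', id, hjz]
    field_simp

end Orbit

section Conc

variable (H : Subgroup (Kbar ≃ₐ[ℚ] Kbar)) (EY : IntermediateField Kbar (LaurentSeries Kbar))

set_option maxHeartbeats 800000 in
/-- **coordinates in the basis `rt ^ i`, concrete form** -/
theorem wcd_coord_conc {p : ℕ} (hp : p.Prime) {ζ : Kbar} (hζ : IsPrimitiveRoot ζ p)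
    (hst : ∀ σ ∈ H, ∀ x ∈ EY, coeffMap ((σ : Kbar ≃ₐ[ℚ] Kbar) : Kbar →+* Kbar) x ∈ EY)
    {rt : Kbar} (hrt0 : rt ≠ 0) (hrtp : ∀ τ ∈ H, τ (rt ^ p) = rt ^ p)
    (σ₁ : Kbar ≃ₐ[ℚ] Kbar) (hσ₁ : σ₁ ∈ H) (hσζ : σ₁ ζ = ζ) (hσrt : σ₁ rt ≠ rt)
    {z : LaurentSeries Kbar} (hzE : z ∈ EY)
    (hz : ∀ τ ∈ H, τ rt = rt → coeffMap ((τ : Kbar ≃ₐ[ℚ] Kbar) : Kbar →+* Kbar) z = z) :
    ∃ a : ℕ → LaurentSeries Kbar, (∀ i, a i ∈ EY) ∧
      (∀ i, ∀ τ ∈ H, coeffMap ((τ : Kbar ≃ₐ[ℚ] Kbar) : Kbar →+* Kbar) (a i) = a i) ∧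
      (∀ i, p ≤ i → a i = 0) ∧
      z = ∑ i ∈ Finset.range p, a i * algebraMap Kbar (LaurentSeries Kbar) rt ^ i := by
  classical
  letI act : MulSemiringAction ↥H ↥EY := cvcAct H EY hst
  have hsmul : ∀ (σ : ↥H) (x : ↥EY), ((σ • x : ↥EY) : LaurentSeries Kbar)
      = coeffMap (((σ : Kbar ≃ₐ[ℚ] Kbar)) : Kbar →+* Kbar) (x : LaurentSeries Kbar) :=
    fun σ x => rfl
  have hsmulη : ∀ (σ : ↥H), σ • (algebraMap Kbar ↥EY rt) =
      algebraMap Kbar ↥EY ((σ : Kbar ≃ₐ[ℚ] Kbar) rt) := by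
    intro σ
    apply Subtype.ext
    rw [hsmul]
    show coeffMap _ (algebraMap Kbar (LaurentSeries Kbar) rt) = algebraMap Kbar (LaurentSeries Kbar) _
    rw [coeffMap_algebraMap]
    rfl
  obtain ⟨hinj, horb⟩ := wcd_orbit hp hζ H hrt0 hrtp σ₁ hσ₁ hσζ hσrt
  have hpowmem : ∀ j : ℕ, σ₁ ^ j ∈ H := fun j => H.pow_mem hσ₁ j
  obtain ⟨a, ha, han, hza⟩ := wcd_coord (Γ := ↥H) (algebraMap Kbar ↥EY rt) (⟨z, hzE⟩ : ↥EY) p
    (fun j => ⟨σ₁ ^ (j : ℕ), hpowmem j⟩)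
    (by
      intro j j' hjj'
      apply hinj
      have h1 : algebraMap Kbar ↥EY ((σ₁ ^ (j : ℕ)) rt) =
          algebraMap Kbar ↥EY ((σ₁ ^ (j' : ℕ)) rt) := by
        have := hjj'
        simp only [hsmulη] at this
        exact this
      exact (algebraMap Kbar ↥EY).injective h1)
    (by
      intro γ
      obtain ⟨j, hj⟩ := horb γ γ.2
      refine ⟨j, ?_⟩
      rw [hsmulη, hsmulη, hj])
    (by
      intro γ hγ
      rw [hsmulη] at hγ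
      have h1 : (γ : Kbar ≃ₐ[ℚ] Kbar) rt = rt := (algebraMap Kbar ↥EY).injective hγ
      apply Subtype.ext
      rw [hsmul]
      exact hz γ γ.2 h1)
  refine ⟨fun i => ((a i : ↥EY) : LaurentSeries Kbar), fun i => (a i).2, ?_, ?_, ?_⟩
  · intro i τ hτ
    have h1 := ha i ⟨τ, hτ⟩
    have h2 := congrArg (fun y : ↥EY => (y : LaurentSeries Kbar)) h1
    exact h2
  · intro i hi
    show ((a i : ↥EY) : LaurentSeries Kbar) = 0
    rw [han i hi]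
    rfl
  · have h1 := congrArg (fun y : ↥EY => (y : LaurentSeries Kbar)) hza
    simp only at h1
    rw [h1]
    push_cast
    rfl

end Conc

end Fermat.Agent.S40lib

end
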