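/-
Item 88 (S40), block (J-WILD), piece G2e "coordinates", general generator (helper19).

* `wcd_coord_gen` : `wcd_coord_conc` for an arbitrary constant `η ∈ ℚ̄` whose `H`-orbit is
                    represented by `ρ : Fin n → H` (pairwise distinct conjugates);
* `wcd_coord_aff` : the case `η = a · rt + b`, `a ≠ 0`, `a`, `b` fixed by `H`
                    (e.g. `π₁ = rt / (p ^ n ε₀) - 1` of helper24's `EisExt.lean`):
                    `z = ∑_{i<p} a_i η ^ i`, `a_i ∈ EY` fixed by `H`, for every `z ∈ EY` fixed by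
                    `Stab_H(rt)`.
-/
import Mathlib
import Fermat.Agent.S36lib.Speed
import Fermat.Agent.S40lib.WildCoord2

set_option autoImplicit false
set_option linter.style.haveILetI false
set_option linter.unusedSectionVars false
set_option linter.unusedVariables false

noncomputable section

namespace Fermat.Agent.S40lib

open ModularCurve HahnSeries Fermat.Agent.S24lib

section Gen

variable (H : Subgroup (Kbar ≃ₐ[ℚ] Kbar)) (EY : IntermediateField Kbar (LaurentSeries Kbar))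

set_option maxHeartbeats 800000 in
/-- **coordinates in the basis `η ^ i`**, `η` any constant with an `H`-orbit of `n` elements -/
theorem wcd_coord_gen
    (hst : ∀ σ ∈ H, ∀ x ∈ EY, coeffMap ((σ : Kbar ≃ₐ[ℚ] Kbar) : Kbar →+* Kbar) x ∈ EY)
    (η : Kbar) (n : ℕ) (ρ : Fin n → Kbar ≃ₐ[ℚ] Kbar) (hρ : ∀ j, ρ j ∈ H)
    (hinj : Function.Injective (fun j : Fin n => ρ j η))
    (horb : ∀ τ ∈ H, ∃ j : Fin n, τ η = ρ j η)
    {z : LaurentSeries Kbar} (hzE : z ∈ EY)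
    (hz : ∀ τ ∈ H, τ η = η → coeffMap ((τ : Kbar ≃ₐ[ℚ] Kbar) : Kbar →+* Kbar) z = z) :
    ∃ a : ℕ → LaurentSeries Kbar, (∀ i, a i ∈ EY) ∧
      (∀ i, ∀ τ ∈ H, coeffMap ((τ : Kbar ≃ₐ[ℚ] Kbar) : Kbar →+* Kbar) (a i) = a i) ∧
      (∀ i, n ≤ i → a i = 0) ∧
      z = ∑ i ∈ Finset.range n, a i * algebraMap Kbar (LaurentSeries Kbar) η ^ i := by
  classical
  letI act : MulSemiringAction ↥H ↥EY := cvcAct H EY hst
  have hsmul : ∀ (σ : ↥H) (x : ↥EY), ((σ • x : ↥EY) : LaurentSeries Kbar)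
      = coeffMap (((σ : Kbar ≃ₐ[ℚ] Kbar)) : Kbar →+* Kbar) (x : LaurentSeries Kbar) :=
    fun σ x => rfl
  have hsmulη : ∀ (σ : ↥H), σ • (algebraMap Kbar ↥EY η) =
      algebraMap Kbar ↥EY ((σ : Kbar ≃ₐ[ℚ] Kbar) η) := by
    intro σ
    apply Subtype.ext
    rw [hsmul]
    show coeffMap _ (algebraMap Kbar (LaurentSeries Kbar) η) =
      algebraMap Kbar (LaurentSeries Kbar) _
    rw [coeffMap_algebraMap]
    rfl
  obtain ⟨a, ha, han, hza⟩ := wcd_coord (Γ := ↥H) (algebraMap Kbar ↥EY η) (⟨z, hzE⟩ : ↥EY) n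
    (fun j => ⟨ρ j, hρ j⟩)
    (by
      intro j j' hjj'
      apply hinj
      have h1 : algebraMap Kbar ↥EY ((ρ j) η) = algebraMap Kbar ↥EY ((ρ j') η) := by
        have := hjj'
        simp only [hsmulη] at this
        exact this
      exact (algebraMap Kbar ↥EY).injective h1)
    (by
      intro γ
      obtain ⟨j, hj⟩ := horb γ γ.2
      refine ⟨j, ?_⟩
      rw [hsmulη, hsmulη, hj])
    (by
      intro γ hγ
      rw [hsmulη] at hγ
      have h1 : (γ : Kbar ≃ₐ[ℚ] Kbar) η = η := (algebraMap Kbar ↥EY).injective hγ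
      apply Subtype.ext
      rw [hsmul]
      exact hz γ γ.2 h1)
  refine ⟨fun i => ((a i : ↥EY) : LaurentSeries Kbar), fun i => (a i).2, ?_, ?_, ?_⟩
  · intro i τ hτ
    have h1 := ha i ⟨τ, hτ⟩
    have h2 := congrArg (fun y : ↥EY => (y : LaurentSeries Kbar)) h1
    exact h2
  · intro i hi
    show ((a i : ↥EY) : LaurentSeries Kbar) = 0
    rw [han i hi]
    rfl
  · have h1 := congrArg (fun y : ↥EY => (y : LaurentSeries Kbar)) hza
    simp only at h1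
    rw [h1]
    push_cast
    rfl

/-- **coordinates in the basis `(a · rt + b) ^ i`**, `a ≠ 0`, `a`, `b` fixed by `H` -/
theorem wcd_coord_aff {p : ℕ} (hp : p.Prime) {ζ : Kbar} (hζ : IsPrimitiveRoot ζ p)
    (hst : ∀ σ ∈ H, ∀ x ∈ EY, coeffMap ((σ : Kbar ≃ₐ[ℚ] Kbar) : Kbar →+* Kbar) x ∈ EY)
    {rt : Kbar} (hrt0 : rt ≠ 0) (hrtp : ∀ τ ∈ H, τ (rt ^ p) = rt ^ p)
    (σ₁ : Kbar ≃ₐ[ℚ] Kbar) (hσ₁ : σ₁ ∈ H) (hσζ : σ₁ ζ = ζ) (hσrt : σ₁ rt ≠ rt)
    (a b : Kbar) (ha0 : a ≠ 0) (haH : ∀ τ ∈ H, τ a = a) (hbH : ∀ τ ∈ H, τ b = b)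
    {z : LaurentSeries Kbar} (hzE : z ∈ EY)
    (hz : ∀ τ ∈ H, τ rt = rt → coeffMap ((τ : Kbar ≃ₐ[ℚ] Kbar) : Kbar →+* Kbar) z = z) :
    ∃ c : ℕ → LaurentSeries Kbar, (∀ i, c i ∈ EY) ∧
      (∀ i, ∀ τ ∈ H, coeffMap ((τ : Kbar ≃ₐ[ℚ] Kbar) : Kbar →+* Kbar) (c i) = c i) ∧
      (∀ i, p ≤ i → c i = 0) ∧
      z = ∑ i ∈ Finset.range p, c i * algebraMap Kbar (LaurentSeries Kbar) (a * rt + b) ^ i := by
  obtain ⟨hinj, horb⟩ := wcd_orbit hp hζ H hrt0 hrtp σ₁ hσ₁ hσζ hσrt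
  have hpowmem : ∀ j : ℕ, σ₁ ^ j ∈ H := fun j => H.pow_mem hσ₁ j
  have haff : ∀ τ ∈ H, τ (a * rt + b) = a * τ rt + b := by
    intro τ hτ
    rw [map_add, map_mul, haH τ hτ, hbH τ hτ]
  have hcancel : ∀ x y : Kbar, a * x + b = a * y + b → x = y := by
    intro x y h
    exact mul_left_cancel₀ ha0 (add_right_cancel h)
  apply wcd_coord_gen H EY hst (a * rt + b) p (fun j => σ₁ ^ (j : ℕ)) (fun j => hpowmem j)
    _ _ hzE
  · intro τ hτ hfix
    apply hz τ hτ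
    rw [haff τ hτ] at hfix
    exact hcancel _ _ hfix
  · intro j j' hjj'
    apply hinj
    have h1 : (σ₁ ^ (j : ℕ)) (a * rt + b) = (σ₁ ^ (j' : ℕ)) (a * rt + b) := hjj'
    rw [haff _ (hpowmem j), haff _ (hpowmem j')] at h1
    exact hcancel _ _ h1
  · intro τ hτ
    obtain ⟨j, hj⟩ := horb τ hτ
    refine ⟨j, ?_⟩
    rw [haff τ hτ, haff _ (hpowmem j), hj]

end Gen

end Fermat.Agent.S40lib

end
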