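/-
Item 88 (S40/S44), block (J-WILD), piece G2e "coordinates", ASSEMBLY (helper19).

The output `u'' = c · u_x · h ^ p` of `wlc_main` / `cvw_wild` (`u''` fixed by the inertia group
`H`), rewritten in the exact shape `hrel` of helper24's `g2w_node` / `g2w_smooth`
(`WindcEis.lean`):

* `wcaStab`        : the subgroup `Stab_H(rt)`;
* `wca_coords`     : there are a Kummer function `u1` of `x` and coordinates
                     `ke i ∈ K0 = Fix(H)` (constants), `cu i ∈ F_N` fixed by `H`,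
                     `ch i ∈ EY` fixed by `H` (`i < p`) with
                     `u1 = ∑ cu i π1 ^ i` and
                     `u'' = (∑ ke i π1 ^ i) (∑ cu i π1 ^ i) (∑ ch i π1 ^ i) ^ p`,
                     `π1 = a · rt + b` (`a`, `b ∈ K0`; e.g. `a = (p ^ n ε₀)⁻¹`, `b = -1`);
                     [`wrt_main` with `G = Stab_H(rt)`, then `wcd_coord_aff` three times:
                     in the constants, in `F_N`, in `EY`];
* `wca_coords_fin` : the same with sums over `Fin p`.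
-/
import Mathlib
import Fermat.Agent.S36lib.Speed
import Fermat.Agent.S40lib.WildRat
import Fermat.Agent.S40lib.WildCoord3

set_option autoImplicit false
set_option linter.style.haveILetI false
set_option linter.unusedSectionVars false
set_option linter.unusedVariables false

noncomputable section

namespace Fermat.Agent.S40lib

open ModularCurve HahnSeries AlgebraicCurve Fermat.Agent.S24lib Fermat.Agent.S33lib
  Fermat.Agent.S34lib Fermat.Agent.RRlib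

/-- the stabiliser of the constant `rt` in `H` -/
def wcaStab (H : Subgroup (Kbar ≃ₐ[ℚ] Kbar)) (rt : Kbar) : Subgroup (Kbar ≃ₐ[ℚ] Kbar) where
  carrier := {τ | τ ∈ H ∧ τ rt = rt}
  mul_mem' := fun {σ τ} hσ hτ => ⟨H.mul_mem hσ.1 hτ.1, by
    show σ (τ rt) = rt
    rw [hτ.2, hσ.2]⟩
  one_mem' := ⟨H.one_mem, rfl⟩
  inv_mem' := fun {σ} hσ => ⟨H.inv_mem hσ.1, by
    have h : σ⁻¹ (σ rt) = rt := by
      show σ.symm (σ rt) = rt
      exact σ.symm_apply_apply rt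
    rw [hσ.2] at h
    exact h⟩

theorem wca_mem_stab {H : Subgroup (Kbar ≃ₐ[ℚ] Kbar)} {rt : Kbar} {τ : Kbar ≃ₐ[ℚ] Kbar} :
    τ ∈ wcaStab H rt ↔ τ ∈ H ∧ τ rt = rt := Iff.rfl

section Conc

variable (N : ℕ) [NeZero N] [RRBase Kbar (modularFunctionFieldBar N)]

set_option maxHeartbeats 1600000 in
/-- **the coordinates of `c`, `u_x`, `h`** in the basis `π1 ^ i`, `π1 = a · rt + b`. -/
theorem wca_coords {p : ℕ} (hp : p.Prime) {ζ : Kbar} (hζ : IsPrimitiveRoot ζ p)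
    (H : Subgroup (Kbar ≃ₐ[ℚ] Kbar)) {x : JZero N} {ux : modularFunctionFieldBar N}
    (hx : gdfIsKummer (K := Kbar) p x ux)
    (EY : IntermediateField Kbar (LaurentSeries Kbar)) (hFE : modularFunctionFieldBar N ≤ EY)
    (hst : ∀ σ ∈ H, ∀ z ∈ EY, coeffMap ((σ : Kbar ≃ₐ[ℚ] Kbar) : Kbar →+* Kbar) z ∈ EY)
    {rt : Kbar} (hrt0 : rt ≠ 0) (hrtp : ∀ τ ∈ H, τ (rt ^ p) = rt ^ p)
    (hSt : ∀ τ ∈ H, τ rt = rt → τ • x = x)
    (σ₁ : Kbar ≃ₐ[ℚ] Kbar) (hσ₁ : σ₁ ∈ H) (hσζ : σ₁ ζ = ζ) (hσrt : σ₁ rt ≠ rt)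
    (a b : Kbar) (ha0 : a ≠ 0) (haH : ∀ τ ∈ H, τ a = a) (hbH : ∀ τ ∈ H, τ b = b)
    {u h : LaurentSeries Kbar} {c : Kbar} (hc : c ≠ 0) (hhE : h ∈ EY) (hh : h ≠ 0)
    (hrel : u = algebraMap Kbar (LaurentSeries Kbar) c * (ux : LaurentSeries Kbar) * h ^ p)
    (hu : ∀ τ ∈ H, coeffMap ((τ : Kbar ≃ₐ[ℚ] Kbar) : Kbar →+* Kbar) u = u) :
    ∃ (u1 : modularFunctionFieldBar N) (ke : ℕ → Kbar) (cu ch : ℕ → LaurentSeries Kbar),
      gdfIsKummer (K := Kbar) p x u1 ∧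
      (∀ i, ∀ τ ∈ H, τ (ke i) = ke i) ∧
      (∀ i, cu i ∈ modularFunctionFieldBar N) ∧
      (∀ i, ∀ τ ∈ H, coeffMap ((τ : Kbar ≃ₐ[ℚ] Kbar) : Kbar →+* Kbar) (cu i) = cu i) ∧
      (∀ i, ch i ∈ EY) ∧
      (∀ i, ∀ τ ∈ H, coeffMap ((τ : Kbar ≃ₐ[ℚ] Kbar) : Kbar →+* Kbar) (ch i) = ch i) ∧
      (u1 : LaurentSeries Kbar) = ∑ i ∈ Finset.range p,
        cu i * algebraMap Kbar (LaurentSeries Kbar) (a * rt + b) ^ i ∧
      u = (∑ i ∈ Finset.range p, algebraMap Kbar (LaurentSeries Kbar) (ke i) *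
            algebraMap Kbar (LaurentSeries Kbar) (a * rt + b) ^ i) *
          (∑ i ∈ Finset.range p,
            cu i * algebraMap Kbar (LaurentSeries Kbar) (a * rt + b) ^ i) *
          (∑ i ∈ Finset.range p,
            ch i * algebraMap Kbar (LaurentSeries Kbar) (a * rt + b) ^ i) ^ p := by
  classical
  -- rationality over `Fix(Stab_H(rt))`
  obtain ⟨u1, c1, h1, hk1, hu1G, hc10, hc1G, hh1E, hh10, -, hh1G, hrel1⟩ :=
    wrt_main N hp.pos hζ (wcaStab H rt) hx (fun τ hτ => hSt τ hτ.1 hτ.2) EY hFE hc hhE hh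
      hrel (fun τ hτ => hu τ hτ.1)
  -- the coordinates of the constant `c1`
  have hstB : ∀ σ ∈ H, ∀ z ∈ (⊥ : IntermediateField Kbar (LaurentSeries Kbar)),
      coeffMap ((σ : Kbar ≃ₐ[ℚ] Kbar) : Kbar →+* Kbar) z ∈
        (⊥ : IntermediateField Kbar (LaurentSeries Kbar)) := by
    intro σ _ z hz
    obtain ⟨k, rfl⟩ := IntermediateField.mem_bot.mp hz
    rw [coeffMap_algebraMap]
    exact IntermediateField.mem_bot.mpr ⟨_, rfl⟩
  obtain ⟨ce, hceB, hceH, -, hce⟩ :=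
    wcd_coord_aff H (⊥ : IntermediateField Kbar (LaurentSeries Kbar)) hp hζ hstB hrt0 hrtp σ₁
      hσ₁ hσζ hσrt a b ha0 haH hbH
      (z := algebraMap Kbar (LaurentSeries Kbar) c1)
      (IntermediateField.mem_bot.mpr ⟨c1, rfl⟩)
      (fun τ hτ hτrt => by
        rw [coeffMap_algebraMap]
        exact congrArg _ (hc1G τ ⟨hτ, hτrt⟩))
  have hkex : ∀ i, ∃ k : Kbar, algebraMap Kbar (LaurentSeries Kbar) k = ce i :=
    fun i => IntermediateField.mem_bot.mp (hceB i)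
  choose ke hke using hkex
  have hinjK : Function.Injective (algebraMap Kbar (LaurentSeries Kbar)) :=
    (algebraMap Kbar (LaurentSeries Kbar)).injective
  have hkeH : ∀ i, ∀ τ ∈ H, τ (ke i) = ke i := by
    intro i τ hτ
    apply hinjK
    have h1 := hceH i τ hτ
    rw [← hke i, coeffMap_algebraMap] at h1
    exact h1
  -- the coordinates of `u1`
  have hstF : ∀ σ ∈ H, ∀ z ∈ modularFunctionFieldBar N,
      coeffMap ((σ : Kbar ≃ₐ[ℚ] Kbar) : Kbar →+* Kbar) z ∈ modularFunctionFieldBar N :=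
    fun σ _ z hz => cvm_ff_stable N σ z hz
  obtain ⟨cu, hcuF, hcuH, -, hcu⟩ :=
    wcd_coord_aff H (modularFunctionFieldBar N) hp hζ hstF hrt0 hrtp σ₁
      hσ₁ hσζ hσrt a b ha0 haH hbH (z := (u1 : LaurentSeries Kbar)) u1.2
      (fun τ hτ hτrt => hu1G τ ⟨hτ, hτrt⟩)
  -- the coordinates of `h1`
  obtain ⟨ch, hchE, hchH, -, hch⟩ :=
    wcd_coord_aff H EY hp hζ hst hrt0 hrtp σ₁
      hσ₁ hσζ hσrt a b ha0 haH hbH (z := h1) hh1E
      (fun τ hτ hτrt => hh1G τ ⟨hτ, hτrt⟩)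
  refine ⟨u1, ke, cu, ch, hk1, hkeH, hcuF, hcuH, hchE, hchH, hcu, ?_⟩
  have hce' : algebraMap Kbar (LaurentSeries Kbar) c1 =
      ∑ i ∈ Finset.range p, algebraMap Kbar (LaurentSeries Kbar) (ke i) *
        algebraMap Kbar (LaurentSeries Kbar) (a * rt + b) ^ i := by
    rw [hce]
    exact Finset.sum_congr rfl (fun i _ => by rw [hke i])
  rw [← hce', ← hcu, ← hch]
  exact hrel1

end Conc

end Fermat.Agent.S40lib

end
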