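/-
Item 88 (S40/S44), block (J-WILD), piece (Co) of helper24's per-point theorem
`g2w_point_node` / `g2w_point_smooth` (helper19): the coordinates of `wca_coords` as functions
`Fin p → E`, `E = EY` (the function field of the cover), with the relation `hrel` and the
relation `hux` in the sum-over-`Fin p` form.

* `wca_coords_fin` : `u'' = c · u_x · h ^ p` (`u''` fixed by `H`) ⇒ there are a Kummer function
  `u1` of `x`, constants `ke i ∈ Fix(H)`, functions `cu i ∈ F_N` fixed by `H` and `ah i ∈ EY`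
  fixed by `H` (`i : Fin p`) with
  `u1 = ∑ i, cu i * π1 ^ i` in `F_N` and
  `u'' = (∑ i, ke i * π1 ^ i) * (∑ i, cu i * π1 ^ i) * (∑ i, ah i * π1 ^ i) ^ p` in `EY`,
  `π1 = a · rt + b`.
-/
import Mathlib
import Fermat.Agent.S36lib.Speed
import Fermat.Agent.S40lib.WildCoordAsm

set_option autoImplicit false
set_option linter.style.haveILetI false
set_option linter.unusedSectionVars false
set_option linter.unusedVariables false

noncomputable section

namespace Fermat.Agent.S40lib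

open ModularCurve HahnSeries AlgebraicCurve Fermat.Agent.S24lib Fermat.Agent.S33lib
  Fermat.Agent.S34lib Fermat.Agent.RRlib

section Conc

variable (N : ℕ) [NeZero N] [RRBase Kbar (modularFunctionFieldBar N)]

set_option maxHeartbeats 1600000 in
/-- **(Co)**: the coordinates in the `Fin p`-form of `g2w_point_node`. -/
theorem wca_coords_fin {p : ℕ} (hp : p.Prime) {ζ : Kbar} (hζ : IsPrimitiveRoot ζ p)
    (H : Subgroup (Kbar ≃ₐ[ℚ] Kbar)) {x : JZero N} {ux : modularFunctionFieldBar N}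
    (hx : gdfIsKummer (K := Kbar) p x ux)
    (EY : IntermediateField Kbar (LaurentSeries Kbar)) (hFE : modularFunctionFieldBar N ≤ EY)
    (hst : ∀ σ ∈ H, ∀ z ∈ EY, coeffMap ((σ : Kbar ≃ₐ[ℚ] Kbar) : Kbar →+* Kbar) z ∈ EY)
    {rt : Kbar} (hrt0 : rt ≠ 0) (hrtp : ∀ τ ∈ H, τ (rt ^ p) = rt ^ p)
    (hSt : ∀ τ ∈ H, τ rt = rt → τ • x = x)
    (σ₁ : Kbar ≃ₐ[ℚ] Kbar) (hσ₁ : σ₁ ∈ H) (hσζ : σ₁ ζ = ζ) (hσrt : σ₁ rt ≠ rt)
    (a b : Kbar) (ha0 : a ≠ 0) (haH : ∀ τ ∈ H, τ a = a) (hbH : ∀ τ ∈ H, τ b = b)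
    (u h : ↥EY) {c : Kbar} (hc : c ≠ 0) (hh : h ≠ 0)
    (hrel : (u : LaurentSeries Kbar) =
      algebraMap Kbar (LaurentSeries Kbar) c * (ux : LaurentSeries Kbar) *
        (h : LaurentSeries Kbar) ^ p)
    (hu : ∀ τ ∈ H, coeffMap ((τ : Kbar ≃ₐ[ℚ] Kbar) : Kbar →+* Kbar) (u : LaurentSeries Kbar) =
      (u : LaurentSeries Kbar)) :
    ∃ (u1 : modularFunctionFieldBar N) (ke : Fin p → Kbar)
      (cu : Fin p → modularFunctionFieldBar N) (ah : Fin p → ↥EY),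
      gdfIsKummer (K := Kbar) p x u1 ∧
      (∀ i, ∀ τ ∈ H, τ (ke i) = ke i) ∧
      (∀ i, ∀ τ ∈ H, coeffMap ((τ : Kbar ≃ₐ[ℚ] Kbar) : Kbar →+* Kbar)
        (cu i : LaurentSeries Kbar) = (cu i : LaurentSeries Kbar)) ∧
      (∀ i, ∀ τ ∈ H, coeffMap ((τ : Kbar ≃ₐ[ℚ] Kbar) : Kbar →+* Kbar)
        (ah i : LaurentSeries Kbar) = (ah i : LaurentSeries Kbar)) ∧
      u1 = ∑ i : Fin p, cu i * algebraMap Kbar (modularFunctionFieldBar N) (a * rt + b) ^ (i : ℕ) ∧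
      (⟨(u1 : LaurentSeries Kbar), hFE u1.2⟩ : ↥EY) =
        ∑ i : Fin p, (⟨(cu i : LaurentSeries Kbar), hFE (cu i).2⟩ : ↥EY) *
          algebraMap Kbar ↥EY (a * rt + b) ^ (i : ℕ) ∧
      u = (∑ i : Fin p, algebraMap Kbar ↥EY (ke i) * algebraMap Kbar ↥EY (a * rt + b) ^ (i : ℕ)) *
          (∑ i : Fin p, (⟨(cu i : LaurentSeries Kbar), hFE (cu i).2⟩ : ↥EY) *
            algebraMap Kbar ↥EY (a * rt + b) ^ (i : ℕ)) *
          (∑ i : Fin p, ah i * algebraMap Kbar ↥EY (a * rt + b) ^ (i : ℕ)) ^ p := by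
  classical
  obtain ⟨u1, ke, cu, ch, hk1, hkeH, hcuF, hcuH, hchE, hchH, hu1, hrel1⟩ :=
    wca_coords N hp hζ H hx EY hFE hst hrt0 hrtp hSt σ₁ hσ₁ hσζ hσrt a b ha0 haH hbH hc h.2
      (fun h0 => hh (Subtype.ext h0)) hrel hu
  have hU1 : (⟨(u1 : LaurentSeries Kbar), hFE u1.2⟩ : ↥EY) =
        ∑ i : Fin p, (⟨cu (i : ℕ), hFE (hcuF i)⟩ : ↥EY) *
          algebraMap Kbar ↥EY (a * rt + b) ^ (i : ℕ) := by
    apply Subtype.ext
    rw [AddSubmonoidClass.coe_finsetSum]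
    show (u1 : LaurentSeries Kbar) = _
    rw [hu1, Finset.sum_range]
    rfl
  refine ⟨u1, fun i => ke i, fun i => ⟨cu i, hcuF i⟩, fun i => ⟨ch i, hchE i⟩, hk1,
    fun i => hkeH i, fun i => hcuH i, fun i => hchH i, ?_, hU1, ?_⟩
  · apply Subtype.ext
    rw [AddSubmonoidClass.coe_finsetSum]
    rw [hu1, Finset.sum_range]
    rfl
  · have hKE : ((∑ i : Fin p, algebraMap Kbar ↥EY (ke i) *
        algebraMap Kbar ↥EY (a * rt + b) ^ (i : ℕ) : ↥EY) : LaurentSeries Kbar) =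
        ∑ i ∈ Finset.range p, algebraMap Kbar (LaurentSeries Kbar) (ke i) *
          algebraMap Kbar (LaurentSeries Kbar) (a * rt + b) ^ i := by
      rw [AddSubmonoidClass.coe_finsetSum, Finset.sum_range]
      rfl
    have hCH : ((∑ i : Fin p, (⟨ch (i : ℕ), hchE i⟩ : ↥EY) *
        algebraMap Kbar ↥EY (a * rt + b) ^ (i : ℕ) : ↥EY) : LaurentSeries Kbar) =
        ∑ i ∈ Finset.range p, ch i *
          algebraMap Kbar (LaurentSeries Kbar) (a * rt + b) ^ i := by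
      rw [AddSubmonoidClass.coe_finsetSum, Finset.sum_range]
      rfl
    have hCU : ((∑ i : Fin p, (⟨cu (i : ℕ), hFE (hcuF i)⟩ : ↥EY) *
        algebraMap Kbar ↥EY (a * rt + b) ^ (i : ℕ) : ↥EY) : LaurentSeries Kbar) =
        ∑ i ∈ Finset.range p, cu i *
          algebraMap Kbar (LaurentSeries Kbar) (a * rt + b) ^ i := by
      rw [AddSubmonoidClass.coe_finsetSum, Finset.sum_range]
      rfl
    apply Subtype.ext
    rw [MulMemClass.coe_mul, MulMemClass.coe_mul, SubmonoidClass.coe_pow]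
    rw [hrel1]
    exact congrArg₂ (· * ·) (congrArg₂ (· * ·) hKE.symm hCU.symm) (congrArg (· ^ p) hCH.symm)

end Conc

end Fermat.Agent.S40lib

end
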