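import Mathlib
import Fermat.Agent.S36lib.Speed
import Fermat.Agent.S40lib.WindcUnits2
import Fermat.Agent.S40lib.WindcPoint
import Fermat.Agent.S40lib.WindcKappa
import Fermat.Agent.S36lib.Reg1Done
import Fermat.Agent.S36lib.W2jConc

/-!
# Item 88 (S40/S44), block (J-WILD), piece (Co)-inst (helper23)

The hypotheses `hae`, `hau`, `hah` of helper24's per-point theorems `g2w_point_node` /
`g2w_point_smooth` (`WindcPoint.lean`) for the coordinates of `wca_coords_fin` (helper19).

Concrete rationality: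
* `wco_isIFixed`      : a function of `FF N` whose `q`-expansion is fixed coefficientwise by the
                        inertia group is `IsIFixed`;
* `wco_frac_of_fixed` : an inertia-fixed function of `FF (M' q)` is a quotient `a / b` of
                        elements of the affine ring `S.B` of `nodeSetupNj`
                        (`mem_f0Field_iff_isIFixed` + `r1c_noeth_frac` + `w2j_rgnSum`).

Abstract shapes (setting of `g2w_point_node`, any field `E`):
* `wco_hau` : `hau` for `au i = φ (cu i)`, `cu i` quotients of elements of `B`;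
* `wco_hae` : `hae` for `ae i = algebraMap K E (ke i)`, `ke i = 0` or `pK ^ m · b`, `b` a
              constant with image in `g2wUK`;
* `wco_hah` : `hah` for `ah i` quotients of elements of `L` (= `wcu_hah`).
-/

set_option autoImplicit false
set_option linter.unusedVariables false
set_option linter.unusedSectionVars false
set_option linter.style.haveILetI false
set_option synthInstance.maxHeartbeats 400000

noncomputable section

namespace Fermat.Agent.S40lib

open Fermat.Agent.S36lib IsLocalRing ModularCurve Fermat.Agent.S24lib Fermat.Agent.S34lib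
  Fermat.Agent.GM Fermat.Agent.GoodRed

section Fixed

/-- coefficientwise fixed by the inertia group ⇒ `IsIFixed` -/
theorem wco_isIFixed (N : ℕ) (A : ValuationSubring Kbar) (z : FF N)
    (hz : ∀ σ ∈ A.inertiaSubgroupIn ℚ,
      coeffMap ((σ : Kbar ≃ₐ[ℚ] Kbar) : Kbar →+* Kbar) (z : LaurentSeries Kbar) =
        (z : LaurentSeries Kbar)) :
    IsIFixed N A z := by
  intro σ hσ
  apply Subtype.ext
  ext n
  rw [invrep_coeff_smul]
  have h := congrArg (fun y : LaurentSeries Kbar => y.coeff n) (hz σ hσ)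
  simpa [coeffMap_coeff] using h

variable (A : ValuationSubring Kbar) (M' q : ℕ) [NeZero M'] [NeZero q] (hq : q.Prime)
  (hqM : ¬ q ∣ M') (hA : A.LiesOverPrime q)
  (R : ConstRed A (IsLocalRing.residue A)
    (↥(modularFunctionFieldFullC (IsLocalRing.ResidueField A) M')) (FF (M' * q)))
  (hR : IsSeriesRed R)

/-- **an inertia-fixed function of `FF (M' q)` is a quotient of elements of `S.B`** -/
theorem wco_frac_of_fixed (z : FF (M' * q))
    (hz : ∀ σ ∈ A.inertiaSubgroupIn ℚ,
      coeffMap ((σ : Kbar ≃ₐ[ℚ] Kbar) : Kbar →+* Kbar) (z : LaurentSeries Kbar) =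
        (z : LaurentSeries Kbar)) :
    ∃ a b : (nodeSetupNj A M' q hq hqM hA R hR).B, b ≠ 0 ∧
      z * ((b : f0Field A (M' * q)) : FF (M' * q)) = ((a : f0Field A (M' * q)) : FF (M' * q)) := by
  have hSUM : RgnSum A M' q hq hqM R := fun z h1 h3 => w2j_rgnSum A M' q hq hqM hA R hR z h1 h3
  have hmem : z ∈ f0Field A (M' * q) :=
    (mem_f0Field_iff_isIFixed A (M' * q) z).2 (wco_isIFixed (M' * q) A z hz)
  obtain ⟨a, b, hb, hab⟩ := (r1c_noeth_frac A M' q hq hqM hA R hR hSUM).2 ⟨z, hmem⟩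
  exact ⟨a, b, hb, congrArg Subtype.val hab⟩

end Fixed

section Shapes

variable {B : Type*} [CommRing B] [IsNoetherianRing B] (s : Ideal B) [hs : s.IsPrime]
  {κ₁ : Type*} [Field κ₁] {L : Type*} [CommRing L] [IsDomain L]
  {E : Type*} [Field E] [Algebra L E]
  [IsDomain (Localization.AtPrime s)] [UniqueFactorizationMonoid (Localization.AtPrime s)]

/-- **`hau`** of `g2w_point_node` for `au i = φ (cu i)`, the `cu i` quotients of elements of
`B` in a field `F ⊇ B`. -/
theorem wco_hau (hinj : Function.Injective (algebraMap L E))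
    (f : Localization.AtPrime s →+* L) (hfinj : Function.Injective f)
    (r₁ : B →+* κ₁) (h₁ : RingHom.ker r₁ ≤ s) (x εx : B)
    (hxg : ∀ z ∈ RingHom.ker r₁, x ∣ εx * z) (hεx : εx ∉ s)
    (hxs : Prime (algebraMap B (Localization.AtPrime s) x))
    (ϖ : L) (ϖs cs : Localization.AtPrime s) (hfϖ : f ϖs = ϖ)
    (hϖs : ϖs = cs * algebraMap B (Localization.AtPrime s) x)
    (hcs : ¬ algebraMap B (Localization.AtPrime s) x ∣ cs)
    {F : Type*} [Field F] (φ : F →+* E) (jB : B →+* F)
    (hφj : ∀ b, φ (jB b) = g2wIota (E := E) s f b)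
    (hjB : ∀ b : B, b ≠ 0 → jB b ≠ 0)
    {I : Type*} (cu : I → F)
    (hcu : ∀ i, ∃ a b : B, b ≠ 0 ∧ cu i * jB b = jB a) :
    ∀ i, φ (cu i) = 0 ∨ ∃ m : ℤ, ∃ b ∈ g2wUF (g2wIota (E := E) s f) r₁,
      φ (cu i) = algebraMap L E ϖ ^ m * b := by
  refine wcu2_hau s hinj f hfinj r₁ h₁ x εx hxg hεx hxs ϖ ϖs cs hfϖ hϖs hcs
    (fun i => φ (cu i)) ?_
  intro i
  obtain ⟨a, b, hb, hab⟩ := hcu i
  refine ⟨a, b, ?_, ?_⟩
  · rw [← hφj]
    exact (map_ne_zero φ).2 (hjB b hb)
  · rw [← hφj, ← hφj, ← map_mul, hab]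

omit [IsNoetherianRing B] [IsDomain (Localization.AtPrime s)]
  [UniqueFactorizationMonoid (Localization.AtPrime s)] in
/-- **`hae`** of `g2w_point_node` for `ae i = algebraMap K E (ke i)`: the constants `ke i` are
`0` or `pK ^ m · b` with `b` a unit constant (`isCK b`), `pK ↦ ϖ`. -/
theorem wco_hae (f : Localization.AtPrime s →+* L) (isC : B → Prop)
    {K : Type*} [Field K] [Algebra K E] (ϖ : L) (pK : K)
    (hpϖ : algebraMap K E pK = algebraMap L E ϖ)
    (isCK : K → Prop)
    (hCK : ∀ b : K, isCK b → algebraMap K E b ∈ g2wUK (g2wIota (E := E) s f) isC)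
    {I : Type*} (ke : I → K)
    (hke : ∀ i, ke i = 0 ∨ ∃ (m : ℤ) (b : K), isCK b ∧ ke i = pK ^ m * b) :
    ∀ i, algebraMap K E (ke i) = 0 ∨ ∃ m : ℤ, ∃ b ∈ g2wUK (g2wIota (E := E) s f) isC,
      algebraMap K E (ke i) = algebraMap L E ϖ ^ m * b := by
  intro i
  rcases hke i with h | ⟨m, b, hb, h⟩
  · left
    rw [h, map_zero]
  · right
    exact ⟨m, algebraMap K E b, hCK b hb, by rw [h, map_mul, map_zpow₀, hpϖ]⟩

end Shapes

section Const

variable (B : ValuationSubring (AlgebraicClosure ℚ))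

/-- the shape `hke` of `wco_hae` for inertia-fixed constants (`wkp_const`) -/
theorem wco_hke {p : ℕ} (hp : p.Prime) (hB : B.LiesOverPrime p)
    {I : Type*} (ke : I → AlgebraicClosure ℚ)
    (hfix : ∀ i, ∀ σ ∈ B.inertiaSubgroupIn ℚ, σ (ke i) = ke i) :
    ∀ i, ke i = 0 ∨ ∃ (m : ℤ) (b : AlgebraicClosure ℚ),
      ((∀ σ ∈ B.inertiaSubgroupIn ℚ, σ b = b) ∧ b ∈ B ∧ b⁻¹ ∈ B ∧ b ≠ 0) ∧
        ke i = (p : AlgebraicClosure ℚ) ^ m * b := by
  intro i
  by_cases h0 : ke i = 0
  · exact Or.inl h0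
  · obtain ⟨m, b, h1, h2, h3, h4, h5⟩ := wkp_const B hp hB (ke i) (hfix i) h0
    exact Or.inr ⟨m, b, ⟨h1, h2, h3, h4⟩, h5⟩

end Const

end Fermat.Agent.S40lib

end
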