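import Mathlib
import Fermat.Agent.S36lib.Speed
import Fermat.Agent.S40lib.WindcF

/-!
# Item 88 (S44), block (J-WILD), per-point theorem `g2w_point_*`: the constants `(K)`, `(F)(5)(7)`

For a node setup `S` over `(A, π)`:

* `wcfIsC S n`  : `n` is the image `S.constB c` of a unit `c` of `A`  (the predicate `isC`);
* `wcf_isC_one`, `wcf_isC_mul` (= `hCmul`);
* `wcf_hC_inf`, `wcf_hC_zero`  (= `hC` on the two components: `r₁ n ≠ 0 ∧ ord_Q (r₁ n) = 0`);
* `wcf_mem_UK`   : the image of a unit constant lies in `g2wUK ιB (wcfIsC S)` (unfolded form);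
* `wcf_hwQ`      : `ord_Q (a b) = ord_Q a + ord_Q b`  (= `hwQ`).
-/

set_option autoImplicit false
set_option linter.unusedSectionVars false
set_option linter.unusedVariables false

noncomputable section

namespace Fermat.Agent.S40lib

open Fermat.Agent.FFlib Fermat.Agent.S24lib Fermat.Agent.GM Fermat.Agent.GoodRed
  Fermat.Agent.S36lib Fermat.Agent.S34lib
open AlgebraicCurve IsLocalRing IntermediateField ModularCurve

section Consts

variable {K k : Type*} [Field K] [Field k]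
variable {A : ValuationSubring K} {π : A →+* k} {κ : Type*} [Field κ] [Algebra k κ]
  {F : Type*} [Field F] [Algebra K F]
variable (S : NodeSetup A π κ F)

/-- `isC`: the images in `B` of the units of `A` -/
def wcfIsC (n : S.B) : Prop := ∃ c d : A, c * d = 1 ∧ n = S.constB c

theorem wcf_isC_one : wcfIsC S 1 := ⟨1, 1, mul_one 1, (map_one S.constB).symm⟩

theorem wcf_isC_mul (n n' : S.B) (hn : wcfIsC S n) (hn' : wcfIsC S n') : wcfIsC S (n * n') := by
  obtain ⟨c, d, hcd, rfl⟩ := hn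
  obtain ⟨c', d', hcd', rfl⟩ := hn'
  refine ⟨c * c', d * d', ?_, (map_mul S.constB c c').symm⟩
  calc c * c' * (d * d') = (c * d) * (c' * d') := by ring
    _ = 1 := by rw [hcd, hcd', mul_one]

theorem wcf_isC_of_unit (c : A) (hc : ((c : K))⁻¹ ∈ A) (hc0 : (c : K) ≠ 0) :
    wcfIsC S (S.constB c) :=
  ⟨c, ⟨_, hc⟩, Subtype.ext (by
    show (c : K) * ((c : K))⁻¹ = 1
    exact mul_inv_cancel₀ hc0), rfl⟩

theorem wcf_pi_ne_zero {c d : A} (hcd : c * d = 1) : π c ≠ 0 := by
  intro h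
  have h1 : π c * π d = 1 := by rw [← map_mul, hcd, map_one]
  rw [h, zero_mul] at h1
  exact zero_ne_one h1

/-- `hC` on the component `∞` -/
theorem wcf_hC_inf (Q : Place k κ) (n : S.B) (hn : wcfIsC S n) :
    S.redInf n ≠ 0 ∧ Q.ord (S.redInf n) = 0 := by
  obtain ⟨c, d, hcd, rfl⟩ := hn
  have hπ := wcf_pi_ne_zero (π := π) hcd
  rw [S.redInf_constB]
  exact ⟨(map_ne_zero _).mpr hπ, wir_ord_algebraMap Q hπ⟩

/-- `hC` on the component `0` -/
theorem wcf_hC_zero (Q : Place k κ) (n : S.B) (hn : wcfIsC S n) :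
    S.redZero n ≠ 0 ∧ Q.ord (S.redZero n) = 0 := by
  obtain ⟨c, d, hcd, rfl⟩ := hn
  have hπ := wcf_pi_ne_zero (π := π) hcd
  rw [S.redZero_constB]
  exact ⟨(map_ne_zero _).mpr hπ, wir_ord_algebraMap Q hπ⟩

/-- the image of a unit constant lies in `g2wUK ιB isC` (unfolded) -/
theorem wcf_mem_UK {E : Type*} [Field E] (ιB : S.B →+* E) (c d : A) (hcd : c * d = 1) :
    ∃ n d' : S.B, wcfIsC S n ∧ wcfIsC S d' ∧ ιB (S.constB c) * ιB d' = ιB n :=
  ⟨S.constB c, 1, ⟨c, d, hcd, rfl⟩, wcf_isC_one S, by rw [map_one, mul_one]⟩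

/-- `hwQ` -/
theorem wcf_hwQ (Q : Place k κ) (a b : κ) (ha : a ≠ 0) (hb : b ≠ 0) :
    Q.ord (a * b) = Q.ord a + Q.ord b :=
  Place.ord_mul Q ha hb

end Consts

end Fermat.Agent.S40lib

end
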