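import Mathlib
import Fermat.Agent.S36lib.Speed
import Fermat.Agent.S40lib.WindcF2
import Fermat.Agent.S40lib.WindcKappa
import Fermat.Agent.S40lib.WindcPoint

/-!
# Item 88 (S44), block (J-WILD), per-point theorem `g2w_point_*`: the constants `(K)` (helper13)

The hypotheses `haK` and `hae` of `g2w_point_node` / `g2w_point_smooth`, for the predicate
`isC := wcfIsC S` of helper16 (`WindcF2.lean`: `wcf_isC_mul` = `hCmul`, `wcf_hC_inf/zero` = `hC`).

Abstract part (`S : NodeSetup A π κ F`, `ιB : S.B →+* E`, `cE : K →+* E` with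
`ιB (S.constB a0) = cE a0`):
* `wck_unit_mem` : the image of a unit of `A` lies in `g2wUK ιB (wcfIsC S)`;
* `wck_coord`    : if every non-zero element of `K` is `ϖ ^ m ·` unit, then every `cE x` is `0` or
  `cE ϖ ^ m · b` with `b ∈ g2wUK ιB (wcfIsC S)`.

Concrete part (`A` a valuation ring of `ℚ̄` over `q`, `S = nodeSetupNj …`, `jB = wcfJ …`,
`φ : FF (M' q) →+* E` with `φ (jB b) = ιB b`):
* `wck_k0_unif`  : a non-zero element of `K0` is `q ^ m ·` (unit of `A0`)   (from `wkp_const`);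
* `wck_hcompat`  : `ιB (S.constB a0) = φ (algebraMap Kbar (FF (M' q)) a0)`;
* `wck_haK`      : `a` fixed by inertia, unit of `A` ⇒ `φ a ∈ g2wUK ιB isC`       (= `haK`);
* `wck_haK_eq`   : the same for `aE = φ a`;
* `wck_hae`      : `ke i` fixed by inertia, `ae i = φ (ke i)`, `ϖE = φ q` ⇒
  `∀ i, ae i = 0 ∨ ∃ m, ∃ b ∈ g2wUK ιB isC, ae i = ϖE ^ m * b`                     (= `hae`);
* `wck_hϖ`       : `ιB (S.constB q) = φ q`.
Complete proofs.
-/

set_option autoImplicit false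
set_option linter.unusedSectionVars false
set_option linter.unusedVariables false
set_option linter.style.haveILetI false

noncomputable section

namespace Fermat.Agent.S40lib

open Fermat.Agent.FFlib Fermat.Agent.S24lib Fermat.Agent.GM Fermat.Agent.GoodRed
  Fermat.Agent.S36lib Fermat.Agent.S34lib
open AlgebraicCurve IsLocalRing IntermediateField ModularCurve

section Abs

variable {K k : Type*} [Field K] [Field k]
variable {A : ValuationSubring K} {π : A →+* k} {κ : Type*} [Field κ] [Algebra k κ]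
  {F : Type*} [Field F] [Algebra K F]
variable (S : NodeSetup A π κ F) {E : Type*} [Field E]

/-- the image of a unit of `A` lies in `g2wUK ιB (wcfIsC S)` -/
theorem wck_unit_mem (ιB : S.B →+* E) (cE : K →+* E)
    (hc : ∀ a0 : A, ιB (S.constB a0) = cE (a0 : K))
    (c : K) (hcA : c ∈ A) (hciA : c⁻¹ ∈ A) (hc0 : c ≠ 0) :
    cE c ∈ g2wUK ιB (wcfIsC S) := by
  refine ⟨S.constB ⟨c, hcA⟩, 1, wcf_isC_of_unit S ⟨c, hcA⟩ hciA hc0, wcf_isC_one S, ?_⟩
  rw [map_one, mul_one, hc]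

/-- every constant is `0` or `ϖ ^ m ·` (unit constant) -/
theorem wck_coord (ιB : S.B →+* E) (cE : K →+* E)
    (hc : ∀ a0 : A, ιB (S.constB a0) = cE (a0 : K)) (ϖK : K)
    (hunif : ∀ x : K, x ≠ 0 → ∃ (m : ℤ) (b : K), b ∈ A ∧ b⁻¹ ∈ A ∧ b ≠ 0 ∧ x = ϖK ^ m * b)
    (x : K) :
    cE x = 0 ∨ ∃ m : ℤ, ∃ b ∈ g2wUK ιB (wcfIsC S), cE x = cE ϖK ^ m * b := by
  by_cases hx : x = 0
  · left
    rw [hx, map_zero]
  · right
    obtain ⟨m, b, hb, hbi, hb0, hxb⟩ := hunif x hx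
    refine ⟨m, cE b, wck_unit_mem S ιB cE hc b hb hbi hb0, ?_⟩
    rw [hxb, map_mul, map_zpow₀]

end Abs

section K0

variable (A : ValuationSubring Kbar)

/-- a non-zero element of `K0` is `q ^ m ·` (unit of `A0`) -/
theorem wck_k0_unif {q : ℕ} (hq : q.Prime) (hA : A.LiesOverPrime q) (x : k0Field A)
    (hx : x ≠ 0) :
    ∃ (m : ℤ) (b : k0Field A), b ∈ k0Val A ∧ b⁻¹ ∈ k0Val A ∧ b ≠ 0 ∧
      x = (q : k0Field A) ^ m * b := by
  have hx0 : (x : Kbar) ≠ 0 := fun h => hx (Subtype.ext h)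
  obtain ⟨m, b, hbfix, hbA, hbiA, hb0, hxb⟩ :=
    wkp_const A hq hA (x : Kbar) ((mem_k0Field_iff A _).mp x.2) hx0
  refine ⟨m, ⟨b, (mem_k0Field_iff A b).mpr hbfix⟩, ?_, ?_, ?_, ?_⟩
  · exact (mem_k0Val_iff A _).mpr hbA
  · rw [mem_k0Val_iff]
    have h1 : (((⟨b, (mem_k0Field_iff A b).mpr hbfix⟩ : k0Field A)⁻¹ : k0Field A) : Kbar)
        = b⁻¹ := by
      push_cast
      rfl
    rw [h1]
    exact hbiA
  · intro h
    exact hb0 (congrArg Subtype.val h)
  · apply Subtype.ext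
    rw [hxb]
    push_cast
    rfl

end K0

section Conc

variable (A : ValuationSubring Kbar) (M' q : ℕ) [NeZero M'] [NeZero q] (hq : q.Prime)
  (hqM : ¬ q ∣ M') (hA : A.LiesOverPrime q)
  (R : ConstRed A (IsLocalRing.residue A)
      (↥(modularFunctionFieldFullC (IsLocalRing.ResidueField A) M')) (FF (M' * q)))
  (hR : IsSeriesRed R)
  {E : Type*} [Field E]

/-- `jB` on the constants -/
theorem wck_wcfJ_constB (a0 : k0Val A) :
    wcfJ A M' q hq hqM hA R hR ((nodeSetupNj A M' q hq hqM hA R hR).constB a0)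
      = algebraMap Kbar (FF (M' * q)) ((a0 : k0Field A) : Kbar) := rfl

/-- the compatibility of `ιB` and `φ` on the constants -/
theorem wck_hcompat (φ : FF (M' * q) →+* E)
    (ιB : (nodeSetupNj A M' q hq hqM hA R hR).B →+* E)
    (hφj : ∀ b, φ (wcfJ A M' q hq hqM hA R hR b) = ιB b) (a0 : k0Val A) :
    ιB ((nodeSetupNj A M' q hq hqM hA R hR).constB a0)
      = (φ.comp ((algebraMap Kbar (FF (M' * q))).comp
          (algebraMap (k0Field A) Kbar))) (a0 : k0Field A) := by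
  rw [← hφj, wck_wcfJ_constB]
  rfl

/-- **`haK`**: the image of a unit of `A` fixed by the inertia group lies in
`g2wUK ιB (wcfIsC S)`. -/
theorem wck_haK (φ : FF (M' * q) →+* E)
    (ιB : (nodeSetupNj A M' q hq hqM hA R hR).B →+* E)
    (hφj : ∀ b, φ (wcfJ A M' q hq hqM hA R hR b) = ιB b)
    (a : Kbar) (hfix : ∀ σ ∈ A.inertiaSubgroupIn ℚ, σ a = a)
    (haA : a ∈ A) (haiA : a⁻¹ ∈ A) (ha0 : a ≠ 0) :
    φ (algebraMap Kbar (FF (M' * q)) a)
      ∈ g2wUK ιB (wcfIsC (nodeSetupNj A M' q hq hqM hA R hR)) := by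
  have hmem : a ∈ k0Field A := (mem_k0Field_iff A a).mpr hfix
  have hinv : ((⟨a, hmem⟩ : k0Field A)⁻¹ : k0Field A) ∈ k0Val A := by
    rw [mem_k0Val_iff]
    have h1 : (((⟨a, hmem⟩ : k0Field A)⁻¹ : k0Field A) : Kbar) = a⁻¹ := by
      push_cast
      rfl
    rw [h1]
    exact haiA
  exact wck_unit_mem (nodeSetupNj A M' q hq hqM hA R hR) ιB
    (φ.comp ((algebraMap Kbar (FF (M' * q))).comp (algebraMap (k0Field A) Kbar)))
    (wck_hcompat A M' q hq hqM hA R hR φ ιB hφj) ⟨a, hmem⟩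
    ((mem_k0Val_iff A _).mpr haA) hinv (fun h => ha0 (congrArg Subtype.val h))

/-- `haK` for `aE = φ a` -/
theorem wck_haK_eq (φ : FF (M' * q) →+* E)
    (ιB : (nodeSetupNj A M' q hq hqM hA R hR).B →+* E)
    (hφj : ∀ b, φ (wcfJ A M' q hq hqM hA R hR b) = ιB b)
    (a : Kbar) (hfix : ∀ σ ∈ A.inertiaSubgroupIn ℚ, σ a = a)
    (haA : a ∈ A) (haiA : a⁻¹ ∈ A) (ha0 : a ≠ 0)
    (aE : E) (haE : aE = φ (algebraMap Kbar (FF (M' * q)) a)) :
    aE ∈ g2wUK ιB (wcfIsC (nodeSetupNj A M' q hq hqM hA R hR)) := by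
  rw [haE]
  exact wck_haK A M' q hq hqM hA R hR φ ιB hφj a hfix haA haiA ha0

/-- one constant fixed by the inertia group: `0` or `q ^ m ·` (unit constant) -/
theorem wck_hae_one (φ : FF (M' * q) →+* E)
    (ιB : (nodeSetupNj A M' q hq hqM hA R hR).B →+* E)
    (hφj : ∀ b, φ (wcfJ A M' q hq hqM hA R hR b) = ιB b)
    (c : Kbar) (hfix : ∀ σ ∈ A.inertiaSubgroupIn ℚ, σ c = c) :
    φ (algebraMap Kbar (FF (M' * q)) c) = 0 ∨
      ∃ m : ℤ, ∃ b ∈ g2wUK ιB (wcfIsC (nodeSetupNj A M' q hq hqM hA R hR)),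
        φ (algebraMap Kbar (FF (M' * q)) c)
          = φ (algebraMap Kbar (FF (M' * q)) (q : Kbar)) ^ m * b := by
  have hmem : c ∈ k0Field A := (mem_k0Field_iff A c).mpr hfix
  have h := wck_coord (nodeSetupNj A M' q hq hqM hA R hR) ιB
    (φ.comp ((algebraMap Kbar (FF (M' * q))).comp (algebraMap (k0Field A) Kbar)))
    (wck_hcompat A M' q hq hqM hA R hR φ ιB hφj) (q : k0Field A)
    (fun x hx => wck_k0_unif A hq hA x hx) ⟨c, hmem⟩
  have hq' : (φ.comp ((algebraMap Kbar (FF (M' * q))).comp (algebraMap (k0Field A) Kbar)))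
      (q : k0Field A) = φ (algebraMap Kbar (FF (M' * q)) (q : Kbar)) := by
    rw [RingHom.comp_apply, RingHom.comp_apply, map_natCast]
  rw [hq'] at h
  exact h

/-- **`hae`**: the coordinates `ae i = φ (ke i)`, `ke i` fixed by the inertia group,
`ϖE = φ q`. -/
theorem wck_hae (φ : FF (M' * q) →+* E)
    (ιB : (nodeSetupNj A M' q hq hqM hA R hR).B →+* E)
    (hφj : ∀ b, φ (wcfJ A M' q hq hqM hA R hR b) = ιB b)
    (ϖE : E) (hϖE : ϖE = φ (algebraMap Kbar (FF (M' * q)) (q : Kbar)))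
    {ι : Type*} (ke : ι → Kbar) (hke : ∀ i, ∀ τ ∈ A.inertiaSubgroupIn ℚ, τ (ke i) = ke i)
    (ae : ι → E) (hae : ∀ i, ae i = φ (algebraMap Kbar (FF (M' * q)) (ke i))) :
    ∀ i, ae i = 0 ∨
      ∃ m : ℤ, ∃ b ∈ g2wUK ιB (wcfIsC (nodeSetupNj A M' q hq hqM hA R hR)),
        ae i = ϖE ^ m * b := by
  intro i
  rw [hae i, hϖE]
  exact wck_hae_one A M' q hq hqM hA R hR φ ιB hφj (ke i) (hke i)

/-- `ϖE = φ q` is `ιB (constB q)` -/
theorem wck_hϖ (φ : FF (M' * q) →+* E)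
    (ιB : (nodeSetupNj A M' q hq hqM hA R hR).B →+* E)
    (hφj : ∀ b, φ (wcfJ A M' q hq hqM hA R hR b) = ιB b) :
    ιB ((nodeSetupNj A M' q hq hqM hA R hR).constB (q : k0Val A))
      = φ (algebraMap Kbar (FF (M' * q)) (q : Kbar)) := by
  rw [map_natCast, map_natCast, map_natCast, map_natCast]

end Conc

end Fermat.Agent.S40lib

end
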