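import Mathlib
import Fermat.Agent.S36lib.Speed
import Fermat.Agent.S40lib.WildCoordFin
import Fermat.Agent.S40lib.WindcK
import Fermat.Agent.S40lib.WindcCo
import Fermat.Agent.S40lib.CoverE0c

/-!
# Item 88 (S44), block (J-WILD), layer B: the (Co)-package, concrete (helper23)

The coordinates group (Co) of `s40j_pt_node` / `s40j_pt_smooth` (helper22) at
`E := ↥EY`, `E₀ := cve0Field (cve0cT I EY hst)` (`I` the inertia group of `A`),
`B := S.B` of `nodeSetupNj`, in ONE call: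

* `wci_mem_E0` : a coefficientwise `H`-fixed element of `EY` lies in `E₀`;
* `wci_hau` : the shape `hau` (`au i * jE d = jE n`) for `au i = φ (cu i)`, `cu i` fixed by
  the inertia group;
* `wci_pkg` : from the inputs of `wca_coords_fin` (helper19): `u1 ae au ah` with
  `hae`, `hau`, `hah`, `hrel`, `hu1` in the shapes of `s40j_pt_node`, for any
  `φ : FF N → EY` which is the inclusion on the underlying series, any `jE` with
  `φ ∘ wcfJ = jE` and any `π1` with `π1 = algebraMap Kbar EY (a * rt + b)`.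
-/

set_option autoImplicit false
set_option linter.unusedVariables false
set_option linter.unusedSectionVars false
set_option linter.style.haveILetI false
set_option synthInstance.maxHeartbeats 400000

noncomputable section

namespace Fermat.Agent.S40lib

open Fermat.Agent.S36lib IsLocalRing ModularCurve Fermat.Agent.S24lib Fermat.Agent.S34lib
  Fermat.Agent.GM Fermat.Agent.GoodRed HahnSeries AlgebraicCurve Fermat.Agent.S33lib
  Fermat.Agent.RRlib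

section E0

variable (H : Subgroup (Kbar ≃ₐ[ℚ] Kbar)) (EY : IntermediateField Kbar (LaurentSeries Kbar))

/-- a coefficientwise `H`-fixed element of `EY` lies in the fixed field `E₀` -/
theorem wci_mem_E0 (hst : ∀ σ ∈ H, ∀ x ∈ EY,
    coeffMap ((σ : Kbar ≃ₐ[ℚ] Kbar) : Kbar →+* Kbar) x ∈ EY) (z : ↥EY)
    (hz : ∀ τ ∈ H, coeffMap ((τ : Kbar ≃ₐ[ℚ] Kbar) : Kbar →+* Kbar)
      (z : LaurentSeries Kbar) = (z : LaurentSeries Kbar)) :
    z ∈ cve0Field (cve0cT H EY hst) := by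
  rintro τ ⟨σ, hσ, rfl⟩
  apply Subtype.ext
  rw [wlc_coe_tau]
  exact hz σ hσ

end E0

section Conc

variable (A : ValuationSubring Kbar) (M' p : ℕ) [NeZero M'] [NeZero p] (hp : p.Prime)
  (hpM : ¬ p ∣ M') (hA : A.LiesOverPrime p)
  (R : ConstRed A (IsLocalRing.residue A)
      (↥(modularFunctionFieldFullC (IsLocalRing.ResidueField A) M')) (FF (M' * p)))
  (hR : IsSeriesRed R)
  {E : Type*} [Field E]

/-- **`hau`** in the shape of `s40j_pt_node`: `au i = φ (cu i)`, the `cu i` fixed by the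
inertia group. -/
theorem wci_hau (φ : FF (M' * p) →+* E)
    (jE : (nodeSetupNj A M' p hp hpM hA R hR).B →+* E)
    (hφj : ∀ b, φ (wcfJ A M' p hp hpM hA R hR b) = jE b)
    {I : Type*} (cu : I → FF (M' * p))
    (hcu : ∀ i, ∀ τ ∈ A.inertiaSubgroupIn ℚ,
      coeffMap ((τ : Kbar ≃ₐ[ℚ] Kbar) : Kbar →+* Kbar) (cu i : LaurentSeries Kbar) =
        (cu i : LaurentSeries Kbar))
    (au : I → E) (hau : ∀ i, au i = φ (cu i)) :
    ∀ i, ∃ n d : (nodeSetupNj A M' p hp hpM hA R hR).B, jE d ≠ 0 ∧ au i * jE d = jE n := by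
  intro i
  obtain ⟨n, d, hd, hnd⟩ := wco_frac_of_fixed A M' p hp hpM hA R hR (cu i) (hcu i)
  refine ⟨n, d, ?_, ?_⟩
  · rw [← hφj]
    refine (map_ne_zero φ).2 ?_
    intro h0
    apply hd
    apply wcfJ_injective A M' p hp hpM hA R hR
    rw [h0, map_zero]
  · rw [hau i, ← hφj, ← hφj, ← map_mul]
    exact congrArg φ hnd

end Conc

section Pkg

variable (A : ValuationSubring Kbar) (M' p : ℕ) [NeZero M'] [NeZero p] (hp : p.Prime)
  (hpM : ¬ p ∣ M') (hA : A.LiesOverPrime p)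
  (R : ConstRed A (IsLocalRing.residue A)
      (↥(modularFunctionFieldFullC (IsLocalRing.ResidueField A) M')) (FF (M' * p)))
  (hR : IsSeriesRed R)
  [RRBase Kbar (modularFunctionFieldBar (M' * p))]

set_option maxHeartbeats 1600000 in
/-- **the (Co)-package of `s40j_pt_node` / `s40j_pt_smooth`, concrete.** -/
theorem wci_pkg {ζ : Kbar} (hζ : IsPrimitiveRoot ζ p)
    {x : JZero (M' * p)} {ux : modularFunctionFieldBar (M' * p)}
    (hx : gdfIsKummer (K := Kbar) p x ux)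
    (EY : IntermediateField Kbar (LaurentSeries Kbar))
    (hFE : modularFunctionFieldBar (M' * p) ≤ EY)
    (hst : ∀ σ ∈ A.inertiaSubgroupIn ℚ, ∀ z ∈ EY,
      coeffMap ((σ : Kbar ≃ₐ[ℚ] Kbar) : Kbar →+* Kbar) z ∈ EY)
    {rt : Kbar} (hrt0 : rt ≠ 0) (hrtp : ∀ τ ∈ A.inertiaSubgroupIn ℚ, τ (rt ^ p) = rt ^ p)
    (hSt : ∀ τ ∈ A.inertiaSubgroupIn ℚ, τ rt = rt → τ • x = x)
    (σ₁ : Kbar ≃ₐ[ℚ] Kbar) (hσ₁ : σ₁ ∈ A.inertiaSubgroupIn ℚ) (hσζ : σ₁ ζ = ζ)
    (hσrt : σ₁ rt ≠ rt)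
    (a b : Kbar) (ha0 : a ≠ 0) (haH : ∀ τ ∈ A.inertiaSubgroupIn ℚ, τ a = a)
    (hbH : ∀ τ ∈ A.inertiaSubgroupIn ℚ, τ b = b)
    (u h : ↥EY) {c : Kbar} (hc : c ≠ 0) (hh : h ≠ 0)
    (hrel : (u : LaurentSeries Kbar) =
      algebraMap Kbar (LaurentSeries Kbar) c * (ux : LaurentSeries Kbar) *
        (h : LaurentSeries Kbar) ^ p)
    (hu : ∀ τ ∈ A.inertiaSubgroupIn ℚ,
      coeffMap ((τ : Kbar ≃ₐ[ℚ] Kbar) : Kbar →+* Kbar) (u : LaurentSeries Kbar) =
        (u : LaurentSeries Kbar))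
    -- the maps of layer B
    (φ : FF (M' * p) →ₐ[Kbar] ↥EY)
    (hφv : ∀ f : FF (M' * p), ((φ f : ↥EY) : LaurentSeries Kbar) = (f : LaurentSeries Kbar))
    (jE : (nodeSetupNj A M' p hp hpM hA R hR).B →+* ↥EY)
    (hφj : ∀ b, φ (wcfJ A M' p hp hpM hA R hR b) = jE b)
    (π1 : ↥EY) (hπ1 : π1 = algebraMap Kbar ↥EY (a * rt + b)) :
    ∃ (u1 : FF (M' * p)) (ae au ah : Fin p → ↥EY),
      gdfIsKummer (K := Kbar) p x u1 ∧
      (∀ i, ae i = 0 ∨ ∃ m : ℤ, ∃ b' ∈ g2wUK jE (wcfIsC (nodeSetupNj A M' p hp hpM hA R hR)),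
        ae i = (p : ↥EY) ^ m * b') ∧
      (∀ i, ∃ n d : (nodeSetupNj A M' p hp hpM hA R hR).B, jE d ≠ 0 ∧ au i * jE d = jE n) ∧
      (∀ i, ∃ g₀ : ↥(cve0Field (cve0cT (A.inertiaSubgroupIn ℚ) EY hst)),
        ah i = (g₀ : ↥EY)) ∧
      u = (∑ i, ae i * π1 ^ (i : ℕ)) * (∑ i, au i * π1 ^ (i : ℕ)) *
        (∑ i, ah i * π1 ^ (i : ℕ)) ^ p ∧
      φ u1 = ∑ i, au i * π1 ^ (i : ℕ) := by
  classical
  obtain ⟨u1, ke, cu, ah, hk1, hkeH, hcuH, hahH, hu1, hU1, hrel1⟩ :=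
    wca_coords_fin (M' * p) hp hζ (A.inertiaSubgroupIn ℚ) hx EY hFE hst hrt0 hrtp hSt σ₁ hσ₁
      hσζ hσrt a b ha0 haH hbH u h hc hh hrel hu
  have hφe : ∀ f : FF (M' * p), φ f = (⟨(f : LaurentSeries Kbar), hFE f.2⟩ : ↥EY) :=
    fun f => Subtype.ext (hφv f)
  have hφK : ∀ c' : Kbar, algebraMap Kbar ↥EY c' = φ (algebraMap Kbar (FF (M' * p)) c') :=
    fun c' => (φ.commutes c').symm
  refine ⟨u1, fun i => algebraMap Kbar ↥EY (ke i), fun i => φ (cu i), ah, hk1, ?_, ?_, ?_, ?_, ?_⟩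
  · refine wck_hae A M' p hp hpM hA R hR φ.toRingHom jE hφj (p : ↥EY) ?_ ke hkeH
      (fun i => algebraMap Kbar ↥EY (ke i)) (fun i => hφK (ke i))
    show (p : ↥EY) = φ (algebraMap Kbar (FF (M' * p)) (p : Kbar))
    rw [map_natCast, map_natCast]
  · exact wci_hau A M' p hp hpM hA R hR φ.toRingHom jE hφj cu hcuH (fun i => φ (cu i))
      (fun i => rfl)
  · intro i
    exact ⟨⟨ah i, wci_mem_E0 (A.inertiaSubgroupIn ℚ) EY hst (ah i) (hahH i)⟩, rfl⟩
  · rw [hπ1, hrel1]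
    simp only [hφe]
  · rw [hπ1, hφe u1, hU1]
    simp only [hφe]

end Pkg

end Fermat.Agent.S40lib

end
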