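import Mathlib
import Fermat.Agent.S36lib.Speed
import Fermat.Agent.S40lib.WindcCoInst
import Fermat.Agent.S40lib.WildPtCtx

/-!
# Item 88 (S44), block (J-WILD), layer B: the (Co)-package in the context `WildPtCtx` (helper23)

`wci_pkg` (WindcCoInst) at the maps of the layer-B context (helper8, `WildPtCtx.lean`):
`φ := IntermediateField.inclusion hle : FF N →ₐ[Kbar] ↥EY`,
`jE := criHom ∘ algebraMap S.B B_s` (`= algebraMap B_s EY ∘ algebraMap S.B B_s` for `criAlg`),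
`E₀ := wpbE0 A EY hst`.

* `wcy_hφj` : `φ (wcfJ b) = jE b`;
* `wcy_hjE` : `algebraMap B_s EY (algebraMap S.B B_s b) = jE b` (for `criAlg`);
* `wcy_pkg` : the group (Co) of `s40j_pt_node` / `s40j_pt_smooth`, `π1 := η - 1` any element
  with `π1 = algebraMap Kbar EY (a * rt + b)`.
-/

set_option autoImplicit false
set_option linter.unusedVariables false
set_option linter.unusedSectionVars false
set_option linter.style.haveILetI false
set_option synthInstance.maxHeartbeats 400000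

noncomputable section

namespace Fermat.Agent.S40lib

open Fermat.Agent.S36lib IsLocalRing ModularCurve Fermat.Agent.S24lib Fermat.Agent.S34lib
  Fermat.Agent.GM Fermat.Agent.GoodRed HahnSeries AlgebraicCurve Fermat.Agent.S33lib
  Fermat.Agent.RRlib

section Ctx

variable (A : ValuationSubring Kbar) (M' p : ℕ) [NeZero M'] [NeZero p] (hp : p.Prime)
  (hpM : ¬ p ∣ M') (hA : A.LiesOverPrime p)
  (R : ConstRed A (IsLocalRing.residue A)
      (↥(modularFunctionFieldFullC (IsLocalRing.ResidueField A) M')) (FF (M' * p)))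
  (hR : IsSeriesRed R)
  (EY : IntermediateField Kbar (LaurentSeries Kbar))
  (hle : modularFunctionFieldBar (M' * p) ≤ EY)
  (s : Ideal ↥(nodeSetupNj A M' p hp hpM hA R hR).B) [hs : s.IsPrime]

/-- the map `jE : S.B → EY` of the layer-B context -/
def wcyJE : ↥(nodeSetupNj A M' p hp hpM hA R hR).B →+* ↥EY :=
  (criHom A (M' * p) EY hle (nodeSetupNj A M' p hp hpM hA R hR).B s).comp
    (algebraMap ↥(nodeSetupNj A M' p hp hpM hA R hR).B (Localization.AtPrime s))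

theorem wcy_coe_JE (b : ↥(nodeSetupNj A M' p hp hpM hA R hR).B) :
    ((wcyJE A M' p hp hpM hA R hR EY hle s b : ↥EY) : LaurentSeries Kbar) =
      (((b : ↥(f0Field A (M' * p))) : FF (M' * p)) : LaurentSeries Kbar) := by
  show ((criHom A (M' * p) EY hle (nodeSetupNj A M' p hp hpM hA R hR).B s
    (algebraMap _ (Localization.AtPrime s) b) : ↥EY) : LaurentSeries Kbar) = _
  rw [cri_hom_algebraMap]
  rfl

/-- `hjE` of `s40j_pt_node` for `criAlg` -/
theorem wcy_hjE (b : ↥(nodeSetupNj A M' p hp hpM hA R hR).B) :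
    letI := criAlg A (M' * p) EY hle (nodeSetupNj A M' p hp hpM hA R hR).B s
    algebraMap (Localization.AtPrime s) ↥EY
      (algebraMap ↥(nodeSetupNj A M' p hp hpM hA R hR).B (Localization.AtPrime s) b) =
      wcyJE A M' p hp hpM hA R hR EY hle s b := rfl

/-- `hφj` of `s40j_pt_node` for `φ := IntermediateField.inclusion hle`, `jB := wcfJ` -/
theorem wcy_hφj (b : ↥(nodeSetupNj A M' p hp hpM hA R hR).B) :
    IntermediateField.inclusion hle (wcfJ A M' p hp hpM hA R hR b) =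
      wcyJE A M' p hp hpM hA R hR EY hle s b := by
  apply Subtype.ext
  rw [wcy_coe_JE]
  rfl

variable [RRBase Kbar (modularFunctionFieldBar (M' * p))]

set_option maxHeartbeats 1600000 in
/-- **the (Co)-package of `s40j_pt_node` / `s40j_pt_smooth` in the context `WildPtCtx`.** -/
theorem wcy_pkg {ζ : Kbar} (hζ : IsPrimitiveRoot ζ p)
    {x : JZero (M' * p)} {ux : modularFunctionFieldBar (M' * p)}
    (hx : gdfIsKummer (K := Kbar) p x ux)
    (hst : ∀ σ ∈ A.inertiaSubgroupIn ℚ, ∀ z ∈ EY,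
      coeffMap ((σ : Kbar ≃ₐ[ℚ] Kbar) : Kbar →+* Kbar) z ∈ EY)
    {rt : Kbar} (hrt0 : rt ≠ 0) (hrtp : ∀ τ ∈ A.inertiaSubgroupIn ℚ, τ (rt ^ p) = rt ^ p)
    (hSt : ∀ τ ∈ A.inertiaSubgroupIn ℚ, τ rt = rt → τ • x = x)
    (σ₁ : Kbar ≃ₐ[ℚ] Kbar) (hσ₁ : σ₁ ∈ A.inertiaSubgroupIn ℚ) (hσζ : σ₁ ζ = ζ)
    (hσrt : σ₁ rt ≠ rt)
    (a b : Kbar) (ha0 : a ≠ 0) (haH : ∀ τ ∈ A.inertiaSubgroupIn ℚ, τ a = a)
    (hbH : ∀ τ ∈ A.inertiaSubgroupIn ℚ, τ b = b)
    (u h : ↥EY) {c : Kbar} (hc : c ≠ 0) (hh : h ≠ 0)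
    (hrel : (u : LaurentSeries Kbar) =
      algebraMap Kbar (LaurentSeries Kbar) c * (ux : LaurentSeries Kbar) *
        (h : LaurentSeries Kbar) ^ p)
    (hu : ∀ τ ∈ A.inertiaSubgroupIn ℚ,
      coeffMap ((τ : Kbar ≃ₐ[ℚ] Kbar) : Kbar →+* Kbar) (u : LaurentSeries Kbar) =
        (u : LaurentSeries Kbar))
    (π1 : ↥EY) (hπ1 : π1 = algebraMap Kbar ↥EY (a * rt + b)) :
    ∃ (u1 : FF (M' * p)) (ae au ah : Fin p → ↥EY),
      gdfIsKummer (K := Kbar) p x u1 ∧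
      (∀ i, ae i = 0 ∨ ∃ m : ℤ, ∃ b' ∈ g2wUK (wcyJE A M' p hp hpM hA R hR EY hle s)
          (wcfIsC (nodeSetupNj A M' p hp hpM hA R hR)),
        ae i = (p : ↥EY) ^ m * b') ∧
      (∀ i, ∃ n d : (nodeSetupNj A M' p hp hpM hA R hR).B,
        wcyJE A M' p hp hpM hA R hR EY hle s d ≠ 0 ∧
          au i * wcyJE A M' p hp hpM hA R hR EY hle s d =
            wcyJE A M' p hp hpM hA R hR EY hle s n) ∧
      (∀ i, ∃ g₀ : ↥(wpbE0 A EY hst), ah i = algebraMap ↥(wpbE0 A EY hst) ↥EY g₀) ∧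
      (∀ u₀ : ↥(wpbE0 A EY hst), (u₀ : ↥EY) = u →
        algebraMap ↥(wpbE0 A EY hst) ↥EY u₀ =
          (∑ i, ae i * π1 ^ (i : ℕ)) * (∑ i, au i * π1 ^ (i : ℕ)) *
            (∑ i, ah i * π1 ^ (i : ℕ)) ^ p) ∧
      IntermediateField.inclusion hle u1 = ∑ i, au i * π1 ^ (i : ℕ) := by
  obtain ⟨u1, ae, au, ah, hk, hae, hau, hah, hrel', hu1⟩ :=
    wci_pkg A M' p hp hpM hA R hR hζ hx EY hle hst hrt0 hrtp hSt σ₁ hσ₁ hσζ hσrt a b ha0 haH
      hbH u h hc hh hrel hu (IntermediateField.inclusion hle) (fun f => rfl)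
      (wcyJE A M' p hp hpM hA R hR EY hle s) (wcy_hφj A M' p hp hpM hA R hR EY hle s) π1 hπ1
  refine ⟨u1, ae, au, ah, hk, hae, hau, hah, ?_, hu1⟩
  intro u₀ hu₀
  rw [← hrel', ← hu₀]
  rfl

end Ctx

end Fermat.Agent.S40lib

end
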