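import Mathlib
import Fermat.Agent.S36lib.Speed
import Fermat.Agent.S40lib.EisCmp


/-!
# Item 88 (S44), block (W), piece (F) (helper28): the reduction side of the per-point theorem

The hypotheses `(F)` of `g2w_point_node` / `g2w_point_smooth` (helper24, `WindcPoint.lean`) at
`F = FF (M p)`, `K = Kbar`, `OF = R.O` (resp. `(glmZero R).O`), `redF = R.red`,
`B = (nodeSetupNj …).B`, `r₁ = redInf` (resp. `redZero`), `wQ = Q.ord`:

* `wrf_hOFinv`   : an element of `O` with non-zero reduction has its inverse in `O`;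
* `wrf_hconst`   : the reduction of a constant has order `0` at every place `Q`;
* `wrf_const_mem`, `wrf_const_red_zero`, `wrf_const_inv_mem` : constants of `A`, of the maximal
                   ideal of `A`, units of `A`;
* `wrfJB`        : `jB : B → FF (M p)`, with `wrf_hjO_inf`, `wrf_hjred_inf`
                   (`R.red (jB b) = redInf b`), `wrf_hjO_zero`, `wrf_hjred_zero`
                   (`(glmZero R).red (jB b) = redZero b`);
* `wrf_hwQ`      : `Q.ord` is additive on non-zero elements.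
All proofs complete.
-/

set_option autoImplicit false
set_option linter.style.haveILetI false
set_option linter.unusedSectionVars false
set_option linter.unusedVariables false
set_option synthInstance.maxHeartbeats 400000
set_option maxHeartbeats 1000000

noncomputable section

namespace Fermat.Agent.S40lib

open Fermat.Agent.FFlib Fermat.Agent.S24lib Fermat.Agent.GM Fermat.Agent.GoodRed
  Fermat.Agent.S34lib Fermat.Agent.RRlib Fermat.Agent.S16lib Fermat.Agent.S36lib
open AlgebraicCurve IsLocalRing IntermediateField IsDedekindDomain ModularCurve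

section Abs

variable {K : Type*} [Field K] {k : Type*} [Field k]
  {A : ValuationSubring K} {π : A →+* k} {Fk : Type*} [Field Fk] [Algebra k Fk]
  {F : Type*} [Field F] [Algebra K F]

/-- `hOFinv` of `g2w_point_*`: non-zero reduction ⇒ unit of `O`. -/
theorem wrf_hOFinv (R : ConstRed A π Fk F) :
    ∀ z : R.O, R.red z ≠ 0 → ((z : F))⁻¹ ∈ R.O :=
  fun z hz => (eisUnit_of_red_ne_zero z hz).2.2

/-- `hconst` of `g2w_point_*`: the reduction of a constant has order `0` everywhere. -/
theorem wrf_hconst (R : ConstRed A π Fk F) (Q : Place k Fk) :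
    ∀ (c : K) (h : algebraMap K F c ∈ R.O), R.red ⟨algebraMap K F c, h⟩ ≠ 0 →
      Q.ord (R.red ⟨algebraMap K F c, h⟩) = 0 := by
  intro c h _
  have hc : c ∈ A := (R.algebraMap_mem_iff c).mp h
  have e : R.red ⟨algebraMap K F c, h⟩ = algebraMap k Fk (π ⟨c, hc⟩) :=
    R.red_algebraMap ⟨c, hc⟩
  rw [e]
  exact uk_ord_const Q _

/-- constants of `A` are in `O` -/
theorem wrf_const_mem (R : ConstRed A π Fk F) {c : K} (hc : c ∈ A) : algebraMap K F c ∈ R.O :=
  R.algebraMap_mem ⟨c, hc⟩

/-- the inverse of a unit of `A` is in `O` -/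
theorem wrf_const_inv_mem (R : ConstRed A π Fk F) {c : K} (hc : c⁻¹ ∈ A) :
    algebraMap K F c⁻¹ ∈ R.O :=
  R.algebraMap_mem ⟨c⁻¹, hc⟩

/-- constants killed by the residue map reduce to `0` -/
theorem wrf_const_red_zero (R : ConstRed A π Fk F) {c : K} (hc : c ∈ A) (h0 : π ⟨c, hc⟩ = 0)
    (h : algebraMap K F c ∈ R.O) : R.red ⟨algebraMap K F c, h⟩ = 0 := by
  have e : R.red ⟨algebraMap K F c, h⟩ = algebraMap k Fk (π ⟨c, hc⟩) :=
    R.red_algebraMap ⟨c, hc⟩
  rw [e, h0, map_zero]

/-- `Q.ord` is additive on non-zero elements (`hwQ` of `g2w_point_*`) -/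
theorem wrf_hwQ (Q : Place k Fk) :
    ∀ a b : Fk, a ≠ 0 → b ≠ 0 → Q.ord (a * b) = Q.ord a + Q.ord b :=
  fun a b ha hb => Q.ord_mul ha hb

end Abs

section Conc

variable (A : ValuationSubring Kbar) (M' q : ℕ) [NeZero M'] [NeZero q] (hq : q.Prime)
  (hqM : ¬ q ∣ M') (hA : A.LiesOverPrime q)
  (R : ConstRed A (IsLocalRing.residue A)
      (↥(modularFunctionFieldFullC (IsLocalRing.ResidueField A) M')) (FF (M' * q)))
  (hR : IsSeriesRed R)

/-- `jB : B → FF (M' q)`, the inclusion of the affine ring `B_j` -/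
def wrfJB : (nodeSetupNj A M' q hq hqM hA R hR).B →+* FF (M' * q) :=
  (algebraMap (f0Field A (M' * q)) (FF (M' * q))).comp
    (nodeSetupNj A M' q hq hqM hA R hR).B.subtype

theorem wrfJB_apply (b : (nodeSetupNj A M' q hq hqM hA R hR).B) :
    wrfJB A M' q hq hqM hA R hR b = ((b : f0Field A (M' * q)) : FF (M' * q)) := rfl

theorem wrfJB_injective : Function.Injective (wrfJB A M' q hq hqM hA R hR) := by
  intro a b h
  rw [wrfJB_apply, wrfJB_apply] at h
  exact Subtype.ext (Subtype.ext h)

/-- `hjO`, component `∞` -/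
theorem wrf_hjO_inf (b : (nodeSetupNj A M' q hq hqM hA R hR).B) :
    wrfJB A M' q hq hqM hA R hR b ∈ R.O :=
  (nodeSetupNj A M' q hq hqM hA R hR).B_le_inf b.2

/-- `hjred`, component `∞` -/
theorem wrf_hjred_inf (b : (nodeSetupNj A M' q hq hqM hA R hR).B) :
    R.red ⟨wrfJB A M' q hq hqM hA R hR b, wrf_hjO_inf A M' q hq hqM hA R hR b⟩ =
      (nodeSetupNj A M' q hq hqM hA R hR).redInf b := rfl

/-- `hjO`, component `0` -/
theorem wrf_hjO_zero [NeZero (M' * q)] (b : (nodeSetupNj A M' q hq hqM hA R hR).B) :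
    wrfJB A M' q hq hqM hA R hR b ∈ (glmZero M' q hq hqM R).O :=
  (nodeSetupNj A M' q hq hqM hA R hR).B_le_zero b.2

/-- `hjred`, component `0` -/
theorem wrf_hjred_zero [NeZero (M' * q)] (b : (nodeSetupNj A M' q hq hqM hA R hR).B) :
    (glmZero M' q hq hqM R).red
        ⟨wrfJB A M' q hq hqM hA R hR b, wrf_hjO_zero A M' q hq hqM hA R hR b⟩ =
      (nodeSetupNj A M' q hq hqM hA R hR).redZero b := rfl

/-- membership in `vInf.O` of the node setup is membership in `R.O` -/
theorem wrf_mem_vInf (u : f0Field A (M' * q)) :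
    u ∈ (nodeSetupNj A M' q hq hqM hA R hR).vInf.O ↔ (u : FF (M' * q)) ∈ R.O := Iff.rfl

/-- membership in `vZero.O` of the node setup is membership in `(glmZero R).O` -/
theorem wrf_mem_vZero [NeZero (M' * q)] (u : f0Field A (M' * q)) :
    u ∈ (nodeSetupNj A M' q hq hqM hA R hR).vZero.O ↔
      (u : FF (M' * q)) ∈ (glmZero M' q hq hqM R).O := Iff.rfl

/-- `vInf.red` of the node setup is `R.red` -/
theorem wrf_vInf_red (u : f0Field A (M' * q))
    (hu : u ∈ (nodeSetupNj A M' q hq hqM hA R hR).vInf.O) :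
    (nodeSetupNj A M' q hq hqM hA R hR).vInf.red ⟨u, hu⟩ = R.red ⟨(u : FF (M' * q)), hu⟩ := rfl

/-- `vZero.red` of the node setup is `(glmZero R).red` -/
theorem wrf_vZero_red [NeZero (M' * q)] (u : f0Field A (M' * q))
    (hu : u ∈ (nodeSetupNj A M' q hq hqM hA R hR).vZero.O) :
    (nodeSetupNj A M' q hq hqM hA R hR).vZero.red ⟨u, hu⟩ =
      (glmZero M' q hq hqM R).red ⟨(u : FF (M' * q)), hu⟩ := rfl

end Conc

end Fermat.Agent.S40lib

end
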