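import Mathlib
import Fermat.Agent.S36lib.Speed
import Fermat.Agent.S40lib.WindcPoint
import Fermat.Agent.S40lib.WindcRedF

/-!
# Item 88 (S44), block (W): the per-point theorems with the reduction side `(F)` PRE-WIRED

(helper24.)  `g2w_point_node` / `g2w_point_smooth` (`WindcPoint.lean`) for a constant reduction
`Rc : ConstRed A π Fk F` (`Rc := R` on the component `∞`, `Rc := glmZero … R` on the component
`0`): `OF := Rc.O`, `redF := Rc.red`, `wQ := Q.ord`; `hwQ`, `hOFinv`, `hconst` and the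
memberships of the constants are proved from `wrf_*` (helper28); the unit `c · u_x` is given as
`EisUnit Rc (C c * ux)`.

* `wpw_node`   : `(p : ℤ) ∣ Q.ord (Rc.red ⟨C c * ux, _⟩) - (vZero u - vInf u)`;
* `wpw_smooth` : `(p : ℤ) ∣ Q.ord (Rc.red ⟨C c * ux, _⟩)`.
-/

set_option autoImplicit false
set_option linter.unusedVariables false
set_option linter.unusedSectionVars false
set_option linter.style.haveILetI false

noncomputable section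

namespace Fermat.Agent.S40lib

open Fermat.Agent.S36lib Fermat.Agent.GoodRed AlgebraicCurve IsLocalRing

section Pre

variable {K : Type*} [Field K] {k : Type*} [Field k]
  {A : ValuationSubring K} {π : A →+* k} {Fk : Type*} [Field Fk] [Algebra k Fk]
  {F : Type*} [Field F] [Algebra K F]
  {B : Type*} [CommRing B] [IsNoetherianRing B] (s : Ideal B) [hs : s.IsPrime]
  {L : Type*} [CommRing L] [IsDomain L] [UniqueFactorizationMonoid L]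
  {κ₂ : Type*} [Field κ₂]
  {E0 : Type*} [Field E0] [Algebra L E0] [IsFractionRing L E0]
  {E : Type*} [Field E] [Algebra L E] [Algebra E0 E] [IsScalarTower L E0 E]

set_option maxHeartbeats 1600000 in
/-- **the per-point theorem at a node, reduction side pre-wired.** -/
theorem wpw_node (Rc : ConstRed A π Fk F) (Q : Place k Fk)
    -- the `X`-side package
    (r₁ : B →+* Fk) (h₁ : RingHom.ker r₁ ≤ s)
    (x εx y : B) (hx : x ∈ RingHom.ker r₁) (hxg : ∀ z ∈ RingHom.ker r₁, x ∣ εx * z)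
    (hεx : εx ∉ s)
    (hm : maximalIdeal (Localization.AtPrime s) =
      Ideal.span {algebraMap B (Localization.AtPrime s) x,
        algebraMap B (Localization.AtPrime s) y})
    (hord0 : ∀ c : B, r₁ c ≠ 0 → 0 ≤ Q.ord (r₁ c))
    (hws : ∀ c : B, c ∉ s → Q.ord (r₁ c) = 0)
    (hy0 : r₁ y ≠ 0) (hwy : Q.ord (r₁ y) = 1)
    -- the cover package
    (f : Localization.AtPrime s →+* L) (hinj : Function.Injective (algebraMap L E))
    (yL : L) (hxL : Prime (f (algebraMap B (Localization.AtPrime s) x))) (hyL : Prime yL)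
    (hxyL : ¬ Associated (f (algebraMap B (Localization.AtPrime s) x)) yL)
    (ϖ : L) (ε : Lˣ) (hϖ : ϖ = ε * f (algebraMap B (Localization.AtPrime s) x) * yL)
    (red₂ : L →+* κ₂)
    (hred₂ : ∀ c, red₂ c = 0 ↔ f (algebraMap B (Localization.AtPrime s) x) ∣ c)
    (w₂ : κ₂ → ℤ) (hw₂ : ∀ a b : κ₂, a ≠ 0 → b ≠ 0 → w₂ (a * b) = w₂ a + w₂ b)
    (hw0₂ : ∀ c : L, red₂ c ≠ 0 → 0 ≤ w₂ (red₂ c))
    (hwy₂ : w₂ (red₂ (f (algebraMap B (Localization.AtPrime s) y))) = 1)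
    (hxy₂ : ¬ f (algebraMap B (Localization.AtPrime s) x) ∣
      f (algebraMap B (Localization.AtPrime s) y))
    (hwyL : w₂ (red₂ yL) = 1)
    (p : ℕ) (hp : 0 < p) (σ : E0 →+* E0) (u g κ' : E0) (hu : u ≠ 0) (hg : g ≠ 0)
    (hκ0 : κ' ≠ 0) (hσκ : σ κ' = κ') (hσu : σ u = κ' * g ^ p * u)
    (hval : ∀ π : L, Prime π →
      ¬ Associated π (f (algebraMap B (Localization.AtPrime s) x)) → ¬ Associated π yL →
      ∃ v : E0 → ℤ, (∀ a b : E0, a ≠ 0 → b ≠ 0 → v (a * b) = v a + v b) ∧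
        v (algebraMap L E0 π) = 1 ∧
        (∀ c : L, c ≠ 0 → ¬ π ∣ c → v (algebraMap L E0 c) = 0) ∧ (p : ℤ) ∣ v u)
    (vInf vZero : E0 → ℤ)
    (hvInf : ∀ a b : E0, a ≠ 0 → b ≠ 0 → vInf (a * b) = vInf a + vInf b)
    (hvZero : ∀ a b : E0, a ≠ 0 → b ≠ 0 → vZero (a * b) = vZero a + vZero b)
    (hκInf : (p : ℤ) ∣ vInf κ') (hκZero : (p : ℤ) ∣ vZero κ')
    (hcx : ∃ i : ℕ, ∀ z : E0, z ≠ 0 → s36_ordAt _ hxL z = vInf ((⇑σ)^[i] z))
    (hcy : ∃ i : ℕ, ∀ z : E0, z ≠ 0 → s36_ordAt yL hyL z = vZero ((⇑σ)^[i] z))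
    -- the Eisenstein data
    (π1 θ a mθ : E) (hϖθ : π1 ^ p = algebraMap L E ϖ * θ) (hθ0 : θ ≠ 0)
    (hθ : θ = a + π1 * mθ)
    (hπint : IsIntegral (pdPrimeLoc E _ hxL) π1) (hmint : IsIntegral (pdPrimeLoc E _ hxL) mθ)
    -- the constants
    (isC : B → Prop) (hCmul : ∀ n n', isC n → isC n' → isC (n * n'))
    (hC : ∀ n, isC n → r₁ n ≠ 0 ∧ Q.ord (r₁ n) = 0)
    (haK : a ∈ g2wUK (g2wIota (E := E) s f) isC)
    -- the coordinates
    (ae au ah : Fin p → E)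
    (hae : ∀ i, ae i = 0 ∨ ∃ m : ℤ, ∃ b ∈ g2wUK (g2wIota (E := E) s f) isC,
      ae i = algebraMap L E ϖ ^ m * b)
    (hau : ∀ i, au i = 0 ∨ ∃ m : ℤ, ∃ b ∈ g2wUF (g2wIota (E := E) s f) r₁,
      au i = algebraMap L E ϖ ^ m * b)
    (hah : ∀ i, ah i = 0 ∨ ∃ m : ℤ,
      ∃ b ∈ {b : E | b ∈ pdPrimeLoc E _ hxL ∧ b⁻¹ ∈ pdPrimeLoc E _ hxL ∧ b ≠ 0},
        ah i = algebraMap L E ϖ ^ m * b)
    (hrel : algebraMap E0 E u = (∑ i, ae i * π1 ^ (i : ℕ)) * (∑ i, au i * π1 ^ (i : ℕ)) *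
      (∑ i, ah i * π1 ^ (i : ℕ)) ^ p)
    -- the reduction of the function field of `X`
    (φ : F →+* E) (jB : B →+* F) (hφj : ∀ b, φ (jB b) = g2wIota (E := E) s f b)
    (hjO : ∀ b, jB b ∈ Rc.O) (hjred : ∀ b, Rc.red ⟨jB b, hjO b⟩ = r₁ b)
    (π1K θK mθK : K) (hπ1A : π1K ∈ A) (hπ1m : π ⟨π1K, hπ1A⟩ = 0)
    (hπ1φ : φ (algebraMap K F π1K) = π1)
    (hθA : θK ∈ A) (hθφ : φ (algebraMap K F θK) = θ) (hθA' : θK⁻¹ ∈ A)
    (hmA : mθK ∈ A) (hmφ : φ (algebraMap K F mθK) = mθ)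
    (ux : F) (hux : φ ux = ∑ i, au i * π1 ^ (i : ℕ))
    (c : K) (h : EisUnit Rc (algebraMap K F c * ux)) :
    (p : ℤ) ∣ Q.ord (Rc.red ⟨algebraMap K F c * ux, h.2.1⟩) - (vZero u - vInf u) :=
  g2w_point_node (K := K) (F := F) s r₁ h₁ x εx y hx hxg hεx hm Q.ord (wrf_hwQ Q) hord0 hws
    hy0 hwy f hinj yL hxL hyL hxyL ϖ ε hϖ red₂ hred₂ w₂ hw₂ hw0₂ hwy₂ hxy₂ hwyL p hp σ u g κ'
    hu hg hκ0 hσκ hσu hval vInf vZero hvInf hvZero hκInf hκZero hcx hcy π1 θ a mθ hϖθ hθ0 hθ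
    hπint hmint isC hCmul hC haK ae au ah hae hau hah hrel φ jB hφj Rc.O Rc.red hjO hjred
    (wrf_hOFinv Rc) (wrf_hconst Rc Q) π1K θK mθK (wrf_const_mem Rc hπ1A)
    (wrf_const_red_zero Rc hπ1A hπ1m _) hπ1φ (wrf_const_mem Rc hθA) hθφ
    (wrf_const_inv_mem Rc hθA') (wrf_const_mem Rc hmA) hmφ ux hux c h.2.1 h.red_ne_zero

set_option maxHeartbeats 1600000 in
/-- **the per-point theorem at a smooth point, reduction side pre-wired.** -/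
theorem wpw_smooth (Rc : ConstRed A π Fk F) (Q : Place k Fk)
    -- the `X`-side package
    (r₁ : B →+* Fk) (h₁ : RingHom.ker r₁ ≤ s)
    (x εx y : B) (hx : x ∈ RingHom.ker r₁) (hxg : ∀ z ∈ RingHom.ker r₁, x ∣ εx * z)
    (hεx : εx ∉ s)
    (hm : maximalIdeal (Localization.AtPrime s) =
      Ideal.span {algebraMap B (Localization.AtPrime s) x,
        algebraMap B (Localization.AtPrime s) y})
    (hord0 : ∀ c : B, r₁ c ≠ 0 → 0 ≤ Q.ord (r₁ c))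
    (hws : ∀ c : B, c ∉ s → Q.ord (r₁ c) = 0)
    (hy0 : r₁ y ≠ 0) (hwy : Q.ord (r₁ y) = 1)
    -- the cover package
    (f : Localization.AtPrime s →+* L) (hinj : Function.Injective (algebraMap L E))
    (hxL : Prime (f (algebraMap B (Localization.AtPrime s) x)))
    (ϖ : L) (ε : Lˣ) (hϖ : ϖ = ε * f (algebraMap B (Localization.AtPrime s) x))
    (red₂ : L →+* κ₂)
    (hred₂ : ∀ c, red₂ c = 0 ↔ f (algebraMap B (Localization.AtPrime s) x) ∣ c)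
    (w₂ : κ₂ → ℤ) (hw₂ : ∀ a b : κ₂, a ≠ 0 → b ≠ 0 → w₂ (a * b) = w₂ a + w₂ b)
    (hw0₂ : ∀ c : L, red₂ c ≠ 0 → 0 ≤ w₂ (red₂ c))
    (hwy₂ : w₂ (red₂ (f (algebraMap B (Localization.AtPrime s) y))) = 1)
    (hxy₂ : ¬ f (algebraMap B (Localization.AtPrime s) x) ∣
      f (algebraMap B (Localization.AtPrime s) y))
    (p : ℕ) (hp : 0 < p) (u : E0) (hu : u ≠ 0)
    (hval : ∀ π : L, Prime π →
      ¬ Associated π (f (algebraMap B (Localization.AtPrime s) x)) →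
      ∃ v : E0 → ℤ, (∀ a b : E0, a ≠ 0 → b ≠ 0 → v (a * b) = v a + v b) ∧
        v (algebraMap L E0 π) = 1 ∧
        (∀ c : L, c ≠ 0 → ¬ π ∣ c → v (algebraMap L E0 c) = 0) ∧ (p : ℤ) ∣ v u)
    -- the Eisenstein data
    (π1 θ a mθ : E) (hϖθ : π1 ^ p = algebraMap L E ϖ * θ) (hθ0 : θ ≠ 0)
    (hθ : θ = a + π1 * mθ)
    (hπint : IsIntegral (pdPrimeLoc E _ hxL) π1) (hmint : IsIntegral (pdPrimeLoc E _ hxL) mθ)
    -- the constants
    (isC : B → Prop) (hCmul : ∀ n n', isC n → isC n' → isC (n * n'))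
    (hC : ∀ n, isC n → r₁ n ≠ 0 ∧ Q.ord (r₁ n) = 0)
    (haK : a ∈ g2wUK (g2wIota (E := E) s f) isC)
    -- the coordinates
    (ae au ah : Fin p → E)
    (hae : ∀ i, ae i = 0 ∨ ∃ m : ℤ, ∃ b ∈ g2wUK (g2wIota (E := E) s f) isC,
      ae i = algebraMap L E ϖ ^ m * b)
    (hau : ∀ i, au i = 0 ∨ ∃ m : ℤ, ∃ b ∈ g2wUF (g2wIota (E := E) s f) r₁,
      au i = algebraMap L E ϖ ^ m * b)
    (hah : ∀ i, ah i = 0 ∨ ∃ m : ℤ,
      ∃ b ∈ {b : E | b ∈ pdPrimeLoc E _ hxL ∧ b⁻¹ ∈ pdPrimeLoc E _ hxL ∧ b ≠ 0},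
        ah i = algebraMap L E ϖ ^ m * b)
    (hrel : algebraMap E0 E u = (∑ i, ae i * π1 ^ (i : ℕ)) * (∑ i, au i * π1 ^ (i : ℕ)) *
      (∑ i, ah i * π1 ^ (i : ℕ)) ^ p)
    -- the reduction of the function field of `X`
    (φ : F →+* E) (jB : B →+* F) (hφj : ∀ b, φ (jB b) = g2wIota (E := E) s f b)
    (hjO : ∀ b, jB b ∈ Rc.O) (hjred : ∀ b, Rc.red ⟨jB b, hjO b⟩ = r₁ b)
    (π1K θK mθK : K) (hπ1A : π1K ∈ A) (hπ1m : π ⟨π1K, hπ1A⟩ = 0)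
    (hπ1φ : φ (algebraMap K F π1K) = π1)
    (hθA : θK ∈ A) (hθφ : φ (algebraMap K F θK) = θ) (hθA' : θK⁻¹ ∈ A)
    (hmA : mθK ∈ A) (hmφ : φ (algebraMap K F mθK) = mθ)
    (ux : F) (hux : φ ux = ∑ i, au i * π1 ^ (i : ℕ))
    (c : K) (h : EisUnit Rc (algebraMap K F c * ux)) :
    (p : ℤ) ∣ Q.ord (Rc.red ⟨algebraMap K F c * ux, h.2.1⟩) :=
  g2w_point_smooth (K := K) (F := F) s r₁ h₁ x εx y hx hxg hεx hm Q.ord (wrf_hwQ Q) hord0 hws
    hy0 hwy f hinj hxL ϖ ε hϖ red₂ hred₂ w₂ hw₂ hw0₂ hwy₂ hxy₂ p hp u hu hval π1 θ a mθ hϖθ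
    hθ0 hθ hπint hmint isC hCmul hC haK ae au ah hae hau hah hrel φ jB hφj Rc.O Rc.red hjO
    hjred (wrf_hOFinv Rc) (wrf_hconst Rc Q) π1K θK mθK (wrf_const_mem Rc hπ1A)
    (wrf_const_red_zero Rc hπ1A hπ1m _) hπ1φ (wrf_const_mem Rc hθA) hθφ
    (wrf_const_inv_mem Rc hθA') (wrf_const_mem Rc hmA) hmφ ux hux c h.2.1 h.red_ne_zero

end Pre

end Fermat.Agent.S40lib
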