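import Mathlib
import Fermat.Agent.S36lib.Speed
import Fermat.Agent.S40lib.WindcPre
import Fermat.Agent.S40lib.WindcK

/-!
# Item 88 (S44), block (W): the per-point theorems with `(F)`, `(K)`, `(E)`, `(Co-e)` PRE-WIRED

(helper13.)  `wpw_node` / `wpw_smooth` (helper24, `WindcPre.lean`) for ANY node setup
`S : NodeSetup (k0Val A) (k0Res A) Fk (f0Field A N)` (so for `nodeSetupNj …`), ANY constant
reduction `Rc` (`R` on the component `∞`, `glmZero … R` on the component `0`) and ANY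
`r₁ : S.B →+* Fk` with `r₁ (S.constB a0) = algebraMap _ _ (k0Res A a0)` (`S.redInf`: `S.redInf_constB`,
`S.redZero`: `S.redZero_constB`), `jB := wp2J A N S` (`= wcfJ …` by `rfl`, `wp2J_eq_wcfJ`):

* the constants `isC := wcfIsC S`, `hCmul`, `hC` are filled (`wp2_hC`);
* the Eisenstein data are the constants `a, π1, θ, mθ : Kbar` of `wkp_eis_pack` (helper29):
  `π1E := φ (C π1)` …; `hϖθ`, `hθ0`, `hθ`, `hπint`, `hmint`, `haK`, `hπ1A`, … are filled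
  (`wp2_hint`, `wp2_haK`); extra input `hηfix`: `(π1 + 1) ^ p` is fixed by the inertia group
  (`wp2_hηfix`: true for `π1 = rt / (p ^ n ε0) - 1`, `rt ^ p = κ`);
* the coordinates `ae i := φ (C (ke i))`, `ke i` fixed by the inertia group (`wca_coords_fin`):
  `hae` is filled (`wp2_hae`).

* `wp2_node`   : `(p : ℤ) ∣ Q.ord (Rc.red ⟨C c * ux, _⟩) - (vZero u - vInf u)`;
* `wp2_smooth` : `(p : ℤ) ∣ Q.ord (Rc.red ⟨C c * ux, _⟩)`.
Complete proofs.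
-/

set_option autoImplicit false
set_option linter.unusedVariables false
set_option linter.unusedSectionVars false
set_option linter.style.haveILetI false

noncomputable section

namespace Fermat.Agent.S40lib

open Fermat.Agent.FFlib Fermat.Agent.S24lib Fermat.Agent.GM Fermat.Agent.GoodRed
  Fermat.Agent.S36lib Fermat.Agent.S34lib
open AlgebraicCurve IsLocalRing IntermediateField ModularCurve

section Pre2

variable (A : ValuationSubring Kbar) (N : ℕ) [NeZero N]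
  {Fk : Type*} [Field Fk] [Algebra (IsLocalRing.ResidueField A) Fk]
  (S : NodeSetup (k0Val A) (k0Res A) Fk (f0Field A N))

/-- `jB`: the inclusion of the affine ring `S.B` into `FF N` -/
def wp2J : S.B →+* FF N :=
  (algebraMap (f0Field A N) (FF N)).comp S.B.subtype

theorem wp2J_apply (b : S.B) : wp2J A N S b = ((b : f0Field A N) : FF N) := rfl

/-- the constants of `K0` inside `E` -/
def wp2C {E : Type*} [Field E] (φ : FF N →+* E) : k0Field A →+* E :=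
  φ.comp ((algebraMap Kbar (FF N)).comp (algebraMap (k0Field A) Kbar))

theorem wp2C_apply {E : Type*} [Field E] (φ : FF N →+* E) (c : k0Field A) :
    wp2C A N φ c = φ (algebraMap Kbar (FF N) (c : Kbar)) := rfl

variable {E : Type*} [Field E]

theorem wp2_hcompat (φ : FF N →+* E) (ιB : S.B →+* E)
    (hφj : ∀ b, φ (wp2J A N S b) = ιB b) (a0 : k0Val A) :
    ιB (S.constB a0) = wp2C A N φ (a0 : k0Field A) := by
  rw [← hφj]
  rfl

/-- the image of a constant of `A0` -/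
theorem wp2_const_eq (φ : FF N →+* E) (ιB : S.B →+* E)
    (hφj : ∀ b, φ (wp2J A N S b) = ιB b)
    (c : Kbar) (hfix : ∀ σ ∈ A.inertiaSubgroupIn ℚ, σ c = c) (hcA : c ∈ A) :
    φ (algebraMap Kbar (FF N) c)
      = ιB (S.constB ⟨⟨c, (mem_k0Field_iff A c).mpr hfix⟩, (mem_k0Val_iff A _).mpr hcA⟩) := by
  rw [wp2_hcompat A N S φ ιB hφj]
  rfl

/-- **`haK`** -/
theorem wp2_haK (φ : FF N →+* E) (ιB : S.B →+* E)
    (hφj : ∀ b, φ (wp2J A N S b) = ιB b)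
    (a : Kbar) (hfix : ∀ σ ∈ A.inertiaSubgroupIn ℚ, σ a = a)
    (haA : a ∈ A) (haiA : a⁻¹ ∈ A) (ha0 : a ≠ 0) :
    φ (algebraMap Kbar (FF N) a) ∈ g2wUK ιB (wcfIsC S) := by
  have hmem : a ∈ k0Field A := (mem_k0Field_iff A a).mpr hfix
  have hinv : ((⟨a, hmem⟩ : k0Field A)⁻¹ : k0Field A) ∈ k0Val A := by
    rw [mem_k0Val_iff]
    have h1 : (((⟨a, hmem⟩ : k0Field A)⁻¹ : k0Field A) : Kbar) = a⁻¹ := by
      push_cast
      rfl
    rw [h1]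
    exact haiA
  exact wck_unit_mem S ιB (wp2C A N φ) (wp2_hcompat A N S φ ιB hφj) ⟨a, hmem⟩
    ((mem_k0Val_iff A _).mpr haA) hinv (fun h => ha0 (congrArg Subtype.val h))

/-- **`hae`** -/
theorem wp2_hae {p : ℕ} (hp : p.Prime) (hA : A.LiesOverPrime p)
    (φ : FF N →+* E) (ιB : S.B →+* E)
    (hφj : ∀ b, φ (wp2J A N S b) = ιB b)
    (ϖE : E) (hϖE : ϖE = φ (algebraMap Kbar (FF N) (p : Kbar)))
    {ι : Type*} (ke : ι → Kbar) (hke : ∀ i, ∀ τ ∈ A.inertiaSubgroupIn ℚ, τ (ke i) = ke i) :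
    ∀ i, φ (algebraMap Kbar (FF N) (ke i)) = 0 ∨
      ∃ m : ℤ, ∃ b ∈ g2wUK ιB (wcfIsC S),
        φ (algebraMap Kbar (FF N) (ke i)) = ϖE ^ m * b := by
  intro i
  have hmem : ke i ∈ k0Field A := (mem_k0Field_iff A _).mpr (hke i)
  have h := wck_coord S ιB (wp2C A N φ) (wp2_hcompat A N S φ ιB hφj) (p : k0Field A)
    (fun x hx => wck_k0_unif A hp hA x hx) ⟨ke i, hmem⟩
  have hq' : wp2C A N φ (p : k0Field A) = φ (algebraMap Kbar (FF N) (p : Kbar)) := by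
    rw [map_natCast, map_natCast, map_natCast]
  rw [hq', ← hϖE] at h
  exact h

/-- **`hC`** -/
theorem wp2_hC (Q : Place (IsLocalRing.ResidueField A) Fk) (r₁ : S.B →+* Fk)
    (hr₁c : ∀ a0 : k0Val A,
      r₁ (S.constB a0) = algebraMap (IsLocalRing.ResidueField A) Fk (k0Res A a0))
    (n : S.B) (hn : wcfIsC S n) : r₁ n ≠ 0 ∧ Q.ord (r₁ n) = 0 := by
  obtain ⟨c, d, hcd, rfl⟩ := hn
  have hπ := wcf_pi_ne_zero (π := k0Res A) hcd
  rw [hr₁c]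
  exact ⟨(map_ne_zero _).mpr hπ, wir_ord_algebraMap Q hπ⟩

/-- `(π1 + 1) ^ p` is fixed by the inertia group, for the `π1` of `wkp_eis_pack` -/
theorem wp2_hηfix (p : ℕ) (κ rt ε0 π1 : Kbar) (n : ℤ) (hrt : rt ^ p = κ)
    (hκ : ∀ τ ∈ A.inertiaSubgroupIn ℚ, τ κ = κ)
    (hε0 : ∀ τ ∈ A.inertiaSubgroupIn ℚ, τ ε0 = ε0)
    (hπ1 : π1 = rt / ((p : Kbar) ^ n * ε0) - 1) :
    ∀ τ ∈ A.inertiaSubgroupIn ℚ, τ ((π1 + 1) ^ p) = (π1 + 1) ^ p := by
  intro τ hτ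
  have h1 : (π1 + 1) ^ p = κ / ((p : Kbar) ^ n * ε0) ^ p := by
    rw [hπ1, sub_add_cancel, div_pow, hrt]
  rw [h1, map_div₀, map_pow, map_mul, map_zpow₀, map_natCast, hκ τ hτ, hε0 τ hτ]

end Pre2

section Int

variable (A : ValuationSubring Kbar) (N : ℕ) [NeZero N]
  {Fk : Type*} [Field Fk] [Algebra (IsLocalRing.ResidueField A) Fk]
  (S : NodeSetup (k0Val A) (k0Res A) Fk (f0Field A N))
  [IsNoetherianRing S.B] (s : Ideal S.B) [hs : s.IsPrime]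
  {L : Type*} [CommRing L] [IsDomain L]
  {E : Type*} [Field E] [Algebra L E]

/-- the constants of `A0` lie in the local ring of `L` at a prime -/
theorem wp2_const_memD (f : Localization.AtPrime s →+* L) (xL : L) (hxL : Prime xL)
    (φ : FF N →+* E) (hφj : ∀ b, φ (wp2J A N S b) = g2wIota (E := E) s f b)
    (c : Kbar) (hfix : ∀ σ ∈ A.inertiaSubgroupIn ℚ, σ c = c) (hcA : c ∈ A) :
    φ (algebraMap Kbar (FF N) c) ∈ pdPrimeLoc E xL hxL := by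
  rw [wp2_const_eq A N S φ (g2wIota (E := E) s f) hφj c hfix hcA, g2wIota_apply]
  generalize f (algebraMap S.B (Localization.AtPrime s) (S.constB _)) = z
  show ∃ a b : L, ¬ xL ∣ b ∧ algebraMap L E z * algebraMap L E b = algebraMap L E a
  exact ⟨z, 1, hxL.not_dvd_one, by rw [map_one, mul_one]⟩

/-- **`hπint`, `hmint`** -/
theorem wp2_hint (f : Localization.AtPrime s →+* L) (xL : L) (hxL : Prime xL)
    (φ : FF N →+* E) (hφj : ∀ b, φ (wp2J A N S b) = g2wIota (E := E) s f b)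
    (p : ℕ) (hp : 0 < p) (π1 mθ : Kbar) (hπ1A : π1 ∈ A)
    (hηfix : ∀ τ ∈ A.inertiaSubgroupIn ℚ, τ ((π1 + 1) ^ p) = (π1 + 1) ^ p)
    (hmθ : mθ ∈ Subring.closure ({π1} : Set Kbar)) :
    IsIntegral (pdPrimeLoc E xL hxL) (φ (algebraMap Kbar (FF N) π1)) ∧
      IsIntegral (pdPrimeLoc E xL hxL) (φ (algebraMap Kbar (FF N) mθ)) := by
  have hcA : (π1 + 1) ^ p ∈ A := A.pow_mem (A.add_mem _ _ hπ1A A.one_mem) p
  have hc := wp2_const_memD A N S s f xL hxL φ hφj ((π1 + 1) ^ p) hηfix hcA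
  have hηint : IsIntegral (pdPrimeLoc E xL hxL) (φ (algebraMap Kbar (FF N) (π1 + 1))) := by
    refine ⟨Polynomial.X ^ p - Polynomial.C
      (⟨φ (algebraMap Kbar (FF N) ((π1 + 1) ^ p)), hc⟩ : pdPrimeLoc E xL hxL),
      Polynomial.monic_X_pow_sub_C _ hp.ne', ?_⟩
    rw [Polynomial.eval₂_sub, Polynomial.eval₂_pow, Polynomial.eval₂_X, Polynomial.eval₂_C]
    show φ (algebraMap Kbar (FF N) (π1 + 1)) ^ p
      - φ (algebraMap Kbar (FF N) ((π1 + 1) ^ p)) = 0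
    rw [map_pow, map_pow]
    exact sub_self _
  have hπ : IsIntegral (pdPrimeLoc E xL hxL) (φ (algebraMap Kbar (FF N) π1)) := by
    have h1 : φ (algebraMap Kbar (FF N) π1) = φ (algebraMap Kbar (FF N) (π1 + 1)) - 1 := by
      rw [map_add, map_add, map_one, map_one, add_sub_cancel_right]
    rw [h1]
    exact hηint.sub isIntegral_one
  refine ⟨hπ, ?_⟩
  have hle : Subring.closure ({π1} : Set Kbar) ≤
      (integralClosure (pdPrimeLoc E xL hxL) E).toSubring.comap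
        (φ.comp (algebraMap Kbar (FF N))) := by
    refine Subring.closure_le.2 ?_
    intro z hz
    rw [Set.mem_singleton_iff] at hz
    rw [hz]
    exact hπ
  exact hle hmθ

end Int

section Main

variable (A : ValuationSubring Kbar) (N : ℕ) [NeZero N]
  {Fk : Type*} [Field Fk] [Algebra (IsLocalRing.ResidueField A) Fk]
  (S : NodeSetup (k0Val A) (k0Res A) Fk (f0Field A N))
  [IsNoetherianRing S.B] (s : Ideal S.B) [hs : s.IsPrime]
  {L : Type*} [CommRing L] [IsDomain L] [UniqueFactorizationMonoid L]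
  {κ₂ : Type*} [Field κ₂]
  {E0 : Type*} [Field E0] [Algebra L E0] [IsFractionRing L E0]
  {E : Type*} [Field E] [Algebra L E] [Algebra E0 E] [IsScalarTower L E0 E]

set_option maxHeartbeats 1600000 in
/-- **the per-point theorem at a node**, with `(F)`, `(K)`, `(E)`, `(Co-e)` pre-wired. -/
theorem wp2_node {p : ℕ} (hpr : p.Prime) (hA : A.LiesOverPrime p)
    (Rc : ConstRed A (IsLocalRing.residue A) Fk (FF N))
    (Q : Place (IsLocalRing.ResidueField A) Fk)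
    -- the `X`-side package
    (r₁ : S.B →+* Fk)
    (hr₁c : ∀ a0 : k0Val A,
      r₁ (S.constB a0) = algebraMap (IsLocalRing.ResidueField A) Fk (k0Res A a0))
    (h₁ : RingHom.ker r₁ ≤ s)
    (x εx y : S.B) (hx : x ∈ RingHom.ker r₁) (hxg : ∀ z ∈ RingHom.ker r₁, x ∣ εx * z)
    (hεx : εx ∉ s)
    (hm : maximalIdeal (Localization.AtPrime s) =
      Ideal.span {algebraMap S.B (Localization.AtPrime s) x,
        algebraMap S.B (Localization.AtPrime s) y})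
    (hord0 : ∀ c : S.B, r₁ c ≠ 0 → 0 ≤ Q.ord (r₁ c))
    (hws : ∀ c : S.B, c ∉ s → Q.ord (r₁ c) = 0)
    (hy0 : r₁ y ≠ 0) (hwy : Q.ord (r₁ y) = 1)
    -- the cover package
    (f : Localization.AtPrime s →+* L) (hinj : Function.Injective (algebraMap L E))
    (yL : L) (hxL : Prime (f (algebraMap S.B (Localization.AtPrime s) x))) (hyL : Prime yL)
    (hxyL : ¬ Associated (f (algebraMap S.B (Localization.AtPrime s) x)) yL)
    (ϖ : L) (ε : Lˣ) (hϖ : ϖ = ε * f (algebraMap S.B (Localization.AtPrime s) x) * yL)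
    (red₂ : L →+* κ₂)
    (hred₂ : ∀ c, red₂ c = 0 ↔ f (algebraMap S.B (Localization.AtPrime s) x) ∣ c)
    (w₂ : κ₂ → ℤ) (hw₂ : ∀ a b : κ₂, a ≠ 0 → b ≠ 0 → w₂ (a * b) = w₂ a + w₂ b)
    (hw0₂ : ∀ c : L, red₂ c ≠ 0 → 0 ≤ w₂ (red₂ c))
    (hwy₂ : w₂ (red₂ (f (algebraMap S.B (Localization.AtPrime s) y))) = 1)
    (hxy₂ : ¬ f (algebraMap S.B (Localization.AtPrime s) x) ∣
      f (algebraMap S.B (Localization.AtPrime s) y))
    (hwyL : w₂ (red₂ yL) = 1)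
    (σ : E0 →+* E0) (u g κ' : E0) (hu : u ≠ 0) (hg : g ≠ 0)
    (hκ0 : κ' ≠ 0) (hσκ : σ κ' = κ') (hσu : σ u = κ' * g ^ p * u)
    (hval : ∀ π : L, Prime π →
      ¬ Associated π (f (algebraMap S.B (Localization.AtPrime s) x)) → ¬ Associated π yL →
      ∃ v : E0 → ℤ, (∀ a b : E0, a ≠ 0 → b ≠ 0 → v (a * b) = v a + v b) ∧
        v (algebraMap L E0 π) = 1 ∧
        (∀ c : L, c ≠ 0 → ¬ π ∣ c → v (algebraMap L E0 c) = 0) ∧ (p : ℤ) ∣ v u)
    (vInf vZero : E0 → ℤ)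
    (hvInf : ∀ a b : E0, a ≠ 0 → b ≠ 0 → vInf (a * b) = vInf a + vInf b)
    (hvZero : ∀ a b : E0, a ≠ 0 → b ≠ 0 → vZero (a * b) = vZero a + vZero b)
    (hκInf : (p : ℤ) ∣ vInf κ') (hκZero : (p : ℤ) ∣ vZero κ')
    (hcx : ∃ i : ℕ, ∀ z : E0, z ≠ 0 → s36_ordAt _ hxL z = vInf ((⇑σ)^[i] z))
    (hcy : ∃ i : ℕ, ∀ z : E0, z ≠ 0 → s36_ordAt yL hyL z = vZero ((⇑σ)^[i] z))
    -- the map `φ`
    (φ : FF N →+* E) (hφj : ∀ b, φ (wp2J A N S b) = g2wIota (E := E) s f b)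
    (hϖE : algebraMap L E ϖ = φ (algebraMap Kbar (FF N) (p : Kbar)))
    -- the Eisenstein constants (`wkp_eis_pack`)
    (a π1 θ mθ : Kbar)
    (hafix : ∀ τ ∈ A.inertiaSubgroupIn ℚ, τ a = a) (haA : a ∈ A) (haiA : a⁻¹ ∈ A)
    (ha0 : a ≠ 0) (hπ1 : π1 ∈ A.nonunits)
    (hηfix : ∀ τ ∈ A.inertiaSubgroupIn ℚ, τ ((π1 + 1) ^ p) = (π1 + 1) ^ p)
    (hmθ : mθ ∈ Subring.closure ({π1} : Set Kbar)) (hmθA : mθ ∈ A)
    (hθ : θ = a + π1 * mθ) (hθA : θ ∈ A) (hθiA : θ⁻¹ ∈ A) (hθ0 : θ ≠ 0)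
    (hπp : π1 ^ p = (p : Kbar) * θ)
    -- the coordinates
    (ke : Fin p → Kbar) (hke : ∀ i, ∀ τ ∈ A.inertiaSubgroupIn ℚ, τ (ke i) = ke i)
    (au ah : Fin p → E)
    (hau : ∀ i, au i = 0 ∨ ∃ m : ℤ, ∃ b ∈ g2wUF (g2wIota (E := E) s f) r₁,
      au i = algebraMap L E ϖ ^ m * b)
    (hah : ∀ i, ah i = 0 ∨ ∃ m : ℤ,
      ∃ b ∈ {b : E | b ∈ pdPrimeLoc E _ hxL ∧ b⁻¹ ∈ pdPrimeLoc E _ hxL ∧ b ≠ 0},
        ah i = algebraMap L E ϖ ^ m * b)
    (hrel : algebraMap E0 E u =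
      (∑ i, φ (algebraMap Kbar (FF N) (ke i)) * φ (algebraMap Kbar (FF N) π1) ^ (i : ℕ)) *
      (∑ i, au i * φ (algebraMap Kbar (FF N) π1) ^ (i : ℕ)) *
      (∑ i, ah i * φ (algebraMap Kbar (FF N) π1) ^ (i : ℕ)) ^ p)
    -- the reduction of the function field of `X`
    (hjO : ∀ b, wp2J A N S b ∈ Rc.O) (hjred : ∀ b, Rc.red ⟨wp2J A N S b, hjO b⟩ = r₁ b)
    (ux : FF N) (hux : φ ux = ∑ i, au i * φ (algebraMap Kbar (FF N) π1) ^ (i : ℕ))
    (c : Kbar) (h : EisUnit Rc (algebraMap Kbar (FF N) c * ux)) :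
    (p : ℤ) ∣ Q.ord (Rc.red ⟨algebraMap Kbar (FF N) c * ux, h.2.1⟩) - (vZero u - vInf u) := by
  have hπ1A : π1 ∈ A := A.nonunits_subset hπ1
  have hπ1m : IsLocalRing.residue A ⟨π1, hπ1A⟩ = 0 :=
    (IsLocalRing.residue_eq_zero_iff _).mpr
      ((ValuationSubring.coe_mem_nonunits_iff (a := (⟨π1, hπ1A⟩ : A))).mp hπ1)
  obtain ⟨hπint, hmint⟩ := wp2_hint A N S s f _ hxL φ hφj p hpr.pos π1 mθ hπ1A hηfix hmθ
  exact wpw_node s Rc Q r₁ h₁ x εx y hx hxg hεx hm hord0 hws hy0 hwy f hinj yL hxL hyL hxyL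
    ϖ ε hϖ red₂ hred₂ w₂ hw₂ hw0₂ hwy₂ hxy₂ hwyL p hpr.pos σ u g κ' hu hg hκ0 hσκ hσu hval
    vInf vZero hvInf hvZero hκInf hκZero hcx hcy
    (φ (algebraMap Kbar (FF N) π1)) (φ (algebraMap Kbar (FF N) θ))
    (φ (algebraMap Kbar (FF N) a)) (φ (algebraMap Kbar (FF N) mθ))
    (by rw [hϖE, ← map_pow, ← map_pow, hπp, map_mul, map_mul])
    ((map_ne_zero φ).mpr ((map_ne_zero _).mpr hθ0))
    (by rw [hθ, map_add, map_add, map_mul, map_mul])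
    hπint hmint (wcfIsC S) (wcf_isC_mul S) (wp2_hC A N S Q r₁ hr₁c)
    (wp2_haK A N S φ _ hφj a hafix haA haiA ha0)
    (fun i => φ (algebraMap Kbar (FF N) (ke i))) au ah
    (wp2_hae A N S hpr hA φ _ hφj _ hϖE ke hke) hau hah hrel
    φ (wp2J A N S) hφj hjO hjred π1 θ mθ hπ1A hπ1m rfl hθA rfl hθiA hmθA rfl ux hux c h

set_option maxHeartbeats 1600000 in
/-- **the per-point theorem at a smooth point**, with `(F)`, `(K)`, `(E)`, `(Co-e)` pre-wired. -/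
theorem wp2_smooth {p : ℕ} (hpr : p.Prime) (hA : A.LiesOverPrime p)
    (Rc : ConstRed A (IsLocalRing.residue A) Fk (FF N))
    (Q : Place (IsLocalRing.ResidueField A) Fk)
    -- the `X`-side package
    (r₁ : S.B →+* Fk)
    (hr₁c : ∀ a0 : k0Val A,
      r₁ (S.constB a0) = algebraMap (IsLocalRing.ResidueField A) Fk (k0Res A a0))
    (h₁ : RingHom.ker r₁ ≤ s)
    (x εx y : S.B) (hx : x ∈ RingHom.ker r₁) (hxg : ∀ z ∈ RingHom.ker r₁, x ∣ εx * z)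
    (hεx : εx ∉ s)
    (hm : maximalIdeal (Localization.AtPrime s) =
      Ideal.span {algebraMap S.B (Localization.AtPrime s) x,
        algebraMap S.B (Localization.AtPrime s) y})
    (hord0 : ∀ c : S.B, r₁ c ≠ 0 → 0 ≤ Q.ord (r₁ c))
    (hws : ∀ c : S.B, c ∉ s → Q.ord (r₁ c) = 0)
    (hy0 : r₁ y ≠ 0) (hwy : Q.ord (r₁ y) = 1)
    -- the cover package
    (f : Localization.AtPrime s →+* L) (hinj : Function.Injective (algebraMap L E))
    (hxL : Prime (f (algebraMap S.B (Localization.AtPrime s) x)))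
    (ϖ : L) (ε : Lˣ) (hϖ : ϖ = ε * f (algebraMap S.B (Localization.AtPrime s) x))
    (red₂ : L →+* κ₂)
    (hred₂ : ∀ c, red₂ c = 0 ↔ f (algebraMap S.B (Localization.AtPrime s) x) ∣ c)
    (w₂ : κ₂ → ℤ) (hw₂ : ∀ a b : κ₂, a ≠ 0 → b ≠ 0 → w₂ (a * b) = w₂ a + w₂ b)
    (hw0₂ : ∀ c : L, red₂ c ≠ 0 → 0 ≤ w₂ (red₂ c))
    (hwy₂ : w₂ (red₂ (f (algebraMap S.B (Localization.AtPrime s) y))) = 1)
    (hxy₂ : ¬ f (algebraMap S.B (Localization.AtPrime s) x) ∣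
      f (algebraMap S.B (Localization.AtPrime s) y))
    (u : E0) (hu : u ≠ 0)
    (hval : ∀ π : L, Prime π →
      ¬ Associated π (f (algebraMap S.B (Localization.AtPrime s) x)) →
      ∃ v : E0 → ℤ, (∀ a b : E0, a ≠ 0 → b ≠ 0 → v (a * b) = v a + v b) ∧
        v (algebraMap L E0 π) = 1 ∧
        (∀ c : L, c ≠ 0 → ¬ π ∣ c → v (algebraMap L E0 c) = 0) ∧ (p : ℤ) ∣ v u)
    -- the map `φ`
    (φ : FF N →+* E) (hφj : ∀ b, φ (wp2J A N S b) = g2wIota (E := E) s f b)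
    (hϖE : algebraMap L E ϖ = φ (algebraMap Kbar (FF N) (p : Kbar)))
    -- the Eisenstein constants (`wkp_eis_pack`)
    (a π1 θ mθ : Kbar)
    (hafix : ∀ τ ∈ A.inertiaSubgroupIn ℚ, τ a = a) (haA : a ∈ A) (haiA : a⁻¹ ∈ A)
    (ha0 : a ≠ 0) (hπ1 : π1 ∈ A.nonunits)
    (hηfix : ∀ τ ∈ A.inertiaSubgroupIn ℚ, τ ((π1 + 1) ^ p) = (π1 + 1) ^ p)
    (hmθ : mθ ∈ Subring.closure ({π1} : Set Kbar)) (hmθA : mθ ∈ A)
    (hθ : θ = a + π1 * mθ) (hθA : θ ∈ A) (hθiA : θ⁻¹ ∈ A) (hθ0 : θ ≠ 0)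
    (hπp : π1 ^ p = (p : Kbar) * θ)
    -- the coordinates
    (ke : Fin p → Kbar) (hke : ∀ i, ∀ τ ∈ A.inertiaSubgroupIn ℚ, τ (ke i) = ke i)
    (au ah : Fin p → E)
    (hau : ∀ i, au i = 0 ∨ ∃ m : ℤ, ∃ b ∈ g2wUF (g2wIota (E := E) s f) r₁,
      au i = algebraMap L E ϖ ^ m * b)
    (hah : ∀ i, ah i = 0 ∨ ∃ m : ℤ,
      ∃ b ∈ {b : E | b ∈ pdPrimeLoc E _ hxL ∧ b⁻¹ ∈ pdPrimeLoc E _ hxL ∧ b ≠ 0},
        ah i = algebraMap L E ϖ ^ m * b)
    (hrel : algebraMap E0 E u =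
      (∑ i, φ (algebraMap Kbar (FF N) (ke i)) * φ (algebraMap Kbar (FF N) π1) ^ (i : ℕ)) *
      (∑ i, au i * φ (algebraMap Kbar (FF N) π1) ^ (i : ℕ)) *
      (∑ i, ah i * φ (algebraMap Kbar (FF N) π1) ^ (i : ℕ)) ^ p)
    -- the reduction of the function field of `X`
    (hjO : ∀ b, wp2J A N S b ∈ Rc.O) (hjred : ∀ b, Rc.red ⟨wp2J A N S b, hjO b⟩ = r₁ b)
    (ux : FF N) (hux : φ ux = ∑ i, au i * φ (algebraMap Kbar (FF N) π1) ^ (i : ℕ))
    (c : Kbar) (h : EisUnit Rc (algebraMap Kbar (FF N) c * ux)) :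
    (p : ℤ) ∣ Q.ord (Rc.red ⟨algebraMap Kbar (FF N) c * ux, h.2.1⟩) := by
  have hπ1A : π1 ∈ A := A.nonunits_subset hπ1
  have hπ1m : IsLocalRing.residue A ⟨π1, hπ1A⟩ = 0 :=
    (IsLocalRing.residue_eq_zero_iff _).mpr
      ((ValuationSubring.coe_mem_nonunits_iff (a := (⟨π1, hπ1A⟩ : A))).mp hπ1)
  obtain ⟨hπint, hmint⟩ := wp2_hint A N S s f _ hxL φ hφj p hpr.pos π1 mθ hπ1A hηfix hmθ
  exact wpw_smooth s Rc Q r₁ h₁ x εx y hx hxg hεx hm hord0 hws hy0 hwy f hinj hxL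
    ϖ ε hϖ red₂ hred₂ w₂ hw₂ hw0₂ hwy₂ hxy₂ p hpr.pos u hu hval
    (φ (algebraMap Kbar (FF N) π1)) (φ (algebraMap Kbar (FF N) θ))
    (φ (algebraMap Kbar (FF N) a)) (φ (algebraMap Kbar (FF N) mθ))
    (by rw [hϖE, ← map_pow, ← map_pow, hπp, map_mul, map_mul])
    ((map_ne_zero φ).mpr ((map_ne_zero _).mpr hθ0))
    (by rw [hθ, map_add, map_add, map_mul, map_mul])
    hπint hmint (wcfIsC S) (wcf_isC_mul S) (wp2_hC A N S Q r₁ hr₁c)
    (wp2_haK A N S φ _ hφj a hafix haA haiA ha0)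
    (fun i => φ (algebraMap Kbar (FF N) (ke i))) au ah
    (wp2_hae A N S hpr hA φ _ hφj _ hϖE ke hke) hau hah hrel
    φ (wp2J A N S) hφj hjO hjred π1 θ mθ hπ1A hπ1m rfl hθA rfl hθiA hmθA rfl ux hux c h

end Main

section Conc

variable (A : ValuationSubring Kbar) (M' q : ℕ) [NeZero M'] [NeZero q] (hq : q.Prime)
  (hqM : ¬ q ∣ M') (hA : A.LiesOverPrime q)
  (R : ConstRed A (IsLocalRing.residue A)
      (↥(modularFunctionFieldFullC (IsLocalRing.ResidueField A) M')) (FF (M' * q)))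
  (hR : IsSeriesRed R)

/-- `wp2J` of `nodeSetupNj` is helper16's `wcfJ` -/
theorem wp2J_eq_wcfJ :
    wp2J A (M' * q) (nodeSetupNj A M' q hq hqM hA R hR) = wcfJ A M' q hq hqM hA R hR := rfl

end Conc

end Fermat.Agent.S40lib

end
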