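import Mathlib
import Fermat.Agent.S36lib.Speed
import Fermat.Agent.S40lib.WindcPre2

/-!
# Item 88 (S44), block (W), layer B: the group `(K)` in the EXACT shape of `s40j_pt_node`

(helper13.)  For `φ : FF N →ₐ[Kbar] E`, `jE : S.B →+* E`, `jB := wp2J A N S` (`= wcfJ …`),
`hφj : ∀ b, φ (jB b) = jE b`, `isC := wcfIsC S`:

* `wck2_hC`   : `hC` (`wQ := Q.ord`);
* `wck2_haK`  : `algebraMap Kbar E a ∈ g2wUK jE isC` for a unit `a` of `A` fixed by inertia;
* `wck2_hae`  : `∀ i, algebraMap Kbar E (ke i) = 0 ∨ ∃ m, ∃ b ∈ g2wUK jE isC,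
                 algebraMap Kbar E (ke i) = (p : E) ^ m * b`;
* `wck2_hae'` : the same for `ae` with `ae i = algebraMap Kbar E (ke i)`.
Complete proofs.
-/

set_option autoImplicit false
set_option linter.unusedVariables false
set_option linter.unusedSectionVars false
set_option linter.style.haveILetI false

noncomputable section

namespace Fermat.Agent.S40lib

open Fermat.Agent.FFlib Fermat.Agent.S24lib Fermat.Agent.GM Fermat.Agent.GoodRed
  Fermat.Agent.S36lib Fermat.Agent.S34lib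
open AlgebraicCurve IsLocalRing IntermediateField ModularCurve

section K2

variable (A : ValuationSubring Kbar) (N : ℕ) [NeZero N]
  {Fk : Type*} [Field Fk] [Algebra (IsLocalRing.ResidueField A) Fk]
  (S : NodeSetup (k0Val A) (k0Res A) Fk (f0Field A N))
  {E : Type*} [Field E] [Algebra Kbar E]

/-- `hC` -/
theorem wck2_hC (Q : Place (IsLocalRing.ResidueField A) Fk) (r₁ : S.B →+* Fk)
    (hr₁c : ∀ a0 : k0Val A,
      r₁ (S.constB a0) = algebraMap (IsLocalRing.ResidueField A) Fk (k0Res A a0)) :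
    ∀ n, wcfIsC S n → r₁ n ≠ 0 ∧ Q.ord (r₁ n) = 0 :=
  fun n hn => wp2_hC A N S Q r₁ hr₁c n hn

/-- **`haK`** in the shape of `s40j_pt_node` -/
theorem wck2_haK (φ : FF N →ₐ[Kbar] E) (jE : S.B →+* E)
    (hφj : ∀ b, φ (wp2J A N S b) = jE b)
    (a : Kbar) (hfix : ∀ σ ∈ A.inertiaSubgroupIn ℚ, σ a = a)
    (haA : a ∈ A) (haiA : a⁻¹ ∈ A) (ha0 : a ≠ 0) :
    algebraMap Kbar E a ∈ g2wUK jE (wcfIsC S) := by
  have h := wp2_haK A N S (φ : FF N →+* E) jE hφj a hfix haA haiA ha0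
  have h1 : (φ : FF N →+* E) (algebraMap Kbar (FF N) a) = algebraMap Kbar E a := φ.commutes a
  rw [h1] at h
  exact h

/-- **`hae`** in the shape of `s40j_pt_node` -/
theorem wck2_hae {p : ℕ} (hp : p.Prime) (hA : A.LiesOverPrime p)
    (φ : FF N →ₐ[Kbar] E) (jE : S.B →+* E)
    (hφj : ∀ b, φ (wp2J A N S b) = jE b)
    {ι : Type*} (ke : ι → Kbar) (hke : ∀ i, ∀ τ ∈ A.inertiaSubgroupIn ℚ, τ (ke i) = ke i) :
    ∀ i, algebraMap Kbar E (ke i) = 0 ∨
      ∃ m : ℤ, ∃ b ∈ g2wUK jE (wcfIsC S), algebraMap Kbar E (ke i) = (p : E) ^ m * b := by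
  intro i
  have hϖ : (p : E) = (φ : FF N →+* E) (algebraMap Kbar (FF N) (p : Kbar)) := by
    rw [map_natCast, map_natCast]
  have h := wp2_hae A N S hp hA (φ : FF N →+* E) jE hφj (p : E) hϖ ke hke i
  have h1 : (φ : FF N →+* E) (algebraMap Kbar (FF N) (ke i)) = algebraMap Kbar E (ke i) :=
    φ.commutes (ke i)
  rw [h1] at h
  exact h

/-- `hae` for `ae i = algebraMap Kbar E (ke i)` -/
theorem wck2_hae' {p : ℕ} (hp : p.Prime) (hA : A.LiesOverPrime p)
    (φ : FF N →ₐ[Kbar] E) (jE : S.B →+* E)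
    (hφj : ∀ b, φ (wp2J A N S b) = jE b)
    {ι : Type*} (ke : ι → Kbar) (hke : ∀ i, ∀ τ ∈ A.inertiaSubgroupIn ℚ, τ (ke i) = ke i)
    (ae : ι → E) (hae : ∀ i, ae i = algebraMap Kbar E (ke i)) :
    ∀ i, ae i = 0 ∨ ∃ m : ℤ, ∃ b ∈ g2wUK jE (wcfIsC S), ae i = (p : E) ^ m * b := by
  intro i
  rw [hae i]
  exact wck2_hae A N S hp hA φ jE hφj ke hke i

end K2

end Fermat.Agent.S40lib

end
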