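import Mathlib
import Fermat.Agent.S36lib.Speed
import Fermat.Agent.S40lib.WindcK2
import Fermat.Agent.S40lib.WildPtCtx

/-!
# Item 88 (S44), block (W), layer B: the group `(K)` of `s40j_pt_node` at the CONCRETE context

(helper13.)  Context of helper8 (`WildPtCtx.lean`): `E := ↥EY`, `jE := criIncl A N EY hle S.B`
(`hjE := cri_hom_algebraMap …`), `φ := IntermediateField.inclusion hle`, `jB := wp2J A N S`
(`= wcfJ …` for `nodeSetupNj`), `isC := wcfIsC S`:

* `wck3_hφj`  : `φ (jB b) = jE b`  (`rfl`);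
* `wck3_hC_inf`, `wck3_hC_zero` : `hC` for `r₁ := S.redInf` / `S.redZero`, `wQ := Q.ord`;
* `wck3_haK`  : `algebraMap Kbar ↥EY a ∈ g2wUK jE isC`  (`a` unit of `A` fixed by inertia);
* `wck3_hae`  : `∀ i, algebraMap Kbar ↥EY (ke i) = 0 ∨ ∃ m, ∃ b ∈ g2wUK jE isC, … = (p : ↥EY) ^ m * b`.
Complete proofs.
-/

set_option autoImplicit false
set_option linter.unusedVariables false
set_option linter.unusedSectionVars false
set_option linter.style.haveILetI false

noncomputable section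

namespace Fermat.Agent.S40lib

open Fermat.Agent.FFlib Fermat.Agent.S24lib Fermat.Agent.GM Fermat.Agent.GoodRed
  Fermat.Agent.S36lib Fermat.Agent.S34lib
open AlgebraicCurve IsLocalRing IntermediateField ModularCurve

section K3

variable (A : ValuationSubring Kbar) (N : ℕ) [NeZero N]
  (EY : IntermediateField Kbar (LaurentSeries Kbar))
  (hle : modularFunctionFieldBar N ≤ EY)
  {Fk : Type*} [Field Fk] [Algebra (IsLocalRing.ResidueField A) Fk]
  (S : NodeSetup (k0Val A) (k0Res A) Fk (f0Field A N))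

/-- `hφj` for `φ := inclusion`, `jB := wp2J`, `jE := criIncl` -/
theorem wck3_hφj (b : S.B) :
    (IntermediateField.inclusion hle : FF N →ₐ[Kbar] ↥EY) (wp2J A N S b)
      = criIncl A N EY hle S.B b := rfl

/-- `hC` on the component `∞` -/
theorem wck3_hC_inf (Q : Place (IsLocalRing.ResidueField A) Fk) :
    ∀ n, wcfIsC S n → S.redInf n ≠ 0 ∧ Q.ord (S.redInf n) = 0 :=
  fun n hn => wcf_hC_inf S Q n hn

/-- `hC` on the component `0` -/
theorem wck3_hC_zero (Q : Place (IsLocalRing.ResidueField A) Fk) :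
    ∀ n, wcfIsC S n → S.redZero n ≠ 0 ∧ Q.ord (S.redZero n) = 0 :=
  fun n hn => wcf_hC_zero S Q n hn

/-- `hCmul` -/
theorem wck3_hCmul : ∀ n n', wcfIsC S n → wcfIsC S n' → wcfIsC S (n * n') :=
  fun n n' hn hn' => wcf_isC_mul S n n' hn hn'

/-- **`haK`** at the concrete context -/
theorem wck3_haK (a : Kbar) (hfix : ∀ σ ∈ A.inertiaSubgroupIn ℚ, σ a = a)
    (haA : a ∈ A) (haiA : a⁻¹ ∈ A) (ha0 : a ≠ 0) :
    algebraMap Kbar ↥EY a ∈ g2wUK (criIncl A N EY hle S.B) (wcfIsC S) :=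
  wck2_haK A N S (IntermediateField.inclusion hle) (criIncl A N EY hle S.B)
    (fun b => rfl) a hfix haA haiA ha0

/-- **`hae`** at the concrete context -/
theorem wck3_hae {p : ℕ} (hp : p.Prime) (hA : A.LiesOverPrime p)
    {ι : Type*} (ke : ι → Kbar) (hke : ∀ i, ∀ τ ∈ A.inertiaSubgroupIn ℚ, τ (ke i) = ke i) :
    ∀ i, algebraMap Kbar ↥EY (ke i) = 0 ∨
      ∃ m : ℤ, ∃ b ∈ g2wUK (criIncl A N EY hle S.B) (wcfIsC S),
        algebraMap Kbar ↥EY (ke i) = (p : ↥EY) ^ m * b :=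
  wck2_hae A N S hp hA (IntermediateField.inclusion hle) (criIncl A N EY hle S.B)
    (fun b => rfl) ke hke

/-- `hae` for `ae i = algebraMap Kbar ↥EY (ke i)` -/
theorem wck3_hae' {p : ℕ} (hp : p.Prime) (hA : A.LiesOverPrime p)
    {ι : Type*} (ke : ι → Kbar) (hke : ∀ i, ∀ τ ∈ A.inertiaSubgroupIn ℚ, τ (ke i) = ke i)
    (ae : ι → ↥EY) (hae : ∀ i, ae i = algebraMap Kbar ↥EY (ke i)) :
    ∀ i, ae i = 0 ∨
      ∃ m : ℤ, ∃ b ∈ g2wUK (criIncl A N EY hle S.B) (wcfIsC S), ae i = (p : ↥EY) ^ m * b := by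
  intro i
  rw [hae i]
  exact wck3_hae A N EY hle S hp hA ke hke i

end K3

end Fermat.Agent.S40lib

end
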