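import Mathlib
import Fermat.Agent.S36lib.Speed
import Fermat.Agent.S40lib.EisTail
import Fermat.Agent.S40lib.WindcRedF

/-!
# Item 88 (S44), block (W) (helper28): the KUMMER TRANSFER `u₁ → u_x`

The coordinates (`wca_coords`) produce a NEW Kummer function `u₁` of the class `x`; the
conclusion of `S44jWildWindC` is about the GIVEN Kummer function `u_x`.  Two Kummer functions of
the same class differ by a constant and a `p`-th power (`gdf_isKummer_unique`), so:

* `wtf_transfer`   : `c u₁` a unit of `O`  ⇒  `∃ c₁`, `c₁ u_x` a unit of `O` and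
                     `p ∣ ord_Q (red (c₁ u_x)) - ord_Q (red (c u₁))` for EVERY place `Q`;
* `wtf_transfer_ss`: the same in `[SS]`-form (any predicates `G`, `P` on the places, any `δ`):
                     WINDC for `c u₁` ⇒ WINDC for `c₁ u_x`;
* `wtf_unit_change`: two unit normalisations `c u`, `c' u` of the same function have the same
                     orders of reduction (`ord_Q red (c' u) = ord_Q red (c u)`).
All proofs complete.
-/

set_option autoImplicit false
set_option linter.style.haveILetI false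
set_option linter.unusedSectionVars false
set_option linter.unusedVariables false
set_option synthInstance.maxHeartbeats 400000
set_option maxHeartbeats 1000000

noncomputable section

namespace Fermat.Agent.S40lib

open AlgebraicCurve Fermat.Agent.RRlib Fermat.Agent.GoodRed Fermat.Agent.S34lib
  Fermat.Agent.S18lib Fermat.Agent.S33lib

section Transfer

variable {K F k Fk : Type*} [Field K] [Field F] [Algebra K F] [Field k] [Field Fk] [Algebra k Fk]
variable {A : ValuationSubring K} {π : A →+* k}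

/-- the reduction of a product of two units -/
theorem wtf_red_mul (R : ConstRed A π Fk F) {f g : F} (hf : EisUnit R f) (hg : EisUnit R g) :
    R.red ⟨f * g, (hf.mul hg).2.1⟩ = R.red ⟨f, hf.2.1⟩ * R.red ⟨g, hg.2.1⟩ := by
  rw [← map_mul]
  rfl

/-- the reduction of a power of a unit -/
theorem wtf_red_pow (R : ConstRed A π Fk F) {f : F} (hf : EisUnit R f) (n : ℕ) :
    R.red ⟨f ^ n, (hf.pow n).2.1⟩ = R.red ⟨f, hf.2.1⟩ ^ n := by
  rw [← map_pow]
  rfl

/-- the order of a power -/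
theorem wtf_ord_pow (Q : Place k Fk) {a : Fk} (ha : a ≠ 0) (n : ℕ) :
    Q.ord (a ^ n) = (n : ℤ) * Q.ord a := by
  induction n with
  | zero => simp [Q.ord_one]
  | succ n ih =>
    rw [pow_succ, Q.ord_mul (pow_ne_zero n ha) ha, ih]
    push_cast
    ring

/-- two unit normalisations of the same function have the same orders of reduction -/
theorem wtf_unit_change (R : ConstRed A π Fk F) {u : F} {c c' : K}
    (h : EisUnit R (algebraMap K F c * u)) (h' : EisUnit R (algebraMap K F c' * u))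
    (Q : Place k Fk) :
    Q.ord (R.red ⟨_, h'.2.1⟩) = Q.ord (R.red ⟨_, h.2.1⟩) := by
  have hu0 : u ≠ 0 := fun h0 => h.1 (by rw [h0, mul_zero])
  have hc0 : algebraMap K F c ≠ 0 := fun h0 => h.1 (by rw [h0, zero_mul])
  have hq : EisUnit R (algebraMap K F (c' * c⁻¹)) := by
    have := h'.mul h.inv
    have e : algebraMap K F c' * u * (algebraMap K F c * u)⁻¹ = algebraMap K F (c' * c⁻¹) := by
      rw [map_mul, map_inv₀]
      field_simp
    rwa [e] at this
  have e2 : algebraMap K F c' * u = algebraMap K F (c' * c⁻¹) * (algebraMap K F c * u) := by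
    rw [map_mul, map_inv₀]
    field_simp
  have e3 : R.red ⟨_, h'.2.1⟩ = R.red ⟨_, hq.2.1⟩ * R.red ⟨_, h.2.1⟩ := by
    rw [← wtf_red_mul R hq h]
    congr 1
    exact Subtype.ext e2
  rw [e3, Q.ord_mul hq.red_ne_zero h.red_ne_zero,
    wrf_hconst R Q _ hq.2.1 hq.red_ne_zero, zero_add]

variable [RRBase K F]

/-- **the Kummer transfer**: from a unit normalisation of one Kummer function of `x` to a unit
normalisation of any other Kummer function of `x`, the orders of the reductions agreeing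
modulo `p` at every place. -/
theorem wtf_transfer (R : ConstRed A π Fk F) {p : ℕ} {x : Pic0 K F} {ux u1 : F}
    (hx : gdfIsKummer p x ux) (h1 : gdfIsKummer p x u1) {c : K}
    (hc : EisUnit R (algebraMap K F c * u1)) :
    ∃ (c₁ : K) (h₁ : EisUnit R (algebraMap K F c₁ * ux)), ∀ Q : Place k Fk,
      (p : ℤ) ∣ Q.ord (R.red ⟨_, h₁.2.1⟩) - Q.ord (R.red ⟨_, hc.2.1⟩) := by
  obtain ⟨c0, w, hc0, hw, hrel⟩ := gdf_isKummer_unique hx h1
  obtain ⟨e, he0, he1, he2⟩ := R.exists_unit_smul w hw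
  have hcne : c ≠ 0 := by
    rintro rfl
    exact hc.1 (by rw [map_zero, zero_mul])
  have heF : algebraMap K F e ≠ 0 := (map_ne_zero _).2 he0
  have hW : EisUnit R (algebraMap K F e * w) := ⟨mul_ne_zero heF hw, he1, he2⟩
  have hWp : EisUnit R ((algebraMap K F e * w) ^ p) := hW.pow p
  have e1 : algebraMap K F (c * c0 * (e ^ p)⁻¹) * ux =
      algebraMap K F c * u1 * ((algebraMap K F e * w) ^ p)⁻¹ := by
    rw [hrel, map_mul, map_mul, map_inv₀, map_pow, mul_pow]
    have hep : algebraMap K F e ^ p ≠ 0 := pow_ne_zero p heF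
    have hwp : w ^ p ≠ 0 := pow_ne_zero p hw
    field_simp
  have h₁ : EisUnit R (algebraMap K F (c * c0 * (e ^ p)⁻¹) * ux) := by
    rw [e1]
    exact hc.mul hWp.inv
  refine ⟨c * c0 * (e ^ p)⁻¹, h₁, fun Q => ?_⟩
  have e2 : algebraMap K F c * u1 =
      algebraMap K F (c * c0 * (e ^ p)⁻¹) * ux * (algebraMap K F e * w) ^ p := by
    rw [e1, mul_assoc, inv_mul_cancel₀ hWp.1, mul_one]
  have e3 : R.red ⟨_, hc.2.1⟩ = R.red ⟨_, h₁.2.1⟩ * R.red ⟨_, hW.2.1⟩ ^ p := by
    rw [← wtf_red_pow R hW p, ← wtf_red_mul R h₁ hWp]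
    congr 1
    exact Subtype.ext e2
  rw [e3, Q.ord_mul h₁.red_ne_zero (pow_ne_zero p hW.red_ne_zero),
    wtf_ord_pow Q hW.red_ne_zero p]
  exact ⟨- Q.ord (R.red ⟨_, hW.2.1⟩), by ring⟩

/-- **the Kummer transfer in `[SS]`-form**: WINDC for `c u₁` ⇒ WINDC for `c₁ u_x` (same `δ`),
for any guard `G` and any predicate `P` on the places. -/
theorem wtf_transfer_ss (R : ConstRed A π Fk F) {p : ℕ} {x : Pic0 K F} {ux u1 : F}
    (hx : gdfIsKummer p x ux) (h1 : gdfIsKummer p x u1) {c : K}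
    (hc : EisUnit R (algebraMap K F c * u1)) (δ : ℤ)
    (G P : Place k Fk → Prop)
    (hw : ∀ Q : Place k Fk, G Q →
      (P Q → (p : ℤ) ∣ Q.ord (R.red ⟨_, hc.2.1⟩) - δ) ∧
      (¬ P Q → (p : ℤ) ∣ Q.ord (R.red ⟨_, hc.2.1⟩))) :
    ∃ (c₁ : K) (h₁ : EisUnit R (algebraMap K F c₁ * ux)), ∀ Q : Place k Fk, G Q →
      (P Q → (p : ℤ) ∣ Q.ord (R.red ⟨_, h₁.2.1⟩) - δ) ∧
      (¬ P Q → (p : ℤ) ∣ Q.ord (R.red ⟨_, h₁.2.1⟩)) := by
  obtain ⟨c₁, h₁, hd⟩ := wtf_transfer R hx h1 hc
  refine ⟨c₁, h₁, fun Q hG => ⟨fun hP => ?_, fun hP => ?_⟩⟩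
  · have := dvd_add (hd Q) ((hw Q hG).1 hP)
    have e : Q.ord (R.red ⟨_, h₁.2.1⟩) - Q.ord (R.red ⟨_, hc.2.1⟩) +
        (Q.ord (R.red ⟨_, hc.2.1⟩) - δ) = Q.ord (R.red ⟨_, h₁.2.1⟩) - δ := by ring
    rwa [e] at this
  · have := dvd_add (hd Q) ((hw Q hG).2 hP)
    have e : Q.ord (R.red ⟨_, h₁.2.1⟩) - Q.ord (R.red ⟨_, hc.2.1⟩) +
        Q.ord (R.red ⟨_, hc.2.1⟩) = Q.ord (R.red ⟨_, h₁.2.1⟩) := by ring
    rwa [e] at this

end Transfer

end Fermat.Agent.S40lib

end
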