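import Mathlib
import Fermat.Agent.S36lib.Speed
import Fermat.Agent.S40lib.WindcKumTr28

/-!
# Item 88 (S44), block (W) (helper28): the per-point adapter `u₁ → u_x`, shape of `S44jWildPt`

`wpt28_transfer` : the conclusion of the per-point theorems (`wpw_node`, `wpw_smooth`,
`s40j_pt_node`, …) for the Kummer function `u₁` of the coordinates and EVERY normalising constant
gives the same statement for any other Kummer function `u_x` of the same class and EVERY
normalising constant — literally one line of the conclusion of `S44jWildPt` (helper10).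
All proofs complete.
-/

set_option autoImplicit false
set_option linter.style.haveILetI false
set_option linter.unusedSectionVars false
set_option linter.unusedVariables false
set_option synthInstance.maxHeartbeats 400000
set_option maxHeartbeats 1000000

noncomputable section

namespace Fermat.Agent.S40lib

open AlgebraicCurve Fermat.Agent.RRlib Fermat.Agent.GoodRed Fermat.Agent.S34lib
  Fermat.Agent.S18lib Fermat.Agent.S33lib

section Adapter

variable {K F k Fk : Type*} [Field K] [Field F] [Algebra K F] [Field k] [Field Fk] [Algebra k Fk]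
variable {A : ValuationSubring K} {π : A →+* k}
variable [RRBase K F]

/-- **per-point Kummer transfer, membership form** (`δ` any integer; `δ = 0` for the smooth
points): from `u₁` to `u_x`. -/
theorem wpt28_transfer (R : ConstRed A π Fk F) {p : ℕ} {x : Pic0 K F} {ux u1 : F}
    (hx : gdfIsKummer p x ux) (h1 : gdfIsKummer p x u1) (Q : Place k Fk) (δ : ℤ)
    (hpt : ∀ (c' : K) (h2' : algebraMap K F c' * u1 ∈ R.O),
      R.red ⟨algebraMap K F c' * u1, h2'⟩ ≠ 0 →
      (p : ℤ) ∣ Q.ord (R.red ⟨algebraMap K F c' * u1, h2'⟩) - δ) :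
    ∀ (c : K) (h2 : algebraMap K F c * ux ∈ R.O),
      R.red ⟨algebraMap K F c * ux, h2⟩ ≠ 0 →
      (p : ℤ) ∣ Q.ord (R.red ⟨algebraMap K F c * ux, h2⟩) - δ := by
  intro c h2 h20
  have hcu : EisUnit R (algebraMap K F c * ux) := eisUnit_of_red_ne_zero ⟨_, h2⟩ h20
  -- a unit normalisation of `u₁`
  obtain ⟨c', hc'0, hc'1, hc'2⟩ := R.exists_unit_smul u1 h1.1
  have hc'F : algebraMap K F c' ≠ 0 := (map_ne_zero _).2 hc'0
  have hu1 : EisUnit R (algebraMap K F c' * u1) := ⟨mul_ne_zero hc'F h1.1, hc'1, hc'2⟩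
  obtain ⟨c₁, h₁, hd⟩ := wtf_transfer R hx h1 hu1
  have e1 : Q.ord (R.red ⟨_, hcu.2.1⟩) = Q.ord (R.red ⟨_, h₁.2.1⟩) :=
    wtf_unit_change R h₁ hcu Q
  have h3 := hpt c' hu1.2.1 hu1.red_ne_zero
  have h4 := dvd_add (hd Q) h3
  have e2 : Q.ord (R.red ⟨_, h₁.2.1⟩) - Q.ord (R.red ⟨_, hu1.2.1⟩) +
      (Q.ord (R.red ⟨_, hu1.2.1⟩) - δ) = Q.ord (R.red ⟨_, h₁.2.1⟩) - δ := by ring
  rw [e2] at h4
  show (p : ℤ) ∣ Q.ord (R.red ⟨_, hcu.2.1⟩) - δ
  rw [e1]
  exact h4

/-- the same without `δ` (smooth points) -/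
theorem wpt28_transfer0 (R : ConstRed A π Fk F) {p : ℕ} {x : Pic0 K F} {ux u1 : F}
    (hx : gdfIsKummer p x ux) (h1 : gdfIsKummer p x u1) (Q : Place k Fk)
    (hpt : ∀ (c' : K) (h2' : algebraMap K F c' * u1 ∈ R.O),
      R.red ⟨algebraMap K F c' * u1, h2'⟩ ≠ 0 →
      (p : ℤ) ∣ Q.ord (R.red ⟨algebraMap K F c' * u1, h2'⟩)) :
    ∀ (c : K) (h2 : algebraMap K F c * ux ∈ R.O),
      R.red ⟨algebraMap K F c * ux, h2⟩ ≠ 0 →
      (p : ℤ) ∣ Q.ord (R.red ⟨algebraMap K F c * ux, h2⟩) := by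
  intro c h2 h20
  have := wpt28_transfer R hx h1 Q 0
    (fun c' h2' h20' => by rw [sub_zero]; exact hpt c' h2' h20') c h2 h20
  rwa [sub_zero] at this

/-- the same with the hypothesis in `EisUnit` form (conclusion of `wpw_node`) -/
theorem wpt28_transfer_unit (R : ConstRed A π Fk F) {p : ℕ} {x : Pic0 K F} {ux u1 : F}
    (hx : gdfIsKummer p x ux) (h1 : gdfIsKummer p x u1) (Q : Place k Fk) (δ : ℤ)
    (hpt : ∀ (c' : K) (h : EisUnit R (algebraMap K F c' * u1)),
      (p : ℤ) ∣ Q.ord (R.red ⟨algebraMap K F c' * u1, h.2.1⟩) - δ) :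
    ∀ (c : K) (h2 : algebraMap K F c * ux ∈ R.O),
      R.red ⟨algebraMap K F c * ux, h2⟩ ≠ 0 →
      (p : ℤ) ∣ Q.ord (R.red ⟨algebraMap K F c * ux, h2⟩) - δ :=
  wpt28_transfer R hx h1 Q δ
    (fun c' h2' h20' => hpt c' (eisUnit_of_red_ne_zero ⟨_, h2'⟩ h20'))

end Adapter

end Fermat.Agent.S40lib

end
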