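import Mathlib
import Fermat.Agent.S36lib.Speed
import Fermat.Agent.S40lib.TameWind2

/-!
# Item 88 (S40/S44), block (J-WILD): the transfer of WINDC (with winding number `δ`) between
two unit Kummer functions of the same class

(helper24.)  `g2w_wind_transfer_delta` : `g = c · w ^ p · f`, `f`, `g` units of the reduction `R`:
`ord_Q (red f) ≡ δ  (mod p)` ⇒ `ord_Q (red g) ≡ δ  (mod p)`.   (`tmw2_wind_transfer_at` is the
case `δ = 0`.)  Used to pass from the `K1`-rational Kummer function `u₁` of `wca_coords` to the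
given Kummer function `u_x` in the conclusion of `S44jWildWindC`.
-/

set_option autoImplicit false
set_option linter.style.haveILetI false
set_option linter.unusedSectionVars false
set_option linter.unusedVariables false

noncomputable section

namespace Fermat.Agent.S40lib

open Fermat.Agent.GalRep ModularCurve AlgebraicCurve Fermat.Agent.S31lib Fermat.Agent.S35lib
  Fermat.Agent.S33lib Fermat.Agent.S36lib Fermat.Agent.S24lib Fermat.Agent.S34lib
  Fermat.Agent.RRlib Fermat.Agent.GoodRed Fermat.Agent.S18lib Fermat.Agent.GM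
  Fermat.Agent.HeckeBar HahnSeries

section Abstract

variable {K F k Fk : Type*} [Field K] [Field F] [Algebra K F] [Field k] [Field Fk] [Algebra k Fk]
variable {A : ValuationSubring K} {π : A →+* k} (R : ConstRed A π Fk F)

/-- WINDC at ONE place passes from a unit `f` to the unit `g = c w ^ p f`. -/
theorem g2w_wind_transfer_delta (p : ℕ) {f g : F} (hf : EisUnit R f) (hg : EisUnit R g) (c : K)
    (w : F) (hw : w ≠ 0) (hrel : g = algebraMap K F c * w ^ p * f) (Q : Place k Fk) (δ : ℤ)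
    (hord : (p : ℤ) ∣ Q.ord (R.red ⟨f, hf.2.1⟩) - δ) :
    (p : ℤ) ∣ Q.ord (R.red ⟨g, hg.2.1⟩) - δ := by
  obtain ⟨κ, hκ0, hκ1, hκ2⟩ := R.exists_unit_smul w hw
  have hκF : algebraMap K F κ ≠ 0 := (map_ne_zero _).mpr hκ0
  have hW : EisUnit R (algebraMap K F κ * w) := ⟨mul_ne_zero hκF hw, hκ1, hκ2⟩
  have hf0 := hf.1
  have hE : algebraMap K F (c * (κ ^ p)⁻¹) = g * f⁻¹ * ((algebraMap K F κ * w) ^ p)⁻¹ := by
    rw [hrel, map_mul, map_inv₀, map_pow, mul_pow]
    field_simp
  have hEu : EisUnit R (algebraMap K F (c * (κ ^ p)⁻¹)) := by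
    rw [hE]
    exact (hg.mul hf.inv).mul (hW.pow p).inv
  obtain ⟨b, hb0, hb⟩ := hEu.eisRed_const
  have hg' : g = algebraMap K F (c * (κ ^ p)⁻¹) * (algebraMap K F κ * w) ^ p * f := by
    rw [hrel, map_mul, map_inv₀, map_pow, mul_pow]
    field_simp
  have hred : eisRed R g
      = algebraMap k Fk b * (eisRed R (algebraMap K F κ * w)) ^ p * eisRed R f := by
    rw [hg', eisRed_mul (mul_mem hEu.2.1 (hW.pow p).2.1) hf.2.1,
      eisRed_mul hEu.2.1 (hW.pow p).2.1, hb, hW.eisRed_pow]
  have hbF : algebraMap k Fk b ≠ 0 := (map_ne_zero _).mpr hb0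
  have hWr := hW.eisRed_ne_zero
  have hfr := hf.eisRed_ne_zero
  rw [← eisRed_of_mem hg.2.1, hred, Place.ord_mul Q (mul_ne_zero hbF (pow_ne_zero _ hWr)) hfr,
    Place.ord_mul Q hbF (pow_ne_zero _ hWr), wir_ord_algebraMap Q hb0, zero_add, du_ord_pow,
    eisRed_of_mem hf.2.1]
  have h3 : (p : ℤ) * Q.ord (eisRed R (algebraMap K F κ * w)) + Q.ord (R.red ⟨f, hf.2.1⟩) - δ =
      (p : ℤ) * Q.ord (eisRed R (algebraMap K F κ * w)) + (Q.ord (R.red ⟨f, hf.2.1⟩) - δ) := by
    ring
  rw [h3]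
  exact dvd_add (dvd_mul_right _ _) hord

end Abstract

end Fermat.Agent.S40lib
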