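import Mathlib
import Fermat.Agent.S36lib.Speed
import Fermat.Agent.S40lib.WindcTransfer

/-!
# Item 88 (S44), block (J-WILD), Layer B: the transfer `u₁ → u_x` in the shape of `S44jWildPt`
(helper15)

The per-point theorems (`s40j_pt_node`, `s40j_pt_smooth`) conclude for the Kummer function `u₁`
of the coordinates (`φ u₁ = Σ au_i π1 ^ i`) and EVERY constant `c₁` with `c₁ u₁ ∈ O`,
`red (c₁ u₁) ≠ 0`; the statement `S44jWildPt` asks the same for the GIVEN Kummer function `u_x`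
(`u_x = c₀ · w ^ p · u₁`, `gdf_isKummer_unique`).

* `wpt_eisUnit`   : `f ∈ O`, `red f ≠ 0` ⇒ `EisUnit R f`;
* `wpt_transfer`  : the conclusion with winding number `δ` passes from `u₁` to `u_x`;
* `wpt_transfer0` : the same without `δ` (non-supersingular places).
Complete proofs.
-/

set_option autoImplicit false
set_option linter.style.haveILetI false
set_option linter.unusedSectionVars false
set_option linter.unusedVariables false

noncomputable section

namespace Fermat.Agent.S40lib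

open Fermat.Agent.GalRep ModularCurve AlgebraicCurve Fermat.Agent.S31lib Fermat.Agent.S35lib
  Fermat.Agent.S33lib Fermat.Agent.S36lib Fermat.Agent.S24lib Fermat.Agent.S34lib
  Fermat.Agent.RRlib Fermat.Agent.GoodRed Fermat.Agent.S18lib Fermat.Agent.GM
  Fermat.Agent.HeckeBar HahnSeries

section Abstract

variable {K F k Fk : Type*} [Field K] [Field F] [Algebra K F] [Field k] [Field Fk] [Algebra k Fk]
variable {A : ValuationSubring K} {π : A →+* k} (R : ConstRed A π Fk F)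

/-- an element of `O` with non-zero reduction is a unit of `O` -/
theorem wpt_eisUnit {f : F} (h2 : f ∈ R.O) (h20 : R.red ⟨f, h2⟩ ≠ 0) : EisUnit R f := by
  have hnu : (f : F) ∉ R.O.nonunits := fun h => h20 ((R.red_eq_zero_iff ⟨f, h2⟩).2 h)
  have hf0 : f ≠ 0 := by
    rintro rfl
    apply h20
    have : (⟨0, h2⟩ : R.O) = 0 := rfl
    rw [this, map_zero]
  refine ⟨hf0, h2, ?_⟩
  by_contra hinv
  apply hnu
  rw [ValuationSubring.mem_nonunits_iff]
  have hv1 : R.O.valuation f ≤ 1 := (R.O.valuation_le_one_iff f).2 h2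
  rcases lt_or_eq_of_le hv1 with h | h
  · exact h
  · exfalso
    apply hinv
    rw [← R.O.valuation_le_one_iff, map_inv₀, h, inv_one]

/-- **the transfer `u₁ → u_x`** of the per-point conclusion with winding number `δ`. -/
theorem wpt_transfer (p : ℕ) (Q : Place k Fk) (δ : ℤ) (u1 ux : F) (hu1 : u1 ≠ 0)
    (c0 : K) (w : F) (hw : w ≠ 0) (hrel : ux = algebraMap K F c0 * w ^ p * u1)
    (h1 : ∀ (c₁ : K) (h2 : algebraMap K F c₁ * u1 ∈ R.O),
      R.red ⟨algebraMap K F c₁ * u1, h2⟩ ≠ 0 →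
      (p : ℤ) ∣ Q.ord (R.red ⟨algebraMap K F c₁ * u1, h2⟩) - δ)
    (c : K) (h2 : algebraMap K F c * ux ∈ R.O)
    (h20 : R.red ⟨algebraMap K F c * ux, h2⟩ ≠ 0) :
    (p : ℤ) ∣ Q.ord (R.red ⟨algebraMap K F c * ux, h2⟩) - δ := by
  have hg : EisUnit R (algebraMap K F c * ux) := wpt_eisUnit R h2 h20
  obtain ⟨κ, hκ0, hκ1, hκ2⟩ := R.exists_unit_smul u1 hu1
  have hκF : algebraMap K F κ ≠ 0 := (map_ne_zero _).mpr hκ0
  have hf : EisUnit R (algebraMap K F κ * u1) := ⟨mul_ne_zero hκF hu1, hκ1, hκ2⟩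
  have hrel' : algebraMap K F c * ux =
      algebraMap K F (c * c0 * κ⁻¹) * w ^ p * (algebraMap K F κ * u1) := by
    rw [hrel, map_mul, map_mul, map_inv₀]
    field_simp
  exact g2w_wind_transfer_delta R p hf hg (c * c0 * κ⁻¹) w hw hrel' Q δ
    (h1 κ hf.2.1 hf.red_ne_zero)

/-- **the transfer `u₁ → u_x`** of the per-point conclusion without winding number. -/
theorem wpt_transfer0 (p : ℕ) (Q : Place k Fk) (u1 ux : F) (hu1 : u1 ≠ 0)
    (c0 : K) (w : F) (hw : w ≠ 0) (hrel : ux = algebraMap K F c0 * w ^ p * u1)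
    (h1 : ∀ (c₁ : K) (h2 : algebraMap K F c₁ * u1 ∈ R.O),
      R.red ⟨algebraMap K F c₁ * u1, h2⟩ ≠ 0 →
      (p : ℤ) ∣ Q.ord (R.red ⟨algebraMap K F c₁ * u1, h2⟩))
    (c : K) (h2 : algebraMap K F c * ux ∈ R.O)
    (h20 : R.red ⟨algebraMap K F c * ux, h2⟩ ≠ 0) :
    (p : ℤ) ∣ Q.ord (R.red ⟨algebraMap K F c * ux, h2⟩) := by
  have h := wpt_transfer R p Q 0 u1 ux hu1 c0 w hw hrel
    (fun c₁ h2 h20 => by rw [sub_zero]; exact h1 c₁ h2 h20) c h2 h20
  rwa [sub_zero] at h

end Abstract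

end Fermat.Agent.S40lib

end
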