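import Mathlib
import Fermat.Agent.S36lib.Speed
import Fermat.Agent.S40lib.WindcX

/-!
# Item 88 (S40/S44), block (J-WILD): glue from `WindcX` to the per-point theorems (helper12)

* `wcx_hxyp`   : `x y = t ϖ` in `B` with `ϖ = constB (q : A)`  ⇒
                 `x_s y_s = t_s (q : B_s)` in `B_s` (= `hxyp` of `s40j_pt_node`);
* `wcx_hq`     : `algebraMap B B_s (constB (q : A)) = (q : B_s)`;
* `wcx_hNS`    : not supersingular ⇒ the hypothesis `hNS` of the smooth package
                 (as in `edc_windc`).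
(complete proofs; standard axioms only)
-/

set_option autoImplicit false
set_option linter.style.haveILetI false
set_option linter.unusedSectionVars false
set_option linter.unusedVariables false

noncomputable section

namespace Fermat.Agent.S40lib

open Fermat.Agent.S36lib
open AlgebraicCurve IsLocalRing

section Abs

universe u

variable {K : Type*} [Field K] {k : Type*} [Field k]
  {A : ValuationSubring K} {π : A →+* k} {κ : Type*} [Field κ] [Algebra k κ]
  {F : Type u} [Field F] [Algebra K F]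

/-- `constB (q : A)` is `(q : B_s)` in the local ring. -/
theorem wcx_hq (S : NodeSetup A π κ F) (s : Ideal S.B) [hs : s.IsPrime] (q : ℕ) :
    algebraMap S.B (Localization.AtPrime s) (S.constB ((q : ℕ) : A)) =
      ((q : ℕ) : Localization.AtPrime s) := by
  rw [map_natCast, map_natCast]

/-- **`hxyp` of `s40j_pt_node`** from the relation `x y = t ϖ`, `ϖ = constB q`. -/
theorem wcx_hxyp (S : NodeSetup A π κ F) (s : Ideal S.B) [hs : s.IsPrime] (q : ℕ)
    (x y t : S.B) (hxy : x * y = t * S.constB ((q : ℕ) : A)) :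
    algebraMap S.B (Localization.AtPrime s) x * algebraMap S.B (Localization.AtPrime s) y =
      algebraMap S.B (Localization.AtPrime s) t * ((q : ℕ) : Localization.AtPrime s) := by
  rw [← map_mul, hxy, map_mul, wcx_hq]

/-- a place which is not supersingular (for `r₁`, with respect to the ideal `P`) has the
hypothesis `hNS` of the smooth package. -/
theorem wcx_hNS {B : Type*} [CommRing B] (r₁ : B →+* κ) (P : Ideal B) (Q : Place k κ)
    (hord0 : ∀ c : B, 0 ≤ Q.ord (r₁ c))
    (hnSS : ¬ ∀ z ∈ P, r₁ z = 0 ∨ 0 < Q.ord (r₁ z)) :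
    ∃ z ∈ P, r₁ z ≠ 0 ∧ Q.ord (r₁ z) = 0 := by
  rw [not_forall] at hnSS
  obtain ⟨z, hz⟩ := hnSS
  rw [Classical.not_imp] at hz
  obtain ⟨hzp, hzn⟩ := hz
  rw [not_or] at hzn
  have h0 := hord0 z
  exact ⟨z, hzp, hzn.1, by have := hzn.2; omega⟩

end Abs

section Conc

open Fermat.Agent.FFlib Fermat.Agent.S24lib Fermat.Agent.GM Fermat.Agent.GoodRed
  Fermat.Agent.S34lib Fermat.Agent.RRlib Fermat.Agent.S16lib
open IntermediateField IsDedekindDomain ModularCurve

variable (A : ValuationSubring Kbar) (M' q : ℕ) [NeZero M'] [NeZero q] (hq : q.Prime)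
  (hqM : ¬ q ∣ M') (hA : A.LiesOverPrime q)
  (R : ConstRed A (IsLocalRing.residue A)
      (↥(modularFunctionFieldFullC (IsLocalRing.ResidueField A) M')) (FF (M' * q)))
  (hR : IsSeriesRed R)

/-- **`hNS` on the component `∞`** from "not supersingular". -/
theorem wcx_hNS_inf
    (Q : Place (IsLocalRing.ResidueField A) (Fk (IsLocalRing.ResidueField A) M'))
    (hQ : 0 ≤ Q.ord (jk (IsLocalRing.ResidueField A) M'))
    (hnSS : ¬ ∀ z ∈ (nodeSetupNj A M' q hq hqM hA R hR).pZero,
      (nodeSetupNj A M' q hq hqM hA R hR).redInf z = 0 ∨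
        0 < Q.ord ((nodeSetupNj A M' q hq hqM hA R hR).redInf z)) :
    ∃ z ∈ (nodeSetupNj A M' q hq hqM hA R hR).pZero,
      (nodeSetupNj A M' q hq hqM hA R hR).redInf z ≠ 0 ∧
        Q.ord ((nodeSetupNj A M' q hq hqM hA R hR).redInf z) = 0 := by
  have hSUM : RgnSum A M' q hq hqM R := fun z h1 h3 => w2j_rgnSum A M' q hq hqM hA R hR z h1 h3
  haveI : IsAlgClosed (IsLocalRing.ResidueField A) := isAlgClosed_residueField A
  haveI : FFSep (IsLocalRing.ResidueField A) (jk (IsLocalRing.ResidueField A) M') :=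
    gmw_ffSep (IsLocalRing.ResidueField A) M'
  exact wcx_hNS (nodeSetupNj A M' q hq hqM hA R hR).redInf (nodeSetupNj A M' q hq hqM hA R hR).pZero Q
    (fun z => ffOrd_nonneg_of_mem Q (fsS_le Q hQ _ (rgn_hiInf A M' q hq hqM hA R hR hSUM z)))
    hnSS

/-- **`hNS` on the component `0`** from "not supersingular". -/
theorem wcx_hNS_zero
    (Q : Place (IsLocalRing.ResidueField A) (Fk (IsLocalRing.ResidueField A) M'))
    (hQ : 0 ≤ Q.ord (jk (IsLocalRing.ResidueField A) M'))
    (hnSS : ¬ ∀ z ∈ (nodeSetupNj A M' q hq hqM hA R hR).pInf,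
      (nodeSetupNj A M' q hq hqM hA R hR).redZero z = 0 ∨
        0 < Q.ord ((nodeSetupNj A M' q hq hqM hA R hR).redZero z)) :
    ∃ z ∈ (nodeSetupNj A M' q hq hqM hA R hR).pInf,
      (nodeSetupNj A M' q hq hqM hA R hR).redZero z ≠ 0 ∧
        Q.ord ((nodeSetupNj A M' q hq hqM hA R hR).redZero z) = 0 := by
  have hSUM : RgnSum A M' q hq hqM R := fun z h1 h3 => w2j_rgnSum A M' q hq hqM hA R hR z h1 h3
  haveI : IsAlgClosed (IsLocalRing.ResidueField A) := isAlgClosed_residueField A
  haveI : FFSep (IsLocalRing.ResidueField A) (jk (IsLocalRing.ResidueField A) M') :=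
    gmw_ffSep (IsLocalRing.ResidueField A) M'
  exact wcx_hNS (nodeSetupNj A M' q hq hqM hA R hR).redZero (nodeSetupNj A M' q hq hqM hA R hR).pInf Q
    (fun z => ffOrd_nonneg_of_mem Q (fsS_le Q hQ _ (rgn_hiZero A M' q hq hqM hA R hR hSUM z)))
    hnSS

/-- `constB (q : A0)` is `(q : B_s)`, level `N = M' q`. -/
theorem wcx_hq_Nj (s : Ideal (nodeSetupNj A M' q hq hqM hA R hR).B) [hs : s.IsPrime] :
    algebraMap (nodeSetupNj A M' q hq hqM hA R hR).B (Localization.AtPrime s)
      ((nodeSetupNj A M' q hq hqM hA R hR).constB (q : k0Val A)) =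
      ((q : ℕ) : Localization.AtPrime s) :=
  wcx_hq (nodeSetupNj A M' q hq hqM hA R hR) s q

/-- **`hxyp` of `s40j_pt_node`**, level `N = M' q`. -/
theorem wcx_hxyp_Nj (s : Ideal (nodeSetupNj A M' q hq hqM hA R hR).B) [hs : s.IsPrime]
    (x y t : (nodeSetupNj A M' q hq hqM hA R hR).B)
    (hxy : x * y = t * (nodeSetupNj A M' q hq hqM hA R hR).constB (q : k0Val A)) :
    algebraMap (nodeSetupNj A M' q hq hqM hA R hR).B (Localization.AtPrime s) x *
        algebraMap (nodeSetupNj A M' q hq hqM hA R hR).B (Localization.AtPrime s) y =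
      algebraMap (nodeSetupNj A M' q hq hqM hA R hR).B (Localization.AtPrime s) t *
        ((q : ℕ) : Localization.AtPrime s) :=
  wcx_hxyp (nodeSetupNj A M' q hq hqM hA R hR) s q x y t hxy

end Conc

end Fermat.Agent.S40lib
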