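/-
Item 88 (S44), block (J-WILD), (Z') / (R1): the `I₁`-RATIONAL NORMAL FORM, assembled (helper19).

(Z1) `wk2_input` (helper5, WildKer2.lean: the `I₁`-fixed (KER2) input) +
`rck_kummer` (helper29, RatKummer.lean = `wtr_kummer` with the gluing package and the
`I₁`-stable divisor `D₂` discharged) + Kummer-newness from `degJAlpha = degJBeta = 0`:

* `wzn_omega_one`  : an exponent `w` with `ζ ^ w = ζ` (`ζ` primitive) acts trivially on a class
                     killed by `p`;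
* `wzn_level`      : at the level `M p` (`M` auxiliary): a class `t` killed by `p` on which the
                     inertia group acts through the mod `p` cyclotomic character, with a
                     Kummer-new Kummer function, has the Kummer function
                     `u₂ = 1 + (ζ - 1) ^ p g` of `-t` with `g` FIXED by `I₁`,
                     `g ∈ O_R ∩ O_{R₀}`, regular off the two cusps `∞`, `0`;
* `wzn_normal`     : the same for the pull-back to the auxiliary level of a `p`-new class `t` of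
                     level `M' p` (the situation of `S40jWildWind` / `cvw_wild`).
-/
import Mathlib
import Fermat.Agent.S36lib.Speed
import Fermat.Agent.S40lib.WildKer2
import Fermat.Agent.S40lib.RatKummer
import Fermat.Agent.S40lib.TameAsm
import Fermat.Agent.S40lib.WildCoord2

set_option autoImplicit false
set_option linter.style.haveILetI false
set_option linter.unusedVariables false
set_option linter.unusedSectionVars false
set_option synthInstance.maxHeartbeats 400000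

noncomputable section

namespace Fermat.Agent.S40lib

open AlgebraicCurve Fermat.Agent.GoodRed ModularCurve HahnSeries Fermat.Agent.S24lib
  Fermat.Agent.RRlib Fermat.Agent.GM Fermat.Agent.S34lib Fermat.Agent.S35lib
  Fermat.Agent.S36lib Fermat.Agent.S33lib Fermat.Agent.GalRep Fermat.Agent.HeckeBar
  Fermat.Agent.S31lib Fermat.Agent.S18lib

/-- an exponent `w` with `ζ ^ w = ζ` is `≡ 1 mod p` -/
theorem wzn_dvd_of_pow {p : ℕ} (hp : p.Prime) {ζ : Kbar} (hζ : IsPrimitiveRoot ζ p) {w : ℕ}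
    (h : ζ ^ w = ζ) : (p : ℤ) ∣ (w : ℤ) - 1 := by
  have h1 : ζ ^ w = ζ ^ 1 := by rw [pow_one]; exact h
  have h2 := (wcd_pow_eq_iff hζ hp.pos w 1).mp h1
  have h3 := (Nat.modEq_iff_dvd.mp h2)
  have h4 : ((1 : ℕ) : ℤ) - (w : ℤ) = -((w : ℤ) - 1) := by push_cast; ring
  rw [h4] at h3
  exact (dvd_neg.mp h3)

/-- `w ≡ 1 mod p` acts trivially on a class killed by `p` -/
theorem wzn_nsmul_of_dvd {V : Type*} [AddCommGroup V] {p : ℕ} {w : ℕ} (t : V) (hpt : p • t = 0)
    (h : (p : ℤ) ∣ (w : ℤ) - 1) : w • t = t := by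
  obtain ⟨c, hc⟩ := h
  have h1 : (w : ℤ) = 1 + (p : ℤ) * c := by rw [← hc]; ring
  have h2 : (w : ℤ) • t = t := by
    rw [h1, add_smul, one_smul, mul_comm, mul_smul, natCast_zsmul, hpt, smul_zero, add_zero]
  rw [natCast_zsmul] at h2
  exact h2

section Level

variable (M p : ℕ) [NeZero M] [NeZero p] [NeZero (M * p)]

set_option maxHeartbeats 2000000 in
/-- **(Z') / (R1), at the level `M p`**. -/
theorem wzn_level (hp : p.Prime) (hp2 : p ≠ 2) (haux : IsAuxLevel p M)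
    {A : ValuationSubring Kbar} (hA : A.LiesOverPrime p)
    (R : ConstRed A (IsLocalRing.residue A)
      (↥(modularFunctionFieldFullC (IsLocalRing.ResidueField A) M)) (FF (M * p)))
    (hR : IsSeriesRed R) {ζ : Kbar} (hζ : IsPrimitiveRoot ζ p) :
    letI : RRBase Kbar (FF (M * p)) := (mod_rrHyp (M * p)).toRRBase
    ∀ (t : JZero (M * p)) (ut : FF (M * p)), gdfIsKummer (K := Kbar) p t ut →
    p • t = 0 → IsKummerNew M p p ut →
    (∀ τ ∈ A.inertiaSubgroupIn ℚ, ∃ w : ℕ, τ • t = w • t ∧ τ ζ = ζ ^ w) →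
    ∃ g : FF (M * p), (∀ σ ∈ S40hI1 p A, galFF (M * p) σ • g = g) ∧
      g ∈ cxiB (infPlaceBar (M * p))
        (cuspZero (M * p) p hp (dvd_mul_left p M) (inf_not_sq_dvd M p hp haux.1)) ∧
      g ∈ R.O ∧ g ∈ (glmZero M p hp haux.1 R).O ∧
      gdfIsKummer (K := Kbar) p (-t) (1 + algebraMap Kbar (FF (M * p)) ((ζ - 1) ^ p) * g) ∧
      ∀ σ ∈ S40hI1 p A, galFF (M * p) σ •
        (1 + algebraMap Kbar (FF (M * p)) ((ζ - 1) ^ p) * g) =
          1 + algebraMap Kbar (FF (M * p)) ((ζ - 1) ^ p) * g := by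
  haveI : RRHyp Kbar (FF (M * p)) := mod_rrHyp (M * p)
  haveI : Fact p.Prime := ⟨hp⟩
  intro t ut ht hpt hnew hω
  -- `I₁` fixes `t`
  have hI1 : ∀ σ ∈ S40hI1 p A, galFF (M * p) σ • t = t := by
    intro σ hσ
    obtain ⟨w, hw, hwζ⟩ := hω σ hσ.1
    have h1 : ζ ^ w = ζ := by rw [← hwζ]; exact hσ.2 ζ hζ.pow_eq_one
    exact hw.trans (wzn_nsmul_of_dvd t hpt (wzn_dvd_of_pow hp hζ h1))
  -- an inertia element acting by `w ≢ 1`
  obtain ⟨τ₀, hτ₀, -, hsq⟩ := cysp_exists_moves p hp2 A hA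
  obtain ⟨w, hw, hwζ⟩ := hω τ₀ hτ₀
  have hwne : ¬ (p : ℤ) ∣ (w : ℤ) - 1 := by
    intro hdvd
    have h1 : ζ ^ w = ζ := by
      obtain ⟨c, hc⟩ := hdvd
      have h2 : (w : ℤ) = 1 + (p : ℤ) * c := by rw [← hc]; ring
      have h3 : ζ ^ (w : ℤ) = ζ := by
        rw [h2, zpow_add₀ (hζ.ne_zero hp.ne_zero), zpow_one, zpow_mul, zpow_natCast,
          hζ.pow_eq_one, one_zpow, mul_one]
      rw [zpow_natCast] at h3
      exact h3
    have h4 : τ₀ ζ = ζ := by rw [hwζ, h1]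
    have h5 : τ₀ ζ = ζ ^ 2 := hsq ζ hζ.pow_eq_one
    have h6 : ζ ^ 2 = ζ ^ 1 := by rw [pow_one, ← h5, h4]
    have h7 := (wcd_pow_eq_iff hζ hp.pos 2 1).mp h6
    have h8 : (p : ℤ) ∣ ((1 : ℕ) : ℤ) - ((2 : ℕ) : ℤ) := Nat.modEq_iff_dvd.mp h7
    have h9 : ((1 : ℕ) : ℤ) - ((2 : ℕ) : ℤ) = -1 := by norm_num
    rw [h9] at h8
    have h10 : (p : ℤ) ∣ 1 := (dvd_neg.mp h8)
    have h11 : p ∣ 1 := Int.natCast_dvd_natCast.mp (by exact_mod_cast h10)
    exact hp.one_lt.ne' (Nat.dvd_one.mp h11)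
  obtain ⟨E, u, hE, hEH, hk, huH, hu₁, hu₂, hdiv⟩ :=
    wk2_input M p hp haux.1 A hA R hR hζ t ut ht hpt hI1 τ₀ hτ₀ w hw hwne
  have hnewu : IsKummerNew M p p u := by
    obtain ⟨c, s, -, -, hcs⟩ := gdf_isKummer_unique ht hk
    rw [hcs]
    exact tas_isKummerNew_mul_pow hnew c s
  exact rck_kummer M p hp hp2 haux hA R hR hζ E hE hEH t u hk huH hu₁ hu₂ hdiv hnewu

end Level

section Pull

variable (M' M p : ℕ) [NeZero M'] [NeZero M] [NeZero p] [NeZero (M' * p)] [NeZero (M * p)]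

set_option maxHeartbeats 2000000 in
/-- **(Z') / (R1) for the pull-back of a `p`-new class of level `M' p`**: the class `t` of
`S40jWildWind` (inertia acts through `ω`) has, at the auxiliary level, the Kummer function
`u₂ = 1 + (ζ - 1) ^ p g` of `-t` with `g` fixed by `I₁`. -/
theorem wzn_normal (hp : p.Prime) (hp2 : p ≠ 2) (haux : IsAuxLevel p M) (hdvd : M' ∣ M)
    {A : ValuationSubring Kbar} (hA : A.LiesOverPrime p)
    (R : ConstRed A (IsLocalRing.residue A)
      (↥(modularFunctionFieldFullC (IsLocalRing.ResidueField A) M)) (FF (M * p)))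
    (hR : IsSeriesRed R) {ζ : Kbar} (hζ : IsPrimitiveRoot ζ p)
    (t : JZero (M' * p)) (hpt : p • t = 0)
    (hα : degJAlpha M' p t = 0) (hβ : degJBeta M' p t = 0)
    (hω : ∀ τ ∈ A.inertiaSubgroupIn ℚ, ∃ w : ℕ, τ • t = w • t ∧
      ∀ ξ : Kbar, ξ ^ p = 1 → τ ξ = ξ ^ w) :
    letI : RRBase Kbar (FF (M * p)) := (mod_rrHyp (M * p)).toRRBase
    ∃ g : FF (M * p), (∀ σ ∈ S40hI1 p A, galFF (M * p) σ • g = g) ∧
      g ∈ cxiB (infPlaceBar (M * p))
        (cuspZero (M * p) p hp (dvd_mul_left p M) (inf_not_sq_dvd M p hp haux.1)) ∧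
      g ∈ R.O ∧ g ∈ (glmZero M p hp haux.1 R).O ∧
      gdfIsKummer (K := Kbar) p
        (-(auxLevelPull (M' * p) (M * p) (Nat.mul_dvd_mul_right hdvd p) t))
        (1 + algebraMap Kbar (FF (M * p)) ((ζ - 1) ^ p) * g) ∧
      ∀ σ ∈ S40hI1 p A, galFF (M * p) σ •
        (1 + algebraMap Kbar (FF (M * p)) ((ζ - 1) ^ p) * g) =
          1 + algebraMap Kbar (FF (M * p)) ((ζ - 1) ^ p) * g := by
  haveI : RRHyp Kbar (FF (M * p)) := mod_rrHyp (M * p)
  haveI : RRHyp Kbar (FF (M' * p)) := mod_rrHyp (M' * p)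
  haveI : HasPrincipalDivisors Kbar (FF (M * p)) := wir_hasPrincipalDivisors (M * p)
  haveI : HasPrincipalDivisors Kbar (FF (M' * p)) := wir_hasPrincipalDivisors (M' * p)
  have hNM : M' * p ∣ M * p := Nat.mul_dvd_mul_right hdvd p
  obtain ⟨D, rfl⟩ := Pic0.mk_surjective t
  obtain ⟨u, hu0, hDu⟩ := tax_exists_kummer (M' * p) p D hpt
  have hnew : IsKummerNew M' p p u := isKummerNew_of_degJ_eq_zero M' D p hu0 hDu hα hβ
  have hnew' := dk_isKummerNew_incl M' M p hp haux.1 hdvd p u hnew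
  have hk := tma_pull_kummer M' p M hdvd D u hu0 hDu
  have hpt' : p • auxLevelPull (M' * p) (M * p) hNM (Pic0.mk D) = 0 := by
    rw [← map_nsmul, hpt, map_zero]
  refine wzn_level M p hp hp2 haux hA R hR hζ _ _ hk hpt' hnew' ?_
  intro τ hτ
  obtain ⟨w, hw, hwζ⟩ := hω τ hτ
  refine ⟨w, ?_, hwζ ζ hζ.pow_eq_one⟩
  rw [← auxLevelPull_smul, hw, map_nsmul]

end Pull

end Fermat.Agent.S40lib

end
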