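import Mathlib
import Fermat.Agent.S36lib.Speed
import Fermat.Agent.S40lib.WildZNormal
import Fermat.Agent.S40lib.LcAsmI1
import Fermat.Agent.S40lib.KumEig
import Fermat.Agent.S40lib.HeckePull2
import Fermat.Agent.S40lib.TameWindAsm
import Fermat.Agent.S40lib.CovConc

/-!
# Item 88 (S44), block (J-WILD): the input (ZINST) of the final assembler (helper9)

At the binders of `S44jWildWindC2`: `t ∈ V` (inertia acts through `ω`), `ut` a Kummer function of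
the pull-back `t̃` of `t` to the auxiliary level, `U ^ p = ut`, `EY = cvcAdj (FF (M p)) U`, deck
map `σY` with `σY U = ζ U`.

* `zin_core` (algebra in `EY`): `u₂ = c · w ^ p · ut`, `d ^ p = c`  ⇒  `U₂ := d · w · U ∈ EY`
  has `U₂ ^ p = u₂`, `σY U₂ = ζ U₂`, and `z := (U₂ - 1)/(ζ - 1)` has `1 + (ζ - 1) z = U₂`;
* `zin_main`: `wzn_normal` (applied to `-t`) gives `g` fixed by `I₁`, integral at both Gauss
  valuations, regular off the cusps, with `u₂ = 1 + (ζ - 1) ^ p g` a Kummer function of `t̃`; then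
  `z ∈ EY` with `(1 + (ζ - 1) z) ^ p = u₂`, `σY (1 + (ζ - 1) z) = ζ (1 + (ζ - 1) z)` (`hσU` of
  `cve0c_main`) and `z` fixed coefficientwise by every inertia element fixing `ζ` (`hz1` of
  `cve0c_main`; from `lci_main_gal` = (Z2) with the norm relation `kme_norm_rel`).
All proofs complete.
-/

set_option autoImplicit false
set_option linter.style.haveILetI false
set_option linter.unusedSectionVars false
set_option linter.unusedVariables false
set_option synthInstance.maxHeartbeats 400000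
set_option maxHeartbeats 1000000

noncomputable section

namespace Fermat.Agent.S40lib

open Fermat.Agent.GalRep ModularCurve AlgebraicCurve Fermat.Agent.S31lib Fermat.Agent.S35lib
  Fermat.Agent.S33lib Fermat.Agent.S36lib Fermat.Agent.S24lib Fermat.Agent.S34lib
  Fermat.Agent.RRlib Fermat.Agent.GoodRed Fermat.Agent.S18lib Fermat.Agent.GM
  Fermat.Agent.HeckeBar HahnSeries

section Core

variable (F : IntermediateField Kbar (LaurentSeries Kbar)) (U : LaurentSeries Kbar)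

/-- **(ZINST), algebra in `EY`.** -/
theorem zin_core {p : ℕ} {ζ : Kbar} (hζ1 : ζ ≠ 1)
    (σY : ↥(cvcAdj F U) →+* ↥(cvcAdj F U))
    (hσK : ∀ c : Kbar, σY (algebraMap Kbar ↥(cvcAdj F U) c) = algebraMap Kbar ↥(cvcAdj F U) c)
    (hσF : ∀ f : F, σY ⟨(f : LaurentSeries Kbar), cvc_le_adj F U f.2⟩ =
      ⟨(f : LaurentSeries Kbar), cvc_le_adj F U f.2⟩)
    (hσU : σY ⟨U, cvc_mem_adj F U⟩ =
      algebraMap Kbar ↥(cvcAdj F U) ζ * ⟨U, cvc_mem_adj F U⟩)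
    (ut u₂ w : F) (c d : Kbar) (hU : U ^ p = (ut : LaurentSeries Kbar))
    (hd : d ^ p = c) (hrel : u₂ = algebraMap Kbar F c * w ^ p * ut) :
    ∃ z : ↥(cvcAdj F U),
      ((1 + (algebraMap Kbar ↥(cvcAdj F U) ζ - 1) * z : ↥(cvcAdj F U)) : LaurentSeries Kbar) =
        algebraMap Kbar (LaurentSeries Kbar) d * (w : LaurentSeries Kbar) * U ∧
      (((1 + (algebraMap Kbar ↥(cvcAdj F U) ζ - 1) * z) ^ p : ↥(cvcAdj F U)) :
        LaurentSeries Kbar) = (u₂ : LaurentSeries Kbar) ∧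
      σY (1 + (algebraMap Kbar ↥(cvcAdj F U) ζ - 1) * z) =
        algebraMap Kbar ↥(cvcAdj F U) ζ * (1 + (algebraMap Kbar ↥(cvcAdj F U) ζ - 1) * z) := by
  let wE : ↥(cvcAdj F U) := ⟨(w : LaurentSeries Kbar), cvc_le_adj F U w.2⟩
  let UE : ↥(cvcAdj F U) := ⟨U, cvc_mem_adj F U⟩
  let U₂ : ↥(cvcAdj F U) := algebraMap Kbar ↥(cvcAdj F U) d * wE * UE
  have hlam : (algebraMap Kbar ↥(cvcAdj F U) ζ - 1) ≠ 0 := by
    intro h
    apply hζ1
    have h1 : algebraMap Kbar ↥(cvcAdj F U) ζ = algebraMap Kbar ↥(cvcAdj F U) 1 := by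
      rw [map_one]
      exact sub_eq_zero.mp h
    exact (algebraMap Kbar ↥(cvcAdj F U)).injective h1
  have hz : 1 + (algebraMap Kbar ↥(cvcAdj F U) ζ - 1) *
      ((algebraMap Kbar ↥(cvcAdj F U) ζ - 1)⁻¹ * (U₂ - 1)) = U₂ := by
    rw [← mul_assoc, mul_inv_cancel₀ hlam, one_mul]
    ring
  refine ⟨(algebraMap Kbar ↥(cvcAdj F U) ζ - 1)⁻¹ * (U₂ - 1), ?_, ?_, ?_⟩
  · rw [hz]
    rfl
  · rw [hz]
    show (algebraMap Kbar (LaurentSeries Kbar) d * (w : LaurentSeries Kbar) * U) ^ p = _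
    rw [mul_pow, mul_pow, ← map_pow, hd, hU, hrel]
    rfl
  · rw [hz]
    show σY (algebraMap Kbar ↥(cvcAdj F U) d * wE * UE) = _
    rw [map_mul, map_mul, hσK, hσF w, hσU]
    show algebraMap Kbar ↥(cvcAdj F U) d * wE * (algebraMap Kbar ↥(cvcAdj F U) ζ * UE) =
      algebraMap Kbar ↥(cvcAdj F U) ζ * (algebraMap Kbar ↥(cvcAdj F U) d * wE * UE)
    ring

end Core

section Main

variable (M' p : ℕ) [NeZero M'] [NeZero p] [NeZero (M' * p)]

/-- **(ZINST)**: the element `z` of the cover field with all its properties. -/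
theorem zin_main (hp : p.Prime) (hp2 : p ≠ 2) (hpM' : ¬ p ∣ M')
    (B : ValuationSubring (AlgebraicClosure ℚ)) (hB : B.LiesOverPrime p)
    (S : Finset ℕ) (a : ℕ → ℤ) (V : AddSubgroup (JZero (M' * p)))
    (hS : ∀ ℓ : ℕ, ℓ.Prime → ℓ ∣ M' * p → ℓ ∈ S) (h2S : 2 ∈ S)
    (hVp : ∀ x ∈ V, p • x = 0)
    (hEig : S40hEig (M' * p) S a V) (hNot : S40hNotAt M' p S a)
    (hnE : ∃ ℓ : Nat.Primes, (ℓ : ℕ) ∉ S ∧ ¬ (p : ℤ) ∣ a ℓ - (1 + (ℓ : ℕ)))
    (t : JZero (M' * p)) (htV : t ∈ V)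
    (hω : ∀ τ ∈ B.inertiaSubgroupIn ℚ, ∃ w : ℕ, τ • t = w • t ∧
      ∀ ξ : Kbar, ξ ^ p = 1 → τ ξ = ξ ^ w)
    (M : ℕ) [NeZero M] [NeZero (M * p)] (hdvd : M' ∣ M) (haux : IsAuxLevel p M)
    (hM : M = Nat.lcm M' (baseLevel p))
    (ζ : Kbar) (hζ : IsPrimitiveRoot ζ p)
    (ut : modularFunctionFieldBar (M * p))
    (hut : letI : RRBase Kbar (modularFunctionFieldBar (M * p)) := (mod_rrHyp (M * p)).toRRBase
      gdfIsKummer (K := Kbar) p
        (auxLevelPull (M' * p) (M * p) (Nat.mul_dvd_mul_right hdvd p) t) ut)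
    (U : LaurentSeries Kbar) (hU : U ^ p = (ut : LaurentSeries Kbar))
    (σY : ↥(cvcAdj (modularFunctionFieldBar (M * p)) U) →+*
      ↥(cvcAdj (modularFunctionFieldBar (M * p)) U))
    (hσK : ∀ c : Kbar, σY (algebraMap Kbar ↥(cvcAdj (modularFunctionFieldBar (M * p)) U) c) =
      algebraMap Kbar ↥(cvcAdj (modularFunctionFieldBar (M * p)) U) c)
    (hσF : ∀ f : modularFunctionFieldBar (M * p),
      σY ⟨(f : LaurentSeries Kbar), cvc_le_adj (modularFunctionFieldBar (M * p)) U f.2⟩ =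
        ⟨(f : LaurentSeries Kbar), cvc_le_adj (modularFunctionFieldBar (M * p)) U f.2⟩)
    (hσU : σY ⟨U, cvc_mem_adj (modularFunctionFieldBar (M * p)) U⟩ =
      algebraMap Kbar ↥(cvcAdj (modularFunctionFieldBar (M * p)) U) ζ *
        ⟨U, cvc_mem_adj (modularFunctionFieldBar (M * p)) U⟩)
    (R : ConstRed B (IsLocalRing.residue B)
      (↥(modularFunctionFieldFullC (IsLocalRing.ResidueField B) M)) (FF (M * p)))
    (hR : IsSeriesRed R) :
    letI : RRBase Kbar (FF (M * p)) := (mod_rrHyp (M * p)).toRRBase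
    ∃ (g : FF (M * p)) (z : ↥(cvcAdj (modularFunctionFieldBar (M * p)) U)),
      (∀ σ ∈ S40hI1 p B, galFF (M * p) σ • g = g) ∧
      g ∈ cxiB (infPlaceBar (M * p))
        (cuspZero (M * p) p hp (dvd_mul_left p M) (inf_not_sq_dvd M p hp haux.1)) ∧
      g ∈ R.O ∧ g ∈ (glmZero M p hp haux.1 R).O ∧
      gdfIsKummer (K := Kbar) p
        (auxLevelPull (M' * p) (M * p) (Nat.mul_dvd_mul_right hdvd p) t)
        (1 + algebraMap Kbar (FF (M * p)) ((ζ - 1) ^ p) * g) ∧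
      (((1 + (algebraMap Kbar ↥(cvcAdj (modularFunctionFieldBar (M * p)) U) ζ - 1) * z) ^ p :
          ↥(cvcAdj (modularFunctionFieldBar (M * p)) U)) : LaurentSeries Kbar) =
        ((1 + algebraMap Kbar (FF (M * p)) ((ζ - 1) ^ p) * g : FF (M * p)) :
          LaurentSeries Kbar) ∧
      (∀ τ ∈ B.inertiaSubgroupIn ℚ, τ ζ = ζ →
        coeffMap ((τ : Kbar ≃ₐ[ℚ] Kbar) : Kbar →+* Kbar) (z : LaurentSeries Kbar) =
          (z : LaurentSeries Kbar)) ∧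
      σY (1 + (algebraMap Kbar ↥(cvcAdj (modularFunctionFieldBar (M * p)) U) ζ - 1) * z) =
        algebraMap Kbar ↥(cvcAdj (modularFunctionFieldBar (M * p)) U) ζ *
          (1 + (algebraMap Kbar ↥(cvcAdj (modularFunctionFieldBar (M * p)) U) ζ - 1) * z) := by
  haveI : RRBase Kbar (FF (M' * p)) := (mod_rrHyp (M' * p)).toRRBase
  letI : RRBase Kbar (FF (M * p)) := (mod_rrHyp (M * p)).toRRBase
  have hNM : M' * p ∣ M * p := Nat.mul_dvd_mul_right hdvd p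
  -- the prime `ℓ`
  obtain ⟨ℓ, hℓS, hcop⟩ := hnE
  have hℓ : (ℓ : ℕ).Prime := ℓ.2
  have hpM : ¬ p ∣ M := haux.1
  have hℓ2 : (ℓ : ℕ) ≠ 2 := fun h => hℓS (by rw [h]; exact h2S)
  have hℓp : (ℓ : ℕ) ≠ p := fun h => hℓS (hS _ hℓ (by rw [h]; exact dvd_mul_left p M'))
  have hℓM' : ¬ (ℓ : ℕ) ∣ M' := fun h => hℓS (hS _ hℓ (h.trans (dvd_mul_right M' p)))
  have hb4 : baseLevel p = 4 := by
    unfold baseLevel
    rw [if_neg hp2]
  have hℓM : ¬ (ℓ : ℕ) ∣ M := by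
    rw [hM, hb4]
    exact twa_not_dvd_lcm M' hℓ hℓ2 hℓM'
  have hℓN : ¬ (ℓ : ℕ) ∣ M * p := by
    intro h
    rcases (Nat.Prime.dvd_mul hℓ).mp h with h1 | h1
    · exact hℓM h1
    · exact hℓp ((Nat.prime_dvd_prime_iff_eq hℓ hp).mp h1)
  haveI : NeZero (ℓ : ℕ) := ⟨hℓ.ne_zero⟩
  -- the normal form for `-t`
  have hpt : p • t = 0 := hVp t htV
  have hnt : -t ∈ V := V.neg_mem htV
  obtain ⟨hα, hβ⟩ := s40h_new_of_notAt M' p hp hpM' S a V hS hVp hEig hNot (-t) hnt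
  have hω' : ∀ τ ∈ B.inertiaSubgroupIn ℚ, ∃ w : ℕ, τ • (-t) = w • (-t) ∧
      ∀ ξ : Kbar, ξ ^ p = 1 → τ ξ = ξ ^ w := by
    intro τ hτ
    obtain ⟨w, hw, hwξ⟩ := hω τ hτ
    exact ⟨w, by rw [smul_neg, hw, neg_nsmul], hwξ⟩
  obtain ⟨g, hgI, hgB, hgO, hgO0, hk, hgal⟩ :=
    wzn_normal M' M p hp hp2 haux hdvd hB R hR hζ (-t) (hVp _ hnt)
      hα hβ hω'
  have hk₂ : gdfIsKummer (K := Kbar) p (auxLevelPull (M' * p) (M * p) hNM t)
      (1 + algebraMap Kbar (FF (M * p)) ((ζ - 1) ^ p) * g) := by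
    have e : -(auxLevelPull (M' * p) (M * p) hNM) (-t) = auxLevelPull (M' * p) (M * p) hNM t := by
      rw [map_neg, neg_neg]
    rw [← e]
    exact hk
  -- comparison with the given Kummer function
  obtain ⟨c, w, hc0, hw0, hrel⟩ := gdf_isKummer_unique hut hk₂
  obtain ⟨d, hd⟩ := IsAlgClosed.exists_pow_nat_eq c hp.pos
  have hζ1 : ζ ≠ 1 := hζ.ne_one hp.one_lt
  obtain ⟨z, hz1, hzp, hzσ⟩ := zin_core (modularFunctionFieldBar (M * p)) U hζ1 σY hσK hσF hσU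
    ut (1 + algebraMap Kbar (FF (M * p)) ((ζ - 1) ^ p) * g) w c d hU hd
    (by rw [hrel])
  refine ⟨g, z, hgI, hgB, hgO, hgO0, hk₂, hzp, ?_, hzσ⟩
  -- the fixedness: (Z2)
  intro τ hτ hτζ
  have hτI1 : τ ∈ S40hI1 p B := by
    refine ⟨hτ, fun ξ hξ => ?_⟩
    obtain ⟨i, -, rfl⟩ := hζ.eq_pow_of_pow_eq_one hξ
    rw [map_pow, hτζ]
  -- the eigen-relation at the auxiliary level
  obtain ⟨D, rfl⟩ := Pic0.mk_surjective t
  obtain ⟨u, hu0, hDu⟩ := tax_exists_kummer (M' * p) p D hpt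
  have hx : gdfIsKummer (K := Kbar) p (Pic0.mk D) u := gdf_isKummer_of_ord hu0 D rfl hDu
  have heig : heckeOperatorBar (M * p) ⟨(ℓ : ℕ), hℓ⟩
      (auxLevelPull (M' * p) (M * p) hNM (Pic0.mk D)) =
        a ℓ • auxLevelPull (M' * p) (M * p) hNM (Pic0.mk D) :=
    hpl_heig (M' * p) (M * p) hNM ℓ hℓN hp.ne_zero hx (a ℓ) (hEig ℓ hℓS _ htV)
  obtain ⟨D₂, hD₂, hord₂⟩ := gdf_isKummer_ord hk₂
  obtain ⟨c', h', hc', hh', hnorm⟩ := kme_norm_rel (M * p) (ℓ : ℕ) hℓ p (a ℓ) _ heig D₂ hD₂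
    (1 + algebraMap Kbar (FF (M * p)) ((ζ - 1) ^ p) * g) hk₂.1 hord₂
  have hcop' : ¬ (p : ℤ) ∣ (((ℓ : ℕ) : ℤ) + 1 - a ℓ) := by
    intro h
    apply hcop
    have e : a ℓ - (1 + ((ℓ : ℕ) : ℤ)) = -((((ℓ : ℕ) : ℤ)) + 1 - a ℓ) := by ring
    rw [e]
    exact (dvd_neg).mpr h
  have hfix := lci_main_gal (M * p) M (ℓ : ℕ) B hp hp2 hB hℓ hℓp hℓN hR hζ g hgO hgal (a ℓ)
    c' h' hc' hh' hnorm hcop'
    (algebraMap Kbar (LaurentSeries Kbar) d * (w : LaurentSeries Kbar) * U)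
    (by
      rw [← hz1]
      exact hzp) τ hτI1
  -- from `U₂` to `z`
  have hlam : (algebraMap Kbar (LaurentSeries Kbar) ζ - 1) ≠ 0 := by
    intro h
    apply hζ1
    have h1 : algebraMap Kbar (LaurentSeries Kbar) ζ = algebraMap Kbar (LaurentSeries Kbar) 1 := by
      rw [map_one]
      exact sub_eq_zero.mp h
    exact (algebraMap Kbar (LaurentSeries Kbar)).injective h1
  have hz1' : 1 + (algebraMap Kbar (LaurentSeries Kbar) ζ - 1) * (z : LaurentSeries Kbar) =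
      algebraMap Kbar (LaurentSeries Kbar) d * (w : LaurentSeries Kbar) * U := by
    rw [← hz1]
    rfl
  have h1 := congrArg (coeffMap ((τ : Kbar ≃ₐ[ℚ] Kbar) : Kbar →+* Kbar)) hz1'
  rw [hfix, ← hz1', map_add, map_one, map_mul, map_sub, map_one, coeffMap_algebraMap] at h1
  have hτζ' : ((τ : Kbar ≃ₐ[ℚ] Kbar) : Kbar →+* Kbar) ζ = ζ := hτζ
  rw [hτζ'] at h1
  exact mul_left_cancel₀ hlam (add_left_cancel h1)

end Main

end Fermat.Agent.S40lib

end
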