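import Mathlib
import Fermat.Agent.S36lib.Speed
import Fermat.Agent.S40lib.ZInst
import Fermat.Agent.S40lib.CoverRInst2
import Fermat.Agent.S40lib.CoverE0c

/-!
# Item 88 (S44), block (J-WILD): stage S1 of the final assembler (helper9)

`zin_main` (ZInst) + `cve0_z_integral` (helper1) + `cri_inputs_Nj` (helper8) + `cve0c_main`
(helper1) in ONE statement: at the binders of `S44jWildWindC2` and at a prime `s` of the affine
ring `S.B` (`S = nodeSetupNj`) with `B_s` integrally closed, the `I`-fixed generator `z₀` of the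
cover with ALL the inputs of `cva_node` / `cvp_pkg` over `R = B_s` (algebra structure `criAlg`).

* `zsg_hst`, `zsg_hcomm` : stability of `EY` and commutation with `σY`, from the 4th part of the
  deck-map conjunction of `S44jWildWindC2`;
* `zsg_main` : the conclusion of `cve0c_main` at `R = B_s`.  The only hypothesis which is not a
  binder of `S44jWildWindC2` is (G-INT) `hGInt` (the `g` of `wzn_normal` is integral over `B_s`).
All proofs complete.
-/

set_option autoImplicit false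
set_option linter.style.haveILetI false
set_option linter.unusedSectionVars false
set_option linter.unusedVariables false
set_option synthInstance.maxHeartbeats 400000
set_option maxHeartbeats 1600000

noncomputable section

namespace Fermat.Agent.S40lib

open Fermat.Agent.GalRep ModularCurve AlgebraicCurve Fermat.Agent.S31lib Fermat.Agent.S35lib
  Fermat.Agent.S33lib Fermat.Agent.S36lib Fermat.Agent.S24lib Fermat.Agent.S34lib
  Fermat.Agent.RRlib Fermat.Agent.GoodRed Fermat.Agent.S18lib Fermat.Agent.GM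
  Fermat.Agent.HeckeBar HahnSeries

section Comm

variable (H : Subgroup (Kbar ≃ₐ[ℚ] Kbar)) (EY : IntermediateField Kbar (LaurentSeries Kbar))
  (σY : ↥EY →+* ↥EY)

/-- stability of `EY` under `H`, from the 4th part of the deck-map conjunction -/
theorem zsg_hst
    (h4 : ∀ (σ : Kbar ≃ₐ[ℚ] Kbar), σ ∈ H → ∀ (z : ↥EY),
      ∃ hz : coeffMap ((σ : Kbar ≃ₐ[ℚ] Kbar) : Kbar →+* Kbar) (z : LaurentSeries Kbar) ∈ EY,
        ∃ hz' : coeffMap ((σ : Kbar ≃ₐ[ℚ] Kbar) : Kbar →+* Kbar)
            ((σY z : ↥EY) : LaurentSeries Kbar) ∈ EY,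
          σY ⟨_, hz⟩ = ⟨_, hz'⟩) :
    ∀ σ ∈ H, ∀ x ∈ EY, coeffMap ((σ : Kbar ≃ₐ[ℚ] Kbar) : Kbar →+* Kbar) x ∈ EY :=
  fun σ hσ x hx => (h4 σ hσ ⟨x, hx⟩).1

/-- commutation of `σY` with `H`, from the 4th part of the deck-map conjunction -/
theorem zsg_hcomm
    (hst : ∀ σ ∈ H, ∀ x ∈ EY, coeffMap ((σ : Kbar ≃ₐ[ℚ] Kbar) : Kbar →+* Kbar) x ∈ EY)
    (h4 : ∀ (σ : Kbar ≃ₐ[ℚ] Kbar), σ ∈ H → ∀ (z : ↥EY),
      ∃ hz : coeffMap ((σ : Kbar ≃ₐ[ℚ] Kbar) : Kbar →+* Kbar) (z : LaurentSeries Kbar) ∈ EY,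
        ∃ hz' : coeffMap ((σ : Kbar ≃ₐ[ℚ] Kbar) : Kbar →+* Kbar)
            ((σY z : ↥EY) : LaurentSeries Kbar) ∈ EY,
          σY ⟨_, hz⟩ = ⟨_, hz'⟩) :
    ∀ (σ : Kbar ≃ₐ[ℚ] Kbar) (hσ : σ ∈ H) (z : ↥EY),
      σY (wlcTau H EY hst σ hσ z) = wlcTau H EY hst σ hσ (σY z) := by
  intro σ hσ z
  obtain ⟨hz, hz', e⟩ := h4 σ hσ z
  exact e

end Comm

section Main

variable (M' p : ℕ) [NeZero M'] [NeZero p] [NeZero (M' * p)]

/-- **stage S1**: the `I`-fixed generator `z₀` over `R = B_s`. -/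
theorem zsg_main (hp : p.Prime) (hp2 : p ≠ 2) (hpM' : ¬ p ∣ M')
    (B : ValuationSubring (AlgebraicClosure ℚ)) (hB : B.LiesOverPrime p)
    (S : Finset ℕ) (a : ℕ → ℤ) (V : AddSubgroup (JZero (M' * p)))
    (hS : ∀ ℓ : ℕ, ℓ.Prime → ℓ ∣ M' * p → ℓ ∈ S) (h2S : 2 ∈ S)
    (hVp : ∀ x ∈ V, p • x = 0)
    (hEig : S40hEig (M' * p) S a V) (hNot : S40hNotAt M' p S a)
    (hnE : ∃ ℓ : Nat.Primes, (ℓ : ℕ) ∉ S ∧ ¬ (p : ℤ) ∣ a ℓ - (1 + (ℓ : ℕ)))
    (t : JZero (M' * p)) (htV : t ∈ V)
    (hω : ∀ τ ∈ B.inertiaSubgroupIn ℚ, ∃ w : ℕ, τ • t = w • t ∧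
      ∀ ξ : Kbar, ξ ^ p = 1 → τ ξ = ξ ^ w)
    (M : ℕ) [NeZero M] [NeZero (M * p)] (hdvd : M' ∣ M) (haux : IsAuxLevel p M)
    (hM : M = Nat.lcm M' (baseLevel p))
    (ζ : Kbar) (hζ : IsPrimitiveRoot ζ p)
    (ut : modularFunctionFieldBar (M * p))
    (hut : letI : RRBase Kbar (modularFunctionFieldBar (M * p)) := (mod_rrHyp (M * p)).toRRBase
      gdfIsKummer (K := Kbar) p
        (auxLevelPull (M' * p) (M * p) (Nat.mul_dvd_mul_right hdvd p) t) ut)
    (U : LaurentSeries Kbar) (hU : U ^ p = (ut : LaurentSeries Kbar))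
    (σY : ↥(cvcAdj (modularFunctionFieldBar (M * p)) U) →+*
      ↥(cvcAdj (modularFunctionFieldBar (M * p)) U))
    (hσK : ∀ c : Kbar, σY (algebraMap Kbar ↥(cvcAdj (modularFunctionFieldBar (M * p)) U) c) =
      algebraMap Kbar ↥(cvcAdj (modularFunctionFieldBar (M * p)) U) c)
    (hσF : ∀ f : modularFunctionFieldBar (M * p),
      σY ⟨(f : LaurentSeries Kbar), cvc_le_adj (modularFunctionFieldBar (M * p)) U f.2⟩ =
        ⟨(f : LaurentSeries Kbar), cvc_le_adj (modularFunctionFieldBar (M * p)) U f.2⟩)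
    (hσU : σY ⟨U, cvc_mem_adj (modularFunctionFieldBar (M * p)) U⟩ =
      algebraMap Kbar ↥(cvcAdj (modularFunctionFieldBar (M * p)) U) ζ *
        ⟨U, cvc_mem_adj (modularFunctionFieldBar (M * p)) U⟩)
    (hst : ∀ σ ∈ B.inertiaSubgroupIn ℚ, ∀ x ∈ cvcAdj (modularFunctionFieldBar (M * p)) U,
      coeffMap ((σ : Kbar ≃ₐ[ℚ] Kbar) : Kbar →+* Kbar) x ∈
        cvcAdj (modularFunctionFieldBar (M * p)) U)
    (hcomm : ∀ (σ : Kbar ≃ₐ[ℚ] Kbar) (hσ : σ ∈ B.inertiaSubgroupIn ℚ)
      (z : ↥(cvcAdj (modularFunctionFieldBar (M * p)) U)),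
      σY (wlcTau (B.inertiaSubgroupIn ℚ) (cvcAdj (modularFunctionFieldBar (M * p)) U) hst σ hσ z) =
        wlcTau (B.inertiaSubgroupIn ℚ) (cvcAdj (modularFunctionFieldBar (M * p)) U) hst σ hσ
          (σY z))
    (hσfix : ∀ y : ↥(cvcAdj (modularFunctionFieldBar (M * p)) U), σY y = y →
      (y : LaurentSeries Kbar) ∈ modularFunctionFieldBar (M * p))
    (hσp : ∀ y : ↥(cvcAdj (modularFunctionFieldBar (M * p)) U), σY^[p] y = y)
    (R : ConstRed B (IsLocalRing.residue B)
      (↥(modularFunctionFieldFullC (IsLocalRing.ResidueField B) M)) (FF (M * p)))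
    (hR : IsSeriesRed R)
    (s : Ideal (nodeSetupNj B M p hp haux.1 hB R hR).B) [hs : s.IsPrime]
    (hic : IsIntegrallyClosed (Localization.AtPrime s))
    (hGInt : ∀ g : FF (M * p), (∀ σ ∈ S40hI1 p B, galFF (M * p) σ • g = g) →
      g ∈ cxiB (infPlaceBar (M * p))
        (cuspZero (M * p) p hp (dvd_mul_left p M) (inf_not_sq_dvd M p hp haux.1)) →
      g ∈ R.O → g ∈ (glmZero M p hp haux.1 R).O →
      letI := criAlg B (M * p) (cvcAdj (modularFunctionFieldBar (M * p)) U)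
        (cvc_le_adj (modularFunctionFieldBar (M * p)) U) (nodeSetupNj B M p hp haux.1 hB R hR).B s
      IsIntegral (Localization.AtPrime s)
        (⟨(g : LaurentSeries Kbar), cvc_le_adj (modularFunctionFieldBar (M * p)) U g.2⟩ :
          ↥(cvcAdj (modularFunctionFieldBar (M * p)) U))) :
    letI := criAlg B (M * p) (cvcAdj (modularFunctionFieldBar (M * p)) U)
      (cvc_le_adj (modularFunctionFieldBar (M * p)) U) (nodeSetupNj B M p hp haux.1 hB R hR).B s
    ∃ (hRfix : ∀ (σ : Kbar ≃ₐ[ℚ] Kbar) (hσ : σ ∈ B.inertiaSubgroupIn ℚ)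
        (r : Localization.AtPrime s),
        wlcTau (B.inertiaSubgroupIn ℚ) (cvcAdj (modularFunctionFieldBar (M * p)) U) hst σ hσ
          (algebraMap (Localization.AtPrime s)
            ↥(cvcAdj (modularFunctionFieldBar (M * p)) U) r) =
          algebraMap (Localization.AtPrime s)
            ↥(cvcAdj (modularFunctionFieldBar (M * p)) U) r),
      letI := cve0Algebra (R := Localization.AtPrime s)
        (cve0cT (B.inertiaSubgroupIn ℚ) (cvcAdj (modularFunctionFieldBar (M * p)) U) hst)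
        (cve0c_hR (B.inertiaSubgroupIn ℚ) (cvcAdj (modularFunctionFieldBar (M * p)) U) hst hRfix)
      ∃ (z₀ : ↥(cve0Field (cve0cT (B.inertiaSubgroupIn ℚ)
          (cvcAdj (modularFunctionFieldBar (M * p)) U) hst)))
        (c : ℕ → ↥(cvcAdj (modularFunctionFieldBar (M * p)) U)),
        IsIntegral (Localization.AtPrime s) z₀ ∧
        (cve0Sigma (cve0cT (B.inertiaSubgroupIn ℚ) (cvcAdj (modularFunctionFieldBar (M * p)) U)
          hst) σY (cve0c_hcomm (B.inertiaSubgroupIn ℚ)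
            (cvcAdj (modularFunctionFieldBar (M * p)) U) hst σY hcomm))^[p] z₀ = z₀ ∧
        (∀ r : Localization.AtPrime s,
          cve0Sigma (cve0cT (B.inertiaSubgroupIn ℚ) (cvcAdj (modularFunctionFieldBar (M * p)) U)
            hst) σY (cve0c_hcomm (B.inertiaSubgroupIn ℚ)
              (cvcAdj (modularFunctionFieldBar (M * p)) U) hst σY hcomm)
            (algebraMap (Localization.AtPrime s) ↥(cve0Field (cve0cT (B.inertiaSubgroupIn ℚ)
              (cvcAdj (modularFunctionFieldBar (M * p)) U) hst)) r) =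
          algebraMap (Localization.AtPrime s) ↥(cve0Field (cve0cT (B.inertiaSubgroupIn ℚ)
            (cvcAdj (modularFunctionFieldBar (M * p)) U) hst)) r) ∧
        (∀ t : ↥(cve0Field (cve0cT (B.inertiaSubgroupIn ℚ)
            (cvcAdj (modularFunctionFieldBar (M * p)) U) hst)),
          cve0Sigma (cve0cT (B.inertiaSubgroupIn ℚ) (cvcAdj (modularFunctionFieldBar (M * p)) U)
            hst) σY (cve0c_hcomm (B.inertiaSubgroupIn ℚ)
              (cvcAdj (modularFunctionFieldBar (M * p)) U) hst σY hcomm) t = t →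
          IsIntegral (Localization.AtPrime s) t →
          t ∈ Set.range (algebraMap (Localization.AtPrime s)
            ↥(cve0Field (cve0cT (B.inertiaSubgroupIn ℚ)
              (cvcAdj (modularFunctionFieldBar (M * p)) U) hst)))) ∧
        (∀ i ∈ Finset.Ico 1 p, IsIntegral (Localization.AtPrime s) (c i)) ∧
        (∀ i ∈ Finset.Ico 1 p,
          cve0Iota (R := Localization.AtPrime s)
              (cve0cT (B.inertiaSubgroupIn ℚ) (cvcAdj (modularFunctionFieldBar (M * p)) U) hst)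
              (cve0c_hR (B.inertiaSubgroupIn ℚ) (cvcAdj (modularFunctionFieldBar (M * p)) U)
                hst hRfix)
              ((cve0Sigma (cve0cT (B.inertiaSubgroupIn ℚ)
                (cvcAdj (modularFunctionFieldBar (M * p)) U) hst) σY
                (cve0c_hcomm (B.inertiaSubgroupIn ℚ)
                  (cvcAdj (modularFunctionFieldBar (M * p)) U) hst σY hcomm))^[i] z₀) -
            cve0Iota (R := Localization.AtPrime s)
              (cve0cT (B.inertiaSubgroupIn ℚ) (cvcAdj (modularFunctionFieldBar (M * p)) U) hst)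
              (cve0c_hR (B.inertiaSubgroupIn ℚ) (cvcAdj (modularFunctionFieldBar (M * p)) U)
                hst hRfix) z₀ =
            algebraMap (Localization.AtPrime s)
              ↥(cvcAdj (modularFunctionFieldBar (M * p)) U) (i : Localization.AtPrime s) +
              (algebraMap Kbar ↥(cvcAdj (modularFunctionFieldBar (M * p)) U) ζ - 1) * c i) := by
  letI : RRBase Kbar (FF (M * p)) := (mod_rrHyp (M * p)).toRRBase
  letI := criAlg B (M * p) (cvcAdj (modularFunctionFieldBar (M * p)) U)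
    (cvc_le_adj (modularFunctionFieldBar (M * p)) U) (nodeSetupNj B M p hp haux.1 hB R hR).B s
  obtain ⟨g, z, hgI, hgB, hgO, hgO0, hk, hzp, hz1, hzσ⟩ :=
    zin_main M' p hp hp2 hpM' B hB S a V hS h2S hVp hEig hNot hnE t htV hω M hdvd haux hM ζ hζ
      ut hut U hU σY hσK hσF hσU R hR
  obtain ⟨hRfix, hσR, hdescE, -⟩ :=
    cri_inputs_Nj B M p hp haux.1 hB R hR (cvcAdj (modularFunctionFieldBar (M * p)) U)
      (cvc_le_adj (modularFunctionFieldBar (M * p)) U) s hic hst σY hσF hσfix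
  have hgint := hGInt g hgI hgB hgO hgO0
  have hζE : IsPrimitiveRoot (algebraMap Kbar ↥(cvcAdj (modularFunctionFieldBar (M * p)) U) ζ) p :=
    hζ.map_of_injective (algebraMap Kbar ↥(cvcAdj (modularFunctionFieldBar (M * p)) U)).injective
  have hrel : (1 + (algebraMap Kbar ↥(cvcAdj (modularFunctionFieldBar (M * p)) U) ζ - 1) * z) ^ p =
      1 + (algebraMap Kbar ↥(cvcAdj (modularFunctionFieldBar (M * p)) U) ζ - 1) ^ p *
        (⟨(g : LaurentSeries Kbar), cvc_le_adj (modularFunctionFieldBar (M * p)) U g.2⟩ :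
          ↥(cvcAdj (modularFunctionFieldBar (M * p)) U)) := by
    apply Subtype.ext
    rw [hzp]
    show (1 : LaurentSeries Kbar) + algebraMap Kbar (LaurentSeries Kbar) ((ζ - 1) ^ p) *
        (g : LaurentSeries Kbar) =
      1 + (algebraMap Kbar (LaurentSeries Kbar) ζ - 1) ^ p * (g : LaurentSeries Kbar)
    rw [map_pow, map_sub, map_one]
  have hzint : IsIntegral (Localization.AtPrime s) z :=
    cve0_z_integral hp hζE z _ hgint hrel
  obtain ⟨z₀, c, h1, h2, h3, h4, h5, h6, -⟩ :=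
    cve0c_main (B.inertiaSubgroupIn ℚ) (cvcAdj (modularFunctionFieldBar (M * p)) U) hp hζ hst σY
      hσK hcomm hσp hRfix hσR hdescE z hzint hz1 hzσ
  exact ⟨hRfix, z₀, c, h1, h2, h3, h4, h5, h6⟩

end Main

end Fermat.Agent.S40lib

end
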