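import Mathlib
import Fermat.Agent.S36lib.Speed
import Fermat.Agent.S40lib.ZStage2
import Fermat.Agent.S40lib.WildPtCtx
import Fermat.Agent.S40lib.CoverInstF

/-!
# Item 88 (S44), block (J-WILD): stage S1 in the Layer-B context (helper9)

`zsg_ctx` = `zsg_full` (ZStage2) restated with the instances of `WildPtCtx` (helper8):
`Algebra B_s E₀ = wpbAlgE0`, `Algebra F₀ E₀ = wpbAlgF0E0`, `Algebra B_s EY = criAlg`, and with
`hgen₀ : Algebra.adjoin F₀ {z₀} = ⊤` (from `cif_hgen`, helper1) added: the whole group (C) of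
`s40j_pt_node` / `s40j_pt_smooth` (`z₀ hz hσp hσR hdesc c hc hcong hgen₀`), one call.
All proofs complete.
-/

set_option autoImplicit false
set_option linter.style.haveILetI false
set_option linter.unusedSectionVars false
set_option linter.unusedVariables false
set_option synthInstance.maxHeartbeats 400000
set_option maxHeartbeats 1600000

noncomputable section

namespace Fermat.Agent.S40lib

open Fermat.Agent.GalRep ModularCurve AlgebraicCurve Fermat.Agent.S31lib Fermat.Agent.S35lib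
  Fermat.Agent.S33lib Fermat.Agent.S36lib Fermat.Agent.S24lib Fermat.Agent.S34lib
  Fermat.Agent.RRlib Fermat.Agent.GoodRed Fermat.Agent.S18lib Fermat.Agent.GM
  Fermat.Agent.HeckeBar HahnSeries

section Ctx

variable (M' p : ℕ) [NeZero M'] [NeZero p] [NeZero (M' * p)]

/-- **group (C) of the per-point theorems, in the Layer-B context.** -/
theorem zsg_ctx (hp : p.Prime) (hp2 : p ≠ 2) (hpM' : ¬ p ∣ M')
    (B : ValuationSubring (AlgebraicClosure ℚ)) (hB : B.LiesOverPrime p)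
    (S : Finset ℕ) (a : ℕ → ℤ) (V : AddSubgroup (JZero (M' * p)))
    (hS : ∀ ℓ : ℕ, ℓ.Prime → ℓ ∣ M' * p → ℓ ∈ S) (h2S : 2 ∈ S)
    (hVp : ∀ x ∈ V, p • x = 0)
    (hEig : S40hEig (M' * p) S a V) (hNot : S40hNotAt M' p S a)
    (hnE : ∃ ℓ : Nat.Primes, (ℓ : ℕ) ∉ S ∧ ¬ (p : ℤ) ∣ a ℓ - (1 + (ℓ : ℕ)))
    (t : JZero (M' * p)) (htV : t ∈ V)
    (hω : ∀ τ ∈ B.inertiaSubgroupIn ℚ, ∃ w : ℕ, τ • t = w • t ∧
      ∀ ξ : Kbar, ξ ^ p = 1 → τ ξ = ξ ^ w)
    (M : ℕ) [NeZero M] [NeZero (M * p)] (hdvd : M' ∣ M) (haux : IsAuxLevel p M)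
    (hM : M = Nat.lcm M' (baseLevel p))
    (ζ : Kbar) (hζ : IsPrimitiveRoot ζ p)
    (ut : modularFunctionFieldBar (M * p))
    (hut : letI : RRBase Kbar (modularFunctionFieldBar (M * p)) := (mod_rrHyp (M * p)).toRRBase
      gdfIsKummer (K := Kbar) p
        (auxLevelPull (M' * p) (M * p) (Nat.mul_dvd_mul_right hdvd p) t) ut)
    (U : LaurentSeries Kbar) (hU : U ^ p = (ut : LaurentSeries Kbar))
    (σY : ↥(cvcAdj (modularFunctionFieldBar (M * p)) U) →+*
      ↥(cvcAdj (modularFunctionFieldBar (M * p)) U))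
    (hσK : ∀ c : Kbar, σY (algebraMap Kbar ↥(cvcAdj (modularFunctionFieldBar (M * p)) U) c) =
      algebraMap Kbar ↥(cvcAdj (modularFunctionFieldBar (M * p)) U) c)
    (hσF : ∀ f : modularFunctionFieldBar (M * p),
      σY ⟨(f : LaurentSeries Kbar), cvc_le_adj (modularFunctionFieldBar (M * p)) U f.2⟩ =
        ⟨(f : LaurentSeries Kbar), cvc_le_adj (modularFunctionFieldBar (M * p)) U f.2⟩)
    (hσU : σY ⟨U, cvc_mem_adj (modularFunctionFieldBar (M * p)) U⟩ =
      algebraMap Kbar ↥(cvcAdj (modularFunctionFieldBar (M * p)) U) ζ *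
        ⟨U, cvc_mem_adj (modularFunctionFieldBar (M * p)) U⟩)
    (hst : ∀ σ ∈ B.inertiaSubgroupIn ℚ, ∀ x ∈ cvcAdj (modularFunctionFieldBar (M * p)) U,
      coeffMap ((σ : Kbar ≃ₐ[ℚ] Kbar) : Kbar →+* Kbar) x ∈
        cvcAdj (modularFunctionFieldBar (M * p)) U)
    (hcomm : ∀ (σ : Kbar ≃ₐ[ℚ] Kbar) (hσ : σ ∈ B.inertiaSubgroupIn ℚ)
      (z : ↥(cvcAdj (modularFunctionFieldBar (M * p)) U)),
      σY (wlcTau (B.inertiaSubgroupIn ℚ) (cvcAdj (modularFunctionFieldBar (M * p)) U) hst σ hσ z) =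
        wlcTau (B.inertiaSubgroupIn ℚ) (cvcAdj (modularFunctionFieldBar (M * p)) U) hst σ hσ
          (σY z))
    (hσfix : ∀ y : ↥(cvcAdj (modularFunctionFieldBar (M * p)) U), σY y = y →
      (y : LaurentSeries Kbar) ∈ modularFunctionFieldBar (M * p))
    (hσp : ∀ y : ↥(cvcAdj (modularFunctionFieldBar (M * p)) U), σY^[p] y = y)
    (R : ConstRed B (IsLocalRing.residue B)
      (↥(modularFunctionFieldFullC (IsLocalRing.ResidueField B) M)) (FF (M * p)))
    (hR : IsSeriesRed R)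
    (s : Ideal (nodeSetupNj B M p hp haux.1 hB R hR).B) [hs : s.IsPrime]
    (hic : IsIntegrallyClosed (Localization.AtPrime s))
    (hpR : (p : Localization.AtPrime s) ∈ IsLocalRing.maximalIdeal (Localization.AtPrime s)) :
    letI := criAlg B (M * p) (cvcAdj (modularFunctionFieldBar (M * p)) U) (cvc_le_adj (modularFunctionFieldBar (M * p)) U) (nodeSetupNj B M p hp haux.1 hB R hR).B s
    letI := wpbAlgE0 B (M * p) (cvcAdj (modularFunctionFieldBar (M * p)) U) (cvc_le_adj (modularFunctionFieldBar (M * p)) U) hst (nodeSetupNj B M p hp haux.1 hB R hR).B s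
    letI := wpbAlgF0E0 B (M * p) (cvcAdj (modularFunctionFieldBar (M * p)) U) (cvc_le_adj (modularFunctionFieldBar (M * p)) U) hst
    ∃ (z₀ : ↥(wpbE0 B (cvcAdj (modularFunctionFieldBar (M * p)) U) hst)) (c : ℕ → ↥(cvcAdj (modularFunctionFieldBar (M * p)) U)),
      IsIntegral (Localization.AtPrime s) z₀ ∧
      (cve0Sigma (cve0cT (B.inertiaSubgroupIn ℚ) (cvcAdj (modularFunctionFieldBar (M * p)) U) hst) σY (cve0c_hcomm (B.inertiaSubgroupIn ℚ) (cvcAdj (modularFunctionFieldBar (M * p)) U) hst σY hcomm))^[p] z₀ = z₀ ∧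
      (∀ r : Localization.AtPrime s,
        (cve0Sigma (cve0cT (B.inertiaSubgroupIn ℚ) (cvcAdj (modularFunctionFieldBar (M * p)) U) hst) σY (cve0c_hcomm (B.inertiaSubgroupIn ℚ) (cvcAdj (modularFunctionFieldBar (M * p)) U) hst σY hcomm)) (algebraMap (Localization.AtPrime s) ↥(wpbE0 B (cvcAdj (modularFunctionFieldBar (M * p)) U) hst) r) =
          algebraMap (Localization.AtPrime s) ↥(wpbE0 B (cvcAdj (modularFunctionFieldBar (M * p)) U) hst) r) ∧
      (∀ t : ↥(wpbE0 B (cvcAdj (modularFunctionFieldBar (M * p)) U) hst), (cve0Sigma (cve0cT (B.inertiaSubgroupIn ℚ) (cvcAdj (modularFunctionFieldBar (M * p)) U) hst) σY (cve0c_hcomm (B.inertiaSubgroupIn ℚ) (cvcAdj (modularFunctionFieldBar (M * p)) U) hst σY hcomm)) t = t →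
        IsIntegral (Localization.AtPrime s) t →
        t ∈ Set.range (algebraMap (Localization.AtPrime s) ↥(wpbE0 B (cvcAdj (modularFunctionFieldBar (M * p)) U) hst))) ∧
      (∀ i ∈ Finset.Ico 1 p, IsIntegral (Localization.AtPrime s) (c i)) ∧
      (∀ i ∈ Finset.Ico 1 p,
        (((cve0Sigma (cve0cT (B.inertiaSubgroupIn ℚ) (cvcAdj (modularFunctionFieldBar (M * p)) U) hst) σY (cve0c_hcomm (B.inertiaSubgroupIn ℚ) (cvcAdj (modularFunctionFieldBar (M * p)) U) hst σY hcomm))^[i] z₀ : ↥(wpbE0 B (cvcAdj (modularFunctionFieldBar (M * p)) U) hst)) : ↥(cvcAdj (modularFunctionFieldBar (M * p)) U)) - (z₀ : ↥(cvcAdj (modularFunctionFieldBar (M * p)) U)) =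
          algebraMap (Localization.AtPrime s) ↥(cvcAdj (modularFunctionFieldBar (M * p)) U) (i : Localization.AtPrime s) +
            (algebraMap Kbar ↥(cvcAdj (modularFunctionFieldBar (M * p)) U) ζ - 1) * c i) ∧
      Algebra.adjoin ↥(f0Field B (M * p)) ({z₀} : Set ↥(wpbE0 B (cvcAdj (modularFunctionFieldBar (M * p)) U) hst)) = ⊤ := by
  letI := criAlg B (M * p) (cvcAdj (modularFunctionFieldBar (M * p)) U) (cvc_le_adj (modularFunctionFieldBar (M * p)) U) (nodeSetupNj B M p hp haux.1 hB R hR).B s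
  obtain ⟨hRfix, z₀, c, h1, h2, h3, h4, h5, h6⟩ :=
    zsg_full M' p hp hp2 hpM' B hB S a V hS h2S hVp hEig hNot hnE t htV hω M hdvd haux hM ζ hζ
      ut hut U hU σY hσK hσF hσU hst hcomm hσfix hσp R hR s hic
  obtain ⟨-, -, hdescE, -⟩ :=
    cri_inputs_Nj B M p hp haux.1 hB R hR (cvcAdj (modularFunctionFieldBar (M * p)) U) (cvc_le_adj (modularFunctionFieldBar (M * p)) U) s hic hst σY hσF hσfix
  refine ⟨z₀, c, h1, h2, h3, h4, h5, h6, ?_⟩
  have h61 := h6 1 (Finset.mem_Ico.mpr ⟨le_rfl, hp.one_lt⟩)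
  have hg := cif_hgen B (M * p) (cvcAdj (modularFunctionFieldBar (M * p)) U) (cvc_le_adj (modularFunctionFieldBar (M * p)) U) (nodeSetupNj B M p hp haux.1 hB R hR).B s (B.inertiaSubgroupIn ℚ) hst
    (fun σ h => h) (fun σ h => h) (cri_hfrac_Nj B M p hp haux.1 hB R hR) hp hpR hζ σY
    (cve0c_hcomm (B.inertiaSubgroupIn ℚ) (cvcAdj (modularFunctionFieldBar (M * p)) U) hst σY hcomm) hσp hσF hσfix hdescE z₀ (c 1)
    (h5 1 (Finset.mem_Ico.mpr ⟨le_rfl, hp.one_lt⟩))
    (by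
      have := h61
      simp only [Function.iterate_one, Nat.cast_one, map_one] at this
      exact this)
  exact hg

end Ctx

end Fermat.Agent.S40lib

end
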