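import Mathlib
import Fermat.Agent.S36lib.Speed
import Fermat.Agent.S40lib.WildPtSplit
import Fermat.Agent.S40lib.WildPtAsmS
import Fermat.Agent.S40lib.WildPtCtx
import Fermat.Agent.S40lib.ZStage3
import Fermat.Agent.S40lib.WildPtBS
import Fermat.Agent.S40lib.HgenCtx
import Fermat.Agent.S40lib.WindcCoCtx
import Fermat.Agent.S40lib.WindcK3
import Fermat.Agent.S40lib.WindcRedF
import Fermat.Agent.S40lib.WindcX2
import Fermat.Agent.S40lib.WindcK2
import Fermat.Agent.S40lib.WindcEInst2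
import Fermat.Agent.S40lib.WildPtE
import Fermat.Agent.S40lib.WindcCoInst
import Fermat.Agent.S40lib.CoverInstF
import Fermat.Agent.S40lib.DeckInst2
import Fermat.Agent.S40lib.WindcPtTransfer
import Fermat.Agent.S40lib.WindcPtTr28
import Fermat.Agent.S40lib.CoverGen2
import Fermat.Agent.S40lib.WindcPre2
import Fermat.Agent.S40lib.WildPtPhi
import Fermat.Agent.S40lib.WildPtHV
import Fermat.Agent.S40lib.WindcF
import Fermat.Agent.S40lib.WindcF2

/-!
# Item 88 (S44), block (J-WILD), FINAL ASSEMBLER, layer B, ordinary places, component `∞`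
(helper22 skeleton; helper9 tail: groups (C)…(F) + final call)

`s40j_smInf9 : S44jPtSmInf M' p hp B hB`.
-/

set_option autoImplicit false
set_option linter.style.haveILetI false
set_option linter.unusedSectionVars false
set_option linter.unusedVariables false
set_option synthInstance.maxHeartbeats 400000
set_option maxHeartbeats 4000000

noncomputable section

namespace Fermat.Agent.S40lib

open Fermat.Agent.GalRep ModularCurve AlgebraicCurve Fermat.Agent.S31lib Fermat.Agent.S35lib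
  Fermat.Agent.S33lib Fermat.Agent.S36lib Fermat.Agent.S24lib Fermat.Agent.S34lib
  Fermat.Agent.RRlib Fermat.Agent.GoodRed Fermat.Agent.S18lib Fermat.Agent.GM
  Fermat.Agent.HeckeBar HahnSeries IsLocalRing

theorem s40j_smInf9 (M' p : ℕ) [NeZero M'] [NeZero p] [NeZero (M' * p)]
    (hp : p.Prime) (hp5 : 5 ≤ p) (hpM' : ¬ p ∣ M')
    (B : ValuationSubring (AlgebraicClosure ℚ)) (hB : B.LiesOverPrime p) :
    S44jPtSmInf M' p hp B hB := by
  intro S a V hS h2S hcard hVp hstab hEig hNot hnE x hx hx0 hfix t htV ht0 hHx hω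
    M e hM0 hMp0 hdvd haux hM hMe hdeg ζ hζ ux ut hux hut U hU σY hσ rt κ u g hκ0 hrt0 hpow hκI
    hSt hu0 hg0 huI hgI hσu hch n hn R hR hmv
  intro Q hQ hnSS
  have hp2 : p ≠ 2 := by omega
  letI : RRBase Kbar (modularFunctionFieldBar (M * p)) := (mod_rrHyp (M * p)).toRRBase
  obtain ⟨hσK, hσF, hσU, hσ4, hσfix, hσp⟩ := hσ
  -- the `X`-side package
  obtain ⟨s, hs, εx, y, h₁, hx', hxg, hεx, hmem, hord0, hws, hys', hy0, hwy, hufd, hxs, hyx, hm,
    hnoeth, hic, hpR, ρ, hρ, hρc, hρz⟩ :=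
    wcx_smooth_inf B M p hp haux.1 hB R hR haux Q hQ
      (wcx_hNS_inf B M p hp haux.1 hB R hR Q hQ hnSS)
  haveI hsp : s.IsPrime := hs.isPrime
  haveI := hufd
  haveI : IsAlgClosed (IsLocalRing.ResidueField B) := isAlgClosed_residueField B
  haveI : IsNoetherianRing (nodeSetupNj B M p hp haux.1 hB R hR).B :=
    (r1c_noeth_frac B M p hp haux.1 hB R hR
      (fun z h1 h3 => w2j_rgnSum B M p hp haux.1 hB R hR z h1 h3)).1
  have hwQ : ∀ a b : Fk (IsLocalRing.ResidueField B) M, a ≠ 0 → b ≠ 0 →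
      Q.ord (a * b) = Q.ord a + Q.ord b := fun a b ha hb => Q.ord_mul ha hb
  have hfrac := (r1c_noeth_frac B M p hp haux.1 hB R hR
      (fun z h1 h3 => w2j_rgnSum B M p hp haux.1 hB R hR z h1 h3)).2
  have hq := wcx_hq_Nj B M p hp haux.1 hB R hR s
  -- the cover field
  have hle := cvc_le_adj (modularFunctionFieldBar (M * p)) U
  have hst := zsg_hst (H := B.inertiaSubgroupIn ℚ) (EY := (cvcAdj (modularFunctionFieldBar (M * p)) U)) (σY := σY) hσ4
  have hcomm := zsg_hcomm (H := B.inertiaSubgroupIn ℚ) (EY := (cvcAdj (modularFunctionFieldBar (M * p)) U)) (σY := σY) hst hσ4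
  -- the instances of the context
  letI iRE := criAlg B (M * p) (cvcAdj (modularFunctionFieldBar (M * p)) U) hle (nodeSetupNj B M p hp haux.1 hB R hR).B s
  letI iRF := wpbAlgF0 B (M * p) (nodeSetupNj B M p hp haux.1 hB R hR).B s
  letI iRE0 := wpbAlgE0 B (M * p) (cvcAdj (modularFunctionFieldBar (M * p)) U) hle hst (nodeSetupNj B M p hp haux.1 hB R hR).B s
  letI iFE0 := wpbAlgF0E0 B (M * p) (cvcAdj (modularFunctionFieldBar (M * p)) U) hle hst
  letI iKE0 := wpbAlgK0E0 B (M * p) (cvcAdj (modularFunctionFieldBar (M * p)) U) hle hst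
  letI iKE := wpbAlgK0E B (cvcAdj (modularFunctionFieldBar (M * p)) U)
  haveI hfr : IsFractionRing (Localization.AtPrime s) ↥(f0Field B (M * p)) :=
    wpb_frac B (M * p) (nodeSetupNj B M p hp haux.1 hB R hR).B s hfrac
  haveI htw : IsScalarTower (Localization.AtPrime s) ↥(f0Field B (M * p))
      ↥(wpbE0 B (cvcAdj (modularFunctionFieldBar (M * p)) U) hst) := wpb_tower B (M * p) (cvcAdj (modularFunctionFieldBar (M * p)) U) hle hst (nodeSetupNj B M p hp haux.1 hB R hR).B s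
  haveI htw1 := wpb_tower_K0_Kbar B (cvcAdj (modularFunctionFieldBar (M * p)) U)
  haveI htw2 := wpb_tower_K0_E0 B (M * p) (cvcAdj (modularFunctionFieldBar (M * p)) U) hle hst
  -- group (C)
  obtain ⟨z₀, c', hz, hσp₀, hσR, hdesc, hc, hcong, hgen₀⟩ :=
    zsg_ctx M' p hp hp2 hpM' B hB S a V hS h2S hVp hEig hNot hnE t htV hω M hdvd haux hM ζ hζ
      ut hut U hU σY hσK hσF hσU hst hcomm hσfix hσp R hR s hic hpR
  obtain ⟨-, -, hdescE, -⟩ :=
    cri_inputs_Nj B M p hp haux.1 hB R hR (cvcAdj (modularFunctionFieldBar (M * p)) U) hle s hic hst σY hσF hσfix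
  -- the (F) group
  have hOFinv := wrf_hOFinv R
  have hconst := wrf_hconst R Q
  have hjO := wrf_hjO_inf B M p hp haux.1 hB R hR
  have hjred := wrf_hjred_inf B M p hp haux.1 hB R hR
  -- the transfer
  suffices hpt : ∃ u1 : FF (M * p), gdfIsKummer (K := Kbar) p
      (auxLevelPull (M' * p) (M * p) (Nat.mul_dvd_mul_right hdvd p) x) u1 ∧
      ∀ (c' : Kbar) (h2' : algebraMap Kbar (FF (M * p)) c' * u1 ∈ R.O),
        R.red ⟨algebraMap Kbar (FF (M * p)) c' * u1, h2'⟩ ≠ 0 →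
        (p : ℤ) ∣ Q.ord (R.red ⟨algebraMap Kbar (FF (M * p)) c' * u1, h2'⟩) by
    obtain ⟨u1, hk1, hpt1⟩ := hpt
    exact wpt28_transfer0 R hux hk1 Q hpt1
  -- hmove
  obtain ⟨σ₁, hσ₁, hσx, -⟩ := hmv
  have hσ₁I : σ₁ ∈ B.inertiaSubgroupIn ℚ := hσ₁.1
  have hσ₁rt : σ₁ rt ≠ rt := fun h => hσx ((hSt σ₁ hσ₁I).2 h)
  have hmove : ∃ τ ∈ S40hI1 p B, τ rt ≠ rt := ⟨σ₁, hσ₁, hσ₁rt⟩
  -- (E)
  obtain ⟨ε0, a, η, aE, mθ, π1K, θK, mθK, hε0fix, hafix, hε0A, hε0iA, hε00, haA, haiA, ha0, hηdef,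
    haEdef, hη, hmθ, hπθ, hθ0, hπ1m, hθA, hθiA, hmθA, hπ1φ, hθφ, hmφ⟩ :=
    wpe_inst B (E := ↥(cvcAdj (modularFunctionFieldBar (M * p)) U)) (M * p) hp hB κ rt hκ0 hpow hκI n hn hmove
      (IntermediateField.inclusion hle)
  obtain ⟨⟨hπ1F, hπ1red⟩, hθF, hθF', hmF⟩ := wpe_red (M * p) R π1K θK mθK hπ1m hθA hθiA hmθA
  -- (Co)
  obtain ⟨cK, hE, hcK, hhE, hrelE⟩ := hch
  have hSt' : ∀ τ ∈ B.inertiaSubgroupIn ℚ, τ rt = rt →
      τ • auxLevelPull (M' * p) (M * p) (Nat.mul_dvd_mul_right hdvd p) x =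
        auxLevelPull (M' * p) (M * p) (Nat.mul_dvd_mul_right hdvd p) x := by
    intro τ hτ h
    rw [← auxLevelPull_smul, (hSt τ hτ).2 h]
  have hrtp : ∀ τ ∈ B.inertiaSubgroupIn ℚ, τ (rt ^ p) = rt ^ p := by
    intro τ hτ
    rw [hpow]
    exact hκI τ hτ
  have hp0 : (p : Kbar) ≠ 0 := Nat.cast_ne_zero.mpr hp.ne_zero
  have ha'0 : ((p : Kbar) ^ n * ε0)⁻¹ ≠ 0 := inv_ne_zero (mul_ne_zero (zpow_ne_zero n hp0) hε00)
  have ha'H : ∀ τ ∈ B.inertiaSubgroupIn ℚ, τ (((p : Kbar) ^ n * ε0)⁻¹) = ((p : Kbar) ^ n * ε0)⁻¹ := by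
    intro τ hτ
    rw [map_inv₀, map_mul, map_zpow₀, map_natCast, hε0fix τ hτ]
  have hbH : ∀ τ ∈ B.inertiaSubgroupIn ℚ, τ (-1 : Kbar) = -1 := by
    intro τ hτ
    rw [map_neg, map_one]
  have hπ1 : η - 1 = algebraMap Kbar ↥(cvcAdj (modularFunctionFieldBar (M * p)) U) (((p : Kbar) ^ n * ε0)⁻¹ * rt + -1) := by
    rw [hηdef, map_add, map_neg, map_one, ← sub_eq_add_neg, div_eq_inv_mul]
  obtain ⟨u1, ae, au, ah, hk1, hae, hau, hah, hrel, hu1⟩ :=
    wcy_pkg B M p hp haux.1 hB R hR (cvcAdj (modularFunctionFieldBar (M * p)) U) hle s hζ hux hst hrt0 hrtp hSt' σ₁ hσ₁I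
      (hσ₁.2 ζ hζ.pow_eq_one) hσ₁rt (((p : Kbar) ^ n * ε0)⁻¹) (-1) ha'0 ha'H hbH u hE hcK hhE
      hrelE huI (η - 1) hπ1
  refine ⟨u1, hk1, ?_⟩
  intro c₁ h2 h20
  -- the cover
  have hζE : IsPrimitiveRoot (algebraMap Kbar ↥(cvcAdj (modularFunctionFieldBar (M * p)) U) ζ) p :=
    hζ.map_of_injective (algebraMap Kbar ↥(cvcAdj (modularFunctionFieldBar (M * p)) U)).injective
  have hinjE := hgc_hinj B (M * p) (cvcAdj (modularFunctionFieldBar (M * p)) U) hle (nodeSetupNj B M p hp haux.1 hB R hR).B s hfrac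
  have hinjR : Function.Injective
      (algebraMap (Localization.AtPrime s) ↥(wpbE0 B (cvcAdj (modularFunctionFieldBar (M * p)) U) hst)) := by
    intro r r' h
    apply hinjE
    exact congrArg Subtype.val h
  have h11 : (1 : ℕ) ∈ Finset.Ico 1 p := Finset.mem_Ico.mpr ⟨le_rfl, hp.one_lt⟩
  have hσne := hgc_sigma_ne B (M * p) (cvcAdj (modularFunctionFieldBar (M * p)) U) hle hst (nodeSetupNj B M p hp haux.1 hB R hR).B s σY hcomm hfrac hp hpR hζ hdescE
    z₀ (c' 1) (hc 1 h11) (by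
      have := hcong 1 h11
      simp only [Function.iterate_one, Nat.cast_one, map_one] at this
      exact this)
  have hgenE := wph_hgenE B (M * p) (cvcAdj (modularFunctionFieldBar (M * p)) U) hle hst hp σY hσF hσfix hσp z₀ hσne
  have hφ := wph_phi_integral (M * p) (cvcAdj (modularFunctionFieldBar (M * p)) U) hle hp σY hσF hσfix hσp (z₀ : ↥(cvcAdj (modularFunctionFieldBar (M * p)) U)) hσne
  obtain ⟨𝔫, h𝔫⟩ := Ideal.exists_maximal
    (Algebra.adjoin (Localization.AtPrime s) ({z₀} : Set ↥(wpbE0 B (cvcAdj (modularFunctionFieldBar (M * p)) U) hst)))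
  have hu0E : u ∈ wpbE0 B (cvcAdj (modularFunctionFieldBar (M * p)) U) hst := wci_mem_E0 (B.inertiaSubgroupIn ℚ) (cvcAdj (modularFunctionFieldBar (M * p)) U) hst u huI
  have hu0' : (⟨u, hu0E⟩ : ↥(wpbE0 B (cvcAdj (modularFunctionFieldBar (M * p)) U) hst)) ≠ 0 := fun h => hu0 (congrArg Subtype.val h)
  have hxp : ((p : ℕ) : Localization.AtPrime s) =
      ((1 : (Localization.AtPrime s)ˣ) : Localization.AtPrime s) *
        algebraMap (nodeSetupNj B M p hp haux.1 hB R hR).B (Localization.AtPrime s) ((nodeSetupNj B M p hp haux.1 hB R hR).constB (p : k0Val B)) := by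
    rw [Units.val_one, one_mul, wcx_hq_Nj]
  have hcall := wpbs_call_smooth B (M * p) (cvcAdj (modularFunctionFieldBar (M * p)) U) hle hst (nodeSetupNj B M p hp haux.1 hB R hR).B s p hp hB hfrac
    (nodeSetupNj B M p hp haux.1 hB R hR).redInf h₁ ((nodeSetupNj B M p hp haux.1 hB R hR).constB (p : k0Val B)) εx y hx' hxg hεx hm Q.ord hwQ hord0 hws hy0 hwy
    hxs hyx 1 hxp ρ hρ hinjR hpR
    (cve0Iota (R := Localization.AtPrime s) (cve0cT (B.inertiaSubgroupIn ℚ) (cvcAdj (modularFunctionFieldBar (M * p)) U) hst)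
      (cve0c_hR (B.inertiaSubgroupIn ℚ) (cvcAdj (modularFunctionFieldBar (M * p)) U) hst
        (wpb_hRfix B (M * p) (cvcAdj (modularFunctionFieldBar (M * p)) U) hle hst (nodeSetupNj B M p hp haux.1 hB R hR).B s)))
    (fun e => rfl)
    (cve0Sigma (cve0cT (B.inertiaSubgroupIn ℚ) (cvcAdj (modularFunctionFieldBar (M * p)) U) hst) σY
      (cve0c_hcomm (B.inertiaSubgroupIn ℚ) (cvcAdj (modularFunctionFieldBar (M * p)) U) hst σY hcomm))
    z₀ hz hσp₀ hσR hdesc (algebraMap Kbar ↥(cvcAdj (modularFunctionFieldBar (M * p)) U) ζ) hζE c' hc hcong hgen₀ 𝔫 h𝔫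
    ⟨u, hu0E⟩ hu0' hgenE (IntermediateField.inclusion hle) hφ
    (auxLevelPull (M' * p) (M * p) (Nat.mul_dvd_mul_right hdvd p) x) ux hux hE cK
    (wpp_hrelu B (M * p) (cvcAdj (modularFunctionFieldBar (M * p)) U) hle hst p ⟨u, hu0E⟩ ux hE cK hrelE)
    (wppIotaA B (M * p) (nodeSetupNj B M p hp haux.1 hB R hR).B s (nodeSetupNj B M p hp haux.1 hB R hR).constB)
    (wpp_hcompatA B (M * p) (cvcAdj (modularFunctionFieldBar (M * p)) U) hle hst (nodeSetupNj B M p hp haux.1 hB R hR).B s (nodeSetupNj B M p hp haux.1 hB R hR).constB (fun a => rfl))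
    ((p : ℕ) : k0Val B) (wpp_hpiA B hB) 1 (wpp_hpA B (M * p) (nodeSetupNj B M p hp haux.1 hB R hR).B s (nodeSetupNj B M p hp haux.1 hB R hR).constB p)
    η aE mθ hη hmθ hπθ hθ0
    (wcyJE B M p hp haux.1 hB R hR (cvcAdj (modularFunctionFieldBar (M * p)) U) hle s) (wcy_hjE B M p hp haux.1 hB R hR (cvcAdj (modularFunctionFieldBar (M * p)) U) hle s)
    (wcfIsC (nodeSetupNj B M p hp haux.1 hB R hR)) (wck3_hCmul B (M * p) (nodeSetupNj B M p hp haux.1 hB R hR)) (wck3_hC_inf B (M * p) (nodeSetupNj B M p hp haux.1 hB R hR) Q)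
    (by
      rw [haEdef]
      exact wck2_haK B (M * p) (nodeSetupNj B M p hp haux.1 hB R hR) (IntermediateField.inclusion hle)
        (wcyJE B M p hp haux.1 hB R hR (cvcAdj (modularFunctionFieldBar (M * p)) U) hle s)
        (wcy_hφj B M p hp haux.1 hB R hR (cvcAdj (modularFunctionFieldBar (M * p)) U) hle s) a hafix haA haiA ha0)
    ae au ah hae hau hah (hrel ⟨u, hu0E⟩ rfl)
    (wcfJ B M p hp haux.1 hB R hR) (wcy_hφj B M p hp haux.1 hB R hR (cvcAdj (modularFunctionFieldBar (M * p)) U) hle s)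
    R.O R.red hjO hjred hOFinv hconst π1K θK mθK hπ1F hπ1red hπ1φ hθF hθφ hθF' hmF hmφ
    u1 hu1 c₁ h2 h20
  exact hcall

end Fermat.Agent.S40lib

end
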