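import Mathlib
import Fermat.Agent.S36lib.Speed
import Fermat.Agent.S40lib.Hub
import Fermat.Agent.S33lib.CycSpec

/-!
# Item 88 (S40), helper2: the TAME DESCENT lemma (design note of helper22, §1)

Let `L ⊂ J` be a subgroup killed by `p` on which the inertia group `I` acts by the mod-`p`
cyclotomic character `ω`, and let `x ∈ J` with `τ x - x ∈ L` for all `τ ∈ I`.  If `x` is fixed by
`I1 = S40hI1 p B` (the inertia elements fixing `μ_p`: the TAME case) and by ONE inertia element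
`τ₀` moving `μ_p`, then `x` is fixed by the whole inertia group.
(The cocycle `c(τ) = τ x - x` vanishes on `I1`, hence `c(τ₀ σ) = c(σ τ₀)`, i.e.
`ω(τ₀) c(σ) = c(σ)`, and `ω(τ₀) - 1` is invertible.)

* `tmd_fixed_abs`   : the abstract form (any group, any additive action);
* `tmd_comm_mem_I1` : the commutator of two inertia elements lies in `S40hI1 p B`;
* `tmd_I1_trivial`  : `S40hI1 p B` acts trivially on a group on which inertia acts by `ω`;
* `tmd_fixed`       : the statement above for `J₀(M)`.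
(complete proofs, standard axioms only)
-/

set_option autoImplicit false
set_option linter.style.haveILetI false

namespace Fermat.Agent.S40lib

open Fermat.Agent.GalRep ModularCurve Fermat.Agent.S31lib Fermat.Agent.S33lib

/-- **Tame descent, abstract form.**  `G` acts additively on `J`; `L ⊂ J` is killed by `p`;
`x ∈ J` and `σ • x - x ∈ L`; the elements of `I1` fix `x` and act trivially on `L`; `τ₀` fixes `x`
and acts on `L` by the scalar `n` with `n - 1` prime to `p`; the commutator of `τ₀` and `σ` lies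
in `I1`.  Then `σ` fixes `x`. -/
theorem tmd_fixed_abs {G J : Type*} [Group G] [AddCommGroup J] [MulAction G J]
    (hadd : ∀ (σ : G) (a b : J), σ • (a + b) = σ • a + σ • b)
    (p : ℕ) (L : AddSubgroup J) (hLp : ∀ l ∈ L, p • l = 0)
    (I1 : Set G) (x : J) (τ₀ σ : G) (n : ℕ)
    (hx1 : ∀ κ ∈ I1, κ • x = x)
    (hL1 : ∀ κ ∈ I1, ∀ l ∈ L, κ • l = l)
    (hcomm : τ₀ * σ * τ₀⁻¹ * σ⁻¹ ∈ I1)
    (hσ : σ • x - x ∈ L)
    (hn : ∀ l ∈ L, τ₀ • l = n • l)
    (hn1 : IsCoprime ((n : ℤ) - 1) (p : ℤ))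
    (hτ₀ : τ₀ • x = x) : σ • x = x := by
  set c : J := σ • x - x with hc
  have hσx : σ • x = x + c := by rw [hc]; abel
  have h1 : (τ₀ * σ) • x = x + n • c := by
    rw [mul_smul, hσx, hadd, hτ₀, hn c hσ]
  have h2 : (τ₀ * σ) • x = x + c := by
    have hκ : τ₀ * σ = (τ₀ * σ * τ₀⁻¹ * σ⁻¹) * (σ * τ₀) := by group
    calc (τ₀ * σ) • x = ((τ₀ * σ * τ₀⁻¹ * σ⁻¹) * (σ * τ₀)) • x := by rw [← hκ]
      _ = (τ₀ * σ * τ₀⁻¹ * σ⁻¹) • ((σ * τ₀) • x) := mul_smul _ _ _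
      _ = (τ₀ * σ * τ₀⁻¹ * σ⁻¹) • (σ • (τ₀ • x)) := by rw [mul_smul σ τ₀ x]
      _ = (τ₀ * σ * τ₀⁻¹ * σ⁻¹) • (x + c) := by rw [hτ₀, hσx]
      _ = x + c := by rw [hadd, hx1 _ hcomm, hL1 _ hcomm c hσ]
  have h3 : n • c = c := add_left_cancel (h1.symm.trans h2)
  have h4 : ((n : ℤ) - 1) • c = 0 := by
    rw [sub_smul, one_smul, natCast_zsmul, h3, sub_self]
  have h5 : ((p : ℤ)) • c = 0 := by
    rw [natCast_zsmul]; exact hLp c hσ
  obtain ⟨a, b, hab⟩ := hn1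
  have h6 : c = 0 := by
    have : (1 : ℤ) • c = 0 := by
      rw [← hab, add_smul, mul_smul, mul_smul, h4, h5, smul_zero, smul_zero, add_zero]
    simpa using this
  rw [hσx, h6, add_zero]

/-- an element of `S40hI1 p B` has trivial mod-`p` cyclotomic character -/
theorem tmd_cycChi_of_mem_I1 (p : ℕ) [Fact p.Prime] (B : ValuationSubring (AlgebraicClosure ℚ))
    (κ : GQ) (hκ : κ ∈ S40hI1 p B) : cycChi p 1 κ = 1 := by
  by_contra h
  obtain ⟨ζ, hζ, hne⟩ := (cysp_moves_iff p κ).2 h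
  exact hne (hκ.2 ζ hζ)

/-- an inertia element with trivial mod-`p` cyclotomic character lies in `S40hI1 p B` -/
theorem tmd_mem_I1_of_cycChi (p : ℕ) [Fact p.Prime] (B : ValuationSubring (AlgebraicClosure ℚ))
    (κ : GQ) (hκI : κ ∈ B.inertiaSubgroupIn ℚ) (h : cycChi p 1 κ = 1) : κ ∈ S40hI1 p B := by
  refine ⟨hκI, fun ζ hζ => ?_⟩
  by_contra hne
  exact (cysp_moves_iff p κ).1 ⟨ζ, hζ, hne⟩ h

/-- the commutator of two inertia elements lies in `S40hI1 p B` -/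
theorem tmd_comm_mem_I1 (p : ℕ) [Fact p.Prime] (B : ValuationSubring (AlgebraicClosure ℚ))
    (τ σ : GQ) (hτ : τ ∈ B.inertiaSubgroupIn ℚ) (hσ : σ ∈ B.inertiaSubgroupIn ℚ) :
    τ * σ * τ⁻¹ * σ⁻¹ ∈ S40hI1 p B := by
  apply tmd_mem_I1_of_cycChi p B
  · exact mul_mem (mul_mem (mul_mem hτ hσ) (inv_mem hτ)) (inv_mem hσ)
  · rw [map_mul, map_mul, map_mul, map_inv, map_inv]
    rw [mul_comm (cycChi p 1 τ) (cycChi p 1 σ), mul_assoc (cycChi p 1 σ), mul_inv_cancel,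
      mul_one, mul_inv_cancel]

/-- `S40hI1 p B` acts trivially on a group on which the inertia group acts by `ω` -/
theorem tmd_I1_trivial (p : ℕ) [Fact p.Prime] {M : ℕ} [NeZero M]
    (B : ValuationSubring (AlgebraicClosure ℚ)) (L : AddSubgroup (JZero M))
    (hLω : ∀ τ ∈ B.inertiaSubgroupIn ℚ, ∀ l ∈ L,
      τ • l = ((cycChi p 1 τ : ZMod (p ^ 1)).val) • l)
    (κ : GQ) (hκ : κ ∈ S40hI1 p B) (l : JZero M) (hl : l ∈ L) : κ • l = l := by
  have hpp : p.Prime := Fact.out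
  haveI : Fact (1 < p ^ 1) := ⟨by rw [pow_one]; exact hpp.one_lt⟩
  rw [hLω κ hκ.1 l hl, tmd_cycChi_of_mem_I1 p B κ hκ, Units.val_one, ZMod.val_one, one_smul]

/-- if `τ₀` moves `μ_p` then `ω(τ₀) - 1` (as an integer) is prime to `p` -/
theorem tmd_coprime_of_moves (p : ℕ) [Fact p.Prime] (τ₀ : GQ) (hmv : S33hMoves p τ₀) :
    IsCoprime ((((cycChi p 1 τ₀ : ZMod (p ^ 1)).val : ℕ) : ℤ) - 1) (p : ℤ) := by
  have hpp : p.Prime := Fact.out
  haveI : NeZero (p ^ 1) := ⟨by rw [pow_one]; exact hpp.ne_zero⟩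
  have hu := cysp_isUnit_sub_one p τ₀ hmv
  have hprime : Prime (p : ℤ) := Nat.prime_iff_prime_int.1 hpp
  rw [isCoprime_comm, hprime.coprime_iff_not_dvd]
  intro hdvd
  have h0 : (((((cycChi p 1 τ₀ : ZMod (p ^ 1)).val : ℕ) : ℤ) - 1 : ℤ) : ZMod (p ^ 1)) = 0 := by
    rw [ZMod.intCast_zmod_eq_zero_iff_dvd]
    simpa [pow_one] using hdvd
  rw [Int.cast_sub, Int.cast_one, Int.cast_natCast, ZMod.natCast_val, ZMod.cast_id', id] at h0
  rw [h0] at hu
  haveI : Fact (1 < p ^ 1) := ⟨by rw [pow_one]; exact hpp.one_lt⟩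
  exact not_isUnit_zero hu

/-- **Tame descent** on `J₀(M)`: `L` killed by `p`, inertia acts on `L` by `ω`, `τ x - x ∈ L`
for all inertia elements `τ`; if `x` is fixed by `S40hI1 p B` and by one inertia element `τ₀`
moving `μ_p`, then `x` is fixed by the inertia group. -/
theorem tmd_fixed (p : ℕ) [Fact p.Prime] {M : ℕ} [NeZero M]
    (B : ValuationSubring (AlgebraicClosure ℚ)) (L : AddSubgroup (JZero M))
    (hLp : ∀ l ∈ L, p • l = 0)
    (hLω : ∀ τ ∈ B.inertiaSubgroupIn ℚ, ∀ l ∈ L,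
      τ • l = ((cycChi p 1 τ : ZMod (p ^ 1)).val) • l)
    (x : JZero M) (hxL : ∀ τ ∈ B.inertiaSubgroupIn ℚ, τ • x - x ∈ L)
    (hx1 : ∀ τ ∈ S40hI1 p B, τ • x = x)
    (τ₀ : GQ) (hτ₀I : τ₀ ∈ B.inertiaSubgroupIn ℚ) (hmv : S33hMoves p τ₀) (hτ₀ : τ₀ • x = x) :
    ∀ τ ∈ B.inertiaSubgroupIn ℚ, τ • x = x := by
  intro σ hσ
  exact tmd_fixed_abs (fun σ a b => smul_add σ a b) p L hLp (S40hI1 p B) x τ₀ σ
    ((cycChi p 1 τ₀ : ZMod (p ^ 1)).val) hx1
    (fun κ hκ l hl => tmd_I1_trivial p B L hLω κ hκ l hl)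
    (tmd_comm_mem_I1 p B τ₀ σ hτ₀I hσ) (hxL σ hσ) (hLω τ₀ hτ₀I)
    (tmd_coprime_of_moves p τ₀ hmv) hτ₀

end Fermat.Agent.S40lib
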