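import Mathlib
import Fermat.Agent.S36lib.Speed
import Fermat.Agent.S40lib.TameAsm
import Fermat.Agent.S40lib.KerGlue

/-!
# Item 88 (S44), (J-TAME): elimination of the auxiliary function `g₀` from (TAME-POW) (helper17).

`S40tmaPow` (helper14, `TameAsm.lean`) asks, besides the two `p`-th power reductions of the
normalised Kummer function, for a constant `d` with `d ^ p c₂ = c₁` and a function `g₀` with
nonzero reductions of `g₀` at `R` and of `d g₀` at `R₀ = glmZero R`.  These ALWAYS exist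
(`kgl_exists_g0`, `KerGlue.lean`: the valuation of the constants is archimedean and `ℚ̄` is
algebraically closed).  So (TAME-POW) is equivalent to its short form:

* `S40tp2Pow M' p hp B` : (TAME-POW) without `d, g₀, a₁, a₂` (only `c₁ c₂ ≠ 0`, `w₁ w₂ ≠ 0` and the
  two reductions);
* `tp2_pow` : `S40tp2Pow → S40tmaPow`;
* `tp2_tame_of_pow` : `S40tp2Pow → S40jTame`.
-/

set_option autoImplicit false
set_option linter.style.haveILetI false
set_option linter.unusedSectionVars false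
set_option linter.unusedVariables false
set_option synthInstance.maxHeartbeats 400000

noncomputable section

namespace Fermat.Agent.S40lib

open Fermat.Agent.GalRep ModularCurve AlgebraicCurve Fermat.Agent.S31lib Fermat.Agent.S35lib
  Fermat.Agent.S33lib Fermat.Agent.S36lib Fermat.Agent.S24lib Fermat.Agent.S34lib
  Fermat.Agent.RRlib Fermat.Agent.GoodRed Fermat.Agent.S18lib Fermat.Agent.GM
  Fermat.Agent.HeckeBar HahnSeries

section

variable (M' p : ℕ) [NeZero M'] [NeZero p] [NeZero (M' * p)]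

/-- **(TAME-POW), short form**: `S40tmaPow` without the auxiliary data `d, g₀, a₁, a₂`. -/
def S40tp2Pow (hp : p.Prime) (B : ValuationSubring (AlgebraicClosure ℚ)) : Prop :=
  ∀ (S : Finset ℕ) (a : ℕ → ℤ) (V : AddSubgroup (JZero (M' * p))),
    (∀ ℓ : ℕ, ℓ.Prime → ℓ ∣ M' * p → ℓ ∈ S) →
    Nat.card V = p ^ 2 → (∀ x ∈ V, p • x = 0) →
    (∀ (σ : AlgebraicClosure ℚ ≃ₐ[ℚ] AlgebraicClosure ℚ), ∀ x ∈ V, σ • x ∈ V) →
    S40hEig (M' * p) S a V → S40hNotAt M' p S a →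
    (∃ ℓ : Nat.Primes, (ℓ : ℕ) ∉ S ∧ ¬ (p : ℤ) ∣ a ℓ - (1 + (ℓ : ℕ))) →
    ∀ x ∈ V, x ≠ 0 → (∀ σ ∈ B.inertiaSubgroupIn ℚ, σ • x = x) →
    ∀ (D : Divisor.degZero (K := Kbar) (F := FF (M' * p))) (u : FF (M' * p)),
      Pic0.mk D = x → u ≠ 0 → u ∈ f0Field B (M' * p) →
      (∀ σ ∈ B.inertiaSubgroupIn ℚ,
        galFF (M' * p) σ • (D : Divisor Kbar (FF (M' * p))) = D) →
      (∀ v : Place Kbar (FF (M' * p)),
        (p : ℤ) * (D : Divisor Kbar (FF (M' * p))) v = v.ord u) →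
    ∀ (M e : ℕ) [NeZero M] [NeZero (M * p)] (haux : IsAuxLevel p M) (hdvd : M' ∣ M)
      (R : ConstRed B (IsLocalRing.residue B)
        (↥(modularFunctionFieldFullC (IsLocalRing.ResidueField B) M)) (FF (M * p))),
      IsSeriesRed R → M * p = M' * p * e →
      ∃ (c₁ c₂ : Kbar)
        (w₁ w₂ : ↥(modularFunctionFieldFullC (IsLocalRing.ResidueField B) M)),
        c₁ ≠ 0 ∧ c₂ ≠ 0 ∧ w₁ ≠ 0 ∧ w₂ ≠ 0 ∧
        KspRed R (algebraMap Kbar (FF (M * p)) c₁ *
          inclBar (M' * p) (M * p) (Nat.mul_dvd_mul_right hdvd p) u) (w₁ ^ p) ∧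
        KspRed (glmZero M p hp haux.1 R) (algebraMap Kbar (FF (M * p)) c₂ *
          inclBar (M' * p) (M * p) (Nat.mul_dvd_mul_right hdvd p) u) (w₂ ^ p)

/-- **`g₀`-elimination**: the short form of (TAME-POW) gives (TAME-POW). -/
theorem tp2_pow (hp : p.Prime) {B : ValuationSubring (AlgebraicClosure ℚ)}
    (hB : B.LiesOverPrime p) (hPow : S40tp2Pow M' p hp B) : S40tmaPow M' p hp B := by
  haveI : Fact p.Prime := ⟨hp⟩
  intro S a V hS hcard hVp hstab hEig hNot hnE x hx hx0 hI D u hD hu0 huF hDI hDu M e _ _ haux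
    hdvd R hR hM
  obtain ⟨c₁, c₂, w₁, w₂, hc₁, hc₂, hw₁, hw₂, h₁, h₂⟩ :=
    hPow S a V hS hcard hVp hstab hEig hNot hnE x hx hx0 hI D u hD hu0 huF hDI hDu M e haux
      hdvd R hR hM
  obtain ⟨d, hd⟩ := IsAlgClosed.exists_pow_nat_eq (c₁ / c₂) hp.pos
  have hd0 : d ≠ 0 := by
    rintro rfl
    rw [zero_pow hp.ne_zero] at hd
    exact div_ne_zero hc₁ hc₂ hd.symm
  have hne := vk_O_ne M p hp haux.1 hR hB
  obtain ⟨g₀, hg₁, hg₂⟩ :=
    kgl_exists_g0 (gssArch_Qbar B) R (glmZero M p hp haux.1 R) hne hd0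
  refine ⟨c₁, c₂, d, w₁, w₂, 1, 1, g₀, hc₁, ?_, hw₁, hw₂, one_ne_zero, one_ne_zero, h₁, h₂,
    hg₁, hg₂⟩
  rw [hd, div_mul_cancel₀ _ hc₂]

/-- **(TAME-POW), short form ⇒ (J-TAME)**. -/
theorem tp2_tame_of_pow (hp : p.Prime) (hp2 : p ≠ 2) (hpM' : ¬ p ∣ M')
    (B : ValuationSubring (AlgebraicClosure ℚ)) (hB : B.LiesOverPrime p)
    (hPow : S40tp2Pow M' p hp B) : S40jTame M' p B :=
  tma_tame_of_pow M' p hp hp2 hpM' B hB (tp2_pow M' p hp hB hPow)

end

end Fermat.Agent.S40lib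

end
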