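import Mathlib
import Fermat.Agent.S36lib.Speed
import Fermat.Agent.S40lib.TameWind2
import Fermat.Agent.S40lib.EisHeq
import Fermat.Agent.S40lib.HeckePull2

/-!
# Item 88 (S40/S44), block (A-J): (TAME-WIND-NC) is a THEOREM (helper14).  Complete proofs.

`S40tmwWindNC M' p hp B` (`TameWind2.lean`) for even `M'`, `p` odd: WIND0 off the cusps, on both
components, at the auxiliary level `M = lcm(M', 4)` for the pull-back `ũ` of an inertia-fixed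
Kummer function of an eigenclass `x` of a non-Eisenstein eigenspace.

Proof: `ũ ∈ F0(M p)`; normalise by powers of `p` (`vdisc_inf`, `vdisc_zero`); the eigen-relation
passes to the pull-back (`hpl_heig`, helper4); the Eisenstein step without `heq`
(`ehq_h1_inf`, `ehq_h1_zero`, helper28, built on WINDC = `edc_windc` of helper18) at the
non-Eisenstein prime `ℓ` of the eigenspace (`ℓ ∤ M p` because `2 ∣ M'`).

* `tmw3_wind_at` : WIND0 off the cusps for ONE class (one odd non-Eisenstein `ℓ ∉ S`);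
* `tmw3_windNC44` : `= S44tmwWindNC M' p hp B` of `FreyTame.lean` (guard `2 ∈ S`);
* `tmw3_tame_core` : (J-TAME) for one eigenspace;
* `tmw3_tame2` : `= S40jTame2 M' p B` of `HubOdd.lean` (odd non-Eisenstein prime);
* `tmw3_windNC` : (TAME-WIND-NC) for even `M'`;
* `tmw3_tame`   : **(J-TAME)** for even `M'` from the cusp step at the level `M'` and (LIFT);
* `tmw3_tame44` : **(J-TAME), guarded** (`= S44jTame M' p B` of `FreyAsm2.lean`, `2 ∈ S`), any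
  `M'`, `p ≥ 5`, from the cusp step at the level `M'` and (LIFT).
-/

set_option autoImplicit false
set_option linter.style.haveILetI false
set_option linter.unusedSectionVars false
set_option linter.unusedVariables false
set_option synthInstance.maxHeartbeats 400000

noncomputable section

namespace Fermat.Agent.S40lib

open Fermat.Agent.GalRep ModularCurve AlgebraicCurve Fermat.Agent.S31lib Fermat.Agent.S35lib
  Fermat.Agent.S33lib Fermat.Agent.S36lib Fermat.Agent.S24lib Fermat.Agent.S34lib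
  Fermat.Agent.RRlib Fermat.Agent.GoodRed Fermat.Agent.S18lib Fermat.Agent.GM
  Fermat.Agent.HeckeBar HahnSeries

section

variable (M' p : ℕ) [NeZero M'] [NeZero p] [NeZero (M' * p)]

/-- a power of `p` times a function of `F0` is a function of `F0` -/
theorem tmw3_zpow_mem (B : ValuationSubring Kbar) (L : ℕ) [NeZero L] (n : ℤ) {f : FF L}
    (hf : f ∈ f0Field B L) :
    algebraMap Kbar (FF L) ((p : Kbar) ^ n) * f ∈ f0Field B L := by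
  have h1 : algebraMap Kbar (FF L) ((p : Kbar) ^ n)
      = (((a2iQ B p (L := L)) ^ n : f0Field B L) : FF L) := by
    rw [map_zpow₀]
    have h2 := a2i_coe_Q B p (L := L)
    rw [← h2]
    rfl
  rw [h1]
  exact mul_mem (SetLike.coe_mem _) hf

/-- **WIND0 off the cusps** at the auxiliary level `M = lcm(M', 4)`, on both components, for the
pull-back of a Kummer function `u ∈ F0(M' p)` of an eigenclass `x` (eigenvalues `a_ℓ`, `ℓ ∉ S`,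
one odd `ℓ ∉ S` non-Eisenstein). -/
theorem tmw3_wind_at (hp : p.Prime) (hp2 : p ≠ 2) (hpM' : ¬ p ∣ M')
    (B : ValuationSubring (AlgebraicClosure ℚ)) (hB : B.LiesOverPrime p)
    (S : Finset ℕ) (a : ℕ → ℤ) (hS : ∀ ℓ : ℕ, ℓ.Prime → ℓ ∣ M' * p → ℓ ∈ S)
    (ℓ : Nat.Primes) (hℓS : (ℓ : ℕ) ∉ S) (hℓ2 : (ℓ : ℕ) ≠ 2)
    (hcop : ¬ (p : ℤ) ∣ a ℓ - (1 + (ℓ : ℕ)))
    (x : JZero (M' * p))
    (hEigx : ∀ ℓ : Nat.Primes, (ℓ : ℕ) ∉ S → heckeOperatorBar (M' * p) ℓ x = a ℓ • x)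
    (D : Divisor.degZero (K := Kbar) (F := FF (M' * p))) (u : FF (M' * p))
    (hD : Pic0.mk D = x) (hu0 : u ≠ 0) (huF : u ∈ f0Field B (M' * p))
    (hDu : ∀ v : Place Kbar (FF (M' * p)),
      (p : ℤ) * (D : Divisor Kbar (FF (M' * p))) v = v.ord u)
    (M : ℕ) [NeZero M] [NeZero (M * p)] (haux : IsAuxLevel p M) (hdvd : M' ∣ M)
    (hMl : M = Nat.lcm M' (baseLevel p))
    (R : ConstRed B (IsLocalRing.residue B)
      (↥(modularFunctionFieldFullC (IsLocalRing.ResidueField B) M)) (FF (M * p)))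
    (hR : IsSeriesRed R) :
    ∃ (c₁ c₂ : Kbar)
      (h₁ : EisUnit R (algebraMap Kbar (FF (M * p)) c₁ *
        inclBar (M' * p) (M * p) (Nat.mul_dvd_mul_right hdvd p) u))
      (h₂ : EisUnit (glmZero M p hp haux.1 R) (algebraMap Kbar (FF (M * p)) c₂ *
        inclBar (M' * p) (M * p) (Nat.mul_dvd_mul_right hdvd p) u)),
      (∀ Q : Place (IsLocalRing.ResidueField B) (Fk (IsLocalRing.ResidueField B) M),
        0 ≤ Q.ord (jk (IsLocalRing.ResidueField B) M) →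
          (p : ℤ) ∣ Q.ord (R.red ⟨_, h₁.2.1⟩)) ∧
      (∀ Q : Place (IsLocalRing.ResidueField B) (Fk (IsLocalRing.ResidueField B) M),
        0 ≤ Q.ord (jk (IsLocalRing.ResidueField B) M) →
          (p : ℤ) ∣ Q.ord ((glmZero M p hp haux.1 R).red ⟨_, h₂.2.1⟩)) := by
  have hℓ : (ℓ : ℕ).Prime := ℓ.2
  haveI : NeZero (ℓ : ℕ) := ⟨hℓ.ne_zero⟩
  have hℓp : (ℓ : ℕ) ≠ p := fun h => hℓS (h ▸ hS p hp (dvd_mul_left p M'))
  have hℓM' : ¬ (ℓ : ℕ) ∣ M' := fun h => hℓS (hS ℓ hℓ (Dvd.dvd.mul_right h p))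
  have hb4 : baseLevel p = 4 := by
    unfold baseLevel
    rw [if_neg hp2]
  have hℓM : ¬ (ℓ : ℕ) ∣ M := by
    rw [hMl, hb4]
    intro h
    have h' : (ℓ : ℕ) ∣ M' * 4 := h.trans (Nat.lcm_dvd_mul M' 4)
    rcases (Nat.Prime.dvd_mul hℓ).mp h' with h1 | h1
    · exact hℓM' h1
    · have h4 : (ℓ : ℕ) ∣ 2 ^ 2 := by
        norm_num
        exact h1
      exact hℓ2 ((Nat.prime_dvd_prime_iff_eq hℓ Nat.prime_two).mp (hℓ.dvd_of_dvd_pow h4))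
  have hℓN : ¬ (ℓ : ℕ) ∣ M * p := by
    intro h
    rcases (Nat.Prime.dvd_mul hℓ).mp h with h1 | h1
    · exact hℓM h1
    · exact hℓp ((Nat.prime_dvd_prime_iff_eq hℓ hp).mp h1)
  haveI : NeZero (M * (ℓ : ℕ)) := ⟨Nat.mul_ne_zero (NeZero.ne M) hℓ.ne_zero⟩
  haveI : NeZero (M * p * (ℓ : ℕ)) := ⟨Nat.mul_ne_zero (NeZero.ne (M * p)) hℓ.ne_zero⟩
  obtain ⟨Rl, hRl⟩ := hkr_exists_red M p (ℓ : ℕ) B hp haux.1 hℓ hℓp hB
  have hauxl : IsAuxLevel p (M * (ℓ : ℕ)) := ehq_aux_mul hp hℓ hℓp haux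
  haveI : RRBase Kbar (FF (M * p)) := (mod_rrHyp (M * p)).toRRBase
  haveI : RRBase Kbar (FF (M' * p)) := (mod_rrHyp (M' * p)).toRRBase
  have hNM : M' * p ∣ M * p := Nat.mul_dvd_mul_right hdvd p
  have hũ0 : inclBar (M' * p) (M * p) hNM u ≠ 0 := (map_ne_zero _).2 hu0
  have hũF : inclBar (M' * p) (M * p) hNM u ∈ f0Field B (M * p) :=
    r2m_inclBar_mem_f0Field B hNM u huF
  have hkx : gdfIsKummer (K := Kbar) p x u := gdf_isKummer_of_ord hu0 D hD hDu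
  have hk := hpl_pull_kummer (M' * p) (M * p) hNM hkx
  have heig : heckeOperatorBar (M * p) ⟨(ℓ : ℕ), hℓ⟩ (auxLevelPull (M' * p) (M * p) hNM x)
      = a ℓ • auxLevelPull (M' * p) (M * p) hNM x :=
    hpl_heig (M' * p) (M * p) hNM ℓ hℓN hp.ne_zero hkx (a ℓ) (hEigx ℓ hℓS)
  have hcop' : ¬ (p : ℤ) ∣ a ℓ - ((((ℓ : ℕ) : ℕ) : ℤ) + 1) := by
    rw [add_comm]
    exact hcop
  -- the normalisations by powers of `p`
  obtain ⟨n₁, hn₁a, hn₁b⟩ := vdisc_inf (A := B) hp hB hR hũF hũ0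
  obtain ⟨n₂, hn₂a, hn₂b⟩ := vdisc_zero (A := B) hp hB hR
    (atkinLehnerFF (M * p) p hp (dvd_mul_left p M) (inf_not_sq_dvd M p hp haux.1))
    (fun y hy => atkinLehnerFF_mem_f0Field B (M * p) hp (dvd_mul_left p M)
      (inf_not_sq_dvd M p hp haux.1) hy) hũF hũ0
  have hpK : (p : Kbar) ≠ 0 := Nat.cast_ne_zero.mpr hp.ne_zero
  have hc₁F : algebraMap Kbar (FF (M * p)) ((p : Kbar) ^ n₁) ≠ 0 :=
    (map_ne_zero _).mpr (zpow_ne_zero _ hpK)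
  have hc₂F : algebraMap Kbar (FF (M * p)) ((p : Kbar) ^ n₂) ≠ 0 :=
    (map_ne_zero _).mpr (zpow_ne_zero _ hpK)
  have h₁ : EisUnit R (algebraMap Kbar (FF (M * p)) ((p : Kbar) ^ n₁) *
      inclBar (M' * p) (M * p) hNM u) := ⟨mul_ne_zero hc₁F hũ0, hn₁a, hn₁b⟩
  have h₂ : EisUnit (glmZero M p hp haux.1 R) (algebraMap Kbar (FF (M * p)) ((p : Kbar) ^ n₂) *
      inclBar (M' * p) (M * p) hNM u) := ⟨mul_ne_zero hc₂F hũ0, hn₂a, hn₂b⟩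
  -- the constant multiples are Kummer functions of the pull-back, in `F0`
  obtain ⟨Dt, hDt, hordt⟩ := gdf_isKummer_ord hk
  have hkc : ∀ n : ℤ, gdfIsKummer (K := Kbar) p (auxLevelPull (M' * p) (M * p) hNM x)
      (algebraMap Kbar (FF (M * p)) ((p : Kbar) ^ n) * inclBar (M' * p) (M * p) hNM u) := by
    intro n
    have hcn : ((p : Kbar) ^ n) ≠ 0 := zpow_ne_zero _ hpK
    refine gdf_isKummer_of_ord (mul_ne_zero ((map_ne_zero _).mpr hcn) hũ0) Dt hDt (fun v => ?_)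
    rw [Place.ord_mul v ((map_ne_zero _).mpr hcn) hũ0, wir_ord_algebraMap v hcn, zero_add]
    exact hordt v
  have hswap₁ : algebraMap Kbar (FF (M * p)) ((p : Kbar) ^ n₂ * ((p : Kbar) ^ n₁)⁻¹) *
      (algebraMap Kbar (FF (M * p)) ((p : Kbar) ^ n₁) * inclBar (M' * p) (M * p) hNM u)
      = algebraMap Kbar (FF (M * p)) ((p : Kbar) ^ n₂) * inclBar (M' * p) (M * p) hNM u := by
    rw [map_mul, map_inv₀]
    field_simp
  have hswap₂ : algebraMap Kbar (FF (M * p)) ((p : Kbar) ^ n₁ * ((p : Kbar) ^ n₂)⁻¹) *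
      (algebraMap Kbar (FF (M * p)) ((p : Kbar) ^ n₂) * inclBar (M' * p) (M * p) hNM u)
      = algebraMap Kbar (FF (M * p)) ((p : Kbar) ^ n₁) * inclBar (M' * p) (M * p) hNM u := by
    rw [map_mul, map_inv₀]
    field_simp
  refine ⟨(p : Kbar) ^ n₁, (p : Kbar) ^ n₂, h₁, h₂, fun Q hQ => ?_, fun Q hQ => ?_⟩
  · exact ehq_h1_inf M p (ℓ : ℕ) B hp hℓ hℓp (dvd_mul_left p M) (inf_not_sq_dvd M p hp haux.1)
      haux.1 hℓN hB hauxl hR hRl (a ℓ) hcop' (hkc n₁) heig (tmw3_zpow_mem p B (M * p) n₁ hũF) h₁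
      (c := (p : Kbar) ^ n₂ * ((p : Kbar) ^ n₁)⁻¹) (by rw [hswap₁]; exact h₂) Q hQ
  · exact ehq_h1_zero M p (ℓ : ℕ) B hp hℓ hℓp (dvd_mul_left p M) (inf_not_sq_dvd M p hp haux.1)
      haux.1 hℓN hB hauxl hR hRl (a ℓ) hcop' (hkc n₂) heig (tmw3_zpow_mem p B (M * p) n₂ hũF) h₂
      (c := (p : Kbar) ^ n₁ * ((p : Kbar) ^ n₂)⁻¹) (by rw [hswap₂]; exact h₁) Q hQ

/-- **(TAME-WIND-NC)** for even `M'` and odd `p`. -/
theorem tmw3_windNC (hp : p.Prime) (hp2 : p ≠ 2) (hpM' : ¬ p ∣ M') (h2M : 2 ∣ M')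
    (B : ValuationSubring (AlgebraicClosure ℚ)) (hB : B.LiesOverPrime p) :
    S40tmwWindNC M' p hp B := by
  intro S a V hS hcard hVp hstab hEig hNot hnE x hx hx0 hI D u hD hu0 huF hDI hDu M _ _ haux
    hdvd hMl R hR
  obtain ⟨ℓ, hℓS, hcop⟩ := hnE
  exact tmw3_wind_at M' p hp hp2 hpM' B hB S a hS ℓ hℓS
    (fun h => hℓS (h ▸ hS 2 Nat.prime_two (Dvd.dvd.mul_right h2M p))) hcop x
    (fun ℓ hℓS => hEig ℓ hℓS x hx) D u hD hu0 huF hDu M haux hdvd hMl R hR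

/-- **(J-TAME)** for even `M'`, `p` odd, from the cusp step at the level `M'` and (LIFT). -/
theorem tmw3_tame (hp : p.Prime) (hp2 : p ≠ 2) (hpM' : ¬ p ∣ M') (h2M : 2 ∣ M')
    (B : ValuationSubring (AlgebraicClosure ℚ)) (hB : B.LiesOverPrime p)
    (hC : ∀ (S : Finset ℕ) (a : ℕ → ℤ),
      (∀ ℓ : ℕ, ℓ.Prime → ℓ ∣ M' * p → ℓ ∈ S) →
      (∃ ℓ : Nat.Primes, (ℓ : ℕ) ∉ S ∧ ¬ (p : ℤ) ∣ a ℓ - (1 + (ℓ : ℕ))) →
      S40tmwCusp M' p S a (IsLocalRing.ResidueField B))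
    (hL : ∀ (S : Finset ℕ) (a : ℕ → ℤ), LfhLift M' p S a B) : S40jTame M' p B :=
  tmw2_tame M' p hp hp2 (Or.inr h2M) hpM' B hB (tmw3_windNC M' p hp hp2 hpM' h2M B hB) hC hL

/-- **(TAME-WIND-NC), guarded (`2 ∈ S`)** `= S44tmwWindNC M' p hp B` of `FreyTame.lean`
(helper6), any `M'`, `p` odd. -/
theorem tmw3_windNC44 (hp : p.Prime) (hp2 : p ≠ 2) (hpM' : ¬ p ∣ M')
    (B : ValuationSubring (AlgebraicClosure ℚ)) (hB : B.LiesOverPrime p) :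
    ∀ (S : Finset ℕ) (a : ℕ → ℤ) (V : AddSubgroup (JZero (M' * p))),
    (∀ ℓ : ℕ, ℓ.Prime → ℓ ∣ M' * p → ℓ ∈ S) → 2 ∈ S →
    Nat.card V = p ^ 2 → (∀ x ∈ V, p • x = 0) →
    (∀ (σ : AlgebraicClosure ℚ ≃ₐ[ℚ] AlgebraicClosure ℚ), ∀ x ∈ V, σ • x ∈ V) →
    S40hEig (M' * p) S a V → S40hNotAt M' p S a →
    (∃ ℓ : Nat.Primes, (ℓ : ℕ) ∉ S ∧ ¬ (p : ℤ) ∣ a ℓ - (1 + (ℓ : ℕ))) →
    ∀ x ∈ V, x ≠ 0 → (∀ σ ∈ B.inertiaSubgroupIn ℚ, σ • x = x) →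
    ∀ (D : Divisor.degZero (K := Kbar) (F := FF (M' * p))) (u : FF (M' * p)),
      Pic0.mk D = x → u ≠ 0 → u ∈ f0Field B (M' * p) →
      (∀ σ ∈ B.inertiaSubgroupIn ℚ,
        galFF (M' * p) σ • (D : Divisor Kbar (FF (M' * p))) = D) →
      (∀ v : Place Kbar (FF (M' * p)),
        (p : ℤ) * (D : Divisor Kbar (FF (M' * p))) v = v.ord u) →
    ∀ (M : ℕ) [NeZero M] [NeZero (M * p)] (haux : IsAuxLevel p M) (hdvd : M' ∣ M),
      M = Nat.lcm M' (baseLevel p) →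
      ∀ (R : ConstRed B (IsLocalRing.residue B)
        (↥(modularFunctionFieldFullC (IsLocalRing.ResidueField B) M)) (FF (M * p))),
      IsSeriesRed R →
      ∃ (c₁ c₂ : Kbar)
        (h₁ : EisUnit R (algebraMap Kbar (FF (M * p)) c₁ *
          inclBar (M' * p) (M * p) (Nat.mul_dvd_mul_right hdvd p) u))
        (h₂ : EisUnit (glmZero M p hp haux.1 R) (algebraMap Kbar (FF (M * p)) c₂ *
          inclBar (M' * p) (M * p) (Nat.mul_dvd_mul_right hdvd p) u)),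
        (∀ Q : Place (IsLocalRing.ResidueField B) (Fk (IsLocalRing.ResidueField B) M),
          0 ≤ Q.ord (jk (IsLocalRing.ResidueField B) M) →
            (p : ℤ) ∣ Q.ord (R.red ⟨_, h₁.2.1⟩)) ∧
        (∀ Q : Place (IsLocalRing.ResidueField B) (Fk (IsLocalRing.ResidueField B) M),
          0 ≤ Q.ord (jk (IsLocalRing.ResidueField B) M) →
            (p : ℤ) ∣ Q.ord ((glmZero M p hp haux.1 R).red ⟨_, h₂.2.1⟩)) := by
  intro S a V hS h2S hcard hVp hstab hEig hNot hnE x hx hx0 hI D u hD hu0 huF hDI hDu M _ _ haux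
    hdvd hMl R hR
  obtain ⟨ℓ, hℓS, hcop⟩ := hnE
  exact tmw3_wind_at M' p hp hp2 hpM' B hB S a hS ℓ hℓS (fun h => hℓS (h ▸ h2S)) hcop x
    (fun ℓ hℓS => hEig ℓ hℓS x hx) D u hD hu0 huF hDu M haux hdvd hMl R hR

/-- **(J-TAME), core**: one eigenspace `V`, one odd non-Eisenstein prime `ℓ ∉ S`, `p ≥ 5`, any
`M'`; the cusp step and (LIFT) for `(S, a)` at the level `M'`. -/
theorem tmw3_tame_core (hp : p.Prime) (hp2 : p ≠ 2) (hp3 : p ≠ 3) (hpM' : ¬ p ∣ M')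
    (B : ValuationSubring (AlgebraicClosure ℚ)) (hB : B.LiesOverPrime p)
    (S : Finset ℕ) (a : ℕ → ℤ) (V : AddSubgroup (JZero (M' * p)))
    (hS : ∀ ℓ : ℕ, ℓ.Prime → ℓ ∣ M' * p → ℓ ∈ S)
    (hVp : ∀ x ∈ V, p • x = 0)
    (hEig : S40hEig (M' * p) S a V) (hNot : S40hNotAt M' p S a)
    (ℓ : Nat.Primes) (hℓS : (ℓ : ℕ) ∉ S) (hℓ2 : (ℓ : ℕ) ≠ 2)
    (hcop : ¬ (p : ℤ) ∣ a ℓ - (1 + (ℓ : ℕ)))
    (hC : S40tmwCusp M' p S a (IsLocalRing.ResidueField B))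
    (hL : LfhLift M' p S a B)
    (x : JZero (M' * p)) (hx : x ∈ V) (hI : ∀ σ ∈ B.inertiaSubgroupIn ℚ, σ • x = x) :
    x = 0 := by
  haveI : Fact p.Prime := ⟨hp⟩
  by_contra hx0
  obtain ⟨D, u, hD, hu0, huF, hDI, hDu⟩ := tmf_kummer (M' * p) p B x (hVp x hx) hI
  obtain ⟨e, hM0, hMp0, hdvd, haux, hM, hdegψ⟩ := tmw_aux_data M' p hp hpM'
  obtain ⟨R, hR⟩ := exists_constRedInf_aux (Nat.lcm M' (baseLevel p)) p hp haux.1 B hB
  obtain ⟨R', hR'⟩ := hkq_exists_red M' p B hp hpM' hB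
  obtain ⟨c₁, c₂, h₁, h₂, hord₁, hord₂⟩ :=
    tmw3_wind_at M' p hp hp2 hpM' B hB S a hS ℓ hℓS hℓ2 hcop x (fun ℓ hℓS => hEig ℓ hℓS x hx)
      D u hD hu0 huF hDu (Nat.lcm M' (baseLevel p)) haux hdvd rfl R hR
  have hb4 : baseLevel p = 4 := by
    unfold baseLevel
    rw [if_neg hp2]
  have hdeg := lvb_hdeg_aux (A := B) (M := Nat.lcm M' (baseLevel p)) (by rw [hb4]) hdvd hp hp2
    (Or.inl hp3) haux.1 hB
  haveI : RRBase Kbar (FF (Nat.lcm M' (baseLevel p) * p)) :=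
    (mod_rrHyp (Nat.lcm M' (baseLevel p) * p)).toRRBase
  have hk := tma_pull_kummer M' p (Nat.lcm M' (baseLevel p)) hdvd D u hu0 hDu
  have hker := tmw2_ker2_of_wind M' (Nat.lcm M' (baseLevel p)) p hp hpM' haux.1 hdvd hB hdeg hR'
    hR S hS a hL hNot hC (Pic0.mk D) (by rw [hD]; exact hVp x hx)
    (fun ℓ hℓS => by rw [hD]; exact hEig ℓ hℓS x hx) _ hk c₁ c₂ h₁ h₂ hord₁ hord₂
  rw [hD] at hker
  obtain ⟨hα, hβ⟩ := s40h_new_of_notAt M' p hp hpM' S a V hS hVp hEig hNot x hx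
  obtain ⟨τ₀, hτ₀, hmv, -⟩ := cysp_exists_moves p hp2 B hB
  exact hx0 (tpp_fixed_descent M' (Nat.lcm M' (baseLevel p)) p e hp hp2 haux hdvd hM hdegψ hB R hR
    x (hVp x hx) hker hα hβ τ₀ hτ₀ hmv (hI τ₀ hτ₀))

/-- **(J-TAME), guarded (`2 ∈ S`)** `= S44jTame M' p B` of `FreyAsm2.lean` (helper6), for
`p ≥ 5` (any `M'`), from the cusp step at the level `M'` and (LIFT). -/
theorem tmw3_tame44 (hp : p.Prime) (hp2 : p ≠ 2) (hp3 : p ≠ 3) (hpM' : ¬ p ∣ M')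
    (B : ValuationSubring (AlgebraicClosure ℚ)) (hB : B.LiesOverPrime p)
    (hC : ∀ (S : Finset ℕ) (a : ℕ → ℤ),
      (∀ ℓ : ℕ, ℓ.Prime → ℓ ∣ M' * p → ℓ ∈ S) → 2 ∈ S →
      (∃ ℓ : Nat.Primes, (ℓ : ℕ) ∉ S ∧ ¬ (p : ℤ) ∣ a ℓ - (1 + (ℓ : ℕ))) →
      S40tmwCusp M' p S a (IsLocalRing.ResidueField B))
    (hL : ∀ (S : Finset ℕ) (a : ℕ → ℤ), 2 ∈ S → LfhLift M' p S a B) :
    ∀ (S : Finset ℕ) (a : ℕ → ℤ) (V : AddSubgroup (JZero (M' * p))),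
      (∀ ℓ : ℕ, ℓ.Prime → ℓ ∣ M' * p → ℓ ∈ S) → 2 ∈ S →
      Nat.card V = p ^ 2 → (∀ x ∈ V, p • x = 0) →
      (∀ (σ : AlgebraicClosure ℚ ≃ₐ[ℚ] AlgebraicClosure ℚ), ∀ x ∈ V, σ • x ∈ V) →
      S40hEig (M' * p) S a V → S40hNotAt M' p S a →
      (∃ ℓ : Nat.Primes, (ℓ : ℕ) ∉ S ∧ ¬ (p : ℤ) ∣ a ℓ - (1 + (ℓ : ℕ))) →
      ∀ x ∈ V, (∀ σ ∈ B.inertiaSubgroupIn ℚ, σ • x = x) → x = 0 := by
  intro S a V hS h2S hcard hVp hstab hEig hNot hnE x hx hI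
  obtain ⟨ℓ, hℓS, hcop⟩ := id hnE
  exact tmw3_tame_core M' p hp hp2 hp3 hpM' B hB S a V hS hVp hEig hNot ℓ hℓS
    (fun h => hℓS (h ▸ h2S)) hcop (hC S a hS h2S hnE) (hL S a h2S) x hx hI

/-- **(J-TAME) with an odd non-Eisenstein prime** `= S40jTame2 M' p B` of `HubOdd.lean`
(helper27), for `p ≥ 5` (any `M'`), from the cusp step at the level `M'` and (LIFT). -/
theorem tmw3_tame2 (hp : p.Prime) (hp2 : p ≠ 2) (hp3 : p ≠ 3) (hpM' : ¬ p ∣ M')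
    (B : ValuationSubring (AlgebraicClosure ℚ)) (hB : B.LiesOverPrime p)
    (hC : ∀ (S : Finset ℕ) (a : ℕ → ℤ),
      (∀ ℓ : ℕ, ℓ.Prime → ℓ ∣ M' * p → ℓ ∈ S) →
      (∃ ℓ : Nat.Primes, (ℓ : ℕ) ∉ S ∧ (ℓ : ℕ) ≠ 2 ∧ ¬ (p : ℤ) ∣ a ℓ - (1 + (ℓ : ℕ))) →
      S40tmwCusp M' p S a (IsLocalRing.ResidueField B))
    (hL : ∀ (S : Finset ℕ) (a : ℕ → ℤ), LfhLift M' p S a B) :
    ∀ (S : Finset ℕ) (a : ℕ → ℤ) (V : AddSubgroup (JZero (M' * p))),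
      (∀ ℓ : ℕ, ℓ.Prime → ℓ ∣ M' * p → ℓ ∈ S) →
      Nat.card V = p ^ 2 → (∀ x ∈ V, p • x = 0) →
      (∀ (σ : AlgebraicClosure ℚ ≃ₐ[ℚ] AlgebraicClosure ℚ), ∀ x ∈ V, σ • x ∈ V) →
      S40hEig (M' * p) S a V → S40hNotAt M' p S a →
      (∃ ℓ : Nat.Primes, (ℓ : ℕ) ∉ S ∧ (ℓ : ℕ) ≠ 2 ∧ ¬ (p : ℤ) ∣ a ℓ - (1 + (ℓ : ℕ))) →
      ∀ x ∈ V, (∀ σ ∈ B.inertiaSubgroupIn ℚ, σ • x = x) → x = 0 := by
  intro S a V hS hcard hVp hstab hEig hNot hnE x hx hI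
  obtain ⟨ℓ, hℓS, hℓ2, hcop⟩ := id hnE
  exact tmw3_tame_core M' p hp hp2 hp3 hpM' B hB S a V hS hVp hEig hNot ℓ hℓS hℓ2 hcop
    (hC S a hS hnE) (hL S a) x hx hI

end

end Fermat.Agent.S40lib

end
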