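import Mathlib
import Fermat.Agent.S36lib.Speed
import Fermat.Agent.S40lib.TameWind

/-!
# Item 88 (S40/S44), block (A-J): (J-TAME) from WIND0 **off the cusps** at the auxiliary level
# and WIND0 **at the cusps of the level `M'`** (helper18)

The auxiliary level `M = lcm(M', 4)` has cusps which are not Atkin-Lehner images of `∞`; the
cuspidal part of WIND0 is therefore asked at the level `M'` only (squarefree in the application),
and the non-cuspidal part at the auxiliary level (where the edge rule lives).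

* `twn_ord_dvd`, `twn_ord_dvd_level` : the level bridge (B2) of helper12 place by place: for a
  non-cuspidal place `v` of `F_{M',k}` only the (non-cuspidal) places over `v` are used;
* `twn_wind_transfer` : `tmw_wind_transfer` of helper14 at one place;
* `twn_ker2_of_wind` : the tail `tmw_ker2_of_wind` with WIND0 off the cusps at the level `M` and
  WIND0 at the cusps at the level `M'`;
* `S40twnWind`, `S40twnCusp`, `twn_tame_of_wind` : (J-TAME) from the two and (LIFT).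
-/

set_option autoImplicit false
set_option linter.style.haveILetI false
set_option linter.unusedSectionVars false
set_option linter.unusedVariables false
set_option synthInstance.maxHeartbeats 400000

noncomputable section

namespace Fermat.Agent.S40lib

open Fermat.Agent.GalRep ModularCurve AlgebraicCurve Fermat.Agent.S31lib Fermat.Agent.S35lib
  Fermat.Agent.S33lib Fermat.Agent.S36lib Fermat.Agent.S24lib Fermat.Agent.S34lib
  Fermat.Agent.RRlib Fermat.Agent.GoodRed Fermat.Agent.S18lib Fermat.Agent.GM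
  Fermat.Agent.HeckeBar HahnSeries

/-! ### 1. the level bridge, place by place -/

section Abstract

variable {K F F' : Type*} [Field K] [Field F] [Field F'] [Algebra K F] [Algebra K F']
  [Algebra F F'] [IsScalarTower K F F'] [Algebra.IsIntegral F F'] [HasPrincipalDivisors K F']

/-- **(B2), one place**: `p ∣ ord_w f` at the places `w` over `v` implies `p ∣ ord_v f`. -/
theorem twn_ord_dvd [FundamentalIdentity K F F'] {p : ℕ} (hp : p.Prime) (v : Place K F)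
    (hn : ¬ (p : ℤ) ∣ (Module.finrank F F' : ℤ) * (v.deg : ℤ)) (f : F)
    (h : ∀ w ∈ v.fiber F', (p : ℤ) ∣ w.ord (algebraMap F F' f)) :
    (p : ℤ) ∣ v.ord f := by
  obtain ⟨w, hw, hpe⟩ := lvb_exists_tame v hn
  have h1 := h w hw
  rw [Place.ord_restrict, Place.mem_fiber.mp hw] at h1
  rcases Int.Prime.dvd_mul' hp h1 with h2 | h2
  · exact absurd h2 hpe
  · exact h2

end Abstract

section LevelK

variable {k : Type} [Field k] [IsAlgClosed k] {M' M : ℕ} [NeZero M'] [NeZero M]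

/-- **(B2) off the cusps** for `F_{M',k} ⊆ F_{M,k}`. -/
theorem twn_ord_dvd_level (hdvd : M' ∣ M) {p : ℕ} (hp : p.Prime)
    (hdeg : ¬ p ∣ finrankAlong k (inclK k hdvd)) (f : Fk k M')
    (v : Place k (Fk k M')) (hv : 0 ≤ v.ord (jk k M'))
    (h : ∀ w : Place k (Fk k M), 0 ≤ w.ord (jk k M) → (p : ℤ) ∣ w.ord (inclK k hdvd f)) :
    (p : ℤ) ∣ v.ord f := by
  letI := algK k hdvd
  haveI := isScalarTower_algK k hdvd
  haveI := gmw_finite (k := k) hdvd
  haveI : Algebra.IsIntegral (Fk k M') (Fk k M) := Algebra.IsIntegral.of_finite _ _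
  haveI := gmw_hasPrincipalDivisors k M
  haveI := gmw_ffSep k M'
  haveI := gmw_ffSep' (k := k) hdvd
  haveI : FundamentalIdentity k (Fk k M') (Fk k M) :=
    fundamentalIdentity_of_ffSep (K := k) (x := jk k M')
  haveI : RRHyp k (Fk k M') := mr_rrHyp k M'
  have hv1 : v.deg = 1 := deg_eq_one (K := k) v
  refine twn_ord_dvd (K := k) (F := Fk k M') (F' := Fk k M) hp v ?_ f (fun w hw => h w ?_)
  · rw [hv1, Nat.cast_one, mul_one]
    intro hd
    exact hdeg (Int.natCast_dvd_natCast.mp hd)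
  · have h1 := Place.ord_restrict (F := Fk k M') w (jk k M')
    rw [Place.mem_fiber.mp hw] at h1
    have h2 : algebraMap (Fk k M') (Fk k M) (jk k M') = jk k M := inclK_jk k hdvd
    rw [h2] at h1
    rw [h1]
    exact mul_nonneg (Int.natCast_nonneg _) hv

end LevelK

/-! ### 2. WIND0 at one place is independent of the Kummer function -/

section AbstractT

variable {K F k Fk : Type*} [Field K] [Field F] [Algebra K F] [Field k] [Field Fk] [Algebra k Fk]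
variable {A : ValuationSubring K} {π : A →+* k} (R : ConstRed A π Fk F)

/-- WIND0 at the place `Q` passes from a unit `f` to the unit `g = c w ^ p f`. -/
theorem twn_wind_transfer (p : ℕ) {f g : F} (hf : EisUnit R f) (hg : EisUnit R g) (c : K)
    (w : F) (hw : w ≠ 0) (hrel : g = algebraMap K F c * w ^ p * f) (Q : Place k Fk)
    (hord : (p : ℤ) ∣ Q.ord (R.red ⟨f, hf.2.1⟩)) :
    (p : ℤ) ∣ Q.ord (R.red ⟨g, hg.2.1⟩) := by
  obtain ⟨κ, hκ0, hκ1, hκ2⟩ := R.exists_unit_smul w hw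
  have hκF : algebraMap K F κ ≠ 0 := (map_ne_zero _).mpr hκ0
  have hW : EisUnit R (algebraMap K F κ * w) := ⟨mul_ne_zero hκF hw, hκ1, hκ2⟩
  have hf0 := hf.1
  have hE : algebraMap K F (c * (κ ^ p)⁻¹) = g * f⁻¹ * ((algebraMap K F κ * w) ^ p)⁻¹ := by
    rw [hrel, map_mul, map_inv₀, map_pow, mul_pow]
    field_simp
  have hEu : EisUnit R (algebraMap K F (c * (κ ^ p)⁻¹)) := by
    rw [hE]
    exact (hg.mul hf.inv).mul (hW.pow p).inv
  obtain ⟨b, hb0, hb⟩ := hEu.eisRed_const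
  have hg' : g = algebraMap K F (c * (κ ^ p)⁻¹) * (algebraMap K F κ * w) ^ p * f := by
    rw [hrel, map_mul, map_inv₀, map_pow, mul_pow]
    field_simp
  have hred : eisRed R g
      = algebraMap k Fk b * (eisRed R (algebraMap K F κ * w)) ^ p * eisRed R f := by
    rw [hg', eisRed_mul (mul_mem hEu.2.1 (hW.pow p).2.1) hf.2.1,
      eisRed_mul hEu.2.1 (hW.pow p).2.1, hb, hW.eisRed_pow]
  have hbF : algebraMap k Fk b ≠ 0 := (map_ne_zero _).mpr hb0
  have hWr := hW.eisRed_ne_zero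
  have hfr := hf.eisRed_ne_zero
  rw [← eisRed_of_mem hg.2.1, hred, Place.ord_mul Q (mul_ne_zero hbF (pow_ne_zero _ hWr)) hfr,
    Place.ord_mul Q hbF (pow_ne_zero _ hWr), wir_ord_algebraMap Q hb0, zero_add, du_ord_pow,
    eisRed_of_mem hf.2.1]
  exact dvd_add (dvd_mul_right _ _) hord

end AbstractT

/-! ### 3. the tail: WIND0 off the cusps (level `M`) + WIND0 at the cusps (level `M'`) + (LIFT)
⇒ (KER2) -/

section Tail

variable (M' M p : ℕ) [NeZero M'] [NeZero M] [NeZero p] [NeZero (M' * p)] [NeZero (M * p)]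

/-- **the tail**: as `tmw_ker2_of_wind`, with WIND0 of `u'` asked at the NON-cuspidal places of
the level `M` only, and WIND0 of the normalised Kummer functions of `x` at the cusps of the
level `M'`. -/
theorem twn_ker2_of_wind [RRBase Kbar (FF (M * p))] (hp : p.Prime) (hpM' : ¬ p ∣ M')
    (hpM : ¬ p ∣ M) (hdvd : M' ∣ M)
    {B : ValuationSubring Kbar} (hB : B.LiesOverPrime p)
    (hdeg : ¬ p ∣ finrankAlong (IsLocalRing.ResidueField B)
      (inclK (IsLocalRing.ResidueField B) hdvd))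
    {R' : ConstRed B (IsLocalRing.residue B) (Fk (IsLocalRing.ResidueField B) M') (FF (M' * p))}
    {R : ConstRed B (IsLocalRing.residue B) (Fk (IsLocalRing.ResidueField B) M) (FF (M * p))}
    (hR' : IsSeriesRed R') (hR : IsSeriesRed R)
    (S : Finset ℕ) (hS : ∀ ℓ : ℕ, ℓ.Prime → ℓ ∣ M' * p → ℓ ∈ S) (a : ℕ → ℤ)
    (hL : LfhLift M' p S a B) (hNot : S40hNotAt M' p S a)
    (x : JZero (M' * p)) (hpx : p • x = 0)
    (hx : ∀ ℓ : Nat.Primes, (ℓ : ℕ) ∉ S → heckeOperatorBar (M' * p) ℓ x = a ℓ • x)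
    (u' : FF (M * p))
    (hk' : gdfIsKummer (K := Kbar) p
      (auxLevelPull (M' * p) (M * p) (Nat.mul_dvd_mul_right hdvd p) x) u')
    (c₁ c₂ : Kbar)
    (h₁ : EisUnit R (algebraMap Kbar (FF (M * p)) c₁ * u'))
    (h₂ : EisUnit (glmZero M p hp hpM R) (algebraMap Kbar (FF (M * p)) c₂ * u'))
    (hord₁ : ∀ Q : Place (IsLocalRing.ResidueField B) (Fk (IsLocalRing.ResidueField B) M),
      0 ≤ Q.ord (jk (IsLocalRing.ResidueField B) M) → (p : ℤ) ∣ Q.ord (R.red ⟨_, h₁.2.1⟩))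
    (hord₂ : ∀ Q : Place (IsLocalRing.ResidueField B) (Fk (IsLocalRing.ResidueField B) M),
      0 ≤ Q.ord (jk (IsLocalRing.ResidueField B) M) →
      (p : ℤ) ∣ Q.ord ((glmZero M p hp hpM R).red ⟨_, h₂.2.1⟩))
    (hcusp₁ : ∀ (D : Divisor.degZero (K := Kbar) (F := FF (M' * p))) (u : FF (M' * p)),
      Pic0.mk D = x →
      (∀ v : Place Kbar (FF (M' * p)),
        (p : ℤ) * (D : Divisor Kbar (FF (M' * p))) v = v.ord u) →
      ∀ hu : EisUnit R' u,
      ∀ Q : Place (IsLocalRing.ResidueField B) (Fk (IsLocalRing.ResidueField B) M'),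
        Q.ord (jk (IsLocalRing.ResidueField B) M') < 0 → (p : ℤ) ∣ Q.ord (R'.red ⟨u, hu.2.1⟩))
    (hcusp₂ : ∀ (D : Divisor.degZero (K := Kbar) (F := FF (M' * p))) (u : FF (M' * p)),
      Pic0.mk D = x →
      (∀ v : Place Kbar (FF (M' * p)),
        (p : ℤ) * (D : Divisor Kbar (FF (M' * p))) v = v.ord u) →
      ∀ hu : EisUnit (glmZero M' p hp hpM' R') u,
      ∀ Q : Place (IsLocalRing.ResidueField B) (Fk (IsLocalRing.ResidueField B) M'),
        Q.ord (jk (IsLocalRing.ResidueField B) M') < 0 →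
        (p : ℤ) ∣ Q.ord ((glmZero M' p hp hpM' R').red ⟨u, hu.2.1⟩)) :
    TppKer2 M p hp hpM R (auxLevelPull (M' * p) (M * p) (Nat.mul_dvd_mul_right hdvd p) x) := by
  haveI : RRHyp Kbar (FF (M * p)) := mod_rrHyp (M * p)
  haveI : RRHyp Kbar (FF (M' * p)) := mod_rrHyp (M' * p)
  haveI : RRBase Kbar (FF (M' * p)) := (mod_rrHyp (M' * p)).toRRBase
  haveI : HasPrincipalDivisors Kbar (FF (M' * p)) := wir_hasPrincipalDivisors (M' * p)
  haveI : IsAlgClosed (IsLocalRing.ResidueField B) := isAlgClosed_residueField B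
  have hAtop : B ≠ ⊤ := cri_ne_top p B (B.mem_nonunits_iff.mp hB) hp.ne_zero
  have hNM : M' * p ∣ M * p := Nat.mul_dvd_mul_right hdvd p
  have hpS : p ∈ S := hS p hp (dvd_mul_left p M')
  obtain ⟨D, rfl⟩ := Pic0.mk_surjective x
  obtain ⟨u, hu0, hDu⟩ := tax_exists_kummer (M' * p) p D hpx
  have hkx : gdfIsKummer (K := Kbar) p (Pic0.mk D) u := gdf_isKummer_of_ord hu0 D rfl hDu
  have hk := tma_pull_kummer M' p M hdvd D u hu0 hDu
  obtain ⟨c, w, hc0, hw0, hrel⟩ := gdf_isKummer_unique hk' hk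
  have hc₁0 : c₁ ≠ 0 := by
    intro h0
    apply h₁.1
    rw [h0, map_zero, zero_mul]
  have hc₂0 : c₂ ≠ 0 := by
    intro h0
    apply h₂.1
    rw [h0, map_zero, zero_mul]
  have hc₁F : algebraMap Kbar (FF (M * p)) c₁ ≠ 0 := (map_ne_zero _).mpr hc₁0
  have hc₂F : algebraMap Kbar (FF (M * p)) c₂ ≠ 0 := (map_ne_zero _).mpr hc₂0
  -- the constant multiples of `u` are Kummer functions of `x`
  have hdivc : ∀ κ : Kbar, κ ≠ 0 → ∀ v : Place Kbar (FF (M' * p)),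
      (p : ℤ) * (D : Divisor Kbar (FF (M' * p))) v
        = v.ord (algebraMap Kbar (FF (M' * p)) κ * u) := by
    intro κ hκ v
    rw [Place.ord_mul v ((map_ne_zero _).mpr hκ) hu0, wir_ord_algebraMap v hκ, zero_add]
    exact hDu v
  have hinclc : ∀ κ : Kbar, inclBar (M' * p) (M * p) hNM (algebraMap Kbar (FF (M' * p)) κ * u)
      = algebraMap Kbar (FF (M * p)) κ * inclBar (M' * p) (M * p) hNM u := by
    intro κ
    rw [map_mul, AlgHom.commutes]
  -- ### the `∞`-component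
  obtain ⟨κ₁, hκ₁0, hκ₁a, hκ₁b⟩ := R'.exists_unit_smul u hu0
  have hU₁ : EisUnit R' (algebraMap Kbar (FF (M' * p)) κ₁ * u) :=
    ⟨mul_ne_zero ((map_ne_zero _).mpr hκ₁0) hu0, hκ₁a, hκ₁b⟩
  obtain ⟨hm₁, hredm₁⟩ := lvb_red_incl (p := p) hdvd hAtop hR' hR _ hκ₁a
  obtain ⟨hm₁', -⟩ := lvb_red_incl (p := p) hdvd hAtop hR' hR _ hκ₁b
  have hŨ₁ : EisUnit R (inclBar (M' * p) (M * p) hNM (algebraMap Kbar (FF (M' * p)) κ₁ * u)) :=
    ⟨(map_ne_zero _).mpr hU₁.1, hm₁, by rw [← map_inv₀]; exact hm₁'⟩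
  have hrel₁ : inclBar (M' * p) (M * p) hNM (algebraMap Kbar (FF (M' * p)) κ₁ * u)
      = algebraMap Kbar (FF (M * p)) (κ₁ * c * c₁⁻¹) * w ^ p
        * (algebraMap Kbar (FF (M * p)) c₁ * u') := by
    rw [hinclc, hrel, map_mul, map_mul, map_inv₀]
    field_simp
  have hW₁' : ∀ v : Place (IsLocalRing.ResidueField B) (Fk (IsLocalRing.ResidueField B) M'),
      (p : ℤ) ∣ v.ord (R'.red ⟨_, hU₁.2.1⟩) := by
    intro v
    by_cases hv : 0 ≤ v.ord (jk (IsLocalRing.ResidueField B) M')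
    · refine twn_ord_dvd_level hdvd hp hdeg _ v hv (fun Qw hQw => ?_)
      rw [← hredm₁]
      exact twn_wind_transfer R p h₁ hŨ₁ (κ₁ * c * c₁⁻¹) w hw0 hrel₁ Qw (hord₁ Qw hQw)
    · exact hcusp₁ D _ rfl (hdivc κ₁ hκ₁0) hU₁ v (not_le.mp hv)
  obtain ⟨w₁, hw₁0, hw₁⟩ := tmw_pow_inf M' p B hp hpM' hB hR' S hpS a hL hNot _ hx D rfl _ hU₁
    (hdivc κ₁ hκ₁0) hW₁'
  have hP₁ : KspRed R (algebraMap Kbar (FF (M * p)) κ₁ * inclBar (M' * p) (M * p) hNM u)
      ((inclK (IsLocalRing.ResidueField B) hdvd w₁) ^ p) := by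
    rw [← hinclc]
    refine ⟨hm₁, ?_⟩
    rw [hredm₁, ← map_pow]
    congr 1
    exact hw₁.2
  -- ### the `0`-component
  obtain ⟨κ₂, hκ₂0, hκ₂a, hκ₂b⟩ := (glmZero M' p hp hpM' R').exists_unit_smul u hu0
  have hU₂ : EisUnit (glmZero M' p hp hpM' R') (algebraMap Kbar (FF (M' * p)) κ₂ * u) :=
    ⟨mul_ne_zero ((map_ne_zero _).mpr hκ₂0) hu0, hκ₂a, hκ₂b⟩
  obtain ⟨hm₂, hredm₂⟩ := tmw_zero_red_incl hp hpM' hpM hdvd hAtop hR' hR _ hκ₂a
  obtain ⟨hm₂', -⟩ := tmw_zero_red_incl hp hpM' hpM hdvd hAtop hR' hR _ hκ₂b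
  have hŨ₂ : EisUnit (glmZero M p hp hpM R)
      (inclBar (M' * p) (M * p) hNM (algebraMap Kbar (FF (M' * p)) κ₂ * u)) :=
    ⟨(map_ne_zero _).mpr hU₂.1, hm₂, by rw [← map_inv₀]; exact hm₂'⟩
  have hrel₂ : inclBar (M' * p) (M * p) hNM (algebraMap Kbar (FF (M' * p)) κ₂ * u)
      = algebraMap Kbar (FF (M * p)) (κ₂ * c * c₂⁻¹) * w ^ p
        * (algebraMap Kbar (FF (M * p)) c₂ * u') := by
    rw [hinclc, hrel, map_mul, map_mul, map_inv₀]
    field_simp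
  have hW₂' : ∀ v : Place (IsLocalRing.ResidueField B) (Fk (IsLocalRing.ResidueField B) M'),
      (p : ℤ) ∣ v.ord ((glmZero M' p hp hpM' R').red ⟨_, hU₂.2.1⟩) := by
    intro v
    by_cases hv : 0 ≤ v.ord (jk (IsLocalRing.ResidueField B) M')
    · refine twn_ord_dvd_level hdvd hp hdeg _ v hv (fun Qw hQw => ?_)
      rw [← hredm₂]
      exact twn_wind_transfer (glmZero M p hp hpM R) p h₂ hŨ₂ (κ₂ * c * c₂⁻¹) w hw0 hrel₂ Qw
        (hord₂ Qw hQw)
    · exact hcusp₂ D _ rfl (hdivc κ₂ hκ₂0) hU₂ v (not_le.mp hv)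
  obtain ⟨w₂, hw₂0, hw₂⟩ := tmw_pow_zero M' p B hp hpM' hB hR' S hpS a hL hNot _ hx D rfl _ hU₂
    (hdivc κ₂ hκ₂0) hW₂'
  have hP₂ : KspRed (glmZero M p hp hpM R)
      (algebraMap Kbar (FF (M * p)) κ₂ * inclBar (M' * p) (M * p) hNM u)
      ((inclK (IsLocalRing.ResidueField B) hdvd w₂) ^ p) := by
    rw [← hinclc]
    refine ⟨hm₂, ?_⟩
    rw [hredm₂, ← map_pow]
    congr 1
    exact hw₂.2
  exact kgl_ker2 M p hp hpM hB R hR _ _ hk κ₁ κ₂ hκ₁0 hκ₂0 _ _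
    ((map_ne_zero _).mpr hw₁0) ((map_ne_zero _).mpr hw₂0) hP₁ hP₂

end Tail

/-! ### 4. (J-TAME) from WIND0 off the cusps, WIND0 at the cusps of the level `M'` and (LIFT) -/

section Tame

variable (M' p : ℕ) [NeZero M'] [NeZero p] [NeZero (M' * p)]

/-- **(TAME-WIND) off the cusps**: `S40tmwWind` of helper14 with the orders asked at the
non-cuspidal places of the auxiliary level only
(= WINDC [`edc_windc`, `edc_windc_zero`] + H1 [`ehq_h1_inf`, `ehq_h1_zero`]). -/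
def S40twnWind (hp : p.Prime) (B : ValuationSubring (AlgebraicClosure ℚ)) : Prop :=
  ∀ (S : Finset ℕ) (a : ℕ → ℤ) (V : AddSubgroup (JZero (M' * p))),
    (∀ ℓ : ℕ, ℓ.Prime → ℓ ∣ M' * p → ℓ ∈ S) →
    Nat.card V = p ^ 2 → (∀ x ∈ V, p • x = 0) →
    (∀ (σ : AlgebraicClosure ℚ ≃ₐ[ℚ] AlgebraicClosure ℚ), ∀ x ∈ V, σ • x ∈ V) →
    S40hEig (M' * p) S a V → S40hNotAt M' p S a →
    (∃ ℓ : Nat.Primes, (ℓ : ℕ) ∉ S ∧ ¬ (p : ℤ) ∣ a ℓ - (1 + (ℓ : ℕ))) →
    ∀ x ∈ V, x ≠ 0 → (∀ σ ∈ B.inertiaSubgroupIn ℚ, σ • x = x) →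
    ∀ (D : Divisor.degZero (K := Kbar) (F := FF (M' * p))) (u : FF (M' * p)),
      Pic0.mk D = x → u ≠ 0 → u ∈ f0Field B (M' * p) →
      (∀ σ ∈ B.inertiaSubgroupIn ℚ,
        galFF (M' * p) σ • (D : Divisor Kbar (FF (M' * p))) = D) →
      (∀ v : Place Kbar (FF (M' * p)),
        (p : ℤ) * (D : Divisor Kbar (FF (M' * p))) v = v.ord u) →
    ∀ (M : ℕ) [NeZero M] [NeZero (M * p)] (haux : IsAuxLevel p M) (hdvd : M' ∣ M),
      M = Nat.lcm M' (baseLevel p) →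
      ∀ (R : ConstRed B (IsLocalRing.residue B)
        (↥(modularFunctionFieldFullC (IsLocalRing.ResidueField B) M)) (FF (M * p))),
      IsSeriesRed R →
      ∃ (c₁ c₂ : Kbar)
        (h₁ : EisUnit R (algebraMap Kbar (FF (M * p)) c₁ *
          inclBar (M' * p) (M * p) (Nat.mul_dvd_mul_right hdvd p) u))
        (h₂ : EisUnit (glmZero M p hp haux.1 R) (algebraMap Kbar (FF (M * p)) c₂ *
          inclBar (M' * p) (M * p) (Nat.mul_dvd_mul_right hdvd p) u)),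
        (∀ Q : Place (IsLocalRing.ResidueField B) (Fk (IsLocalRing.ResidueField B) M),
          0 ≤ Q.ord (jk (IsLocalRing.ResidueField B) M) →
          (p : ℤ) ∣ Q.ord (R.red ⟨_, h₁.2.1⟩)) ∧
        (∀ Q : Place (IsLocalRing.ResidueField B) (Fk (IsLocalRing.ResidueField B) M),
          0 ≤ Q.ord (jk (IsLocalRing.ResidueField B) M) →
          (p : ℤ) ∣ Q.ord ((glmZero M p hp haux.1 R).red ⟨_, h₂.2.1⟩))

/-- **(TAME-CUSP)**: WIND0 at the cusps of the level `M'`, on both components, for every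
normalised Kummer function of a non-Eisenstein eigenclass of level `M' p` killed by `p`
(no inertia hypothesis). -/
def S40twnCusp (hp : p.Prime) (hpM' : ¬ p ∣ M') (B : ValuationSubring (AlgebraicClosure ℚ)) :
    Prop :=
  ∀ (S : Finset ℕ) (a : ℕ → ℤ),
    (∀ ℓ : ℕ, ℓ.Prime → ℓ ∣ M' * p → ℓ ∈ S) →
    (∃ ℓ : Nat.Primes, (ℓ : ℕ) ∉ S ∧ ¬ (p : ℤ) ∣ a ℓ - (1 + (ℓ : ℕ))) →
    ∀ x : JZero (M' * p), p • x = 0 →
    (∀ ℓ : Nat.Primes, (ℓ : ℕ) ∉ S → heckeOperatorBar (M' * p) ℓ x = a ℓ • x) →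
    ∀ (R' : ConstRed B (IsLocalRing.residue B)
      (Fk (IsLocalRing.ResidueField B) M') (FF (M' * p))), IsSeriesRed R' →
    ∀ (D : Divisor.degZero (K := Kbar) (F := FF (M' * p))) (u : FF (M' * p)),
      Pic0.mk D = x →
      (∀ v : Place Kbar (FF (M' * p)),
        (p : ℤ) * (D : Divisor Kbar (FF (M' * p))) v = v.ord u) →
      (∀ hu : EisUnit R' u,
        ∀ Q : Place (IsLocalRing.ResidueField B) (Fk (IsLocalRing.ResidueField B) M'),
          Q.ord (jk (IsLocalRing.ResidueField B) M') < 0 →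
          (p : ℤ) ∣ Q.ord (R'.red ⟨u, hu.2.1⟩)) ∧
      (∀ hu : EisUnit (glmZero M' p hp hpM' R') u,
        ∀ Q : Place (IsLocalRing.ResidueField B) (Fk (IsLocalRing.ResidueField B) M'),
          Q.ord (jk (IsLocalRing.ResidueField B) M') < 0 →
          (p : ℤ) ∣ Q.ord ((glmZero M' p hp hpM' R').red ⟨u, hu.2.1⟩))

/-- `S40tmwWind` (all places) implies `S40twnWind` (non-cuspidal places). -/
theorem twn_wind_of_tmw (hp : p.Prime) (B : ValuationSubring (AlgebraicClosure ℚ))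
    (hW : S40tmwWind M' p hp B) : S40twnWind M' p hp B := by
  intro S a V hS hcard hVp hstab hEig hNot hnE x hx hx0 hI D u hD hu0 huF hDI hDu M _ _ haux hdvd
    hM R hR
  obtain ⟨c₁, c₂, h₁, h₂, hord₁, hord₂⟩ :=
    hW S a V hS hcard hVp hstab hEig hNot hnE x hx hx0 hI D u hD hu0 huF hDI hDu M haux hdvd hM R hR
  exact ⟨c₁, c₂, h₁, h₂, fun Q _ => hord₁ Q, fun Q _ => hord₂ Q⟩

/-- **(J-TAME) from (TAME-WIND) off the cusps, (TAME-CUSP) and (LIFT)**
(`p ≥ 5`, or `p = 3` and `M'` even). -/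
theorem twn_tame_of_wind (hp : p.Prime) (hp2 : p ≠ 2) (h3 : p ≠ 3 ∨ 2 ∣ M') (hpM' : ¬ p ∣ M')
    (B : ValuationSubring (AlgebraicClosure ℚ)) (hB : B.LiesOverPrime p)
    (hW : S40twnWind M' p hp B) (hC : S40twnCusp M' p hp hpM' B)
    (hL : ∀ (S : Finset ℕ) (a : ℕ → ℤ), LfhLift M' p S a B) : S40jTame M' p B := by
  haveI : Fact p.Prime := ⟨hp⟩
  intro S a V hS hcard hVp hstab hEig hNot hnE x hx hI
  by_contra hx0
  obtain ⟨D, u, hD, hu0, huF, hDI, hDu⟩ := tmf_kummer (M' * p) p B x (hVp x hx) hI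
  obtain ⟨e, hM0, hMp0, hdvd, haux, hM, hdegψ⟩ := tmw_aux_data M' p hp hpM'
  obtain ⟨R, hR⟩ := exists_constRedInf_aux (Nat.lcm M' (baseLevel p)) p hp haux.1 B hB
  obtain ⟨R', hR'⟩ := hkq_exists_red M' p B hp hpM' hB
  obtain ⟨c₁, c₂, h₁, h₂, hord₁, hord₂⟩ :=
    hW S a V hS hcard hVp hstab hEig hNot hnE x hx hx0 hI D u hD hu0 huF hDI hDu
      (Nat.lcm M' (baseLevel p)) haux hdvd rfl R hR
  have hb4 : baseLevel p = 4 := by
    unfold baseLevel
    rw [if_neg hp2]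
  have hdeg := lvb_hdeg_aux (A := B) (M := Nat.lcm M' (baseLevel p)) (by rw [hb4]) hdvd hp hp2
    h3 haux.1 hB
  haveI : RRBase Kbar (FF (Nat.lcm M' (baseLevel p) * p)) :=
    (mod_rrHyp (Nat.lcm M' (baseLevel p) * p)).toRRBase
  have hk := tma_pull_kummer M' p (Nat.lcm M' (baseLevel p)) hdvd D u hu0 hDu
  have hpx : p • (Pic0.mk D : JZero (M' * p)) = 0 := by rw [hD]; exact hVp x hx
  have hxe : ∀ ℓ : Nat.Primes, (ℓ : ℕ) ∉ S →
      heckeOperatorBar (M' * p) ℓ (Pic0.mk D) = a ℓ • (Pic0.mk D : JZero (M' * p)) :=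
    fun ℓ hℓS => by rw [hD]; exact hEig ℓ hℓS x hx
  have hker := twn_ker2_of_wind M' (Nat.lcm M' (baseLevel p)) p hp hpM' haux.1 hdvd hB hdeg hR' hR
    S hS a (hL S a) hNot (Pic0.mk D) hpx hxe _ hk c₁ c₂ h₁ h₂ hord₁ hord₂
    (fun D' u'' hD' hdiv' => (hC S a hS hnE (Pic0.mk D) hpx hxe R' hR' D' u'' hD' hdiv').1)
    (fun D' u'' hD' hdiv' => (hC S a hS hnE (Pic0.mk D) hpx hxe R' hR' D' u'' hD' hdiv').2)
  rw [hD] at hker
  obtain ⟨hα, hβ⟩ := s40h_new_of_notAt M' p hp hpM' S a V hS hVp hEig hNot x hx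
  obtain ⟨τ₀, hτ₀, hmv, -⟩ := cysp_exists_moves p hp2 B hB
  exact hx0 (tpp_fixed_descent M' (Nat.lcm M' (baseLevel p)) p e hp hp2 haux hdvd hM hdegψ hB R hR
    x (hVp x hx) hker hα hβ τ₀ hτ₀ hmv (hI τ₀ hτ₀))

end Tame

/-! ### 5. (TAME-CUSP) from the cusp statement in characteristic `p` -/

section CuspK

variable (M' p : ℕ) [NeZero M'] [NeZero p] [NeZero (M' * p)]

/-- **(CUSP-K)**: the statement `cpi_ord_inf` of helper15 at EVERY cusp of `F_{M',k}`: a function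
`u ≠ 0` of `F_{M',k}` with the Kummer form of the `T_ℓ`-eigen-relation for one prime `ℓ ∤ M' p`
with `a ≢ 1 + ℓ mod p` has order divisible by `p` at every cusp. -/
def S40twnCuspK (B : ValuationSubring (AlgebraicClosure ℚ)) : Prop :=
  ∀ (ℓ : ℕ) [NeZero ℓ], ℓ.Prime → ℓ ≠ p → ¬ ℓ ∣ M' →
    ∀ (u : Fk (IsLocalRing.ResidueField B) M'), u ≠ 0 →
    ∀ a : ℤ, ¬ (p : ℤ) ∣ a - (1 + (ℓ : ℤ)) →
    ∀ (c : IsLocalRing.ResidueField B) (s : Fk (IsLocalRing.ResidueField B) M'),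
      c ≠ 0 → s ≠ 0 →
      lfhHeckeFun (IsLocalRing.ResidueField B) M' ℓ u
        = algebraMap (IsLocalRing.ResidueField B) (Fk (IsLocalRing.ResidueField B) M') c
          * u ^ a * s ^ p →
      ∀ Q : Place (IsLocalRing.ResidueField B) (Fk (IsLocalRing.ResidueField B) M'),
        Q.ord (jk (IsLocalRing.ResidueField B) M') < 0 → (p : ℤ) ∣ Q.ord u

/-- **(TAME-CUSP) from (CUSP-K)**: the eigen-relations in characteristic `p` are E1 `ler_hecke`
and E2 `lez_hecke` of helper13. -/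
theorem twn_cusp_of_cuspK (hp : p.Prime) (hpM' : ¬ p ∣ M')
    (B : ValuationSubring (AlgebraicClosure ℚ)) (hB : B.LiesOverPrime p)
    (hK : S40twnCuspK M' p B) : S40twnCusp M' p hp hpM' B := by
  intro S a hS hnE x hpx hx R' hR' D u hD hdiv
  obtain ⟨ℓ, hℓS, hcop⟩ := hnE
  have hℓ : (ℓ : ℕ).Prime := ℓ.2
  haveI : NeZero (ℓ : ℕ) := ⟨hℓ.ne_zero⟩
  have hℓp : (ℓ : ℕ) ≠ p := fun h => hℓS (h ▸ hS p hp (dvd_mul_left p M'))
  have hℓM : ¬ (ℓ : ℕ) ∣ M' := fun h => hℓS (hS ℓ hℓ (h.trans (dvd_mul_right M' p)))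
  have hxℓ : heckeOperatorBar (M' * p) ⟨(ℓ : ℕ), hℓ⟩ x = a ℓ • x := hx ℓ hℓS
  have hcop' : ¬ (p : ℤ) ∣ a ℓ - (1 + ((ℓ : ℕ) : ℤ)) := hcop
  refine ⟨fun hu Q hQ => ?_, fun hu Q hQ => ?_⟩
  · obtain ⟨c, s, hc, hs, hrel⟩ :=
      ler_hecke M' p B hp hpM' hB hR' ℓ hℓ hℓp (a ℓ) x hxℓ D hD u hu hdiv
    exact hK ℓ hℓ hℓp hℓM _ hu.red_ne_zero (a ℓ) hcop' c s hc hs hrel Q hQ
  · obtain ⟨c, s, hc, hs, hrel⟩ :=
      lez_hecke M' p B hp hpM' hB (dvd_mul_left p M') (inf_not_sq_dvd M' p hp hpM') hR' ℓ hℓ hℓp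
        (a ℓ) x hxℓ D hD u hu hdiv
    exact hK ℓ hℓ hℓp hℓM _ hu.red_ne_zero (a ℓ) hcop' c s hc hs hrel Q hQ

end CuspK

end Fermat.Agent.S40lib

end
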