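import Mathlib
import Fermat.Agent.S36lib.Speed
import Fermat.Agent.S40lib.EOrdAdd
import Fermat.Agent.S05_Curve
import Fermat.Agent.S05_Defs

/-!
# Item 88 (S44 via the S40 chain), block (W1-mult), piece (M6): the first-order addition formula
# NEAR THE NODE (helper20)

`W` a Weierstrass curve over a valued field `(K, v)`.

* `w1ma_sub_val` (abstract, any Weierstrass equation with integral `a₁, a₂`): two points
  `P = (x, y)`, `P' = (x', y')` with `x` integral, `d := y - negY x y = 2 y + a₁ x + a₃ ≠ 0`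
  integral, `v (x' - x) < v d`, `v (y' - y) < v d`, `P' ≠ P`: then `Q = P' - P` is an affine point
  `(x_Q, y_Q)` with `1 < v x_Q` and `v(x_Q) · v(x' - x)² = v(d)²`.
  (`eoa_sub_val` is the case `v d = 1`.)

* `w1ma_val_y` : on a curve of shape `y² = x³ + B x² + C x` with `v B = 1`, a point with
  `v C < v x < 1` (a point reducing to the node) has `v y = v x`.

* `w1ma_inertia` (shape curve, inertial `σ`): `P = (x, y)` with `v C < v x < 1`, `c` fixed by
  `σ` with `v c = v x`, `σ P ≠ P`: then `σ P - P = (x_Q, y_Q)` with `1 < v x_Q` and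
  `v(x_Q) · v(σ (x / c) - x / c)² = 1`, i.e. the INTEGRAL element `t = x / c` is moved by `σ`
  exactly by `v (z (σ P - P))`.

* `w1ma_depth` : the same with the conclusion `v (x_Q / y_Q) = v (σ (x / c) - x / c)`.
-/

set_option autoImplicit false
set_option linter.unusedSectionVars false
set_option linter.unusedVariables false
set_option linter.style.haveILetI false

open WeierstrassCurve WeierstrassCurve.Affine WeierstrassCurve.Affine.Point

namespace Fermat.Agent.S40lib

section Abstract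

variable {K : Type*} [Field K] [DecidableEq K]
  {Γ₀ : Type*} [LinearOrderedCommGroupWithZero Γ₀] (v : Valuation K Γ₀)

/-- **first-order addition formula with a non-unit denominator**: if `P' ≡ P` modulo
`d = y - negY x y`, `P' ≠ P`, then `P' - P = (x_Q, y_Q)` with `1 < v x_Q` and
`v(x_Q) v(x' - x)² = v(d)²`. -/
theorem w1ma_sub_val (W : Affine K) (h1 : v W.a₁ ≤ 1) (h2 : v W.a₂ ≤ 1)
    {x y x' y' : K} (h : W.Nonsingular x y) (h' : W.Nonsingular x' y')
    (hx : v x ≤ 1) (hd1 : v (y - W.negY x y) ≤ 1)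
    (hxx : v (x' - x) < v (y - W.negY x y)) (hyy : v (y' - y) < v (y - W.negY x y))
    (hne : Point.some x' y' h' ≠ Point.some x y h) :
    ∃ (xQ yQ : K) (hQ : W.Nonsingular xQ yQ),
      Point.some x' y' h' - Point.some x y h = Point.some xQ yQ hQ ∧
      1 < v xQ ∧ v xQ * v (x' - x) ^ 2 = v (y - W.negY x y) ^ 2 := by
  set d : Γ₀ := v (y - W.negY x y) with hd
  have hx'x : x' ≠ x := by
    intro e
    rcases Y_eq_of_X_eq h'.1 h.1 e with e2 | e2
    · apply hne
      subst e e2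
      rfl
    · rw [e2] at hyy
      have h3 : v (W.negY x y - y) = d := by
        rw [← neg_sub, Valuation.map_neg]
      rw [h3] at hyy
      exact lt_irrefl _ hyy
  have hxy : ¬ (x' = x ∧ y' = W.negY x (W.negY x y)) := fun e => hx'x e.1
  have hnum : v (y' - W.negY x y) = d := by
    have e : y' - W.negY x y = (y' - y) + (y - W.negY x y) := by ring
    rw [e, Valuation.map_add_eq_of_lt_right v hyy]
  have hden0 : x' - x ≠ 0 := sub_ne_zero.mpr hx'x
  have hvden : v (x' - x) ≠ 0 := (v.ne_zero_iff).mpr hden0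
  have hvpos : 0 < v (x' - x) := zero_lt_iff.mpr hvden
  have hsv : v (W.slope x' x y' (W.negY x y)) = d / v (x' - x) := by
    rw [slope_of_X_ne hx'x, map_div₀, hnum]
  have hs1 : 1 < v (W.slope x' x y' (W.negY x y)) := by
    rw [hsv]
    exact (lt_div_iff₀ hvpos).mpr (by rwa [one_mul])
  have hx' : v x' ≤ 1 := by
    have e : x' = (x' - x) + x := by ring
    rw [e]
    exact le_trans (v.map_add _ _) (max_le (le_trans hxx.le hd1) hx)
  refine ⟨W.addX x' x (W.slope x' x y' (W.negY x y)),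
    W.addY x' x y' (W.slope x' x y' (W.negY x y)),
    nonsingular_add h' ((nonsingular_neg x y).mpr h) hxy, ?_, ?_⟩
  · rw [sub_eq_add_neg, Point.neg_some, Point.add_some hxy]
  · generalize W.slope x' x y' (W.negY x y) = s at hsv hs1
    have hs0 : 0 < v s := lt_trans zero_lt_one hs1
    have hlt : v s < v s ^ 2 := by
      rw [pow_two]
      calc v s = 1 * v s := (one_mul _).symm
        _ < v s * v s := mul_lt_mul_of_pos_right hs1 hs0
    have ha : v (W.a₁ * s) ≤ v s := by
      rw [map_mul]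
      exact mul_le_of_le_one_left' h1
    have hb : v (W.a₁ * s - W.a₂ - x' - x) ≤ v s := by
      have e1 : v (W.a₁ * s - W.a₂) ≤ v s :=
        le_trans (Valuation.map_sub _ _ _) (max_le ha (le_trans h2 hs1.le))
      have e2 : v (W.a₁ * s - W.a₂ - x') ≤ v s :=
        le_trans (Valuation.map_sub _ _ _) (max_le e1 (le_trans hx' hs1.le))
      exact le_trans (Valuation.map_sub _ _ _) (max_le e2 (le_trans hx hs1.le))
    have hX : v (W.addX x' x s) = v s ^ 2 := by
      have e : W.addX x' x s = s ^ 2 + (W.a₁ * s - W.a₂ - x' - x) := by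
        simp only [addX]
        ring
      rw [e, Valuation.map_add_eq_of_lt_left v (by rw [map_pow]; exact lt_of_le_of_lt hb hlt),
        map_pow]
    refine ⟨?_, ?_⟩
    · rw [hX]
      exact lt_trans hs1 hlt
    · rw [hX, hsv, div_pow, div_mul_cancel₀ _ (pow_ne_zero 2 hvden)]

end Abstract

section ShapeCurve

open Fermat.Agent.S05lib

variable {K : Type*} [Field K] [DecidableEq K]
  {Γ₀ : Type*} [LinearOrderedCommGroupWithZero Γ₀] (v : Valuation K Γ₀)
  {W : WeierstrassCurve K}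

/-- a point near the node of `y² = x³ + B x² + C x` (`v B = 1`, `v C < v x < 1`) has
`v y = v x` -/
theorem w1ma_val_y (hW : Shape W) (hB : v W.a₂ = 1) {x y : K}
    (h : W.toAffine.Equation x y) (hCx : v W.a₄ < v x) (hx1 : v x < 1) : v y = v x := by
  have e := (hW.equation_iff x y).mp h
  have hx0 : 0 < v x := lt_of_le_of_lt zero_le hCx
  have hxne : v x ≠ 0 := ne_of_gt hx0
  -- `v (x + B) = 1`
  have hxB : v (x + W.a₂) = 1 := by
    rw [Valuation.map_add_eq_of_lt_right v (by rw [hB]; exact hx1), hB]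
  -- `v (x² (x + B)) = v x ²`
  have hmain : v (x ^ 2 * (x + W.a₂)) = v x ^ 2 := by
    rw [map_mul, map_pow, hxB, mul_one]
  have hsmall : v (W.a₄ * x) < v x ^ 2 := by
    rw [map_mul, pow_two]
    exact mul_lt_mul_of_pos_right hCx hx0
  have hy2 : v (y ^ 2) = v x ^ 2 := by
    have e2 : y ^ 2 = x ^ 2 * (x + W.a₂) + W.a₄ * x := by rw [e]; ring
    rw [e2, Valuation.map_add_eq_of_lt_left v (by rw [hmain]; exact hsmall), hmain]
  rw [map_pow] at hy2
  exact le_antisymm
    ((pow_le_pow_iff_left₀ zero_le zero_le (two_ne_zero)).mp hy2.le)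
    ((pow_le_pow_iff_left₀ zero_le zero_le (two_ne_zero)).mp hy2.ge)

/-- **first-order formula for an inertial `σ` near the node**: `P = (x, y)` on
`y² = x³ + B x² + C x` (`v B = 1`, `v 2 = 1`) with `v C < v x < 1`, `c` a `σ`-fixed element with
`v c = v x`, `σ P ≠ P`: then `σ P - P = (x_Q, y_Q)` with `1 < v x_Q` and
`v(x_Q) · v(σ (x / c) - x / c)² = 1`. -/
theorem w1ma_inertia (hW : Shape W) (hB : v W.a₂ = 1) (h2 : v (2 : K) = 1)
    (σ : K →+* K) (hσ : IsInertial v σ)
    (φ : W.toAffine.Point →+ W.toAffine.Point)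
    (hφ : ∀ (x y : K) (h : W.toAffine.Nonsingular x y),
      ∃ h' : W.toAffine.Nonsingular (σ x) (σ y), φ (Point.some x y h) = Point.some (σ x) (σ y) h')
    {x y : K} (h : W.toAffine.Nonsingular x y) (hCx : v W.a₄ < v x) (hx1 : v x < 1)
    (c : K) (hc : σ c = c) (hvc : v c = v x)
    (hne : φ (Point.some x y h) ≠ Point.some x y h) :
    ∃ (xQ yQ : K) (hQ : W.toAffine.Nonsingular xQ yQ),
      φ (Point.some x y h) - Point.some x y h = Point.some xQ yQ hQ ∧
      1 < v xQ ∧ v xQ * v (σ (x / c) - x / c) ^ 2 = 1 := by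
  obtain ⟨h', hφP⟩ := hφ x y h
  rw [hφP] at hne ⊢
  have hx0 : 0 < v x := lt_of_le_of_lt zero_le hCx
  have hc0 : 0 < v c := hvc ▸ hx0
  have hcne : c ≠ 0 := (v.ne_zero_iff).mp (ne_of_gt hc0)
  have hvy : v y = v x := w1ma_val_y v hW hB h.1 hCx hx1
  -- the denominator `d = 2 y`
  have hd : v (y - W.toAffine.negY x y) = v x := by
    rw [hW.negY]
    have e : y - -y = 2 * y := by ring
    rw [e, map_mul, h2, one_mul, hvy]
  -- `σ a - a = c (σ (a / c) - a / c)`
  have hmove : ∀ a : K, σ a - a = c * (σ (a / c) - a / c) := by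
    intro a
    rw [map_div₀, hc]
    field_simp
  have hlt : ∀ a : K, v a = v x → v (σ a - a) < v x := by
    intro a ha
    rw [hmove a, map_mul, ← hvc]
    have h1 : v (a / c) ≤ 1 := by
      rw [map_div₀, ha, hvc, div_self (ne_of_gt hx0)]
    calc v c * v (σ (a / c) - a / c) < v c * 1 :=
          mul_lt_mul_of_pos_left (hσ.sub_lt _ h1) hc0
      _ = v c := mul_one _
  have ha1 : v W.toAffine.a₁ ≤ 1 := by
    show v W.a₁ ≤ 1
    rw [hW.a₁, _root_.map_zero]
    exact zero_le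
  have ha2 : v W.toAffine.a₂ ≤ 1 := by
    show v W.a₂ ≤ 1
    rw [hB]
  obtain ⟨xQ, yQ, hQ, hsub, hxQ, hval⟩ :=
    w1ma_sub_val v W.toAffine ha1 ha2 h h' hx1.le (by rw [hd]; exact hx1.le)
      (by rw [hd]; exact hlt x rfl) (by rw [hd]; exact hlt y hvy) hne
  refine ⟨xQ, yQ, hQ, hsub, hxQ, ?_⟩
  rw [hd, hmove x, map_mul, mul_pow, ← hvc] at hval
  have hc2 : v c ^ 2 ≠ 0 := pow_ne_zero 2 (ne_of_gt hc0)
  have e : v xQ * v (σ (x / c) - x / c) ^ 2 * v c ^ 2 = 1 * v c ^ 2 := by
    calc v xQ * v (σ (x / c) - x / c) ^ 2 * v c ^ 2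
        = v xQ * (v c ^ 2 * v (σ (x / c) - x / c) ^ 2) := by
          rw [mul_assoc, mul_comm (v (σ (x / c) - x / c) ^ 2)]
      _ = v c ^ 2 := hval
      _ = 1 * v c ^ 2 := (one_mul _).symm
  exact mul_right_cancel₀ hc2 e

/-- **depth form**: in the situation of `w1ma_inertia` (with `v C ≤ 1`), the integral element
`t = x / c` is moved by `σ` exactly by `v (z (σ P - P))`, `z = x / y`. -/
theorem w1ma_depth (hW : Shape W) (hB : v W.a₂ = 1) (hC : v W.a₄ ≤ 1) (h2 : v (2 : K) = 1)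
    (σ : K →+* K) (hσ : IsInertial v σ)
    (φ : W.toAffine.Point →+ W.toAffine.Point)
    (hφ : ∀ (x y : K) (h : W.toAffine.Nonsingular x y),
      ∃ h' : W.toAffine.Nonsingular (σ x) (σ y), φ (Point.some x y h) = Point.some (σ x) (σ y) h')
    {x y : K} (h : W.toAffine.Nonsingular x y) (hCx : v W.a₄ < v x) (hx1 : v x < 1)
    (c : K) (hc : σ c = c) (hvc : v c = v x)
    (hne : φ (Point.some x y h) ≠ Point.some x y h) :
    ∃ (xQ yQ : K) (hQ : W.toAffine.Nonsingular xQ yQ),
      φ (Point.some x y h) - Point.some x y h = Point.some xQ yQ hQ ∧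
      1 < v xQ ∧ yQ ≠ 0 ∧ v (xQ / yQ) = v (σ (x / c) - x / c) ∧ v (x / c) = 1 := by
  obtain ⟨xQ, yQ, hQ, hsub, hxQ, hval⟩ :=
    w1ma_inertia v hW hB h2 σ hσ φ hφ h hCx hx1 c hc hvc hne
  have hx0 : 0 < v x := lt_of_le_of_lt zero_le hCx
  have h0 : v (0 : K) ≤ 1 := by rw [_root_.map_zero]; exact zero_le
  obtain ⟨hy0, hz⟩ := eoa_val_z v W.toAffine
    (by show v W.a₁ ≤ 1; rw [hW.a₁]; exact h0) (by show v W.a₂ ≤ 1; rw [hB])
    (by show v W.a₃ ≤ 1; rw [hW.a₃]; exact h0) (by show v W.a₄ ≤ 1; exact hC)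
    (by show v W.a₆ ≤ 1; rw [hW.a₆]; exact h0) hQ.1 hxQ
  refine ⟨xQ, yQ, hQ, hsub, hxQ, hy0, ?_, ?_⟩
  · have hxQ0 : v xQ ≠ 0 := ne_of_gt (lt_trans zero_lt_one hxQ)
    have e : v (xQ / yQ) ^ 2 * v xQ = v (σ (x / c) - x / c) ^ 2 * v xQ := by
      rw [hz, mul_comm, hval]
    have e2 := mul_right_cancel₀ hxQ0 e
    exact le_antisymm
      ((pow_le_pow_iff_left₀ zero_le zero_le (two_ne_zero)).mp e2.le)
      ((pow_le_pow_iff_left₀ zero_le zero_le (two_ne_zero)).mp e2.ge)
  · rw [map_div₀, hvc, div_self (ne_of_gt hx0)]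

end ShapeCurve

end Fermat.Agent.S40lib
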