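/-
Item 88 / S44, block (W1-mult), pieces (Ca) + (Cb) of the (DEPTH) step (helper5).

Abstract (S05 language: `W : WeierstrassCurve K` of shape `y² = x³ + B x² + C x`, a valuation
`v` on `K`, an inertial `σ` inducing `φ` on the points; no Galois group inside).

* `w1me_core`      : `e0_core` STRENGTHENED: the exact valuation of `x(P' − P)` for two integral
                      points with the same nonsingular reduction:
                      `v(x₃) · v(x' − x)² = 1` if `v(2y) = 1`, `v(x₃) · v(y' − y)² = 1` if `v(2y) < 1`;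
* `w1me_sub`       : the same for points of `W`;
* `w1me_inertial`  : the same for `P' = φ P`;
* `w1me_val_z`     : in the kernel of reduction `v(x / y)² · v(x) = 1`;
* `w1me_depth`     : (Ca) in DEPTH form: `v(z(φ P − P)) = v(σ t − t)`, `t = x(P)` or `t = y(P)`;
* `w1me_T0`        : `P − T₀ = (C / x, −C y / x²)`, `T₀ = (0, 0)`;
* `w1me_T0_comm`   : `φ (P − T₀) − (P − T₀) = φ P − P`;
* `w1me_Cb`        : (Cb): `v(x) ≤ v(C)`, `P − T₀ ∉ E₁`: the conclusion of `w1me_inertial` for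
                      `P' = P − T₀`, with `φ P − P` on the left;
* `w1me_Cb_depth`  : (Cb) in DEPTH form.
-/
import Mathlib
import Fermat.Agent.S36lib.Speed
import Fermat.Agent.S05_E0
import Fermat.Agent.S05_Fixed

set_option autoImplicit false
set_option linter.unusedSectionVars false
set_option linter.unusedVariables false

namespace Fermat.Agent.S40lib

open WeierstrassCurve WeierstrassCurve.Affine Fermat.Agent.S05lib

variable {K : Type*} [Field K] [DecidableEq K]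
  {Γ₀ : Type*} [LinearOrderedCommGroupWithZero Γ₀]

section aux

variable {v : Valuation K Γ₀} {B C : K}

/-- `e0_core` strengthened: the exact valuation of the `x`-coordinate of the difference of two
integral points with the same nonsingular reduction. -/
theorem w1me_core (hB : v B ≤ 1) (hC : v C ≤ 1) (h2 : v (2 : K) = 1)
    {x y x' y' x₃ ℓ n : K} (hx : v x ≤ 1) (hy : v y ≤ 1)
    (hxx : v (x' - x) < 1) (hyy : v (y' - y) < 1)
    (hns : v (2 * y) = 1 ∨ v (3 * x ^ 2 + 2 * B * x + C) = 1)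
    (l₁ : y' = ℓ * x' + n) (l₂ : -y = ℓ * x + n)
    (v₁ : x' + x + x₃ = ℓ ^ 2 - B) (v₂ : x' * x + x' * x₃ + x * x₃ = C - 2 * ℓ * n) :
    1 < v x₃ ∧ ((v (2 * y) = 1 ∧ v x₃ * v (x' - x) ^ 2 = 1) ∨
      (v (2 * y) < 1 ∧ v x₃ * v (y' - y) ^ 2 = 1)) := by
  have hx' : v x' ≤ 1 := by
    have : x' = (x' - x) + x := by ring
    rw [this]; exact Valuation.map_add_le v hxx.le hx
  have h2y : v (2 * y) ≤ 1 := by rw [map_mul, h2, one_mul]; exact hy
  -- `v x₃ = v ℓ ^ 2` once `1 < v ℓ`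
  have hx3 : 1 < v ℓ → v x₃ = v ℓ ^ 2 := by
    intro hℓ
    have hℓ2 : 1 < v (ℓ ^ 2) := by rw [map_pow]; exact one_lt_pow₀ hℓ (by norm_num)
    have e₃ : x₃ = ℓ ^ 2 + (-(B + x' + x)) := by linear_combination v₁
    have hr : v (-(B + x' + x)) ≤ 1 := by
      rw [Valuation.map_neg]
      exact Valuation.map_add_le v (Valuation.map_add_le v hB hx') hx
    rw [e₃, Valuation.map_add_eq_of_lt_left (v := v) (lt_of_le_of_lt hr hℓ2), map_pow]
  by_cases h : v (2 * y) = 1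
  · -- `y' + y` is a unit and `ℓ (x' - x) = y' + y`
    have e : ℓ * (x' - x) = y' + y := by linear_combination l₂ - l₁
    have hu : v (y' + y) = 1 := by
      have : y' + y = 2 * y + (y' - y) := by ring
      rw [this, Valuation.map_add_eq_of_lt_left (v := v) (by rw [h]; exact hyy), h]
    have h1 : v ℓ * v (x' - x) = 1 := by rw [← map_mul, e, hu]
    have hℓ : 1 < v ℓ := e0_one_lt_of_mul e hu hxx
    have h3 := hx3 hℓ
    refine ⟨by rw [h3]; exact one_lt_pow₀ hℓ (by norm_num), Or.inl ⟨h, ?_⟩⟩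
    rw [h3, ← mul_pow, h1, one_pow]
  · have hlt : v (2 * y) < 1 := lt_of_le_of_ne h2y h
    have hG : v (3 * x ^ 2 + 2 * B * x + C) = 1 := hns.resolve_left h
    -- `G` is a unit and `ℓ (y' - y) = G`
    have e : ℓ * (y' - y) = x' ^ 2 + x' * x + x ^ 2 + B * (x' + x) + C := by
      linear_combination ℓ * l₁ + ℓ * l₂ - (x' + x) * v₁ + v₂
    have hu : v (x' ^ 2 + x' * x + x ^ 2 + B * (x' + x) + C) = 1 := by
      have : x' ^ 2 + x' * x + x ^ 2 + B * (x' + x) + C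
          = (3 * x ^ 2 + 2 * B * x + C) + (x' - x) * (x' + 2 * x + B) := by ring
      rw [this, Valuation.map_add_eq_of_lt_left (v := v), hG]
      rw [hG, map_mul]
      have hb : v (x' + 2 * x + B) ≤ 1 := by
        refine Valuation.map_add_le v (Valuation.map_add_le v hx' ?_) hB
        rw [map_mul]
        calc v (2 : K) * v x ≤ 1 * 1 := mul_le_mul' e0_val_two_le hx
          _ = 1 := one_mul _
      calc v (x' - x) * v (x' + 2 * x + B) ≤ v (x' - x) * 1 := mul_le_mul_right hb _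
        _ = v (x' - x) := mul_one _
        _ < 1 := hxx
    have h1 : v ℓ * v (y' - y) = 1 := by rw [← map_mul, e, hu]
    have hℓ : 1 < v ℓ := e0_one_lt_of_mul e hu hyy
    have h3 := hx3 hℓ
    refine ⟨by rw [h3]; exact one_lt_pow₀ hℓ (by norm_num), Or.inr ⟨hlt, ?_⟩⟩
    rw [h3, ← mul_pow, h1, one_pow]

/-- in the kernel of reduction `v(x / y)² · v(x) = 1` (shape `y² = x³ + B x² + C x`) -/
theorem w1me_val_z (hB : v B ≤ 1) (hC : v C ≤ 1) {x y : K}
    (e : y ^ 2 = x ^ 3 + B * x ^ 2 + C * x) (hx : 1 < v x) :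
    v (x / y) ^ 2 * v x = 1 := by
  obtain ⟨-, -, -, h, -⟩ := e1_pt v hB hC e hx
  rw [mul_comm]
  exact h

/-- `a² b = 1`, `b c² = 1` ⇒ `a = c` in a linearly ordered group with zero -/
theorem w1me_eq_of_sq {a b c : Γ₀} (h1 : a ^ 2 * b = 1) (h2 : b * c ^ 2 = 1) : a = c := by
  have hb : b ≠ 0 := by
    rintro rfl
    rw [mul_zero] at h1
    exact zero_ne_one h1
  have hac : a ^ 2 = c ^ 2 := by
    have h3 : a ^ 2 * b = c ^ 2 * b := by rw [h1, mul_comm, h2]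
    exact mul_right_cancel₀ hb h3
  have h20 : (2 : ℕ) ≠ 0 := by norm_num
  exact le_antisymm ((pow_le_pow_iff_left₀ zero_le zero_le h20).mp hac.le)
    ((pow_le_pow_iff_left₀ zero_le zero_le h20).mp hac.ge)

end aux

variable (v : Valuation K Γ₀) {W : WeierstrassCurve K}

/-- **(Ca), points**: two points `P = (x, y)`, `P' = (x', y')` of `W`, `P` integral with
nonsingular reduction, `P' ≡ P`, `P' ≠ P`: `P' − P = (x₃, y₃)` lies in the kernel of reduction,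
and `v(x₃) · v(x' − x)² = 1` (if `2y` is a unit) or `v(x₃) · v(y' − y)² = 1` (otherwise). -/
theorem w1me_sub (hW : Shape W) (hB : v W.a₂ ≤ 1) (hC : v W.a₄ ≤ 1)
    (h2 : v (2 : K) = 1) {x y x' y' : K}
    (h : W.toAffine.Nonsingular x y) (h' : W.toAffine.Nonsingular x' y')
    (hx : v x ≤ 1) (hxx : v (x' - x) < 1) (hyy : v (y' - y) < 1)
    (hne : Point.some x' y' h' ≠ Point.some x y h)
    (hns : NonsingRed v (Point.some x y h)) :
    ∃ (x₃ y₃ : K) (h₃ : W.toAffine.Nonsingular x₃ y₃),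
      Point.some x' y' h' - Point.some x y h = Point.some x₃ y₃ h₃ ∧ 1 < v x₃ ∧
      ((v (2 * y) = 1 ∧ v x₃ * v (x' - x) ^ 2 = 1) ∨
        (v (2 * y) < 1 ∧ v x₃ * v (y' - y) ^ 2 = 1)) := by
  have e := (hW.equation_iff x y).mp h.1
  have hy : v y ≤ 1 := e0_val_y_le hB hC hx e
  have hns' : v (2 * y) = 1 ∨ v (3 * x ^ 2 + 2 * W.a₂ * x + W.a₄) = 1 := by
    rcases hns with hns | ⟨-, hns⟩
    · exact absurd hns (not_lt.mpr hx)
    · exact hns
  obtain ⟨hn, hneg⟩ := hW.neg_some h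
  have hne' : ¬(x' = x ∧ y' = -(-y)) := by
    rintro ⟨h1, h2⟩
    apply hne
    rw [neg_neg] at h2
    subst h1 h2
    rfl
  obtain ⟨ℓ, n, x₃, y₃, h₃, hsum, l₁, l₂, l₃, v₁, v₂, v₃⟩ := hW.add_collinear h' hn hne'
  refine ⟨x₃, y₃, h₃, ?_, w1me_core hB hC h2 hx hy hxx hyy hns' l₁ l₂ v₁ v₂⟩
  rw [sub_eq_add_neg, hneg, hsum]

/-- **(Ca), inertial form**: `P = (x, y)` integral with nonsingular reduction, `σ` inertial
inducing `φ`, `φ P ≠ P`: `φ P − P = (x₃, y₃)` lies in the kernel of reduction and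
`v(x₃) · v(σ x − x)² = 1` (if `2y` is a unit) or `v(x₃) · v(σ y − y)² = 1` (otherwise). -/
theorem w1me_inertial (hW : Shape W) (hB : v W.a₂ ≤ 1) (hC : v W.a₄ ≤ 1)
    (h2 : v (2 : K) = 1) (σ : K →+* K) (hσ : IsInertial v σ)
    (φ : W.toAffine.Point →+ W.toAffine.Point)
    (hφ : ∀ (x y : K) (h : W.toAffine.Nonsingular x y),
      ∃ h' : W.toAffine.Nonsingular (σ x) (σ y), φ (Point.some x y h) = Point.some (σ x) (σ y) h')
    {x y : K} (h : W.toAffine.Nonsingular x y) (hx : v x ≤ 1)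
    (hns : NonsingRed v (Point.some x y h))
    (hmove : φ (Point.some x y h) ≠ Point.some x y h) :
    ∃ (x₃ y₃ : K) (h₃ : W.toAffine.Nonsingular x₃ y₃),
      φ (Point.some x y h) - Point.some x y h = Point.some x₃ y₃ h₃ ∧ 1 < v x₃ ∧
      ((v (2 * y) = 1 ∧ v x₃ * v (σ x - x) ^ 2 = 1) ∨
        (v (2 * y) < 1 ∧ v x₃ * v (σ y - y) ^ 2 = 1)) := by
  obtain ⟨h', hφP⟩ := hφ x y h
  have e := (hW.equation_iff x y).mp h.1
  have hy : v y ≤ 1 := e0_val_y_le hB hC hx e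
  rw [hφP] at hmove ⊢
  exact w1me_sub v hW hB hC h2 h h' hx (hσ.sub_lt x hx) (hσ.sub_lt y hy) hmove hns

/-- **(Ca), DEPTH form**: in the situation of `w1me_inertial` there is `t ∈ {x, y}` with
`v(z(φ P − P)) = v(σ t − t)`, `z = x / y`. -/
theorem w1me_depth (hW : Shape W) (hB : v W.a₂ ≤ 1) (hC : v W.a₄ ≤ 1)
    (h2 : v (2 : K) = 1) (σ : K →+* K) (hσ : IsInertial v σ)
    (φ : W.toAffine.Point →+ W.toAffine.Point)
    (hφ : ∀ (x y : K) (h : W.toAffine.Nonsingular x y),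
      ∃ h' : W.toAffine.Nonsingular (σ x) (σ y), φ (Point.some x y h) = Point.some (σ x) (σ y) h')
    {x y : K} (h : W.toAffine.Nonsingular x y) (hx : v x ≤ 1)
    (hns : NonsingRed v (Point.some x y h))
    (hmove : φ (Point.some x y h) ≠ Point.some x y h) :
    ∃ (x₃ y₃ : K) (h₃ : W.toAffine.Nonsingular x₃ y₃),
      φ (Point.some x y h) - Point.some x y h = Point.some x₃ y₃ h₃ ∧ 1 < v x₃ ∧
      ∃ t : K, (t = x ∨ t = y) ∧ v t ≤ 1 ∧ v (x₃ / y₃) = v (σ t - t) := by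
  obtain ⟨x₃, y₃, h₃, hsub, hx3, hcase⟩ := w1me_inertial v hW hB hC h2 σ hσ φ hφ h hx hns hmove
  have e := (hW.equation_iff x y).mp h.1
  have hy : v y ≤ 1 := e0_val_y_le hB hC hx e
  have hz := w1me_val_z (v := v) hB hC ((hW.equation_iff x₃ y₃).mp h₃.1) hx3
  refine ⟨x₃, y₃, h₃, hsub, hx3, ?_⟩
  rcases hcase with ⟨-, hc⟩ | ⟨-, hc⟩
  · exact ⟨x, Or.inl rfl, hx, w1me_eq_of_sq hz hc⟩
  · exact ⟨y, Or.inr rfl, hy, w1me_eq_of_sq hz hc⟩

/-- `φ T₀ = T₀`, `T₀ = (0, 0)` -/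
theorem w1me_phi_T0 (σ : K →+* K)
    (φ : W.toAffine.Point →+ W.toAffine.Point)
    (hφ : ∀ (x y : K) (h : W.toAffine.Nonsingular x y),
      ∃ h' : W.toAffine.Nonsingular (σ x) (σ y), φ (Point.some x y h) = Point.some (σ x) (σ y) h')
    (h0 : W.toAffine.Nonsingular 0 0) : φ (Point.some 0 0 h0) = Point.some 0 0 h0 := by
  obtain ⟨h', e⟩ := hφ 0 0 h0
  rw [e]
  have h1 : σ 0 = 0 := map_zero σ
  congr 1

/-- **translation by `T₀ = (0, 0)`**: `P − T₀ = (C / x, −C y / x²)` for `P = (x, y)`, `x ≠ 0`. -/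
theorem w1me_T0 (hW : Shape W) (hC0 : W.a₄ ≠ 0) {x y : K}
    (h : W.toAffine.Nonsingular x y) (hx0 : x ≠ 0) :
    ∃ (h0 : W.toAffine.Nonsingular 0 0)
      (h' : W.toAffine.Nonsingular (W.a₄ / x) (-(W.a₄ * y / x ^ 2))),
      Point.some x y h - Point.some 0 0 h0 = Point.some (W.a₄ / x) (-(W.a₄ * y / x ^ 2)) h' := by
  have h0 : W.toAffine.Nonsingular 0 0 := fixed_nonsingular_zero hW hC0
  obtain ⟨h0', hneg⟩ := hW.neg_some h0
  have hne : ¬(x = 0 ∧ y = -(-0 : K)) := fun hh => hx0 hh.1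
  obtain ⟨ℓ, n, x₃, y₃, h₃, hadd, hy1, hy2, hy3, -, hs2, -⟩ := hW.add_collinear h h0' hne
  have hn : n = 0 := by
    have := hy2
    simp only [mul_zero, zero_add, neg_zero] at this
    exact this.symm
  have hxx3 : x * x₃ = W.a₄ := by
    rw [hn] at hs2
    linear_combination hs2
  have hx3 : x₃ = W.a₄ / x := by
    rw [← hxx3]; field_simp
  have hℓ : ℓ = y / x := by
    rw [hn, add_zero] at hy1
    rw [hy1]; field_simp
  have hy3' : y₃ = -(W.a₄ * y / x ^ 2) := by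
    rw [hn, add_zero] at hy3
    have : y₃ = -(ℓ * x₃) := by linear_combination -hy3
    rw [this, hℓ, hx3]
    field_simp
  subst hx3 hy3'
  exact ⟨h0, h₃, by rw [sub_eq_add_neg, hneg, hadd]⟩

/-- `φ (P − T₀) − (P − T₀) = φ P − P` -/
theorem w1me_T0_comm (σ : K →+* K)
    (φ : W.toAffine.Point →+ W.toAffine.Point)
    (hφ : ∀ (x y : K) (h : W.toAffine.Nonsingular x y),
      ∃ h' : W.toAffine.Nonsingular (σ x) (σ y), φ (Point.some x y h) = Point.some (σ x) (σ y) h')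
    (h0 : W.toAffine.Nonsingular 0 0) (P : W.toAffine.Point) :
    φ (P - Point.some 0 0 h0) - (P - Point.some 0 0 h0) = φ P - P := by
  rw [map_sub, w1me_phi_T0 σ φ hφ h0]
  abel

/-- **(Cb)**: `P = (x, y)` with `v(x) ≤ v(C)` (`x ≠ 0`), `P' := P − T₀ = (x', y')`,
`x' = C / x`, `y' = −C y / x²`, `P' ∉ E₁` (i.e. `v(x') ≤ 1`), multiplicative reduction with the
node at the origin: for `σ` inertial with `φ P ≠ P`, `φ P − P = (x₃, y₃)` lies in the kernel of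
reduction and `v(x₃) · v(σ x' − x')² = 1` (if `2y'` is a unit) or `v(x₃) · v(σ y' − y')² = 1`
(otherwise). -/
theorem w1me_Cb (hW : Shape W) (hB : v W.a₂ = 1) (hC : v W.a₄ < 1) (hC0 : W.a₄ ≠ 0)
    (h2 : v (2 : K) = 1) (σ : K →+* K) (hσ : IsInertial v σ)
    (φ : W.toAffine.Point →+ W.toAffine.Point)
    (hφ : ∀ (x y : K) (h : W.toAffine.Nonsingular x y),
      ∃ h' : W.toAffine.Nonsingular (σ x) (σ y), φ (Point.some x y h) = Point.some (σ x) (σ y) h')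
    {x y : K} (h : W.toAffine.Nonsingular x y) (hx0 : x ≠ 0) (hxC : v x ≤ v W.a₄)
    (hnE1 : v (W.a₄ / x) ≤ 1)
    (hmove : φ (Point.some x y h) ≠ Point.some x y h) :
    ∃ (x₃ y₃ : K) (h₃ : W.toAffine.Nonsingular x₃ y₃),
      φ (Point.some x y h) - Point.some x y h = Point.some x₃ y₃ h₃ ∧ 1 < v x₃ ∧
      ((v (2 * -(W.a₄ * y / x ^ 2)) = 1 ∧ v x₃ * v (σ (W.a₄ / x) - W.a₄ / x) ^ 2 = 1) ∨
        (v (2 * -(W.a₄ * y / x ^ 2)) < 1 ∧
          v x₃ * v (σ (-(W.a₄ * y / x ^ 2)) - -(W.a₄ * y / x ^ 2)) ^ 2 = 1)) := by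
  obtain ⟨h0, h', hP'⟩ := w1me_T0 hW hC0 h hx0
  have hvx0 : v x ≠ 0 := (Valuation.ne_zero_iff v).mpr hx0
  have hE0 : InE0 v (Point.some (W.a₄ / x) (-(W.a₄ * y / x ^ 2)) h') := by
    rw [InE0_some, map_div₀]
    exact (one_le_div₀ (zero_lt_iff.mpr hvx0)).mpr hxC
  have hns := nonsingRed_of_mult v hW hB hC h2 _ hE0
  have hcomm := w1me_T0_comm σ φ hφ h0 (Point.some x y h)
  rw [hP'] at hcomm
  have hmove' : φ (Point.some (W.a₄ / x) (-(W.a₄ * y / x ^ 2)) h') ≠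
      Point.some (W.a₄ / x) (-(W.a₄ * y / x ^ 2)) h' := by
    intro heq
    rw [heq, sub_self] at hcomm
    exact hmove (sub_eq_zero.mp hcomm.symm)
  obtain ⟨x₃, y₃, h₃, hsub, hx3, hcase⟩ :=
    w1me_inertial v hW hB.le hC.le h2 σ hσ φ hφ h' hnE1 hns hmove'
  exact ⟨x₃, y₃, h₃, by rw [← hcomm, hsub], hx3, hcase⟩

/-- **(Cb), DEPTH form**: in the situation of `w1me_Cb` there is
`t ∈ {C / x, −C y / x²}`, integral, with `v(z(φ P − P)) = v(σ t − t)`. -/
theorem w1me_Cb_depth (hW : Shape W) (hB : v W.a₂ = 1) (hC : v W.a₄ < 1) (hC0 : W.a₄ ≠ 0)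
    (h2 : v (2 : K) = 1) (σ : K →+* K) (hσ : IsInertial v σ)
    (φ : W.toAffine.Point →+ W.toAffine.Point)
    (hφ : ∀ (x y : K) (h : W.toAffine.Nonsingular x y),
      ∃ h' : W.toAffine.Nonsingular (σ x) (σ y), φ (Point.some x y h) = Point.some (σ x) (σ y) h')
    {x y : K} (h : W.toAffine.Nonsingular x y) (hx0 : x ≠ 0) (hxC : v x ≤ v W.a₄)
    (hnE1 : v (W.a₄ / x) ≤ 1)
    (hmove : φ (Point.some x y h) ≠ Point.some x y h) :
    ∃ (x₃ y₃ : K) (h₃ : W.toAffine.Nonsingular x₃ y₃),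
      φ (Point.some x y h) - Point.some x y h = Point.some x₃ y₃ h₃ ∧ 1 < v x₃ ∧
      ∃ t : K, (t = W.a₄ / x ∨ t = -(W.a₄ * y / x ^ 2)) ∧ v t ≤ 1 ∧
        v (x₃ / y₃) = v (σ t - t) := by
  obtain ⟨x₃, y₃, h₃, hsub, hx3, hcase⟩ :=
    w1me_Cb v hW hB hC hC0 h2 σ hσ φ hφ h hx0 hxC hnE1 hmove
  obtain ⟨h0, h', hP'⟩ := w1me_T0 hW hC0 h hx0
  have hy' : v (-(W.a₄ * y / x ^ 2)) ≤ 1 :=
    e0_val_y_le hB.le hC.le hnE1 ((hW.equation_iff _ _).mp h'.1)
  have hz := w1me_val_z (v := v) hB.le hC.le ((hW.equation_iff x₃ y₃).mp h₃.1) hx3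
  refine ⟨x₃, y₃, h₃, hsub, hx3, ?_⟩
  rcases hcase with ⟨-, hc⟩ | ⟨-, hc⟩
  · exact ⟨_, Or.inl rfl, hnE1, w1me_eq_of_sq hz hc⟩
  · exact ⟨_, Or.inr rfl, hy', w1me_eq_of_sq hz hc⟩

end Fermat.Agent.S40lib
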