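/-
Item 88 (row 38 via S44), block (W1-mult), piece (M6) = (DEPTH), assembly (helper26).

Abstract (`w1md_abs`): on a shape curve `y² = x³ + B x² + C x` over an algebraically closed
valued field with `v B = 1`, `v C < 1`, `C ≠ 0`, `v 2 = 1`, `v(ϖ)^p = v(C)²`, `σ` inertial with
`σ ϖ = ϖ`: for every `p`-torsion point `P = (x, y)` with integral `x` which is moved by `σ`,
`σ P - P = (x₃, y₃)` lies in the kernel of reduction and there is an INTEGRAL `t`, a rational
expression in `x, y, C, ϖ`, with `v(x₃ / y₃) = v(σ t - t)`.  Three cases: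
(Ca) `v x = 1` (`w1me_depth`), (Cb) `v x ≤ v C` (`w1me_Cb_depth`), (Cc) `v C < v x < 1`
(`w1ma_depth` + `comp_torsion`).

Concrete (`w1md_depth`): `S40hPeuB p B (S40hStab P)` for every integral point `P` of `W[p]`,
`W = Y² = X³ + n₂ X² + n₄ X` over `ℤ`, `p ∤ n₂`, `p ∣ n₄ ≠ 0`, `w ^ p = n₄²`.
-/
import Mathlib
import Fermat.Agent.S36lib.Speed
import Fermat.Agent.S05_Main
import Fermat.Agent.S40lib.W1MultAdd
import Fermat.Agent.S40lib.W1MultE0
import Fermat.Agent.S40lib.W1Ord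
import Fermat.Agent.S05_Val

set_option autoImplicit false
set_option linter.unusedSectionVars false
set_option linter.unusedVariables false
set_option linter.style.haveILetI false

open WeierstrassCurve WeierstrassCurve.Affine WeierstrassCurve.Affine.Point

namespace Fermat.Agent.S40lib

open Fermat.Agent.S05lib

section Abstract

variable {K : Type*} [Field K] [DecidableEq K]
  {Γ₀ : Type*} [LinearOrderedCommGroupWithZero Γ₀]

/-- `E₁` is stable under multiplication by `n` -/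
theorem w1md_InE1_nsmul (v : Valuation K Γ₀) {W : WeierstrassCurve K} (hW : Shape W)
    (hB : v W.a₂ ≤ 1) (hC : v W.a₄ ≤ 1) (h2 : (2 : K) ≠ 0)
    {R : W.toAffine.Point} (hR : InE1 v R) (n : ℕ) : InE1 v (n • R) := by
  induction n with
  | zero =>
    rw [zero_smul]
    exact trivial
  | succ n ih =>
    rw [succ_nsmul]
    exact InE1_add v hW hB hC h2 ih hR

/-- `T₀ = (0, 0)` is its own inverse -/
theorem w1md_T0_neg {W : WeierstrassCurve K} (hW : Shape W)
    (h0 : W.toAffine.Nonsingular 0 0) : -(Point.some 0 0 h0) = Point.some 0 0 h0 := by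
  obtain ⟨hn, hneg⟩ := hW.neg_some h0
  rw [hneg]
  exact point_some_congr rfl _root_.neg_zero _ _

/-- odd multiples of `T₀` are `T₀` -/
theorem w1md_T0_odd {W : WeierstrassCurve K} (hW : Shape W)
    (h0 : W.toAffine.Nonsingular 0 0) (m : ℕ) :
    (2 * m + 1) • (Point.some 0 0 h0) = Point.some 0 0 h0 := by
  have h2 : (2 : ℕ) • (Point.some 0 0 h0 : W.toAffine.Point) = 0 := by
    rw [two_nsmul]
    nth_rewrite 2 [← w1md_T0_neg hW h0]
    exact add_neg_cancel _
  rw [add_smul, one_smul, mul_comm, mul_smul, h2, smul_zero, zero_add]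

/-- **(DEPTH), abstract** -/
theorem w1md_abs [IsAlgClosed K] (v : Valuation K Γ₀) {W : WeierstrassCurve K} (hW : Shape W)
    (hB : v W.a₂ = 1) (hC : v W.a₄ < 1) (hC0 : W.a₄ ≠ 0) (h2 : v (2 : K) = 1)
    {p : ℕ} (hp : p.Prime) (hp2 : p ≠ 2)
    (σ : K →+* K) (hσ : IsInertial v σ)
    (φ : W.toAffine.Point →+ W.toAffine.Point)
    (hφ : ∀ (x y : K) (h : W.toAffine.Nonsingular x y),
      ∃ h' : W.toAffine.Nonsingular (σ x) (σ y), φ (Point.some x y h) = Point.some (σ x) (σ y) h')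
    (ϖ : K) (hσϖ : σ ϖ = ϖ) (hϖ : v ϖ ^ p = v W.a₄ ^ 2)
    {x y : K} (h : W.toAffine.Nonsingular x y) (hx : v x ≤ 1)
    (hP : p • Point.some x y h = 0)
    (hmove : φ (Point.some x y h) ≠ Point.some x y h) :
    ∃ (x₃ y₃ : K) (h₃ : W.toAffine.Nonsingular x₃ y₃),
      φ (Point.some x y h) - Point.some x y h = Point.some x₃ y₃ h₃ ∧ 1 < v x₃ ∧
      ∃ t : K, v t ≤ 1 ∧ v (x₃ / y₃) = v (σ t - t) ∧
        (t = x ∨ t = y ∨ t = W.a₄ / x ∨ t = -(W.a₄ * y / x ^ 2) ∨ ∃ k : ℤ, t = x / ϖ ^ k) := by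
  have h2' : (2 : K) ≠ 0 := by
    intro h0
    rw [h0, _root_.map_zero] at h2
    exact zero_ne_one h2
  obtain ⟨m, hm⟩ : ∃ m, p = 2 * m + 1 := by
    rcases hp.eq_two_or_odd' with e | ⟨m, hm⟩
    · exact absurd e hp2
    · exact ⟨m, hm⟩
  by_cases hx1 : 1 ≤ v x
  · -- (Ca)
    have hns : NonsingRed v (Point.some x y h) :=
      nonsingRed_of_mult v hW hB hC h2 (Point.some x y h) hx1
    obtain ⟨x₃, y₃, h₃, hsub, hx3, t, ht, htv, hval⟩ :=
      w1me_depth v hW hB.le hC.le h2 σ hσ φ hφ h hx hns hmove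
    refine ⟨x₃, y₃, h₃, hsub, hx3, t, htv, hval, ?_⟩
    rcases ht with ht | ht
    · exact Or.inl ht
    · exact Or.inr (Or.inl ht)
  rw [not_le] at hx1
  by_cases hxC : v x ≤ v W.a₄
  · -- (Cb)
    have h0 : W.toAffine.Nonsingular 0 0 := fixed_nonsingular_zero hW hC0
    have hx0 : x ≠ 0 := by
      rintro rfl
      have e := (hW.equation_iff 0 y).mp h.1
      have hy0 : y = 0 := by
        have : y ^ 2 = 0 := by rw [e]; ring
        exact pow_eq_zero_iff (two_ne_zero) |>.mp this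
      subst hy0
      rw [hm, w1md_T0_odd hW h m] at hP
      exact Point.some_ne_zero h hP
    have hnE1 : v (W.a₄ / x) ≤ 1 := by
      by_contra hcon
      rw [not_le] at hcon
      obtain ⟨h0', h', hP'⟩ := w1me_T0 hW hC0 h hx0
      have hE1 : InE1 v (Point.some x y h - Point.some 0 0 h0') := by
        rw [hP']
        exact hcon
      have hE1p := w1md_InE1_nsmul v hW hB.le hC.le h2' hE1 p
      rw [smul_sub, hP, zero_sub, hm, w1md_T0_odd hW h0' m, w1md_T0_neg hW h0'] at hE1p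
      have : (1 : Γ₀) < v (0 : K) := hE1p
      rw [_root_.map_zero] at this
      exact not_lt_zero this
    obtain ⟨x₃, y₃, h₃, hsub, hx3, t, ht, htv, hval⟩ :=
      w1me_Cb_depth v hW hB hC hC0 h2 σ hσ φ hφ h hx0 hxC hnE1 hmove
    refine ⟨x₃, y₃, h₃, hsub, hx3, t, htv, hval, ?_⟩
    rcases ht with ht | ht
    · exact Or.inr (Or.inr (Or.inl ht))
    · exact Or.inr (Or.inr (Or.inr (Or.inl ht)))
  · -- (Cc)
    rw [not_le] at hxC
    have hx0 : x ≠ 0 := by
      rintro rfl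
      rw [_root_.map_zero] at hxC
      exact not_lt_zero hxC
    have hvx0 : v x ≠ 0 := (v.ne_zero_iff).mpr hx0
    have e := (hW.equation_iff x y).mp h.1
    obtain ⟨β, hβ⟩ : ∃ β, β ^ 2 = W.a₂ := IsAlgClosed.exists_pow_nat_eq W.a₂ (by norm_num)
    have hprod : v ((y / x - β) * (y / x + β)) < 1 := by
      have : (y / x - β) * (y / x + β) = x + W.a₄ / x := by
        field_simp
        linear_combination e - x ^ 2 * hβ
      rw [this]
      apply v.map_add_lt hx1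
      rw [map_div₀]
      exact (div_lt_one₀ (zero_lt_iff.mpr hvx0)).mpr hxC
    obtain ⟨β', hβ', hs⟩ : ∃ β' : K, β' ^ 2 = W.a₂ ∧ v (y / x - β') < 1 := by
      by_cases h1 : v (y / x - β) < 1
      · exact ⟨β, hβ, h1⟩
      · refine ⟨-β, by rw [neg_sq, hβ], ?_⟩
        rw [sub_neg_eq_add]
        by_contra h2c
        rw [not_lt] at h1 h2c
        rw [map_mul] at hprod
        exact absurd hprod (not_lt.mpr (one_le_mul_of_one_le_of_one_le h1 h2c))
    obtain ⟨k, hk⟩ := comp_torsion v hW hB hC hC0 h2 hβ' h hxC hx1 hs hP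
    have hρ : v (ϖ ^ k) = v x := by
      apply pow_left_inj_of_ne_zero hp.ne_zero
      rw [hk, map_zpow₀, ← zpow_natCast (v ϖ ^ k) p, ← zpow_mul, mul_comm k (p : ℤ), zpow_mul,
        zpow_natCast, hϖ, ← zpow_natCast (v W.a₄) 2, ← zpow_mul]
      norm_num
    obtain ⟨xQ, yQ, hQ, hsub, hxQ, hy0, hval, hv1⟩ :=
      w1ma_depth v hW hB hC.le h2 σ hσ φ hφ h hxC hx1 (ϖ ^ k) (by rw [map_zpow₀, hσϖ]) hρ hmove
    exact ⟨xQ, yQ, hQ, hsub, hxQ, x / ϖ ^ k, hv1.le, hval,
      Or.inr (Or.inr (Or.inr (Or.inr ⟨k, rfl⟩)))⟩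

end Abstract

section Concrete

open Fermat.Agent.S33lib Fermat.Agent.S58lib Fermat.Agent.S41lib Fermat.Agent
  Fermat.Agent.S05wire IsLocalRing

/-- the `y`-coordinate (`0` at the origin) -/
noncomputable def w1mdY (W : WeierstrassCurve ℤ) : (ssnE W).Point → AlgebraicClosure ℚ
  | .zero => 0
  | .some _ y _ => y

variable (W : WeierstrassCurve ℤ) {p : ℕ} (hp : p.Prime) (hp2 : p ≠ 2)
  (B : ValuationSubring (AlgebraicClosure ℚ)) (hB : B.LiesOverPrime p)

include hp hp2 hB in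
/-- **(M6) = (DEPTH)**: the stabiliser of an integral point of `W[p]` is peu ramifié (depth form),
for the integral shape curve `W` with multiplicative reduction at `p`, `w ^ p = a₄²`. -/
theorem w1md_depth (hΔ : W.Δ ≠ 0) (h1 : W.a₁ = 0) (h3 : W.a₃ = 0) (h6 : W.a₆ = 0)
    (hn2 : ¬ (p : ℤ) ∣ W.a₂) (hn4 : (p : ℤ) ∣ W.a₄) (hn40 : W.a₄ ≠ 0)
    (w : ℤ) (hw : w ^ p = W.a₄ ^ 2)
    (P : S40hWp W p) (hPint : w1oInt W B (P : (ssnE W).Point)) :
    S40hPeuB p B (S40hStab P) := by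
  by_cases hI : S40hI1 p B ⊆ S40hStab P
  · exact Or.inl hI
  right
  obtain ⟨σ, hσ1, hσP⟩ := Set.not_subset.mp hI
  have hσ : σ ∈ B.inertiaSubgroupIn ℚ := hσ1.1
  have hfix : σ • P ≠ P := hσP
  have hσI : IsInertial B.valuation
      ((σ : AlgebraicClosure ℚ ≃ₐ[ℚ] AlgebraicClosure ℚ) :
        AlgebraicClosure ℚ →+* AlgebraicClosure ℚ) :=
    isInertial_of_mem_inertiaSubgroupIn B hσ
  have hPt := rh_nsmul_of_mem W P
  -- the coefficients
  have ea1 : ((W.map (Int.castRingHom ℚ)).baseChange (AlgebraicClosure ℚ)).a₁ = 0 := by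
    rw [ner_baseChange_eq, map_a₁, h1, _root_.map_zero]
  have ea3 : ((W.map (Int.castRingHom ℚ)).baseChange (AlgebraicClosure ℚ)).a₃ = 0 := by
    rw [ner_baseChange_eq, map_a₃, h3, _root_.map_zero]
  have ea6 : ((W.map (Int.castRingHom ℚ)).baseChange (AlgebraicClosure ℚ)).a₆ = 0 := by
    rw [ner_baseChange_eq, map_a₆, h6, _root_.map_zero]
  have ea2 : ((W.map (Int.castRingHom ℚ)).baseChange (AlgebraicClosure ℚ)).a₂
      = ((W.a₂ : ℤ) : AlgebraicClosure ℚ) := by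
    rw [ner_baseChange_eq, map_a₂, eq_intCast]
  have ea4 : ((W.map (Int.castRingHom ℚ)).baseChange (AlgebraicClosure ℚ)).a₄
      = ((W.a₄ : ℤ) : AlgebraicClosure ℚ) := by
    rw [ner_baseChange_eq, map_a₄, eq_intCast]
  have hW : Shape ((W.map (Int.castRingHom ℚ)).baseChange (AlgebraicClosure ℚ)) :=
    ⟨ea1, ea3, ea6⟩
  have hp2' : ¬ (p : ℤ) ∣ 2 := by
    intro h
    have h' : p ∣ 2 := by exact_mod_cast h
    exact hp2 ((Nat.prime_dvd_prime_iff_eq hp Nat.prime_two).mp h')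
  have v2 : B.valuation (2 : AlgebraicClosure ℚ) = 1 := by
    have := val_intCast_eq_one B hp hB hp2'
    simpa using this
  have hB1 : B.valuation ((W.map (Int.castRingHom ℚ)).baseChange (AlgebraicClosure ℚ)).a₂ = 1 := by
    rw [ea2]
    exact val_intCast_eq_one B hp hB hn2
  have hC1 : B.valuation ((W.map (Int.castRingHom ℚ)).baseChange (AlgebraicClosure ℚ)).a₄ < 1 := by
    rw [ea4]
    exact val_intCast_lt_one B hB hn4
  have hC0 : ((W.map (Int.castRingHom ℚ)).baseChange (AlgebraicClosure ℚ)).a₄ ≠ 0 := by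
    rw [ea4]
    exact_mod_cast hn40
  have hφ : ∀ (x y : AlgebraicClosure ℚ)
      (h : ((W.map (Int.castRingHom ℚ)).baseChange (AlgebraicClosure ℚ)).toAffine.Nonsingular x y),
      ∃ h' : ((W.map (Int.castRingHom ℚ)).baseChange (AlgebraicClosure ℚ)).toAffine.Nonsingular
        (((σ : AlgebraicClosure ℚ ≃ₐ[ℚ] AlgebraicClosure ℚ) :
          AlgebraicClosure ℚ →+* AlgebraicClosure ℚ) x)
        (((σ : AlgebraicClosure ℚ ≃ₐ[ℚ] AlgebraicClosure ℚ) :
          AlgebraicClosure ℚ →+* AlgebraicClosure ℚ) y),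
        Point.map (W' := (W.map (Int.castRingHom ℚ)).toAffine) σ.toAlgHom (Point.some x y h) =
          Point.some _ _ h' := by
    intro x y h
    exact ⟨_, Point.map_some (W' := (W.map (Int.castRingHom ℚ)).toAffine) σ.toAlgHom h⟩
  have hϖ : B.valuation ((w : ℤ) : AlgebraicClosure ℚ) ^ p
      = B.valuation ((W.map (Int.castRingHom ℚ)).baseChange (AlgebraicClosure ℚ)).a₄ ^ 2 := by
    rw [ea4, ← map_pow, ← map_pow]
    congr 1
    exact_mod_cast congrArg (Int.cast : ℤ → AlgebraicClosure ℚ) hw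
  have hσϖ : ((σ : AlgebraicClosure ℚ ≃ₐ[ℚ] AlgebraicClosure ℚ) :
      AlgebraicClosure ℚ →+* AlgebraicClosure ℚ) ((w : ℤ) : AlgebraicClosure ℚ)
      = ((w : ℤ) : AlgebraicClosure ℚ) := map_intCast _ w
  -- the point
  have hne : σ • (P : (ssnE W).Point) ≠ (P : (ssnE W).Point) := fun h => hfix (Subtype.ext h)
  rcases hPc : (P : (ssnE W).Point) with _ | ⟨x, y, h⟩
  · rw [hPc] at hPint
    exact absurd hPint (w1oInt_zero W B)
  rw [hPc] at hPint hPt hne
  have hxB : x ∈ B := hPint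
  have hx : B.valuation x ≤ 1 := (B.valuation_le_one_iff x).mpr hxB
  obtain ⟨x₃, y₃, h₃, hsub, hx3, t, htv, hval, hform⟩ :=
    w1md_abs B.valuation hW hB1 hC1 hC0 v2 hp hp2
      ((σ : AlgebraicClosure ℚ ≃ₐ[ℚ] AlgebraicClosure ℚ) :
        AlgebraicClosure ℚ →+* AlgebraicClosure ℚ) hσI
      (Point.map (W' := (W.map (Int.castRingHom ℚ)).toAffine) σ.toAlgHom) hφ
      ((w : ℤ) : AlgebraicClosure ℚ) hσϖ hϖ h hx hPt hne
  -- `Q = σ P - P` is a `p`-torsion point in the kernel of reduction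
  have hQt : p • (Point.some x₃ y₃ h₃ :
      ((W.map (Int.castRingHom ℚ)).baseChange (AlgebraicClosure ℚ)).toAffine.Point) = 0 := by
    rw [← hsub, nsmul_sub, ← map_nsmul, hPt, _root_.map_zero, sub_zero]
  have hx3B : x₃ ∉ B := fun hmem =>
    absurd ((B.valuation_le_one_iff _).mpr hmem) (not_le.mpr hx3)
  haveI hEll : ((W.map (Int.castRingHom ℚ)).baseChange (AlgebraicClosure ℚ)).IsElliptic :=
    h2_isElliptic W hΔ
  haveI : NeZero p := ⟨hp.ne_zero⟩
  obtain ⟨ζ, hζ⟩ := HasEnoughRootsOfUnity.exists_primitiveRoot (AlgebraicClosure ℚ) p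
  have hz : B.valuation (ζ - 1) ≤ B.valuation (x₃ / y₃) :=
    w1o_zeta B W ((W.map (Int.castRingHom ℚ)).baseChange (AlgebraicClosure ℚ))
      (ner_baseChange_eq W) hp hp2 hB hζ h₃ hQt hx3B
  refine ⟨t, (B.valuation_le_one_iff t).mp htv, ?_, σ, hσ1, ζ, hζ, ?_⟩
  · intro τ _ hτ
    have hτ1 : τ • P = P := hτ
    have hτ2 : τ • (P : (ssnE W).Point) = (P : (ssnE W).Point) := congrArg Subtype.val hτ1
    rw [hPc] at hτ2
    have hτx : τ x = x := congrArg (ssnX W) hτ2
    have hτy : τ y = y := congrArg (w1mdY W) hτ2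
    have hτ4 : τ ((W.map (Int.castRingHom ℚ)).baseChange (AlgebraicClosure ℚ)).a₄
        = ((W.map (Int.castRingHom ℚ)).baseChange (AlgebraicClosure ℚ)).a₄ := by
      rw [ea4]
      exact map_intCast τ _
    have hτw : τ ((w : ℤ) : AlgebraicClosure ℚ) = ((w : ℤ) : AlgebraicClosure ℚ) :=
      map_intCast τ w
    rcases hform with rfl | rfl | rfl | rfl | ⟨k, rfl⟩
    · exact hτx
    · exact hτy
    · rw [map_div₀, hτ4, hτx]
    · rw [map_neg, map_div₀, map_mul, map_pow, hτ4, hτx, hτy]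
    · rw [map_div₀, map_zpow₀, hτw, hτx]
  · exact le_of_le_of_eq hz hval

end Concrete

end Fermat.Agent.S40lib
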