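/-
Item 88 (row 38 via S44), block (W1-mult), HUB (helper26, architect).

`W` an integral Weierstrass curve, `B` a valuation subring of `ℚ̄` over the odd prime `p`,
`E₁ = w1oE1 W B p` the points of `W[p]` with non-integral `x`-coordinate (and `0`).
Three inputs

* `W1mSub`   [A] = (M2): inertia acts trivially on `W[p] / E₁`;
* `W1mInt`   [B] = (M4): `E₁ ≠ W[p]`;
* `W1mDepth` [C] = (DEPTH): for `P ∉ E₁` and `σ ∈ I₁` moving `P` there is an integral `t`, fixed
  by the stabiliser of `P`, with `v(ζ - 1) ≤ v(σ t - t)`;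

give the second alternative of `S40hW1 W p B (S40hPeuB p B)` (`w1m_main`), by the counting lemma
`w1o_abs`.  No hypothesis on the reduction type of `W` is used here.
-/
import Mathlib
import Fermat.Agent.S36lib.Speed
import Fermat.Agent.S40lib.W1Ord

set_option autoImplicit false
set_option linter.unusedSectionVars false
set_option linter.unusedVariables false
set_option linter.style.haveILetI false

open WeierstrassCurve WeierstrassCurve.Affine WeierstrassCurve.Affine.Point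

namespace Fermat.Agent.S40lib

open Fermat.Agent.S33lib Fermat.Agent.S58lib Fermat.Agent.S41lib Fermat.Agent Fermat.Agent.S05lib
  Fermat.Agent.S05wire IsLocalRing

/-- [A] = (M2): inertia acts trivially modulo the kernel of reduction -/
def W1mSub (W : WeierstrassCurve ℤ) (p : ℕ) (B : ValuationSubring (AlgebraicClosure ℚ)) : Prop :=
  ∀ σ ∈ B.inertiaSubgroupIn ℚ, ∀ P : S40hWp W p, σ • P - P ∈ w1oE1 W B p

/-- [B] = (M4): some `p`-torsion point has an integral `x`-coordinate -/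
def W1mInt (W : WeierstrassCurve ℤ) (p : ℕ) (B : ValuationSubring (AlgebraicClosure ℚ)) : Prop :=
  ∃ P : S40hWp W p, P ∉ w1oE1 W B p

/-- [C] = (DEPTH): an integral function of `P` moved by `σ` at depth `ζ - 1` -/
def W1mDepth (W : WeierstrassCurve ℤ) (p : ℕ) (B : ValuationSubring (AlgebraicClosure ℚ)) : Prop :=
  ∀ P : S40hWp W p, P ∉ w1oE1 W B p → ∀ σ ∈ S40hI1 p B, σ • P ≠ P →
    ∃ t : AlgebraicClosure ℚ, t ∈ B ∧
      (∀ τ : AlgebraicClosure ℚ ≃ₐ[ℚ] AlgebraicClosure ℚ, τ • P = P → τ t = t) ∧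
      ∃ ζ : AlgebraicClosure ℚ, IsPrimitiveRoot ζ p ∧
        B.valuation (ζ - 1) ≤ B.valuation (σ t - t)

/-- [C] ⇒ the stabiliser of a point outside `E₁` is peu ramifié (depth form) -/
theorem w1m_peuB (W : WeierstrassCurve ℤ) (p : ℕ) (B : ValuationSubring (AlgebraicClosure ℚ))
    (hC : W1mDepth W p B) (P : S40hWp W p) (hP : P ∉ w1oE1 W B p) :
    S40hPeuB p B (S40hStab P) := by
  by_cases hI : S40hI1 p B ⊆ S40hStab P
  · exact Or.inl hI
  right
  obtain ⟨σ, hσ1, hσP⟩ := Set.not_subset.mp hI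
  have hfix : σ • P ≠ P := hσP
  obtain ⟨t, htB, htfix, ζ, hζ, hval⟩ := hC P hP σ hσ1 hfix
  exact ⟨t, htB, fun τ _ hτ => htfix τ hτ, σ, hσ1, ζ, hζ, hval⟩

/-- **(W1-mult), hub**: [A] + [B] + [C] ⇒ `S40hW1 W p B (S40hPeuB p B)`. -/
theorem w1m_main (W : WeierstrassCurve ℤ) {p : ℕ} (hp : p.Prime) (hp2 : p ≠ 2)
    (hΔ : W.Δ ≠ 0) (B : ValuationSubring (AlgebraicClosure ℚ)) (hB : B.LiesOverPrime p)
    (hA : W1mSub W p B) (hI : W1mInt W p B) (hC : W1mDepth W p B) :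
    S40hW1 W p B (S40hPeuB p B) := by
  haveI : Fact p.Prime := ⟨hp⟩
  obtain ⟨m, hm, hpm⟩ : ∃ m, 1 ≤ m ∧ p = 2 * m + 1 := by
    rcases hp.eq_two_or_odd' with e | ⟨m, hm⟩
    · exact absurd e hp2
    · refine ⟨m, ?_, hm⟩
      have := hp.two_le
      omega
  obtain ⟨P₀, hP₀⟩ := hI
  have hcard : Nat.card (S40hWp W p) = p ^ 2 := by
    haveI := h2_isElliptic W hΔ
    have := ne_card_torsionBy ((W.map (Int.castRingHom ℚ)).baseChange (AlgebraicClosure ℚ)) m hm
    rw [← hpm] at this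
    exact this
  have hV : ∀ v : S40hWp W p, p • v = 0 := fun v => Subtype.ext (rh_nsmul_of_mem W v)
  obtain ⟨τ₀, hτ₀, hmv, hsq⟩ := cysp_exists_moves p hp2 B hB
  obtain ⟨P, hPE, hfix⟩ := w1o_abs hp hcard hV (w1oE1 W B p) τ₀ (fun v => hA τ₀ hτ₀ v) P₀ hP₀
  have hP0 : P ≠ 0 := by
    rintro rfl
    exact hPE (w1oE1 W B p).zero_mem
  right
  refine ⟨P, hP0, ?_, w1m_peuB W p B hC P hPE⟩
  rcases hfix with h1 | h1
  · exact ⟨τ₀, hτ₀, hmv, h1⟩
  · exact ⟨τ₀ ^ p, pow_mem hτ₀ p, w1o_moves_pow hp τ₀ hsq, h1⟩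

end Fermat.Agent.S40lib
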