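import Mathlib
import Fermat.Agent.S36lib.Speed
import Fermat.Agent.Ladder.Eval
import Fermat.Agent.Ladder.Map
import Fermat.Agent.Ladder.AddSub
import Fermat.Agent.S40lib.SSNewton

/-!
# Item 88 (S44), block (W1-mult), piece (M4) (helper7): Newton polygon route

`K = ℚ̄`, `A` a valuation subring, `W : Y² = X³ + B₀ X² + C₀ X` over `K` with `v(B₀) = 1`,
`v(C₀) < 1`, `v(2) = 1`, `Δ ≠ 0` (multiplicative reduction, node at the origin).  Then for every
`m ≥ 1` some non-zero `(2 m + 1)`-torsion point has an INTEGRAL `x`-coordinate, i.e. lies outside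
the kernel of reduction `E₁` (`w1q_exists_int`).

* `w1q_addSubMap_sym2x` : correctness of the `x`-only addition/subtraction map on the NONSINGULAR
  points of ANY Weierstrass curve over a field (no `IsElliptic`);
* `w1q_LF_eval_zero`, `w1q_torsPoly_eval_zero` : the ladder polynomials vanish at a node at the
  origin (`b₄ = b₆ = b₈ = 0`);
* `w1q_torsPoly_ne_const` : over a field of characteristic `≠ 2`, the torsion polynomial of
  `Y² = X³ + β X²`, `β ≠ 0`, has a non-zero coefficient in positive degree;
* `w1q_exists_root` : a root of the torsion polynomial in `A`;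
* `w1q_exists_int` : the statement.
-/

set_option autoImplicit false
set_option linter.unusedSectionVars false
set_option linter.unusedVariables false

noncomputable section

namespace Fermat.Agent.S40lib

open Polynomial WeierstrassCurve WeierstrassCurve.Affine WeierstrassCurve.Affine.Point
open Fermat.Agent.Ladder Fermat.Agent.S24lib

/-! ### the addition-subtraction map on the nonsingular points of any Weierstrass curve -/

section AddSub

variable {K : Type*} [Field K]

/-- at a point with `2 y + a₁ x + a₃ = 0` the numerator of the duplication formula is the square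
of the `X`-derivative of the equation -/
theorem w1q_phi2_eq (W : WeierstrassCurve K) {x y : K} (h : W.toAffine.Equation x y)
    (h0 : y - (-y - W.a₁ * x - W.a₃) = 0) :
    x ^ 4 - W.b₄ * x ^ 2 - 2 * W.b₆ * x - W.b₈ =
      (W.a₁ * y - (3 * x ^ 2 + 2 * W.a₂ * x + W.a₄)) ^ 2 := by
  rw [Affine.equation_iff] at h
  simp only [WeierstrassCurve.b₄, WeierstrassCurve.b₆, WeierstrassCurve.b₈]
  grind

variable [DecidableEq K]

/-- the addition-and-subtraction map on `x`-coordinates is correct on the nonsingular points of
ANY Weierstrass curve over a field (the proof of `addSubMap_sym2x`, with the one use of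
`IsElliptic` replaced by `w1q_phi2_eq`). -/
theorem w1q_addSubMap_sym2x (W : WeierstrassCurve K) (P Q : W.toAffine.Point) :
    ∃ c : K, c ≠ 0 ∧ (fun i => MvPolynomial.eval (P.sym2x Q) (W.addSubMap i)) =
      c • (P + Q).sym2x (P - Q) := by
  rw [eval_addSubMap]
  rcases P with _ | ⟨x₁, y₁, h₁⟩
  · rcases Q with _ | ⟨x₂, y₂, h₂⟩
    · refine ⟨1, one_ne_zero, ?_⟩
      rw [← zero_def]
      simp
    · refine ⟨1, one_ne_zero, ?_⟩
      rw [← zero_def]
      simp only [zero_add, zero_sub, sym2x_neg_right, sym2x_zero_some, sym2x_some_some, one_smul]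
      funext i
      fin_cases i <;> simp <;> ring
  · rcases Q with _ | ⟨x₂, y₂, h₂⟩
    · refine ⟨1, one_ne_zero, ?_⟩
      rw [← zero_def]
      simp only [add_zero, sub_zero, sym2x_some_zero, sym2x_some_some, one_smul]
      funext i
      fin_cases i <;> simp <;> ring
    · by_cases hx : x₁ = x₂
      · subst hx
        have hΨ := psi2_sq W h₁.1
        by_cases hy : y₁ = W.toAffine.negY x₁ y₂
        · -- `Q = -P`
          have hPQ : (some x₁ y₁ h₁ : W.toAffine.Point) + some x₁ y₂ h₂ = 0 := add_of_Y_eq rfl hy
          by_cases hy' : y₁ = y₂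
          · -- `P` is 2-torsion, `Q = P`
            subst hy'
            have hsub : (some x₁ y₁ h₁ : W.toAffine.Point) - some x₁ y₁ h₁ = 0 := sub_self _
            rw [hPQ, hsub]
            have hzero : y₁ - (-y₁ - W.a₁ * x₁ - W.a₃) = 0 := by
              have := hy
              rw [Affine.negY] at this
              linear_combination this
            have hΨ0 : 4 * x₁ ^ 3 + W.b₂ * x₁ ^ 2 + 2 * W.b₄ * x₁ + W.b₆ = 0 := by
              rw [hΨ, hzero]; ring
            refine ⟨x₁ ^ 4 - W.b₄ * x₁ ^ 2 - 2 * W.b₆ * x₁ - W.b₈, ?_, ?_⟩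
            · rw [w1q_phi2_eq W h₁.1 hzero]
              apply pow_ne_zero
              rcases ((Affine.nonsingular_iff x₁ y₁).mp h₁).2 with hX | hY
              · exact sub_ne_zero.mpr hX
              · exfalso
                apply hY
                linear_combination hzero
            · simp only [sym2x_some_some, sym2x_zero_zero]
              funext i
              fin_cases i
              · simp
                ring
              · simp
                linear_combination hΨ0
              · simp
                ring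
          · -- `Q = -P`, `P` not 2-torsion
            have hyn : y₁ ≠ W.toAffine.negY x₁ (W.toAffine.negY x₁ y₂) := by
              rw [Affine.negY_negY]; exact hy'
            have hsub : (some x₁ y₁ h₁ : W.toAffine.Point) - some x₁ y₂ h₂ =
                some _ _ (nonsingular_add h₁ ((nonsingular_neg ..).mpr h₂)
                  fun hxy => hyn hxy.right) := by
              rw [sub_eq_add_neg, neg_some]
              exact add_of_Y_ne hyn
            rw [hPQ, hsub]
            have hy2 : W.toAffine.negY x₁ y₂ = y₁ := hy.symm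
            have hne0 : y₁ - (-y₁ - W.a₁ * x₁ - W.a₃) ≠ 0 := by
              intro h0
              apply hy'
              have h1 : y₁ = -y₂ - W.a₁ * x₁ - W.a₃ := by
                have := hy; rw [Affine.negY] at this; exact this
              linear_combination h0 - h1
            have hd := dbl_formula W h₁.1 hne0
            refine ⟨4 * x₁ ^ 3 + W.b₂ * x₁ ^ 2 + 2 * W.b₄ * x₁ + W.b₆, ?_, ?_⟩
            · rw [hΨ]; exact pow_ne_zero 2 hne0
            · simp only [sym2x_some_some, sym2x_zero_some]
              rw [slope_of_Y_ne rfl hyn]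
              simp only [Affine.addX, Affine.negY]
              funext i
              fin_cases i
              · simp
                linear_combination -hd
              · simp
                ring
              · simp
                ring
        · -- `Q = P`, `P` not 2-torsion
          have hyy : y₁ = y₂ := (Y_eq_of_X_eq h₁.1 h₂.1 rfl).resolve_right hy
          subst hyy
          have hPQ : (some x₁ y₁ h₁ : W.toAffine.Point) + some x₁ y₁ h₁ =
              some _ _ (nonsingular_add h₁ h₁ fun hxy => hy hxy.right) := add_of_Y_ne hy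
          have hsub : (some x₁ y₁ h₁ : W.toAffine.Point) - some x₁ y₁ h₁ = 0 := sub_self _
          rw [hPQ, hsub]
          have hne0 : y₁ - (-y₁ - W.a₁ * x₁ - W.a₃) ≠ 0 := by
            intro h0
            apply hy
            rw [Affine.negY]
            linear_combination h0
          have hd := dbl_formula W h₁.1 hne0
          refine ⟨4 * x₁ ^ 3 + W.b₂ * x₁ ^ 2 + 2 * W.b₄ * x₁ + W.b₆, ?_, ?_⟩
          · rw [hΨ]; exact pow_ne_zero 2 hne0
          · simp only [sym2x_some_some, sym2x_some_zero]
            rw [slope_of_Y_ne rfl hy]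
            simp only [Affine.addX, Affine.negY]
            funext i
            fin_cases i
            · simp
              linear_combination -hd
            · simp
              ring
            · simp
              ring
      · -- generic case
        have hPQ : (some x₁ y₁ h₁ : W.toAffine.Point) + some x₂ y₂ h₂ =
            some _ _ (nonsingular_add h₁ h₂ fun hxy => hx hxy.left) := add_of_X_ne hx
        have hsub : (some x₁ y₁ h₁ : W.toAffine.Point) - some x₂ y₂ h₂ =
            some _ _ (nonsingular_add h₁ ((nonsingular_neg ..).mpr h₂)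
              fun hxy => hx hxy.left) := by
          rw [sub_eq_add_neg, neg_some]
          exact add_of_X_ne hx
        rw [hPQ, hsub]
        have hp := addSub_prod W h₁.1 h₂.1 hx
        have hs := addSub_sum W h₁.1 h₂.1 hx
        refine ⟨(x₁ - x₂) ^ 2, pow_ne_zero 2 (sub_ne_zero.mpr hx), ?_⟩
        simp only [sym2x_some_some]
        rw [slope_of_X_ne hx, slope_of_X_ne hx]
        simp only [Affine.addX, Affine.negY]
        funext i
        fin_cases i
        · simp
          linear_combination -hp
        · simp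
          linear_combination -hs
        · simp
          ring


/-- `AddSubSpec` holds for every Weierstrass curve over a field -/
theorem w1q_addSubSpec (W : WeierstrassCurve K) : AddSubSpec W :=
  fun P Q => w1q_addSubMap_sym2x W P Q

end AddSub


/-! ### the ladder at a node at the origin -/

section Node

variable {R : Type*} [CommRing R] (W : WeierstrassCurve R)

/-- at a node at the origin (`b₄ = b₆ = b₈ = 0`) the numerators `F_n`, `n ≥ 1`, of the ladder
vanish at `0` -/
theorem w1q_LF_eval_zero (h4 : W.b₄ = 0) (h6 : W.b₆ = 0) (h8 : W.b₈ = 0) (n : ℕ) (hn : 1 ≤ n) :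
    (LF W n).eval 0 = 0 := by
  induction n using Nat.strong_induction_on with
  | _ n ih =>
    rcases Nat.even_or_odd' n with ⟨k, rfl | rfl⟩
    · have hk : 1 ≤ k := by omega
      rw [LF_even W k hk]
      have hfk := ih k (by omega) hk
      simp [dblF, h4, h6, h8, hfk]
    · rcases Nat.eq_zero_or_pos k with rfl | hk
      · simp
      · rw [LF_odd W k hk]
        have hfk := ih k (by omega) hk
        simp [oddF, oddT, oddS, h4, h6, hfk]

/-- at a node at the origin the torsion polynomials vanish at `0` -/
theorem w1q_torsPoly_eval_zero (h4 : W.b₄ = 0) (h6 : W.b₆ = 0) (h8 : W.b₈ = 0) (m : ℕ)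
    (hm : 1 ≤ m) : (torsPoly W m).eval 0 = 0 := by
  unfold torsPoly oddS
  rw [eval_sub, eval_mul, eval_mul, w1q_LF_eval_zero W h4 h6 h8 m hm,
    w1q_LF_eval_zero W h4 h6 h8 (m + 1) (by omega)]
  ring

end Node

/-! ### the torsion polynomial of a nodal cubic is not constant -/

section Nodal

variable {k : Type*} [Field k] [DecidableEq k]

/-- over a field of characteristic `≠ 2` the `(2 m + 1)`-torsion polynomial of the nodal cubic
`Y² = X³ + β X²`, `β ≠ 0`, has a non-zero coefficient in positive degree: it vanishes at the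
node and not at the point `(-β, 0)` of order `2`. -/
theorem w1q_torsPoly_ne_const (W : WeierstrassCurve k) (h2 : (2 : k) ≠ 0)
    (h1 : W.a₁ = 0) (h3 : W.a₃ = 0) (h4 : W.a₄ = 0) (h6 : W.a₆ = 0) (hβ : W.a₂ ≠ 0)
    (m : ℕ) (hm : 1 ≤ m) : ∃ j : ℕ, 1 ≤ j ∧ (torsPoly W m).coeff j ≠ 0 := by
  have hb4 : W.b₄ = 0 := by simp [WeierstrassCurve.b₄, h1, h3, h4]
  have hb6 : W.b₆ = 0 := by simp [WeierstrassCurve.b₆, h3, h6]
  have hb8 : W.b₈ = 0 := by simp [WeierstrassCurve.b₈, h1, h3, h4, h6]
  have hzero := w1q_torsPoly_eval_zero W hb4 hb6 hb8 m hm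
  -- the point of order `2`
  have hns : W.toAffine.Nonsingular (-W.a₂) 0 := by
    rw [Affine.nonsingular_iff, Affine.equation_iff]
    refine ⟨by rw [h1, h3, h4, h6]; ring, Or.inl ?_⟩
    rw [h1, h4]
    intro h
    have e : W.a₂ ^ 2 = 0 := by linear_combination -h
    exact hβ (pow_eq_zero_iff (by norm_num) |>.mp e)
  have hPP : (Point.some (-W.a₂) 0 hns : W.toAffine.Point) + Point.some (-W.a₂) 0 hns = 0 := by
    apply Point.add_self_of_Y_eq
    rw [Affine.negY, h1, h3]
    ring
  have hodd : (2 * m + 1) • (Point.some (-W.a₂) 0 hns : W.toAffine.Point)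
      = Point.some (-W.a₂) 0 hns := by
    rw [add_smul, one_smul, mul_comm, mul_smul, two_smul, hPP, smul_zero, zero_add]
  have hne : (torsPoly W m).eval (-W.a₂) ≠ 0 := by
    intro h0
    have := (odd_nsmul_eq_zero_iff (w1q_addSubSpec W) hns m hm).mpr h0
    rw [hodd] at this
    exact Point.some_ne_zero hns this
  by_contra hall
  push Not at hall
  have hconst : torsPoly W m = C ((torsPoly W m).coeff 0) := by
    ext j
    rcases Nat.eq_zero_or_pos j with rfl | hj
    · simp
    · rw [hall j hj, coeff_C, if_neg (by omega)]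
  rw [hconst, eval_C] at hzero
  rw [hconst, eval_C] at hne
  exact hne hzero

end Nodal

/-! ### an integral root of the torsion polynomial -/

section Lift

variable (A : ValuationSubring Kbar)

set_option maxHeartbeats 1000000 in
/-- multiplicative reduction with the node at the origin: the `(2 m + 1)`-torsion polynomial has
a root in the valuation ring -/
theorem w1q_exists_root (W : WeierstrassCurve Kbar) (h1 : W.a₁ = 0) (h3 : W.a₃ = 0)
    (h6 : W.a₆ = 0) (hB : A.valuation W.a₂ = 1) (hC : A.valuation W.a₄ < 1)
    (h2 : A.valuation (2 : Kbar) = 1) (hΔ : W.Δ ≠ 0) (m : ℕ) (hm : 1 ≤ m) :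
    ∃ x : Kbar, (torsPoly W m).eval x = 0 ∧ x ∈ A := by
  classical
  by_contra hno
  push Not at hno
  have ha2 : W.a₂ ∈ A := (A.valuation_le_one_iff _).mp hB.le
  have ha4 : W.a₄ ∈ A := (A.valuation_le_one_iff _).mp hC.le
  set W₀ : WeierstrassCurve A := ⟨0, ⟨W.a₂, ha2⟩, 0, ⟨W.a₄, ha4⟩, 0⟩ with hW₀
  have hW : W₀.map A.subtype = W := by
    ext
    · simp [hW₀, h1]
    · simp [hW₀]
    · simp [hW₀, h3]
    · simp [hW₀]
    · simp [hW₀, h6]
  have hT : torsPoly W m = (torsPoly W₀ m).map A.subtype := by
    rw [← map_torsPoly, hW]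
  have h2K : (2 : Kbar) ≠ 0 := two_ne_zero
  have hT0 : torsPoly W m ≠ 0 := ssn_torsPoly_ne_zero W h2K hΔ m hm
  obtain ⟨Q, hQ, hfac⟩ := ssn_factor A (torsPoly W m) hT0 hno
  -- the reduction
  set res := IsLocalRing.residue A with hres
  have hres0 : ∀ a : A, A.valuation (a : Kbar) < 1 → res a = 0 := by
    intro a ha
    exact (IsLocalRing.residue_eq_zero_iff a).mpr ((A.valuation_lt_one_iff a).mpr ha)
  have hres1 : ∀ a : A, A.valuation (a : Kbar) = 1 → res a ≠ 0 := by
    intro a ha h0
    have := (A.valuation_lt_one_iff a).mp ((IsLocalRing.residue_eq_zero_iff a).mp h0)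
    rw [ha] at this
    exact lt_irrefl _ this
  have h2k : (2 : IsLocalRing.ResidueField A) ≠ 0 := by
    have e : (((2 : A) : A) : Kbar) = (2 : Kbar) := rfl
    have := hres1 (2 : A) (by rw [e]; exact h2)
    rwa [map_ofNat] at this
  obtain ⟨j, hj, hcoeff⟩ := w1q_torsPoly_ne_const (W₀.map res) h2k
    (by simp [hW₀]) (by simp [hW₀]) (by simpa [hW₀] using hres0 ⟨W.a₄, ha4⟩ hC) (by simp [hW₀])
    (by simpa [hW₀] using hres1 ⟨W.a₂, ha2⟩ hB) m hm
  rw [map_torsPoly, coeff_map] at hcoeff
  apply hcoeff
  apply hres0
  have e1 : (((torsPoly W₀ m).coeff j : A) : Kbar) = (torsPoly W m).coeff j := by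
    rw [hT, coeff_map]
    rfl
  have e0 : (((torsPoly W₀ m).coeff 0 : A) : Kbar) = (torsPoly W m).coeff 0 := by
    rw [hT, coeff_map]
    rfl
  have hc0 : A.valuation ((torsPoly W m).coeff 0) ≤ 1 := by
    rw [← e0]
    exact (A.valuation_le_one_iff _).mpr (SetLike.coe_mem _)
  rw [e1]
  have e2 : (torsPoly W m).coeff j = (torsPoly W m).coeff 0 * Q.coeff j := by
    conv_lhs => rw [hfac]
    rw [coeff_C_mul]
  rw [e2, map_mul]
  calc A.valuation ((torsPoly W m).coeff 0) * A.valuation (Q.coeff j)
      ≤ 1 * A.valuation (Q.coeff j) := mul_le_mul_left hc0 _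
    _ = A.valuation (Q.coeff j) := one_mul _
    _ < 1 := hQ.2 j hj

/-- **(M4)**: multiplicative reduction with the node at the origin: some non-zero
`(2 m + 1)`-torsion point has an integral `x`-coordinate (it is not in the kernel of reduction) -/
theorem w1q_exists_int (W : WeierstrassCurve Kbar) (h1 : W.a₁ = 0) (h3 : W.a₃ = 0)
    (h6 : W.a₆ = 0) (hB : A.valuation W.a₂ = 1) (hC : A.valuation W.a₄ < 1)
    (h2 : A.valuation (2 : Kbar) = 1) (hΔ : W.Δ ≠ 0) (m : ℕ) (hm : 1 ≤ m) :
    ∃ (x y : Kbar) (h : W.toAffine.Nonsingular x y),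
      (2 * m + 1) • (Point.some x y h : W.toAffine.Point) = 0 ∧ x ∈ A := by
  classical
  obtain ⟨x, hx, hxA⟩ := w1q_exists_root A W h1 h3 h6 hB hC h2 hΔ m hm
  obtain ⟨y, hy⟩ := IsAlgClosed.exists_pow_nat_eq (x ^ 3 + W.a₂ * x ^ 2 + W.a₄ * x) (n := 2)
    (by norm_num)
  have heq : W.toAffine.Equation x y := by
    rw [Affine.equation_iff, h1, h3, h6, hy]
    ring
  have hns : W.toAffine.Nonsingular x y :=
    (equation_iff_nonsingular_of_Δ_ne_zero (W := W.toAffine) hΔ).mp heq
  exact ⟨x, y, hns, (odd_nsmul_eq_zero_iff (w1q_addSubSpec W) hns m hm).mpr hx, hxA⟩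

end Lift

end Fermat.Agent.S40lib
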