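/-
Item 88 (S44), block (W1-mult), piece (M4) (helper29): a curve `Y² = X³ + a₂X² + a₄X` over `ℤ`
with `p ∣ a₄` (node at `(0,0)` modulo `p`) has a non-zero `p`-torsion point with INTEGRAL
`x`-coordinate at every place `B` over `p`: not all of `W[p]` lies in the kernel of reduction.

Proof: the ladder polynomials at `x = 0` on a curve with `b₄ = b₆ = b₈ = 0`: `F_n(0) = 0` for
`n ≥ 1`, so the torsion polynomial `S_{2m+1} = F_{m+1}G_m − F_mG_{m+1}` vanishes at `0`: `p` divides
its constant coefficient.  If no root were integral, `p` would divide all other coefficients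
(`ssn_coeff_dvd`), and the leading coefficient is `−p`: the roots would be integral over `ℤ`.
-/
import Mathlib
import Fermat.Agent.S36lib.Speed
import Fermat.Agent.S40lib.SSShape

set_option autoImplicit false

noncomputable section

namespace Fermat.Agent.S40lib

open Polynomial WeierstrassCurve WeierstrassCurve.Affine Fermat.Agent.Ladder

section Node

variable {R : Type*} [CommRing R] (W : WeierstrassCurve R)

/-- on a curve with `b₄ = b₆ = b₈ = 0` the ladder numerators vanish at `x = 0` -/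
theorem w1n_LF_eval_zero (hb4 : W.b₄ = 0) (hb6 : W.b₆ = 0) (hb8 : W.b₈ = 0) :
    ∀ n : ℕ, 1 ≤ n → (LF W n).eval 0 = 0 := by
  intro n
  induction n using Nat.strong_induction_on with
  | _ n ih =>
    intro hn
    rcases Nat.even_or_odd' n with ⟨m, rfl | rfl⟩
    · have hm : 1 ≤ m := by omega
      have h1 := ih m (by omega) hm
      rw [LF_even W m hm, dblF, hb4, hb6, hb8]
      simp [h1]
    · rcases Nat.eq_zero_or_pos m with rfl | hm
      · simp
      · have h1 := ih m (by omega) hm
        have h2 := ih (m + 1) (by omega) (by omega)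
        rw [LF_odd W m hm, oddF, oddT, oddS, hb4, hb6]
        simp [h1, h2]

/-- the torsion polynomial of a curve with `b₄ = b₆ = b₈ = 0` vanishes at `x = 0` -/
theorem w1n_torsPoly_eval_zero (hb4 : W.b₄ = 0) (hb6 : W.b₆ = 0) (hb8 : W.b₈ = 0)
    (m : ℕ) (hm : 1 ≤ m) : (torsPoly W m).eval 0 = 0 := by
  have h1 := w1n_LF_eval_zero W hb4 hb6 hb8 m hm
  have h2 := w1n_LF_eval_zero W hb4 hb6 hb8 (m + 1) (by omega)
  rw [torsPoly, oddS]
  simp [h1, h2]

end Node

section Int

variable (W : WeierstrassCurve ℤ)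

/-- `p` divides the constant coefficient of the torsion polynomial when the curve has a node at
`(0, 0)` modulo `p` -/
theorem w1n_coeff_zero_dvd (p : ℕ) (h1 : W.a₁ = 0) (h3 : W.a₃ = 0) (h6 : W.a₆ = 0)
    (h4 : (p : ℤ) ∣ W.a₄) (m : ℕ) (hm : 1 ≤ m) : (p : ℤ) ∣ (torsPoly W m).coeff 0 := by
  have hφ : ∀ a : ℤ, (p : ℤ) ∣ a → (Int.castRingHom (ZMod p)) a = 0 := by
    intro a ha
    rw [eq_intCast]
    exact (ZMod.intCast_zmod_eq_zero_iff_dvd a p).mpr ha
  have hb4 : (W.map (Int.castRingHom (ZMod p))).b₄ = 0 := by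
    rw [map_b₄]
    apply hφ
    rw [WeierstrassCurve.b₄, h1, h3]
    obtain ⟨c, hc⟩ := h4
    exact ⟨2 * c, by rw [hc]; ring⟩
  have hb6 : (W.map (Int.castRingHom (ZMod p))).b₆ = 0 := by
    rw [map_b₆]
    apply hφ
    rw [WeierstrassCurve.b₆, h3, h6]
    exact ⟨0, by ring⟩
  have hb8 : (W.map (Int.castRingHom (ZMod p))).b₈ = 0 := by
    rw [map_b₈]
    apply hφ
    rw [WeierstrassCurve.b₈, h1, h3, h6]
    obtain ⟨c, hc⟩ := h4
    exact ⟨-(c * W.a₄), by rw [hc]; ring⟩
  have h0 := w1n_torsPoly_eval_zero (W.map (Int.castRingHom (ZMod p))) hb4 hb6 hb8 m hm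
  rw [map_torsPoly, ← coeff_zero_eq_eval_zero, coeff_map, eq_intCast] at h0
  exact (ZMod.intCast_zmod_eq_zero_iff_dvd _ p).mp h0

/-- **(M4)**: some root of the `p`-torsion polynomial is integral at `B`. -/
theorem w1n_not_ss (p : ℕ) (hp : p.Prime) (h1 : W.a₁ = 0) (h3 : W.a₃ = 0) (h6 : W.a₆ = 0)
    (h4 : (p : ℤ) ∣ W.a₄) (B : ValuationSubring (AlgebraicClosure ℚ)) (hB : B.LiesOverPrime p)
    (m : ℕ) (hm : 1 ≤ m) (hpm : p = 2 * m + 1) :
    ¬ ∀ x : AlgebraicClosure ℚ,
      ((torsPoly W m).map (algebraMap ℤ (AlgebraicClosure ℚ))).eval x = 0 → x ∉ B := by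
  intro hss
  have htop := top_torsPoly W m hm
  set S := torsPoly W m with hS
  set d := 2 * m ^ 2 + 2 * m with hd
  have hlead : S.coeff d = -(p : ℤ) := by
    rw [htop.co, hpm]
    push_cast
    ring
  have hp0 : (p : ℤ) ≠ 0 := by exact_mod_cast hp.ne_zero
  have hS0 : S ≠ 0 := by
    intro h
    rw [h, coeff_zero] at hlead
    exact hp0 (neg_eq_zero.mp hlead.symm)
  have hdvd : ∀ j, (p : ℤ) ∣ S.coeff j := by
    intro j
    rcases Nat.eq_zero_or_pos j with rfl | hj
    · exact w1n_coeff_zero_dvd W p h1 h3 h6 h4 m hm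
    · exact ssn_coeff_dvd W B p hp hB m hS0 hss j hj
  choose c hc using hdvd
  -- the monic polynomial `q = -S / p`
  set q : ℤ[X] := ∑ j ∈ Finset.range (d + 1), C (-(c j)) * X ^ j with hq
  have hqcoeff : ∀ j, q.coeff j = if j < d + 1 then -(c j) else 0 := by
    intro j
    rw [hq, finsetSum_coeff]
    simp only [coeff_C_mul, coeff_X_pow]
    by_cases hj : j < d + 1
    · rw [if_pos hj, Finset.sum_eq_single j]
      · simp
      · intro b _ hb
        rw [if_neg (fun h => hb h.symm), mul_zero]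
      · intro hjn
        exact absurd (Finset.mem_range.mpr hj) hjn
    · rw [if_neg hj]
      apply Finset.sum_eq_zero
      intro b hb
      have : j ≠ b := by
        intro h
        rw [h] at hj
        exact hj (Finset.mem_range.mp hb)
      rw [if_neg this, mul_zero]
  have hqdeg : q.natDegree ≤ d := by
    rw [natDegree_le_iff_coeff_eq_zero]
    intro j hj
    rw [hqcoeff, if_neg (by omega)]
  have hcd : c d = -1 := by
    have := hc d
    rw [hlead] at this
    have h2 : (p : ℤ) * (c d + 1) = 0 := by linarith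
    rcases mul_eq_zero.mp h2 with h | h
    · exact absurd h hp0
    · linarith
  have hqmonic : q.Monic := by
    apply monic_of_natDegree_le_of_coeff_eq_one d hqdeg
    rw [hqcoeff, if_pos (by omega), hcd]
    norm_num
  have hSq : S = -(C (p : ℤ) * q) := by
    ext j
    rw [coeff_neg, coeff_C_mul, hqcoeff]
    by_cases hj : j < d + 1
    · rw [if_pos hj, hc j]
      ring
    · rw [if_neg hj, mul_zero, neg_zero]
      exact coeff_eq_zero_of_natDegree_lt (by have := htop.le; omega)
  obtain ⟨x, hx⟩ := ssn_exists_root W m hm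
  have hxB : x ∉ B := hss x hx
  apply hxB
  have hqx : (q.map (algebraMap ℤ (AlgebraicClosure ℚ))).eval x = 0 := by
    rw [← hS, hSq, Polynomial.map_neg, Polynomial.map_mul, map_C, eval_neg, eval_mul, eval_C,
      neg_eq_zero] at hx
    rcases mul_eq_zero.mp hx with h | h
    · exfalso
      rw [eq_intCast, Int.cast_natCast] at h
      exact hp.ne_zero (by exact_mod_cast h)
    · exact h
  have hint : IsIntegral ℤ x := ⟨q, hqmonic, by rw [← eval_map]; exact hqx⟩
  have hintB : IsIntegral B x := hint.tower_top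
  obtain ⟨y, hy⟩ := IsIntegrallyClosed.isIntegral_iff.1 hintB
  rw [← hy]
  exact y.2

/-- **(M4), point form**: a non-zero `p`-torsion point with integral `x`-coordinate. -/
theorem w1n_exists_int (p : ℕ) (hp : p.Prime) (hp2 : p ≠ 2) (hΔ : W.Δ ≠ 0)
    (h1 : W.a₁ = 0) (h3 : W.a₃ = 0) (h6 : W.a₆ = 0) (h4 : (p : ℤ) ∣ W.a₄)
    (B : ValuationSubring (AlgebraicClosure ℚ)) (hB : B.LiesOverPrime p) :
    ∃ (x y : AlgebraicClosure ℚ) (h : (ssnE W).Nonsingular x y),
      p • (Point.some x y h : (ssnE W).Point) = 0 ∧ x ∈ B := by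
  obtain ⟨m, hpm⟩ : ∃ m, p = 2 * m + 1 := by
    rcases hp.eq_two_or_odd with h | h
    · exact absurd h hp2
    · exact ⟨p / 2, by omega⟩
  have hm : 1 ≤ m := by
    have := hp.two_le
    omega
  exact ssn_ord_point W p hΔ B m hm hpm (w1n_not_ss W p hp h1 h3 h6 h4 B hB m hm hpm)

end Int

end Fermat.Agent.S40lib

end
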