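import Mathlib
import Fermat.Agent.S36lib.Speed
import Fermat.Agent.S40lib.W1Ord
import Fermat.Agent.S40lib.W1MultAdd
import Fermat.Agent.S05_Main
import Fermat.Agent.S05_Val

/-!
Item 88 (S40/S44), block (W1-mult), piece (M6) concrete (helper20).

`W` an integral curve `Y² = X³ + n₂ X² + n₄ X` with `p ∤ n₂`, `p ∣ n₄ ≠ 0`, `n₄² = w ^ p`
(multiplicative reduction at the odd prime `p`, node at the origin), `B` a valuation subring of
`ℚ̄` over `p`.  For every point `P` of `W[p]` with integral `x`-coordinate the stabiliser of `P` is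
"peu ramifié" in the depth form `S40hPeuB` (`w1m6_peuB`): this is the hypothesis `hM6` of
`w1mc_core`.

* `w1m6_double`     : the duplication formula `x(2P) (2y)² = (x² - C)²` on a shape curve;
* `w1m6_two_E1`     : `v x = 1`, `v y < 1` ⇒ `2 P` lies in the kernel of reduction;
* `w1m6_two_E0`     : `v x ≤ v C < 1` ⇒ `2 P` has `1 ≤ v x(2P)`;
* `w1m6_odd`        : a point of odd order with `2 P` in the kernel of reduction lies in it;
* `w1m6_unit`       : depth estimate for a `p`-torsion point with `v x = 1`;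
* `w1m6_peuB`       : the result.
-/

set_option autoImplicit false
set_option linter.unusedSectionVars false

open WeierstrassCurve WeierstrassCurve.Affine WeierstrassCurve.Affine.Point

namespace Fermat.Agent.S40lib

section Abstract

open Fermat.Agent.S05lib

variable {K : Type*} [Field K] [DecidableEq K]
  {Γ₀ : Type*} [LinearOrderedCommGroupWithZero Γ₀] (v : Valuation K Γ₀)
  {W : WeierstrassCurve K}

/-- the duplication formula on `y² = x³ + B x² + C x` -/
theorem w1m6_double (hW : Shape W) (h2 : (2 : K) ≠ 0) {x y : K}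
    (h : W.toAffine.Nonsingular x y) (hy : y ≠ 0) :
    ∃ (x₂ y₂ : K) (h₂ : W.toAffine.Nonsingular x₂ y₂),
      Point.some x y h + Point.some x y h = Point.some x₂ y₂ h₂ ∧
      x₂ * (2 * y) ^ 2 = (x ^ 2 - W.a₄) ^ 2 := by
  have hne : ¬(x = x ∧ y = -y) := by
    rintro ⟨-, e⟩
    apply hy
    have e' : 2 * y = 0 := by linear_combination e
    exact (mul_eq_zero.mp e').resolve_left h2
  obtain ⟨ℓ, n, x₃, y₃, h₃, hadd, e1, -, -, -, e5, e6⟩ := hW.add_collinear h h hne
  have e := (hW.equation_iff x y).mp h.1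
  have hx0 : x ≠ 0 := by
    rintro rfl
    apply hy
    have e' : y ^ 2 = 0 := by rw [e]; ring
    exact pow_eq_zero_iff (two_ne_zero) |>.mp e'
  refine ⟨x₃, y₃, h₃, hadd, ?_⟩
  have key : x * (x ^ 2 - W.a₄) = -2 * n * y := by
    linear_combination x * e5 - 2 * e6 + 2 * n * e1
  apply mul_left_cancel₀ (pow_ne_zero 2 hx0)
  linear_combination 4 * y ^ 2 * e6 - (x * (x ^ 2 - W.a₄) + (-2 * n * y)) * key

/-- a point with `v x = 1`, `v y < 1` (reducing to the point of order two of the smooth locus):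
`2 P` lies in the kernel of reduction -/
theorem w1m6_two_E1 (hW : Shape W) (hC : v W.a₄ < 1) (h2 : v (2 : K) = 1) {x y : K}
    (h : W.toAffine.Nonsingular x y) (hx : v x = 1) (hy : v y < 1) :
    InE1 v (Point.some x y h + Point.some x y h) := by
  have h2' : (2 : K) ≠ 0 := by
    intro e; rw [e, _root_.map_zero] at h2; exact zero_ne_one h2
  by_cases hy0 : y = 0
  · have e : Point.some x y h + Point.some x y h = 0 := by
      apply Point.add_self_of_Y_eq
      rw [hW.negY, hy0, _root_.neg_zero]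
    rw [e]
    trivial
  obtain ⟨x₂, y₂, h₂, hadd, hform⟩ := w1m6_double hW h2' h hy0
  rw [hadd]
  show 1 < v x₂
  have hnum : v ((x ^ 2 - W.a₄) ^ 2) = 1 := by
    have e1 : v (x ^ 2 - W.a₄) = 1 := by
      have e2 : v (x ^ 2) = 1 := by rw [map_pow, hx, one_pow]
      rw [Valuation.map_sub_eq_of_lt_left v (by rw [e2]; exact hC), e2]
    rw [map_pow, e1, one_pow]
  have hden : v ((2 * y) ^ 2) < 1 := by
    rw [map_pow, map_mul, h2, one_mul]
    exact pow_lt_one₀ zero_le hy (by norm_num)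
  have hv := congrArg v hform
  rw [map_mul, hnum] at hv
  by_contra hle
  rw [not_lt] at hle
  have : v x₂ * v ((2 * y) ^ 2) < 1 :=
    lt_of_le_of_lt (mul_le_of_le_one_left zero_le hle) hden
  rw [hv] at this
  exact lt_irrefl _ this

/-- a point with `v x ≤ v C < 1`: `2 P` has `1 ≤ v x(2P)` (or is zero) -/
theorem w1m6_two_E0 (hW : Shape W) (hB : v W.a₂ ≤ 1) (hC : v W.a₄ < 1) (hC0 : W.a₄ ≠ 0)
    (h2 : v (2 : K) = 1) {x y : K}
    (h : W.toAffine.Nonsingular x y) (hx : v x ≤ v W.a₄) :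
    InE0 v (Point.some x y h + Point.some x y h) := by
  have h2' : (2 : K) ≠ 0 := by
    intro e; rw [e, _root_.map_zero] at h2; exact zero_ne_one h2
  by_cases hy0 : y = 0
  · have e : Point.some x y h + Point.some x y h = 0 := by
      apply Point.add_self_of_Y_eq
      rw [hW.negY, hy0, _root_.neg_zero]
    rw [e]
    trivial
  obtain ⟨x₂, y₂, h₂, hadd, hform⟩ := w1m6_double hW h2' h hy0
  rw [hadd]
  show 1 ≤ v x₂
  have e := (hW.equation_iff x y).mp h.1
  have hC0' : 0 < v W.a₄ := zero_lt_iff.mpr ((v.ne_zero_iff).mpr hC0)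
  have hx1 : v x < 1 := lt_of_le_of_lt hx hC
  have hxx : v (x ^ 2) < v W.a₄ := by
    rw [map_pow, pow_two]
    calc v x * v x ≤ v W.a₄ * v x := mul_le_mul_of_nonneg_right hx zero_le
      _ < v W.a₄ * 1 := mul_lt_mul_of_pos_left hx1 hC0'
      _ = v W.a₄ := mul_one _
  have hnum : v ((x ^ 2 - W.a₄) ^ 2) = v W.a₄ ^ 2 := by
    have e1 : v (x ^ 2 - W.a₄) = v W.a₄ := by
      rw [Valuation.map_sub_eq_of_lt_right v hxx]
    rw [map_pow, e1]
  have hden : v ((2 * y) ^ 2) ≤ v W.a₄ ^ 2 := by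
    have e3 : (2 * y) ^ 2 = 4 * (x * (x ^ 2 + W.a₂ * x + W.a₄)) := by
      linear_combination 4 * e
    have h4 : v (4 : K) = 1 := by
      have : (4 : K) = 2 * 2 := by norm_num
      rw [this, map_mul, h2, one_mul]
    have h5 : v (x ^ 2 + W.a₂ * x + W.a₄) ≤ v W.a₄ := by
      refine le_trans (v.map_add _ _) (max_le (le_trans (v.map_add _ _) (max_le hxx.le ?_)) le_rfl)
      rw [map_mul]
      calc v W.a₂ * v x ≤ 1 * v x := mul_le_mul_of_nonneg_right hB zero_le
        _ = v x := one_mul _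
        _ ≤ v W.a₄ := hx
    rw [e3, map_mul, h4, one_mul, map_mul]
    calc v x * v (x ^ 2 + W.a₂ * x + W.a₄) ≤ v W.a₄ * v W.a₄ := mul_le_mul' hx h5
      _ = v W.a₄ ^ 2 := (pow_two _).symm
  have hden0 : v ((2 * y) ^ 2) ≠ 0 := by
    rw [Valuation.ne_zero_iff]
    exact pow_ne_zero 2 (mul_ne_zero h2' hy0)
  have hv := congrArg v hform
  rw [map_mul, hnum] at hv
  by_contra hlt
  rw [not_le] at hlt
  have h6 : v x₂ * v ((2 * y) ^ 2) < 1 * v ((2 * y) ^ 2) :=
    mul_lt_mul_of_pos_right hlt (zero_lt_iff.mpr hden0)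
  rw [one_mul, hv] at h6
  exact absurd hden (not_le.mpr h6)

/-- a point of odd order `2 m + 1` with `2 P` in the kernel of reduction lies in the kernel of
reduction -/
theorem w1m6_odd (hW : Shape W) (hB : v W.a₂ ≤ 1) (hC : v W.a₄ ≤ 1) (h2 : (2 : K) ≠ 0)
    (m : ℕ) {P : W.toAffine.Point} (hP : (2 * m + 1) • P = 0) (h : InE1 v (P + P)) :
    InE1 v P := by
  have key : ∀ n : ℕ, InE1 v (n • (P + P)) := by
    intro n
    induction n with
    | zero => rw [zero_smul]; trivial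
    | succ n ih =>
      rw [succ_nsmul]
      exact InE1_add v hW hB hC h2 ih h
  have e : (m + 1) • (P + P) = P := by
    have e1 : (m + 1) • (P + P) = (2 * m + 1) • P + P := by
      rw [← two_nsmul, smul_smul, ← succ_nsmul]
      congr 1
      ring
    rw [e1, hP, zero_add]
  have := key (m + 1)
  rwa [e] at this

/-- recovering a point of odd order from its double -/
theorem w1m6_half {G : Type*} [AddCommGroup G] (m : ℕ) {R : G} (hR : (2 * m + 1) • R = 0) :
    (m + 1) • (R + R) = R := by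
  have e1 : (m + 1) • (R + R) = (2 * m + 1) • R + R := by
    rw [← two_nsmul, smul_smul, ← succ_nsmul]
    congr 1
    ring
  rw [e1, hR, zero_add]

end Abstract

section Concrete

open Fermat.Agent.S33lib Fermat.Agent.S58lib Fermat.Agent.S41lib Fermat.Agent Fermat.Agent.S05lib
  Fermat.Agent.S05wire IsLocalRing

variable (W : WeierstrassCurve ℤ) {p : ℕ} (hp : p.Prime) (hp2 : p ≠ 2)
  (B : ValuationSubring (AlgebraicClosure ℚ)) (hB : B.LiesOverPrime p)

theorem w1m6_a2 : (ssnE W).a₂ = ((W.a₂ : ℤ) : AlgebraicClosure ℚ) := by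
  show ((W.map (Int.castRingHom ℚ)).baseChange (AlgebraicClosure ℚ)).a₂ = _
  rw [ner_baseChange_eq, map_a₂, eq_intCast]

theorem w1m6_a4 : (ssnE W).a₄ = ((W.a₄ : ℤ) : AlgebraicClosure ℚ) := by
  show ((W.map (Int.castRingHom ℚ)).baseChange (AlgebraicClosure ℚ)).a₄ = _
  rw [ner_baseChange_eq, map_a₄, eq_intCast]

theorem w1m6_shape (h1 : W.a₁ = 0) (h3 : W.a₃ = 0) (h6 : W.a₆ = 0) : Shape (ssnE W) := by
  refine ⟨?_, ?_, ?_⟩
  · show ((W.map (Int.castRingHom ℚ)).baseChange (AlgebraicClosure ℚ)).a₁ = 0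
    rw [ner_baseChange_eq, map_a₁, h1, _root_.map_zero]
  · show ((W.map (Int.castRingHom ℚ)).baseChange (AlgebraicClosure ℚ)).a₃ = 0
    rw [ner_baseChange_eq, map_a₃, h3, _root_.map_zero]
  · show ((W.map (Int.castRingHom ℚ)).baseChange (AlgebraicClosure ℚ)).a₆ = 0
    rw [ner_baseChange_eq, map_a₆, h6, _root_.map_zero]

include hp hp2 hB in
theorem w1m6_v2 : B.valuation (2 : AlgebraicClosure ℚ) = 1 := by
  have hp2' : ¬ (p : ℤ) ∣ 2 := by
    intro h
    have h' : p ∣ 2 := by exact_mod_cast h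
    exact hp2 ((Nat.prime_dvd_prime_iff_eq hp Nat.prime_two).mp h')
  have := val_intCast_eq_one B hp hB hp2'
  simpa using this

/-- the Galois action commutes with multiples -/
theorem w1m6_smul_nsmul (σ : AlgebraicClosure ℚ ≃ₐ[ℚ] AlgebraicClosure ℚ) (n : ℕ)
    (R : (ssnE W).Point) : σ • (n • R) = n • (σ • R) := by
  have := map_nsmul (DistribSMul.toAddMonoidHom (ssnE W).Point σ) n R
  rw [DistribSMul.toAddMonoidHom_apply, DistribSMul.toAddMonoidHom_apply] at this
  exact this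

include hp hp2 hB in
/-- `eok_main_zeta` for `Q = σ R - R` -/
theorem w1m6_zeta (hΔ : W.Δ ≠ 0) (σ : AlgebraicClosure ℚ ≃ₐ[ℚ] AlgebraicClosure ℚ)
    {R : (ssnE W).Point} (hR : p • R = 0) {xQ yQ : AlgebraicClosure ℚ}
    (hQ : (ssnE W).Nonsingular xQ yQ) (hsub : σ • R - R = Point.some xQ yQ hQ)
    (hxQ : 1 < B.valuation xQ) {ζ : AlgebraicClosure ℚ} (hζ : IsPrimitiveRoot ζ p) :
    B.valuation (ζ - 1) ≤ B.valuation (xQ / yQ) := by
  have hpQ : p • (Point.some xQ yQ hQ : (ssnE W).Point) = 0 := by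
    rw [← hsub, nsmul_sub, hR, sub_zero, ← w1m6_smul_nsmul, hR]
    rfl
  have hxQB : xQ ∉ B := fun hmem =>
    absurd ((B.valuation_le_one_iff _).mpr hmem) (not_le.mpr hxQ)
  have hEll : ((W.map (Int.castRingHom ℚ)).baseChange (AlgebraicClosure ℚ)).IsElliptic :=
    h2_isElliptic W hΔ
  exact w1o_zeta B W ((W.map (Int.castRingHom ℚ)).baseChange (AlgebraicClosure ℚ))
    (ner_baseChange_eq W) hp hp2 hB hζ hQ hpQ hxQB

include hp hp2 hB in
/-- **(Ca)** depth estimate for a `p`-torsion point with `v x = 1` -/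
theorem w1m6_unit (hΔ : W.Δ ≠ 0) (h1 : W.a₁ = 0) (h3 : W.a₃ = 0) (h6 : W.a₆ = 0)
    (hn4 : (p : ℤ) ∣ W.a₄)
    (σ : AlgebraicClosure ℚ ≃ₐ[ℚ] AlgebraicClosure ℚ) (hσ : σ ∈ B.inertiaSubgroupIn ℚ)
    {x y : AlgebraicClosure ℚ} (h : (ssnE W).Nonsingular x y)
    (hP : p • (Point.some x y h : (ssnE W).Point) = 0)
    (hx : B.valuation x = 1)
    (hne : σ • (Point.some x y h : (ssnE W).Point) ≠ Point.some x y h)
    {ζ : AlgebraicClosure ℚ} (hζ : IsPrimitiveRoot ζ p) :
    B.valuation (ζ - 1) ≤ B.valuation (σ x - x) := by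
  obtain ⟨m, hm, hpm⟩ : ∃ m, 1 ≤ m ∧ p = 2 * m + 1 := by
    rcases hp.eq_two_or_odd' with e | ⟨m, hm⟩
    · exact absurd e hp2
    · refine ⟨m, ?_, hm⟩
      have := hp.two_le
      omega
  have hW : Shape (ssnE W) := w1m6_shape W h1 h3 h6
  have v2 := w1m6_v2 hp hp2 B hB
  have h2' : (2 : AlgebraicClosure ℚ) ≠ 0 := two_ne_zero
  have hC1 : B.valuation (ssnE W).a₄ < 1 := by
    rw [w1m6_a4]
    exact val_intCast_lt_one B hB hn4
  obtain ⟨ha1, ha2, ha3, ha4, ha6⟩ := eoa_coeff_le B W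
  have hxB : x ∈ B := (B.valuation_le_one_iff x).mp hx.le
  have hyB : y ∈ B := w1o_y_mem W B h hxB
  have hvy : B.valuation y ≤ 1 := (B.valuation_le_one_iff y).mpr hyB
  have hy1 : B.valuation y = 1 := by
    by_contra hne1
    have hlt : B.valuation y < 1 := lt_of_le_of_ne hvy hne1
    have hE1 := w1m6_two_E1 B.valuation hW hC1 v2 h hx hlt
    have hP' : (2 * m + 1) • (Point.some x y h : (ssnE W).Point) = 0 := hpm ▸ hP
    have h3' := w1m6_odd B.valuation hW ha2 ha4 h2' m hP' hE1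
    have h4 : 1 < B.valuation x := h3'
    rw [hx] at h4
    exact lt_irrefl _ h4
  have hd : B.valuation (y - (ssnE W).negY x y) = 1 := by
    have e0 : (ssnE W).negY x y = -y := hW.negY x y
    have e : y - -y = 2 * y := by ring
    rw [e0, e, map_mul, v2, one_mul, hy1]
  have hσI : IsInertial B.valuation
      ((σ : AlgebraicClosure ℚ ≃ₐ[ℚ] AlgebraicClosure ℚ) :
        AlgebraicClosure ℚ →+* AlgebraicClosure ℚ) :=
    isInertial_of_mem_inertiaSubgroupIn B hσ
  have hxx : B.valuation (σ x - x) < 1 := hσI.sub_lt x hx.le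
  have hyy : B.valuation (σ y - y) < 1 := hσI.sub_lt y hvy
  have hns' : ((W.map (Int.castRingHom ℚ)).toAffine⁄(AlgebraicClosure ℚ)).Nonsingular
      (σ x) (σ y) :=
    (WeierstrassCurve.Affine.baseChange_nonsingular (W.map (Int.castRingHom ℚ)).toAffine
      σ.toAlgHom.injective ..).mpr h
  have e1 : σ • (Point.some x y h :
      ((W.map (Int.castRingHom ℚ)).toAffine⁄(AlgebraicClosure ℚ)).Point)
      = Point.some (σ x) (σ y) hns' := rfl
  have hne' : (Point.some (σ x) (σ y) hns' :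
      ((W.map (Int.castRingHom ℚ)).toAffine⁄(AlgebraicClosure ℚ)).Point) ≠ Point.some x y h := by
    rw [← e1]; exact hne
  obtain ⟨xQ, yQ, hQ, hsub, hval⟩ := eoa_sub_val B.valuation
    ((W.map (Int.castRingHom ℚ)).toAffine⁄(AlgebraicClosure ℚ)) ha1 ha2 h hns' hx.le hxx hyy hd hne'
  have hd0 : B.valuation (σ x - x) ≠ 0 := by
    intro e0
    rw [e0] at hval
    simp at hval
  have hdpos : 0 < B.valuation (σ x - x) := zero_lt_iff.mpr hd0
  have hsq : B.valuation (σ x - x) ^ 2 < 1 := pow_lt_one₀ hdpos.le hxx (by norm_num)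
  have hxQ : B.valuation xQ = (B.valuation (σ x - x) ^ 2)⁻¹ :=
    eq_inv_of_mul_eq_one_left hval
  have hxQ1 : 1 < B.valuation xQ := by
    rw [hxQ]
    exact (one_lt_inv₀ (pow_pos hdpos 2)).mpr hsq
  obtain ⟨hyQ0, hz⟩ := eoa_val_z B.valuation
    ((W.map (Int.castRingHom ℚ)).toAffine⁄(AlgebraicClosure ℚ)) ha1 ha2 ha3 ha4 ha6 hQ.1 hxQ1
  have hvz : B.valuation (xQ / yQ) = B.valuation (σ x - x) := by
    have h2 : B.valuation (xQ / yQ) ^ 2 = B.valuation (σ x - x) ^ 2 := by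
      have hxQ0 : B.valuation xQ ≠ 0 := ne_of_gt (lt_trans zero_lt_one hxQ1)
      have := hz
      rw [mul_comm] at this
      have h3 : B.valuation xQ * B.valuation (xQ / yQ) ^ 2
          = B.valuation xQ * B.valuation (σ x - x) ^ 2 := by rw [this, hval]
      exact mul_left_cancel₀ hxQ0 h3
    exact (pow_left_inj₀ zero_le zero_le (by norm_num : (2 : ℕ) ≠ 0)).mp h2
  rw [← hvz]
  refine w1m6_zeta W hp hp2 B hB hΔ σ hP hQ ?_ hxQ1 hζ
  rw [e1]
  exact hsub

include hp hp2 hB in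
/-- **(M6)** the stabiliser of an integral point of `W[p]` is peu ramifié (depth form), for the
integral shape curve `W` with multiplicative reduction at `p` (node at the origin) and
`n₄² = w ^ p` -/
theorem w1m6_peuB (hΔ : W.Δ ≠ 0) (h1 : W.a₁ = 0) (h3 : W.a₃ = 0) (h6 : W.a₆ = 0)
    (hn2 : ¬ (p : ℤ) ∣ W.a₂) (hn4 : (p : ℤ) ∣ W.a₄) (hn40 : W.a₄ ≠ 0)
    (w : ℤ) (hw : w ^ p = W.a₄ ^ 2)
    (P : S40hWp W p) (hP : w1oInt W B (P : (ssnE W).Point)) :
    S40hPeuB p B (S40hStab P) := by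
  by_cases hI : S40hI1 p B ⊆ S40hStab P
  · exact Or.inl hI
  right
  obtain ⟨σ, hσ1, hσP⟩ := Set.not_subset.mp hI
  have hσ : σ ∈ B.inertiaSubgroupIn ℚ := hσ1.1
  have hfix : σ • P ≠ P := hσP
  have hPt := rh_nsmul_of_mem W P
  have hne : σ • (P : (ssnE W).Point) ≠ (P : (ssnE W).Point) := fun h => hfix (Subtype.ext h)
  have hNZ : NeZero p := ⟨hp.ne_zero⟩
  obtain ⟨ζ, hζ⟩ := HasEnoughRootsOfUnity.exists_primitiveRoot (AlgebraicClosure ℚ) p
  suffices hmain : ∃ t : AlgebraicClosure ℚ, t ∈ B ∧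
      (∀ τ : AlgebraicClosure ℚ ≃ₐ[ℚ] AlgebraicClosure ℚ,
        τ • (P : (ssnE W).Point) = (P : (ssnE W).Point) → τ t = t) ∧
      B.valuation (ζ - 1) ≤ B.valuation (σ t - t) by
    obtain ⟨t, ht, hfixt, hval⟩ := hmain
    refine ⟨t, ht, ?_, σ, hσ1, ζ, hζ, hval⟩
    intro τ _ hτ
    have h1' : τ • P = P := hτ
    exact hfixt τ (congrArg Subtype.val h1')
  obtain ⟨m, hm, hpm⟩ : ∃ m, 1 ≤ m ∧ p = 2 * m + 1 := by
    rcases hp.eq_two_or_odd' with e | ⟨m, hm⟩
    · exact absurd e hp2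
    · refine ⟨m, ?_, hm⟩
      have := hp.two_le
      omega
  rcases hPc : (P : (ssnE W).Point) with _ | ⟨x, y, h⟩
  · rw [hPc] at hP
    exact absurd hP (w1oInt_zero W B)
  rw [hPc] at hP hPt hne
  have hx : x ∈ B := hP
  have hvx : B.valuation x ≤ 1 := (B.valuation_le_one_iff x).mpr hx
  -- the facts
  have hW : Shape (ssnE W) := w1m6_shape W h1 h3 h6
  have v2 := w1m6_v2 hp hp2 B hB
  have h2' : (2 : AlgebraicClosure ℚ) ≠ 0 := two_ne_zero
  have hB1 : B.valuation (ssnE W).a₂ = 1 := by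
    rw [w1m6_a2]
    exact val_intCast_eq_one B hp hB hn2
  have hC1 : B.valuation (ssnE W).a₄ < 1 := by
    rw [w1m6_a4]
    exact val_intCast_lt_one B hB hn4
  have hC0 : (ssnE W).a₄ ≠ 0 := by
    rw [w1m6_a4]
    exact_mod_cast hn40
  have hP' : (2 * m + 1) • (Point.some x y h : (ssnE W).Point) = 0 := hpm ▸ hPt
  rcases lt_or_eq_of_le hvx with hx1 | hx1
  swap
  · -- (Ca) `v x = 1`
    refine ⟨x, hx, ?_, w1m6_unit W hp hp2 B hB hΔ h1 h3 h6 hn4 σ hσ h hPt hx1 hne hζ⟩
    intro τ hτ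
    exact congrArg (ssnX W) hτ
  by_cases hxC : B.valuation (ssnE W).a₄ < B.valuation x
  · -- (Cc) near the node
    have hx0 : x ≠ 0 := by
      rintro rfl
      rw [_root_.map_zero] at hxC
      exact not_lt_zero hxC
    have hvx0 : B.valuation x ≠ 0 := (B.valuation.ne_zero_iff).mpr hx0
    have e := (hW.equation_iff x y).mp h.1
    obtain ⟨β, hβ⟩ : ∃ β : AlgebraicClosure ℚ, β ^ 2 = (ssnE W).a₂ :=
      IsAlgClosed.exists_pow_nat_eq _ (by norm_num)
    have hprod : B.valuation ((y / x - β) * (y / x + β)) < 1 := by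
      have e' : (y / x - β) * (y / x + β) = x + (ssnE W).a₄ / x := by
        field_simp
        linear_combination e - x ^ 2 * hβ
      rw [e']
      apply B.valuation.map_add_lt hx1
      rw [map_div₀]
      exact (div_lt_one₀ (zero_lt_iff.mpr hvx0)).mpr hxC
    obtain ⟨β', hβ', hs⟩ : ∃ β' : AlgebraicClosure ℚ, β' ^ 2 = (ssnE W).a₂ ∧
        B.valuation (y / x - β') < 1 := by
      by_cases h1c : B.valuation (y / x - β) < 1
      · exact ⟨β, hβ, h1c⟩
      · refine ⟨-β, by rw [neg_sq, hβ], ?_⟩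
        rw [sub_neg_eq_add]
        by_contra h2c
        rw [not_lt] at h1c h2c
        rw [map_mul] at hprod
        exact absurd hprod (not_lt.mpr (one_le_mul_of_one_le_of_one_le h1c h2c))
    obtain ⟨k, hk⟩ := comp_torsion B.valuation hW hB1 hC1 hC0 v2 hβ' h hxC hx1 hs hPt
    have hϖ : B.valuation ((w : ℤ) : AlgebraicClosure ℚ) ^ p
        = B.valuation (ssnE W).a₄ ^ 2 := by
      rw [w1m6_a4, ← map_pow, ← map_pow]
      congr 1
      exact_mod_cast congrArg (Int.cast : ℤ → AlgebraicClosure ℚ) hw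
    have hρ : B.valuation (((w : ℤ) : AlgebraicClosure ℚ) ^ k) = B.valuation x := by
      apply pow_left_inj_of_ne_zero hp.ne_zero
      rw [hk, map_zpow₀, ← zpow_natCast (B.valuation ((w : ℤ) : AlgebraicClosure ℚ) ^ k) p,
        ← zpow_mul, mul_comm k (p : ℤ), zpow_mul, zpow_natCast, hϖ,
        ← zpow_natCast (B.valuation (ssnE W).a₄) 2, ← zpow_mul]
      norm_num
    have hσI : IsInertial B.valuation
        ((σ : AlgebraicClosure ℚ ≃ₐ[ℚ] AlgebraicClosure ℚ) :
          AlgebraicClosure ℚ →+* AlgebraicClosure ℚ) :=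
      isInertial_of_mem_inertiaSubgroupIn B hσ
    have hφ : ∀ (x y : AlgebraicClosure ℚ)
        (h : ((W.map (Int.castRingHom ℚ)).baseChange (AlgebraicClosure ℚ)).toAffine.Nonsingular
          x y),
        ∃ h' : ((W.map (Int.castRingHom ℚ)).baseChange (AlgebraicClosure ℚ)).toAffine.Nonsingular
          (((σ : AlgebraicClosure ℚ ≃ₐ[ℚ] AlgebraicClosure ℚ) :
            AlgebraicClosure ℚ →+* AlgebraicClosure ℚ) x)
          (((σ : AlgebraicClosure ℚ ≃ₐ[ℚ] AlgebraicClosure ℚ) :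
            AlgebraicClosure ℚ →+* AlgebraicClosure ℚ) y),
          Point.map (W' := (W.map (Int.castRingHom ℚ)).toAffine) σ.toAlgHom (Point.some x y h) =
            Point.some _ _ h' := by
      intro x y h
      exact ⟨_, Point.map_some (W' := (W.map (Int.castRingHom ℚ)).toAffine) σ.toAlgHom h⟩
    have hσc : ((σ : AlgebraicClosure ℚ ≃ₐ[ℚ] AlgebraicClosure ℚ) :
        AlgebraicClosure ℚ →+* AlgebraicClosure ℚ) (((w : ℤ) : AlgebraicClosure ℚ) ^ k)
        = ((w : ℤ) : AlgebraicClosure ℚ) ^ k := by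
      rw [map_zpow₀, map_intCast]
    obtain ⟨xQ, yQ, hQ, hsub, hxQ, hyQ, hval, hunit⟩ := w1ma_depth B.valuation hW hB1 hC1.le v2
      ((σ : AlgebraicClosure ℚ ≃ₐ[ℚ] AlgebraicClosure ℚ) :
        AlgebraicClosure ℚ →+* AlgebraicClosure ℚ) hσI
      (Point.map (W' := (W.map (Int.castRingHom ℚ)).toAffine) σ.toAlgHom) hφ h hxC hx1
      (((w : ℤ) : AlgebraicClosure ℚ) ^ k) hσc hρ hne
    have hval' : B.valuation (xQ / yQ)
        = B.valuation (σ (x / ((w : ℤ) : AlgebraicClosure ℚ) ^ k)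
          - x / ((w : ℤ) : AlgebraicClosure ℚ) ^ k) := hval
    refine ⟨x / ((w : ℤ) : AlgebraicClosure ℚ) ^ k, (B.valuation_le_one_iff _).mp hunit.le, ?_, ?_⟩
    · intro τ hτ
      have hτx : τ x = x := congrArg (ssnX W) hτ
      rw [map_div₀, map_zpow₀, hτx, map_intCast]
    · rw [← hval']
      exact w1m6_zeta W hp hp2 B hB hΔ σ hPt hQ hsub hxQ hζ
  · -- (Cb) `v x ≤ v n₄`: pass to `2 P`
    rw [not_lt] at hxC
    have hE0 := w1m6_two_E0 B.valuation hW hB1.le hC1 hC0 v2 h hxC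
    have hnotE1 : ¬ InE1 B.valuation
        (Point.some x y h + Point.some x y h : (ssnE W).Point) := by
      intro hE1
      have h3' := w1m6_odd B.valuation hW hB1.le hC1.le h2' m hP' hE1
      have h4 : 1 < B.valuation x := h3'
      exact absurd hvx (not_le.mpr h4)
    rcases h2P : (Point.some x y h + Point.some x y h : (ssnE W).Point) with _ | ⟨x₂, y₂, h₂⟩
    · rw [h2P] at hnotE1
      exact absurd trivial hnotE1
    rw [h2P] at hE0 hnotE1
    have h1le : 1 ≤ B.valuation x₂ := hE0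
    have hx2 : B.valuation x₂ = 1 := le_antisymm (not_lt.mp hnotE1) h1le
    have hP2 : p • (Point.some x₂ y₂ h₂ : (ssnE W).Point) = 0 := by
      rw [← h2P, nsmul_add, hPt, add_zero]
    have hhalf : (m + 1) • (Point.some x₂ y₂ h₂ : (ssnE W).Point) = Point.some x y h := by
      rw [← h2P]
      exact w1m6_half m hP'
    have hne2 : σ • (Point.some x₂ y₂ h₂ : (ssnE W).Point) ≠ Point.some x₂ y₂ h₂ := by
      intro hfix2
      apply hne
      rw [← hhalf, w1m6_smul_nsmul, hfix2]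
    refine ⟨x₂, (B.valuation_le_one_iff _).mp hx2.le, ?_,
      w1m6_unit W hp hp2 B hB hΔ h1 h3 h6 hn4 σ hσ h₂ hP2 hx2 hne2 hζ⟩
    intro τ hτ
    have h5 : τ • (Point.some x₂ y₂ h₂ : (ssnE W).Point) = Point.some x₂ y₂ h₂ := by
      rw [← h2P, ← two_nsmul, w1m6_smul_nsmul, hτ]
    exact congrArg (ssnX W) h5

end Concrete

end Fermat.Agent.S40lib
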