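import Mathlib
import Fermat.Agent.S36lib.Speed
import Fermat.Agent.S40lib.SSShape2

/-!
# Item 88 (row 38 via S44), block (W1-mult), piece (M4) (helper27): a `p`-torsion point with
integral `x`-coordinate on an integral Weierstrass curve whose reduction has its singular point
at `x = 0`

`W : WeierstrassCurve ℤ` with `p ∣ b₆` and `p ∣ b₈` (e.g. the shape curve
`Y² = X³ + B₀ X² + C₀ X` with `p ∣ C₀`: `b₆ = 0`, `b₈ = -C₀²`).

* `w1mp_eval_LG`, `w1mp_eval_torsPoly` : over a ring with `b₆ = b₈ = 0` the ladder polynomials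
  `G_n` (`n ≥ 2`) and the torsion polynomials `S_{2m+1}` (`m ≥ 1`) vanish at `0`
  (pure recurrence: doubling + differential addition);
* `w1mp_dvd_coeff_zero` : `p ∣ S_{2m+1}(0)` for the integral curve;
* `w1mp_not_hss` : NOT all roots of the `p`-torsion polynomial are non-integral at `B`
  (Newton: the leading coefficient is `-p`, the constant coefficient is divisible by `p`)
  = the negation of the hypothesis `hss` of the supersingular branch of `ssn_W1b`;
* `w1mp_exists_point` : a point `P ≠ 0` of `W[p]` with `x(P) ∈ B`;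
* `w1mp_W1` : `S40hW1 W p B PP` from the "ordinary" hypothesis `hord` alone (the statement of
  `ssn_W1b` with `p ∣ b₆`, `p ∣ b₈` instead of good reduction).
No determinant, no formal group, no hypothesis on `B`.
-/

set_option autoImplicit false
set_option linter.unusedSectionVars false
set_option linter.unusedVariables false

open Polynomial WeierstrassCurve WeierstrassCurve.Affine WeierstrassCurve.Affine.Point
open Fermat.Agent.Ladder Fermat.Agent.S24lib Fermat.Agent.S36lib Fermat.Agent.S33lib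
open Fermat.Agent.S31lib Fermat.Agent.GalRep

namespace Fermat.Agent.S40lib

/-! ### the recurrence at the singular point -/

section node

variable {R : Type*} [CommRing R] (E : WeierstrassCurve R)

theorem w1mp_eval_dblG (F G : R[X]) (hG : G.eval 0 = 0) : (dblG E F G).eval 0 = 0 := by
  simp [dblG, hG]

theorem w1mp_eval_LF_two (h8 : E.b₈ = 0) : (LF E 2).eval 0 = 0 := by
  have h := LF_even E 1 le_rfl
  rw [show 2 * 1 = 2 from rfl] at h
  rw [h]
  simp [dblF, h8]

theorem w1mp_eval_LG_two (h6 : E.b₆ = 0) : (LG E 2).eval 0 = 0 := by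
  have h := LG_even E 1 le_rfl
  rw [show 2 * 1 = 2 from rfl] at h
  rw [h]
  simp [dblG, h6]

/-- `G_n (0) = 0` for `n ≥ 2` -/
theorem w1mp_eval_LG (h6 : E.b₆ = 0) (h8 : E.b₈ = 0) (n : ℕ) (hn : 2 ≤ n) :
    (LG E n).eval 0 = 0 := by
  induction n using Nat.strong_induction_on with
  | _ n ih =>
    rcases Nat.even_or_odd' n with ⟨m, rfl | rfl⟩
    · -- `n = 2 m`
      have hm : 1 ≤ m := by omega
      rw [LG_even E m hm]
      rcases Nat.lt_or_ge m 2 with h | h
      · have hm1 : m = 1 := by omega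
        subst hm1
        simp [dblG, h6]
      · exact w1mp_eval_dblG E _ _ (ih m (by omega) h)
    · -- `n = 2 m + 1`
      have hm : 1 ≤ m := by omega
      rw [LG_odd E m hm, eval_pow]
      have : (torsPoly E m).eval 0 = 0 := by
        unfold torsPoly oddS
        rcases Nat.lt_or_ge m 2 with h | h
        · have hm1 : m = 1 := by omega
          subst hm1
          rw [eval_sub, eval_mul, eval_mul, w1mp_eval_LF_two E h8, LF_one, eval_X]
          simp
        · rw [eval_sub, eval_mul, eval_mul, ih m (by omega) h, ih (m + 1) (by omega) (by omega)]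
          simp
      rw [this]
      simp

/-- `S_{2m+1} (0) = 0` for `m ≥ 1` -/
theorem w1mp_eval_torsPoly (h6 : E.b₆ = 0) (h8 : E.b₈ = 0) (m : ℕ) (hm : 1 ≤ m) :
    (torsPoly E m).eval 0 = 0 := by
  unfold torsPoly oddS
  rcases Nat.lt_or_ge m 2 with h | h
  · have hm1 : m = 1 := by omega
    subst hm1
    rw [eval_sub, eval_mul, eval_mul, w1mp_eval_LF_two E h8, LF_one, eval_X]
    simp
  · rw [eval_sub, eval_mul, eval_mul, w1mp_eval_LG E h6 h8 m h,
      w1mp_eval_LG E h6 h8 (m + 1) (by omega)]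
    simp

end node

/-! ### the integral curve -/

section integral

variable (W : WeierstrassCurve ℤ)

/-- `p ∣ S_{2m+1}(0)` -/
theorem w1mp_dvd_coeff_zero (p : ℕ) (h6 : (p : ℤ) ∣ W.b₆) (h8 : (p : ℤ) ∣ W.b₈)
    (m : ℕ) (hm : 1 ≤ m) : (p : ℤ) ∣ (torsPoly W m).coeff 0 := by
  have h6' : (W.map (Int.castRingHom (ZMod p))).b₆ = 0 := by
    rw [WeierstrassCurve.map_b₆]
    exact (ZMod.intCast_zmod_eq_zero_iff_dvd _ _).mpr h6
  have h8' : (W.map (Int.castRingHom (ZMod p))).b₈ = 0 := by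
    rw [WeierstrassCurve.map_b₈]
    exact (ZMod.intCast_zmod_eq_zero_iff_dvd _ _).mpr h8
  have h := w1mp_eval_torsPoly (W.map (Int.castRingHom (ZMod p))) h6' h8' m hm
  rw [map_torsPoly, ← coeff_zero_eq_eval_zero, coeff_map] at h
  exact (ZMod.intCast_zmod_eq_zero_iff_dvd _ _).mp h

end integral

/-! ### Newton: not all roots are non-integral -/

section newton

open Fermat.Agent.S24lib

variable (W : WeierstrassCurve ℤ) (B : ValuationSubring (AlgebraicClosure ℚ))

/-- **(M4)**: if `p ∣ b₆` and `p ∣ b₈` (the singular point of the reduction is at `x = 0`) then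
NOT all roots of the `p`-torsion polynomial are non-integral at `B`. -/
theorem w1mp_not_hss (p : ℕ) (hp : p.Prime) (h6 : (p : ℤ) ∣ W.b₆) (h8 : (p : ℤ) ∣ W.b₈)
    (m : ℕ) (hm : 1 ≤ m) (hpm : p = 2 * m + 1) :
    ¬ ∀ x : AlgebraicClosure ℚ,
      ((torsPoly W m).map (algebraMap ℤ (AlgebraicClosure ℚ))).eval x = 0 → x ∉ B := by
  intro hss
  have htop := top_torsPoly W m hm
  have hco : (torsPoly W m).coeff (2 * m ^ 2 + 2 * m) = -(p : ℤ) := by
    rw [htop.co, hpm]
    push_cast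
    ring
  have hp0 : ((p : ℤ) : AlgebraicClosure ℚ) ≠ 0 := by
    exact_mod_cast hp.ne_zero
  have hS0 : (torsPoly W m).map (algebraMap ℤ (AlgebraicClosure ℚ)) ≠ 0 := by
    intro h0
    have := congrArg (fun q : (AlgebraicClosure ℚ)[X] => q.coeff (2 * m ^ 2 + 2 * m)) h0
    simp only [coeff_map, hco, coeff_zero, eq_intCast, Int.cast_neg, neg_eq_zero] at this
    exact hp0 this
  obtain ⟨Q, hQ, hfac⟩ := ssn_factor B _ hS0 hss
  have hd : 1 ≤ 2 * m ^ 2 + 2 * m := by nlinarith
  obtain ⟨c, hc⟩ := w1mp_dvd_coeff_zero W p h6 h8 m hm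
  have h1 : ((-(p : ℤ) : ℤ) : AlgebraicClosure ℚ)
      = (((p : ℤ) * c : ℤ) : AlgebraicClosure ℚ) * Q.coeff (2 * m ^ 2 + 2 * m) := by
    have e1 : ((torsPoly W m).map (algebraMap ℤ (AlgebraicClosure ℚ))).coeff (2 * m ^ 2 + 2 * m)
        = ((-(p : ℤ) : ℤ) : AlgebraicClosure ℚ) := by
      rw [coeff_map, hco, eq_intCast]
    have e0 : ((torsPoly W m).map (algebraMap ℤ (AlgebraicClosure ℚ))).coeff 0
        = (((p : ℤ) * c : ℤ) : AlgebraicClosure ℚ) := by
      rw [coeff_map, hc, eq_intCast]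
    rw [← e1, ← e0]
    conv_lhs => rw [hfac]
    rw [coeff_C_mul]
  have hv := congrArg B.valuation h1
  rw [Int.cast_neg, Valuation.map_neg, map_mul, Int.cast_mul, map_mul] at hv
  have hvp : 0 < B.valuation ((p : ℤ) : AlgebraicClosure ℚ) :=
    (Valuation.pos_iff _).mpr hp0
  have hvc : B.valuation ((c : ℤ) : AlgebraicClosure ℚ) ≤ 1 := by
    rw [B.valuation_le_one_iff]
    exact intCast_mem B c
  have hvQ := hQ.2 _ hd
  have hlt : B.valuation ((p : ℤ) : AlgebraicClosure ℚ) * B.valuation ((c : ℤ) : AlgebraicClosure ℚ)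
      * B.valuation (Q.coeff (2 * m ^ 2 + 2 * m)) < B.valuation ((p : ℤ) : AlgebraicClosure ℚ) := by
    calc B.valuation ((p : ℤ) : AlgebraicClosure ℚ) * B.valuation ((c : ℤ) : AlgebraicClosure ℚ)
          * B.valuation (Q.coeff (2 * m ^ 2 + 2 * m))
        ≤ B.valuation ((p : ℤ) : AlgebraicClosure ℚ) * 1
          * B.valuation (Q.coeff (2 * m ^ 2 + 2 * m)) :=
          mul_le_mul' (mul_le_mul' le_rfl hvc) le_rfl
      _ = B.valuation ((p : ℤ) : AlgebraicClosure ℚ)
          * B.valuation (Q.coeff (2 * m ^ 2 + 2 * m)) := by rw [mul_one]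
      _ < B.valuation ((p : ℤ) : AlgebraicClosure ℚ) * 1 :=
          (mul_lt_mul_iff_right₀ hvp).mpr hvQ
      _ = B.valuation ((p : ℤ) : AlgebraicClosure ℚ) := mul_one _
  rw [← hv] at hlt
  exact lt_irrefl _ hlt

/-- **(M4), point form**: a point `P ≠ 0` of `W[p]` with integral `x`-coordinate. -/
theorem w1mp_exists_point (p : ℕ) (hp : p.Prime) (hΔ : W.Δ ≠ 0)
    (h6 : (p : ℤ) ∣ W.b₆) (h8 : (p : ℤ) ∣ W.b₈) (m : ℕ) (hm : 1 ≤ m) (hpm : p = 2 * m + 1) :
    ∃ (x y : AlgebraicClosure ℚ) (h : (ssnE W).Nonsingular x y),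
      p • (Point.some x y h : (ssnE W).Point) = 0 ∧ x ∈ B :=
  ssn_ord_point W p hΔ B m hm hpm (w1mp_not_hss W B p hp h6 h8 m hm hpm)

/-- **(W1) for a curve whose reduction is singular at `x = 0`, from the "ordinary" case**: the
statement of `ssn_W1b` with `p ∣ b₆`, `p ∣ b₈` instead of good reduction (the supersingular
branch does not occur). -/
theorem w1mp_W1 (p : ℕ) (hp : p.Prime) (hp2 : p ≠ 2) (hΔ : W.Δ ≠ 0)
    (h6 : (p : ℤ) ∣ W.b₆) (h8 : (p : ℤ) ∣ W.b₈)
    (PP : Set (AlgebraicClosure ℚ ≃ₐ[ℚ] AlgebraicClosure ℚ) → Prop)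
    (hord : ∀ (x y : AlgebraicClosure ℚ) (h : (ssnE W).Nonsingular x y),
      p • (Point.some x y h : (ssnE W).Point) = 0 → x ∈ B →
      ∃ P : S40hWp W p, P ≠ 0 ∧
        (∃ τ₀ ∈ B.inertiaSubgroupIn ℚ, S33hMoves p τ₀ ∧ τ₀ • P = P) ∧ PP (S40hStab P)) :
    S40hW1 W p B PP := by
  obtain ⟨m, hpm⟩ : ∃ m, p = 2 * m + 1 := by
    rcases hp.eq_two_or_odd with h | h
    · exact absurd h hp2
    · exact ⟨p / 2, by omega⟩
  have hm : 1 ≤ m := by
    have := hp.two_le
    omega
  obtain ⟨x, y, h, hP, hxB⟩ := w1mp_exists_point W B p hp hΔ h6 h8 m hm hpm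
  exact Or.inr (hord x y h hP hxB)

end newton

end Fermat.Agent.S40lib
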