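/-
Item 88 / S44, block (W1-mult), piece (M2) (helper16).

`w1ms_sub_mem_E1`: the abstract theorem `S05lib.unramified_of_shape` WITHOUT its last step
(`E1_torsion_free`, which needs `v p = 1`): on `y² = x³ + B x² + C x` with good or
(node at the origin) multiplicative reduction with `v(C)² = v(ϖ)^p` for a `σ`-fixed `ϖ`,
an inertial `σ` moves every `p`-torsion point `P` only inside `E₁`:  `φ P − P ∈ E₁`.
No hypothesis on `v p`: valid at the residue characteristic `p` itself.
-/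
import Mathlib
import Fermat.Agent.S36lib.Speed
import Fermat.Agent.S05_Main

set_option autoImplicit false
set_option linter.unusedSectionVars false

namespace Fermat.Agent.S40lib

open WeierstrassCurve WeierstrassCurve.Affine Fermat.Agent.S05lib

variable {K : Type*} [Field K] [DecidableEq K]
  {Γ₀ : Type*} [LinearOrderedCommGroupWithZero Γ₀]

/-- **(M2), abstract**: `φ P − P ∈ E₁` for every `p`-torsion point `P` and every inertial `σ`
(inducing `φ`), on a curve of shape `y² = x³ + B x² + C x` with good reduction, or with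
multiplicative reduction (node at the origin) and `v(C)² = v(ϖ)^p`, `σ ϖ = ϖ`.
Nothing is assumed about `v p`. -/
theorem w1ms_sub_mem_E1 [IsAlgClosed K] (v : Valuation K Γ₀)
    {W : WeierstrassCurve K} (hW : Shape W)
    (hB : v W.a₂ ≤ 1) (hC : v W.a₄ ≤ 1)
    (h2 : v (2 : K) = 1) {p : ℕ} (hp : p.Prime)
    (σ : K →+* K) (hσ : IsInertial v σ) (hσB : σ W.a₂ = W.a₂) (hσC : σ W.a₄ = W.a₄)
    (φ : W.toAffine.Point →+ W.toAffine.Point)
    (hφ : ∀ (x y : K) (h : W.toAffine.Nonsingular x y),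
      ∃ h' : W.toAffine.Nonsingular (σ x) (σ y), φ (Point.some x y h) = Point.some (σ x) (σ y) h')
    (hred : (v W.a₄ = 1 ∧ v (W.a₂ ^ 2 - 4 * W.a₄) = 1) ∨
      (v W.a₂ = 1 ∧ v W.a₄ < 1 ∧ W.a₄ ≠ 0 ∧ ∃ ϖ : K, σ ϖ = ϖ ∧ v ϖ ^ p = v W.a₄ ^ 2))
    (P : W.toAffine.Point) (hP : p • P = 0) : InE1 v (φ P - P) := by
  have h2' : (2 : K) ≠ 0 := by
    intro h; rw [h, map_zero] at h2; exact zero_ne_one h2
  -- key reduction: if `R` is `φ`-fixed and `P - R` has nonsingular reduction, then `φ P - P ∈ E₁`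
  have key : ∀ R : W.toAffine.Point, φ R = R → NonsingRed v (P - R) → InE1 v (φ P - P) := by
    intro R hR hns
    have h1 := inertial_sub_mem_E1 v hW hB hC h2 σ hσ hσB hσC φ hφ (P - R) hns
    have e : φ (P - R) - (P - R) = φ P - P := by rw [map_sub, hR]; abel
    rw [e] at h1
    exact h1
  rcases hred with ⟨hC1, hD⟩ | ⟨hB1, hC1, hC0, ϖ, hσϖ, hϖ⟩
  · exact key 0 (map_zero φ) (by rw [sub_zero]; exact nonsingRed_of_good v hW hB hC1 hD h2 P)
  · have key' : ∀ R : W.toAffine.Point, φ R = R → InE0 v (P - R) → InE1 v (φ P - P) :=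
      fun R hR h0 => key R hR (nonsingRed_of_mult v hW hB1 hC1 h2 _ h0)
    rcases P with _ | ⟨x, y, h⟩
    · change InE1 v (φ 0 - 0)
      rw [map_zero, sub_zero]
      exact trivial
    by_cases hx1 : 1 ≤ v x
    · exact key' 0 (map_zero φ) (by rw [sub_zero]; exact hx1)
    rw [not_le] at hx1
    by_cases hxC : v x ≤ v W.a₄
    · obtain ⟨h0, hE0⟩ := sub_T0_mem_E0 v hW hC0 h hxC
      refine key' (Point.some 0 0 h0) ?_ hE0
      obtain ⟨h', e⟩ := hφ 0 0 h0
      rw [e]
      exact point_some_congr (map_zero σ) (map_zero σ) _ _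
    rw [not_le] at hxC
    have hx0 : x ≠ 0 := by
      rintro rfl; rw [map_zero] at hxC; exact not_lt_zero hxC
    have hvx0 : v x ≠ 0 := (v.ne_zero_iff).mpr hx0
    have e := (hW.equation_iff x y).mp h.1
    -- the sign
    obtain ⟨β, hβ⟩ : ∃ β, β ^ 2 = W.a₂ := IsAlgClosed.exists_pow_nat_eq W.a₂ (by norm_num)
    have hprod : v ((y / x - β) * (y / x + β)) < 1 := by
      have : (y / x - β) * (y / x + β) = x + W.a₄ / x := by
        field_simp
        linear_combination e - x ^ 2 * hβ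
      rw [this]
      apply v.map_add_lt hx1
      rw [map_div₀]
      exact (div_lt_one₀ (zero_lt_iff.mpr hvx0)).mpr hxC
    obtain ⟨β', hβ', hs⟩ : ∃ β' : K, β' ^ 2 = W.a₂ ∧ v (y / x - β') < 1 := by
      by_cases h1 : v (y / x - β) < 1
      · exact ⟨β, hβ, h1⟩
      · refine ⟨-β, by rw [neg_sq, hβ], ?_⟩
        rw [sub_neg_eq_add]
        by_contra h2c
        rw [not_lt] at h1 h2c
        rw [map_mul] at hprod
        exact absurd hprod (not_lt.mpr (one_le_mul_of_one_le_of_one_le h1 h2c))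
    obtain ⟨k, hk⟩ := comp_torsion v hW hB1 hC1 hC0 h2 hβ' h hxC hx1 hs hP
    have hρ : v (ϖ ^ k) = v x := by
      apply pow_left_inj_of_ne_zero hp.ne_zero
      rw [hk, map_zpow₀, ← zpow_natCast (v ϖ ^ k) p, ← zpow_mul, mul_comm k (p : ℤ), zpow_mul,
        zpow_natCast, hϖ, ← zpow_natCast (v W.a₄) 2, ← zpow_mul]
      norm_num
    obtain ⟨y', h', hσy', hE0⟩ := exists_fixed_same_comp v hW hB1 hC1 hC0 h2 σ hσ hσB hσC h
      hxC hx1 hρ (by rw [map_zpow₀, hσϖ])
    refine key' (Point.some _ _ h') ?_ hE0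
    obtain ⟨h'', e'⟩ := hφ _ _ h'
    rw [e']
    exact point_some_congr (by rw [map_zpow₀, hσϖ]) hσy' _ _

end Fermat.Agent.S40lib
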