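/-
Item 88 (S44/S40), block (J-WILD), piece G2f part 1 (helper22): **from the SS-form of WINDC to the
comparison form** (the hypothesis `hw` of helper28's `ehw_h1_inf` / `ehw_h1_zero`).

Level `N = M' q`, `h = unitQ⁻¹ = uqrHB`, `h' = q ^ 12 unitQ = uqrHB'`.

* `s40j_ord_h_ss_abs`, `s40j_ord_h_ns_abs` : abstract over the setup: at a non-cuspidal place `Q`
  of `κ`: `ord_Q (red_∞ h) = 12` if the centre of `Q` is a node, `= 0` otherwise;
* `s40j_ord_h_inf`, `s40j_ord_h_zero` : the same, concrete, on both components;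
* `s40j_redZero_h'` : `red_0 h' = red_∞ h`;
* `s40j_ord_unitQ_inf`, `s40j_ord_unitQ_zero` : `ord_Q (red_∞ unitQ) = -12` resp. `0`
  (with the node condition of the component `∞`, resp. of the component `0`);
* `s40j_cmp_inf`, `s40j_cmp_zero` : **SS-form of WINDC ⇒ comparison form**
  (`p ∤ 12`): `∃ lam, ∀ Q` non-cuspidal, `p ∣ ord_Q (red u) - lam * ord_Q (red_∞ unitQ)`.
All proofs complete.
-/
import Mathlib
import Fermat.Agent.S36lib.Speed
import Fermat.Agent.S40lib.EdgeZero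

set_option autoImplicit false
set_option linter.style.haveILetI false
set_option linter.unusedSectionVars false
set_option linter.unusedVariables false
set_option synthInstance.maxHeartbeats 400000
set_option maxHeartbeats 1000000

noncomputable section

namespace Fermat.Agent.S40lib

open Fermat.Agent.FFlib Fermat.Agent.S24lib Fermat.Agent.GM Fermat.Agent.GoodRed
  Fermat.Agent.S34lib Fermat.Agent.RRlib Fermat.Agent.S16lib Fermat.Agent.S36lib
open AlgebraicCurve IsLocalRing IntermediateField IsDedekindDomain ModularCurve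

section CmpAbs

universe u

variable {K : Type*} [Field K] {k : Type*} [Field k]
  {A : ValuationSubring K} {π : A →+* k} {κ : Type*} [Field κ] [Algebra k κ]
  {F : Type u} [Field F] [Algebra K F]

/-- the order of a power -/
theorem s40j_ord_pow (Q : Place k κ) {a : κ} (ha : a ≠ 0) (n : ℕ) :
    Q.ord (a ^ n) = (n : ℤ) * Q.ord a := by
  induction n with
  | zero => rw [pow_zero, Q.ord_one]; simp
  | succ n ih =>
    rw [pow_succ, Q.ord_mul (pow_ne_zero n ha) ha, ih]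
    push_cast
    ring

set_option maxHeartbeats 4000000 in
/-- **`ord_Q (red_∞ h) = 12` at a supersingular place** (abstract over the setup). -/
theorem s40j_ord_h_ss_abs (S : NodeSetup A π κ F) [IsNoetherianRing S.B]
    [IsIntegrallyClosed S.B] [IsDedekindDomain (S.B ⧸ S.pInf)]
    (hfrac : ∀ z : F, ∃ a b : S.B, b ≠ 0 ∧ z * (b : F) = (a : F))
    (j : κ) [FFSep k j]
    (hiInf : ∀ z : S.B, S.redInf z ∈ fsS k j)
    (hoInf : ∀ c ∈ fsS k j, ∃ z : S.B, S.redInf z = c)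
    (ϖ : A) (hϖ0 : ϖ ≠ 0)
    (h h' : S.B) (hh : h * h' = S.constB ϖ ^ 12)
    (hreg1 : ∀ s, S.IsNode s → ∃ y ε : S.B, y ∈ S.pZero ∧ y ^ 12 = ε * h ∧ ε ∉ s ∧
        (∀ z ∈ S.pZero, y ∣ ε * z) ∧
        ∀ z ∈ s, ∃ w c : S.B, w ∉ s ∧ w * z - c * y ∈ S.pInf)
    (hreg1' : ∀ s, S.IsNode s → ∃ x ε : S.B, x ∈ S.pInf ∧ x ^ 12 = ε * h' ∧ ε ∉ s ∧
        (∀ z ∈ S.pInf, x ∣ ε * z) ∧
        ∀ z ∈ s, ∃ w c : S.B, w ∉ s ∧ w * z - c * x ∈ S.pZero)
    (Q : Place k κ) (hQ : 0 ≤ Q.ord j)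
    (hSS : ∀ z ∈ S.pZero, S.redInf z = 0 ∨ 0 < Q.ord (S.redInf z)) :
    S.redInf h ≠ 0 ∧ Q.ord (S.redInf h) = 12 := by
  classical
  obtain ⟨s, hsmax, x, y, εx, εy, t, hsInf, hsZero, hufd, hx, hxg, hεx, hy, hyg, hεy, hxy, ht,
    hmem, hord0, hws, hy0, hwy, -, -⟩ := edc_place_node S hfrac j hiInf hoInf ϖ hϖ0 h h' hh
      hreg1 hreg1' Q hQ hSS
  have hnode : S.IsNode s := ⟨hsmax, sup_le hsInf hsZero⟩
  obtain ⟨y₁, ε₁, hy₁, hpow, hε₁, hgen, -⟩ := hreg1 s hnode
  have hε₁r : S.redInf ε₁ ≠ 0 := fun h0 => hε₁ ((hmem ε₁).2 (Or.inl h0))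
  have hε₁o : Q.ord (S.redInf ε₁) = 0 := hws ε₁ hε₁
  obtain ⟨b, hb⟩ := hgen y hy
  have e1 : S.redInf ε₁ * S.redInf y = S.redInf y₁ * S.redInf b := by
    rw [← map_mul, ← map_mul, hb]
  have hne : S.redInf y₁ * S.redInf b ≠ 0 := by
    rw [← e1]
    exact mul_ne_zero hε₁r hy0
  have hy₁r : S.redInf y₁ ≠ 0 := left_ne_zero_of_mul hne
  have hbr : S.redInf b ≠ 0 := right_ne_zero_of_mul hne
  have o1 : Q.ord (S.redInf y₁) + Q.ord (S.redInf b) = 1 := by
    rw [← Q.ord_mul hy₁r hbr, ← e1, Q.ord_mul hε₁r hy0, hε₁o, hwy, zero_add]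
  have hy₁pos : 0 < Q.ord (S.redInf y₁) := by
    rcases (hmem y₁).1 (hsZero hy₁) with h0 | h0
    · exact absurd h0 hy₁r
    · exact h0
  have hb0 := hord0 b
  have hy₁o : Q.ord (S.redInf y₁) = 1 := by omega
  have e2 : S.redInf y₁ ^ 12 = S.redInf ε₁ * S.redInf h := by
    rw [← map_pow, ← map_mul, hpow]
  have hhr : S.redInf h ≠ 0 := by
    intro h0
    rw [h0, mul_zero] at e2
    exact pow_ne_zero 12 hy₁r e2
  refine ⟨hhr, ?_⟩
  have o2 := congrArg Q.ord e2
  rw [s40j_ord_pow Q hy₁r, Q.ord_mul hε₁r hhr, hε₁o, hy₁o] at o2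
  push_cast at o2
  omega

/-- **`ord_Q (red_∞ h) = 0` at a non-cuspidal place whose centre is not a node**
(abstract over the setup). -/
theorem s40j_ord_h_ns_abs (S : NodeSetup A π κ F)
    (j : κ) [FFSep k j]
    (hiInf : ∀ z : S.B, S.redInf z ∈ fsS k j)
    (hoInf : ∀ c ∈ fsS k j, ∃ z : S.B, S.redInf z = c)
    (h : S.B) (hdiv0 : S.pZero ^ 12 ≤ Ideal.span {h})
    (Q : Place k κ) (hQ : 0 ≤ Q.ord j)
    (hNS : ∃ z ∈ S.pZero, S.redInf z ≠ 0 ∧ Q.ord (S.redInf z) = 0) :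
    S.redInf h ≠ 0 ∧ Q.ord (S.redInf h) = 0 := by
  classical
  obtain ⟨s, hsmax, hsInf, hmem, hord0, hws⟩ := edc_centre S j hiInf hoInf Q hQ
  obtain ⟨z, hz, hzr, hzo⟩ := hNS
  obtain ⟨a, ha⟩ := Ideal.mem_span_singleton.1 (hdiv0 (Ideal.pow_mem_pow hz 12))
  have e : S.redInf z ^ 12 = S.redInf h * S.redInf a := by
    rw [← map_pow, ← map_mul, ha]
  have hne : S.redInf h * S.redInf a ≠ 0 := by
    rw [← e]
    exact pow_ne_zero 12 hzr
  have hhr : S.redInf h ≠ 0 := left_ne_zero_of_mul hne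
  have har : S.redInf a ≠ 0 := right_ne_zero_of_mul hne
  refine ⟨hhr, ?_⟩
  have o := congrArg Q.ord e
  rw [s40j_ord_pow Q hzr, hzo, Q.ord_mul hhr har] at o
  have h1 := hord0 h
  have h2 := hord0 a
  push_cast at o
  omega

/-- the negation of the node condition -/
theorem s40j_not_ss (S : NodeSetup A π κ F) (Q : Place k κ)
    (hord0 : ∀ c : S.B, 0 ≤ Q.ord (S.redInf c))
    (hn : ¬ ∀ z ∈ S.pZero, S.redInf z = 0 ∨ 0 < Q.ord (S.redInf z)) :
    ∃ z ∈ S.pZero, S.redInf z ≠ 0 ∧ Q.ord (S.redInf z) = 0 := by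
  rw [not_forall] at hn
  obtain ⟨z, hz⟩ := hn
  rw [Classical.not_imp] at hz
  obtain ⟨hzp, hzn⟩ := hz
  rw [not_or] at hzn
  have h0 := hord0 z
  refine ⟨z, hzp, hzn.1, ?_⟩
  have := hzn.2
  omega

end CmpAbs

section Conc

variable (A : ValuationSubring Kbar) (M' q : ℕ) [NeZero M'] [NeZero q] (hq : q.Prime)
  (hqM : ¬ q ∣ M') (hA : A.LiesOverPrime q)
  (R : ConstRed A (IsLocalRing.residue A)
      (↥(modularFunctionFieldFullC (IsLocalRing.ResidueField A) M')) (FF (M' * q)))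
  (hR : IsSeriesRed R)

set_option maxHeartbeats 4000000 in
/-- **the orders of `red_∞ h`** at the non-cuspidal places, level `N = M' q`. -/
theorem s40j_ord_h_inf (haux : IsAuxLevel q M')
    (Q : Place (IsLocalRing.ResidueField A) (Fk (IsLocalRing.ResidueField A) M'))
    (hQ : 0 ≤ Q.ord (jk (IsLocalRing.ResidueField A) M')) :
    ((∀ z ∈ (nodeSetupNj A M' q hq hqM hA R hR).pZero,
        (nodeSetupNj A M' q hq hqM hA R hR).redInf z = 0 ∨
          0 < Q.ord ((nodeSetupNj A M' q hq hqM hA R hR).redInf z)) →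
      Q.ord ((nodeSetupNj A M' q hq hqM hA R hR).redInf (uqrHB A M' q hq hqM hA R hR)) = 12) ∧
    (¬ (∀ z ∈ (nodeSetupNj A M' q hq hqM hA R hR).pZero,
        (nodeSetupNj A M' q hq hqM hA R hR).redInf z = 0 ∨
          0 < Q.ord ((nodeSetupNj A M' q hq hqM hA R hR).redInf z)) →
      Q.ord ((nodeSetupNj A M' q hq hqM hA R hR).redInf (uqrHB A M' q hq hqM hA R hR)) = 0) := by
  have hSUM : RgnSum A M' q hq hqM R := fun z h1 h3 => w2j_rgnSum A M' q hq hqM hA R hR z h1 h3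
  haveI : IsAlgClosed (IsLocalRing.ResidueField A) := isAlgClosed_residueField A
  haveI : FFSep (IsLocalRing.ResidueField A) (jk (IsLocalRing.ResidueField A) M') :=
    gmw_ffSep (IsLocalRing.ResidueField A) M'
  haveI : IsIntegrallyClosed (nodeSetupNj A M' q hq hqM hA R hR).B :=
    r1c_isIntegrallyClosed A M' q hq hqM hA R hR hSUM
  haveI : IsNoetherianRing (nodeSetupNj A M' q hq hqM hA R hR).B :=
    (r1c_noeth_frac A M' q hq hqM hA R hR hSUM).1
  haveI : IsDedekindDomain (nodeSetupNj A M' q hq hqM hA R hR).redInf.range :=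
    rgn_isDedekindDomain_inf A M' q hq hqM hA R hR haux hSUM
  haveI : IsDedekindDomain ((nodeSetupNj A M' q hq hqM hA R hR).B ⧸
      (nodeSetupNj A M' q hq hqM hA R hR).pInf) :=
    (nodeSetupNj A M' q hq hqM hA R hR).isDedekindDomain_quot_pInf
  have hreg := edc_hreg1 A M' q hq hqM hA R hR haux
  refine ⟨fun hSS => ?_, fun hnSS => ?_⟩
  · exact (s40j_ord_h_ss_abs (nodeSetupNj A M' q hq hqM hA R hR)
      (r1c_noeth_frac A M' q hq hqM hA R hR hSUM).2
      (jk (IsLocalRing.ResidueField A) M')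
      (rgn_hiInf A M' q hq hqM hA R hR hSUM) (rgn_hoInf A M' q hq hqM hA R hR haux)
      (q : k0Val A) (a2i_q_ne_zero A q hq)
      (uqrHB A M' q hq hqM hA R hR) (uqrHB' A M' q hq hqM hA R hR)
      (edc_hh' A M' q hq hqM hA R hR) hreg.1 hreg.2 Q hQ hSS).2
  · have hord0 : ∀ c : (nodeSetupNj A M' q hq hqM hA R hR).B,
        0 ≤ Q.ord ((nodeSetupNj A M' q hq hqM hA R hR).redInf c) := fun c =>
      ffOrd_nonneg_of_mem Q (fsS_le Q hQ _ (rgn_hiInf A M' q hq hqM hA R hR hSUM c))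
    exact (s40j_ord_h_ns_abs (nodeSetupNj A M' q hq hqM hA R hR)
      (jk (IsLocalRing.ResidueField A) M')
      (rgn_hiInf A M' q hq hqM hA R hR hSUM) (rgn_hoInf A M' q hq hqM hA R hR haux)
      (uqrHB A M' q hq hqM hA R hR) (uqr_hdiv0 A M' q hq hqM hA R hR) Q hQ
      (s40j_not_ss (nodeSetupNj A M' q hq hqM hA R hR) Q hord0 hnSS)).2

set_option maxHeartbeats 4000000 in
/-- **the orders of `red_0 h'`** at the non-cuspidal places, level `N = M' q`. -/
theorem s40j_ord_h_zero (haux : IsAuxLevel q M')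
    (Q : Place (IsLocalRing.ResidueField A) (Fk (IsLocalRing.ResidueField A) M'))
    (hQ : 0 ≤ Q.ord (jk (IsLocalRing.ResidueField A) M')) :
    ((∀ z ∈ (nodeSetupNj A M' q hq hqM hA R hR).pInf,
        (nodeSetupNj A M' q hq hqM hA R hR).redZero z = 0 ∨
          0 < Q.ord ((nodeSetupNj A M' q hq hqM hA R hR).redZero z)) →
      Q.ord ((nodeSetupNj A M' q hq hqM hA R hR).redZero (uqrHB' A M' q hq hqM hA R hR)) = 12) ∧
    (¬ (∀ z ∈ (nodeSetupNj A M' q hq hqM hA R hR).pInf,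
        (nodeSetupNj A M' q hq hqM hA R hR).redZero z = 0 ∨
          0 < Q.ord ((nodeSetupNj A M' q hq hqM hA R hR).redZero z)) →
      Q.ord ((nodeSetupNj A M' q hq hqM hA R hR).redZero (uqrHB' A M' q hq hqM hA R hR)) = 0) := by
  have hSUM : RgnSum A M' q hq hqM R := fun z h1 h3 => w2j_rgnSum A M' q hq hqM hA R hR z h1 h3
  haveI : IsAlgClosed (IsLocalRing.ResidueField A) := isAlgClosed_residueField A
  haveI : FFSep (IsLocalRing.ResidueField A) (jk (IsLocalRing.ResidueField A) M') :=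
    gmw_ffSep (IsLocalRing.ResidueField A) M'
  haveI hIC : IsIntegrallyClosed (nodeSetupNj A M' q hq hqM hA R hR).B :=
    r1c_isIntegrallyClosed A M' q hq hqM hA R hR hSUM
  haveI hN : IsNoetherianRing (nodeSetupNj A M' q hq hqM hA R hR).B :=
    (r1c_noeth_frac A M' q hq hqM hA R hR hSUM).1
  haveI : IsDedekindDomain (nodeSetupNj A M' q hq hqM hA R hR).redZero.range :=
    rgn_isDedekindDomain_zero A M' q hq hqM hA R hR haux hSUM
  haveI hD : IsDedekindDomain ((nodeSetupNj A M' q hq hqM hA R hR).B ⧸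
      (nodeSetupNj A M' q hq hqM hA R hR).pZero) :=
    (nodeSetupNj A M' q hq hqM hA R hR).isDedekindDomain_quot_pZero
  have hreg := edc_hreg1 A M' q hq hqM hA R hR haux
  have hnode : ∀ s, (edc_swap (nodeSetupNj A M' q hq hqM hA R hR)).IsNode s →
      (nodeSetupNj A M' q hq hqM hA R hR).IsNode s := by
    rintro s ⟨h1, h2⟩
    exact ⟨h1, sup_le (le_trans le_sup_right h2) (le_trans le_sup_left h2)⟩
  haveI : IsIntegrallyClosed (edc_swap (nodeSetupNj A M' q hq hqM hA R hR)).B := hIC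
  haveI : IsNoetherianRing (edc_swap (nodeSetupNj A M' q hq hqM hA R hR)).B := hN
  haveI : IsDedekindDomain ((edc_swap (nodeSetupNj A M' q hq hqM hA R hR)).B ⧸
      (edc_swap (nodeSetupNj A M' q hq hqM hA R hR)).pInf) := hD
  refine ⟨fun hSS => ?_, fun hnSS => ?_⟩
  · exact (s40j_ord_h_ss_abs (edc_swap (nodeSetupNj A M' q hq hqM hA R hR))
      (r1c_noeth_frac A M' q hq hqM hA R hR hSUM).2
      (jk (IsLocalRing.ResidueField A) M')
      (rgn_hiZero A M' q hq hqM hA R hR hSUM) (rgn_hoZero A M' q hq hqM hA R hR haux)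
      (q : k0Val A) (a2i_q_ne_zero A q hq)
      (uqrHB' A M' q hq hqM hA R hR) (uqrHB A M' q hq hqM hA R hR)
      ((mul_comm _ _).trans (edc_hh' A M' q hq hqM hA R hR))
      (fun s hs => hreg.2 s (hnode s hs)) (fun s hs => hreg.1 s (hnode s hs)) Q hQ hSS).2
  · have hord0 : ∀ c : (nodeSetupNj A M' q hq hqM hA R hR).B,
        0 ≤ Q.ord ((nodeSetupNj A M' q hq hqM hA R hR).redZero c) := fun c =>
      ffOrd_nonneg_of_mem Q (fsS_le Q hQ _ (rgn_hiZero A M' q hq hqM hA R hR hSUM c))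
    exact (s40j_ord_h_ns_abs (edc_swap (nodeSetupNj A M' q hq hqM hA R hR))
      (jk (IsLocalRing.ResidueField A) M')
      (rgn_hiZero A M' q hq hqM hA R hR hSUM) (rgn_hoZero A M' q hq hqM hA R hR haux)
      (uqrHB' A M' q hq hqM hA R hR) (uqr_hdivInf A M' q hq hqM hA R hR) Q hQ
      (s40j_not_ss (edc_swap (nodeSetupNj A M' q hq hqM hA R hR)) Q hord0 hnSS)).2

/-- `red_0 h' = red_∞ h` -/
theorem s40j_redZero_h' :
    (nodeSetupNj A M' q hq hqM hA R hR).redZero (uqrHB' A M' q hq hqM hA R hR) =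
      (nodeSetupNj A M' q hq hqM hA R hR).redInf (uqrHB A M' q hq hqM hA R hR) := by
  apply Subtype.ext
  rw [uqr_redZero_h' A M' q hq hqM hA R hR, uqr_redInf_h A M' q hq hqM hA R hR]

/-- `red_∞ unitQ = (red_∞ h)⁻¹` -/
theorem s40j_red_unitQ :
    R.red ⟨unitQ (M' * q) q (dvd_mul_left q M'), uqr_mem_O (dvd_mul_left q M') hR⟩ =
      ((nodeSetupNj A M' q hq hqM hA R hR).redInf (uqrHB A M' q hq hqM hA R hR))⁻¹ := by
  apply Subtype.ext
  rw [uqr_red (dvd_mul_left q M') hR]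
  show _ = ((((nodeSetupNj A M' q hq hqM hA R hR).redInf (uqrHB A M' q hq hqM hA R hR) :
      ↥(modularFunctionFieldFullC (IsLocalRing.ResidueField A) M')) :
      LaurentSeries (IsLocalRing.ResidueField A)))⁻¹
  rw [uqr_redInf_h A M' q hq hqM hA R hR, inv_inv]

/-- `ord_Q (red_∞ unitQ) = - ord_Q (red_∞ h)` -/
theorem s40j_ord_unitQ
    (Q : Place (IsLocalRing.ResidueField A) (Fk (IsLocalRing.ResidueField A) M')) :
    Q.ord (R.red ⟨unitQ (M' * q) q (dvd_mul_left q M'), uqr_mem_O (dvd_mul_left q M') hR⟩) =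
      - Q.ord ((nodeSetupNj A M' q hq hqM hA R hR).redInf (uqrHB A M' q hq hqM hA R hR)) := by
  rw [s40j_red_unitQ A M' q hq hqM hA R hR, Q.ord_inv]

/-- Bezout for `m` prime to `12` -/
theorem s40j_bezout12 (m : ℕ) (hm : IsCoprime (m : ℤ) 12) (δ : ℤ) :
    ∃ lam : ℤ, (m : ℤ) ∣ δ + lam * 12 := by
  obtain ⟨a, b, hab⟩ := hm
  refine ⟨-(δ * b), δ * a, ?_⟩
  linear_combination (-δ) * hab

set_option maxHeartbeats 4000000 in
/-- **SS-form of WINDC ⇒ comparison form, component `∞`**: `f Q` the order at `Q` of the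
reduction of a function, `f Q ≡ δ` at the supersingular places and `f Q ≡ 0` at the other
non-cuspidal places modulo `m`, `m` prime to `12`; then `f Q ≡ lam · ord_Q (red_∞ unitQ)`. -/
theorem s40j_cmp_inf (haux : IsAuxLevel q M') (m : ℕ) (hm : IsCoprime (m : ℤ) 12)
    (f : Place (IsLocalRing.ResidueField A) (Fk (IsLocalRing.ResidueField A) M') → ℤ) (δ : ℤ)
    (hW : ∀ Q : Place (IsLocalRing.ResidueField A) (Fk (IsLocalRing.ResidueField A) M'),
      0 ≤ Q.ord (jk (IsLocalRing.ResidueField A) M') →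
      ((∀ z ∈ (nodeSetupNj A M' q hq hqM hA R hR).pZero,
          (nodeSetupNj A M' q hq hqM hA R hR).redInf z = 0 ∨
            0 < Q.ord ((nodeSetupNj A M' q hq hqM hA R hR).redInf z)) →
        (m : ℤ) ∣ f Q - δ) ∧
      (¬ (∀ z ∈ (nodeSetupNj A M' q hq hqM hA R hR).pZero,
          (nodeSetupNj A M' q hq hqM hA R hR).redInf z = 0 ∨
            0 < Q.ord ((nodeSetupNj A M' q hq hqM hA R hR).redInf z)) →
        (m : ℤ) ∣ f Q)) :
    ∃ lam : ℤ, ∀ Q : Place (IsLocalRing.ResidueField A) (Fk (IsLocalRing.ResidueField A) M'),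
      0 ≤ Q.ord (jk (IsLocalRing.ResidueField A) M') →
      (m : ℤ) ∣ f Q - lam * Q.ord (R.red
        ⟨unitQ (M' * q) q (dvd_mul_left q M'), uqr_mem_O (dvd_mul_left q M') hR⟩) := by
  obtain ⟨lam, hlam⟩ := s40j_bezout12 m hm δ
  refine ⟨lam, fun Q hQ => ?_⟩
  rw [s40j_ord_unitQ A M' q hq hqM hA R hR Q]
  by_cases hSS : ∀ z ∈ (nodeSetupNj A M' q hq hqM hA R hR).pZero,
      (nodeSetupNj A M' q hq hqM hA R hR).redInf z = 0 ∨
        0 < Q.ord ((nodeSetupNj A M' q hq hqM hA R hR).redInf z)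
  · rw [(s40j_ord_h_inf A M' q hq hqM hA R hR haux Q hQ).1 hSS]
    have h1 := (hW Q hQ).1 hSS
    have e : f Q - lam * -12 = (f Q - δ) + (δ + lam * 12) := by ring
    rw [e]
    exact dvd_add h1 hlam
  · rw [(s40j_ord_h_inf A M' q hq hqM hA R hR haux Q hQ).2 hSS]
    have h1 := (hW Q hQ).2 hSS
    simpa using h1

set_option maxHeartbeats 4000000 in
/-- **SS-form of WINDC ⇒ comparison form, component `0`** (node condition of the component
`0`; the comparison is with `red_∞ unitQ` as in `ehw_h1_zero`). -/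
theorem s40j_cmp_zero (haux : IsAuxLevel q M') (m : ℕ) (hm : IsCoprime (m : ℤ) 12)
    (f : Place (IsLocalRing.ResidueField A) (Fk (IsLocalRing.ResidueField A) M') → ℤ) (δ : ℤ)
    (hW : ∀ Q : Place (IsLocalRing.ResidueField A) (Fk (IsLocalRing.ResidueField A) M'),
      0 ≤ Q.ord (jk (IsLocalRing.ResidueField A) M') →
      ((∀ z ∈ (nodeSetupNj A M' q hq hqM hA R hR).pInf,
          (nodeSetupNj A M' q hq hqM hA R hR).redZero z = 0 ∨
            0 < Q.ord ((nodeSetupNj A M' q hq hqM hA R hR).redZero z)) →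
        (m : ℤ) ∣ f Q - δ) ∧
      (¬ (∀ z ∈ (nodeSetupNj A M' q hq hqM hA R hR).pInf,
          (nodeSetupNj A M' q hq hqM hA R hR).redZero z = 0 ∨
            0 < Q.ord ((nodeSetupNj A M' q hq hqM hA R hR).redZero z)) →
        (m : ℤ) ∣ f Q)) :
    ∃ lam : ℤ, ∀ Q : Place (IsLocalRing.ResidueField A) (Fk (IsLocalRing.ResidueField A) M'),
      0 ≤ Q.ord (jk (IsLocalRing.ResidueField A) M') →
      (m : ℤ) ∣ f Q - lam * Q.ord (R.red
        ⟨unitQ (M' * q) q (dvd_mul_left q M'), uqr_mem_O (dvd_mul_left q M') hR⟩) := by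
  obtain ⟨lam, hlam⟩ := s40j_bezout12 m hm δ
  refine ⟨lam, fun Q hQ => ?_⟩
  rw [s40j_ord_unitQ A M' q hq hqM hA R hR Q, ← s40j_redZero_h' A M' q hq hqM hA R hR]
  by_cases hSS : ∀ z ∈ (nodeSetupNj A M' q hq hqM hA R hR).pInf,
      (nodeSetupNj A M' q hq hqM hA R hR).redZero z = 0 ∨
        0 < Q.ord ((nodeSetupNj A M' q hq hqM hA R hR).redZero z)
  · rw [(s40j_ord_h_zero A M' q hq hqM hA R hR haux Q hQ).1 hSS]
    have h1 := (hW Q hQ).1 hSS
    have e : f Q - lam * -12 = (f Q - δ) + (δ + lam * 12) := by ring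
    rw [e]
    exact dvd_add h1 hlam
  · rw [(s40j_ord_h_zero A M' q hq hqM hA R hR haux Q hQ).2 hSS]
    have h1 := (hW Q hQ).2 hSS
    simpa using h1

/-- `p ≥ 5` prime is prime to `12` -/
theorem s40j_coprime12 {p : ℕ} (hp : p.Prime) (hp5 : 5 ≤ p) : IsCoprime (p : ℤ) 12 := by
  have h : Nat.Coprime p 12 := by
    rw [Nat.Prime.coprime_iff_not_dvd hp]
    intro hd
    have hle := Nat.le_of_dvd (by norm_num) hd
    interval_cases p <;> simp_all (config := { decide := true })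
  have := Nat.isCoprime_iff_coprime.mpr h
  simpa using this

end Conc

end Fermat.Agent.S40lib

end
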