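/-
Item 88 (S44), block (J-WILD), (Z1) + (Z') wiring (helper5).

`wk2_normal` : the `I₁`-RATIONAL normal form of a class `t` of `J₀(M p)[p]` fixed by `I₁` on
which an element `τ₀` of the inertia group acts by `w ≢ 1 mod p`, with a Kummer-new Kummer
function: there is `g` FIXED BY `I₁`, `g ∈ O_R ∩ O_{R₀}` regular off the two cusps, such that
`1 + (ζ - 1) ^ p g` is a Kummer function of `-t`.
(`wk2_input` (WildKer2.lean) = the `I₁`-fixed (KER2) input, then `rck_kummer` (helper29) =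
`wtr_kummer` (helper19) with the `I₁`-stable gluing data of `rcx_glbc_exists`.)
No hypothesis on covers, gluing data or (KER2) is left.
-/
import Mathlib
import Fermat.Agent.S36lib.Speed
import Fermat.Agent.S40lib.WildKer2
import Fermat.Agent.S40lib.RatKummer

set_option autoImplicit false
set_option linter.style.haveILetI false
set_option linter.unusedVariables false
set_option linter.unusedSectionVars false
set_option synthInstance.maxHeartbeats 400000

noncomputable section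

namespace Fermat.Agent.S40lib

open AlgebraicCurve Fermat.Agent.GoodRed ModularCurve HahnSeries Fermat.Agent.S24lib
  Fermat.Agent.RRlib Fermat.Agent.GM Fermat.Agent.S34lib Fermat.Agent.S35lib
  Fermat.Agent.S36lib Fermat.Agent.S33lib Fermat.Agent.GalRep Fermat.Agent.HeckeBar

variable (M p : ℕ) [NeZero M] [NeZero p] [NeZero (M * p)] (hp : p.Prime)

set_option maxHeartbeats 2000000 in
/-- **(Z1) with Kummer-newness**: the `I₁`-fixed (KER2) Kummer function of `t` is Kummer-new. -/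
theorem wk2_input_new [RRHyp Kbar (FF (M * p))] (hpM : ¬ p ∣ M)
    {A : ValuationSubring Kbar} (hA : A.LiesOverPrime p)
    (R : ConstRed A (IsLocalRing.residue A)
      (↥(modularFunctionFieldFullC (IsLocalRing.ResidueField A) M)) (FF (M * p)))
    (hR : IsSeriesRed R) {ζ : Kbar} (hζ : IsPrimitiveRoot ζ p)
    (t : JZero (M * p)) (ut : FF (M * p)) (ht : gdfIsKummer (K := Kbar) p t ut)
    (hnew : IsKummerNew M p p ut) (hpt : p • t = 0)
    (hI1 : ∀ σ ∈ S40hI1 p A, galFF (M * p) σ • t = t)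
    (τ₀ : Kbar ≃ₐ[ℚ] Kbar) (hτ₀ : τ₀ ∈ A.inertiaSubgroupIn ℚ) (w : ℕ)
    (hτt : galFF (M * p) τ₀ • t = w • t) (hw : ¬ (p : ℤ) ∣ (w : ℤ) - 1) :
    ∃ (E : Divisor Kbar (FF (M * p))) (u : FF (M * p)), Divisor.degree E = 0 ∧
      (∀ σ ∈ S40hI1 p A, galFF (M * p) σ • E = E) ∧ gdfIsKummer (K := Kbar) p t u ∧
      (∀ σ ∈ S40hI1 p A, galFF (M * p) σ • u = u) ∧
      u - 1 ∈ R.O.nonunits ∧ u - 1 ∈ (glmZero M p hp hpM R).O.nonunits ∧
      (∀ v : Place Kbar (FF (M * p)), v.ord u = p * E v) ∧ IsKummerNew M p p u := by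
  obtain ⟨E, u, hE, hEH, hk, huH, hu₁, hu₂, hdiv⟩ :=
    wk2_input M p hp hpM A hA R hR hζ t ut ht hpt hI1 τ₀ hτ₀ w hτt hw
  refine ⟨E, u, hE, hEH, hk, huH, hu₁, hu₂, hdiv, ?_⟩
  obtain ⟨c, s, -, -, hcs⟩ := gdf_isKummer_unique ht hk
  rw [hcs]
  exact tas_isKummerNew_mul_pow hnew c s

set_option maxHeartbeats 2000000 in
/-- **the `I₁`-rational normal form of `t`** (no cover, gluing or (KER2) hypothesis). -/
theorem wk2_normal [RRHyp Kbar (FF (M * p))] (hp2 : p ≠ 2) (haux : IsAuxLevel p M)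
    {A : ValuationSubring Kbar} (hA : A.LiesOverPrime p)
    (R : ConstRed A (IsLocalRing.residue A)
      (↥(modularFunctionFieldFullC (IsLocalRing.ResidueField A) M)) (FF (M * p)))
    (hR : IsSeriesRed R) {ζ : Kbar} (hζ : IsPrimitiveRoot ζ p)
    (t : JZero (M * p)) (ut : FF (M * p)) (ht : gdfIsKummer (K := Kbar) p t ut)
    (hnew : IsKummerNew M p p ut) (hpt : p • t = 0)
    (hI1 : ∀ σ ∈ S40hI1 p A, galFF (M * p) σ • t = t)
    (τ₀ : Kbar ≃ₐ[ℚ] Kbar) (hτ₀ : τ₀ ∈ A.inertiaSubgroupIn ℚ) (w : ℕ)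
    (hτt : galFF (M * p) τ₀ • t = w • t) (hw : ¬ (p : ℤ) ∣ (w : ℤ) - 1) :
    ∃ g : FF (M * p), (∀ σ ∈ S40hI1 p A, galFF (M * p) σ • g = g) ∧
      g ∈ cxiB (infPlaceBar (M * p))
        (cuspZero (M * p) p hp (dvd_mul_left p M) (inf_not_sq_dvd M p hp haux.1)) ∧
      g ∈ R.O ∧ g ∈ (glmZero M p hp haux.1 R).O ∧
      gdfIsKummer (K := Kbar) p (-t) (1 + algebraMap Kbar (FF (M * p)) ((ζ - 1) ^ p) * g) ∧
      ∀ σ ∈ S40hI1 p A, galFF (M * p) σ •
        (1 + algebraMap Kbar (FF (M * p)) ((ζ - 1) ^ p) * g) =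
          1 + algebraMap Kbar (FF (M * p)) ((ζ - 1) ^ p) * g := by
  obtain ⟨E, u, hE, hEH, hk, huH, hu₁, hu₂, hdiv, hnewu⟩ :=
    wk2_input_new M p hp haux.1 hA R hR hζ t ut ht hnew hpt hI1 τ₀ hτ₀ w hτt hw
  exact rck_kummer M p hp hp2 haux hA R hR hζ E hE hEH t u hk huH hu₁ hu₂ hdiv hnewu

end Fermat.Agent.S40lib

end
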