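/-
Item 88 (S44), (J-WILD), LAYER B (helper8): `s40j_pt_node` (helper22) SPECIALISED to the concrete
context of `WildPtCtx.lean`:
  `R := B_s`, `F₀ := f0Field A N`, `E₀ := wpbE0 A EY hst = cve0Field (cve0cT I EY hst)`, `E := EY`
(instances `criAlg`, `wpbAlgF0`, `wpbAlgE0`, `wpbAlgF0E0`, `wpbAlgK0E0`, `wpbAlgK0E`).
All hypotheses are those of `s40j_pt_node` verbatim in this context.
-/
import Mathlib
import Fermat.Agent.S36lib.Speed
import Fermat.Agent.S40lib.WildPtCtx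
import Fermat.Agent.S40lib.WildPtAsm

set_option autoImplicit false
set_option linter.style.haveILetI false
set_option linter.unusedSectionVars false
set_option linter.unusedVariables false
set_option synthInstance.maxHeartbeats 400000
set_option maxHeartbeats 4000000

noncomputable section

namespace Fermat.Agent.S40lib

open ModularCurve HahnSeries AlgebraicCurve Fermat.Agent.S24lib Fermat.Agent.S33lib
  Fermat.Agent.S34lib Fermat.Agent.RRlib Fermat.Agent.S36lib IsLocalRing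

section

variable (A : ValuationSubring Kbar) (N : ℕ) [NeZero N] [RRBase Kbar (FF N)]
  (EY : IntermediateField Kbar (LaurentSeries Kbar))
  (hle : modularFunctionFieldBar N ≤ EY)
  (hst : ∀ σ ∈ A.inertiaSubgroupIn ℚ, ∀ x ∈ EY,
    coeffMap ((σ : Kbar ≃ₐ[ℚ] Kbar) : Kbar →+* Kbar) x ∈ EY)
  (B0 : Subring ↥(f0Field A N)) [IsNoetherianRing ↥B0]
  (s : Ideal ↥B0) [hs : s.IsPrime] [UniqueFactorizationMonoid (Localization.AtPrime s)]
  (p : ℕ) (hp : p.Prime) (hA : A.LiesOverPrime p)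
  {κ₁ : Type*} [Field κ₁] {k : Type*} [Field k] [IsAlgClosed k]

include hp hA in
/-- **`s40j_pt_node` in the concrete context.** -/
theorem wpb_call_node
    (hfrac : ∀ z : ↥(f0Field A N), ∃ a b : ↥B0, b ≠ 0 ∧
      z * (b : ↥(f0Field A N)) = (a : ↥(f0Field A N))) :
    letI iRE := criAlg A N EY hle B0 s
    letI iRF := wpbAlgF0 A N B0 s
    letI iRE0 := wpbAlgE0 A N EY hle hst B0 s
    letI iFE0 := wpbAlgF0E0 A N EY hle hst
    letI iKE0 := wpbAlgK0E0 A N EY hle hst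
    letI iKE := wpbAlgK0E A EY
    haveI hfr : IsFractionRing (Localization.AtPrime s) ↥(f0Field A N) :=
      wpb_frac A N B0 s hfrac
    ∀ (r₁ : ↥B0 →+* κ₁) (h₁ : RingHom.ker r₁ ≤ s)
      (x εx y : ↥B0) (hx : x ∈ RingHom.ker r₁) (hxg : ∀ z ∈ RingHom.ker r₁, x ∣ εx * z)
      (hεx : εx ∉ s)
      (hm : maximalIdeal (Localization.AtPrime s) =
        Ideal.span {algebraMap ↥B0 (Localization.AtPrime s) x,
          algebraMap ↥B0 (Localization.AtPrime s) y})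
      (wQ : κ₁ → ℤ) (hwQ : ∀ a b : κ₁, a ≠ 0 → b ≠ 0 → wQ (a * b) = wQ a + wQ b)
      (hord0 : ∀ c : ↥B0, r₁ c ≠ 0 → 0 ≤ wQ (r₁ c))
      (hws : ∀ c : ↥B0, c ∉ s → wQ (r₁ c) = 0)
      (hy0 : r₁ y ≠ 0) (hwy : wQ (r₁ y) = 1)
      (hxs : Prime (algebraMap ↥B0 (Localization.AtPrime s) x))
      (hys : Prime (algebraMap ↥B0 (Localization.AtPrime s) y))
      (hyx : ¬ algebraMap ↥B0 (Localization.AtPrime s) x ∣ algebraMap ↥B0 (Localization.AtPrime s) y)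
      (tB : ↥B0) (htB : tB ∉ s)
      (hxyp : algebraMap ↥B0 (Localization.AtPrime s) x * algebraMap ↥B0 (Localization.AtPrime s) y =
        algebraMap ↥B0 (Localization.AtPrime s) tB * (p : Localization.AtPrime s))
      (ρ : Localization.AtPrime s →+* k)
      (hρ : Function.Surjective ρ)
      (hinjR : Function.Injective (algebraMap (Localization.AtPrime s) ↥(wpbE0 A EY hst)))
      (hpR : (p : Localization.AtPrime s) ∈ maximalIdeal (Localization.AtPrime s))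
      (ι : ↥(wpbE0 A EY hst) →ₐ[Localization.AtPrime s] ↥EY) (hι : ∀ e, ι e = algebraMap ↥(wpbE0 A EY hst) ↥EY e)
      (σ₀ : ↥(wpbE0 A EY hst) →+* ↥(wpbE0 A EY hst)) (z₀ : ↥(wpbE0 A EY hst)) (hz : IsIntegral (Localization.AtPrime s) z₀)
      (hσp : σ₀^[p] z₀ = z₀)
      (hσR : ∀ r : Localization.AtPrime s,
        σ₀ (algebraMap (Localization.AtPrime s) ↥(wpbE0 A EY hst) r) = algebraMap (Localization.AtPrime s) ↥(wpbE0 A EY hst) r)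
      (hdesc : ∀ t : ↥(wpbE0 A EY hst), σ₀ t = t → IsIntegral (Localization.AtPrime s) t →
        t ∈ Set.range (algebraMap (Localization.AtPrime s) ↥(wpbE0 A EY hst)))
      (ζ : ↥EY) (hζ : IsPrimitiveRoot ζ p) (c : ℕ → ↥EY)
      (hc : ∀ i ∈ Finset.Ico 1 p, IsIntegral (Localization.AtPrime s) (c i))
      (hcong : ∀ i ∈ Finset.Ico 1 p,
        ι (σ₀^[i] z₀) - ι z₀ =
          algebraMap (Localization.AtPrime s) ↥EY (i : Localization.AtPrime s) + (ζ - 1) * c i)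
      (hgen₀ : Algebra.adjoin ↥(f0Field A N) ({z₀} : Set ↥(wpbE0 A EY hst)) = ⊤)
      (𝔫 : Ideal (Algebra.adjoin (Localization.AtPrime s) ({z₀} : Set ↥(wpbE0 A EY hst)))) (h𝔫 : 𝔫.IsMaximal)
      (u g κ' : ↥(wpbE0 A EY hst)) (hu : u ≠ 0) (hg : g ≠ 0) (hκ0 : κ' ≠ 0) (hσκ : σ₀ κ' = κ')
      (hσu : σ₀ u = κ' * g ^ p * u)
      (hσn : ∀ z : ↥(wpbE0 A EY hst), σ₀^[p] z = z)
      (hfix : ∀ f : ↥(wpbE0 A EY hst), σ₀ f = f → f ∈ Set.range (algebraMap ↥(f0Field A N) ↥(wpbE0 A EY hst)))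
      (vInf vZero : ↥(wpbE0 A EY hst) → ℤ) (hvInf : G2cOrd vInf) (hvInf1 : ∃ z : ↥(wpbE0 A EY hst), z ≠ 0 ∧ vInf z = 1)
      (hvInfF : ∀ f : ↥(f0Field A N), f ≠ 0 → (0 ≤ vInf (algebraMap ↥(f0Field A N) ↥(wpbE0 A EY hst) f) ↔
        0 ≤ s36_ordAt (algebraMap ↥B0 (Localization.AtPrime s) x) hxs f))
      (hvZero : G2cOrd vZero) (hvZero1 : ∃ z : ↥(wpbE0 A EY hst), z ≠ 0 ∧ vZero z = 1)
      (hvZeroF : ∀ f : ↥(f0Field A N), f ≠ 0 → (0 ≤ vZero (algebraMap ↥(f0Field A N) ↥(wpbE0 A EY hst) f) ↔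
        0 ≤ s36_ordAt (algebraMap ↥B0 (Localization.AtPrime s) y) hys f))
      (hκInf : (p : ℤ) ∣ vInf κ') (hκZero : (p : ℤ) ∣ vZero κ')
      (hgenE : Algebra.adjoin ↥(wpbE0 A EY hst) (Set.range (algebraMap Kbar ↥EY)) = ⊤)
      (φ : FF N →ₐ[Kbar] ↥EY) (hφ : φ.toRingHom.IsIntegral)
      (x₀ : JZero N) (ux : FF N) (hux : gdfIsKummer (K := Kbar) p x₀ ux)
      (hE : ↥EY) (cK : Kbar)
      (hrelu : algebraMap ↥(wpbE0 A EY hst) ↥EY u = algebraMap Kbar ↥EY cK * φ ux * hE ^ p)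
      (ιA : k0Val A →+* Localization.AtPrime s)
      (hcompatA : ∀ a : k0Val A,
        algebraMap (Localization.AtPrime s) ↥(wpbE0 A EY hst) (ιA a) = algebraMap (k0Field A) ↥(wpbE0 A EY hst) (a : k0Field A))
      (ϖA : k0Val A) (hϖA : ((ϖA : k0Field A) : Kbar) ∈ A.nonunits)
      (eA : (Localization.AtPrime s)ˣ) (hpA : (p : Localization.AtPrime s) = eA * ιA ϖA)
      (η aE mθ : ↥EY) (hη : η ^ p = 1 + (p : ↥EY) * aE)
      (hmθ : mθ ∈ Subring.closure ({η - 1} : Set ↥EY))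
      (hπθ : (η - 1) ^ p = (p : ↥EY) * (aE + (η - 1) * mθ))
      (hθ0 : aE + (η - 1) * mθ ≠ 0)
      (jE : ↥B0 →+* ↥EY)
      (hjE : ∀ b : ↥B0, algebraMap (Localization.AtPrime s) ↥EY
        (algebraMap ↥B0 (Localization.AtPrime s) b) = jE b)
      (isC : ↥B0 → Prop) (hCmul : ∀ n n', isC n → isC n' → isC (n * n'))
      (hC : ∀ n, isC n → r₁ n ≠ 0 ∧ wQ (r₁ n) = 0)
      (haK : aE ∈ g2wUK jE isC)
      (ae au ah : Fin p → ↥EY)
      (hae : ∀ i, ae i = 0 ∨ ∃ m : ℤ, ∃ b ∈ g2wUK jE isC, ae i = (p : ↥EY) ^ m * b)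
      (hau : ∀ i, ∃ n d : ↥B0, jE d ≠ 0 ∧ au i * jE d = jE n)
      (hah : ∀ i, ∃ g₀ : ↥(wpbE0 A EY hst), ah i = algebraMap ↥(wpbE0 A EY hst) ↥EY g₀)
      (hrel : algebraMap ↥(wpbE0 A EY hst) ↥EY u =
        (∑ i, ae i * (η - 1) ^ (i : ℕ)) * (∑ i, au i * (η - 1) ^ (i : ℕ)) *
          (∑ i, ah i * (η - 1) ^ (i : ℕ)) ^ p)
      (jB : ↥B0 →+* FF N) (hφj : ∀ b, φ (jB b) = jE b)
      (OF : ValuationSubring (FF N)) (redF : OF →+* κ₁) (hjO : ∀ b, jB b ∈ OF)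
      (hjred : ∀ b, redF ⟨jB b, hjO b⟩ = r₁ b)
      (hOFinv : ∀ z : OF, redF z ≠ 0 → ((z : FF N))⁻¹ ∈ OF)
      (hconst : ∀ (c : Kbar) (h : algebraMap Kbar (FF N) c ∈ OF),
        redF ⟨algebraMap Kbar (FF N) c, h⟩ ≠ 0 → wQ (redF ⟨algebraMap Kbar (FF N) c, h⟩) = 0)
      (π1K θK mθK : Kbar) (hπ1F : algebraMap Kbar (FF N) π1K ∈ OF)
      (hπ1red : redF ⟨algebraMap Kbar (FF N) π1K, hπ1F⟩ = 0)
      (hπ1φ : φ (algebraMap Kbar (FF N) π1K) = η - 1)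
      (hθF : algebraMap Kbar (FF N) θK ∈ OF)
      (hθφ : φ (algebraMap Kbar (FF N) θK) = aE + (η - 1) * mθ)
      (hθF' : algebraMap Kbar (FF N) θK⁻¹ ∈ OF)
      (hmF : algebraMap Kbar (FF N) mθK ∈ OF) (hmφ : φ (algebraMap Kbar (FF N) mθK) = mθ)
      (u1 : FF N) (hu1 : φ u1 = ∑ i, au i * (η - 1) ^ (i : ℕ))
      (c₁ : Kbar) (h2 : algebraMap Kbar (FF N) c₁ * u1 ∈ OF)
      (h20 : redF ⟨algebraMap Kbar (FF N) c₁ * u1, h2⟩ ≠ 0),
      (p : ℤ) ∣ wQ (redF ⟨algebraMap Kbar (FF N) c₁ * u1, h2⟩) - (vZero u - vInf u) := by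
  letI iRE := criAlg A N EY hle B0 s
  letI iRF := wpbAlgF0 A N B0 s
  letI iRE0 := wpbAlgE0 A N EY hle hst B0 s
  letI iFE0 := wpbAlgF0E0 A N EY hle hst
  letI iKE0 := wpbAlgK0E0 A N EY hle hst
  letI iKE := wpbAlgK0E A EY
  haveI hfr : IsFractionRing (Localization.AtPrime s) ↥(f0Field A N) :=
    wpb_frac A N B0 s hfrac
  haveI htw : IsScalarTower (Localization.AtPrime s) ↥(f0Field A N) ↥(wpbE0 A EY hst) :=
    wpb_tower A N EY hle hst B0 s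
  haveI ht1 : @IsScalarTower ↥(k0Field A) Kbar ↥EY Algebra.toSMul Algebra.toSMul
      Algebra.toSMul := wpb_tower_K0_Kbar A EY
  haveI ht2 : @IsScalarTower ↥(k0Field A) ↥(wpbE0 A EY hst) ↥EY Algebra.toSMul Algebra.toSMul
      Algebra.toSMul := wpb_tower_K0_E0 A N EY hle hst
  intro r₁ h₁ x εx y hx hxg hεx hm wQ hwQ hord0 hws hy0 hwy hxs hys hyx tB htB hxyp ρ hρ hinjR hpR ι hι σ₀ z₀ hz hσp hσR hdesc ζ hζ c hc hcong hgen₀ 𝔫 h𝔫 u g κ' hu hg hκ0 hσκ hσu hσn hfix vInf vZero hvInf hvInf1 hvInfF hvZero hvZero1 hvZeroF hκInf hκZero hgenE φ hφ x₀ ux hux hE cK hrelu ιA hcompatA ϖA hϖA eA hpA η aE mθ hη hmθ hπθ hθ0 jE hjE isC hCmul hC haK ae au ah hae hau hah hrel jB hφj OF redF hjO hjred hOFinv hconst π1K θK mθK hπ1F hπ1red hπ1φ hθF hθφ hθF' hmF hmφ u1 hu1 c₁ h2 h20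
  haveI := h𝔫
  haveI hAlgQ : Algebra.IsAlgebraic ℚ Kbar := AlgebraicClosure.isAlgebraic ℚ
  haveI hAlg : Algebra.IsAlgebraic (k0Field A) Kbar :=
    Algebra.IsAlgebraic.tower_top (K := ℚ) (k0Field A)
  exact s40j_pt_node (B := ↥B0) (F₀ := ↥(f0Field A N)) (E₀ := ↥(wpbE0 A EY hst)) (E := ↥EY)
    s A p hp hA N r₁ h₁ x εx y hx hxg hεx hm wQ hwQ hord0 hws hy0 hwy hxs hys hyx tB htB hxyp ρ hρ hinjR hpR ι hι σ₀ z₀ hz hσp hσR hdesc hζ c hc hcong hgen₀ 𝔫 u g κ' hu hg hκ0 hσκ hσu hσn hfix vInf vZero hvInf hvInf1 hvInfF hvZero hvZero1 hvZeroF hκInf hκZero hgenE φ hφ hux hE cK hrelu ιA hcompatA ϖA hϖA eA hpA η aE mθ hη hmθ hπθ hθ0 jE hjE isC hCmul hC haK ae au ah hae hau hah hrel jB hφj OF redF hjO hjred hOFinv hconst π1K θK mθK hπ1F hπ1red hπ1φ hθF hθφ hθF' hmF hmφ u1 hu1 c₁ h2 h20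

end

end Fermat.Agent.S40lib

end
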