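/-
Item 88 (S44), block (J-WILD), final assembler, LAYER B, group (Co) (helper19).

At the binders of `S44jWildPt` / `S44jWildWindC2` (the outputs of `cvw_wild`) and with the
Eisenstein constant `π1 = rt / (p ^ n ε₀) - 1` of `wkp_eis_pack` (helper29): the coordinates
`ke`, `cu`, `ah` of `c`, `u_x`, `h` in the basis `π1 ^ i`, in the shape of the group (Co) of
`s40j_pt_node` (helper22) at `E = EY`, `E₀ = cve0Field (cve0cT I EY hst)`, `φ = ` inclusion: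

* `wpc_coords` : `∃ u1 ke cu ah`, `u1` a Kummer function of the pulled-back class,
  `ke i` fixed by `I` (⇒ `hae` by `wck_hae`), `cu i ∈ F_N` fixed by `I`
  (⇒ `hau` by `wco_frac_of_fixed`), `ah i ∈ E₀` (= `hah`),
  `hu1 : u1 = ∑ i, cu i * π1 ^ i` and
  `hrel : u = (∑ i, ke i * π1 ^ i) * (∑ i, cu i * π1 ^ i) * (∑ i, ah i * π1 ^ i) ^ p`.
-/
import Mathlib
import Fermat.Agent.S36lib.Speed
import Fermat.Agent.S40lib.WildCoordFin
import Fermat.Agent.S40lib.DeckInst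
import Fermat.Agent.S40lib.Hub
import Fermat.Agent.S34lib.AuxPrime
import Fermat.Agent.RRlib.Modular

set_option autoImplicit false
set_option linter.style.haveILetI false
set_option linter.unusedSectionVars false
set_option linter.unusedVariables false
set_option synthInstance.maxHeartbeats 400000

noncomputable section

namespace Fermat.Agent.S40lib

open ModularCurve HahnSeries AlgebraicCurve Fermat.Agent.S24lib Fermat.Agent.S33lib
  Fermat.Agent.S34lib Fermat.Agent.RRlib Fermat.Agent.S36lib Fermat.Agent.S35lib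
  Fermat.Agent.GM Fermat.Agent.GoodRed Fermat.Agent.S18lib Fermat.Agent.S31lib
  Fermat.Agent.GalRep Fermat.Agent.HeckeBar

section Co

variable (M' M p : ℕ) [NeZero M'] [NeZero M] [NeZero p] [NeZero (M' * p)] [NeZero (M * p)]

set_option maxHeartbeats 1600000 in
/-- **LAYER B, group (Co)**: the coordinates at the binders of `S44jWildPt`. -/
theorem wpc_coords (hp : p.Prime) (hdvd : M' ∣ M) (B : ValuationSubring Kbar)
    {ζ : Kbar} (hζ : IsPrimitiveRoot ζ p)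
    (EY : IntermediateField Kbar (LaurentSeries Kbar))
    (hle : modularFunctionFieldBar (M * p) ≤ EY)
    (hst : ∀ σ ∈ B.inertiaSubgroupIn ℚ, ∀ z ∈ EY,
      coeffMap ((σ : Kbar ≃ₐ[ℚ] Kbar) : Kbar →+* Kbar) z ∈ EY)
    (x : JZero (M' * p)) :
    letI : RRBase Kbar (modularFunctionFieldBar (M * p)) := (mod_rrHyp (M * p)).toRRBase
    ∀ (ux : modularFunctionFieldBar (M * p)),
    gdfIsKummer (K := Kbar) p
      (auxLevelPull (M' * p) (M * p) (Nat.mul_dvd_mul_right hdvd p) x) ux →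
    ∀ (rt κ : Kbar), rt ≠ 0 → rt ^ p = κ →
    (∀ τ ∈ B.inertiaSubgroupIn ℚ, τ κ = κ) →
    (∀ τ ∈ B.inertiaSubgroupIn ℚ, (τ • x = x ↔ τ rt = rt)) →
    (∃ σ₁ ∈ S40hI1 p B, σ₁ • x ≠ x) →
    ∀ (u : ↥EY),
    (∀ τ ∈ B.inertiaSubgroupIn ℚ,
      coeffMap ((τ : Kbar ≃ₐ[ℚ] Kbar) : Kbar →+* Kbar) (u : LaurentSeries Kbar) =
        (u : LaurentSeries Kbar)) →
    (∃ (c : Kbar) (h : ↥EY), c ≠ 0 ∧ h ≠ 0 ∧
      (u : LaurentSeries Kbar) = algebraMap Kbar (LaurentSeries Kbar) c *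
        (ux : LaurentSeries Kbar) * (h : LaurentSeries Kbar) ^ p) →
    ∀ (n : ℤ) (ε0 π1 : Kbar), (∀ τ ∈ B.inertiaSubgroupIn ℚ, τ ε0 = ε0) → ε0 ≠ 0 →
    π1 = rt / ((p : Kbar) ^ n * ε0) - 1 →
    ∃ (u1 : modularFunctionFieldBar (M * p)) (ke : Fin p → Kbar)
      (cu : Fin p → modularFunctionFieldBar (M * p)) (ah : Fin p → ↥EY),
      gdfIsKummer (K := Kbar) p
        (auxLevelPull (M' * p) (M * p) (Nat.mul_dvd_mul_right hdvd p) x) u1 ∧
      (∀ i, ∀ τ ∈ B.inertiaSubgroupIn ℚ, τ (ke i) = ke i) ∧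
      (∀ i, ∀ τ ∈ B.inertiaSubgroupIn ℚ, coeffMap ((τ : Kbar ≃ₐ[ℚ] Kbar) : Kbar →+* Kbar)
        (cu i : LaurentSeries Kbar) = (cu i : LaurentSeries Kbar)) ∧
      (∀ i, ah i ∈ cve0Field (cve0cT (B.inertiaSubgroupIn ℚ) EY hst)) ∧
      u1 = ∑ i : Fin p, cu i *
        algebraMap Kbar (modularFunctionFieldBar (M * p)) π1 ^ (i : ℕ) ∧
      (⟨(u1 : LaurentSeries Kbar), hle u1.2⟩ : ↥EY) =
        ∑ i : Fin p, (⟨(cu i : LaurentSeries Kbar), hle (cu i).2⟩ : ↥EY) *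
          algebraMap Kbar ↥EY π1 ^ (i : ℕ) ∧
      u = (∑ i : Fin p, algebraMap Kbar ↥EY (ke i) * algebraMap Kbar ↥EY π1 ^ (i : ℕ)) *
          (∑ i : Fin p, (⟨(cu i : LaurentSeries Kbar), hle (cu i).2⟩ : ↥EY) *
            algebraMap Kbar ↥EY π1 ^ (i : ℕ)) *
          (∑ i : Fin p, ah i * algebraMap Kbar ↥EY π1 ^ (i : ℕ)) ^ p := by
  intro ux hux rt κ hrt0 hpow hκI hSt hmove u huI hch n ε0 π1 hε0I hε0 hπ1
  letI : RRBase Kbar (modularFunctionFieldBar (M * p)) := (mod_rrHyp (M * p)).toRRBase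
  obtain ⟨c, h, hc, hh, hrel⟩ := hch
  obtain ⟨σ₁, hσ₁, hσ₁x⟩ := hmove
  have hp0 : (p : Kbar) ≠ 0 := Nat.cast_ne_zero.mpr hp.ne_zero
  have hd0 : (p : Kbar) ^ n * ε0 ≠ 0 := mul_ne_zero (zpow_ne_zero n hp0) hε0
  have hab : ((p : Kbar) ^ n * ε0)⁻¹ * rt + (-1) = π1 := by
    rw [hπ1, div_eq_mul_inv]
    ring
  have haH : ∀ τ ∈ B.inertiaSubgroupIn ℚ, τ (((p : Kbar) ^ n * ε0)⁻¹) =
      ((p : Kbar) ^ n * ε0)⁻¹ := by
    intro τ hτ
    rw [map_inv₀, map_mul, map_zpow₀, map_natCast, hε0I τ hτ]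
  have hbH : ∀ τ ∈ B.inertiaSubgroupIn ℚ, τ (-1 : Kbar) = -1 := by
    intro τ _
    rw [map_neg, map_one]
  have hrtp : ∀ τ ∈ B.inertiaSubgroupIn ℚ, τ (rt ^ p) = rt ^ p := by
    intro τ hτ
    rw [hpow]
    exact hκI τ hτ
  have hSt' : ∀ τ ∈ B.inertiaSubgroupIn ℚ, τ rt = rt →
      τ • auxLevelPull (M' * p) (M * p) (Nat.mul_dvd_mul_right hdvd p) x =
        auxLevelPull (M' * p) (M * p) (Nat.mul_dvd_mul_right hdvd p) x := by
    intro τ hτ hτrt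
    rw [← auxLevelPull_smul, (hSt τ hτ).mpr hτrt]
  have hσrt : σ₁ rt ≠ rt := fun h0 => hσ₁x ((hSt σ₁ hσ₁.1).mpr h0)
  obtain ⟨u1, ke, cu, ah, hk1, hke, hcu, hah, hu1, hU1, hrelF⟩ :=
    wca_coords_fin (M * p) hp hζ (B.inertiaSubgroupIn ℚ) hux EY hle hst hrt0 hrtp hSt' σ₁
      hσ₁.1 (hσ₁.2 ζ hζ.pow_eq_one) hσrt (((p : Kbar) ^ n * ε0)⁻¹) (-1) (inv_ne_zero hd0)
      haH hbH u h hc hh hrel huI
  rw [hab] at hu1 hU1 hrelF
  exact ⟨u1, ke, cu, ah, hk1, hke, hcu,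
    fun i => dki_mem B EY hst (ah i) (hah i), hu1, hU1, hrelF⟩

end Co

end Fermat.Agent.S40lib

end
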