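/-
Item 88 (S44), block (J-WILD), final assembler, LAYER B, group (Co), CALL-READY (helper19).

`wpc_ready` : at the binders of `S44jWildPt` (+ the Eisenstein constant `π1` of `wkp_eis_pack`),
the hypotheses `ae au ah hae hau hah hrel u1 hu1` of `wpb_call_node` / `s40j_pt_node` /
`s40j_pt_smooth` VERBATIM, at `E = EY`, `E₀ = wpbE0 A EY hst`, `B = S.B` (`S = nodeSetupNj`),
`jE = criIncl`, `isC = wcfIsC S`, `φ f = ⟨f, hle f.2⟩`, `η - 1 = algebraMap Kbar EY π1`: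
`wpc_coords` + `wck_hae` (helper13) + `wco_frac_of_fixed` (helper23) + `dki_mem` (helper4).
-/
import Mathlib
import Fermat.Agent.S36lib.Speed
import Fermat.Agent.S40lib.WildPtCo
import Fermat.Agent.S40lib.WindcK
import Fermat.Agent.S40lib.WindcCo
import Fermat.Agent.S40lib.WildPtCtx

set_option autoImplicit false
set_option linter.style.haveILetI false
set_option linter.unusedSectionVars false
set_option linter.unusedVariables false
set_option synthInstance.maxHeartbeats 400000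

noncomputable section

namespace Fermat.Agent.S40lib

open ModularCurve HahnSeries AlgebraicCurve Fermat.Agent.S24lib Fermat.Agent.S33lib
  Fermat.Agent.S34lib Fermat.Agent.RRlib Fermat.Agent.S36lib Fermat.Agent.S35lib
  Fermat.Agent.GM Fermat.Agent.GoodRed Fermat.Agent.S18lib Fermat.Agent.S31lib
  Fermat.Agent.GalRep Fermat.Agent.HeckeBar

section Ready

variable (M' M p : ℕ) [NeZero M'] [NeZero M] [NeZero p] [NeZero (M' * p)] [NeZero (M * p)]

set_option maxHeartbeats 3200000 in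
/-- **LAYER B, group (Co), call-ready.** -/
theorem wpc_ready (hp : p.Prime) (hpM : ¬ p ∣ M) (hdvd : M' ∣ M) (B : ValuationSubring Kbar)
    (hB : B.LiesOverPrime p)
    (R : ConstRed B (IsLocalRing.residue B)
      (↥(modularFunctionFieldFullC (IsLocalRing.ResidueField B) M)) (FF (M * p)))
    (hR : IsSeriesRed R)
    {ζ : Kbar} (hζ : IsPrimitiveRoot ζ p)
    (EY : IntermediateField Kbar (LaurentSeries Kbar))
    (hle : modularFunctionFieldBar (M * p) ≤ EY)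
    (hst : ∀ σ ∈ B.inertiaSubgroupIn ℚ, ∀ z ∈ EY,
      coeffMap ((σ : Kbar ≃ₐ[ℚ] Kbar) : Kbar →+* Kbar) z ∈ EY)
    (φ : FF (M * p) →+* ↥EY) (hφ : ∀ f : FF (M * p), φ f = ⟨(f : LaurentSeries Kbar), hle f.2⟩)
    (x : JZero (M' * p)) :
    letI : RRBase Kbar (modularFunctionFieldBar (M * p)) := (mod_rrHyp (M * p)).toRRBase
    ∀ (ux : modularFunctionFieldBar (M * p)),
    gdfIsKummer (K := Kbar) p
      (auxLevelPull (M' * p) (M * p) (Nat.mul_dvd_mul_right hdvd p) x) ux →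
    ∀ (rt κ : Kbar), rt ≠ 0 → rt ^ p = κ →
    (∀ τ ∈ B.inertiaSubgroupIn ℚ, τ κ = κ) →
    (∀ τ ∈ B.inertiaSubgroupIn ℚ, (τ • x = x ↔ τ rt = rt)) →
    (∃ σ₁ ∈ S40hI1 p B, σ₁ • x ≠ x) →
    ∀ (u : ↥EY),
    (∀ τ ∈ B.inertiaSubgroupIn ℚ,
      coeffMap ((τ : Kbar ≃ₐ[ℚ] Kbar) : Kbar →+* Kbar) (u : LaurentSeries Kbar) =
        (u : LaurentSeries Kbar)) →
    (∃ (c : Kbar) (h : ↥EY), c ≠ 0 ∧ h ≠ 0 ∧
      (u : LaurentSeries Kbar) = algebraMap Kbar (LaurentSeries Kbar) c *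
        (ux : LaurentSeries Kbar) * (h : LaurentSeries Kbar) ^ p) →
    ∀ (n : ℤ) (ε0 π1 : Kbar), (∀ τ ∈ B.inertiaSubgroupIn ℚ, τ ε0 = ε0) → ε0 ≠ 0 →
    π1 = rt / ((p : Kbar) ^ n * ε0) - 1 →
    ∀ (η : ↥EY), η - 1 = algebraMap Kbar ↥EY π1 →
    ∃ (u1 : modularFunctionFieldBar (M * p)) (ae au ah : Fin p → ↥EY),
      gdfIsKummer (K := Kbar) p
        (auxLevelPull (M' * p) (M * p) (Nat.mul_dvd_mul_right hdvd p) x) u1 ∧
      (∀ i, ae i = 0 ∨ ∃ m : ℤ,
        ∃ b ∈ g2wUK (criIncl B (M * p) EY hle (nodeSetupNj B M p hp hpM hB R hR).B)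
          (wcfIsC (nodeSetupNj B M p hp hpM hB R hR)), ae i = (p : ↥EY) ^ m * b) ∧
      (∀ i, ∃ n d : (nodeSetupNj B M p hp hpM hB R hR).B,
        criIncl B (M * p) EY hle (nodeSetupNj B M p hp hpM hB R hR).B d ≠ 0 ∧
        au i * criIncl B (M * p) EY hle (nodeSetupNj B M p hp hpM hB R hR).B d =
          criIncl B (M * p) EY hle (nodeSetupNj B M p hp hpM hB R hR).B n) ∧
      (∀ i, ∃ g₀ : ↥(wpbE0 B EY hst), ah i = algebraMap ↥(wpbE0 B EY hst) ↥EY g₀) ∧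
      u = (∑ i, ae i * (η - 1) ^ (i : ℕ)) * (∑ i, au i * (η - 1) ^ (i : ℕ)) *
          (∑ i, ah i * (η - 1) ^ (i : ℕ)) ^ p ∧
      φ u1 = ∑ i, au i * (η - 1) ^ (i : ℕ) := by
  intro ux hux rt κ hrt0 hpow hκI hSt hmove u huI hch n ε0 π1 hε0I hε0 hπ1 η hη
  letI : RRBase Kbar (modularFunctionFieldBar (M * p)) := (mod_rrHyp (M * p)).toRRBase
  obtain ⟨u1, ke, cu, ah, hk1, hke, hcu, hah, -, hU1, hrel⟩ :=
    wpc_coords M' M p hp hdvd B hζ EY hle hst x ux hux rt κ hrt0 hpow hκI hSt hmove u huI hch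
      n ε0 π1 hε0I hε0 hπ1
  have hφC : ∀ c : Kbar, φ (algebraMap Kbar (FF (M * p)) c) = algebraMap Kbar ↥EY c := by
    intro c
    rw [hφ]
    rfl
  have hφj : ∀ b, φ (wcfJ B M p hp hpM hB R hR b) =
      criIncl B (M * p) EY hle (nodeSetupNj B M p hp hpM hB R hR).B b := by
    intro b
    rw [hφ]
    rfl
  have hϖE : (p : ↥EY) = φ (algebraMap Kbar (FF (M * p)) (p : Kbar)) := by
    rw [map_natCast, map_natCast]
  refine ⟨u1, fun i => algebraMap Kbar ↥EY (ke i),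
    fun i => ⟨(cu i : LaurentSeries Kbar), hle (cu i).2⟩, ah, hk1, ?_, ?_, ?_, ?_, ?_⟩
  · exact wck_hae B M p hp hpM hB R hR φ _ hφj (p : ↥EY) hϖE ke hke _
      (fun i => (hφC (ke i)).symm)
  · intro i
    obtain ⟨a, b, hb, hab⟩ := wco_frac_of_fixed B M p hp hpM hB R hR (cu i) (hcu i)
    refine ⟨a, b, ?_, ?_⟩
    · intro h0
      apply hb
      exact cri_incl_injective B (M * p) EY hle _ (h0.trans (map_zero _).symm)
    · apply Subtype.ext
      have h1 := congrArg (fun z : FF (M * p) => (z : LaurentSeries Kbar)) hab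
      exact h1
  · intro i
    exact ⟨⟨ah i, hah i⟩, rfl⟩
  · rw [hη]
    exact hrel
  · rw [hη, hφ]
    exact hU1

end Ready

end Fermat.Agent.S40lib

end
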