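import Mathlib
import Fermat.Agent.S36lib.Speed
import Fermat.Agent.S40lib.WindcKappa2
import Fermat.Agent.S40lib.WindcEis

/-!
# Item 88 (S44), block (J-WILD), (E)-INSTANTIATION (helper15)

The Eisenstein data of `g2w_point_node` / `wpw_node` / `wpw_smooth` from the constants of `κ`.

* `wei_consts` : in the situation of `wkp_eis` (`κ` inertia-fixed, `v(κ) = v(p)^(p n)`,
  `rt ^ p = κ`, some `τ ∈ I₁` moves `rt`): constants `aK π1K θK mθK ∈ ℚ̄` with
  `(π1K + 1) ^ p = 1 + p aK`, `π1K ^ p = p θK`, `θK = aK + π1K mθK`, `aK` an inertia-fixed unit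
  of `B`, `π1K ∈ 𝔪_B` (residue `0`), `θK` a unit of `B`, `mθK ∈ B`
  (= `hπ1A hπ1m hθA hθA' hmA` of `wpw_node`);
* `wei_abs` : for a ring hom `ψ : K → E` (`ψ = φ ∘ algebraMap K F`), `L → E`, `x` prime in `L`,
  `ϖ ∈ L` with image `ψ p` in `E`, `ψ aK ∈ D = pdPrimeLoc E x`:
  `π1 := ψ π1K`, `θ := ψ θK`, `a := ψ aK`, `mθ := ψ mθK` satisfy
  `π1 ^ p = ϖ θ`, `θ ≠ 0`, `θ = a + π1 mθ`, `π1` and `mθ` integral over `D`
  (= `hϖθ hθ0 hθ hπint hmint` of `wpw_node`).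
Complete proofs.
-/

set_option autoImplicit false
set_option linter.style.haveILetI false
set_option linter.unusedVariables false
set_option linter.unusedSectionVars false

noncomputable section

namespace Fermat.Agent.S40lib

open Fermat.Agent.S36lib Fermat.Agent.S33lib

section Abs

variable {K L E : Type*} [Field K] [CommRing L] [IsDomain L] [Field E] [Algebra L E]

/-- **the Eisenstein data in `E`** from constants of `K`. -/
theorem wei_abs (ψ : K →+* E) (xL : L) (hxL : Prime xL) (ϖ : L) {p : ℕ} (hp : 0 < p)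
    (hϖ : algebraMap L E ϖ = ψ (p : K))
    (π1K θK aK mθK : K) (hη : (π1K + 1) ^ p = 1 + (p : K) * aK)
    (hmθ : mθK ∈ Subring.closure ({π1K} : Set K))
    (hθ : θK = aK + π1K * mθK) (hpow : π1K ^ p = (p : K) * θK) (hθ0 : θK ≠ 0)
    (haD : ψ aK ∈ pdPrimeLoc E xL hxL) :
    (ψ π1K) ^ p = algebraMap L E ϖ * ψ θK ∧ ψ θK ≠ 0 ∧
      ψ θK = ψ aK + ψ π1K * ψ mθK ∧
      IsIntegral (pdPrimeLoc E xL hxL) (ψ π1K) ∧
      IsIntegral (pdPrimeLoc E xL hxL) (ψ mθK) := by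
  have h1 : (ψ π1K) ^ p = algebraMap L E ϖ * ψ θK := by
    rw [hϖ, ← map_pow, hpow, map_mul]
  have h2 : ψ θK ≠ 0 := (map_ne_zero ψ).mpr hθ0
  have h3 : ψ θK = ψ aK + ψ π1K * ψ mθK := by
    rw [hθ, map_add, map_mul]
  have hη' : (ψ π1K + 1) ^ p = 1 + (p : E) * ψ aK := by
    have := congrArg ψ hη
    rw [map_pow, map_add, map_one, map_add, map_one, map_mul, map_natCast] at this
    exact this
  have hcl : ψ mθK ∈ Subring.closure ({ψ π1K + 1 - 1} : Set E) := by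
    have hle : Subring.closure ({π1K} : Set K) ≤
        (Subring.closure ({ψ π1K + 1 - 1} : Set E)).comap ψ := by
      refine Subring.closure_le.2 ?_
      intro z hz
      rw [Set.mem_singleton_iff] at hz
      rw [hz]
      show ψ π1K ∈ Subring.closure ({ψ π1K + 1 - 1} : Set E)
      refine Subring.subset_closure ?_
      rw [Set.mem_singleton_iff]
      ring
    exact hle hmθ
  obtain ⟨h4, h5⟩ := g2w_eis_integral (pdPrimeLoc E xL hxL) p hp (ψ π1K + 1) (ψ aK) hη' haD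
    (ψ mθK) hcl
  have e : ψ π1K + 1 - 1 = ψ π1K := by ring
  rw [e] at h4
  exact ⟨h1, h2, h3, h4, h5⟩

end Abs

section Conc

variable (B : ValuationSubring (AlgebraicClosure ℚ))

/-- the residue of an element of the maximal ideal is `0` -/
theorem wei_residue_zero {x : AlgebraicClosure ℚ} (hx : x ∈ B.nonunits) :
    ∃ h : x ∈ B, IsLocalRing.residue B ⟨x, h⟩ = 0 := by
  obtain ⟨hB, hm⟩ := ValuationSubring.mem_nonunits_iff_exists_mem_maximalIdeal.mp hx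
  refine ⟨hB, ?_⟩
  rw [IsLocalRing.residue_eq_zero_iff]
  exact hm

/-- **the Eisenstein constants of `κ`**, with the relation `(π1 + 1) ^ p = 1 + p a`. -/
theorem wei_consts {p : ℕ} (hp : p.Prime) (hB : B.LiesOverPrime p)
    (κ rt : AlgebraicClosure ℚ) (hκ0 : κ ≠ 0) (hrt : rt ^ p = κ)
    (hκ : ∀ τ ∈ B.inertiaSubgroupIn ℚ, τ κ = κ) (n : ℤ)
    (hv : B.valuation κ = B.valuation (p : AlgebraicClosure ℚ) ^ ((p : ℤ) * n))
    (hmove : ∃ τ ∈ S40hI1 p B, τ rt ≠ rt) :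
    ∃ ε0 aK π1K θK mθK : AlgebraicClosure ℚ,
      (∀ τ ∈ B.inertiaSubgroupIn ℚ, τ ε0 = ε0) ∧ (∀ τ ∈ B.inertiaSubgroupIn ℚ, τ aK = aK) ∧
      ε0 ∈ B ∧ ε0⁻¹ ∈ B ∧ ε0 ≠ 0 ∧ aK ∈ B ∧ aK⁻¹ ∈ B ∧ aK ≠ 0 ∧
      π1K = rt / ((p : AlgebraicClosure ℚ) ^ n * ε0) - 1 ∧
      (∃ h : π1K ∈ B, IsLocalRing.residue B ⟨π1K, h⟩ = 0) ∧ π1K ≠ 0 ∧
      mθK ∈ Subring.closure ({π1K} : Set (AlgebraicClosure ℚ)) ∧ mθK ∈ B ∧
      θK = aK + π1K * mθK ∧ θK ∈ B ∧ θK⁻¹ ∈ B ∧ θK ≠ 0 ∧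
      π1K ^ p = (p : AlgebraicClosure ℚ) * θK ∧
      (π1K + 1) ^ p = 1 + (p : AlgebraicClosure ℚ) * aK := by
  obtain ⟨ε0, a, hε0fix, hafix, hε0B, hε0iB, hε00, haB, haiB, ha0, hη⟩ :=
    wkp_eis B hp hB κ rt hκ0 hrt hκ n hv hmove
  have hp0 : (p : AlgebraicClosure ℚ) ≠ 0 := Nat.cast_ne_zero.mpr hp.ne_zero
  have hvp : B.valuation (p : AlgebraicClosure ℚ) < 1 := k0_val_q_lt_one B p hB
  obtain ⟨η, hηdef⟩ : ∃ η : AlgebraicClosure ℚ,
      η = rt / ((p : AlgebraicClosure ℚ) ^ n * ε0) := ⟨_, rfl⟩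
  rw [← hηdef] at hη
  obtain ⟨mθ, hmθ, hπ⟩ := wkp_eis_data p hp η a hη hp0
  -- `v(a) = 1`
  have hva : B.valuation a = 1 := by
    refine le_antisymm ((B.valuation_le_one_iff a).mpr haB) ?_
    have h1 : B.valuation a⁻¹ ≤ 1 := (B.valuation_le_one_iff _).mpr haiB
    rw [map_inv₀] at h1
    have hva0 : B.valuation a ≠ 0 := (Valuation.ne_zero_iff _).mpr ha0
    exact (inv_le_one₀ (zero_lt_iff.mpr hva0)).mp h1
  -- `η` is a unit
  have hvpa : B.valuation ((p : AlgebraicClosure ℚ) * a) < 1 := by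
    rw [map_mul, hva, mul_one]; exact hvp
  have hvη : B.valuation η = 1 := by
    have h1 : B.valuation η ^ p = 1 := by
      rw [← map_pow, hη]
      have h2 : B.valuation ((p : AlgebraicClosure ℚ) * a) <
          B.valuation (1 : AlgebraicClosure ℚ) := by
        rw [map_one]; exact hvpa
      rw [Valuation.map_add_eq_of_lt_left _ h2, map_one]
    rcases lt_trichotomy (B.valuation η) 1 with h | h | h
    · exact absurd h1 (pow_lt_one₀ zero_le h hp.ne_zero).ne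
    · exact h
    · exact absurd h1 (one_lt_pow₀ h hp.ne_zero).ne'
  have hηB : η ∈ B := (B.valuation_le_one_iff η).mp hvη.le
  have hπB : η - 1 ∈ B := sub_mem hηB B.one_mem
  have hmθB : mθ ∈ B := by
    have hle : Subring.closure ({η - 1} : Set (AlgebraicClosure ℚ)) ≤ B.toSubring := by
      refine Subring.closure_le.2 ?_
      intro z hz
      rw [Set.mem_singleton_iff] at hz
      rw [hz]
      exact hπB
    exact hle hmθ
  have hθB : a + (η - 1) * mθ ∈ B := B.add_mem _ _ haB (B.mul_mem _ _ hπB hmθB)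
  -- `π1 ∈ 𝔪`
  have hvπ : B.valuation (η - 1) < 1 := by
    by_contra hcon
    have h1 : B.valuation (η - 1) = 1 :=
      le_antisymm ((B.valuation_le_one_iff _).mpr hπB) (not_lt.mp hcon)
    have h2 : B.valuation ((η - 1) ^ p) = 1 := by rw [map_pow, h1, one_pow]
    rw [hπ, map_mul] at h2
    have h3 : B.valuation (p : AlgebraicClosure ℚ) * B.valuation (a + (η - 1) * mθ) < 1 :=
      mul_lt_one_of_nonneg_of_lt_one_left zero_le hvp ((B.valuation_le_one_iff _).mpr hθB)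
    rw [h2] at h3
    exact lt_irrefl _ h3
  have hvθ : B.valuation (a + (η - 1) * mθ) = 1 := by
    have h2 : B.valuation ((η - 1) * mθ) < B.valuation a := by
      rw [hva, map_mul]
      exact mul_lt_one_of_nonneg_of_lt_one_left zero_le hvπ
        ((B.valuation_le_one_iff _).mpr hmθB)
    rw [Valuation.map_add_eq_of_lt_left _ h2, hva]
  obtain ⟨-, hθiB, hθ0⟩ := wkp_unit_of_val B hvθ
  have hπ0 : η - 1 ≠ 0 := by
    intro h0
    have h1 : (η - 1) ^ p = 0 := by rw [h0, zero_pow hp.ne_zero]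
    rw [hπ] at h1
    exact (mul_ne_zero hp0 hθ0) h1
  have hη1 : (η - 1 + 1) ^ p = 1 + (p : AlgebraicClosure ℚ) * a := by
    rw [sub_add_cancel]; exact hη
  exact ⟨ε0, a, η - 1, a + (η - 1) * mθ, mθ, hε0fix, hafix, hε0B, hε0iB, hε00, haB, haiB, ha0,
    by rw [hηdef], wei_residue_zero B ((B.mem_nonunits_iff).mpr hvπ), hπ0, hmθ, hmθB, rfl, hθB,
    hθiB, hθ0, hπ, hη1⟩

end Conc

end Fermat.Agent.S40lib

end
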