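import Mathlib
import Fermat.Agent.S36lib.Speed
import Fermat.Agent.S40lib.WindcEInst

/-!
# Item 88 (S44), block (J-WILD), (E)-INSTANTIATION in `η`-form (helper15)

The group (E) and the constants of the group (F) of `s40j_pt_node` / `s40j_pt_smooth`
(WildPtAsm, helper22), from the constants `π1K θK aK mθK` of `wei_consts`:
`η := algebraMap K E (π1K + 1)`, `aE := algebraMap K E aK`, `mθ := algebraMap K E mθK`.

* `wei_eta` : `hη`, `hmθ`, `hπθ`, `hθ0` and `hπ1φ`, `hθφ`, `hmφ` for any `K`-algebra hom
  `φ : F →ₐ[K] E`.
Complete proofs.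
-/

set_option autoImplicit false
set_option linter.style.haveILetI false
set_option linter.unusedVariables false
set_option linter.unusedSectionVars false

noncomputable section

namespace Fermat.Agent.S40lib

section Eta

variable {K F E : Type*} [Field K] [Field F] [Algebra K F] [Field E] [Algebra K E]

/-- **the group (E) of `s40j_pt_node` in `η`-form, with the constants of (F).** -/
theorem wei_eta (φ : F →ₐ[K] E) {p : ℕ}
    (π1K θK aK mθK : K) (hη : (π1K + 1) ^ p = 1 + (p : K) * aK)
    (hmθ : mθK ∈ Subring.closure ({π1K} : Set K))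
    (hθ : θK = aK + π1K * mθK) (hpow : π1K ^ p = (p : K) * θK) (hθ0 : θK ≠ 0) :
    (algebraMap K E (π1K + 1)) ^ p = 1 + (p : E) * algebraMap K E aK ∧
    algebraMap K E mθK ∈ Subring.closure ({algebraMap K E (π1K + 1) - 1} : Set E) ∧
    (algebraMap K E (π1K + 1) - 1) ^ p =
      (p : E) * (algebraMap K E aK + (algebraMap K E (π1K + 1) - 1) * algebraMap K E mθK) ∧
    algebraMap K E aK + (algebraMap K E (π1K + 1) - 1) * algebraMap K E mθK ≠ 0 ∧
    φ (algebraMap K F π1K) = algebraMap K E (π1K + 1) - 1 ∧
    φ (algebraMap K F θK) =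
      algebraMap K E aK + (algebraMap K E (π1K + 1) - 1) * algebraMap K E mθK ∧
    φ (algebraMap K F mθK) = algebraMap K E mθK := by
  have e1 : algebraMap K E (π1K + 1) - 1 = algebraMap K E π1K := by
    rw [map_add, map_one]; ring
  have eθ : algebraMap K E aK + algebraMap K E π1K * algebraMap K E mθK = algebraMap K E θK := by
    rw [hθ, map_add, map_mul]
  rw [e1, eθ]
  refine ⟨?_, ?_, ?_, ?_, ?_, ?_, ?_⟩
  · rw [← map_pow, hη, map_add, map_one, map_mul, map_natCast]
  · have hle : Subring.closure ({π1K} : Set K) ≤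
        (Subring.closure ({algebraMap K E π1K} : Set E)).comap (algebraMap K E) := by
      refine Subring.closure_le.2 ?_
      intro z hz
      rw [Set.mem_singleton_iff] at hz
      rw [hz]
      exact Subring.subset_closure (Set.mem_singleton _)
    exact hle hmθ
  · rw [← map_pow, hpow, map_mul, map_natCast]
  · exact (map_ne_zero (algebraMap K E)).mpr hθ0
  · exact φ.commutes π1K
  · exact φ.commutes θK
  · exact φ.commutes mθK

end Eta

end Fermat.Agent.S40lib

end
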