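import Mathlib
import Fermat.Agent.S36lib.Speed
import Fermat.Agent.S40lib.WildPtB
import Fermat.Agent.S40lib.WindcK3
import Fermat.Agent.S40lib.WindcEInst2

/-!
# Item 88 (S44), block (W), layer B: `wpb_call_node` with the groups `(K)`, `(E)`, `(F)`, `(Co-e)`
DISCHARGED (helper13)

`wpg_node`: helper8's `wpb_call_node` (= `s40j_pt_node` in the `WildPtCtx` context) for
`B0 := S.B`, `S : NodeSetup (k0Val A) (k0Res A) Fk (f0Field A N)` (so `nodeSetupNj …`), ANY constant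
reduction `Rc` (`R` / `glmZero … R`) and ANY `r₁` (`S.redInf` / `S.redZero`) with `hr₁c`, `hjO`,
`hjred` for `jB := wp2J A N S` (`= wcfJ = wrfJB` by `rfl`), `wQ := Q.ord`, `jE := criIncl …`,
`isC := wcfIsC S`.  Filled: `hwQ`, `η := algebraMap Kbar EY (π1K + 1)`, `aE`, `mθ`, `hη`, `hmθ`,
`hπθ`, `hθ0`, `hjE`, `hCmul`, `hC`, `haK`, `ae`, `hae`, `OF`, `redF`, `hOFinv`, `hconst`,
`hπ1F`, `hπ1red`, `hπ1φ`, `hθF`, `hθφ`, `hθF'`, `hmF`, `hmφ`.
Inputs instead: the constants of `wei_consts` (helper15) and the coordinates of `wpc_coords`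
(helper19) in their `π1`-form.
-/

set_option autoImplicit false
set_option linter.style.haveILetI false
set_option linter.unusedSectionVars false
set_option linter.unusedVariables false
set_option synthInstance.maxHeartbeats 400000
set_option maxHeartbeats 4000000

noncomputable section

namespace Fermat.Agent.S40lib

open ModularCurve HahnSeries AlgebraicCurve Fermat.Agent.S24lib Fermat.Agent.S33lib
  Fermat.Agent.S34lib Fermat.Agent.RRlib Fermat.Agent.S36lib IsLocalRing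
  Fermat.Agent.GoodRed

section

variable (A : ValuationSubring Kbar) (N : ℕ) [NeZero N] [RRBase Kbar (FF N)]
  (EY : IntermediateField Kbar (LaurentSeries Kbar))
  (hle : modularFunctionFieldBar N ≤ EY)
  (hst : ∀ σ ∈ A.inertiaSubgroupIn ℚ, ∀ x ∈ EY,
    coeffMap ((σ : Kbar ≃ₐ[ℚ] Kbar) : Kbar →+* Kbar) x ∈ EY)
  {Fk : Type*} [Field Fk] [Algebra (IsLocalRing.ResidueField A) Fk]
  (S : NodeSetup (k0Val A) (k0Res A) Fk (f0Field A N)) [IsNoetherianRing ↥S.B]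
  (s : Ideal ↥S.B) [hs : s.IsPrime] [UniqueFactorizationMonoid (Localization.AtPrime s)]
  (p : ℕ) (hp : p.Prime) (hA : A.LiesOverPrime p)
  {k : Type*} [Field k] [IsAlgClosed k]

include hp hA in
/-- **`wpb_call_node` with `(K)`, `(E)`, `(F)`, `(Co-e)` discharged.** -/
theorem wpg_node
    (hfrac : ∀ z : ↥(f0Field A N), ∃ a b : ↥S.B, b ≠ 0 ∧
      z * (b : ↥(f0Field A N)) = (a : ↥(f0Field A N)))
    (Rc : ConstRed A (IsLocalRing.residue A) Fk (FF N))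
    (Q : Place (IsLocalRing.ResidueField A) Fk) :
    letI iRE := criAlg A N EY hle S.B s
    letI iRF := wpbAlgF0 A N S.B s
    letI iRE0 := wpbAlgE0 A N EY hle hst S.B s
    letI iFE0 := wpbAlgF0E0 A N EY hle hst
    letI iKE0 := wpbAlgK0E0 A N EY hle hst
    letI iKE := wpbAlgK0E A EY
    haveI hfr : IsFractionRing (Localization.AtPrime s) ↥(f0Field A N) :=
      wpb_frac A N S.B s hfrac
    ∀ (r₁ : ↥S.B →+* Fk)
      (hr₁c : ∀ a0 : k0Val A,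
        r₁ (S.constB a0) = algebraMap (IsLocalRing.ResidueField A) Fk (k0Res A a0))
      (hjO : ∀ b, wp2J A N S b ∈ Rc.O) (hjred : ∀ b, Rc.red ⟨wp2J A N S b, hjO b⟩ = r₁ b)
      (h₁ : RingHom.ker r₁ ≤ s)
      (x εx y : ↥S.B) (hx : x ∈ RingHom.ker r₁) (hxg : ∀ z ∈ RingHom.ker r₁, x ∣ εx * z)
      (hεx : εx ∉ s)
      (hm : maximalIdeal (Localization.AtPrime s) =
        Ideal.span {algebraMap ↥S.B (Localization.AtPrime s) x,
          algebraMap ↥S.B (Localization.AtPrime s) y})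
      (hord0 : ∀ c : ↥S.B, r₁ c ≠ 0 → 0 ≤ Q.ord (r₁ c))
      (hws : ∀ c : ↥S.B, c ∉ s → Q.ord (r₁ c) = 0)
      (hy0 : r₁ y ≠ 0) (hwy : Q.ord (r₁ y) = 1)
      (hxs : Prime (algebraMap ↥S.B (Localization.AtPrime s) x))
      (hys : Prime (algebraMap ↥S.B (Localization.AtPrime s) y))
      (hyx : ¬ algebraMap ↥S.B (Localization.AtPrime s) x ∣ algebraMap ↥S.B (Localization.AtPrime s) y)
      (tB : ↥S.B) (htB : tB ∉ s)
      (hxyp : algebraMap ↥S.B (Localization.AtPrime s) x * algebraMap ↥S.B (Localization.AtPrime s) y =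
        algebraMap ↥S.B (Localization.AtPrime s) tB * (p : Localization.AtPrime s))
      (ρ : Localization.AtPrime s →+* k)
      (hρ : Function.Surjective ρ)
      (hinjR : Function.Injective (algebraMap (Localization.AtPrime s) ↥(wpbE0 A EY hst)))
      (hpR : (p : Localization.AtPrime s) ∈ maximalIdeal (Localization.AtPrime s))
      (ι : ↥(wpbE0 A EY hst) →ₐ[Localization.AtPrime s] ↥EY) (hι : ∀ e, ι e = algebraMap ↥(wpbE0 A EY hst) ↥EY e)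
      (σ₀ : ↥(wpbE0 A EY hst) →+* ↥(wpbE0 A EY hst)) (z₀ : ↥(wpbE0 A EY hst)) (hz : IsIntegral (Localization.AtPrime s) z₀)
      (hσp : σ₀^[p] z₀ = z₀)
      (hσR : ∀ r : Localization.AtPrime s,
        σ₀ (algebraMap (Localization.AtPrime s) ↥(wpbE0 A EY hst) r) = algebraMap (Localization.AtPrime s) ↥(wpbE0 A EY hst) r)
      (hdesc : ∀ t : ↥(wpbE0 A EY hst), σ₀ t = t → IsIntegral (Localization.AtPrime s) t →
        t ∈ Set.range (algebraMap (Localization.AtPrime s) ↥(wpbE0 A EY hst)))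
      (ζ : ↥EY) (hζ : IsPrimitiveRoot ζ p) (c : ℕ → ↥EY)
      (hc : ∀ i ∈ Finset.Ico 1 p, IsIntegral (Localization.AtPrime s) (c i))
      (hcong : ∀ i ∈ Finset.Ico 1 p,
        ι (σ₀^[i] z₀) - ι z₀ =
          algebraMap (Localization.AtPrime s) ↥EY (i : Localization.AtPrime s) + (ζ - 1) * c i)
      (hgen₀ : Algebra.adjoin ↥(f0Field A N) ({z₀} : Set ↥(wpbE0 A EY hst)) = ⊤)
      (𝔫 : Ideal (Algebra.adjoin (Localization.AtPrime s) ({z₀} : Set ↥(wpbE0 A EY hst)))) (h𝔫 : 𝔫.IsMaximal)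
      (u g κ' : ↥(wpbE0 A EY hst)) (hu : u ≠ 0) (hg : g ≠ 0) (hκ0 : κ' ≠ 0) (hσκ : σ₀ κ' = κ')
      (hσu : σ₀ u = κ' * g ^ p * u)
      (hσn : ∀ z : ↥(wpbE0 A EY hst), σ₀^[p] z = z)
      (hfix : ∀ f : ↥(wpbE0 A EY hst), σ₀ f = f → f ∈ Set.range (algebraMap ↥(f0Field A N) ↥(wpbE0 A EY hst)))
      (vInf vZero : ↥(wpbE0 A EY hst) → ℤ) (hvInf : G2cOrd vInf) (hvInf1 : ∃ z : ↥(wpbE0 A EY hst), z ≠ 0 ∧ vInf z = 1)
      (hvInfF : ∀ f : ↥(f0Field A N), f ≠ 0 → (0 ≤ vInf (algebraMap ↥(f0Field A N) ↥(wpbE0 A EY hst) f) ↔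
        0 ≤ s36_ordAt (algebraMap ↥S.B (Localization.AtPrime s) x) hxs f))
      (hvZero : G2cOrd vZero) (hvZero1 : ∃ z : ↥(wpbE0 A EY hst), z ≠ 0 ∧ vZero z = 1)
      (hvZeroF : ∀ f : ↥(f0Field A N), f ≠ 0 → (0 ≤ vZero (algebraMap ↥(f0Field A N) ↥(wpbE0 A EY hst) f) ↔
        0 ≤ s36_ordAt (algebraMap ↥S.B (Localization.AtPrime s) y) hys f))
      (hκInf : (p : ℤ) ∣ vInf κ') (hκZero : (p : ℤ) ∣ vZero κ')
      (hgenE : Algebra.adjoin ↥(wpbE0 A EY hst) (Set.range (algebraMap Kbar ↥EY)) = ⊤)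
      (φ : FF N →ₐ[Kbar] ↥EY) (hφ : φ.toRingHom.IsIntegral)
      (x₀ : JZero N) (ux : FF N) (hux : gdfIsKummer (K := Kbar) p x₀ ux)
      (hE : ↥EY) (cK : Kbar)
      (hrelu : algebraMap ↥(wpbE0 A EY hst) ↥EY u = algebraMap Kbar ↥EY cK * φ ux * hE ^ p)
      (ιA : k0Val A →+* Localization.AtPrime s)
      (hcompatA : ∀ a : k0Val A,
        algebraMap (Localization.AtPrime s) ↥(wpbE0 A EY hst) (ιA a) = algebraMap (k0Field A) ↥(wpbE0 A EY hst) (a : k0Field A))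
      (ϖA : k0Val A) (hϖA : ((ϖA : k0Field A) : Kbar) ∈ A.nonunits)
      (eA : (Localization.AtPrime s)ˣ) (hpA : (p : Localization.AtPrime s) = eA * ιA ϖA)
      (hφj : ∀ b, φ (wp2J A N S b) = criIncl A N EY hle S.B b)
      -- the Eisenstein constants (outputs of `wei_consts`)
      (aK π1K θK mθK : Kbar)
      (hafix : ∀ τ ∈ A.inertiaSubgroupIn ℚ, τ aK = aK) (haA : aK ∈ A) (haiA : aK⁻¹ ∈ A)
      (ha0 : aK ≠ 0)
      (hπ1 : ∃ h : π1K ∈ A, IsLocalRing.residue A ⟨π1K, h⟩ = 0)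
      (hmθ : mθK ∈ Subring.closure ({π1K} : Set Kbar)) (hmθA : mθK ∈ A)
      (hθ : θK = aK + π1K * mθK) (hθA : θK ∈ A) (hθiA : θK⁻¹ ∈ A) (hθ0 : θK ≠ 0)
      (hpow : π1K ^ p = (p : Kbar) * θK)
      (hη : (π1K + 1) ^ p = 1 + (p : Kbar) * aK)
      -- the coordinates (outputs of `wpc_coords`)
      (ke : Fin p → Kbar) (hke : ∀ i, ∀ τ ∈ A.inertiaSubgroupIn ℚ, τ (ke i) = ke i)
      (au ah : Fin p → ↥EY)
      (hau : ∀ i, ∃ n d : ↥S.B, criIncl A N EY hle S.B d ≠ 0 ∧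
        au i * criIncl A N EY hle S.B d = criIncl A N EY hle S.B n)
      (hah : ∀ i, ∃ g₀ : ↥(wpbE0 A EY hst), ah i = algebraMap ↥(wpbE0 A EY hst) ↥EY g₀)
      (hrel : algebraMap ↥(wpbE0 A EY hst) ↥EY u =
        (∑ i, algebraMap Kbar ↥EY (ke i) * algebraMap Kbar ↥EY π1K ^ (i : ℕ)) *
          (∑ i, au i * algebraMap Kbar ↥EY π1K ^ (i : ℕ)) *
          (∑ i, ah i * algebraMap Kbar ↥EY π1K ^ (i : ℕ)) ^ p)
      (u1 : FF N) (hu1 : φ u1 = ∑ i, au i * algebraMap Kbar ↥EY π1K ^ (i : ℕ))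
      (c₁ : Kbar) (h2 : algebraMap Kbar (FF N) c₁ * u1 ∈ Rc.O)
      (h20 : Rc.red ⟨algebraMap Kbar (FF N) c₁ * u1, h2⟩ ≠ 0),
      (p : ℤ) ∣ Q.ord (Rc.red ⟨algebraMap Kbar (FF N) c₁ * u1, h2⟩) - (vZero u - vInf u) := by
  letI iRE := criAlg A N EY hle S.B s
  letI iRF := wpbAlgF0 A N S.B s
  letI iRE0 := wpbAlgE0 A N EY hle hst S.B s
  letI iFE0 := wpbAlgF0E0 A N EY hle hst
  letI iKE0 := wpbAlgK0E0 A N EY hle hst
  letI iKE := wpbAlgK0E A EY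
  haveI hfr : IsFractionRing (Localization.AtPrime s) ↥(f0Field A N) :=
    wpb_frac A N S.B s hfrac
  intro r₁ hr₁c hjO hjred h₁ x εx y hx hxg hεx hm hord0 hws hy0 hwy hxs hys hyx tB htB hxyp ρ hρ hinjR hpR ι hι σ₀ z₀ hz hσp hσR hdesc ζ hζ c hc hcong hgen₀ 𝔫 h𝔫 u g κ' hu hg hκ0 hσκ hσu hσn hfix vInf vZero hvInf hvInf1 hvInfF hvZero hvZero1 hvZeroF hκInf hκZero hgenE φ hφ x₀ ux hux hE cK hrelu ιA hcompatA ϖA hϖA eA hpA hφj aK π1K θK mθK hafix haA haiA ha0 hπ1 hmθ hmθA hθ hθA hθiA hθ0 hpow hη ke hke au ah hau hah hrel u1 hu1 c₁ h2 h20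
  obtain ⟨e1, e2, e3, e4, e5, e6, e7⟩ :=
    wei_eta (K := Kbar) (F := FF N) (E := ↥EY) φ π1K θK aK mθK hη hmθ hθ hpow hθ0
  have hπe : algebraMap Kbar ↥EY (π1K + 1) - 1 = algebraMap Kbar ↥EY π1K := by
    rw [map_add, map_one]; ring
  obtain ⟨hπ1A, hπ1m⟩ := hπ1
  exact wpb_call_node A N EY hle hst S.B s p hp hA hfrac r₁ h₁ x εx y hx hxg hεx hm Q.ord
    (wrf_hwQ Q) hord0 hws hy0 hwy hxs hys hyx tB htB hxyp ρ hρ hinjR hpR ι hι σ₀ z₀ hz hσp hσR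
    hdesc ζ hζ c hc hcong hgen₀ 𝔫 h𝔫 u g κ' hu hg hκ0 hσκ hσu hσn hfix vInf vZero hvInf hvInf1
    hvInfF hvZero hvZero1 hvZeroF hκInf hκZero hgenE φ hφ x₀ ux hux hE cK hrelu ιA hcompatA ϖA
    hϖA eA hpA
    (algebraMap Kbar ↥EY (π1K + 1)) (algebraMap Kbar ↥EY aK) (algebraMap Kbar ↥EY mθK)
    e1 e2 e3 e4
    (criIncl A N EY hle S.B) (cri_hom_algebraMap A N EY hle S.B s) (wcfIsC S)
    (wck3_hCmul A N S) (wck2_hC A N S Q r₁ hr₁c)
    (wck3_haK A N EY hle S aK hafix haA haiA ha0)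
    (fun i => algebraMap Kbar ↥EY (ke i)) au ah (wck3_hae A N EY hle S hp hA ke hke) hau hah
    (by rw [hπe]; exact hrel)
    (wp2J A N S) hφj Rc.O Rc.red hjO hjred (wrf_hOFinv Rc) (wrf_hconst Rc Q)
    π1K θK mθK (wrf_const_mem Rc hπ1A) (wrf_const_red_zero Rc hπ1A hπ1m _) e5
    (wrf_const_mem Rc hθA) e6 (wrf_const_inv_mem Rc hθiA) (wrf_const_mem Rc hmθA) e7
    u1 (by rw [hπe]; exact hu1) c₁ h2 h20

end

end Fermat.Agent.S40lib

end
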