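import Mathlib
import Fermat.Agent.S36lib.Speed
import Fermat.Agent.S40lib.ValConj2
import Fermat.Prelude.Def_FLTPrelim_Ramification

/-!
# Item 88 (S44), block (J-WILD): `hκInf` / `hκZero` of the per-point theorem (helper9)

The hypotheses `hκInf : p ∣ vInf κ'`, `hκZero : p ∣ vZero κ'` of `g2y_node` / `g2w_point_node`
for the GLOBAL reference orders (`cva_ref_ord`: `vRef = ord_{x₀}` at a reference point).

* `wrk_decomp`     : `κ ≠ 0` fixed by the inertia group with `v(κ) = v(p) ^ (p n)` is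
                     `p ^ (p n) · ε`, `ε` a unit of `B` fixed by the inertia group;
* `wrk_dvd`        : an order function `v` (`G2cOrd`) with `v ε = 0` and `κ = P ^ (p n) · ε`
                     has `p ∣ v κ`;
* `wrk_ord_zero`   : `v ε = 0` as soon as `0 ≤ v ε` and `0 ≤ v ε⁻¹`;
* `wrk_ordAt_unit` : `ord_x (c) = 0` for a unit `c` of the UFD `R` (constants of `A0`);
* `wrk_dvd_ordAt`  : `p ∣ ord_x κ` for `κ = P ^ (p n) · c`, `c` a unit of `R`;
* `wrk_dvd_map`    : the same for the image of `κ` under a ring homomorphism `ι` of the constants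
                     into the field, when `ι ε`, `ι ε⁻¹` come from `R`;
* `wrk_hκ`         : the final form: `ι : Kbar`-constants (a subfield `K0` containing `κ`) `→ E`,
                     constants of `B ∩ K0` go to `R`  ⇒  `p ∣ ord_x (ι κ)`.
-/

set_option autoImplicit false
set_option linter.style.haveILetI false
set_option linter.unusedSectionVars false
set_option linter.unusedVariables false

noncomputable section

namespace Fermat.Agent.S40lib

open Fermat.Agent.S36lib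

section Decomp

variable (B : ValuationSubring (AlgebraicClosure ℚ))

/-- `κ = p ^ (p n) · ε` with `ε` a unit of `B` fixed by the inertia group. -/
theorem wrk_decomp {p : ℕ} (hp : p.Prime) (κ : AlgebraicClosure ℚ)
    (hκ : ∀ τ ∈ B.inertiaSubgroupIn ℚ, τ κ = κ) (n : ℤ)
    (hv : B.valuation κ = B.valuation (p : AlgebraicClosure ℚ) ^ ((p : ℤ) * n)) :
    ∃ ε : AlgebraicClosure ℚ, (∀ τ ∈ B.inertiaSubgroupIn ℚ, τ ε = ε) ∧
      ε ∈ B ∧ ε⁻¹ ∈ B ∧ ε ≠ 0 ∧ κ = (p : AlgebraicClosure ℚ) ^ ((p : ℤ) * n) * ε := by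
  have hp0 : (p : AlgebraicClosure ℚ) ≠ 0 := Nat.cast_ne_zero.mpr hp.ne_zero
  have hpm0 : (p : AlgebraicClosure ℚ) ^ ((p : ℤ) * n) ≠ 0 := zpow_ne_zero _ hp0
  have hval : B.valuation (κ * ((p : AlgebraicClosure ℚ) ^ ((p : ℤ) * n))⁻¹) = 1 := by
    rw [map_mul, map_inv₀, map_zpow₀, hv]
    exact mul_inv_cancel₀ (zpow_ne_zero _ ((Valuation.ne_zero_iff _).mpr hp0))
  have h1 : κ * ((p : AlgebraicClosure ℚ) ^ ((p : ℤ) * n))⁻¹ ∈ B :=
    (B.valuation_le_one_iff _).mp hval.le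
  have h2 : (κ * ((p : AlgebraicClosure ℚ) ^ ((p : ℤ) * n))⁻¹)⁻¹ ∈ B := by
    rw [← B.valuation_le_one_iff, map_inv₀, hval, inv_one]
  have h3 : κ * ((p : AlgebraicClosure ℚ) ^ ((p : ℤ) * n))⁻¹ ≠ 0 := by
    intro h0
    rw [h0, map_zero] at hval
    exact zero_ne_one hval
  refine ⟨κ * ((p : AlgebraicClosure ℚ) ^ ((p : ℤ) * n))⁻¹, ?_, h1, h2, h3, ?_⟩
  · intro τ hτ
    rw [map_mul, map_inv₀, map_zpow₀, map_natCast, hκ τ hτ]
  · field_simp

end Decomp

section Ord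

variable {E : Type*} [Field E] {v : E → ℤ}

/-- an element with `0 ≤ v ε` and `0 ≤ v ε⁻¹` has `v ε = 0`. -/
theorem wrk_ord_zero (hv : G2cOrd v) {ε : E} (hε : ε ≠ 0) (h1 : 0 ≤ v ε) (h2 : 0 ≤ v ε⁻¹) :
    v ε = 0 := by
  rw [g2c_inv hv hε] at h2
  omega

/-- **`hκ`, abstract**: `κ = P ^ (p n) · ε` with `v ε = 0` ⇒ `p ∣ v κ`. -/
theorem wrk_dvd (hv : G2cOrd v) (p : ℕ) (n : ℤ) {P ε κ : E} (hP : P ≠ 0) (hε : ε ≠ 0)
    (hvε : v ε = 0) (hκ : κ = P ^ ((p : ℤ) * n) * ε) : (p : ℤ) ∣ v κ := by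
  rw [hκ, hv.mul _ _ (zpow_ne_zero _ hP) hε, hvε, add_zero, g2c_zpow hv hP]
  exact ⟨n * v P, by ring⟩

end Ord

section OrdAt

variable {R : Type*} [CommRing R] [IsDomain R] [UniqueFactorizationMonoid R]
  {E : Type*} [Field E] [Algebra R E] [IsFractionRing R E]

/-- the order of a unit of `R` at a prime of `R` is `0`. -/
theorem wrk_ordAt_unit (x : R) (hx : Prime x) (c : R) (hc : IsUnit c) :
    s36_ordAt x hx (algebraMap R E c) = 0 :=
  s36_ordAt_of_not_dvd x hx c (fun h => hx.not_isUnit (isUnit_of_dvd_unit h hc))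

/-- the order of an element `ε` such that `ε` and `ε⁻¹` both come from `R` is `0`. -/
theorem wrk_ordAt_of_mem (x : R) (hx : Prime x) (ε : E) (hε : ε ≠ 0)
    (h1 : ε ∈ Set.range (algebraMap R E)) (h2 : ε⁻¹ ∈ Set.range (algebraMap R E)) :
    s36_ordAt x hx ε = 0 := by
  obtain ⟨c, rfl⟩ := h1
  obtain ⟨d, hd⟩ := h2
  have hinj : Function.Injective (algebraMap R E) := IsFractionRing.injective R E
  refine wrk_ordAt_unit x hx c ?_
  refine IsUnit.of_mul_eq_one d (hinj ?_)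
  rw [map_mul, hd, map_one, mul_inv_cancel₀ hε]

/-- **`hκ` for `ord_x`**: `κ = P ^ (p n) · c`, `c` a unit of `R` ⇒ `p ∣ ord_x κ`. -/
theorem wrk_dvd_ordAt (x : R) (hx : Prime x) (p : ℕ) (n : ℤ) {P κ : E} (hP : P ≠ 0)
    (c : R) (hc : IsUnit c) (hκ : κ = P ^ ((p : ℤ) * n) * algebraMap R E c) :
    (p : ℤ) ∣ s36_ordAt x hx κ := by
  have hinj : Function.Injective (algebraMap R E) := IsFractionRing.injective R E
  have hc0 : algebraMap R E c ≠ 0 := fun h0 => hc.ne_zero (hinj (by rw [h0, map_zero]))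
  exact wrk_dvd (g2c_ord_ordAt x hx) p n hP hc0 (wrk_ordAt_unit x hx c hc) hκ

/-- **`hκ` along a homomorphism of the constants**: `ι : K →+* E`, `κ = P ^ (p n) · ε` in `K`
with `ι ε`, `ι ε⁻¹` in the image of `R` ⇒ `p ∣ ord_x (ι κ)`. -/
theorem wrk_dvd_map {K : Type*} [Field K] (ι : K →+* E) (x : R) (hx : Prime x) (p : ℕ) (n : ℤ)
    {P ε κ : K} (hP : P ≠ 0) (hε : ε ≠ 0)
    (h1 : ι ε ∈ Set.range (algebraMap R E)) (h2 : ι ε⁻¹ ∈ Set.range (algebraMap R E))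
    (hκ : κ = P ^ ((p : ℤ) * n) * ε) : (p : ℤ) ∣ s36_ordAt x hx (ι κ) := by
  have hιP : ι P ≠ 0 := (map_ne_zero ι).mpr hP
  have hιε : ι ε ≠ 0 := (map_ne_zero ι).mpr hε
  refine wrk_dvd (g2c_ord_ordAt x hx) p n hιP hιε ?_ ?_
  · refine wrk_ordAt_of_mem x hx (ι ε) hιε h1 ?_
    rw [← map_inv₀]
    exact h2
  · rw [hκ, map_mul, map_zpow₀]

end OrdAt

section Final

variable (B : ValuationSubring (AlgebraicClosure ℚ))
  {R : Type*} [CommRing R] [IsDomain R] [UniqueFactorizationMonoid R]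
  {E : Type*} [Field E] [Algebra R E] [IsFractionRing R E]

/-- **`hκInf` / `hκZero`, final form.**  `K0` a subfield of `ℚ̄` containing the elements fixed by
the inertia group, `ι : K0 →+* E` such that the constants of `B ∩ K0` go to `R`; `κ` fixed by the
inertia group with `v(κ) = v(p) ^ (p n)`.  Then `p ∣ ord_x (ι κ)` for every prime `x` of `R`. -/
theorem wrk_hκ {p : ℕ} (hp : p.Prime) (K0 : Subfield (AlgebraicClosure ℚ))
    (hK0 : ∀ c : AlgebraicClosure ℚ, (∀ τ ∈ B.inertiaSubgroupIn ℚ, τ c = c) → c ∈ K0)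
    (ι : K0 →+* E)
    (hι : ∀ c : K0, (c : AlgebraicClosure ℚ) ∈ B → ι c ∈ Set.range (algebraMap R E))
    (x : R) (hx : Prime x) (κ : K0)
    (hκ : ∀ τ ∈ B.inertiaSubgroupIn ℚ, τ (κ : AlgebraicClosure ℚ) = κ) (n : ℤ)
    (hv : B.valuation (κ : AlgebraicClosure ℚ) =
      B.valuation (p : AlgebraicClosure ℚ) ^ ((p : ℤ) * n)) :
    (p : ℤ) ∣ s36_ordAt x hx (ι κ) := by
  obtain ⟨ε, hεfix, hεB, hεiB, hε0, hdec⟩ := wrk_decomp B hp (κ : AlgebraicClosure ℚ) hκ n hv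
  have hp0 : (p : K0) ≠ 0 := Nat.cast_ne_zero.mpr hp.ne_zero
  have hε0' : (⟨ε, hK0 ε hεfix⟩ : K0) ≠ 0 := fun h => hε0 (congrArg Subtype.val h)
  refine wrk_dvd_map ι x hx p n (P := (p : K0)) (ε := ⟨ε, hK0 ε hεfix⟩) hp0 hε0'
    (hι _ hεB) (hι _ ?_) ?_
  · show ((⟨ε, hK0 ε hεfix⟩ : K0)⁻¹ : K0).1 ∈ B
    rw [Subfield.coe_inv]
    exact hεiB
  · apply Subtype.ext
    have e : (((p : K0) ^ ((p : ℤ) * n) : K0) : AlgebraicClosure ℚ) =
        (p : AlgebraicClosure ℚ) ^ ((p : ℤ) * n) := by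
      rw [← K0.subtype_apply, map_zpow₀, K0.subtype_apply]
      rfl
    rw [Subfield.coe_mul, e]
    exact hdec

end Final

end Fermat.Agent.S40lib

end
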