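/-
Item 88 (S44), (J-WILD), LAYER B (helper17): the hypotheses `hκInf`, `hκZero` of
`wpb_call_node` / `s40j_pt_node` in the concrete context of `WildPtCtx.lean`
(`R := B_s`, `F₀ := f0Field A N`, `E₀ := wpbE0 A EY hst`, `E := EY`).

* `wpk_const_coe`  : the constant `κ` of `K0`, seen in `E₀` through `F₀`, is `algebraMap Kbar EY κ`;
* `wpk_hκ_iff`     : an order function `v` of `E₀` (`G2cOrd`) with
                     `0 ≤ v f ↔ 0 ≤ ord_x f` on `F₀` (`x` ANY prime of `B_s`) has `p ∣ v κ₀`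
                     for the element `κ₀` of `dki_pkg` (`(κ₀ : EY) = algebraMap Kbar EY κ`),
                     `κ` inertia-fixed with `v(κ) = v(p) ^ (p n)`;
* `wpk_hκ`         : the same when `v = ord_x` on `F₀` (the output of `s40j_ref`).
-/
import Mathlib
import Fermat.Agent.S36lib.Speed
import Fermat.Agent.S40lib.WildPtCtx
import Fermat.Agent.S40lib.WindcRefK

set_option autoImplicit false
set_option linter.style.haveILetI false
set_option linter.unusedSectionVars false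
set_option linter.unusedVariables false
set_option synthInstance.maxHeartbeats 400000
set_option maxHeartbeats 1000000

noncomputable section

namespace Fermat.Agent.S40lib

open ModularCurve HahnSeries AlgebraicCurve Fermat.Agent.S24lib Fermat.Agent.S33lib
  Fermat.Agent.S34lib Fermat.Agent.RRlib Fermat.Agent.S36lib

section

variable (A : ValuationSubring Kbar) (N : ℕ) [NeZero N]
  (EY : IntermediateField Kbar (LaurentSeries Kbar))
  (hle : modularFunctionFieldBar N ≤ EY)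
  (hst : ∀ σ ∈ A.inertiaSubgroupIn ℚ, ∀ x ∈ EY,
    coeffMap ((σ : Kbar ≃ₐ[ℚ] Kbar) : Kbar →+* Kbar) x ∈ EY)
  (B0 : Subring ↥(f0Field A N)) (s : Ideal ↥B0) [hs : s.IsPrime]

/-- a constant of `K0`, seen in `EY` through `F₀ ⊂ E₀`, is the constant of `EY` -/
theorem wpk_const_coe (c : ↥(k0Field A)) :
    ((wpbHomF0E0 A N EY hle hst (algebraMap ↥(k0Field A) ↥(f0Field A N) c) :
      ↥(wpbE0 A EY hst)) : ↥EY) = algebraMap Kbar ↥EY (c : Kbar) := by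
  apply Subtype.ext
  rfl

/-- **`hκInf` / `hκZero` in the context of `WildPtCtx`**, `iff`-form of the restriction. -/
theorem wpk_hκ_iff [UniqueFactorizationMonoid (Localization.AtPrime s)]
    (hfrac : ∀ z : ↥(f0Field A N), ∃ a b : ↥B0, b ≠ 0 ∧
      z * (b : ↥(f0Field A N)) = (a : ↥(f0Field A N)))
    (hconstB : ∀ a : k0Val A,
      algebraMap ↥(k0Field A) ↥(f0Field A N) (a : ↥(k0Field A)) ∈ B0)
    {p : ℕ} (hp : p.Prime)
    (x : Localization.AtPrime s) (hx : Prime x)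
    (κ : Kbar) (hκ : ∀ τ ∈ A.inertiaSubgroupIn ℚ, τ κ = κ) (n : ℤ)
    (hv : A.valuation κ = A.valuation (p : Kbar) ^ ((p : ℤ) * n))
    (κ₀ : ↥(wpbE0 A EY hst)) (hκ₀ : (κ₀ : ↥EY) = algebraMap Kbar ↥EY κ) :
    letI := wpbAlgF0 A N B0 s
    letI := wpbAlgF0E0 A N EY hle hst
    haveI := wpb_frac A N B0 s hfrac
    ∀ (v : ↥(wpbE0 A EY hst) → ℤ), G2cOrd v →
      (∀ f : ↥(f0Field A N), f ≠ 0 →
        (0 ≤ v (algebraMap ↥(f0Field A N) ↥(wpbE0 A EY hst) f) ↔ 0 ≤ s36_ordAt x hx f)) →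
      (p : ℤ) ∣ v κ₀ := by
  letI := wpbAlgF0 A N B0 s
  letI := wpbAlgF0E0 A N EY hle hst
  haveI := wpb_frac A N B0 s hfrac
  intro v hvO hvF
  obtain ⟨ε, hεfix, hεB, hεiB, hε0, hdec⟩ := wrk_decomp A hp κ hκ n hv
  -- the unit `ε` in `K0`, `F₀`, `E₀`
  set εK : ↥(k0Field A) := ⟨ε, (mem_k0Field_iff A ε).2 hεfix⟩ with hεK
  have hεK0 : εK ≠ 0 := fun h => hε0 (congrArg Subtype.val h)
  set εF : ↥(f0Field A N) := algebraMap ↥(k0Field A) ↥(f0Field A N) εK with hεF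
  have hεF0 : εF ≠ 0 := (map_ne_zero _).2 hεK0
  have hεFi0 : εF⁻¹ ≠ 0 := inv_ne_zero hεF0
  have hmemK : εK ∈ k0Val A := hεB
  have hmemKi : εK⁻¹ ∈ k0Val A := by
    show ((εK⁻¹ : ↥(k0Field A)) : Kbar) ∈ A
    have : ((εK⁻¹ : ↥(k0Field A)) : Kbar) = ε⁻¹ := rfl
    rw [this]
    exact hεiB
  have hr1 : εF ∈ Set.range (algebraMap (Localization.AtPrime s) ↥(f0Field A N)) :=
    ⟨algebraMap ↥B0 (Localization.AtPrime s) ⟨εF, hconstB ⟨εK, hmemK⟩⟩,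
      wpb_homF0_algebraMap A N B0 s _⟩
  have hr2 : εF⁻¹ ∈ Set.range (algebraMap (Localization.AtPrime s) ↥(f0Field A N)) := by
    have h1 : εF⁻¹ = algebraMap ↥(k0Field A) ↥(f0Field A N) εK⁻¹ := by
      rw [hεF, map_inv₀]
    rw [h1]
    exact ⟨algebraMap ↥B0 (Localization.AtPrime s) ⟨_, hconstB ⟨εK⁻¹, hmemKi⟩⟩,
      wpb_homF0_algebraMap A N B0 s _⟩
  have ho1 : s36_ordAt x hx εF = 0 := wrk_ordAt_of_mem x hx εF hεF0 hr1 hr2
  have ho2 : s36_ordAt x hx εF⁻¹ = 0 :=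
    wrk_ordAt_of_mem x hx εF⁻¹ hεFi0 hr2 (by rw [inv_inv]; exact hr1)
  set εE : ↥(wpbE0 A EY hst) := algebraMap ↥(f0Field A N) ↥(wpbE0 A EY hst) εF with hεE
  have hεE0 : εE ≠ 0 := (map_ne_zero _).2 hεF0
  have hv1 : 0 ≤ v εE := (hvF εF hεF0).2 (le_of_eq ho1.symm)
  have hv2 : 0 ≤ v εE⁻¹ := by
    have h1 : εE⁻¹ = algebraMap ↥(f0Field A N) ↥(wpbE0 A EY hst) εF⁻¹ := by
      rw [hεE, map_inv₀]
    rw [h1]
    exact (hvF εF⁻¹ hεFi0).2 (le_of_eq ho2.symm)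
  have hvε : v εE = 0 := wrk_ord_zero hvO hεE0 hv1 hv2
  have hp0 : ((p : ℕ) : ↥(wpbE0 A EY hst)) ≠ 0 := Nat.cast_ne_zero.mpr hp.ne_zero
  refine wrk_dvd hvO p n hp0 hεE0 hvε ?_
  -- `κ₀ = p ^ (p n) · ε` in `E₀`
  apply Subtype.ext
  rw [hκ₀, hdec, map_mul, map_zpow₀, map_natCast]
  have h2 : ((εE : ↥(wpbE0 A EY hst)) : ↥EY) = algebraMap Kbar ↥EY ε :=
    wpk_const_coe A N EY hle hst εK
  have h3 : (((((p : ℕ) : ↥(wpbE0 A EY hst)) ^ ((p : ℤ) * n) * εE :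
      ↥(wpbE0 A EY hst)) : ↥EY)) =
      ((p : ℕ) : ↥EY) ^ ((p : ℤ) * n) * ((εE : ↥(wpbE0 A EY hst)) : ↥EY) := by
    rw [← Subfield.subtype_apply, map_mul, map_zpow₀, map_natCast]
    rfl
  rw [h3, h2]

/-- **`hκInf` / `hκZero` in the context of `WildPtCtx`**, for `v = ord_x` on `F₀`
(the output of `s40j_ref`). -/
theorem wpk_hκ [UniqueFactorizationMonoid (Localization.AtPrime s)]
    (hfrac : ∀ z : ↥(f0Field A N), ∃ a b : ↥B0, b ≠ 0 ∧
      z * (b : ↥(f0Field A N)) = (a : ↥(f0Field A N)))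
    (hconstB : ∀ a : k0Val A,
      algebraMap ↥(k0Field A) ↥(f0Field A N) (a : ↥(k0Field A)) ∈ B0)
    {p : ℕ} (hp : p.Prime)
    (x : Localization.AtPrime s) (hx : Prime x)
    (κ : Kbar) (hκ : ∀ τ ∈ A.inertiaSubgroupIn ℚ, τ κ = κ) (n : ℤ)
    (hv : A.valuation κ = A.valuation (p : Kbar) ^ ((p : ℤ) * n))
    (κ₀ : ↥(wpbE0 A EY hst)) (hκ₀ : (κ₀ : ↥EY) = algebraMap Kbar ↥EY κ) :
    letI := wpbAlgF0 A N B0 s
    letI := wpbAlgF0E0 A N EY hle hst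
    haveI := wpb_frac A N B0 s hfrac
    ∀ (v : ↥(wpbE0 A EY hst) → ℤ), G2cOrd v →
      (∀ f : ↥(f0Field A N),
        v (algebraMap ↥(f0Field A N) ↥(wpbE0 A EY hst) f) = s36_ordAt x hx f) →
      (p : ℤ) ∣ v κ₀ := by
  letI := wpbAlgF0 A N B0 s
  letI := wpbAlgF0E0 A N EY hle hst
  haveI := wpb_frac A N B0 s hfrac
  intro v hvO hvF
  exact wpk_hκ_iff A N EY hle hst B0 s hfrac hconstB hp x hx κ hκ n hv κ₀ hκ₀ v hvO
    (fun f _ => by rw [hvF f])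

end

end Fermat.Agent.S40lib

end
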