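import Mathlib
import Fermat.Agent.S36lib.Speed
import Fermat.Agent.S40lib.WildPtAsm
import Fermat.Agent.S40lib.CoverAsm4
import Fermat.Agent.S40lib.CoverPt

/-!
# Item 88 (S44), block (J-WILD), FINAL ASSEMBLER, the GLOBAL reference orders (helper22)

The winding number `δ = vZero u - vInf u` of `s40j_pt_node` must not depend on the point.

* `s40j_ref`       : at ONE reference node `s₀` of the model (`R₀ = B_{s₀}`, `𝔪 = (x₀, y₀)`) with
                     the cover data of `cva_node`: orders `vInf`, `vZero` of `E₀` (`G2cOrd`,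
                     normalised) which restrict to `ord_{x₀}`, `ord_{y₀}` of `R₀` on `F₀`;
  The hypotheses `hvInfF`, `hvZeroF` of `s40j_pt_node` at ANY other node `s` follow by
  rewriting with the restriction and `cvp_hsame` (helper2, `CoverPt.lean`).
(complete proofs, standard axioms only)
-/

set_option autoImplicit false
set_option linter.unusedVariables false
set_option linter.unusedSectionVars false
set_option linter.style.haveILetI false
set_option synthInstance.maxHeartbeats 400000

noncomputable section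

namespace Fermat.Agent.S40lib

open ModularCurve HahnSeries AlgebraicCurve Fermat.Agent.S24lib Fermat.Agent.S33lib
  Fermat.Agent.S34lib Fermat.Agent.RRlib Fermat.Agent.S36lib IsLocalRing

section Ref

universe uE

variable {B : Type*} [CommRing B] [IsDomain B] [IsNoetherianRing B] (s : Ideal B)
  [hs : s.IsPrime] [UniqueFactorizationMonoid (Localization.AtPrime s)]
  {F₀ : Type*} [Field F₀] [Algebra (Localization.AtPrime s) F₀]
  [IsFractionRing (Localization.AtPrime s) F₀]
  {E₀ : Type uE} [Field E₀] [Algebra (Localization.AtPrime s) E₀] [Algebra F₀ E₀]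
  [IsScalarTower (Localization.AtPrime s) F₀ E₀]
  {E : Type*} [Field E] [Algebra (Localization.AtPrime s) E]

set_option maxHeartbeats 4000000 in
/-- **the global reference orders** at one node of the cover. -/
theorem s40j_ref (x y : B)
    (hm : maximalIdeal (Localization.AtPrime s) =
      Ideal.span {algebraMap B (Localization.AtPrime s) x,
        algebraMap B (Localization.AtPrime s) y})
    (hxs : Prime (algebraMap B (Localization.AtPrime s) x))
    (hys : Prime (algebraMap B (Localization.AtPrime s) y))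
    (hyx : ¬ algebraMap B (Localization.AtPrime s) x ∣ algebraMap B (Localization.AtPrime s) y)
    {k : Type*} [Field k] [IsAlgClosed k] (ρ : Localization.AtPrime s →+* k)
    (hρ : Function.Surjective ρ)
    (hinjR : Function.Injective (algebraMap (Localization.AtPrime s) E₀))
    {p : ℕ} (hp : p.Prime)
    (hpR : (p : Localization.AtPrime s) ∈ maximalIdeal (Localization.AtPrime s))
    (ι : E₀ →ₐ[Localization.AtPrime s] E)
    (σ₀ : E₀ →+* E₀) (z₀ : E₀) (hz : IsIntegral (Localization.AtPrime s) z₀)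
    (hσp : σ₀^[p] z₀ = z₀)
    (hσR : ∀ r : Localization.AtPrime s,
      σ₀ (algebraMap (Localization.AtPrime s) E₀ r) = algebraMap (Localization.AtPrime s) E₀ r)
    (hdesc : ∀ t : E₀, σ₀ t = t → IsIntegral (Localization.AtPrime s) t →
      t ∈ Set.range (algebraMap (Localization.AtPrime s) E₀))
    {ζ : E} (hζ : IsPrimitiveRoot ζ p) (c : ℕ → E)
    (hc : ∀ i ∈ Finset.Ico 1 p, IsIntegral (Localization.AtPrime s) (c i))
    (hcong : ∀ i ∈ Finset.Ico 1 p,
      ι (σ₀^[i] z₀) - ι z₀ =
        algebraMap (Localization.AtPrime s) E (i : Localization.AtPrime s) + (ζ - 1) * c i)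
    (hgen₀ : Algebra.adjoin F₀ ({z₀} : Set E₀) = ⊤) :
    ∃ vInf vZero : E₀ → ℤ,
      G2cOrd vInf ∧ (∃ z : E₀, z ≠ 0 ∧ vInf z = 1) ∧
      (∀ f : F₀, vInf (algebraMap F₀ E₀ f) =
        s36_ordAt (algebraMap B (Localization.AtPrime s) x) hxs f) ∧
      G2cOrd vZero ∧ (∃ z : E₀, z ≠ 0 ∧ vZero z = 1) ∧
      (∀ f : F₀, vZero (algebraMap F₀ E₀ f) =
        s36_ordAt (algebraMap B (Localization.AtPrime s) y) hys f) := by
  classical
  haveI : Nontrivial (Algebra.adjoin (Localization.AtPrime s) ({z₀} : Set E₀)) := inferInstance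
  obtain ⟨𝔫, h𝔫⟩ := Ideal.exists_maximal (Algebra.adjoin (Localization.AtPrime s) ({z₀} : Set E₀))
  haveI := h𝔫
  haveI : 𝔫.IsPrime := h𝔫.isPrime
  obtain ⟨hx𝔫, hy𝔫, hufm, hxL0, hyL0, -, -, -⟩ :=
    cva_node ρ hρ hinjR (algebraMap B (Localization.AtPrime s) x)
      (algebraMap B (Localization.AtPrime s) y) hxs hyx hm hp hpR ι σ₀ z₀ hz hσp hσR hdesc hζ c
      hc hcong 𝔫
  obtain ⟨h1, h2, h3⟩ := cva_ref_ord (F := F₀) (algebraMap B (Localization.AtPrime s) x) hxs z₀
    hz hgen₀ 𝔫 hx𝔫 inferInstance hufm hxL0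
  obtain ⟨h4, h5, h6⟩ := cva_ref_ord (F := F₀) (algebraMap B (Localization.AtPrime s) y) hys z₀
    hz hgen₀ 𝔫 hy𝔫 inferInstance hufm hyL0
  exact ⟨_, _, h1, h2, h3, h4, h5, h6⟩

end Ref

end Fermat.Agent.S40lib

end
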