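/-
Item 88 (S44), (J-WILD), LAYER B, group (V) (helper21): the hypotheses `hvInfF` / `hvZeroF` of
`wpb_call_node` (helper8, `WildPtB.lean`) at ANY centre `s`, from the output of `s40j_ref`
(helper22, `WildPtRef.lean`) at ONE reference centre `s₀` on the same component, in the concrete
context of `WildPtCtx.lean` (`F₀ := f0Field A N`, `Algebra B_s F₀ := wpbAlgF0 A N B0 s`).

* `wpv_tower`  : `IsScalarTower B0 B_s F₀`;
* `wpv_hvF`    : `w : F₀ → ℤ` with `w = ord_{x₀}` (reference centre `s₀`)  ⇒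
                 `0 ≤ w f ↔ 0 ≤ ord_{x} f` at the centre `s`
                 (use with `w := fun f => vInf (algebraMap F₀ E₀ f)`, resp. `vZero`, `y₀`, `y`).
(complete proofs, standard axioms only)
-/
import Mathlib
import Fermat.Agent.S36lib.Speed
import Fermat.Agent.S40lib.WildPtCtx
import Fermat.Agent.S40lib.SameCompAbs

set_option autoImplicit false
set_option linter.style.haveILetI false
set_option linter.unusedSectionVars false
set_option linter.unusedVariables false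
set_option synthInstance.maxHeartbeats 400000
set_option maxHeartbeats 1000000

noncomputable section

namespace Fermat.Agent.S40lib

open ModularCurve HahnSeries AlgebraicCurve Fermat.Agent.S24lib Fermat.Agent.S33lib
  Fermat.Agent.S34lib Fermat.Agent.RRlib Fermat.Agent.S36lib IsLocalRing

section

variable (A : ValuationSubring Kbar) (N : ℕ) [NeZero N]
  (B0 : Subring ↥(f0Field A N))

/-- the tower `B0 → B_s → F₀` -/
theorem wpv_tower (s : Ideal ↥B0) [hs : s.IsPrime] :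
    letI := wpbAlgF0 A N B0 s
    IsScalarTower ↥B0 (Localization.AtPrime s) ↥(f0Field A N) := by
  letI := wpbAlgF0 A N B0 s
  exact IsScalarTower.of_algebraMap_eq (fun b => (wpb_homF0_algebraMap A N B0 s b).symm)

/-- **`hvInfF` / `hvZeroF` of `wpb_call_node`** at the centre `s`, from the restriction
property of the reference order at the reference centre `s₀`. -/
theorem wpv_hvF (s₀ : Ideal ↥B0) [hs₀ : s₀.IsPrime]
    [UniqueFactorizationMonoid (Localization.AtPrime s₀)]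
    (s : Ideal ↥B0) [hs : s.IsPrime] [UniqueFactorizationMonoid (Localization.AtPrime s)]
    (hfrac : ∀ z : ↥(f0Field A N), ∃ a b : ↥B0, b ≠ 0 ∧
      z * (b : ↥(f0Field A N)) = (a : ↥(f0Field A N)))
    {κ₁ : Type*} [Field κ₁] :
    letI iRF₀ := wpbAlgF0 A N B0 s₀
    letI iRF := wpbAlgF0 A N B0 s
    haveI hfr₀ : IsFractionRing (Localization.AtPrime s₀) ↥(f0Field A N) :=
      wpb_frac A N B0 s₀ hfrac
    haveI hfr : IsFractionRing (Localization.AtPrime s) ↥(f0Field A N) :=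
      wpb_frac A N B0 s hfrac
    ∀ (r₁ : ↥B0 →+* κ₁) (h₁₀ : RingHom.ker r₁ ≤ s₀) (h₁ : RingHom.ker r₁ ≤ s)
      (x₀ εx₀ : ↥B0) (hx₀ : x₀ ∈ RingHom.ker r₁)
      (hxg₀ : ∀ z ∈ RingHom.ker r₁, x₀ ∣ εx₀ * z) (hεx₀ : εx₀ ∉ s₀)
      (hxs₀ : Prime (algebraMap ↥B0 (Localization.AtPrime s₀) x₀))
      (x εx : ↥B0) (hx : x ∈ RingHom.ker r₁) (hxg : ∀ z ∈ RingHom.ker r₁, x ∣ εx * z)
      (hεx : εx ∉ s) (hxs : Prime (algebraMap ↥B0 (Localization.AtPrime s) x))
      (w : ↥(f0Field A N) → ℤ)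
      (hres : ∀ f : ↥(f0Field A N),
        w f = s36_ordAt (algebraMap ↥B0 (Localization.AtPrime s₀) x₀) hxs₀ f),
      ∀ f : ↥(f0Field A N), f ≠ 0 →
        (0 ≤ w f ↔ 0 ≤ s36_ordAt (algebraMap ↥B0 (Localization.AtPrime s) x) hxs f) := by
  letI iRF₀ := wpbAlgF0 A N B0 s₀
  letI iRF := wpbAlgF0 A N B0 s
  haveI hfr₀ : IsFractionRing (Localization.AtPrime s₀) ↥(f0Field A N) :=
    wpb_frac A N B0 s₀ hfrac
  haveI hfr : IsFractionRing (Localization.AtPrime s) ↥(f0Field A N) :=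
    wpb_frac A N B0 s hfrac
  haveI hBF : IsFractionRing ↥B0 ↥(f0Field A N) := cri_isFractionRing B0 hfrac
  haveI htow₀ : IsScalarTower ↥B0 (Localization.AtPrime s₀) ↥(f0Field A N) :=
    wpv_tower A N B0 s₀
  haveI htow : IsScalarTower ↥B0 (Localization.AtPrime s) ↥(f0Field A N) :=
    wpv_tower A N B0 s
  intro r₁ h₁₀ h₁ x₀ εx₀ hx₀ hxg₀ hεx₀ hxs₀ x εx hx hxg hεx hxs w hres f hf
  rw [hres f]
  exact sca_hsame_ker (F := ↥(f0Field A N)) r₁ s₀ s h₁₀ h₁ x₀ εx₀ hx₀ hxg₀ hεx₀ hxs₀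
    x εx hx hxg hεx hxs f hf

end

end Fermat.Agent.S40lib

end
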