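import Mathlib
import Fermat.Agent.S36lib.Speed
import Fermat.Agent.S40lib.WildPtSplit
import Fermat.Agent.S40lib.WildPtB
import Fermat.Agent.S40lib.WildPtRef
import Fermat.Agent.S40lib.WildPtKappa
import Fermat.Agent.S40lib.WildPtV21
import Fermat.Agent.S40lib.ZStage3
import Fermat.Agent.S40lib.WindcCoCtx
import Fermat.Agent.S40lib.WildPtPhi
import Fermat.Agent.S40lib.WildPtHV
import Fermat.Agent.S40lib.WindcK3
import Fermat.Agent.S40lib.WildPtE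
import Fermat.Agent.S40lib.WindcF
import Fermat.Agent.S40lib.WindcF2
import Fermat.Agent.S40lib.WindcX2
import Fermat.Agent.S40lib.WindcPtTr28
import Fermat.Agent.S40lib.DeckInst2
import Fermat.Agent.S40lib.HgenCtx

/-!
# Item 88 (S44), block (J-WILD), Layer B: the node monoliths (helper16)

`wnd16_inf : S44jPtNodeInf`, `wnd16_zero : S44jPtNodeZero`, assembled from the landed providers.
-/

set_option autoImplicit false
set_option linter.style.haveILetI false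
set_option linter.unusedSectionVars false
set_option linter.unusedVariables false
set_option synthInstance.maxHeartbeats 400000
set_option maxHeartbeats 4000000

noncomputable section

namespace Fermat.Agent.S40lib

open Fermat.Agent.GalRep ModularCurve AlgebraicCurve Fermat.Agent.S31lib Fermat.Agent.S35lib
  Fermat.Agent.S33lib Fermat.Agent.S36lib Fermat.Agent.S24lib Fermat.Agent.S34lib
  Fermat.Agent.RRlib Fermat.Agent.GoodRed Fermat.Agent.S18lib Fermat.Agent.GM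
  Fermat.Agent.HeckeBar HahnSeries IsLocalRing


theorem wnd16_inf (M' p : ℕ) [NeZero M'] [NeZero p] [NeZero (M' * p)] (hp : p.Prime)
    (hp2 : p ≠ 2) (hpM' : ¬ p ∣ M')
    (B : ValuationSubring (AlgebraicClosure ℚ)) (hB : B.LiesOverPrime p) :
    S44jPtNodeInf M' p hp B hB := by
  intro S a V hS h2S hcard hVp hGal hEig hNot hnE x hxV hx0 hτ0 t htV ht0 hIt hω M e iM iMp hdvd
    haux hM hMe hψ ζ hζ ux ut hux hut U hU σY hσ rt κ u g hκ0 hrt0 hrt hκfix hxrt hu0 hg0 huI hgI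
    hσu hrelu n hv R hR hσ₁

  classical
  obtain ⟨hσK, hσF, hσU, hσI, hσfix, hσp⟩ := hσ
  have hst : ∀ σ ∈ (B.inertiaSubgroupIn ℚ), ∀ z ∈ (cvcAdj (modularFunctionFieldBar (M * p)) U),
      coeffMap ((σ : Kbar ≃ₐ[ℚ] Kbar) : Kbar →+* Kbar) z ∈ (cvcAdj (modularFunctionFieldBar (M * p)) U) :=
    fun σ hσ z hz => (hσI σ hσ ⟨z, hz⟩).1
  have hcomm : ∀ (σ : Kbar ≃ₐ[ℚ] Kbar) (hσ : σ ∈ (B.inertiaSubgroupIn ℚ))
      (z : ↥(cvcAdj (modularFunctionFieldBar (M * p)) U)),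
      σY (wlcTau (B.inertiaSubgroupIn ℚ) (cvcAdj (modularFunctionFieldBar (M * p)) U) hst σ hσ z) =
        wlcTau (B.inertiaSubgroupIn ℚ) (cvcAdj (modularFunctionFieldBar (M * p)) U) hst σ hσ (σY z) := by
    intro σ hσ' z
    obtain ⟨hz, hz', h⟩ := hσI σ hσ' z
    exact h
  by_cases hex : ∃ Q₀ : Place (IsLocalRing.ResidueField B) (Fk (IsLocalRing.ResidueField B) M),
      0 ≤ Q₀.ord (jk (IsLocalRing.ResidueField B) M) ∧
      (∀ z ∈ (nodeSetupNj B M p hp haux.1 hB R hR).pZero, (nodeSetupNj B M p hp haux.1 hB R hR).redInf z = 0 ∨ 0 < Q₀.ord ((nodeSetupNj B M p hp haux.1 hB R hR).redInf z))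
  swap
  · exact ⟨0, fun Q hQ hSS => absurd ⟨Q, hQ, hSS⟩ hex⟩
  obtain ⟨Q₀, hQ₀, hSS₀⟩ := hex
  haveI : IsAlgClosed (IsLocalRing.ResidueField B) := isAlgClosed_residueField B
  haveI : IsNoetherianRing (nodeSetupNj B M p hp haux.1 hB R hR).B :=
    (r1c_noeth_frac B M p hp haux.1 hB R hR
      (fun z h1 h3 => w2j_rgnSum B M p hp haux.1 hB R hR z h1 h3)).1
  have hfrac := cri_hfrac_Nj B M p hp haux.1 hB R hR
  have h1p : 1 ∈ Finset.Ico 1 p := Finset.mem_Ico.mpr ⟨le_rfl, hp.one_lt⟩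
  have hζ' : IsPrimitiveRoot (algebraMap Kbar ↥(cvcAdj (modularFunctionFieldBar (M * p)) U) ζ) p :=
    hζ.map_of_injective (algebraMap Kbar ↥(cvcAdj (modularFunctionFieldBar (M * p)) U)).injective
  letI iFE0 := wpbAlgF0E0 B (M * p) (cvcAdj (modularFunctionFieldBar (M * p)) U) (cvc_le_adj (modularFunctionFieldBar (M * p)) U) hst
  letI iKE0 := wpbAlgK0E0 B (M * p) (cvcAdj (modularFunctionFieldBar (M * p)) U) (cvc_le_adj (modularFunctionFieldBar (M * p)) U) hst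
  letI iKE := wpbAlgK0E B (cvcAdj (modularFunctionFieldBar (M * p)) U)
  -- (D)
  obtain ⟨u₀, g₀, κ₀, hu₀e, hg₀e, hκ₀e, hu₀0, hg₀0, hκ₀0, hσκ, hσu₀, hσn, hfixE⟩ :=
    dki_pkg B (M * p) (cvcAdj (modularFunctionFieldBar (M * p)) U) (cvc_le_adj (modularFunctionFieldBar (M * p)) U) hst σY hcomm p hσK hσp hσfix κ hκ0 hκfix u g hu0 hg0 huI hgI hσu
  -- the reference node
  obtain ⟨s₀, hs₀, x₀, y₀, εx₀, εy₀, tB₀, h₁₀, h₂₀, hx₀, hxg₀, hεx₀, hy₀, hyg₀, hεy₀, hxy₀, htB₀,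
    hmem₀, hord0₀, hws₀, hy0₀, hwy₀, hx0'₀, hufd₀, hxs₀, hys₀, hyx₀, hxy'₀, hm₀, hnoeth₀, hic₀,
    hpR₀, ρ₀, hρ₀, hρc₀, hρz₀⟩ :=
    wcx_node_inf B M p hp haux.1 hB R hR haux Q₀ hQ₀ hSS₀
  haveI hsp₀ : s₀.IsPrime := hs₀.isPrime
  haveI := hufd₀
  obtain ⟨z₀₀, cc₀, hz₀, hσpz₀, hσR₀, hdesc₀, hc₀, hcong₀, hgen₀₀⟩ :=
    zsg_ctx M' p hp hp2 hpM' B hB S a V hS h2S hVp hEig hNot hnE t htV hω M hdvd haux hM ζ hζ
      ut hut U hU σY hσK hσF hσU hst hcomm hσfix hσp R hR s₀ hic₀ hpR₀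
  letI iRE₀ := criAlg B (M * p) (cvcAdj (modularFunctionFieldBar (M * p)) U) (cvc_le_adj (modularFunctionFieldBar (M * p)) U) (nodeSetupNj B M p hp haux.1 hB R hR).B s₀
  letI iRF₀ := wpbAlgF0 B (M * p) (nodeSetupNj B M p hp haux.1 hB R hR).B s₀
  letI iRE0₀ := wpbAlgE0 B (M * p) (cvcAdj (modularFunctionFieldBar (M * p)) U) (cvc_le_adj (modularFunctionFieldBar (M * p)) U) hst (nodeSetupNj B M p hp haux.1 hB R hR).B s₀
  haveI hfr₀ : IsFractionRing (Localization.AtPrime s₀) ↥(f0Field B (M * p)) :=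
    wpb_frac B (M * p) (nodeSetupNj B M p hp haux.1 hB R hR).B s₀ hfrac
  haveI htw₀ : IsScalarTower (Localization.AtPrime s₀) ↥(f0Field B (M * p)) ↥(wpbE0 B (cvcAdj (modularFunctionFieldBar (M * p)) U) hst) :=
    wpb_tower B (M * p) (cvcAdj (modularFunctionFieldBar (M * p)) U) (cvc_le_adj (modularFunctionFieldBar (M * p)) U) hst (nodeSetupNj B M p hp haux.1 hB R hR).B s₀
  have hinjR₀ : Function.Injective (algebraMap (Localization.AtPrime s₀) ↥(wpbE0 B (cvcAdj (modularFunctionFieldBar (M * p)) U) hst)) := by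
    intro a' b' hab
    exact hgc_hinj B (M * p) (cvcAdj (modularFunctionFieldBar (M * p)) U) (cvc_le_adj (modularFunctionFieldBar (M * p)) U) (nodeSetupNj B M p hp haux.1 hB R hR).B s₀ hfrac (congrArg Subtype.val hab)
  obtain ⟨vInf, vZero, hvInf, hvInf1, hresInf, hvZero, hvZero1, hresZero⟩ :=
    s40j_ref (B := (nodeSetupNj B M p hp haux.1 hB R hR).B) (F₀ := ↥(f0Field B (M * p))) (E₀ := ↥(wpbE0 B (cvcAdj (modularFunctionFieldBar (M * p)) U) hst)) (E := ↥(cvcAdj (modularFunctionFieldBar (M * p)) U)) s₀ x₀ y₀ hm₀ hxs₀ hys₀ hyx₀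
      ρ₀ hρ₀ hinjR₀ hp hpR₀
      (cve0Iota (R := Localization.AtPrime s₀) (cve0cT (B.inertiaSubgroupIn ℚ) (cvcAdj (modularFunctionFieldBar (M * p)) U) hst)
        (cve0c_hR (B.inertiaSubgroupIn ℚ) (cvcAdj (modularFunctionFieldBar (M * p)) U) hst (wpb_hRfix B (M * p) (cvcAdj (modularFunctionFieldBar (M * p)) U) (cvc_le_adj (modularFunctionFieldBar (M * p)) U) hst (nodeSetupNj B M p hp haux.1 hB R hR).B s₀)))
      (cve0Sigma (cve0cT (B.inertiaSubgroupIn ℚ) (cvcAdj (modularFunctionFieldBar (M * p)) U) hst) σY (cve0c_hcomm (B.inertiaSubgroupIn ℚ) (cvcAdj (modularFunctionFieldBar (M * p)) U) hst σY hcomm)) z₀₀ hz₀ hσpz₀ hσR₀ hdesc₀ hζ' cc₀ hc₀ hcong₀ hgen₀₀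
  have hconstB : ∀ a : k0Val B,
      algebraMap ↥(k0Field B) ↥(f0Field B (M * p)) (a : ↥(k0Field B)) ∈ (nodeSetupNj B M p hp haux.1 hB R hR).B :=
    fun a => ((nodeSetupNj B M p hp haux.1 hB R hR).constB a).2
  have hκInf : (p : ℤ) ∣ vInf κ₀ :=
    wpk_hκ B (M * p) (cvcAdj (modularFunctionFieldBar (M * p)) U) (cvc_le_adj (modularFunctionFieldBar (M * p)) U) hst (nodeSetupNj B M p hp haux.1 hB R hR).B s₀ hfrac hconstB hp
      (algebraMap (nodeSetupNj B M p hp haux.1 hB R hR).B (Localization.AtPrime s₀) x₀) hxs₀ κ hκfix n hv κ₀ hκ₀e vInf hvInf hresInf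
  have hκZero : (p : ℤ) ∣ vZero κ₀ :=
    wpk_hκ B (M * p) (cvcAdj (modularFunctionFieldBar (M * p)) U) (cvc_le_adj (modularFunctionFieldBar (M * p)) U) hst (nodeSetupNj B M p hp haux.1 hB R hR).B s₀ hfrac hconstB hp
      (algebraMap (nodeSetupNj B M p hp haux.1 hB R hR).B (Localization.AtPrime s₀) y₀) hys₀ κ hκfix n hv κ₀ hκ₀e vZero hvZero
      hresZero
  refine ⟨vZero u₀ - vInf u₀, ?_⟩
  intro Q hQ hSS
  -- the X-side package (helper12)
  obtain ⟨s, hs, xB, yB, εx, εy, tB, h₁, h₂, hx, hxg, hεx, hy, hyg, hεy, hxy, htB, hmem, hord0,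
    hws, hy0, hwy, hx0', hufd, hxs, hys, hyx, hxy', hm, hnoeth, hic, hpR, ρ, hρ, hρc, hρz⟩ :=
    wcx_node_inf B M p hp haux.1 hB R hR haux Q hQ hSS
  haveI hsp : s.IsPrime := hs.isPrime
  haveI := hufd
  have hwQ : ∀ a b : Fk (IsLocalRing.ResidueField B) M, a ≠ 0 → b ≠ 0 →
      Q.ord (a * b) = Q.ord a + Q.ord b := fun a b ha hb => Q.ord_mul ha hb
  have hxyp := wcx_hxyp_Nj B M p hp haux.1 hB R hR s xB yB tB hxy
  -- group (C) (helper9)
  obtain ⟨z₀, cc, hz, hσpz, hσR, hdesc, hc, hcong, hgen₀⟩ :=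
    zsg_ctx M' p hp hp2 hpM' B hB S a V hS h2S hVp hEig hNot hnE t htV hω M hdvd haux hM ζ hζ
      ut hut U hU σY hσK hσF hσU hst hcomm hσfix hσp R hR s hic hpR
  obtain ⟨-, -, hdescE, -⟩ :=
    cri_inputs_Nj B M p hp haux.1 hB R hR (cvcAdj (modularFunctionFieldBar (M * p)) U) (cvc_le_adj (modularFunctionFieldBar (M * p)) U) s hic hst σY hσF hσfix
  have hcong1 := hcong 1 h1p
  simp only [Function.iterate_one, Nat.cast_one, map_one] at hcong1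
  have hzne := hgc_sigma_ne B (M * p) (cvcAdj (modularFunctionFieldBar (M * p)) U) (cvc_le_adj (modularFunctionFieldBar (M * p)) U) hst (nodeSetupNj B M p hp haux.1 hB R hR).B s σY hcomm hfrac hp hpR hζ hdescE z₀
    (cc 1) (hc 1 h1p) hcong1
  have hgenE := wph_hgenE B (M * p) (cvcAdj (modularFunctionFieldBar (M * p)) U) (cvc_le_adj (modularFunctionFieldBar (M * p)) U) hst hp σY hσF hσfix hσp z₀ hzne
  -- (V) at `s`
  have hvInfF := wpv_hvF B (M * p) (nodeSetupNj B M p hp haux.1 hB R hR).B s₀ s hfrac (nodeSetupNj B M p hp haux.1 hB R hR).redInf h₁₀ h₁ x₀ εx₀ hx₀ hxg₀ hεx₀ hxs₀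
    xB εx hx hxg hεx hxs (fun f => vInf (algebraMap ↥(f0Field B (M * p)) ↥(wpbE0 B (cvcAdj (modularFunctionFieldBar (M * p)) U) hst) f)) hresInf
  have hvZeroF := wpv_hvF B (M * p) (nodeSetupNj B M p hp haux.1 hB R hR).B s₀ s hfrac (nodeSetupNj B M p hp haux.1 hB R hR).redZero h₂₀ h₂ y₀ εy₀ hy₀ hyg₀ hεy₀ hys₀
    yB εy hy hyg hεy hys (fun f => vZero (algebraMap ↥(f0Field B (M * p)) ↥(wpbE0 B (cvcAdj (modularFunctionFieldBar (M * p)) U) hst) f)) hresZero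
  -- (E)
  obtain ⟨σ₁, hσ₁m, hσ₁x, -⟩ := hσ₁
  have hσrt : σ₁ rt ≠ rt := fun h0 => hσ₁x ((hxrt σ₁ hσ₁m.1).mpr h0)
  have hmove : ∃ τ ∈ S40hI1 p B, τ rt ≠ rt := ⟨σ₁, hσ₁m, hσrt⟩
  obtain ⟨ε0, a0, η, aE, mθ, π1K, θK, mθK, hε0fix, hafix, hε0A, hε0iA, hε00, haA, haiA, ha0, hηdef,
    haEdef, hη, hmθ, hπθ, hθ0, hπ1m, hθA, hθiA, hmθA, hπ1φ, hθφ, hmφ⟩ :=
    wpe_inst B (M * p) hp hB κ rt hκ0 hrt hκfix n hv hmove (wppPhi (M * p) (cvcAdj (modularFunctionFieldBar (M * p)) U) (cvc_le_adj (modularFunctionFieldBar (M * p)) U))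
  obtain ⟨⟨hπ1F, hπ1red⟩, hθF, hθF', hmF⟩ :=
    wpe_red (M * p) R π1K θK mθK hπ1m hθA hθiA hmθA
  -- (Co)
  letI iRR : RRBase Kbar (modularFunctionFieldBar (M * p)) := (mod_rrHyp (M * p)).toRRBase
  have hp0 : (p : Kbar) ≠ 0 := Nat.cast_ne_zero.mpr hp.ne_zero
  have hd0 : (p : Kbar) ^ n * ε0 ≠ 0 := mul_ne_zero (zpow_ne_zero n hp0) hε00
  have haH : ∀ τ ∈ (B.inertiaSubgroupIn ℚ), τ (((p : Kbar) ^ n * ε0)⁻¹) =
      ((p : Kbar) ^ n * ε0)⁻¹ := by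
    intro τ hτ
    rw [map_inv₀, map_mul, map_zpow₀, map_natCast, hε0fix τ hτ]
  have hbH : ∀ τ ∈ (B.inertiaSubgroupIn ℚ), τ (-1 : Kbar) = -1 := by
    intro τ _
    rw [map_neg, map_one]
  have hrtp : ∀ τ ∈ (B.inertiaSubgroupIn ℚ), τ (rt ^ p) = rt ^ p := by
    intro τ hτ
    rw [hrt]
    exact hκfix τ hτ
  have hSt' : ∀ τ ∈ (B.inertiaSubgroupIn ℚ), τ rt = rt → τ • (auxLevelPull (M' * p) (M * p) (Nat.mul_dvd_mul_right hdvd p) x) = (auxLevelPull (M' * p) (M * p) (Nat.mul_dvd_mul_right hdvd p) x) := by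
    intro τ hτ hτrt
    rw [← auxLevelPull_smul, (hxrt τ hτ).mpr hτrt]
  obtain ⟨cK, hE, hcK0, hE0, hrelL⟩ := hrelu
  have hπ1E : η - 1 = algebraMap Kbar ↥(cvcAdj (modularFunctionFieldBar (M * p)) U) (((p : Kbar) ^ n * ε0)⁻¹ * rt + (-1)) := by
    rw [hηdef, map_add, map_neg, map_one, div_eq_mul_inv, mul_comm rt, sub_eq_add_neg]
  obtain ⟨u1, ae, au, ah, hk1, hae, hau, hah, hrelE, hu1⟩ :=
    wcy_pkg B M p hp haux.1 hB R hR (cvcAdj (modularFunctionFieldBar (M * p)) U) (cvc_le_adj (modularFunctionFieldBar (M * p)) U) s hζ hux hst hrt0 hrtp hSt' σ₁ hσ₁m.1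
      (hσ₁m.2 ζ hζ.pow_eq_one) hσrt (((p : Kbar) ^ n * ε0)⁻¹) (-1) (inv_ne_zero hd0) haH hbH
      u hE hcK0 hE0 hrelL huI (η - 1) hπ1E
  -- the per-point statement for `u1`
  refine wpt28_transfer R hux hk1 Q (vZero u₀ - vInf u₀) ?_
  intro c₁ h2 h20
  letI iRE := criAlg B (M * p) (cvcAdj (modularFunctionFieldBar (M * p)) U) (cvc_le_adj (modularFunctionFieldBar (M * p)) U) (nodeSetupNj B M p hp haux.1 hB R hR).B s
  letI iRF := wpbAlgF0 B (M * p) (nodeSetupNj B M p hp haux.1 hB R hR).B s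
  letI iRE0 := wpbAlgE0 B (M * p) (cvcAdj (modularFunctionFieldBar (M * p)) U) (cvc_le_adj (modularFunctionFieldBar (M * p)) U) hst (nodeSetupNj B M p hp haux.1 hB R hR).B s
  have hinjR : Function.Injective (algebraMap (Localization.AtPrime s) ↥(wpbE0 B (cvcAdj (modularFunctionFieldBar (M * p)) U) hst)) := by
    intro a' b' hab
    exact hgc_hinj B (M * p) (cvcAdj (modularFunctionFieldBar (M * p)) U) (cvc_le_adj (modularFunctionFieldBar (M * p)) U) (nodeSetupNj B M p hp haux.1 hB R hR).B s hfrac (congrArg Subtype.val hab)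
  haveI : Nontrivial (Algebra.adjoin (Localization.AtPrime s) ({z₀} : Set ↥(wpbE0 B (cvcAdj (modularFunctionFieldBar (M * p)) U) hst))) :=
    inferInstance
  obtain ⟨𝔫, h𝔫⟩ := Ideal.exists_maximal
    (Algebra.adjoin (Localization.AtPrime s) ({z₀} : Set ↥(wpbE0 B (cvcAdj (modularFunctionFieldBar (M * p)) U) hst)))
  have hUmem : U ^ p ∈ modularFunctionFieldBar (M * p) := by
    rw [hU]
    exact ut.2
  have haK : aE ∈ g2wUK (wcyJE B M p hp haux.1 hB R hR (cvcAdj (modularFunctionFieldBar (M * p)) U) (cvc_le_adj (modularFunctionFieldBar (M * p)) U) s) (wcfIsC (nodeSetupNj B M p hp haux.1 hB R hR)) := by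
    rw [haEdef]
    exact wck2_haK B (M * p) (nodeSetupNj B M p hp haux.1 hB R hR) (wppPhi (M * p) (cvcAdj (modularFunctionFieldBar (M * p)) U) (cvc_le_adj (modularFunctionFieldBar (M * p)) U))
      (wcyJE B M p hp haux.1 hB R hR (cvcAdj (modularFunctionFieldBar (M * p)) U) (cvc_le_adj (modularFunctionFieldBar (M * p)) U) s)
      (fun b => wcy_hφj B M p hp haux.1 hB R hR (cvcAdj (modularFunctionFieldBar (M * p)) U) (cvc_le_adj (modularFunctionFieldBar (M * p)) U) s b) a0 hafix haA haiA ha0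
  have hrelL' : (((u₀ : ↥(wpbE0 B (cvcAdj (modularFunctionFieldBar (M * p)) U) hst)) : ↥(cvcAdj (modularFunctionFieldBar (M * p)) U)) : LaurentSeries Kbar) =
      algebraMap Kbar (LaurentSeries Kbar) cK * (ux : LaurentSeries Kbar) *
        (hE : LaurentSeries Kbar) ^ p := by
    rw [hu₀e]
    exact hrelL
  exact wpb_call_node B (M * p) (cvcAdj (modularFunctionFieldBar (M * p)) U) (cvc_le_adj (modularFunctionFieldBar (M * p)) U) hst (nodeSetupNj B M p hp haux.1 hB R hR).B s p hp hB hfrac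
    (nodeSetupNj B M p hp haux.1 hB R hR).redInf h₁ xB εx yB hx hxg hεx hm Q.ord hwQ hord0 hws hy0 hwy hxs hys hyx tB htB hxyp
    ρ hρ hinjR hpR
    (cve0Iota (R := Localization.AtPrime s) (cve0cT (B.inertiaSubgroupIn ℚ) (cvcAdj (modularFunctionFieldBar (M * p)) U) hst)
      (cve0c_hR (B.inertiaSubgroupIn ℚ) (cvcAdj (modularFunctionFieldBar (M * p)) U) hst (wpb_hRfix B (M * p) (cvcAdj (modularFunctionFieldBar (M * p)) U) (cvc_le_adj (modularFunctionFieldBar (M * p)) U) hst (nodeSetupNj B M p hp haux.1 hB R hR).B s)))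
    (fun e => rfl) (cve0Sigma (cve0cT (B.inertiaSubgroupIn ℚ) (cvcAdj (modularFunctionFieldBar (M * p)) U) hst) σY (cve0c_hcomm (B.inertiaSubgroupIn ℚ) (cvcAdj (modularFunctionFieldBar (M * p)) U) hst σY hcomm)) z₀ hz hσpz hσR hdesc (algebraMap Kbar ↥(cvcAdj (modularFunctionFieldBar (M * p)) U) ζ) hζ' cc hc hcong hgen₀ 𝔫 h𝔫
    u₀ g₀ κ₀ hu₀0 hg₀0 hκ₀0 hσκ hσu₀ hσn hfixE
    vInf vZero hvInf hvInf1 hvInfF hvZero hvZero1 hvZeroF hκInf hκZero
    hgenE (wppPhi (M * p) (cvcAdj (modularFunctionFieldBar (M * p)) U) (cvc_le_adj (modularFunctionFieldBar (M * p)) U))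
    (wpp_hphi (M * p) U hp.pos hUmem) (auxLevelPull (M' * p) (M * p) (Nat.mul_dvd_mul_right hdvd p) x) ux hux hE cK
    (wpp_hrelu B (M * p) (cvcAdj (modularFunctionFieldBar (M * p)) U) (cvc_le_adj (modularFunctionFieldBar (M * p)) U) hst p u₀ ux hE cK hrelL')
    (wppIotaA B (M * p) (nodeSetupNj B M p hp haux.1 hB R hR).B s (nodeSetupNj B M p hp haux.1 hB R hR).constB)
    (wpp_hcompatA B (M * p) (cvcAdj (modularFunctionFieldBar (M * p)) U) (cvc_le_adj (modularFunctionFieldBar (M * p)) U) hst (nodeSetupNj B M p hp haux.1 hB R hR).B s (nodeSetupNj B M p hp haux.1 hB R hR).constB (fun a => rfl))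
    ((p : ℕ) : k0Val B) (wpp_hpiA B hB) 1 (wpp_hpA B (M * p) (nodeSetupNj B M p hp haux.1 hB R hR).B s (nodeSetupNj B M p hp haux.1 hB R hR).constB p)
    η aE mθ hη hmθ hπθ hθ0
    (wcyJE B M p hp haux.1 hB R hR (cvcAdj (modularFunctionFieldBar (M * p)) U) (cvc_le_adj (modularFunctionFieldBar (M * p)) U) s) (fun b => rfl) (wcfIsC (nodeSetupNj B M p hp haux.1 hB R hR))
    (wcf_isC_mul (nodeSetupNj B M p hp haux.1 hB R hR)) (fun n hn => wcf_hC_inf (nodeSetupNj B M p hp haux.1 hB R hR) Q n hn) haK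
    ae au ah hae hau hah (hrelE u₀ hu₀e)
    (wcfJ B M p hp haux.1 hB R hR) (wcy_hφj B M p hp haux.1 hB R hR (cvcAdj (modularFunctionFieldBar (M * p)) U) (cvc_le_adj (modularFunctionFieldBar (M * p)) U) s)
    R.O R.red (wcf_hjO B M p hp haux.1 hB R hR) (wcf_hjred B M p hp haux.1 hB R hR)
    (wcf_hOFinv R) (wcf_hconst R Q)
    π1K θK mθK hπ1F hπ1red hπ1φ hθF hθφ hθF' hmF hmφ u1 hu1 c₁ h2 h20

theorem wnd16_zero (M' p : ℕ) [NeZero M'] [NeZero p] [NeZero (M' * p)] (hp : p.Prime)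
    (hp2 : p ≠ 2) (hpM' : ¬ p ∣ M')
    (B : ValuationSubring (AlgebraicClosure ℚ)) (hB : B.LiesOverPrime p) :
    S44jPtNodeZero M' p hp B hB := by
  intro S a V hS h2S hcard hVp hGal hEig hNot hnE x hxV hx0 hτ0 t htV ht0 hIt hω M e iM iMp hdvd
    haux hM hMe hψ ζ hζ ux ut hux hut U hU σY hσ rt κ u g hκ0 hrt0 hrt hκfix hxrt hu0 hg0 huI hgI
    hσu hrelu n hv R hR hσ₁

  classical
  obtain ⟨hσK, hσF, hσU, hσI, hσfix, hσp⟩ := hσ
  have hst : ∀ σ ∈ (B.inertiaSubgroupIn ℚ), ∀ z ∈ (cvcAdj (modularFunctionFieldBar (M * p)) U),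
      coeffMap ((σ : Kbar ≃ₐ[ℚ] Kbar) : Kbar →+* Kbar) z ∈ (cvcAdj (modularFunctionFieldBar (M * p)) U) :=
    fun σ hσ z hz => (hσI σ hσ ⟨z, hz⟩).1
  have hcomm : ∀ (σ : Kbar ≃ₐ[ℚ] Kbar) (hσ : σ ∈ (B.inertiaSubgroupIn ℚ))
      (z : ↥(cvcAdj (modularFunctionFieldBar (M * p)) U)),
      σY (wlcTau (B.inertiaSubgroupIn ℚ) (cvcAdj (modularFunctionFieldBar (M * p)) U) hst σ hσ z) =
        wlcTau (B.inertiaSubgroupIn ℚ) (cvcAdj (modularFunctionFieldBar (M * p)) U) hst σ hσ (σY z) := by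
    intro σ hσ' z
    obtain ⟨hz, hz', h⟩ := hσI σ hσ' z
    exact h
  by_cases hex : ∃ Q₀ : Place (IsLocalRing.ResidueField B) (Fk (IsLocalRing.ResidueField B) M),
      0 ≤ Q₀.ord (jk (IsLocalRing.ResidueField B) M) ∧
      (∀ z ∈ (nodeSetupNj B M p hp haux.1 hB R hR).pInf, (nodeSetupNj B M p hp haux.1 hB R hR).redZero z = 0 ∨ 0 < Q₀.ord ((nodeSetupNj B M p hp haux.1 hB R hR).redZero z))
  swap
  · exact ⟨0, fun Q hQ hSS => absurd ⟨Q, hQ, hSS⟩ hex⟩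
  obtain ⟨Q₀, hQ₀, hSS₀⟩ := hex
  haveI : IsAlgClosed (IsLocalRing.ResidueField B) := isAlgClosed_residueField B
  haveI : IsNoetherianRing (nodeSetupNj B M p hp haux.1 hB R hR).B :=
    (r1c_noeth_frac B M p hp haux.1 hB R hR
      (fun z h1 h3 => w2j_rgnSum B M p hp haux.1 hB R hR z h1 h3)).1
  have hfrac := cri_hfrac_Nj B M p hp haux.1 hB R hR
  have h1p : 1 ∈ Finset.Ico 1 p := Finset.mem_Ico.mpr ⟨le_rfl, hp.one_lt⟩
  have hζ' : IsPrimitiveRoot (algebraMap Kbar ↥(cvcAdj (modularFunctionFieldBar (M * p)) U) ζ) p :=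
    hζ.map_of_injective (algebraMap Kbar ↥(cvcAdj (modularFunctionFieldBar (M * p)) U)).injective
  letI iFE0 := wpbAlgF0E0 B (M * p) (cvcAdj (modularFunctionFieldBar (M * p)) U) (cvc_le_adj (modularFunctionFieldBar (M * p)) U) hst
  letI iKE0 := wpbAlgK0E0 B (M * p) (cvcAdj (modularFunctionFieldBar (M * p)) U) (cvc_le_adj (modularFunctionFieldBar (M * p)) U) hst
  letI iKE := wpbAlgK0E B (cvcAdj (modularFunctionFieldBar (M * p)) U)
  -- (D)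
  obtain ⟨u₀, g₀, κ₀, hu₀e, hg₀e, hκ₀e, hu₀0, hg₀0, hκ₀0, hσκ, hσu₀, hσn, hfixE⟩ :=
    dki_pkg B (M * p) (cvcAdj (modularFunctionFieldBar (M * p)) U) (cvc_le_adj (modularFunctionFieldBar (M * p)) U) hst σY hcomm p hσK hσp hσfix κ hκ0 hκfix u g hu0 hg0 huI hgI hσu
  -- the reference node
  obtain ⟨s₀, hs₀, x₀, y₀, εx₀, εy₀, tB₀, h₁₀, h₂₀, hx₀, hxg₀, hεx₀, hy₀, hyg₀, hεy₀, hxy₀, htB₀,
    hmem₀, hord0₀, hws₀, hy0₀, hwy₀, hx0'₀, hufd₀, hxs₀, hys₀, hyx₀, hxy'₀, hm₀, hnoeth₀, hic₀,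
    hpR₀, ρ₀, hρ₀, hρc₀, hρz₀⟩ :=
    wcx_node_zero B M p hp haux.1 hB R hR haux Q₀ hQ₀ hSS₀
  haveI hsp₀ : s₀.IsPrime := hs₀.isPrime
  haveI := hufd₀
  obtain ⟨z₀₀, cc₀, hz₀, hσpz₀, hσR₀, hdesc₀, hc₀, hcong₀, hgen₀₀⟩ :=
    zsg_ctx M' p hp hp2 hpM' B hB S a V hS h2S hVp hEig hNot hnE t htV hω M hdvd haux hM ζ hζ
      ut hut U hU σY hσK hσF hσU hst hcomm hσfix hσp R hR s₀ hic₀ hpR₀
  letI iRE₀ := criAlg B (M * p) (cvcAdj (modularFunctionFieldBar (M * p)) U) (cvc_le_adj (modularFunctionFieldBar (M * p)) U) (nodeSetupNj B M p hp haux.1 hB R hR).B s₀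
  letI iRF₀ := wpbAlgF0 B (M * p) (nodeSetupNj B M p hp haux.1 hB R hR).B s₀
  letI iRE0₀ := wpbAlgE0 B (M * p) (cvcAdj (modularFunctionFieldBar (M * p)) U) (cvc_le_adj (modularFunctionFieldBar (M * p)) U) hst (nodeSetupNj B M p hp haux.1 hB R hR).B s₀
  haveI hfr₀ : IsFractionRing (Localization.AtPrime s₀) ↥(f0Field B (M * p)) :=
    wpb_frac B (M * p) (nodeSetupNj B M p hp haux.1 hB R hR).B s₀ hfrac
  haveI htw₀ : IsScalarTower (Localization.AtPrime s₀) ↥(f0Field B (M * p)) ↥(wpbE0 B (cvcAdj (modularFunctionFieldBar (M * p)) U) hst) :=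
    wpb_tower B (M * p) (cvcAdj (modularFunctionFieldBar (M * p)) U) (cvc_le_adj (modularFunctionFieldBar (M * p)) U) hst (nodeSetupNj B M p hp haux.1 hB R hR).B s₀
  have hinjR₀ : Function.Injective (algebraMap (Localization.AtPrime s₀) ↥(wpbE0 B (cvcAdj (modularFunctionFieldBar (M * p)) U) hst)) := by
    intro a' b' hab
    exact hgc_hinj B (M * p) (cvcAdj (modularFunctionFieldBar (M * p)) U) (cvc_le_adj (modularFunctionFieldBar (M * p)) U) (nodeSetupNj B M p hp haux.1 hB R hR).B s₀ hfrac (congrArg Subtype.val hab)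
  obtain ⟨vInf, vZero, hvInf, hvInf1, hresInf, hvZero, hvZero1, hresZero⟩ :=
    s40j_ref (B := (nodeSetupNj B M p hp haux.1 hB R hR).B) (F₀ := ↥(f0Field B (M * p))) (E₀ := ↥(wpbE0 B (cvcAdj (modularFunctionFieldBar (M * p)) U) hst)) (E := ↥(cvcAdj (modularFunctionFieldBar (M * p)) U)) s₀ x₀ y₀ hm₀ hxs₀ hys₀ hyx₀
      ρ₀ hρ₀ hinjR₀ hp hpR₀
      (cve0Iota (R := Localization.AtPrime s₀) (cve0cT (B.inertiaSubgroupIn ℚ) (cvcAdj (modularFunctionFieldBar (M * p)) U) hst)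
        (cve0c_hR (B.inertiaSubgroupIn ℚ) (cvcAdj (modularFunctionFieldBar (M * p)) U) hst (wpb_hRfix B (M * p) (cvcAdj (modularFunctionFieldBar (M * p)) U) (cvc_le_adj (modularFunctionFieldBar (M * p)) U) hst (nodeSetupNj B M p hp haux.1 hB R hR).B s₀)))
      (cve0Sigma (cve0cT (B.inertiaSubgroupIn ℚ) (cvcAdj (modularFunctionFieldBar (M * p)) U) hst) σY (cve0c_hcomm (B.inertiaSubgroupIn ℚ) (cvcAdj (modularFunctionFieldBar (M * p)) U) hst σY hcomm)) z₀₀ hz₀ hσpz₀ hσR₀ hdesc₀ hζ' cc₀ hc₀ hcong₀ hgen₀₀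
  have hconstB : ∀ a : k0Val B,
      algebraMap ↥(k0Field B) ↥(f0Field B (M * p)) (a : ↥(k0Field B)) ∈ (nodeSetupNj B M p hp haux.1 hB R hR).B :=
    fun a => ((nodeSetupNj B M p hp haux.1 hB R hR).constB a).2
  have hκInf : (p : ℤ) ∣ vInf κ₀ :=
    wpk_hκ B (M * p) (cvcAdj (modularFunctionFieldBar (M * p)) U) (cvc_le_adj (modularFunctionFieldBar (M * p)) U) hst (nodeSetupNj B M p hp haux.1 hB R hR).B s₀ hfrac hconstB hp
      (algebraMap (nodeSetupNj B M p hp haux.1 hB R hR).B (Localization.AtPrime s₀) x₀) hxs₀ κ hκfix n hv κ₀ hκ₀e vInf hvInf hresInf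
  have hκZero : (p : ℤ) ∣ vZero κ₀ :=
    wpk_hκ B (M * p) (cvcAdj (modularFunctionFieldBar (M * p)) U) (cvc_le_adj (modularFunctionFieldBar (M * p)) U) hst (nodeSetupNj B M p hp haux.1 hB R hR).B s₀ hfrac hconstB hp
      (algebraMap (nodeSetupNj B M p hp haux.1 hB R hR).B (Localization.AtPrime s₀) y₀) hys₀ κ hκfix n hv κ₀ hκ₀e vZero hvZero
      hresZero
  refine ⟨vZero u₀ - vInf u₀, ?_⟩
  intro Q hQ hSS
  -- the X-side package (helper12)
  obtain ⟨s, hs, xB, yB, εx, εy, tB, h₁, h₂, hx, hxg, hεx, hy, hyg, hεy, hxy, htB, hmem, hord0,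
    hws, hy0, hwy, hx0', hufd, hxs, hys, hyx, hxy', hm, hnoeth, hic, hpR, ρ, hρ, hρc, hρz⟩ :=
    wcx_node_zero B M p hp haux.1 hB R hR haux Q hQ hSS
  haveI hsp : s.IsPrime := hs.isPrime
  haveI := hufd
  have hwQ : ∀ a b : Fk (IsLocalRing.ResidueField B) M, a ≠ 0 → b ≠ 0 →
      Q.ord (a * b) = Q.ord a + Q.ord b := fun a b ha hb => Q.ord_mul ha hb
  have hxyp := wcx_hxyp_Nj B M p hp haux.1 hB R hR s xB yB tB hxy
  -- group (C) (helper9)
  obtain ⟨z₀, cc, hz, hσpz, hσR, hdesc, hc, hcong, hgen₀⟩ :=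
    zsg_ctx M' p hp hp2 hpM' B hB S a V hS h2S hVp hEig hNot hnE t htV hω M hdvd haux hM ζ hζ
      ut hut U hU σY hσK hσF hσU hst hcomm hσfix hσp R hR s hic hpR
  obtain ⟨-, -, hdescE, -⟩ :=
    cri_inputs_Nj B M p hp haux.1 hB R hR (cvcAdj (modularFunctionFieldBar (M * p)) U) (cvc_le_adj (modularFunctionFieldBar (M * p)) U) s hic hst σY hσF hσfix
  have hcong1 := hcong 1 h1p
  simp only [Function.iterate_one, Nat.cast_one, map_one] at hcong1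
  have hzne := hgc_sigma_ne B (M * p) (cvcAdj (modularFunctionFieldBar (M * p)) U) (cvc_le_adj (modularFunctionFieldBar (M * p)) U) hst (nodeSetupNj B M p hp haux.1 hB R hR).B s σY hcomm hfrac hp hpR hζ hdescE z₀
    (cc 1) (hc 1 h1p) hcong1
  have hgenE := wph_hgenE B (M * p) (cvcAdj (modularFunctionFieldBar (M * p)) U) (cvc_le_adj (modularFunctionFieldBar (M * p)) U) hst hp σY hσF hσfix hσp z₀ hzne
  -- (V) at `s`
  have hvInfF := wpv_hvF B (M * p) (nodeSetupNj B M p hp haux.1 hB R hR).B s₀ s hfrac (nodeSetupNj B M p hp haux.1 hB R hR).redZero h₁₀ h₁ x₀ εx₀ hx₀ hxg₀ hεx₀ hxs₀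
    xB εx hx hxg hεx hxs (fun f => vInf (algebraMap ↥(f0Field B (M * p)) ↥(wpbE0 B (cvcAdj (modularFunctionFieldBar (M * p)) U) hst) f)) hresInf
  have hvZeroF := wpv_hvF B (M * p) (nodeSetupNj B M p hp haux.1 hB R hR).B s₀ s hfrac (nodeSetupNj B M p hp haux.1 hB R hR).redInf h₂₀ h₂ y₀ εy₀ hy₀ hyg₀ hεy₀ hys₀
    yB εy hy hyg hεy hys (fun f => vZero (algebraMap ↥(f0Field B (M * p)) ↥(wpbE0 B (cvcAdj (modularFunctionFieldBar (M * p)) U) hst) f)) hresZero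
  -- (E)
  obtain ⟨σ₁, hσ₁m, hσ₁x, -⟩ := hσ₁
  have hσrt : σ₁ rt ≠ rt := fun h0 => hσ₁x ((hxrt σ₁ hσ₁m.1).mpr h0)
  have hmove : ∃ τ ∈ S40hI1 p B, τ rt ≠ rt := ⟨σ₁, hσ₁m, hσrt⟩
  obtain ⟨ε0, a0, η, aE, mθ, π1K, θK, mθK, hε0fix, hafix, hε0A, hε0iA, hε00, haA, haiA, ha0, hηdef,
    haEdef, hη, hmθ, hπθ, hθ0, hπ1m, hθA, hθiA, hmθA, hπ1φ, hθφ, hmφ⟩ :=
    wpe_inst B (M * p) hp hB κ rt hκ0 hrt hκfix n hv hmove (wppPhi (M * p) (cvcAdj (modularFunctionFieldBar (M * p)) U) (cvc_le_adj (modularFunctionFieldBar (M * p)) U))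
  obtain ⟨⟨hπ1F, hπ1red⟩, hθF, hθF', hmF⟩ :=
    wpe_red (M * p) (glmZero M p hp haux.1 R) π1K θK mθK hπ1m hθA hθiA hmθA
  -- (Co)
  letI iRR : RRBase Kbar (modularFunctionFieldBar (M * p)) := (mod_rrHyp (M * p)).toRRBase
  have hp0 : (p : Kbar) ≠ 0 := Nat.cast_ne_zero.mpr hp.ne_zero
  have hd0 : (p : Kbar) ^ n * ε0 ≠ 0 := mul_ne_zero (zpow_ne_zero n hp0) hε00
  have haH : ∀ τ ∈ (B.inertiaSubgroupIn ℚ), τ (((p : Kbar) ^ n * ε0)⁻¹) =
      ((p : Kbar) ^ n * ε0)⁻¹ := by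
    intro τ hτ
    rw [map_inv₀, map_mul, map_zpow₀, map_natCast, hε0fix τ hτ]
  have hbH : ∀ τ ∈ (B.inertiaSubgroupIn ℚ), τ (-1 : Kbar) = -1 := by
    intro τ _
    rw [map_neg, map_one]
  have hrtp : ∀ τ ∈ (B.inertiaSubgroupIn ℚ), τ (rt ^ p) = rt ^ p := by
    intro τ hτ
    rw [hrt]
    exact hκfix τ hτ
  have hSt' : ∀ τ ∈ (B.inertiaSubgroupIn ℚ), τ rt = rt → τ • (auxLevelPull (M' * p) (M * p) (Nat.mul_dvd_mul_right hdvd p) x) = (auxLevelPull (M' * p) (M * p) (Nat.mul_dvd_mul_right hdvd p) x) := by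
    intro τ hτ hτrt
    rw [← auxLevelPull_smul, (hxrt τ hτ).mpr hτrt]
  obtain ⟨cK, hE, hcK0, hE0, hrelL⟩ := hrelu
  have hπ1E : η - 1 = algebraMap Kbar ↥(cvcAdj (modularFunctionFieldBar (M * p)) U) (((p : Kbar) ^ n * ε0)⁻¹ * rt + (-1)) := by
    rw [hηdef, map_add, map_neg, map_one, div_eq_mul_inv, mul_comm rt, sub_eq_add_neg]
  obtain ⟨u1, ae, au, ah, hk1, hae, hau, hah, hrelE, hu1⟩ :=
    wcy_pkg B M p hp haux.1 hB R hR (cvcAdj (modularFunctionFieldBar (M * p)) U) (cvc_le_adj (modularFunctionFieldBar (M * p)) U) s hζ hux hst hrt0 hrtp hSt' σ₁ hσ₁m.1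
      (hσ₁m.2 ζ hζ.pow_eq_one) hσrt (((p : Kbar) ^ n * ε0)⁻¹) (-1) (inv_ne_zero hd0) haH hbH
      u hE hcK0 hE0 hrelL huI (η - 1) hπ1E
  -- the per-point statement for `u1`
  refine wpt28_transfer (glmZero M p hp haux.1 R) hux hk1 Q (vZero u₀ - vInf u₀) ?_
  intro c₁ h2 h20
  letI iRE := criAlg B (M * p) (cvcAdj (modularFunctionFieldBar (M * p)) U) (cvc_le_adj (modularFunctionFieldBar (M * p)) U) (nodeSetupNj B M p hp haux.1 hB R hR).B s
  letI iRF := wpbAlgF0 B (M * p) (nodeSetupNj B M p hp haux.1 hB R hR).B s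
  letI iRE0 := wpbAlgE0 B (M * p) (cvcAdj (modularFunctionFieldBar (M * p)) U) (cvc_le_adj (modularFunctionFieldBar (M * p)) U) hst (nodeSetupNj B M p hp haux.1 hB R hR).B s
  have hinjR : Function.Injective (algebraMap (Localization.AtPrime s) ↥(wpbE0 B (cvcAdj (modularFunctionFieldBar (M * p)) U) hst)) := by
    intro a' b' hab
    exact hgc_hinj B (M * p) (cvcAdj (modularFunctionFieldBar (M * p)) U) (cvc_le_adj (modularFunctionFieldBar (M * p)) U) (nodeSetupNj B M p hp haux.1 hB R hR).B s hfrac (congrArg Subtype.val hab)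
  haveI : Nontrivial (Algebra.adjoin (Localization.AtPrime s) ({z₀} : Set ↥(wpbE0 B (cvcAdj (modularFunctionFieldBar (M * p)) U) hst))) :=
    inferInstance
  obtain ⟨𝔫, h𝔫⟩ := Ideal.exists_maximal
    (Algebra.adjoin (Localization.AtPrime s) ({z₀} : Set ↥(wpbE0 B (cvcAdj (modularFunctionFieldBar (M * p)) U) hst)))
  have hUmem : U ^ p ∈ modularFunctionFieldBar (M * p) := by
    rw [hU]
    exact ut.2
  have haK : aE ∈ g2wUK (wcyJE B M p hp haux.1 hB R hR (cvcAdj (modularFunctionFieldBar (M * p)) U) (cvc_le_adj (modularFunctionFieldBar (M * p)) U) s) (wcfIsC (nodeSetupNj B M p hp haux.1 hB R hR)) := by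
    rw [haEdef]
    exact wck2_haK B (M * p) (nodeSetupNj B M p hp haux.1 hB R hR) (wppPhi (M * p) (cvcAdj (modularFunctionFieldBar (M * p)) U) (cvc_le_adj (modularFunctionFieldBar (M * p)) U))
      (wcyJE B M p hp haux.1 hB R hR (cvcAdj (modularFunctionFieldBar (M * p)) U) (cvc_le_adj (modularFunctionFieldBar (M * p)) U) s)
      (fun b => wcy_hφj B M p hp haux.1 hB R hR (cvcAdj (modularFunctionFieldBar (M * p)) U) (cvc_le_adj (modularFunctionFieldBar (M * p)) U) s b) a0 hafix haA haiA ha0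
  have hrelL' : (((u₀ : ↥(wpbE0 B (cvcAdj (modularFunctionFieldBar (M * p)) U) hst)) : ↥(cvcAdj (modularFunctionFieldBar (M * p)) U)) : LaurentSeries Kbar) =
      algebraMap Kbar (LaurentSeries Kbar) cK * (ux : LaurentSeries Kbar) *
        (hE : LaurentSeries Kbar) ^ p := by
    rw [hu₀e]
    exact hrelL
  exact wpb_call_node B (M * p) (cvcAdj (modularFunctionFieldBar (M * p)) U) (cvc_le_adj (modularFunctionFieldBar (M * p)) U) hst (nodeSetupNj B M p hp haux.1 hB R hR).B s p hp hB hfrac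
    (nodeSetupNj B M p hp haux.1 hB R hR).redZero h₁ xB εx yB hx hxg hεx hm Q.ord hwQ hord0 hws hy0 hwy hxs hys hyx tB htB hxyp
    ρ hρ hinjR hpR
    (cve0Iota (R := Localization.AtPrime s) (cve0cT (B.inertiaSubgroupIn ℚ) (cvcAdj (modularFunctionFieldBar (M * p)) U) hst)
      (cve0c_hR (B.inertiaSubgroupIn ℚ) (cvcAdj (modularFunctionFieldBar (M * p)) U) hst (wpb_hRfix B (M * p) (cvcAdj (modularFunctionFieldBar (M * p)) U) (cvc_le_adj (modularFunctionFieldBar (M * p)) U) hst (nodeSetupNj B M p hp haux.1 hB R hR).B s)))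
    (fun e => rfl) (cve0Sigma (cve0cT (B.inertiaSubgroupIn ℚ) (cvcAdj (modularFunctionFieldBar (M * p)) U) hst) σY (cve0c_hcomm (B.inertiaSubgroupIn ℚ) (cvcAdj (modularFunctionFieldBar (M * p)) U) hst σY hcomm)) z₀ hz hσpz hσR hdesc (algebraMap Kbar ↥(cvcAdj (modularFunctionFieldBar (M * p)) U) ζ) hζ' cc hc hcong hgen₀ 𝔫 h𝔫
    u₀ g₀ κ₀ hu₀0 hg₀0 hκ₀0 hσκ hσu₀ hσn hfixE
    vInf vZero hvInf hvInf1 hvInfF hvZero hvZero1 hvZeroF hκInf hκZero
    hgenE (wppPhi (M * p) (cvcAdj (modularFunctionFieldBar (M * p)) U) (cvc_le_adj (modularFunctionFieldBar (M * p)) U))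
    (wpp_hphi (M * p) U hp.pos hUmem) (auxLevelPull (M' * p) (M * p) (Nat.mul_dvd_mul_right hdvd p) x) ux hux hE cK
    (wpp_hrelu B (M * p) (cvcAdj (modularFunctionFieldBar (M * p)) U) (cvc_le_adj (modularFunctionFieldBar (M * p)) U) hst p u₀ ux hE cK hrelL')
    (wppIotaA B (M * p) (nodeSetupNj B M p hp haux.1 hB R hR).B s (nodeSetupNj B M p hp haux.1 hB R hR).constB)
    (wpp_hcompatA B (M * p) (cvcAdj (modularFunctionFieldBar (M * p)) U) (cvc_le_adj (modularFunctionFieldBar (M * p)) U) hst (nodeSetupNj B M p hp haux.1 hB R hR).B s (nodeSetupNj B M p hp haux.1 hB R hR).constB (fun a => rfl))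
    ((p : ℕ) : k0Val B) (wpp_hpiA B hB) 1 (wpp_hpA B (M * p) (nodeSetupNj B M p hp haux.1 hB R hR).B s (nodeSetupNj B M p hp haux.1 hB R hR).constB p)
    η aE mθ hη hmθ hπθ hθ0
    (wcyJE B M p hp haux.1 hB R hR (cvcAdj (modularFunctionFieldBar (M * p)) U) (cvc_le_adj (modularFunctionFieldBar (M * p)) U) s) (fun b => rfl) (wcfIsC (nodeSetupNj B M p hp haux.1 hB R hR))
    (wcf_isC_mul (nodeSetupNj B M p hp haux.1 hB R hR)) (fun n hn => wcf_hC_zero (nodeSetupNj B M p hp haux.1 hB R hR) Q n hn) haK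
    ae au ah hae hau hah (hrelE u₀ hu₀e)
    (wcfJ B M p hp haux.1 hB R hR) (wcy_hφj B M p hp haux.1 hB R hR (cvcAdj (modularFunctionFieldBar (M * p)) U) (cvc_le_adj (modularFunctionFieldBar (M * p)) U) s)
    (glmZero M p hp haux.1 R).O (glmZero M p hp haux.1 R).red (wcf_hjO_zero B M p hp haux.1 hB R hR) (wcf_hjred_zero B M p hp haux.1 hB R hR)
    (wcf_hOFinv (glmZero M p hp haux.1 R)) (wcf_hconst (glmZero M p hp haux.1 R) Q)
    π1K θK mθK hπ1F hπ1red hπ1φ hθF hθφ hθF' hmF hmφ u1 hu1 c₁ h2 h20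

end Fermat.Agent.S40lib

end
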