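import Mathlib
import Fermat.Agent.S36lib.Speed
import Fermat.Agent.S40lib.WindcCoInst
import Fermat.Agent.S40lib.WildPtCtx
import Fermat.Agent.S40lib.WindcK3

/-!
# Item 88 (S44), block (J-WILD), layer B: the group (Co) from the output of `wpc_coords` (helper23)

Context of helper8 / helper13: `E := ↥EY`, `E₀ := wpbE0 A EY hst`,
`jE := criIncl A N EY hle S.B`, `φ := IntermediateField.inclusion hle`, `S := nodeSetupNj`.

* `wcy2_hau` : `hau` of `wpb_call_node` for `au i = φ (cu i)`, `cu i` fixed by the inertia group;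
* `wcy2_shapes` : from the OUTPUT of `wpc_coords` (helper19) (`u1 ke cu ah`, fixedness, the two
  relations with `algebraMap Kbar EY π1`) and `η` with `η - 1 = algebraMap Kbar EY π1`:
  `ae au` with `hae`, `hau`, `hah`, `hrel`, `hu1` VERBATIM as in `wpb_call_node` / `s40j_pt_node`.
-/

set_option autoImplicit false
set_option linter.unusedVariables false
set_option linter.unusedSectionVars false
set_option linter.style.haveILetI false
set_option synthInstance.maxHeartbeats 400000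

noncomputable section

namespace Fermat.Agent.S40lib

open Fermat.Agent.S36lib IsLocalRing ModularCurve Fermat.Agent.S24lib Fermat.Agent.S34lib
  Fermat.Agent.GM Fermat.Agent.GoodRed HahnSeries AlgebraicCurve Fermat.Agent.S33lib
  Fermat.Agent.RRlib

section Ctx2

variable (A : ValuationSubring Kbar) (M' p : ℕ) [NeZero M'] [NeZero p] (hp : p.Prime)
  (hpM : ¬ p ∣ M') (hA : A.LiesOverPrime p)
  (R : ConstRed A (IsLocalRing.residue A)
      (↥(modularFunctionFieldFullC (IsLocalRing.ResidueField A) M')) (FF (M' * p)))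
  (hR : IsSeriesRed R)
  (EY : IntermediateField Kbar (LaurentSeries Kbar))
  (hle : modularFunctionFieldBar (M' * p) ≤ EY)

/-- **`hau`** of `wpb_call_node`, `jE := criIncl`, `au i = φ (cu i)` -/
theorem wcy2_hau {I : Type*} (cu : I → FF (M' * p))
    (hcu : ∀ i, ∀ τ ∈ A.inertiaSubgroupIn ℚ,
      coeffMap ((τ : Kbar ≃ₐ[ℚ] Kbar) : Kbar →+* Kbar) (cu i : LaurentSeries Kbar) =
        (cu i : LaurentSeries Kbar))
    (au : I → ↥EY) (hau : ∀ i, au i = IntermediateField.inclusion hle (cu i)) :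
    ∀ i, ∃ n d : (nodeSetupNj A M' p hp hpM hA R hR).B,
      criIncl A (M' * p) EY hle (nodeSetupNj A M' p hp hpM hA R hR).B d ≠ 0 ∧
        au i * criIncl A (M' * p) EY hle (nodeSetupNj A M' p hp hpM hA R hR).B d =
          criIncl A (M' * p) EY hle (nodeSetupNj A M' p hp hpM hA R hR).B n :=
  wci_hau A M' p hp hpM hA R hR (IntermediateField.inclusion hle).toRingHom
    (criIncl A (M' * p) EY hle (nodeSetupNj A M' p hp hpM hA R hR).B) (fun b => rfl) cu hcu au hau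

/-- **the group (Co) of `wpb_call_node` from the output of `wpc_coords`.** -/
theorem wcy2_shapes
    (hst : ∀ σ ∈ A.inertiaSubgroupIn ℚ, ∀ z ∈ EY,
      coeffMap ((σ : Kbar ≃ₐ[ℚ] Kbar) : Kbar →+* Kbar) z ∈ EY)
    (u1 : FF (M' * p)) (ke : Fin p → Kbar) (cu : Fin p → FF (M' * p)) (ah : Fin p → ↥EY)
    (π1 : Kbar) (u : ↥EY)
    (hke : ∀ i, ∀ τ ∈ A.inertiaSubgroupIn ℚ, τ (ke i) = ke i)
    (hcu : ∀ i, ∀ τ ∈ A.inertiaSubgroupIn ℚ,
      coeffMap ((τ : Kbar ≃ₐ[ℚ] Kbar) : Kbar →+* Kbar) (cu i : LaurentSeries Kbar) =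
        (cu i : LaurentSeries Kbar))
    (hah : ∀ i, ah i ∈ cve0Field (cve0cT (A.inertiaSubgroupIn ℚ) EY hst))
    (hU1 : (⟨(u1 : LaurentSeries Kbar), hle u1.2⟩ : ↥EY) =
      ∑ i : Fin p, (⟨(cu i : LaurentSeries Kbar), hle (cu i).2⟩ : ↥EY) *
        algebraMap Kbar ↥EY π1 ^ (i : ℕ))
    (hrel : u = (∑ i : Fin p, algebraMap Kbar ↥EY (ke i) * algebraMap Kbar ↥EY π1 ^ (i : ℕ)) *
        (∑ i : Fin p, (⟨(cu i : LaurentSeries Kbar), hle (cu i).2⟩ : ↥EY) *
          algebraMap Kbar ↥EY π1 ^ (i : ℕ)) *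
        (∑ i : Fin p, ah i * algebraMap Kbar ↥EY π1 ^ (i : ℕ)) ^ p)
    (η : ↥EY) (hη : η - 1 = algebraMap Kbar ↥EY π1) :
    ∃ (ae au : Fin p → ↥EY),
      (∀ i, ae i = algebraMap Kbar ↥EY (ke i)) ∧
      (∀ i, au i = IntermediateField.inclusion hle (cu i)) ∧
      (∀ i, ae i = 0 ∨ ∃ m : ℤ, ∃ b' ∈ g2wUK
          (criIncl A (M' * p) EY hle (nodeSetupNj A M' p hp hpM hA R hR).B)
          (wcfIsC (nodeSetupNj A M' p hp hpM hA R hR)),
        ae i = (p : ↥EY) ^ m * b') ∧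
      (∀ i, ∃ n d : (nodeSetupNj A M' p hp hpM hA R hR).B,
        criIncl A (M' * p) EY hle (nodeSetupNj A M' p hp hpM hA R hR).B d ≠ 0 ∧
          au i * criIncl A (M' * p) EY hle (nodeSetupNj A M' p hp hpM hA R hR).B d =
            criIncl A (M' * p) EY hle (nodeSetupNj A M' p hp hpM hA R hR).B n) ∧
      (∀ i, ∃ g₀ : ↥(wpbE0 A EY hst), ah i = algebraMap ↥(wpbE0 A EY hst) ↥EY g₀) ∧
      (∀ u₀ : ↥(wpbE0 A EY hst), (u₀ : ↥EY) = u →
        algebraMap ↥(wpbE0 A EY hst) ↥EY u₀ =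
          (∑ i, ae i * (η - 1) ^ (i : ℕ)) * (∑ i, au i * (η - 1) ^ (i : ℕ)) *
            (∑ i, ah i * (η - 1) ^ (i : ℕ)) ^ p) ∧
      (IntermediateField.inclusion hle : FF (M' * p) →ₐ[Kbar] ↥EY) u1 =
        ∑ i, au i * (η - 1) ^ (i : ℕ) := by
  refine ⟨fun i => algebraMap Kbar ↥EY (ke i), fun i => IntermediateField.inclusion hle (cu i),
    fun i => rfl, fun i => rfl, ?_, ?_, ?_, ?_, ?_⟩
  · exact wck3_hae A (M' * p) EY hle (nodeSetupNj A M' p hp hpM hA R hR) hp hA ke hke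
  · exact wcy2_hau A M' p hp hpM hA R hR EY hle cu hcu _ (fun i => rfl)
  · intro i
    exact ⟨⟨ah i, hah i⟩, rfl⟩
  · intro u₀ hu₀
    rw [hη]
    show (u₀ : ↥EY) = _
    rw [hu₀, hrel]
    rfl
  · rw [hη]
    exact hU1

end Ctx2

end Fermat.Agent.S40lib

end
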