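/-
Item 88 (S44), block (J-WILD), LAYER B MONOLITH (helper8): **supersingular places, component
`∞`** = `S44jPtNodeInf` (helper22's `WildPtSplit.lean`), complete proof.

Flow: reference node `s₀` (`wcx_node_inf`, `zsg_ctx`, `s40j_ref`) ⇒ global `vInf, vZero`,
`δ₁ := vZero u₀ - vInf u₀`; deck data `dki_pkg`; `hκ` by `wpk_hκ`; Eisenstein constants
`wei_consts`; coordinates `wpc_coords`; transfer `wpt28_transfer`; per place `Q`: centre
(`wcx_node_inf`), `z₀` (`zsg_ctx`), `hgenE` (`hgc_sigma_ne`, `wph_hgenE`), `(V)` (`wpv_hvF`),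
and the call of `wpg_node` (helper13) in the context `WildPtCtx`.
-/
import Mathlib
import Fermat.Agent.S36lib.Speed
import Fermat.Agent.S40lib.WildPtB
import Fermat.Agent.S40lib.WildPtSplit
import Fermat.Agent.S40lib.WindcX2
import Fermat.Agent.S40lib.ZStage2
import Fermat.Agent.S40lib.WildPtRef
import Fermat.Agent.S40lib.RefOrdV
import Fermat.Agent.S40lib.DeckInst2
import Fermat.Agent.S40lib.CoverInstF
import Fermat.Agent.S40lib.WildPtHV
import Fermat.Agent.S40lib.WildPtE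
import Fermat.Agent.S40lib.WildPtCo
import Fermat.Agent.S40lib.WindcK2
import Fermat.Agent.S40lib.WindcF
import Fermat.Agent.S40lib.WindcPtTransfer
import Fermat.Agent.S40lib.WindcPtTr28
import Fermat.Agent.S40lib.ZStage3
import Fermat.Agent.S40lib.HgenCtx
import Fermat.Agent.S40lib.WildPtPhi
import Fermat.Agent.S40lib.WindcCoCtx
import Fermat.Agent.S40lib.WindcK3
import Fermat.Agent.S40lib.WildPtGlue
import Fermat.Agent.S40lib.WildPtV21
import Fermat.Agent.S40lib.WildPtKappa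
import Fermat.Agent.S40lib.WindcCoCtx2
import Fermat.Agent.S40lib.WindcEInst

set_option autoImplicit false
set_option linter.style.haveILetI false
set_option linter.unusedSectionVars false
set_option linter.unusedVariables false
set_option synthInstance.maxHeartbeats 400000
set_option maxHeartbeats 4000000

noncomputable section

namespace Fermat.Agent.S40lib

open Fermat.Agent.GalRep ModularCurve AlgebraicCurve Fermat.Agent.S31lib Fermat.Agent.S35lib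
  Fermat.Agent.S33lib Fermat.Agent.S36lib Fermat.Agent.S24lib Fermat.Agent.S34lib
  Fermat.Agent.RRlib Fermat.Agent.GoodRed Fermat.Agent.S18lib Fermat.Agent.GM
  Fermat.Agent.HeckeBar HahnSeries IsLocalRing

theorem wpn_node_inf (M' p : ℕ) [NeZero M'] [NeZero p] [NeZero (M' * p)]
    (hp : p.Prime) (hp2 : p ≠ 2) (hpM' : ¬ p ∣ M')
    (B : ValuationSubring (AlgebraicClosure ℚ)) (hB : B.LiesOverPrime p) :
    S44jPtNodeInf M' p hp B hB := by
  intro S a V hS h2S hcard hVp hVst hEig hNot hnE x hxV hx0 hτ₀ t htV ht0 hxt hω M e iM iMp hdvd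
    haux hM hMe hψ ζ hζ
  intro ux ut hux hut U hU σY hσ rt κ u g hκ0 hrt0 hrtκ hκI hxrt hu0 hg0 huI hgI hσu hrel n hvκ
    R hR hmove
  letI iRR : RRBase Kbar (FF (M * p)) := (mod_rrHyp (M * p)).toRRBase
  obtain ⟨hσK, hσF, hσU, h4, hσfix, hσp⟩ := hσ
  have hst := zsg_hst (B.inertiaSubgroupIn ℚ) (cvcAdj (modularFunctionFieldBar (M * p)) U) σY h4
  have hcomm := zsg_hcomm (B.inertiaSubgroupIn ℚ) (cvcAdj (modularFunctionFieldBar (M * p)) U)
    σY hst h4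
  classical
  by_cases hex : ∃ Q₀ : Place (IsLocalRing.ResidueField B) (Fk (IsLocalRing.ResidueField B) M),
      0 ≤ Q₀.ord (jk (IsLocalRing.ResidueField B) M) ∧
      (∀ z ∈ (nodeSetupNj B M p hp haux.1 hB R hR).pZero,
        (nodeSetupNj B M p hp haux.1 hB R hR).redInf z = 0 ∨
          0 < Q₀.ord ((nodeSetupNj B M p hp haux.1 hB R hR).redInf z))
  swap
  · exact ⟨0, fun Q hQ hSS => absurd ⟨Q, hQ, hSS⟩ hex⟩
  obtain ⟨Q₀, hQ₀, hSS₀⟩ := hex
  haveI : IsAlgClosed (IsLocalRing.ResidueField B) := isAlgClosed_residueField B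
  haveI hNoe : IsNoetherianRing (nodeSetupNj B M p hp haux.1 hB R hR).B :=
    (r1c_noeth_frac B M p hp haux.1 hB R hR
      (fun z h1 h3 => w2j_rgnSum B M p hp haux.1 hB R hR z h1 h3)).1
  have hfrac := (r1c_noeth_frac B M p hp haux.1 hB R hR
      (fun z h1 h3 => w2j_rgnSum B M p hp haux.1 hB R hR z h1 h3)).2
  have hle := cvc_le_adj (modularFunctionFieldBar (M * p)) U
  letI iFE0 := wpbAlgF0E0 B (M * p) (cvcAdj (modularFunctionFieldBar (M * p)) U) hle hst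
  letI iKE0 := wpbAlgK0E0 B (M * p) (cvcAdj (modularFunctionFieldBar (M * p)) U) hle hst
  letI iKE := wpbAlgK0E B (cvcAdj (modularFunctionFieldBar (M * p)) U)
  have hζE : IsPrimitiveRoot (algebraMap Kbar ↥(cvcAdj (modularFunctionFieldBar (M * p)) U) ζ) p :=
    hζ.map_of_injective (algebraMap Kbar ↥(cvcAdj (modularFunctionFieldBar (M * p)) U)).injective
  -- the reference node
  obtain ⟨s₀, hs₀, x₀, y₀, εx₀, εy₀, tB₀, h₁₀, h₂₀, hx₀, hxg₀, hεx₀, hy₀, hyg₀, hεy₀, hxy₀, htB₀,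
    hmem₀, hord0₀, hws₀, hy0₀, hwy₀, hx0'₀, hufd₀, hxs₀, hys₀, hyx₀, hxy'₀, hm₀, hnoeth₀, hic₀,
    hpR₀, ρ₀, hρ₀, hρc₀, hρz₀⟩ :=
    wcx_node_inf B M p hp haux.1 hB R hR haux Q₀ hQ₀ hSS₀
  haveI hsp₀ : s₀.IsPrime := hs₀.isPrime
  haveI := hufd₀
  letI iRE₀ := criAlg B (M * p) (cvcAdj (modularFunctionFieldBar (M * p)) U) hle (nodeSetupNj B M p hp haux.1 hB R hR).B s₀
  letI iRF₀ := wpbAlgF0 B (M * p) (nodeSetupNj B M p hp haux.1 hB R hR).B s₀
  letI iRE0₀ := wpbAlgE0 B (M * p) (cvcAdj (modularFunctionFieldBar (M * p)) U) hle hst (nodeSetupNj B M p hp haux.1 hB R hR).B s₀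
  haveI hfr₀ : IsFractionRing (Localization.AtPrime s₀) ↥(f0Field B (M * p)) :=
    wpb_frac B (M * p) (nodeSetupNj B M p hp haux.1 hB R hR).B s₀ hfrac
  haveI htow₀ : IsScalarTower (Localization.AtPrime s₀) ↥(f0Field B (M * p))
      ↥(wpbE0 B (cvcAdj (modularFunctionFieldBar (M * p)) U) hst) :=
    wpb_tower B (M * p) (cvcAdj (modularFunctionFieldBar (M * p)) U) hle hst (nodeSetupNj B M p hp haux.1 hB R hR).B s₀
  obtain ⟨z₀₀, c₀₀, hz₀, hσpz₀, hσR₀, hdesc₀, hc₀, hcong₀, hgen₀₀⟩ :=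
    zsg_ctx M' p hp hp2 hpM' B hB S a V hS h2S hVp hEig hNot hnE t htV hω M hdvd haux hM ζ hζ
      ut hut U hU σY hσK hσF hσU hst hcomm hσfix hσp R hR s₀ hic₀ hpR₀
  have hinjR₀ : Function.Injective (algebraMap (Localization.AtPrime s₀)
      ↥(wpbE0 B (cvcAdj (modularFunctionFieldBar (M * p)) U) hst)) := fun a b h =>
    cif_hom_injective B (M * p) (cvcAdj (modularFunctionFieldBar (M * p)) U) hle (nodeSetupNj B M p hp haux.1 hB R hR).B s₀ hfrac (congrArg Subtype.val h)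
  obtain ⟨vInf, vZero, hvInf, hvInf1, hvInfF₀, hvZero, hvZero1, hvZeroF₀⟩ :=
    s40j_ref (B := ↥(nodeSetupNj B M p hp haux.1 hB R hR).B) (F₀ := ↥(f0Field B (M * p)))
      (E₀ := ↥(wpbE0 B (cvcAdj (modularFunctionFieldBar (M * p)) U) hst))
      (E := ↥(cvcAdj (modularFunctionFieldBar (M * p)) U)) s₀ x₀ y₀ hm₀ hxs₀ hys₀ hyx₀ ρ₀ hρ₀
      hinjR₀ hp hpR₀
      (cve0Iota (R := Localization.AtPrime s₀)
        (cve0cT (B.inertiaSubgroupIn ℚ) (cvcAdj (modularFunctionFieldBar (M * p)) U) hst)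
        (cve0c_hR (B.inertiaSubgroupIn ℚ) (cvcAdj (modularFunctionFieldBar (M * p)) U) hst
          (wpb_hRfix B (M * p) (cvcAdj (modularFunctionFieldBar (M * p)) U) hle hst (nodeSetupNj B M p hp haux.1 hB R hR).B s₀)))
      _ z₀₀ hz₀ hσpz₀ hσR₀ hdesc₀ hζE c₀₀ hc₀ hcong₀ hgen₀₀
  -- the deck data in `E₀`
  obtain ⟨u₀, g₀, κ₀, hu₀E, hg₀E, hκ₀E, hu₀0, hg₀0, hκ₀0, hσκ₀, hσu₀, hσn, hfix₀⟩ :=
    dki_pkg B (M * p) (cvcAdj (modularFunctionFieldBar (M * p)) U) hle hst σY hcomm p hσK hσp hσfix κ hκ0 hκI u g hu0 hg0 huI hgI hσu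
  -- `hκInf`, `hκZero`
  have hconstB : ∀ a0 : k0Val B,
      algebraMap ↥(k0Field B) ↥(f0Field B (M * p)) (a0 : ↥(k0Field B)) ∈ (nodeSetupNj B M p hp haux.1 hB R hR).B :=
    fun a0 => (nodeSetupNj B M p hp haux.1 hB R hR).algebraMap_mem_B a0
  have hκInf : (p : ℤ) ∣ vInf κ₀ :=
    wpk_hκ B (M * p) (cvcAdj (modularFunctionFieldBar (M * p)) U) hle hst (nodeSetupNj B M p hp haux.1 hB R hR).B s₀ hfrac hconstB hp _ hxs₀ κ hκI n hvκ κ₀ hκ₀E vInf hvInf
      hvInfF₀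
  have hκZero : (p : ℤ) ∣ vZero κ₀ :=
    wpk_hκ B (M * p) (cvcAdj (modularFunctionFieldBar (M * p)) U) hle hst (nodeSetupNj B M p hp haux.1 hB R hR).B s₀ hfrac hconstB hp _ hys₀ κ hκI n hvκ κ₀ hκ₀E vZero hvZero
      hvZeroF₀
  -- the Eisenstein constants
  obtain ⟨σ₁, hσ₁, hσ₁x, htσ₁⟩ := hmove
  have hmove' : ∃ τ ∈ S40hI1 p B, τ rt ≠ rt :=
    ⟨σ₁, hσ₁, fun h => hσ₁x ((hxrt σ₁ hσ₁.1).2 h)⟩
  obtain ⟨ε0, aK, π1K, θK, mθK, hε0fix, hafix, hε0B, hε0iB, hε00, haB, haiB, ha0, hπ1def, hπ1res,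
    hπ10, hmθcl, hmθB, hθdef, hθB, hθiB, hθ0, hpow, hηpow⟩ :=
    wei_consts B hp hB κ rt hκ0 hrtκ hκI n hvκ hmove'
  -- the coordinates
  obtain ⟨u1, ke, cu, ah, hu1K, hke, hcu, hahmem, hu1sum, hU1, hrelc⟩ :=
    wpc_coords (M' := M') (M := M) (p := p) hp hdvd B hζ (cvcAdj (modularFunctionFieldBar (M * p)) U) hle hst x ux hux rt κ hrt0 hrtκ hκI
      hxrt ⟨σ₁, hσ₁, hσ₁x⟩ u huI hrel n ε0 π1K hε0fix hε00 hπ1def
  obtain ⟨cK, hE, hcK0, hhE0, hrelE⟩ := hrel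
  refine ⟨vZero u₀ - vInf u₀, fun Q hQ hSS => ?_⟩
  refine wpt28_transfer R hux hu1K Q (vZero u₀ - vInf u₀) (fun c₁ h2 h20 => ?_)
  -- the centre of `Q`
  obtain ⟨s, hs, x₁, y₁, εx, εy, tB, h₁, h₂, hx, hxg, hεx, hy, hyg, hεy, hxy, htB, hmem, hord0,
    hws, hy0, hwy, hx0', hufd, hxs, hys, hyx, hxy', hm, hnoeth, hic, hpR, ρ, hρ, hρc, hρz⟩ :=
    wcx_node_inf B M p hp haux.1 hB R hR haux Q hQ hSS
  haveI hsp : s.IsPrime := hs.isPrime
  haveI := hufd
  have hxyp := wcx_hxyp_Nj B M p hp haux.1 hB R hR s x₁ y₁ tB hxy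
  letI iRE := criAlg B (M * p) (cvcAdj (modularFunctionFieldBar (M * p)) U) hle (nodeSetupNj B M p hp haux.1 hB R hR).B s
  letI iRF := wpbAlgF0 B (M * p) (nodeSetupNj B M p hp haux.1 hB R hR).B s
  letI iRE0 := wpbAlgE0 B (M * p) (cvcAdj (modularFunctionFieldBar (M * p)) U) hle hst (nodeSetupNj B M p hp haux.1 hB R hR).B s
  haveI hfr : IsFractionRing (Localization.AtPrime s) ↥(f0Field B (M * p)) :=
    wpb_frac B (M * p) (nodeSetupNj B M p hp haux.1 hB R hR).B s hfrac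
  obtain ⟨z₀, cc, hz, hσpz, hσR, hdesc, hcc, hcong, hgen₀⟩ :=
    zsg_ctx M' p hp hp2 hpM' B hB S a V hS h2S hVp hEig hNot hnE t htV hω M hdvd haux hM ζ hζ
      ut hut U hU σY hσK hσF hσU hst hcomm hσfix hσp R hR s hic hpR
  have hinjR : Function.Injective (algebraMap (Localization.AtPrime s)
      ↥(wpbE0 B (cvcAdj (modularFunctionFieldBar (M * p)) U) hst)) := fun a b h =>
    cif_hom_injective B (M * p) (cvcAdj (modularFunctionFieldBar (M * p)) U) hle (nodeSetupNj B M p hp haux.1 hB R hR).B s hfrac (congrArg Subtype.val h)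
  obtain ⟨-, -, hdescE, -⟩ :=
    cri_inputs_Nj B M p hp haux.1 hB R hR (cvcAdj (modularFunctionFieldBar (M * p)) U) hle s hic hst σY hσF hσfix
  have hzne : σY (z₀ : ↥(cvcAdj (modularFunctionFieldBar (M * p)) U)) ≠ (z₀ : ↥(cvcAdj (modularFunctionFieldBar (M * p)) U)) :=
    hgc_sigma_ne B (M * p) (cvcAdj (modularFunctionFieldBar (M * p)) U) hle hst (nodeSetupNj B M p hp haux.1 hB R hR).B s σY hcomm hfrac hp hpR hζ hdescE z₀ (cc 1)
      (hcc 1 (Finset.mem_Ico.mpr ⟨le_rfl, hp.one_lt⟩))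
      (by
        have := hcong 1 (Finset.mem_Ico.mpr ⟨le_rfl, hp.one_lt⟩)
        simp only [Function.iterate_one, Nat.cast_one, map_one] at this
        exact this)
  have hgenE := wph_hgenE B (M * p) (cvcAdj (modularFunctionFieldBar (M * p)) U) hle hst hp σY hσF hσfix hσp z₀ hzne
  obtain ⟨𝔫, h𝔫⟩ := Ideal.exists_maximal
    (Algebra.adjoin (Localization.AtPrime s) ({z₀} : Set ↥(wpbE0 B (cvcAdj (modularFunctionFieldBar (M * p)) U) hst)))
  have hvInfF := wpv_hvF B (M * p) (nodeSetupNj B M p hp haux.1 hB R hR).B s₀ s hfrac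
    (nodeSetupNj B M p hp haux.1 hB R hR).redInf h₁₀ h₁ x₀ εx₀ hx₀ hxg₀ hεx₀ hxs₀ x₁ εx hx hxg
    hεx hxs (fun f => vInf (algebraMap ↥(f0Field B (M * p)) ↥(wpbE0 B (cvcAdj (modularFunctionFieldBar (M * p)) U) hst) f)) hvInfF₀
  have hvZeroF := wpv_hvF B (M * p) (nodeSetupNj B M p hp haux.1 hB R hR).B s₀ s hfrac
    (nodeSetupNj B M p hp haux.1 hB R hR).redZero h₂₀ h₂ y₀ εy₀ hy₀ hyg₀ hεy₀ hys₀ y₁ εy hy hyg
    hεy hys (fun f => vZero (algebraMap ↥(f0Field B (M * p)) ↥(wpbE0 B (cvcAdj (modularFunctionFieldBar (M * p)) U) hst) f)) hvZeroF₀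
  have key := wpg_node (A := B) (N := M * p) (EY := (cvcAdj (modularFunctionFieldBar (M * p)) U)) (hle := hle) (hst := hst)
    (S := nodeSetupNj B M p hp haux.1 hB R hR) (s := s) (p := p) (hp := hp) (hA := hB)
    (k := IsLocalRing.ResidueField B) hfrac R Q
  refine key (nodeSetupNj B M p hp haux.1 hB R hR).redInf
    (fun a0 => (nodeSetupNj B M p hp haux.1 hB R hR).redInf_constB a0) ?hjO ?hjred
    h₁ x₁ εx y₁ hx hxg hεx hm hord0 hws hy0 hwy hxs hys hyx tB htB hxyp ρ hρ hinjR hpR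
    (cve0Iota (R := Localization.AtPrime s) (cve0cT (B.inertiaSubgroupIn ℚ) (cvcAdj (modularFunctionFieldBar (M * p)) U) hst)
      (cve0c_hR (B.inertiaSubgroupIn ℚ) (cvcAdj (modularFunctionFieldBar (M * p)) U) hst (wpb_hRfix B (M * p) (cvcAdj (modularFunctionFieldBar (M * p)) U) hle hst (nodeSetupNj B M p hp haux.1 hB R hR).B s)))
    (fun e => rfl) _ z₀ hz hσpz hσR hdesc (algebraMap Kbar ↥(cvcAdj (modularFunctionFieldBar (M * p)) U) ζ) hζE cc hcc hcong hgen₀ 𝔫 h𝔫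
    u₀ g₀ κ₀ hu₀0 hg₀0 hκ₀0 hσκ₀ hσu₀ hσn hfix₀
    vInf vZero hvInf hvInf1 hvInfF hvZero hvZero1 hvZeroF hκInf hκZero hgenE
    (wphPhi (M * p) (cvcAdj (modularFunctionFieldBar (M * p)) U) hle) ?hφ
    (auxLevelPull (M' * p) (M * p) (Nat.mul_dvd_mul_right hdvd p) x) ux hux hE cK ?hrelu
    (wppIotaA B (M * p) (nodeSetupNj B M p hp haux.1 hB R hR).B s (nodeSetupNj B M p hp haux.1 hB R hR).constB) ?hcompatA
    ((p : ℕ) : k0Val B) (wpp_hpiA B hB) 1 ?hpA ?hφj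
    aK π1K θK mθK hafix haB haiB ha0 hπ1res hmθcl hmθB hθdef hθB hθiB hθ0 hpow hηpow
    ke hke (fun i => IntermediateField.inclusion hle (cu i)) ah ?hau ?hah ?hrel u1 ?hu1 c₁ h2 h20
  case hjO => exact fun b => wcf_hjO B M p hp haux.1 hB R hR b
  case hjred => exact fun b => wcf_hjred B M p hp haux.1 hB R hR b
  case hφ => exact wpp_hphi (M * p) U hp.pos (by rw [hU]; exact ut.2)
  case hrelu =>
    exact wpp_hrelu B (M * p) (cvcAdj (modularFunctionFieldBar (M * p)) U) hle hst p u₀ ux hE cK (by rw [hu₀E]; exact hrelE)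
  case hcompatA =>
    exact wpp_hcompatA B (M * p) (cvcAdj (modularFunctionFieldBar (M * p)) U) hle hst (nodeSetupNj B M p hp haux.1 hB R hR).B s (nodeSetupNj B M p hp haux.1 hB R hR).constB
      (fun a0 => (nodeSetupNj B M p hp haux.1 hB R hR).coe_constB a0)
  case hpA =>
    exact wpp_hpA B (M * p) (nodeSetupNj B M p hp haux.1 hB R hR).B s (nodeSetupNj B M p hp haux.1 hB R hR).constB p
  case hφj => exact fun b => Subtype.ext rfl
  case hau =>
    exact wcy2_hau B M p hp haux.1 hB R hR (cvcAdj (modularFunctionFieldBar (M * p)) U) hle cu hcu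
      (fun i => IntermediateField.inclusion hle (cu i)) (fun i => rfl)
  case hah => exact fun i => ⟨⟨ah i, hahmem i⟩, rfl⟩
  case hrel =>
    have h0 : algebraMap ↥(wpbE0 B (cvcAdj (modularFunctionFieldBar (M * p)) U) hst) ↥(cvcAdj (modularFunctionFieldBar (M * p)) U) u₀ = u := hu₀E
    rw [h0]
    exact hrelc
  case hu1 => exact hU1


end Fermat.Agent.S40lib

end
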