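import Mathlib
import Fermat.Agent.S36lib.Speed
import Fermat.Agent.S40lib.WildPtSplit
import Fermat.Agent.S40lib.WildPtAsm
import Fermat.Agent.S40lib.WildPtB
import Fermat.Agent.S40lib.WildPtRef
import Fermat.Agent.S40lib.WildPtCtx
import Fermat.Agent.S40lib.ZStage2
import Fermat.Agent.S40lib.ZStage3
import Fermat.Agent.S40lib.WindcX2
import Fermat.Agent.S40lib.WindcK3
import Fermat.Agent.S40lib.WindcEInst2
import Fermat.Agent.S40lib.WildPtE
import Fermat.Agent.S40lib.WindcCoInst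
import Fermat.Agent.S40lib.CoverInstF
import Fermat.Agent.S40lib.DeckInst2
import Fermat.Agent.S40lib.WindcPtTransfer
import Fermat.Agent.S40lib.WindcPtTr28
import Fermat.Agent.S40lib.CoverGen2
import Fermat.Agent.S40lib.WindcPre2
import Fermat.Agent.S40lib.WildPtPhi
import Fermat.Agent.S40lib.WildPtHV
import Fermat.Agent.S40lib.WindcF
import Fermat.Agent.S40lib.WindcF2
import Fermat.Agent.S40lib.HgenCtx
import Fermat.Agent.S40lib.SameCompAbs
import Fermat.Agent.S40lib.WildPtV21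
import Fermat.Agent.S40lib.WildPtKappa

/-!
# Item 88 (S44), block (J-WILD), LAYER B monolith: supersingular places, component `∞`
(helper13; on the skeleton of helper18, the block (V) of helper21 and the template `s40j_smInf`
of helper22)

`pni13_main : S44jPtNodeInf M' p hp B hB`.
-/

set_option autoImplicit false
set_option linter.style.haveILetI false
set_option linter.unusedSectionVars false
set_option linter.unusedVariables false
set_option synthInstance.maxHeartbeats 400000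
set_option maxHeartbeats 4000000

noncomputable section

namespace Fermat.Agent.S40lib

open Fermat.Agent.GalRep ModularCurve AlgebraicCurve Fermat.Agent.S31lib Fermat.Agent.S35lib
  Fermat.Agent.S33lib Fermat.Agent.S36lib Fermat.Agent.S24lib Fermat.Agent.S34lib
  Fermat.Agent.RRlib Fermat.Agent.GoodRed Fermat.Agent.S18lib Fermat.Agent.GM
  Fermat.Agent.HeckeBar HahnSeries IsLocalRing

theorem pni13_main (M' p : ℕ) [NeZero M'] [NeZero p] [NeZero (M' * p)]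
    (hp : p.Prime) (hp2 : p ≠ 2) (hpM' : ¬ p ∣ M')
    (B : ValuationSubring (AlgebraicClosure ℚ)) (hB : B.LiesOverPrime p) :
    S44jPtNodeInf M' p hp B hB := by
  intro S a V hS h2S hcard hVp hstab hEig hNot hnE x hx hx0 hfix t htV ht0 hHx hω
    M e hM0 hMp0 hdvd haux hM hMe hdeg ζ hζ ux ut hux hut U hU σY hσ rt κ u g hκ0 hrt0 hpow hκI
    hSt hu0 hg0 huI hgI hσu hch n hn R hR hmv
  letI : RRBase Kbar (modularFunctionFieldBar (M * p)) := (mod_rrHyp (M * p)).toRRBase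
  obtain ⟨hσK, hσF, hσU, h4, hσfix, hσp⟩ := hσ
  have hst := zsg_hst (B.inertiaSubgroupIn ℚ) (cvcAdj (modularFunctionFieldBar (M * p)) U) σY h4
  have hcomm := zsg_hcomm (B.inertiaSubgroupIn ℚ) (cvcAdj (modularFunctionFieldBar (M * p)) U)
    σY hst h4
  by_cases hex : ∃ Q₀ : Place (IsLocalRing.ResidueField B) (Fk (IsLocalRing.ResidueField B) M),
      0 ≤ Q₀.ord (jk (IsLocalRing.ResidueField B) M) ∧
      (∀ z ∈ (nodeSetupNj B M p hp haux.1 hB R hR).pZero,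
        (nodeSetupNj B M p hp haux.1 hB R hR).redInf z = 0 ∨
          0 < Q₀.ord ((nodeSetupNj B M p hp haux.1 hB R hR).redInf z))
  swap
  · exact ⟨0, fun Q hQ hsup => absurd ⟨Q, hQ, hsup⟩ hex⟩
  obtain ⟨Q₀, hQ₀, hsup₀⟩ := hex
  haveI : IsAlgClosed (IsLocalRing.ResidueField B) := isAlgClosed_residueField B
  haveI : IsNoetherianRing (nodeSetupNj B M p hp haux.1 hB R hR).B :=
    (r1c_noeth_frac B M p hp haux.1 hB R hR
      (fun z h1 h3 => w2j_rgnSum B M p hp haux.1 hB R hR z h1 h3)).1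
  have hfrac := (r1c_noeth_frac B M p hp haux.1 hB R hR
      (fun z h1 h3 => w2j_rgnSum B M p hp haux.1 hB R hR z h1 h3)).2
  have hle := cvc_le_adj (modularFunctionFieldBar (M * p)) U
  letI iFE0 := wpbAlgF0E0 B (M * p) (cvcAdj (modularFunctionFieldBar (M * p)) U) hle hst
  letI iKE0 := wpbAlgK0E0 B (M * p) (cvcAdj (modularFunctionFieldBar (M * p)) U) hle hst
  letI iKE := wpbAlgK0E B (cvcAdj (modularFunctionFieldBar (M * p)) U)
  haveI htw1 := wpb_tower_K0_Kbar B (cvcAdj (modularFunctionFieldBar (M * p)) U)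
  haveI htw2 := wpb_tower_K0_E0 B (M * p) (cvcAdj (modularFunctionFieldBar (M * p)) U) hle hst
  -- the reference node
  obtain ⟨s₀, hs₀, x₀, y₀, εx₀, εy₀, tB₀, h₁₀, h₂₀, hx₀, hxg₀, hεx₀, hy₀, hyg₀, hεy₀, hxy₀, htB₀,
    hmem₀, hord0₀, hws₀, hy0₀, hwy₀, hx0'₀, hufd₀, hxs₀, hys₀, hyx₀, hxy'₀, hm₀, hnoeth₀, hic₀,
    hpR₀, ρ₀, hρ₀, hρc₀, hρz₀⟩ :=
    wcx_node_inf B M p hp haux.1 hB R hR haux Q₀ hQ₀ hsup₀
  haveI hsp₀ : s₀.IsPrime := hs₀.isPrime
  haveI := hufd₀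
  letI iRE₀ := criAlg B (M * p) (cvcAdj (modularFunctionFieldBar (M * p)) U) hle
    (nodeSetupNj B M p hp haux.1 hB R hR).B s₀
  letI iRF₀ := wpbAlgF0 B (M * p) (nodeSetupNj B M p hp haux.1 hB R hR).B s₀
  letI iRE0₀ := wpbAlgE0 B (M * p) (cvcAdj (modularFunctionFieldBar (M * p)) U) hle hst
    (nodeSetupNj B M p hp haux.1 hB R hR).B s₀
  haveI hfr₀ : IsFractionRing (Localization.AtPrime s₀) ↥(f0Field B (M * p)) :=
    wpb_frac B (M * p) (nodeSetupNj B M p hp haux.1 hB R hR).B s₀ hfrac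
  haveI htow₀ : IsScalarTower (Localization.AtPrime s₀) ↥(f0Field B (M * p))
      ↥(wpbE0 B (cvcAdj (modularFunctionFieldBar (M * p)) U) hst) :=
    wpb_tower B (M * p) (cvcAdj (modularFunctionFieldBar (M * p)) U) hle hst
      (nodeSetupNj B M p hp haux.1 hB R hR).B s₀
  obtain ⟨z₀₀, c₀₀, hz₀, hσpz₀, hσR₀, hdesc₀, hc₀, hcong₀, hgen₀₀⟩ :=
    zsg_ctx M' p hp hp2 hpM' B hB S a V hS h2S hVp hEig hNot hnE t htV hω M hdvd haux hM ζ hζ
      ut hut U hU σY hσK hσF hσU hst hcomm hσfix hσp R hR s₀ hic₀ hpR₀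
  have hinjR₀ : Function.Injective (algebraMap (Localization.AtPrime s₀)
      ↥(wpbE0 B (cvcAdj (modularFunctionFieldBar (M * p)) U) hst)) := fun a b h =>
    cif_hom_injective B (M * p) (cvcAdj (modularFunctionFieldBar (M * p)) U) hle
      (nodeSetupNj B M p hp haux.1 hB R hR).B s₀ hfrac (congrArg Subtype.val h)
  have hζE : IsPrimitiveRoot (algebraMap Kbar ↥(cvcAdj (modularFunctionFieldBar (M * p)) U) ζ) p :=
    hζ.map_of_injective (algebraMap Kbar ↥(cvcAdj (modularFunctionFieldBar (M * p)) U)).injective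
  obtain ⟨vInf, vZero, hvInf, hvInf1, hvInfF₀, hvZero, hvZero1, hvZeroF₀⟩ :=
    s40j_ref (B := ↥(nodeSetupNj B M p hp haux.1 hB R hR).B) (F₀ := ↥(f0Field B (M * p)))
      (E₀ := ↥(wpbE0 B (cvcAdj (modularFunctionFieldBar (M * p)) U) hst))
      (E := ↥(cvcAdj (modularFunctionFieldBar (M * p)) U)) s₀ x₀ y₀ hm₀ hxs₀ hys₀ hyx₀ ρ₀ hρ₀
      hinjR₀ hp hpR₀
      (cve0Iota (R := Localization.AtPrime s₀)
        (cve0cT (B.inertiaSubgroupIn ℚ) (cvcAdj (modularFunctionFieldBar (M * p)) U) hst)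
        (cve0c_hR (B.inertiaSubgroupIn ℚ) (cvcAdj (modularFunctionFieldBar (M * p)) U) hst
          (wpb_hRfix B (M * p) (cvcAdj (modularFunctionFieldBar (M * p)) U) hle hst
            (nodeSetupNj B M p hp haux.1 hB R hR).B s₀)))
      _ z₀₀ hz₀ hσpz₀ hσR₀ hdesc₀ hζE c₀₀ hc₀ hcong₀ hgen₀₀
  -- the deck data
  obtain ⟨u₀, g₀, κ₀, hu₀, hg₀, hκ₀, hu₀0, hg₀0, hκ₀0, hσκ₀, hσu₀, hσn, hfixF⟩ :=
    dki_pkg B (M * p) (cvcAdj (modularFunctionFieldBar (M * p)) U) hle hst σY hcomm p hσK hσp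
      hσfix κ hκ0 hκI u g hu0 hg0 huI hgI hσu
  refine ⟨vZero u₀ - vInf u₀, fun Q hQ hsup c h2 h20 => ?_⟩
  -- the centre of `Q`
  obtain ⟨s, hs, x', y', εx, εy, tB, h₁, h₂, hx', hxg, hεx, hy', hyg, hεy, hxy, htB,
    hmem, hord0, hws, hy0, hwy, hx0', hufd, hxs, hys, hyx, hxy', hm, hnoeth, hic,
    hpR, ρ, hρ, hρc, hρz⟩ :=
    wcx_node_inf B M p hp haux.1 hB R hR haux Q hQ hsup
  haveI hsp : s.IsPrime := hs.isPrime
  haveI := hufd
  letI iRE := criAlg B (M * p) (cvcAdj (modularFunctionFieldBar (M * p)) U) hle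
    (nodeSetupNj B M p hp haux.1 hB R hR).B s
  letI iRF := wpbAlgF0 B (M * p) (nodeSetupNj B M p hp haux.1 hB R hR).B s
  letI iRE0 := wpbAlgE0 B (M * p) (cvcAdj (modularFunctionFieldBar (M * p)) U) hle hst
    (nodeSetupNj B M p hp haux.1 hB R hR).B s
  haveI hfr : IsFractionRing (Localization.AtPrime s) ↥(f0Field B (M * p)) :=
    wpb_frac B (M * p) (nodeSetupNj B M p hp haux.1 hB R hR).B s hfrac
  haveI htow : IsScalarTower (Localization.AtPrime s) ↥(f0Field B (M * p))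
      ↥(wpbE0 B (cvcAdj (modularFunctionFieldBar (M * p)) U) hst) :=
    wpb_tower B (M * p) (cvcAdj (modularFunctionFieldBar (M * p)) U) hle hst
      (nodeSetupNj B M p hp haux.1 hB R hR).B s
  -- group (V)
  have hvInfF : ∀ f : ↥(f0Field B (M * p)), f ≠ 0 →
      (0 ≤ vInf (algebraMap ↥(f0Field B (M * p))
          ↥(wpbE0 B (cvcAdj (modularFunctionFieldBar (M * p)) U) hst) f) ↔
        0 ≤ s36_ordAt (algebraMap ↥(nodeSetupNj B M p hp haux.1 hB R hR).B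
          (Localization.AtPrime s) x') hxs f) :=
    wpv_hvF B (M * p) (nodeSetupNj B M p hp haux.1 hB R hR).B s₀ s hfrac
      (nodeSetupNj B M p hp haux.1 hB R hR).redInf h₁₀ h₁ x₀ εx₀ hx₀ hxg₀ hεx₀ hxs₀
      x' εx hx' hxg hεx hxs
      (fun f => vInf (algebraMap ↥(f0Field B (M * p))
        ↥(wpbE0 B (cvcAdj (modularFunctionFieldBar (M * p)) U) hst) f)) hvInfF₀
  have hvZeroF : ∀ f : ↥(f0Field B (M * p)), f ≠ 0 →
      (0 ≤ vZero (algebraMap ↥(f0Field B (M * p))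
          ↥(wpbE0 B (cvcAdj (modularFunctionFieldBar (M * p)) U) hst) f) ↔
        0 ≤ s36_ordAt (algebraMap ↥(nodeSetupNj B M p hp haux.1 hB R hR).B
          (Localization.AtPrime s) y') hys f) :=
    wpv_hvF B (M * p) (nodeSetupNj B M p hp haux.1 hB R hR).B s₀ s hfrac
      (nodeSetupNj B M p hp haux.1 hB R hR).redZero h₂₀ h₂ y₀ εy₀ hy₀ hyg₀ hεy₀ hys₀
      y' εy hy' hyg hεy hys
      (fun f => vZero (algebraMap ↥(f0Field B (M * p))
        ↥(wpbE0 B (cvcAdj (modularFunctionFieldBar (M * p)) U) hst) f)) hvZeroF₀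
  have hκInf : (p : ℤ) ∣ vInf κ₀ :=
    wpk_hκ_iff B (M * p) (cvcAdj (modularFunctionFieldBar (M * p)) U) hle hst (nodeSetupNj B M p hp haux.1 hB R hR).B s hfrac (nodeSetupNj B M p hp haux.1 hB R hR).algebraMap_mem_B hp _ hxs κ hκI n hn κ₀ hκ₀
      vInf hvInf hvInfF
  have hκZero : (p : ℤ) ∣ vZero κ₀ :=
    wpk_hκ_iff B (M * p) (cvcAdj (modularFunctionFieldBar (M * p)) U) hle hst (nodeSetupNj B M p hp haux.1 hB R hR).B s hfrac (nodeSetupNj B M p hp haux.1 hB R hR).algebraMap_mem_B hp _ hys κ hκI n hn κ₀ hκ₀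
      vZero hvZero hvZeroF
  have hwQ : ∀ a b : Fk (IsLocalRing.ResidueField B) M, a ≠ 0 → b ≠ 0 →
      Q.ord (a * b) = Q.ord a + Q.ord b := fun a b ha hb => Q.ord_mul ha hb
  have hxyp := wcx_hxyp_Nj B M p hp haux.1 hB R hR s x' y' tB hxy
  -- group (C)
  obtain ⟨hRfix, z₀, c', hz, hσp₀, hσR, hdesc, hc, hcong⟩ :=
    zsg_full M' p hp hp2 hpM' B hB S a V hS h2S hVp hEig hNot hnE t htV hω M hdvd haux hM ζ hζ
      ut hut U hU σY hσK hσF hσU hst hcomm hσfix hσp R hR s hic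
  obtain ⟨-, -, hdescE, hjE⟩ := cri_inputs_Nj B M p hp haux.1 hB R hR (cvcAdj (modularFunctionFieldBar (M * p)) U) hle s hic hst σY
    hσF hσfix
  have hcong1 : ((cve0Sigma (cve0cT (B.inertiaSubgroupIn ℚ) (cvcAdj (modularFunctionFieldBar (M * p)) U) hst) σY
        (cve0c_hcomm (B.inertiaSubgroupIn ℚ) (cvcAdj (modularFunctionFieldBar (M * p)) U) hst σY hcomm) z₀ :
          ↥(wpbE0 B (cvcAdj (modularFunctionFieldBar (M * p)) U) hst)) : ↥(cvcAdj (modularFunctionFieldBar (M * p)) U))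
      - (z₀ : ↥(cvcAdj (modularFunctionFieldBar (M * p)) U)) = 1 + (algebraMap Kbar ↥(cvcAdj (modularFunctionFieldBar (M * p)) U) ζ - 1) * c' 1 := by
    have h := hcong 1 (Finset.mem_Ico.2 ⟨le_refl 1, hp.one_lt⟩)
    rw [Function.iterate_one, Nat.cast_one, map_one] at h
    exact h
  have hc1 := hc 1 (Finset.mem_Ico.2 ⟨le_refl 1, hp.one_lt⟩)
  have hgen₀ := hgc_hgen B (M * p) (cvcAdj (modularFunctionFieldBar (M * p)) U) hle hst (nodeSetupNj B M p hp haux.1 hB R hR).B s σY hcomm hfrac hp hpR hζ hσp hσF hσfix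
    hdescE z₀ (c' 1) hc1 hcong1
  have hzne := hgc_sigma_ne B (M * p) (cvcAdj (modularFunctionFieldBar (M * p)) U) hle hst (nodeSetupNj B M p hp haux.1 hB R hR).B s σY hcomm hfrac hp hpR hζ hdescE z₀
    (c' 1) hc1 hcong1
  have hgenE := wph_hgenE B (M * p) (cvcAdj (modularFunctionFieldBar (M * p)) U) hle hst hp σY hσF hσfix hσp z₀ hzne
  have hinjR := hgc_hinj B (M * p) (cvcAdj (modularFunctionFieldBar (M * p)) U) hle (nodeSetupNj B M p hp haux.1 hB R hR).B s hfrac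
  obtain ⟨𝔫, h𝔫⟩ := Ideal.exists_maximal
    (Algebra.adjoin (Localization.AtPrime s) ({z₀} : Set ↥(wpbE0 B (cvcAdj (modularFunctionFieldBar (M * p)) U) hst)))
  haveI := h𝔫
  -- group (E)
  have hmove : ∃ τ ∈ S40hI1 p B, τ rt ≠ rt := by
    obtain ⟨σ₁, hσ₁, hne, -⟩ := hmv
    exact ⟨σ₁, hσ₁, fun h => hne ((hSt σ₁ hσ₁.1).2 h)⟩
  obtain ⟨ε0, a0, η, aE, mθ, π1K, θK, mθK, hε0fix, ha0fix, hε0B, hε0iB, hε00, ha0B, ha0iB, ha00,
    hηdef, haEdef, hη, hmθ, hπθ, hθ0, hπ1m, hθA, hθiA, hmθA, hπ1φ, hθφ, hmφ⟩ :=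
    wpe_inst B (M * p) hp hB κ rt hκ0 hpow hκI n hn hmove (wppPhi (M * p) (cvcAdj (modularFunctionFieldBar (M * p)) U) hle)
  obtain ⟨⟨hπ1F, hπ1red⟩, hθF, hθF', hmF⟩ :=
    wpe_red (M * p) R π1K θK mθK hπ1m hθA hθiA hmθA
  -- group (HV)
  have hUF : U ^ p ∈ modularFunctionFieldBar (M * p) := by rw [hU]; exact ut.2
  have hφ := wpp_hphi (M * p) U hp.pos hUF
  obtain ⟨cK, h, hcK, hh, hrel⟩ := hch
  have hrelu := wpp_hrelu B (M * p) (cvcAdj (modularFunctionFieldBar (M * p)) U) hle hst p u₀ ux h cK (by rw [hu₀]; exact hrel)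
  have hcB : ∀ a : k0Val B, (((nodeSetupNj B M p hp haux.1 hB R hR).constB a : (nodeSetupNj B M p hp haux.1 hB R hR).B) : ↥(f0Field B (M * p))) =
      algebraMap ↥(k0Field B) ↥(f0Field B (M * p)) (a : k0Field B) := fun a => rfl
  have hcompatA := wpp_hcompatA B (M * p) (cvcAdj (modularFunctionFieldBar (M * p)) U) hle hst (nodeSetupNj B M p hp haux.1 hB R hR).B s (nodeSetupNj B M p hp haux.1 hB R hR).constB hcB
  have hpA := wpp_hpA B (M * p) (nodeSetupNj B M p hp haux.1 hB R hR).B s (nodeSetupNj B M p hp haux.1 hB R hR).constB p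
  have hϖA := wpp_hpiA (A := B) hB
  -- group (K)
  have haK := wck3_haK B (M * p) (cvcAdj (modularFunctionFieldBar (M * p)) U) hle (nodeSetupNj B M p hp haux.1 hB R hR) a0 ha0fix ha0B ha0iB ha00
  rw [← haEdef] at haK
  -- group (Co)
  obtain ⟨σ₁, hσ₁, hne, -⟩ := hmv
  have hp0 : (p : Kbar) ≠ 0 := Nat.cast_ne_zero.2 hp.ne_zero
  have hπ1 : η - 1 = algebraMap Kbar ↥(cvcAdj (modularFunctionFieldBar (M * p)) U) (((p : Kbar) ^ n * ε0)⁻¹ * rt + (-1)) := by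
    rw [hηdef, map_add, map_neg, map_one, div_eq_inv_mul, sub_eq_add_neg]
  obtain ⟨u1, ae, au, ah, hk1, hae, hau, hah, hrelC, hu1⟩ :=
    wci_pkg B M p hp haux.1 hB R hR hζ hux (cvcAdj (modularFunctionFieldBar (M * p)) U) hle hst hrt0
      (fun τ hτ => by rw [hpow]; exact hκI τ hτ)
      (fun τ hτ hτrt => by
        rw [← auxLevelPull_smul, (hSt τ hτ).2 hτrt])
      σ₁ hσ₁.1 (hσ₁.2 ζ (hζ.pow_eq_one)) (fun h => hne ((hSt σ₁ hσ₁.1).2 h))
      (((p : Kbar) ^ n * ε0)⁻¹) (-1)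
      (inv_ne_zero (mul_ne_zero (zpow_ne_zero _ hp0) hε00))
      (fun τ hτ => by rw [map_inv₀, map_mul, map_zpow₀, map_natCast, hε0fix τ hτ])
      (fun τ hτ => by rw [map_neg, map_one])
      u h hcK hh hrel huI (wppPhi (M * p) (cvcAdj (modularFunctionFieldBar (M * p)) U) hle)
      (fun f => wpp_coe_phi (M * p) (cvcAdj (modularFunctionFieldBar (M * p)) U) hle f)
      (criIncl B (M * p) (cvcAdj (modularFunctionFieldBar (M * p)) U) hle (nodeSetupNj B M p hp haux.1 hB R hR).B) (fun b => rfl) (η - 1) hπ1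
  -- the remaining small inputs
  have hinjR' : Function.Injective
      (algebraMap (Localization.AtPrime s) ↥(wpbE0 B (cvcAdj (modularFunctionFieldBar (M * p)) U) hst)) := by
    intro r r' hrr
    exact hinjR (congrArg Subtype.val hrr)
  have hrelC' : algebraMap ↥(wpbE0 B (cvcAdj (modularFunctionFieldBar (M * p)) U) hst) ↥(cvcAdj (modularFunctionFieldBar (M * p)) U) u₀ =
      (∑ i, ae i * (η - 1) ^ (i : ℕ)) * (∑ i, au i * (η - 1) ^ (i : ℕ)) *
        (∑ i, ah i * (η - 1) ^ (i : ℕ)) ^ p := by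
    rw [← hrelC, ← hu₀]
    rfl
  haveI hAlgQ : Algebra.IsAlgebraic ℚ Kbar := AlgebraicClosure.isAlgebraic ℚ
  haveI hAlg : Algebra.IsAlgebraic (k0Field B) Kbar :=
    Algebra.IsAlgebraic.tower_top (K := ℚ) (k0Field B)
  -- the per-point theorem for `u₁`
  have key : ∀ (c₁ : Kbar) (h2' : algebraMap Kbar (FF (M * p)) c₁ * u1 ∈ R.O),
      R.red ⟨algebraMap Kbar (FF (M * p)) c₁ * u1, h2'⟩ ≠ 0 →
      (p : ℤ) ∣ Q.ord (R.red ⟨algebraMap Kbar (FF (M * p)) c₁ * u1, h2'⟩) -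
        (vZero u₀ - vInf u₀) :=
    fun c₁ h2' h20' =>
    s40j_pt_node (F₀ := ↥(f0Field B (M * p))) (E₀ := ↥(wpbE0 B (cvcAdj (modularFunctionFieldBar (M * p)) U) hst)) (E := ↥(cvcAdj (modularFunctionFieldBar (M * p)) U))
      s B p hp hB (M * p) (nodeSetupNj B M p hp haux.1 hB R hR).redInf h₁ x' εx y' hx' hxg hεx hm
      Q.ord hwQ hord0 hws hy0 hwy hxs hys hyx tB htB hxyp ρ hρ hinjR' hpR
      (cve0Iota (R := Localization.AtPrime s) (cve0cT (B.inertiaSubgroupIn ℚ) (cvcAdj (modularFunctionFieldBar (M * p)) U) hst)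
        (cve0c_hR (B.inertiaSubgroupIn ℚ) (cvcAdj (modularFunctionFieldBar (M * p)) U) hst hRfix)) (fun e => rfl)
      (cve0Sigma (cve0cT (B.inertiaSubgroupIn ℚ) (cvcAdj (modularFunctionFieldBar (M * p)) U) hst) σY
        (cve0c_hcomm (B.inertiaSubgroupIn ℚ) (cvcAdj (modularFunctionFieldBar (M * p)) U) hst σY hcomm))
      z₀ hz hσp₀ hσR hdesc hζE c' hc hcong hgen₀ 𝔫 u₀ g₀ κ₀ hu₀0 hg₀0 hκ₀0 hσκ₀ hσu₀ hσn hfixF
      vInf vZero hvInf hvInf1 hvInfF hvZero hvZero1 hvZeroF hκInf hκZero hgenE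
      (wppPhi (M * p) (cvcAdj (modularFunctionFieldBar (M * p)) U) hle) hφ hux h cK hrelu
      (wppIotaA B (M * p) (nodeSetupNj B M p hp haux.1 hB R hR).B s (nodeSetupNj B M p hp haux.1 hB R hR).constB) hcompatA ((p : ℕ) : k0Val B) hϖA 1 hpA
      η aE mθ hη hmθ hπθ hθ0
      (criIncl B (M * p) (cvcAdj (modularFunctionFieldBar (M * p)) U) hle (nodeSetupNj B M p hp haux.1 hB R hR).B) hjE (wcfIsC (nodeSetupNj B M p hp haux.1 hB R hR))
      (wck3_hCmul B (M * p) (nodeSetupNj B M p hp haux.1 hB R hR)) (wck3_hC_inf B (M * p) (nodeSetupNj B M p hp haux.1 hB R hR) Q) haK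
      ae au ah hae hau (fun i => by obtain ⟨g₀', hg₀'⟩ := hah i; exact ⟨g₀', hg₀'⟩) hrelC'
      (wcfJ B M p hp haux.1 hB R hR) (fun b => rfl) R.O R.red
      (wcf_hjO B M p hp haux.1 hB R hR) (wcf_hjred B M p hp haux.1 hB R hR)
      (wcf_hOFinv R) (fun c h h0 => wcf_hconst R Q c h h0)
      π1K θK mθK hπ1F hπ1red hπ1φ hθF hθφ hθF' hmF hmφ u1 hu1 c₁ h2' h20'
  exact wpt28_transfer R hux hk1 Q (vZero u₀ - vInf u₀) key c h2 h20

end Fermat.Agent.S40lib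

end
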