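/-
Item 88 (S44), (J-WILD), LAYER B structural glue (helper4, file WildPtStruct4): the small structural hypotheses of
`wpb_call_node` / `s40j_pt_node` / `s40j_pt_smooth` in the concrete context of `WildPtCtx.lean`
(`R := B_s`, `F₀ := f0Field A N`, `E₀ := wpbE0 A EY hst`, `E := EY`):

* `wpu_hinjR`        : `hinjR`  (injectivity of `B_s → E₀`);
* `wpu_tower_R_E0_E` : the tower `B_s → E₀ → EY`;
* `wpuIota`, `wpu_hiota` : `ι : E₀ →ₐ[B_s] EY` with `hι`;
* `wpu_exists_max`   : a maximal ideal `𝔫` of `Algebra.adjoin B_s {z₀}`;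
* `wpu_hjE`          : `hjE` for `jE := criIncl A N EY hle B0`.
-/
import Mathlib
import Fermat.Agent.S36lib.Speed
import Fermat.Agent.S40lib.WildPtCtx

set_option autoImplicit false
set_option linter.style.haveILetI false
set_option linter.unusedSectionVars false
set_option linter.unusedVariables false
set_option synthInstance.maxHeartbeats 400000
set_option maxHeartbeats 1000000

noncomputable section

namespace Fermat.Agent.S40lib

open ModularCurve HahnSeries AlgebraicCurve Fermat.Agent.S24lib Fermat.Agent.S33lib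
  Fermat.Agent.S34lib Fermat.Agent.RRlib Fermat.Agent.S36lib IsLocalRing

section

variable (A : ValuationSubring Kbar) (N : ℕ) [NeZero N]
  (EY : IntermediateField Kbar (LaurentSeries Kbar))
  (hle : modularFunctionFieldBar N ≤ EY)
  (hst : ∀ σ ∈ A.inertiaSubgroupIn ℚ, ∀ x ∈ EY,
    coeffMap ((σ : Kbar ≃ₐ[ℚ] Kbar) : Kbar →+* Kbar) x ∈ EY)
  (B0 : Subring ↥(f0Field A N)) (s : Ideal ↥B0) [hs : s.IsPrime]

/-- **`hinjR`** of `wpb_call_node`. -/
theorem wpu_hinjR
    (hfrac : ∀ z : ↥(f0Field A N), ∃ a b : ↥B0, b ≠ 0 ∧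
      z * (b : ↥(f0Field A N)) = (a : ↥(f0Field A N))) :
    letI iRE0 := wpbAlgE0 A N EY hle hst B0 s
    Function.Injective (algebraMap (Localization.AtPrime s) ↥(wpbE0 A EY hst)) := by
  letI iRF := wpbAlgF0 A N B0 s
  letI iRE0 := wpbAlgE0 A N EY hle hst B0 s
  letI iFE0 := wpbAlgF0E0 A N EY hle hst
  haveI hfr : IsFractionRing (Localization.AtPrime s) ↥(f0Field A N) :=
    wpb_frac A N B0 s hfrac
  haveI htw : IsScalarTower (Localization.AtPrime s) ↥(f0Field A N) ↥(wpbE0 A EY hst) :=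
    wpb_tower A N EY hle hst B0 s
  rw [IsScalarTower.algebraMap_eq (Localization.AtPrime s) ↥(f0Field A N) ↥(wpbE0 A EY hst)]
  exact (algebraMap ↥(f0Field A N) ↥(wpbE0 A EY hst)).injective.comp
    (IsFractionRing.injective (Localization.AtPrime s) ↥(f0Field A N))

/-- the tower `B_s → E₀ → EY` -/
theorem wpu_tower_R_E0_E :
    letI iRE := criAlg A N EY hle B0 s
    letI iRE0 := wpbAlgE0 A N EY hle hst B0 s
    IsScalarTower (Localization.AtPrime s) ↥(wpbE0 A EY hst) ↥EY := by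
  letI iRE := criAlg A N EY hle B0 s
  letI iRE0 := wpbAlgE0 A N EY hle hst B0 s
  exact IsScalarTower.of_algebraMap_eq fun r => rfl

/-- **`ι`** of `wpb_call_node`: the inclusion `E₀ → EY` as a `B_s`-algebra map. -/
def wpuIota :
    letI iRE := criAlg A N EY hle B0 s
    letI iRE0 := wpbAlgE0 A N EY hle hst B0 s
    ↥(wpbE0 A EY hst) →ₐ[Localization.AtPrime s] ↥EY :=
  letI iRE := criAlg A N EY hle B0 s
  letI iRE0 := wpbAlgE0 A N EY hle hst B0 s
  { (algebraMap ↥(wpbE0 A EY hst) ↥EY) with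
    commutes' := fun r => rfl }

/-- **`hι`** of `wpb_call_node`. -/
theorem wpu_hiota (e : ↥(wpbE0 A EY hst)) :
    wpuIota A N EY hle hst B0 s e = algebraMap ↥(wpbE0 A EY hst) ↥EY e := rfl

/-- **`𝔫`, `h𝔫`** of `wpb_call_node`. -/
theorem wpu_exists_max (z₀ : ↥(wpbE0 A EY hst)) :
    letI iRE0 := wpbAlgE0 A N EY hle hst B0 s
    ∃ 𝔫 : Ideal (Algebra.adjoin (Localization.AtPrime s) ({z₀} : Set ↥(wpbE0 A EY hst))),
      𝔫.IsMaximal := by
  letI iRE0 := wpbAlgE0 A N EY hle hst B0 s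
  exact Ideal.exists_maximal _

/-- **`hjE`** of `wpb_call_node` for `jE := criIncl A N EY hle B0`. -/
theorem wpu_hjE (b : ↥B0) :
    letI iRE := criAlg A N EY hle B0 s
    algebraMap (Localization.AtPrime s) ↥EY
      (algebraMap ↥B0 (Localization.AtPrime s) b) = criIncl A N EY hle B0 b := by
  letI iRE := criAlg A N EY hle B0 s
  exact cri_hom_algebraMap A N EY hle B0 s b

end

end Fermat.Agent.S40lib

end
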