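import Mathlib
import Fermat.Agent.S36lib.Speed
import Fermat.Agent.S40lib.WildPtSplit
import Fermat.Agent.S40lib.WildPtB
import Fermat.Agent.S40lib.WildPtRef
import Fermat.Agent.S40lib.WildPtHV
import Fermat.Agent.S40lib.WindcX2
import Fermat.Agent.S40lib.ZStage3
import Fermat.Agent.S40lib.DeckInst2
import Fermat.Agent.S40lib.SameCompAbs
import Fermat.Agent.S40lib.WildPtGlue
import Fermat.Agent.S40lib.WildPtStruct4
import Fermat.Agent.S40lib.WildPtV21
import Fermat.Agent.S40lib.WildPtKappa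
import Fermat.Agent.S40lib.WildPtPhi
import Fermat.Agent.S40lib.WildPtCo
import Fermat.Agent.S40lib.HgenCtx
import Fermat.Agent.S40lib.WindcEInst
import Fermat.Agent.S40lib.WindcRedF
import Fermat.Agent.S40lib.WindcPtTr28
import Fermat.Agent.S40lib.WindcCo

/-!
# Item 88 (S44), block (J-WILD), LAYER B monolith: supersingular places, component `∞` (helper17; skeleton mirrored from helper18)
-/

set_option autoImplicit false
set_option linter.style.haveILetI false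
set_option linter.unusedSectionVars false
set_option linter.unusedVariables false
set_option synthInstance.maxHeartbeats 400000
set_option maxHeartbeats 4000000

noncomputable section

namespace Fermat.Agent.S40lib

open Fermat.Agent.GalRep ModularCurve AlgebraicCurve Fermat.Agent.S31lib Fermat.Agent.S35lib
  Fermat.Agent.S33lib Fermat.Agent.S36lib Fermat.Agent.S24lib Fermat.Agent.S34lib
  Fermat.Agent.RRlib Fermat.Agent.GoodRed Fermat.Agent.S18lib Fermat.Agent.GM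
  Fermat.Agent.HeckeBar HahnSeries IsLocalRing

theorem pni17_main (M' p : ℕ) [NeZero M'] [NeZero p] [NeZero (M' * p)]
    (hp : p.Prime) (hp2 : p ≠ 2) (hpM' : ¬ p ∣ M')
    (B : ValuationSubring (AlgebraicClosure ℚ)) (hB : B.LiesOverPrime p) :
    S44jPtNodeInf M' p hp B hB := by
  intro S a V hS h2S hcard hVp hstab hEig hNot hnE x hx hx0 hfix t htV ht0 hHx hω
    M e hM0 hMp0 hdvd haux hM hMe hdeg ζ hζ ux ut hux hut U hU σY hσ rt κ u g hκ0 hrt0 hpow hκI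
    hSt hu0 hg0 huI hgI hσu hch n hn R hR hmv
  letI : RRBase Kbar (modularFunctionFieldBar (M * p)) := (mod_rrHyp (M * p)).toRRBase
  obtain ⟨hσK, hσF, hσU, h4, hσfix, hσp⟩ := hσ
  have hst := zsg_hst (B.inertiaSubgroupIn ℚ) (cvcAdj (modularFunctionFieldBar (M * p)) U) σY h4
  have hcomm := zsg_hcomm (B.inertiaSubgroupIn ℚ) (cvcAdj (modularFunctionFieldBar (M * p)) U)
    σY hst h4
  by_cases hex : ∃ Q₀ : Place (IsLocalRing.ResidueField B) (Fk (IsLocalRing.ResidueField B) M),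
      0 ≤ Q₀.ord (jk (IsLocalRing.ResidueField B) M) ∧
      (∀ z ∈ (nodeSetupNj B M p hp haux.1 hB R hR).pZero,
        (nodeSetupNj B M p hp haux.1 hB R hR).redInf z = 0 ∨
          0 < Q₀.ord ((nodeSetupNj B M p hp haux.1 hB R hR).redInf z))
  swap
  · exact ⟨0, fun Q hQ hSS => absurd ⟨Q, hQ, hSS⟩ hex⟩
  obtain ⟨Q₀, hQ₀, hSS₀⟩ := hex
  haveI : IsAlgClosed (IsLocalRing.ResidueField B) := isAlgClosed_residueField B
  haveI : IsNoetherianRing (nodeSetupNj B M p hp haux.1 hB R hR).B :=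
    (r1c_noeth_frac B M p hp haux.1 hB R hR
      (fun z h1 h3 => w2j_rgnSum B M p hp haux.1 hB R hR z h1 h3)).1
  have hfrac := (r1c_noeth_frac B M p hp haux.1 hB R hR
      (fun z h1 h3 => w2j_rgnSum B M p hp haux.1 hB R hR z h1 h3)).2
  have hle := cvc_le_adj (modularFunctionFieldBar (M * p)) U
  letI iFE0 := wpbAlgF0E0 B (M * p) (cvcAdj (modularFunctionFieldBar (M * p)) U) hle hst
  -- the reference node
  obtain ⟨s₀, hs₀, x₀, y₀, εx₀, εy₀, tB₀, h₁₀, h₂₀, hx₀, hxg₀, hεx₀, hy₀, hyg₀, hεy₀, hxy₀, htB₀,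
    hmem₀, hord0₀, hws₀, hy0₀, hwy₀, hx0'₀, hufd₀, hxs₀, hys₀, hyx₀, hxy'₀, hm₀, hnoeth₀, hic₀,
    hpR₀, ρ₀, hρ₀, hρc₀, hρz₀⟩ :=
    wcx_node_inf B M p hp haux.1 hB R hR haux Q₀ hQ₀ hSS₀
  haveI hsp₀ : s₀.IsPrime := hs₀.isPrime
  haveI := hufd₀
  letI iRE₀ := criAlg B (M * p) (cvcAdj (modularFunctionFieldBar (M * p)) U) hle
    (nodeSetupNj B M p hp haux.1 hB R hR).B s₀
  letI iRF₀ := wpbAlgF0 B (M * p) (nodeSetupNj B M p hp haux.1 hB R hR).B s₀
  letI iRE0₀ := wpbAlgE0 B (M * p) (cvcAdj (modularFunctionFieldBar (M * p)) U) hle hst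
    (nodeSetupNj B M p hp haux.1 hB R hR).B s₀
  haveI hfr₀ : IsFractionRing (Localization.AtPrime s₀) ↥(f0Field B (M * p)) :=
    wpb_frac B (M * p) (nodeSetupNj B M p hp haux.1 hB R hR).B s₀ hfrac
  haveI htow₀ : IsScalarTower (Localization.AtPrime s₀) ↥(f0Field B (M * p))
      ↥(wpbE0 B (cvcAdj (modularFunctionFieldBar (M * p)) U) hst) :=
    wpb_tower B (M * p) (cvcAdj (modularFunctionFieldBar (M * p)) U) hle hst
      (nodeSetupNj B M p hp haux.1 hB R hR).B s₀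
  obtain ⟨z₀₀, c₀₀, hz₀, hσpz₀, hσR₀, hdesc₀, hc₀, hcong₀, hgen₀₀⟩ :=
    zsg_ctx M' p hp hp2 hpM' B hB S a V hS h2S hVp hEig hNot hnE t htV hω M hdvd haux hM ζ hζ
      ut hut U hU σY hσK hσF hσU hst hcomm hσfix hσp R hR s₀ hic₀ hpR₀
  have hinjR₀ : Function.Injective (algebraMap (Localization.AtPrime s₀)
      ↥(wpbE0 B (cvcAdj (modularFunctionFieldBar (M * p)) U) hst)) := fun a b h =>
    cif_hom_injective B (M * p) (cvcAdj (modularFunctionFieldBar (M * p)) U) hle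
      (nodeSetupNj B M p hp haux.1 hB R hR).B s₀ hfrac (congrArg Subtype.val h)
  have hζE : IsPrimitiveRoot (algebraMap Kbar ↥(cvcAdj (modularFunctionFieldBar (M * p)) U) ζ) p :=
    hζ.map_of_injective (algebraMap Kbar ↥(cvcAdj (modularFunctionFieldBar (M * p)) U)).injective
  obtain ⟨vInf, vZero, hvInf, hvInf1, hvInfF₀, hvZero, hvZero1, hvZeroF₀⟩ :=
    s40j_ref (B := ↥(nodeSetupNj B M p hp haux.1 hB R hR).B) (F₀ := ↥(f0Field B (M * p)))
      (E₀ := ↥(wpbE0 B (cvcAdj (modularFunctionFieldBar (M * p)) U) hst))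
      (E := ↥(cvcAdj (modularFunctionFieldBar (M * p)) U)) s₀ x₀ y₀ hm₀ hxs₀ hys₀ hyx₀ ρ₀ hρ₀
      hinjR₀ hp hpR₀
      (cve0Iota (R := Localization.AtPrime s₀)
        (cve0cT (B.inertiaSubgroupIn ℚ) (cvcAdj (modularFunctionFieldBar (M * p)) U) hst)
        (cve0c_hR (B.inertiaSubgroupIn ℚ) (cvcAdj (modularFunctionFieldBar (M * p)) U) hst
          (wpb_hRfix B (M * p) (cvcAdj (modularFunctionFieldBar (M * p)) U) hle hst
            (nodeSetupNj B M p hp haux.1 hB R hR).B s₀)))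
      _ z₀₀ hz₀ hσpz₀ hσR₀ hdesc₀ hζE c₀₀ hc₀ hcong₀ hgen₀₀
  -- the deck data
  obtain ⟨u₀, g₀, κ₀, hu₀e, hg₀e, hκ₀e, hu₀0, hg₀0, hκ₀0, hσκ₀, hσu₀, hσn, hfixσ⟩ :=
    dki_pkg B (M * p) (cvcAdj (modularFunctionFieldBar (M * p)) U) hle hst σY hcomm p hσK hσp
      hσfix κ hκ0 hκI u g hu0 hg0 huI hgI hσu
  -- the constants and the coordinates
  have hmoveRt : ∃ τ ∈ S40hI1 p B, τ rt ≠ rt := by
    obtain ⟨σ₁, hσ₁, hσ₁x, -⟩ := hmv
    exact ⟨σ₁, hσ₁, fun h => hσ₁x ((hSt σ₁ hσ₁.1).2 h)⟩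
  have hmoveX : ∃ σ₁ ∈ S40hI1 p B, σ₁ • x ≠ x := by
    obtain ⟨σ₁, hσ₁, hσ₁x, -⟩ := hmv
    exact ⟨σ₁, hσ₁, hσ₁x⟩
  obtain ⟨ε0, aK, π1K, θK, mθK, hε0I, haI, hε0B, hε0iB, hε00, haB, haiB, ha0, hπ1def, hπ1res,
    hπ10, hmθ, hmθB, hθ, hθB, hθiB, hθ0, hpowπ, hηK⟩ :=
    wei_consts B hp hB κ rt hκ0 hpow hκI n hn hmoveRt
  obtain ⟨u1, ke, cu, ah, hk1, hke, hcu, hah, hU1', hU1, hrel⟩ :=
    wpc_coords M' M p hp hdvd B hζ (cvcAdj (modularFunctionFieldBar (M * p)) U) hle hst x ux hux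
      rt κ hrt0 hpow hκI hSt hmoveX u huI hch n ε0 π1K hε0I hε00 hπ1def
  obtain ⟨cK, hE, hcK0, hE0, hrelL⟩ := hch
  have hUmem : U ^ p ∈ modularFunctionFieldBar (M * p) := by
    rw [hU]; exact ut.2
  refine ⟨vZero u₀ - vInf u₀, fun Q hQ hSS => ?_⟩
  -- the centre of `Q`
  obtain ⟨s, hs, xs, ys, εx, εy, tB, h₁, h₂, hxsm, hxg, hεx, hysm, hyg, hεy, hxy, htB, hmem,
    hord0, hws, hy0, hwy, hx0', hufd, hxs, hys, hyx, hxy', hm, hnoeth, hic, hpR, ρ, hρ, hρc,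
    hρz⟩ :=
    wcx_node_inf B M p hp haux.1 hB R hR haux Q hQ hSS
  haveI hsp : s.IsPrime := hs.isPrime
  haveI := hufd
  have hxyp := wcx_hxyp_Nj B M p hp haux.1 hB R hR s xs ys tB hxy
  letI iRE := criAlg B (M * p) (cvcAdj (modularFunctionFieldBar (M * p)) U) hle
    (nodeSetupNj B M p hp haux.1 hB R hR).B s
  letI iRF := wpbAlgF0 B (M * p) (nodeSetupNj B M p hp haux.1 hB R hR).B s
  letI iRE0 := wpbAlgE0 B (M * p) (cvcAdj (modularFunctionFieldBar (M * p)) U) hle hst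
    (nodeSetupNj B M p hp haux.1 hB R hR).B s
  letI iKE0 := wpbAlgK0E0 B (M * p) (cvcAdj (modularFunctionFieldBar (M * p)) U) hle hst
  letI iKE := wpbAlgK0E B (cvcAdj (modularFunctionFieldBar (M * p)) U)
  haveI hfr : IsFractionRing (Localization.AtPrime s) ↥(f0Field B (M * p)) :=
    wpb_frac B (M * p) (nodeSetupNj B M p hp haux.1 hB R hR).B s hfrac
  obtain ⟨z₀, c', hz, hσpz, hσR, hdesc, hc, hcong, hgen₀⟩ :=
    zsg_ctx M' p hp hp2 hpM' B hB S a V hS h2S hVp hEig hNot hnE t htV hω M hdvd haux hM ζ hζ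
      ut hut U hU σY hσK hσF hσU hst hcomm hσfix hσp R hR s hic hpR
  obtain ⟨𝔫, h𝔫⟩ := wpu_exists_max B (M * p) (cvcAdj (modularFunctionFieldBar (M * p)) U) hle hst
    (nodeSetupNj B M p hp haux.1 hB R hR).B s z₀
  obtain ⟨-, -, hdescE, -⟩ :=
    cri_inputs_Nj B M p hp haux.1 hB R hR (cvcAdj (modularFunctionFieldBar (M * p)) U) hle s hic
      hst σY hσF hσfix
  have h11 : (1 : ℕ) ∈ Finset.Ico 1 p := Finset.mem_Ico.mpr ⟨le_rfl, hp.one_lt⟩
  have hzne : σY (z₀ : ↥(cvcAdj (modularFunctionFieldBar (M * p)) U)) ≠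
      (z₀ : ↥(cvcAdj (modularFunctionFieldBar (M * p)) U)) :=
    hgc_sigma_ne B (M * p) (cvcAdj (modularFunctionFieldBar (M * p)) U) hle hst
      (nodeSetupNj B M p hp haux.1 hB R hR).B s σY hcomm hfrac hp hpR hζ hdescE z₀ (c' 1)
      (hc 1 h11)
      (by
        have := hcong 1 h11
        simp only [Function.iterate_one, Nat.cast_one, map_one] at this
        exact this)
  have hgenE := wph_hgenE B (M * p) (cvcAdj (modularFunctionFieldBar (M * p)) U) hle hst hp σY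
    hσF hσfix hσp z₀ hzne
  -- the reference orders at `s`
  have hvInfF := wpv_hvF B (M * p) (nodeSetupNj B M p hp haux.1 hB R hR).B s₀ s hfrac
    (nodeSetupNj B M p hp haux.1 hB R hR).redInf h₁₀ h₁ x₀ εx₀ hx₀ hxg₀ hεx₀ hxs₀
    xs εx hxsm hxg hεx hxs
    (fun f => vInf (algebraMap ↥(f0Field B (M * p))
      ↥(wpbE0 B (cvcAdj (modularFunctionFieldBar (M * p)) U) hst) f)) hvInfF₀
  have hvZeroF := wpv_hvF B (M * p) (nodeSetupNj B M p hp haux.1 hB R hR).B s₀ s hfrac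
    (nodeSetupNj B M p hp haux.1 hB R hR).redZero h₂₀ h₂ y₀ εy₀ hy₀ hyg₀ hεy₀ hys₀
    ys εy hysm hyg hεy hys
    (fun f => vZero (algebraMap ↥(f0Field B (M * p))
      ↥(wpbE0 B (cvcAdj (modularFunctionFieldBar (M * p)) U) hst) f)) hvZeroF₀
  have hκInf := wpk_hκ_iff B (M * p) (cvcAdj (modularFunctionFieldBar (M * p)) U) hle hst
    (nodeSetupNj B M p hp haux.1 hB R hR).B s hfrac
    (nodeSetupNj B M p hp haux.1 hB R hR).algebraMap_mem_B hp _ hxs κ hκI n hn κ₀ hκ₀e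
    vInf hvInf hvInfF
  have hκZero := wpk_hκ_iff B (M * p) (cvcAdj (modularFunctionFieldBar (M * p)) U) hle hst
    (nodeSetupNj B M p hp haux.1 hB R hR).B s hfrac
    (nodeSetupNj B M p hp haux.1 hB R hR).algebraMap_mem_B hp _ hys κ hκI n hn κ₀ hκ₀e
    vZero hvZero hvZeroF
  -- the per-point theorem
  have hpt := wpg_node B (M * p) (cvcAdj (modularFunctionFieldBar (M * p)) U) hle hst
    (nodeSetupNj B M p hp haux.1 hB R hR) s p hp hB hfrac R Q
    (nodeSetupNj B M p hp haux.1 hB R hR).redInf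
    (fun a0 => (nodeSetupNj B M p hp haux.1 hB R hR).redInf_constB a0)
    (wrf_hjO_inf B M p hp haux.1 hB R hR) (wrf_hjred_inf B M p hp haux.1 hB R hR)
    h₁ xs εx ys hxsm hxg hεx hm hord0 hws hy0 hwy hxs hys hyx tB htB hxyp ρ hρ
    (wpu_hinjR B (M * p) (cvcAdj (modularFunctionFieldBar (M * p)) U) hle hst
      (nodeSetupNj B M p hp haux.1 hB R hR).B s hfrac)
    hpR
    (wpuIota B (M * p) (cvcAdj (modularFunctionFieldBar (M * p)) U) hle hst
      (nodeSetupNj B M p hp haux.1 hB R hR).B s)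
    (wpu_hiota B (M * p) (cvcAdj (modularFunctionFieldBar (M * p)) U) hle hst
      (nodeSetupNj B M p hp haux.1 hB R hR).B s)
    _ z₀ hz hσpz hσR hdesc
    (algebraMap Kbar ↥(cvcAdj (modularFunctionFieldBar (M * p)) U) ζ) hζE c' hc hcong hgen₀
    𝔫 h𝔫 u₀ g₀ κ₀ hu₀0 hg₀0 hκ₀0 hσκ₀ hσu₀ hσn hfixσ
    vInf vZero hvInf hvInf1 hvInfF hvZero hvZero1 hvZeroF hκInf hκZero hgenE
    (wppPhi (M * p) (cvcAdj (modularFunctionFieldBar (M * p)) U) hle)
    (wpp_hphi (M * p) U hp.pos hUmem)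
    (auxLevelPull (M' * p) (M * p) (Nat.mul_dvd_mul_right hdvd p) x) ux hux hE cK
    (wpp_hrelu B (M * p) (cvcAdj (modularFunctionFieldBar (M * p)) U) hle hst p u₀ ux hE cK
      (by rw [hu₀e]; exact hrelL))
    (wppIotaA B (M * p) (nodeSetupNj B M p hp haux.1 hB R hR).B s
      (nodeSetupNj B M p hp haux.1 hB R hR).constB)
    (wpp_hcompatA B (M * p) (cvcAdj (modularFunctionFieldBar (M * p)) U) hle hst
      (nodeSetupNj B M p hp haux.1 hB R hR).B s (nodeSetupNj B M p hp haux.1 hB R hR).constB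
      (fun a0 => (nodeSetupNj B M p hp haux.1 hB R hR).coe_constB a0))
    ((p : ℕ) : k0Val B) (wpp_hpiA B hB) 1
    (wpp_hpA B (M * p) (nodeSetupNj B M p hp haux.1 hB R hR).B s
      (nodeSetupNj B M p hp haux.1 hB R hR).constB p)
    (fun b => rfl)
    aK π1K θK mθK haI haB haiB ha0 hπ1res hmθ hmθB hθ hθB hθiB hθ0 hpowπ hηK
    ke hke
    (fun i => ⟨(cu i : LaurentSeries Kbar), hle (cu i).2⟩) ah
    (fun i => by
      obtain ⟨a', b', hb', hab'⟩ := wco_frac_of_fixed B M p hp haux.1 hB R hR (cu i) (hcu i)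
      refine ⟨a', b', ?_, ?_⟩
      · intro h0
        apply hb'
        exact cri_incl_injective B (M * p) (cvcAdj (modularFunctionFieldBar (M * p)) U) hle _
          (h0.trans (map_zero _).symm)
      · apply Subtype.ext
        have h1 := congrArg (fun z : FF (M * p) => (z : LaurentSeries Kbar)) hab'
        exact h1)
    (fun i => ⟨⟨ah i, hah i⟩, rfl⟩)
    (by
      show ((u₀ : ↥(wpbE0 B (cvcAdj (modularFunctionFieldBar (M * p)) U) hst)) :
        ↥(cvcAdj (modularFunctionFieldBar (M * p)) U)) = _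
      rw [hu₀e]; exact hrel)
    u1 hU1
  exact wpt28_transfer R hux hk1 Q _ hpt

end Fermat.Agent.S40lib

end
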