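import Mathlib
import Fermat.Agent.S36lib.Speed
import Fermat.Agent.S40lib.WildPtSplit
import Fermat.Agent.S40lib.WildPtB
import Fermat.Agent.S40lib.WildPtRef
import Fermat.Agent.S40lib.WildPtHV
import Fermat.Agent.S40lib.WindcX2
import Fermat.Agent.S40lib.ZStage3
import Fermat.Agent.S40lib.DeckInst2
import Fermat.Agent.S40lib.SameCompAbs
import Fermat.Agent.S40lib.WildPtGlue
import Fermat.Agent.S40lib.WildPtKappa
import Fermat.Agent.S40lib.WildPtV21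
import Fermat.Agent.S40lib.WildPtPhi
import Fermat.Agent.S40lib.WildPtCo
import Fermat.Agent.S40lib.WindcEInst
import Fermat.Agent.S40lib.WindcCoCtx2
import Fermat.Agent.S40lib.WildPtStruct4
import Fermat.Agent.S40lib.WindcPtTr28
import Fermat.Agent.S40lib.HgenCtx
import Fermat.Agent.S40lib.WindcRedF

/-!
# Item 88 (S44), block (J-WILD), LAYER B monolith: supersingular places, component `0` (helper18)
-/

set_option autoImplicit false
set_option linter.style.haveILetI false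
set_option linter.unusedSectionVars false
set_option linter.unusedVariables false
set_option synthInstance.maxHeartbeats 400000
set_option maxHeartbeats 4000000

noncomputable section

namespace Fermat.Agent.S40lib

open Fermat.Agent.GalRep ModularCurve AlgebraicCurve Fermat.Agent.S31lib Fermat.Agent.S35lib
  Fermat.Agent.S33lib Fermat.Agent.S36lib Fermat.Agent.S24lib Fermat.Agent.S34lib
  Fermat.Agent.RRlib Fermat.Agent.GoodRed Fermat.Agent.S18lib Fermat.Agent.GM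
  Fermat.Agent.HeckeBar HahnSeries IsLocalRing

theorem pnz_main (M' p : ℕ) [NeZero M'] [NeZero p] [NeZero (M' * p)]
    (hp : p.Prime) (hp2 : p ≠ 2) (hpM' : ¬ p ∣ M')
    (B : ValuationSubring (AlgebraicClosure ℚ)) (hB : B.LiesOverPrime p) :
    S44jPtNodeZero M' p hp B hB := by
  intro S a V hS h2S hcard hVp hstab hEig hNot hnE x hx hx0 hfix t htV ht0 hHx hω
    M e hM0 hMp0 hdvd haux hM hMe hdeg ζ hζ ux ut hux hut U hU σY hσ rt κ u g hκ0 hrt0 hpow hκI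
    hSt hu0 hg0 huI hgI hσu hch n hn R hR hmv
  obtain ⟨hσK, hσF, hσU, h4, hσfix, hσp⟩ := hσ
  have hst := zsg_hst (B.inertiaSubgroupIn ℚ) (cvcAdj (modularFunctionFieldBar (M * p)) U) σY h4
  have hcomm := zsg_hcomm (B.inertiaSubgroupIn ℚ) (cvcAdj (modularFunctionFieldBar (M * p)) U)
    σY hst h4
  by_cases hex : ∃ Q₀ : Place (IsLocalRing.ResidueField B) (Fk (IsLocalRing.ResidueField B) M),
      0 ≤ Q₀.ord (jk (IsLocalRing.ResidueField B) M) ∧
      (∀ z ∈ (nodeSetupNj B M p hp haux.1 hB R hR).pInf,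
        (nodeSetupNj B M p hp haux.1 hB R hR).redZero z = 0 ∨
          0 < Q₀.ord ((nodeSetupNj B M p hp haux.1 hB R hR).redZero z))
  swap
  · exact ⟨0, fun Q hQ hSS => absurd ⟨Q, hQ, hSS⟩ hex⟩
  obtain ⟨Q₀, hQ₀, hSS₀⟩ := hex
  haveI : IsAlgClosed (IsLocalRing.ResidueField B) := isAlgClosed_residueField B
  haveI : IsNoetherianRing (nodeSetupNj B M p hp haux.1 hB R hR).B :=
    (r1c_noeth_frac B M p hp haux.1 hB R hR
      (fun z h1 h3 => w2j_rgnSum B M p hp haux.1 hB R hR z h1 h3)).1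
  have hfrac := (r1c_noeth_frac B M p hp haux.1 hB R hR
      (fun z h1 h3 => w2j_rgnSum B M p hp haux.1 hB R hR z h1 h3)).2
  have hle := cvc_le_adj (modularFunctionFieldBar (M * p)) U
  letI iFE0 := wpbAlgF0E0 B (M * p) (cvcAdj (modularFunctionFieldBar (M * p)) U) hle hst
  -- the reference node
  obtain ⟨s₀, hs₀, x₀, y₀, εx₀, εy₀, tB₀, h₁₀, h₂₀, hx₀, hxg₀, hεx₀, hy₀, hyg₀, hεy₀, hxy₀, htB₀,
    hmem₀, hord0₀, hws₀, hy0₀, hwy₀, hx0'₀, hufd₀, hxs₀, hys₀, hyx₀, hxy'₀, hm₀, hnoeth₀, hic₀,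
    hpR₀, ρ₀, hρ₀, hρc₀, hρz₀⟩ :=
    wcx_node_zero B M p hp haux.1 hB R hR haux Q₀ hQ₀ hSS₀
  haveI hsp₀ : s₀.IsPrime := hs₀.isPrime
  haveI := hufd₀
  letI iRE₀ := criAlg B (M * p) (cvcAdj (modularFunctionFieldBar (M * p)) U) hle
    (nodeSetupNj B M p hp haux.1 hB R hR).B s₀
  letI iRF₀ := wpbAlgF0 B (M * p) (nodeSetupNj B M p hp haux.1 hB R hR).B s₀
  letI iRE0₀ := wpbAlgE0 B (M * p) (cvcAdj (modularFunctionFieldBar (M * p)) U) hle hst
    (nodeSetupNj B M p hp haux.1 hB R hR).B s₀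
  haveI hfr₀ : IsFractionRing (Localization.AtPrime s₀) ↥(f0Field B (M * p)) :=
    wpb_frac B (M * p) (nodeSetupNj B M p hp haux.1 hB R hR).B s₀ hfrac
  haveI htow₀ : IsScalarTower (Localization.AtPrime s₀) ↥(f0Field B (M * p))
      ↥(wpbE0 B (cvcAdj (modularFunctionFieldBar (M * p)) U) hst) :=
    wpb_tower B (M * p) (cvcAdj (modularFunctionFieldBar (M * p)) U) hle hst
      (nodeSetupNj B M p hp haux.1 hB R hR).B s₀
  obtain ⟨z₀₀, c₀₀, hz₀, hσpz₀, hσR₀, hdesc₀, hc₀, hcong₀, hgen₀₀⟩ :=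
    zsg_ctx M' p hp hp2 hpM' B hB S a V hS h2S hVp hEig hNot hnE t htV hω M hdvd haux hM ζ hζ
      ut hut U hU σY hσK hσF hσU hst hcomm hσfix hσp R hR s₀ hic₀ hpR₀
  have hinjR₀ : Function.Injective (algebraMap (Localization.AtPrime s₀)
      ↥(wpbE0 B (cvcAdj (modularFunctionFieldBar (M * p)) U) hst)) := fun a b h =>
    cif_hom_injective B (M * p) (cvcAdj (modularFunctionFieldBar (M * p)) U) hle
      (nodeSetupNj B M p hp haux.1 hB R hR).B s₀ hfrac (congrArg Subtype.val h)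
  have hζE : IsPrimitiveRoot (algebraMap Kbar ↥(cvcAdj (modularFunctionFieldBar (M * p)) U) ζ) p :=
    hζ.map_of_injective (algebraMap Kbar ↥(cvcAdj (modularFunctionFieldBar (M * p)) U)).injective
  obtain ⟨vInf, vZero, hvInf, hvInf1, hvInfF₀, hvZero, hvZero1, hvZeroF₀⟩ :=
    s40j_ref (B := ↥(nodeSetupNj B M p hp haux.1 hB R hR).B) (F₀ := ↥(f0Field B (M * p)))
      (E₀ := ↥(wpbE0 B (cvcAdj (modularFunctionFieldBar (M * p)) U) hst))
      (E := ↥(cvcAdj (modularFunctionFieldBar (M * p)) U)) s₀ x₀ y₀ hm₀ hxs₀ hys₀ hyx₀ ρ₀ hρ₀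
      hinjR₀ hp hpR₀
      (cve0Iota (R := Localization.AtPrime s₀)
        (cve0cT (B.inertiaSubgroupIn ℚ) (cvcAdj (modularFunctionFieldBar (M * p)) U) hst)
        (cve0c_hR (B.inertiaSubgroupIn ℚ) (cvcAdj (modularFunctionFieldBar (M * p)) U) hst
          (wpb_hRfix B (M * p) (cvcAdj (modularFunctionFieldBar (M * p)) U) hle hst
            (nodeSetupNj B M p hp haux.1 hB R hR).B s₀)))
      _ z₀₀ hz₀ hσpz₀ hσR₀ hdesc₀ hζE c₀₀ hc₀ hcong₀ hgen₀₀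
  -- the deck data
  obtain ⟨u₀, g₀, κ₀, hu₀e, hg₀e, hκ₀e, hu₀0, hg₀0, hκ₀0, hσκ₀, hσu₀, hσn, hfixσ⟩ :=
    dki_pkg B (M * p) (cvcAdj (modularFunctionFieldBar (M * p)) U) hle hst σY hcomm p hσK hσp
      hσfix κ hκ0 hκI u g hu0 hg0 huI hgI hσu
  -- `hκInf`, `hκZero` (at the reference node)
  have hκInf : (p : ℤ) ∣ vInf κ₀ :=
    wpk_hκ B (M * p) (cvcAdj (modularFunctionFieldBar (M * p)) U) hle hst (nodeSetupNj B M p hp haux.1 hB R hR).B s₀ hfrac
      (fun a => (nodeSetupNj B M p hp haux.1 hB R hR).algebraMap_mem_B a) hp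
      (algebraMap ↥(nodeSetupNj B M p hp haux.1 hB R hR).B (Localization.AtPrime s₀) x₀) hxs₀ κ hκI n hn κ₀ hκ₀e vInf hvInf hvInfF₀
  have hκZero : (p : ℤ) ∣ vZero κ₀ :=
    wpk_hκ B (M * p) (cvcAdj (modularFunctionFieldBar (M * p)) U) hle hst (nodeSetupNj B M p hp haux.1 hB R hR).B s₀ hfrac
      (fun a => (nodeSetupNj B M p hp haux.1 hB R hR).algebraMap_mem_B a) hp
      (algebraMap ↥(nodeSetupNj B M p hp haux.1 hB R hR).B (Localization.AtPrime s₀) y₀) hys₀ κ hκI n hn κ₀ hκ₀e vZero hvZero hvZeroF₀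
  -- the Eisenstein constants and the coordinates
  letI : RRBase Kbar (FF (M * p)) := (mod_rrHyp (M * p)).toRRBase
  obtain ⟨σ₁, hσ₁, hσ₁x, -⟩ := hmv
  have hσ₁rt : σ₁ rt ≠ rt := fun h0 => hσ₁x ((hSt σ₁ hσ₁.1).mpr h0)
  obtain ⟨ε0, aK, π1K, θK, mθK, hε0I, haI, hε0B, hε0iB, hε00, haB, haiB, ha0, hπ1def, hπ1, hπ10,
    hmθ, hmθB, hθ, hθB, hθiB, hθ0, hpowθ, hηK⟩ :=
    wei_consts (B := B) hp hB κ rt hκ0 hpow hκI n hn ⟨σ₁, hσ₁, hσ₁rt⟩
  obtain ⟨u1, ke, cu, ah, hk1, hke, hcu, hah, hu1, hU1, hrelF⟩ :=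
    wpc_coords M' M p hp hdvd B hζ (cvcAdj (modularFunctionFieldBar (M * p)) U) hle hst x ux hux rt κ hrt0 hpow hκI hSt
      ⟨σ₁, hσ₁, hσ₁x⟩ u huI hch n ε0 π1K hε0I hε00 hπ1def
  obtain ⟨cK, hE, hcK0, hE0, hrelU⟩ := hch
  refine ⟨vZero u₀ - vInf u₀, fun Q hQ hSSq =>
    wpt28_transfer (glmZero M p hp haux.1 R) hux hk1 Q (vZero u₀ - vInf u₀) ?_⟩
  intro c' h2' h20'
  -- the place `Q`
  obtain ⟨sq, hsq, xq, yq, εxq, εyq, tBq, h₁q, h₂q, hxq, hxgq, hεxq, hyq, hygq, hεyq, hxyq, htBq,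
    hmemq, hord0q, hwsq, hy0q, hwyq, hx0'q, hufdq, hxsq, hysq, hyxq, hxy'q, hmq, hnoethq, hicq,
    hpRq, ρq, hρq, hρcq, hρzq⟩ :=
    wcx_node_zero B M p hp haux.1 hB R hR haux Q hQ hSSq
  haveI hspq : sq.IsPrime := hsq.isPrime
  haveI := hufdq
  have hxypq := wcx_hxyp_Nj B M p hp haux.1 hB R hR sq xq yq tBq hxyq
  letI iRE := criAlg B (M * p) (cvcAdj (modularFunctionFieldBar (M * p)) U) hle (nodeSetupNj B M p hp haux.1 hB R hR).B sq
  letI iRF := wpbAlgF0 B (M * p) (nodeSetupNj B M p hp haux.1 hB R hR).B sq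
  letI iRE0 := wpbAlgE0 B (M * p) (cvcAdj (modularFunctionFieldBar (M * p)) U) hle hst (nodeSetupNj B M p hp haux.1 hB R hR).B sq
  letI iKE0 := wpbAlgK0E0 B (M * p) (cvcAdj (modularFunctionFieldBar (M * p)) U) hle hst
  letI iKE := wpbAlgK0E B (cvcAdj (modularFunctionFieldBar (M * p)) U)
  haveI hfr : IsFractionRing (Localization.AtPrime sq) ↥(f0Field B (M * p)) :=
    wpb_frac B (M * p) (nodeSetupNj B M p hp haux.1 hB R hR).B sq hfrac
  obtain ⟨z₀, c₀, hz, hσpz, hσR, hdesc, hc, hcong, hgen₀⟩ :=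
    zsg_ctx M' p hp hp2 hpM' B hB S a V hS h2S hVp hEig hNot hnE t htV hω M hdvd haux hM ζ hζ
      ut hut U hU σY hσK hσF hσU hst hcomm hσfix hσp R hR sq hicq hpRq
  obtain ⟨-, -, hdescE, -⟩ :=
    cri_inputs_Nj B M p hp haux.1 hB R hR (cvcAdj (modularFunctionFieldBar (M * p)) U) hle sq hicq hst σY hσF hσfix
  have hzne : σY (z₀ : ↥(cvcAdj (modularFunctionFieldBar (M * p)) U)) ≠ (z₀ : ↥(cvcAdj (modularFunctionFieldBar (M * p)) U)) :=
    hgc_sigma_ne B (M * p) (cvcAdj (modularFunctionFieldBar (M * p)) U) hle hst (nodeSetupNj B M p hp haux.1 hB R hR).B sq σY hcomm hfrac hp hpRq hζ hdescE z₀ (c₀ 1)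
      (hc 1 (Finset.mem_Ico.mpr ⟨le_rfl, hp.one_lt⟩))
      (by
        have := hcong 1 (Finset.mem_Ico.mpr ⟨le_rfl, hp.one_lt⟩)
        simp only [Function.iterate_one, Nat.cast_one, map_one] at this
        exact this)
  obtain ⟨𝔫, h𝔫⟩ := wpu_exists_max B (M * p) (cvcAdj (modularFunctionFieldBar (M * p)) U) hle hst (nodeSetupNj B M p hp haux.1 hB R hR).B sq z₀
  have hrelu := wpp_hrelu B (M * p) (cvcAdj (modularFunctionFieldBar (M * p)) U) hle hst p u₀ ux hE cK (by rw [hu₀e]; exact hrelU)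
  obtain ⟨ae, au, hae_def, hau_def, -⟩ :=
    wcy2_shapes B M p hp haux.1 hB R hR (cvcAdj (modularFunctionFieldBar (M * p)) U) hle hst u1 ke cu ah π1K u hke hcu hah hU1 hrelF
      (algebraMap Kbar ↥(cvcAdj (modularFunctionFieldBar (M * p)) U) (π1K + 1)) (by rw [map_add, map_one]; ring)
  exact wpg_node B (M * p) (cvcAdj (modularFunctionFieldBar (M * p)) U) hle hst (nodeSetupNj B M p hp haux.1 hB R hR) sq p hp hB hfrac (glmZero M p hp haux.1 R) Q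
    (nodeSetupNj B M p hp haux.1 hB R hR).redZero (fun a0 => (nodeSetupNj B M p hp haux.1 hB R hR).redZero_constB a0)
    (wrf_hjO_zero B M p hp haux.1 hB R hR) (wrf_hjred_zero B M p hp haux.1 hB R hR)
    h₁q xq εxq yq hxq hxgq hεxq hmq hord0q hwsq hy0q hwyq hxsq hysq hyxq tBq htBq hxypq
    ρq hρq (wpu_hinjR B (M * p) (cvcAdj (modularFunctionFieldBar (M * p)) U) hle hst (nodeSetupNj B M p hp haux.1 hB R hR).B sq hfrac) hpRq
    (wpuIota B (M * p) (cvcAdj (modularFunctionFieldBar (M * p)) U) hle hst (nodeSetupNj B M p hp haux.1 hB R hR).B sq) (wpu_hiota B (M * p) (cvcAdj (modularFunctionFieldBar (M * p)) U) hle hst (nodeSetupNj B M p hp haux.1 hB R hR).B sq)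
    _ z₀ hz hσpz hσR hdesc (algebraMap Kbar ↥(cvcAdj (modularFunctionFieldBar (M * p)) U) ζ) hζE c₀ hc hcong hgen₀ 𝔫 h𝔫
    u₀ g₀ κ₀ hu₀0 hg₀0 hκ₀0 hσκ₀ hσu₀ hσn hfixσ vInf vZero hvInf hvInf1
    (wpv_hvF B (M * p) (nodeSetupNj B M p hp haux.1 hB R hR).B s₀ sq hfrac (nodeSetupNj B M p hp haux.1 hB R hR).redZero h₁₀ h₁q x₀ εx₀ hx₀ hxg₀ hεx₀ hxs₀
      xq εxq hxq hxgq hεxq hxsq
      (fun f => vInf (algebraMap ↥(f0Field B (M * p)) ↥(wpbE0 B (cvcAdj (modularFunctionFieldBar (M * p)) U) hst) f)) hvInfF₀)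
    hvZero hvZero1
    (wpv_hvF B (M * p) (nodeSetupNj B M p hp haux.1 hB R hR).B s₀ sq hfrac (nodeSetupNj B M p hp haux.1 hB R hR).redInf h₂₀ h₂q y₀ εy₀ hy₀ hyg₀ hεy₀ hys₀
      yq εyq hyq hygq hεyq hysq
      (fun f => vZero (algebraMap ↥(f0Field B (M * p)) ↥(wpbE0 B (cvcAdj (modularFunctionFieldBar (M * p)) U) hst) f)) hvZeroF₀)
    hκInf hκZero
    (wph_hgenE B (M * p) (cvcAdj (modularFunctionFieldBar (M * p)) U) hle hst hp σY hσF hσfix hσp z₀ hzne)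
    (wppPhi (M * p) (cvcAdj (modularFunctionFieldBar (M * p)) U) hle) (wpp_hphi (M * p) U hp.pos (by rw [hU]; exact ut.2))
    (auxLevelPull (M' * p) (M * p) (Nat.mul_dvd_mul_right hdvd p) x) ux hux hE cK hrelu
    (wppIotaA B (M * p) (nodeSetupNj B M p hp haux.1 hB R hR).B sq (nodeSetupNj B M p hp haux.1 hB R hR).constB)
    (wpp_hcompatA B (M * p) (cvcAdj (modularFunctionFieldBar (M * p)) U) hle hst (nodeSetupNj B M p hp haux.1 hB R hR).B sq (nodeSetupNj B M p hp haux.1 hB R hR).constB (fun a => rfl))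
    ((p : ℕ) : k0Val B) (wpp_hpiA B hB) 1 (wpp_hpA B (M * p) (nodeSetupNj B M p hp haux.1 hB R hR).B sq (nodeSetupNj B M p hp haux.1 hB R hR).constB p)
    (fun b => rfl)
    aK π1K θK mθK haI haB haiB ha0 hπ1 hmθ hmθB hθ hθB hθiB hθ0 hpowθ hηK
    ke hke au ah
    (wcy2_hau B M p hp haux.1 hB R hR (cvcAdj (modularFunctionFieldBar (M * p)) U) hle cu hcu au hau_def)
    (fun i => ⟨⟨ah i, hah i⟩, rfl⟩)
    (by
      have e1 : algebraMap ↥(wpbE0 B (cvcAdj (modularFunctionFieldBar (M * p)) U) hst) ↥(cvcAdj (modularFunctionFieldBar (M * p)) U) u₀ = u := hu₀e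
      rw [e1, hrelF]
      have e2 : ∀ i, au i = (⟨(cu i : LaurentSeries Kbar), hle (cu i).2⟩ : ↥(cvcAdj (modularFunctionFieldBar (M * p)) U)) :=
        fun i => hau_def i
      simp only [e2])
    u1
    (by
      have e2 : ∀ i, au i = (⟨(cu i : LaurentSeries Kbar), hle (cu i).2⟩ : ↥(cvcAdj (modularFunctionFieldBar (M * p)) U)) :=
        fun i => hau_def i
      simp only [e2]
      exact hU1)
    c' h2' h20'

end Fermat.Agent.S40lib

end
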