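/-
Item 88 (S44), (J-WILD), LAYER B, group (REF) (helper24): the GLOBAL reference orders of the
node monoliths (`S44jPtNodeInf`, `S44jPtNodeZero`), in the concrete context of `WildPtCtx.lean`
at the binders of `S44jWildPt`:

* `wpr24_core`     : from the `X`-package at ONE reference node `s₀`: orders `vInf vZero : E₀ → ℤ`
                     (`G2cOrd`, normalised) with the hypotheses `hvInfF` / `hvZeroF` of
                     `wpb_call_node` at EVERY centre `s` (any generator `x` of `ker red_∞`,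
                     resp. `y` of `ker red_0`, at `s`);
* `wpr24_ref_inf`  : the same from ONE supersingular place of the component `∞`
                     (`wcx_node_inf`);
* `wpr24_ref_zero` : the same from ONE supersingular place of the component `0`
                     (`wcx_node_zero`).
= `zsg_ctx` (helper9) at `s₀` + `wpu_*` (helper4) + `s40j_ref` (helper22) + `wpv_hvF` (helper21).
For the call at the component `0` (`r₁ := redZero`) use `vZero` as `vInf` of the call and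
`vInf` as its `vZero`.  Complete proofs, standard axioms only.
-/
import Mathlib
import Fermat.Agent.S36lib.Speed
import Fermat.Agent.S40lib.WildPtCtx
import Fermat.Agent.S40lib.WildPtRef
import Fermat.Agent.S40lib.WildPtV21
import Fermat.Agent.S40lib.WildPtStruct4
import Fermat.Agent.S40lib.ZStage3
import Fermat.Agent.S40lib.WindcX2

set_option autoImplicit false
set_option linter.style.haveILetI false
set_option linter.unusedSectionVars false
set_option linter.unusedVariables false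
set_option synthInstance.maxHeartbeats 400000
set_option maxHeartbeats 4000000

noncomputable section

namespace Fermat.Agent.S40lib

open Fermat.Agent.GalRep ModularCurve AlgebraicCurve Fermat.Agent.S31lib Fermat.Agent.S35lib
  Fermat.Agent.S33lib Fermat.Agent.S36lib Fermat.Agent.S24lib Fermat.Agent.S34lib
  Fermat.Agent.RRlib Fermat.Agent.GoodRed Fermat.Agent.S18lib Fermat.Agent.GM
  Fermat.Agent.HeckeBar HahnSeries IsLocalRing

section Ref24

variable (M' p : ℕ) [NeZero M'] [NeZero p] [NeZero (M' * p)]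

set_option maxHeartbeats 4000000 in
/-- **(REF), core**: the global reference orders from the `X`-package at ONE reference node
`s₀` (`x₀` generating `ker red_∞`, `y₀` generating `ker red_0` at `s₀`). -/
theorem wpr24_core (hp : p.Prime) (hp2 : p ≠ 2) (hpM' : ¬ p ∣ M')
    (B : ValuationSubring (AlgebraicClosure ℚ)) (hB : B.LiesOverPrime p)
    (S : Finset ℕ) (a : ℕ → ℤ) (V : AddSubgroup (JZero (M' * p)))
    (hS : ∀ ℓ : ℕ, ℓ.Prime → ℓ ∣ M' * p → ℓ ∈ S) (h2S : 2 ∈ S)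
    (hVp : ∀ x ∈ V, p • x = 0)
    (hEig : S40hEig (M' * p) S a V) (hNot : S40hNotAt M' p S a)
    (hnE : ∃ ℓ : Nat.Primes, (ℓ : ℕ) ∉ S ∧ ¬ (p : ℤ) ∣ a ℓ - (1 + (ℓ : ℕ)))
    (t : JZero (M' * p)) (htV : t ∈ V)
    (hω : ∀ τ ∈ B.inertiaSubgroupIn ℚ, ∃ w : ℕ, τ • t = w • t ∧
      ∀ ξ : Kbar, ξ ^ p = 1 → τ ξ = ξ ^ w)
    (M : ℕ) [NeZero M] [NeZero (M * p)] (hdvd : M' ∣ M) (haux : IsAuxLevel p M)
    (hM : M = Nat.lcm M' (baseLevel p))
    (ζ : Kbar) (hζ : IsPrimitiveRoot ζ p)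
    (ut : modularFunctionFieldBar (M * p))
    (hut : letI : RRBase Kbar (modularFunctionFieldBar (M * p)) := (mod_rrHyp (M * p)).toRRBase
      gdfIsKummer (K := Kbar) p
        (auxLevelPull (M' * p) (M * p) (Nat.mul_dvd_mul_right hdvd p) t) ut)
    (U : LaurentSeries Kbar) (hU : U ^ p = (ut : LaurentSeries Kbar))
    (σY : ↥(cvcAdj (modularFunctionFieldBar (M * p)) U) →+* ↥(cvcAdj (modularFunctionFieldBar (M * p)) U))
    (hσK : ∀ c : Kbar, σY (algebraMap Kbar ↥(cvcAdj (modularFunctionFieldBar (M * p)) U) c) = algebraMap Kbar ↥(cvcAdj (modularFunctionFieldBar (M * p)) U) c)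
    (hσF : ∀ f : modularFunctionFieldBar (M * p),
      σY ⟨(f : LaurentSeries Kbar), cvc_le_adj (modularFunctionFieldBar (M * p)) U f.2⟩ =
        ⟨(f : LaurentSeries Kbar), cvc_le_adj (modularFunctionFieldBar (M * p)) U f.2⟩)
    (hσU : σY ⟨U, cvc_mem_adj (modularFunctionFieldBar (M * p)) U⟩ =
      algebraMap Kbar ↥(cvcAdj (modularFunctionFieldBar (M * p)) U) ζ * ⟨U, cvc_mem_adj (modularFunctionFieldBar (M * p)) U⟩)
    (hst : ∀ σ ∈ B.inertiaSubgroupIn ℚ, ∀ x ∈ cvcAdj (modularFunctionFieldBar (M * p)) U,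
      coeffMap ((σ : Kbar ≃ₐ[ℚ] Kbar) : Kbar →+* Kbar) x ∈
        cvcAdj (modularFunctionFieldBar (M * p)) U)
    (hcomm : ∀ (σ : Kbar ≃ₐ[ℚ] Kbar) (hσ : σ ∈ B.inertiaSubgroupIn ℚ) (z : ↥(cvcAdj (modularFunctionFieldBar (M * p)) U)),
      σY (wlcTau (B.inertiaSubgroupIn ℚ) (cvcAdj (modularFunctionFieldBar (M * p)) U) hst σ hσ z) =
        wlcTau (B.inertiaSubgroupIn ℚ) (cvcAdj (modularFunctionFieldBar (M * p)) U) hst σ hσ (σY z))
    (hσfix : ∀ y : ↥(cvcAdj (modularFunctionFieldBar (M * p)) U), σY y = y →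
      (y : LaurentSeries Kbar) ∈ modularFunctionFieldBar (M * p))
    (hσp : ∀ y : ↥(cvcAdj (modularFunctionFieldBar (M * p)) U), σY^[p] y = y)
    (R : ConstRed B (IsLocalRing.residue B)
      (↥(modularFunctionFieldFullC (IsLocalRing.ResidueField B) M)) (FF (M * p)))
    (hR : IsSeriesRed R)
    (s₀ : Ideal (nodeSetupNj B M p hp haux.1 hB R hR).B) [hs₀ : s₀.IsPrime]
    [hufd₀ : UniqueFactorizationMonoid (Localization.AtPrime s₀)]
    (hic₀ : IsIntegrallyClosed (Localization.AtPrime s₀))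
    (hpR₀ : (p : Localization.AtPrime s₀) ∈ IsLocalRing.maximalIdeal (Localization.AtPrime s₀))
    (ρ₀ : Localization.AtPrime s₀ →+* IsLocalRing.ResidueField B) (hρ₀ : Function.Surjective ρ₀)
    (x₀ y₀ εx₀ εy₀ : (nodeSetupNj B M p hp haux.1 hB R hR).B)
    (h₁₀ : RingHom.ker (nodeSetupNj B M p hp haux.1 hB R hR).redInf ≤ s₀) (h₂₀ : RingHom.ker (nodeSetupNj B M p hp haux.1 hB R hR).redZero ≤ s₀)
    (hx₀ : x₀ ∈ RingHom.ker (nodeSetupNj B M p hp haux.1 hB R hR).redInf)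
    (hxg₀ : ∀ z ∈ RingHom.ker (nodeSetupNj B M p hp haux.1 hB R hR).redInf, x₀ ∣ εx₀ * z) (hεx₀ : εx₀ ∉ s₀)
    (hy₀ : y₀ ∈ RingHom.ker (nodeSetupNj B M p hp haux.1 hB R hR).redZero)
    (hyg₀ : ∀ z ∈ RingHom.ker (nodeSetupNj B M p hp haux.1 hB R hR).redZero, y₀ ∣ εy₀ * z) (hεy₀ : εy₀ ∉ s₀)
    (hxs₀ : Prime (algebraMap (nodeSetupNj B M p hp haux.1 hB R hR).B (Localization.AtPrime s₀) x₀))
    (hys₀ : Prime (algebraMap (nodeSetupNj B M p hp haux.1 hB R hR).B (Localization.AtPrime s₀) y₀))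
    (hyx₀ : ¬ algebraMap (nodeSetupNj B M p hp haux.1 hB R hR).B (Localization.AtPrime s₀) x₀ ∣
      algebraMap (nodeSetupNj B M p hp haux.1 hB R hR).B (Localization.AtPrime s₀) y₀)
    (hm₀ : IsLocalRing.maximalIdeal (Localization.AtPrime s₀) =
      Ideal.span {algebraMap (nodeSetupNj B M p hp haux.1 hB R hR).B (Localization.AtPrime s₀) x₀,
        algebraMap (nodeSetupNj B M p hp haux.1 hB R hR).B (Localization.AtPrime s₀) y₀}) :
    ∃ vInf vZero : ↥(wpbE0 B (cvcAdj (modularFunctionFieldBar (M * p)) U) hst) → ℤ,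
      G2cOrd vInf ∧ (∃ z : ↥(wpbE0 B (cvcAdj (modularFunctionFieldBar (M * p)) U) hst), z ≠ 0 ∧ vInf z = 1) ∧
      G2cOrd vZero ∧ (∃ z : ↥(wpbE0 B (cvcAdj (modularFunctionFieldBar (M * p)) U) hst), z ≠ 0 ∧ vZero z = 1) ∧
      ∀ (s : Ideal (nodeSetupNj B M p hp haux.1 hB R hR).B) [hs : s.IsPrime]
        [UniqueFactorizationMonoid (Localization.AtPrime s)],
        letI iRF := wpbAlgF0 B (M * p) (nodeSetupNj B M p hp haux.1 hB R hR).B s
        letI iFE0 := wpbAlgF0E0 B (M * p) (cvcAdj (modularFunctionFieldBar (M * p)) U) (cvc_le_adj (modularFunctionFieldBar (M * p)) U) hst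
        haveI hfr : IsFractionRing (Localization.AtPrime s) ↥(f0Field B (M * p)) :=
          wpb_frac B (M * p) (nodeSetupNj B M p hp haux.1 hB R hR).B s (cri_hfrac_Nj B M p hp haux.1 hB R hR)
        (∀ (x εx : (nodeSetupNj B M p hp haux.1 hB R hR).B) (h₁ : RingHom.ker (nodeSetupNj B M p hp haux.1 hB R hR).redInf ≤ s)
          (hx : x ∈ RingHom.ker (nodeSetupNj B M p hp haux.1 hB R hR).redInf)
          (hxg : ∀ z ∈ RingHom.ker (nodeSetupNj B M p hp haux.1 hB R hR).redInf, x ∣ εx * z) (hεx : εx ∉ s)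
          (hxs : Prime (algebraMap (nodeSetupNj B M p hp haux.1 hB R hR).B (Localization.AtPrime s) x))
          (f : ↥(f0Field B (M * p))), f ≠ 0 →
          (0 ≤ vInf (algebraMap ↥(f0Field B (M * p)) ↥(wpbE0 B (cvcAdj (modularFunctionFieldBar (M * p)) U) hst) f) ↔
            0 ≤ s36_ordAt (algebraMap (nodeSetupNj B M p hp haux.1 hB R hR).B (Localization.AtPrime s) x) hxs f)) ∧
        (∀ (y εy : (nodeSetupNj B M p hp haux.1 hB R hR).B) (h₂ : RingHom.ker (nodeSetupNj B M p hp haux.1 hB R hR).redZero ≤ s)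
          (hy : y ∈ RingHom.ker (nodeSetupNj B M p hp haux.1 hB R hR).redZero)
          (hyg : ∀ z ∈ RingHom.ker (nodeSetupNj B M p hp haux.1 hB R hR).redZero, y ∣ εy * z) (hεy : εy ∉ s)
          (hys : Prime (algebraMap (nodeSetupNj B M p hp haux.1 hB R hR).B (Localization.AtPrime s) y))
          (f : ↥(f0Field B (M * p))), f ≠ 0 →
          (0 ≤ vZero (algebraMap ↥(f0Field B (M * p)) ↥(wpbE0 B (cvcAdj (modularFunctionFieldBar (M * p)) U) hst) f) ↔
            0 ≤ s36_ordAt (algebraMap (nodeSetupNj B M p hp haux.1 hB R hR).B (Localization.AtPrime s) y) hys f)) := by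
  classical
  have hfrac := cri_hfrac_Nj B M p hp haux.1 hB R hR
  haveI : IsAlgClosed (IsLocalRing.ResidueField B) := isAlgClosed_residueField B
  haveI : IsNoetherianRing (nodeSetupNj B M p hp haux.1 hB R hR).B :=
    (r1c_noeth_frac B M p hp haux.1 hB R hR
      (fun z h1 h3 => w2j_rgnSum B M p hp haux.1 hB R hR z h1 h3)).1
  letI iRE := criAlg B (M * p) (cvcAdj (modularFunctionFieldBar (M * p)) U) (cvc_le_adj (modularFunctionFieldBar (M * p)) U) (nodeSetupNj B M p hp haux.1 hB R hR).B s₀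
  letI iRF := wpbAlgF0 B (M * p) (nodeSetupNj B M p hp haux.1 hB R hR).B s₀
  letI iRE0 := wpbAlgE0 B (M * p) (cvcAdj (modularFunctionFieldBar (M * p)) U) (cvc_le_adj (modularFunctionFieldBar (M * p)) U) hst (nodeSetupNj B M p hp haux.1 hB R hR).B s₀
  letI iFE0 := wpbAlgF0E0 B (M * p) (cvcAdj (modularFunctionFieldBar (M * p)) U) (cvc_le_adj (modularFunctionFieldBar (M * p)) U) hst
  haveI hfr : IsFractionRing (Localization.AtPrime s₀) ↥(f0Field B (M * p)) :=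
    wpb_frac B (M * p) (nodeSetupNj B M p hp haux.1 hB R hR).B s₀ hfrac
  haveI htw : IsScalarTower (Localization.AtPrime s₀) ↥(f0Field B (M * p)) ↥(wpbE0 B (cvcAdj (modularFunctionFieldBar (M * p)) U) hst) :=
    wpb_tower B (M * p) (cvcAdj (modularFunctionFieldBar (M * p)) U) (cvc_le_adj (modularFunctionFieldBar (M * p)) U) hst (nodeSetupNj B M p hp haux.1 hB R hR).B s₀
  obtain ⟨z₀, c, hz, hσp₀, hσR, hdesc, hc, hcong, hgen₀⟩ :=
    zsg_ctx M' p hp hp2 hpM' B hB S a V hS h2S hVp hEig hNot hnE t htV hω M hdvd haux hM ζ hζ ut hut U hU σY hσK hσF hσU hst hcomm hσfix hσp R hR s₀ hic₀ hpR₀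
  have hinjR := wpu_hinjR B (M * p) (cvcAdj (modularFunctionFieldBar (M * p)) U) (cvc_le_adj (modularFunctionFieldBar (M * p)) U) hst (nodeSetupNj B M p hp haux.1 hB R hR).B s₀ hfrac
  have hζE : IsPrimitiveRoot (algebraMap Kbar ↥(cvcAdj (modularFunctionFieldBar (M * p)) U) ζ) p :=
    hζ.map_of_injective (algebraMap Kbar ↥(cvcAdj (modularFunctionFieldBar (M * p)) U)).injective
  obtain ⟨vInf, vZero, h1, h2, h3, h4, h5, h6⟩ :=
    s40j_ref (B := (nodeSetupNj B M p hp haux.1 hB R hR).B) (F₀ := ↥(f0Field B (M * p))) (E₀ := ↥(wpbE0 B (cvcAdj (modularFunctionFieldBar (M * p)) U) hst)) (E := ↥(cvcAdj (modularFunctionFieldBar (M * p)) U)) s₀ x₀ y₀ hm₀ hxs₀ hys₀ hyx₀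
      ρ₀ hρ₀ hinjR hp hpR₀ (wpuIota B (M * p) (cvcAdj (modularFunctionFieldBar (M * p)) U) (cvc_le_adj (modularFunctionFieldBar (M * p)) U) hst (nodeSetupNj B M p hp haux.1 hB R hR).B s₀)
      (cve0Sigma (cve0cT (B.inertiaSubgroupIn ℚ) (cvcAdj (modularFunctionFieldBar (M * p)) U) hst) σY
        (cve0c_hcomm (B.inertiaSubgroupIn ℚ) (cvcAdj (modularFunctionFieldBar (M * p)) U) hst σY hcomm))
      z₀ hz hσp₀ hσR hdesc hζE c hc hcong hgen₀
  refine ⟨vInf, vZero, h1, h2, h4, h5, ?_⟩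
  intro s hs hufd
  refine ⟨fun x εx h₁ hx hxg hεx hxs f hf => ?_, fun y εy h₂ hy hyg hεy hys f hf => ?_⟩
  · exact wpv_hvF B (M * p) (nodeSetupNj B M p hp haux.1 hB R hR).B s₀ s hfrac (nodeSetupNj B M p hp haux.1 hB R hR).redInf h₁₀ h₁ x₀ εx₀ hx₀ hxg₀ hεx₀ hxs₀
      x εx hx hxg hεx hxs (fun f => vInf (algebraMap ↥(f0Field B (M * p)) ↥(wpbE0 B (cvcAdj (modularFunctionFieldBar (M * p)) U) hst) f)) h3 f hf
  · exact wpv_hvF B (M * p) (nodeSetupNj B M p hp haux.1 hB R hR).B s₀ s hfrac (nodeSetupNj B M p hp haux.1 hB R hR).redZero h₂₀ h₂ y₀ εy₀ hy₀ hyg₀ hεy₀ hys₀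
      y εy hy hyg hεy hys (fun f => vZero (algebraMap ↥(f0Field B (M * p)) ↥(wpbE0 B (cvcAdj (modularFunctionFieldBar (M * p)) U) hst) f)) h6 f hf

set_option maxHeartbeats 4000000 in
/-- **(REF) from a supersingular place of the component `∞`.** -/
theorem wpr24_ref_inf (hp : p.Prime) (hp2 : p ≠ 2) (hpM' : ¬ p ∣ M')
    (B : ValuationSubring (AlgebraicClosure ℚ)) (hB : B.LiesOverPrime p)
    (S : Finset ℕ) (a : ℕ → ℤ) (V : AddSubgroup (JZero (M' * p)))
    (hS : ∀ ℓ : ℕ, ℓ.Prime → ℓ ∣ M' * p → ℓ ∈ S) (h2S : 2 ∈ S)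
    (hVp : ∀ x ∈ V, p • x = 0)
    (hEig : S40hEig (M' * p) S a V) (hNot : S40hNotAt M' p S a)
    (hnE : ∃ ℓ : Nat.Primes, (ℓ : ℕ) ∉ S ∧ ¬ (p : ℤ) ∣ a ℓ - (1 + (ℓ : ℕ)))
    (t : JZero (M' * p)) (htV : t ∈ V)
    (hω : ∀ τ ∈ B.inertiaSubgroupIn ℚ, ∃ w : ℕ, τ • t = w • t ∧
      ∀ ξ : Kbar, ξ ^ p = 1 → τ ξ = ξ ^ w)
    (M : ℕ) [NeZero M] [NeZero (M * p)] (hdvd : M' ∣ M) (haux : IsAuxLevel p M)
    (hM : M = Nat.lcm M' (baseLevel p))
    (ζ : Kbar) (hζ : IsPrimitiveRoot ζ p)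
    (ut : modularFunctionFieldBar (M * p))
    (hut : letI : RRBase Kbar (modularFunctionFieldBar (M * p)) := (mod_rrHyp (M * p)).toRRBase
      gdfIsKummer (K := Kbar) p
        (auxLevelPull (M' * p) (M * p) (Nat.mul_dvd_mul_right hdvd p) t) ut)
    (U : LaurentSeries Kbar) (hU : U ^ p = (ut : LaurentSeries Kbar))
    (σY : ↥(cvcAdj (modularFunctionFieldBar (M * p)) U) →+* ↥(cvcAdj (modularFunctionFieldBar (M * p)) U))
    (hσK : ∀ c : Kbar, σY (algebraMap Kbar ↥(cvcAdj (modularFunctionFieldBar (M * p)) U) c) = algebraMap Kbar ↥(cvcAdj (modularFunctionFieldBar (M * p)) U) c)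
    (hσF : ∀ f : modularFunctionFieldBar (M * p),
      σY ⟨(f : LaurentSeries Kbar), cvc_le_adj (modularFunctionFieldBar (M * p)) U f.2⟩ =
        ⟨(f : LaurentSeries Kbar), cvc_le_adj (modularFunctionFieldBar (M * p)) U f.2⟩)
    (hσU : σY ⟨U, cvc_mem_adj (modularFunctionFieldBar (M * p)) U⟩ =
      algebraMap Kbar ↥(cvcAdj (modularFunctionFieldBar (M * p)) U) ζ * ⟨U, cvc_mem_adj (modularFunctionFieldBar (M * p)) U⟩)
    (hst : ∀ σ ∈ B.inertiaSubgroupIn ℚ, ∀ x ∈ cvcAdj (modularFunctionFieldBar (M * p)) U,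
      coeffMap ((σ : Kbar ≃ₐ[ℚ] Kbar) : Kbar →+* Kbar) x ∈
        cvcAdj (modularFunctionFieldBar (M * p)) U)
    (hcomm : ∀ (σ : Kbar ≃ₐ[ℚ] Kbar) (hσ : σ ∈ B.inertiaSubgroupIn ℚ) (z : ↥(cvcAdj (modularFunctionFieldBar (M * p)) U)),
      σY (wlcTau (B.inertiaSubgroupIn ℚ) (cvcAdj (modularFunctionFieldBar (M * p)) U) hst σ hσ z) =
        wlcTau (B.inertiaSubgroupIn ℚ) (cvcAdj (modularFunctionFieldBar (M * p)) U) hst σ hσ (σY z))
    (hσfix : ∀ y : ↥(cvcAdj (modularFunctionFieldBar (M * p)) U), σY y = y →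
      (y : LaurentSeries Kbar) ∈ modularFunctionFieldBar (M * p))
    (hσp : ∀ y : ↥(cvcAdj (modularFunctionFieldBar (M * p)) U), σY^[p] y = y)
    (R : ConstRed B (IsLocalRing.residue B)
      (↥(modularFunctionFieldFullC (IsLocalRing.ResidueField B) M)) (FF (M * p)))
    (hR : IsSeriesRed R)
    (Q₀ : Place (IsLocalRing.ResidueField B) (Fk (IsLocalRing.ResidueField B) M))
    (hQ₀ : 0 ≤ Q₀.ord (jk (IsLocalRing.ResidueField B) M))
    (hSS₀ : ∀ z ∈ (nodeSetupNj B M p hp haux.1 hB R hR).pZero, (nodeSetupNj B M p hp haux.1 hB R hR).redInf z = 0 ∨ 0 < Q₀.ord ((nodeSetupNj B M p hp haux.1 hB R hR).redInf z)) :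
    ∃ vInf vZero : ↥(wpbE0 B (cvcAdj (modularFunctionFieldBar (M * p)) U) hst) → ℤ,
      G2cOrd vInf ∧ (∃ z : ↥(wpbE0 B (cvcAdj (modularFunctionFieldBar (M * p)) U) hst), z ≠ 0 ∧ vInf z = 1) ∧
      G2cOrd vZero ∧ (∃ z : ↥(wpbE0 B (cvcAdj (modularFunctionFieldBar (M * p)) U) hst), z ≠ 0 ∧ vZero z = 1) ∧
      ∀ (s : Ideal (nodeSetupNj B M p hp haux.1 hB R hR).B) [hs : s.IsPrime]
        [UniqueFactorizationMonoid (Localization.AtPrime s)],
        letI iRF := wpbAlgF0 B (M * p) (nodeSetupNj B M p hp haux.1 hB R hR).B s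
        letI iFE0 := wpbAlgF0E0 B (M * p) (cvcAdj (modularFunctionFieldBar (M * p)) U) (cvc_le_adj (modularFunctionFieldBar (M * p)) U) hst
        haveI hfr : IsFractionRing (Localization.AtPrime s) ↥(f0Field B (M * p)) :=
          wpb_frac B (M * p) (nodeSetupNj B M p hp haux.1 hB R hR).B s (cri_hfrac_Nj B M p hp haux.1 hB R hR)
        (∀ (x εx : (nodeSetupNj B M p hp haux.1 hB R hR).B) (h₁ : RingHom.ker (nodeSetupNj B M p hp haux.1 hB R hR).redInf ≤ s)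
          (hx : x ∈ RingHom.ker (nodeSetupNj B M p hp haux.1 hB R hR).redInf)
          (hxg : ∀ z ∈ RingHom.ker (nodeSetupNj B M p hp haux.1 hB R hR).redInf, x ∣ εx * z) (hεx : εx ∉ s)
          (hxs : Prime (algebraMap (nodeSetupNj B M p hp haux.1 hB R hR).B (Localization.AtPrime s) x))
          (f : ↥(f0Field B (M * p))), f ≠ 0 →
          (0 ≤ vInf (algebraMap ↥(f0Field B (M * p)) ↥(wpbE0 B (cvcAdj (modularFunctionFieldBar (M * p)) U) hst) f) ↔
            0 ≤ s36_ordAt (algebraMap (nodeSetupNj B M p hp haux.1 hB R hR).B (Localization.AtPrime s) x) hxs f)) ∧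
        (∀ (y εy : (nodeSetupNj B M p hp haux.1 hB R hR).B) (h₂ : RingHom.ker (nodeSetupNj B M p hp haux.1 hB R hR).redZero ≤ s)
          (hy : y ∈ RingHom.ker (nodeSetupNj B M p hp haux.1 hB R hR).redZero)
          (hyg : ∀ z ∈ RingHom.ker (nodeSetupNj B M p hp haux.1 hB R hR).redZero, y ∣ εy * z) (hεy : εy ∉ s)
          (hys : Prime (algebraMap (nodeSetupNj B M p hp haux.1 hB R hR).B (Localization.AtPrime s) y))
          (f : ↥(f0Field B (M * p))), f ≠ 0 →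
          (0 ≤ vZero (algebraMap ↥(f0Field B (M * p)) ↥(wpbE0 B (cvcAdj (modularFunctionFieldBar (M * p)) U) hst) f) ↔
            0 ≤ s36_ordAt (algebraMap (nodeSetupNj B M p hp haux.1 hB R hR).B (Localization.AtPrime s) y) hys f)) := by
  obtain ⟨s₀, hs₀, x₀, y₀, εx₀, εy₀, t₀, h1, h2, h3, h4, h5, h6, h7, h8, h9, h10, h11, h12, h13,
    h14, h15, h16, hufd, hpx, hpy, hnxy, hnyx, hm, hno, hic, hpR, ρ, hρ, hρc, hρz⟩ :=
    wcx_node_inf B M p hp haux.1 hB R hR haux Q₀ hQ₀ hSS₀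
  haveI hsp : s₀.IsPrime := hs₀.isPrime
  haveI := hufd
  exact wpr24_core M' p hp hp2 hpM' B hB S a V hS h2S hVp hEig hNot hnE t htV hω M hdvd haux hM ζ hζ ut hut U hU σY hσK hσF hσU hst hcomm hσfix hσp R hR s₀ hic hpR ρ hρ x₀ y₀ εx₀ εy₀ h1 h2 h3 h4 h5 h6 h7 h8 hpx hpy hnxy hm

set_option maxHeartbeats 4000000 in
/-- **(REF) from a supersingular place of the component `0`.** -/
theorem wpr24_ref_zero (hp : p.Prime) (hp2 : p ≠ 2) (hpM' : ¬ p ∣ M')
    (B : ValuationSubring (AlgebraicClosure ℚ)) (hB : B.LiesOverPrime p)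
    (S : Finset ℕ) (a : ℕ → ℤ) (V : AddSubgroup (JZero (M' * p)))
    (hS : ∀ ℓ : ℕ, ℓ.Prime → ℓ ∣ M' * p → ℓ ∈ S) (h2S : 2 ∈ S)
    (hVp : ∀ x ∈ V, p • x = 0)
    (hEig : S40hEig (M' * p) S a V) (hNot : S40hNotAt M' p S a)
    (hnE : ∃ ℓ : Nat.Primes, (ℓ : ℕ) ∉ S ∧ ¬ (p : ℤ) ∣ a ℓ - (1 + (ℓ : ℕ)))
    (t : JZero (M' * p)) (htV : t ∈ V)
    (hω : ∀ τ ∈ B.inertiaSubgroupIn ℚ, ∃ w : ℕ, τ • t = w • t ∧
      ∀ ξ : Kbar, ξ ^ p = 1 → τ ξ = ξ ^ w)
    (M : ℕ) [NeZero M] [NeZero (M * p)] (hdvd : M' ∣ M) (haux : IsAuxLevel p M)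
    (hM : M = Nat.lcm M' (baseLevel p))
    (ζ : Kbar) (hζ : IsPrimitiveRoot ζ p)
    (ut : modularFunctionFieldBar (M * p))
    (hut : letI : RRBase Kbar (modularFunctionFieldBar (M * p)) := (mod_rrHyp (M * p)).toRRBase
      gdfIsKummer (K := Kbar) p
        (auxLevelPull (M' * p) (M * p) (Nat.mul_dvd_mul_right hdvd p) t) ut)
    (U : LaurentSeries Kbar) (hU : U ^ p = (ut : LaurentSeries Kbar))
    (σY : ↥(cvcAdj (modularFunctionFieldBar (M * p)) U) →+* ↥(cvcAdj (modularFunctionFieldBar (M * p)) U))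
    (hσK : ∀ c : Kbar, σY (algebraMap Kbar ↥(cvcAdj (modularFunctionFieldBar (M * p)) U) c) = algebraMap Kbar ↥(cvcAdj (modularFunctionFieldBar (M * p)) U) c)
    (hσF : ∀ f : modularFunctionFieldBar (M * p),
      σY ⟨(f : LaurentSeries Kbar), cvc_le_adj (modularFunctionFieldBar (M * p)) U f.2⟩ =
        ⟨(f : LaurentSeries Kbar), cvc_le_adj (modularFunctionFieldBar (M * p)) U f.2⟩)
    (hσU : σY ⟨U, cvc_mem_adj (modularFunctionFieldBar (M * p)) U⟩ =
      algebraMap Kbar ↥(cvcAdj (modularFunctionFieldBar (M * p)) U) ζ * ⟨U, cvc_mem_adj (modularFunctionFieldBar (M * p)) U⟩)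
    (hst : ∀ σ ∈ B.inertiaSubgroupIn ℚ, ∀ x ∈ cvcAdj (modularFunctionFieldBar (M * p)) U,
      coeffMap ((σ : Kbar ≃ₐ[ℚ] Kbar) : Kbar →+* Kbar) x ∈
        cvcAdj (modularFunctionFieldBar (M * p)) U)
    (hcomm : ∀ (σ : Kbar ≃ₐ[ℚ] Kbar) (hσ : σ ∈ B.inertiaSubgroupIn ℚ) (z : ↥(cvcAdj (modularFunctionFieldBar (M * p)) U)),
      σY (wlcTau (B.inertiaSubgroupIn ℚ) (cvcAdj (modularFunctionFieldBar (M * p)) U) hst σ hσ z) =
        wlcTau (B.inertiaSubgroupIn ℚ) (cvcAdj (modularFunctionFieldBar (M * p)) U) hst σ hσ (σY z))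
    (hσfix : ∀ y : ↥(cvcAdj (modularFunctionFieldBar (M * p)) U), σY y = y →
      (y : LaurentSeries Kbar) ∈ modularFunctionFieldBar (M * p))
    (hσp : ∀ y : ↥(cvcAdj (modularFunctionFieldBar (M * p)) U), σY^[p] y = y)
    (R : ConstRed B (IsLocalRing.residue B)
      (↥(modularFunctionFieldFullC (IsLocalRing.ResidueField B) M)) (FF (M * p)))
    (hR : IsSeriesRed R)
    (Q₀ : Place (IsLocalRing.ResidueField B) (Fk (IsLocalRing.ResidueField B) M))
    (hQ₀ : 0 ≤ Q₀.ord (jk (IsLocalRing.ResidueField B) M))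
    (hSS₀ : ∀ z ∈ (nodeSetupNj B M p hp haux.1 hB R hR).pInf, (nodeSetupNj B M p hp haux.1 hB R hR).redZero z = 0 ∨ 0 < Q₀.ord ((nodeSetupNj B M p hp haux.1 hB R hR).redZero z)) :
    ∃ vInf vZero : ↥(wpbE0 B (cvcAdj (modularFunctionFieldBar (M * p)) U) hst) → ℤ,
      G2cOrd vInf ∧ (∃ z : ↥(wpbE0 B (cvcAdj (modularFunctionFieldBar (M * p)) U) hst), z ≠ 0 ∧ vInf z = 1) ∧
      G2cOrd vZero ∧ (∃ z : ↥(wpbE0 B (cvcAdj (modularFunctionFieldBar (M * p)) U) hst), z ≠ 0 ∧ vZero z = 1) ∧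
      ∀ (s : Ideal (nodeSetupNj B M p hp haux.1 hB R hR).B) [hs : s.IsPrime]
        [UniqueFactorizationMonoid (Localization.AtPrime s)],
        letI iRF := wpbAlgF0 B (M * p) (nodeSetupNj B M p hp haux.1 hB R hR).B s
        letI iFE0 := wpbAlgF0E0 B (M * p) (cvcAdj (modularFunctionFieldBar (M * p)) U) (cvc_le_adj (modularFunctionFieldBar (M * p)) U) hst
        haveI hfr : IsFractionRing (Localization.AtPrime s) ↥(f0Field B (M * p)) :=
          wpb_frac B (M * p) (nodeSetupNj B M p hp haux.1 hB R hR).B s (cri_hfrac_Nj B M p hp haux.1 hB R hR)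
        (∀ (x εx : (nodeSetupNj B M p hp haux.1 hB R hR).B) (h₁ : RingHom.ker (nodeSetupNj B M p hp haux.1 hB R hR).redInf ≤ s)
          (hx : x ∈ RingHom.ker (nodeSetupNj B M p hp haux.1 hB R hR).redInf)
          (hxg : ∀ z ∈ RingHom.ker (nodeSetupNj B M p hp haux.1 hB R hR).redInf, x ∣ εx * z) (hεx : εx ∉ s)
          (hxs : Prime (algebraMap (nodeSetupNj B M p hp haux.1 hB R hR).B (Localization.AtPrime s) x))
          (f : ↥(f0Field B (M * p))), f ≠ 0 →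
          (0 ≤ vInf (algebraMap ↥(f0Field B (M * p)) ↥(wpbE0 B (cvcAdj (modularFunctionFieldBar (M * p)) U) hst) f) ↔
            0 ≤ s36_ordAt (algebraMap (nodeSetupNj B M p hp haux.1 hB R hR).B (Localization.AtPrime s) x) hxs f)) ∧
        (∀ (y εy : (nodeSetupNj B M p hp haux.1 hB R hR).B) (h₂ : RingHom.ker (nodeSetupNj B M p hp haux.1 hB R hR).redZero ≤ s)
          (hy : y ∈ RingHom.ker (nodeSetupNj B M p hp haux.1 hB R hR).redZero)
          (hyg : ∀ z ∈ RingHom.ker (nodeSetupNj B M p hp haux.1 hB R hR).redZero, y ∣ εy * z) (hεy : εy ∉ s)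
          (hys : Prime (algebraMap (nodeSetupNj B M p hp haux.1 hB R hR).B (Localization.AtPrime s) y))
          (f : ↥(f0Field B (M * p))), f ≠ 0 →
          (0 ≤ vZero (algebraMap ↥(f0Field B (M * p)) ↥(wpbE0 B (cvcAdj (modularFunctionFieldBar (M * p)) U) hst) f) ↔
            0 ≤ s36_ordAt (algebraMap (nodeSetupNj B M p hp haux.1 hB R hR).B (Localization.AtPrime s) y) hys f)) := by
  obtain ⟨s₀, hs₀, x₀, y₀, εx₀, εy₀, t₀, h1, h2, h3, h4, h5, h6, h7, h8, h9, h10, h11, h12, h13,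
    h14, h15, h16, hufd, hpx, hpy, hnxy, hnyx, hm, hno, hic, hpR, ρ, hρ, hρc, hρz⟩ :=
    wcx_node_zero B M p hp haux.1 hB R hR haux Q₀ hQ₀ hSS₀
  haveI hsp : s₀.IsPrime := hs₀.isPrime
  haveI := hufd
  have hm' : IsLocalRing.maximalIdeal (Localization.AtPrime s₀) =
      Ideal.span {algebraMap (nodeSetupNj B M p hp haux.1 hB R hR).B (Localization.AtPrime s₀) y₀,
        algebraMap (nodeSetupNj B M p hp haux.1 hB R hR).B (Localization.AtPrime s₀) x₀} := by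
    rw [hm, Set.pair_comm]
  exact wpr24_core M' p hp hp2 hpM' B hB S a V hS h2S hVp hEig hNot hnE t htV hω M hdvd haux hM ζ hζ ut hut U hU σY hσK hσF hσU hst hcomm hσfix hσp R hR s₀ hic hpR ρ hρ y₀ x₀ εy₀ εx₀ h2 h1 h6 h7 h8 h3 h4 h5 hpy hpx hnyx hm'

end Ref24

end Fermat.Agent.S40lib

end
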