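import Mathlib
import Fermat.Agent.S36lib.Speed
import Fermat.Agent.S40lib.WildPtSplit
import Fermat.Agent.S40lib.WildPtBS
import Fermat.Agent.S40lib.ZStage3
import Fermat.Agent.S40lib.WindcCoCtx
import Fermat.Agent.S40lib.WildPtPhi
import Fermat.Agent.S40lib.WildPtHV
import Fermat.Agent.S40lib.WindcK3
import Fermat.Agent.S40lib.WildPtE
import Fermat.Agent.S40lib.WindcF
import Fermat.Agent.S40lib.WindcF2
import Fermat.Agent.S40lib.WindcX2
import Fermat.Agent.S40lib.WindcPtTr28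
import Fermat.Agent.S40lib.DeckInst2
import Fermat.Agent.S40lib.HgenCtx

/-!
# Item 88 (S44), block (J-WILD), Layer B: the smooth monoliths (helper16, backup)

`wps16_inf : S44jPtSmInf`, assembled from the landed providers.
-/

set_option autoImplicit false
set_option linter.style.haveILetI false
set_option linter.unusedSectionVars false
set_option linter.unusedVariables false
set_option synthInstance.maxHeartbeats 400000
set_option maxHeartbeats 4000000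

noncomputable section

namespace Fermat.Agent.S40lib

open Fermat.Agent.GalRep ModularCurve AlgebraicCurve Fermat.Agent.S31lib Fermat.Agent.S35lib
  Fermat.Agent.S33lib Fermat.Agent.S36lib Fermat.Agent.S24lib Fermat.Agent.S34lib
  Fermat.Agent.RRlib Fermat.Agent.GoodRed Fermat.Agent.S18lib Fermat.Agent.GM
  Fermat.Agent.HeckeBar HahnSeries IsLocalRing


theorem wps16_inf (M' p : ℕ) [NeZero M'] [NeZero p] [NeZero (M' * p)] (hp : p.Prime)
    (hp2 : p ≠ 2) (hpM' : ¬ p ∣ M')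
    (B : ValuationSubring (AlgebraicClosure ℚ)) (hB : B.LiesOverPrime p) :
    S44jPtSmInf M' p hp B hB := by
  intro S a V hS h2S hcard hVp hGal hEig hNot hnE x hxV hx0 hτ0 t htV ht0 hIt hω M e iM iMp hdvd
    haux hM hMe hψ ζ hζ ux ut hux hut U hU σY hσ rt κ u g hκ0 hrt0 hrt hκfix hxrt hu0 hg0 huI hgI
    hσu hrelu n hv R hR hσ₁ Q hQ hnSS

  classical
  obtain ⟨hσK, hσF, hσU, hσI, hσfix, hσp⟩ := hσ
  have hst : ∀ σ ∈ (B.inertiaSubgroupIn ℚ), ∀ z ∈ (cvcAdj (modularFunctionFieldBar (M * p)) U),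
      coeffMap ((σ : Kbar ≃ₐ[ℚ] Kbar) : Kbar →+* Kbar) z ∈ (cvcAdj (modularFunctionFieldBar (M * p)) U) :=
    fun σ hσ z hz => (hσI σ hσ ⟨z, hz⟩).1
  have hcomm : ∀ (σ : Kbar ≃ₐ[ℚ] Kbar) (hσ : σ ∈ (B.inertiaSubgroupIn ℚ))
      (z : ↥(cvcAdj (modularFunctionFieldBar (M * p)) U)),
      σY (wlcTau (B.inertiaSubgroupIn ℚ) (cvcAdj (modularFunctionFieldBar (M * p)) U) hst σ hσ z) =
        wlcTau (B.inertiaSubgroupIn ℚ) (cvcAdj (modularFunctionFieldBar (M * p)) U) hst σ hσ (σY z) := by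
    intro σ hσ' z
    obtain ⟨hz, hz', h⟩ := hσI σ hσ' z
    exact h
  -- the X-side package (helper12)
  obtain ⟨s, hs, εx, y, h₁, hx, hxg, hεx, hmem, hord0, hws, hys', hy0, hwy, hufd, hxs, hyx, hm,
    hnoeth, hic, hpR, ρ, hρ, hρc, hρz⟩ :=
    wcx_smooth_inf B M p hp haux.1 hB R hR haux Q hQ
      (wcx_hNS_inf B M p hp haux.1 hB R hR Q hQ hnSS)
  haveI hsp : s.IsPrime := hs.isPrime
  haveI := hufd
  haveI : IsAlgClosed (IsLocalRing.ResidueField B) := isAlgClosed_residueField B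
  haveI : IsNoetherianRing (nodeSetupNj B M p hp haux.1 hB R hR).B :=
    (r1c_noeth_frac B M p hp haux.1 hB R hR
      (fun z h1 h3 => w2j_rgnSum B M p hp haux.1 hB R hR z h1 h3)).1
  have hwQ : ∀ a b : Fk (IsLocalRing.ResidueField B) M, a ≠ 0 → b ≠ 0 →
      Q.ord (a * b) = Q.ord a + Q.ord b := fun a b ha hb => Q.ord_mul ha hb
  have hfrac := cri_hfrac_Nj B M p hp haux.1 hB R hR
  have hq := wcx_hq_Nj B M p hp haux.1 hB R hR s
  -- group (C) (helper9)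
  obtain ⟨z₀, cc, hz, hσpz, hσR, hdesc, hc, hcong, hgen₀⟩ :=
    zsg_ctx M' p hp hp2 hpM' B hB S a V hS h2S hVp hEig hNot hnE t htV hω M hdvd haux hM ζ hζ
      ut hut U hU σY hσK hσF hσU hst hcomm hσfix hσp R hR s hic hpR
  obtain ⟨-, -, hdescE, -⟩ :=
    cri_inputs_Nj B M p hp haux.1 hB R hR (cvcAdj (modularFunctionFieldBar (M * p)) U) (cvc_le_adj (modularFunctionFieldBar (M * p)) U) s hic hst σY hσF hσfix
  have h1p : 1 ∈ Finset.Ico 1 p := Finset.mem_Ico.mpr ⟨le_rfl, hp.one_lt⟩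
  have hcong1 := hcong 1 h1p
  simp only [Function.iterate_one, Nat.cast_one, map_one] at hcong1
  have hzne := hgc_sigma_ne B (M * p) (cvcAdj (modularFunctionFieldBar (M * p)) U) (cvc_le_adj (modularFunctionFieldBar (M * p)) U) hst (nodeSetupNj B M p hp haux.1 hB R hR).B s σY hcomm hfrac hp hpR hζ hdescE z₀
    (cc 1) (hc 1 h1p) hcong1
  have hgenE := wph_hgenE B (M * p) (cvcAdj (modularFunctionFieldBar (M * p)) U) (cvc_le_adj (modularFunctionFieldBar (M * p)) U) hst hp σY hσF hσfix hσp z₀ hzne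
  -- (E)
  obtain ⟨σ₁, hσ₁m, hσ₁x, -⟩ := hσ₁
  have hσrt : σ₁ rt ≠ rt := fun h0 => hσ₁x ((hxrt σ₁ hσ₁m.1).mpr h0)
  have hmove : ∃ τ ∈ S40hI1 p B, τ rt ≠ rt := ⟨σ₁, hσ₁m, hσrt⟩
  obtain ⟨ε0, a0, η, aE, mθ, π1K, θK, mθK, hε0fix, hafix, hε0A, hε0iA, hε00, haA, haiA, ha0, hηdef,
    haEdef, hη, hmθ, hπθ, hθ0, hπ1m, hθA, hθiA, hmθA, hπ1φ, hθφ, hmφ⟩ :=
    wpe_inst B (M * p) hp hB κ rt hκ0 hrt hκfix n hv hmove (wppPhi (M * p) (cvcAdj (modularFunctionFieldBar (M * p)) U) (cvc_le_adj (modularFunctionFieldBar (M * p)) U))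
  obtain ⟨⟨hπ1F, hπ1red⟩, hθF, hθF', hmF⟩ :=
    wpe_red (M * p) R π1K θK mθK hπ1m hθA hθiA hmθA
  -- (Co)
  letI iRR : RRBase Kbar (modularFunctionFieldBar (M * p)) := (mod_rrHyp (M * p)).toRRBase
  have hp0 : (p : Kbar) ≠ 0 := Nat.cast_ne_zero.mpr hp.ne_zero
  have hd0 : (p : Kbar) ^ n * ε0 ≠ 0 := mul_ne_zero (zpow_ne_zero n hp0) hε00
  have haH : ∀ τ ∈ (B.inertiaSubgroupIn ℚ), τ (((p : Kbar) ^ n * ε0)⁻¹) =
      ((p : Kbar) ^ n * ε0)⁻¹ := by
    intro τ hτ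
    rw [map_inv₀, map_mul, map_zpow₀, map_natCast, hε0fix τ hτ]
  have hbH : ∀ τ ∈ (B.inertiaSubgroupIn ℚ), τ (-1 : Kbar) = -1 := by
    intro τ _
    rw [map_neg, map_one]
  have hrtp : ∀ τ ∈ (B.inertiaSubgroupIn ℚ), τ (rt ^ p) = rt ^ p := by
    intro τ hτ
    rw [hrt]
    exact hκfix τ hτ
  have hSt' : ∀ τ ∈ (B.inertiaSubgroupIn ℚ), τ rt = rt → τ • (auxLevelPull (M' * p) (M * p) (Nat.mul_dvd_mul_right hdvd p) x) = (auxLevelPull (M' * p) (M * p) (Nat.mul_dvd_mul_right hdvd p) x) := by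
    intro τ hτ hτrt
    rw [← auxLevelPull_smul, (hxrt τ hτ).mpr hτrt]
  obtain ⟨cK, hE, hcK0, hE0, hrelL⟩ := hrelu
  have hπ1E : η - 1 = algebraMap Kbar ↥(cvcAdj (modularFunctionFieldBar (M * p)) U) (((p : Kbar) ^ n * ε0)⁻¹ * rt + (-1)) := by
    rw [hηdef, map_add, map_neg, map_one, div_eq_mul_inv, mul_comm rt, sub_eq_add_neg]
  obtain ⟨u1, ae, au, ah, hk1, hae, hau, hah, hrelE, hu1⟩ :=
    wcy_pkg B M p hp haux.1 hB R hR (cvcAdj (modularFunctionFieldBar (M * p)) U) (cvc_le_adj (modularFunctionFieldBar (M * p)) U) s hζ hux hst hrt0 hrtp hSt' σ₁ hσ₁m.1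
      (hσ₁m.2 ζ hζ.pow_eq_one) hσrt (((p : Kbar) ^ n * ε0)⁻¹) (-1) (inv_ne_zero hd0) haH hbH
      u hE hcK0 hE0 hrelL huI (η - 1) hπ1E
  -- the per-point statement for `u1`
  have hu1ne : u1 ≠ 0 := hk1.1
  refine wpt28_transfer0 R hux hk1 Q ?_
  intro c₁ h2 h20
  letI iRE := criAlg B (M * p) (cvcAdj (modularFunctionFieldBar (M * p)) U) (cvc_le_adj (modularFunctionFieldBar (M * p)) U) (nodeSetupNj B M p hp haux.1 hB R hR).B s
  letI iRF := wpbAlgF0 B (M * p) (nodeSetupNj B M p hp haux.1 hB R hR).B s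
  letI iRE0 := wpbAlgE0 B (M * p) (cvcAdj (modularFunctionFieldBar (M * p)) U) (cvc_le_adj (modularFunctionFieldBar (M * p)) U) hst (nodeSetupNj B M p hp haux.1 hB R hR).B s
  letI iFE0 := wpbAlgF0E0 B (M * p) (cvcAdj (modularFunctionFieldBar (M * p)) U) (cvc_le_adj (modularFunctionFieldBar (M * p)) U) hst
  letI iKE0 := wpbAlgK0E0 B (M * p) (cvcAdj (modularFunctionFieldBar (M * p)) U) (cvc_le_adj (modularFunctionFieldBar (M * p)) U) hst
  letI iKE := wpbAlgK0E B (cvcAdj (modularFunctionFieldBar (M * p)) U)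
  have hinjR : Function.Injective (algebraMap (Localization.AtPrime s) ↥(wpbE0 B (cvcAdj (modularFunctionFieldBar (M * p)) U) hst)) := by
    intro a' b' hab
    exact hgc_hinj B (M * p) (cvcAdj (modularFunctionFieldBar (M * p)) U) (cvc_le_adj (modularFunctionFieldBar (M * p)) U) (nodeSetupNj B M p hp haux.1 hB R hR).B s hfrac (congrArg Subtype.val hab)
  haveI : Nontrivial (Algebra.adjoin (Localization.AtPrime s) ({z₀} : Set ↥(wpbE0 B (cvcAdj (modularFunctionFieldBar (M * p)) U) hst))) :=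
    inferInstance
  obtain ⟨𝔫, h𝔫⟩ := Ideal.exists_maximal
    (Algebra.adjoin (Localization.AtPrime s) ({z₀} : Set ↥(wpbE0 B (cvcAdj (modularFunctionFieldBar (M * p)) U) hst)))
  have hζ' : IsPrimitiveRoot (algebraMap Kbar ↥(cvcAdj (modularFunctionFieldBar (M * p)) U) ζ) p :=
    hζ.map_of_injective (algebraMap Kbar ↥(cvcAdj (modularFunctionFieldBar (M * p)) U)).injective
  have hu₀ : (⟨u, dki_mem B (cvcAdj (modularFunctionFieldBar (M * p)) U) hst u huI⟩ : ↥(wpbE0 B (cvcAdj (modularFunctionFieldBar (M * p)) U) hst)) ≠ 0 :=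
    fun h => hu0 (congrArg Subtype.val h)
  have hUmem : U ^ p ∈ modularFunctionFieldBar (M * p) := by
    rw [hU]
    exact ut.2
  have hxp : ((p : ℕ) : Localization.AtPrime s) =
      ((1 : (Localization.AtPrime s)ˣ) : Localization.AtPrime s) *
        algebraMap (nodeSetupNj B M p hp haux.1 hB R hR).B (Localization.AtPrime s) ((nodeSetupNj B M p hp haux.1 hB R hR).constB (p : k0Val B)) := by
    rw [Units.val_one, one_mul, hq]
  have haK : aE ∈ g2wUK (wcyJE B M p hp haux.1 hB R hR (cvcAdj (modularFunctionFieldBar (M * p)) U) (cvc_le_adj (modularFunctionFieldBar (M * p)) U) s) (wcfIsC (nodeSetupNj B M p hp haux.1 hB R hR)) := by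
    rw [haEdef]
    exact wck2_haK B (M * p) (nodeSetupNj B M p hp haux.1 hB R hR) (wppPhi (M * p) (cvcAdj (modularFunctionFieldBar (M * p)) U) (cvc_le_adj (modularFunctionFieldBar (M * p)) U))
      (wcyJE B M p hp haux.1 hB R hR (cvcAdj (modularFunctionFieldBar (M * p)) U) (cvc_le_adj (modularFunctionFieldBar (M * p)) U) s)
      (fun b => wcy_hφj B M p hp haux.1 hB R hR (cvcAdj (modularFunctionFieldBar (M * p)) U) (cvc_le_adj (modularFunctionFieldBar (M * p)) U) s b) a0 hafix haA haiA ha0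
  exact wpbs_call_smooth B (M * p) (cvcAdj (modularFunctionFieldBar (M * p)) U) (cvc_le_adj (modularFunctionFieldBar (M * p)) U) hst (nodeSetupNj B M p hp haux.1 hB R hR).B s p hp hB hfrac
    (nodeSetupNj B M p hp haux.1 hB R hR).redInf h₁ ((nodeSetupNj B M p hp haux.1 hB R hR).constB (p : k0Val B)) εx y hx hxg hεx hm Q.ord hwQ hord0 hws hy0 hwy hxs hyx
    1 hxp ρ hρ hinjR hpR
    (cve0Iota (R := Localization.AtPrime s) (cve0cT (B.inertiaSubgroupIn ℚ) (cvcAdj (modularFunctionFieldBar (M * p)) U) hst)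
      (cve0c_hR (B.inertiaSubgroupIn ℚ) (cvcAdj (modularFunctionFieldBar (M * p)) U) hst (wpb_hRfix B (M * p) (cvcAdj (modularFunctionFieldBar (M * p)) U) (cvc_le_adj (modularFunctionFieldBar (M * p)) U) hst (nodeSetupNj B M p hp haux.1 hB R hR).B s)))
    (fun e => rfl) (cve0Sigma (cve0cT (B.inertiaSubgroupIn ℚ) (cvcAdj (modularFunctionFieldBar (M * p)) U) hst) σY (cve0c_hcomm (B.inertiaSubgroupIn ℚ) (cvcAdj (modularFunctionFieldBar (M * p)) U) hst σY hcomm)) z₀ hz hσpz hσR hdesc (algebraMap Kbar ↥(cvcAdj (modularFunctionFieldBar (M * p)) U) ζ) hζ' cc hc hcong hgen₀ 𝔫 h𝔫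
    ⟨u, dki_mem B (cvcAdj (modularFunctionFieldBar (M * p)) U) hst u huI⟩ hu₀ hgenE (wppPhi (M * p) (cvcAdj (modularFunctionFieldBar (M * p)) U) (cvc_le_adj (modularFunctionFieldBar (M * p)) U))
    (wpp_hphi (M * p) U hp.pos hUmem) (auxLevelPull (M' * p) (M * p) (Nat.mul_dvd_mul_right hdvd p) x) ux hux hE cK
    (wpp_hrelu B (M * p) (cvcAdj (modularFunctionFieldBar (M * p)) U) (cvc_le_adj (modularFunctionFieldBar (M * p)) U) hst p ⟨u, dki_mem B (cvcAdj (modularFunctionFieldBar (M * p)) U) hst u huI⟩ ux hE cK hrelL)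
    (wppIotaA B (M * p) (nodeSetupNj B M p hp haux.1 hB R hR).B s (nodeSetupNj B M p hp haux.1 hB R hR).constB)
    (wpp_hcompatA B (M * p) (cvcAdj (modularFunctionFieldBar (M * p)) U) (cvc_le_adj (modularFunctionFieldBar (M * p)) U) hst (nodeSetupNj B M p hp haux.1 hB R hR).B s (nodeSetupNj B M p hp haux.1 hB R hR).constB (fun a => rfl))
    ((p : ℕ) : k0Val B) (wpp_hpiA B hB) 1 (wpp_hpA B (M * p) (nodeSetupNj B M p hp haux.1 hB R hR).B s (nodeSetupNj B M p hp haux.1 hB R hR).constB p)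
    η aE mθ hη hmθ hπθ hθ0
    (wcyJE B M p hp haux.1 hB R hR (cvcAdj (modularFunctionFieldBar (M * p)) U) (cvc_le_adj (modularFunctionFieldBar (M * p)) U) s) (fun b => rfl) (wcfIsC (nodeSetupNj B M p hp haux.1 hB R hR))
    (wcf_isC_mul (nodeSetupNj B M p hp haux.1 hB R hR)) (fun n hn => wcf_hC_inf (nodeSetupNj B M p hp haux.1 hB R hR) Q n hn) haK
    ae au ah hae hau hah (hrelE ⟨u, dki_mem B (cvcAdj (modularFunctionFieldBar (M * p)) U) hst u huI⟩ rfl)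
    (wcfJ B M p hp haux.1 hB R hR) (wcy_hφj B M p hp haux.1 hB R hR (cvcAdj (modularFunctionFieldBar (M * p)) U) (cvc_le_adj (modularFunctionFieldBar (M * p)) U) s)
    R.O R.red (wcf_hjO B M p hp haux.1 hB R hR) (wcf_hjred B M p hp haux.1 hB R hR)
    (wcf_hOFinv R) (wcf_hconst R Q)
    π1K θK mθK hπ1F hπ1red hπ1φ hθF hθφ hθF' hmF hmφ u1 hu1 c₁ h2 h20

theorem wps16_zero (M' p : ℕ) [NeZero M'] [NeZero p] [NeZero (M' * p)] (hp : p.Prime)
    (hp2 : p ≠ 2) (hpM' : ¬ p ∣ M')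
    (B : ValuationSubring (AlgebraicClosure ℚ)) (hB : B.LiesOverPrime p) :
    S44jPtSmZero M' p hp B hB := by
  intro S a V hS h2S hcard hVp hGal hEig hNot hnE x hxV hx0 hτ0 t htV ht0 hIt hω M e iM iMp hdvd
    haux hM hMe hψ ζ hζ ux ut hux hut U hU σY hσ rt κ u g hκ0 hrt0 hrt hκfix hxrt hu0 hg0 huI hgI
    hσu hrelu n hv R hR hσ₁ Q hQ hnSS

  classical
  obtain ⟨hσK, hσF, hσU, hσI, hσfix, hσp⟩ := hσ
  have hst : ∀ σ ∈ (B.inertiaSubgroupIn ℚ), ∀ z ∈ (cvcAdj (modularFunctionFieldBar (M * p)) U),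
      coeffMap ((σ : Kbar ≃ₐ[ℚ] Kbar) : Kbar →+* Kbar) z ∈ (cvcAdj (modularFunctionFieldBar (M * p)) U) :=
    fun σ hσ z hz => (hσI σ hσ ⟨z, hz⟩).1
  have hcomm : ∀ (σ : Kbar ≃ₐ[ℚ] Kbar) (hσ : σ ∈ (B.inertiaSubgroupIn ℚ))
      (z : ↥(cvcAdj (modularFunctionFieldBar (M * p)) U)),
      σY (wlcTau (B.inertiaSubgroupIn ℚ) (cvcAdj (modularFunctionFieldBar (M * p)) U) hst σ hσ z) =
        wlcTau (B.inertiaSubgroupIn ℚ) (cvcAdj (modularFunctionFieldBar (M * p)) U) hst σ hσ (σY z) := by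
    intro σ hσ' z
    obtain ⟨hz, hz', h⟩ := hσI σ hσ' z
    exact h
  -- the X-side package (helper12)
  obtain ⟨s, hs, εx, y, h₁, hx, hxg, hεx, hmem, hord0, hws, hys', hy0, hwy, hufd, hxs, hyx, hm,
    hnoeth, hic, hpR, ρ, hρ, hρc, hρz⟩ :=
    wcx_smooth_zero B M p hp haux.1 hB R hR haux Q hQ
      (wcx_hNS_zero B M p hp haux.1 hB R hR Q hQ hnSS)
  haveI hsp : s.IsPrime := hs.isPrime
  haveI := hufd
  haveI : IsAlgClosed (IsLocalRing.ResidueField B) := isAlgClosed_residueField B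
  haveI : IsNoetherianRing (nodeSetupNj B M p hp haux.1 hB R hR).B :=
    (r1c_noeth_frac B M p hp haux.1 hB R hR
      (fun z h1 h3 => w2j_rgnSum B M p hp haux.1 hB R hR z h1 h3)).1
  have hwQ : ∀ a b : Fk (IsLocalRing.ResidueField B) M, a ≠ 0 → b ≠ 0 →
      Q.ord (a * b) = Q.ord a + Q.ord b := fun a b ha hb => Q.ord_mul ha hb
  have hfrac := cri_hfrac_Nj B M p hp haux.1 hB R hR
  have hq := wcx_hq_Nj B M p hp haux.1 hB R hR s
  -- group (C) (helper9)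
  obtain ⟨z₀, cc, hz, hσpz, hσR, hdesc, hc, hcong, hgen₀⟩ :=
    zsg_ctx M' p hp hp2 hpM' B hB S a V hS h2S hVp hEig hNot hnE t htV hω M hdvd haux hM ζ hζ
      ut hut U hU σY hσK hσF hσU hst hcomm hσfix hσp R hR s hic hpR
  obtain ⟨-, -, hdescE, -⟩ :=
    cri_inputs_Nj B M p hp haux.1 hB R hR (cvcAdj (modularFunctionFieldBar (M * p)) U) (cvc_le_adj (modularFunctionFieldBar (M * p)) U) s hic hst σY hσF hσfix
  have h1p : 1 ∈ Finset.Ico 1 p := Finset.mem_Ico.mpr ⟨le_rfl, hp.one_lt⟩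
  have hcong1 := hcong 1 h1p
  simp only [Function.iterate_one, Nat.cast_one, map_one] at hcong1
  have hzne := hgc_sigma_ne B (M * p) (cvcAdj (modularFunctionFieldBar (M * p)) U) (cvc_le_adj (modularFunctionFieldBar (M * p)) U) hst (nodeSetupNj B M p hp haux.1 hB R hR).B s σY hcomm hfrac hp hpR hζ hdescE z₀
    (cc 1) (hc 1 h1p) hcong1
  have hgenE := wph_hgenE B (M * p) (cvcAdj (modularFunctionFieldBar (M * p)) U) (cvc_le_adj (modularFunctionFieldBar (M * p)) U) hst hp σY hσF hσfix hσp z₀ hzne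
  -- (E)
  obtain ⟨σ₁, hσ₁m, hσ₁x, -⟩ := hσ₁
  have hσrt : σ₁ rt ≠ rt := fun h0 => hσ₁x ((hxrt σ₁ hσ₁m.1).mpr h0)
  have hmove : ∃ τ ∈ S40hI1 p B, τ rt ≠ rt := ⟨σ₁, hσ₁m, hσrt⟩
  obtain ⟨ε0, a0, η, aE, mθ, π1K, θK, mθK, hε0fix, hafix, hε0A, hε0iA, hε00, haA, haiA, ha0, hηdef,
    haEdef, hη, hmθ, hπθ, hθ0, hπ1m, hθA, hθiA, hmθA, hπ1φ, hθφ, hmφ⟩ :=
    wpe_inst B (M * p) hp hB κ rt hκ0 hrt hκfix n hv hmove (wppPhi (M * p) (cvcAdj (modularFunctionFieldBar (M * p)) U) (cvc_le_adj (modularFunctionFieldBar (M * p)) U))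
  obtain ⟨⟨hπ1F, hπ1red⟩, hθF, hθF', hmF⟩ :=
    wpe_red (M * p) (glmZero M p hp haux.1 R) π1K θK mθK hπ1m hθA hθiA hmθA
  -- (Co)
  letI iRR : RRBase Kbar (modularFunctionFieldBar (M * p)) := (mod_rrHyp (M * p)).toRRBase
  have hp0 : (p : Kbar) ≠ 0 := Nat.cast_ne_zero.mpr hp.ne_zero
  have hd0 : (p : Kbar) ^ n * ε0 ≠ 0 := mul_ne_zero (zpow_ne_zero n hp0) hε00
  have haH : ∀ τ ∈ (B.inertiaSubgroupIn ℚ), τ (((p : Kbar) ^ n * ε0)⁻¹) =
      ((p : Kbar) ^ n * ε0)⁻¹ := by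
    intro τ hτ
    rw [map_inv₀, map_mul, map_zpow₀, map_natCast, hε0fix τ hτ]
  have hbH : ∀ τ ∈ (B.inertiaSubgroupIn ℚ), τ (-1 : Kbar) = -1 := by
    intro τ _
    rw [map_neg, map_one]
  have hrtp : ∀ τ ∈ (B.inertiaSubgroupIn ℚ), τ (rt ^ p) = rt ^ p := by
    intro τ hτ
    rw [hrt]
    exact hκfix τ hτ
  have hSt' : ∀ τ ∈ (B.inertiaSubgroupIn ℚ), τ rt = rt → τ • (auxLevelPull (M' * p) (M * p) (Nat.mul_dvd_mul_right hdvd p) x) = (auxLevelPull (M' * p) (M * p) (Nat.mul_dvd_mul_right hdvd p) x) := by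
    intro τ hτ hτrt
    rw [← auxLevelPull_smul, (hxrt τ hτ).mpr hτrt]
  obtain ⟨cK, hE, hcK0, hE0, hrelL⟩ := hrelu
  have hπ1E : η - 1 = algebraMap Kbar ↥(cvcAdj (modularFunctionFieldBar (M * p)) U) (((p : Kbar) ^ n * ε0)⁻¹ * rt + (-1)) := by
    rw [hηdef, map_add, map_neg, map_one, div_eq_mul_inv, mul_comm rt, sub_eq_add_neg]
  obtain ⟨u1, ae, au, ah, hk1, hae, hau, hah, hrelE, hu1⟩ :=
    wcy_pkg B M p hp haux.1 hB R hR (cvcAdj (modularFunctionFieldBar (M * p)) U) (cvc_le_adj (modularFunctionFieldBar (M * p)) U) s hζ hux hst hrt0 hrtp hSt' σ₁ hσ₁m.1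
      (hσ₁m.2 ζ hζ.pow_eq_one) hσrt (((p : Kbar) ^ n * ε0)⁻¹) (-1) (inv_ne_zero hd0) haH hbH
      u hE hcK0 hE0 hrelL huI (η - 1) hπ1E
  -- the per-point statement for `u1`
  have hu1ne : u1 ≠ 0 := hk1.1
  refine wpt28_transfer0 (glmZero M p hp haux.1 R) hux hk1 Q ?_
  intro c₁ h2 h20
  letI iRE := criAlg B (M * p) (cvcAdj (modularFunctionFieldBar (M * p)) U) (cvc_le_adj (modularFunctionFieldBar (M * p)) U) (nodeSetupNj B M p hp haux.1 hB R hR).B s
  letI iRF := wpbAlgF0 B (M * p) (nodeSetupNj B M p hp haux.1 hB R hR).B s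
  letI iRE0 := wpbAlgE0 B (M * p) (cvcAdj (modularFunctionFieldBar (M * p)) U) (cvc_le_adj (modularFunctionFieldBar (M * p)) U) hst (nodeSetupNj B M p hp haux.1 hB R hR).B s
  letI iFE0 := wpbAlgF0E0 B (M * p) (cvcAdj (modularFunctionFieldBar (M * p)) U) (cvc_le_adj (modularFunctionFieldBar (M * p)) U) hst
  letI iKE0 := wpbAlgK0E0 B (M * p) (cvcAdj (modularFunctionFieldBar (M * p)) U) (cvc_le_adj (modularFunctionFieldBar (M * p)) U) hst
  letI iKE := wpbAlgK0E B (cvcAdj (modularFunctionFieldBar (M * p)) U)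
  have hinjR : Function.Injective (algebraMap (Localization.AtPrime s) ↥(wpbE0 B (cvcAdj (modularFunctionFieldBar (M * p)) U) hst)) := by
    intro a' b' hab
    exact hgc_hinj B (M * p) (cvcAdj (modularFunctionFieldBar (M * p)) U) (cvc_le_adj (modularFunctionFieldBar (M * p)) U) (nodeSetupNj B M p hp haux.1 hB R hR).B s hfrac (congrArg Subtype.val hab)
  haveI : Nontrivial (Algebra.adjoin (Localization.AtPrime s) ({z₀} : Set ↥(wpbE0 B (cvcAdj (modularFunctionFieldBar (M * p)) U) hst))) :=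
    inferInstance
  obtain ⟨𝔫, h𝔫⟩ := Ideal.exists_maximal
    (Algebra.adjoin (Localization.AtPrime s) ({z₀} : Set ↥(wpbE0 B (cvcAdj (modularFunctionFieldBar (M * p)) U) hst)))
  have hζ' : IsPrimitiveRoot (algebraMap Kbar ↥(cvcAdj (modularFunctionFieldBar (M * p)) U) ζ) p :=
    hζ.map_of_injective (algebraMap Kbar ↥(cvcAdj (modularFunctionFieldBar (M * p)) U)).injective
  have hu₀ : (⟨u, dki_mem B (cvcAdj (modularFunctionFieldBar (M * p)) U) hst u huI⟩ : ↥(wpbE0 B (cvcAdj (modularFunctionFieldBar (M * p)) U) hst)) ≠ 0 :=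
    fun h => hu0 (congrArg Subtype.val h)
  have hUmem : U ^ p ∈ modularFunctionFieldBar (M * p) := by
    rw [hU]
    exact ut.2
  have hxp : ((p : ℕ) : Localization.AtPrime s) =
      ((1 : (Localization.AtPrime s)ˣ) : Localization.AtPrime s) *
        algebraMap (nodeSetupNj B M p hp haux.1 hB R hR).B (Localization.AtPrime s) ((nodeSetupNj B M p hp haux.1 hB R hR).constB (p : k0Val B)) := by
    rw [Units.val_one, one_mul, hq]
  have haK : aE ∈ g2wUK (wcyJE B M p hp haux.1 hB R hR (cvcAdj (modularFunctionFieldBar (M * p)) U) (cvc_le_adj (modularFunctionFieldBar (M * p)) U) s) (wcfIsC (nodeSetupNj B M p hp haux.1 hB R hR)) := by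
    rw [haEdef]
    exact wck2_haK B (M * p) (nodeSetupNj B M p hp haux.1 hB R hR) (wppPhi (M * p) (cvcAdj (modularFunctionFieldBar (M * p)) U) (cvc_le_adj (modularFunctionFieldBar (M * p)) U))
      (wcyJE B M p hp haux.1 hB R hR (cvcAdj (modularFunctionFieldBar (M * p)) U) (cvc_le_adj (modularFunctionFieldBar (M * p)) U) s)
      (fun b => wcy_hφj B M p hp haux.1 hB R hR (cvcAdj (modularFunctionFieldBar (M * p)) U) (cvc_le_adj (modularFunctionFieldBar (M * p)) U) s b) a0 hafix haA haiA ha0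
  exact wpbs_call_smooth B (M * p) (cvcAdj (modularFunctionFieldBar (M * p)) U) (cvc_le_adj (modularFunctionFieldBar (M * p)) U) hst (nodeSetupNj B M p hp haux.1 hB R hR).B s p hp hB hfrac
    (nodeSetupNj B M p hp haux.1 hB R hR).redZero h₁ ((nodeSetupNj B M p hp haux.1 hB R hR).constB (p : k0Val B)) εx y hx hxg hεx hm Q.ord hwQ hord0 hws hy0 hwy hxs hyx
    1 hxp ρ hρ hinjR hpR
    (cve0Iota (R := Localization.AtPrime s) (cve0cT (B.inertiaSubgroupIn ℚ) (cvcAdj (modularFunctionFieldBar (M * p)) U) hst)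
      (cve0c_hR (B.inertiaSubgroupIn ℚ) (cvcAdj (modularFunctionFieldBar (M * p)) U) hst (wpb_hRfix B (M * p) (cvcAdj (modularFunctionFieldBar (M * p)) U) (cvc_le_adj (modularFunctionFieldBar (M * p)) U) hst (nodeSetupNj B M p hp haux.1 hB R hR).B s)))
    (fun e => rfl) (cve0Sigma (cve0cT (B.inertiaSubgroupIn ℚ) (cvcAdj (modularFunctionFieldBar (M * p)) U) hst) σY (cve0c_hcomm (B.inertiaSubgroupIn ℚ) (cvcAdj (modularFunctionFieldBar (M * p)) U) hst σY hcomm)) z₀ hz hσpz hσR hdesc (algebraMap Kbar ↥(cvcAdj (modularFunctionFieldBar (M * p)) U) ζ) hζ' cc hc hcong hgen₀ 𝔫 h𝔫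
    ⟨u, dki_mem B (cvcAdj (modularFunctionFieldBar (M * p)) U) hst u huI⟩ hu₀ hgenE (wppPhi (M * p) (cvcAdj (modularFunctionFieldBar (M * p)) U) (cvc_le_adj (modularFunctionFieldBar (M * p)) U))
    (wpp_hphi (M * p) U hp.pos hUmem) (auxLevelPull (M' * p) (M * p) (Nat.mul_dvd_mul_right hdvd p) x) ux hux hE cK
    (wpp_hrelu B (M * p) (cvcAdj (modularFunctionFieldBar (M * p)) U) (cvc_le_adj (modularFunctionFieldBar (M * p)) U) hst p ⟨u, dki_mem B (cvcAdj (modularFunctionFieldBar (M * p)) U) hst u huI⟩ ux hE cK hrelL)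
    (wppIotaA B (M * p) (nodeSetupNj B M p hp haux.1 hB R hR).B s (nodeSetupNj B M p hp haux.1 hB R hR).constB)
    (wpp_hcompatA B (M * p) (cvcAdj (modularFunctionFieldBar (M * p)) U) (cvc_le_adj (modularFunctionFieldBar (M * p)) U) hst (nodeSetupNj B M p hp haux.1 hB R hR).B s (nodeSetupNj B M p hp haux.1 hB R hR).constB (fun a => rfl))
    ((p : ℕ) : k0Val B) (wpp_hpiA B hB) 1 (wpp_hpA B (M * p) (nodeSetupNj B M p hp haux.1 hB R hR).B s (nodeSetupNj B M p hp haux.1 hB R hR).constB p)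
    η aE mθ hη hmθ hπθ hθ0
    (wcyJE B M p hp haux.1 hB R hR (cvcAdj (modularFunctionFieldBar (M * p)) U) (cvc_le_adj (modularFunctionFieldBar (M * p)) U) s) (fun b => rfl) (wcfIsC (nodeSetupNj B M p hp haux.1 hB R hR))
    (wcf_isC_mul (nodeSetupNj B M p hp haux.1 hB R hR)) (fun n hn => wcf_hC_zero (nodeSetupNj B M p hp haux.1 hB R hR) Q n hn) haK
    ae au ah hae hau hah (hrelE ⟨u, dki_mem B (cvcAdj (modularFunctionFieldBar (M * p)) U) hst u huI⟩ rfl)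
    (wcfJ B M p hp haux.1 hB R hR) (wcy_hφj B M p hp haux.1 hB R hR (cvcAdj (modularFunctionFieldBar (M * p)) U) (cvc_le_adj (modularFunctionFieldBar (M * p)) U) s)
    (glmZero M p hp haux.1 R).O (glmZero M p hp haux.1 R).red (wcf_hjO_zero B M p hp haux.1 hB R hR) (wcf_hjred_zero B M p hp haux.1 hB R hR)
    (wcf_hOFinv (glmZero M p hp haux.1 R)) (wcf_hconst (glmZero M p hp haux.1 R) Q)
    π1K θK mθK hπ1F hπ1red hπ1φ hθF hθφ hθF' hmF hmφ u1 hu1 c₁ h2 h20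

end Fermat.Agent.S40lib

end
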