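import Mathlib
import Fermat.Agent.S36lib.Speed
import Fermat.Agent.S40lib.WildPtSplit
import Fermat.Agent.S40lib.WildPtAsmS
import Fermat.Agent.S40lib.WildPtCtx
import Fermat.Agent.S40lib.WindcX2
import Fermat.Agent.S40lib.ZStage3
import Fermat.Agent.S40lib.WildPtHV
import Fermat.Agent.S40lib.WildPtPhi
import Fermat.Agent.S40lib.WildPtE
import Fermat.Agent.S40lib.WindcK3
import Fermat.Agent.S40lib.WindcCoCtx
import Fermat.Agent.S40lib.WindcPtTr28
import Fermat.Agent.S40lib.WindcRedF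
import Fermat.Agent.S40lib.HgenCtx
import Fermat.Agent.S40lib.WindcF
import Fermat.Agent.S40lib.WindcF2
import Fermat.Agent.S40lib.DeckInst
import Fermat.Agent.S40lib.CoverRInst2

/-!
# Item 88 (S44), block (J-WILD), layer B, ordinary places, component `0` (helper3)

`pz3_smzero : S44jPtSmZero M' p hp B hB` (for `p ≠ 2`, `¬ p ∣ M'`), `pz3_smzero5` (for `5 ≤ p`):
`s40j_pt_smooth` at the concrete context of `WildPtCtx`, component `0`
(`r₁ := S.redZero`, `Rc := glmZero M p hp haux.1 R`).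
-/

set_option autoImplicit false
set_option linter.style.haveILetI false
set_option linter.style.longLine false
set_option linter.unusedSectionVars false
set_option linter.unusedVariables false
set_option synthInstance.maxHeartbeats 400000
set_option maxHeartbeats 4000000

noncomputable section

namespace Fermat.Agent.S40lib

open Fermat.Agent.GalRep ModularCurve AlgebraicCurve Fermat.Agent.S31lib Fermat.Agent.S35lib
  Fermat.Agent.S33lib Fermat.Agent.S36lib Fermat.Agent.S24lib Fermat.Agent.S34lib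
  Fermat.Agent.RRlib Fermat.Agent.GoodRed Fermat.Agent.S18lib Fermat.Agent.GM
  Fermat.Agent.HeckeBar HahnSeries IsLocalRing

theorem pz3_smzero (M' p : ℕ) [NeZero M'] [NeZero p] [NeZero (M' * p)]
    (hp : p.Prime) (hp2 : p ≠ 2) (hpM' : ¬ p ∣ M')
    (B : ValuationSubring (AlgebraicClosure ℚ)) (hB : B.LiesOverPrime p) :
    S44jPtSmZero M' p hp B hB := by
  intro S a V hS h2S hcard hVp hstab hEig hNot hnE x hx hx0 hfix t htV ht0 hHx hω
    M e hM0 hMp0 hdvd haux hM hMe hdeg ζ hζ ux ut hux hut U hU σY hσ rt κ u g hκ0 hrt0 hpow hκI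
    hSt hu0 hg0 huI hgI hσu hch n hn R hR hmv Q hQ hnSS0
  letI : RRBase Kbar (modularFunctionFieldBar (M * p)) := (mod_rrHyp (M * p)).toRRBase
  obtain ⟨s, hs, εx, y, h₁, hx', hxg, hεx, hmem, hord0, hws, hys', hy0, hwy, hufd, hxs, hyx, hm,
    hnoeth, hic, hpR, ρ, hρ, hρc, hρz⟩ :=
    wcx_smooth_zero B M p hp haux.1 hB R hR haux Q hQ
      (wcx_hNS_zero B M p hp haux.1 hB R hR Q hQ hnSS0)
  haveI hsp : s.IsPrime := hs.isPrime
  haveI := hufd
  haveI : IsAlgClosed (IsLocalRing.ResidueField B) := isAlgClosed_residueField B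
  haveI : IsNoetherianRing (nodeSetupNj B M p hp haux.1 hB R hR).B :=
    (r1c_noeth_frac B M p hp haux.1 hB R hR
      (fun z h1 h3 => w2j_rgnSum B M p hp haux.1 hB R hR z h1 h3)).1
  have hwQ : ∀ a b : Fk (IsLocalRing.ResidueField B) M, a ≠ 0 → b ≠ 0 →
      Q.ord (a * b) = Q.ord a + Q.ord b := fun a b ha hb => Q.ord_mul ha hb
  have hfrac := (r1c_noeth_frac B M p hp haux.1 hB R hR
      (fun z h1 h3 => w2j_rgnSum B M p hp haux.1 hB R hR z h1 h3)).2
  have hq := wcx_hq_Nj B M p hp haux.1 hB R hR s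
  -- the deck data
  obtain ⟨hσK, hσF, hσU, hσI, hσfix, hσp⟩ := hσ
  have hst : ∀ σ ∈ (B.inertiaSubgroupIn ℚ), ∀ z ∈ (cvcAdj (modularFunctionFieldBar (M * p)) U),
      coeffMap ((σ : Kbar ≃ₐ[ℚ] Kbar) : Kbar →+* Kbar) z ∈ (cvcAdj (modularFunctionFieldBar (M * p)) U) :=
    fun σ hσ' z hz => (hσI σ hσ' ⟨z, hz⟩).1
  have hcomm : ∀ (σ : Kbar ≃ₐ[ℚ] Kbar) (hσ' : σ ∈ (B.inertiaSubgroupIn ℚ)) (z : ↥(cvcAdj (modularFunctionFieldBar (M * p)) U)),
      σY (wlcTau (B.inertiaSubgroupIn ℚ) (cvcAdj (modularFunctionFieldBar (M * p)) U) hst σ hσ' z) = wlcTau (B.inertiaSubgroupIn ℚ) (cvcAdj (modularFunctionFieldBar (M * p)) U) hst σ hσ' (σY z) := by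
    intro σ hσ' z
    obtain ⟨hz, hz', h⟩ := hσI σ hσ' z
    exact h
  -- the instances
  letI iRE := criAlg B (M * p) (cvcAdj (modularFunctionFieldBar (M * p)) U) (cvc_le_adj (modularFunctionFieldBar (M * p)) U) (nodeSetupNj B M p hp haux.1 hB R hR).B s
  letI iRF := wpbAlgF0 B (M * p) (nodeSetupNj B M p hp haux.1 hB R hR).B s
  letI iRE0 := wpbAlgE0 B (M * p) (cvcAdj (modularFunctionFieldBar (M * p)) U) (cvc_le_adj (modularFunctionFieldBar (M * p)) U) hst (nodeSetupNj B M p hp haux.1 hB R hR).B s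
  letI iFE0 := wpbAlgF0E0 B (M * p) (cvcAdj (modularFunctionFieldBar (M * p)) U) (cvc_le_adj (modularFunctionFieldBar (M * p)) U) hst
  letI iKE0 := wpbAlgK0E0 B (M * p) (cvcAdj (modularFunctionFieldBar (M * p)) U) (cvc_le_adj (modularFunctionFieldBar (M * p)) U) hst
  letI iKE := wpbAlgK0E B (cvcAdj (modularFunctionFieldBar (M * p)) U)
  haveI hfr : IsFractionRing (Localization.AtPrime s) ↥(f0Field B (M * p)) :=
    wpb_frac B (M * p) (nodeSetupNj B M p hp haux.1 hB R hR).B s hfrac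
  haveI htw : IsScalarTower (Localization.AtPrime s) ↥(f0Field B (M * p)) ↥(wpbE0 B (cvcAdj (modularFunctionFieldBar (M * p)) U) hst) :=
    wpb_tower B (M * p) (cvcAdj (modularFunctionFieldBar (M * p)) U) (cvc_le_adj (modularFunctionFieldBar (M * p)) U) hst (nodeSetupNj B M p hp haux.1 hB R hR).B s
  haveI ht1 : @IsScalarTower ↥(k0Field B) Kbar ↥(cvcAdj (modularFunctionFieldBar (M * p)) U) Algebra.toSMul Algebra.toSMul
      Algebra.toSMul := wpb_tower_K0_Kbar B (cvcAdj (modularFunctionFieldBar (M * p)) U)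
  haveI ht2 : @IsScalarTower ↥(k0Field B) ↥(wpbE0 B (cvcAdj (modularFunctionFieldBar (M * p)) U) hst) ↥(cvcAdj (modularFunctionFieldBar (M * p)) U) Algebra.toSMul Algebra.toSMul
      Algebra.toSMul := wpb_tower_K0_E0 B (M * p) (cvcAdj (modularFunctionFieldBar (M * p)) U) (cvc_le_adj (modularFunctionFieldBar (M * p)) U) hst
  haveI hAlgQ : Algebra.IsAlgebraic ℚ Kbar := AlgebraicClosure.isAlgebraic ℚ
  haveI hAlg : Algebra.IsAlgebraic (k0Field B) Kbar :=
    Algebra.IsAlgebraic.tower_top (K := ℚ) (k0Field B)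
  -- group (C)
  obtain ⟨z₀, cc, hz, hσp0, hσR, hdesc, hc, hcong, hgen₀⟩ :=
    zsg_ctx M' p hp hp2 hpM' B hB S a V hS h2S hVp hEig hNot hnE t htV hω M hdvd haux hM ζ hζ
      ut hut U hU σY hσK hσF hσU hst hcomm hσfix hσp R hR s hic hpR
  -- the transfer
  suffices hpt : ∃ u1 : FF (M * p), gdfIsKummer (K := Kbar) p (auxLevelPull (M' * p) (M * p) (Nat.mul_dvd_mul_right hdvd p) x) u1 ∧
      ∀ (c' : Kbar) (h2' : algebraMap Kbar (FF (M * p)) c' * u1 ∈ (glmZero M p hp haux.1 R).O),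
        (glmZero M p hp haux.1 R).red ⟨algebraMap Kbar (FF (M * p)) c' * u1, h2'⟩ ≠ 0 →
        (p : ℤ) ∣ Q.ord ((glmZero M p hp haux.1 R).red ⟨algebraMap Kbar (FF (M * p)) c' * u1, h2'⟩) by
    obtain ⟨u1, hk1, hpt1⟩ := hpt
    exact wpt28_transfer0 (glmZero M p hp haux.1 R) hux hk1 Q hpt1
  -- hmove
  obtain ⟨σ₁, hσ₁, hσx, -⟩ := hmv
  have hσ₁I : σ₁ ∈ (B.inertiaSubgroupIn ℚ) := hσ₁.1
  have hσ₁rt : σ₁ rt ≠ rt := fun h => hσx ((hSt σ₁ hσ₁I).2 h)
  have hmove : ∃ τ ∈ S40hI1 p B, τ rt ≠ rt := ⟨σ₁, hσ₁, hσ₁rt⟩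
  -- (E)
  obtain ⟨ε0, aK, η, aE, mθ, π1K, θK, mθK, hε0fix, hafix, hε0A, hε0iA, hε00, haA, haiA, ha0, hηdef,
    haEdef, hη, hmθ, hπθ, hθ0, hπ1m, hθA, hθiA, hmθA, hπ1φ, hθφ, hmφ⟩ :=
    wpe_inst B (E := ↥(cvcAdj (modularFunctionFieldBar (M * p)) U)) (M * p) hp hB κ rt hκ0 hpow hκI n hn hmove
      (IntermediateField.inclusion (cvc_le_adj (modularFunctionFieldBar (M * p)) U))
  obtain ⟨⟨hπ1F, hπ1red⟩, hθF, hθF', hmF⟩ := wpe_red (M * p) (glmZero M p hp haux.1 R) π1K θK mθK hπ1m hθA hθiA hmθA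
  -- (Co)
  obtain ⟨cK, hE, hcK, hhE, hrelE⟩ := hch
  have hSt' : ∀ τ ∈ (B.inertiaSubgroupIn ℚ), τ rt = rt → τ • (auxLevelPull (M' * p) (M * p) (Nat.mul_dvd_mul_right hdvd p) x) = (auxLevelPull (M' * p) (M * p) (Nat.mul_dvd_mul_right hdvd p) x) := by
    intro τ hτ h
    rw [← auxLevelPull_smul, (hSt τ hτ).2 h]
  have hrtp : ∀ τ ∈ (B.inertiaSubgroupIn ℚ), τ (rt ^ p) = rt ^ p := by
    intro τ hτ
    rw [hpow]
    exact hκI τ hτ
  have hp0 : (p : Kbar) ≠ 0 := Nat.cast_ne_zero.mpr hp.ne_zero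
  have ha'0 : ((p : Kbar) ^ n * ε0)⁻¹ ≠ 0 := inv_ne_zero (mul_ne_zero (zpow_ne_zero n hp0) hε00)
  have ha'H : ∀ τ ∈ (B.inertiaSubgroupIn ℚ), τ (((p : Kbar) ^ n * ε0)⁻¹) = ((p : Kbar) ^ n * ε0)⁻¹ := by
    intro τ hτ
    rw [map_inv₀, map_mul, map_zpow₀, map_natCast, hε0fix τ hτ]
  have hbH : ∀ τ ∈ (B.inertiaSubgroupIn ℚ), τ (-1 : Kbar) = -1 := by
    intro τ hτ
    rw [map_neg, map_one]
  have hπ1 : η - 1 = algebraMap Kbar ↥(cvcAdj (modularFunctionFieldBar (M * p)) U) (((p : Kbar) ^ n * ε0)⁻¹ * rt + -1) := by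
    rw [hηdef, map_add, map_neg, map_one, ← sub_eq_add_neg, div_eq_inv_mul]
  obtain ⟨u1, ae, au, ah, hk1, hae, hau, hah, hrel, hu1⟩ :=
    wcy_pkg B M p hp haux.1 hB R hR (cvcAdj (modularFunctionFieldBar (M * p)) U) (cvc_le_adj (modularFunctionFieldBar (M * p)) U) s hζ hux hst hrt0 hrtp hSt' σ₁ hσ₁I
      (hσ₁.2 ζ hζ.pow_eq_one) hσ₁rt (((p : Kbar) ^ n * ε0)⁻¹) (-1) ha'0 ha'H hbH u hE hcK hhE
      hrelE huI (η - 1) hπ1
  refine ⟨u1, hk1, ?_⟩
  intro c' h2' h20'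
  -- the structural inputs
  have hinjR : Function.Injective (algebraMap (Localization.AtPrime s) ↥(wpbE0 B (cvcAdj (modularFunctionFieldBar (M * p)) U) hst)) := by
    rw [IsScalarTower.algebraMap_eq (Localization.AtPrime s) ↥(f0Field B (M * p)) ↥(wpbE0 B (cvcAdj (modularFunctionFieldBar (M * p)) U) hst)]
    exact (algebraMap ↥(f0Field B (M * p)) ↥(wpbE0 B (cvcAdj (modularFunctionFieldBar (M * p)) U) hst)).injective.comp
      (IsFractionRing.injective (Localization.AtPrime s) ↥(f0Field B (M * p)))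
  obtain ⟨𝔫, h𝔫⟩ := Ideal.exists_maximal (Algebra.adjoin (Localization.AtPrime s) ({z₀} : Set ↥(wpbE0 B (cvcAdj (modularFunctionFieldBar (M * p)) U) hst)))
  haveI := h𝔫
  have hdescE := (cri_inputs_Nj B M p hp haux.1 hB R hR (cvcAdj (modularFunctionFieldBar (M * p)) U) (cvc_le_adj (modularFunctionFieldBar (M * p)) U) s hic hst σY hσF hσfix).2.2.1
  have h11 : (1 : ℕ) ∈ Finset.Ico 1 p := Finset.mem_Ico.mpr ⟨le_rfl, hp.one_lt⟩
  have hzne : σY (z₀ : ↥(cvcAdj (modularFunctionFieldBar (M * p)) U)) ≠ (z₀ : ↥(cvcAdj (modularFunctionFieldBar (M * p)) U)) :=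
    hgc_sigma_ne B (M * p) (cvcAdj (modularFunctionFieldBar (M * p)) U) (cvc_le_adj (modularFunctionFieldBar (M * p)) U) hst (nodeSetupNj B M p hp haux.1 hB R hR).B s σY hcomm hfrac hp hpR hζ hdescE z₀ (cc 1)
      (hc 1 h11)
      (by
        have := hcong 1 h11
        simp only [Function.iterate_one, Nat.cast_one, map_one] at this
        exact this)
  have hgenE := wph_hgenE B (M * p) (cvcAdj (modularFunctionFieldBar (M * p)) U) (cvc_le_adj (modularFunctionFieldBar (M * p)) U) hst hp σY hσF hσfix hσp z₀ hzne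
  have hUmem : U ^ p ∈ modularFunctionFieldBar (M * p) := by rw [hU]; exact ut.2
  have hφ : (IntermediateField.inclusion (cvc_le_adj (modularFunctionFieldBar (M * p)) U) : FF (M * p) →ₐ[Kbar] ↥(cvcAdj (modularFunctionFieldBar (M * p)) U)).toRingHom.IsIntegral :=
    wpp_hphi (M * p) U hp.pos hUmem
  have hu₀ne : (⟨u, dki_mem B (cvcAdj (modularFunctionFieldBar (M * p)) U) hst u huI⟩ : ↥(wpbE0 B (cvcAdj (modularFunctionFieldBar (M * p)) U) hst)) ≠ 0 := fun h => hu0 (congrArg Subtype.val h)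
  have hrelu : algebraMap ↥(wpbE0 B (cvcAdj (modularFunctionFieldBar (M * p)) U) hst) ↥(cvcAdj (modularFunctionFieldBar (M * p)) U) (⟨u, dki_mem B (cvcAdj (modularFunctionFieldBar (M * p)) U) hst u huI⟩ : ↥(wpbE0 B (cvcAdj (modularFunctionFieldBar (M * p)) U) hst)) =
      algebraMap Kbar ↥(cvcAdj (modularFunctionFieldBar (M * p)) U) cK * (IntermediateField.inclusion (cvc_le_adj (modularFunctionFieldBar (M * p)) U) : FF (M * p) →ₐ[Kbar] ↥(cvcAdj (modularFunctionFieldBar (M * p)) U)) ux * hE ^ p :=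
    wpp_hrelu B (M * p) (cvcAdj (modularFunctionFieldBar (M * p)) U) (cvc_le_adj (modularFunctionFieldBar (M * p)) U) hst p (⟨u, dki_mem B (cvcAdj (modularFunctionFieldBar (M * p)) U) hst u huI⟩ : ↥(wpbE0 B (cvcAdj (modularFunctionFieldBar (M * p)) U) hst)) ux hE cK hrelE
  have hjeq : wcyJE B M p hp haux.1 hB R hR (cvcAdj (modularFunctionFieldBar (M * p)) U) (cvc_le_adj (modularFunctionFieldBar (M * p)) U) s = criIncl B (M * p) (cvcAdj (modularFunctionFieldBar (M * p)) U) (cvc_le_adj (modularFunctionFieldBar (M * p)) U) (nodeSetupNj B M p hp haux.1 hB R hR).B :=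
    RingHom.ext fun b => cri_hom_algebraMap B (M * p) (cvcAdj (modularFunctionFieldBar (M * p)) U) (cvc_le_adj (modularFunctionFieldBar (M * p)) U) (nodeSetupNj B M p hp haux.1 hB R hR).B s b
  have haK : aE ∈ g2wUK (wcyJE B M p hp haux.1 hB R hR (cvcAdj (modularFunctionFieldBar (M * p)) U) (cvc_le_adj (modularFunctionFieldBar (M * p)) U) s) (wcfIsC (nodeSetupNj B M p hp haux.1 hB R hR)) := by
    rw [haEdef, hjeq]
    exact wck3_haK B (M * p) (cvcAdj (modularFunctionFieldBar (M * p)) U) (cvc_le_adj (modularFunctionFieldBar (M * p)) U) (nodeSetupNj B M p hp haux.1 hB R hR) aK hafix haA haiA ha0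
  exact s40j_pt_smooth (B := ↥(nodeSetupNj B M p hp haux.1 hB R hR).B) (F₀ := ↥(f0Field B (M * p))) (E₀ := ↥(wpbE0 B (cvcAdj (modularFunctionFieldBar (M * p)) U) hst)) (E := ↥(cvcAdj (modularFunctionFieldBar (M * p)) U))
    s B p hp hB (M * p) (nodeSetupNj B M p hp haux.1 hB R hR).redZero h₁ ((nodeSetupNj B M p hp haux.1 hB R hR).constB (p : k0Val B)) εx y hx' hxg hεx hm Q.ord hwQ
    hord0 hws hy0 hwy hxs hyx 1 (by rw [Units.val_one, one_mul, hq])
    ρ hρ hinjR hpR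
    ({ (algebraMap ↥(wpbE0 B (cvcAdj (modularFunctionFieldBar (M * p)) U) hst) ↥(cvcAdj (modularFunctionFieldBar (M * p)) U)) with commutes' := fun r => rfl })
    (fun e => rfl)
    (cve0Sigma (cve0cT (B.inertiaSubgroupIn ℚ) (cvcAdj (modularFunctionFieldBar (M * p)) U) hst) σY (cve0c_hcomm (B.inertiaSubgroupIn ℚ) (cvcAdj (modularFunctionFieldBar (M * p)) U) hst σY hcomm)) z₀ hz hσp0 hσR hdesc
    (hζ.map_of_injective (algebraMap Kbar ↥(cvcAdj (modularFunctionFieldBar (M * p)) U)).injective) cc hc hcong hgen₀ 𝔫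
    (⟨u, dki_mem B (cvcAdj (modularFunctionFieldBar (M * p)) U) hst u huI⟩ : ↥(wpbE0 B (cvcAdj (modularFunctionFieldBar (M * p)) U) hst)) hu₀ne hgenE
    (IntermediateField.inclusion (cvc_le_adj (modularFunctionFieldBar (M * p)) U)) hφ hux hE cK hrelu
    (wppIotaA B (M * p) (nodeSetupNj B M p hp haux.1 hB R hR).B s (nodeSetupNj B M p hp haux.1 hB R hR).constB)
    (wpp_hcompatA B (M * p) (cvcAdj (modularFunctionFieldBar (M * p)) U) (cvc_le_adj (modularFunctionFieldBar (M * p)) U) hst (nodeSetupNj B M p hp haux.1 hB R hR).B s (nodeSetupNj B M p hp haux.1 hB R hR).constB (fun a => rfl))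
    ((p : ℕ) : k0Val B) (wpp_hpiA B hB) 1 (wpp_hpA B (M * p) (nodeSetupNj B M p hp haux.1 hB R hR).B s (nodeSetupNj B M p hp haux.1 hB R hR).constB p)
    η aE mθ hη hmθ hπθ hθ0
    (wcyJE B M p hp haux.1 hB R hR (cvcAdj (modularFunctionFieldBar (M * p)) U) (cvc_le_adj (modularFunctionFieldBar (M * p)) U) s) (wcy_hjE B M p hp haux.1 hB R hR (cvcAdj (modularFunctionFieldBar (M * p)) U) (cvc_le_adj (modularFunctionFieldBar (M * p)) U) s)
    (wcfIsC (nodeSetupNj B M p hp haux.1 hB R hR)) (wck3_hCmul B (M * p) (nodeSetupNj B M p hp haux.1 hB R hR)) (wck3_hC_zero B (M * p) (nodeSetupNj B M p hp haux.1 hB R hR) Q) haK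
    ae au ah hae hau hah (hrel ⟨u, dki_mem B (cvcAdj (modularFunctionFieldBar (M * p)) U) hst u huI⟩ rfl)
    (wcfJ B M p hp haux.1 hB R hR) (wcy_hφj B M p hp haux.1 hB R hR (cvcAdj (modularFunctionFieldBar (M * p)) U) (cvc_le_adj (modularFunctionFieldBar (M * p)) U) s)
    (glmZero M p hp haux.1 R).O (glmZero M p hp haux.1 R).red (wcf_hjO_zero B M p hp haux.1 hB R hR) (wcf_hjred_zero B M p hp haux.1 hB R hR)
    (wrf_hOFinv (glmZero M p hp haux.1 R)) (wrf_hconst (glmZero M p hp haux.1 R) Q)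
    π1K θK mθK hπ1F hπ1red hπ1φ hθF hθφ hθF' hmF hmφ u1 hu1 c' h2' h20'

theorem pz3_smzero5 (M' p : ℕ) [NeZero M'] [NeZero p] [NeZero (M' * p)]
    (hp : p.Prime) (hp5 : 5 ≤ p) (hpM' : ¬ p ∣ M')
    (B : ValuationSubring (AlgebraicClosure ℚ)) (hB : B.LiesOverPrime p) :
    S44jPtSmZero M' p hp B hB :=
  pz3_smzero M' p hp (by omega) hpM' B hB

end Fermat.Agent.S40lib

end
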