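import Mathlib
import Fermat.Agent.S36lib.Speed
import Fermat.Agent.S40lib.WildWind2
import Fermat.Agent.S40lib.LiftMain

/-!
# Item 88 (S44): S44 from the guarded **(TAME-WIND-NC) + (WILD-WIND-NC) + cusp step** (helper10)

The W-side (`w1m6_hW1`, inside `s44g_asm` of helper6) and (LIFT) (`lfm_lift'`, `p ≥ 5`) are
unconditional.  So the statement S44 follows from three statements at squarefree levels `M'`,
with the guard `2 ∈ S`:

* `S44wwdTameNC M' p hp B` : WIND0 off the cusps for the inertia-fixed Kummer function;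
* `S44wwdWildNC M' p hp B` : WIND0 off the cusps for the Kummer function of a class moved by
  the wild inertia, when `p ∣ v(κ)`;
* the cusp step `S40tmwCusp M' p S a k` (helper14/helper23: `ccs_cusp_step`).
-/

set_option autoImplicit false
set_option linter.style.haveILetI false
set_option linter.unusedSectionVars false
set_option linter.unusedVariables false
set_option synthInstance.maxHeartbeats 400000

noncomputable section

namespace Fermat.Agent.S40lib

open Fermat.Agent.GalRep ModularCurve AlgebraicCurve Fermat.Agent.S31lib Fermat.Agent.S35lib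
  Fermat.Agent.S33lib Fermat.Agent.S36lib Fermat.Agent.S24lib Fermat.Agent.S34lib
  Fermat.Agent.RRlib Fermat.Agent.GoodRed Fermat.Agent.S18lib Fermat.Agent.GM
  Fermat.Agent.HeckeBar HahnSeries WeierstrassCurve WeierstrassCurve.Affine
  WeierstrassCurve.Affine.Point

/-- **S44 from the guarded (TAME-WIND-NC), (WILD-WIND-NC) and the cusp step** at squarefree
levels. -/
theorem wwd2_S44
    (hTW : ∀ (p : ℕ) (hp : p.Prime), 5 ≤ p → ∀ (B : ValuationSubring (AlgebraicClosure ℚ)),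
      B.LiesOverPrime p → ∀ (M' : ℕ) [NeZero M'] [NeZero p] [NeZero (M' * p)], ¬ p ∣ M' →
        Squarefree M' → S44wwdTameNC M' p hp B)
    (hWW : ∀ (p : ℕ) (hp : p.Prime), 5 ≤ p → ∀ (B : ValuationSubring (AlgebraicClosure ℚ)),
      B.LiesOverPrime p → ∀ (M' : ℕ) [NeZero M'] [NeZero p] [NeZero (M' * p)], ¬ p ∣ M' →
        Squarefree M' → S44wwdWildNC M' p hp B)
    (hC : ∀ (p : ℕ) (_ : p.Prime), 5 ≤ p → ∀ (B : ValuationSubring (AlgebraicClosure ℚ)),
      B.LiesOverPrime p → ∀ (M' : ℕ) [NeZero M'] [NeZero p] [NeZero (M' * p)], ¬ p ∣ M' →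
        Squarefree M' → ∀ (S : Finset ℕ) (a : ℕ → ℤ),
          (∀ ℓ : ℕ, ℓ.Prime → ℓ ∣ M' * p → ℓ ∈ S) → 2 ∈ S →
          (∃ ℓ : Nat.Primes, (ℓ : ℕ) ∉ S ∧ ¬ (p : ℤ) ∣ a ℓ - (1 + (ℓ : ℕ))) →
          S40tmwCusp M' p S a (IsLocalRing.ResidueField B))
    (P : FreyPackage) {N : ℕ} (hcond : P.IsConductorLevel N)
    (hpN : P.p ∣ N)
    (hirr : GaloisRepIsIrreducible (K := AlgebraicClosure ℚ) ℚ P.freyCurve P.p)
    (hmod : P.ModularRepOfLevel N) :
    ∃ M : ℕ, M ∣ N ∧ ¬ P.p ∣ M ∧ P.ModularRepOfLevel M := by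
  have hp : P.p.Prime := P.pp
  have hp5 : 5 ≤ P.p := P.hp5
  have hp2 : P.p ≠ 2 := by omega
  have hp3 : P.p ≠ 3 := by omega
  haveI : NeZero P.p := ⟨hp.ne_zero⟩
  refine s44g_asm P hcond hpN hirr hmod ?_
  intro B hB M' _ _ hpM' hsq
  have hL : ∀ (S : Finset ℕ) (a : ℕ → ℤ), (∀ ℓ : ℕ, ℓ.Prime → ℓ ∣ M' * P.p → ℓ ∈ S) →
      LfhLift M' P.p S a B := fun S a hS => lfm_lift' M' P.p S a B hp hp5 hpM' hB hS
  exact ⟨wwd2_tame M' P.p hp hp2 (Or.inl hp3) hpM' B hB (hTW P.p hp hp5 B hB M' hpM' hsq)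
      (hC P.p hp hp5 B hB M' hpM' hsq) hL,
    wwd2_wild M' P.p hp hp2 (Or.inl hp3) hpM' B hB (hWW P.p hp hp5 B hB M' hpM' hsq)
      (hC P.p hp hp5 B hB M' hpM' hsq) hL⟩

end Fermat.Agent.S40lib

end
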