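import Mathlib
import Fermat.Agent.S36lib.Speed
import Fermat.Agent.S40lib.WildWind
import Fermat.Agent.S40lib.W1MultDepth
import Fermat.Agent.S40lib.LiftMain

/-!
# Item 88 (S44): S44 from **(TAME-WIND) + (WILD-WIND)** alone (helper10)

The W-side (`w1m6_S44`, helper20 & W1-mult team) and (LIFT) (`lfm_lift'`, helper25 & LIFT team,
`p ≥ 5`) are unconditional.  So the statement S44 follows from the two WIND0 statements:

* `S40tmwWind M' p hp B` (helper14, `TameWind.lean`): WIND0 on both components for the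
  inertia-fixed Kummer function of an inertia-fixed class;
* `S40jWildWind M' p hp B` (`WildWind.lean`): WIND0 on both components for the Kummer function of
  a class moved by the wild inertia, when `p ∣ v(κ)`.

* `wwd_tame_of_wind` : `tmw_tame_of_wind` of helper14 with (LIFT) needed only for the sets `S`
  containing the primes of the level (the shape of `lfm_lift'`);
* `wwd_S44` : S44 from (TAME-WIND) and (WILD-WIND).
-/

set_option autoImplicit false
set_option linter.style.haveILetI false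
set_option linter.unusedSectionVars false
set_option linter.unusedVariables false
set_option synthInstance.maxHeartbeats 400000

noncomputable section

namespace Fermat.Agent.S40lib

open Fermat.Agent.GalRep ModularCurve AlgebraicCurve Fermat.Agent.S31lib Fermat.Agent.S35lib
  Fermat.Agent.S33lib Fermat.Agent.S36lib Fermat.Agent.S24lib Fermat.Agent.S34lib
  Fermat.Agent.RRlib Fermat.Agent.GoodRed Fermat.Agent.S18lib Fermat.Agent.GM
  Fermat.Agent.HeckeBar HahnSeries WeierstrassCurve WeierstrassCurve.Affine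
  WeierstrassCurve.Affine.Point

/-- **(J-TAME) from (TAME-WIND) and (LIFT)**, with (LIFT) only for the sets `S` containing the
primes of the level. -/
theorem wwd_tame_of_wind (M' p : ℕ) [NeZero M'] [NeZero p] [NeZero (M' * p)]
    (hp : p.Prime) (hp2 : p ≠ 2) (h3 : p ≠ 3 ∨ 2 ∣ M') (hpM' : ¬ p ∣ M')
    (B : ValuationSubring (AlgebraicClosure ℚ)) (hB : B.LiesOverPrime p)
    (hW : S40tmwWind M' p hp B)
    (hL : ∀ (S : Finset ℕ) (a : ℕ → ℤ), (∀ ℓ : ℕ, ℓ.Prime → ℓ ∣ M' * p → ℓ ∈ S) →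
      LfhLift M' p S a B) : S40jTame M' p B := by
  haveI : Fact p.Prime := ⟨hp⟩
  intro S a V hS hcard hVp hstab hEig hNot hnE x hx hI
  by_contra hx0
  obtain ⟨D, u, hD, hu0, huF, hDI, hDu⟩ := tmf_kummer (M' * p) p B x (hVp x hx) hI
  obtain ⟨e, hM0, hMp0, hdvd, haux, hM, hdegψ⟩ := tmw_aux_data M' p hp hpM'
  obtain ⟨R, hR⟩ := exists_constRedInf_aux (Nat.lcm M' (baseLevel p)) p hp haux.1 B hB
  obtain ⟨R', hR'⟩ := hkq_exists_red M' p B hp hpM' hB
  obtain ⟨c₁, c₂, h₁, h₂, hord₁, hord₂⟩ :=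
    hW S a V hS hcard hVp hstab hEig hNot hnE x hx hx0 hI D u hD hu0 huF hDI hDu
      (Nat.lcm M' (baseLevel p)) haux hdvd rfl R hR
  have hb4 : baseLevel p = 4 := by
    unfold baseLevel
    rw [if_neg hp2]
  have hdeg := lvb_hdeg_aux (A := B) (M := Nat.lcm M' (baseLevel p)) (by rw [hb4]) hdvd hp hp2
    h3 haux.1 hB
  haveI : RRBase Kbar (FF (Nat.lcm M' (baseLevel p) * p)) :=
    (mod_rrHyp (Nat.lcm M' (baseLevel p) * p)).toRRBase
  have hk := tma_pull_kummer M' p (Nat.lcm M' (baseLevel p)) hdvd D u hu0 hDu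
  have hker := tmw_ker2_of_wind M' (Nat.lcm M' (baseLevel p)) p hp hpM' haux.1 hdvd hB hdeg hR' hR
    S hS a (hL S a hS) hNot (Pic0.mk D) (by rw [hD]; exact hVp x hx)
    (fun ℓ hℓS => by rw [hD]; exact hEig ℓ hℓS x hx) _ hk c₁ c₂ h₁ h₂ hord₁ hord₂
  rw [hD] at hker
  obtain ⟨hα, hβ⟩ := s40h_new_of_notAt M' p hp hpM' S a V hS hVp hEig hNot x hx
  obtain ⟨τ₀, hτ₀, hmv, -⟩ := cysp_exists_moves p hp2 B hB
  exact hx0 (tpp_fixed_descent M' (Nat.lcm M' (baseLevel p)) p e hp hp2 haux hdvd hM hdegψ hB R hR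
    x (hVp x hx) hker hα hβ τ₀ hτ₀ hmv (hI τ₀ hτ₀))

/-- **S44 from (TAME-WIND) and (WILD-WIND)**: level lowering at `p` for a Frey package. -/
theorem wwd_S44
    (hTW : ∀ (p : ℕ) (hp : p.Prime), 5 ≤ p → ∀ (B : ValuationSubring (AlgebraicClosure ℚ)),
      B.LiesOverPrime p → ∀ (M' : ℕ) [NeZero M'] [NeZero p] [NeZero (M' * p)], ¬ p ∣ M' →
        S40tmwWind M' p hp B)
    (hWW : ∀ (p : ℕ) (hp : p.Prime), 5 ≤ p → ∀ (B : ValuationSubring (AlgebraicClosure ℚ)),
      B.LiesOverPrime p → ∀ (M' : ℕ) [NeZero M'] [NeZero p] [NeZero (M' * p)], ¬ p ∣ M' →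
        S40jWildWind M' p hp B)
    (P : FreyPackage) {N : ℕ} (hcond : P.IsConductorLevel N)
    (hpN : P.p ∣ N)
    (hirr : GaloisRepIsIrreducible (K := AlgebraicClosure ℚ) ℚ P.freyCurve P.p)
    (hmod : P.ModularRepOfLevel N) :
    ∃ M : ℕ, M ∣ N ∧ ¬ P.p ∣ M ∧ P.ModularRepOfLevel M := by
  have hp : P.p.Prime := P.pp
  have hp5 : 5 ≤ P.p := P.hp5
  have hp2 : P.p ≠ 2 := by omega
  have hp3 : P.p ≠ 3 := by omega
  haveI : NeZero P.p := ⟨hp.ne_zero⟩
  refine w1m6_S44 P hcond hpN hirr hmod ?_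
  intro B hB M' _ _ hpM'
  have hL : ∀ (S : Finset ℕ) (a : ℕ → ℤ), (∀ ℓ : ℕ, ℓ.Prime → ℓ ∣ M' * P.p → ℓ ∈ S) →
      LfhLift M' P.p S a B := fun S a hS => lfm_lift' M' P.p S a B hp hp5 hpM' hB hS
  exact ⟨wwd_tame_of_wind M' P.p hp hp2 (Or.inl hp3) hpM' B hB (hTW P.p hp hp5 B hB M' hpM') hL,
    wwd_wild_of_wind M' P.p hp hp2 (Or.inl hp3) hpM' B hB (hWW P.p hp hp5 B hB M' hpM') hL⟩

end Fermat.Agent.S40lib

end
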