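/-
Item 88 (S44), block (J-WILD), per-point assembly, piece **`hval` at `L = C_𝔫`** (helper26).
Complete proofs.

`whi_hval_node` / `whi_hval_smooth` : the hypothesis `hval` of `g2w_point_node` /
`g2w_point_smooth` at the CONCRETE node ring of the cover `L = Localization.AtPrime 𝔫`,
`C = R[z₀] ⊂ E₀`, `f = cvpF z₀ 𝔫 : R → L`, `Algebra L E₀ = cvn_alg z₀ 𝔫` (helper2's cover
package `cvp_pkg`), from `wch_hval_node` / `wch_hval_smooth`:
the constants come from `ιR : k0Val A →+* R` compatible with the `K0`-structure of `E₀`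
(`algebraMap R E₀ (ιR a) = algebraMap K0 E₀ a`), and `ιR ϖA = ε x y` (resp. `ε x`) in `R`.
-/
import Mathlib
import Fermat.Agent.S36lib.Speed
import Fermat.Agent.S40lib.WindcHval
import Fermat.Agent.S40lib.CoverPt2

set_option autoImplicit false
set_option linter.unusedSectionVars false
set_option linter.unusedVariables false
set_option linter.style.haveILetI false

noncomputable section

namespace Fermat.Agent.S40lib

open AlgebraicCurve ModularCurve Fermat.Agent.RRlib Fermat.Agent.S33lib Fermat.Agent.S34lib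
  Fermat.Agent.S36lib Fermat.Agent.S24lib

section Inst

variable (A : ValuationSubring Kbar) (p : ℕ) (hp : p.Prime) (hA : A.LiesOverPrime p)
variable (N : ℕ) [NeZero N] [RRBase Kbar (FF N)]
variable {R E₀ E : Type*} [CommRing R] [IsDomain R] [UniqueFactorizationMonoid R]
  [Field E₀] [Algebra R E₀] [Field E]
  [Algebra (k0Field A) E₀] [Algebra Kbar E] [Algebra E₀ E] [Algebra (k0Field A) E]
  [@IsScalarTower (k0Field A) Kbar E Algebra.toSMul Algebra.toSMul Algebra.toSMul]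
  [@IsScalarTower (k0Field A) E₀ E Algebra.toSMul Algebra.toSMul Algebra.toSMul]
  [CharZero (k0Field A)] [Algebra.IsAlgebraic (k0Field A) Kbar]

include hp hA in
/-- the constants of `A0` in `L = C_𝔫` are compatible with the `K0`-structure of `E₀` -/
theorem whi_hcompat (z₀ : E₀) (𝔫 : Ideal (Algebra.adjoin R ({z₀} : Set E₀))) [h𝔫 : 𝔫.IsPrime]
    (ιR : k0Val A →+* R)
    (hcompatR : ∀ a : k0Val A,
      algebraMap R E₀ (ιR a) = algebraMap (k0Field A) E₀ (a : k0Field A)) (a : k0Val A) :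
    letI : Algebra (Localization.AtPrime 𝔫) E₀ := cvn_alg z₀ 𝔫
    algebraMap (Localization.AtPrime 𝔫) E₀ (((cvpF z₀ 𝔫).comp ιR) a) =
      algebraMap (k0Field A) E₀ (a : k0Field A) := by
  letI : Algebra (Localization.AtPrime 𝔫) E₀ := cvn_alg z₀ 𝔫
  rw [← hcompatR a]
  exact cvn_alg_apply z₀ 𝔫 (algebraMap R (Algebra.adjoin R ({z₀} : Set E₀)) (ιR a))

include hp hA in
/-- **`hval` at a node of the cover**, at `L = C_𝔫`. -/
theorem whi_hval_node (z₀ : E₀) (𝔫 : Ideal (Algebra.adjoin R ({z₀} : Set E₀)))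
    [h𝔫 : 𝔫.IsPrime]
    (hdom : IsDomain (Localization.AtPrime 𝔫))
    (hufm : UniqueFactorizationMonoid (Localization.AtPrime 𝔫))
    (hfrac : @IsFractionRing (Localization.AtPrime 𝔫) _ E₀ _ (cvn_alg z₀ 𝔫))
    (hgen : Algebra.adjoin E₀ (Set.range (algebraMap Kbar E)) = ⊤)
    (φ : FF N →ₐ[Kbar] E) (hφ : φ.toRingHom.IsIntegral)
    {x₀ : JZero N} {ux : FF N} (hux : gdfIsKummer (K := Kbar) p x₀ ux)
    (u : E₀) (h : E) (c : Kbar)
    (hrel : algebraMap E₀ E u = algebraMap Kbar E c * φ ux * h ^ p)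
    (x y : R) (hxL : Prime (cvpF z₀ 𝔫 x)) (hyL : Prime (cvpF z₀ 𝔫 y))
    (ιR : k0Val A →+* R)
    (hcompatR : ∀ a : k0Val A,
      algebraMap R E₀ (ιR a) = algebraMap (k0Field A) E₀ (a : k0Field A))
    (ϖA : k0Val A) (hϖA : ((ϖA : k0Field A) : Kbar) ∈ A.nonunits)
    (ε : Rˣ) (hϖ : ιR ϖA = ε * x * y) :
    letI : Algebra (Localization.AtPrime 𝔫) E₀ := cvn_alg z₀ 𝔫
    ∀ π : Localization.AtPrime 𝔫, Prime π → ¬ Associated π (cvpF z₀ 𝔫 x) →
      ¬ Associated π (cvpF z₀ 𝔫 y) →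
      ∃ v : E₀ → ℤ, (∀ a b : E₀, a ≠ 0 → b ≠ 0 → v (a * b) = v a + v b) ∧
        v (algebraMap (Localization.AtPrime 𝔫) E₀ π) = 1 ∧
        (∀ c : Localization.AtPrime 𝔫, c ≠ 0 → ¬ π ∣ c →
          v (algebraMap (Localization.AtPrime 𝔫) E₀ c) = 0) ∧ (p : ℤ) ∣ v u := by
  letI : Algebra (Localization.AtPrime 𝔫) E₀ := cvn_alg z₀ 𝔫
  haveI := hdom
  haveI := hufm
  haveI := hfrac
  obtain ⟨ε', hε'⟩ := cvp_pi_two z₀ 𝔫 x y (ιR ϖA) ε hϖ
  exact wch_hval_node A p hp hA N hgen φ hφ hux u h c hrel (cvpF z₀ 𝔫 x) (cvpF z₀ 𝔫 y) hxL hyL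
    (cvpF z₀ 𝔫 (ιR ϖA)) ε' hε' ((cvpF z₀ 𝔫).comp ιR)
    (whi_hcompat A p hp hA z₀ 𝔫 ιR hcompatR) ϖA hϖA 1
    (by rw [Units.val_one, one_mul]; rfl)

include hp hA in
/-- **`hval` at a smooth point of the cover**, at `L = C_𝔫`. -/
theorem whi_hval_smooth (z₀ : E₀) (𝔫 : Ideal (Algebra.adjoin R ({z₀} : Set E₀)))
    [h𝔫 : 𝔫.IsPrime]
    (hdom : IsDomain (Localization.AtPrime 𝔫))
    (hufm : UniqueFactorizationMonoid (Localization.AtPrime 𝔫))
    (hfrac : @IsFractionRing (Localization.AtPrime 𝔫) _ E₀ _ (cvn_alg z₀ 𝔫))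
    (hgen : Algebra.adjoin E₀ (Set.range (algebraMap Kbar E)) = ⊤)
    (φ : FF N →ₐ[Kbar] E) (hφ : φ.toRingHom.IsIntegral)
    {x₀ : JZero N} {ux : FF N} (hux : gdfIsKummer (K := Kbar) p x₀ ux)
    (u : E₀) (h : E) (c : Kbar)
    (hrel : algebraMap E₀ E u = algebraMap Kbar E c * φ ux * h ^ p)
    (x : R) (hxL : Prime (cvpF z₀ 𝔫 x))
    (ιR : k0Val A →+* R)
    (hcompatR : ∀ a : k0Val A,
      algebraMap R E₀ (ιR a) = algebraMap (k0Field A) E₀ (a : k0Field A))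
    (ϖA : k0Val A) (hϖA : ((ϖA : k0Field A) : Kbar) ∈ A.nonunits)
    (ε : Rˣ) (hϖ : ιR ϖA = ε * x) :
    letI : Algebra (Localization.AtPrime 𝔫) E₀ := cvn_alg z₀ 𝔫
    ∀ π : Localization.AtPrime 𝔫, Prime π → ¬ Associated π (cvpF z₀ 𝔫 x) →
      ∃ v : E₀ → ℤ, (∀ a b : E₀, a ≠ 0 → b ≠ 0 → v (a * b) = v a + v b) ∧
        v (algebraMap (Localization.AtPrime 𝔫) E₀ π) = 1 ∧
        (∀ c : Localization.AtPrime 𝔫, c ≠ 0 → ¬ π ∣ c →
          v (algebraMap (Localization.AtPrime 𝔫) E₀ c) = 0) ∧ (p : ℤ) ∣ v u := by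
  letI : Algebra (Localization.AtPrime 𝔫) E₀ := cvn_alg z₀ 𝔫
  haveI := hdom
  haveI := hufm
  haveI := hfrac
  obtain ⟨ε', hε'⟩ := cvp_pi_one z₀ 𝔫 x (ιR ϖA) ε hϖ
  exact wch_hval_smooth A p hp hA N hgen φ hφ hux u h c hrel (cvpF z₀ 𝔫 x) hxL
    (cvpF z₀ 𝔫 (ιR ϖA)) ε' hε' ((cvpF z₀ 𝔫).comp ιR)
    (whi_hcompat A p hp hA z₀ 𝔫 ιR hcompatR) ϖA hϖA 1
    (by rw [Units.val_one, one_mul]; rfl)

end Inst

end Fermat.Agent.S40lib

end
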