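import Mathlib
import Fermat.Agent.S36lib.Speed
import Fermat.Agent.S40lib.WindcCo
import Fermat.Agent.S40lib.InertiaFF
import Fermat.Agent.S36lib.RangeN
import Fermat.Agent.S36lib.Reg3Lq

/-!
# Item 88 (S40/S44), block (J-WILD), (G-INT), concrete ring `𝒪` (helper23)

`𝒪 = wcoO := cuspRegular ⊓ O_∞ ⊓ w_q⁻¹ O_∞ ⊂ FF (M' q)` (regular off the cusps, integral on both
components).

* `wco_mem_O_iff`   : unfolding;
* `wco_B_le_O`      : `S.B ⊂ 𝒪` (`S = nodeSetupNj`);
* `wco_fixed_mem_B` : **the inertia-fixed elements of `𝒪` are the elements of `S.B`**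
                      (= `hB` of `gia_integral`, helper1);
* `wco_cuspRegular_smul` : `cuspRegular` is stable under the arithmetic Galois action;
* `wco_O_stable`    : **`𝒪` is stable under the inertia group** (`itfHom`, helper16).
-/

set_option autoImplicit false
set_option linter.unusedVariables false
set_option linter.unusedSectionVars false
set_option linter.style.haveILetI false
set_option synthInstance.maxHeartbeats 400000

noncomputable section

namespace Fermat.Agent.S40lib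

open Fermat.Agent.S36lib IsLocalRing ModularCurve AlgebraicCurve Fermat.Agent.S24lib
  Fermat.Agent.S34lib Fermat.Agent.GM Fermat.Agent.GoodRed Fermat.Agent.S35lib

section Gal

/-- `cuspRegular` is stable under the arithmetic Galois action -/
theorem wco_cuspRegular_smul (N : ℕ) [NeZero N] (σ : Kbar ≃ₐ[ℚ] Kbar) (z : FF N)
    (hz : z ∈ cuspRegular N) : galFF N σ • z ∈ cuspRegular N := by
  rw [mem_cuspRegular_iff] at hz ⊢
  intro P hP
  have hjσ : galFF N σ • jF N = jF N := by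
    rw [lq_jF_eq N]
    exact inred_smul_jdF N σ 1 (one_dvd N)
  have hj : jF N ∈ ((galFF N σ)⁻¹ • P).toValuationSubring := by
    rw [SemilinearAut.smul_toValuationSubring,
      ValuationSubring.mem_pointwise_smul_iff_inv_smul_mem, inv_inv, hjσ]
    exact hP
  have h := hz _ hj
  rw [SemilinearAut.smul_toValuationSubring,
    ValuationSubring.mem_pointwise_smul_iff_inv_smul_mem, inv_inv] at h
  exact h

end Gal

section O

variable (A : ValuationSubring Kbar) (M' q : ℕ) [NeZero M'] [NeZero q] (hq : q.Prime)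
  (hqM : ¬ q ∣ M') (hA : A.LiesOverPrime q)
  (R : ConstRed A (IsLocalRing.residue A)
    (↥(modularFunctionFieldFullC (IsLocalRing.ResidueField A) M')) (FF (M' * q)))
  (hR : IsSeriesRed R)

/-- the ring `𝒪`: regular off the cusps, integral on both components -/
def wcoO : Subring (FF (M' * q)) :=
  cuspRegular (M' * q) ⊓ R.O.toSubring ⊓
    R.O.toSubring.comap
      ((alW1 M' hq hqM : FF (M' * q) ≃ₐ[Kbar] FF (M' * q)) : FF (M' * q) →+* FF (M' * q))

theorem wco_mem_O_iff (z : FF (M' * q)) :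
    z ∈ wcoO A M' q hq hqM R ↔
      z ∈ cuspRegular (M' * q) ∧ z ∈ R.O ∧ alW1 M' hq hqM z ∈ R.O := by
  simp only [wcoO, Subring.mem_inf, Subring.mem_comap]
  constructor
  · rintro ⟨⟨h1, h2⟩, h3⟩
    exact ⟨h1, h2, h3⟩
  · rintro ⟨h1, h2, h3⟩
    exact ⟨⟨h1, h2⟩, h3⟩

/-- `S.B ⊂ 𝒪` -/
theorem wco_B_le_O (b : (nodeSetupNj A M' q hq hqM hA R hR).B) :
    ((b : f0Field A (M' * q)) : FF (M' * q)) ∈ wcoO A M' q hq hqM R :=
  (wco_mem_O_iff A M' q hq hqM R _).2 ((rgn_mem_B A M' q hq hqM hA R hR b).1 b.2)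

/-- **the inertia-fixed elements of `𝒪` are the elements of `S.B`** -/
theorem wco_fixed_mem_B (z : FF (M' * q)) (hz : z ∈ wcoO A M' q hq hqM R)
    (hfix : IsIFixed (M' * q) A z) :
    ∃ b : (nodeSetupNj A M' q hq hqM hA R hR).B,
      ((b : f0Field A (M' * q)) : FF (M' * q)) = z := by
  have hmem : z ∈ f0Field A (M' * q) := (mem_f0Field_iff_isIFixed A (M' * q) z).2 hfix
  exact ⟨⟨⟨z, hmem⟩, (rgn_mem_B A M' q hq hqM hA R hR ⟨z, hmem⟩).2
    ((wco_mem_O_iff A M' q hq hqM R z).1 hz)⟩, rfl⟩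

/-- the same with coefficientwise fixedness -/
theorem wco_fixed_mem_B' (z : FF (M' * q)) (hz : z ∈ wcoO A M' q hq hqM R)
    (hfix : ∀ σ ∈ A.inertiaSubgroupIn ℚ,
      coeffMap ((σ : Kbar ≃ₐ[ℚ] Kbar) : Kbar →+* Kbar) (z : LaurentSeries Kbar) =
        (z : LaurentSeries Kbar)) :
    ∃ b : (nodeSetupNj A M' q hq hqM hA R hR).B,
      ((b : f0Field A (M' * q)) : FF (M' * q)) = z :=
  wco_fixed_mem_B A M' q hq hqM hA R hR z hz (wco_isIFixed (M' * q) A z hfix)

include hA hR in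
/-- **`𝒪` is stable under the inertia group** -/
theorem wco_O_stable (σ : Kbar ≃ₐ[ℚ] Kbar) (hσ : σ ∈ A.inertiaSubgroupIn ℚ)
    (z : FF (M' * q)) (hz : z ∈ wcoO A M' q hq hqM R) :
    itfHom (M' * q) σ z ∈ wcoO A M' q hq hqM R := by
  obtain ⟨h1, h2, h3⟩ := (wco_mem_O_iff A M' q hq hqM R z).1 hz
  refine (wco_mem_O_iff A M' q hq hqM R _).2 ⟨?_, ?_, ?_⟩
  · exact wco_cuspRegular_smul (M' * q) σ z h1
  · exact itf_mem hq hA hR σ hσ z h2
  · have hc : alW1 M' hq hqM (itfHom (M' * q) σ z) = itfHom (M' * q) σ (alW1 M' hq hqM z) :=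
      inred_al_comm (M' * q) q hq (dvd_mul_left q M') (dgj_not_sq_dvd_mul_self hq hqM) σ z
    rw [hc]
    exact itf_mem hq hA hR σ hσ _ h3

end O

end Fermat.Agent.S40lib

end
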